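import Mathlib
import Fermat.Prelude.Def_FLTPrelim_Ramification
import Fermat.Prelude.Def_ModularCurve_ReductionModL
import Fermat.Statements.S24
import Fermat.Prelude.Def_ModularCurve_X0
import Fermat.Prelude.Def_ModularCurve_LaurentCoeff
import Mathlib.NumberTheory.ModularForms.LevelOne.GradedRing
import Mathlib.Analysis.Complex.LocallyUniformLimit
import Mathlib.Analysis.Complex.TaylorSeries
import Mathlib.Analysis.Calculus.Deriv.Polynomial
import Mathlib.RingTheory.PowerSeries.PiTopology
import Fermat.Prelude.Def_AlgebraicCurve_Correspondence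
import Mathlib.NumberTheory.ModularForms.CongruenceSubgroups
import Mathlib.LinearAlgebra.Matrix.SpecialLinearGroup
import Mathlib.GroupTheory.GroupAction.Quotient
import Mathlib.Data.ZMod.Basic
import Fermat.Prelude.Def_ModularCurve_GenusNumerics
import Fermat.Prelude.Def_EllipticCurve_FrobeniusTrace
import Fermat.Agent.Pack.Fast891

-- ===== PACK-BEGIN A2/H708/Tame.lean
section



/-!
# A2 (helper708): the tame character of an inertia group

`L/K` an algebraic field extension, `A` a valuation subring of `L`,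
`τ ∈ A.inertiaSubgroupIn K` (Prelude definition).  For `c ∈ Lˣ` the quotient `τ c / c` is a
unit of `A`; its residue class `tameHom A hτ c ∈ kˣ` (`k` the residue field of `A`)

* is multiplicative in `c` (it is a monoid hom `Lˣ →* kˣ`),
* is trivial on units of `A` (`tameHom_eq_one_of_valuation_eq_one`), hence depends only on the
  valuation of `c` (`tameHom_eq_of_valuation_eq`),
* is trivial on `K` (`tameHom_algebraMap`),
* is multiplicative in `τ` (`tameHom_mul`),
* takes values in roots of unity: `c ^ n ∈ Kˣ · Aˣ → tame(c) ^ n = 1` (`tameHom_pow_eq_one`),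
* `tameHom A hτ c = 1 ↔ v (τ c - c) < v c` (`tameHom_eq_one_iff`).

Also: elementwise facts on decomposition / inertia groups for arbitrary `L/K`
(`apply_mem_iff_of_mem_decomposition`, `valuation_apply_of_mem_decomposition` (algebraic case),
`sub_mem_nonunits_of_mem_inertiaIn`).
-/

set_option autoImplicit false

open scoped Pointwise

namespace Fermat.Agent.A2.H708

variable {K L : Type*} [Field K] [Field L] [Algebra K L] (A : ValuationSubring L)

/-- Elements of the inertia group (Prelude form) lie in the decomposition group. -/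
theorem mem_decomposition_of_mem_inertiaIn {τ : L ≃ₐ[K] L} (hτ : τ ∈ A.inertiaSubgroupIn K) :
    τ ∈ A.decompositionSubgroup K := by
  obtain ⟨g, -, rfl⟩ := hτ
  exact g.2

/-- Elements of the decomposition group preserve `A`. -/
theorem apply_mem_of_mem_decomposition {τ : L ≃ₐ[K] L} (hτ : τ ∈ A.decompositionSubgroup K)
    {x : L} (hx : x ∈ A) : τ x ∈ A := by
  have h : τ • A = A := MulAction.mem_stabilizer_iff.mp hτ
  have h1 : τ • x ∈ τ • A := ValuationSubring.smul_mem_pointwise_smul τ x A hx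
  rw [h] at h1
  exact h1

/-- Elements of the decomposition group reflect `A`. -/
theorem mem_of_apply_mem_of_mem_decomposition {τ : L ≃ₐ[K] L}
    (hτ : τ ∈ A.decompositionSubgroup K) {x : L} (hx : τ x ∈ A) : x ∈ A := by
  have hinv : τ⁻¹ ∈ A.decompositionSubgroup K := inv_mem hτ
  have := apply_mem_of_mem_decomposition A hinv hx
  have h2 : τ⁻¹ (τ x) = x := by
    show (τ⁻¹ * τ) x = x
    rw [inv_mul_cancel]; rfl
  rwa [h2] at this

theorem apply_mem_iff_of_mem_decomposition {τ : L ≃ₐ[K] L}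
    (hτ : τ ∈ A.decompositionSubgroup K) {x : L} : τ x ∈ A ↔ x ∈ A :=
  ⟨mem_of_apply_mem_of_mem_decomposition A hτ, apply_mem_of_mem_decomposition A hτ⟩

/-- Elements of the decomposition group preserve the order of valuations. -/
theorem valuation_apply_le_iff_of_mem_decomposition {τ : L ≃ₐ[K] L}
    (hτ : τ ∈ A.decompositionSubgroup K) (x y : L) :
    A.valuation (τ x) ≤ A.valuation (τ y) ↔ A.valuation x ≤ A.valuation y := by
  rcases eq_or_ne y 0 with rfl | hy
  · simp
  have hτy : τ y ≠ 0 := by simpa using hy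
  have h1 : A.valuation x ≤ A.valuation y ↔ x / y ∈ A := by
    rw [← A.valuation_le_one_iff, map_div₀,
      div_le_one₀ (pos_iff_ne_zero.mpr ((Valuation.ne_zero_iff _).mpr hy))]
  have h2 : A.valuation (τ x) ≤ A.valuation (τ y) ↔ τ x / τ y ∈ A := by
    rw [← A.valuation_le_one_iff, map_div₀,
      div_le_one₀ (pos_iff_ne_zero.mpr ((Valuation.ne_zero_iff _).mpr hτy))]
  rw [h1, h2, ← map_div₀]
  exact apply_mem_iff_of_mem_decomposition A hτ

theorem valuation_apply_lt_iff_of_mem_decomposition {τ : L ≃ₐ[K] L}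
    (hτ : τ ∈ A.decompositionSubgroup K) (x y : L) :
    A.valuation (τ x) < A.valuation (τ y) ↔ A.valuation x < A.valuation y := by
  rw [← not_le, ← not_le, valuation_apply_le_iff_of_mem_decomposition A hτ]

/-- In an algebraic extension every element is fixed by a positive power of any automorphism. -/
theorem exists_pow_apply_eq [Algebra.IsAlgebraic K L] (τ : L ≃ₐ[K] L) (x : L) :
    ∃ n : ℕ, 0 < n ∧ (τ ^ n) x = x := by
  have hfin : ((minpoly K x).rootSet L).Finite := Polynomial.rootSet_finite _ _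
  have hmem : ∀ n : ℕ, (τ ^ n) x ∈ (minpoly K x).rootSet L := by
    intro n
    rw [Polynomial.mem_rootSet]
    refine ⟨minpoly.ne_zero (Algebra.IsIntegral.isIntegral x), ?_⟩
    have := Polynomial.aeval_algHom_apply ((τ ^ n : L ≃ₐ[K] L) : L →ₐ[K] L) x (minpoly K x)
    rw [minpoly.aeval, map_zero] at this
    exact this
  obtain ⟨a, b, hab, h⟩ := hfin.exists_lt_map_eq_of_forall_mem hmem
  refine ⟨b - a, Nat.sub_pos_of_lt hab, ?_⟩
  have hb : b = (b - a) + a := by omega
  have h3 : (τ ^ a) ((τ ^ (b - a)) x) = (τ ^ a) x := by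
    have : (τ ^ b) x = (τ ^ a) ((τ ^ (b - a)) x) := by
      conv_lhs => rw [hb, add_comm, pow_add]
      rfl
    rw [← this, ← h]
  exact (τ ^ a).injective h3

/-- Elements of the decomposition group preserve the valuation (algebraic extensions). -/
theorem valuation_apply_of_mem_decomposition [Algebra.IsAlgebraic K L] {τ : L ≃ₐ[K] L}
    (hτ : τ ∈ A.decompositionSubgroup K) (x : L) :
    A.valuation (τ x) = A.valuation x := by
  obtain ⟨n, hn, hx⟩ := exists_pow_apply_eq τ x
  have hstep : ∀ k : ℕ, (τ ^ (k + 1)) x = τ ((τ ^ k) x) := by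
    intro k
    rw [pow_succ']
    rfl
  rcases lt_trichotomy (A.valuation (τ x)) (A.valuation x) with h | h | h
  · exfalso
    have hk : ∀ k : ℕ, A.valuation ((τ ^ (k + 1)) x) < A.valuation x := by
      intro k
      induction k with
      | zero => simpa using h
      | succ k ih =>
        rw [hstep]
        refine lt_trans ?_ h
        exact (valuation_apply_lt_iff_of_mem_decomposition A hτ _ _).mpr ih
    have := hk (n - 1)
    rw [Nat.sub_add_cancel hn, hx] at this
    exact lt_irrefl _ this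
  · exact h
  · exfalso
    have hk : ∀ k : ℕ, A.valuation x < A.valuation ((τ ^ (k + 1)) x) := by
      intro k
      induction k with
      | zero => simpa using h
      | succ k ih =>
        rw [hstep (k + 1)]
        refine lt_trans h ?_
        exact (valuation_apply_lt_iff_of_mem_decomposition A hτ _ _).mpr ih
    have := hk (n - 1)
    rw [Nat.sub_add_cancel hn, hx] at this
    exact lt_irrefl _ this

/-- Elements of the inertia group move elements of `A` by nonunits. -/
theorem sub_mem_nonunits_of_mem_inertiaIn {τ : L ≃ₐ[K] L} (hτ : τ ∈ A.inertiaSubgroupIn K)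
    {a : L} (ha : a ∈ A) : τ a - a ∈ A.nonunits := by
  obtain ⟨ι', hι', rfl⟩ := hτ
  have h1 : ι' • IsLocalRing.residue A ⟨a, ha⟩ = IsLocalRing.residue A ⟨a, ha⟩ := by
    have := congrArg (fun f => f (IsLocalRing.residue A ⟨a, ha⟩)) (MonoidHom.mem_ker.mp hι')
    simpa using this
  rw [← IsLocalRing.ResidueField.residue_smul, ← sub_eq_zero, ← map_sub,
    IsLocalRing.residue_eq_zero_iff, ← ValuationSubring.coe_mem_nonunits_iff] at h1
  exact h1

theorem valuation_sub_lt_one_of_mem_inertiaIn {τ : L ≃ₐ[K] L} (hτ : τ ∈ A.inertiaSubgroupIn K)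
    {a : L} (ha : A.valuation a ≤ 1) : A.valuation (τ a - a) < 1 :=
  A.mem_nonunits_iff.mp
    (sub_mem_nonunits_of_mem_inertiaIn A hτ ((A.valuation_le_one_iff a).mp ha))

/-- Inertia moves every element by something of strictly smaller valuation... up to the
valuation of the element: `v (τ a - a) < v a` for units `a` of `A`. -/
theorem valuation_sub_lt_of_mem_inertiaIn_of_unit {τ : L ≃ₐ[K] L}
    (hτ : τ ∈ A.inertiaSubgroupIn K) {a : L} (ha : A.valuation a = 1) :
    A.valuation (τ a - a) < A.valuation a := by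
  rw [ha]
  exact valuation_sub_lt_one_of_mem_inertiaIn A hτ ha.le

section tame

variable [Algebra.IsAlgebraic K L]

/-- `τ c / c` is a unit of `A` for `τ` in the decomposition group. -/
theorem valuation_apply_div_self {τ : L ≃ₐ[K] L} (hτ : τ ∈ A.decompositionSubgroup K)
    {c : L} (hc : c ≠ 0) : A.valuation (τ c / c) = 1 := by
  rw [map_div₀, valuation_apply_of_mem_decomposition A hτ,
    div_self ((Valuation.ne_zero_iff _).mpr hc)]

/-- The raw symbol `c ↦ τ c / c` as a monoid hom `Lˣ →* A.unitGroup`. -/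
noncomputable def ratioHom {τ : L ≃ₐ[K] L} (hτ : τ ∈ A.decompositionSubgroup K) : Lˣ →* A.unitGroup where
  toFun c := ⟨Units.map (τ : L →* L) c / c, by
    rw [ValuationSubring.mem_unitGroup_iff]
    simpa using valuation_apply_div_self A hτ c.ne_zero⟩
  map_one' := by
    apply Subtype.ext
    simp
  map_mul' c d := by
    apply Subtype.ext
    simp only [map_mul, Subgroup.coe_mul]
    rw [mul_div_mul_comm]

@[simp]
theorem coe_ratioHom {τ : L ≃ₐ[K] L} (hτ : τ ∈ A.decompositionSubgroup K) (c : Lˣ) :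
    (((ratioHom A hτ c : A.unitGroup) : Lˣ) : L) = τ c / c := by
  simp [ratioHom]

/-- **The tame character** `Lˣ →* kˣ`, `c ↦ (τ c / c mod 𝔪_A)`, of an element `τ` of the
inertia group. -/
noncomputable def tameHom {τ : L ≃ₐ[K] L} (hτ : τ ∈ A.inertiaSubgroupIn K) :
    Lˣ →* (IsLocalRing.ResidueField A)ˣ :=
  A.unitGroupToResidueFieldUnits.comp (ratioHom A (mem_decomposition_of_mem_inertiaIn A hτ))

/-- `tameHom c = 1 ↔ v (τ c - c) < v c`. -/
theorem tameHom_eq_one_iff {τ : L ≃ₐ[K] L} (hτ : τ ∈ A.inertiaSubgroupIn K) (c : Lˣ) :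
    tameHom A hτ c = 1 ↔ A.valuation (τ c - c) < A.valuation (c : L) := by
  have hc0 : A.valuation (c : L) ≠ 0 := (Valuation.ne_zero_iff _).mpr c.ne_zero
  have h1 : tameHom A hτ c = 1 ↔
      ratioHom A (mem_decomposition_of_mem_inertiaIn A hτ) c ∈
        A.unitGroupToResidueFieldUnits.ker := by
    rw [MonoidHom.mem_ker]; rfl
  rw [h1, ker_unitGroupToResidueFieldUnits, Subgroup.mem_comap, Subgroup.coe_subtype,
    ValuationSubring.mem_principalUnitGroup_iff, coe_ratioHom]
  have h2 : τ c / c - 1 = (τ c - c) / c := by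
    field_simp
  rw [h2, map_div₀, div_lt_one₀ (pos_iff_ne_zero.mpr hc0)]
where
  ker_unitGroupToResidueFieldUnits := A.ker_unitGroupToResidueFieldUnits

/-- The tame character is trivial on units of `A`. -/
theorem tameHom_eq_one_of_valuation_eq_one {τ : L ≃ₐ[K] L} (hτ : τ ∈ A.inertiaSubgroupIn K)
    (c : Lˣ) (hc : A.valuation (c : L) = 1) : tameHom A hτ c = 1 :=
  (tameHom_eq_one_iff A hτ c).mpr (valuation_sub_lt_of_mem_inertiaIn_of_unit A hτ hc)

/-- The tame character depends only on the valuation. -/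
theorem tameHom_eq_of_valuation_eq {τ : L ≃ₐ[K] L} (hτ : τ ∈ A.inertiaSubgroupIn K)
    (c d : Lˣ) (h : A.valuation (c : L) = A.valuation (d : L)) :
    tameHom A hτ c = tameHom A hτ d := by
  have h1 : tameHom A hτ (c / d) = 1 := by
    apply tameHom_eq_one_of_valuation_eq_one
    rw [Units.val_div_eq_div_val, map_div₀, h,
      div_self ((Valuation.ne_zero_iff _).mpr d.ne_zero)]
  rw [map_div, div_eq_one] at h1
  exact h1

/-- The tame character is trivial on the base field. -/
theorem tameHom_algebraMap {τ : L ≃ₐ[K] L} (hτ : τ ∈ A.inertiaSubgroupIn K)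
    (c : Lˣ) (a : K) (hc : (c : L) = algebraMap K L a) : tameHom A hτ c = 1 := by
  rw [tameHom_eq_one_iff, hc, AlgEquiv.commutes, sub_self, map_zero, ← hc]
  exact pos_iff_ne_zero.mpr ((Valuation.ne_zero_iff _).mpr c.ne_zero)

/-- More generally the tame character is trivial on elements fixed by `τ`. -/
theorem tameHom_eq_one_of_fixed {τ : L ≃ₐ[K] L} (hτ : τ ∈ A.inertiaSubgroupIn K)
    (c : Lˣ) (hc : τ c = c) : tameHom A hτ c = 1 := by
  rw [tameHom_eq_one_iff, hc, sub_self, map_zero]
  exact pos_iff_ne_zero.mpr ((Valuation.ne_zero_iff _).mpr c.ne_zero)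

/-- Values of the tame character are roots of unity: if `c ^ n = a * u` with `a ∈ K` and `u` a
unit of `A`, then `tame(c) ^ n = 1`. -/
theorem tameHom_pow_eq_one {τ : L ≃ₐ[K] L} (hτ : τ ∈ A.inertiaSubgroupIn K)
    (c : Lˣ) (n : ℕ) (a : K) (u : L) (hu : A.valuation u = 1)
    (h : (c : L) ^ n = algebraMap K L a * u) : tameHom A hτ c ^ n = 1 := by
  have hu0 : u ≠ 0 := by
    rintro rfl
    simp at hu
  have ha0 : algebraMap K L a ≠ 0 := by
    intro h0
    rw [h0, zero_mul] at h
    exact pow_ne_zero n c.ne_zero h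
  have hcn : c ^ n = Units.mk0 _ ha0 * Units.mk0 u hu0 := by
    apply Units.ext
    simpa using h
  rw [← map_pow, hcn, map_mul, tameHom_algebraMap A hτ _ a rfl,
    tameHom_eq_one_of_valuation_eq_one A hτ _ hu, one_mul]

/-- `στ c / c = (σ (τ c) / τ c) · (τ c / c)`. -/
theorem ratioHom_mul {σ τ : L ≃ₐ[K] L} (hσ : σ ∈ A.decompositionSubgroup K)
    (hτ : τ ∈ A.decompositionSubgroup K) (c : Lˣ) :
    ratioHom A (mul_mem hσ hτ) c =
      ratioHom A hσ (Units.map (τ : L →* L) c) * ratioHom A hτ c := by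
  apply Subtype.ext
  apply Units.ext
  rw [Subgroup.coe_mul, Units.val_mul, coe_ratioHom, coe_ratioHom, coe_ratioHom]
  have hc0 : (c : L) ≠ 0 := c.ne_zero
  have hd0 : τ (c : L) ≠ 0 := by simp
  have h1 : ((Units.map (τ : L →* L) c : Lˣ) : L) = τ c := rfl
  have h2 : (σ * τ) (c : L) = σ (τ c) := rfl
  rw [h1, h2]
  field_simp

/-- The tame character is multiplicative in `τ`. -/
theorem tameHom_mul {σ τ : L ≃ₐ[K] L} (hσ : σ ∈ A.inertiaSubgroupIn K)
    (hτ : τ ∈ A.inertiaSubgroupIn K) (c : Lˣ) :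
    tameHom A (mul_mem hσ hτ) c = tameHom A hσ c * tameHom A hτ c := by
  set d : Lˣ := Units.map (τ : L →* L) c with hd
  have hdv : A.valuation (d : L) = A.valuation (c : L) :=
    valuation_apply_of_mem_decomposition A (mem_decomposition_of_mem_inertiaIn A hτ) (c : L)
  have h1 : tameHom A hσ d = tameHom A hσ c := tameHom_eq_of_valuation_eq A hσ d c hdv
  rw [← h1]
  show A.unitGroupToResidueFieldUnits (ratioHom A _ c) = _
  rw [ratioHom_mul A (mem_decomposition_of_mem_inertiaIn A hσ)
    (mem_decomposition_of_mem_inertiaIn A hτ), map_mul]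
  rfl

/-- The tame character of the inverse. -/
theorem tameHom_inv {τ : L ≃ₐ[K] L} (hτ : τ ∈ A.inertiaSubgroupIn K) (c : Lˣ) :
    tameHom A (inv_mem hτ) c = (tameHom A hτ c)⁻¹ := by
  have h1 : tameHom A (mul_mem (inv_mem hτ) hτ) c = 1 := by
    apply tameHom_eq_one_of_fixed
    show (τ⁻¹ * τ) (c : L) = c
    rw [inv_mul_cancel]; rfl
  rw [tameHom_mul A (inv_mem hτ) hτ] at h1
  exact eq_inv_of_mul_eq_one_left h1

end tame

end Fermat.Agent.A2.H708

end
-- ===== PACK-END A2/H708/Tame.lean

-- ===== PACK-BEGIN S18/H602/Descent.lean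
section



/-!
# S18, piece d1 : descent from `Q̄` to a number field  (owner helper602)

`Q̄ = AlgebraicClosure ℚ`, `A ⊆ Q̄` a valuation subring, `E ⊆ Q̄` a finite extension of `ℚ`,
`R_E := A ∩ E = A.comap (algebraMap E Q̄)`.

Main results (namespace `Fermat.Agent.S18.H602`):

* `coeffMap_mem_laurentBaseChange` : functoriality of `laurentBaseChange` in the field.
* `exists_finite_descent`, `exists_finite_descent₂` : every element (pair of elements) of
  `laurentBaseChange Q̄ F₀` comes from `laurentBaseChange E F₀` for a finite `E/ℚ`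
  (containing any prescribed finite `E₀`).
* `exists_series_descent₂` : the same for Laurent series with coefficients in `A`; they descend
  to Laurent series with coefficients in `R_E`.
* `coreStatement_of_coreAt` : CORE over `A` follows from CORE over all `R_E`.
-/

set_option autoImplicit false

noncomputable section

namespace Fermat.Agent.S18.H602

open ModularCurve AlgebraicCurve HahnSeries IntermediateField

local notation "Q̄" => AlgebraicClosure ℚ

/-! ## 1. Generalities on `coeffMap` -/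

section CoeffMap

variable {R S : Type*} [CommRing R] [CommRing S]

theorem coeffMap_injective (f : R →+* S) (hf : Function.Injective f) :
    Function.Injective (coeffMap f) := by
  intro x y h
  ext n
  apply hf
  have := congrArg (fun z => z.coeff n) h
  simpa using this

/-- A Laurent series all of whose coefficients lie in the range of an injective ring
homomorphism comes from a Laurent series over the source. -/
theorem exists_coeffMap_eq (f : R →+* S) (hf : Function.Injective f) (y : LaurentSeries S)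
    (h : ∀ n, y.coeff n ∈ Set.range f) : ∃ x : LaurentSeries R, coeffMap f x = y := by
  choose c hc using h
  have hsupp : Function.support c = y.support := by
    ext n
    simp only [Function.mem_support, HahnSeries.mem_support, ne_eq, ← hc n]
    rw [map_eq_zero_iff f hf]
  refine ⟨⟨c, ?_⟩, ?_⟩
  · rw [hsupp]
    exact y.isPWO_support
  · ext n
    simp [hc]

theorem coeffMap_algebraMap' {L L' : Type*} [Field L] [Field L'] (φ : L →+* L') (c : L) :
    coeffMap φ (algebraMap L (LaurentSeries L) c) = algebraMap L' (LaurentSeries L') (φ c) := by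
  rw [algebraMap_laurentSeries_eq_single, algebraMap_laurentSeries_eq_single, coeffMap_single]

end CoeffMap

/-! ## 2. Functoriality of `laurentBaseChange` -/

section Functoriality

variable {L L' : Type*} [Field L] [Field L'] [Algebra ℚ L] [Algebra ℚ L']
variable (F₀ : IntermediateField ℚ (LaurentSeries ℚ))

theorem coeffMap_coeffEmb' (φ : L →+* L') (x : LaurentSeries ℚ) :
    coeffMap φ (coeffEmb L x) = coeffEmb L' x := by
  rw [coeffEmb, coeffMap_coeffMap]
  exact coeffMap_congr (Subsingleton.elim _ _) x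

theorem coeffMap_mem_laurentBaseChange (φ : L →+* L') {x : LaurentSeries L}
    (hx : x ∈ laurentBaseChange L F₀) : coeffMap φ x ∈ laurentBaseChange L' F₀ := by
  rw [mem_laurentBaseChange_iff] at hx
  induction hx using Subfield.closure_induction with
  | mem y hy =>
      rcases hy with ⟨a, rfl⟩ | ⟨z, hz, rfl⟩
      · rw [coeffMap_algebraMap']
        exact (laurentBaseChange L' F₀).algebraMap_mem _
      · rw [coeffMap_coeffEmb']
        exact coeffEmb_mem_laurentBaseChange L' hz
  | one => simp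
  | add x y _ _ hx hy => simpa using add_mem hx hy
  | neg x _ hx => simpa using neg_mem hx
  | inv x _ hx => simpa using inv_mem hx
  | mul x y _ _ hx hy => simpa using mul_mem hx hy

end Functoriality

/-! ## 3. Descent of elements of `laurentBaseChange Q̄ F₀` to a finite extension of `ℚ` -/

section FiniteDescent

variable (F₀ : IntermediateField ℚ (LaurentSeries ℚ))

/-- `x ∈ Q̄((q))` is defined over the finite extension `E` (inside the base change of `F₀`). -/
def DescendsTo (E : IntermediateField ℚ Q̄) (x : LaurentSeries Q̄) : Prop :=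
  ∃ y ∈ laurentBaseChange E F₀, coeffMap (algebraMap E Q̄) y = x

variable {F₀}

theorem DescendsTo.mem {E : IntermediateField ℚ Q̄} {x : LaurentSeries Q̄}
    (h : DescendsTo F₀ E x) : x ∈ laurentBaseChange Q̄ F₀ := by
  obtain ⟨y, hy, rfl⟩ := h
  exact coeffMap_mem_laurentBaseChange F₀ _ hy

theorem DescendsTo.mono {E E' : IntermediateField ℚ Q̄} (hE : E ≤ E') {x : LaurentSeries Q̄}
    (h : DescendsTo F₀ E x) : DescendsTo F₀ E' x := by
  obtain ⟨y, hy, rfl⟩ := h
  refine ⟨coeffMap (IntermediateField.inclusion hE : E →+* E') y,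
    coeffMap_mem_laurentBaseChange F₀ _ hy, ?_⟩
  rw [coeffMap_coeffMap]
  exact coeffMap_congr (RingHom.ext fun _ => rfl) y

theorem DescendsTo.add {E : IntermediateField ℚ Q̄} {x x' : LaurentSeries Q̄}
    (h : DescendsTo F₀ E x) (h' : DescendsTo F₀ E x') : DescendsTo F₀ E (x + x') := by
  obtain ⟨y, hy, rfl⟩ := h
  obtain ⟨y', hy', rfl⟩ := h'
  exact ⟨y + y', add_mem hy hy', map_add _ _ _⟩

theorem DescendsTo.mul {E : IntermediateField ℚ Q̄} {x x' : LaurentSeries Q̄}
    (h : DescendsTo F₀ E x) (h' : DescendsTo F₀ E x') : DescendsTo F₀ E (x * x') := by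
  obtain ⟨y, hy, rfl⟩ := h
  obtain ⟨y', hy', rfl⟩ := h'
  exact ⟨y * y', mul_mem hy hy', map_mul _ _ _⟩

theorem DescendsTo.neg {E : IntermediateField ℚ Q̄} {x : LaurentSeries Q̄}
    (h : DescendsTo F₀ E x) : DescendsTo F₀ E (-x) := by
  obtain ⟨y, hy, rfl⟩ := h
  exact ⟨-y, neg_mem hy, map_neg _ _⟩

theorem DescendsTo.inv {E : IntermediateField ℚ Q̄} {x : LaurentSeries Q̄}
    (h : DescendsTo F₀ E x) : DescendsTo F₀ E x⁻¹ := by
  obtain ⟨y, hy, rfl⟩ := h
  exact ⟨y⁻¹, inv_mem hy, map_inv₀ _ _⟩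

theorem DescendsTo.one (E : IntermediateField ℚ Q̄) : DescendsTo F₀ E 1 :=
  ⟨1, one_mem _, map_one _⟩

theorem descendsTo_const (a : Q̄) :
    DescendsTo F₀ ℚ⟮a⟯ (algebraMap Q̄ (LaurentSeries Q̄) a) := by
  refine ⟨algebraMap ℚ⟮a⟯ (LaurentSeries ℚ⟮a⟯) ⟨a, mem_adjoin_simple_self ℚ a⟩,
    (laurentBaseChange ℚ⟮a⟯ F₀).algebraMap_mem _, ?_⟩
  rw [coeffMap_algebraMap']
  rfl

theorem descendsTo_coeffEmb (E : IntermediateField ℚ Q̄) {z : LaurentSeries ℚ} (hz : z ∈ F₀) :
    DescendsTo F₀ E (coeffEmb Q̄ z) :=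
  ⟨coeffEmb E z, coeffEmb_mem_laurentBaseChange E hz, coeffMap_coeffEmb' _ z⟩

theorem isAlgebraic_Qbar : Algebra.IsAlgebraic ℚ Q̄ := AlgebraicClosure.isAlgebraic ℚ

/-- Every element of `laurentBaseChange Q̄ F₀` is defined over a finite extension of `ℚ`. -/
theorem exists_finite_descent {x : LaurentSeries Q̄} (hx : x ∈ laurentBaseChange Q̄ F₀) :
    ∃ E : IntermediateField ℚ Q̄, FiniteDimensional ℚ E ∧ DescendsTo F₀ E x := by
  have := isAlgebraic_Qbar
  rw [mem_laurentBaseChange_iff] at hx
  induction hx using Subfield.closure_induction with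
  | mem y hy =>
      rcases hy with ⟨a, rfl⟩ | ⟨z, hz, rfl⟩
      · exact ⟨ℚ⟮a⟯, IntermediateField.adjoin.finiteDimensional
          (Algebra.IsAlgebraic.isAlgebraic a).isIntegral, descendsTo_const a⟩
      · exact ⟨⊥, inferInstance, descendsTo_coeffEmb ⊥ hz⟩
  | one => exact ⟨⊥, inferInstance, DescendsTo.one ⊥⟩
  | add x y _ _ hx hy =>
      obtain ⟨E₁, h₁, hx⟩ := hx
      obtain ⟨E₂, h₂, hy⟩ := hy
      exact ⟨E₁ ⊔ E₂, IntermediateField.finiteDimensional_sup E₁ E₂,
        (hx.mono le_sup_left).add (hy.mono le_sup_right)⟩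
  | neg x _ hx =>
      obtain ⟨E₁, h₁, hx⟩ := hx
      exact ⟨E₁, h₁, hx.neg⟩
  | inv x _ hx =>
      obtain ⟨E₁, h₁, hx⟩ := hx
      exact ⟨E₁, h₁, hx.inv⟩
  | mul x y _ _ hx hy =>
      obtain ⟨E₁, h₁, hx⟩ := hx
      obtain ⟨E₂, h₂, hy⟩ := hy
      exact ⟨E₁ ⊔ E₂, IntermediateField.finiteDimensional_sup E₁ E₂,
        (hx.mono le_sup_left).mul (hy.mono le_sup_right)⟩

/-- Two elements of `laurentBaseChange Q̄ F₀` are defined over a common finite extension of `ℚ`
containing a prescribed finite extension `E₀`. -/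
theorem exists_finite_descent₂ (E₀ : IntermediateField ℚ Q̄) [FiniteDimensional ℚ E₀]
    {x₁ x₂ : LaurentSeries Q̄} (h₁ : x₁ ∈ laurentBaseChange Q̄ F₀)
    (h₂ : x₂ ∈ laurentBaseChange Q̄ F₀) :
    ∃ E : IntermediateField ℚ Q̄, FiniteDimensional ℚ E ∧ E₀ ≤ E ∧
      DescendsTo F₀ E x₁ ∧ DescendsTo F₀ E x₂ := by
  obtain ⟨E₁, hE₁, d₁⟩ := exists_finite_descent h₁
  obtain ⟨E₂, hE₂, d₂⟩ := exists_finite_descent h₂
  have : FiniteDimensional ℚ ↥(E₁ ⊔ E₂) := IntermediateField.finiteDimensional_sup E₁ E₂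
  exact ⟨E₀ ⊔ (E₁ ⊔ E₂), IntermediateField.finiteDimensional_sup _ _, le_sup_left,
    d₁.mono (le_sup_left.trans le_sup_right), d₂.mono (le_sup_right.trans le_sup_right)⟩

end FiniteDescent

/-! ## 4. The valuation ring `R_E = A ∩ E` -/

section RE

variable (A : ValuationSubring Q̄) (E : IntermediateField ℚ Q̄)

/-- `R_E := A ∩ E`, a valuation subring of `E`. -/
def RE : ValuationSubring E := A.comap (algebraMap E Q̄)

variable {A E} in
theorem mem_RE {x : E} : x ∈ RE A E ↔ (x : Q̄) ∈ A := Iff.rfl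

/-- The inclusion `R_E → A`. -/
def toA : ↥(RE A E) →+* ↥A :=
  ((algebraMap E Q̄).comp (RE A E).subtype).codRestrict A (fun x => x.2)

@[simp]
theorem coe_toA (x : RE A E) : ((toA A E x : A) : Q̄) = ((x : E) : Q̄) := rfl

theorem toA_injective : Function.Injective (toA A E) := by
  intro x y h
  have h' : ((x : E) : Q̄) = ((y : E) : Q̄) := congrArg (fun z : A => (z : Q̄)) h
  exact Subtype.ext (Subtype.ext h')

theorem subtype_comp_toA :
    (A.subtype : ↥A →+* Q̄).comp (toA A E) = (algebraMap E Q̄).comp (RE A E).subtype :=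
  RingHom.ext fun _ => rfl

instance isLocalHom_toA : IsLocalHom (toA A E) where
  map_nonunit := by
    intro a ha
    obtain ⟨b, hb⟩ := isUnit_iff_exists_inv.mp ha
    have hb' : ((a : E) : Q̄) * (b : Q̄) = 1 := congrArg (fun z : A => (z : Q̄)) hb
    have ha0 : (a : E) ≠ 0 := by
      rintro h0
      rw [h0] at hb'
      simp at hb'
    have hinv : ((a : E)⁻¹ : E) ∈ RE A E := by
      rw [mem_RE]
      have : (((a : E)⁻¹ : E) : Q̄) = (b : Q̄) := by
        have h1 : (((a : E)⁻¹ : E) : Q̄) = ((a : E) : Q̄)⁻¹ := by simp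
        rw [h1]
        exact inv_eq_of_mul_eq_one_right hb'
      rw [this]
      exact b.2
    exact isUnit_iff_exists_inv.mpr ⟨⟨(a : E)⁻¹, hinv⟩, Subtype.ext (mul_inv_cancel₀ ha0)⟩

/-- The map of residue fields `κ_E → k`. -/
def resMap : IsLocalRing.ResidueField (RE A E) →+* IsLocalRing.ResidueField A :=
  IsLocalRing.ResidueField.map (toA A E)

theorem resMap_injective : Function.Injective (resMap A E) := (resMap A E).injective

theorem resMap_comp_residue :
    (resMap A E).comp (IsLocalRing.residue (RE A E)) = (IsLocalRing.residue A).comp (toA A E) :=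
  IsLocalRing.ResidueField.map_comp_residue (toA A E)

theorem coeffMap_residue_toA (V : LaurentSeries (RE A E)) :
    coeffMap (IsLocalRing.residue A) (coeffMap (toA A E) V) =
      coeffMap (resMap A E) (coeffMap (IsLocalRing.residue (RE A E)) V) := by
  rw [coeffMap_coeffMap, coeffMap_coeffMap, resMap_comp_residue]

variable {A E}

/-- A series over `A` whose image in `Q̄((q))` is defined over `E` comes from a series over
`R_E = A ∩ E`. -/
theorem exists_series_descent {F₀ : IntermediateField ℚ (LaurentSeries ℚ)} (U : LaurentSeries A)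
    (h : DescendsTo F₀ E (coeffMap A.subtype U)) :
    ∃ V : LaurentSeries (RE A E),
      coeffMap (RE A E).subtype V ∈ laurentBaseChange E F₀ ∧ coeffMap (toA A E) V = U := by
  obtain ⟨y, hy, hyU⟩ := h
  have hc : ∀ n, y.coeff n ∈ Set.range (RE A E).subtype := by
    intro n
    have h1 : algebraMap E Q̄ (y.coeff n) = ((U.coeff n : A) : Q̄) := by
      have := congrArg (fun z => z.coeff n) hyU
      simpa using this
    refine ⟨⟨y.coeff n, ?_⟩, rfl⟩
    rw [mem_RE]
    change algebraMap E Q̄ (y.coeff n) ∈ A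
    rw [h1]
    exact (U.coeff n).2
  obtain ⟨V, hV⟩ := exists_coeffMap_eq (RE A E).subtype Subtype.val_injective y hc
  refine ⟨V, hV ▸ hy, ?_⟩
  apply coeffMap_injective A.subtype Subtype.val_injective
  rw [coeffMap_coeffMap, ← hyU, ← hV, coeffMap_coeffMap, subtype_comp_toA]

end RE

/-! ## 5. CORE over `A` from CORE over the rings `R_E` -/

section Core

variable (A : ValuationSubring Q̄) (E : IntermediateField ℚ Q̄) (N : ℕ)

/-- `IsIntAt A E N V`: the series `V ∈ R_E((q))` lies in `F_{N,E} = E(j(q^d) : d ∣ N)` and has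
nonzero reduction modulo the maximal ideal of `R_E`. -/
def IsIntAt (V : LaurentSeries (RE A E)) : Prop :=
  coeffMap (RE A E).subtype V ∈ laurentBaseChange E (modularFunctionFieldFull N) ∧
    coeffMap (IsLocalRing.residue (RE A E)) V ≠ 0

variable {A E N}

theorem IsIntAt.mem_bar {V : LaurentSeries (RE A E)} (h : IsIntAt A E N V) :
    coeffMap (algebraMap E Q̄) (coeffMap (RE A E).subtype V) ∈ modularFunctionFieldBar N :=
  coeffMap_mem_laurentBaseChange _ _ h.1

/-- The element of `F̄_N = Q̄(j(q^d) : d ∣ N)` defined by an integral series over `R_E`. -/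
def toFbar {V : LaurentSeries (RE A E)} (h : IsIntAt A E N V) : modularFunctionFieldBar N :=
  ⟨coeffMap (algebraMap E Q̄) (coeffMap (RE A E).subtype V), h.mem_bar⟩

theorem coe_toFbar {V : LaurentSeries (RE A E)} (h : IsIntAt A E N V) :
    (toFbar h : LaurentSeries Q̄) = coeffMap A.subtype (coeffMap (toA A E) V) := by
  rw [coeffMap_coeffMap, subtype_comp_toA, ← coeffMap_coeffMap]
  rfl

variable (A E N)

/-- CORE over the ring `R_E = A ∩ E` (a discrete valuation ring when `E/ℚ` is finite and `A`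
lies over a prime, see `isDiscreteValuationRing_RE`): two integral series over `R_E` with the
same (nonzero) reduction, whose quotient has divisor divisible by `m` on `F̄_N`, differ by a
constant times an `m`-th power in `F̄_N`. -/
def CoreAt (m : ℕ) : Prop :=
  ∀ (V₁ V₂ : LaurentSeries (RE A E)) (h₁ : IsIntAt A E N V₁) (h₂ : IsIntAt A E N V₂),
    coeffMap (IsLocalRing.residue (RE A E)) V₁ = coeffMap (IsLocalRing.residue (RE A E)) V₂ →
    (∀ v : Place Q̄ (modularFunctionFieldBar N),
      (m : ℤ) ∣ v.ord (toFbar h₁) - v.ord (toFbar h₂)) →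
    ∃ (c : Q̄) (y : modularFunctionFieldBar N), c ≠ 0 ∧ y ≠ 0 ∧
      toFbar h₁ = algebraMap Q̄ (modularFunctionFieldBar N) c * y ^ m * toFbar h₂

variable {A N}

/-- **Descent (piece d1).**  If CORE holds over `R_E = A ∩ E` for every finite extension `E/ℚ`
inside `Q̄` containing a fixed finite extension `E₀`, then CORE holds over `A`: this is
`Fermat.Agent.S18.CoreStatement N A m` of the row's `Spec.lean`, with `IsInt` and `toF` unfolded
(the hypothesis that the reduction lies in `F_{N,k}` is not needed). -/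
theorem core_of_coreAt (m : ℕ) (E₀ : IntermediateField ℚ Q̄) [FiniteDimensional ℚ E₀]
    (H : ∀ E : IntermediateField ℚ Q̄, FiniteDimensional ℚ E → E₀ ≤ E → CoreAt A E N m)
    (U₁ U₂ : LaurentSeries A)
    (h₁ : coeffMap A.subtype U₁ ∈ modularFunctionFieldBar N)
    (h₂ : coeffMap A.subtype U₂ ∈ modularFunctionFieldBar N)
    (hne : coeffMap (IsLocalRing.residue A) U₁ ≠ 0)
    (hred : coeffMap (IsLocalRing.residue A) U₁ = coeffMap (IsLocalRing.residue A) U₂)
    (hdiv : ∀ v : Place Q̄ (modularFunctionFieldBar N),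
      (m : ℤ) ∣ v.ord (⟨coeffMap A.subtype U₁, h₁⟩ : modularFunctionFieldBar N) -
        v.ord (⟨coeffMap A.subtype U₂, h₂⟩ : modularFunctionFieldBar N)) :
    ∃ (c : Q̄) (y : modularFunctionFieldBar N), c ≠ 0 ∧ y ≠ 0 ∧
      (⟨coeffMap A.subtype U₁, h₁⟩ : modularFunctionFieldBar N) =
        algebraMap Q̄ (modularFunctionFieldBar N) c * y ^ m *
          (⟨coeffMap A.subtype U₂, h₂⟩ : modularFunctionFieldBar N) := by
  obtain ⟨E, hE, hE₀, d₁, d₂⟩ := exists_finite_descent₂ E₀ h₁ h₂
  obtain ⟨V₁, hV₁, rfl⟩ := exists_series_descent U₁ d₁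
  obtain ⟨V₂, hV₂, rfl⟩ := exists_series_descent U₂ d₂
  have hinj := coeffMap_injective (resMap A E) (resMap_injective A E)
  rw [coeffMap_residue_toA] at hne
  rw [coeffMap_residue_toA, coeffMap_residue_toA] at hred
  have i₁ : IsIntAt A E N V₁ := ⟨hV₁, fun h0 => hne (by rw [h0, map_zero])⟩
  have i₂ : IsIntAt A E N V₂ := ⟨hV₂, fun h0 => hne (by rw [hred, h0, map_zero])⟩
  have e₁ : toFbar i₁ = (⟨coeffMap A.subtype (coeffMap (toA A E) V₁), h₁⟩ :
      modularFunctionFieldBar N) := Subtype.ext (coe_toFbar i₁)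
  have e₂ : toFbar i₂ = (⟨coeffMap A.subtype (coeffMap (toA A E) V₂), h₂⟩ :
      modularFunctionFieldBar N) := Subtype.ext (coe_toFbar i₂)
  obtain ⟨c, y, hc, hy, hcy⟩ := H E hE hE₀ V₁ V₂ i₁ i₂ (hinj hred) (by
    intro v
    rw [e₁, e₂]
    exact hdiv v)
  exact ⟨c, y, hc, hy, by rw [← e₁, ← e₂]; exact hcy⟩

end Core

end Fermat.Agent.S18.H602

end
end
-- ===== PACK-END S18/H602/Descent.lean

-- ===== PACK-BEGIN S24/Defs.lean
section


/-!
# S24 — shared interface definitions

`LocalData` packages, for a local parameter `t` of the rational subfield `K(t) ⊆ F`,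
a full set of `K(t)`-embeddings of `F` into a Laurent series field together with the
"monodromy" permutation.  See `Fermat/Agent/S24/Alg.lean` (algebraic side) and
`Fermat/Agent/S24/Mod.lean` (modular side).
-/

set_option autoImplicit false

noncomputable section

open AlgebraicCurve ModularCurve
open scoped MatrixGroups

namespace Fermat.Agent.S24

/-- Number of orbits (cycles, fixed points included) of a permutation. -/
def numOrbits {X : Type*} (π : Equiv.Perm X) : ℕ :=
  Nat.card (MulAction.orbitRel.Quotient (Subgroup.zpowers π) X)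

/-- Local uniformisation data of `F/K` at the zero of `t`: a family `σ x` (`x : X`) of pairwise
distinct field embeddings `F → C((z))`, all restricting to the same embedding of `K(t)`, with
`ord_z (σ x t) = m > 0`, and a permutation `perm` of `X` realising `z ↦ ζ z`
(`ζ` a primitive `m`-th root of unity). -/
structure LocalData (K F : Type*) [Field K] [Field F] [Algebra K F] (C : Type*) [Field C]
    (X : Type*) (t : F) where
  m : ℕ
  m_pos : 0 < m
  ζ : C
  hζ : IsPrimitiveRoot ζ m
  ι : K →+* C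
  perm : Equiv.Perm X
  σ : X → (F →+* LaurentSeries C)
  σ_inj : Function.Injective σ
  σ_const : ∀ (x : X) (c : K), σ x (algebraMap K F c) = HahnSeries.C (ι c)
  σ_t_eq : ∀ x y : X, σ x t = σ y t
  σ_t_order : ∀ x : X, (σ x t).order = (m : ℤ)
  σ_perm_order : ∀ (x : X) (f : F), (σ (perm x) f).order = (σ x f).order
  σ_perm_leadingCoeff : ∀ (x : X) (f : F),
    (σ (perm x) f).leadingCoeff = ζ ^ (σ x f).order * (σ x f).leadingCoeff

section Modular

variable (N : ℕ) [NeZero N]

/-- The base field `ℚ̄`. -/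
abbrev Kbar : Type := AlgebraicClosure ℚ

/-- The function field of `X₀(N)` over `ℚ̄` (as a type). -/
abbrev FF : Type := ↥(modularFunctionFieldBar N)

/-- The `j`-function as an element of the function field of `X₀(N)` over `ℚ̄`. -/
def jF : FF N :=
  ⟨coeffEmb Kbar jq,
    coeffEmb_mem_laurentBaseChange Kbar (modularFunctionField_le_full N (jq_mem N))⟩

/-- The coset space `SL₂(ℤ) / Γ₀(N)`. -/
abbrev XX : Type := SL(2, ℤ) ⧸ CongruenceSubgroup.Gamma0 N

/-- The permutation of `SL₂(ℤ) / Γ₀(N)` induced by left multiplication by `g`. -/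
def permOf (g : SL(2, ℤ)) : Equiv.Perm (XX N) := MulAction.toPerm g

end Modular

end Fermat.Agent.S24

end
end
-- ===== PACK-END S24/Defs.lean

-- ===== PACK-BEGIN S24/H624/HoloRing.lean
section


/-!
# The ring of holomorphic functions on the upper half-plane and Taylor expansions

Architecture-independent analytic foundation for the S24 / S28 long shots.
-/

set_option autoImplicit false

namespace Fermat.Agent.S24.H624

open UpperHalfPlane Complex
open scoped Manifold Topology

/-- The `ℂ`-algebra of holomorphic functions on the upper half-plane. -/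
def holoRing : Subalgebra ℂ (ℍ → ℂ) where
  carrier := {f | MDiff f}
  mul_mem' := fun hf hg => hf.mul hg
  add_mem' := fun hf hg => hf.add hg
  algebraMap_mem' := fun _ => mdifferentiable_const

theorem mem_holoRing {f : ℍ → ℂ} : f ∈ holoRing ↔ MDiff f := Iff.rfl

/-- A holomorphic function on `ℍ`, extended by junk to `ℂ`, is analytic at every point of `ℍ`. -/
theorem analyticAt_of_mdiff {f : ℍ → ℂ} (hf : MDiff f) (τ : ℍ) :
    AnalyticAt ℂ (f ∘ ofComplex) (τ : ℂ) :=
  ((UpperHalfPlane.mdifferentiable_iff.mp hf).analyticOnNhd isOpen_upperHalfPlaneSet) _ τ.im_pos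

theorem analyticAt_of_mdiff' {f : ℍ → ℂ} (hf : MDiff f) {z : ℂ} (hz : 0 < z.im) :
    AnalyticAt ℂ (f ∘ ofComplex) z :=
  ((UpperHalfPlane.mdifferentiable_iff.mp hf).analyticOnNhd isOpen_upperHalfPlaneSet) _ hz

/-- Order of vanishing at `τ` of a function on the upper half-plane. -/
noncomputable def ordAt (τ : ℍ) (f : ℍ → ℂ) : ℕ∞ := analyticOrderAt (f ∘ ofComplex) (τ : ℂ)

theorem ordAt_def (τ : ℍ) (f : ℍ → ℂ) : ordAt τ f = analyticOrderAt (f ∘ ofComplex) (τ : ℂ) := rfl

theorem eq_zero_of_eventually_zero {f : ℍ → ℂ} (hf : MDiff f) {τ : ℍ}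
    (h : ∀ᶠ z in 𝓝 (τ : ℂ), (f ∘ ofComplex) z = 0) : f = 0 := by
  have han := (UpperHalfPlane.mdifferentiable_iff.mp hf).analyticOnNhd isOpen_upperHalfPlaneSet
  have hpre : IsPreconnected {z : ℂ | 0 < z.im} :=
    (Complex.isConnected_of_upperHalfPlane subset_rfl
      (fun z (hz : 0 < z.im) => le_of_lt hz)).isPreconnected
  have := han.eqOn_zero_of_preconnected_of_eventuallyEq_zero hpre τ.im_pos h
  funext w
  have hw := this w.im_pos
  simpa [Function.comp_apply, ofComplex_apply] using hw

theorem ordAt_eq_top_iff {f : ℍ → ℂ} (hf : MDiff f) (τ : ℍ) : ordAt τ f = ⊤ ↔ f = 0 := by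
  constructor
  · intro h
    exact eq_zero_of_eventually_zero hf (analyticOrderAt_eq_top.mp h)
  · rintro rfl
    rw [ordAt_def, analyticOrderAt_eq_top]
    exact Filter.Eventually.of_forall fun z => rfl

theorem ordAt_ne_top {f : ℍ → ℂ} (hf : MDiff f) (hf0 : f ≠ 0) (τ : ℍ) : ordAt τ f ≠ ⊤ :=
  fun h => hf0 ((ordAt_eq_top_iff hf τ).mp h)

theorem ordAt_mul {f g : ℍ → ℂ} (hf : MDiff f) (hg : MDiff g) (τ : ℍ) :
    ordAt τ (f * g) = ordAt τ f + ordAt τ g :=
  analyticOrderAt_mul (analyticAt_of_mdiff hf τ) (analyticAt_of_mdiff hg τ)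

theorem ordAt_eq_zero_iff {f : ℍ → ℂ} (hf : MDiff f) (τ : ℍ) : ordAt τ f = 0 ↔ f τ ≠ 0 := by
  rw [ordAt_def, (analyticAt_of_mdiff hf τ).analyticOrderAt_eq_zero]
  simp [Function.comp_apply, ofComplex_apply]

theorem le_ordAt_add {f g : ℍ → ℂ} (τ : ℍ) :
    min (ordAt τ f) (ordAt τ g) ≤ ordAt τ (f + g) :=
  le_analyticOrderAt_add

theorem ordAt_zero (τ : ℍ) : ordAt τ (0 : ℍ → ℂ) = ⊤ := by
  rw [ordAt_def, analyticOrderAt_eq_top]
  exact Filter.Eventually.of_forall fun z => rfl

theorem mul_eq_zero_of_mdiff {f g : ℍ → ℂ} (hf : MDiff f) (hg : MDiff g) (h : f * g = 0) :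
    f = 0 ∨ g = 0 := by
  by_contra hcon
  rw [not_or] at hcon
  have h1 := ordAt_mul hf hg UpperHalfPlane.I
  rw [h, ordAt_zero] at h1
  have h3 := ordAt_ne_top hf hcon.1 UpperHalfPlane.I
  have h4 := ordAt_ne_top hg hcon.2 UpperHalfPlane.I
  exact (WithTop.add_ne_top.mpr ⟨h3, h4⟩) h1.symm

instance instNontrivialHoloRing : Nontrivial holoRing :=
  ⟨⟨0, 1, fun h => by
    have := congrArg (fun f : holoRing => (f : ℍ → ℂ) UpperHalfPlane.I) h
    simp at this⟩⟩

instance instNoZeroDivisorsHoloRing : NoZeroDivisors holoRing :=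
  ⟨by
    intro a b hab
    have h2 : ((a : ℍ → ℂ) * (b : ℍ → ℂ)) = 0 := by
      have := congrArg (Subtype.val) hab
      simpa using this
    rcases mul_eq_zero_of_mdiff a.2 b.2 h2 with h | h
    · exact Or.inl (Subtype.ext h)
    · exact Or.inr (Subtype.ext h)⟩

instance instIsDomainHoloRing : IsDomain holoRing := NoZeroDivisors.to_isDomain _

end Fermat.Agent.S24.H624

end
-- ===== PACK-END S24/H624/HoloRing.lean

-- ===== PACK-BEGIN S24/Inf/Twist.lean
section



/-!
# S24 / MOD-INF — formal operations on Laurent series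

* `infTwist u` : the ring endomorphism `∑ aₙ zⁿ ↦ ∑ aₙ uⁿ zⁿ` of `LaurentSeries R` (`u` a unit);
* order / leading coefficient of `infTwist u φ` and of `ModularCurve.qExpand R e φ`.
-/

set_option autoImplicit false

noncomputable section

open HahnSeries ModularCurve

namespace Fermat.Agent.S24

section General

variable {R : Type*} [CommRing R]

/-- A Hahn series over `ℤ` whose coefficients below `n` vanish and whose `n`-th coefficient is
nonzero has order `n`. -/
theorem inf_order_eq_of_coeff {x : LaurentSeries R} {n : ℤ} (hn : x.coeff n ≠ 0)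
    (hlt : ∀ m < n, x.coeff m = 0) : x.order = n := by
  apply le_antisymm (order_le_of_coeff_ne_zero hn)
  by_contra h
  rw [not_le] at h
  have hx : x ≠ 0 := ne_zero_of_coeff_ne_zero hn
  exact (coeff_order_eq_zero.not.mpr hx) (hlt _ h)

theorem inf_leadingCoeff_eq_of_coeff {x : LaurentSeries R} {n : ℤ} (hn : x.coeff n ≠ 0)
    (hlt : ∀ m < n, x.coeff m = 0) : x.leadingCoeff = x.coeff n := by
  rw [leadingCoeff_eq, inf_order_eq_of_coeff hn hlt]

/-- The underlying function of the twist. -/
def infTwistFun (u : Rˣ) (x : LaurentSeries R) : LaurentSeries R where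
  coeff n := x.coeff n * ((u ^ n : Rˣ) : R)
  isPWO_support' := x.isPWO_support.mono (fun n hn => by
    simp only [Function.mem_support, ne_eq] at hn
    rw [mem_support]
    intro h
    exact hn (by rw [h, zero_mul]))

@[simp]
theorem infTwistFun_coeff (u : Rˣ) (x : LaurentSeries R) (n : ℤ) :
    (infTwistFun u x).coeff n = x.coeff n * ((u ^ n : Rˣ) : R) := rfl

theorem infTwistFun_support (u : Rˣ) (x : LaurentSeries R) :
    (infTwistFun u x).support = x.support := by
  ext n
  simp only [mem_support, infTwistFun_coeff, ne_eq]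
  constructor
  · intro h h0
    exact h (by rw [h0, zero_mul])
  · intro h h0
    exact h ((Units.mul_left_eq_zero _).mp h0)

/-- The twist `∑ aₙ zⁿ ↦ ∑ aₙ uⁿ zⁿ` as a ring homomorphism. -/
def infTwist (u : Rˣ) : LaurentSeries R →+* LaurentSeries R where
  toFun := infTwistFun u
  map_zero' := by
    ext n
    simp
  map_one' := by
    ext n
    simp only [infTwistFun_coeff, coeff_one]
    split_ifs with h
    · subst h
      simp
    · simp
  map_add' x y := by
    ext n
    simp [add_mul]
  map_mul' x y := by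
    ext n
    simp only [infTwistFun_coeff, coeff_mul]
    rw [Finset.sum_mul]
    refine Finset.sum_congr ?_ ?_
    · ext ij
      simp only [Finset.mem_antidiagonal, infTwistFun_support]
    · intro ij hij
      have h : ij.1 + ij.2 = n := (Finset.mem_antidiagonal.mp hij).2.2
      rw [← h, zpow_add, Units.val_mul]
      ring

@[simp]
theorem infTwist_coeff (u : Rˣ) (x : LaurentSeries R) (n : ℤ) :
    (infTwist u x).coeff n = x.coeff n * ((u ^ n : Rˣ) : R) := rfl

theorem infTwist_support (u : Rˣ) (x : LaurentSeries R) :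
    (infTwist u x).support = x.support := infTwistFun_support u x

theorem infTwist_eq_zero_iff (u : Rˣ) (x : LaurentSeries R) : infTwist u x = 0 ↔ x = 0 := by
  rw [← support_eq_empty_iff, infTwist_support, support_eq_empty_iff]

theorem infTwist_injective (u : Rˣ) : Function.Injective (infTwist (R := R) u) :=
  (injective_iff_map_eq_zero _).mpr fun x hx => (infTwist_eq_zero_iff u x).mp hx

@[simp]
theorem infTwist_one (x : LaurentSeries R) : infTwist (1 : Rˣ) x = x := by
  ext n
  simp

theorem infTwist_mul (u v : Rˣ) (x : LaurentSeries R) :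
    infTwist (u * v) x = infTwist u (infTwist v x) := by
  ext n
  simp only [infTwist_coeff, mul_zpow, Units.val_mul]
  ring

@[simp]
theorem infTwist_single (u : Rˣ) (k : ℤ) (r : R) :
    infTwist u (single k r) = single k (r * ((u ^ k : Rˣ) : R)) := by
  ext n
  rcases eq_or_ne n k with rfl | hn
  · simp
  · simp [coeff_single_of_ne hn]

@[simp]
theorem infTwist_C (u : Rˣ) (r : R) : infTwist u (HahnSeries.C r) = HahnSeries.C r := by
  rw [C_apply, infTwist_single]
  simp

theorem infTwist_order (u : Rˣ) (x : LaurentSeries R) : (infTwist u x).order = x.order := by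
  rcases eq_or_ne x 0 with rfl | hx
  · simp
  · refine inf_order_eq_of_coeff ?_ ?_
    · rw [infTwist_coeff]
      intro h
      exact (coeff_order_eq_zero.not.mpr hx) ((Units.mul_left_eq_zero _).mp h)
    · intro m hm
      rw [infTwist_coeff, coeff_eq_zero_of_lt_order hm, zero_mul]

theorem infTwist_leadingCoeff (u : Rˣ) (x : LaurentSeries R) :
    (infTwist u x).leadingCoeff = x.leadingCoeff * ((u ^ x.order : Rˣ) : R) := by
  rw [leadingCoeff_eq, leadingCoeff_eq, infTwist_order, infTwist_coeff]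

end General

section QExpand

variable {R : Type*} [CommRing R] (e : ℕ) [NeZero e]

theorem inf_qExpand_eq_zero_iff (x : LaurentSeries R) : qExpand R e x = 0 ↔ x = 0 :=
  ⟨fun h => qExpand_injective e (by rw [h, map_zero]), fun h => by rw [h, map_zero]⟩

theorem inf_qExpand_order (x : LaurentSeries R) :
    (qExpand R e x).order = (e : ℤ) * x.order := by
  rcases eq_or_ne x 0 with rfl | hx
  · simp
  · have he : (0 : ℤ) < e := by exact_mod_cast Nat.pos_of_ne_zero (NeZero.ne e)
    refine inf_order_eq_of_coeff ?_ ?_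
    · rw [qExpand_coeff_mul]
      exact coeff_order_eq_zero.not.mpr hx
    · intro m hm
      by_cases hdvd : (e : ℤ) ∣ m
      · obtain ⟨k, rfl⟩ := hdvd
        rw [qExpand_coeff_mul]
        exact coeff_eq_zero_of_lt_order (lt_of_mul_lt_mul_left hm he.le)
      · exact qExpand_coeff_of_not_dvd e x hdvd

theorem inf_qExpand_leadingCoeff (x : LaurentSeries R) :
    (qExpand R e x).leadingCoeff = x.leadingCoeff := by
  rw [leadingCoeff_eq, leadingCoeff_eq, inf_qExpand_order, qExpand_coeff_mul]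

end QExpand

section CoeffMap

variable {R S : Type*} [CommRing R] [CommRing S]

theorem inf_coeffMap_injective {f : R →+* S} (hf : Function.Injective f) :
    Function.Injective (coeffMap f) := by
  intro x y h
  ext n
  apply hf
  have := congrArg (fun z => z.coeff n) h
  simpa using this

theorem inf_coeffMap_order {f : R →+* S} (hf : Function.Injective f) (x : LaurentSeries R) :
    (coeffMap f x).order = x.order := by
  rcases eq_or_ne x 0 with rfl | hx
  · simp
  · refine inf_order_eq_of_coeff ?_ ?_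
    · rw [coeffMap_coeff]
      intro h
      exact (coeff_order_eq_zero.not.mpr hx) (hf (by rw [h, map_zero]))
    · intro m hm
      rw [coeffMap_coeff, coeff_eq_zero_of_lt_order hm, map_zero]

theorem inf_coeffMap_leadingCoeff {f : R →+* S} (hf : Function.Injective f)
    (x : LaurentSeries R) : (coeffMap f x).leadingCoeff = f x.leadingCoeff := by
  rw [leadingCoeff_eq, leadingCoeff_eq, inf_coeffMap_order hf, coeffMap_coeff]

end CoeffMap

end Fermat.Agent.S24

end
end
-- ===== PACK-END S24/Inf/Twist.lean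

-- ===== PACK-BEGIN S24/JFun/EtaProd.lean
section







/-!
# Formal versus analytic Euler product

The Taylor coefficients at `0` of the analytic function `q ↦ ∏' n, (1 - q ^ (n + 1))` on the unit
disc are the coefficients of the formal product `ModularCurve.etaProd`.
-/

set_option autoImplicit false

namespace Fermat.Agent.S24.JFun

open Filter Topology Complex Metric
open scoped PowerSeries.WithPiTopology

/-- Iterated derivatives of a locally uniform limit of holomorphic functions. -/
theorem tendstoLocallyUniformlyOn_iteratedDeriv {ι : Type*} {φ : Filter ι} {F : ι → ℂ → ℂ}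
    {f : ℂ → ℂ} {U : Set ℂ} (hU : IsOpen U) (hf : TendstoLocallyUniformlyOn F f φ U)
    (hF : ∀ᶠ n in φ, DifferentiableOn ℂ (F n) U) (m : ℕ) :
    TendstoLocallyUniformlyOn (fun n => iteratedDeriv m (F n)) (iteratedDeriv m f) φ U ∧
      ∀ᶠ n in φ, DifferentiableOn ℂ (iteratedDeriv m (F n)) U := by
  induction m with
  | zero => simpa [iteratedDeriv_zero] using And.intro hf hF
  | succ m ih =>
    obtain ⟨h1, h2⟩ := ih
    refine ⟨?_, ?_⟩
    · have := h1.deriv h2 hU
      simpa [iteratedDeriv_succ, Function.comp_def] using this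
    · filter_upwards [h2] with n hn
      rw [iteratedDeriv_succ]
      exact hn.deriv hU

theorem iteratedDeriv_polynomial_eval (P : Polynomial ℂ) (m : ℕ) :
    iteratedDeriv m (fun x : ℂ => P.eval x) = fun x => (Polynomial.derivative^[m] P).eval x := by
  induction m generalizing P with
  | zero => simp [iteratedDeriv_zero]
  | succ m ih =>
    rw [iteratedDeriv_succ', Function.iterate_succ_apply]
    have : deriv (fun x : ℂ => P.eval x) = fun x => (Polynomial.derivative P).eval x := by
      funext x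
      exact Polynomial.deriv P
    rw [this, ih]

theorem iteratedDeriv_polynomial_eval_zero (P : Polynomial ℂ) (m : ℕ) :
    iteratedDeriv m (fun x : ℂ => P.eval x) 0 = (m.factorial : ℂ) * P.coeff m := by
  rw [iteratedDeriv_polynomial_eval]
  simp only
  rw [← Polynomial.coeff_zero_eq_eval_zero, Polynomial.coeff_iterate_derivative]
  simp [Nat.descFactorial_self, nsmul_eq_mul]

/-- The partial Euler products as integer polynomials. -/
noncomputable def eulerPartial (s : Finset ℕ) : Polynomial ℤ :=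
  ∏ n ∈ s, (1 - Polynomial.X ^ (n + 1))

theorem eval_map_eulerPartial (s : Finset ℕ) (q : ℂ) :
    ((eulerPartial s).map (Int.castRingHom ℂ)).eval q = ∏ n ∈ s, (1 - q ^ (n + 1)) := by
  simp [eulerPartial, Polynomial.map_prod, Polynomial.eval_prod]

theorem coe_eulerPartial (s : Finset ℕ) :
    ((eulerPartial s : Polynomial ℤ) : PowerSeries ℤ) = ∏ n ∈ s, (1 - PowerSeries.X ^ (n + 1)) := by
  have h := map_prod (Polynomial.coeToPowerSeries.ringHom (R := ℤ))
    (fun n : ℕ => (1 - Polynomial.X ^ (n + 1) : Polynomial ℤ)) s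
  rw [eulerPartial]
  refine h.trans (Finset.prod_congr rfl fun n _ => ?_)
  simp

theorem tendsto_coeff_eulerPartial (m : ℕ) :
    Tendsto (fun s : Finset ℕ => (((eulerPartial s).coeff m : ℤ) : ℂ)) atTop
      (𝓝 ((ModularCurve.etaProd.coeff m : ℤ) : ℂ)) := by
  have h1 : HasProd (fun n : ℕ => (1 - PowerSeries.X ^ (n + 1) : PowerSeries ℤ))
      ModularCurve.etaProd :=
    (PowerSeries.WithPiTopology.multipliable_one_sub_X_pow ℤ).hasProd
  have h2 : Tendsto (fun s : Finset ℕ => ∏ n ∈ s, (1 - PowerSeries.X ^ (n + 1) : PowerSeries ℤ))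
      atTop (𝓝 ModularCurve.etaProd) := h1
  have h3 := (PowerSeries.WithPiTopology.tendsto_iff_coeff_tendsto ℤ _ _ _).1 h2 m
  have h4 : Continuous (fun z : ℤ => (z : ℂ)) := continuous_of_discreteTopology
  have h5 := (h4.tendsto _).comp h3
  refine h5.congr (fun s => ?_)
  simp only [Function.comp_apply]
  rw [← coe_eulerPartial, Polynomial.coeff_coe]

/-- The Taylor coefficients at `0` of the analytic Euler product are the coefficients of the
formal Euler product `ModularCurve.etaProd`. -/
theorem iteratedDeriv_tprod_one_sub_pow (m : ℕ) :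
    iteratedDeriv m (fun q : ℂ => ∏' n : ℕ, (1 - q ^ (n + 1))) 0
      = (m.factorial : ℂ) * ((ModularCurve.etaProd.coeff m : ℤ) : ℂ) := by
  have hU : IsOpen (ball (0 : ℂ) 1) := isOpen_ball
  have h0 : (0 : ℂ) ∈ ball (0 : ℂ) 1 := mem_ball_self one_pos
  have hloc : TendstoLocallyUniformlyOn
      (fun (s : Finset ℕ) (q : ℂ) => ∏ n ∈ s, (1 - q ^ (n + 1)))
      (fun q : ℂ => ∏' n : ℕ, (1 - q ^ (n + 1))) atTop (ball (0 : ℂ) 1) := by
    have := ModularForm.multipliableLocallyUniformlyOn_one_sub_pow.hasProdLocallyUniformlyOn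
    exact this
  have hF : ∀ᶠ s : Finset ℕ in atTop,
      DifferentiableOn ℂ (fun q : ℂ => ∏ n ∈ s, (1 - q ^ (n + 1))) (ball (0 : ℂ) 1) :=
    Eventually.of_forall fun s => by fun_prop
  have key := (tendstoLocallyUniformlyOn_iteratedDeriv hU hloc hF m).1.tendsto_at h0
  have hval : ∀ s : Finset ℕ,
      iteratedDeriv m (fun q : ℂ => ∏ n ∈ s, (1 - q ^ (n + 1))) 0
        = (m.factorial : ℂ) * (((eulerPartial s).coeff m : ℤ) : ℂ) := by
    intro s
    have : (fun q : ℂ => ∏ n ∈ s, (1 - q ^ (n + 1)))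
        = fun q => ((eulerPartial s).map (Int.castRingHom ℂ)).eval q := by
      funext q
      rw [eval_map_eulerPartial]
    rw [this, iteratedDeriv_polynomial_eval_zero, Polynomial.coeff_map]
    simp
  have key2 : Tendsto (fun s : Finset ℕ =>
      (m.factorial : ℂ) * (((eulerPartial s).coeff m : ℤ) : ℂ)) atTop
      (𝓝 (iteratedDeriv m (fun q : ℂ => ∏' n : ℕ, (1 - q ^ (n + 1))) 0)) :=
    key.congr hval
  exact tendsto_nhds_unique key2 ((tendsto_coeff_eulerPartial m).const_mul _)

/-- The analytic Euler product is the sum of the formal Euler product on the open unit disc. -/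
theorem hasSum_etaProd {q : ℂ} (hq : ‖q‖ < 1) :
    HasSum (fun m : ℕ => ((ModularCurve.etaProd.coeff m : ℤ) : ℂ) * q ^ m)
      (∏' n : ℕ, (1 - q ^ (n + 1))) := by
  have h := Complex.hasSum_taylorSeries_on_ball
    (f := fun q : ℂ => ∏' n : ℕ, (1 - q ^ (n + 1))) (c := 0) (r := 1)
    ModularForm.differentiableOn_tprod_one_sub_pow (z := q) (by simpa using hq)
  have heq : (fun n : ℕ => ((n.factorial : ℂ))⁻¹ • (q - 0) ^ n •
      iteratedDeriv n (fun q : ℂ => ∏' n : ℕ, (1 - q ^ (n + 1))) 0)
      = fun m : ℕ => ((ModularCurve.etaProd.coeff m : ℤ) : ℂ) * q ^ m := by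
    funext m
    rw [iteratedDeriv_tprod_one_sub_pow]
    have hm : (m.factorial : ℂ) ≠ 0 := by exact_mod_cast Nat.factorial_ne_zero m
    simp only [sub_zero, smul_eq_mul]
    field_simp
  rw [heq] at h
  exact h

end Fermat.Agent.S24.JFun

end
-- ===== PACK-END S24/JFun/EtaProd.lean

-- ===== PACK-BEGIN S37/H818/PullFunct.lean
section
/-
S37 / LEVEL TRANSFER (helper818), part 1: functoriality of the Prelude's `restrictAlong`,
`ramificationIndexAlong` and `pullbackAlong` under composition of field embeddings.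
-/



set_option autoImplicit false
set_option linter.style.haveILetI false

noncomputable section

namespace Fermat.Agent.S37.H818

open AlgebraicCurve

variable {K F G G₁ : Type*} [Field K] [Field F] [Field G] [Field G₁]
  [Algebra K F] [Algebra K G] [Algebra K G₁]

/-- Restriction of a place along a composite is the composite of the restrictions. -/
theorem restrictAlong_comp (φ : F →ₐ[K] G) (ψ : G →ₐ[K] G₁)
    (hφ : φ.toRingHom.IsIntegral) (hψ : ψ.toRingHom.IsIntegral)
    (hψφ : (ψ.comp φ).toRingHom.IsIntegral) (W : Place K G₁) :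
    W.restrictAlong (ψ.comp φ) hψφ = (W.restrictAlong ψ hψ).restrictAlong φ hφ := by
  apply Place.ext
  rfl

/-- Existence of a uniformizer in the field for a place. -/
theorem exists_ord_eq_one (v : Place K F) : ∃ f : F, f ≠ 0 ∧ v.ord f = 1 := by
  obtain ⟨π, hπ⟩ := IsDiscreteValuationRing.exists_irreducible v.toValuationSubring
  refine ⟨(π : F), ?_, v.ord_coe_irreducible hπ⟩
  simpa [ne_eq, ZeroMemClass.coe_eq_zero] using hπ.ne_zero

/-- Ramification indices are multiplicative in towers. -/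
theorem ramificationIndexAlong_comp (φ : F →ₐ[K] G) (ψ : G →ₐ[K] G₁)
    (hφ : φ.toRingHom.IsIntegral) (hψ : ψ.toRingHom.IsIntegral)
    (hψφ : (ψ.comp φ).toRingHom.IsIntegral) (W : Place K G₁) :
    Place.ramificationIndexAlong (ψ.comp φ) W =
      Place.ramificationIndexAlong ψ W *
        Place.ramificationIndexAlong φ (W.restrictAlong ψ hψ) := by
  obtain ⟨f, hf0, hf⟩ := exists_ord_eq_one ((W.restrictAlong ψ hψ).restrictAlong φ hφ)
  have h1 := Place.ord_restrictAlong (ψ.comp φ) hψφ W f
  have h2 := Place.ord_restrictAlong ψ hψ W (φ f)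
  have h3 := Place.ord_restrictAlong φ hφ (W.restrictAlong ψ hψ) f
  rw [restrictAlong_comp φ ψ hφ hψ hψφ W, hf, mul_one] at h1
  rw [hf, mul_one] at h3
  rw [h3] at h2
  have h4 : (ψ.comp φ) f = ψ (φ f) := rfl
  rw [h4, h2] at h1
  exact_mod_cast h1.symm

variable [HasPrincipalDivisors K G] [HasPrincipalDivisors K G₁]

/-- Pullback of divisors is functorial. -/
theorem pullbackAlong_comp (φ : F →ₐ[K] G) (ψ : G →ₐ[K] G₁)
    (hφ : φ.toRingHom.IsIntegral) (hψ : ψ.toRingHom.IsIntegral)
    (hψφ : (ψ.comp φ).toRingHom.IsIntegral) (D : Divisor K F) :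
    Divisor.pullbackAlong (ψ.comp φ) hψφ D =
      Divisor.pullbackAlong ψ hψ (Divisor.pullbackAlong φ hφ D) := by
  ext W
  rw [Divisor.pullbackAlong_apply, Divisor.pullbackAlong_apply, Divisor.pullbackAlong_apply,
    ramificationIndexAlong_comp φ ψ hφ hψ hψφ W, restrictAlong_comp φ ψ hφ hψ hψφ W]
  push_cast
  ring

end Fermat.Agent.S37.H818

end

end
-- ===== PACK-END S37/H818/PullFunct.lean

-- ===== PACK-BEGIN S20/Comb694/Basic.lean
section






/-!
# Combinatorics on `SL(2,ℤ) ⧸ Gamma0 N` : basic coset criterion, fixed points of `S` and `S * T`.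

Left cosets, Mathlib's left-multiplication action (`MulAction.quotient`).
-/

set_option autoImplicit false

namespace Fermat.Agent.S20.Comb694

open Matrix MatrixGroups CongruenceSubgroup

/-- The `(1,0)` entry of `g⁻¹ * g'`. -/
lemma inv_mul_apply_one_zero (g g' : SL(2, ℤ)) :
    (g⁻¹ * g') 1 0 = g 0 0 * g' 1 0 - g 1 0 * g' 0 0 := by
  rw [Matrix.SpecialLinearGroup.coe_mul, Matrix.SpecialLinearGroup.coe_inv,
    Matrix.adjugate_fin_two, Matrix.mul_apply, Fin.sum_univ_two]
  simp
  ring

/-- Coset criterion: `g Γ₀(N) = g' Γ₀(N)` iff `a c' - c a' ≡ 0 mod N`, where `(a, c)`, `(a', c')`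
are the first columns of `g`, `g'`. -/
lemma mk_eq_mk_iff (N : ℕ) (g g' : SL(2, ℤ)) :
    (QuotientGroup.mk g : SL(2, ℤ) ⧸ Gamma0 N) = QuotientGroup.mk g' ↔
      ((g 0 0 : ℤ) : ZMod N) * ((g' 1 0 : ℤ) : ZMod N)
        - ((g 1 0 : ℤ) : ZMod N) * ((g' 0 0 : ℤ) : ZMod N) = 0 := by
  rw [QuotientGroup.eq, Gamma0_mem, inv_mul_apply_one_zero]
  push_cast
  rfl

/-- Determinant relation in `ZMod N`. -/
lemma det_cast (N : ℕ) (g : SL(2, ℤ)) :
    ((g 0 0 : ℤ) : ZMod N) * ((g 1 1 : ℤ) : ZMod N)
      - ((g 0 1 : ℤ) : ZMod N) * ((g 1 0 : ℤ) : ZMod N) = 1 := by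
  have h := g.det_coe
  rw [Matrix.det_fin_two] at h
  have := congrArg (fun z : ℤ => (z : ZMod N)) h
  simpa using this

/-- Fixed-point criterion for a general element `γ`. -/
lemma smul_mk_eq_mk_iff (N : ℕ) (γ g : SL(2, ℤ)) :
    γ • (QuotientGroup.mk g : SL(2, ℤ) ⧸ Gamma0 N) = QuotientGroup.mk g ↔
      ((g 0 0 : ℤ) : ZMod N) * (((γ * g) 1 0 : ℤ) : ZMod N)
        - ((g 1 0 : ℤ) : ZMod N) * (((γ * g) 0 0 : ℤ) : ZMod N) = 0 := by
  rw [MulAction.Quotient.smul_mk, smul_eq_mul, eq_comm, mk_eq_mk_iff]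

lemma S_mul_apply_zero_zero (g : SL(2, ℤ)) : (ModularGroup.S * g) 0 0 = - g 1 0 := by
  rw [Matrix.SpecialLinearGroup.coe_mul, ModularGroup.coe_S, Matrix.mul_apply, Fin.sum_univ_two]
  simp

lemma S_mul_apply_one_zero (g : SL(2, ℤ)) : (ModularGroup.S * g) 1 0 = g 0 0 := by
  rw [Matrix.SpecialLinearGroup.coe_mul, ModularGroup.coe_S, Matrix.mul_apply, Fin.sum_univ_two]
  simp

lemma coe_S_mul_T : ((ModularGroup.S * ModularGroup.T : SL(2, ℤ)) : Matrix (Fin 2) (Fin 2) ℤ)
    = !![0, -1; 1, 1] := by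
  rw [Matrix.SpecialLinearGroup.coe_mul, ModularGroup.coe_S, ModularGroup.coe_T]
  ext i j
  fin_cases i <;> fin_cases j <;> simp [Matrix.mul_apply, Fin.sum_univ_two]

lemma ST_mul_apply_zero_zero (g : SL(2, ℤ)) :
    (ModularGroup.S * ModularGroup.T * g) 0 0 = - g 1 0 := by
  rw [Matrix.SpecialLinearGroup.coe_mul, coe_S_mul_T, Matrix.mul_apply, Fin.sum_univ_two]
  simp

lemma ST_mul_apply_one_zero (g : SL(2, ℤ)) :
    (ModularGroup.S * ModularGroup.T * g) 1 0 = g 0 0 + g 1 0 := by
  rw [Matrix.SpecialLinearGroup.coe_mul, coe_S_mul_T, Matrix.mul_apply, Fin.sum_univ_two]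
  simp

/-- `g Γ₀(N)` is fixed by `S` iff `a² + c² ≡ 0 mod N`. -/
lemma S_smul_mk_eq_mk_iff (N : ℕ) (g : SL(2, ℤ)) :
    ModularGroup.S • (QuotientGroup.mk g : SL(2, ℤ) ⧸ Gamma0 N) = QuotientGroup.mk g ↔
      ((g 0 0 : ℤ) : ZMod N) ^ 2 + ((g 1 0 : ℤ) : ZMod N) ^ 2 = 0 := by
  rw [smul_mk_eq_mk_iff, S_mul_apply_zero_zero, S_mul_apply_one_zero]
  push_cast
  constructor <;> intro h <;> linear_combination h

/-- `g Γ₀(N)` is fixed by `S * T` iff `a² + a c + c² ≡ 0 mod N`. -/
lemma ST_smul_mk_eq_mk_iff (N : ℕ) (g : SL(2, ℤ)) :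
    (ModularGroup.S * ModularGroup.T) • (QuotientGroup.mk g : SL(2, ℤ) ⧸ Gamma0 N)
        = QuotientGroup.mk g ↔
      ((g 0 0 : ℤ) : ZMod N) ^ 2 + ((g 0 0 : ℤ) : ZMod N) * ((g 1 0 : ℤ) : ZMod N)
        + ((g 1 0 : ℤ) : ZMod N) ^ 2 = 0 := by
  rw [smul_mk_eq_mk_iff, ST_mul_apply_zero_zero, ST_mul_apply_one_zero]
  push_cast
  constructor <;> intro h <;> linear_combination h

/-- The matrix `[[x, -1], [1, 0]]` in `SL(2,ℤ)`. -/
def colRep (x : ℤ) : SL(2, ℤ) := ⟨!![x, -1; 1, 0], by simp [Matrix.det_fin_two]⟩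

@[simp] lemma colRep_apply_zero_zero (x : ℤ) : colRep x 0 0 = x := rfl
@[simp] lemma colRep_apply_one_zero (x : ℤ) : colRep x 1 0 = 1 := rfl

/-- If `a² = c * r` in `ZMod N` for the first column `(a, c)` of `g ∈ SL(2,ℤ)`, then `c` has
an explicit inverse. -/
lemma c_mul_inv_eq_one (N : ℕ) (g : SL(2, ℤ)) (r : ZMod N)
    (h : ((g 0 0 : ℤ) : ZMod N) ^ 2 = ((g 1 0 : ℤ) : ZMod N) * r) :
    ((g 1 0 : ℤ) : ZMod N) *
      (r * ((g 1 1 : ℤ) : ZMod N) ^ 2
        - 2 * ((g 0 0 : ℤ) : ZMod N) * ((g 0 1 : ℤ) : ZMod N) * ((g 1 1 : ℤ) : ZMod N)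
        + ((g 0 1 : ℤ) : ZMod N) ^ 2 * ((g 1 0 : ℤ) : ZMod N)) = 1 := by
  have hdet := det_cast N g
  linear_combination (-(((g 1 1 : ℤ) : ZMod N)) ^ 2) * h
    + (((g 0 0 : ℤ) : ZMod N) * ((g 1 1 : ℤ) : ZMod N)
        - ((g 0 1 : ℤ) : ZMod N) * ((g 1 0 : ℤ) : ZMod N) + 1) * hdet

end Fermat.Agent.S20.Comb694

end
-- ===== PACK-END S20/Comb694/Basic.lean

-- ===== PACK-BEGIN Lib/HI/H864/RelNormMult.lean
section


/-!
# Lib / HI (helper864): multiplicity of a prime in a relative ideal norm

`R ⊆ S` Dedekind domains, `S` finite over `R`, `p` a maximal ideal of `R`.  For every nonzero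
ideal `I` of `S`:
`multiplicity p (relNorm R I) = ∑_{q | p} f(q | p) * multiplicity q I`.
-/

set_option autoImplicit false
set_option linter.unusedSectionVars false
set_option linter.style.haveILetI false
set_option linter.unusedVariables false

noncomputable section

open Ideal

namespace Fermat.Agent.Lib.HI.H864

section

variable {R S : Type*} [CommRing R] [IsDedekindDomain R] [CommRing S] [IsDedekindDomain S]
  [Algebra R S] [Module.Finite R S] [Module.IsTorsionFree R S]

omit [IsDedekindDomain R] [Module.Finite R S] [Module.IsTorsionFree R S] in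
theorem multiplicity_prime_prime {P Q : Ideal S} (hP : P.IsPrime) (hP0 : P ≠ ⊥)
    (hQ : Q.IsPrime) (hQ0 : Q ≠ ⊥) :
    multiplicity Q P = if Q = P then 1 else 0 := by
  split_ifs with h
  · subst h
    exact multiplicity_self
  · rw [multiplicity_eq_zero, Ideal.dvd_iff_le]
    intro hle
    have hPmax : P.IsMaximal := hP.isMaximal hP0
    exact h (hPmax.eq_of_le hQ.ne_top hle).symm

omit [IsDedekindDomain R] [Module.Finite R S] [Module.IsTorsionFree R S] [Algebra R S] in
theorem multiplicity_top {Q : Ideal S} (hQ : Q.IsPrime) : multiplicity Q (⊤ : Ideal S) = 0 := by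
  rw [multiplicity_eq_zero, Ideal.dvd_iff_le]
  intro hle
  exact hQ.ne_top (top_le_iff.mp hle)

variable [PerfectField (FractionRing R)]

theorem multiplicity_relNorm_prime (p : Ideal R) [hp : p.IsMaximal] (hp0 : p ≠ ⊥)
    [Fintype (p.primesOver S)] (P : Ideal S) (hP : P.IsPrime) (hP0 : P ≠ ⊥) :
    multiplicity p (Ideal.relNorm R P)
      = ∑ q : p.primesOver S, q.1.inertiaDeg R * multiplicity q.1 P := by
  classical
  haveI hPmax : P.IsMaximal := hP.isMaximal hP0
  set p₀ : Ideal R := P.under R with hp₀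
  haveI : P.LiesOver p₀ := ⟨rfl⟩
  haveI hp₀max : p₀.IsMaximal := Ideal.IsMaximal.under R P
  have hnorm : Ideal.relNorm R P = p₀ ^ P.inertiaDeg R := Ideal.relNorm_eq_pow_of_isMaximal P p₀
  have hq0 : ∀ q : p.primesOver S, q.1 ≠ ⊥ := by
    intro q hq
    have h1 : q.1.under R = p := (q.2.2.over).symm
    rw [hq] at h1
    apply hp0
    rw [← h1]
    exact Ideal.under_bot R S
  by_cases hpp : p₀ = p
  · have hmem : P ∈ p.primesOver S := ⟨hP, ⟨hpp.symm⟩⟩
    rw [hnorm, hpp, multiplicity_pow_self hp0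
      (fun hu => hp.ne_top (Ideal.isUnit_iff.mp hu))]
    rw [Finset.sum_eq_single (⟨P, hmem⟩ : p.primesOver S)]
    · simp
    · intro q _ hq
      rw [multiplicity_prime_prime hP hP0 q.2.1 (hq0 q), if_neg, mul_zero]
      intro h
      exact hq (Subtype.ext h)
    · intro h
      exact absurd (Finset.mem_univ _) h
  · have h1 : multiplicity p (Ideal.relNorm R P) = 0 := by
      rw [multiplicity_eq_zero, Ideal.dvd_iff_le, hnorm]
      intro hle
      have h2 : p₀ ≤ p := hp.isPrime.le_of_pow_le hle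
      exact hpp (hp₀max.eq_of_le hp.ne_top h2)
    rw [h1, eq_comm]
    refine Finset.sum_eq_zero fun q _ => ?_
    rw [multiplicity_prime_prime hP hP0 q.2.1 (hq0 q), if_neg, mul_zero]
    intro h
    apply hpp
    have h3 : q.1.under R = p := (q.2.2.over).symm
    rw [hp₀, ← h, h3]

theorem multiplicity_relNorm_eq_sum (p : Ideal R) [hp : p.IsMaximal] (hp0 : p ≠ ⊥)
    [Fintype (p.primesOver S)] (I : Ideal S) (hI : I ≠ ⊥) :
    multiplicity p (Ideal.relNorm R I)
      = ∑ q : p.primesOver S, q.1.inertiaDeg R * multiplicity q.1 I := by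
  classical
  have hpprime : Prime p := Ideal.prime_of_isPrime hp0 hp.isPrime
  have hq0 : ∀ q : p.primesOver S, q.1 ≠ ⊥ := by
    intro q hq
    have h1 : q.1.under R = p := (q.2.2.over).symm
    rw [hq] at h1
    apply hp0
    rw [← h1]
    exact Ideal.under_bot R S
  revert hI
  refine UniqueFactorizationMonoid.induction_on_prime
    (P := fun I : Ideal S => I ≠ ⊥ →
      multiplicity p (Ideal.relNorm R I)
        = ∑ q : p.primesOver S, q.1.inertiaDeg R * multiplicity q.1 I) I ?_ ?_ ?_
  · intro h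
    exact absurd rfl h
  · intro J hJ _
    rw [Ideal.isUnit_iff] at hJ
    subst hJ
    rw [Ideal.relNorm_top, multiplicity_top hp.isPrime, eq_comm]
    refine Finset.sum_eq_zero fun q _ => ?_
    rw [multiplicity_top q.2.1, mul_zero]
  · intro J P hJ hP ih _
    have hJ' : J ≠ ⊥ := hJ
    have hPprime : P.IsPrime := Ideal.isPrime_of_prime hP
    have hP0 : P ≠ ⊥ := hP.ne_zero
    have hfin : FiniteMultiplicity p (Ideal.relNorm R P * Ideal.relNorm R J) := by
      apply FiniteMultiplicity.of_prime_left hpprime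
      rw [Ne, mul_eq_zero, not_or]
      constructor
      · rw [Ideal.zero_eq_bot, Ideal.relNorm_eq_bot_iff]; exact hP0
      · rw [Ideal.zero_eq_bot, Ideal.relNorm_eq_bot_iff]; exact hJ'
    rw [map_mul, multiplicity_mul hpprime hfin, ih hJ', multiplicity_relNorm_prime p hp0 P hPprime hP0,
      ← Finset.sum_add_distrib]
    refine Finset.sum_congr rfl fun q _ => ?_
    have hqprime : Prime q.1 := Ideal.prime_of_isPrime (hq0 q) q.2.1
    have hfin' : FiniteMultiplicity q.1 (P * J) :=
      FiniteMultiplicity.of_prime_left hqprime (mul_ne_zero hP0 hJ')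
    rw [multiplicity_mul hqprime hfin', mul_add]

end

end Fermat.Agent.Lib.HI.H864

end
end
-- ===== PACK-END Lib/HI/H864/RelNormMult.lean

-- ===== PACK-BEGIN Lib/Cheb/Spec.lean
section



/-!
# Shared library CHEB — frozen interface statements

Tier 1 ("FROB", Frobenius' density theorem, qualitative): every `σ ∈ Gal(ℚ̄/ℚ)` generates, on any
finite extension, the same cyclic group as some Frobenius element at a prime outside a given
finite set.  Needs only the simple pole of Dedekind zeta functions.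

Tier 2 (exact qualitative Chebotarev): `σ` itself is a Frobenius.  Needs Dirichlet `L`-series
over number fields (statement `CycStatement`).

All blocks prove one of the `Prop`s below, e.g. `theorem primeSum : Spec.PrimeSumStatement`.
Plan, owners, status: `coord/CHEB.md` on branch `origin/helper993`.
-/

set_option autoImplicit false

open NumberField
open scoped Pointwise

namespace Fermat.Agent.Lib.Cheb.Spec

/-- `ℚ̄`. -/
abbrev Qb : Type := AlgebraicClosure ℚ

/-- `Gal(ℚ̄/ℚ)`. -/
abbrev GQ : Type := Qb ≃ₐ[ℚ] Qb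

/-- Number of prime ideals of `𝓞 F` of absolute norm `p` (the degree-one primes above `p`). -/
noncomputable def primeCount (F : Type) [Field F] [NumberField F] (p : ℕ) : ℕ :=
  Nat.card {𝔮 : Ideal (𝓞 F) // 𝔮.IsPrime ∧ Ideal.absNorm 𝔮 = p}

/-- The decomposition group of a prime `P` of `𝓞 L` in `Gal(L/ℚ)`. -/
abbrev decomp (L : Type) [Field L] [NumberField L] (P : Ideal (𝓞 L)) :
    Subgroup (L ≃ₐ[ℚ] L) :=
  MulAction.stabilizer (L ≃ₐ[ℚ] L) P

/-- The primes `P` of `𝓞 L` above `p` whose decomposition group is contained in `H`. -/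
def primesLe (L : Type) [Field L] [NumberField L] (H : Subgroup (L ≃ₐ[ℚ] L)) (p : ℕ) :
    Set (Ideal (𝓞 L)) :=
  {P | P.IsPrime ∧ (p : 𝓞 L) ∈ P ∧ decomp L P ≤ H}

/-- `∑_{P ∣ p, D_P ≤ H} |D_P|`. -/
noncomputable def decompWeight (L : Type) [Field L] [NumberField L]
    (H : Subgroup (L ≃ₐ[ℚ] L)) (p : ℕ) : ℕ :=
  ∑ᶠ P : primesLe L H p, Nat.card (decomp L P.1)

/-- The inertia group of `P` is trivial. -/
def InertiaTrivial (L : Type) [Field L] [NumberField L] (P : Ideal (𝓞 L)) : Prop :=
  ∀ ι : L ≃ₐ[ℚ] L, (∀ x : 𝓞 L, ι • x - x ∈ P) → ι = 1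

/-! ## Tier 1 -/

/-- (Z) = F1 = W1: prime sums of degree-one primes, any number field. -/
def PrimeSumStatement : Prop :=
  ∀ (F : Type) [Field F] [NumberField F], ∃ C : ℝ, ∀ s : ℝ, 1 < s → s ≤ 2 →
    |(∑' p : Nat.Primes, (primeCount F p : ℝ) * (p : ℝ) ^ (-s)) - Real.log (1 / (s - 1))| ≤ C

/-- (B0): at most `[F:ℚ]` primes of norm `p`. -/
def PrimeCountBoundStatement : Prop :=
  ∀ (F : Type) [Field F] [NumberField F] (p : ℕ), primeCount F p ≤ Module.finrank ℚ F

/-- (A) = F2+F3: degree-one primes of the fixed field `L^H` versus decomposition groups. -/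
def CountStatement : Prop :=
  ∀ (L : Type) [Field L] [NumberField L] [IsGalois ℚ L] (H : Subgroup (L ≃ₐ[ℚ] L)),
    ∃ B : Finset ℕ, ∀ p : ℕ, p.Prime → p ∉ B →
      primeCount (IntermediateField.fixedField H) p * Nat.card H = decompWeight L H p

/-- (D) = F5: outside a finite set of primes the decomposition group is generated by an
arithmetic Frobenius and the inertia group is trivial. -/
def FrobStatement : Prop :=
  ∀ (L : Type) [Field L] [NumberField L] [IsGalois ℚ L],
    ∃ B : Finset ℕ, ∀ p : ℕ, p.Prime → p ∉ B →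
      ∀ P : Ideal (𝓞 L), P.IsPrime → (p : 𝓞 L) ∈ P →
        InertiaTrivial L P ∧
        ∃ τ : L ≃ₐ[ℚ] L, IsArithFrobAt ℤ τ P ∧ decomp L P = Subgroup.zpowers τ

/-- (M) = F4: finite-level Frobenius density theorem (qualitative). -/
def FrobFiniteStatement : Prop :=
  ∀ (L : Type) [Field L] [NumberField L] [IsGalois ℚ L] (σ : L ≃ₐ[ℚ] L) (S : Finset ℕ),
    ∃ (p : ℕ) (P : Ideal (𝓞 L)) (τ : L ≃ₐ[ℚ] L),
      p.Prime ∧ p ∉ S ∧ P.IsPrime ∧ (p : 𝓞 L) ∈ P ∧ InertiaTrivial L P ∧
      IsArithFrobAt ℤ τ P ∧ Subgroup.zpowers τ = Subgroup.zpowers σ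

/-- FROB, Prelude level: on every finite extension `E` of `ℚ` inside `ℚ̄`, `σ` and some Frobenius
element `τ` (at a prime `ℓ ∉ S`, with inertia acting trivially on `E`) are powers of each other. -/
def FrobeniusDivisionStatement : Prop :=
  ∀ (E : IntermediateField ℚ Qb), FiniteDimensional ℚ E → ∀ (σ : GQ) (S : Finset ℕ),
    ∃ (ℓ : ℕ) (A : ValuationSubring Qb) (τ : GQ) (k j : ℕ),
      ℓ.Prime ∧ ℓ ∉ S ∧ A.LiesOverPrime ℓ ∧ A.IsFrobeniusAt τ ℓ ∧
      (∀ ι ∈ A.inertiaSubgroupIn ℚ, ∀ x ∈ E, ι x = x) ∧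
      (∀ x ∈ E, τ x = (σ ^ k) x) ∧ (∀ x ∈ E, (τ ^ j) x = σ x)

/-- F6 = W5 (bridge), Tier 1. -/
def BridgeDivisionStatement : Prop :=
  FrobFiniteStatement → FrobeniusDivisionStatement

/-! ## Tier 2 -/

/-- Number of ideals of `𝓞 F` of absolute norm `n`. -/
noncomputable def idealCount (F : Type) [Field F] [NumberField F] (n : ℕ) : ℕ :=
  Nat.card {I : Ideal (𝓞 F) // Ideal.absNorm I = n}

/-- (AN) analytic core of Tier 2: for a Dirichlet character `χ` mod `m` such that `χ ∘ N` is not
trivial on the ideals of `𝓞 F` prime to `m`, the series `L_F(s, χ ∘ N) = ∑_I χ(N I) N I ^ (-s)`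
has a limit as `s → 1⁺`. -/
def DirichletLimitStatement : Prop :=
  ∀ (F : Type) [Field F] [NumberField F] (m : ℕ) [NeZero m] (χ : DirichletCharacter ℂ m),
    (∃ I : Ideal (𝓞 F), χ (Ideal.absNorm I : ZMod m) ≠ 0 ∧ χ (Ideal.absNorm I : ZMod m) ≠ 1) →
    ∃ c : ℂ, Filter.Tendsto
      (fun s : ℝ => LSeries (fun n => χ (n : ZMod m) * (idealCount F n : ℂ)) (s : ℂ))
      (nhdsWithin 1 (Set.Ioi 1)) (nhds c)

/-- (CYC) cyclotomic case, stated inside a Galois number field `L ∋ ζ_m`: if the cyclic group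
`⟨g⟩` acts faithfully on `ζ`, then `g` is an arithmetic Frobenius at a prime outside `S`. -/
def CycStatement : Prop :=
  ∀ (L : Type) [Field L] [NumberField L] [IsGalois ℚ L] (m : ℕ) (ζ : L), 0 < m →
    IsPrimitiveRoot ζ m → ∀ g : L ≃ₐ[ℚ] L, (∀ k : ℕ, (g ^ k) ζ = ζ → g ^ k = 1) →
    ∀ S : Finset ℕ, ∃ (p : ℕ) (P : Ideal (𝓞 L)),
      p.Prime ∧ p ∉ S ∧ P.IsPrime ∧ (p : 𝓞 L) ∈ P ∧ InertiaTrivial L P ∧ IsArithFrobAt ℤ g P

/-- Finite-level qualitative Chebotarev. -/
def ChebFiniteStatement : Prop :=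
  ∀ (L : Type) [Field L] [NumberField L] [IsGalois ℚ L] (σ : L ≃ₐ[ℚ] L) (S : Finset ℕ),
    ∃ (p : ℕ) (P : Ideal (𝓞 L)),
      p.Prime ∧ p ∉ S ∧ P.IsPrime ∧ (p : 𝓞 L) ∈ P ∧ InertiaTrivial L P ∧ IsArithFrobAt ℤ σ P

/-- (CROSS) field crossing (may use (D) to discard ramified primes). -/
def CrossStatement : Prop :=
  FrobStatement → CycStatement → ChebFiniteStatement

/-- Qualitative Chebotarev, Prelude level. -/
def ChebotarevStatement : Prop :=
  ∀ (E : IntermediateField ℚ Qb), FiniteDimensional ℚ E → ∀ (σ : GQ) (S : Finset ℕ),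
    ∃ (ℓ : ℕ) (A : ValuationSubring Qb) (τ : GQ),
      ℓ.Prime ∧ ℓ ∉ S ∧ A.LiesOverPrime ℓ ∧ A.IsFrobeniusAt τ ℓ ∧
      (∀ ι ∈ A.inertiaSubgroupIn ℚ, ∀ x ∈ E, ι x = x) ∧ (∀ x ∈ E, τ x = σ x)

/-- Bridge, Tier 2. -/
def BridgeStatement : Prop :=
  ChebFiniteStatement → ChebotarevStatement

end Fermat.Agent.Lib.Cheb.Spec

end
-- ===== PACK-END Lib/Cheb/Spec.lean

-- ===== PACK-BEGIN Lib/FrobRel/H230Translate.lean
section


/-!
# Translation automorphisms of the function field of a Weierstrass curve (helper230)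

Setting: `W` a Weierstrass curve over a commutative ring `R`, `k` a field over `R` with
`(W⁄k).Δ ≠ 0`, `FF W k = (W⁄k).FunctionField`, `P₀ = (x, y)` the tautological ("generic")
point of `W` over `FF W k`.

* `sigma`: for a field `L` over `k` and a point `(x', y')` of `W` over `L` with `x'`
  transcendental over `k`, the `k`-algebra homomorphism `FF W k →ₐ[k] L` sending the generic
  point to `(x', y')`.
* `exists_translation`: if `κ` is algebraically closed, then for every `T : (W⁄κ).Point` there is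
  a `κ`-algebra endomorphism `σ` of `FF W κ` with `Point.map σ P₀ = P₀ + T`.
* `eq_zero_of_generic_const`: a family of additive endomorphisms of the points of `W` that
  commutes with `Point.map` and sends the generic point to a constant point vanishes on every
  `κ`-point.
-/

open WeierstrassCurve Polynomial
open scoped Polynomial.Bivariate WeierstrassCurve.Affine

namespace Fermat.Agent.Lib.FrobRel.H230

universe u v w

variable {R : Type u} [CommRing R] (W : WeierstrassCurve R) (k : Type v) [Field k] [Algebra R k]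

/-- The function field of `W` over `k`. -/
abbrev FF : Type v := (W⁄k).FunctionField

/-- The coordinate ring of `W` over `k`. -/
abbrev CR : Type v := (W⁄k).CoordinateRing

/-- The `x`-coordinate of the generic point. -/
noncomputable def gx : FF W k :=
  algebraMap (CR W k) (FF W k) (Affine.CoordinateRing.mk (W⁄k) (C X))

/-- The `y`-coordinate of the generic point. -/
noncomputable def gy : FF W k :=
  algebraMap (CR W k) (FF W k) (Affine.CoordinateRing.mk (W⁄k) Y)

lemma algebraMap_FF_eq (c : k) :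
    algebraMap k (FF W k) c
      = algebraMap (CR W k) (FF W k) (Affine.CoordinateRing.mk (W⁄k) (C (C c))) := by
  rw [IsScalarTower.algebraMap_apply k (CR W k) (FF W k)]
  rfl

/-- The Weierstrass relation in the coordinate ring. -/
lemma mk_relation :
    (Affine.CoordinateRing.mk (W⁄k) Y) ^ 2
      + Affine.CoordinateRing.mk (W⁄k) (C (C ((W⁄k).a₁))) * Affine.CoordinateRing.mk (W⁄k) (C X)
          * Affine.CoordinateRing.mk (W⁄k) Y
      + Affine.CoordinateRing.mk (W⁄k) (C (C ((W⁄k).a₃))) * Affine.CoordinateRing.mk (W⁄k) Y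
    = (Affine.CoordinateRing.mk (W⁄k) (C X)) ^ 3
      + Affine.CoordinateRing.mk (W⁄k) (C (C ((W⁄k).a₂)))
          * (Affine.CoordinateRing.mk (W⁄k) (C X)) ^ 2
      + Affine.CoordinateRing.mk (W⁄k) (C (C ((W⁄k).a₄))) * Affine.CoordinateRing.mk (W⁄k) (C X)
      + Affine.CoordinateRing.mk (W⁄k) (C (C ((W⁄k).a₆))) := by
  have h : Affine.CoordinateRing.mk (W⁄k)
      (Y ^ 2 + C (C (W⁄k).a₁ * X + C (W⁄k).a₃) * Y
        - C (X ^ 3 + C (W⁄k).a₂ * X ^ 2 + C (W⁄k).a₄ * X + C (W⁄k).a₆)) = 0 :=
    AdjoinRoot.mk_self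
  simp only [map_add, map_sub, map_mul, map_pow] at h
  rw [← sub_eq_zero]
  rw [← h]
  ring

/-! ### Coefficients of base changes along a tower -/

section Tower

variable {k}
variable (L : Type w) [Field L] [Algebra R L] [Algebra k L] [IsScalarTower R k L]

lemma algebraMap_tower (c : R) : algebraMap R L c = algebraMap k L (algebraMap R k c) :=
  IsScalarTower.algebraMap_apply R k L c

lemma baseChange_a₁ : (W⁄L).a₁ = algebraMap k L (W⁄k).a₁ := algebraMap_tower L W.a₁

lemma baseChange_a₂ : (W⁄L).a₂ = algebraMap k L (W⁄k).a₂ := algebraMap_tower L W.a₂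

lemma baseChange_a₃ : (W⁄L).a₃ = algebraMap k L (W⁄k).a₃ := algebraMap_tower L W.a₃

lemma baseChange_a₄ : (W⁄L).a₄ = algebraMap k L (W⁄k).a₄ := algebraMap_tower L W.a₄

lemma baseChange_a₆ : (W⁄L).a₆ = algebraMap k L (W⁄k).a₆ := algebraMap_tower L W.a₆

lemma baseChange_eq_map : (W⁄L) = (W⁄k).map (algebraMap k L) :=
  (Affine.map_baseChange (R := R) (S := k) (A := k) (B := L) W (Algebra.ofId k L)).symm

lemma baseChange_Δ_ne_zero (hΔ : (W⁄k).Δ ≠ 0) : (W⁄L).Δ ≠ 0 := by
  rw [baseChange_eq_map (k := k)]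
  show (WeierstrassCurve.map (W⁄k) (algebraMap k L)).Δ ≠ 0
  rw [WeierstrassCurve.map_Δ]
  exact (map_ne_zero_iff _ (algebraMap k L).injective).mpr hΔ

end Tower

/-! ### The generic point -/

lemma generic_equation : (W⁄(FF W k)).Equation (gx W k) (gy W k) := by
  rw [Affine.equation_iff]
  have h := congrArg (algebraMap (CR W k) (FF W k)) (mk_relation W k)
  simp only [map_add, map_mul, map_pow, ← algebraMap_FF_eq] at h
  rw [baseChange_a₁ (k := k), baseChange_a₂ (k := k), baseChange_a₃ (k := k),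
    baseChange_a₄ (k := k), baseChange_a₆ (k := k)]
  exact h

lemma gx_eq_algebraMap_X : gx W k = algebraMap k[X] (FF W k) X := by
  rw [IsScalarTower.algebraMap_apply k[X] (CR W k) (FF W k)]
  rfl

lemma algebraMap_poly_FF_injective : Function.Injective (algebraMap k[X] (FF W k)) := by
  rw [IsScalarTower.algebraMap_eq k[X] (CR W k) (FF W k)]
  exact (IsFractionRing.injective (CR W k) (FF W k)).comp
    (FaithfulSMul.algebraMap_injective k[X] (CR W k))

/-- The `x`-coordinate of the generic point is transcendental over the base field. -/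
lemma gx_transcendental : Transcendental k (gx W k) := by
  rw [gx_eq_algebraMap_X]
  exact (transcendental_algebraMap_iff (algebraMap_poly_FF_injective W k)).mpr
    (Polynomial.transcendental_X k)

/-- The `x`-coordinate of the generic point is not a constant. -/
lemma gx_not_const (c : k) : gx W k ≠ algebraMap k (FF W k) c := by
  intro h
  exact gx_transcendental W k (h ▸ isAlgebraic_algebraMap c)

lemma generic_nonsingular (hΔ : (W⁄k).Δ ≠ 0) :
    (W⁄(FF W k)).Nonsingular (gx W k) (gy W k) :=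
  (Affine.equation_iff_nonsingular_of_Δ_ne_zero (baseChange_Δ_ne_zero W (FF W k) hΔ)).mp
    (generic_equation W k)

/-- The generic point of `W` over the function field of `W⁄k`. -/
noncomputable def genericPoint (hΔ : (W⁄k).Δ ≠ 0) : (W⁄(FF W k)).Point :=
  Affine.Point.some (gx W k) (gy W k) (generic_nonsingular W k hΔ)

/-! ### The homomorphism attached to a point with transcendental `x`-coordinate -/

section Lift

variable {W}
variable {L : Type w} [Field L] [Algebra R L] [Algebra k L] [IsScalarTower R k L]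
variable {x' y' : L}

lemma eval₂_polynomial_eq_zero (heq : (W⁄L).Equation x' y') :
    ((W⁄k).polynomial).eval₂ ((Polynomial.aeval x' : k[X] →ₐ[k] L) : k[X] →+* L) y' = 0 := by
  rw [Affine.equation_iff] at heq
  rw [baseChange_a₁ (k := k), baseChange_a₂ (k := k), baseChange_a₃ (k := k),
    baseChange_a₄ (k := k), baseChange_a₆ (k := k)] at heq
  show (Y ^ 2 + C (C (W⁄k).a₁ * X + C (W⁄k).a₃) * Y
        - C (X ^ 3 + C (W⁄k).a₂ * X ^ 2 + C (W⁄k).a₄ * X + C (W⁄k).a₆) : k[X][Y]).eval₂
      ((Polynomial.aeval x' : k[X] →ₐ[k] L) : k[X] →+* L) y' = 0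
  simp only [eval₂_add, eval₂_sub, eval₂_mul, eval₂_pow, eval₂_X, eval₂_C, RingHom.coe_coe,
    map_add, map_mul, map_pow, aeval_X, aeval_C]
  linear_combination heq

/-- The `k`-algebra homomorphism from the coordinate ring sending `(X, Y)` to `(x', y')`. -/
noncomputable def liftCR (heq : (W⁄L).Equation x' y') : CR W k →ₐ[k] L :=
  AdjoinRoot.liftAlgHom (W⁄k).polynomial (Polynomial.aeval x' : k[X] →ₐ[k] L) y'
    (eval₂_polynomial_eq_zero k heq)

lemma liftCR_mk (heq : (W⁄L).Equation x' y') (f : k[X][Y]) :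
    liftCR k heq (Affine.CoordinateRing.mk (W⁄k) f)
      = f.eval₂ ((Polynomial.aeval x' : k[X] →ₐ[k] L) : k[X] →+* L) y' :=
  AdjoinRoot.liftAlgHom_mk _ _ _ _ f

lemma liftCR_C (heq : (W⁄L).Equation x' y') (p : k[X]) :
    liftCR k heq (Affine.CoordinateRing.mk (W⁄k) (C p)) = Polynomial.aeval x' p := by
  rw [liftCR_mk, eval₂_C]; rfl

lemma liftCR_X (heq : (W⁄L).Equation x' y') :
    liftCR k heq (Affine.CoordinateRing.mk (W⁄k) (C X)) = x' := by
  rw [liftCR_C, aeval_X]

lemma liftCR_Y (heq : (W⁄L).Equation x' y') :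
    liftCR k heq (Affine.CoordinateRing.mk (W⁄k) Y) = y' := by
  rw [liftCR_mk, eval₂_X]

lemma liftCR_injective (heq : (W⁄L).Equation x' y') (hx : Transcendental k x') :
    Function.Injective (liftCR k heq) := by
  rw [injective_iff_map_eq_zero]
  intro z hz
  obtain ⟨p, q, rfl⟩ := Affine.CoordinateRing.exists_smul_basis_eq z
  by_contra hne
  have : Module.Finite k[X] (CR W k) :=
    Module.Finite.of_basis (Affine.CoordinateRing.basis (W⁄k))
  have hN : Algebra.norm k[X] (p • (1 : CR W k) + q • Affine.CoordinateRing.mk (W⁄k) Y) ≠ 0 :=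
    Algebra.norm_ne_zero_iff.mpr hne
  have hcoe := Affine.CoordinateRing.coe_norm_smul_basis (W' := W⁄k) p q
  have hfac : Affine.CoordinateRing.mk (W⁄k) (C p + C q * Y)
      = p • (1 : CR W k) + q • Affine.CoordinateRing.mk (W⁄k) Y := by
    simp only [Affine.CoordinateRing.smul, map_add, map_mul, mul_one]
  have h0 : Polynomial.aeval x'
      (Algebra.norm k[X] (p • (1 : CR W k) + q • Affine.CoordinateRing.mk (W⁄k) Y)) = 0 := by
    rw [← liftCR_C k heq]
    have h1 : Affine.CoordinateRing.mk (W⁄k) (C (Algebra.norm k[X]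
        (p • (1 : CR W k) + q • Affine.CoordinateRing.mk (W⁄k) Y)))
        = Affine.CoordinateRing.mk (W⁄k) ((C p + C q * X) *
            (C p + C q * (-(Y : k[X][Y]) - C (C (W⁄k).a₁ * X + C (W⁄k).a₃)))) := hcoe
    rw [h1, map_mul, map_mul, hfac, hz, zero_mul]
  exact hx ⟨_, hN, h0⟩

/-- The `k`-algebra homomorphism from the function field of `W⁄k` to `L` sending the generic
point `(x, y)` to a point `(x', y')` with `x'` transcendental over `k`. -/
noncomputable def sigma (heq : (W⁄L).Equation x' y') (hx : Transcendental k x') :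
    FF W k →ₐ[k] L :=
  IsFractionRing.liftAlgHom (g := liftCR k heq) (liftCR_injective k heq hx)

lemma sigma_gx (heq : (W⁄L).Equation x' y') (hx : Transcendental k x') :
    sigma k heq hx (gx W k) = x' := by
  rw [sigma, IsFractionRing.liftAlgHom_apply, gx, IsFractionRing.lift_algebraMap]
  exact liftCR_X k heq

lemma sigma_gy (heq : (W⁄L).Equation x' y') (hx : Transcendental k x') :
    sigma k heq hx (gy W k) = y' := by
  rw [sigma, IsFractionRing.liftAlgHom_apply, gy, IsFractionRing.lift_algebraMap]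
  exact liftCR_Y k heq

/-- `Point.map (sigma ..)` sends the generic point to the given point. -/
lemma map_sigma_genericPoint [DecidableEq (FF W k)] [DecidableEq L] (hΔ : (W⁄k).Δ ≠ 0)
    (h : (W⁄L).Nonsingular x' y') (hx : Transcendental k x') :
    Affine.Point.map (W' := W) (sigma k h.1 hx) (genericPoint W k hΔ)
      = Affine.Point.some x' y' h := by
  rw [genericPoint, Affine.Point.map_some]
  congr 1
  · exact sigma_gx k h.1 hx
  · exact sigma_gy k h.1 hx

end Lift

/-! ### Algebraically closed base field: constant points -/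

section AlgClosed

variable (κ : Type v) [Field κ] [Algebra R κ]
variable {L : Type w} [Field L] [Algebra R L] [Algebra κ L] [IsScalarTower R κ L]

lemma mem_range_of_isAlgebraic [IsAlgClosed κ] {x' : L} (halg : IsAlgebraic κ x') :
    ∃ c : κ, x' = algebraMap κ L c := by
  have hint : IsIntegral κ x' := halg.isIntegral
  have hdeg := IsAlgClosed.degree_eq_one_of_irreducible κ (minpoly.irreducible hint)
  obtain ⟨c, hc⟩ := minpoly.mem_range_of_degree_eq_one κ x' hdeg
  exact ⟨c, hc.symm⟩

lemma transcendental_of_not_const [IsAlgClosed κ] {x' : L}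
    (hx : ∀ c : κ, x' ≠ algebraMap κ L c) : Transcendental κ x' := by
  intro halg
  obtain ⟨c, hc⟩ := mem_range_of_isAlgebraic κ halg
  exact hx c hc

lemma exists_y_const [IsAlgClosed κ] {x' y' : L} (h : (W⁄L).Equation x' y') (c : κ)
    (hc : x' = algebraMap κ L c) : ∃ d : κ, y' = algebraMap κ L d := by
  rw [Affine.equation_iff] at h
  set u : κ := (W⁄κ).a₁ * c + (W⁄κ).a₃ with hu
  set v : κ := c ^ 3 + (W⁄κ).a₂ * c ^ 2 + (W⁄κ).a₄ * c + (W⁄κ).a₆ with hv
  obtain ⟨d, hd⟩ : ∃ d : κ, d ^ 2 + u * d - v = 0 := by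
    have hdeg : (X ^ 2 + C u * X - C v : κ[X]).degree ≠ 0 := by
      have : (X ^ 2 + C u * X - C v : κ[X]).degree = 2 := by
        compute_degree!
      rw [this]; decide
    obtain ⟨d, hd⟩ := IsAlgClosed.exists_root (X ^ 2 + C u * X - C v : κ[X]) hdeg
    exact ⟨d, by simpa using hd⟩
  have hprod : (y' - algebraMap κ L d) * (y' + algebraMap κ L (u + d)) = 0 := by
    have hd' := congrArg (algebraMap κ L) hd
    simp only [map_add, map_sub, map_mul, map_pow, map_zero, hu, hv] at hd' ⊢
    rw [baseChange_a₁ (k := κ), baseChange_a₂ (k := κ), baseChange_a₃ (k := κ),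
      baseChange_a₄ (k := κ), baseChange_a₆ (k := κ), hc] at h
    linear_combination h - hd'
  rcases mul_eq_zero.mp hprod with h1 | h1
  · exact ⟨d, sub_eq_zero.mp h1⟩
  · exact ⟨-(u + d), by rw [map_neg]; exact eq_neg_of_add_eq_zero_left h1⟩

end AlgClosed

/-! ### Translation automorphisms -/

section Translation

variable (κ : Type v) [Field κ] [Algebra R κ] [DecidableEq κ] [DecidableEq (FF W κ)]

/-- The base change map on points from `κ` to the function field. -/
noncomputable abbrev bc : (W⁄κ).Point →+ (W⁄(FF W κ)).Point :=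
  Affine.Point.baseChange (W' := W) κ (FF W κ)

lemma bc_some {c d : κ} (h : (W⁄κ).Nonsingular c d) :
    bc W κ (Affine.Point.some c d h)
      = Affine.Point.some (algebraMap κ (FF W κ) c) (algebraMap κ (FF W κ) d)
          ((Affine.baseChange_nonsingular (W := W) (f := Algebra.ofId κ (FF W κ))
            (Algebra.ofId κ (FF W κ)).injective c d).mpr h) :=
  rfl

lemma bc_injective : Function.Injective (bc W κ) :=
  Affine.Point.map_injective (W' := W) (Algebra.ofId κ (FF W κ))

lemma exists_of_x_const [IsAlgClosed κ] {x' y' : FF W κ}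
    (h : (W⁄(FF W κ)).Nonsingular x' y') (c : κ) (hc : x' = algebraMap κ (FF W κ) c) :
    ∃ T : (W⁄κ).Point, Affine.Point.some x' y' h = bc W κ T := by
  obtain ⟨d, hd⟩ := exists_y_const W κ h.1 c hc
  subst hc hd
  have h' : (W⁄κ).Nonsingular c d :=
    (Affine.baseChange_nonsingular (W := W) (f := Algebra.ofId κ (FF W κ))
      (Algebra.ofId κ (FF W κ)).injective c d).mp h
  exact ⟨Affine.Point.some c d h', rfl⟩

/-- The generic point is not a constant point. -/
lemma generic_ne_bc (hΔ : (W⁄κ).Δ ≠ 0) (T : (W⁄κ).Point) : genericPoint W κ hΔ ≠ bc W κ T := by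
  rcases T with _ | ⟨c, d, hcd⟩
  · intro h
    exact Affine.Point.some_ne_zero _ h
  · intro h
    rw [bc_some, genericPoint] at h
    have := (Affine.Point.some.injEq ..).mp h
    exact gx_not_const W κ c this.1

/-- The translate of the generic point by a constant point is an affine point whose
`x`-coordinate is not constant. -/
lemma generic_add_bc [IsAlgClosed κ] (hΔ : (W⁄κ).Δ ≠ 0) (T : (W⁄κ).Point) :
    ∃ (x' y' : FF W κ) (h : (W⁄(FF W κ)).Nonsingular x' y'),
      genericPoint W κ hΔ + bc W κ T = Affine.Point.some x' y' h ∧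
      ∀ c : κ, x' ≠ algebraMap κ (FF W κ) c := by
  rcases hQ : genericPoint W κ hΔ + bc W κ T with _ | ⟨x', y', h⟩
  · exfalso
    have h0 : genericPoint W κ hΔ + bc W κ T = 0 := hQ
    have : genericPoint W κ hΔ = bc W κ (-T) := by
      rw [map_neg]
      exact eq_neg_of_add_eq_zero_left h0
    exact generic_ne_bc W κ hΔ _ this
  · refine ⟨x', y', h, rfl, fun c hc => ?_⟩
    obtain ⟨Q₀, hQ₀⟩ := exists_of_x_const W κ h c hc
    have : genericPoint W κ hΔ = bc W κ (Q₀ - T) := by
      rw [map_sub, ← hQ₀, ← hQ, add_sub_cancel_right]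
    exact generic_ne_bc W κ hΔ _ this

variable [IsAlgClosed κ]

/-- **Translation automorphism.** For every `κ`-point `T` there is a `κ`-algebra endomorphism
`σ` of the function field such that `σ` maps the generic point `P₀` to `P₀ + T`. -/
theorem exists_translation (hΔ : (W⁄κ).Δ ≠ 0) (T : (W⁄κ).Point) :
    ∃ σ : FF W κ →ₐ[κ] FF W κ,
      Affine.Point.map (W' := W) σ (genericPoint W κ hΔ) = genericPoint W κ hΔ + bc W κ T := by
  obtain ⟨x', y', h, hQ, hx⟩ := generic_add_bc W κ hΔ T
  exact ⟨sigma κ h.1 (transcendental_of_not_const κ hx),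
    (map_sigma_genericPoint κ hΔ h _).trans hQ.symm⟩

/-- **Generic to all points (abstract form).** Let `ψK`, `ψκ` be additive endomorphisms of the
points of `W` over the function field and over `κ`, such that `ψK` commutes with `Point.map σ`
for every `κ`-algebra endomorphism `σ` of the function field, and `ψK` restricts to `ψκ` on
constant points. If `ψK` sends the generic point to a constant point, then `ψκ = 0`. -/
theorem eq_zero_of_generic_const (hΔ : (W⁄κ).Δ ≠ 0)
    (ψK : (W⁄(FF W κ)).Point →+ (W⁄(FF W κ)).Point) (ψκ : (W⁄κ).Point →+ (W⁄κ).Point)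
    (hnat : ∀ (σ : FF W κ →ₐ[κ] FF W κ) (P : (W⁄(FF W κ)).Point),
      ψK (Affine.Point.map (W' := W) σ P) = Affine.Point.map (W' := W) σ (ψK P))
    (hbc : ∀ T : (W⁄κ).Point, ψK (bc W κ T) = bc W κ (ψκ T))
    (C : (W⁄κ).Point) (hC : ψK (genericPoint W κ hΔ) = bc W κ C) (T : (W⁄κ).Point) :
    ψκ T = 0 := by
  obtain ⟨σ, hσ⟩ := exists_translation W κ hΔ T
  have h1 : ψK (genericPoint W κ hΔ + bc W κ T) = ψK (genericPoint W κ hΔ) := by
    rw [← hσ, hnat, hC]
    exact Affine.Point.map_baseChange (W' := W) σ C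
  rw [map_add, hbc] at h1
  have h2 : bc W κ (ψκ T) = 0 := by
    have := congrArg (fun P => P - ψK (genericPoint W κ hΔ)) h1
    simpa using this
  exact bc_injective W κ (h2.trans (map_zero _).symm)

end Translation

end Fermat.Agent.Lib.FrobRel.H230

end
-- ===== PACK-END Lib/FrobRel/H230Translate.lean

-- ===== PACK-BEGIN S52/H621/RatDeg.lean
section


/-!
# S52 / Part A (Frobenius relation, Manin's proof): degree of a rational function

`ratDeg R = max (natDegree R.num) (natDegree R.denom)` and its multiplicativity under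
composition (piece A2d of `coord/S52-route.md`).
-/

set_option autoImplicit false

open Polynomial

namespace Fermat.Agent.S52.H621

variable {F : Type*} [Field F]

/-- The degree (height) of a rational function: `max (deg num) (deg denom)`. -/
noncomputable def ratDeg (R : RatFunc F) : ℕ := max R.num.natDegree R.denom.natDegree

theorem ratDeg_def (R : RatFunc F) : ratDeg R = max R.num.natDegree R.denom.natDegree := rfl

@[simp] theorem ratDeg_zero : ratDeg (0 : RatFunc F) = 0 := by
  simp [ratDeg]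

@[simp] theorem ratDeg_one : ratDeg (1 : RatFunc F) = 0 := by
  simp [ratDeg]

@[simp] theorem ratDeg_algebraMap (p : F[X]) :
    ratDeg (algebraMap F[X] (RatFunc F) p) = p.natDegree := by
  simp [ratDeg]

@[simp] theorem ratDeg_C (c : F) : ratDeg (RatFunc.C c : RatFunc F) = 0 := by
  have : (RatFunc.C c : RatFunc F) = algebraMap F[X] (RatFunc F) (Polynomial.C c) := by
    simp [RatFunc.algebraMap_C]
  rw [this, ratDeg_algebraMap, natDegree_C]

@[simp] theorem ratDeg_X : ratDeg (RatFunc.X : RatFunc F) = 1 := by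
  have : (RatFunc.X : RatFunc F) = algebraMap F[X] (RatFunc F) Polynomial.X := by
    simp [RatFunc.algebraMap_X]
  rw [this, ratDeg_algebraMap, natDegree_X]

/-- The degree of a quotient of coprime polynomials. -/
theorem ratDeg_div_of_isCoprime (N D : F[X]) (hD : D ≠ 0) (h : IsCoprime N D) :
    ratDeg (algebraMap F[X] (RatFunc F) N / algebraMap F[X] (RatFunc F) D)
      = max N.natDegree D.natDegree := by
  classical
  have hg : IsUnit (gcd N D) := by
    rw [← EuclideanDomain.gcd_isUnit_iff] at h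
    -- `gcd` here is `GCDMonoid.gcd`
    have h1 : gcd N D ∣ EuclideanDomain.gcd N D :=
      EuclideanDomain.dvd_gcd (gcd_dvd_left N D) (gcd_dvd_right N D)
    exact isUnit_of_dvd_unit h1 h
  have hDg : D / gcd N D ≠ 0 := right_div_gcd_ne_zero hD
  have hc : (D / gcd N D).leadingCoeff⁻¹ ≠ 0 := inv_ne_zero (leadingCoeff_ne_zero.mpr hDg)
  have key : ∀ p : F[X], gcd N D ∣ p → (p / gcd N D).natDegree = p.natDegree := by
    intro p hp
    obtain ⟨q, rfl⟩ := hp
    have hg0 : gcd N D ≠ 0 := hg.ne_zero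
    rw [← EuclideanDomain.eq_div_of_mul_eq_right hg0 rfl]
    by_cases hq : q = 0
    · simp [hq]
    · rw [natDegree_mul hg0 hq, natDegree_eq_zero_of_isUnit hg, zero_add]
  rw [ratDeg, RatFunc.num_div, RatFunc.denom_div N hD, natDegree_C_mul hc, natDegree_C_mul hc,
    key N (gcd_dvd_left N D), key D (gcd_dvd_right N D)]

/-- The degree of a quotient of polynomials with a common factor removed. -/
theorem ratDeg_div_of_eq_mul (N D G N' D' : F[X]) (hD : D ≠ 0) (hN : N = G * N')
    (hD' : D = G * D') (h : IsCoprime N' D') :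
    ratDeg (algebraMap F[X] (RatFunc F) N / algebraMap F[X] (RatFunc F) D)
      = max N'.natDegree D'.natDegree := by
  have hG : G ≠ 0 := by rintro rfl; exact hD (by simp [hD'])
  have hD0 : D' ≠ 0 := by rintro rfl; exact hD (by simp [hD'])
  rw [← ratDeg_div_of_isCoprime N' D' hD0 h, hN, hD', map_mul, map_mul,
    mul_div_mul_left _ _ (RatFunc.algebraMap_ne_zero hG)]

/-! ### Homogenisation -/

/-- `homog n N P Q = ∑_{i ≤ n} N_i P^i Q^(n-i)`, the homogenisation of `N` in degree `n`
evaluated at `(P, Q)`. -/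
noncomputable def homog {R : Type*} [CommRing R] [Algebra F R] (n : ℕ) (N : F[X]) (P Q : R) : R :=
  ∑ i ∈ Finset.range (n + 1), algebraMap F R (N.coeff i) * P ^ i * Q ^ (n - i)

theorem homog_map {R S : Type*} [CommRing R] [Algebra F R] [CommRing S] [Algebra F S]
    (φ : R →ₐ[F] S) (n : ℕ) (N : F[X]) (P Q : R) :
    φ (homog n N P Q) = homog n N (φ P) (φ Q) := by
  simp [homog, map_sum]

/-- In a field: if `q ≠ 0` then `homog n N p q = q ^ n * N(p/q)`. -/
theorem homog_eq_of_ne_zero {L : Type*} [Field L] [Algebra F L] (n : ℕ) (N : F[X])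
    (hn : N.natDegree ≤ n) (p q : L) (hq : q ≠ 0) :
    homog n N p q = q ^ n * aeval (p / q) N := by
  rw [aeval_eq_sum_range' (Nat.lt_succ_of_le hn), Finset.mul_sum, homog]
  refine Finset.sum_congr rfl fun i hi => ?_
  have hi' : i ≤ n := Nat.lt_succ_iff.mp (Finset.mem_range.mp hi)
  rw [Algebra.smul_def, div_pow]
  have : q ^ n = q ^ (n - i) * q ^ i := by rw [← pow_add, Nat.sub_add_cancel hi']
  rw [this]
  field_simp

/-- `homog n N p 0 = N_n p^n`. -/
theorem homog_zero_right {R : Type*} [CommRing R] [Algebra F R] (n : ℕ) (N : F[X]) (p : R) :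
    homog n N p 0 = algebraMap F R (N.coeff n) * p ^ n := by
  rw [homog, Finset.sum_eq_single n]
  · simp
  · intro i hi hin
    have hi' : i < n := lt_of_le_of_ne (Nat.lt_succ_iff.mp (Finset.mem_range.mp hi)) hin
    have : n - i ≠ 0 := by omega
    simp [zero_pow this]
  · intro h; exact absurd (Finset.mem_range.mpr (Nat.lt_succ_self n)) h

/-- Key non-vanishing: coprime `N`, `D` with `max (deg N) (deg D) = n` have no common
"projective zero". -/
theorem homog_ne_zero_of_isCoprime {L : Type*} [Field L] [Algebra F L] (N D : F[X])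
    (h : IsCoprime N D) (n : ℕ) (hn : max N.natDegree D.natDegree = n) (p q : L)
    (hpq : p ≠ 0 ∨ q ≠ 0) : homog n N p q ≠ 0 ∨ homog n D p q ≠ 0 := by
  by_contra hcon
  push Not at hcon
  obtain ⟨h1, h2⟩ := hcon
  have hNn : N.natDegree ≤ n := hn ▸ le_max_left _ _
  have hDn : D.natDegree ≤ n := hn ▸ le_max_right _ _
  by_cases hq : q = 0
  · subst hq
    have hp : p ≠ 0 := by tauto
    rw [homog_zero_right] at h1 h2
    have hpn : p ^ n ≠ 0 := pow_ne_zero n hp
    have h1' : N.coeff n = 0 := by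
      have := (mul_eq_zero.mp h1).resolve_right hpn
      exact (map_eq_zero (algebraMap F L)).mp this
    have h2' : D.coeff n = 0 := by
      have := (mul_eq_zero.mp h2).resolve_right hpn
      exact (map_eq_zero (algebraMap F L)).mp this
    -- both leading coefficients vanish: contradiction with `max = n`
    rcases max_cases N.natDegree D.natDegree with ⟨hm, -⟩ | ⟨hm, -⟩
    · have hNd : N.natDegree = n := hm ▸ hn
      have hN0 : N = 0 := by
        by_contra hN0
        have := leadingCoeff_ne_zero.mpr hN0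
        rw [leadingCoeff, hNd] at this
        exact this h1'
      subst hN0
      have hn0 : n = 0 := by simpa using hNd.symm
      subst hn0
      have hD0 : D = 0 := by
        have : D.natDegree = 0 := Nat.le_zero.mp hDn
        rw [eq_C_of_natDegree_eq_zero this, h2', C_0]
      subst hD0
      obtain ⟨u, v, huv⟩ := h
      simp at huv
    · have hDd : D.natDegree = n := hm ▸ hn
      have hD0 : D = 0 := by
        by_contra hD0
        have := leadingCoeff_ne_zero.mpr hD0
        rw [leadingCoeff, hDd] at this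
        exact this h2'
      subst hD0
      have hn0 : n = 0 := by simpa using hDd.symm
      subst hn0
      have hN0 : N = 0 := by
        have : N.natDegree = 0 := Nat.le_zero.mp hNn
        rw [eq_C_of_natDegree_eq_zero this, h1', C_0]
      subst hN0
      obtain ⟨u, v, huv⟩ := h
      simp at huv
  · rw [homog_eq_of_ne_zero n N hNn p q hq] at h1
    rw [homog_eq_of_ne_zero n D hDn p q hq] at h2
    have hqn : q ^ n ≠ 0 := pow_ne_zero n hq
    have h1' := (mul_eq_zero.mp h1).resolve_left hqn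
    have h2' := (mul_eq_zero.mp h2).resolve_left hqn
    obtain ⟨u, v, huv⟩ := h
    have := congrArg (aeval (p / q)) huv
    simp [h1', h2'] at this

end Fermat.Agent.S52.H621

end
-- ===== PACK-END S52/H621/RatDeg.lean

-- ===== PACK-BEGIN S52/H127/QuadForm.lean
section


/-!
# S52, Part A, pieces A2b + A2e (abstract form) — helper127

Pure algebra, Mathlib only.

* `IsPar h` : the parallelogram law `h (P + Q) + h (P - Q) = 2 * h P + 2 * h Q` for an
  integer-valued function on an abelian group.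
* `IsPar.polar h P Q = h (P + Q) - h P - h Q` is symmetric and biadditive (A2b).
* `IsPar.frobenius_relation` (A2e): if `Φ : M →+ M` satisfies `h (Φ Q) = ℓ * h Q` and
  `h (Φ Q - Q) = (ℓ + 1 - a) * h Q` for all `Q`, then `h (Φ (Φ Q) - a • Φ Q + ℓ • Q) = 0`.
* `ℕ`-valued variants `frobenius_relation_nat`.
-/

set_option autoImplicit false

namespace Fermat.Agent.S52.H127

variable {M : Type*} [AddCommGroup M]

/-- The parallelogram law for an integer-valued function on an abelian group. -/
def IsPar (h : M → ℤ) : Prop :=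
  ∀ P Q : M, h (P + Q) + h (P - Q) = 2 * h P + 2 * h Q

namespace IsPar

variable {h : M → ℤ}

theorem height_zero (hp : IsPar h) : h 0 = 0 := by
  have := hp 0 0
  simp only [add_zero, sub_zero] at this
  omega

theorem height_neg (hp : IsPar h) (Q : M) : h (-Q) = h Q := by
  have h1 := hp 0 Q
  have h0 := hp.height_zero
  simp only [zero_add, zero_sub] at h1
  omega

theorem height_sub_comm (hp : IsPar h) (P Q : M) : h (P - Q) = h (Q - P) := by
  rw [← hp.height_neg (P - Q), neg_sub]

theorem height_two_nsmul (hp : IsPar h) (P : M) : h (P + P) = 4 * h P := by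
  have h1 := hp P P
  have h0 := hp.height_zero
  simp only [sub_self] at h1
  omega

/-- The polar form of `h`. -/
def polar (h : M → ℤ) (P Q : M) : ℤ := h (P + Q) - h P - h Q

theorem polar_def (h : M → ℤ) (P Q : M) : polar h P Q = h (P + Q) - h P - h Q := rfl

theorem height_add (h : M → ℤ) (P Q : M) : h (P + Q) = h P + h Q + polar h P Q := by
  rw [polar_def]; ring

theorem height_sub (hp : IsPar h) (P Q : M) : h (P - Q) = h P + h Q - polar h P Q := by
  have := hp P Q
  rw [polar_def]
  omega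

theorem polar_comm (h : M → ℤ) (P Q : M) : polar h P Q = polar h Q P := by
  rw [polar_def, polar_def, add_comm P Q]; ring

theorem polar_self (hp : IsPar h) (P : M) : polar h P P = 2 * h P := by
  rw [polar_def, hp.height_two_nsmul]; ring

/-- The cube identity. -/
theorem cube (hp : IsPar h) (P P' Q : M) :
    h (P + P' + Q) + h P + h P' + h Q = h (P + P') + h (P + Q) + h (P' + Q) := by
  have h1 := hp (P + Q) (P' + Q)
  have h2 := hp (P + P' + Q) Q
  have h3 := hp P P'
  have e1 : P + Q + (P' + Q) = P + P' + Q + Q := by abel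
  have e2 : P + Q - (P' + Q) = P - P' := by abel
  have e3 : P + P' + Q - Q = P + P' := by abel
  rw [e1, e2] at h1
  rw [e3] at h2
  omega

theorem polar_add_left (hp : IsPar h) (P P' Q : M) :
    polar h (P + P') Q = polar h P Q + polar h P' Q := by
  have := hp.cube P P' Q
  simp only [polar_def]
  omega

theorem polar_add_right (hp : IsPar h) (P Q Q' : M) :
    polar h P (Q + Q') = polar h P Q + polar h P Q' := by
  rw [polar_comm, hp.polar_add_left, polar_comm h Q P, polar_comm h Q' P]

/-- The polar form as a homomorphism in the first variable. -/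
def polarHom (hp : IsPar h) (Q : M) : M →+ ℤ :=
  AddMonoidHom.mk' (fun P => polar h P Q) fun P P' => hp.polar_add_left P P' Q

@[simp] theorem polarHom_apply (hp : IsPar h) (Q P : M) : hp.polarHom Q P = polar h P Q := rfl

theorem polar_zero_left (hp : IsPar h) (Q : M) : polar h 0 Q = 0 :=
  _root_.map_zero (hp.polarHom Q)

theorem polar_zero_right (hp : IsPar h) (P : M) : polar h P 0 = 0 := by
  rw [polar_comm, hp.polar_zero_left]

theorem polar_neg_left (hp : IsPar h) (P Q : M) : polar h (-P) Q = -polar h P Q :=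
  _root_.map_neg (hp.polarHom Q) P

theorem polar_neg_right (hp : IsPar h) (P Q : M) : polar h P (-Q) = -polar h P Q := by
  rw [polar_comm, hp.polar_neg_left, polar_comm]

theorem polar_sub_left (hp : IsPar h) (P P' Q : M) :
    polar h (P - P') Q = polar h P Q - polar h P' Q :=
  _root_.map_sub (hp.polarHom Q) P P'

theorem polar_sub_right (hp : IsPar h) (P Q Q' : M) :
    polar h P (Q - Q') = polar h P Q - polar h P Q' := by
  rw [polar_comm, hp.polar_sub_left, polar_comm h Q P, polar_comm h Q' P]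

theorem polar_zsmul_left (hp : IsPar h) (n : ℤ) (P Q : M) :
    polar h (n • P) Q = n * polar h P Q := by
  have := _root_.map_zsmul (hp.polarHom Q) n P
  simpa [smul_eq_mul] using this

theorem polar_zsmul_right (hp : IsPar h) (n : ℤ) (P Q : M) :
    polar h P (n • Q) = n * polar h P Q := by
  rw [polar_comm, hp.polar_zsmul_left, polar_comm]

theorem polar_nsmul_left (hp : IsPar h) (n : ℕ) (P Q : M) :
    polar h (n • P) Q = n * polar h P Q := by
  have := _root_.map_nsmul (hp.polarHom Q) n P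
  simpa [smul_eq_mul] using this

theorem polar_nsmul_right (hp : IsPar h) (n : ℕ) (P Q : M) :
    polar h P (n • Q) = n * polar h P Q := by
  rw [polar_comm, hp.polar_nsmul_left, polar_comm]

theorem polar_sum_left (hp : IsPar h) {ι : Type*} (s : Finset ι) (P : ι → M) (Q : M) :
    polar h (∑ i ∈ s, P i) Q = ∑ i ∈ s, polar h (P i) Q := by
  show hp.polarHom Q (∑ i ∈ s, P i) = ∑ i ∈ s, hp.polarHom Q (P i)
  exact _root_.map_sum (hp.polarHom Q) P s

/-- `h` is homogeneous of degree two. -/
theorem height_zsmul (hp : IsPar h) (n : ℤ) (P : M) : h (n • P) = n ^ 2 * h P := by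
  have h1 : polar h (n • P) (n • P) = 2 * h (n • P) := hp.polar_self _
  rw [hp.polar_zsmul_left, hp.polar_zsmul_right, hp.polar_self] at h1
  have h2 : 2 * h (n • P) = 2 * (n ^ 2 * h P) := by rw [← h1]; ring
  omega

theorem height_nsmul (hp : IsPar h) (n : ℕ) (P : M) : h (n • P) = (n : ℤ) ^ 2 * h P := by
  have := hp.height_zsmul (n : ℤ) P
  rwa [natCast_zsmul] at this

/-! ### Endomorphisms scaling `h` -/

section Endo

variable (hp : IsPar h) (Φ : M →+ M) (ℓ a : ℤ)

/-- If `h ∘ Φ = ℓ * h` then `polar (Φ P) (Φ Q) = ℓ * polar P Q`. -/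
theorem polar_map_map (hΦ : ∀ Q, h (Φ Q) = ℓ * h Q) (P Q : M) :
    polar h (Φ P) (Φ Q) = ℓ * polar h P Q := by
  have h1 := hΦ (P + Q)
  rw [_root_.map_add Φ] at h1
  simp only [polar_def]
  rw [h1, hΦ P, hΦ Q]
  ring

include hp in
/-- `polar (Φ Q) Q = a * h Q`. -/
theorem polar_map_self (hΦ : ∀ Q, h (Φ Q) = ℓ * h Q)
    (hΦ1 : ∀ Q, h (Φ Q - Q) = (ℓ + 1 - a) * h Q) (Q : M) :
    polar h (Φ Q) Q = a * h Q := by
  have h1 := hΦ1 Q
  rw [hp.height_sub, hΦ Q] at h1
  linear_combination -h1

include hp in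
/-- Polarised form: `polar (Φ P) Q + polar (Φ Q) P = a * polar P Q`. -/
theorem polar_map_add_polar_map (hΦ : ∀ Q, h (Φ Q) = ℓ * h Q)
    (hΦ1 : ∀ Q, h (Φ Q - Q) = (ℓ + 1 - a) * h Q) (P Q : M) :
    polar h (Φ P) Q + polar h (Φ Q) P = a * polar h P Q := by
  have h1 := hp.polar_map_self Φ ℓ a hΦ hΦ1 (P + Q)
  rw [_root_.map_add Φ, hp.polar_add_left, hp.polar_add_right, hp.polar_add_right,
    hp.polar_map_self Φ ℓ a hΦ hΦ1 P, hp.polar_map_self Φ ℓ a hΦ hΦ1 Q, height_add h P Q] at h1
  linear_combination h1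

include hp in
/-- `polar (Φ (Φ Q)) Q = (a ^ 2 - 2 * ℓ) * h Q`. -/
theorem polar_map_map_self (hΦ : ∀ Q, h (Φ Q) = ℓ * h Q)
    (hΦ1 : ∀ Q, h (Φ Q - Q) = (ℓ + 1 - a) * h Q) (Q : M) :
    polar h (Φ (Φ Q)) Q = (a ^ 2 - 2 * ℓ) * h Q := by
  have h1 := hp.polar_map_add_polar_map Φ ℓ a hΦ hΦ1 (Φ Q) Q
  rw [hp.polar_self, hΦ Q, hp.polar_map_self Φ ℓ a hΦ hΦ1 Q] at h1
  linear_combination h1

include hp in
/-- **A2e (abstract Frobenius relation).**  If `h` satisfies the parallelogram law and the
endomorphism `Φ` satisfies `h (Φ Q) = ℓ * h Q` and `h (Φ Q - Q) = (ℓ + 1 - a) * h Q`, then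
`h` vanishes on `(Φ² - a Φ + ℓ) Q`. -/
theorem frobenius_relation (hΦ : ∀ Q, h (Φ Q) = ℓ * h Q)
    (hΦ1 : ∀ Q, h (Φ Q - Q) = (ℓ + 1 - a) * h Q) (Q : M) :
    h (Φ (Φ Q) - a • Φ Q + ℓ • Q) = 0 := by
  have e1 := hp.polar_map_self Φ ℓ a hΦ hΦ1 Q
  have e2 := hp.polar_map_self Φ ℓ a hΦ hΦ1 (Φ Q)
  have e3 := hp.polar_map_map_self Φ ℓ a hΦ hΦ1 Q
  rw [height_add h (Φ (Φ Q) - a • Φ Q) (ℓ • Q), hp.height_sub, hp.height_zsmul, hp.height_zsmul,
    hp.polar_sub_left,
    hp.polar_zsmul_right, hp.polar_zsmul_right, hp.polar_zsmul_right, hp.polar_zsmul_left,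
    hΦ (Φ Q), hΦ Q, e2, e3, e1, hΦ Q]
  ring

include hp in
/-- The same with the relation written as `Φ² Q + ℓ Q = a Φ Q` up to a point of height `0`. -/
theorem frobenius_relation' (hΦ : ∀ Q, h (Φ Q) = ℓ * h Q)
    (hΦ1 : ∀ Q, h (Φ Q - Q) = (ℓ + 1 - a) * h Q) (Q : M) :
    h (Φ (Φ Q) + ℓ • Q - a • Φ Q) = 0 := by
  have := hp.frobenius_relation Φ ℓ a hΦ hΦ1 Q
  have e : Φ (Φ Q) + ℓ • Q - a • Φ Q = Φ (Φ Q) - a • Φ Q + ℓ • Q := by abel
  rw [e]; exact this

end Endo

end IsPar

/-! ### `ℕ`-valued heights -/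

/-- The parallelogram law for a `ℕ`-valued function. -/
def IsParNat (h : M → ℕ) : Prop :=
  ∀ P Q : M, h (P + Q) + h (P - Q) = 2 * h P + 2 * h Q

theorem IsParNat.isPar {h : M → ℕ} (hp : IsParNat h) : IsPar fun P => (h P : ℤ) := by
  intro P Q
  have := hp P Q
  push_cast [← this]
  exact_mod_cast this

/-- **A2e for `ℕ`-valued heights.**  `N` plays the role of `#E(𝔽_ℓ)`, `a = ℓ + 1 - N`. -/
theorem IsParNat.frobenius_relation {h : M → ℕ} (hp : IsParNat h) (Φ : M →+ M) (ℓ N : ℕ)
    (hΦ : ∀ Q, h (Φ Q) = ℓ * h Q) (hΦ1 : ∀ Q, h (Φ Q - Q) = N * h Q) (Q : M) :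
    h (Φ (Φ Q) - ((ℓ : ℤ) + 1 - N) • Φ Q + ℓ • Q) = 0 := by
  have key := hp.isPar.frobenius_relation Φ (ℓ : ℤ) ((ℓ : ℤ) + 1 - N)
    (fun Q => by
      show ((h (Φ Q) : ℕ) : ℤ) = (ℓ : ℤ) * ((h Q : ℕ) : ℤ)
      rw [hΦ Q]; push_cast; ring)
    (fun Q => by
      show ((h (Φ Q - Q) : ℕ) : ℤ) = ((ℓ : ℤ) + 1 - ((ℓ : ℤ) + 1 - N)) * ((h Q : ℕ) : ℤ)
      rw [hΦ1 Q]; push_cast; ring) Q
  have key' : ((h (Φ (Φ Q) - ((ℓ : ℤ) + 1 - N) • Φ Q + (ℓ : ℤ) • Q) : ℕ) : ℤ) = 0 := key
  rw [natCast_zsmul] at key'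
  exact_mod_cast key'

end Fermat.Agent.S52.H127

end
-- ===== PACK-END S52/H127/QuadForm.lean

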