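import Mathlib
import Fermat.Prelude.Def_GroupCohomology_ContinuousUnramified
import Mathlib.RingTheory.Valuation.Basic
import Mathlib.Tactic
import Fermat.Prelude.Def_ModularCurve_PeriodHomPair
import Fermat.Prelude.Def_ModularCurve_HeckeModule
import Fermat.Prelude.Thm_ModularCurve_coeffMap_qExpand
import Fermat.Prelude.Def_ModularCurve_ArithmeticGalois
import Mathlib.AlgebraicGeometry.EllipticCurve.Affine.Point
import Fermat.Prelude.Def_ModularCurve_X0
import Fermat.Prelude.Def_ModularCurve_LaurentCoeff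
import Fermat.Agent.Pack.S44C.G1E0L0
import Fermat.Agent.Pack.Fast891

-- ===== PACK-BEGIN S55/Bridge/Level.lean
section



/-!
# S55 bridge, part B2a: a representation as in S55 factors through a finite Galois level
unramified outside `S`.
-/

set_option autoImplicit false

namespace Fermat.Agent.S55.Bridge

open IntermediateField

/-- `ℚ̄/ℚ` is algebraic (for the `Algebra ℚ ℚ̄` instance found by instance search). -/
theorem isAlgebraic_Qbar : Algebra.IsAlgebraic ℚ (AlgebraicClosure ℚ) :=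
  AlgebraicClosure.isAlgebraic ℚ

/-- `ℚ̄/ℚ` is Galois (for the `Algebra ℚ ℚ̄` instance found by instance search). -/
theorem isGalois_Qbar : IsGalois ℚ (AlgebraicClosure ℚ) := by
  haveI : Algebra.IsAlgebraic ℚ (AlgebraicClosure ℚ) := isAlgebraic_Qbar
  haveI : IsAlgClosure ℚ (AlgebraicClosure ℚ) := ⟨inferInstance, inferInstance⟩
  haveI : Normal ℚ (AlgebraicClosure ℚ) := IsAlgClosure.normal ℚ (AlgebraicClosure ℚ)
  exact isGalois_iff.mpr ⟨inferInstance, inferInstance⟩

attribute [local instance] isAlgebraic_Qbar isGalois_Qbar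

/-- A subgroup of `G_ℚ` containing `G_F` for a finite `F/ℚ` and all inertia groups outside `S`
is `G_L` for a finite `L/ℚ` unramified outside `S`. -/
theorem exists_level_of_subgroup (S : Finset Nat.Primes)
    (N : Subgroup (AlgebraicClosure ℚ ≃ₐ[ℚ] AlgebraicClosure ℚ))
    (F : IntermediateField ℚ (AlgebraicClosure ℚ)) (hFfin : FiniteDimensional ℚ F)
    (hF : F.fixingSubgroup ≤ N)
    (hur : ∀ q : Nat.Primes, q ∉ S → ∀ A : ValuationSubring (AlgebraicClosure ℚ),
      A.LiesOverPrime (q : ℕ) → A.inertiaSubgroupIn ℚ ≤ N) :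
    ∃ L : IntermediateField ℚ (AlgebraicClosure ℚ),
      L.IsUnramifiedOutside S ∧ L.fixingSubgroup = N ∧ L ≤ F := by
  have hopenF : IsOpen (F.fixingSubgroup : Set (AlgebraicClosure ℚ ≃ₐ[ℚ] AlgebraicClosure ℚ)) :=
    IntermediateField.fixingSubgroup_isOpen F
  have hopen : IsOpen (N : Set (AlgebraicClosure ℚ ≃ₐ[ℚ] AlgebraicClosure ℚ)) :=
    Subgroup.isOpen_mono hF hopenF
  have hclosed : IsClosed (N : Set (AlgebraicClosure ℚ ≃ₐ[ℚ] AlgebraicClosure ℚ)) :=
    Subgroup.isClosed_of_isOpen N hopen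
  have hfix : (IntermediateField.fixedField N).fixingSubgroup = N :=
    InfiniteGalois.fixingSubgroup_fixedField ⟨N, hclosed⟩
  have hle : IntermediateField.fixedField N ≤ F := by
    rw [← InfiniteGalois.fixedField_fixingSubgroup F]
    exact IntermediateField.fixedField_antitone hF
  refine ⟨IntermediateField.fixedField N, ⟨?_, ?_⟩, hfix, hle⟩
  · exact FiniteDimensional.of_injective (IntermediateField.inclusion hle).toLinearMap
      (IntermediateField.inclusion_injective hle)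
  · intro q hq A hA
    rw [hfix]
    exact hur q hq A hA

/-- If moreover the subgroup is normal, the level is Galois over `ℚ`. -/
theorem exists_galois_level_of_subgroup (S : Finset Nat.Primes)
    (N : Subgroup (AlgebraicClosure ℚ ≃ₐ[ℚ] AlgebraicClosure ℚ)) [N.Normal]
    (F : IntermediateField ℚ (AlgebraicClosure ℚ)) (hFfin : FiniteDimensional ℚ F)
    (hF : F.fixingSubgroup ≤ N)
    (hur : ∀ q : Nat.Primes, q ∉ S → ∀ A : ValuationSubring (AlgebraicClosure ℚ),
      A.LiesOverPrime (q : ℕ) → A.inertiaSubgroupIn ℚ ≤ N) :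
    ∃ L : IntermediateField ℚ (AlgebraicClosure ℚ),
      L.IsUnramifiedOutside S ∧ IsGalois ℚ L ∧ L.fixingSubgroup = N ∧ L ≤ F := by
  obtain ⟨L, hL, hfix, hle⟩ := exists_level_of_subgroup S N F hFfin hF hur
  refine ⟨L, hL, ?_, hfix, hle⟩
  have h := (InfiniteGalois.normal_iff_isGalois L).1 (by rw [hfix]; infer_instance)
  convert h
  exact Subsingleton.elim _ _

section Rep

variable {k : Type} [Field k]
  (M : Rep k (AlgebraicClosure ℚ ≃ₐ[ℚ] AlgebraicClosure ℚ)) [FiniteDimensional k M]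

/-- Pointwise smoothness plus finite-dimensionality gives a uniform finite level. -/
theorem exists_finite_level_of_smooth
    (hsm : ∀ m : M, ∃ F : IntermediateField ℚ (AlgebraicClosure ℚ), FiniteDimensional ℚ F ∧
      ∀ s ∈ F.fixingSubgroup, M.ρ s m = m) :
    ∃ F : IntermediateField ℚ (AlgebraicClosure ℚ), FiniteDimensional ℚ F ∧
      ∀ s ∈ F.fixingSubgroup, M.ρ s = 1 := by
  classical
  choose F hFfin hFfix using hsm
  let b := Module.finBasis k M
  refine ⟨⨆ i, F (b i), ?_, ?_⟩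
  · haveI : ∀ i, FiniteDimensional ℚ (F (b i)) := fun i => hFfin (b i)
    exact IntermediateField.finiteDimensional_iSup_of_finite
  · intro s hs
    apply b.ext
    intro i
    have hle : F (b i) ≤ ⨆ i, F (b i) := le_iSup (fun i => F (b i)) i
    exact hFfix (b i) s (IntermediateField.fixingSubgroup_antitone hle hs)

/-- **B2a.** The representation `M` of S55 factors through `Gal(L/ℚ)` for a finite Galois
extension `L/ℚ` unramified outside `S`; in fact `G_L = ker ρ`. -/
theorem exists_galois_level_of_rep (S : Finset Nat.Primes)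
    (hsm : ∀ m : M, ∃ F : IntermediateField ℚ (AlgebraicClosure ℚ), FiniteDimensional ℚ F ∧
      ∀ s ∈ F.fixingSubgroup, M.ρ s m = m)
    (hMur : ∀ q : Nat.Primes, q ∉ S → ∀ A : ValuationSubring (AlgebraicClosure ℚ),
      A.LiesOverPrime (q : ℕ) → ∀ g ∈ A.inertiaSubgroupIn ℚ, M.ρ g = 1) :
    ∃ L : IntermediateField ℚ (AlgebraicClosure ℚ),
      L.IsUnramifiedOutside S ∧ IsGalois ℚ L ∧ ∀ s, s ∈ L.fixingSubgroup ↔ M.ρ s = 1 := by
  obtain ⟨F, hFfin, hF⟩ := exists_finite_level_of_smooth M hsm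
  obtain ⟨L, hL, hgal, hfix, -⟩ := exists_galois_level_of_subgroup S (MonoidHom.ker M.ρ) F hFfin
    (fun s hs => MonoidHom.mem_ker.2 (hF s hs))
    (fun q hq A hA g hg => MonoidHom.mem_ker.2 (hMur q hq A hA g hg))
  refine ⟨L, hL, hgal, fun s => ?_⟩
  rw [hfix, MonoidHom.mem_ker]

end Rep

end Fermat.Agent.S55.Bridge

end
-- ===== PACK-END S55/Bridge/Level.lean

-- ===== PACK-BEGIN S05/CompCore.lean
section



/-!
# Core valuation lemmas for the component homomorphism at a node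

Abstract setting: a field `K` with a valuation `v`, a cubic `η² = ξ (ξ - α) (ξ - β)`
with `v α < 1 = v β`, `γ² = -β`, `v 2 = 1`.  Three collinear points
`(ξᵢ, ηᵢ)` on the line `η = l ξ + n` satisfy Vieta's relations.
-/

set_option autoImplicit false

namespace Fermat.Agent.S05.Comp

variable {K : Type*} [Field K] {Γ₀ : Type*} [LinearOrderedCommGroupWithZero Γ₀]
  {v : Valuation K Γ₀}

/-- The data of three collinear points on the cubic `η² = ξ (ξ - α) (ξ - β)`. -/
structure Coll (α β : K) (x₁ y₁ x₂ y₂ x₃ y₃ l n : K) : Prop where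
  L1 : y₁ = l * x₁ + n
  L2 : y₂ = l * x₂ + n
  L3 : y₃ = l * x₃ + n
  E1 : y₁ ^ 2 = x₁ * (x₁ - α) * (x₁ - β)
  E2 : y₂ ^ 2 = x₂ * (x₂ - α) * (x₂ - β)
  E3 : y₃ ^ 2 = x₃ * (x₃ - α) * (x₃ - β)
  V1 : x₁ + x₂ + x₃ = l ^ 2 + α + β
  V2 : x₁ * x₂ + x₁ * x₃ + x₂ * x₃ = α * β - 2 * l * n
  V3 : x₁ * x₂ * x₃ = n ^ 2

namespace Coll

variable {α β x₁ y₁ x₂ y₂ x₃ y₃ l n : K}

lemma swap12 (h : Coll α β x₁ y₁ x₂ y₂ x₃ y₃ l n) : Coll α β x₂ y₂ x₁ y₁ x₃ y₃ l n where
  L1 := h.L2
  L2 := h.L1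
  L3 := h.L3
  E1 := h.E2
  E2 := h.E1
  E3 := h.E3
  V1 := by rw [← h.V1]; ring
  V2 := by rw [← h.V2]; ring
  V3 := by rw [← h.V3]; ring

lemma swap23 (h : Coll α β x₁ y₁ x₂ y₂ x₃ y₃ l n) : Coll α β x₁ y₁ x₃ y₃ x₂ y₂ l n where
  L1 := h.L1
  L2 := h.L3
  L3 := h.L2
  E1 := h.E1
  E2 := h.E3
  E3 := h.E2
  V1 := by rw [← h.V1]; ring
  V2 := by rw [← h.V2]; ring
  V3 := by rw [← h.V3]; ring

lemma swap13 (h : Coll α β x₁ y₁ x₂ y₂ x₃ y₃ l n) : Coll α β x₃ y₃ x₂ y₂ x₁ y₁ l n where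
  L1 := h.L3
  L2 := h.L2
  L3 := h.L1
  E1 := h.E3
  E2 := h.E2
  E3 := h.E1
  V1 := by rw [← h.V1]; ring
  V2 := by rw [← h.V2]; ring
  V3 := by rw [← h.V3]; ring

lemma rot (h : Coll α β x₁ y₁ x₂ y₂ x₃ y₃ l n) : Coll α β x₂ y₂ x₃ y₃ x₁ y₁ l n :=
  h.swap12.swap23

lemma rot' (h : Coll α β x₁ y₁ x₂ y₂ x₃ y₃ l n) : Coll α β x₃ y₃ x₁ y₁ x₂ y₂ l n :=
  h.swap23.swap12

end Coll


variable {α β γ x₁ y₁ x₂ y₂ x₃ y₃ l n : K}

/-- if `a - b = c` and `v c < v a` then `v b = v a`. -/
lemma val_eq_of_sub_lt {a b c : K} (h : a - b = c) (hc : v c < v a) : v b = v a := by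
  have e : b = a - c := by rw [← h]; ring
  rw [e]
  exact Valuation.map_sub_eq_of_lt_left v hc

/-- if `a - b = c` and `v a < v c` then `v b = v c`. -/
lemma val_eq_of_sub_gt {a b c : K} (h : a - b = c) (hc : v a < v c) : v b = v c := by
  have e : b = a - c := by rw [← h]; ring
  rw [e]
  exact Valuation.map_sub_eq_of_lt_right v hc

lemma val_add3_le {a b c : K} {g : Γ₀} (ha : v a ≤ g) (hb : v b ≤ g) (hc : v c ≤ g) :
    v (a + b + c) ≤ g :=
  Valuation.map_add_le _ (Valuation.map_add_le _ ha hb) hc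

lemma val_add3_lt {a b c : K} {g : Γ₀} (ha : v a < g) (hb : v b < g) (hc : v c < g) :
    v (a + b + c) < g :=
  Valuation.map_add_lt _ (Valuation.map_add_lt _ ha hb) hc

lemma Coll.vl_vn (h : Coll α β x₁ y₁ x₂ y₂ x₃ y₃ l n) (h2 : v 2 = 1) :
    v l * v n = v (α * β - (x₁ * x₂ + x₁ * x₃ + x₂ * x₃)) := by
  rw [h.V2]
  have e : α * β - (α * β - 2 * l * n) = 2 * l * n := by ring
  rw [e, map_mul, map_mul, h2, one_mul]

lemma Coll.vn_sq (h : Coll α β x₁ y₁ x₂ y₂ x₃ y₃ l n) :
    v n ^ 2 = v x₁ * v x₂ * v x₃ := by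
  rw [← map_pow, ← h.V3, map_mul, map_mul]

lemma Coll.l_sq (h : Coll α β x₁ y₁ x₂ y₂ x₃ y₃ l n) :
    l ^ 2 = x₁ + x₂ + x₃ - α - β := by rw [h.V1]; ring

/-- If all three points are at the node then `v l = 1`. -/
lemma Coll.vl_eq_one (h : Coll α β x₁ y₁ x₂ y₂ x₃ y₃ l n) (hα : v α < 1) (hβ : v β = 1)
    (h1 : v x₁ < 1) (h2 : v x₂ < 1) (h3 : v x₃ < 1) : v l = 1 := by
  have e : l ^ 2 = (x₁ + x₂ + x₃ - α) - β := by rw [h.V1]; ring
  have h4 : v (x₁ + x₂ + x₃ - α) < v β := by
    rw [hβ]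
    exact Valuation.map_sub_lt _ (val_add3_lt h1 h2 h3) hα
  have h5 : v (l ^ 2) = 1 := by
    rw [e, Valuation.map_sub_eq_of_lt_right _ h4, hβ]
  rw [map_pow] at h5
  exact (pow_eq_one_iff_of_nonneg zero_le (by norm_num)).mp h5

/-- Key inequality: if `x₁` is strictly smaller than `x₂, x₃`, `x₃` is not at the node and
`v α < v x₂ * v x₃`, contradiction. Covers "exactly one point at the node" and
"two at the node with different valuations". -/
lemma factD (h : Coll α β x₁ y₁ x₂ y₂ x₃ y₃ l n) (h2 : v 2 = 1) (hα : v α < 1) (hβ : v β = 1)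
    (h12 : v x₁ < v x₂) (h13 : v x₁ < v x₃) (h23 : v x₂ ≤ v x₃) (h3 : 1 ≤ v x₃)
    (hμ : v α < v x₂ * v x₃) : False := by
  have hr2 : 0 < v x₂ := lt_of_le_of_lt zero_le h12
  have hr3 : 0 < v x₃ := lt_of_lt_of_le zero_lt_one h3
  have hne : v x₂ * v x₃ ≠ 0 := (mul_pos hr2 hr3).ne'
  have hd1 : v (x₁ * x₂) < v (x₂ * x₃) := by
    rw [map_mul, map_mul, mul_comm (v x₁)]
    exact mul_lt_mul_of_pos_left h13 hr2
  have hd2 : v (x₁ * x₃) < v (x₂ * x₃) := by
    rw [map_mul, map_mul]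
    exact mul_lt_mul_of_pos_right h12 hr3
  have hαβ : v (α * β) < v (x₂ * x₃) := by
    rw [map_mul, hβ, mul_one, map_mul]; exact hμ
  have hln : v l * v n = v x₂ * v x₃ := by
    rw [h.vl_vn h2, ← map_mul]
    have e : α * β - (x₁ * x₂ + x₁ * x₃ + x₂ * x₃) = (α * β - (x₁ * x₂ + x₁ * x₃)) - x₂ * x₃ := by
      ring
    rw [e]
    apply Valuation.map_sub_eq_of_lt_right
    exact Valuation.map_sub_lt _ hαβ (Valuation.map_add_lt _ hd1 hd2)
  have hl2 : v l ^ 2 * v x₁ = v x₂ * v x₃ := by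
    have e1 : (v l * v n) ^ 2 = (v x₂ * v x₃) ^ 2 := by rw [hln]
    rw [mul_pow, h.vn_sq] at e1
    have e2 : (v l ^ 2 * v x₁) * (v x₂ * v x₃) = (v x₂ * v x₃) * (v x₂ * v x₃) := by
      rw [← pow_two, ← e1]; simp only [mul_assoc]
    exact mul_right_cancel₀ hne e2
  have hl2le : v l ^ 2 ≤ v x₃ := by
    rw [← map_pow, h.l_sq]
    refine Valuation.map_sub_le _ (Valuation.map_sub_le _ (val_add3_le ?_ h23 le_rfl) ?_) ?_
    · exact h13.le
    · exact hα.le.trans h3
    · rw [hβ]; exact h3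
  have : v l ^ 2 * v x₁ < v x₂ * v x₃ := by
    rcases eq_or_ne (v l ^ 2) 0 with h0 | h0
    · rw [h0, zero_mul]; exact mul_pos hr2 hr3
    · calc v l ^ 2 * v x₁ < v l ^ 2 * v x₂ := mul_lt_mul_of_pos_left h12 (zero_lt_iff.mpr h0)
        _ ≤ v x₃ * v x₂ := mul_le_mul_left hl2le _
        _ = v x₂ * v x₃ := mul_comm _ _
  exact absurd hl2 this.ne

/-- Exactly one point at the node is impossible. -/
lemma factC (h : Coll α β x₁ y₁ x₂ y₂ x₃ y₃ l n) (h2 : v 2 = 1) (hα : v α < 1) (hβ : v β = 1)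
    (h1 : v x₁ < 1) (h2' : 1 ≤ v x₂) (h3 : 1 ≤ v x₃) : False := by
  have h23 : 1 ≤ v x₂ * v x₃ := one_le_mul_of_one_le_of_one_le h2' h3
  rcases le_total (v x₂) (v x₃) with h' | h'
  · exact factD h h2 hα hβ (lt_of_lt_of_le h1 h2') (lt_of_lt_of_le h1 h3) h' h3
      (lt_of_lt_of_le hα h23)
  · exact factD h.swap23 h2 hα hβ (lt_of_lt_of_le h1 h3) (lt_of_lt_of_le h1 h2') h' h2'
      (lt_of_lt_of_le hα (by rwa [mul_comm]))


/-- All three points in the `M`-range (`v x ≤ v α`) is impossible. -/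
lemma factMMM (h : Coll α β x₁ y₁ x₂ y₂ x₃ y₃ l n) (h2 : v 2 = 1) (hα : v α < 1)
    (hα0 : α ≠ 0) (hβ : v β = 1)
    (h1 : v x₁ ≤ v α) (h2' : v x₂ ≤ v α) (h3 : v x₃ ≤ v α) : False := by
  have hμ : 0 < v α := by rw [Valuation.pos_iff]; exact hα0
  have hl : v l = 1 := h.vl_eq_one hα hβ (h1.trans_lt hα) (h2'.trans_lt hα) (h3.trans_lt hα)
  -- v n < μ
  have hn : v n < v α := by
    by_contra hcon
    rw [not_lt] at hcon
    have e1 : v α ^ 2 ≤ v n ^ 2 := pow_le_pow_left₀ zero_le hcon 2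
    rw [h.vn_sq] at e1
    have e2 : v x₁ * v x₂ * v x₃ ≤ v α * v α * v α :=
      mul_le_mul' (mul_le_mul' h1 h2') h3
    have e3 : v α * v α * v α < v α ^ 2 := by
      rw [pow_two]
      calc v α * v α * v α < v α * v α * 1 := mul_lt_mul_of_pos_left hα (mul_pos hμ hμ)
        _ = v α * v α := mul_one _
    exact absurd (e1.trans e2) (not_le.mpr e3)
  have hln := h.vl_vn h2
  rw [hl, one_mul] at hln
  have hs : v (x₁ * x₂ + x₁ * x₃ + x₂ * x₃) < v α := by
    have hh : ∀ a b : K, v a ≤ v α → v b ≤ v α → v (a * b) < v α := by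
      intro a b ha hb
      rw [map_mul]
      calc v a * v b ≤ v α * v α := mul_le_mul' ha hb
        _ < v α * 1 := mul_lt_mul_of_pos_left hα hμ
        _ = v α := mul_one _
    exact val_add3_lt (hh _ _ h1 h2') (hh _ _ h1 h3) (hh _ _ h2' h3)
  have hαβ : v (α * β) = v α := by rw [map_mul, hβ, mul_one]
  rw [Valuation.map_sub_eq_of_lt_left _ (by rw [hαβ]; exact hs), hαβ] at hln
  exact absurd hln hn.ne

/-- Two points in the `M`-range and one in the middle range is impossible. -/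
lemma factMMmid (h : Coll α β x₁ y₁ x₂ y₂ x₃ y₃ l n) (h2 : v 2 = 1) (hα : v α < 1)
    (hα0 : α ≠ 0) (hβ : v β = 1)
    (h1 : v x₁ ≤ v α) (h2' : v x₂ ≤ v α) (h3 : v x₃ < 1) : False := by
  have hμ : 0 < v α := by rw [Valuation.pos_iff]; exact hα0
  have hl : v l = 1 := h.vl_eq_one hα hβ (h1.trans_lt hα) (h2'.trans_lt hα) h3
  have hln := h.vl_vn h2
  rw [hl, one_mul] at hln
  have hh : ∀ a b : K, v a ≤ v α → v b < 1 → v (a * b) < v α := by
    intro a b ha hb
    rw [map_mul]
    calc v a * v b ≤ v α * v b := mul_le_mul' ha le_rfl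
      _ < v α * 1 := mul_lt_mul_of_pos_left hb hμ
      _ = v α := mul_one _
  have hs : v (x₁ * x₂ + x₁ * x₃ + x₂ * x₃) < v α :=
    val_add3_lt (hh _ _ h1 (h2'.trans_lt hα)) (hh _ _ h1 h3) (hh _ _ h2' h3)
  have hαβ : v (α * β) = v α := by rw [map_mul, hβ, mul_one]
  rw [Valuation.map_sub_eq_of_lt_left _ (by rw [hαβ]; exact hs), hαβ] at hln
  -- now v n = μ, but v n ^ 2 = r₁ r₂ r₃ < μ²
  have e1 := h.vn_sq (v := v)
  rw [hln] at e1
  have e2 : v x₁ * v x₂ * v x₃ < v α ^ 2 := by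
    rw [pow_two]
    calc v x₁ * v x₂ * v x₃ ≤ v α * v α * v x₃ := mul_le_mul' (mul_le_mul' h1 h2') le_rfl
      _ < v α * v α * 1 := mul_lt_mul_of_pos_left h3 (mul_pos hμ hμ)
      _ = v α * v α := mul_one _
  exact absurd e1.symm e2.ne


/-- In the middle range, one of the two branches of the node is chosen. -/
lemma sign_exists {x y : K} (hα : v α < 1) (hβ : v β = 1) (hγ : γ ^ 2 = -β)
    (hE : y ^ 2 = x * (x - α) * (x - β)) (hlo : v α < v x) (hhi : v x < 1) :
    v (y - γ * x) < v x ∨ v (y - (-γ) * x) < v x := by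
  have hx : 0 < v x := lt_of_le_of_lt zero_le hlo
  have e : (y - γ * x) * (y - (-γ) * x) = x * (x ^ 2 - α * x + α * β) := by
    have : (y - γ * x) * (y - (-γ) * x) = y ^ 2 - γ ^ 2 * x ^ 2 := by ring
    rw [this, hE, hγ]; ring
  have h1 : v (x ^ 2 - α * x + α * β) < v x := by
    apply Valuation.map_add_lt _ (Valuation.map_sub_lt _ _ _)
    · rw [map_mul, hβ, mul_one]; exact hlo
    · rw [map_pow, pow_two]
      calc v x * v x < v x * 1 := mul_lt_mul_of_pos_left hhi hx
        _ = v x := mul_one _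
    · rw [map_mul]
      calc v α * v x < 1 * v x := mul_lt_mul_of_pos_right hα hx
        _ = v x := one_mul _
  by_contra hcon
  rw [not_or, not_lt, not_lt] at hcon
  have h2 : v x * v x ≤ v ((y - γ * x) * (y - (-γ) * x)) := by
    rw [map_mul]; exact mul_le_mul' hcon.1 hcon.2
  rw [e, map_mul] at h2
  exact absurd h2 (not_le.mpr (mul_lt_mul_of_pos_left h1 hx))

/-- In the middle range, the two branches of the node are exclusive. -/
lemma sign_exclusive {x y : K} (h2 : v 2 = 1) (hβ : v β = 1) (hγ : γ ^ 2 = -β) :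
    ¬ (v (y - γ * x) < v x ∧ v (y - (-γ) * x) < v x) := by
  rintro ⟨h1, h3⟩
  have hγ1 : v γ = 1 := by
    have : v (γ ^ 2) = 1 := by rw [hγ, Valuation.map_neg, hβ]
    rw [map_pow] at this
    exact (pow_eq_one_iff_of_nonneg zero_le (by norm_num)).mp this
  have e : 2 * γ * x = (y - (-γ) * x) - (y - γ * x) := by ring
  have h4 : v (2 * γ * x) < v x := by
    rw [e]; exact Valuation.map_sub_lt _ h3 h1
  rw [map_mul, map_mul, h2, hγ1, one_mul, one_mul] at h4
  exact lt_irrefl _ h4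

lemma val_gamma (hβ : v β = 1) (hγ : γ ^ 2 = -β) : v γ = 1 := by
  have : v (γ ^ 2) = 1 := by rw [hγ, Valuation.map_neg, hβ]
  rw [map_pow] at this
  exact (pow_eq_one_iff_of_nonneg zero_le (by norm_num)).mp this

/-- Two points at the node with the same valuation `< 1` and third point away from the
node cannot lie on the same branch. -/
lemma factBsign (h : Coll α β x₁ y₁ x₂ y₂ x₃ y₃ l n) (h2 : v 2 = 1) (hα : v α < 1)
    (hβ : v β = 1) (hγ : γ ^ 2 = -β)
    (h12 : v x₁ = v x₂) (h1 : v x₁ < 1) (hx1 : x₁ ≠ 0) (h3 : 1 ≤ v x₃)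
    (hP1 : v (y₁ - γ * x₁) < v x₁) (hP2 : v (y₂ - γ * x₂) < v x₂) : False := by
  have hr : 0 < v x₁ := by rw [Valuation.pos_iff]; exact hx1
  have hγ1 : v γ = 1 := val_gamma hβ hγ
  set κ := l - γ with hκ
  set θ₁ := y₁ - γ * x₁ with hθ₁
  set θ₂ := y₂ - γ * x₂ with hθ₂
  set δ := α - x₁ - x₂ with hδ
  have hθ₁' : θ₁ = κ * x₁ + n := by rw [hθ₁, h.L1, hκ]; ring
  have hθ₂' : θ₂ = κ * x₂ + n := by rw [hθ₂, h.L2, hκ]; ring
  have hx3 : x₃ = κ ^ 2 + 2 * γ * κ + δ := by
    have := h.V1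
    have e : x₃ = l ^ 2 + α + β - x₁ - x₂ := by rw [← this]; ring
    rw [e, hκ, hδ]
    have : β = -γ ^ 2 := by rw [hγ]; ring
    rw [this]; ring
  have hid : θ₁ * θ₂ - κ * (x₁ * θ₂ + x₂ * θ₁) = x₁ * x₂ * (2 * γ * κ + δ) := by
    have hn1 : n = θ₁ - κ * x₁ := by rw [hθ₁']; ring
    have e3 := h.V3
    rw [hx3] at e3
    have : θ₁ * θ₂ - κ * (x₁ * θ₂ + x₂ * θ₁) = n ^ 2 - κ ^ 2 * (x₁ * x₂) := by
      rw [hθ₁', hθ₂']; ring
    rw [this, ← e3]; ring
  have hδ1 : v δ < 1 := by
    rw [hδ]; exact Valuation.map_sub_lt _ (Valuation.map_sub_lt _ hα h1) (h12 ▸ h1)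
  -- v κ ≥ 1
  have hκ1 : 1 ≤ v κ := by
    by_contra hcon
    rw [not_le] at hcon
    have hn : v n < v x₁ := by
      have e : n = θ₁ - κ * x₁ := by rw [hθ₁']; ring
      rw [e]
      apply Valuation.map_sub_lt _ hP1
      rw [map_mul]
      calc v κ * v x₁ < 1 * v x₁ := mul_lt_mul_of_pos_right hcon hr
        _ = v x₁ := one_mul _
    have e1 := h.vn_sq (v := v)
    have e2 : v n ^ 2 < v x₁ * v x₂ * v x₃ := by
      rw [← h12, pow_two]
      calc v n * v n ≤ v n * v x₁ := mul_le_mul' le_rfl hn.le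
        _ < v x₁ * v x₁ := mul_lt_mul_of_pos_right hn hr
        _ = v x₁ * v x₁ * 1 := (mul_one _).symm
        _ ≤ v x₁ * v x₁ * v x₃ := mul_le_mul' le_rfl h3
    exact absurd e1 e2.ne
  have hκpos : 0 < v κ := lt_of_lt_of_le zero_lt_one hκ1
  have hR : v (x₁ * x₂ * (2 * γ * κ + δ)) = v x₁ * v x₁ * v κ := by
    rw [map_mul, map_mul, ← h12]
    congr 1
    have : v δ < v (2 * γ * κ) := by
      rw [map_mul, map_mul, h2, hγ1, one_mul, one_mul]; exact lt_of_lt_of_le hδ1 hκ1
    rw [Valuation.map_add_eq_of_lt_left _ this, map_mul, map_mul, h2, hγ1, one_mul, one_mul]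
  have hL : v (θ₁ * θ₂ - κ * (x₁ * θ₂ + x₂ * θ₁)) < v x₁ * v x₁ * v κ := by
    apply Valuation.map_sub_lt
    · rw [map_mul]
      calc v θ₁ * v θ₂ ≤ v θ₁ * v x₁ := mul_le_mul' le_rfl (h12 ▸ hP2.le)
        _ < v x₁ * v x₁ := mul_lt_mul_of_pos_right hP1 hr
        _ = v x₁ * v x₁ * 1 := (mul_one _).symm
        _ ≤ v x₁ * v x₁ * v κ := mul_le_mul' le_rfl hκ1
    · rw [map_mul, mul_comm]
      apply mul_lt_mul_of_pos_right _ hκpos
      apply Valuation.map_add_lt
      · rw [map_mul]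
        exact mul_lt_mul_of_pos_left (h12 ▸ hP2) hr
      · rw [map_mul, ← h12]
        exact mul_lt_mul_of_pos_left hP1 hr
  rw [hid, hR] at hL
  exact lt_irrefl _ hL


/-- A point in the `M`-range has `v y ≤ v α`. -/
lemma val_y_le_of_M {x y : K} (hα : v α < 1) (hβ : v β = 1)
    (hE : y ^ 2 = x * (x - α) * (x - β)) (hx : v x ≤ v α) : v y ≤ v α := by
  have h1 : v (y ^ 2) ≤ v α ^ 2 := by
    rw [hE, map_mul, map_mul, pow_two]
    have hb : v (x - β) ≤ 1 := Valuation.map_sub_le _ ((hx.trans hα.le)) hβ.le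
    calc v x * v (x - α) * v (x - β) ≤ v α * v α * 1 :=
          mul_le_mul' (mul_le_mul' hx (Valuation.map_sub_le _ hx le_rfl)) hb
      _ = v α * v α := mul_one _
  rw [map_pow] at h1
  exact (pow_le_pow_iff_left₀ zero_le zero_le (by norm_num)).mp h1

/-- `M`, mid, mid: the two middle points have `v x₂ * v x₃ = v α`. -/
lemma factA'_val (h : Coll α β x₁ y₁ x₂ y₂ x₃ y₃ l n) (h2 : v 2 = 1) (hα : v α < 1)
    (hα0 : α ≠ 0) (hβ : v β = 1)
    (h1 : v x₁ ≤ v α) (h2lo : v α < v x₂) (h2hi : v x₂ < 1) (h3lo : v α < v x₃)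
    (h3hi : v x₃ < 1) : v x₂ * v x₃ = v α := by
  have hμ : 0 < v α := by rw [Valuation.pos_iff]; exact hα0
  have hr2 : 0 < v x₂ := hμ.trans h2lo
  have hr3 : 0 < v x₃ := hμ.trans h3lo
  have hl : v l = 1 := h.vl_eq_one hα hβ (h1.trans_lt hα) h2hi h3hi
  have hy1 : v y₁ ≤ v α := val_y_le_of_M hα hβ h.E1 h1
  have hn : v n ≤ v α := by
    have e : n = y₁ - l * x₁ := by rw [h.L1]; ring
    rw [e]
    apply Valuation.map_sub_le _ hy1
    rw [map_mul, hl, one_mul]; exact h1
  have hαβ : v (α * β) = v α := by rw [map_mul, hβ, mul_one]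
  have h12 : v (x₁ * x₂) < v α := by
    rw [map_mul]
    calc v x₁ * v x₂ ≤ v α * v x₂ := mul_le_mul' h1 le_rfl
      _ < v α * 1 := mul_lt_mul_of_pos_left h2hi hμ
      _ = v α := mul_one _
  have h13 : v (x₁ * x₃) < v α := by
    rw [map_mul]
    calc v x₁ * v x₃ ≤ v α * v x₃ := mul_le_mul' h1 le_rfl
      _ < v α * 1 := mul_lt_mul_of_pos_left h3hi hμ
      _ = v α := mul_one _
  have hle : v x₂ * v x₃ ≤ v α := by
    have e : x₂ * x₃ = α * β - 2 * l * n - x₁ * x₂ - x₁ * x₃ := by rw [← h.V2]; ring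
    rw [← map_mul, e]
    apply Valuation.map_sub_le _ (Valuation.map_sub_le _ (Valuation.map_sub_le _ hαβ.le _) h12.le)
      h13.le
    rw [map_mul, map_mul, h2, hl, one_mul, one_mul]; exact hn
  rcases hle.lt_or_eq with hlt | heq
  · exfalso
    have hln := h.vl_vn h2
    rw [hl, one_mul] at hln
    have hs : v (x₁ * x₂ + x₁ * x₃ + x₂ * x₃) < v α :=
      val_add3_lt h12 h13 (by rw [map_mul]; exact hlt)
    rw [Valuation.map_sub_eq_of_lt_left _ (by rw [hαβ]; exact hs), hαβ] at hln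
    have e1 := h.vn_sq (v := v)
    rw [hln] at e1
    have e2 : v x₁ * v x₂ * v x₃ < v α ^ 2 := by
      rw [pow_two, mul_assoc]
      calc v x₁ * (v x₂ * v x₃) ≤ v α * (v x₂ * v x₃) := mul_le_mul' h1 le_rfl
        _ < v α * v α := mul_lt_mul_of_pos_left hlt hμ
    exact absurd e1.symm e2.ne
  · exact heq

/-- `M`, mid, mid: the two middle points lie on the same branch. -/
lemma factA'_sign (h : Coll α β x₁ y₁ x₂ y₂ x₃ y₃ l n) (h2 : v 2 = 1) (hα : v α < 1)
    (hβ : v β = 1) (hγ : γ ^ 2 = -β)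
    (h1 : v x₁ ≤ v α) (h2lo : v α < v x₂) (h2hi : v x₂ < 1) (h3lo : v α < v x₃)
    (h3hi : v x₃ < 1)
    (hP2 : v (y₂ - γ * x₂) < v x₂) (hN3 : v (y₃ - (-γ) * x₃) < v x₃) : False := by
  have hr2 : 0 < v x₂ := lt_of_le_of_lt zero_le h2lo
  have hr3 : 0 < v x₃ := lt_of_le_of_lt zero_le h3lo
  have hγ1 : v γ = 1 := val_gamma hβ hγ
  have hl : v l = 1 := h.vl_eq_one hα hβ (h1.trans_lt hα) h2hi h3hi
  have hy1 : v y₁ ≤ v α := val_y_le_of_M hα hβ h.E1 h1
  have hn : v n ≤ v α := by
    have e : n = y₁ - l * x₁ := by rw [h.L1]; ring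
    rw [e]
    apply Valuation.map_sub_le _ hy1
    rw [map_mul, hl, one_mul]; exact h1
  have hk : v (l - γ) < 1 := by
    have e : (l - γ) * x₂ = (y₂ - γ * x₂) - n := by rw [h.L2]; ring
    have : v ((l - γ) * x₂) < v x₂ := by
      rw [e]; exact Valuation.map_sub_lt _ hP2 (hn.trans_lt h2lo)
    rw [map_mul] at this
    by_contra hcon
    rw [not_lt] at hcon
    exact absurd (le_mul_of_one_le_left hr2.le hcon) (not_le.mpr this)
  have hk' : v (l + γ) < 1 := by
    have e : (l + γ) * x₃ = (y₃ - (-γ) * x₃) - n := by rw [h.L3]; ring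
    have : v ((l + γ) * x₃) < v x₃ := by
      rw [e]; exact Valuation.map_sub_lt _ hN3 (hn.trans_lt h3lo)
    rw [map_mul] at this
    by_contra hcon
    rw [not_lt] at hcon
    exact absurd (le_mul_of_one_le_left hr3.le hcon) (not_le.mpr this)
  have e : 2 * γ = (l + γ) - (l - γ) := by ring
  have : v (2 * γ) < 1 := by rw [e]; exact Valuation.map_sub_lt _ hk' hk
  rw [map_mul, h2, hγ1, one_mul] at this
  exact lt_irrefl _ this


/-- When all three points are at the node, the slope is congruent to exactly one of `±γ`. -/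
lemma Coll.kappa_dichotomy (h : Coll α β x₁ y₁ x₂ y₂ x₃ y₃ l n) (h2 : v 2 = 1)
    (hα : v α < 1) (hβ : v β = 1) (hγ : γ ^ 2 = -β)
    (h1 : v x₁ < 1) (h2' : v x₂ < 1) (h3 : v x₃ < 1) :
    (v (l - γ) < 1 ∧ v (l - (-γ)) = 1) ∨ (v (l - γ) = 1 ∧ v (l - (-γ)) < 1) := by
  have hγ1 : v γ = 1 := val_gamma hβ hγ
  have h2γ : v (2 * γ) = 1 := by rw [map_mul, h2, hγ1, one_mul]
  have hprod : v ((l - γ) * (l - (-γ))) < 1 := by
    have e : (l - γ) * (l - (-γ)) = x₁ + x₂ + x₃ - α := by
      have : (l - γ) * (l - (-γ)) = l ^ 2 - γ ^ 2 := by ring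
      rw [this, hγ, h.l_sq]; ring
    rw [e]
    exact Valuation.map_sub_lt _ (val_add3_lt h1 h2' h3) hα
  rcases lt_or_ge (v (l - γ)) 1 with hk | hk
  · left
    refine ⟨hk, ?_⟩
    have e : l - (-γ) = (l - γ) + 2 * γ := by ring
    rw [e, Valuation.map_add_eq_of_lt_right _ (by rw [h2γ]; exact hk), h2γ]
  · right
    have hk' : v (l - (-γ)) < 1 := by
      by_contra hcon
      rw [not_lt] at hcon
      rw [map_mul] at hprod
      exact absurd (one_le_mul_of_one_le_of_one_le hk hcon) (not_le.mpr hprod)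
    refine ⟨?_, hk'⟩
    have e : l - γ = (l - (-γ)) - 2 * γ := by ring
    rw [e, Valuation.map_sub_eq_of_lt_right _ (by rw [h2γ]; exact hk'), h2γ]

/-- If `v κ < 1` and `v (κ x + n) < v x` then `v n < v x`. -/
lemma val_n_lt_of_small {κ x n : K} (hκ : v κ < 1) (hx : 0 < v x)
    (h : v (κ * x + n) < v x) : v n < v x := by
  have e : n = (κ * x + n) - κ * x := by ring
  rw [e]
  apply Valuation.map_sub_lt _ h
  rw [map_mul]
  calc v κ * v x < 1 * v x := mul_lt_mul_of_pos_right hκ hx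
    _ = v x := one_mul _

/-- If `v κ = 1` and `v (κ x + n) < v x` then `v n = v x`. -/
lemma val_n_eq_of_unit {κ x n : K} (hκ : v κ = 1)
    (h : v (κ * x + n) < v x) : v n = v x := by
  have e : n = (κ * x + n) - κ * x := by ring
  have hκx : v (κ * x) = v x := by rw [map_mul, hκ, one_mul]
  rw [e, Valuation.map_sub_eq_of_lt_right _ (by rw [hκx]; exact h), hκx]

/-- mid, mid, mid, all on the same branch: `v x₁ * v x₂ * v x₃ = v α ^ 2`. -/
lemma factA_same (h : Coll α β x₁ y₁ x₂ y₂ x₃ y₃ l n) (h2 : v 2 = 1) (hα : v α < 1)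
    (hβ : v β = 1) (hγ : γ ^ 2 = -β)
    (h1lo : v α < v x₁) (h1hi : v x₁ < 1)
    (h2lo : v α < v x₂) (h2hi : v x₂ < 1) (h3lo : v α < v x₃) (h3hi : v x₃ < 1)
    (hP1 : v (y₁ - γ * x₁) < v x₁) (hP2 : v (y₂ - γ * x₂) < v x₂)
    (hP3 : v (y₃ - γ * x₃) < v x₃) : v x₁ * v x₂ * v x₃ = v α ^ 2 := by
  have hr1 : 0 < v x₁ := lt_of_le_of_lt zero_le h1lo
  have hr2 : 0 < v x₂ := lt_of_le_of_lt zero_le h2lo
  have hr3 : 0 < v x₃ := lt_of_le_of_lt zero_le h3lo
  have hl : v l = 1 := h.vl_eq_one hα hβ h1hi h2hi h3hi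
  have e1 : y₁ - γ * x₁ = (l - γ) * x₁ + n := by rw [h.L1]; ring
  have e2 : y₂ - γ * x₂ = (l - γ) * x₂ + n := by rw [h.L2]; ring
  have e3 : y₃ - γ * x₃ = (l - γ) * x₃ + n := by rw [h.L3]; ring
  rw [e1] at hP1
  rw [e2] at hP2
  rw [e3] at hP3
  rcases h.kappa_dichotomy h2 hα hβ hγ h1hi h2hi h3hi with ⟨hk, -⟩ | ⟨hk, -⟩
  · have hn1 := val_n_lt_of_small hk hr1 hP1
    have hn2 := val_n_lt_of_small hk hr2 hP2
    have hn3 := val_n_lt_of_small hk hr3 hP3
    have hnsq := h.vn_sq (v := v)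
    have hnpos : 0 < v n := by
      rcases eq_or_ne (v n) 0 with h0 | h0
      · rw [h0] at hnsq
        exact absurd hnsq.symm (by simpa using (mul_pos (mul_pos hr1 hr2) hr3).ne')
      · exact zero_lt_iff.mpr h0
    -- each pairwise product is < v n
    have key : ∀ a b c : Γ₀, 0 < a → 0 < b → v n ^ 2 = a * b * c → v n < c → a * b < v n := by
      intro a b c ha hb habc hc
      by_contra hcon
      rw [not_lt] at hcon
      have : v n ^ 2 < a * b * c := by
        rw [pow_two]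
        calc v n * v n ≤ a * b * v n := mul_le_mul' hcon le_rfl
          _ < a * b * c := mul_lt_mul_of_pos_left hc (mul_pos ha hb)
      exact absurd habc this.ne
    have k12 : v (x₁ * x₂) < v n := by
      rw [map_mul]; exact key _ _ _ hr1 hr2 hnsq hn3
    have k13 : v (x₁ * x₃) < v n := by
      rw [map_mul]; exact key _ _ _ hr1 hr3 (by rw [hnsq]; exact mul_right_comm _ _ _) hn2
    have k23 : v (x₂ * x₃) < v n := by
      rw [map_mul]
      exact key _ _ _ hr2 hr3 (by rw [hnsq]; exact mul_rotate _ _ _) hn1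
    have hs : v (x₁ * x₂ + x₁ * x₃ + x₂ * x₃) < v n := val_add3_lt k12 k13 k23
    have h2ln : v (2 * l * n) = v n := by rw [map_mul, map_mul, h2, hl, one_mul, one_mul]
    have hαβ : v (α * β) = v α := by rw [map_mul, hβ, mul_one]
    have : v (α * β) = v (2 * l * n) := by
      have e : α * β = (α * β - 2 * l * n) + 2 * l * n := by ring
      rw [e]
      apply Valuation.map_add_eq_of_lt_right
      rw [← h.V2, h2ln]; exact hs
    rw [hαβ, h2ln] at this
    rw [← hnsq, this]
  · exfalso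
    have hn1 := val_n_eq_of_unit hk hP1
    have hn2 := val_n_eq_of_unit hk hP2
    have hn3 := val_n_eq_of_unit hk hP3
    have hnsq := h.vn_sq (v := v)
    rw [← hn1, ← hn2, ← hn3, pow_two] at hnsq
    have hnpos : 0 < v n := hn1 ▸ hr1
    have : v n * v n * 1 = v n * v n * v n := by rw [mul_one]; exact hnsq
    have := mul_left_cancel₀ (mul_pos hnpos hnpos).ne' this
    rw [← this] at hn1
    exact absurd hn1.symm h1hi.ne

/-- mid, mid, mid, two on one branch and the third on the other: `v x₃ = v x₁ * v x₂`. -/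
lemma factA_mixed (h : Coll α β x₁ y₁ x₂ y₂ x₃ y₃ l n) (h2 : v 2 = 1) (hα : v α < 1)
    (hβ : v β = 1) (hγ : γ ^ 2 = -β)
    (h1lo : v α < v x₁) (h1hi : v x₁ < 1)
    (h2lo : v α < v x₂) (h2hi : v x₂ < 1) (h3lo : v α < v x₃) (h3hi : v x₃ < 1)
    (hP1 : v (y₁ - γ * x₁) < v x₁) (hP2 : v (y₂ - γ * x₂) < v x₂)
    (hN3 : v (y₃ - (-γ) * x₃) < v x₃) : v x₃ = v x₁ * v x₂ := by
  have hr1 : 0 < v x₁ := lt_of_le_of_lt zero_le h1lo
  have hr2 : 0 < v x₂ := lt_of_le_of_lt zero_le h2lo
  have hr3 : 0 < v x₃ := lt_of_le_of_lt zero_le h3lo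
  have e1 : y₁ - γ * x₁ = (l - γ) * x₁ + n := by rw [h.L1]; ring
  have e2 : y₂ - γ * x₂ = (l - γ) * x₂ + n := by rw [h.L2]; ring
  have e3 : y₃ - (-γ) * x₃ = (l - (-γ)) * x₃ + n := by rw [h.L3]; ring
  rw [e1] at hP1
  rw [e2] at hP2
  rw [e3] at hN3
  have hnsq := h.vn_sq (v := v)
  rcases h.kappa_dichotomy h2 hα hβ hγ h1hi h2hi h3hi with ⟨-, hk'⟩ | ⟨hk, hk'⟩
  · have hn3 := val_n_eq_of_unit hk' hN3
    rw [hn3, pow_two] at hnsq
    have : v x₃ * v x₃ = v x₁ * v x₂ * v x₃ := hnsq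
    exact mul_right_cancel₀ hr3.ne' this
  · exfalso
    have hn1 := val_n_eq_of_unit hk hP1
    have hn2 := val_n_eq_of_unit hk hP2
    rw [← hn1, ← hn2, pow_two] at hnsq
    have hnpos : 0 < v n := hn1 ▸ hr1
    have : v n * v n * 1 = v n * v n * v x₃ := by rw [mul_one]; exact hnsq
    have := mul_left_cancel₀ (mul_pos hnpos hnpos).ne' this
    exact absurd this.symm h3hi.ne

end Fermat.Agent.S05.Comp

end
-- ===== PACK-END S05/CompCore.lean

-- ===== PACK-BEGIN S13/H175/InertiaLift.lean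
section


set_option autoImplicit false

/-!
# Lifting inertia elements along a closed normal subgroup of a profinite group

`G` profinite acting continuously on a discrete commutative ring `B`, `N` a closed normal
subgroup, `Q` a prime of `B`.  If `g₀ ∈ G` acts trivially modulo `Q` on the `N`-invariants of `B`
then there is `σ ∈ g₀ N` acting trivially modulo `Q` on all of `B`.
-/

open scoped Pointwise

namespace Fermat.Agent.S13.H175

universe u

section

variable {B : Type*} [CommRing B]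
variable {G : Type u} [Group G] [MulSemiringAction G B]

theorem isInvariant_fixedPoints (N : Subgroup G) :
    Algebra.IsInvariant (FixedPoints.subalgebra ℤ B N) B N :=
  ⟨fun b hb => ⟨⟨b, fun n => hb n⟩, rfl⟩⟩

theorem smul_mem_fixedPoints (N : Subgroup G) [hn : N.Normal] (g : G) {x : B}
    (hx : ∀ n ∈ N, n • x = x) : ∀ n ∈ N, n • (g • x) = g • x := by
  intro n hnN
  have h1 : g⁻¹ * n * g ∈ N := by
    have := hn.conj_mem n hnN g⁻¹
    simpa using this
  have h2 := hx _ h1
  calc n • (g • x) = g • ((g⁻¹ * n * g) • x) := by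
        simp [mul_smul]
    _ = g • x := by rw [h2]

end

variable {B : Type*} [CommRing B]
variable {G : Type u} [Group G] [MulSemiringAction G B]
variable [TopologicalSpace G] [CompactSpace G] [TotallyDisconnectedSpace G]
variable [IsTopologicalGroup G] [TopologicalSpace B] [DiscreteTopology B] [ContinuousSMul G B]

theorem exists_inertia_lift (N : Subgroup G) [hn : N.Normal] (hN : IsClosed (N : Set G))
    (Q : Ideal B) [hQ : Q.IsPrime] (g₀ : G)
    (h₀ : ∀ x : B, (∀ n ∈ N, n • x = x) → g₀ • x - x ∈ Q) :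
    ∃ σ : G, g₀⁻¹ * σ ∈ N ∧ ∀ x : B, σ • x - x ∈ Q := by
  have : CompactSpace N := isCompact_iff_compactSpace.mp hN.isCompact
  have := isInvariant_fixedPoints (B := B) N
  -- Step 1: move `g₀ • Q` back to `Q` by an element of `N`.
  have hunder : (g₀ • Q).under (FixedPoints.subalgebra ℤ B N) =
      Q.under (FixedPoints.subalgebra ℤ B N) := by
    ext ⟨x, hx⟩
    have hx' : ∀ n ∈ N, n • x = x := fun n hn' => hx ⟨n, hn'⟩
    simp only [Ideal.mem_comap]
    show x ∈ g₀ • Q ↔ x ∈ Q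
    rw [Ideal.mem_pointwise_smul_iff_inv_smul_mem]
    have hy : ∀ n ∈ N, n • (g₀⁻¹ • x) = g₀⁻¹ • x := smul_mem_fixedPoints N g₀⁻¹ hx'
    have h1 := h₀ _ hy
    rw [smul_inv_smul] at h1
    constructor
    · intro h
      have := Q.add_mem h1 h
      simpa using this
    · intro h
      have := Q.sub_mem h h1
      simpa using this
  obtain ⟨n, hn1⟩ := Algebra.IsInvariant.exists_smul_of_under_eq_of_profinite
    (A := FixedPoints.subalgebra ℤ B N) (G := N) (g₀ • Q) Q hunder
  -- `g₁ = n g₀` stabilises `Q` and still acts trivially mod `Q` on the `N`-invariants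
  set g₁ : G := (n : G) * g₀ with hg₁
  have hg₁Q : g₁ • Q = Q := by
    rw [hg₁, mul_smul]
    exact hn1.symm
  have hg₁fix : ∀ x : B, (∀ m ∈ N, m • x = x) → g₁ • x - x ∈ Q := by
    intro x hx
    have h1 : (n : G) • (g₀ • x) = g₀ • x := smul_mem_fixedPoints N g₀ hx n n.2
    rw [hg₁, mul_smul, h1]
    exact h₀ x hx
  -- Step 2: the automorphism of `B ⧸ Q` induced by `g₁` is `B' ⧸ Q'`-linear
  let e₀ : (B ⧸ Q) ≃ₐ[ℤ ⧸ Q.under ℤ] (B ⧸ Q) :=
    Ideal.Quotient.stabilizerHom Q (Q.under ℤ) G ⟨g₁, hg₁Q⟩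
  have he₀ : ∀ x : B, e₀ (Ideal.Quotient.mk Q x) = Ideal.Quotient.mk Q (g₁ • x) := fun x => rfl
  let e : (B ⧸ Q) ≃ₐ[FixedPoints.subalgebra ℤ B N ⧸ Q.under (FixedPoints.subalgebra ℤ B N)]
      (B ⧸ Q) :=
    AlgEquiv.ofRingEquiv (f := e₀.toRingEquiv) (by
      intro x
      obtain ⟨⟨b, hb⟩, rfl⟩ := Ideal.Quotient.mk_surjective x
      have hb' : ∀ m ∈ N, m • b = b := fun m hm => hb ⟨m, hm⟩
      show e₀ (Ideal.Quotient.mk Q b) = Ideal.Quotient.mk Q b
      rw [he₀, Ideal.Quotient.eq]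
      exact hg₁fix b hb')
  obtain ⟨n', hn'⟩ := Ideal.Quotient.stabilizerHom_surjective_of_profinite (G := N)
    (Q.under (FixedPoints.subalgebra ℤ B N)) Q e
  have hn'Q : (n' : N) • Q = Q := n'.2
  have hkey : ∀ x : B, ((n' : N) : G) • x - g₁ • x ∈ Q := by
    intro x
    have h1 := congrArg (fun t => t (Ideal.Quotient.mk Q x)) hn'
    simp only [Ideal.Quotient.stabilizerHom_apply] at h1
    have h2 : e (Ideal.Quotient.mk Q x) = Ideal.Quotient.mk Q (g₁ • x) := he₀ x
    rw [h2] at h1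
    exact Ideal.Quotient.eq.mp h1
  refine ⟨((n' : N) : G)⁻¹ * g₁, ?_, fun x => ?_⟩
  · have h1 : ((n' : N) : G)⁻¹ * (n : G) ∈ N := N.mul_mem (N.inv_mem (n' : N).2) n.2
    have h2 := hn.conj_mem _ h1 g₀⁻¹
    have h3 : g₀⁻¹ * (((n' : N) : G)⁻¹ * g₁) = g₀⁻¹ * (((n' : N) : G)⁻¹ * (n : G)) * g₀⁻¹⁻¹ := by
      rw [hg₁]; group
    rw [h3]
    exact h2
  · have h1 : g₁ • x - ((n' : N) : G) • x ∈ Q := by
      have := Q.neg_mem (hkey x)
      simpa using this
    have h2 : ((n' : N) : G)⁻¹ • (g₁ • x - ((n' : N) : G) • x) ∈ Q := by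
      have h3 : g₁ • x - ((n' : N) : G) • x ∈ ((n' : N) : G) • Q := by
        have : ((n' : N) : G) • Q = Q := hn'Q
        rw [this]; exact h1
      exact Ideal.mem_pointwise_smul_iff_inv_smul_mem.mp h3
    have h4 : ((n' : N) : G)⁻¹ • (g₁ • x - ((n' : N) : G) • x) =
        (((n' : N) : G)⁻¹ * g₁) • x - x := by
      rw [smul_sub, inv_smul_smul, ← mul_smul]
    rw [← h4]
    exact h2

end Fermat.Agent.S13.H175

end
-- ===== PACK-END S13/H175/InertiaLift.lean

-- ===== PACK-BEGIN S13/H175/MinkowskiInertia.lean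
section


set_option autoImplicit false

/-!
# Minkowski: a nontrivial finite Galois extension of `ℚ` has a prime with nontrivial inertia
-/

open scoped Pointwise

namespace Fermat.Agent.S13.H175

/-- For a Galois number field `F ≠ ℚ` there is a rational prime `q` such that every prime `P`
of the ring of integers of `F` containing `q` has a nontrivial inertia element. -/
theorem exists_inertia_ne_one (F : Type*) [Field F] [NumberField F] [IsGalois ℚ F]
    (hF : 1 < Module.finrank ℚ F) :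
    ∃ q : ℕ, q.Prime ∧ ∀ (P : Ideal (integralClosure ℤ F)), P.IsPrime →
      (q : integralClosure ℤ F) ∈ P →
      ∃ τ : F ≃ₐ[ℚ] F, τ ≠ 1 ∧ ∀ x : integralClosure ℤ F, τ • x - x ∈ P := by
  obtain ⟨q, hq, hram⟩ :=
    NumberField.exists_not_isUnramifiedAt_int_of_isGalois (K := F) (𝒪 := integralClosure ℤ F) hF
  refine ⟨q, hq, fun P hP hqP => ?_⟩
  have hnr := hram P hP hqP
  have := (IsIntegralClosure.algebraMap_injective (integralClosure ℤ F) ℤ F).isDomain
  have := IsIntegralClosure.isDedekindDomain ℤ ℚ F (integralClosure ℤ F)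
  have := IsIntegralClosure.isFractionRing_of_finite_extension ℤ ℚ F (integralClosure ℤ F)
  have := IsIntegralClosure.finite ℤ ℚ F (integralClosure ℤ F)
  have := CharZero.of_module (R := integralClosure ℤ F) F
  have : IsGaloisGroup (F ≃ₐ[ℚ] F) ℤ (integralClosure ℤ F) :=
    IsGaloisGroup.of_isFractionRing (F ≃ₐ[ℚ] F) ℤ (integralClosure ℤ F) ℚ F
  have hcard : Nat.card (P.inertia (F ≃ₐ[ℚ] F)) ≠ 1 := by
    rw [Ideal.card_inertia_eq_ramificationIdxIn (P.under ℤ) P,
      Ideal.ramificationIdxIn_eq_ramificationIdx (P.under ℤ) P (F ≃ₐ[ℚ] F),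
      Ne, Ideal.ramificationIdx_eq_one_iff]
    exact hnr
  have hne : P.inertia (F ≃ₐ[ℚ] F) ≠ ⊥ := fun h => hcard (Subgroup.card_eq_one.mpr h)
  obtain ⟨⟨τ, hτ⟩, hτ1⟩ := (Subgroup.ne_bot_iff_exists_ne_one).mp hne
  refine ⟨τ, fun h => hτ1 (Subtype.ext h), fun x => ?_⟩
  exact hτ x

end Fermat.Agent.S13.H175

end
-- ===== PACK-END S13/H175/MinkowskiInertia.lean

-- ===== PACK-BEGIN S59/H127/PDiv.lean
section


/-!
# E-side foundation, part 3: compatible bases of the `p`-power torsion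

Abstract algebra (Mathlib only).  Let `A` be an abelian group and `p` a prime such that

* multiplication by `p` is surjective on `A`, and
* `#A[p] = p ^ h`.

Then there is a *compatible system of bases* `B k : Fin h → A[p^k]` (`CompatBasis A p h`):
`p • B (k+1) i = B k i`, and `(B k i)_i` is a basis of `A[p^k]` over `ℤ / p^k`
(`nonempty_compatBasis`).  In particular `A[p^k] ≃ (ℤ/p^k)^h` for all `k`.
-/

namespace Fermat.Agent.S59.H127

/-- a compatible system of bases of the `p^k`-torsion of an abelian group `A` -/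
structure CompatBasis (A : Type*) [AddCommGroup A] (p h : ℕ) where
  /-- the basis of the `p^k`-torsion -/
  B : ℕ → Fin h → A
  zero : ∀ i, B 0 i = 0
  succ : ∀ k i, p • B (k + 1) i = B k i
  indep : ∀ k (c : Fin h → ℤ), ∑ i, c i • B k i = 0 → ∀ i, ((p : ℤ) ^ k) ∣ c i
  span : ∀ k (x : A), p ^ k • x = 0 → ∃ c : Fin h → ℤ, x = ∑ i, c i • B k i

section basis

variable {A : Type*} [AddCommGroup A] (p : ℕ) [hp : Fact p.Prime] (h : ℕ)

/-- a basis of a finite `ZMod p`-module of cardinality `p ^ h`, in elementary terms -/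
lemma exists_basis_of_zmod_module {M : Type*} [AddCommGroup M] [Module (ZMod p) M]
    (hcard : Nat.card M = p ^ h) :
    ∃ b : Fin h → M,
      (∀ c : Fin h → ℤ, ∑ i, c i • b i = 0 → ∀ i, (p : ℤ) ∣ c i) ∧
      (∀ x : M, ∃ c : Fin h → ℤ, x = ∑ i, c i • b i) := by
  classical
  have hfin : Finite M :=
    Nat.finite_of_card_ne_zero (by rw [hcard]; exact pow_ne_zero _ hp.out.ne_zero)
  have hMf : Module.Finite (ZMod p) M := Module.Finite.of_finite
  have hrank : Module.finrank (ZMod p) M = h := by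
    have := Module.natCard_eq_pow_finrank (K := ZMod p) (V := M)
    rw [hcard, Nat.card_zmod] at this
    exact (Nat.pow_right_injective hp.out.two_le this).symm
  let b := Module.finBasisOfFinrankEq (ZMod p) M hrank
  refine ⟨fun i => b i, ?_, ?_⟩
  · intro c hc i
    have h1 : ∑ i, ((c i : ℤ) : ZMod p) • b i = 0 := by
      rw [← hc]
      refine Finset.sum_congr rfl fun j _ => ?_
      rw [Int.cast_smul_eq_zsmul]
    have h2 := Fintype.linearIndependent_iff.mp b.linearIndependent _ h1 i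
    exact (ZMod.intCast_zmod_eq_zero_iff_dvd _ p).mp h2
  · intro x
    refine ⟨fun i => ((b.repr x i).val : ℤ), ?_⟩
    have h1 := b.sum_repr x
    conv_lhs => rw [← h1]
    refine Finset.sum_congr rfl fun j _ => ?_
    rw [← Int.cast_smul_eq_zsmul (ZMod p)]
    congr 1
    rw [Int.cast_natCast, ZMod.natCast_zmod_val]

/-- a basis of the `p`-torsion, in elementary terms -/
lemma exists_basis_torsion_p
    (hcard : Nat.card (Submodule.torsionBy ℤ A ((p : ℕ) : ℤ)) = p ^ h) :
    ∃ b : Fin h → A, (∀ i, p • b i = 0) ∧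
      (∀ c : Fin h → ℤ, ∑ i, c i • b i = 0 → ∀ i, (p : ℤ) ∣ c i) ∧
      (∀ x : A, p • x = 0 → ∃ c : Fin h → ℤ, x = ∑ i, c i • b i) := by
  classical
  have hmem : ∀ x : A, x ∈ Submodule.torsionBy ℤ A ((p : ℕ) : ℤ) ↔ p • x = 0 := by
    intro x
    rw [Submodule.mem_torsionBy_iff, natCast_zsmul]
  have hkill : ∀ x : Submodule.torsionBy ℤ A ((p : ℕ) : ℤ), p • x = 0 := by
    intro x
    apply Subtype.ext
    rw [Submodule.coe_smul_of_tower, Submodule.coe_zero]
    exact (hmem _).mp x.2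
  obtain ⟨b, hbi, hbs⟩ := @exists_basis_of_zmod_module p hp h
    (Submodule.torsionBy ℤ A ((p : ℕ) : ℤ)) _ (AddCommGroup.zmodModule hkill) hcard
  refine ⟨fun i => ((b i : Submodule.torsionBy ℤ A ((p : ℕ) : ℤ)) : A), ?_, ?_, ?_⟩
  · intro i
    exact (hmem _).mp (b i).2
  · intro c hc i
    refine hbi c ?_ i
    apply Subtype.ext
    rw [Submodule.coe_sum, Submodule.coe_zero, ← hc]
    refine Finset.sum_congr rfl fun j _ => ?_
    rw [Submodule.coe_smul_of_tower]
  · intro x hx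
    obtain ⟨c, hc⟩ := hbs ⟨x, (hmem x).mpr hx⟩
    refine ⟨c, ?_⟩
    have h2 := congrArg (Subtype.val) hc
    rw [Submodule.coe_sum] at h2
    rw [show x = ((⟨x, (hmem x).mpr hx⟩ : Submodule.torsionBy ℤ A ((p : ℕ) : ℤ)) : A) from rfl, h2]
    refine Finset.sum_congr rfl fun j _ => ?_
    rw [Submodule.coe_smul_of_tower]

end basis

section tower

variable {A : Type*} [AddCommGroup A] (p : ℕ) (h : ℕ)

/-- the tower of `p`-division points above a given family -/
noncomputable def divTower (hdiv : ∀ x : A, ∃ y : A, p • y = x) (b : Fin h → A) :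
    ℕ → Fin h → A
  | 0 => b
  | (k + 1) => fun i => Classical.choose (hdiv (divTower hdiv b k i))

lemma divTower_succ (hdiv : ∀ x : A, ∃ y : A, p • y = x) (b : Fin h → A) (k : ℕ) (i : Fin h) :
    p • divTower p h hdiv b (k + 1) i = divTower p h hdiv b k i :=
  Classical.choose_spec (hdiv (divTower p h hdiv b k i))

end tower

section compat

variable {A : Type*} [AddCommGroup A] {p h : ℕ}

lemma pow_smul_of_succ {B : ℕ → Fin h → A} (hsucc : ∀ k i, p • B (k + 1) i = B k i)
    (j k : ℕ) (i : Fin h) : p ^ j • B (k + j) i = B k i := by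
  induction j with
  | zero => simp
  | succ j ih =>
    rw [pow_succ, mul_smul, ← add_assoc, hsucc, ih]

variable (p h) [hp : Fact p.Prime]

/-- **existence of a compatible system of bases** for a `p`-divisible group with `#A[p] = p^h` -/
theorem nonempty_compatBasis (hdiv : ∀ x : A, ∃ y : A, p • y = x)
    (hcard : Nat.card (Submodule.torsionBy ℤ A ((p : ℕ) : ℤ)) = p ^ h) :
    Nonempty (CompatBasis A p h) := by
  classical
  obtain ⟨b, hb0, hbi, hbs⟩ := exists_basis_torsion_p p h hcard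
  -- the tower
  let C := divTower p h hdiv b
  let B : ℕ → Fin h → A := fun k => match k with
    | 0 => fun _ => 0
    | (k + 1) => C k
  have hB0 : ∀ i, B 0 i = 0 := fun i => rfl
  have hB1 : ∀ i, B 1 i = b i := fun i => rfl
  have hsucc : ∀ k i, p • B (k + 1) i = B k i := by
    intro k i
    cases k with
    | zero => exact hb0 i
    | succ k => exact divTower_succ p h hdiv b k i
  have hpow : ∀ k i, p ^ k • B (k + 1) i = b i := by
    intro k i
    have := pow_smul_of_succ hsucc k 1 i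
    rw [add_comm 1 k] at this
    rw [this, hB1]
  have hkill : ∀ k i, p ^ k • B k i = 0 := by
    intro k i
    have := pow_smul_of_succ hsucc k 0 i
    rw [zero_add] at this
    rw [this]
  refine ⟨⟨B, hB0, hsucc, ?_, ?_⟩⟩
  · -- independence
    intro k
    induction k with
    | zero => intro c _ i; simp
    | succ k ih =>
      intro c hc i
      -- multiply by `p^k`
      have h1 : ∑ i, c i • b i = 0 := by
        have := congrArg (fun x => p ^ k • x) hc
        simp only [Finset.smul_sum, smul_zero] at this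
        rw [← this]
        refine Finset.sum_congr rfl fun j _ => ?_
        rw [smul_comm, hpow]
      have h2 := hbi c h1
      choose c' hc' using h2
      have h3 : ∑ i, c' i • B k i = 0 := by
        rw [← hc]
        refine Finset.sum_congr rfl fun j _ => ?_
        rw [hc' j, mul_comm, mul_smul, natCast_zsmul, hsucc]
      have h4 := ih c' h3 i
      rw [hc' i, pow_succ']
      exact mul_dvd_mul_left _ h4
  · -- spanning
    intro k
    induction k with
    | zero =>
      intro x hx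
      refine ⟨fun _ => 0, ?_⟩
      rw [pow_zero, one_smul] at hx
      simp [hx]
    | succ k ih =>
      intro x hx
      have hx' : p ^ k • (p • x) = 0 := by
        rw [← mul_smul, ← pow_succ]; exact hx
      obtain ⟨c, hc⟩ := ih (p • x) hx'
      have hy : p • (x - ∑ i, c i • B (k + 1) i) = 0 := by
        rw [smul_sub, hc, Finset.smul_sum, sub_eq_zero]
        refine Finset.sum_congr rfl fun j _ => ?_
        rw [smul_comm, hsucc]
      obtain ⟨d, hd⟩ := hbs _ hy
      refine ⟨fun i => c i + d i * (p : ℤ) ^ k, ?_⟩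
      have : x = ∑ i, c i • B (k + 1) i + ∑ i, d i • b i := by
        rw [← hd]; abel
      rw [this, ← Finset.sum_add_distrib]
      refine Finset.sum_congr rfl fun j _ => ?_
      rw [add_smul, mul_smul, ← Nat.cast_pow, natCast_zsmul, hpow]

end compat

end Fermat.Agent.S59.H127

end
-- ===== PACK-END S59/H127/PDiv.lean

-- ===== PACK-BEGIN S21/H81/InjCore.lean
section



/-!
# S21, piece C (core): a holomorphic function on `ℍ` whose real part is `Γ₀(N)`-invariant and
which has a limit at every cusp has vanishing derivative.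
-/

set_option autoImplicit false

open UpperHalfPlane CongruenceSubgroup Filter Topology Complex
open scoped MatrixGroups Manifold

namespace Fermat.Agent.S21.H81

/-- `SL(2,ℤ)` acts holomorphically on `ℍ`. -/
theorem injCore_mdiff_smul (g : SL(2, ℤ)) : MDiff (fun τ : ℍ => g • τ) := by
  have h : (0 : ℝ) < ((g : GL (Fin 2) ℝ).det : ℝ) := by simp
  exact mdifferentiable_smul h

theorem injCore_mdiff_of_differentiableAt {A : ℍ → ℂ}
    (hol : ∀ τ : ℍ, DifferentiableAt ℂ (A ∘ ofComplex) (τ : ℂ)) : MDiff A := by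
  intro τ
  exact UpperHalfPlane.mdifferentiableAt_iff.mpr (hol τ)

/-- `T ^ N` conjugated by anything lies in `Γ₀(N)`. -/
theorem injCore_conj_T_pow_mem (N : ℕ) (δ : SL(2, ℤ)) :
    δ * ModularGroup.T ^ (N : ℤ) * δ⁻¹ ∈ Gamma0 N := by
  have h1 : ModularGroup.T ^ (N : ℤ) ∈ CongruenceSubgroup.Gamma N := by
    rw [Gamma_mem, ModularGroup.coe_T_zpow]
    simp
  have h2 : δ * ModularGroup.T ^ (N : ℤ) * δ⁻¹ ∈ CongruenceSubgroup.Gamma N :=
    (Gamma_normal N).conj_mem _ h1 δ
  exact Gamma0_mem.mpr (Gamma_mem.mp h2).2.2.1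

theorem injCore_tendsto_vadd (x : ℝ) :
    Tendsto (fun w : ℍ => x +ᵥ w) atImInfty atImInfty := by
  rw [atImInfty, tendsto_comap_iff]
  have : (UpperHalfPlane.im ∘ fun w : ℍ => x +ᵥ w) = UpperHalfPlane.im := by
    funext w; simp
  rw [this]
  exact tendsto_comap


section core

variable {N : ℕ} {A : ℍ → ℂ}

theorem injCore_vadd_eq
    (hinv : ∀ γ ∈ Gamma0 N, ∃ c : ℂ, c.re = 0 ∧ ∀ z : ℍ, A (γ • z) - A z = c)
    (hcusp : ∀ δ : SL(2, ℤ), ∃ L : ℂ, Tendsto (fun w : ℍ => A (δ • w)) atImInfty (𝓝 L))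
    (δ : SL(2, ℤ)) (w : ℍ) : A (δ • ((N : ℝ) +ᵥ w)) = A (δ • w) := by
  obtain ⟨c, -, hc⟩ := hinv _ (injCore_conj_T_pow_mem N δ)
  have key : ∀ w : ℍ, A (δ • ((N : ℝ) +ᵥ w)) - A (δ • w) = c := by
    intro w
    have h := hc (δ • w)
    have e : (δ * ModularGroup.T ^ (N : ℤ) * δ⁻¹) • (δ • w) = δ • ((N : ℝ) +ᵥ w) := by
      rw [mul_smul, mul_smul, inv_smul_smul, modular_T_zpow_smul]
      simp
    rwa [e] at h
  obtain ⟨L, hL⟩ := hcusp δ
  have h1 : Tendsto (fun w : ℍ => A (δ • ((N : ℝ) +ᵥ w))) atImInfty (𝓝 L) :=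
    hL.comp (injCore_tendsto_vadd (N : ℝ))
  have h2 : Tendsto (fun w : ℍ => A (δ • ((N : ℝ) +ᵥ w)) - A (δ • w)) atImInfty (𝓝 (L - L)) :=
    h1.sub hL
  have h3 : Tendsto (fun _ : ℍ => c) atImInfty (𝓝 (L - L)) := by
    refine h2.congr ?_
    intro w
    exact key w
  have hc0 : c = 0 := by
    have := tendsto_nhds_unique h3 tendsto_const_nhds
    simpa using this.symm
  have := key w
  rw [hc0, sub_eq_zero] at this
  exact this

/-- The functions `E δ w = exp (A (δ • w))`. -/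
noncomputable def injCoreE (A : ℍ → ℂ) (δ : SL(2, ℤ)) : ℍ → ℂ := fun w => cexp (A (δ • w))

theorem injCoreE_mdiff (hA : MDiff A) (δ : SL(2, ℤ)) : MDiff (injCoreE A δ) := by
  have h1 : MDiff (fun w : ℍ => A (δ • w)) := hA.comp (injCore_mdiff_smul δ)
  exact (Complex.differentiable_exp.mdifferentiable).comp h1

theorem injCoreE_periodic [NeZero N]
    (hinv : ∀ γ ∈ Gamma0 N, ∃ c : ℂ, c.re = 0 ∧ ∀ z : ℍ, A (γ • z) - A z = c)
    (hcusp : ∀ δ : SL(2, ℤ), ∃ L : ℂ, Tendsto (fun w : ℍ => A (δ • w)) atImInfty (𝓝 L))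
    (δ : SL(2, ℤ)) : Function.Periodic (injCoreE A δ ∘ ofComplex) ((N : ℝ) : ℂ) := by
  intro w
  by_cases hw : 0 < im w
  · have hw' : 0 < im (w + ((N : ℝ) : ℂ)) := by simpa using hw
    simp only [Function.comp_apply, ofComplex_apply_of_im_pos hw', ofComplex_apply_of_im_pos hw]
    have e : (⟨w + ((N : ℝ) : ℂ), hw'⟩ : ℍ) = (N : ℝ) +ᵥ (⟨w, hw⟩ : ℍ) := by
      ext
      simp [add_comm]
    rw [e]
    unfold injCoreE
    rw [injCore_vadd_eq hinv hcusp δ]
  · have hw' : im (w + ((N : ℝ) : ℂ)) ≤ 0 := by simpa using not_lt.mp hw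
    simp only [Function.comp_apply]
    rw [ofComplex_apply_of_im_nonpos hw', ofComplex_apply_of_im_nonpos (not_lt.mp hw)]

theorem injCoreE_bdd
    (hcusp : ∀ δ : SL(2, ℤ), ∃ L : ℂ, Tendsto (fun w : ℍ => A (δ • w)) atImInfty (𝓝 L))
    (δ : SL(2, ℤ)) : IsBoundedAtImInfty (injCoreE A δ) := by
  obtain ⟨L, hL⟩ := hcusp δ
  have h : Tendsto (injCoreE A δ) atImInfty (𝓝 (cexp L)) :=
    (Complex.continuous_exp.tendsto L).comp hL
  exact h.isBigO_one ℝ


theorem injCore_norm_qParam_le (hN : (0 : ℝ) < N) {w : ℍ} (hw : 1 / 2 ≤ w.im) :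
    ‖Function.Periodic.qParam (N : ℝ) (w : ℂ)‖ ≤ Real.exp (-Real.pi / N) := by
  rw [Function.Periodic.norm_qParam, Real.exp_le_exp]
  have hpi := Real.pi_pos
  rw [div_le_div_iff_of_pos_right hN]
  have : (w : ℂ).im = w.im := rfl
  rw [this]
  nlinarith

theorem injCore_exp_const [NeZero N] (hol : MDiff A)
    (hinv : ∀ γ ∈ Gamma0 N, ∃ c : ℂ, c.re = 0 ∧ ∀ z : ℍ, A (γ • z) - A z = c)
    (hcusp : ∀ δ : SL(2, ℤ), ∃ L : ℂ, Tendsto (fun w : ℍ => A (δ • w)) atImInfty (𝓝 L)) :
    ∃ K : ℂ, ∀ z : ℍ, cexp (A z) = K := by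
  have hNpos : (0 : ℝ) < N := Nat.cast_pos.mpr (NeZero.pos N)
  set r := Real.exp (-Real.pi / N) with hr
  have hr0 : 0 ≤ r := (Real.exp_pos _).le
  have hr1 : r < 1 := by
    rw [hr, ← Real.exp_zero, Real.exp_lt_exp]
    exact div_neg_of_neg_of_pos (neg_lt_zero.mpr Real.pi_pos) hNpos
  -- cusp functions
  let Et : SL(2, ℤ) → ℂ → ℂ := fun δ => cuspFunction (N : ℝ) (injCoreE A δ)
  have hdiff : ∀ δ, DifferentiableOn ℂ (Et δ) (Metric.ball 0 1) := fun δ =>
    differentiableOn_cuspFunction_ball hNpos (injCoreE_periodic hinv hcusp δ)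
      (injCoreE_mdiff hol δ) (injCoreE_bdd hcusp δ)
  have heq : ∀ δ (w : ℍ), Et δ (Function.Periodic.qParam (N : ℝ) (w : ℂ)) = cexp (A (δ • w)) :=
    fun δ w => eq_cuspFunction w hNpos.ne' (injCoreE_periodic hinv hcusp δ)
  -- maxima on the closed ball
  have hmax : ∀ δ, ∃ q ∈ Metric.closedBall (0 : ℂ) r,
      IsMaxOn (norm ∘ Et δ) (Metric.closedBall 0 r) q := fun δ =>
    (isCompact_closedBall 0 r).exists_isMaxOn (Metric.nonempty_closedBall.mpr hr0)
      ((hdiff δ).continuousOn.mono (Metric.closedBall_subset_ball hr1)).norm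
  choose qmax hqmem hqmax using hmax
  -- finite quotient
  let δof : SL(2, ℤ) ⧸ Gamma0 N → SL(2, ℤ) := fun c => (Quotient.out c)⁻¹
  obtain ⟨c₀, hc₀⟩ := Finite.exists_max
    (fun c : SL(2, ℤ) ⧸ Gamma0 N => ‖Et (δof c) (qmax (δof c))‖)
  -- key bound
  have hbound : ∀ z : ℍ, ‖cexp (A z)‖ ≤ ‖Et (δof c₀) (qmax (δof c₀))‖ := by
    intro z
    obtain ⟨g, hg⟩ := ModularGroup.exists_smul_mem_fd z
    have him : 1 / 2 ≤ (g • z).im := by
      have := ModularGroup.three_le_four_mul_im_sq_of_mem_fd hg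
      nlinarith [(g • z).im_pos]
    set c : SL(2, ℤ) ⧸ Gamma0 N := (g : SL(2, ℤ) ⧸ Gamma0 N) with hcdef
    have hγ : (Quotient.out c)⁻¹ * g ∈ Gamma0 N :=
      QuotientGroup.eq.mp (QuotientGroup.out_eq' c)
    obtain ⟨c', hc're, hc'⟩ := hinv _ ((Gamma0 N).inv_mem hγ)
    have hz : ((Quotient.out c)⁻¹ * g)⁻¹ • (δof c • (g • z)) = z := by
      simp only [δof, mul_inv_rev, inv_inv, mul_smul, smul_inv_smul, inv_smul_smul]
    have h1 := hc' (δof c • (g • z))
    rw [hz] at h1
    have hre : (A z).re = (A (δof c • (g • z))).re := by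
      have := congrArg Complex.re h1
      simp only [Complex.sub_re] at this
      linarith
    have hnorm : ‖cexp (A z)‖ = ‖cexp (A (δof c • (g • z)))‖ := by
      rw [Complex.norm_exp, Complex.norm_exp, hre]
    rw [hnorm, ← heq]
    have hmem : Function.Periodic.qParam (N : ℝ) ((g • z : ℍ) : ℂ) ∈ Metric.closedBall (0 : ℂ) r := by
      rw [mem_closedBall_zero_iff]
      exact injCore_norm_qParam_le hNpos him
    exact (hqmax (δof c) hmem).trans (hc₀ c)
  -- max on the open ball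
  have hmaxball : IsMaxOn (norm ∘ Et (δof c₀)) (Metric.ball 0 1) (qmax (δof c₀)) := by
    intro q hq
    show ‖Et (δof c₀) q‖ ≤ ‖Et (δof c₀) (qmax (δof c₀))‖
    by_cases hq0 : q = 0
    · subst hq0
      exact hqmax _ (Metric.mem_closedBall_self hr0)
    · have him := Function.Periodic.im_invQParam_pos_of_norm_lt_one hNpos
        (mem_ball_zero_iff.mp hq) hq0
      have h2 := heq (δof c₀) ⟨_, him⟩
      rw [UpperHalfPlane.coe_mk, Function.Periodic.qParam_right_inv hNpos.ne' hq0] at h2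
      rw [h2]
      exact hbound _
  have hconst := Complex.eq_const_of_exists_max (hdiff (δof c₀))
    (Metric.closedBall_subset_ball hr1 (hqmem _)) hmaxball
  refine ⟨Et (δof c₀) (qmax (δof c₀)), fun z => ?_⟩
  have h3 := heq (δof c₀) ((δof c₀)⁻¹ • z)
  rw [smul_inv_smul] at h3
  rw [← h3]
  refine hconst ?_
  rw [mem_ball_zero_iff]
  exact Function.Periodic.norm_qParam_lt_one hNpos (UpperHalfPlane.im_pos _)

/-- **Core of the injectivity argument.** A holomorphic function on `ℍ` whose real part is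
`Γ₀(N)`-invariant and which has a limit at every cusp has vanishing derivative. -/
theorem injCore_deriv_eq_zero [NeZero N]
    (hol : ∀ τ : ℍ, DifferentiableAt ℂ (A ∘ ofComplex) (τ : ℂ))
    (hinv : ∀ γ ∈ Gamma0 N, ∃ c : ℂ, c.re = 0 ∧ ∀ z : ℍ, A (γ • z) - A z = c)
    (hcusp : ∀ δ : SL(2, ℤ), ∃ L : ℂ, Tendsto (fun w : ℍ => A (δ • w)) atImInfty (𝓝 L))
    (τ : ℍ) : deriv (A ∘ ofComplex) (τ : ℂ) = 0 := by
  obtain ⟨K, hK⟩ := injCore_exp_const (injCore_mdiff_of_differentiableAt hol) hinv hcusp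
  have h1 : (fun z : ℂ => cexp ((A ∘ ofComplex) z)) =ᶠ[𝓝 (τ : ℂ)] fun _ => K := by
    have hopen : {z : ℂ | 0 < z.im} ∈ 𝓝 (τ : ℂ) :=
      isOpen_upperHalfPlaneSet.mem_nhds τ.im_pos
    filter_upwards [hopen] with z hz
    simp only [Function.comp_apply]
    exact hK _
  have h2 : deriv (fun z : ℂ => cexp ((A ∘ ofComplex) z)) (τ : ℂ) = 0 := by
    rw [h1.deriv_eq]
    simp
  have h3 : HasDerivAt (fun z : ℂ => cexp ((A ∘ ofComplex) z))
      (cexp ((A ∘ ofComplex) (τ : ℂ)) * deriv (A ∘ ofComplex) (τ : ℂ)) (τ : ℂ) :=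
    (hol τ).hasDerivAt.cexp
  rw [h3.deriv] at h2
  exact (mul_eq_zero.mp h2).resolve_left (Complex.exp_ne_zero _)

end core

end Fermat.Agent.S21.H81

end
-- ===== PACK-END S21/H81/InjCore.lean

-- ===== PACK-BEGIN S29/H42/GH.lean
section
/-
S29 row, layer M, piece GH (helper42): the Galois action on the Prelude Jacobian `JZero N`
commutes with the Prelude Hecke operators `heckeOperatorBar N ℓ`.

Abstract part: if semilinear automorphisms `g` of `F` and `g'` of `F'` are intertwined by the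
field embeddings `φ, ψ : F → F'`, then pull-back along `φ` and push-forward along `ψ` of divisors
are equivariant, hence so is the correspondence `ψ_* φ^*` on `Pic0`.
-/




set_option autoImplicit false
set_option linter.style.haveILetI false
set_option linter.unusedSectionVars false

noncomputable section

open AlgebraicCurve ModularCurve IntermediateField IsLocalRing
open scoped Pointwise

namespace Fermat.Agent.S29.H42

section Abstract

variable {K F F' : Type*} [Field K] [Field F] [Field F']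
  [Algebra K F] [Algebra K F'] [Algebra F F'] [IsScalarTower K F F']
  [Algebra.IsIntegral F F']

/-- Intertwining hypothesis in instance form. -/
def Intertwines (g : SemilinearAut K F) (g' : SemilinearAut K F') : Prop :=
  ∀ x : F, g' • algebraMap F F' x = algebraMap F F' (g • x)

theorem Intertwines.inv {g : SemilinearAut K F} {g' : SemilinearAut K F'}
    (h : Intertwines g g') : Intertwines g⁻¹ g'⁻¹ := fun x => by
  have hx := h (g⁻¹ • x)
  rw [smul_inv_smul] at hx
  rw [← hx, inv_smul_smul]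

theorem mem_restrict_smul_iff {g : SemilinearAut K F} {g' : SemilinearAut K F'}
    (h : Intertwines g g') (w : Place K F') (x : F) :
    x ∈ ((g' • w).restrict F).toValuationSubring ↔ x ∈ (g • (w.restrict F)).toValuationSubring := by
  rw [Place.mem_restrict_iff, SemilinearAut.smul_toValuationSubring,
    SemilinearAut.smul_toValuationSubring,
    ValuationSubring.mem_pointwise_smul_iff_inv_smul_mem,
    ValuationSubring.mem_pointwise_smul_iff_inv_smul_mem, Place.mem_restrict_iff, h.inv x]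

theorem restrict_smul {g : SemilinearAut K F} {g' : SemilinearAut K F'}
    (h : Intertwines g g') (w : Place K F') :
    (g' • w).restrict F = g • (w.restrict F) := by
  apply Place.ext
  ext x
  exact mem_restrict_smul_iff h w x

theorem ramificationIndex_smul {g : SemilinearAut K F} {g' : SemilinearAut K F'}
    (h : Intertwines g g') (w : Place K F') :
    (g' • w).ramificationIndex F = w.ramificationIndex F := by
  unfold Place.ramificationIndex
  congr 1
  ext n
  constructor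
  · rintro ⟨hn, f, hf, hord⟩
    refine ⟨hn, g⁻¹ • f, by simpa using hf, ?_⟩
    rw [← hord]
    have h1 := SemilinearAut.ord_smul g' w (algebraMap F F' (g⁻¹ • f))
    rw [h (g⁻¹ • f), smul_inv_smul] at h1
    exact h1.symm
  · rintro ⟨hn, f, hf, hord⟩
    refine ⟨hn, g • f, by simpa using hf, ?_⟩
    rw [← hord, ← h f]
    exact SemilinearAut.ord_smul g' w (algebraMap F F' f)

/-- The ring equivalence `x ↦ g • x` between the valuation rings of `w.restrict F` and
`(g' • w).restrict F`. -/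
def restrictEquiv {g : SemilinearAut K F} {g' : SemilinearAut K F'}
    (h : Intertwines g g') (w : Place K F') :
    (w.restrict F).toValuationSubring ≃+* ((g' • w).restrict F).toValuationSubring where
  toFun x := ⟨g • (x : F), (mem_restrict_smul_iff h w _).mpr
    (ValuationSubring.smul_mem_pointwise_smul g (x : F) _ x.2)⟩
  invFun y := ⟨g⁻¹ • (y : F),
    (ValuationSubring.mem_pointwise_smul_iff_inv_smul_mem (g := g)
      (S := (w.restrict F).toValuationSubring) (x := (y : F))).mp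
      ((mem_restrict_smul_iff h w _).mp y.2)⟩
  left_inv x := by ext; simp
  right_inv y := by ext; simp
  map_mul' x y := Subtype.ext (smul_mul' g (x : F) (y : F))
  map_add' x y := Subtype.ext (smul_add g (x : F) (y : F))

@[simp]
theorem coe_restrictEquiv_apply {g : SemilinearAut K F} {g' : SemilinearAut K F'}
    (h : Intertwines g g') (w : Place K F') (x : (w.restrict F).toValuationSubring) :
    ((restrictEquiv h w x : ((g' • w).restrict F).toValuationSubring) : F) = g • (x : F) :=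
  rfl

theorem inertiaDeg_smul {g : SemilinearAut K F} {g' : SemilinearAut K F'}
    (h : Intertwines g g') (w : Place K F') :
    (g' • w).inertiaDeg F = w.inertiaDeg F := by
  unfold Place.inertiaDeg
  symm
  refine Algebra.finrank_eq_of_equiv_equiv
    (IsLocalRing.ResidueField.mapEquiv (restrictEquiv h w))
    (IsLocalRing.ResidueField.mapEquiv
      (SemilinearAut.smulValuationSubringEquiv g' w.toValuationSubring)) ?_
  apply RingHom.ext
  intro a
  obtain ⟨a, rfl⟩ := IsLocalRing.residue_surjective a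
  simp only [RingHom.comp_apply, RingEquiv.toRingHom_eq_coe, RingEquiv.coe_toRingHom,
    IsLocalRing.ResidueField.mapEquiv_apply, IsLocalRing.ResidueField.map_residue,
    Place.algebraMap_residueField_eq, Place.restrictResidueMap_residue]
  congr 1
  apply Subtype.ext
  show algebraMap F F' (g • (a : F)) = g' • algebraMap F F' (a : F)
  exact (h (a : F)).symm

/-- Push-forward of divisors is equivariant. -/
theorem pushforward_smul {g : SemilinearAut K F} {g' : SemilinearAut K F'}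
    (h : Intertwines g g') (D : Divisor K F') :
    Divisor.pushforward F (g' • D) = g • Divisor.pushforward F D := by
  induction D using Finsupp.induction with
  | zero => simp
  | single_add w n D _ _ ih =>
      rw [smul_add, map_add, map_add, smul_add, ih, SemilinearAut.smul_single,
        Divisor.pushforward_single, Divisor.pushforward_single, SemilinearAut.smul_single,
        restrict_smul h, inertiaDeg_smul h]

/-- Pull-back of divisors is equivariant. -/
theorem pullback_smul [HasPrincipalDivisors K F'] {g : SemilinearAut K F}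
    {g' : SemilinearAut K F'} (h : Intertwines g g') (D : Divisor K F) :
    Divisor.pullback F' (g • D) = g' • Divisor.pullback F' D := by
  ext w
  rw [Divisor.pullback_apply, SemilinearAut.divisor_smul_apply,
    SemilinearAut.divisor_smul_apply, Divisor.pullback_apply, restrict_smul h.inv,
    ramificationIndex_smul h.inv]

end Abstract

section Along

variable {K F F' : Type*} [Field K] [Field F] [Field F'] [Algebra K F] [Algebra K F']

theorem pullbackAlong_smul [HasPrincipalDivisors K F'] (φ : F →ₐ[K] F')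
    (hφ : φ.toRingHom.IsIntegral) {g : SemilinearAut K F} {g' : SemilinearAut K F'}
    (h : SemilinearAut.IntertwinesAlong (φ : F →+* F') g g') (D : Divisor K F) :
    Divisor.pullbackAlong φ hφ (g • D) = g' • Divisor.pullbackAlong φ hφ D := by
  letI := algebraAlong φ
  haveI := isScalarTower_along φ
  haveI := isIntegral_along φ hφ
  exact pullback_smul (fun x => h x) D

theorem pushforwardAlong_smul (φ : F →ₐ[K] F')
    (hφ : φ.toRingHom.IsIntegral) {g : SemilinearAut K F} {g' : SemilinearAut K F'}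
    (h : SemilinearAut.IntertwinesAlong (φ : F →+* F') g g') (D : Divisor K F') :
    Divisor.pushforwardAlong φ hφ (g' • D) = g • Divisor.pushforwardAlong φ hφ D := by
  letI := algebraAlong φ
  haveI := isScalarTower_along φ
  haveI := isIntegral_along φ hφ
  exact pushforward_smul (fun x => h x) D

variable [HasPrincipalDivisors K F']
variable (φ ψ : F →ₐ[K] F') (hφ : φ.toRingHom.IsIntegral) (hψ : ψ.toRingHom.IsIntegral)

theorem divisor_correspondence_smul {g : SemilinearAut K F} {g' : SemilinearAut K F'}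
    (h₁ : SemilinearAut.IntertwinesAlong (φ : F →+* F') g g')
    (h₂ : SemilinearAut.IntertwinesAlong (ψ : F →+* F') g g') (D : Divisor K F) :
    Divisor.correspondence φ ψ hφ hψ (g • D) = g • Divisor.correspondence φ ψ hφ hψ D := by
  rw [Divisor.correspondence_apply, Divisor.correspondence_apply, pullbackAlong_smul φ hφ h₁,
    pushforwardAlong_smul ψ hψ h₂]

theorem pic0_correspondence_smul (hFI : FundamentalIdentityAlong K φ hφ)
    (hfin : FiniteAlong K ψ) (hN : NormFormulaAlong K ψ hfin)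
    {g : SemilinearAut K F} {g' : SemilinearAut K F'}
    (h₁ : SemilinearAut.IntertwinesAlong (φ : F →+* F') g g')
    (h₂ : SemilinearAut.IntertwinesAlong (ψ : F →+* F') g g') (x : Pic0 K F) :
    Pic0.correspondence φ ψ hφ hψ hFI hfin hN (g • x)
      = g • Pic0.correspondence φ ψ hφ hψ hFI hfin hN x := by
  obtain ⟨D, rfl⟩ := Pic0.mk_surjective x
  rw [SemilinearAut.pic0_smul_mk, Pic0.correspondence_mk, Pic0.correspondence_mk,
    SemilinearAut.pic0_smul_mk]
  congr 1
  apply Subtype.ext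
  rw [Pic0.coe_degZeroCorrespondence, SemilinearAut.coe_degZeroSMulHom,
    SemilinearAut.coe_degZeroSMulHom, Pic0.coe_degZeroCorrespondence]
  exact divisor_correspondence_smul φ ψ hφ hψ h₁ h₂ (D : Divisor K F)

end Along

section Modular

variable (N : ℕ) [NeZero N]

theorem intertwines_heckeAlphaBar (ℓ : ℕ) [NeZero ℓ]
    (σ : AlgebraicClosure ℚ ≃ₐ[ℚ] AlgebraicClosure ℚ) :
    SemilinearAut.IntertwinesAlong
      ((heckeAlphaBar (AlgebraicClosure ℚ) N ℓ :
        laurentBaseChange (AlgebraicClosure ℚ) (modularFunctionFieldFull N) →ₐ[AlgebraicClosure ℚ]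
          laurentBaseChange (AlgebraicClosure ℚ) (modularFunctionFieldFull (N * ℓ))) :
        laurentBaseChange (AlgebraicClosure ℚ) (modularFunctionFieldFull N) →+*
          laurentBaseChange (AlgebraicClosure ℚ) (modularFunctionFieldFull (N * ℓ)))
      (arithmeticGalois (modularFunctionFieldFull N) σ)
      (arithmeticGalois (modularFunctionFieldFull (N * ℓ)) σ) := by
  intro x
  apply Subtype.ext
  rw [coe_arithmeticGalois_smul]
  show coeffMap _ ((heckeAlphaBar (AlgebraicClosure ℚ) N ℓ x :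
      laurentBaseChange (AlgebraicClosure ℚ) (modularFunctionFieldFull (N * ℓ))) :
        LaurentSeries (AlgebraicClosure ℚ)) =
    ((heckeAlphaBar (AlgebraicClosure ℚ) N ℓ
      (arithmeticGalois (modularFunctionFieldFull N) σ • x) :
      laurentBaseChange (AlgebraicClosure ℚ) (modularFunctionFieldFull (N * ℓ))) :
        LaurentSeries (AlgebraicClosure ℚ))
  rw [coe_heckeAlphaBar, coe_heckeAlphaBar, coe_arithmeticGalois_smul]

theorem intertwines_heckeBetaBar (ℓ : ℕ) [NeZero ℓ]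
    (σ : AlgebraicClosure ℚ ≃ₐ[ℚ] AlgebraicClosure ℚ) :
    SemilinearAut.IntertwinesAlong
      ((heckeBetaBar (AlgebraicClosure ℚ) N ℓ :
        laurentBaseChange (AlgebraicClosure ℚ) (modularFunctionFieldFull N) →ₐ[AlgebraicClosure ℚ]
          laurentBaseChange (AlgebraicClosure ℚ) (modularFunctionFieldFull (N * ℓ))) :
        laurentBaseChange (AlgebraicClosure ℚ) (modularFunctionFieldFull N) →+*
          laurentBaseChange (AlgebraicClosure ℚ) (modularFunctionFieldFull (N * ℓ)))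
      (arithmeticGalois (modularFunctionFieldFull N) σ)
      (arithmeticGalois (modularFunctionFieldFull (N * ℓ)) σ) := by
  intro x
  apply Subtype.ext
  rw [coe_arithmeticGalois_smul]
  show coeffMap _ ((heckeBetaBar (AlgebraicClosure ℚ) N ℓ x :
      laurentBaseChange (AlgebraicClosure ℚ) (modularFunctionFieldFull (N * ℓ))) :
        LaurentSeries (AlgebraicClosure ℚ)) =
    ((heckeBetaBar (AlgebraicClosure ℚ) N ℓ
      (arithmeticGalois (modularFunctionFieldFull N) σ • x) :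
      laurentBaseChange (AlgebraicClosure ℚ) (modularFunctionFieldFull (N * ℓ))) :
        LaurentSeries (AlgebraicClosure ℚ))
  rw [coe_heckeBetaBar, coe_heckeBetaBar, coe_arithmeticGalois_smul, coeffMap_qExpand]

/-- **GH (raw form)**: the Galois action on `JZero N` commutes with every Prelude Hecke operator
`heckeOperatorBar N ℓ`. -/
theorem galois_smul_heckeOperatorBar (ℓ : Nat.Primes)
    (σ : AlgebraicClosure ℚ ≃ₐ[ℚ] AlgebraicClosure ℚ) (x : JZero N) :
    heckeOperatorBar N ℓ (σ • x) = σ • heckeOperatorBar N ℓ x := by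
  haveI : NeZero (ℓ : ℕ) := ⟨ℓ.2.ne_zero⟩
  rw [heckeOperatorBar_apply, heckeOperatorBar_apply]
  by_cases h : HeckeInputsAlong (AlgebraicClosure ℚ) N (ℓ : ℕ)
  · obtain ⟨hα, hβ, hP, hfin, hFI, hN⟩ := h
    haveI := hP
    rw [heckeOperatorAlong_eq hα hβ hFI hfin hN, galois_smul_pic0_def, galois_smul_pic0_def]
    exact pic0_correspondence_smul _ _ hβ hα hFI hfin hN
      (intertwines_heckeBetaBar N ℓ σ) (intertwines_heckeAlphaBar N ℓ σ) x
  · rw [heckeOperatorAlong_of_not h]
    simp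

/-- Every element of the Hecke algebra acts on `JZero N` by an endomorphism commuting with the
Galois action. -/
theorem galois_smul_heckeEvalBar (h : HeckeOperatorsCommuteBar N) (t : HeckeAlg)
    (σ : AlgebraicClosure ℚ ≃ₐ[ℚ] AlgebraicClosure ℚ) (x : JZero N) :
    heckeEvalBar h t (σ • x) = σ • heckeEvalBar h t x := by
  induction t using MvPolynomial.induction_on generalizing x with
  | C a =>
      rw [heckeEvalBar_C, Module.End.intCast_apply, Module.End.intCast_apply]
      exact (map_zsmul (DistribSMul.toAddMonoidHom (JZero N) σ) a x).symm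
  | add p q hp hq =>
      rw [map_add, LinearMap.add_apply, LinearMap.add_apply, hp, hq, smul_add]
  | mul_X p ℓ hp =>
      rw [map_mul, Module.End.mul_apply, Module.End.mul_apply]
      have hX : heckeEvalBar h (MvPolynomial.X ℓ) = heckeOperatorBar N ℓ :=
        heckeEvalBar_heckeGen h ℓ
      rw [hX, galois_smul_heckeOperatorBar, hp]

/-- **GH**: the Galois action on `JZero N` commutes with the Prelude Hecke-module structure. -/
theorem smulCommClass_galois_heckeAlg :
    letI := heckeModuleBar N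
    SMulCommClass (AlgebraicClosure ℚ ≃ₐ[ℚ] AlgebraicClosure ℚ) HeckeAlg (JZero N) := by
  letI := heckeModuleBar N
  refine ⟨fun σ t x => ?_⟩
  by_cases h : HeckeOperatorsCommuteBar N
  · rw [heckeModuleBar_smul_def h, heckeModuleBar_smul_def h]
    exact (galois_smul_heckeEvalBar N h t σ x).symm
  · rw [heckeModuleBar_smul_of_not h, heckeModuleBar_smul_of_not h]
    exact map_zsmul (DistribSMul.toAddMonoidHom (JZero N) σ) _ x

end Modular

end Fermat.Agent.S29.H42

end
end
-- ===== PACK-END S29/H42/GH.lean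

-- ===== PACK-BEGIN S29/H42/Smooth.lean
section
/-
S29 row, layer M, piece SMOOTH (helper42).

Every torsion point of the Prelude Jacobian `JZero N = Pic0 (ℚ̄) (ℚ̄ · F_N)` is fixed by an open
subgroup `Gal(ℚ̄/L)`, `L/ℚ` finite.  Proof: `n • [D] = 0` gives `f` with `div f = n • D`; `f` has
coefficients in a finite extension `L`; `σ ∈ Gal(ℚ̄/L)` fixes `f`, hence `n • (σ • D) = n • D`,
hence `σ • D = D` (divisors are torsion free).
-/



set_option autoImplicit false
set_option linter.style.haveILetI false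

noncomputable section

open AlgebraicCurve ModularCurve IntermediateField

namespace Fermat.Agent.S29.H42

/-- Finite-dimensional intermediate fields of `ℚ̄/ℚ` generated by one element. -/
theorem finiteDimensional_adjoin_singleton (c : AlgebraicClosure ℚ) :
    FiniteDimensional ℚ (IntermediateField.adjoin ℚ {c}) := by
  haveI : Algebra.IsAlgebraic ℚ (AlgebraicClosure ℚ) := AlgebraicClosure.isAlgebraic ℚ
  exact IntermediateField.adjoin.finiteDimensional (Algebra.IsIntegral.isIntegral c)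

/-- **Coefficients of an element of the base-changed function field lie in a finite extension**:
every element of `ℚ̄ · F₀ ⊆ ℚ̄((q))` is fixed (coefficientwise) by an open subgroup of `G_ℚ`. -/
theorem exists_finite_level_fix (F₀ : IntermediateField ℚ (LaurentSeries ℚ))
    {f : LaurentSeries (AlgebraicClosure ℚ)}
    (hf : f ∈ laurentBaseChange (AlgebraicClosure ℚ) F₀) :
    ∃ L : IntermediateField ℚ (AlgebraicClosure ℚ), FiniteDimensional ℚ L ∧
      ∀ σ : AlgebraicClosure ℚ ≃ₐ[ℚ] AlgebraicClosure ℚ, (∀ y ∈ L, σ y = y) →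
        coeffMap (σ : AlgebraicClosure ℚ →+* AlgebraicClosure ℚ) f = f := by
  rw [mem_laurentBaseChange_iff] at hf
  induction hf using Subfield.closure_induction with
  | mem y hy =>
      rcases hy with ⟨a, rfl⟩ | ⟨z, _, rfl⟩
      · refine ⟨IntermediateField.adjoin ℚ {a}, finiteDimensional_adjoin_singleton a, ?_⟩
        intro σ hσ
        rw [coeffMap_algebraMap]
        congr 1
        exact hσ a (IntermediateField.mem_adjoin_simple_self ℚ a)
      · exact ⟨⊥, inferInstance, fun σ _ => coeffMap_coeffEmb σ z⟩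
  | one => exact ⟨⊥, inferInstance, fun σ _ => map_one _⟩
  | add x y _ _ hx hy =>
      obtain ⟨L1, h1, hL1⟩ := hx
      obtain ⟨L2, h2, hL2⟩ := hy
      haveI := h1
      haveI := h2
      refine ⟨L1 ⊔ L2, inferInstance, fun σ hσ => ?_⟩
      rw [map_add, hL1 σ fun y hy => hσ y (le_sup_left (b := L2) hy),
        hL2 σ fun y hy => hσ y (le_sup_right (a := L1) hy)]
  | neg x _ hx =>
      obtain ⟨L1, h1, hL1⟩ := hx
      exact ⟨L1, h1, fun σ hσ => by rw [map_neg, hL1 σ hσ]⟩
  | inv x _ hx =>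
      obtain ⟨L1, h1, hL1⟩ := hx
      exact ⟨L1, h1, fun σ hσ => by rw [map_inv₀, hL1 σ hσ]⟩
  | mul x y _ _ hx hy =>
      obtain ⟨L1, h1, hL1⟩ := hx
      obtain ⟨L2, h2, hL2⟩ := hy
      haveI := h1
      haveI := h2
      refine ⟨L1 ⊔ L2, inferInstance, fun σ hσ => ?_⟩
      rw [map_mul, hL1 σ fun y hy => hσ y (le_sup_left (b := L2) hy),
        hL2 σ fun y hy => hσ y (le_sup_right (a := L1) hy)]

/-- A divisor whose `n`-th multiple is the divisor of a function fixed by the semilinear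
automorphism `g` is itself fixed by `g`. -/
theorem divisor_smul_eq_of_fix {K F : Type*} [Field K] [Field F] [Algebra K F]
    (g : SemilinearAut K F) {n : ℤ} (hn : n ≠ 0) (D : Divisor K F) (f : F)
    (hD : ∀ v : Place K F, (n • D) v = v.ord f) (hgf : g • f = f) : g • D = D := by
  have h1 : g • (n • D) = n • D := by
    ext w
    rw [SemilinearAut.divisor_smul_apply, hD, hD]
    have h := SemilinearAut.ord_smul g (g⁻¹ • w) f
    rw [smul_inv_smul, hgf] at h
    exact h.symm
  have h2 : n • (g • D) = n • D := by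
    rw [← h1]
    exact (map_zsmul (DistribSMul.toAddMonoidHom (Divisor K F) g) n D).symm
  ext w
  have h3 := DFunLike.congr_fun h2 w
  simp only [Finsupp.smul_apply, smul_eq_mul] at h3
  exact mul_left_cancel₀ hn h3

/-- **SMOOTH (torsion points)**: every torsion point of `Pic0 (ℚ̄) (ℚ̄ · F₀)` is fixed by an open
subgroup of `G_ℚ`. -/
theorem exists_finite_level_fix_torsion (F₀ : IntermediateField ℚ (LaurentSeries ℚ))
    {n : ℕ} (hn : n ≠ 0)
    (x : Pic0 (AlgebraicClosure ℚ) (laurentBaseChange (AlgebraicClosure ℚ) F₀))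
    (hx : (n : ℤ) • x = 0) :
    ∃ L : IntermediateField ℚ (AlgebraicClosure ℚ), FiniteDimensional ℚ L ∧
      ∀ σ : AlgebraicClosure ℚ ≃ₐ[ℚ] AlgebraicClosure ℚ, (∀ y ∈ L, σ y = y) → σ • x = x := by
  obtain ⟨D, rfl⟩ := Pic0.mk_surjective x
  have hx' : ((n : ℤ) • D : Divisor.degZero (K := AlgebraicClosure ℚ)
      (F := laurentBaseChange (AlgebraicClosure ℚ) F₀)) ∈
      (Divisor.principal (K := AlgebraicClosure ℚ)
        (F := laurentBaseChange (AlgebraicClosure ℚ) F₀)).addSubgroupOf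
        (Divisor.degZero (K := AlgebraicClosure ℚ)
          (F := laurentBaseChange (AlgebraicClosure ℚ) F₀)) := by
    have : Pic0.mk ((n : ℤ) • D) = 0 := hx
    exact (QuotientAddGroup.eq_zero_iff _).mp this
  rw [AddSubgroup.mem_addSubgroupOf] at hx'
  obtain ⟨f, _, hD⟩ := hx'
  obtain ⟨L, hL, hfix⟩ := exists_finite_level_fix F₀ f.2
  refine ⟨L, hL, fun σ hσ => ?_⟩
  rw [galois_smul_pic0_def, SemilinearAut.pic0_smul_mk]
  congr 1
  apply Subtype.ext
  rw [SemilinearAut.coe_degZeroSMulHom]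
  refine divisor_smul_eq_of_fix (arithmeticGalois F₀ σ) (Int.natCast_ne_zero.mpr hn)
    (D : Divisor _ _) f ?_ ?_
  · intro v
    have := hD v
    simpa using this
  · apply Subtype.ext
    rw [coe_arithmeticGalois_smul]
    exact hfix σ hσ

/-- SMOOTH for the Prelude Jacobian `JZero N`. -/
theorem jZero_exists_finite_level_fix_torsion (N : ℕ) {n : ℕ} (hn : n ≠ 0) (x : JZero N)
    (hx : (n : ℤ) • x = 0) :
    ∃ L : IntermediateField ℚ (AlgebraicClosure ℚ), FiniteDimensional ℚ L ∧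
      ∀ σ : AlgebraicClosure ℚ ≃ₐ[ℚ] AlgebraicClosure ℚ, (∀ y ∈ L, σ y = y) → σ • x = x :=
  exists_finite_level_fix_torsion (modularFunctionFieldFull N) hn x hx

end Fermat.Agent.S29.H42

end
end
-- ===== PACK-END S29/H42/Smooth.lean

-- ===== PACK-BEGIN S52/H545/Fq.lean
section


/-!
# S52 Part A (helper545): `X^q - X = ∏ (X - c)` over a finite field and its roots in extensions
-/

set_option autoImplicit false

namespace Fermat.Agent.S52.H545

open Polynomial

variable (F : Type*) [Field F] [Fintype F]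

lemma prod_X_sub_C_eq : ∏ c : F, (X - C c) = (X ^ Fintype.card F - X : F[X]) := by
  have hq : 1 < Fintype.card F := Fintype.one_lt_card
  have hmon : (X ^ Fintype.card F - X : F[X]).Monic := by
    apply monic_X_pow_sub
    rw [degree_X]
    exact_mod_cast hq
  have hroots := FiniteField.roots_X_pow_card_sub_X F
  have hcard : (X ^ Fintype.card F - X : F[X]).roots.card =
      (X ^ Fintype.card F - X : F[X]).natDegree := by
    rw [hroots, FiniteField.X_pow_card_sub_X_natDegree_eq F hq]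
    simp
  have := prod_multiset_X_sub_C_of_monic_of_roots_card_eq hmon hcard
  rw [hroots] at this
  rw [← this]
  rfl

variable {F}

lemma pow_card_sub_eq_prod {L : Type*} [CommRing L] [Algebra F L] (z : L) :
    z ^ Fintype.card F - z = ∏ c : F, (z - algebraMap F L c) := by
  have := congrArg (eval₂ (algebraMap F L) z) (prod_X_sub_C_eq F)
  rw [eval₂_finsetProd] at this
  simpa using this.symm

/-- In a domain containing the finite field `F`, the solutions of `z^q = z` are the elements of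
`F`. -/
lemma exists_eq_algebraMap_of_pow_card_eq {L : Type*} [CommRing L] [IsDomain L] [Algebra F L]
    {z : L} (hz : z ^ Fintype.card F = z) : ∃ c : F, z = algebraMap F L c := by
  have h := pow_card_sub_eq_prod (F := F) z
  rw [hz, sub_self] at h
  obtain ⟨c, -, hc⟩ := Finset.prod_eq_zero_iff.mp h.symm
  exact ⟨c, sub_eq_zero.mp hc⟩

end Fermat.Agent.S52.H545

end
-- ===== PACK-END S52/H545/Fq.lean

-- ===== PACK-BEGIN S05/XOnlyFormulas.lean
section



/-!
# x-only addition formulas for Mathlib's affine points on a Weierstrass curve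

For a Weierstrass curve `W` over a field, with `twoF x = 4x³ + b₂x² + 2b₄x + b₆` and
`eta x y = 2y + a₁x + a₃` (so `eta² = twoF` on the curve), we prove, for affine points
`P = (x₁, y₁)`, `Q = (x₂, y₂)` with `x₁ ≠ x₂`:

* `4 (x₁ - x₂)² x(P + Q) = 2 sumNum - 2 η₁ η₂`,
* `4 (x₁ - x₂)² x(P - Q) = 2 sumNum + 2 η₁ η₂`,
* `(x₁ - x₂)² (x(P + Q) + x(P - Q)) = sumNum`,
* `(x₁ - x₂)² (x(P + Q) x(P - Q)) = prodNum`,

and the duplication formula `twoF x * x(2P) = dupNum x`.
-/

set_option autoImplicit false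

namespace Fermat.Agent.S05.XOnly

open WeierstrassCurve

variable {F : Type*} [Field F] (W : WeierstrassCurve.Affine F)

/-- `4x³ + b₂x² + 2b₄x + b₆`, the square of `2y + a₁x + a₃` on the curve. -/
def twoF (x : F) : F := 4 * x ^ 3 + W.b₂ * x ^ 2 + 2 * W.b₄ * x + W.b₆

/-- `2y + a₁x + a₃`. -/
def eta (x y : F) : F := 2 * y + W.a₁ * x + W.a₃

/-- Numerator of `x(P+Q) + x(P-Q)`. -/
def sumNum (x₁ x₂ : F) : F :=
  2 * (x₁ + x₂) * (x₁ * x₂) + W.b₂ * (x₁ * x₂) + W.b₄ * (x₁ + x₂) + W.b₆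

/-- Numerator of `x(P+Q) * x(P-Q)`. -/
def prodNum (x₁ x₂ : F) : F :=
  (x₁ * x₂) ^ 2 - W.b₄ * (x₁ * x₂) - W.b₆ * (x₁ + x₂) - W.b₈

/-- Numerator of `x(2P)`. -/
def dupNum (x : F) : F := x ^ 4 - W.b₄ * x ^ 2 - 2 * W.b₆ * x - W.b₈

lemma eta_sq {x y : F} (h : W.Equation x y) : eta W x y ^ 2 = twoF W x := by
  rw [Affine.equation_iff] at h
  simp only [eta, twoF, WeierstrassCurve.b₂, WeierstrassCurve.b₄, WeierstrassCurve.b₆]
  linear_combination 4 * h

lemma eta_negY (x y : F) : eta W x (W.negY x y) = - eta W x y := by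
  simp only [eta, Affine.negY]
  ring

lemma sumNum_sq_sub (x₁ x₂ : F) :
    sumNum W x₁ x₂ ^ 2 - twoF W x₁ * twoF W x₂ = 4 * (x₁ - x₂) ^ 2 * prodNum W x₁ x₂ := by
  have hb := W.b_relation
  simp only [sumNum, twoF, prodNum]
  linear_combination ((x₁ - x₂) ^ 2) * hb

lemma eta_ne_zero_of_Y_ne {x y : F} (hy : y ≠ W.negY x y) : eta W x y ≠ 0 := by
  intro h0
  apply hy
  simp only [eta] at h0
  simp only [Affine.negY]
  linear_combination h0

lemma eta_eq_zero_of_Y_eq {x y : F} (hy : y = W.negY x y) : eta W x y = 0 := by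
  simp only [Affine.negY] at hy
  simp only [eta]
  linear_combination hy

lemma Y_eq_negY_of_eta_eq_zero {x y : F} (h0 : eta W x y = 0) : y = W.negY x y := by
  by_contra hy
  exact eta_ne_zero_of_Y_ne W hy h0

variable [DecidableEq F]

lemma addX_of_X_ne {x₁ x₂ y₁ y₂ : F} (hx : x₁ ≠ x₂) (h₁ : W.Equation x₁ y₁)
    (h₂ : W.Equation x₂ y₂) :
    4 * (x₁ - x₂) ^ 2 * W.addX x₁ x₂ (W.slope x₁ x₂ y₁ y₂) =
      2 * sumNum W x₁ x₂ - 2 * eta W x₁ y₁ * eta W x₂ y₂ := by
  rw [Affine.equation_iff] at h₁ h₂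
  have hd : x₁ - x₂ ≠ 0 := sub_ne_zero.mpr hx
  rw [Affine.slope_of_X_ne hx]
  simp only [Affine.addX, sumNum, eta, WeierstrassCurve.b₂, WeierstrassCurve.b₄,
    WeierstrassCurve.b₆]
  field_simp
  linear_combination 4 * h₁ + 4 * h₂

lemma addX_neg_of_X_ne {x₁ x₂ y₁ y₂ : F} (hx : x₁ ≠ x₂) (h₁ : W.Equation x₁ y₁)
    (h₂ : W.Equation x₂ y₂) :
    4 * (x₁ - x₂) ^ 2 * W.addX x₁ x₂ (W.slope x₁ x₂ y₁ (W.negY x₂ y₂)) =
      2 * sumNum W x₁ x₂ + 2 * eta W x₁ y₁ * eta W x₂ y₂ := by
  rw [addX_of_X_ne W hx h₁ ((Affine.equation_neg x₂ y₂).mpr h₂), eta_negY]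
  ring

lemma slope_mul_eta {x y : F} (hy : y ≠ W.negY x y) :
    W.slope x x y y * eta W x y = 3 * x ^ 2 + 2 * W.a₂ * x + W.a₄ - W.a₁ * y := by
  have hη : eta W x y ≠ 0 := eta_ne_zero_of_Y_ne W hy
  have h2 : y - W.negY x y = eta W x y := by
    simp only [eta, Affine.negY]; ring
  rw [Affine.slope_of_Y_ne rfl hy, h2, div_mul_cancel₀ _ hη]

lemma addX_of_Y_ne {x y : F} (h : W.Equation x y) (hy : y ≠ W.negY x y) :
    twoF W x * W.addX x x (W.slope x x y y) = dupNum W x := by
  have hℓ := slope_mul_eta W hy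
  rw [← eta_sq W h]
  rw [Affine.equation_iff] at h
  generalize W.slope x x y y = ℓ at hℓ ⊢
  simp only [Affine.addX, dupNum, eta, WeierstrassCurve.b₄,
    WeierstrassCurve.b₆, WeierstrassCurve.b₈] at hℓ ⊢
  linear_combination (ℓ * (2 * y + W.a₁ * x + W.a₃) + (3 * x ^ 2 + 2 * W.a₂ * x + W.a₄ - W.a₁ * y)
    + W.a₁ * (2 * y + W.a₁ * x + W.a₃)) * hℓ + (-(W.a₁ ^ 2 + 4 * W.a₂ + 8 * x)) * h

open WeierstrassCurve.Affine in
/-- Chord case: for affine points with distinct `x`-coordinates, both `P + Q` and `P - Q` are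
affine and their `x`-coordinates are given by the classical formulas. -/
theorem add_sub_of_X_ne {x₁ x₂ y₁ y₂ : F} (h₁ : W.Nonsingular x₁ y₁) (h₂ : W.Nonsingular x₂ y₂)
    (hx : x₁ ≠ x₂) :
    ∃ (xp yp xm ym : F) (hp : W.Nonsingular xp yp) (hm : W.Nonsingular xm ym),
      Point.some x₁ y₁ h₁ + Point.some x₂ y₂ h₂ = Point.some xp yp hp ∧
      Point.some x₁ y₁ h₁ - Point.some x₂ y₂ h₂ = Point.some xm ym hm ∧
      4 * (x₁ - x₂) ^ 2 * xp = 2 * sumNum W x₁ x₂ - 2 * eta W x₁ y₁ * eta W x₂ y₂ ∧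
      4 * (x₁ - x₂) ^ 2 * xm = 2 * sumNum W x₁ x₂ + 2 * eta W x₁ y₁ * eta W x₂ y₂ := by
  refine ⟨_, _, _, _, nonsingular_add h₁ h₂ fun hxy => hx hxy.left,
    nonsingular_add h₁ ((nonsingular_neg ..).mpr h₂) fun hxy => hx hxy.left,
    Point.add_of_X_ne hx, ?_, addX_of_X_ne W hx h₁.1 h₂.1, addX_neg_of_X_ne W hx h₁.1 h₂.1⟩
  rw [sub_eq_add_neg, Point.neg_some, Point.add_of_X_ne hx]

omit [DecidableEq F] in
/-- Sum and product of the `x`-coordinates of `P ± Q` (characteristic `≠ 2`). -/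
theorem sum_prod_of_add_sub {x₁ x₂ y₁ y₂ xp xm : F} (h2 : (2 : F) ≠ 0)
    (h₁ : W.Equation x₁ y₁) (h₂ : W.Equation x₂ y₂)
    (hp : 4 * (x₁ - x₂) ^ 2 * xp = 2 * sumNum W x₁ x₂ - 2 * eta W x₁ y₁ * eta W x₂ y₂)
    (hm : 4 * (x₁ - x₂) ^ 2 * xm = 2 * sumNum W x₁ x₂ + 2 * eta W x₁ y₁ * eta W x₂ y₂) :
    (x₁ - x₂) ^ 2 * (xp + xm) = sumNum W x₁ x₂ ∧
      (x₁ - x₂) ^ 2 * ((x₁ - x₂) ^ 2 * (xp * xm)) = (x₁ - x₂) ^ 2 * prodNum W x₁ x₂ := by
  have h4 : (4 : F) ≠ 0 := by
    have : (4 : F) = 2 * 2 := by norm_num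
    rw [this]; exact mul_ne_zero h2 h2
  have e₁ := eta_sq W h₁
  have e₂ := eta_sq W h₂
  have hs := sumNum_sq_sub W x₁ x₂
  constructor
  · apply mul_left_cancel₀ h4
    linear_combination hp + hm
  · apply mul_left_cancel₀ h4
    apply mul_left_cancel₀ h4
    linear_combination hp * (4 * (x₁ - x₂) ^ 2 * xm) +
      (2 * sumNum W x₁ x₂ - 2 * eta W x₁ y₁ * eta W x₂ y₂) * hm + 4 * hs
      - 4 * eta W x₂ y₂ ^ 2 * e₁ - 4 * twoF W x₁ * e₂

open WeierstrassCurve.Affine in
/-- Tangent case: if `2y + a₁x + a₃ ≠ 0` then `P + P` is affine with `x`-coordinate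
`dupNum / twoF`. -/
theorem add_self_of_eta_ne {x y : F} (h : W.Nonsingular x y) (hη : eta W x y ≠ 0) :
    ∃ (x' y' : F) (h' : W.Nonsingular x' y'),
      Point.some x y h + Point.some x y h = Point.some x' y' h' ∧
      twoF W x * x' = dupNum W x := by
  have hy : y ≠ W.negY x y := fun hy => hη (eta_eq_zero_of_Y_eq W hy)
  exact ⟨_, _, nonsingular_add h h fun hxy => hy hxy.right, Point.add_self_of_Y_ne hy,
    addX_of_Y_ne W h.1 hy⟩

end Fermat.Agent.S05.XOnly

end
-- ===== PACK-END S05/XOnlyFormulas.lean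

-- ===== PACK-BEGIN Lib/Frob/A2/H720/AddSub.lean
section


/-!
# S52 / piece A2a (helper720): `addSubMap` really computes `x(P+Q)`, `x(P-Q)`

For points `P`, `Q` on an elliptic curve `W` over a field, the vector
`addSubMap W (sym2x P Q)` is a nonzero multiple of `sym2x (P + Q) (P - Q)`, i.e.
`(x(P) x(Q) : x(P) + x(Q) : 1) ↦ (x(P+Q) x(P-Q) : x(P+Q) + x(P-Q) : 1)` projectively, in ALL
cases (including `P = O`, `Q = O`, `P = ± Q`, 2-torsion).  This is the TODO of Mathlib's
`Mathlib/AlgebraicGeometry/EllipticCurve/Affine/AddSubMap.lean`.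

The three x-coordinate identities used are those of `Fermat/Agent/S05/XId.lean` (helper845),
repeated here under fresh names so that this file only depends on Mathlib.
-/

set_option autoImplicit false

namespace Fermat.Agent.Lib.Frob.A2.H720

open WeierstrassCurve WeierstrassCurve.Affine

section Eval

variable {R : Type*} [CommRing R] (W : WeierstrassCurve R)

lemma eval_addSubMap_zero (x : Fin 3 → R) : MvPolynomial.eval x (W.addSubMap 0)
    = x 0 ^ 2 - W.b₄ * x 0 * x 2 - W.b₆ * x 1 * x 2 - W.b₈ * x 2 ^ 2 := by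
  simp [WeierstrassCurve.addSubMap]

lemma eval_addSubMap_one (x : Fin 3 → R) : MvPolynomial.eval x (W.addSubMap 1)
    = 2 * x 1 * x 0 + W.b₂ * x 0 * x 2 + W.b₄ * x 1 * x 2 + W.b₆ * x 2 ^ 2 := by
  simp [WeierstrassCurve.addSubMap]

lemma eval_addSubMap_two (x : Fin 3 → R) : MvPolynomial.eval x (W.addSubMap 2)
    = x 1 ^ 2 - 4 * x 0 * x 2 := by
  simp [WeierstrassCurve.addSubMap]

end Eval

variable {L : Type*} [Field L] (W : Affine L)

/-- numerator of `x(P+Q) + x(P-Q)` -/
def xSumNum (x₁ x₂ : L) : L :=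
  2 * x₁ * x₂ * (x₁ + x₂) + W.b₂ * x₁ * x₂ + W.b₄ * (x₁ + x₂) + W.b₆

/-- numerator of `x(P+Q) * x(P-Q)` -/
def xProdNum (x₁ x₂ : L) : L :=
  x₁ ^ 2 * x₂ ^ 2 - W.b₄ * x₁ * x₂ - W.b₆ * (x₁ + x₂) - W.b₈

/-- denominator of the duplication formula -/
def xDblDen (x : L) : L :=
  4 * x ^ 3 + W.b₂ * x ^ 2 + 2 * W.b₄ * x + W.b₆

/-- numerator of the duplication formula -/
def xDblNum (x : L) : L :=
  x ^ 4 - W.b₄ * x ^ 2 - 2 * W.b₆ * x - W.b₈

lemma addX_div_aux (x₁ x₂ n d : L) (hd : d ≠ 0) :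
    d ^ 2 * W.addX x₁ x₂ (n / d) = n ^ 2 + W.a₁ * d * n - (W.a₂ + x₁ + x₂) * d ^ 2 := by
  simp only [addX]
  field_simp
  ring

lemma sub_negY_sq_aux {x y : L} (h : W.Equation x y) :
    (y - W.negY x y) ^ 2 = xDblDen W x := by
  rw [Affine.equation_iff] at h
  simp only [negY, xDblDen, WeierstrassCurve.b₂, WeierstrassCurve.b₄, WeierstrassCurve.b₆]
  linear_combination 4 * h

section

variable [DecidableEq L]

lemma addX_sum_aux {x₁ x₂ y₁ y₂ : L} (h₁ : W.Equation x₁ y₁) (h₂ : W.Equation x₂ y₂)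
    (hx : x₁ ≠ x₂) :
    (x₁ - x₂) ^ 2 * (W.addX x₁ x₂ (W.slope x₁ x₂ y₁ y₂) +
        W.addX x₁ x₂ (W.slope x₁ x₂ y₁ (W.negY x₂ y₂))) = xSumNum W x₁ x₂ := by
  rw [Affine.equation_iff] at h₁ h₂
  have hd : x₁ - x₂ ≠ 0 := sub_ne_zero.mpr hx
  rw [slope_of_X_ne hx, slope_of_X_ne hx, mul_add, addX_div_aux W _ _ _ _ hd,
    addX_div_aux W _ _ _ _ hd]
  simp only [negY, xSumNum, WeierstrassCurve.b₂, WeierstrassCurve.b₄, WeierstrassCurve.b₆]
  linear_combination 2 * h₁ + 2 * h₂

lemma addX_prod_aux {x₁ x₂ y₁ y₂ : L} (h₁ : W.Equation x₁ y₁) (h₂ : W.Equation x₂ y₂)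
    (hx : x₁ ≠ x₂) :
    (x₁ - x₂) ^ 2 * (W.addX x₁ x₂ (W.slope x₁ x₂ y₁ y₂) *
        W.addX x₁ x₂ (W.slope x₁ x₂ y₁ (W.negY x₂ y₂))) = xProdNum W x₁ x₂ := by
  rw [Affine.equation_iff] at h₁ h₂
  have hd : x₁ - x₂ ≠ 0 := sub_ne_zero.mpr hx
  have hd2 : (x₁ - x₂) ^ 2 ≠ 0 := pow_ne_zero 2 hd
  apply mul_left_cancel₀ hd2
  have e3 := addX_div_aux W x₁ x₂ (y₁ - y₂) (x₁ - x₂) hd
  have e4 := addX_div_aux W x₁ x₂ (y₁ - W.negY x₂ y₂) (x₁ - x₂) hd
  rw [slope_of_X_ne hx, slope_of_X_ne hx]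
  have key : (x₁ - x₂) ^ 2 * ((x₁ - x₂) ^ 2 * (W.addX x₁ x₂ ((y₁ - y₂) / (x₁ - x₂)) *
      W.addX x₁ x₂ ((y₁ - W.negY x₂ y₂) / (x₁ - x₂)))) =
      ((x₁ - x₂) ^ 2 * W.addX x₁ x₂ ((y₁ - y₂) / (x₁ - x₂))) *
      ((x₁ - x₂) ^ 2 * W.addX x₁ x₂ ((y₁ - W.negY x₂ y₂) / (x₁ - x₂))) := by ring
  rw [key, e3, e4]
  simp only [negY, xProdNum, WeierstrassCurve.b₄, WeierstrassCurve.b₆, WeierstrassCurve.b₈]
  linear_combination
    (y₁ ^ 2 + y₁ * x₁ * W.a₁ + y₁ * W.a₃ - 2 * y₂ ^ 2 - 2 * y₂ * x₂ * W.a₁ - 2 * y₂ * W.a₃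
      - x₁ ^ 3 + 2 * x₁ ^ 2 * x₂ - x₁ ^ 2 * W.a₂ + 2 * x₁ * x₂ ^ 2 + x₁ * x₂ * W.a₁ ^ 2
      + 4 * x₁ * x₂ * W.a₂ + x₁ * W.a₁ * W.a₃ + x₁ * W.a₄ - 2 * x₂ ^ 3 - x₂ ^ 2 * W.a₁ ^ 2
      - 2 * x₂ ^ 2 * W.a₂ - x₂ * W.a₁ * W.a₃ + W.a₆) * h₁ +
    (y₂ ^ 2 + y₂ * x₂ * W.a₁ + y₂ * W.a₃ - 4 * x₁ ^ 3 + 2 * x₁ ^ 2 * x₂ - x₁ ^ 2 * W.a₁ ^ 2
      - 4 * x₁ ^ 2 * W.a₂ + 2 * x₁ * x₂ ^ 2 + x₁ * x₂ * W.a₁ ^ 2 + 4 * x₁ * x₂ * W.a₂
      - x₁ * W.a₁ * W.a₃ - 2 * x₁ * W.a₄ - x₂ ^ 3 - x₂ ^ 2 * W.a₂ + x₂ * W.a₁ * W.a₃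
      + x₂ * W.a₄ - W.a₆) * h₂

lemma addX_dbl_aux {x y : L} (h : W.Equation x y) (hy : y ≠ W.negY x y) :
    W.addX x x (W.slope x x y y) * xDblDen W x = xDblNum W x := by
  have hd : y - W.negY x y ≠ 0 := sub_ne_zero.mpr hy
  rw [slope_of_Y_ne rfl hy, ← sub_negY_sq_aux W h, mul_comm, addX_div_aux W _ _ _ _ hd]
  rw [Affine.equation_iff] at h
  simp only [negY, xDblNum, WeierstrassCurve.b₄, WeierstrassCurve.b₆, WeierstrassCurve.b₈]
  linear_combination (-8 * x - W.a₁ ^ 2 - 4 * W.a₂) * h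

variable {W}

/-- `P + Q` and `P - Q` for affine points with distinct `x`-coordinates. -/
theorem add_sub_some_aux {x₁ x₂ y₁ y₂ : L} (h₁ : W.Nonsingular x₁ y₁) (h₂ : W.Nonsingular x₂ y₂)
    (hx : x₁ ≠ x₂) :
    ∃ (x₃ y₃ x₄ y₄ : L) (h₃ : W.Nonsingular x₃ y₃) (h₄ : W.Nonsingular x₄ y₄),
      Point.some x₁ y₁ h₁ + Point.some x₂ y₂ h₂ = Point.some x₃ y₃ h₃ ∧
      Point.some x₁ y₁ h₁ - Point.some x₂ y₂ h₂ = Point.some x₄ y₄ h₄ ∧
      (x₁ - x₂) ^ 2 * (x₃ + x₄) = xSumNum W x₁ x₂ ∧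
      (x₁ - x₂) ^ 2 * (x₃ * x₄) = xProdNum W x₁ x₂ := by
  have h₂' : W.Nonsingular x₂ (W.negY x₂ y₂) := (nonsingular_neg ..).mpr h₂
  refine ⟨_, _, _, _, nonsingular_add h₁ h₂ fun hxy => hx hxy.left,
    nonsingular_add h₁ h₂' fun hxy => hx hxy.left, Point.add_of_X_ne hx, ?_,
    addX_sum_aux W h₁.1 h₂.1 hx, addX_prod_aux W h₁.1 h₂.1 hx⟩
  rw [sub_eq_add_neg, Point.neg_some, Point.add_of_X_ne hx]

/-- Duplication for a point which is not 2-torsion. -/
theorem add_self_some_aux {x y : L} (h : W.Nonsingular x y) (hy : y ≠ W.negY x y) :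
    ∃ (x' y' : L) (h' : W.Nonsingular x' y'),
      Point.some x y h + Point.some x y h = Point.some x' y' h' ∧
      x' * xDblDen W x = xDblNum W x ∧ xDblDen W x ≠ 0 := by
  refine ⟨_, _, nonsingular_add h h fun hxy => hy hxy.right, Point.add_self_of_Y_ne hy,
    addX_dbl_aux W h.1 hy, ?_⟩
  rw [← sub_negY_sq_aux W h.1]
  exact pow_ne_zero 2 (sub_ne_zero.mpr hy)

omit [DecidableEq L] in
theorem xDblDen_eq_zero_of_Y_eq {x y : L} (h : W.Equation x y) (hy : y = W.negY x y) :
    xDblDen W x = 0 := by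
  rw [← sub_negY_sq_aux W h, sub_eq_zero.mpr hy]
  ring

end

end Fermat.Agent.Lib.Frob.A2.H720

end
-- ===== PACK-END Lib/Frob/A2/H720/AddSub.lean

-- ===== PACK-BEGIN S29/H872/PowRel.lean
section


/-!
# Quadratic relations pass to powers

If `T * T = a • T - d • 1` in an algebra over an algebraically closed field, then every power
`T ^ j` satisfies a quadratic relation with constant term `d ^ j`.
-/

set_option autoImplicit false

namespace Fermat.Agent.S29.H872

open Polynomial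

variable {F : Type*} [Field F] {B : Type*} [Ring B] [Algebra F B]

/-- A monic quadratic over an algebraically closed field splits. -/
theorem exists_roots_quadratic [IsAlgClosed F] (a d : F) :
    ∃ α β : F, α + β = a ∧ α * β = d := by
  have hdeg : (X ^ 2 - C a * X + C d : F[X]).degree ≠ 0 := by
    have h : (X ^ 2 - C a * X + C d : F[X]).degree = 2 := by
      have e : (X ^ 2 - C a * X + C d : F[X]) = X ^ 2 + (C (-a) * X + C d) := by
        rw [C_neg]; ring
      rw [e, degree_add_eq_left_of_degree_lt]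
      · exact degree_X_pow 2
      · rw [degree_X_pow]
        exact lt_of_le_of_lt (degree_linear_le) (by decide)
    rw [h]; decide
  obtain ⟨α, hα⟩ := IsAlgClosed.exists_root _ hdeg
  refine ⟨α, a - α, by ring, ?_⟩
  simp only [IsRoot.def, eval_add, eval_sub, eval_pow, eval_X, eval_mul, eval_C] at hα
  linear_combination -hα

theorem aeval_quad (T : B) (s t : F) (Y : F[X]) :
    aeval T (Y * Y - C s * Y + C t) = aeval T Y * aeval T Y - s • aeval T Y + t • (1 : B) := by
  simp only [map_add, map_sub, map_mul, aeval_C, Algebra.smul_def, mul_one]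

/-- If `(T - α)(T - β) = 0` then `(T ^ j - α ^ j)(T ^ j - β ^ j) = 0`. -/
theorem pow_rel_of_roots {T : B} {α β : F}
    (h : T * T = (α + β) • T - (α * β) • (1 : B)) (j : ℕ) :
    T ^ j * T ^ j = (α ^ j + β ^ j) • T ^ j - (α * β) ^ j • (1 : B) := by
  obtain ⟨P, hP⟩ : (X - C α : F[X]) ∣ X ^ j - C α ^ j := sub_dvd_pow_sub_pow _ _ _
  obtain ⟨Q, hQ⟩ : (X - C β : F[X]) ∣ X ^ j - C β ^ j := sub_dvd_pow_sub_pow _ _ _
  have h0 : aeval T ((X - C α) * (X - C β) : F[X]) = 0 := by
    have e : ((X - C α) * (X - C β) : F[X]) = X * X - C (α + β) * X + C (α * β) := by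
      rw [C_add, C_mul]; ring
    rw [e, aeval_quad, aeval_X, h]; abel
  have h1 : aeval T ((X ^ j - C α ^ j) * (X ^ j - C β ^ j) : F[X]) = 0 := by
    rw [hP, hQ, show (X - C α) * P * ((X - C β) * Q) = (X - C α) * (X - C β) * (P * Q) by ring,
      map_mul, h0, zero_mul]
  have e : ((X ^ j - C α ^ j) * (X ^ j - C β ^ j) : F[X])
      = X ^ j * X ^ j - C (α ^ j + β ^ j) * X ^ j + C ((α * β) ^ j) := by
    rw [C_add, C_pow, C_pow, mul_pow, C_mul, C_pow, C_pow]; ring
  rw [e, aeval_quad, map_pow, aeval_X] at h1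
  rw [← sub_eq_zero, ← h1]; abel

/-- **Quadratic relations pass to powers.** -/
theorem exists_pow_rel [IsAlgClosed F] {T : B} {a d : F}
    (h : T * T = a • T - d • (1 : B)) (j : ℕ) :
    ∃ a' : F, T ^ j * T ^ j = a' • T ^ j - d ^ j • (1 : B) := by
  obtain ⟨α, β, hab, hd⟩ := exists_roots_quadratic a d
  subst hab; subst hd
  exact ⟨_, pow_rel_of_roots h j⟩

end Fermat.Agent.S29.H872

end
-- ===== PACK-END S29/H872/PowRel.lean

-- ===== PACK-BEGIN S37/H400/KronFrob.lean
section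
/-
S37 / helper400 — piece KRON, part (K0): Frobenius on Laurent series in characteristic `p`.

`f ^ p = V_p (frob f)`, where `V_p = qExpand R p` is `q ↦ q ^ p` and `frob` raises every
coefficient to the `p`-th power.
-/




set_option autoImplicit false
set_option linter.style.haveILetI false

noncomputable section

open ModularCurve HahnSeries

namespace Fermat.Agent.S37.H400

variable {R : Type*} [CommRing R]

/-- Coefficients of the `p`-th power of a power series in characteristic `p`. -/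
theorem powerSeries_coeff_pow_char (p : ℕ) [Fact p.Prime] [CharP R p] (g : PowerSeries R)
    (n : ℕ) :
    PowerSeries.coeff n (g ^ p) = if p ∣ n then (PowerSeries.coeff (n / p) g) ^ p else 0 := by
  have hp : 0 < p := (Fact.out : p.Prime).pos
  have h1 : PowerSeries.coeff n (g ^ p) =
      PowerSeries.coeff n ((PowerSeries.trunc (n + 1) g : PowerSeries R) ^ p) := by
    rw [← PowerSeries.coeff_coe_trunc_of_lt (Nat.lt_succ_self n) (f := g ^ p),
      ← PowerSeries.trunc_trunc_pow,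
      PowerSeries.coeff_coe_trunc_of_lt (Nat.lt_succ_self n)]
  rw [h1, ← Polynomial.coe_pow, Polynomial.coeff_coe, ← Polynomial.map_frobenius_expand,
    Polynomial.coeff_map, Polynomial.coeff_expand hp]
  split_ifs with h
  · rw [PowerSeries.coeff_trunc, if_pos, frobenius_def]
    exact lt_of_le_of_lt (Nat.div_le_self n p) (Nat.lt_succ_self n)
  · simp

/-- The power-series case of `laurent_pow_char`. -/
theorem ofPowerSeries_pow_char (p : ℕ) [Fact p.Prime] [CharP R p] (g : PowerSeries R) :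
    (HahnSeries.ofPowerSeries ℤ R g) ^ p =
      qExpand R p (coeffMap (frobenius R p) (HahnSeries.ofPowerSeries ℤ R g)) := by
  haveI : NeZero p := ⟨(Fact.out : p.Prime).ne_zero⟩
  have hp : 0 < p := (Fact.out : p.Prime).pos
  have hpz : (0 : ℤ) < (p : ℤ) := by exact_mod_cast hp
  rw [← map_pow]
  ext k
  by_cases hk : (p : ℤ) ∣ k
  · obtain ⟨m, rfl⟩ := hk
    rw [qExpand_coeff_mul, coeffMap_coeff, PowerSeries.coeff_coe, PowerSeries.coeff_coe]
    by_cases hm : m < 0
    · have : (p : ℤ) * m < 0 := by nlinarith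
      rw [if_pos this, if_pos hm, map_zero]
    · have hm' : 0 ≤ m := not_lt.mp hm
      have : ¬ (p : ℤ) * m < 0 := by
        have := mul_nonneg hpz.le hm'
        omega
      rw [if_neg this, if_neg hm, powerSeries_coeff_pow_char, frobenius_def]
      have h1 : ((p : ℤ) * m).natAbs = p * m.natAbs := by
        rw [Int.natAbs_mul, Int.natAbs_natCast]
      rw [h1, if_pos (dvd_mul_right p _), Nat.mul_div_cancel_left _ hp]
  · rw [qExpand_coeff_of_not_dvd p _ hk, PowerSeries.coeff_coe]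
    split_ifs with h
    · rfl
    · rw [powerSeries_coeff_pow_char, if_neg]
      intro hd
      apply hk
      have h0 : 0 ≤ k := not_lt.mp h
      have : (k.natAbs : ℤ) = k := Int.natAbs_of_nonneg h0
      rw [← this]
      exact_mod_cast hd

/-- **(K0)** In characteristic `p`, the `p`-th power of a Laurent series is obtained by
raising the coefficients to the `p`-th power and substituting `q ↦ q ^ p`. -/
theorem laurent_pow_char (p : ℕ) [Fact p.Prime] [CharP R p] (f : LaurentSeries R) :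
    haveI : NeZero p := ⟨(Fact.out : p.Prime).ne_zero⟩
    f ^ p = qExpand R p (coeffMap (frobenius R p) f) := by
  haveI : NeZero p := ⟨(Fact.out : p.Prime).ne_zero⟩
  show f ^ p = qExpand R p (coeffMap (frobenius R p) f)
  conv_lhs => rw [← LaurentSeries.single_order_mul_powerSeriesPart f]
  conv_rhs => rw [← LaurentSeries.single_order_mul_powerSeriesPart f]
  rw [mul_pow, map_mul, map_mul, ofPowerSeries_pow_char, coeffMap_single, qExpand_single,
    HahnSeries.single_pow, map_one, one_pow, nsmul_eq_mul]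

end Fermat.Agent.S37.H400

end
end
-- ===== PACK-END S37/H400/KronFrob.lean

-- ===== PACK-BEGIN S29/H812/Tower.lean
section


/-!
# S29 / H812 — degree of `F'` over `K(x)` for `x ∈ F ⊆ F'`
-/

set_option autoImplicit false

noncomputable section

open IntermediateField

namespace Fermat.Agent.S29.H812

variable {K F F' : Type*} [Field K] [Field F] [Field F']
  [Algebra K F] [Algebra K F'] [Algebra F F'] [IsScalarTower K F F']

/-- `[F' : K(x')] = [F : K(x)] · [F' : F]` for `x' = algebraMap F F' x`. -/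
theorem finrank_adjoin_algebraMap (x : F) :
    Module.finrank K⟮algebraMap F F' x⟯ F' = Module.finrank K⟮x⟯ F * Module.finrank F F' := by
  haveI : IsScalarTower K⟮x⟯ F F' := inferInstance
  rw [Module.finrank_mul_finrank K⟮x⟯ F F']
  set f : F →ₐ[K] F' := IsScalarTower.toAlgHom K F F' with hf
  have hmap : (K⟮x⟯).map f = K⟮algebraMap F F' x⟯ := by
    rw [IntermediateField.adjoin_map, Set.image_singleton]
    rfl
  have h1 : Module.finrank K⟮algebraMap F F' x⟯ F' = Module.finrank ((K⟮x⟯).map f) F' :=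
    congrArg (fun E : IntermediateField K F' => Module.finrank E F') hmap.symm
  rw [h1]
  symm
  refine Algebra.finrank_eq_of_equiv_equiv
    ((IntermediateField.equivMap K⟮x⟯ f).toRingEquiv) (RingEquiv.refl F') ?_
  ext c
  rfl

theorem finiteDimensional_adjoin_algebraMap (x : F) [FiniteDimensional K⟮x⟯ F]
    [FiniteDimensional F F'] : FiniteDimensional K⟮algebraMap F F' x⟯ F' := by
  apply Module.finite_of_finrank_pos
  rw [finrank_adjoin_algebraMap]
  exact Nat.mul_pos Module.finrank_pos Module.finrank_pos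

theorem transcendental_algebraMap_of {x : F} (hx : Transcendental K x) :
    Transcendental K (algebraMap F F' x) :=
  (transcendental_algebraMap_iff (algebraMap F F').injective).mpr hx

/-- If `F'` is finite over `K(φ x)` with `φ x` in the image of `F`, then `F'` is finite over `F`. -/
theorem finite_of_finite_adjoin_algebraMap (x : F)
    [h : FiniteDimensional K⟮algebraMap F F' x⟯ F'] : Module.Finite F F' := by
  obtain ⟨s, hs⟩ := (Module.finite_def.mp h)
  refine Module.finite_def.mpr ⟨s, ?_⟩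
  rw [eq_top_iff]
  rintro y -
  have hy : y ∈ Submodule.span K⟮algebraMap F F' x⟯ (s : Set F') := by rw [hs]; trivial
  have hle : K⟮algebraMap F F' x⟯ ≤ (IsScalarTower.toAlgHom K F F').fieldRange := by
    rw [IntermediateField.adjoin_le_iff]
    rintro _ rfl
    exact ⟨x, rfl⟩
  induction hy using Submodule.span_induction with
  | mem z hz => exact Submodule.subset_span hz
  | zero => exact zero_mem _
  | add a b _ _ ha hb => exact add_mem ha hb
  | smul c z _ hz =>
    obtain ⟨c₀, hc₀⟩ := hle c.2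
    have : c • z = c₀ • z := by
      rw [Algebra.smul_def, Algebra.smul_def]
      congr 1
      exact hc₀.symm
    rw [this]
    exact Submodule.smul_mem _ _ hz

end Fermat.Agent.S29.H812

end
end
-- ===== PACK-END S29/H812/Tower.lean

-- ===== PACK-BEGIN S29/H751/PthRootBall.lean
section


/-!
# Holomorphic `p`-th roots on a disc (helper751, S29 / P5 / KUM + E3)

* `exists_exp_eq_on_ball`: a nowhere vanishing holomorphic function on an open disc is `exp ∘ L`.
* `exists_pow_eq_on_ball_of_ne_zero`: hence it has a holomorphic `p`-th root.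
* `exists_pow_eq_on_ball`: a holomorphic function on (a neighbourhood of) a closed disc, not
  locally zero, all of whose zeros have order divisible by `p`, has a holomorphic `p`-th root on
  the open disc.
-/

set_option autoImplicit false

open Complex Set Metric Filter Topology

namespace Fermat.Agent.S29.H751

/-- A nowhere vanishing holomorphic function on an open disc has a holomorphic logarithm. -/
theorem exists_exp_eq_on_ball {g : ℂ → ℂ} {c : ℂ} {r : ℝ}
    (hg : DifferentiableOn ℂ g (ball c r)) (hne : ∀ z ∈ ball c r, g z ≠ 0) :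
    ∃ L : ℂ → ℂ, DifferentiableOn ℂ L (ball c r) ∧ ∀ z ∈ ball c r, cexp (L z) = g z := by
  by_cases hr : 0 < r
  swap
  · refine ⟨fun _ => 0, differentiableOn_const _, fun z hz => ?_⟩
    rw [ball_eq_empty.2 (not_lt.1 hr)] at hz
    exact absurd hz (notMem_empty z)
  have hopen : IsOpen (ball c r) := isOpen_ball
  have hc : c ∈ ball c r := mem_ball_self hr
  -- the logarithmic derivative
  have hdg : DifferentiableOn ℂ (deriv g) (ball c r) := hg.deriv hopen
  have hφ : DifferentiableOn ℂ (fun z => deriv g z / g z) (ball c r) :=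
    hdg.div hg hne
  obtain ⟨L₀, hL₀⟩ := hφ.isExactOn_ball
  -- `g * exp (-L₀)` has zero derivative
  set F : ℂ → ℂ := fun z => g z * cexp (-L₀ z) with hF
  have hFd : ∀ z ∈ ball c r, HasDerivAt F 0 z := by
    intro z hz
    have h1 : HasDerivAt g (deriv g z) z :=
      (hg.differentiableAt (hopen.mem_nhds hz)).hasDerivAt
    have h2 : HasDerivAt (fun z => cexp (-L₀ z)) (cexp (-L₀ z) * (-(deriv g z / g z))) z :=
      ((hL₀ z hz).neg).cexp
    have h3 := h1.mul h2
    have : deriv g z * cexp (-L₀ z) + g z * (cexp (-L₀ z) * -(deriv g z / g z)) = 0 := by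
      field_simp [hne z hz]
      ring
    rw [this] at h3
    exact h3
  have hFdiff : DifferentiableOn ℂ F (ball c r) := fun z hz =>
    (hFd z hz).differentiableAt.differentiableWithinAt
  have hconst : ∀ z ∈ ball c r, F z = F c := by
    intro z hz
    exact hopen.is_const_of_deriv_eq_zero isPreconnected_ball hFdiff
      (fun w hw => (hFd w hw).deriv) hz hc
  have hFc : F c ≠ 0 := mul_ne_zero (hne c hc) (exp_ne_zero _)
  refine ⟨fun z => L₀ z + Complex.log (F c), ?_, ?_⟩
  · have hL₀d : DifferentiableOn ℂ L₀ (ball c r) := fun z hz =>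
      (hL₀ z hz).differentiableAt.differentiableWithinAt
    exact hL₀d.add_const _
  · intro z hz
    have h := hconst z hz
    simp only [hF] at h
    rw [Complex.exp_add, Complex.exp_log hFc]
    simp only [hF]
    rw [← h, mul_comm, mul_assoc, ← Complex.exp_add]
    simp

/-- A nowhere vanishing holomorphic function on an open disc has a holomorphic `p`-th root. -/
theorem exists_pow_eq_on_ball_of_ne_zero {g : ℂ → ℂ} {c : ℂ} {r : ℝ} (p : ℕ) (hp : p ≠ 0)
    (hg : DifferentiableOn ℂ g (ball c r)) (hne : ∀ z ∈ ball c r, g z ≠ 0) :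
    ∃ u : ℂ → ℂ, DifferentiableOn ℂ u (ball c r) ∧ ∀ z ∈ ball c r, u z ^ p = g z := by
  obtain ⟨L, hL, hLg⟩ := exists_exp_eq_on_ball hg hne
  refine ⟨fun z => cexp (L z / p), ?_, fun z hz => ?_⟩
  · exact (hL.div_const _).cexp
  · rw [← Complex.exp_nat_mul, mul_div_cancel₀ _ (Nat.cast_ne_zero.2 hp), hLg z hz]

/-- Two functions which are continuous at `x` and agree on a punctured neighbourhood of `x`
agree at `x`. -/
theorem eq_of_eventuallyEq_nhdsNE {f g : ℂ → ℂ} {x : ℂ} (hf : ContinuousAt f x)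
    (hg : ContinuousAt g x) (h : ∀ᶠ z in 𝓝[≠] x, f z = g z) : f x = g x := by
  have h1 : Tendsto f (𝓝[≠] x) (𝓝 (f x)) := hf.tendsto.mono_left nhdsWithin_le_nhds
  have h2 : Tendsto g (𝓝[≠] x) (𝓝 (g x)) := hg.tendsto.mono_left nhdsWithin_le_nhds
  exact tendsto_nhds_unique h1 (h2.congr' (h.mono fun z hz => hz.symm))

/-- A holomorphic function near a closed disc, nowhere locally zero, all of whose zeros in the
closed disc have order divisible by `p`, has a holomorphic `p`-th root on the open disc. -/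
theorem exists_pow_eq_on_ball {G : ℂ → ℂ} {c : ℂ} {r : ℝ} (p : ℕ) (hp : p ≠ 0)
    (hG : AnalyticOnNhd ℂ G (closedBall c r))
    (hord : ∀ z ∈ closedBall c r, ∃ m : ℕ, analyticOrderAt G z = ((p * m : ℕ) : ℕ∞)) :
    ∃ u : ℂ → ℂ, DifferentiableOn ℂ u (ball c r) ∧ ∀ z ∈ ball c r, u z ^ p = G z := by
  classical
  set K := closedBall c r with hK
  have hmero : MeromorphicOn G K := hG.meromorphicOn
  have hfin : (MeromorphicOn.divisor G K).support.Finite :=
    (MeromorphicOn.divisor G K).finiteSupport (isCompact_closedBall c r)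
  have hordK : ∀ z ∈ K, ∃ m : ℕ, meromorphicOrderAt G z = ((p * m : ℕ) : ℤ) := by
    intro z hz
    obtain ⟨m, hm⟩ := hord z hz
    refine ⟨m, ?_⟩
    rw [(hG z hz).meromorphicOrderAt_eq, hm]
    rfl
  have hne' : ∀ u : K, meromorphicOrderAt G u ≠ ⊤ := by
    intro u
    obtain ⟨m, hm⟩ := hordK u u.2
    rw [hm]
    exact WithTop.coe_ne_top
  obtain ⟨g, hg, hgne, hEq⟩ := hmero.extract_zeros_poles hne' hfin
  set D := MeromorphicOn.divisor G K with hD
  have hDm : ∀ u, ∃ m : ℕ, D u = ((p * m : ℕ) : ℤ) := by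
    intro u
    by_cases hu : u ∈ K
    · obtain ⟨m, hm⟩ := hordK u hu
      refine ⟨m, ?_⟩
      rw [hD, MeromorphicOn.divisor_apply hmero hu, hm]
      rfl
    · refine ⟨0, ?_⟩
      have : D u = 0 := Function.locallyFinsuppWithin.apply_eq_zero_of_notMem D hu
      simp [this]
  choose E hE using hDm
  -- the polynomial part of the root
  set ψ : ℂ → ℂ := fun z => ∏ u ∈ hfin.toFinset, (z - u) ^ (E u) with hψ
  have hψd : Differentiable ℂ ψ := by
    have : ψ = ∏ u ∈ hfin.toFinset, (fun z : ℂ => (z - u) ^ (E u)) := by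
      funext z
      rw [hψ, Finset.prod_apply]
    rw [this]
    apply Differentiable.finsetProd
    intro u _
    exact (differentiable_id.sub_const u).pow _
  -- the factorised rational function is `ψ ^ p`
  have hφ : ∀ z, (∏ᶠ u, (fun x : ℂ => x - u) ^ D u) z = ψ z ^ p := by
    intro z
    rw [Function.FactorizedRational.finprod_eq_fun hfin]
    show (∏ᶠ u, (z - u) ^ D u) = ψ z ^ p
    rw [finprod_eq_prod_of_mulSupport_subset (s := hfin.toFinset)]
    · rw [hψ]
      simp only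
      rw [← Finset.prod_pow]
      refine Finset.prod_congr rfl fun u _ => ?_
      rw [hE u, zpow_natCast, ← pow_mul, mul_comm]
    · intro u hu
      simp only [Function.mem_mulSupport, ne_eq] at hu
      simp only [Set.Finite.coe_toFinset, Function.mem_support, ne_eq]
      intro h0
      exact hu (by rw [h0]; simp)
  -- root of the unit part
  have hgd : DifferentiableOn ℂ g (ball c r) :=
    (hg.mono ball_subset_closedBall).differentiableOn
  obtain ⟨w, hwd, hw⟩ := exists_pow_eq_on_ball_of_ne_zero p hp hgd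
    (fun z hz => hgne ⟨z, ball_subset_closedBall hz⟩)
  refine ⟨fun z => ψ z * w z, hψd.differentiableOn.mul hwd, fun z hz => ?_⟩
  rw [mul_pow, hw z hz, ← hφ z]
  -- upgrade the codiscrete equality to an equality at `z`
  have hS := hEq
  rw [Filter.EventuallyEq, Filter.Eventually, mem_codiscreteWithin] at hS
  have hzK : z ∈ K := ball_subset_closedBall hz
  have h1 := hS z hzK
  rw [Filter.disjoint_principal_right] at h1
  have h2 : ∀ᶠ y in 𝓝[≠] z, y ∈ K := by
    have : ball c r ∈ 𝓝 z := isOpen_ball.mem_nhds hz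
    exact mem_nhdsWithin_of_mem_nhds (Filter.mem_of_superset this ball_subset_closedBall)
  have h3 : ∀ᶠ y in 𝓝[≠] z, G y = ((∏ᶠ u, (fun x : ℂ => x - u) ^ D u) • g) y := by
    filter_upwards [h1, h2] with y hy1 hy2
    by_contra hcon
    exact hy1 ⟨hy2, hcon⟩
  have hcG : ContinuousAt G z := (hG z hzK).continuousAt
  have hcR : ContinuousAt (fun y => ((∏ᶠ u, (fun x : ℂ => x - u) ^ D u) • g) y) z := by
    have : (fun y => ((∏ᶠ u, (fun x : ℂ => x - u) ^ D u) • g) y) = fun y => ψ y ^ p * g y := by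
      funext y
      simp only [Pi.smul_apply', smul_eq_mul, hφ y]
    rw [this]
    exact ((hψd.continuous.continuousAt).pow p).mul (hg z hzK).continuousAt
  have := eq_of_eventuallyEq_nhdsNE hcG hcR h3
  rw [this]
  simp [Pi.smul_apply', smul_eq_mul]


end Fermat.Agent.S29.H751

end
-- ===== PACK-END S29/H751/PthRootBall.lean

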