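import Mathlib
import Mathlib.NumberTheory.ModularForms.NormTrace
import Mathlib.NumberTheory.ModularForms.Discriminant
import Fermat.Prelude.Def_ModularCurve_ArithmeticGalois
import Fermat.Prelude.Def_FLTPrelim_Ramification
import Mathlib.RingTheory.Length
import Mathlib.FieldTheory.Minpoly.IsConjRoot
import Mathlib.FieldTheory.Normal.Defs
import Mathlib.RingTheory.Polynomial.Vieta
import Mathlib.RingTheory.Valuation.ValuationSubring
import Mathlib.Algebra.Polynomial.Lifts
import Mathlib.RingTheory.IntegralClosure.IsIntegralClosure.Basic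
import Mathlib.RingTheory.Ideal.Operations
import Mathlib.RingTheory.Ideal.Span
import Mathlib.Algebra.Algebra.Subalgebra.Basic
import Fermat.Agent.Pack.S44C.G0E2L3
import Fermat.Agent.Pack.Fast891

-- ===== PACK-BEGIN S20/H428/GradedFree.lean
section


set_option autoImplicit false

noncomputable section

namespace Fermat.Agent.S20.H428

open Finset

variable {K R : Type*} [Field K] [CommRing R] [Algebra K R]

/-- Abstract data of a graded `K`-algebra `A = ⨁ A_w` generated by `e4` (weight 4) and `e6`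
(weight 6) acting on a graded module `M = ⨁ M_w`, all sitting inside one commutative
`K`-algebra `R`, such that `(e4, e6)` is a regular sequence on `M`. -/
structure GrData (K R : Type*) [Field K] [CommRing R] [Algebra K R] where
  A : ℤ → Submodule K R
  M : ℤ → Submodule K R
  e4 : R
  e6 : R
  A_neg : ∀ w : ℤ, w < 0 → ∀ a ∈ A w, a = 0
  A_zero : ∀ a ∈ A 0, ∃ c : K, a = algebraMap K R c
  A_const : ∀ c : K, algebraMap K R c ∈ A 0
  A_decomp : ∀ w : ℤ, w ≠ 0 → ∀ a ∈ A w,
    ∃ b ∈ A (w - 4), ∃ b' ∈ A (w - 6), a = e4 * b + e6 * b'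
  e4_mem : e4 ∈ A 4
  e6_mem : e6 ∈ A 6
  A_mul : ∀ w k : ℤ, ∀ a ∈ A w, ∀ b ∈ A k, a * b ∈ A (w + k)
  AM_mul : ∀ w k : ℤ, ∀ a ∈ A w, ∀ f ∈ M k, a * f ∈ M (w + k)
  M_neg : ∀ w : ℤ, w < 0 → ∀ f ∈ M w, f = 0
  regular : ∀ w : ℤ, ∀ x ∈ M (w - 4), ∀ y ∈ M (w - 6), e4 * x = e6 * y →
    ∃ z ∈ M (w - 10), x = e6 * z ∧ y = e4 * z
  finite : ∀ w : ℤ, Module.Finite K (M w)

/-- A choice of homogeneous generators: in each weight `n` a family lifting a basis of
`M_n / (e4 M_{n-4} + e6 M_{n-6})`. -/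
structure GenData (G : GrData K R) where
  d : ℕ → ℕ
  gen : (n : ℕ) → Fin (d n) → R
  gen_mem : ∀ (n : ℕ) (i : Fin (d n)), gen n i ∈ G.M (n : ℤ)
  gen_span : ∀ (n : ℕ), ∀ f ∈ G.M n, ∃ c : Fin (d n) → K, ∃ x ∈ G.M ((n : ℤ) - 4),
    ∃ y ∈ G.M ((n : ℤ) - 6), f = ∑ i, c i • gen n i + G.e4 * x + G.e6 * y
  gen_indep : ∀ (n : ℕ) (c : Fin (d n) → K), ∀ x ∈ G.M ((n : ℤ) - 4),
    ∀ y ∈ G.M ((n : ℤ) - 6), ∑ i, c i • gen n i + G.e4 * x + G.e6 * y = 0 → c = 0
  d_eq_zero : ∀ n : ℕ, (∀ f ∈ G.M n, f = 0) → d n = 0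

namespace GrData

variable (G : GrData K R)

lemma e4_mul_mem {w : ℤ} {f : R} (hf : f ∈ G.M (w - 4)) : G.e4 * f ∈ G.M w := by
  have := G.AM_mul 4 (w - 4) _ G.e4_mem _ hf
  rwa [show (4 : ℤ) + (w - 4) = w by ring] at this

lemma e6_mul_mem {w : ℤ} {f : R} (hf : f ∈ G.M (w - 6)) : G.e6 * f ∈ G.M w := by
  have := G.AM_mul 6 (w - 6) _ G.e6_mem _ hf
  rwa [show (6 : ℤ) + (w - 6) = w by ring] at this

/-- The submodule `e4 M_{w-4} + e6 M_{w-6}` of `M_w`, as a submodule of `↥(M w)`. -/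
def Isub (w : ℤ) : Submodule K (G.M w) where
  carrier := {f | ∃ x ∈ G.M (w - 4), ∃ y ∈ G.M (w - 6), (f : R) = G.e4 * x + G.e6 * y}
  add_mem' := by
    rintro f g ⟨x, hx, y, hy, hf⟩ ⟨x', hx', y', hy', hg⟩
    exact ⟨x + x', add_mem hx hx', y + y', add_mem hy hy', by
      rw [Submodule.coe_add, hf, hg]; ring⟩
  zero_mem' := ⟨0, zero_mem _, 0, zero_mem _, by simp⟩
  smul_mem' := by
    rintro c f ⟨x, hx, y, hy, hf⟩
    exact ⟨c • x, Submodule.smul_mem _ c hx, c • y, Submodule.smul_mem _ c hy, by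
      rw [Submodule.coe_smul, hf, smul_add, mul_smul_comm, mul_smul_comm]⟩

lemma exists_genData : Nonempty (GenData G) := by
  classical
  have hfin : ∀ n : ℕ, Module.Finite K (G.M n ⧸ G.Isub n) := fun n => by
    have := G.finite n
    infer_instance
  -- bases of the quotients
  let B : (n : ℕ) → Module.Basis (Fin (Module.finrank K (G.M n ⧸ G.Isub n))) K
      (G.M n ⧸ G.Isub n) := fun n => by
    haveI := hfin n
    exact Module.finBasis K _
  have hlift : ∀ (n : ℕ) (i : Fin (Module.finrank K (G.M n ⧸ G.Isub n))),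
      ∃ f : G.M n, (G.Isub n).mkQ f = B n i :=
    fun n i => Submodule.mkQ_surjective _ _
  choose g hg using hlift
  refine ⟨⟨fun n => Module.finrank K (G.M n ⧸ G.Isub n), fun n i => (g n i : R),
    fun n i => (g n i).2, ?_, ?_, ?_⟩⟩
  · intro n f hf
    set c := (B n).repr ((G.Isub n).mkQ (⟨f, hf⟩ : G.M n)) with hc
    have h1 : (G.Isub n).mkQ (⟨f, hf⟩ : G.M n) = (G.Isub n).mkQ (∑ i, c i • g n i) := by
      rw [map_sum]
      simp only [map_smul, hg]
      rw [hc]
      exact ((B n).sum_repr _).symm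
    rw [Submodule.mkQ_apply, Submodule.mkQ_apply, Submodule.Quotient.eq] at h1
    obtain ⟨x, hx, y, hy, hxy⟩ := h1
    refine ⟨fun i => c i, x, hx, y, hy, ?_⟩
    simp only [Submodule.coe_sub, Submodule.coe_sum, Submodule.coe_smul] at hxy
    rw [add_assoc, ← hxy]
    ring
  · intro n c x hx y hy h
    have hmem : (∑ i, c i • g n i : G.M n) ∈ G.Isub n := by
      refine ⟨-x, neg_mem hx, -y, neg_mem hy, ?_⟩
      simp only [Submodule.coe_sum, Submodule.coe_smul]
      linear_combination h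
    have h0 : (G.Isub n).mkQ (∑ i, c i • g n i) = 0 := by
      rw [Submodule.mkQ_apply]
      exact (Submodule.Quotient.mk_eq_zero _).mpr hmem
    rw [map_sum] at h0
    simp only [map_smul, hg] at h0
    have := Fintype.linearIndependent_iff.mp (B n).linearIndependent c h0
    exact funext this
  · intro n h
    have : Subsingleton (G.M n) := ⟨fun a b => Subtype.ext ((h a a.2).trans (h b b.2).symm)⟩
    have : Subsingleton (G.M n ⧸ G.Isub n) := by
      constructor
      intro a b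
      obtain ⟨a', rfl⟩ := Submodule.Quotient.mk_surjective _ a
      obtain ⟨b', rfl⟩ := Submodule.Quotient.mk_surjective _ b
      rw [Subsingleton.elim a' b']
    exact Module.finrank_zero_of_subsingleton

end GrData


namespace GenData

variable {G : GrData K R} (D : GenData G)

/-- The sum `∑_{n ≤ W} ∑_i a n i * gen n i`. -/
def S (W : ℕ) (a : (n : ℕ) → Fin (D.d n) → R) : R :=
  ∑ n ∈ range (W + 1), ∑ i, a n i * D.gen n i

/-- `a` is a family of coefficients of total weight `w`. -/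
def IsCoeff (w : ℤ) (a : (n : ℕ) → Fin (D.d n) → R) : Prop :=
  ∀ (n : ℕ) (i : Fin (D.d n)), a n i ∈ G.A (w - (n : ℤ))

lemma S_zero (W : ℕ) : D.S W (fun _ _ => 0) = 0 := by
  simp [S]

lemma S_add (W : ℕ) (a b : (n : ℕ) → Fin (D.d n) → R) :
    D.S W (fun n i => a n i + b n i) = D.S W a + D.S W b := by
  simp only [S, add_mul, sum_add_distrib]

lemma S_sub (W : ℕ) (a b : (n : ℕ) → Fin (D.d n) → R) :
    D.S W (fun n i => a n i - b n i) = D.S W a - D.S W b := by
  simp only [S, sub_mul, sum_sub_distrib]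

lemma S_mul_left (W : ℕ) (r : R) (a : (n : ℕ) → Fin (D.d n) → R) :
    D.S W (fun n i => r * a n i) = r * D.S W a := by
  simp only [S, mul_sum, mul_assoc]

lemma S_mem {w : ℤ} {a : (n : ℕ) → Fin (D.d n) → R} (ha : D.IsCoeff w a) (W : ℕ) :
    D.S W a ∈ G.M w := by
  refine Submodule.sum_mem _ fun n _ => Submodule.sum_mem _ fun i _ => ?_
  have := G.AM_mul (w - n) n _ (ha n i) _ (D.gen_mem n i)
  rwa [sub_add_cancel] at this

lemma IsCoeff.zero (w : ℤ) : D.IsCoeff w (fun _ _ => 0) := fun _ _ => zero_mem _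

lemma IsCoeff.add {w : ℤ} {a b : (n : ℕ) → Fin (D.d n) → R} (ha : D.IsCoeff w a)
    (hb : D.IsCoeff w b) : D.IsCoeff w (fun n i => a n i + b n i) :=
  fun n i => add_mem (ha n i) (hb n i)

lemma IsCoeff.sub {w : ℤ} {a b : (n : ℕ) → Fin (D.d n) → R} (ha : D.IsCoeff w a)
    (hb : D.IsCoeff w b) : D.IsCoeff w (fun n i => a n i - b n i) :=
  fun n i => sub_mem (ha n i) (hb n i)

lemma IsCoeff.e4_mul {w w' : ℤ} (h : w' + 4 = w) {a : (n : ℕ) → Fin (D.d n) → R}
    (ha : D.IsCoeff w' a) : D.IsCoeff w (fun n i => G.e4 * a n i) := by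
  intro n i
  have := G.A_mul 4 (w' - n) _ G.e4_mem _ (ha n i)
  rwa [show (4 : ℤ) + (w' - n) = w - n by omega] at this

lemma IsCoeff.e6_mul {w w' : ℤ} (h : w' + 6 = w) {a : (n : ℕ) → Fin (D.d n) → R}
    (ha : D.IsCoeff w' a) : D.IsCoeff w (fun n i => G.e6 * a n i) := by
  intro n i
  have := G.A_mul 6 (w' - n) _ G.e6_mem _ (ha n i)
  rwa [show (6 : ℤ) + (w' - n) = w - n by omega] at this

/-- The coefficient family concentrated in weight `m` with constant coefficients `c`. -/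
def single (m : ℕ) (c : Fin (D.d m) → K) : (n : ℕ) → Fin (D.d n) → R :=
  fun n i => if h : n = m then algebraMap K R (c (Fin.cast (congrArg D.d h) i)) else 0

lemma isCoeff_single (m : ℕ) (c : Fin (D.d m) → K) : D.IsCoeff m (D.single m c) := by
  intro n i
  unfold single
  split_ifs with h
  · subst h
    rw [sub_self]
    exact G.A_const _
  · exact zero_mem _

lemma S_single (m : ℕ) (c : Fin (D.d m) → K) (W : ℕ) (hW : m ≤ W) :
    D.S W (D.single m c) = ∑ i, c i • D.gen m i := by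
  unfold S
  rw [sum_eq_single m]
  · refine sum_congr rfl fun i _ => ?_
    simp [single, Algebra.smul_def]
  · intro n _ hn
    refine sum_eq_zero fun i _ => ?_
    simp [single, hn]
  · intro h
    exact absurd (mem_range.mpr (by omega)) h

theorem span_aux (N : ℕ) : ∀ w : ℤ, w < N → ∀ f ∈ G.M w,
    ∃ a, D.IsCoeff w a ∧ ∀ W : ℕ, w ≤ W → f = D.S W a := by
  induction N with
  | zero =>
    intro w hw f hf
    refine ⟨fun _ _ => 0, IsCoeff.zero D w, fun W _ => ?_⟩
    rw [S_zero]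
    exact G.M_neg w (by simpa using hw) f hf
  | succ N ih =>
    intro w hw f hf
    rcases lt_or_ge w 0 with hneg | hnn
    · refine ⟨fun _ _ => 0, IsCoeff.zero D w, fun W _ => ?_⟩
      rw [S_zero]
      exact G.M_neg w hneg f hf
    lift w to ℕ using hnn with m
    obtain ⟨c, x, hx, y, hy, hfxy⟩ := D.gen_span m f hf
    obtain ⟨a', ha', hxa⟩ := ih ((m : ℤ) - 4) (by push_cast at hw; omega) x hx
    obtain ⟨a'', ha'', hya⟩ := ih ((m : ℤ) - 6) (by push_cast at hw; omega) y hy
    refine ⟨fun n i => D.single m c n i + (G.e4 * a' n i + G.e6 * a'' n i),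
      IsCoeff.add D (D.isCoeff_single m c)
        (IsCoeff.add D (IsCoeff.e4_mul D (by ring) ha') (IsCoeff.e6_mul D (by ring) ha'')),
      fun W hW => ?_⟩
    have hW' : m ≤ W := by exact_mod_cast hW
    rw [S_add, S_add, S_mul_left, S_mul_left, S_single D m c W hW',
      ← hxa W (by omega), ← hya W (by omega), hfxy]
    ring

/-- **Spanning**: every element of `M_w` is a combination of the generators with coefficients
in `A`. -/
theorem span (w : ℤ) (f : R) (hf : f ∈ G.M w) :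
    ∃ a, D.IsCoeff w a ∧ ∀ W : ℕ, w ≤ W → f = D.S W a :=
  D.span_aux (w.toNat + 1) w (by omega) f hf

theorem indep_aux (N : ℕ) : ∀ w : ℤ, w < N → ∀ a, D.IsCoeff w a → ∀ W : ℕ, w ≤ W →
    D.S W a = 0 → ∀ n i, a n i = 0 := by
  induction N with
  | zero =>
    intro w hw a ha W _ _ n i
    exact G.A_neg _ (by push_cast at hw; omega) _ (ha n i)
  | succ N ih =>
    intro w hw a ha W hW hS
    rcases lt_or_ge w 0 with hneg | hnn
    · intro n i
      exact G.A_neg _ (by omega) _ (ha n i)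
    lift w to ℕ using hnn with m
    have hmW : m ≤ W := by exact_mod_cast hW
    -- constants in weight `m`
    have hc : ∀ i : Fin (D.d m), ∃ c : K, a m i = algebraMap K R c := fun i => by
      have := ha m i
      rw [sub_self] at this
      exact G.A_zero _ this
    choose c hc using hc
    -- decomposition of the other coefficients
    have hdec : ∀ (n : ℕ) (i : Fin (D.d n)), ∃ b b' : R, b ∈ G.A ((m : ℤ) - 4 - n) ∧
        b' ∈ G.A ((m : ℤ) - 6 - n) ∧ (n ≠ m → a n i = G.e4 * b + G.e6 * b') := by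
      intro n i
      by_cases hn : n = m
      · exact ⟨0, 0, zero_mem _, zero_mem _, fun h => absurd hn h⟩
      · obtain ⟨b, hb, b', hb', hab⟩ := G.A_decomp ((m : ℤ) - n)
          (by intro h; apply hn; omega) _ (ha n i)
        refine ⟨b, b', ?_, ?_, fun _ => hab⟩
        · rwa [show (m : ℤ) - 4 - n = (m : ℤ) - n - 4 by ring]
        · rwa [show (m : ℤ) - 6 - n = (m : ℤ) - n - 6 by ring]
    choose b b' hb hb' hab using hdec
    have hbC : D.IsCoeff ((m : ℤ) - 4) b := hb
    have hb'C : D.IsCoeff ((m : ℤ) - 6) b' := hb'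
    -- the key identity
    have hkey : D.S W a = ∑ i, c i • D.gen m i + G.e4 * D.S W b + G.e6 * D.S W b' := by
      have hterm : ∀ n : ℕ, ∑ i, a n i * D.gen n i =
          (∑ i, D.single m c n i * D.gen n i) +
            (G.e4 * ∑ i, b n i * D.gen n i + G.e6 * ∑ i, b' n i * D.gen n i) := by
        intro n
        by_cases hn : n = m
        · subst hn
          have hb0 : ∀ i, b n i = 0 := fun i => G.A_neg _ (by omega) _ (hb n i)
          have hb'0 : ∀ i, b' n i = 0 := fun i => G.A_neg _ (by omega) _ (hb' n i)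
          simp only [hb0, hb'0, zero_mul, sum_const_zero, mul_zero, add_zero]
          refine sum_congr rfl fun i _ => ?_
          simp [single, hc]
        · have h0 : ∑ i, D.single m c n i * D.gen n i = 0 :=
            sum_eq_zero fun i _ => by simp [single, hn]
          rw [h0, zero_add, mul_sum, mul_sum, ← sum_add_distrib]
          refine sum_congr rfl fun i _ => ?_
          rw [hab n i hn]
          ring
      have : D.S W a = D.S W (D.single m c) + (G.e4 * D.S W b + G.e6 * D.S W b') := by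
        simp only [S, mul_sum, ← sum_add_distrib]
        refine sum_congr rfl fun n _ => ?_
        rw [hterm n]
        simp only [mul_sum, sum_add_distrib]
      rw [this, S_single D m c W hmW]
      ring
    rw [hS] at hkey
    have hX := D.S_mem hbC W
    have hY := D.S_mem hb'C W
    have hc0 : c = 0 := D.gen_indep m c _ hX _ hY hkey.symm
    have hXY : G.e4 * D.S W b = G.e6 * (-D.S W b') := by
      have := hkey
      rw [hc0] at this
      simp only [Pi.zero_apply, zero_smul, sum_const_zero, zero_add] at this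
      linear_combination -this
    obtain ⟨Z, hZ, hXZ, hYZ⟩ := G.regular m _ hX _ (neg_mem hY) hXY
    obtain ⟨c', hc', hZc⟩ := D.span ((m : ℤ) - 10) Z hZ
    have hZW := hZc W (by omega)
    -- `b = e6 * c'`
    have h1 : ∀ n i, b n i - G.e6 * c' n i = 0 := by
      refine ih ((m : ℤ) - 4) (by push_cast at hw; omega) _
        (IsCoeff.sub D hbC (IsCoeff.e6_mul D (by ring) hc')) W (by omega) ?_
      rw [S_sub, S_mul_left, ← hZW, hXZ, sub_self]
    have h2 : ∀ n i, b' n i + G.e4 * c' n i = 0 := by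
      refine ih ((m : ℤ) - 6) (by push_cast at hw; omega) _
        (IsCoeff.add D hb'C (IsCoeff.e4_mul D (by ring) hc')) W (by omega) ?_
      rw [S_add, S_mul_left, ← hZW]
      linear_combination -hYZ
    intro n i
    by_cases hn : n = m
    · subst hn
      rw [hc i, hc0]
      simp
    · rw [hab n i hn]
      linear_combination G.e4 * h1 n i + G.e6 * h2 n i

/-- **Independence**: a combination of the generators with coefficients in `A` vanishes only
if all coefficients vanish. -/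
theorem indep (w : ℤ) (a : (n : ℕ) → Fin (D.d n) → R) (ha : D.IsCoeff w a) (W : ℕ)
    (hW : w ≤ W) (hS : D.S W a = 0) : ∀ n i, a n i = 0 :=
  D.indep_aux (w.toNat + 1) w (by omega) a ha W hW hS


/-! ### Finiteness of the set of generators -/

lemma S_eq_sum_sigma (W₀ W : ℕ) (hW : W₀ ≤ W) (a : (n : ℕ) → Fin (D.d n) → R)
    (hzero : ∀ n, W₀ < n → ∀ i, a n i * D.gen n i = 0) :
    D.S W a = ∑ j : (Σ n : Fin (W₀ + 1), Fin (D.d n)), a j.1 j.2 * D.gen j.1 j.2 := by
  unfold S
  rw [Fintype.sum_sigma, Fin.sum_univ_eq_sum_range (fun n => ∑ i, a n i * D.gen n i) (W₀ + 1)]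
  symm
  refine sum_subset (range_subset_range.mpr (by omega)) fun n _ hn => ?_
  refine sum_eq_zero fun i _ => hzero n ?_ i
  simp only [mem_range, not_lt] at hn
  omega

/-- Extension by zero of a coefficient family given on the generators of weight `≤ W₀`. -/
def extend (W₀ : ℕ) (a : (Σ n : Fin (W₀ + 1), Fin (D.d n)) → R) :
    (n : ℕ) → Fin (D.d n) → R :=
  fun n i => if h : n < W₀ + 1 then a ⟨⟨n, h⟩, i⟩ else 0

lemma extend_apply (W₀ : ℕ) (a : (Σ n : Fin (W₀ + 1), Fin (D.d n)) → R)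
    (j : Σ n : Fin (W₀ + 1), Fin (D.d n)) : D.extend W₀ a j.1 j.2 = a j := by
  obtain ⟨⟨n, hn⟩, i⟩ := j
  simp [extend, hn]

lemma extend_of_lt (W₀ : ℕ) (a : (Σ n : Fin (W₀ + 1), Fin (D.d n)) → R) (n : ℕ)
    (hn : W₀ < n) (i : Fin (D.d n)) : D.extend W₀ a n i = 0 := by
  simp [extend, show ¬ n < W₀ + 1 by omega]

lemma isCoeff_extend (W₀ : ℕ) (w : ℤ) (a : (Σ n : Fin (W₀ + 1), Fin (D.d n)) → R)
    (ha : ∀ j, a j ∈ G.A (w - ((j.1 : ℕ) : ℤ))) : D.IsCoeff w (D.extend W₀ a) := by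
  intro n i
  unfold extend
  split_ifs with h
  · exact ha ⟨⟨n, h⟩, i⟩
  · exact zero_mem _

lemma S_extend (W₀ W : ℕ) (hW : W₀ ≤ W) (a : (Σ n : Fin (W₀ + 1), Fin (D.d n)) → R) :
    D.S W (D.extend W₀ a) = ∑ j, a j * D.gen j.1 j.2 := by
  rw [D.S_eq_sum_sigma W₀ W hW _ (fun n hn i => by rw [D.extend_of_lt W₀ a n hn i, zero_mul])]
  exact Fintype.sum_congr _ _ fun j => by rw [D.extend_apply]

/-- Independence for the truncated family of generators of weight `≤ W₀`. -/
theorem indep_trunc (W₀ : ℕ) (w : ℤ) (a : (Σ n : Fin (W₀ + 1), Fin (D.d n)) → R)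
    (ha : ∀ j, a j ∈ G.A (w - ((j.1 : ℕ) : ℤ))) (h : ∑ j, a j * D.gen j.1 j.2 = 0) :
    ∀ j, a j = 0 := by
  intro j
  have h1 := D.indep w (D.extend W₀ a) (D.isCoeff_extend W₀ w a ha) (max w.toNat W₀)
    (by omega) (by rw [D.S_extend W₀ _ (le_max_right _ _), h]) j.1 j.2
  rwa [D.extend_apply] at h1

/-- The dimension count: if `A_m` contains `t` linearly independent elements whenever `m` is
even and `m ≥ 12 t`, odd weights of `M` vanish, then `t * #{generators of weight ≤ W}` is at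
most `dim M_{2W + 12t}`. -/
theorem card_mul_le_finrank
    (hodd : ∀ n : ℕ, Odd n → ∀ f ∈ G.M n, f = 0)
    (hA : ∀ (t : ℕ) (m : ℤ), Even m → 12 * (t : ℤ) ≤ m →
      ∃ u : Fin t → R, (∀ s, u s ∈ G.A m) ∧ LinearIndependent K u)
    (W t : ℕ) :
    (∑ n ∈ range (W + 1), D.d n) * t ≤ Module.finrank K (G.M ((2 * W + 12 * t : ℕ) : ℤ)) := by
  classical
  set w : ℕ := 2 * W + 12 * t with hw
  -- independent families in the `A (w - n)`
  have hu : ∀ n : ℕ, ∃ u : Fin t → R, (∀ s, u s ∈ G.A ((w : ℤ) - n)) ∧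
      (Even n → n ≤ W → LinearIndependent K u) := by
    intro n
    by_cases hn : Even n ∧ n ≤ W
    · obtain ⟨u, hu1, hu2⟩ := hA t ((w : ℤ) - n) (by
        have h1 : Even (w : ℤ) := by
          rw [hw]; push_cast; exact Even.add (even_two_mul _) ⟨6 * t, by ring⟩
        exact h1.sub ((Int.even_coe_nat n).mpr hn.1)) (by rw [hw]; push_cast; omega)
      exact ⟨u, hu1, fun _ _ => hu2⟩
    · exact ⟨fun _ => 0, fun _ => zero_mem _, fun h1 h2 => absurd ⟨h1, h2⟩ hn⟩
  choose u hu1 hu2 using hu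
  have hmem : ∀ x : (Σ n : Fin (W + 1), Fin (D.d n)) × Fin t,
      u x.1.1 x.2 * D.gen x.1.1 x.1.2 ∈ G.M (w : ℤ) := by
    intro x
    have := G.AM_mul _ _ _ (hu1 x.1.1 x.2) _ (D.gen_mem x.1.1 x.1.2)
    rwa [sub_add_cancel] at this
  let v : (Σ n : Fin (W + 1), Fin (D.d n)) × Fin t → G.M (w : ℤ) := fun x => ⟨_, hmem x⟩
  have hv : LinearIndependent K v := by
    rw [Fintype.linearIndependent_iff]
    intro g hg x
    have hg' : ∑ x, g x • (u x.1.1 x.2 * D.gen x.1.1 x.1.2) = 0 := by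
      have := congrArg (Subtype.val) hg
      simpa [v] using this
    rw [Fintype.sum_prod_type] at hg'
    have hind := D.indep_trunc W (w : ℤ) (fun j => ∑ s, g (j, s) • u j.1 s)
      (fun j => Submodule.sum_mem _ fun s _ => Submodule.smul_mem _ _ (hu1 j.1 s)) (by
        rw [← hg']
        refine Fintype.sum_congr _ _ fun j => ?_
        rw [sum_mul]
        refine sum_congr rfl fun s _ => ?_
        rw [smul_mul_assoc])
    obtain ⟨j, s⟩ := x
    have hj := hind j
    have hdn : D.d j.1 ≠ 0 := fun h0 => by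
      have := j.2
      rw [h0] at this
      exact this.elim0
    have heven : Even (j.1 : ℕ) := by
      by_contra hne
      exact hdn (D.d_eq_zero _ (hodd _ (Nat.not_even_iff_odd.mp hne)))
    have hli := hu2 j.1 heven (by have := j.1.2; omega)
    exact Fintype.linearIndependent_iff.mp hli (fun s => g (j, s)) hj s
  have hfin := G.finite (w : ℤ)
  have hcard := hv.fintype_card_le_finrank
  rw [Fintype.card_prod, Fintype.card_sigma, Fintype.card_fin] at hcard
  simp only [Fintype.card_fin] at hcard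
  rw [Fin.sum_univ_eq_sum_range (fun n => D.d n) (W + 1)] at hcard
  exact hcard


theorem sum_d_le
    (hodd : ∀ n : ℕ, Odd n → ∀ f ∈ G.M n, f = 0)
    (hA : ∀ (t : ℕ) (m : ℤ), Even m → 12 * (t : ℤ) ≤ m →
      ∃ u : Fin t → R, (∀ s, u s ∈ G.A m) ∧ LinearIndependent K u)
    (C : ℕ) (hC : ∀ w : ℕ, Module.finrank K (G.M (w : ℤ)) ≤ C * w + 1) (W : ℕ) :
    ∑ n ∈ range (W + 1), D.d n ≤ 12 * C := by
  set t := 2 * C * W + 2 with ht
  have h := D.card_mul_le_finrank hodd hA W t
  have h2 := hC (2 * W + 12 * t)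
  by_contra hlt
  rw [not_le] at hlt
  have h3 : (12 * C + 1) * t ≤ (∑ n ∈ range (W + 1), D.d n) * t :=
    Nat.mul_le_mul_right _ hlt
  have h4 : (12 * C + 1) * t ≤ C * (2 * W + 12 * t) + 1 := h3.trans (h.trans h2)
  rw [ht] at h4
  nlinarith

theorem exists_bound_weight
    (hodd : ∀ n : ℕ, Odd n → ∀ f ∈ G.M n, f = 0)
    (hA : ∀ (t : ℕ) (m : ℤ), Even m → 12 * (t : ℤ) ≤ m →
      ∃ u : Fin t → R, (∀ s, u s ∈ G.A m) ∧ LinearIndependent K u)
    (C : ℕ) (hC : ∀ w : ℕ, Module.finrank K (G.M (w : ℤ)) ≤ C * w + 1) :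
    ∃ W₀ : ℕ, ∀ n, W₀ < n → D.d n = 0 := by
  by_contra hcon
  simp only [not_exists, not_forall] at hcon
  have key : ∀ k : ℕ, ∃ W, k ≤ ∑ n ∈ range (W + 1), D.d n := by
    intro k
    induction k with
    | zero => exact ⟨0, Nat.zero_le _⟩
    | succ k ih =>
      obtain ⟨W, hW⟩ := ih
      obtain ⟨n, hn, hdn⟩ := hcon W
      refine ⟨n, ?_⟩
      have hsub : range (W + 1) ⊆ range n := range_subset_range.mpr (by omega)
      have h1 : ∑ m ∈ range (W + 1), D.d m ≤ ∑ m ∈ range n, D.d m :=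
        sum_le_sum_of_subset hsub
      rw [sum_range_succ]
      have : 1 ≤ D.d n := Nat.one_le_iff_ne_zero.mpr hdn
      omega
  obtain ⟨W, hW⟩ := key (12 * C + 1)
  have := D.sum_d_le hodd hA C hC W
  omega

end GenData

/-- **Abstract freeness theorem**: existence of a finite homogeneous basis. -/
theorem GrData.exists_finite_homBasis (G : GrData K R)
    (hodd : ∀ n : ℕ, Odd n → ∀ f ∈ G.M n, f = 0)
    (hA : ∀ (t : ℕ) (m : ℤ), Even m → 12 * (t : ℤ) ≤ m →
      ∃ u : Fin t → R, (∀ s, u s ∈ G.A m) ∧ LinearIndependent K u)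
    (C : ℕ) (hC : ∀ w : ℕ, Module.finrank K (G.M (w : ℤ)) ≤ C * w + 1) :
    ∃ (ι : Type) (_ : Fintype ι) (k : ι → ℤ) (F : ι → R),
      (∀ j, F j ∈ G.M (k j)) ∧
      (∀ (w : ℤ) (f : R), f ∈ G.M w →
        ∃ a : ι → R, (∀ j, a j ∈ G.A (w - k j)) ∧ f = ∑ j, a j * F j) ∧
      (∀ (w : ℤ) (a : ι → R), (∀ j, a j ∈ G.A (w - k j)) → ∑ j, a j * F j = 0 →
        ∀ j, a j = 0) := by
  obtain ⟨D⟩ := G.exists_genData
  obtain ⟨W₀, hW₀⟩ := D.exists_bound_weight hodd hA C hC
  refine ⟨Σ n : Fin (W₀ + 1), Fin (D.d n), inferInstance, fun j => ((j.1 : ℕ) : ℤ),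
    fun j => D.gen j.1 j.2, fun j => D.gen_mem j.1 j.2, ?_, ?_⟩
  · intro w f hf
    obtain ⟨a, ha, hfa⟩ := D.span w f hf
    refine ⟨fun j => a j.1 j.2, fun j => ha j.1 j.2, ?_⟩
    rw [hfa (max w.toNat W₀) (by omega)]
    refine D.S_eq_sum_sigma W₀ _ (le_max_right _ _) a fun n hn i => ?_
    have h0 := hW₀ n hn
    have hi : (i : ℕ) < D.d n := i.2
    omega
  · intro w a ha h
    exact D.indep_trunc W₀ w a ha h

end Fermat.Agent.S20.H428

end
end
-- ===== PACK-END S20/H428/GradedFree.lean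

-- ===== PACK-BEGIN S20/F_helper658.lean
section
/-
S20 / work package F (helper658): one modular form of level `Γ₀(N)` whose `SL(2,ℤ)`-conjugates
take pairwise distinct values at a common point.

`f0 N = Δ ∣[12] diag(N,1)` (i.e. `τ ↦ N¹¹ Δ(Nτ)`).  For `A ∈ SL(2,ℤ)` write
`diag(N,1) A = B U` with `B ∈ SL(2,ℤ)`, `U = [e b; 0 d]`, `e = gcd(N, A₁₀)`, `e d = N`.  Then
`f0 ∣ A = Δ ∣ U` decays at `i∞` exactly like `exp(-2π (N/d²) Im τ)`, so `f0 ∣ A = f0` forces
`d = 1`, i.e. `A ∈ Γ₀(N)`.  Hence the conjugates are pairwise distinct holomorphic functions and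
the product of their differences is a nonzero holomorphic function on `ℍ`.
-/



set_option autoImplicit false

open UpperHalfPlane ModularForm CongruenceSubgroup MatrixGroups
open Matrix.SpecialLinearGroup Filter Topology
open scoped Manifold

noncomputable section

namespace Fermat.Agent.S20.F658

/-- `diag(N, 1)` as an element of `GL(2, ℝ)`. -/
def gN (N : ℕ) [NeZero N] : GL (Fin 2) ℝ :=
  Matrix.GeneralLinearGroup.mkOfDetNeZero !![(N : ℝ), 0; 0, 1]
    (by simpa [Matrix.det_fin_two] using NeZero.ne N)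

lemma gN_val (N : ℕ) [NeZero N] : (gN N : Matrix (Fin 2) (Fin 2) ℝ) = !![(N : ℝ), 0; 0, 1] := rfl

lemma gN_det (N : ℕ) [NeZero N] : (gN N).det.val = N := by
  simp [gN, Matrix.det_fin_two]

/-- an element of `SL(2,ℤ)` from its entries -/
def mkSL2 (a b c d : ℤ) (h : a * d - b * c = 1) : SL(2, ℤ) :=
  ⟨!![a, b; c, d], by rw [Matrix.det_fin_two_of]; exact h⟩

lemma mkSL2_val (a b c d : ℤ) (h : a * d - b * c = 1) :
    (mkSL2 a b c d h : Matrix (Fin 2) (Fin 2) ℤ) = !![a, b; c, d] := rfl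

lemma SL2_det_eq (A : SL(2, ℤ)) : A 0 0 * A 1 1 - A 0 1 * A 1 0 = 1 := by
  have := A.det_coe
  rwa [Matrix.det_fin_two] at this

/-- for `A ∈ Γ₀(N)`, `diag(N,1) A = A' diag(N,1)` with `A' ∈ SL(2,ℤ)` -/
lemma gN_mul_Gamma0 (N : ℕ) [NeZero N] (A : SL(2, ℤ)) (hA : A ∈ Gamma0 N) :
    ∃ A' : SL(2, ℤ), gN N * mapGL ℝ A = mapGL ℝ A' * gN N := by
  rw [Gamma0_mem, ZMod.intCast_zmod_eq_zero_iff_dvd] at hA
  obtain ⟨c', hc'⟩ := hA
  have hdet := SL2_det_eq A
  refine ⟨mkSL2 (A 0 0) (N * A 0 1) c' (A 1 1) ?_, ?_⟩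
  · rw [hc'] at hdet
    linear_combination hdet
  · apply Matrix.GeneralLinearGroup.ext
    intro i j
    fin_cases i <;> fin_cases j <;>
      simp [Matrix.mul_apply, Fin.sum_univ_two, gN_val, mkSL2_val, hc', mul_comm]

open ConjAct Pointwise in
lemma Gamma0_le_conj (N : ℕ) [NeZero N] :
    (Gamma0 N : Subgroup (GL (Fin 2) ℝ)) ≤ toConjAct (gN N)⁻¹ • 𝒮ℒ := by
  rintro _ ⟨A, hA, rfl⟩
  rw [Subgroup.mem_pointwise_smul_iff_inv_smul_mem, ← map_inv, inv_inv, toConjAct_smul]
  obtain ⟨A', hA'⟩ := gN_mul_Gamma0 N A hA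
  exact ⟨A', by rw [hA', mul_inv_cancel_right]⟩

open ConjAct Pointwise in
/-- `f₀ = Δ ∣[12] diag(N,1)`, i.e. `τ ↦ N^11 Δ(N τ)`, as a modular form of level `Γ₀(N)`. -/
def f0 (N : ℕ) [NeZero N] : ModularForm (Gamma0 N : Subgroup (GL (Fin 2) ℝ)) 12 where
  toFun := (discriminant : ℍ → ℂ) ∣[(12 : ℤ)] gN N
  slash_action_eq' γ hγ :=
    (ModularForm.translate CuspForm.discriminant (gN N)).slash_action_eq' γ (Gamma0_le_conj N hγ)
  holo' := (ModularForm.translate CuspForm.discriminant (gN N)).holo'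
  bdd_at_cusps' hc :=
    (ModularForm.translate CuspForm.discriminant (gN N)).bdd_at_cusps'
      (hc.mono (Gamma0_le_conj N))

lemma coe_f0 (N : ℕ) [NeZero N] :
    (f0 N : ℍ → ℂ) = (discriminant : ℍ → ℂ) ∣[(12 : ℤ)] gN N := rfl

lemma hermite_aux (N p q r s e N' r' x y : ℤ) (hdet : p * s - q * r = 1) (hN' : N = e * N')
    (hr' : r = e * r') (hbez : e = N * x + r * y) (he0 : e ≠ 0) :
    N' * p * (x * s) - (-(y - N * x * q)) * r' = 1 ∧
    N * q = N' * p * ((x * s) * N * q + (y - N * x * q) * s) + (-(y - N * x * q)) * N' ∧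
    s = r' * ((x * s) * N * q + (y - N * x * q) * s) + (x * s) * N' := by
  have hbez' : N * p * (x * s) + (y - N * x * q) * r = e := by
    rw [hbez]; linear_combination (N * x) * hdet
  refine ⟨?_, ?_, ?_⟩
  · apply mul_left_cancel₀ he0
    linear_combination hbez' - (p * x * s) * hN' - (y - N * x * q) * hr'
  · have : p * ((x * s) * N * q + (y - N * x * q) * s) - (y - N * x * q) = q * e := by
      rw [← hbez']; linear_combination (y - N * x * q) * hdet
    linear_combination (-N') * this + q * hN'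
  · apply mul_left_cancel₀ he0
    have h1 : e * s = s * (N * p * (x * s) + (y - N * x * q) * r) := by rw [hbez']; ring
    linear_combination h1 + (x * s * N) * hdet
      + ((x * s) * N * q + (y - N * x * q) * s) * hr' + (x * s) * hN'

/-- Hermite-type decomposition: `diag(N,1) A = B U` with `B ∈ SL(2,ℤ)` and `U` upper triangular
with diagonal `(e, N/e)`, `e = gcd(N, A₁₀)`. -/
lemma exists_upper (N : ℕ) [NeZero N] (A : SL(2, ℤ)) :
    ∃ (B : SL(2, ℤ)) (U : GL (Fin 2) ℝ) (e d : ℕ), gN N * mapGL ℝ A = mapGL ℝ B * U ∧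
      U 1 0 = 0 ∧ U 1 1 = d ∧ U.det.val = N ∧ e * d = N ∧ e = Int.gcd N (A 1 0) := by
  have hN : (N : ℤ) ≠ 0 := Int.natCast_ne_zero.mpr (NeZero.ne N)
  have hdet : A 0 0 * A 1 1 - A 0 1 * A 1 0 = 1 := SL2_det_eq A
  obtain ⟨e, he⟩ : ∃ e : ℕ, e = Int.gcd N (A 1 0) := ⟨_, rfl⟩
  have he0 : (e : ℤ) ≠ 0 := by
    rw [he, Int.natCast_ne_zero]
    intro h
    rw [Int.gcd_eq_zero_iff] at h
    exact hN h.1
  obtain ⟨N', hN'⟩ : (e : ℤ) ∣ N := he ▸ Int.gcd_dvd_left _ _
  obtain ⟨r', hr'⟩ : (e : ℤ) ∣ A 1 0 := he ▸ Int.gcd_dvd_right _ _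
  have hbez : (e : ℤ) = N * Int.gcdA N (A 1 0) + A 1 0 * Int.gcdB N (A 1 0) :=
    he ▸ Int.gcd_eq_gcd_ab _ _
  obtain ⟨hB, h01, h11⟩ := hermite_aux N (A 0 0) (A 0 1) (A 1 0) (A 1 1) e N' r' _ _ hdet hN' hr'
    hbez he0
  have hN'pos : 0 < N' := by
    have h1 : (0 : ℤ) < N := by exact_mod_cast Nat.pos_of_ne_zero (NeZero.ne N)
    have h2 : (0 : ℤ) < e := by exact_mod_cast Nat.pos_of_ne_zero (by exact_mod_cast he0)
    rw [hN'] at h1
    by_contra h
    push Not at h
    nlinarith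
  obtain ⟨d, hd⟩ : ∃ d : ℕ, (d : ℤ) = N' := ⟨N'.toNat, Int.toNat_of_nonneg hN'pos.le⟩
  obtain ⟨x, hx⟩ : ∃ x : ℤ, x = Int.gcdA N (A 1 0) := ⟨_, rfl⟩
  obtain ⟨y, hy⟩ : ∃ y : ℤ, y = Int.gcdB N (A 1 0) := ⟨_, rfl⟩
  rw [← hx, ← hy] at hB h01 h11
  obtain ⟨u, hu⟩ : ∃ u : ℤ, u = x * A 1 1 := ⟨_, rfl⟩
  obtain ⟨v, hv⟩ : ∃ v : ℤ, v = y - N * x * A 0 1 := ⟨_, rfl⟩
  rw [← hu, ← hv] at hB h01 h11
  obtain ⟨b, hb⟩ : ∃ b : ℤ, b = u * N * A 0 1 + v * A 1 1 := ⟨_, rfl⟩
  rw [← hb] at h01 h11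
  have hed : e * d = N := by
    have : (e : ℤ) * d = N := by rw [hd, ← hN']
    exact_mod_cast this
  have hU : Matrix.det !![(e : ℝ), (b : ℝ); 0, (d : ℝ)] ≠ 0 := by
    rw [Matrix.det_fin_two_of]
    have : ((e : ℝ) * d) ≠ 0 := by
      have : ((e * d : ℕ) : ℝ) ≠ 0 := by rw [hed]; exact_mod_cast NeZero.ne N
      exact_mod_cast this
    simpa using this
  refine ⟨mkSL2 (N' * A 0 0) (-v) r' u hB, Matrix.GeneralLinearGroup.mkOfDetNeZero _ hU, e, d,
    ?_, rfl, rfl, ?_, hed, he⟩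
  · -- the matrix identity
    have h00 : (N : ℤ) * A 0 0 = N' * A 0 0 * e := by rw [hN']; ring
    have h01' : (N : ℤ) * A 0 1 = N' * A 0 0 * b + -(v * d) := by rw [h01, hd]; ring
    have h10 : A 1 0 = r' * e := by rw [hr']; ring
    have h11' : A 1 1 = r' * b + u * d := by rw [hd]; exact h11
    apply Matrix.GeneralLinearGroup.ext
    intro i j
    fin_cases i <;> fin_cases j <;>
      simp [Matrix.mul_apply, Fin.sum_univ_two, gN_val, mkSL2_val,
        Matrix.GeneralLinearGroup.mkOfDetNeZero]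
    · exact_mod_cast h00
    · exact_mod_cast h01'
    · exact_mod_cast h10
    · exact_mod_cast h11'
  · simp [Matrix.GeneralLinearGroup.mkOfDetNeZero, Matrix.det_fin_two_of]
    exact_mod_cast hed

/-- `‖Δ z‖ · exp(2π Im z) → 1` as `Im z → ∞`. -/
lemma tendsto_norm_discriminant_mul_exp :
    Tendsto (fun z : ℍ ↦ ‖discriminant z‖ * Real.exp (2 * Real.pi * z.im)) atImInfty (𝓝 1) := by
  have h := (tendsto_atImInfty_tprod_one_sub_eta_q_pow).norm
  rw [norm_one] at h
  refine h.congr fun z ↦ ?_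
  rw [discriminant_eq_q_prod, norm_mul]
  have hq_norm : ‖Function.Periodic.qParam 1 z‖ = Real.exp (-2 * Real.pi * z.im) := by
    simp [Function.Periodic.qParam, Complex.norm_exp]
  rw [hq_norm, mul_comm (Real.exp _), mul_assoc, ← Real.exp_add]
  simp

/-- decay rate of `Δ ∣ g` at `i∞` for upper triangular `g` -/
lemma tendsto_norm_slash_upper (g : GL (Fin 2) ℝ) (hg : g 1 0 = 0) :
    Tendsto (fun τ : ℍ ↦ ‖((discriminant : ℍ → ℂ) ∣[(12 : ℤ)] g) τ‖ *
        Real.exp (2 * Real.pi * (|g.det.val| / (g 1 1) ^ 2) * τ.im)) atImInfty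
      (𝓝 (|g.det.val| ^ 11 * (|g 1 1| ^ 12)⁻¹)) := by
  have h := (tendsto_norm_discriminant_mul_exp.comp (tendsto_smul_atImInfty hg)).mul_const
    (|g.det.val| ^ 11 * (|g 1 1| ^ 12)⁻¹)
  rw [one_mul] at h
  refine h.congr fun τ ↦ ?_
  have hden : denom g τ = ((g 1 1 : ℝ) : ℂ) := by simp [denom, hg]
  have him : (g • τ).im = |g.det.val| / (g 1 1) ^ 2 * τ.im := by
    rw [im_smul_eq_div_normSq, hden, Complex.normSq_ofReal]
    ring
  simp only [Function.comp_apply, slash_apply, norm_mul, norm_σ, norm_zpow, hden, him,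
    Complex.norm_real, Real.norm_eq_abs]
  rw [abs_abs, show ((12 : ℤ) - 1) = ((11 : ℕ) : ℤ) by norm_num, zpow_natCast,
    show (-12 : ℤ) = -((12 : ℕ) : ℤ) by norm_num, zpow_neg, zpow_natCast,
    show 2 * Real.pi * (|g.det.val| / (g 1 1) ^ 2 * τ.im)
      = 2 * Real.pi * (|g.det.val| / (g 1 1) ^ 2) * τ.im by ring]
  ring

/-- a function cannot decay at two different exponential rates -/
lemma rate_unique {f : ℍ → ℂ} {α β c c' : ℝ} (hc : c ≠ 0) (hc' : c' ≠ 0)
    (h : Tendsto (fun τ : ℍ ↦ ‖f τ‖ * Real.exp (2 * Real.pi * α * τ.im)) atImInfty (𝓝 c))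
    (h' : Tendsto (fun τ : ℍ ↦ ‖f τ‖ * Real.exp (2 * Real.pi * β * τ.im)) atImInfty (𝓝 c')) :
    α = β := by
  -- it suffices to prove `β ≤ α` for all such data, by symmetry
  suffices H : ∀ {α β c c' : ℝ}, c ≠ 0 → c' ≠ 0 →
      Tendsto (fun τ : ℍ ↦ ‖f τ‖ * Real.exp (2 * Real.pi * α * τ.im)) atImInfty (𝓝 c) →
      Tendsto (fun τ : ℍ ↦ ‖f τ‖ * Real.exp (2 * Real.pi * β * τ.im)) atImInfty (𝓝 c') →
      β ≤ α from le_antisymm (H hc' hc h' h) (H hc hc' h h')
  intro α β c c' hc hc' h h'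
  by_contra hlt
  push Not at hlt
  -- `exp (2π(β-α) Im τ) → ∞`
  have hexp : Tendsto (fun τ : ℍ ↦ Real.exp (2 * Real.pi * (β - α) * τ.im)) atImInfty atTop := by
    refine Real.tendsto_exp_atTop.comp ?_
    refine Tendsto.const_mul_atTop (by have := Real.pi_pos; nlinarith) ?_
    exact tendsto_comap
  -- hence `‖f τ‖ exp(2π β Im τ) = (‖f τ‖ exp(2π α Im τ)) * exp(2π(β-α) Im τ)` is unbounded
  have hprod : Tendsto (fun τ : ℍ ↦ |‖f τ‖ * Real.exp (2 * Real.pi * β * τ.im)|)
      atImInfty atTop := by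
    have h1 : Tendsto (fun τ : ℍ ↦ |‖f τ‖ * Real.exp (2 * Real.pi * α * τ.im)|) atImInfty
        (𝓝 |c|) := h.abs
    have h2 := Tendsto.pos_mul_atTop (abs_pos.mpr hc) h1 hexp
    refine h2.congr fun τ ↦ ?_
    rw [← abs_of_pos (Real.exp_pos (2 * Real.pi * (β - α) * τ.im)), ← abs_mul, mul_assoc,
      ← Real.exp_add]
    congr 3
    ring
  exact not_tendsto_nhds_of_tendsto_atTop hprod _ h'.abs


/-- the stabiliser of `Δ ∣ diag(N,1)` in `SL(2,ℤ)` is contained in `Γ₀(N)` -/
lemma mem_Gamma0_of_slash_eq (N : ℕ) [NeZero N] (A : SL(2, ℤ))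
    (h : ((discriminant : ℍ → ℂ) ∣[(12 : ℤ)] gN N) ∣[(12 : ℤ)] (mapGL ℝ A : GL (Fin 2) ℝ) =
      (discriminant : ℍ → ℂ) ∣[(12 : ℤ)] gN N) :
    A ∈ Gamma0 N := by
  obtain ⟨B, U, e, d, hBU, hU10, hU11, hUdet, hed, he⟩ := exists_upper N A
  have hΔB : (discriminant : ℍ → ℂ) ∣[(12 : ℤ)] (mapGL ℝ B : GL (Fin 2) ℝ) = discriminant :=
    CuspForm.discriminant.slash_action_eq' _ ⟨B, rfl⟩
  rw [← SlashAction.slash_mul, hBU, SlashAction.slash_mul, hΔB] at h
  have hN0 : (N : ℝ) ≠ 0 := by exact_mod_cast NeZero.ne N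
  have hNpos : (0 : ℝ) < N := by exact_mod_cast Nat.pos_of_ne_zero (NeZero.ne N)
  have hd0 : d ≠ 0 := by
    rintro rfl
    rw [mul_zero] at hed
    exact NeZero.ne N hed.symm
  have hdR : (d : ℝ) ≠ 0 := by exact_mod_cast hd0
  have h1 := tendsto_norm_slash_upper U hU10
  have h2 := tendsto_norm_slash_upper (gN N) (by simp [gN_val])
  rw [h] at h1
  have hg11 : (gN N) 1 1 = 1 := by simp [gN_val]
  rw [hU11, hUdet] at h1
  rw [hg11, gN_det] at h2
  have hrate := rate_unique (by positivity) (by positivity) h1 h2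
  -- `N / d^2 = N / 1`, so `d = 1`
  have hd1 : d = 1 := by
    have h3 : ((d : ℝ)) ^ 2 = 1 := by
      rw [abs_of_pos hNpos] at hrate
      field_simp at hrate
      nlinarith [hrate]
    have h4 : (d : ℝ) = 1 := by
      have hdpos : (0 : ℝ) ≤ d := Nat.cast_nonneg d
      nlinarith
    exact_mod_cast h4
  rw [hd1, mul_one] at hed
  rw [Gamma0_mem, ZMod.intCast_zmod_eq_zero_iff_dvd]
  have : (e : ℤ) ∣ A 1 0 := he ▸ Int.gcd_dvd_right _ _
  rwa [hed] at this


/-- the conjugates of `f0 N` are pairwise distinct functions -/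
lemma quotientFunc_f0_injective (N : ℕ) [NeZero N] :
    Function.Injective (fun q : 𝒮ℒ ⧸ (Gamma0 N : Subgroup (GL (Fin 2) ℝ)).subgroupOf 𝒮ℒ ↦
      SlashInvariantForm.quotientFunc (f0 N) q) := by
  intro q q' hqq'
  induction q using Quotient.inductionOn with
  | h h =>
  induction q' using Quotient.inductionOn with
  | h h' =>
  simp only [SlashInvariantForm.quotientFunc_mk] at hqq'
  -- `f₀ ∣ h⁻¹ = f₀ ∣ h'⁻¹`
  have key : ((f0 N : ℍ → ℂ) ∣[(12 : ℤ)] ((h : GL (Fin 2) ℝ)⁻¹ * (h' : GL (Fin 2) ℝ))) =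
      (f0 N : ℍ → ℂ) := by
    rw [SlashAction.slash_mul, hqq', ← SlashAction.slash_mul, inv_mul_cancel,
      SlashAction.slash_one]
  obtain ⟨A, hA⟩ : ((h : GL (Fin 2) ℝ)⁻¹ * (h' : GL (Fin 2) ℝ)) ∈ 𝒮ℒ :=
    mul_mem (inv_mem h.2) h'.2
  rw [← hA, coe_f0] at key
  have hmem := mem_Gamma0_of_slash_eq N A key
  refine Quotient.sound (QuotientGroup.leftRel_apply.mpr ?_)
  rw [Subgroup.mem_subgroupOf]
  exact ⟨A, hmem, by rw [hA]; simp⟩

end Fermat.Agent.S20.F658

namespace Fermat.Agent.S20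

open F658 in
/-- **WP F.** There is a weight 12 form of level `Γ₀(N)` and a point `z₀` at which its
`SL(2,ℤ)`-conjugates take pairwise distinct values. -/
theorem exists_form_distinct_conjugates (N : ℕ) [NeZero N] :
    ∃ (f₀ : ModularForm (Gamma0 N : Subgroup (GL (Fin 2) ℝ)) 12) (z₀ : ℍ),
      Function.Injective (fun q : 𝒮ℒ ⧸ (Gamma0 N : Subgroup (GL (Fin 2) ℝ)).subgroupOf 𝒮ℒ ↦
        SlashInvariantForm.quotientFunc f₀ q z₀) := by
  classical
  let 𝒬 := 𝒮ℒ ⧸ (Gamma0 N : Subgroup (GL (Fin 2) ℝ)).subgroupOf 𝒮ℒ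
  let _ : Fintype 𝒬 := Fintype.ofFinite 𝒬
  let F : 𝒬 → ℍ → ℂ := fun q ↦ SlashInvariantForm.quotientFunc (f0 N) q
  have hF : ∀ q, MDifferentiable 𝓘(ℂ) 𝓘(ℂ) (F q) :=
    Quotient.forall.mpr fun r ↦ (ModularForm.translate (f0 N) r.val⁻¹).holo'
  let s : Finset (𝒬 × 𝒬) := Finset.univ.filter fun p ↦ p.1 ≠ p.2
  have hne : ∏ p ∈ s, (F p.1 - F p.2) ≠ 0 := by
    intro h0
    rw [UpperHalfPlane.prod_eq_zero_iff (fun p _ ↦ (hF p.1).sub (hF p.2))] at h0
    obtain ⟨p, hp, hp0⟩ := h0
    exact (Finset.mem_filter.mp hp).2 (quotientFunc_f0_injective N (sub_eq_zero.mp hp0))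
  obtain ⟨z₀, hz₀⟩ := Function.ne_iff.mp hne
  refine ⟨f0 N, z₀, fun q q' hqq' ↦ ?_⟩
  by_contra hq
  apply hz₀
  rw [Finset.prod_apply, Pi.zero_apply]
  exact Finset.prod_eq_zero (i := (q, q')) (Finset.mem_filter.mpr ⟨Finset.mem_univ _, hq⟩)
    (by simpa [F, sub_eq_zero] using hqq')

end Fermat.Agent.S20

end
end
-- ===== PACK-END S20/F_helper658.lean

-- ===== PACK-BEGIN S37/H157/NormEmb.lean
section
/-
S37 helper (helper157), piece NORM-ID, part A: the norm of a finite separable field extension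
as the product over an explicitly given full list of pairwise distinct embeddings into an
arbitrary field `Ω` (not necessarily algebraically closed).  Mathlib only.
-/


set_option autoImplicit false

noncomputable section

namespace Fermat.Agent.S37.H157

open Polynomial

/-- If `σ i : E →+* Ω` (`i : Fin n`, `n = [E : F]`) are pairwise distinct ring homomorphisms
all restricting to the same `ι : F →+* Ω`, then `ι (N_{E/F} x) = ∏ i, σ i x`. -/
theorem norm_eq_prod_of_embeddings {F E Ω : Type*} [Field F] [Field E] [Field Ω] [Algebra F E]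
    [FiniteDimensional F E] [Algebra.IsSeparable F E]
    (ι : F →+* Ω) {n : ℕ} (hn : Module.finrank F E = n) (σ : Fin n → (E →+* Ω))
    (hσ : ∀ i (a : F), σ i (algebraMap F E a) = ι a) (hinj : Function.Injective σ) (x : E) :
    ι (Algebra.norm F x) = ∏ i, σ i x := by
  classical
  letI : Algebra F (AlgebraicClosure Ω) := ((algebraMap Ω (AlgebraicClosure Ω)).comp ι).toAlgebra
  have halg : ∀ a : F, algebraMap F (AlgebraicClosure Ω) a
      = algebraMap Ω (AlgebraicClosure Ω) (ι a) := fun a => rfl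
  -- the embeddings as `F`-algebra homomorphisms into the algebraic closure
  let τ : Fin n → (E →ₐ[F] AlgebraicClosure Ω) := fun i =>
    { toRingHom := (algebraMap Ω (AlgebraicClosure Ω)).comp (σ i)
      commutes' := fun a => by
        show algebraMap Ω (AlgebraicClosure Ω) (σ i (algebraMap F E a)) = _
        rw [hσ i a, halg] }
  have hτ : ∀ i (y : E), τ i y = algebraMap Ω (AlgebraicClosure Ω) (σ i y) := fun i y => rfl
  have hτinj : Function.Injective τ := by
    intro i j hij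
    apply hinj
    ext y
    have := congrArg (fun f : E →ₐ[F] AlgebraicClosure Ω => f y) hij
    simp only [hτ] at this
    exact (algebraMap Ω (AlgebraicClosure Ω)).injective this
  have hcard : Fintype.card (Fin n) = Fintype.card (E →ₐ[F] AlgebraicClosure Ω) := by
    rw [Fintype.card_fin, AlgHom.card F E (AlgebraicClosure Ω), hn]
  have hbij : Function.Bijective τ :=
    (Fintype.bijective_iff_injective_and_card τ).mpr ⟨hτinj, hcard⟩
  have key := Algebra.norm_eq_prod_embeddings F (AlgebraicClosure Ω) x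
  rw [halg] at key
  apply (algebraMap Ω (AlgebraicClosure Ω)).injective
  rw [key, map_prod]
  rw [← Fintype.prod_bijective τ hbij (fun i => algebraMap Ω (AlgebraicClosure Ω) (σ i x))
    (fun f => f x) (fun i => rfl)]

end Fermat.Agent.S37.H157

end

end
-- ===== PACK-END S37/H157/NormEmb.lean

-- ===== PACK-BEGIN A2/Spec.lean
section




/-!
# WALL A2 — frozen interfaces (row-lead helper13)

Goal (`Target N q m`): for `q ‖ N`, `q ∤ m`, every `τ` in an inertia group at `q` satisfies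
`(τ - 1)² = 0` on `JZero N [m]` (`JZero N = Pic⁰(ℚ̄(X₀(N)))`, Prelude language).

Layers (see `coord/A2.md` on `origin/helper13`):

* `Target`        : the wall, Prelude language.
* `KummerTarget`  : the same on Kummer generators (`div f ∈ m·Div ⇒ (τ-1)² f ∈ (F̄ˣ)^m`).
* `SSChart`, `SepCoord`, `AlgSSConclusion` : the abstract semistable theorem ALG (Mathlib only).
* `GoodField`     : the finite levels `E' ⊇ ℚ̄^{I}` over which ALG is applied (piece IF).

This file contains only definitions (no `sorry`).  The interface theorems are the `Prop`s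
`AlgSSStatement`, `IFStatement` (this file) and `ModSSStatement` (`ModDefs.lean`).

v2 (19:10Z, LANDED, never to change again):
* `SSChart` has the two incomparability fields `not_le₁₂`, `not_le₂₁` (audit helper154: without
  them the good-reduction case `p₁ = (w) < p₂` was admitted);
* `GoodField` has the field `finite_order` and `AlgSSStatement` the hypothesis `hfo` (the lift
  `τ` has finite order on the finite level; asked for by route G, helper12 `H12.wallG`).
-/

set_option autoImplicit false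

noncomputable section

namespace Fermat.Agent.A2

open ModularCurve AlgebraicCurve

/-- The field `ℚ̄`. -/
abbrev Qb : Type := AlgebraicClosure ℚ

/-- **The wall A2** at `(N, q, m)`: unipotent inertia on the `m`-torsion of `J₀(N)`. -/
def Target (N q m : ℕ) : Prop :=
  ∀ P : ValuationSubring Qb, P.LiesOverPrime q →
    ∀ τ ∈ P.inertiaSubgroupIn ℚ, ∀ x : JZero N, m • x = 0 →
      τ • (τ • x) + x = 2 • (τ • x)

/-- The automorphism of `F̄_N = ℚ̄(X₀(N))` induced by `τ ∈ G_ℚ` (action on coefficients). -/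
abbrev act (N : ℕ) (τ : Qb ≃ₐ[ℚ] Qb) :
    modularFunctionFieldBar N ≃+* modularFunctionFieldBar N :=
  arithmeticRingAut (modularFunctionFieldFull N) τ

/-- **Kummer form of the wall**: if `div f ∈ m · Div`, then `τ²(f) · f / τ(f)²` is an `m`-th
power in `F̄_N`. -/
def KummerTarget (N q m : ℕ) : Prop :=
  ∀ P : ValuationSubring Qb, P.LiesOverPrime q →
    ∀ τ ∈ P.inertiaSubgroupIn ℚ, ∀ f : modularFunctionFieldBar N, f ≠ 0 →
      (∀ v : Place Qb (modularFunctionFieldBar N), (m : ℤ) ∣ v.ord f) →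
      ∃ h : modularFunctionFieldBar N, h ≠ 0 ∧
        act N τ (act N τ f) * f = h ^ m * (act N τ f) ^ 2

/-! ## ALG: abstract semistable two-chart models (Mathlib only) -/

section Alg

variable {R F : Type*} [CommRing R] [Field F] [Algebra R F]

/-- A chart `B ⊆ F` of a model over `R` whose special fibre `B / wB` is reduced with exactly two
components `p₁`, `p₂`, both normal, meeting transversally (`p₁ + p₂` radical, i.e. every common
point is an ordinary double point). -/
structure SSChart (w : R) (B : Subalgebra R F) where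
  /-- first component -/
  p₁ : Ideal B
  /-- second component -/
  p₂ : Ideal B
  prime₁ : p₁.IsPrime
  prime₂ : p₂.IsPrime
  ne : p₁ ≠ p₂
  not_le₁₂ : ¬ p₁ ≤ p₂
  not_le₂₁ : ¬ p₂ ≤ p₁
  inf_eq : p₁ ⊓ p₂ = Ideal.span {algebraMap R B w}
  normal₁ : IsIntegrallyClosed (B ⧸ p₁)
  normal₂ : IsIntegrallyClosed (B ⧸ p₂)
  transversal : (p₁ ⊔ p₂).IsRadical

variable (R) in
/-- `x` is a separating coordinate for the special fibre: some `E(x)`-basis of `F` consisting of
elements of the chart `B` has a discriminant `d(x)`, `d ∈ R[X]`, which is nonzero modulo the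
maximal ideal. -/
def SepCoord [IsLocalRing R] (E : Type*) [Field E] [Algebra E F] (x : F) (B : Subalgebra R F) :
    Prop :=
  ∃ (n : ℕ) (b : Fin n → F), (∀ i, b i ∈ B) ∧
    LinearIndependent (IntermediateField.adjoin E ({x} : Set F)) b ∧
    n = Module.finrank (IntermediateField.adjoin E ({x} : Set F)) F ∧
    ∃ d : Polynomial R, d.map (IsLocalRing.residue R) ≠ 0 ∧
      Polynomial.aeval x d =
        algebraMap (IntermediateField.adjoin E ({x} : Set F)) F
          (Algebra.discr (IntermediateField.adjoin E ({x} : Set F)) b)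

/-- `m ∣ div f` on every discrete valuation ring of `F` containing `E`, in Mathlib-only form:
locally `f = u · h ^ m` with `u` a unit. -/
def DivisibleDiv (E : Type*) [Field E] [Algebra E F] (m : ℕ) (f : F) : Prop :=
  ∀ V : ValuationSubring F, IsDiscreteValuationRing V → (∀ e : E, algebraMap E F e ∈ V) →
    ∃ h u : F, h ≠ 0 ∧ u ∈ V ∧ u⁻¹ ∈ V ∧ f = u * h ^ m

/-- The conclusion of ALG: `(τ - 1)²` kills the Kummer classes with `m ∣ div`. -/
def AlgSSConclusion (E : Type*) [Field E] [Algebra E F] (m : ℕ) (τ : F ≃+* F) : Prop :=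
  ∀ f : F, f ≠ 0 → DivisibleDiv E m f →
    ∃ h : F, h ≠ 0 ∧ τ (τ f) * f = h ^ m * (τ f) ^ 2

/-- **ALG (interface statement).**  Henselian DVR `R` with algebraically closed residue field of
characteristic `q`, `F / E` a function field with coordinate `x`, `Bf`, `Bi` the integral closures
of `R[x]`, `R[1/x]` in `F`, both semistable with two components (`SSChart`) and separating
coordinate, `τ` a semilinear automorphism of finite order fixing `x` and acting trivially modulo
`w` on both charts.  Then `(τ - 1)²` kills every Kummer class `f` with `m ∣ div f`, `q ∤ m`. -/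
def AlgSSStatement : Prop :=
  ∀ {R E F : Type} [CommRing R] [IsDomain R] [IsDiscreteValuationRing R] [HenselianLocalRing R]
    [IsAlgClosed (IsLocalRing.ResidueField R)]
    [Field E] [CharZero E] [Algebra R E] [IsFractionRing R E]
    [Field F] [Algebra E F] [Algebra R F] [IsScalarTower R E F]
    (w : R) (_ : Irreducible w) (q m : ℕ) (_ : q.Prime)
    (_ : (q : R) ∈ IsLocalRing.maximalIdeal R) (_ : 0 < m) (_ : ¬ q ∣ m)
    (x : F) (_ : Transcendental E x)
    (_ : FiniteDimensional (IntermediateField.adjoin E ({x} : Set F)) F)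
    (_ : ∀ f : F, IsAlgebraic E f → f ∈ (algebraMap E F).range)
    (Bf Bi : Subalgebra R F)
    (_ : ∀ f : F, f ∈ Bf ↔ IsIntegral (Algebra.adjoin R ({x} : Set F)) f)
    (_ : ∀ f : F, f ∈ Bi ↔ IsIntegral (Algebra.adjoin R ({x⁻¹} : Set F)) f)
    (_ : SSChart w Bf) (_ : SSChart w Bi)
    (_ : SepCoord R E x Bf) (_ : SepCoord R E x⁻¹ Bi)
    (τ : F ≃+* F) (τE : E ≃+* E) (τR : R ≃+* R)
    (_ : ∀ e : E, τ (algebraMap E F e) = algebraMap E F (τE e))
    (_ : ∀ r : R, τE (algebraMap R E r) = algebraMap R E (τR r))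
    (_ : τ x = x)
    (_ : ∃ r : ℕ, 0 < r ∧ ∀ f : F, (⇑τ)^[r] f = f)
    (_ : ∀ b ∈ Bf, ∃ c ∈ Bf, τ b - b = algebraMap R F w * c)
    (_ : ∀ b ∈ Bi, ∃ c ∈ Bi, τ b - b = algebraMap R F w * c),
    AlgSSConclusion E m τ

end Alg

/-! ## IF: good levels -/

/-- `R_E := P ∩ E`. -/
abbrev RE (P : ValuationSubring Qb) (E : IntermediateField ℚ Qb) : ValuationSubring E :=
  P.comap (algebraMap E Qb)

/-- A *good level* for `P`: an intermediate field `E ⊆ ℚ̄`, stable under the inertia group of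
`P`, such that `R_E = P ∩ E` is a henselian discrete valuation ring with algebraically closed
residue field on which the inertia group acts trivially modulo the maximal ideal.
(Example: every finite extension of the inertia field `ℚ̄^{I_P}` inside `ℚ̄`.) -/
structure GoodField (P : ValuationSubring Qb) (E : IntermediateField ℚ Qb) : Prop where
  stable : ∀ τ ∈ P.inertiaSubgroupIn ℚ, ∀ e : Qb, e ∈ E → τ e ∈ E
  dvr : IsDiscreteValuationRing (RE P E)
  henselian : HenselianLocalRing (RE P E)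
  algClosed : IsAlgClosed (IsLocalRing.ResidueField (RE P E))
  trivial_mod : ∀ τ ∈ P.inertiaSubgroupIn ℚ, ∀ e : Qb, e ∈ E → e ∈ P →
    τ e - e ∈ P.nonunits
  finite_order : ∀ τ ∈ P.inertiaSubgroupIn ℚ, ∃ r : ℕ, 0 < r ∧ ∀ e : Qb, e ∈ E →
    (⇑τ)^[r] e = e

/-- **IF (interface statement).**  Every finite set of algebraic numbers lies in a good level for
`P` (`E` = compositum of the inertia field `ℚ̄^{I_P}` and a finite normal extension of `ℚ`). -/
def IFStatement : Prop :=
  ∀ (q : ℕ) (_ : q.Prime) (P : ValuationSubring Qb) (_ : P.LiesOverPrime q) (S : Finset Qb),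
    ∃ E : IntermediateField ℚ Qb, (∀ s ∈ S, s ∈ E) ∧ GoodField P E

end Fermat.Agent.A2

end
end
-- ===== PACK-END A2/Spec.lean

-- ===== PACK-BEGIN S18/H754/LocalUFD.lean
section


/-!
# S18 / Route K / étale Kummer cover, piece P1 (helper754)

A Noetherian local domain whose maximal ideal is generated by a prime element `ϖ` and one more
element `t` is a unique factorisation domain.
-/

set_option autoImplicit false

noncomputable section

namespace Fermat.Agent.S18.H754

open IsLocalRing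

section P1

variable {R : Type*} [CommRing R] [IsDomain R] [IsNoetherianRing R] [IsLocalRing R]

/-- The quotient of a Noetherian local domain by a prime element `ϖ` with `𝔪 = (ϖ, t)` is a
principal ideal ring. -/
theorem isPrincipalIdealRing_quotient_of_regular_pair (ϖ t : R) (hϖ : Prime ϖ)
    (hm : maximalIdeal R = Ideal.span {ϖ, t}) :
    letI : (Ideal.span {ϖ}).IsPrime := (Ideal.span_singleton_prime hϖ.ne_zero).mpr hϖ
    IsPrincipalIdealRing (R ⧸ Ideal.span {ϖ}) := by
  haveI hprime : (Ideal.span {ϖ}).IsPrime := (Ideal.span_singleton_prime hϖ.ne_zero).mpr hϖ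
  haveI : Nontrivial (R ⧸ Ideal.span {ϖ}) := Ideal.Quotient.nontrivial_iff.mpr hprime.ne_top
  haveI : IsLocalRing (R ⧸ Ideal.span {ϖ}) :=
    IsLocalRing.of_surjective' (Ideal.Quotient.mk _) Ideal.Quotient.mk_surjective
  have hmax : maximalIdeal (R ⧸ Ideal.span {ϖ}) =
      Ideal.span {Ideal.Quotient.mk (Ideal.span {ϖ}) t} := by
    have h1 : maximalIdeal (R ⧸ Ideal.span {ϖ}) =
        (maximalIdeal R).map (Ideal.Quotient.mk (Ideal.span {ϖ})) := by
      haveI := IsLocalHom.of_surjective (Ideal.Quotient.mk (Ideal.span {ϖ}))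
        Ideal.Quotient.mk_surjective
      ext x
      obtain ⟨x, rfl⟩ := Ideal.Quotient.mk_surjective x
      simp [sup_eq_left.mpr (le_maximalIdeal hprime.ne_top)]
    rw [h1, hm, Ideal.map_span, Set.image_pair]
    have h0 : Ideal.Quotient.mk (Ideal.span {ϖ}) ϖ = 0 :=
      Ideal.Quotient.eq_zero_iff_mem.mpr (Ideal.mem_span_singleton_self ϖ)
    rw [h0]
    apply le_antisymm
    · rw [Ideal.span_le]
      rintro x (rfl | rfl)
      · exact Ideal.zero_mem _
      · exact Ideal.subset_span rfl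
    · apply Ideal.span_mono
      intro x hx
      right
      exact hx
  have htfae := (tfae_of_isNoetherianRing_of_isLocalRing_of_isDomain
    (R := R ⧸ Ideal.span {ϖ})).out 4 0
  exact htfae.mp ⟨⟨_, hmax⟩⟩

/-- **P1.** A Noetherian local domain with `𝔪 = (ϖ, t)`, `ϖ` prime, is a UFD. -/
theorem ufd_of_regular_pair (ϖ t : R) (hϖ : Prime ϖ)
    (hm : maximalIdeal R = Ideal.span {ϖ, t}) : UniqueFactorizationMonoid R := by
  haveI hprime : (Ideal.span {ϖ}).IsPrime := (Ideal.span_singleton_prime hϖ.ne_zero).mpr hϖ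
  haveI hpid : IsPrincipalIdealRing (R ⧸ Ideal.span {ϖ}) :=
    isPrincipalIdealRing_quotient_of_regular_pair ϖ t hϖ hm
  apply UniqueFactorizationMonoid.of_forall_isPrincipal_of_height_eq_one
  intro 𝔮 h𝔮 hht
  by_cases hϖ𝔮 : ϖ ∈ 𝔮
  · exact ⟨ϖ, 𝔮.eq_span_singleton_of_height_eq_one hht hϖ𝔮 hϖ⟩
  · -- the image of `𝔮` modulo `ϖ` is principal
    obtain ⟨fbar, hfbar⟩ := (hpid.principal (𝔮.map (Ideal.Quotient.mk (Ideal.span {ϖ})))).principal
    have hfmem : fbar ∈ 𝔮.map (Ideal.Quotient.mk (Ideal.span {ϖ})) := by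
      rw [hfbar]
      exact Submodule.mem_span_singleton_self fbar
    obtain ⟨f, hf𝔮, rfl⟩ :=
      (Ideal.mem_map_iff_of_surjective _ Ideal.Quotient.mk_surjective).1 hfmem
    refine ⟨f, le_antisymm ?_ ?_⟩
    · have key : 𝔮 ≤ Ideal.span {f} ⊔ Ideal.span {ϖ} • 𝔮 := by
        intro g hg
        have hgbar : Ideal.Quotient.mk (Ideal.span {ϖ}) g ∈
            𝔮.map (Ideal.Quotient.mk (Ideal.span {ϖ})) := Ideal.mem_map_of_mem _ hg
        rw [hfbar] at hgbar
        obtain ⟨abar, habar⟩ := Submodule.mem_span_singleton.1 hgbar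
        obtain ⟨a, rfl⟩ := Ideal.Quotient.mk_surjective abar
        have h1 : g - a * f ∈ Ideal.span {ϖ} := by
          rw [← Ideal.Quotient.eq_zero_iff_mem, map_sub, map_mul, sub_eq_zero]
          rw [← habar]
          rfl
        obtain ⟨g₁, hg₁⟩ := Ideal.mem_span_singleton'.1 h1
        have hg₁𝔮 : g₁ ∈ 𝔮 := by
          have h2 : g₁ * ϖ ∈ 𝔮 := by
            rw [hg₁]
            exact 𝔮.sub_mem hg (𝔮.mul_mem_left a hf𝔮)
          exact (h𝔮.mem_or_mem h2).resolve_right hϖ𝔮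
        have h3 : g = a * f + ϖ * g₁ := by
          rw [mul_comm ϖ g₁, hg₁]
          ring
        rw [h3]
        refine Submodule.add_mem_sup ?_ ?_
        · exact Ideal.mul_mem_left _ a (Ideal.mem_span_singleton_self f)
        · exact Submodule.smul_mem_smul (Ideal.mem_span_singleton_self ϖ) hg₁𝔮
      have hjac : Ideal.span {ϖ} ≤ Ideal.jacobson (⊥ : Ideal R) := by
        rw [IsLocalRing.jacobson_eq_maximalIdeal ⊥ bot_ne_top, Ideal.span_singleton_le_iff_mem]
        exact hϖ.not_unit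
      exact Submodule.le_of_le_smul_of_le_jacobson_bot (IsNoetherian.noetherian 𝔮) hjac key
    · rw [Submodule.span_singleton_le_iff_mem]
      exact hf𝔮

end P1

end Fermat.Agent.S18.H754

end

end
-- ===== PACK-END S18/H754/LocalUFD.lean

-- ===== PACK-BEGIN A2/H348/SubLoc.lean
section


/-!
# A2 / piece E (ALG_ss), part 2: localisations of a subalgebra of a field, conductor argument

Mathlib-only.  `B ⊆ F` a subalgebra of a field, `F'` an `F`-algebra.

* `exists_smul_isIntegral_of_subLoc` : if `O ⊇ B` is "a localisation of `B` at `S`" inside `F`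
  (every `f ∈ O` has a denominator in `S`, elements of `S` are invertible in `O`), then an element
  of `F'` integral over `O` becomes integral over `B` after multiplication by some `s ∈ S`.
* `locAt B 𝔪` : the localisation of `B` at a prime ideal, as a subalgebra of `F`.
* `mem_of_forall_maximal` : the conductor argument: a `B`-submodule `M ⊆ F'` contains `c` as soon
  as for every maximal ideal `𝔪` some `s ∉ 𝔪` satisfies `s • c ∈ M`.
-/

set_option autoImplicit false
set_option linter.unusedSectionVars false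

namespace Fermat.Agent.A2.H348

variable {A F F' : Type*} [CommRing A] [Field F] [CommRing F'] [Algebra A F] [Algebra F F']
  [Algebra A F'] [IsScalarTower A F F']

section SubLoc

variable (B O : Subalgebra A F)

/-- integrality over a localisation descends up to a denominator. -/
theorem exists_smul_isIntegral_of_subLoc (hBO : B ≤ O) (S : Submonoid B)
    (hS0 : ∀ s ∈ S, (s : F) ≠ 0)
    (hS : ∀ f ∈ O, ∃ s ∈ S, (s : F) * f ∈ B) (hSinv : ∀ s ∈ S, ((s : F))⁻¹ ∈ O)
    (c : F') (hc : IsIntegral O c) :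
    ∃ s ∈ S, IsIntegral B (algebraMap F F' (s : F) * c) := by
  letI : Algebra B O := (Subalgebra.inclusion hBO).toRingHom.toAlgebra
  have halg : ∀ b : B, ((algebraMap B O b : O) : F) = (b : F) := fun b => rfl
  haveI : IsScalarTower B O F' := IsScalarTower.of_algebraMap_eq fun b => rfl
  haveI : IsLocalization S O := by
    rw [isLocalization_iff]
    refine ⟨?_, ?_, ?_⟩
    · intro y
      refine IsUnit.of_mul_eq_one (⟨((y : B) : F)⁻¹, hSinv y y.2⟩ : O) ?_
      apply Subtype.ext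
      show ((y : B) : F) * ((y : B) : F)⁻¹ = 1
      exact mul_inv_cancel₀ (hS0 y y.2)
    · intro z
      obtain ⟨s, hs, hsz⟩ := hS z z.2
      refine ⟨(⟨(s : F) * z, hsz⟩, ⟨s, hs⟩), ?_⟩
      apply Subtype.ext
      show (z : F) * (s : F) = (s : F) * z
      exact mul_comm _ _
    · intro x y hxy
      refine ⟨1, ?_⟩
      have : (x : F) = (y : F) := congrArg (fun t : O => (t : F)) hxy
      rw [Subtype.ext this]
  obtain ⟨m, hm⟩ := IsIntegral.exists_multiple_integral_of_isLocalization S c hc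
  refine ⟨m, m.2, ?_⟩
  have : (m • c : F') = algebraMap F F' ((m : B) : F) * c := by
    rw [Submonoid.smul_def, Algebra.smul_def]; rfl
  rwa [this] at hm

end SubLoc

section LocAt

variable (B : Subalgebra A F)

/-- The localisation of `B ⊆ F` at the prime ideal `𝔪`, as a subalgebra of `F`. -/
def locAt (𝔪 : Ideal B) [h𝔪 : 𝔪.IsPrime] : Subalgebra A F where
  carrier := {f | ∃ s : B, s ∉ 𝔪 ∧ (s : F) * f ∈ B}
  mul_mem' := by
    rintro f g ⟨s, hs, hsf⟩ ⟨t, ht, htg⟩
    refine ⟨s * t, fun h => (h𝔪.mem_or_mem h).elim hs ht, ?_⟩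
    have : ((s * t : B) : F) * (f * g) = ((s : F) * f) * ((t : F) * g) := by
      push_cast; ring
    rw [this]
    exact B.mul_mem hsf htg
  add_mem' := by
    rintro f g ⟨s, hs, hsf⟩ ⟨t, ht, htg⟩
    refine ⟨s * t, fun h => (h𝔪.mem_or_mem h).elim hs ht, ?_⟩
    have : ((s * t : B) : F) * (f + g) = (t : F) * ((s : F) * f) + (s : F) * ((t : F) * g) := by
      push_cast; ring
    rw [this]
    exact B.add_mem (B.mul_mem t.2 hsf) (B.mul_mem s.2 htg)
  algebraMap_mem' := by
    intro r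
    refine ⟨1, fun h => h𝔪.ne_top ((Ideal.eq_top_iff_one _).2 h), ?_⟩
    simp only [OneMemClass.coe_one, one_mul]
    exact B.algebraMap_mem r

variable {B}

theorem mem_locAt {𝔪 : Ideal B} [𝔪.IsPrime] {f : F} :
    f ∈ locAt B 𝔪 ↔ ∃ s : B, s ∉ 𝔪 ∧ (s : F) * f ∈ B := Iff.rfl

theorem le_locAt (𝔪 : Ideal B) [h𝔪 : 𝔪.IsPrime] : B ≤ locAt B 𝔪 := by
  intro f hf
  refine ⟨1, fun h => h𝔪.ne_top ((Ideal.eq_top_iff_one _).2 h), ?_⟩
  simpa using hf

theorem inv_mem_locAt (𝔪 : Ideal B) [𝔪.IsPrime] {s : B} (hs : s ∉ 𝔪) :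
    ((s : F))⁻¹ ∈ locAt B 𝔪 := by
  refine ⟨s, hs, ?_⟩
  rcases eq_or_ne (s : F) 0 with h | h
  · rw [h, zero_mul]; exact B.zero_mem
  · rw [mul_inv_cancel₀ h]; exact B.one_mem

theorem coe_ne_zero_of_notMem (𝔪 : Ideal B) {s : B} (hs : s ∉ 𝔪) : (s : F) ≠ 0 := by
  intro h
  apply hs
  have : s = 0 := Subtype.ext h
  rw [this]
  exact 𝔪.zero_mem

/-- integrality over `B_𝔪` descends to `B` up to a denominator outside `𝔪`. -/
theorem exists_smul_isIntegral_of_locAt (𝔪 : Ideal B) [𝔪.IsPrime] (c : F')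
    (hc : IsIntegral (locAt B 𝔪) c) :
    ∃ s : B, s ∉ 𝔪 ∧ IsIntegral B (algebraMap F F' (s : F) * c) := by
  obtain ⟨s, hs, h⟩ := exists_smul_isIntegral_of_subLoc B (locAt B 𝔪) (le_locAt 𝔪) 𝔪.primeCompl
    (fun s hs => coe_ne_zero_of_notMem 𝔪 hs)
    (fun f hf => by
      obtain ⟨s, hs, hsf⟩ := hf
      exact ⟨s, hs, hsf⟩)
    (fun s hs => inv_mem_locAt 𝔪 hs) c hc
  exact ⟨s, hs, h⟩

/-- `B_𝔪` is integrally closed in `F` if `B` is. -/
theorem locAt_integrallyClosed (hB : ∀ f : F, IsIntegral B f → f ∈ B) (𝔪 : Ideal B) [𝔪.IsPrime]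
    (f : F) (hf : IsIntegral (locAt B 𝔪) f) : f ∈ locAt B 𝔪 := by
  obtain ⟨s, hs, h⟩ := exists_smul_isIntegral_of_locAt (F' := F) 𝔪 f hf
  exact ⟨s, hs, hB _ h⟩

/-- `1 + ϖ t` is invertible in `B_𝔪` for `ϖ ∈ 𝔪`. -/
theorem one_add_mul_inv_mem_locAt (𝔪 : Ideal B) [𝔪.IsPrime] {ϖ : B} (hϖ : ϖ ∈ 𝔪) {t : F}
    (ht : t ∈ locAt B 𝔪) : (1 + (ϖ : F) * t)⁻¹ ∈ locAt B 𝔪 := by
  obtain ⟨s, hs, hst⟩ := ht
  have hmem : s + ϖ * ⟨(s : F) * t, hst⟩ ∉ 𝔪 := by
    intro h
    apply hs
    have h2 : ϖ * ⟨(s : F) * t, hst⟩ ∈ 𝔪 := 𝔪.mul_mem_right _ hϖ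
    have := 𝔪.sub_mem h h2
    simpa using this
  have hs0 : (s : F) ≠ 0 := coe_ne_zero_of_notMem 𝔪 hs
  have hne : ((s + ϖ * ⟨(s : F) * t, hst⟩ : B) : F) ≠ 0 := coe_ne_zero_of_notMem 𝔪 hmem
  have hval : ((s + ϖ * ⟨(s : F) * t, hst⟩ : B) : F) = (s : F) * (1 + (ϖ : F) * t) := by
    push_cast; ring
  have h1 : (1 + (ϖ : F) * t) ≠ 0 := by
    intro h
    rw [hval, h, mul_zero] at hne
    exact hne rfl
  refine ⟨s + ϖ * ⟨(s : F) * t, hst⟩, hmem, ?_⟩
  rw [hval, mul_assoc, mul_inv_cancel₀ h1, mul_one]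
  exact s.2

end LocAt

section Conductor

variable (B : Subalgebra A F)

/-- **Conductor argument.** -/
theorem mem_of_forall_maximal (M : Submodule B F') (c : F')
    (h : ∀ 𝔪 : Ideal B, 𝔪.IsMaximal → ∃ s : B, s ∉ 𝔪 ∧ s • c ∈ M) : c ∈ M := by
  let I : Ideal B := M.comap (LinearMap.toSpanSingleton B F' c)
  have hI : ∀ s : B, s ∈ I ↔ s • c ∈ M := fun s => by
    simp [I, Submodule.mem_comap, LinearMap.toSpanSingleton_apply]
  by_cases hIt : I = ⊤
  · have h1 : (1 : B) ∈ I := by rw [hIt]; trivial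
    have := (hI 1).1 h1
    simpa using this
  · obtain ⟨𝔪, h𝔪, hle⟩ := Ideal.exists_le_maximal I hIt
    obtain ⟨s, hs, hsc⟩ := h 𝔪 h𝔪
    exact absurd (hle ((hI s).2 hsc)) hs

end Conductor

end Fermat.Agent.A2.H348

end
-- ===== PACK-END A2/H348/SubLoc.lean

-- ===== PACK-BEGIN A2/H609/RelLen.lean
section


/-!
# Node purity, part 2: relative lengths `ℓ(N / N')` of submodules

`relLen N' N = Module.length R (N ⧸ N')` for submodules `N' N` of `M` (meaningful for `N' ≤ N`),
with the chain rule and a transport lemma along a linear map.  Mathlib only.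
-/

set_option autoImplicit false

namespace Fermat.Agent.A2.H609

open Submodule

variable {R : Type*} [CommRing R] {M M' : Type*} [AddCommGroup M] [Module R M]
  [AddCommGroup M'] [Module R M']

/-- The relative length `ℓ(N / N')`. -/
noncomputable def relLen (N' N : Submodule R M) : ℕ∞ :=
  Module.length R (↥N ⧸ N'.submoduleOf N)

/-- The map `N / N' → P / P'` induced by a linear map `φ` with `φ N ⊆ P`, `φ N' ⊆ P'`. -/
noncomputable def relMap (φ : M →ₗ[R] M') {N' N : Submodule R M} {P' P : Submodule R M'}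
    (hNP : ∀ x ∈ N, φ x ∈ P) (hNP' : ∀ x ∈ N', φ x ∈ P') :
    (↥N ⧸ N'.submoduleOf N) →ₗ[R] (↥P ⧸ P'.submoduleOf P) :=
  Submodule.mapQ (N'.submoduleOf N) (P'.submoduleOf P) (φ.restrict hNP) (by
    intro x hx
    rw [Submodule.mem_comap]
    exact hNP' _ hx)

theorem relMap_mk (φ : M →ₗ[R] M') {N' N : Submodule R M} {P' P : Submodule R M'}
    (hNP : ∀ x ∈ N, φ x ∈ P) (hNP' : ∀ x ∈ N', φ x ∈ P') (x : N) :
    relMap φ hNP hNP' (Submodule.Quotient.mk x) =
      Submodule.Quotient.mk (⟨φ x, hNP x x.2⟩ : P) := rfl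

theorem relMap_injective (φ : M →ₗ[R] M') {N' N : Submodule R M} {P' P : Submodule R M'}
    (hNP : ∀ x ∈ N, φ x ∈ P) (hNP' : ∀ x ∈ N', φ x ∈ P')
    (hinj : ∀ x ∈ N, φ x ∈ P' → x ∈ N') : Function.Injective (relMap φ hNP hNP') := by
  rw [← LinearMap.ker_eq_bot, eq_bot_iff]
  intro y hy
  obtain ⟨x, rfl⟩ := Submodule.Quotient.mk_surjective _ y
  rw [LinearMap.mem_ker, relMap_mk, Submodule.Quotient.mk_eq_zero] at hy
  rw [Submodule.mem_bot, Submodule.Quotient.mk_eq_zero]
  exact hinj x x.2 hy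

theorem relMap_surjective (φ : M →ₗ[R] M') {N' N : Submodule R M} {P' P : Submodule R M'}
    (hNP : ∀ x ∈ N, φ x ∈ P) (hNP' : ∀ x ∈ N', φ x ∈ P')
    (hsurj : ∀ y ∈ P, ∃ x ∈ N, y - φ x ∈ P') : Function.Surjective (relMap φ hNP hNP') := by
  intro z
  obtain ⟨y, rfl⟩ := Submodule.Quotient.mk_surjective _ z
  obtain ⟨x, hx, hxy⟩ := hsurj y y.2
  refine ⟨Submodule.Quotient.mk ⟨x, hx⟩, ?_⟩
  rw [relMap_mk, eq_comm, Submodule.Quotient.eq]
  exact hxy

/-- Transport of relative length along a linear map inducing a bijection `N / N' → P / P'`. -/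
theorem relLen_eq_of_map (φ : M →ₗ[R] M') {N' N : Submodule R M} {P' P : Submodule R M'}
    (hNP : ∀ x ∈ N, φ x ∈ P) (hNP' : ∀ x ∈ N', φ x ∈ P')
    (hinj : ∀ x ∈ N, φ x ∈ P' → x ∈ N')
    (hsurj : ∀ y ∈ P, ∃ x ∈ N, y - φ x ∈ P') : relLen N' N = relLen P' P :=
  (LinearEquiv.ofBijective (relMap φ hNP hNP')
    ⟨relMap_injective φ hNP hNP' hinj, relMap_surjective φ hNP hNP' hsurj⟩).length_eq

/-- Chain rule for relative lengths. -/
theorem relLen_add {A B C : Submodule R M} (hAB : A ≤ B) (hBC : B ≤ C) :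
    relLen A C = relLen A B + relLen B C := by
  have h1 : ∀ x ∈ B, (LinearMap.id : M →ₗ[R] M) x ∈ C := fun x hx => hBC hx
  have h2 : ∀ x ∈ A, (LinearMap.id : M →ₗ[R] M) x ∈ A := fun x hx => hx
  have h3 : ∀ x ∈ C, (LinearMap.id : M →ₗ[R] M) x ∈ C := fun x hx => hx
  have h4 : ∀ x ∈ A, (LinearMap.id : M →ₗ[R] M) x ∈ B := fun x hx => hAB hx
  let f := relMap (LinearMap.id : M →ₗ[R] M) (N' := A) (N := B) (P' := A) (P := C) h1 h2
  let g := relMap (LinearMap.id : M →ₗ[R] M) (N' := A) (N := C) (P' := B) (P := C) h3 h4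
  have hf : Function.Injective f := relMap_injective _ h1 h2 (fun x _ hx => hx)
  have hg : Function.Surjective g :=
    relMap_surjective _ h3 h4 (fun y hy => ⟨y, hy, by simp⟩)
  have hfg : Function.Exact f g := by
    intro z
    constructor
    · intro hz
      obtain ⟨y, rfl⟩ := Submodule.Quotient.mk_surjective _ z
      have hy : (y : M) ∈ B := by
        have := hz
        simp only [g] at this
        rw [relMap_mk, Submodule.Quotient.mk_eq_zero] at this
        exact this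
      refine ⟨Submodule.Quotient.mk ⟨y, hy⟩, ?_⟩
      simp only [f]
      rw [relMap_mk]
      rfl
    · rintro ⟨w, rfl⟩
      obtain ⟨x, rfl⟩ := Submodule.Quotient.mk_surjective _ w
      simp only [f, g]
      rw [relMap_mk, relMap_mk, Submodule.Quotient.mk_eq_zero]
      exact x.2
  exact Module.length_eq_add_of_exact f g hf hg hfg

/-- A surjection `N / N' → P / P'` induced by a linear map bounds the relative length. -/
theorem relLen_le_of_map (φ : M →ₗ[R] M') {N' N : Submodule R M} {P' P : Submodule R M'}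
    (hNP : ∀ x ∈ N, φ x ∈ P) (hNP' : ∀ x ∈ N', φ x ∈ P')
    (hsurj : ∀ y ∈ P, ∃ x ∈ N, y - φ x ∈ P') : relLen P' P ≤ relLen N' N :=
  Module.length_le_of_surjective (relMap φ hNP hNP') (relMap_surjective φ hNP hNP' hsurj)

theorem relLen_self (A : Submodule R M) : relLen A A = 0 := by
  rw [relLen, Module.length_eq_zero_iff]
  refine ⟨fun x y => ?_⟩
  obtain ⟨a, rfl⟩ := Submodule.Quotient.mk_surjective _ x
  obtain ⟨b, rfl⟩ := Submodule.Quotient.mk_surjective _ y
  rw [Submodule.Quotient.eq]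
  exact A.sub_mem a.2 b.2

theorem relLen_mono_right {A B C : Submodule R M} (hAB : A ≤ B) (hBC : B ≤ C) :
    relLen A B ≤ relLen A C := by
  rw [relLen_add hAB hBC]
  exact le_self_add

theorem relLen_mono_left {A B C : Submodule R M} (hAB : A ≤ B) (hBC : B ≤ C) :
    relLen B C ≤ relLen A C := by
  rw [relLen_add hAB hBC]
  exact le_add_self

/-- `ℓ(M / N)` as a relative length. -/
theorem relLen_top (N : Submodule R M) : relLen N ⊤ = Module.length R (M ⧸ N) := by
  have h1 : ∀ x ∈ (⊤ : Submodule R M), (LinearMap.id : M →ₗ[R] M) x ∈ (⊤ : Submodule R M) :=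
    fun _ _ => trivial
  -- build the equivalence `⊤ / N ≃ M / N`
  let φ : (↥(⊤ : Submodule R M) ⧸ N.submoduleOf ⊤) →ₗ[R] (M ⧸ N) :=
    Submodule.mapQ (N.submoduleOf ⊤) N (⊤ : Submodule R M).subtype (by
      intro x hx
      exact hx)
  have hφ : Function.Bijective φ := by
    constructor
    · rw [← LinearMap.ker_eq_bot, eq_bot_iff]
      intro y hy
      obtain ⟨x, rfl⟩ := Submodule.Quotient.mk_surjective _ y
      rw [LinearMap.mem_ker] at hy
      have : (Submodule.Quotient.mk (x : M) : M ⧸ N) = 0 := hy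
      rw [Submodule.Quotient.mk_eq_zero] at this
      rw [Submodule.mem_bot, Submodule.Quotient.mk_eq_zero]
      exact this
    · intro z
      obtain ⟨y, rfl⟩ := Submodule.Quotient.mk_surjective _ z
      exact ⟨Submodule.Quotient.mk ⟨y, trivial⟩, rfl⟩
  exact (LinearEquiv.ofBijective φ hφ).length_eq

end Fermat.Agent.A2.H609

end
-- ===== PACK-END A2/H609/RelLen.lean

-- ===== PACK-BEGIN A2/H12/Deck.lean
section


/-!
# Cell A2 — the abstract deck-transformation lemma (helper12)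

Pure combinatorics / group theory / field theory, Mathlib-only.  This is the "10-line graph argument"
of the A2 route (origin/helper12:coord/A2-helper12.md §2, origin/helper973:coord/A2-K3-graph-helper973.md §2):

* `fixes_all`   : a colour-preserving automorphism of a connected incidence structure
                  ("sheets" and "points") which fixes one sheet, fixes every point of a fixed sheet,
                  and such that a point carries at most one sheet of each colour, fixes every sheet.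
* `commute_of_fixes_all` : if moreover a group `G` acts freely on the sheets and `τ` normalises `G`,
                  then `τ` commutes with `G`.
* `kummer_of_commute` : Kummer consequence: `y ^ m ∈ F`, `τ` commutes with `G = Aut(L/F)`-action on `y`
                  and fixes the `m`-th roots of unity  ⟹  `τ y / y` is `G`-invariant.
-/

set_option autoImplicit false

namespace Fermat.Agent.A2.H12

section Graph

variable {S P : Type*}

/-- Two sheets are adjacent if they pass through a common point. -/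
def Adj (inc : S → P → Prop) (s t : S) : Prop := ∃ p, inc s p ∧ inc t p

/-- **Graph lemma.**  `τS`, `τP` : the action of one automorphism on sheets and points. -/
theorem fixes_all {C : Type*} (inc : S → P → Prop) (col : S → C) (τS : S → S) (τP : P → P)
    (h_col : ∀ s, col (τS s) = col s)
    (h_inc : ∀ s p, inc s p → inc (τS s) (τP p))
    (h_fix : ∀ s p, τS s = s → inc s p → τP p = p)
    (h_uni : ∀ s t p, inc s p → inc t p → col s = col t → s = t)
    (h_conn : ∀ s t : S, Relation.ReflTransGen (Adj inc) s t)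
    (s₀ : S) (h₀ : τS s₀ = s₀) : ∀ s, τS s = s := by
  intro s
  have key : ∀ a b, Relation.ReflTransGen (Adj inc) a b → τS a = a → τS b = b := by
    intro a b hab
    induction hab with
    | refl => exact id
    | tail _ hbc ih =>
      intro ha
      have hb := ih ha
      obtain ⟨p, hbp, hcp⟩ := hbc
      have hp : τP p = p := h_fix _ p hb hbp
      have h1 := h_inc _ p hcp
      rw [hp] at h1
      exact h_uni _ _ p h1 hcp (h_col _)
  exact key s₀ s (h_conn s₀ s) h₀

end Graph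

section Group

variable {S : Type*} {G : Type*} [Group G] [MulAction G S]

/-- **Group part.**  `conj g` is the element `τ g τ⁻¹` of `G`; freeness of the action on sheets. -/
theorem commute_of_fixes_all (τS : S → S) (conj : G → G)
    (h_conj : ∀ (g : G) (s : S), τS (g • s) = conj g • τS s)
    (h_free : ∀ (g : G) (s : S), g • s = s → g = 1)
    (h_all : ∀ s, τS s = s) (s₀ : S) : ∀ g, conj g = g := by
  intro g
  have h := h_conj g s₀
  rw [h_all, h_all] at h
  -- `g • s₀ = conj g • s₀`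
  have h2 : (g⁻¹ * conj g) • s₀ = s₀ := by
    rw [mul_smul, ← h, inv_smul_smul]
  have h3 := h_free _ _ h2
  calc conj g = g * (g⁻¹ * conj g) := by group
    _ = g := by rw [h3, mul_one]

end Group

section Kummer

variable {L : Type*} [Field L]

/-- **Kummer part.**  If `τ` commutes with every `g ∈ G` on `y` (`τ (g y) = g (τ y)`), every `g ∈ G`
multiplies `y` by a root of unity `ζ` with `τ ζ = ζ`, then `τ y / y` is fixed by `G`. -/
theorem kummer_of_commute (G : Set (L ≃+* L)) (τ : L ≃+* L) (y : L) (hy : y ≠ 0)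
    (h_comm : ∀ g ∈ G, τ (g y) = g (τ y))
    (h_char : ∀ g ∈ G, ∃ ζ : L, g y = ζ * y ∧ τ ζ = ζ) :
    ∀ g ∈ G, g (τ y / y) = τ y / y := by
  intro g hg
  obtain ⟨ζ, hζ, hτζ⟩ := h_char g hg
  have h1 : g (τ y) = ζ * τ y := by
    rw [← h_comm g hg, hζ, map_mul, hτζ]
  have hζ0 : ζ ≠ 0 := by
    rintro rfl
    rw [zero_mul] at hζ
    exact hy ((map_eq_zero_iff g g.injective).1 hζ)
  rw [map_div₀, h1, hζ]
  field_simp

end Kummer

end Fermat.Agent.A2.H12

end
-- ===== PACK-END A2/H12/Deck.lean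

-- ===== PACK-BEGIN A2/H652/CoverRed.lean
section







/-!
# Cell A2, route G — obligation C3 COVER-RED (helper652), Mathlib only

Setting: `L / F` a finite normal extension (the Kummer cover of the function field `F` of the
model), `C → F` the base chart (integrally closed in `F`), `w ∈ C` the uniformiser of the base,
`Sh` the set of *sheets*: valuation subrings of `L` (the valuation rings of the generic points of
the components of the special fibre of the cover), stable under `Gal(L/F)`.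

Inputs:
* `he`    : every sheet is unramified over the base, `𝔪_W = w W` (obligation C2, `e = 1`);
* `hbase` : the special fibre of the base chart is reduced and its components are (images of)
            sheets: `a ∈ C`, `a ∈ 𝔪_W` for all sheets `W` `⇒` `a ∈ w C`.

Output (`coverRed`): the special fibre of the cover chart (= integral closure of `C` in `L`) is
reduced with the sheets as components:
`b` integral over `C`, `b ∈ 𝔪_W` for all sheets `W` `⇒` `b = w t` with `t` integral over `C`.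
This is `hred_mid / hred_fin / hred_inf` of `A2.H12.wallG` (`coverRed_subalgebra`).

Proof: the conjugates of `t = b / w` lie in every sheet (by `he`), so the coefficients of the
minimal polynomial of `t` over `F` lie in `W ∩ F` for every sheet and become integral over `C`
after multiplication by a power of `w`; `hbase` peels off the powers of `w`.
-/

set_option autoImplicit false

namespace Fermat.Agent.A2.H652

open Polynomial

section General

variable {C F L : Type*} [CommRing C] [Field F] [Field L] [Algebra C F] [Algebra F L]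
  [Algebra C L] [IsScalarTower C F L]

/-- If the coefficients of the minimal polynomial of `t` over `F` come from `C`, then `t` is
integral over `C`. -/
theorem isIntegral_of_minpoly_coeff_mem {t : L} (ht : IsIntegral F t)
    (h : ∀ k, (minpoly F t).coeff k ∈ (algebraMap C F).range) : IsIntegral C t := by
  have hl : minpoly F t ∈ lifts (algebraMap C F) := by
    rw [lifts_iff_coeff_lifts]
    intro k
    exact h k
  obtain ⟨q, hq, -, hqm⟩ := lifts_and_natDegree_eq_and_monic hl (minpoly.monic ht)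
  refine ⟨q, hqm, ?_⟩
  have h1 : eval₂ (algebraMap C L) t q = eval₂ (algebraMap F L) t (q.map (algebraMap C F)) := by
    rw [eval₂_map, IsScalarTower.algebraMap_eq C F L]
  rw [h1, hq]
  exact minpoly.aeval F t

/-- **Integrality from the conjugates.**  `L / F` normal, `A` a subring of `L` containing all
conjugates of `t`, with `A ∩ F ⊆ C`: then `t` is integral over `C`. -/
theorem isIntegral_of_conj_mem_subring [Normal F L] (A : Subring L)
    (hA : ∀ c : F, algebraMap F L c ∈ A → c ∈ (algebraMap C F).range)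
    (t : L) (ht : ∀ σ : L ≃ₐ[F] L, σ t ∈ A) : IsIntegral C t := by
  have hint : IsIntegral F t := Normal.isIntegral inferInstance t
  have hsplit : ((minpoly F t).map (algebraMap F L)).Splits := Normal.splits inferInstance t
  have hmonic : ((minpoly F t).map (algebraMap F L)).Monic := (minpoly.monic hint).map _
  have hroots : ∀ β ∈ ((minpoly F t).map (algebraMap F L)).roots, β ∈ A := by
    intro β hβ
    have h0 : aeval β (minpoly F t) = 0 := by
      have := (mem_roots'.1 hβ).2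
      rwa [IsRoot.def, eval_map_algebraMap] at this
    obtain ⟨σ, hσ⟩ := isConjRoot_iff_exists_algEquiv.1 (isConjRoot_of_aeval_eq_zero hint h0)
    have h1 : β = σ.symm t := by rw [← hσ]; simp
    rw [h1]
    exact ht σ.symm
  refine isIntegral_of_minpoly_coeff_mem hint (fun k => hA _ ?_)
  have hc : algebraMap F L ((minpoly F t).coeff k) =
      ((minpoly F t).map (algebraMap F L)).coeff k := by rw [coeff_map]
  rw [hc]
  by_cases hk : k ≤ ((minpoly F t).map (algebraMap F L)).natDegree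
  · rw [coeff_eq_esymm_roots_of_splits hsplit hk, hmonic.leadingCoeff, one_mul]
    refine A.mul_mem (A.pow_mem (A.neg_mem A.one_mem) _) ?_
    rw [Multiset.esymm]
    refine A.multiset_sum_mem _ (fun x hx => ?_)
    obtain ⟨s, hs, rfl⟩ := Multiset.mem_map.1 hx
    refine A.multiset_prod_mem _ (fun y hy => hroots y ?_)
    exact Multiset.mem_of_le (Multiset.mem_powersetCard.1 hs).1 hy
  · rw [coeff_eq_zero_of_natDegree_lt (not_le.1 hk)]
    exact A.zero_mem

end General

section Val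

variable {L : Type*} [Field L]

/-- `𝔪_W` absorbs `W`. -/
theorem mul_mem_nonunits_right (W : ValuationSubring L) {x y : L} (hx : x ∈ W.nonunits)
    (hy : y ∈ W) : x * y ∈ W.nonunits := by
  obtain ⟨hxW, hxm⟩ := W.mem_nonunits_iff_exists_mem_maximalIdeal.1 hx
  refine W.mem_nonunits_iff_exists_mem_maximalIdeal.2 ⟨mul_mem hxW hy, ?_⟩
  exact Ideal.mul_mem_right (⟨y, hy⟩ : W) _ hxm

/-- `𝔪_W` absorbs `W`. -/
theorem mul_mem_nonunits_left (W : ValuationSubring L) {x y : L} (hx : x ∈ W)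
    (hy : y ∈ W.nonunits) : x * y ∈ W.nonunits := by
  rw [mul_comm]
  exact mul_mem_nonunits_right W hy hx

theorem mem_of_mem_nonunits (W : ValuationSubring L) {x : L} (hx : x ∈ W.nonunits) : x ∈ W :=
  (W.mem_nonunits_iff_exists_mem_maximalIdeal.1 hx).1

/-- The maximal ideal of the pull-back of a valuation ring by a field automorphism. -/
theorem mem_nonunits_comap_iff (W : ValuationSubring L) (σ : L ≃+* L) (x : L) :
    x ∈ (W.comap (σ : L →+* L)).nonunits ↔ σ x ∈ W.nonunits := by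
  rw [ValuationSubring.mem_nonunits_iff_or, ValuationSubring.mem_nonunits_iff_or,
    ValuationSubring.mem_comap]
  simp

end Val

section Cover

variable {C F L : Type*} [CommRing C] [Field F] [Field L] [Algebra C F] [Algebra F L]
  [Algebra C L] [IsScalarTower C F L]

/-- The auxiliary subring of `L`: elements lying in every sheet which become integral over the
chart after multiplication by a power of `w`. -/
def redSubring (C : Type*) [CommRing C] [Algebra C L] (w : C) (Sh : Set (ValuationSubring L)) :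
    Subring L where
  carrier := {x | (∀ W ∈ Sh, x ∈ W) ∧ ∃ k : ℕ, IsIntegral C (algebraMap C L w ^ k * x)}
  mul_mem' := by
    rintro x y ⟨hx, j, hxj⟩ ⟨hy, k, hyk⟩
    refine ⟨fun W hW => mul_mem (hx W hW) (hy W hW), j + k, ?_⟩
    have : algebraMap C L w ^ (j + k) * (x * y) =
        (algebraMap C L w ^ j * x) * (algebraMap C L w ^ k * y) := by ring
    rw [this]
    exact hxj.mul hyk
  one_mem' := ⟨fun W _ => one_mem W, 0, by simpa using isIntegral_one⟩
  add_mem' := by
    rintro x y ⟨hx, j, hxj⟩ ⟨hy, k, hyk⟩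
    refine ⟨fun W hW => add_mem (hx W hW) (hy W hW), j + k, ?_⟩
    have : algebraMap C L w ^ (j + k) * (x + y) =
        algebraMap C L w ^ k * (algebraMap C L w ^ j * x) +
          algebraMap C L w ^ j * (algebraMap C L w ^ k * y) := by ring
    rw [this]
    exact ((isIntegral_algebraMap.pow k).mul hxj).add ((isIntegral_algebraMap.pow j).mul hyk)
  zero_mem' := ⟨fun W _ => zero_mem W, 0, by simpa using isIntegral_zero⟩
  neg_mem' := by
    rintro x ⟨hx, j, hxj⟩
    refine ⟨fun W hW => neg_mem (hx W hW), j, ?_⟩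
    rw [mul_neg]
    exact hxj.neg

theorem mem_redSubring (w : C) (Sh : Set (ValuationSubring L)) (x : L) :
    x ∈ redSubring C w Sh ↔
      (∀ W ∈ Sh, x ∈ W) ∧ ∃ k : ℕ, IsIntegral C (algebraMap C L w ^ k * x) := Iff.rfl

/-- **Peeling.**  `c ∈ F` lies in every sheet, `w ^ k * c` lies in the chart `C`, the special
fibre of `C` is reduced with components among the sheets: then `c ∈ C`. -/
theorem mem_range_of_pow_mul_mem (w : C) (hw0 : algebraMap C F w ≠ 0)
    (Sh : Set (ValuationSubring L))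
    (hwM : ∀ W ∈ Sh, algebraMap C L w ∈ W.nonunits)
    (hbase : ∀ a : C, (∀ W ∈ Sh, algebraMap C L a ∈ W.nonunits) → ∃ t : C, a = w * t)
    (k : ℕ) (c : F) (hcW : ∀ W ∈ Sh, algebraMap F L c ∈ W)
    (hc : algebraMap C F w ^ k * c ∈ (algebraMap C F).range) : c ∈ (algebraMap C F).range := by
  induction k with
  | zero => simpa using hc
  | succ k ih =>
    obtain ⟨a, ha⟩ := hc
    have haM : ∀ W ∈ Sh, algebraMap C L a ∈ W.nonunits := by
      intro W hW
      have h1 : algebraMap C L a =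
          algebraMap C L w * (algebraMap C L w ^ k * algebraMap F L c) := by
        rw [IsScalarTower.algebraMap_apply C F L a, ha, IsScalarTower.algebraMap_apply C F L w]
        simp only [map_mul, map_pow]
        ring
      rw [h1]
      exact mul_mem_nonunits_right W (hwM W hW)
        (mul_mem (pow_mem (mem_of_mem_nonunits W (hwM W hW)) k) (hcW W hW))
    obtain ⟨t, rfl⟩ := hbase a haM
    apply ih
    refine ⟨t, ?_⟩
    apply mul_left_cancel₀ hw0
    rw [← map_mul, ha]
    ring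

/-- **C3 COVER-RED.**  See the header of this file. -/
theorem coverRed [Normal F L]
    (hC : ∀ x : F, IsIntegral C x → x ∈ (algebraMap C F).range)
    (w : C) (hw0 : algebraMap C F w ≠ 0)
    (Sh : Set (ValuationSubring L))
    (hΓ : ∀ σ : L ≃ₐ[F] L, ∀ W ∈ Sh, ∃ W' ∈ Sh, ∀ x ∈ W'.nonunits, σ x ∈ W.nonunits)
    (hwM : ∀ W ∈ Sh, algebraMap C L w ∈ W.nonunits)
    (he : ∀ W ∈ Sh, ∀ x ∈ W.nonunits, ∃ t ∈ W, x = algebraMap C L w * t)
    (hbase : ∀ a : C, (∀ W ∈ Sh, algebraMap C L a ∈ W.nonunits) → ∃ t : C, a = w * t)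
    (b : L) (hb : IsIntegral C b) (hbM : ∀ W ∈ Sh, b ∈ W.nonunits) :
    ∃ t : L, IsIntegral C t ∧ b = algebraMap C L w * t := by
  have hwL : algebraMap C L w ≠ 0 := by
    rw [IsScalarTower.algebraMap_apply C F L]
    exact (_root_.map_ne_zero _).2 hw0
  have hσw : ∀ σ : L ≃ₐ[F] L, σ (algebraMap C L w) = algebraMap C L w := by
    intro σ
    rw [IsScalarTower.algebraMap_apply C F L]
    exact σ.commutes _
  refine ⟨b / algebraMap C L w, ?_, by field_simp⟩
  refine isIntegral_of_conj_mem_subring (F := F) (redSubring C w Sh) ?_ _ ?_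
  · -- `A ∩ F ⊆ C`
    rintro c ⟨hcW, k, hck⟩
    refine mem_range_of_pow_mul_mem w hw0 Sh hwM hbase k c hcW (hC _ ?_)
    have h1 : algebraMap C L w ^ k * algebraMap F L c =
        algebraMap F L (algebraMap C F w ^ k * c) := by
      rw [IsScalarTower.algebraMap_apply C F L w]
      simp only [map_mul, map_pow]
    rw [h1] at hck
    exact (isIntegral_algebraMap_iff (algebraMap F L).injective).1 hck
  · -- the conjugates of `b / w`
    intro σ
    have hσb : σ (b / algebraMap C L w) = σ b / algebraMap C L w := by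
      rw [map_div₀, hσw]
    rw [hσb]
    refine ⟨fun W hW => ?_, 1, ?_⟩
    · have h1 : σ b ∈ W.nonunits := by
        obtain ⟨W', hW', h⟩ := hΓ σ W hW
        exact h b (hbM W' hW')
      obtain ⟨t, ht, htb⟩ := he W hW _ h1
      rw [htb, mul_div_cancel_left₀ _ hwL]
      exact ht
    · rw [pow_one, mul_div_cancel₀ _ hwL]
      exact hb.map σ

/-- `coverRed` for a `Gal(L/F)`-stable set of sheets (stability in `comap` form). -/
theorem coverRed_comap [Normal F L]
    (hC : ∀ x : F, IsIntegral C x → x ∈ (algebraMap C F).range)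
    (w : C) (hw0 : algebraMap C F w ≠ 0)
    (Sh : Set (ValuationSubring L))
    (hΓ : ∀ σ : L ≃ₐ[F] L, ∀ W ∈ Sh, W.comap ((σ : L ≃+* L) : L →+* L) ∈ Sh)
    (hwM : ∀ W ∈ Sh, algebraMap C L w ∈ W.nonunits)
    (he : ∀ W ∈ Sh, ∀ x ∈ W.nonunits, ∃ t ∈ W, x = algebraMap C L w * t)
    (hbase : ∀ a : C, (∀ W ∈ Sh, algebraMap C L a ∈ W.nonunits) → ∃ t : C, a = w * t)
    (b : L) (hb : IsIntegral C b) (hbM : ∀ W ∈ Sh, b ∈ W.nonunits) :
    ∃ t : L, IsIntegral C t ∧ b = algebraMap C L w * t :=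
  coverRed hC w hw0 Sh
    (fun σ W hW => ⟨_, hΓ σ W hW, fun x hx => (mem_nonunits_comap_iff W (σ : L ≃+* L) x).1 hx⟩)
    hwM he hbase b hb hbM

/-- **C3 in the shape of `hred_mid / hred_fin / hred_inf` of `A2.H12.wallG`.**
`R` the base ring, `C` the base chart (an `R`-algebra inside `F`, integrally closed in `F`),
`B` the cover chart (`= ` integral closure of `C` in `L`, as an `R`-subalgebra of `L`),
sheets `s ↦ Ws s` with `M s = 𝔪_{Ws s}`. -/
theorem coverRed_chart {R S : Type*} [CommRing R] [Algebra R C] [Algebra R L]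
    [IsScalarTower R C L] [Normal F L]
    (hC : ∀ x : F, IsIntegral C x → x ∈ (algebraMap C F).range)
    (w : R) (hw0 : algebraMap C F (algebraMap R C w) ≠ 0)
    (Ws : S → ValuationSubring L) (M : S → AddSubgroup L)
    (hM : ∀ s x, x ∈ M s ↔ x ∈ (Ws s).nonunits)
    (hΓ : ∀ σ : L ≃ₐ[F] L, ∀ s, ∃ s', ∀ x ∈ M s', σ x ∈ M s)
    (hwM : ∀ s, algebraMap R L w ∈ M s)
    (he : ∀ s, ∀ x ∈ M s, ∃ t ∈ Ws s, x = algebraMap R L w * t)
    (hbase : ∀ a : C, (∀ s, algebraMap C L a ∈ M s) → ∃ t : C, a = algebraMap R C w * t)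
    (B : Subalgebra R L) (hB : ∀ x, x ∈ B ↔ IsIntegral C x) :
    ∀ b ∈ B, (∀ s, b ∈ M s) → ∃ t ∈ B, b = algebraMap R L w * t := by
  intro b hb hbM
  have hwRL : algebraMap R L w = algebraMap C L (algebraMap R C w) :=
    IsScalarTower.algebraMap_apply R C L w
  obtain ⟨t, ht, hbt⟩ := coverRed (F := F) hC (algebraMap R C w) hw0 (Set.range Ws)
    (by
      rintro σ _ ⟨s, rfl⟩
      obtain ⟨s', hs'⟩ := hΓ σ s
      exact ⟨Ws s', ⟨s', rfl⟩, fun x hx => (hM s _).1 (hs' x ((hM s' x).2 hx))⟩)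
    (by
      rintro _ ⟨s, rfl⟩
      rw [← hwRL]
      exact (hM s _).1 (hwM s))
    (by
      rintro _ ⟨s, rfl⟩ x hx
      rw [← hwRL]
      exact he s x ((hM s x).2 hx))
    (fun a ha => hbase a (fun s => (hM s _).2 (ha _ ⟨s, rfl⟩)))
    b ((hB b).1 hb) (by
      rintro _ ⟨s, rfl⟩
      exact (hM s b).1 (hbM s))
  exact ⟨t, (hB t).2 ht, by rw [hwRL]; exact hbt⟩

end Cover

end Fermat.Agent.A2.H652

end
-- ===== PACK-END A2/H652/CoverRed.lean

-- ===== PACK-BEGIN A2/H733/CountBase.lean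
section





/-!
# CountLeaf assembly, part 1: a discrete sheet is the localisation of the chart at its centre

`B ⊆ F` a chart with `F = Frac B`, `p₁ p₂` ideals of `B` with `p₁ ⊓ p₂ ≤ (w)`, `e ∈ p₂ \ p₁`.
`V` a valuation subring of `F` containing `B`, with centre `p₁` on `B`, discrete with uniformiser
`w` (every `f ≠ 0` is `w ^ n * unit`).

* `exists_frac_of_mem` : every `c ∈ V` is `a / s` with `a, s ∈ B`, `s ∉ p₁` (so `V = B_{p₁}`);
* `eq_of_centre_eq` : two such valuation subrings with the same centre are equal.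

Mathlib-only.
-/

set_option autoImplicit false

namespace Fermat.Agent.A2.H733

section Base

variable {R : Type*} [CommRing R] {F : Type*} [Field F] [Algebra R F]

theorem not_mem_nonunits_of_inv_mem (V : ValuationSubring F) {u : F} (_hu : u ∈ V)
    (hu' : u⁻¹ ∈ V) (hu0 : u ≠ 0) : u ∉ V.nonunits := by
  intro h
  rw [ValuationSubring.mem_nonunits_iff_exists_mem_maximalIdeal] at h
  obtain ⟨hu1, h2⟩ := h
  have h3 : IsUnit (⟨u, hu1⟩ : V) := by
    refine IsUnit.of_mul_eq_one (⟨u⁻¹, hu'⟩ : V) ?_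
    apply Subtype.ext
    exact mul_inv_cancel₀ hu0
  exact (IsLocalRing.mem_maximalIdeal _).1 h2 h3

theorem inv_mem_of_not_mem_nonunits (V : ValuationSubring F) {u : F} (hu : u ∈ V)
    (h : u ∉ V.nonunits) : u⁻¹ ∈ V := by
  by_contra h1
  apply h
  rw [ValuationSubring.mem_nonunits_iff_exists_mem_maximalIdeal]
  refine ⟨hu, ?_⟩
  rw [IsLocalRing.mem_maximalIdeal, mem_nonunits_iff]
  intro hunit
  obtain ⟨v, hv⟩ := hunit.exists_right_inv
  apply h1
  have h2 : u * (v : F) = 1 := congrArg Subtype.val hv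
  have h3 : u⁻¹ = (v : F) := by
    have hu0 : u ≠ 0 := by
      rintro rfl
      simp at h2
    field_simp
    exact h2.symm
  rw [h3]
  exact v.2

variable (B : Subalgebra R F) (w : R) (p₁ p₂ : Ideal B)

/-- Inductive step: clearing a common factor `w` of numerator and denominator. -/
theorem exists_frac_of_mem_aux (V : ValuationSubring F) (hBV : ∀ b : B, (b : F) ∈ V)
    (hcentre : ∀ b : B, (b : F) ∈ V.nonunits ↔ b ∈ p₁)
    (hinf : p₁ ⊓ p₂ ≤ Ideal.span {algebraMap R B w})
    (e : B) (he₂ : e ∈ p₂) (he₁ : e ∉ p₁)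
    (hw0 : algebraMap R F w ≠ 0) (c : F) (hc : c ∈ V) :
    ∀ (n : ℕ) (a s : B) (u : F), u ∈ V → u⁻¹ ∈ V → u ≠ 0 →
      (s : F) = algebraMap R F w ^ n * u → c * s = a → ∃ a' s' : B, s' ∉ p₁ ∧ c * s' = a' := by
  have he_unit : ((e : B) : F)⁻¹ ∈ V :=
    inv_mem_of_not_mem_nonunits V (hBV e) (fun h => he₁ ((hcentre e).1 h))
  have he0 : ((e : B) : F) ≠ 0 := by
    intro h
    apply he₁
    have : e = 0 := Subtype.ext h
    rw [this]
    exact p₁.zero_mem
  intro n
  induction n with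
  | zero =>
    intro a s u hu hu' hu0 hs hcs
    refine ⟨a, s, ?_, hcs⟩
    intro hsp
    have h1 := (hcentre s).2 hsp
    rw [hs, pow_zero, one_mul] at h1
    exact not_mem_nonunits_of_inv_mem V hu hu' hu0 h1
  | succ n ih =>
    intro a s u hu hu' hu0 hs hcs
    have hwV : algebraMap R F w ∈ V := by
      have := hBV (algebraMap R B w)
      exact this
    have hsV : (s : F) ∈ V.nonunits → s ∈ p₁ := (hcentre s).1
    -- `w ∈ 𝔪_V` is not needed: if `w` is a unit of `V` then `s` is a unit and we are done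
    by_cases hsp : s ∈ p₁
    · have hap : a ∈ p₁ := by
        rw [← hcentre a, ← hcs]
        have h1 := (hcentre s).2 hsp
        rw [ValuationSubring.mem_nonunits_iff_exists_mem_maximalIdeal] at h1 ⊢
        obtain ⟨hs1, hs2⟩ := h1
        refine ⟨mul_mem hc hs1, ?_⟩
        have : (⟨c * s, mul_mem hc hs1⟩ : V) = ⟨c, hc⟩ * ⟨s, hs1⟩ := rfl
        rw [this]
        exact Ideal.mul_mem_left _ _ hs2
      have h1 : e * s ∈ p₁ ⊓ p₂ := ⟨p₁.mul_mem_left _ hsp, p₂.mul_mem_right _ he₂⟩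
      have h2 : e * a ∈ p₁ ⊓ p₂ := ⟨p₁.mul_mem_left _ hap, p₂.mul_mem_right _ he₂⟩
      obtain ⟨s₁, hs₁⟩ := Ideal.mem_span_singleton'.1 (hinf h1)
      obtain ⟨a₁, ha₁⟩ := Ideal.mem_span_singleton'.1 (hinf h2)
      have hs₁F : (s₁ : F) * algebraMap R F w = (e : F) * (s : F) :=
        congrArg (fun b : B => (b : F)) hs₁
      have ha₁F : (a₁ : F) * algebraMap R F w = (e : F) * (a : F) :=
        congrArg (fun b : B => (b : F)) ha₁
      refine ih a₁ s₁ ((e : F) * u) (mul_mem (hBV e) hu) ?_ (mul_ne_zero he0 hu0) ?_ ?_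
      · rw [mul_inv]
        exact mul_mem he_unit hu'
      · have : (s₁ : F) * algebraMap R F w =
            (algebraMap R F w ^ n * ((e : F) * u)) * algebraMap R F w := by
          rw [hs₁F, hs, pow_succ]; ring
        exact mul_right_cancel₀ hw0 this
      · have : (c * (s₁ : F)) * algebraMap R F w = (a₁ : F) * algebraMap R F w := by
          rw [ha₁F, mul_assoc, hs₁F, ← hcs]; ring
        exact mul_right_cancel₀ hw0 this
    · exact ⟨a, s, hsp, hcs⟩

/-- **A discrete sheet is the localisation of the chart at its centre.** -/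
theorem exists_frac_of_mem (hFrac : ∀ f : F, ∃ a s : B, (s : F) ≠ 0 ∧ f * s = a)
    (V : ValuationSubring F) (hBV : ∀ b : B, (b : F) ∈ V)
    (hcentre : ∀ b : B, (b : F) ∈ V.nonunits ↔ b ∈ p₁)
    (hinf : p₁ ⊓ p₂ ≤ Ideal.span {algebraMap R B w})
    (e : B) (he₂ : e ∈ p₂) (he₁ : e ∉ p₁)
    (hw : algebraMap R F w ∈ V.nonunits) (hw0 : algebraMap R F w ≠ 0)
    (hdisc : ∀ f : F, f ≠ 0 → ∃ (n : ℤ) (u : F), u ∈ V ∧ u⁻¹ ∈ V ∧ f = algebraMap R F w ^ n * u)
    (c : F) (hc : c ∈ V) : ∃ a s : B, s ∉ p₁ ∧ c * s = a := by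
  obtain ⟨a, s, hs0, hcs⟩ := hFrac c
  obtain ⟨n, u, hu, hu', hsu⟩ := hdisc s hs0
  have hu0 : u ≠ 0 := by
    rintro rfl
    rw [mul_zero] at hsu
    exact hs0 hsu
  -- the exponent is nonnegative
  obtain ⟨k, rfl | rfl⟩ := Int.eq_nat_or_neg n
  · rw [zpow_natCast] at hsu
    exact exists_frac_of_mem_aux B w p₁ p₂ V hBV hcentre hinf e he₂ he₁ hw0 c hc k a s u hu hu'
      hu0 hsu hcs
  · by_cases hk : k = 0
    · subst hk
      rw [Nat.cast_zero, neg_zero, zpow_zero] at hsu
      exact exists_frac_of_mem_aux B w p₁ p₂ V hBV hcentre hinf e he₂ he₁ hw0 c hc 0 a s u hu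
        hu' hu0 (by rw [pow_zero]; exact hsu) hcs
    · exfalso
      -- `u = s * w ^ k ∈ 𝔪_V`
      have h1 : u = (s : F) * algebraMap R F w ^ k := by
        rw [hsu, zpow_neg, zpow_natCast]
        field_simp
      have h2 : u ∈ V.nonunits := by
        rw [h1]
        obtain ⟨k', rfl⟩ := Nat.exists_eq_succ_of_ne_zero hk
        rw [ValuationSubring.mem_nonunits_iff_exists_mem_maximalIdeal] at hw ⊢
        obtain ⟨hw1, hw2⟩ := hw
        have hmem : (s : F) * algebraMap R F w ^ (k' + 1) ∈ V :=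
          mul_mem (hBV s) (pow_mem hw1 _)
        refine ⟨hmem, ?_⟩
        have : (⟨(s : F) * algebraMap R F w ^ (k' + 1), hmem⟩ : V) =
            (⟨s, hBV s⟩ * ⟨algebraMap R F w, hw1⟩ ^ k') * ⟨algebraMap R F w, hw1⟩ := by
          apply Subtype.ext
          simp [pow_succ, mul_assoc]
        rw [this]
        exact Ideal.mul_mem_left _ _ hw2
      exact not_mem_nonunits_of_inv_mem V hu hu' hu0 h2

/-- **A discrete sheet is determined by its centre.** -/
theorem eq_of_centre_eq (hFrac : ∀ f : F, ∃ a s : B, (s : F) ≠ 0 ∧ f * s = a)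
    (hinf : p₁ ⊓ p₂ ≤ Ideal.span {algebraMap R B w})
    (e : B) (he₂ : e ∈ p₂) (he₁ : e ∉ p₁) (hw0 : algebraMap R F w ≠ 0)
    (V V' : ValuationSubring F) (hBV : ∀ b : B, (b : F) ∈ V) (hBV' : ∀ b : B, (b : F) ∈ V')
    (hcentre : ∀ b : B, (b : F) ∈ V.nonunits ↔ b ∈ p₁)
    (hcentre' : ∀ b : B, (b : F) ∈ V'.nonunits ↔ b ∈ p₁)
    (hw : algebraMap R F w ∈ V.nonunits) (hw' : algebraMap R F w ∈ V'.nonunits)
    (hdisc : ∀ f : F, f ≠ 0 → ∃ (n : ℤ) (u : F), u ∈ V ∧ u⁻¹ ∈ V ∧ f = algebraMap R F w ^ n * u)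
    (hdisc' : ∀ f : F, f ≠ 0 →
      ∃ (n : ℤ) (u : F), u ∈ V' ∧ u⁻¹ ∈ V' ∧ f = algebraMap R F w ^ n * u) :
    V = V' := by
  have key : ∀ (V V' : ValuationSubring F), (∀ b : B, (b : F) ∈ V) → (∀ b : B, (b : F) ∈ V') →
      (∀ b : B, (b : F) ∈ V.nonunits ↔ b ∈ p₁) → (∀ b : B, (b : F) ∈ V'.nonunits ↔ b ∈ p₁) →
      algebraMap R F w ∈ V.nonunits →
      (∀ f : F, f ≠ 0 → ∃ (n : ℤ) (u : F), u ∈ V ∧ u⁻¹ ∈ V ∧ f = algebraMap R F w ^ n * u) →
      ∀ c ∈ V, c ∈ V' := by
    intro V V' hBV hBV' hcentre hcentre' hw hdisc c hc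
    obtain ⟨a, s, hs, hcs⟩ := exists_frac_of_mem B w p₁ p₂ hFrac V hBV hcentre hinf e he₂ he₁ hw
      hw0 hdisc c hc
    have hs' : (s : F)⁻¹ ∈ V' :=
      inv_mem_of_not_mem_nonunits V' (hBV' s) (fun h => hs ((hcentre' s).1 h))
    have hs0 : (s : F) ≠ 0 := by
      intro h
      apply hs
      have : s = 0 := Subtype.ext h
      rw [this]
      exact p₁.zero_mem
    have h1 : c = (a : F) * (s : F)⁻¹ := by
      rw [← hcs]
      field_simp
    rw [h1]
    exact mul_mem (hBV' a) hs'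
  ext c
  exact ⟨key V V' hBV hBV' hcentre hcentre' hw hdisc c,
    key V' V hBV' hBV hcentre' hcentre hw' hdisc' c⟩

end Base

end Fermat.Agent.A2.H733

end
-- ===== PACK-END A2/H733/CountBase.lean

-- ===== PACK-BEGIN Ribet/H573/WACore.lean
section


/-!
# Weak approximation for two Gauss-like valuation rings (helper573) — Mathlib only

`K ⊂ F` fields, `A` a valuation subring of `K` of rank one (`harch`), `V`, `V'` two DIFFERENT
valuation subrings of `F` which are *Gauss-like* over `A`: they induce `A` on the constants and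
every nonzero element of `F` is a constant times a unit.

* `GaussLike A V`          : the hypothesis;
* `exists_sep`             : a separator `t ∈ 𝔪_V`, `t⁻¹ ∈ 𝔪_{V'}`;
* `exists_idem`            : for constants `d₁, d₂ ≠ 0` there is `e` with `1 - e ∈ d₁ V`,
                             `e ∈ d₂ V'`;
* `exists_approx_two`      : for `g₁, g₂ ≠ 0`, `r ≠ 0` constant, there is `a` with
                             `a ∈ g₁ (1 + r V) ∩ g₂ (1 + r V')`;
* `OneModV V r u`          : `u ∈ 1 + r V`; closed under products, inverses, powers when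
                             `r ∈ 𝔪_V`;
* `GaussLike.exists_depth`  : `1 + 𝔪_V = ⋃ (1 + ϖ V)`, `ϖ` running over the nonzero constants of
                             `𝔪_A`;
* **`exists_common_root`** : `f ∈ (Fˣ)^p (1 + r V) ∩ (Fˣ)^p (1 + r V')`, `r ∈ 𝔪_A` a nonzero
                             constant ⟹ `f = g ^ p · u` with ONE `g` and
                             `u ∈ (1 + r V) ∩ (1 + r V')`.
-/

set_option autoImplicit false

namespace Fermat.Agent.Ribet.H573.WA

section OneMod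

variable {F : Type*} [Field F]

/-- `u ∈ 1 + r · V`. -/
def OneModV (V : ValuationSubring F) (r u : F) : Prop :=
  ∃ y ∈ V, u = 1 + r * y

variable {V : ValuationSubring F} {r u u' : F}

theorem OneModV.one (V : ValuationSubring F) (r : F) : OneModV V r 1 :=
  ⟨0, zero_mem _, by rw [mul_zero, add_zero]⟩

theorem OneModV.mul (hr : r ∈ V) (h : OneModV V r u) (h' : OneModV V r u') :
    OneModV V r (u * u') := by
  obtain ⟨y, hy, rfl⟩ := h
  obtain ⟨y', hy', rfl⟩ := h'
  exact ⟨y + y' + r * y * y', add_mem (add_mem hy hy') (mul_mem (mul_mem hr hy) hy'), by ring⟩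

theorem OneModV.pow (hr : r ∈ V) (h : OneModV V r u) (n : ℕ) : OneModV V r (u ^ n) := by
  induction n with
  | zero => rw [pow_zero]; exact OneModV.one V r
  | succ n ih => rw [pow_succ]; exact ih.mul hr h

theorem valuation_lt_one_of_nonunit (hr : r ∈ V.nonunits) : V.valuation r < 1 :=
  V.mem_nonunits_iff.1 hr |> fun h => h

theorem mem_of_nonunit (hr : r ∈ V.nonunits) : r ∈ V :=
  (V.valuation_le_one_iff r).1 (valuation_lt_one_of_nonunit hr).le

/-- elements of `1 + r V`, `r ∈ 𝔪_V`, have valuation one -/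
theorem OneModV.valuation_eq_one (hr : r ∈ V.nonunits) (h : OneModV V r u) :
    V.valuation u = 1 := by
  obtain ⟨y, hy, rfl⟩ := h
  apply (V.valuation).map_one_add_of_lt
  rw [map_mul]
  calc V.valuation r * V.valuation y ≤ V.valuation r * 1 :=
        mul_le_mul' le_rfl ((V.valuation_le_one_iff y).2 hy)
    _ = V.valuation r := mul_one _
    _ < 1 := valuation_lt_one_of_nonunit hr

theorem OneModV.ne_zero (hr : r ∈ V.nonunits) (h : OneModV V r u) : u ≠ 0 := by
  intro h0
  have := h.valuation_eq_one hr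
  rw [h0, map_zero] at this
  exact zero_ne_one this

theorem OneModV.inv (hr : r ∈ V.nonunits) (h : OneModV V r u) : OneModV V r u⁻¹ := by
  have hv := h.valuation_eq_one hr
  have hu0 := h.ne_zero hr
  obtain ⟨y, hy, rfl⟩ := h
  have hinv : (1 + r * y)⁻¹ ∈ V := by
    rw [← V.valuation_le_one_iff, map_inv₀, hv, inv_one]
  refine ⟨-(y * (1 + r * y)⁻¹), neg_mem (mul_mem hy hinv), ?_⟩
  field_simp
  ring

theorem OneModV.div (hr : r ∈ V.nonunits) (h : OneModV V r u) (h' : OneModV V r u') :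
    OneModV V r (u * u'⁻¹) :=
  h.mul (mem_of_nonunit hr) (h'.inv hr)

/-- depth can be lowered -/
theorem OneModV.mono {r' a : F} (ha : a ∈ V) (hr : r = r' * a) (h : OneModV V r u) :
    OneModV V r' u := by
  obtain ⟨y, hy, rfl⟩ := h
  exact ⟨a * y, mul_mem ha hy, by rw [hr]; ring⟩

end OneMod

section Gauss

variable {K F : Type*} [Field K] [Field F] [Algebra K F]

/-- `V` is *Gauss-like* over `A`: it induces `A` on the constants and every nonzero element of
`F` is a constant times a unit of `V`. -/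
def GaussLike (A : ValuationSubring K) (V : ValuationSubring F) : Prop :=
  (∀ c : K, algebraMap K F c ∈ V ↔ c ∈ A) ∧
    ∀ f : F, f ≠ 0 → ∃ c : K, c ≠ 0 ∧ V.valuation (f * (algebraMap K F c)⁻¹) = 1

variable {A : ValuationSubring K} {V V' : ValuationSubring F}

theorem algebraMap_ne_zero {c : K} (hc : c ≠ 0) : algebraMap K F c ≠ 0 := by
  rwa [Ne, map_eq_zero_iff _ (algebraMap K F).injective]

theorem GaussLike.valuation_le_one_iff (h : GaussLike A V) (c : K) :
    V.valuation (algebraMap K F c) ≤ 1 ↔ A.valuation c ≤ 1 := by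
  rw [V.valuation_le_one_iff, A.valuation_le_one_iff]
  exact h.1 c

theorem GaussLike.valuation_lt_one_iff (h : GaussLike A V) (c : K) :
    V.valuation (algebraMap K F c) < 1 ↔ A.valuation c < 1 := by
  by_cases hc : c = 0
  · subst hc
    simp
  have hc' : algebraMap K F c ≠ 0 := algebraMap_ne_zero hc
  have h1 := h.valuation_le_one_iff c⁻¹
  rw [map_inv₀, map_inv₀, map_inv₀,
    inv_le_one₀ (zero_lt_iff.mpr ((Valuation.ne_zero_iff _).mpr hc')),
    inv_le_one₀ (zero_lt_iff.mpr ((Valuation.ne_zero_iff _).mpr hc))] at h1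
  constructor
  · intro hlt
    rcases lt_or_ge (A.valuation c) 1 with h2 | h2
    · exact h2
    · exact absurd (h1.2 h2) (not_le.mpr hlt)
  · intro hlt
    rcases lt_or_ge (V.valuation (algebraMap K F c)) 1 with h2 | h2
    · exact h2
    · exact absurd (h1.1 h2) (not_le.mpr hlt)

/-- every element is a constant with the same valuation times a unit -/
theorem GaussLike.exists_const (h : GaussLike A V) {f : F} (hf : f ≠ 0) :
    ∃ c : K, c ≠ 0 ∧ V.valuation (f * (algebraMap K F c)⁻¹) = 1 ∧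
      V.valuation f = V.valuation (algebraMap K F c) := by
  obtain ⟨c, hc, hu⟩ := h.2 f hf
  refine ⟨c, hc, hu, ?_⟩
  have hc' : V.valuation (algebraMap K F c) ≠ 0 :=
    (Valuation.ne_zero_iff _).mpr (algebraMap_ne_zero hc)
  rw [map_mul, map_inv₀] at hu
  have := congrArg (· * V.valuation (algebraMap K F c)) hu
  simp only [one_mul] at this
  rwa [mul_assoc, inv_mul_cancel₀ hc', mul_one] at this

/-- Two comparable Gauss-like rings over the same `A` are equal. -/
theorem GaussLike.le_of_le (h : GaussLike A V) (h' : GaussLike A V') (hle : V ≤ V') :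
    V' ≤ V := by
  intro x hx
  by_cases hx0 : x = 0
  · rw [hx0]; exact zero_mem _
  obtain ⟨c, hc, hu⟩ := h.2 x hx0
  have hc' : algebraMap K F c ≠ 0 := algebraMap_ne_zero hc
  set u := x * (algebraMap K F c)⁻¹ with hu_def
  have hu0 : u ≠ 0 := by
    intro h0
    rw [h0, map_zero] at hu
    exact zero_ne_one hu
  have huV : u ∈ V := (V.valuation_le_one_iff u).1 hu.le
  have huiV : u⁻¹ ∈ V := by
    rw [← V.valuation_le_one_iff, map_inv₀, hu, inv_one]
  have hcx : algebraMap K F c = x * u⁻¹ := by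
    rw [hu_def]
    field_simp
  have hcV' : algebraMap K F c ∈ V' := by
    rw [hcx]
    exact mul_mem hx (hle huiV)
  have hcA : c ∈ A := (h'.1 c).1 hcV'
  have hcV : algebraMap K F c ∈ V := (h.1 c).2 hcA
  have hxe : x = u * algebraMap K F c := by
    rw [hu_def]
    field_simp
  rw [hxe]
  exact mul_mem huV hcV

/-- **Separator**: `t ∈ 𝔪_V` with `t⁻¹ ∈ 𝔪_{V'}`. -/
theorem exists_sep (h : GaussLike A V) (h' : GaussLike A V') (hne : V ≠ V') :
    ∃ t : F, t ≠ 0 ∧ V.valuation t < 1 ∧ V'.valuation t⁻¹ < 1 := by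
  have h1 : ¬ V ≤ V' := fun hle => hne (le_antisymm hle (h.le_of_le h' hle))
  have h2 : ¬ V' ≤ V := fun hle => hne (le_antisymm (h'.le_of_le h hle) hle)
  obtain ⟨x, hxV, hxV'⟩ := SetLike.not_le_iff_exists.1 h1
  obtain ⟨y, hyV', hyV⟩ := SetLike.not_le_iff_exists.1 h2
  have hx0 : x ≠ 0 := by
    rintro rfl
    exact hxV' (zero_mem _)
  have hy0 : y ≠ 0 := by
    rintro rfl
    exact hyV (zero_mem _)
  have hx1 : V.valuation x ≤ 1 := (V.valuation_le_one_iff x).2 hxV
  have hx2 : 1 < V'.valuation x := by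
    rw [← not_le, V'.valuation_le_one_iff]
    exact hxV'
  have hy1 : V'.valuation y ≤ 1 := (V'.valuation_le_one_iff y).2 hyV'
  have hy2 : 1 < V.valuation y := by
    rw [← not_le, V.valuation_le_one_iff]
    exact hyV
  refine ⟨x * y⁻¹, mul_ne_zero hx0 (inv_ne_zero hy0), ?_, ?_⟩
  · rw [map_mul, map_inv₀]
    have hy3 : (V.valuation y)⁻¹ < 1 := inv_lt_one_of_one_lt₀ hy2
    calc V.valuation x * (V.valuation y)⁻¹ ≤ 1 * (V.valuation y)⁻¹ :=
          mul_le_mul' hx1 le_rfl
      _ = (V.valuation y)⁻¹ := one_mul _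
      _ < 1 := hy3
  · rw [mul_inv, inv_inv, map_mul, map_inv₀]
    have hx3 : (V'.valuation x)⁻¹ < 1 := inv_lt_one_of_one_lt₀ hx2
    calc (V'.valuation x)⁻¹ * V'.valuation y ≤ (V'.valuation x)⁻¹ * 1 :=
          mul_le_mul' le_rfl hy1
      _ = (V'.valuation x)⁻¹ := mul_one _
      _ < 1 := hx3

/-- **Rank one**: high powers of an element of `𝔪_V` are divisible by any constant. -/
theorem GaussLike.exists_pow_div_mem (h : GaussLike A V)
    (harch : ∀ a b : K, a ∈ A.nonunits → b ≠ 0 → ∃ n : ℕ, a ^ n / b ∈ A)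
    {t : F} (ht0 : t ≠ 0) (ht : V.valuation t < 1) {d : K} (hd : d ≠ 0) :
    ∃ n₀ : ℕ, ∀ n : ℕ, n₀ ≤ n → V.valuation (t ^ n * (algebraMap K F d)⁻¹) ≤ 1 := by
  obtain ⟨c, hc, -, hvc⟩ := h.exists_const ht0
  have hcA : A.valuation c < 1 := by
    rw [← h.valuation_lt_one_iff, ← hvc]
    exact ht
  have hcn : c ∈ A.nonunits := A.mem_nonunits_iff.2 hcA
  have hcm : c ∈ A := (A.valuation_le_one_iff c).1 hcA.le
  obtain ⟨n₀, hn₀⟩ := harch c d hcn hd
  refine ⟨n₀, fun n hn => ?_⟩
  have hmem : c ^ n / d ∈ A := by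
    obtain ⟨k, rfl⟩ := Nat.exists_eq_add_of_le hn
    have e : c ^ (n₀ + k) / d = c ^ k * (c ^ n₀ / d) := by
      rw [pow_add]; ring
    rw [e]
    exact mul_mem (pow_mem hcm k) hn₀
  have h2 : V.valuation (algebraMap K F (c ^ n / d)) ≤ 1 :=
    (h.valuation_le_one_iff _).2 ((A.valuation_le_one_iff _).2 hmem)
  have e2 : V.valuation (t ^ n * (algebraMap K F d)⁻¹) =
      V.valuation (algebraMap K F (c ^ n / d)) := by
    rw [map_mul, map_pow, map_inv₀, hvc, map_div₀, map_pow, map_div₀, map_pow, div_eq_mul_inv]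
  rw [e2]
  exact h2


/-- **Depth.**  An element of `1 + 𝔪_V` lies in `1 + ϖ V` for a nonzero constant `ϖ ∈ 𝔪_A`
(`ℓ` is any nonzero constant of `𝔪_A`, used when `x = 1`). -/
theorem GaussLike.exists_depth (h : GaussLike A V) {x : F} (hx : V.valuation (x - 1) < 1)
    {ℓ : K} (hℓ0 : ℓ ≠ 0) (hℓ : ℓ ∈ A.nonunits) :
    ∃ ϖ : K, ϖ ≠ 0 ∧ ϖ ∈ A.nonunits ∧ OneModV V (algebraMap K F ϖ) x := by
  by_cases hx1 : x - 1 = 0
  · refine ⟨ℓ, hℓ0, hℓ, 0, zero_mem _, ?_⟩
    rw [mul_zero, add_zero]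
    exact sub_eq_zero.1 hx1
  obtain ⟨c, hc, hu, hvc⟩ := h.exists_const hx1
  have hcA : A.valuation c < 1 := by
    rw [← h.valuation_lt_one_iff, ← hvc]
    exact hx
  refine ⟨c, hc, A.mem_nonunits_iff.2 hcA, (x - 1) * (algebraMap K F c)⁻¹,
    (V.valuation_le_one_iff _).1 hu.le, ?_⟩
  have hc' : algebraMap K F c ≠ 0 := algebraMap_ne_zero hc
  field_simp
  ring

/-- In a valuation ring two nonzero nonunits have a common nonzero nonunit divisor. -/
theorem exists_common_div (A : ValuationSubring K) {a b : K} (ha0 : a ≠ 0) (hb0 : b ≠ 0)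
    (ha : a ∈ A.nonunits) (hb : b ∈ A.nonunits) :
    ∃ d : K, d ≠ 0 ∧ d ∈ A.nonunits ∧ (∃ x ∈ A, a = d * x) ∧ (∃ y ∈ A, b = d * y) := by
  rcases A.mem_or_inv_mem (a / b) with h | h
  · exact ⟨b, hb0, hb, ⟨a / b, h, by field_simp⟩, ⟨1, one_mem _, by ring⟩⟩
  · refine ⟨a, ha0, ha, ⟨1, one_mem _, by ring⟩, ⟨b / a, ?_, by field_simp⟩⟩
    rwa [inv_div] at h

variable (harch : ∀ a b : K, a ∈ A.nonunits → b ≠ 0 → ∃ n : ℕ, a ^ n / b ∈ A)
include harch

/-- **Approximate idempotent**: `1 - e ∈ d₁ V`, `e ∈ d₂ V'`. -/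
theorem exists_idem (h : GaussLike A V) (h' : GaussLike A V') (hne : V ≠ V')
    {d₁ d₂ : K} (hd₁ : d₁ ≠ 0) (hd₂ : d₂ ≠ 0) :
    ∃ e : F, (1 - e) * (algebraMap K F d₁)⁻¹ ∈ V ∧ e * (algebraMap K F d₂)⁻¹ ∈ V' := by
  obtain ⟨t, ht0, htV, htV'⟩ := exists_sep h h' hne
  obtain ⟨n₁, hn₁⟩ := h.exists_pow_div_mem harch ht0 htV hd₁
  obtain ⟨n₂, hn₂⟩ := h'.exists_pow_div_mem harch (inv_ne_zero ht0) htV' hd₂
  set n := n₁ + n₂ + 1 with hn
  have hn0 : n ≠ 0 := by omega
  set s := t ^ n with hs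
  have hs0 : s ≠ 0 := pow_ne_zero n ht0
  have hsV : V.valuation s < 1 := by
    rw [hs, map_pow]
    exact pow_lt_one₀ zero_le htV hn0
  have hsV' : V'.valuation s⁻¹ < 1 := by
    rw [hs, ← inv_pow, map_pow]
    exact pow_lt_one₀ zero_le htV' hn0
  have h1s : V.valuation (1 + s) = 1 := (V.valuation).map_one_add_of_lt hsV
  have h1s' : V'.valuation (1 + s⁻¹) = 1 := (V'.valuation).map_one_add_of_lt hsV'
  have hne1 : 1 + s ≠ 0 := by
    intro h0
    rw [h0, map_zero] at h1s
    exact zero_ne_one h1s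
  have hne2 : 1 + s⁻¹ ≠ 0 := by
    intro h0
    rw [h0, map_zero] at h1s'
    exact zero_ne_one h1s'
  refine ⟨(1 + s)⁻¹, ?_, ?_⟩
  · have e1 : (1 - (1 + s)⁻¹) * (algebraMap K F d₁)⁻¹ =
        (t ^ n * (algebraMap K F d₁)⁻¹) * (1 + s)⁻¹ := by
      rw [← hs]
      field_simp
      ring
    rw [e1, ← V.valuation_le_one_iff, map_mul, map_inv₀ _ (1 + s), h1s, inv_one, mul_one]
    exact hn₁ n (by omega)
  · have key : (1 + s⁻¹)⁻¹ = s * (1 + s)⁻¹ := by
      have h3 : 1 + s⁻¹ = (1 + s) * s⁻¹ := by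
        rw [add_mul, one_mul, mul_inv_cancel₀ hs0, add_comm]
      rw [h3, mul_inv, inv_inv, mul_comm]
    have e2 : (1 + s)⁻¹ * (algebraMap K F d₂)⁻¹ =
        (t⁻¹ ^ n * (algebraMap K F d₂)⁻¹) * (1 + s⁻¹)⁻¹ := by
      rw [inv_pow, ← hs, key]
      have : s⁻¹ * (algebraMap K F d₂)⁻¹ * (s * (1 + s)⁻¹) =
          (s⁻¹ * s) * ((1 + s)⁻¹ * (algebraMap K F d₂)⁻¹) := by ring
      rw [this, inv_mul_cancel₀ hs0, one_mul]
    rw [e2, ← V'.valuation_le_one_iff, map_mul, map_inv₀ _ (1 + s⁻¹), h1s', inv_one, mul_one]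
    exact hn₂ n (by omega)

/-- **Weak approximation for two elements**: `a ∈ g₁ (1 + r V) ∩ g₂ (1 + r V')`. -/
theorem exists_approx_two (h : GaussLike A V) (h' : GaussLike A V') (hne : V ≠ V')
    {g₁ g₂ : F} (hg₁ : g₁ ≠ 0) (hg₂ : g₂ ≠ 0) {r : K} (hr : r ≠ 0) :
    ∃ a : F, OneModV V (algebraMap K F r) (a * g₁⁻¹) ∧
      OneModV V' (algebraMap K F r) (a * g₂⁻¹) := by
  have hr' : algebraMap K F r ≠ 0 := algebraMap_ne_zero hr
  by_cases hg : g₁ = g₂
  · subst hg
    refine ⟨g₁, ?_, ?_⟩ <;> rw [mul_inv_cancel₀ hg₁] <;> exact OneModV.one _ _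
  have hx₁ : g₂ * g₁⁻¹ - 1 ≠ 0 := by
    intro h0
    apply hg
    have : g₂ * g₁⁻¹ = 1 := sub_eq_zero.1 h0
    field_simp at this
    exact this.symm
  have hx₂ : g₁ * g₂⁻¹ - 1 ≠ 0 := by
    intro h0
    apply hg
    have : g₁ * g₂⁻¹ = 1 := sub_eq_zero.1 h0
    field_simp at this
    exact this
  obtain ⟨c₁, hc₁, hu₁, -⟩ := h.exists_const hx₁
  obtain ⟨c₂, hc₂, hu₂, -⟩ := h'.exists_const hx₂
  have hc₁' : algebraMap K F c₁ ≠ 0 := algebraMap_ne_zero hc₁
  have hc₂' : algebraMap K F c₂ ≠ 0 := algebraMap_ne_zero hc₂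
  obtain ⟨e, he₁, he₂⟩ := exists_idem harch h h' hne (d₁ := r / c₁) (d₂ := r / c₂)
    (div_ne_zero hr hc₁) (div_ne_zero hr hc₂)
  refine ⟨g₁ * e + g₂ * (1 - e), ⟨((1 - e) * (algebraMap K F (r / c₁))⁻¹) *
      ((g₂ * g₁⁻¹ - 1) * (algebraMap K F c₁)⁻¹), mul_mem he₁
        ((V.valuation_le_one_iff _).1 hu₁.le), ?_⟩,
    ⟨(e * (algebraMap K F (r / c₂))⁻¹) * ((g₁ * g₂⁻¹ - 1) * (algebraMap K F c₂)⁻¹),
      mul_mem he₂ ((V'.valuation_le_one_iff _).1 hu₂.le), ?_⟩⟩
  · rw [map_div₀]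
    field_simp
    ring
  · rw [map_div₀]
    field_simp
    ring

/-- **One root for both places.**  If `f ∈ (Fˣ)^p (1 + r V)` and `f ∈ (Fˣ)^p (1 + r V')` for a
nonzero constant `r ∈ 𝔪_A`, then `f = g ^ p · u` with `u ∈ (1 + r V) ∩ (1 + r V')`. -/
theorem exists_common_root (h : GaussLike A V) (h' : GaussLike A V') (hne : V ≠ V')
    (p : ℕ) {r : K} (hr0 : r ≠ 0) (hr : r ∈ A.nonunits) {f g₁ g₂ u₁ u₂ : F}
    (hg₁ : g₁ ≠ 0) (hg₂ : g₂ ≠ 0) (hf₁ : f = g₁ ^ p * u₁) (hf₂ : f = g₂ ^ p * u₂)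
    (hu₁ : OneModV V (algebraMap K F r) u₁) (hu₂ : OneModV V' (algebraMap K F r) u₂) :
    ∃ g u : F, g ≠ 0 ∧ f = g ^ p * u ∧ OneModV V (algebraMap K F r) u ∧
      OneModV V' (algebraMap K F r) u := by
  have hrV : algebraMap K F r ∈ V.nonunits :=
    V.mem_nonunits_iff.2 ((h.valuation_lt_one_iff r).2 (A.mem_nonunits_iff.1 hr))
  have hrV' : algebraMap K F r ∈ V'.nonunits :=
    V'.mem_nonunits_iff.2 ((h'.valuation_lt_one_iff r).2 (A.mem_nonunits_iff.1 hr))
  obtain ⟨a, ha₁, ha₂⟩ := exists_approx_two harch h h' hne hg₁ hg₂ hr0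
  have ha0 : a ≠ 0 := by
    have := ha₁.ne_zero hrV
    exact fun h0 => this (by rw [h0, zero_mul])
  refine ⟨a, f * (a ^ p)⁻¹, ha0, ?_, ?_, ?_⟩
  · field_simp
  · have e : f * (a ^ p)⁻¹ = u₁ * ((a * g₁⁻¹) ^ p)⁻¹ := by
      rw [hf₁, mul_pow, inv_pow, mul_inv, inv_inv]
      ring
    rw [e]
    exact hu₁.div hrV (ha₁.pow (mem_of_nonunit hrV) p)
  · have e : f * (a ^ p)⁻¹ = u₂ * ((a * g₂⁻¹) ^ p)⁻¹ := by
      rw [hf₂, mul_pow, inv_pow, mul_inv, inv_inv]
      ring
    rw [e]
    exact hu₂.div hrV' (ha₂.pow (mem_of_nonunit hrV') p)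

end Gauss

end Fermat.Agent.Ribet.H573.WA

end
-- ===== PACK-END Ribet/H573/WACore.lean

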