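import Mathlib.GroupTheory.Index
import Mathlib.SetTheory.Cardinal.NatCard
import Mathlib.SetTheory.Cardinal.Finite
import Mathlib
import Mathlib.RingTheory.IntegralClosure.IsIntegralClosure.Basic
import Mathlib.RingTheory.Polynomial.ScaleRoots
import Mathlib.Algebra.Polynomial.Lifts
import Mathlib.RingTheory.Adjoin.Basic
import Mathlib.Tactic.LinearCombination
import Mathlib.RingTheory.Length
import Mathlib.RingTheory.Ideal.Operations
import Fermat.Prelude.Def_FLTPrelim_Ramification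
import Mathlib.FieldTheory.Galois.Infinite
import Mathlib.FieldTheory.KrullTopology
import Mathlib.RingTheory.Valuation.RamificationGroup
import Fermat.Prelude.Def_ModularCurve_LaurentCoeff
import Fermat.Agent.Pack.S44C.G0E0L0
import Fermat.Agent.Pack.S44C.G0E0L3
import Fermat.Agent.Pack.S44C.G0E4L1
import Fermat.Agent.Pack.Fast891

-- ===== PACK-BEGIN A2/H129/GaussTwiceB.lean
section


/-!
# A2 / K2 (abstract part), constant-free form

For ONE valuation subring `V` of `F` (value group = value group of the constants, `τ` acts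
trivially on the residue field and preserves the values of the constants):

* `oneAddNonunits_twice` : for EVERY `f ≠ 0`, `(τ - 1)² f ∈ 1 + 𝔪_V` (no constant needed).
* `oneAddNonunits_twice'` : the same for two (possibly different) automorphisms `τ`, `τ'`:
  `(τ' - 1)(τ - 1) f ∈ 1 + 𝔪_V`.

So the Kummer generator of `(τ' - 1)(τ - 1) x` is `≡ 1` along EVERY component of the special
fibre, whatever the number of components.
-/

set_option autoImplicit false

namespace Fermat.Agent.A2.H129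

variable {F : Type*} [Field F] {Kc : Subfield F} {V : ValuationSubring F}

/-- `(τ' - 1)(τ - 1) f ∈ 1 + 𝔪_V` for every `f ≠ 0`. -/
theorem oneAddNonunits_twice' {τ τ' : F ≃+* F}
    (hV : HasConstValues Kc V) (hτ : InInertia V τ) (hP : PreservesConstValues Kc V τ)
    (hτ' : InInertia V τ') {f : F} (hf : f ≠ 0) :
    OneAddNonunits V (tauSubOne τ' (tauSubOne τ f)) := by
  obtain ⟨c, hc, hc0, hu⟩ := hV f hf
  -- `f = c * u`, `u = f / c` a unit
  have e : tauSubOne τ' (tauSubOne τ f)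
      = tauSubOne τ' (tauSubOne τ (f * c⁻¹)) * tauSubOne τ' (tauSubOne τ c) := by
    rw [← tauSubOne_mul, ← tauSubOne_mul]
    congr 2
    field_simp
  rw [e]
  refine OneAddNonunits.mul ?_ ?_
  · exact oneAddNonunits_tauSubOne hτ' (oneAddNonunits_tauSubOne hτ hu).isUnitOf
  · exact oneAddNonunits_tauSubOne hτ' (hP c hc hc0)

/-- `(τ - 1)² f ∈ 1 + 𝔪_V` for every `f ≠ 0`. -/
theorem oneAddNonunits_twice {τ : F ≃+* F}
    (hV : HasConstValues Kc V) (hτ : InInertia V τ) (hP : PreservesConstValues Kc V τ)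
    {f : F} (hf : f ≠ 0) :
    OneAddNonunits V (tauSubOne τ (tauSubOne τ f)) :=
  oneAddNonunits_twice' hV hτ hP hτ hf

/-- `(τ - 1) f` is a unit of `V` for every `f ≠ 0`. -/
theorem isUnitOf_once {τ : F ≃+* F}
    (hV : HasConstValues Kc V) (hτ : InInertia V τ) (hP : PreservesConstValues Kc V τ)
    {f : F} (hf : f ≠ 0) :
    IsUnitOf V (tauSubOne τ f) := by
  obtain ⟨c, hc, hc0, hu⟩ := hV f hf
  have e : tauSubOne τ f = tauSubOne τ (f * c⁻¹) * tauSubOne τ c := by
    rw [← tauSubOne_mul]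
    congr 1
    field_simp
  rw [e]
  exact (oneAddNonunits_tauSubOne hτ hu).isUnitOf.mul (hP c hc hc0)

end Fermat.Agent.A2.H129

end
-- ===== PACK-END A2/H129/GaussTwiceB.lean

-- ===== PACK-BEGIN S20/Comb694/RelIndex.lean
section





/-!
# Relative index of `Gamma0 (p * M)` in `Gamma0 M`

`(Gamma0 (p * M)).relIndex (Gamma0 M) = p` if `p ∣ M`, and `p + 1` otherwise (`p` prime, `M ≠ 0`).
-/

set_option autoImplicit false

namespace Fermat.Agent.S20.Comb694

open Matrix MatrixGroups CongruenceSubgroup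

lemma mem_Gamma0_iff_dvd (N : ℕ) (g : SL(2, ℤ)) : g ∈ Gamma0 N ↔ (N : ℤ) ∣ g 1 0 := by
  rw [Gamma0_mem]
  exact ZMod.intCast_zmod_eq_zero_iff_dvd _ _

lemma Gamma0_mul_le (p M : ℕ) : Gamma0 (p * M) ≤ Gamma0 M := by
  intro g hg
  rw [mem_Gamma0_iff_dvd] at hg ⊢
  refine dvd_trans ?_ hg
  push_cast
  exact dvd_mul_left _ _

/-- The matrix `[[1, 0], [c, 1]]` in `SL(2,ℤ)`. -/
def lowRep (c : ℤ) : SL(2, ℤ) := ⟨!![1, 0; c, 1], by simp [Matrix.det_fin_two]⟩

@[simp] lemma lowRep_apply_zero_zero (c : ℤ) : lowRep c 0 0 = 1 := rfl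
@[simp] lemma lowRep_apply_one_zero (c : ℤ) : lowRep c 1 0 = c := rfl

lemma lowRep_mem (M : ℕ) (t : ℤ) : lowRep ((M : ℤ) * t) ∈ Gamma0 M := by
  rw [mem_Gamma0_iff_dvd, lowRep_apply_one_zero]
  exact dvd_mul_right _ _

/-- Coset criterion for `Gamma0 M ⧸ (Gamma0 (p * M)).subgroupOf (Gamma0 M)`. -/
lemma subMk_eq_iff (p M : ℕ) (hM : M ≠ 0) (g g' : Gamma0 M) (c₁ c₁' : ℤ)
    (hc : (g : SL(2, ℤ)) 1 0 = M * c₁) (hc' : (g' : SL(2, ℤ)) 1 0 = M * c₁') :
    (QuotientGroup.mk g : Gamma0 M ⧸ (Gamma0 (p * M)).subgroupOf (Gamma0 M))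
        = QuotientGroup.mk g' ↔
      (p : ℤ) ∣ ((g : SL(2, ℤ)) 0 0 * c₁' - c₁ * (g' : SL(2, ℤ)) 0 0) := by
  rw [QuotientGroup.eq, Subgroup.mem_subgroupOf, mem_Gamma0_iff_dvd]
  simp only [Subgroup.coe_mul, Subgroup.coe_inv, inv_mul_apply_one_zero, hc, hc']
  have h : (g : SL(2, ℤ)) 0 0 * ((M : ℤ) * c₁') - (M : ℤ) * c₁ * (g' : SL(2, ℤ)) 0 0
      = (M : ℤ) * ((g : SL(2, ℤ)) 0 0 * c₁' - c₁ * (g' : SL(2, ℤ)) 0 0) := by ring
  rw [h]
  push_cast
  rw [mul_comm (p : ℤ) (M : ℤ)]
  exact mul_dvd_mul_iff_left (by exact_mod_cast hM)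

/-- For `g ∈ Gamma0 M` with `p ∣ M`, the entry `g 0 0` is nonzero mod `p`. -/
lemma a_ne_zero_of_dvd (p M : ℕ) (hp : p.Prime) (h : p ∣ M) (g : Gamma0 M) :
    ¬ (p : ℤ) ∣ (g : SL(2, ℤ)) 0 0 := by
  intro ha
  have hg := (mem_Gamma0_iff_dvd M _).mp g.2
  have hpc : (p : ℤ) ∣ (g : SL(2, ℤ)) 1 0 := dvd_trans (by exact_mod_cast h) hg
  have hdet := (g : SL(2, ℤ)).det_coe
  rw [Matrix.det_fin_two] at hdet
  have h1 : (p : ℤ) ∣ 1 := by
    rw [← hdet]
    exact dvd_sub (dvd_mul_of_dvd_left ha _) (dvd_mul_of_dvd_right hpc _)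
  have := Int.natCast_dvd_natCast.mp (by simpa using h1 : ((p : ℕ) : ℤ) ∣ ((1 : ℕ) : ℤ))
  exact hp.one_lt.ne' (Nat.dvd_one.mp this)

/-- The coset representative attached to `t : ZMod p`. -/
noncomputable def relRep (p M : ℕ) (t : ZMod p) :
    Gamma0 M ⧸ (Gamma0 (p * M)).subgroupOf (Gamma0 M) :=
  QuotientGroup.mk ⟨lowRep ((M : ℤ) * (ZMod.cast t : ℤ)), lowRep_mem M _⟩

lemma relRep_injective (p M : ℕ) (hM : M ≠ 0) : Function.Injective (relRep p M) := by
  intro t t' h
  simp only [relRep] at h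
  rw [subMk_eq_iff p M hM _ _ (ZMod.cast t : ℤ) (ZMod.cast t' : ℤ) rfl rfl] at h
  simp only [lowRep_apply_zero_zero, one_mul, mul_one] at h
  have := (ZMod.intCast_zmod_eq_zero_iff_dvd _ p).mpr h
  push_cast at this
  exact (sub_eq_zero.mp this).symm

/-- Elements with `p ∤ a` are in the range of `relRep`. -/
lemma mem_range_relRep (p M : ℕ) (hM : M ≠ 0) (hp : p.Prime) (g : Gamma0 M)
    (ha : ¬ (p : ℤ) ∣ (g : SL(2, ℤ)) 0 0) :
    (QuotientGroup.mk g : Gamma0 M ⧸ (Gamma0 (p * M)).subgroupOf (Gamma0 M))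
      ∈ Set.range (relRep p M) := by
  haveI : Fact p.Prime := ⟨hp⟩
  obtain ⟨c₁, hc₁⟩ := (mem_Gamma0_iff_dvd M _).mp g.2
  have ha' : (((g : SL(2, ℤ)) 0 0 : ℤ) : ZMod p) ≠ 0 := by
    rwa [Ne, ZMod.intCast_zmod_eq_zero_iff_dvd]
  refine ⟨(c₁ : ZMod p) * (((g : SL(2, ℤ)) 0 0 : ℤ) : ZMod p)⁻¹, ?_⟩
  simp only [relRep]
  rw [subMk_eq_iff p M hM _ _ _ c₁ rfl hc₁]
  simp only [lowRep_apply_zero_zero, one_mul]
  rw [← ZMod.intCast_zmod_eq_zero_iff_dvd]
  push_cast
  rw [mul_assoc, inv_mul_cancel₀ ha', mul_one, sub_self]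

/-- **Relative index, ramified case**: `[Γ₀(M) : Γ₀(pM)] = p` if `p ∣ M`. -/
theorem relIndex_Gamma0_of_dvd (p M : ℕ) (hM : M ≠ 0) (hp : p.Prime) (h : p ∣ M) :
    (Gamma0 (p * M)).relIndex (Gamma0 M) = p := by
  have hbij : Function.Bijective (relRep p M) := by
    refine ⟨relRep_injective p M hM, ?_⟩
    intro q
    obtain ⟨g, rfl⟩ := QuotientGroup.mk_surjective q
    exact mem_range_relRep p M hM hp g (a_ne_zero_of_dvd p M hp h g)
  rw [Subgroup.relIndex, Subgroup.index, ← Nat.card_eq_of_bijective _ hbij, Nat.card_zmod]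

/-- An element of `Gamma0 M` with first column `(p, M)`, for `p ∤ M`. -/
lemma exists_special (p M : ℕ) (hp : p.Prime) (h : ¬ p ∣ M) :
    ∃ g : Gamma0 M, (g : SL(2, ℤ)) 0 0 = p ∧ (g : SL(2, ℤ)) 1 0 = M := by
  have hcop : IsCoprime (p : ℤ) (M : ℤ) := by
    rw [Int.isCoprime_iff_gcd_eq_one, Int.gcd_natCast_natCast]
    exact (Nat.Prime.coprime_iff_not_dvd hp).mpr h
  obtain ⟨g, hg0, hg1⟩ := IsCoprime.exists_SL2_col hcop 0
  refine ⟨⟨g, ?_⟩, hg0, hg1⟩
  rw [mem_Gamma0_iff_dvd, hg1]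

/-- **Relative index, unramified case**: `[Γ₀(M) : Γ₀(pM)] = p + 1` if `p ∤ M`. -/
theorem relIndex_Gamma0_of_not_dvd (p M : ℕ) (hM : M ≠ 0) (hp : p.Prime) (h : ¬ p ∣ M) :
    (Gamma0 (p * M)).relIndex (Gamma0 M) = p + 1 := by
  haveI : Fact p.Prime := ⟨hp⟩
  obtain ⟨g₀, hg₀0, hg₀1⟩ := exists_special p M hp h
  let f : Option (ZMod p) → Gamma0 M ⧸ (Gamma0 (p * M)).subgroupOf (Gamma0 M) :=
    fun o => o.elim (QuotientGroup.mk g₀) (relRep p M)
  have hne : ∀ t : ZMod p, relRep p M t ≠ QuotientGroup.mk g₀ := by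
    intro t ht
    simp only [relRep] at ht
    rw [subMk_eq_iff p M hM _ _ (ZMod.cast t : ℤ) 1 rfl (by rw [hg₀1, mul_one])] at ht
    simp only [lowRep_apply_zero_zero, one_mul, hg₀0] at ht
    have h1 : (p : ℤ) ∣ 1 := by
      have := dvd_add ht (dvd_mul_left (p : ℤ) (ZMod.cast t : ℤ))
      simpa using this
    have := Int.natCast_dvd_natCast.mp (by simpa using h1 : ((p : ℕ) : ℤ) ∣ ((1 : ℕ) : ℤ))
    exact hp.one_lt.ne' (Nat.dvd_one.mp this)
  have hbij : Function.Bijective f := by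
    constructor
    · rintro (_ | t) (_ | t') hh
      · rfl
      · exact absurd hh.symm (hne t')
      · exact absurd hh (hne t)
      · exact congrArg some (relRep_injective p M hM hh)
    · intro q
      obtain ⟨g, rfl⟩ := QuotientGroup.mk_surjective q
      by_cases ha : (p : ℤ) ∣ (g : SL(2, ℤ)) 0 0
      · refine ⟨none, ?_⟩
        obtain ⟨c₁, hc₁⟩ := (mem_Gamma0_iff_dvd M _).mp g.2
        show QuotientGroup.mk g₀ = _
        rw [subMk_eq_iff p M hM _ _ 1 c₁ (by rw [hg₀1, mul_one]) hc₁, hg₀0]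
        exact dvd_sub (dvd_mul_right _ _) (by simpa using ha)
      · obtain ⟨t, ht⟩ := mem_range_relRep p M hM hp g ha
        exact ⟨some t, ht⟩
  rw [Subgroup.relIndex, Subgroup.index, ← Nat.card_eq_of_bijective _ hbij, Finite.card_option,
    Nat.card_zmod]

end Fermat.Agent.S20.Comb694

end
-- ===== PACK-END S20/Comb694/RelIndex.lean

-- ===== PACK-BEGIN A2/Mod/H816/L3Poly.lean
section


/-!
# A2 / MOD leaf L3, part 1 (helper816): a nonzero polynomial does not vanish at a polar series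

`eval₂_C_ne_zero_of_polar`: over a field `k`, if `U ∈ k((t))` has a pole of exact order `a > 0`
(`U.coeff n = 0` for `n < -a`, `U.coeff (-a) ≠ 0`) and `g ∈ k[X]` is nonzero, then `g(U) ≠ 0`;
more precisely the coefficient of `t^(-a·deg g)` in `g(U)` is `lc(g) · U.coeff(-a)^(deg g)`.
-/

set_option autoImplicit false

noncomputable section

namespace Fermat.Agent.A2.Mod.H816

open HahnSeries Polynomial

variable {k : Type*} [Field k]

/-- The order of a series with lowest term in degree `-a`. -/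
theorem order_eq_of_polar {U : LaurentSeries k} {a : ℤ}
    (h0 : ∀ n : ℤ, n < a → U.coeff n = 0) (h1 : U.coeff a ≠ 0) : U.order = a := by
  have hU : U ≠ 0 := by
    rintro rfl
    exact h1 (by simp)
  apply le_antisymm
  · exact order_le_of_coeff_ne_zero h1
  · by_contra hlt
    push Not at hlt
    exact (HahnSeries.coeff_order_eq_zero.not.mpr hU) (h0 _ hlt)

theorem ne_zero_of_polar {U : LaurentSeries k} {a : ℤ} (h1 : U.coeff a ≠ 0) : U ≠ 0 := by
  rintro rfl
  exact h1 (by simp)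

/-- coefficients of powers of a series of order `a`. -/
theorem coeff_pow_of_lt {U : LaurentSeries k} {a : ℤ}
    (h0 : ∀ n : ℤ, n < a → U.coeff n = 0) (h1 : U.coeff a ≠ 0) (i : ℕ) {n : ℤ}
    (hn : n < i * a) : (U ^ i).coeff n = 0 := by
  apply HahnSeries.coeff_eq_zero_of_lt_order
  rw [HahnSeries.order_pow, order_eq_of_polar h0 h1, nsmul_eq_mul]
  exact hn

/-- leading coefficient of powers of a series of order `a`. -/
theorem coeff_pow_order {U : LaurentSeries k} {a : ℤ}
    (h0 : ∀ n : ℤ, n < a → U.coeff n = 0) (h1 : U.coeff a ≠ 0) (i : ℕ) :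
    (U ^ i).coeff (i * a) = U.coeff a ^ i := by
  induction i with
  | zero => simp
  | succ i ih =>
    have hU := order_eq_of_polar h0 h1
    have hUi : (U ^ i).order = i * a := by
      rw [HahnSeries.order_pow, hU, nsmul_eq_mul]
    have key := HahnSeries.coeff_mul_order_add_order (U ^ i) U
    rw [HahnSeries.leadingCoeff_eq, HahnSeries.leadingCoeff_eq, hUi, hU, ih] at key
    rw [pow_succ, pow_succ]
    have : ((i + 1 : ℕ) : ℤ) * a = i * a + a := by push_cast; ring
    rw [this]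
    exact key

/-- **Non-vanishing at a polar series.** -/
theorem coeff_eval₂_C_of_polar {U : LaurentSeries k} {a : ℤ} (ha : a < 0)
    (h0 : ∀ n : ℤ, n < a → U.coeff n = 0) (h1 : U.coeff a ≠ 0) (g : k[X]) :
    (g.eval₂ (HahnSeries.C : k →+* LaurentSeries k) U).coeff (g.natDegree * a) =
      g.leadingCoeff * U.coeff a ^ g.natDegree := by
  rw [Polynomial.eval₂_eq_sum_range, HahnSeries.coeff_sum]
  rw [Finset.sum_eq_single g.natDegree]
  · rw [HahnSeries.C_mul_eq_smul, HahnSeries.coeff_smul, coeff_pow_order h0 h1, smul_eq_mul]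
    rfl
  · intro i hi hne
    have hlt : i < g.natDegree := by
      have := Finset.mem_range.mp hi
      omega
    rw [HahnSeries.C_mul_eq_smul, HahnSeries.coeff_smul, coeff_pow_of_lt h0 h1 i, smul_zero]
    have h2 : ((i : ℤ)) < (g.natDegree : ℤ) := by exact_mod_cast hlt
    nlinarith
  · intro h
    exact absurd (Finset.mem_range.mpr (Nat.lt_succ_self _)) h

theorem eval₂_C_ne_zero_of_polar {U : LaurentSeries k} {a : ℤ} (ha : a < 0)
    (h0 : ∀ n : ℤ, n < a → U.coeff n = 0) (h1 : U.coeff a ≠ 0) {g : k[X]} (hg : g ≠ 0) :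
    g.eval₂ (HahnSeries.C : k →+* LaurentSeries k) U ≠ 0 := by
  intro h
  have := coeff_eval₂_C_of_polar ha h0 h1 g
  rw [h, HahnSeries.coeff_zero] at this
  have h2 : g.leadingCoeff * U.coeff a ^ g.natDegree ≠ 0 :=
    mul_ne_zero (Polynomial.leadingCoeff_ne_zero.mpr hg) (pow_ne_zero _ h1)
  exact h2 this.symm

end Fermat.Agent.A2.Mod.H816

end

end
-- ===== PACK-END A2/Mod/H816/L3Poly.lean

-- ===== PACK-BEGIN A2/H489/TwoExt.lean
section


/-!
# A2 / M1-abs (helper489): extensions of a discrete valuation to a finite separable extension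

Mathlib-only.  `S` Dedekind domain with fraction field `F`.

* `center V hV` : the centre on `S` of a valuation subring `V ⊇ S` of `F`.
* `eq_valuationSubring_of_center` : a valuation subring `V ≠ ⊤` of `F` containing `S` is the
  valuation subring of the `𝔓`-adic valuation, `𝔓` its centre.
-/

set_option autoImplicit false

namespace Fermat.Agent.A2.H489

open IsDedekindDomain IsLocalRing

section Center

variable {S F : Type*} [CommRing S] [Field F] [Algebra S F]

/-- the structure map `S → V` for a valuation subring `V` of `F` containing the image of `S`. -/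
def toValSub (V : ValuationSubring F) (hV : ∀ s : S, algebraMap S F s ∈ V) : S →+* V :=
  (algebraMap S F).codRestrict V.toSubring hV

@[simp]
theorem coe_toValSub (V : ValuationSubring F) (hV : ∀ s : S, algebraMap S F s ∈ V) (s : S) :
    ((toValSub V hV s : V) : F) = algebraMap S F s := rfl

/-- The centre on `S` of a valuation subring `V ⊇ S` of `F`. -/
def center (V : ValuationSubring F) (hV : ∀ s : S, algebraMap S F s ∈ V) : Ideal S :=
  (IsLocalRing.maximalIdeal V).comap (toValSub V hV)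

instance center_isPrime (V : ValuationSubring F) (hV : ∀ s : S, algebraMap S F s ∈ V) :
    (center V hV).IsPrime :=
  Ideal.comap_isPrime _ _

theorem mem_center_iff (V : ValuationSubring F) (hV : ∀ s : S, algebraMap S F s ∈ V) (s : S) :
    s ∈ center V hV ↔ algebraMap S F s ∈ V.nonunits := by
  rw [center, Ideal.mem_comap, ← ValuationSubring.coe_mem_nonunits_iff, coe_toValSub]

theorem mem_center_iff_valuation (V : ValuationSubring F)
    (hV : ∀ s : S, algebraMap S F s ∈ V) (s : S) :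
    s ∈ center V hV ↔ V.valuation (algebraMap S F s) < 1 := by
  rw [mem_center_iff, ValuationSubring.mem_nonunits_iff]

theorem inv_mem_of_not_mem_center (V : ValuationSubring F)
    (hV : ∀ s : S, algebraMap S F s ∈ V) {s : S} (hs : s ∉ center V hV) :
    (algebraMap S F s)⁻¹ ∈ V := by
  rw [mem_center_iff, ValuationSubring.mem_nonunits_iff_or, not_or, not_not] at hs
  exact hs.2

end Center

section Dedekind

variable {S F : Type*} [CommRing S] [IsDedekindDomain S] [Field F] [Algebra S F]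
  [IsFractionRing S F]

/-- A valuation subring `V ≠ ⊤` of `F = Frac S` containing the Dedekind domain `S` is the
valuation subring of the adic valuation at its centre. -/
theorem eq_valuationSubring_of_center (V : ValuationSubring F)
    (hV : ∀ s : S, algebraMap S F s ∈ V) (hne : V ≠ ⊤)
    (v : HeightOneSpectrum S) (hv : v.asIdeal = center V hV) :
    V = (v.valuation F).valuationSubring := by
  have hle : (v.valuation F).valuationSubring ≤ V := by
    intro x hx
    obtain ⟨n, d, hnd⟩ := v.exists_primeCompl_mul_eq_of_integer x hx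
    have hd : (d : S) ∉ center V hV := by
      rw [← hv]; exact d.2
    have hdinv := inv_mem_of_not_mem_center V hV hd
    have hd0 : algebraMap S F (d : S) ≠ 0 := by
      intro h0
      apply hd
      rw [mem_center_iff, h0]
      exact V.nonunits.zero_mem
    have hx' : x = algebraMap S F n * (algebraMap S F (d : S))⁻¹ := by
      rw [← hnd]; field_simp
    rw [hx']
    exact V.mul_mem _ _ (hV n) hdinv
  have h1 := v.valuationSubringAtPrime_eq_valuationSubring (K := F)
  have h2 : v.valuationSubringAtPrime F ≤ V := by rw [h1]; exact hle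
  rw [← h1]
  exact (ValuationSubring.eq_of_le_of_ne_top (v.valuationSubringAtPrime F) h2 hne).symm

/-- The centre of a valuation subring `V ≠ ⊤` containing `S` is nonzero. -/
theorem center_ne_bot (V : ValuationSubring F) (hV : ∀ s : S, algebraMap S F s ∈ V)
    (hne : V ≠ ⊤) : center V hV ≠ ⊥ := by
  intro hbot
  apply hne
  rw [eq_top_iff]
  intro x _
  obtain ⟨a, b, hb, rfl⟩ := IsFractionRing.div_surjective (A := S) x
  have hb' : b ∉ center V hV := by
    rw [hbot]
    intro h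
    exact (nonZeroDivisors.ne_zero hb) (by simpa using h)
  rw [div_eq_mul_inv]
  exact V.mul_mem _ _ (hV a) (inv_mem_of_not_mem_center V hV hb')

/-- The centre as a height-one prime. -/
def centerSpec (V : ValuationSubring F) (hV : ∀ s : S, algebraMap S F s ∈ V)
    (hne : V ≠ ⊤) : HeightOneSpectrum S where
  asIdeal := center V hV
  isPrime := center_isPrime V hV
  ne_bot := center_ne_bot V hV hne

theorem eq_valuationSubring_centerSpec (V : ValuationSubring F)
    (hV : ∀ s : S, algebraMap S F s ∈ V) (hne : V ≠ ⊤) :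
    V = ((centerSpec V hV hne).valuation F).valuationSubring :=
  eq_valuationSubring_of_center V hV hne _ rfl

/-- Two valuation subrings `≠ ⊤` containing `S` with the same centre are equal. -/
theorem eq_of_center_eq (V W : ValuationSubring F)
    (hV : ∀ s : S, algebraMap S F s ∈ V) (hW : ∀ s : S, algebraMap S F s ∈ W)
    (hVne : V ≠ ⊤) (hWne : W ≠ ⊤) (h : center V hV = center W hW) : V = W := by
  rw [eq_valuationSubring_centerSpec V hV hVne,
    eq_valuationSubring_of_center W hW hWne (centerSpec V hV hVne) h]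

end Dedekind

end Fermat.Agent.A2.H489

end
-- ===== PACK-END A2/H489/TwoExt.lean

-- ===== PACK-BEGIN A2/Mod/H189/ChartChange.lean
section






/-!
# Cell A2 / MOD, GOODRED part G3 (helper189): CHART CHANGE, abstract form (Mathlib only)

`R` a commutative ring, `F` a field, `V` a subring of `F` (in the application the Gauss valuation
ring), `w : F` (the uniformiser).  For an `R`-subalgebra `A ⊆ F` (`A = R[y]`) we consider the
*chart* `IC(A)` = elements of `F` integral over `A`, and the two elementwise properties that make up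
`Mod.GoodRedAt` (`A2/Mod/Spec.lean`):

* `QepOn V w A`    : `b ∈ IC(A)`, `b ∈ w V` ⟹ `b / w ∈ IC(A)`;
* `NormalOn V w A` : `f ∈ V` whose residue is integral over `IC(A) / w` is congruent modulo `w V`
  to an element of `IC(A)`   (the special fibre of the chart is integrally closed in `κ(V)`).

Results:

* `isIntegral_of_forall_isIntegral` : `IC` only depends on `A` up to integral equivalence;
* `QepOn.loc`, `NormalOn.loc`       : both properties pass from `A` to `A[1/s]` (`s ∈ A` a unit of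
  `V`);
* `QepOn.glue`, `NormalOn.glue`     : both properties glue along a covering `α s₁ + β s₂ = 1`.

These are the tools for changing the coordinate of a model with good reduction (e.g. from the
Hauptmodul `t₂` or `t₃` used by row S18 for the residue characteristics `3` and `2` to `j`).
-/

set_option autoImplicit false

namespace Fermat.Agent.A2.Mod.H189

open Polynomial

variable {R : Type*} [CommRing R] {F : Type*} [Field F] [Algebra R F]

/-- `f ∈ w V`. -/
def InWV (V : Subring F) (w f : F) : Prop := f * w⁻¹ ∈ V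

theorem InWV.mul_left {V : Subring F} {w f : F} (h : InWV V w f) {c : F} (hc : c ∈ V) :
    InWV V w (c * f) := by
  unfold InWV at h ⊢
  rw [mul_assoc]
  exact V.mul_mem hc h

theorem InWV.add {V : Subring F} {w f g : F} (hf : InWV V w f) (hg : InWV V w g) :
    InWV V w (f + g) := by
  unfold InWV at hf hg ⊢
  rw [add_mul]
  exact V.add_mem hf hg

theorem InWV.sub {V : Subring F} {w f g : F} (hf : InWV V w f) (hg : InWV V w g) :
    InWV V w (f - g) := by
  unfold InWV at hf hg ⊢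
  rw [sub_mul]
  exact V.sub_mem hf hg

/-- The `q`-expansion principle for the chart of `A`, elementwise. -/
def QepOn (V : Subring F) (w : F) (A : Subalgebra R F) : Prop :=
  ∀ b : F, IsIntegral A b → InWV V w b → IsIntegral A (b * w⁻¹)

/-- Normality of the special fibre of the chart of `A`, elementwise: an element of `V` which is
integral over the chart modulo `w V` is congruent to an element of the chart. -/
def NormalOn (V : Subring F) (w : F) (A : Subalgebra R F) : Prop :=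
  ∀ f ∈ V, (∃ (n : ℕ) (c : Fin n → F), (∀ i, IsIntegral A (c i)) ∧
      InWV V w (f ^ n + ∑ i : Fin n, c i * f ^ (i : ℕ))) →
    ∃ b : F, IsIntegral A b ∧ InWV V w (f - b)

/-! ### Integral equivalence -/

/-- Integrality over a subalgebra only depends on its integral closure. -/
theorem isIntegral_of_forall_isIntegral {A A' : Subalgebra R F}
    (h : ∀ a ∈ A, IsIntegral A' a) {f : F} (hf : IsIntegral A f) : IsIntegral A' f := by
  -- `f` is integral over the integral closure `C'` of `A'`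
  let C' : Subalgebra A' F := integralClosure A' F
  let ι : A →+* C' :=
    { toFun := fun a => ⟨(a : F), h a a.2⟩
      map_one' := rfl
      map_mul' := fun _ _ => rfl
      map_zero' := rfl
      map_add' := fun _ _ => rfl }
  have h1 : IsIntegral C' f := by
    have := IsIntegral.map_of_comp_eq (R := A) (S := F) (T := C') (U := F) ι (RingHom.id F)
      (by ext a; rfl) hf
    simpa using this
  exact isIntegral_trans (R := A') (A := C') f h1

theorem isIntegral_iff_of_forall_isIntegral {A A' : Subalgebra R F}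
    (h : ∀ a ∈ A, IsIntegral A' a) (h' : ∀ a ∈ A', IsIntegral A a) {f : F} :
    IsIntegral A f ↔ IsIntegral A' f :=
  ⟨isIntegral_of_forall_isIntegral h, isIntegral_of_forall_isIntegral h'⟩

theorem isIntegral_of_le {A A' : Subalgebra R F} (h : A ≤ A') {f : F} (hf : IsIntegral A f) :
    IsIntegral A' f :=
  isIntegral_of_forall_isIntegral (fun a ha => isIntegral_algebraMap (R := A') (x := ⟨a, h ha⟩)) hf

theorem QepOn.congr {V : Subring F} {w : F} {A A' : Subalgebra R F}
    (h : ∀ a ∈ A, IsIntegral A' a) (h' : ∀ a ∈ A', IsIntegral A a) (hq : QepOn V w A) :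
    QepOn V w A' := fun b hb hbw =>
  isIntegral_of_forall_isIntegral h (hq b (isIntegral_of_forall_isIntegral h' hb) hbw)

theorem NormalOn.congr {V : Subring F} {w : F} {A A' : Subalgebra R F}
    (h : ∀ a ∈ A, IsIntegral A' a) (h' : ∀ a ∈ A', IsIntegral A a) (hn : NormalOn V w A) :
    NormalOn V w A' := by
  rintro f hf ⟨n, c, hc, hcw⟩
  obtain ⟨b, hb, hbw⟩ := hn f hf
    ⟨n, c, fun i => isIntegral_of_forall_isIntegral h' (hc i), hcw⟩
  exact ⟨b, isIntegral_of_forall_isIntegral h hb, hbw⟩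

/-! ### Localisation of a subalgebra at one element -/

/-- `A[1/s]` as a subalgebra of the field `F`. -/
def locSub (A : Subalgebra R F) (s : F) : Subalgebra R F :=
  Algebra.adjoin R ((A : Set F) ∪ {s⁻¹})

theorem le_locSub (A : Subalgebra R F) (s : F) : A ≤ locSub A s := fun _ ha =>
  Algebra.subset_adjoin (Or.inl ha)

theorem inv_mem_locSub (A : Subalgebra R F) (s : F) : s⁻¹ ∈ locSub A s :=
  Algebra.subset_adjoin (Or.inr rfl)

theorem locSub_le {A B : Subalgebra R F} {s : F} (hAB : A ≤ B) (hs : s⁻¹ ∈ B) : locSub A s ≤ B :=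
  Algebra.adjoin_le (by
    rintro x (hx | hx)
    · exact hAB hx
    · rw [Set.mem_singleton_iff] at hx
      rw [hx]
      exact hs)

/-- Every element of `A[1/s]` is of the form `a / s ^ k`. -/
theorem exists_pow_mul_mem_of_mem_loc {A : Subalgebra R F} {s : F} (hs : s ∈ A) {b : F}
    (hb : b ∈ locSub A s) : ∃ k : ℕ, ∀ k', k ≤ k' → s ^ k' * b ∈ A := by
  unfold locSub at hb
  induction hb using Algebra.adjoin_induction with
  | mem x hx =>
    rcases hx with hx | hx
    · exact ⟨0, fun k' _ => A.mul_mem (A.pow_mem hs k') hx⟩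
    · rw [Set.mem_singleton_iff] at hx
      subst hx
      refine ⟨1, fun k' hk' => ?_⟩
      by_cases h0 : s = 0
      · subst h0
        simp
      · obtain ⟨k'', rfl⟩ := Nat.exists_eq_add_of_le hk'
        rw [pow_add, pow_one, mul_comm s, mul_assoc, mul_inv_cancel₀ h0, mul_one]
        exact A.pow_mem hs k''
  | algebraMap r => exact ⟨0, fun k' _ => A.mul_mem (A.pow_mem hs k') (A.algebraMap_mem r)⟩
  | add x y _ _ hx hy =>
    obtain ⟨k₁, h₁⟩ := hx
    obtain ⟨k₂, h₂⟩ := hy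
    refine ⟨max k₁ k₂, fun k' hk' => ?_⟩
    rw [mul_add]
    exact A.add_mem (h₁ k' (le_trans (le_max_left _ _) hk'))
      (h₂ k' (le_trans (le_max_right _ _) hk'))
  | mul x y _ _ hx hy =>
    obtain ⟨k₁, h₁⟩ := hx
    obtain ⟨k₂, h₂⟩ := hy
    refine ⟨k₁ + k₂, fun k' hk' => ?_⟩
    obtain ⟨k'', rfl⟩ := Nat.exists_eq_add_of_le hk'
    have : s ^ (k₁ + k₂ + k'') * (x * y) = s ^ k'' * ((s ^ k₁ * x) * (s ^ k₂ * y)) := by
      rw [pow_add, pow_add]; ring
    rw [this]
    exact A.mul_mem (A.pow_mem hs k'') (A.mul_mem (h₁ k₁ le_rfl) (h₂ k₂ le_rfl))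

/-- An element of `A` is integral over `A`. -/
theorem isIntegral_of_mem {A : Subalgebra R F} {a : F} (ha : a ∈ A) : IsIntegral A a :=
  isIntegral_algebraMap (R := A) (x := ⟨a, ha⟩)

/-- Integral closure commutes with localisation, elementwise: if `f` is integral over `A[1/s]`
then `s ^ k f` is integral over `A` for all large `k`. -/
theorem exists_pow_mul_isIntegral {A : Subalgebra R F} {s : F} (hs : s ∈ A) {f : F}
    (hf : IsIntegral (locSub A s) f) : ∃ k : ℕ, ∀ k', k ≤ k' → IsIntegral A (s ^ k' * f) := by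
  classical
  suffices h : ∃ k : ℕ, IsIntegral A (s ^ k * f) by
    obtain ⟨k, hk⟩ := h
    refine ⟨k, fun k' hk' => ?_⟩
    obtain ⟨k'', rfl⟩ := Nat.exists_eq_add_of_le hk'
    have : s ^ (k + k'') * f = s ^ k'' * (s ^ k * f) := by rw [pow_add]; ring
    rw [this]
    exact (isIntegral_of_mem (A.pow_mem hs k'')).mul hk
  obtain ⟨p, hp, hpf⟩ := hf
  -- a common exponent for all coefficients
  have hcoef : ∀ i : ℕ, ∃ k : ℕ, ∀ k', k ≤ k' → s ^ k' * ((p.coeff i : locSub A s) : F) ∈ A :=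
    fun i => exists_pow_mul_mem_of_mem_loc hs (p.coeff i).2
  choose kc hkc using hcoef
  set K : ℕ := (Finset.range (p.natDegree + 1)).sup kc with hK
  have hKle : ∀ i, i ≤ p.natDegree → kc i ≤ K := fun i hi =>
    Finset.le_sup (f := kc) (Finset.mem_range.2 (Nat.lt_succ_of_le hi))
  -- the element `s ^ K` of `A[1/s]`
  let sK : locSub A s := ⟨s ^ K, (locSub A s).pow_mem (le_locSub A s hs) K⟩
  let ι : A →+* locSub A s := (Subalgebra.inclusion (le_locSub A s)).toRingHom
  have hιval : ∀ a : A, ((ι a : locSub A s) : F) = (a : F) := fun a => rfl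
  have hlifts : scaleRoots p sK ∈ lifts ι := by
    rw [lifts_iff_coeff_lifts]
    intro i
    rw [coeff_scaleRoots]
    by_cases hi : i < p.natDegree
    · have h1 : s ^ (K * (p.natDegree - i)) * ((p.coeff i : locSub A s) : F) ∈ A := by
        apply hkc i
        calc kc i ≤ K := hKle i hi.le
          _ = K * 1 := (mul_one K).symm
          _ ≤ K * (p.natDegree - i) := Nat.mul_le_mul_left K (by omega)
      refine ⟨⟨_, h1⟩, Subtype.ext ?_⟩
      show s ^ (K * (p.natDegree - i)) * ((p.coeff i : locSub A s) : F)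
        = ((p.coeff i : locSub A s) : F) * (s ^ K) ^ (p.natDegree - i)
      rw [← pow_mul, mul_comm]
    · by_cases hi' : i = p.natDegree
      · subst hi'
        refine ⟨1, ?_⟩
        rw [map_one, Nat.sub_self, pow_zero, mul_one]
        exact hp.coeff_natDegree.symm
      · have : p.coeff i = 0 := coeff_eq_zero_of_natDegree_lt (by omega)
        refine ⟨0, ?_⟩
        rw [map_zero, this, zero_mul]
  have hmonic : (scaleRoots p sK).Monic := (monic_scaleRoots_iff sK).2 hp
  obtain ⟨q, hq, -, hqm⟩ := lifts_and_degree_eq_and_monic hlifts hmonic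
  refine ⟨K, q, hqm, ?_⟩
  have hcomp : (algebraMap (locSub A s) F).comp ι = algebraMap A F := by
    ext a
    rfl
  have h0 : eval₂ (algebraMap (locSub A s) F) (algebraMap (locSub A s) F sK * f) (scaleRoots p sK) = 0 :=
    scaleRoots_eval₂_eq_zero (algebraMap (locSub A s) F) hpf
  rw [← hq, eval₂_map, hcomp] at h0
  exact h0

/-- Conversely `a / s ^ k` is integral over `A[1/s]` as soon as `a` is integral over `A`. -/
theorem isIntegral_loc_of_pow_mul {A : Subalgebra R F} {s : F} (hs0 : s ≠ 0) {b : F} {k : ℕ}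
    (hb : IsIntegral A (s ^ k * b)) : IsIntegral (locSub A s) b := by
  have h1 : IsIntegral (locSub A s) (s ^ k * b) := isIntegral_of_le (le_locSub A s) hb
  have h2 : IsIntegral (locSub A s) (s⁻¹ ^ k) :=
    isIntegral_of_mem ((locSub A s).pow_mem (inv_mem_locSub A s) k)
  have : b = s⁻¹ ^ k * (s ^ k * b) := by
    rw [← mul_assoc, ← mul_pow, inv_mul_cancel₀ hs0, one_pow, one_mul]
  rw [this]
  exact h2.mul h1

/-- **QEP passes to localisations.** -/
theorem QepOn.loc {V : Subring F} {w : F} {A : Subalgebra R F} (hq : QepOn V w A) {s : F}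
    (hsA : s ∈ A) (hs0 : s ≠ 0) (hsV : s ∈ V) : QepOn V w (locSub A s) := by
  intro b hb hbw
  obtain ⟨k, hk⟩ := exists_pow_mul_isIntegral hsA hb
  have h1 := hq (s ^ k * b) (hk k le_rfl) (hbw.mul_left (V.pow_mem hsV k))
  apply isIntegral_loc_of_pow_mul hs0 (k := k)
  rwa [← mul_assoc]

/-- **Normality of the special fibre passes to localisations.** -/
theorem NormalOn.loc {V : Subring F} {w : F} {A : Subalgebra R F} (hn : NormalOn V w A) {s : F}
    (hsA : s ∈ A) (hs0 : s ≠ 0) (hsV : s ∈ V) (hsV' : s⁻¹ ∈ V) : NormalOn V w (locSub A s) := by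
  classical
  rintro f hf ⟨n, c, hc, hcw⟩
  have hex : ∀ i : Fin n, ∃ k : ℕ, ∀ k', k ≤ k' → IsIntegral A (s ^ k' * c i) :=
    fun i => exists_pow_mul_isIntegral hsA (hc i)
  choose kc hkc using hex
  set K : ℕ := Finset.univ.sup kc with hK
  have hKle : ∀ i, kc i ≤ K := fun i => Finset.le_sup (f := kc) (Finset.mem_univ i)
  -- the scaled element and the scaled equation
  have hg : s ^ K * f ∈ V := V.mul_mem (V.pow_mem hsV K) hf
  have key : (s ^ K * f) ^ n + ∑ i : Fin n, (s ^ (K * (n - (i : ℕ))) * c i) * (s ^ K * f) ^ (i : ℕ)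
      = s ^ (K * n) * (f ^ n + ∑ i : Fin n, c i * f ^ (i : ℕ)) := by
    rw [mul_add, Finset.mul_sum, mul_pow, ← pow_mul]
    congr 1
    refine Finset.sum_congr rfl fun i _ => ?_
    have hi : K * n = K * (n - (i : ℕ)) + K * (i : ℕ) := by
      rw [← Nat.mul_add, Nat.sub_add_cancel i.2.le]
    rw [mul_pow, ← pow_mul, hi, pow_add]
    ring
  obtain ⟨b, hb, hbw⟩ := hn (s ^ K * f) hg ⟨n, fun i => s ^ (K * (n - (i : ℕ))) * c i,
    fun i => hkc i _ (by
      calc kc i ≤ K := hKle i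
        _ = K * 1 := (mul_one K).symm
        _ ≤ K * (n - (i : ℕ)) := Nat.mul_le_mul_left K (by have := i.2; omega)),
    by rw [key]; exact hcw.mul_left (V.pow_mem hsV _)⟩
  refine ⟨s⁻¹ ^ K * b, ?_, ?_⟩
  · apply isIntegral_loc_of_pow_mul hs0 (k := K)
    rw [← mul_assoc, ← mul_pow, mul_inv_cancel₀ hs0, one_pow, one_mul]
    exact hb
  · have : f - s⁻¹ ^ K * b = s⁻¹ ^ K * (s ^ K * f - b) := by
      rw [mul_sub, ← mul_assoc, ← mul_pow, inv_mul_cancel₀ hs0, one_pow, one_mul]
    rw [this]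
    exact hbw.mul_left (V.pow_mem hsV' K)

/-! ### Gluing along a covering by two principal opens -/

/-- A partition of unity by high powers. -/
theorem exists_partition_pow {A : Subalgebra R F} {s₁ s₂ α β : F} (hs₁ : s₁ ∈ A) (hs₂ : s₂ ∈ A)
    (hα : α ∈ A) (hβ : β ∈ A) (h1 : α * s₁ + β * s₂ = 1) (k : ℕ) :
    ∃ a₁ ∈ A, ∃ a₂ ∈ A, a₁ * s₁ ^ k + a₂ * s₂ ^ k = 1 := by
  have hc : IsCoprime (⟨s₁, hs₁⟩ : A) ⟨s₂, hs₂⟩ :=
    ⟨⟨α, hα⟩, ⟨β, hβ⟩, Subtype.ext h1⟩
  obtain ⟨a, b, hab⟩ := hc.pow (m := k) (n := k)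
  exact ⟨a, a.2, b, b.2, congrArg Subtype.val hab⟩

/-- **QEP glues.** -/
theorem QepOn.glue {V : Subring F} {w : F} {A : Subalgebra R F} {s₁ s₂ α β : F}
    (hs₁ : s₁ ∈ A) (hs₂ : s₂ ∈ A) (hα : α ∈ A) (hβ : β ∈ A) (h1 : α * s₁ + β * s₂ = 1)
    (hq₁ : QepOn V w (locSub A s₁)) (hq₂ : QepOn V w (locSub A s₂)) : QepOn V w A := by
  intro b hb hbw
  obtain ⟨k₁, hk₁⟩ := exists_pow_mul_isIntegral hs₁
    (hq₁ b (isIntegral_of_le (le_locSub A s₁) hb) hbw)
  obtain ⟨k₂, hk₂⟩ := exists_pow_mul_isIntegral hs₂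
    (hq₂ b (isIntegral_of_le (le_locSub A s₂) hb) hbw)
  obtain ⟨a₁, ha₁, a₂, ha₂, ha⟩ := exists_partition_pow hs₁ hs₂ hα hβ h1 (max k₁ k₂)
  have e : b * w⁻¹ = a₁ * (s₁ ^ max k₁ k₂ * (b * w⁻¹)) + a₂ * (s₂ ^ max k₁ k₂ * (b * w⁻¹)) := by
    linear_combination (-(b * w⁻¹)) * ha
  rw [e]
  exact ((isIntegral_of_mem ha₁).mul (hk₁ _ (le_max_left _ _))).add
    ((isIntegral_of_mem ha₂).mul (hk₂ _ (le_max_right _ _)))

/-- **Normality of the special fibre glues.** -/
theorem NormalOn.glue {V : Subring F} {w : F} {A : Subalgebra R F} {s₁ s₂ α β : F}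
    (hAV : ∀ a ∈ A, a ∈ V)
    (hs₁ : s₁ ∈ A) (hs₂ : s₂ ∈ A) (hα : α ∈ A) (hβ : β ∈ A) (h1 : α * s₁ + β * s₂ = 1)
    (hn₁ : NormalOn V w (locSub A s₁)) (hn₂ : NormalOn V w (locSub A s₂)) : NormalOn V w A := by
  rintro f hf ⟨n, c, hc, hcw⟩
  obtain ⟨b₁, hb₁, hbw₁⟩ := hn₁ f hf ⟨n, c, fun i => isIntegral_of_le (le_locSub A s₁) (hc i), hcw⟩
  obtain ⟨b₂, hb₂, hbw₂⟩ := hn₂ f hf ⟨n, c, fun i => isIntegral_of_le (le_locSub A s₂) (hc i), hcw⟩
  obtain ⟨k₁, hk₁⟩ := exists_pow_mul_isIntegral hs₁ hb₁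
  obtain ⟨k₂, hk₂⟩ := exists_pow_mul_isIntegral hs₂ hb₂
  obtain ⟨a₁, ha₁, a₂, ha₂, ha⟩ := exists_partition_pow hs₁ hs₂ hα hβ h1 (max k₁ k₂)
  refine ⟨a₁ * (s₁ ^ max k₁ k₂ * b₁) + a₂ * (s₂ ^ max k₁ k₂ * b₂),
    ((isIntegral_of_mem ha₁).mul (hk₁ _ (le_max_left _ _))).add
      ((isIntegral_of_mem ha₂).mul (hk₂ _ (le_max_right _ _))), ?_⟩
  have : f - (a₁ * (s₁ ^ max k₁ k₂ * b₁) + a₂ * (s₂ ^ max k₁ k₂ * b₂))
      = (a₁ * s₁ ^ max k₁ k₂) * (f - b₁) + (a₂ * s₂ ^ max k₁ k₂) * (f - b₂) := by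
    linear_combination (-f) * ha
  rw [this]
  exact (hbw₁.mul_left (hAV _ (A.mul_mem ha₁ (A.pow_mem hs₁ _)))).add
    (hbw₂.mul_left (hAV _ (A.mul_mem ha₂ (A.pow_mem hs₂ _))))

end Fermat.Agent.A2.Mod.H189

end
-- ===== PACK-END A2/Mod/H189/ChartChange.lean

-- ===== PACK-BEGIN Ribet/H399/CuspInfinity.lean
section


/-!
(author helper153, `origin/helper153:S36/H153/Infinity.lean`; copy in the namespace
`Fermat.Agent.Ribet.H399.NoNode` so that the CUSP chain of helper399 is self-contained)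

# S36 engine, cell INCIDENCE at infinity (helper153) — abstract part, Mathlib only

Problem: in the chart at infinity of the level-`q M` model (`x⁻¹ = u · u_q`, `u = 1/j`,
`u_q = 1/j_q`) the purity/regularity cells need to know that NO closed point at infinity
(`u u_q ∈ n`) lies on two components ("cusps are not nodes"); otherwise there is no local generator
`t` of a vertical prime at such a point (`t = w` needs exactly one component through `n`).

Solution: the two functions

  `z = u ^ q / u_q = j_q / j ^ q`,   `y = u_q ^ q / u = j / j_q ^ q`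

lie in the chart at infinity (valuative criterion + SHAPE of the modular polynomial:
`Φ = Y^(q+1) + Σ_{k ≤ q} a_k(X) Y^k`, `deg a_k ≤ q + 1`, `deg a_q ≤ q`), and
`z ≡ 1` on `C∞` (`j_q ≡ j^q`), `y ≡ 1` on `C₀` (`j ≡ j_q^q`), `y z = (u u_q)^(q-1)`.
Hence at a common point `n` of `C∞` and `C₀`:  `(u u_q)^(q-1) ≡ 1 mod n`, so `u u_q ∉ n`.

* `aeval_inv_mul_pow_mem`   : `a(1/u) · u^d ∈ V` for `deg a ≤ d`, `u ∈ V`;
* `pow_div_mem_of_shape`    : the valuative core: `u^(n-1) / u_q ∈ V` for every valuation subring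
                              `V ∋ u, u_q`, from `Φ(1/u, 1/u_q) = 0` and the shape of `Φ`;
* `not_mem_of_yz`           : abstract "no node at infinity" (level `q`);
* `finite_of_two_components`: abstract "points at infinity of level `q²` lie on exactly one
                              component", from the level-`q` statement and the comap pattern only
                              (no integrality, no going-down).
-/

set_option autoImplicit false

namespace Fermat.Agent.Ribet.H399.NoNode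

open Polynomial

section Valuative

variable {K : Type*} [Field K]

/-- `a(1/u) · u^d ∈ V` if `u ∈ V` and `deg a ≤ d` (integer coefficients). -/
theorem aeval_inv_mul_pow_mem (V : ValuationSubring K) {u : K} (hu : u ∈ V) (hu0 : u ≠ 0)
    (d : ℕ) (a : Polynomial ℤ) (ha : a.natDegree ≤ d) :
    Polynomial.aeval u⁻¹ a * u ^ d ∈ V := by
  refine Polynomial.induction_with_natDegree_le
    (fun f => Polynomial.aeval u⁻¹ f * u ^ d ∈ V) d ?_ ?_ ?_ a ha
  · simp [V.zero_mem]
  · intro n r _ hnd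
    have h1 : Polynomial.aeval u⁻¹ (C r * X ^ n) * u ^ d = (r : K) * u ^ (d - n) := by
      rw [map_mul, map_pow, Polynomial.aeval_C, Polynomial.aeval_X]
      have h2 : u ^ d = u ^ (d - n) * u ^ n := by rw [← pow_add, Nat.sub_add_cancel hnd]
      rw [h2, inv_pow]
      simp only [eq_intCast]
      field_simp
    rw [h1]
    exact V.mul_mem _ _ (by simpa using V.toSubring.intCast_mem r) (V.pow_mem hu _)
  · intro f g _ _ hf hg
    rw [map_add, add_mul]
    exact V.add_mem _ _ hf hg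

/-- **Valuative core.**  `Φ ∈ ℤ[X][Y]` monic of degree `n ≥ 2` in `Y`, all coefficients of degree
`≤ n` in `X`, the coefficient of `Y^(n-1)` of degree `≤ n - 1` in `X`, and `Φ(1/u, 1/u_q) = 0`.
Then `u ^ (n-1) / u_q` lies in every valuation subring containing `u` and `u_q`. -/
theorem pow_div_mem_of_shape (V : ValuationSubring K) {u uq : K} (hu : u ∈ V) (huq : uq ∈ V)
    (hu0 : u ≠ 0) (huq0 : uq ≠ 0) (Φ : Polynomial (Polynomial ℤ)) {n : ℕ} (hn : 2 ≤ n)
    (hΦ : Φ.Monic) (hdeg : Φ.natDegree = n) (hin : ∀ k, (Φ.coeff k).natDegree ≤ n)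
    (htop : (Φ.coeff (n - 1)).natDegree ≤ n - 1)
    (h : Φ.eval₂ (Polynomial.aeval (R := ℤ) u⁻¹).toRingHom uq⁻¹ = 0) :
    u ^ (n - 1) / uq ∈ V := by
  by_contra hz
  set v := V.valuation with hv
  -- `ζ = u_q / u^(n-1)` is a non-unit
  have hζ : v (uq / u ^ (n - 1)) < 1 := by
    have h1 : ¬ v (u ^ (n - 1) / uq) ≤ 1 := fun hle => hz ((V.valuation_le_one_iff _).mp hle)
    have h2 : 1 < v (u ^ (n - 1) / uq) := not_le.mp h1
    have h3 : uq / u ^ (n - 1) = (u ^ (n - 1) / uq)⁻¹ := by rw [inv_div]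
    rw [h3, map_inv₀]
    exact (inv_lt_one₀ (lt_trans zero_lt_one h2)).mpr h2
  have hvu : v u ≤ 1 := (V.valuation_le_one_iff _).mpr hu
  have hvuq : v uq ≤ 1 := (V.valuation_le_one_iff _).mpr huq
  -- expand the relation
  rw [Polynomial.eval₂_eq_sum_range, hdeg, Finset.sum_range_succ] at h
  have hlead : (Polynomial.aeval (R := ℤ) u⁻¹).toRingHom (Φ.coeff n) = 1 := by
    have : Φ.coeff n = 1 := by rw [← hdeg]; exact hΦ.coeff_natDegree
    rw [this, map_one]
  rw [hlead, one_mul] at h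
  -- multiply by `u_q ^ n`
  have hmain : (∑ k ∈ Finset.range n,
      Polynomial.aeval u⁻¹ (Φ.coeff k) * uq ^ (n - k)) = -1 := by
    have h1 : (∑ k ∈ Finset.range n,
        (Polynomial.aeval (R := ℤ) u⁻¹).toRingHom (Φ.coeff k) * uq⁻¹ ^ k) * uq ^ n
        = ∑ k ∈ Finset.range n, Polynomial.aeval u⁻¹ (Φ.coeff k) * uq ^ (n - k) := by
      rw [Finset.sum_mul]
      refine Finset.sum_congr rfl fun k hk => ?_
      have hk' : k ≤ n := (Finset.mem_range.mp hk).le
      have h2 : uq ^ n = uq ^ (n - k) * uq ^ k := by rw [← pow_add, Nat.sub_add_cancel hk']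
      rw [h2, inv_pow]
      show Polynomial.aeval u⁻¹ (Φ.coeff k) * (uq ^ k)⁻¹ * (uq ^ (n - k) * uq ^ k) = _
      have h3 : uq ^ k ≠ 0 := pow_ne_zero _ huq0
      field_simp
    have h4 : (∑ k ∈ Finset.range n,
        (Polynomial.aeval (R := ℤ) u⁻¹).toRingHom (Φ.coeff k) * uq⁻¹ ^ k) = - uq⁻¹ ^ n :=
      eq_neg_of_add_eq_zero_left h
    rw [← h1, h4, neg_mul, inv_pow, inv_mul_cancel₀ (pow_ne_zero _ huq0)]
  -- every term is a non-unit
  have hζV : uq / u ^ (n - 1) ∈ V := (V.valuation_le_one_iff _).mp hζ.le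
  have hlt : ∀ T : K, T ∈ V → v (uq / u ^ (n - 1) * T) < 1 := by
    intro T hT
    have hT' : v T ≤ 1 := (V.valuation_le_one_iff _).mpr hT
    rw [map_mul]
    calc v (uq / u ^ (n - 1)) * v T ≤ v (uq / u ^ (n - 1)) * 1 := mul_le_mul_right hT' _
      _ < 1 := by rw [mul_one]; exact hζ
  have hterm : ∀ k ∈ Finset.range n,
      v (Polynomial.aeval u⁻¹ (Φ.coeff k) * uq ^ (n - k)) < 1 := by
    intro k hk
    have hkn : k < n := Finset.mem_range.mp hk
    have h3 : u ^ (n - 1) ≠ 0 := pow_ne_zero _ hu0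
    by_cases hk1 : k = n - 1
    · -- degree `≤ n - 1`
      have hb := aeval_inv_mul_pow_mem V hu hu0 (n - 1) (Φ.coeff k) (by rw [hk1]; exact htop)
      have h1 : Polynomial.aeval u⁻¹ (Φ.coeff k) * uq ^ (n - k)
          = (uq / u ^ (n - 1)) * (Polynomial.aeval u⁻¹ (Φ.coeff k) * u ^ (n - 1)) := by
        have h2 : n - k = 1 := by omega
        rw [h2, pow_one]
        field_simp
      rw [h1]
      exact hlt _ hb
    · -- degree `≤ n`, `n - k ≥ 2`
      have hb := aeval_inv_mul_pow_mem V hu hu0 n (Φ.coeff k) (hin k)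
      have hk2 : 2 ≤ n - k := by omega
      have hW : u ^ (n - 2) * uq ^ (n - k - 2) ∈ V := V.mul_mem _ _ (V.pow_mem hu _) (V.pow_mem huq _)
      have h1 : Polynomial.aeval u⁻¹ (Φ.coeff k) * uq ^ (n - k)
          = (uq / u ^ (n - 1)) * ((Polynomial.aeval u⁻¹ (Φ.coeff k) * u ^ n) *
            ((uq / u ^ (n - 1)) * (u ^ (n - 2) * uq ^ (n - k - 2)))) := by
        have h4 : uq ^ (n - k) = uq ^ (n - k - 2) * uq ^ 2 := by
          rw [← pow_add]; congr 1; omega
        have h5 : u ^ n * u ^ (n - 2) = u ^ (n - 1) * u ^ (n - 1) := by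
          rw [← pow_add, ← pow_add]; congr 1; omega
        have h6 : (uq / u ^ (n - 1)) * ((Polynomial.aeval u⁻¹ (Φ.coeff k) * u ^ n) *
            ((uq / u ^ (n - 1)) * (u ^ (n - 2) * uq ^ (n - k - 2))))
            = Polynomial.aeval u⁻¹ (Φ.coeff k) * (uq ^ (n - k - 2) * uq ^ 2) *
              ((u ^ n * u ^ (n - 2)) / (u ^ (n - 1) * u ^ (n - 1))) := by
          field_simp
        rw [h6, h5, div_self (mul_ne_zero h3 h3), mul_one, h4]
      rw [h1]
      exact hlt _ (V.mul_mem _ _ hb (V.mul_mem _ _ hζV hW))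
  have hsum := Valuation.map_sum_lt v (one_ne_zero) hterm
  rw [hmain, Valuation.map_neg, map_one] at hsum
  exact lt_irrefl _ hsum

end Valuative

section NoNode

variable {B : Type*} [CommRing B]

/-- **No node at infinity (abstract).**  If `z ≡ 1` on `C∞`, `y ≡ 1` on `C₀` and
`y z = v ^ k`, `k ≥ 1`, then `v` does not vanish at any common point of `C∞` and `C₀`. -/
theorem not_mem_of_yz {pinf pzero n : Ideal B} (hn : n ≠ ⊤) (h1 : pinf ≤ n) (h2 : pzero ≤ n)
    {y z v : B} {k : ℕ} (hk : 0 < k) (hz : z - 1 ∈ pinf) (hy : y - 1 ∈ pzero)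
    (hyz : y * z = v ^ k) : v ∉ n := by
  intro hv
  apply hn
  rw [Ideal.eq_top_iff_one]
  have h3 : v ^ k ∈ n := n.pow_mem_of_mem hv k hk
  have h4 : y * z - (y * (z - 1) + (y - 1)) ∈ n :=
    n.sub_mem (hyz ▸ h3) (n.add_mem (n.mul_mem_left _ (h1 hz)) (h2 hy))
  have h5 : y * z - (y * (z - 1) + (y - 1)) = 1 := by ring
  rwa [h5] at h4

end NoNode

section LevelSq

variable {A B : Type*} [CommRing A] [CommRing B]

/-- **Points at infinity of level `q²` lie on exactly one component (abstract).**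
`a b : A → B` the two degeneracy maps, `u, u_q ∈ A` (`1/j`, `1/j_q` at level `q`), so that
`a u, a u_q = b u, b u_q` are `1/j, 1/j_q, 1/j_{q²}` at level `q²`.  Hypotheses:
the comap pattern (inclusions only), the Kronecker congruences `u_q - u^e ∈ P1`,
`u - u_q^e ∈ P2` (`e = q`), and "no node at infinity" at level `q`.
Conclusion: a prime of `B` on two components does not contain `1/j · 1/j_q · 1/j_{q²}`. -/
theorem finite_of_two_components (a b : A →+* B) {P1 P2 : Ideal A} {pFF pmid pVV : Ideal B}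
    (aFF : P1 ≤ pFF.comap a) (aVV : P2 ≤ pVV.comap a) (amid : P1 ≤ pmid.comap a)
    (bFF : P1 ≤ pFF.comap b) (bmid : P2 ≤ pmid.comap b) (bVV : P2 ≤ pVV.comap b)
    {u uq : A} {e : ℕ} (he : 0 < e) (hab : a uq = b u)
    (h1 : uq - u ^ e ∈ P1) (h2 : u - uq ^ e ∈ P2)
    (hnode : ∀ N : Ideal A, N.IsPrime → P1 ≤ N → P2 ≤ N → u * uq ∉ N)
    (n : Ideal B) [n.IsPrime]
    (h : (pFF ≤ n ∧ pmid ≤ n) ∨ (pFF ≤ n ∧ pVV ≤ n) ∨ (pmid ≤ n ∧ pVV ≤ n)) :
    a u * a uq * b uq ∉ n := by
  have hprime : n.IsPrime := inferInstance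
  have hNa : (n.comap a).IsPrime := Ideal.comap_isPrime a n
  have hNb : (n.comap b).IsPrime := Ideal.comap_isPrime b n
  have key : ∀ {x y : B}, x * y ∉ n → x ∉ n ∧ y ∉ n := fun {x y} hxy =>
    ⟨fun hx => hxy (n.mul_mem_right _ hx), fun hy => hxy (n.mul_mem_left _ hy)⟩
  have hmul3 : ∀ {x y z : B}, x ∉ n → y ∉ n → z ∉ n → x * y * z ∉ n := by
    intro x y z hx hy hz hxyz
    rcases hprime.mem_or_mem hxyz with hxy | hz'
    · rcases hprime.mem_or_mem hxy with hx' | hy'
      · exact hx hx'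
      · exact hy hy'
    · exact hz hz'
  -- the node property at the two images
  have nodeA : P1 ≤ n.comap a → P2 ≤ n.comap a → a u ∉ n ∧ a uq ∉ n := fun hP1 hP2 => by
    have ha : u * uq ∉ n.comap a := hnode _ hNa hP1 hP2
    exact key fun hmem => ha (by rw [Ideal.mem_comap, map_mul]; exact hmem)
  have nodeB : P1 ≤ n.comap b → P2 ≤ n.comap b → b u ∉ n ∧ b uq ∉ n := fun hP1 hP2 => by
    have hb : u * uq ∉ n.comap b := hnode _ hNb hP1 hP2
    exact key fun hmem => hb (by rw [Ideal.mem_comap, map_mul]; exact hmem)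
  rcases h with ⟨hFF, hmid⟩ | ⟨hFF, hVV⟩ | ⟨hmid, hVV⟩
  · -- `FF ∩ mid`: the `β`-image is a node; `1/j ∉ n` from `u_q ≡ u^e` on `FF` (via `α`)
    obtain ⟨hbu, hbuq⟩ :=
      nodeB (bFF.trans (Ideal.comap_mono hFF)) (bmid.trans (Ideal.comap_mono hmid))
    have hau : a u ∉ n := by
      intro hmem
      have h3 : a (uq - u ^ e) ∈ n := hFF (aFF h1)
      rw [map_sub, map_pow] at h3
      have h6 : a u ^ e ∈ n := n.pow_mem_of_mem hmem e he
      have h7 : a uq ∈ n := by
        have := n.add_mem h3 h6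
        simpa using this
      exact hbu (hab ▸ h7)
    exact hmul3 hau (hab ▸ hbu) hbuq
  · -- `FF ∩ VV`: both images are nodes
    obtain ⟨hau, hauq⟩ :=
      nodeA (aFF.trans (Ideal.comap_mono hFF)) (aVV.trans (Ideal.comap_mono hVV))
    obtain ⟨-, hbuq⟩ :=
      nodeB (bFF.trans (Ideal.comap_mono hFF)) (bVV.trans (Ideal.comap_mono hVV))
    exact hmul3 hau hauq hbuq
  · -- `mid ∩ VV`: the `α`-image is a node; `1/j_{q²} ∉ n` from `u ≡ u_q^e` on `VV` (via `β`)
    obtain ⟨hau, hauq⟩ :=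
      nodeA (amid.trans (Ideal.comap_mono hmid)) (aVV.trans (Ideal.comap_mono hVV))
    have hbuq : b uq ∉ n := by
      intro hmem
      have h3 : b (u - uq ^ e) ∈ n := hVV (bVV h2)
      rw [map_sub, map_pow] at h3
      have h6 : b uq ^ e ∈ n := n.pow_mem_of_mem hmem e he
      have h7 : b u ∈ n := by
        have := n.add_mem h3 h6
        simpa using this
      exact hauq (hab.symm ▸ h7)
    exact hmul3 hau hauq hbuq

end LevelSq

end Fermat.Agent.Ribet.H399.NoNode

end
-- ===== PACK-END Ribet/H399/CuspInfinity.lean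

-- ===== PACK-BEGIN A2/H672/RelLength.lean
section



/-!
# A2 / node purity (helper672): relative lengths of ideals

`relLen A B` is the length of the `R`-module `B ⧸ (A ∩ B)` for two ideals (submodules) `A, B`.
We prove additivity along chains (`relLen_add`), invariance under a linear map which induces a
bijection of the subquotients (`relLen_eq_of_map`) and the inequality for surjections
(`relLen_le_of_map`).  Everything is elementwise, so that no exact sequences have to be
manipulated by the user.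
-/

set_option autoImplicit false

namespace Fermat.Agent.A2.H672

variable {R : Type*} [CommRing R]
variable {M : Type*} [AddCommGroup M] [Module R M]
variable {M' : Type*} [AddCommGroup M'] [Module R M']

/-- The length of the subquotient `B ⧸ (A ∩ B)`. -/
noncomputable def relLen (A B : Submodule R M) : ℕ∞ :=
  Module.length R (↥B ⧸ A.submoduleOf B)

theorem relLen_self (A : Submodule R M) : relLen A A = 0 := by
  unfold relLen
  rw [Module.length_eq_zero_iff, Submodule.Quotient.subsingleton_iff,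
    Submodule.submoduleOf_self]

theorem relLen_eq_zero_of_le {A B : Submodule R M} (h : B ≤ A) : relLen A B = 0 := by
  unfold relLen
  rw [Module.length_eq_zero_iff, Submodule.Quotient.subsingleton_iff,
    Submodule.submoduleOf_eq_top]
  exact h

theorem relLen_eq_zero_iff {A B : Submodule R M} : relLen A B = 0 ↔ B ≤ A := by
  unfold relLen
  rw [Module.length_eq_zero_iff, Submodule.Quotient.subsingleton_iff,
    Submodule.submoduleOf_eq_top]

/-- The comparison map of subquotients induced by a linear map. -/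
noncomputable def subquotMap (f : M →ₗ[R] M') {A B : Submodule R M} {A' B' : Submodule R M'}
    (h1 : ∀ b ∈ B, f b ∈ B') (h2 : ∀ b ∈ B, b ∈ A → f b ∈ A') :
    (↥B ⧸ A.submoduleOf B) →ₗ[R] (↥B' ⧸ A'.submoduleOf B') :=
  Submodule.mapQ (A.submoduleOf B) (A'.submoduleOf B') (f.restrict h1) (by
    rintro ⟨x, hx⟩ hxA
    exact h2 x hx hxA)

theorem subquotMap_mk (f : M →ₗ[R] M') {A B : Submodule R M} {A' B' : Submodule R M'}
    (h1 : ∀ b ∈ B, f b ∈ B') (h2 : ∀ b ∈ B, b ∈ A → f b ∈ A') (x : B) :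
    subquotMap f h1 h2 (Submodule.Quotient.mk x) =
      Submodule.Quotient.mk ⟨f x, h1 x x.2⟩ := rfl

theorem subquotMap_surjective (f : M →ₗ[R] M') {A B : Submodule R M} {A' B' : Submodule R M'}
    (h1 : ∀ b ∈ B, f b ∈ B') (h2 : ∀ b ∈ B, b ∈ A → f b ∈ A')
    (h3 : ∀ b' ∈ B', ∃ b ∈ B, b' - f b ∈ A') :
    Function.Surjective (subquotMap f h1 h2) := by
  intro y
  obtain ⟨⟨y, hy⟩, rfl⟩ := Submodule.Quotient.mk_surjective _ y
  obtain ⟨b, hb, hby⟩ := h3 y hy
  refine ⟨Submodule.Quotient.mk ⟨b, hb⟩, ?_⟩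
  rw [subquotMap_mk, Submodule.Quotient.eq]
  show (f b - y) ∈ A'
  have : f b - y = -(y - f b) := by abel
  rw [this]
  exact A'.neg_mem hby

theorem subquotMap_injective (f : M →ₗ[R] M') {A B : Submodule R M} {A' B' : Submodule R M'}
    (h1 : ∀ b ∈ B, f b ∈ B') (h2 : ∀ b ∈ B, b ∈ A → f b ∈ A')
    (h4 : ∀ b ∈ B, f b ∈ A' → b ∈ A) :
    Function.Injective (subquotMap f h1 h2) := by
  rw [← LinearMap.ker_eq_bot, LinearMap.ker_eq_bot']
  intro x hx
  obtain ⟨⟨x, hxB⟩, rfl⟩ := Submodule.Quotient.mk_surjective _ x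
  rw [subquotMap_mk, Submodule.Quotient.mk_eq_zero] at hx
  rw [Submodule.Quotient.mk_eq_zero]
  exact h4 x hxB hx

/-- A linear map inducing a surjection of subquotients decreases the relative length. -/
theorem relLen_le_of_map (f : M →ₗ[R] M') {A B : Submodule R M} {A' B' : Submodule R M'}
    (h1 : ∀ b ∈ B, f b ∈ B') (h2 : ∀ b ∈ B, b ∈ A → f b ∈ A')
    (h3 : ∀ b' ∈ B', ∃ b ∈ B, b' - f b ∈ A') : relLen A' B' ≤ relLen A B :=
  Module.length_le_of_surjective _ (subquotMap_surjective f h1 h2 h3)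

/-- A linear map inducing a bijection of subquotients preserves the relative length. -/
theorem relLen_eq_of_map (f : M →ₗ[R] M') {A B : Submodule R M} {A' B' : Submodule R M'}
    (h1 : ∀ b ∈ B, f b ∈ B') (h2 : ∀ b ∈ B, f b ∈ A' ↔ b ∈ A)
    (h3 : ∀ b' ∈ B', ∃ b ∈ B, b' - f b ∈ A') : relLen A B = relLen A' B' :=
  (LinearEquiv.ofBijective (subquotMap f h1 fun b hb hbA => (h2 b hb).2 hbA)
    ⟨subquotMap_injective f h1 _ fun b hb h => (h2 b hb).1 h,
      subquotMap_surjective f h1 _ h3⟩).length_eq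

/-- Monotonicity in the big ideal. -/
theorem relLen_mono_right (A : Submodule R M) {B C : Submodule R M} (h : B ≤ C) :
    relLen A B ≤ relLen A C :=
  Module.length_le_of_injective (subquotMap LinearMap.id (fun _ hb => h hb) fun _ _ hb => hb)
    (subquotMap_injective _ _ _ fun _ _ hb => hb)

/-- Antitonicity in the small ideal. -/
theorem relLen_anti_left {A A' : Submodule R M} (B : Submodule R M) (h : A ≤ A') :
    relLen A' B ≤ relLen A B :=
  relLen_le_of_map LinearMap.id (fun _ hb => hb) (fun _ _ hb => h hb)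
    fun b hb => ⟨b, hb, by simp⟩

/-- Additivity of the relative length along a chain `A ≤ B ≤ C`. -/
theorem relLen_add {A B C : Submodule R M} (hAB : A ≤ B) (hBC : B ≤ C) :
    relLen A C = relLen A B + relLen B C := by
  unfold relLen
  refine Module.length_eq_add_of_exact
    (subquotMap LinearMap.id (fun b hb => hBC hb) fun _ _ hb => hb)
    (subquotMap LinearMap.id (fun _ hb => hb) fun _ _ hb => hAB hb)
    (subquotMap_injective _ _ _ fun _ _ hb => hb)
    (subquotMap_surjective _ _ _ fun b hb => ⟨b, hb, by simp⟩) ?_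
  intro x
  obtain ⟨⟨x, hxC⟩, rfl⟩ := Submodule.Quotient.mk_surjective _ x
  rw [subquotMap_mk, Submodule.Quotient.mk_eq_zero]
  constructor
  · intro hx
    exact ⟨Submodule.Quotient.mk ⟨x, hx⟩, rfl⟩
  · rintro ⟨y, hy⟩
    obtain ⟨⟨y, hyB⟩, rfl⟩ := Submodule.Quotient.mk_surjective _ y
    rw [subquotMap_mk, Submodule.Quotient.eq] at hy
    have h1 : y - x ∈ A := hy
    show x ∈ B
    have : x = y - (y - x) := by abel
    rw [this]
    exact B.sub_mem hyB (hAB h1)

/-- The relative length of `⊤` over `A` is the length of the quotient. -/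
theorem relLen_top (A : Submodule R M) : relLen A ⊤ = Module.length R (M ⧸ A) := by
  unfold relLen
  refine LinearEquiv.length_eq (LinearEquiv.ofBijective
    (Submodule.mapQ (A.submoduleOf ⊤) A (⊤ : Submodule R M).subtype (fun x hx => hx)) ⟨?_, ?_⟩)
  · rw [← LinearMap.ker_eq_bot, LinearMap.ker_eq_bot']
    intro x hx
    obtain ⟨⟨x, hxB⟩, rfl⟩ := Submodule.Quotient.mk_surjective _ x
    have hx' : (Submodule.Quotient.mk x : M ⧸ A) = 0 := hx
    rw [Submodule.Quotient.mk_eq_zero] at hx'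
    rw [Submodule.Quotient.mk_eq_zero]
    exact hx'
  · intro y
    obtain ⟨y, rfl⟩ := Submodule.Quotient.mk_surjective _ y
    exact ⟨Submodule.Quotient.mk ⟨y, trivial⟩, rfl⟩

end Fermat.Agent.A2.H672

end
-- ===== PACK-END A2/H672/RelLength.lean

-- ===== PACK-BEGIN S28/H628/Hermite.lean
section
/-
S28 long-shot, helper628: Hermite normal form for `diag(d,1) * γ`, `γ ∈ SL(2,ℤ)`.

Pure integer-matrix statement + the corollary for the action on the upper half plane.
Mathlib only.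
-/


set_option autoImplicit false

noncomputable section

namespace Fermat.Agent.S28.H628

open Matrix MatrixGroups UpperHalfPlane

/-- **Hermite normal form** (integer matrices).  For `γ ∈ SL(2,ℤ)` and `d ≥ 1` there are
`γ' ∈ SL(2,ℤ)` and natural numbers `a, b, d'` with `a * d' = d`, `b < d'`,
`a = gcd(d, γ₁₀)`, `gcd(a, b, d') = 1` and
`diag(d,1) * γ = γ' * [[a, b], [0, d']]`. -/
theorem hermite_int (γ : SL(2, ℤ)) (d : ℕ) (hd : 0 < d) :
    ∃ (γ' : SL(2, ℤ)) (a b d' : ℕ), a * d' = d ∧ b < d' ∧ a = Nat.gcd d (γ 1 0).natAbs ∧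
      Nat.gcd a (Nat.gcd b d') = 1 ∧
      (d' : ℤ) ∣ (γ 1 0 / (a : ℤ)) * b - γ 1 1 ∧
      (!![(d : ℤ), 0; 0, 1] : Matrix (Fin 2) (Fin 2) ℤ) * (γ : Matrix (Fin 2) (Fin 2) ℤ)
        = (γ' : Matrix (Fin 2) (Fin 2) ℤ) * !![(a : ℤ), (b : ℤ); 0, (d' : ℤ)] := by
  -- entries of γ
  set A : ℤ := γ 0 0 with hA
  set B : ℤ := γ 0 1 with hB
  set C : ℤ := γ 1 0 with hC
  set D : ℤ := γ 1 1 with hD
  have hdet : A * D - B * C = 1 := by
    have := γ.det_coe
    rw [Matrix.det_fin_two] at this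
    simpa [hA, hB, hC, hD] using this
  -- the gcd
  set g : ℕ := Nat.gcd d C.natAbs with hg
  have hgpos : 0 < g := Nat.gcd_pos_of_pos_left _ hd
  obtain ⟨d', hd'⟩ : g ∣ d := Nat.gcd_dvd_left _ _
  have hgC : (g : ℤ) ∣ C := by
    have : g ∣ C.natAbs := Nat.gcd_dvd_right _ _
    exact Int.natCast_dvd.mpr this
  obtain ⟨C', hC'⟩ := hgC
  have hd'pos : 0 < d' := by
    rcases Nat.eq_zero_or_pos d' with h | h
    · rw [h, mul_zero] at hd'; omega
    · exact h
  -- coprimality of d' and C'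
  have hcop1 : IsCoprime (d' : ℤ) C' := by
    have h1 : Nat.gcd d C.natAbs = g := rfl
    have h2 : Nat.Coprime (d / g) (C.natAbs / g) := Nat.coprime_div_gcd_div_gcd hgpos
    have h3 : d / g = d' := by rw [hd']; exact Nat.mul_div_cancel_left _ hgpos
    have h4 : C.natAbs / g = C'.natAbs := by
      rw [hC', Int.natAbs_mul, Int.natAbs_natCast]; exact Nat.mul_div_cancel_left _ hgpos
    rw [h3, h4] at h2
    rw [Int.isCoprime_iff_gcd_eq_one]
    show Nat.gcd (d' : ℤ).natAbs C'.natAbs = 1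
    rw [Int.natAbs_natCast]
    exact h2
  have hcop2 : IsCoprime A C' := by
    refine ⟨D, -(B * g), ?_⟩
    rw [hC'] at hdet
    linear_combination hdet
  have hcop : IsCoprime ((d' : ℤ) * A) C' := IsCoprime.mul_left hcop1 hcop2
  obtain ⟨u, v, huv⟩ := hcop
  -- the (0,1) entry before reduction
  set B' : ℤ := u * (d * B) + v * D with hB'
  set k : ℤ := B' / (d' : ℤ) with hk
  set b : ℤ := B' % (d' : ℤ) with hb
  have hd'z : (0 : ℤ) < d' := by exact_mod_cast hd'pos
  have hb0 : 0 ≤ b := Int.emod_nonneg _ hd'z.ne'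
  have hb1 : b < d' := Int.emod_lt_of_pos _ hd'z
  have hBb : B' = b + k * d' := by
    rw [hb, hk]; have := Int.emod_add_mul_ediv B' (d' : ℤ); linarith
  have hdz : (d : ℤ) = g * d' := by exact_mod_cast hd'
  -- key relation
  have hkey : C' * (d : ℤ) * B - (d' : ℤ) * A * D + d' = 0 := by
    have : C' * (d : ℤ) * B - (d' : ℤ) * A * D + d' = (d' : ℤ) * (1 - (A * D - B * C)) := by
      rw [hC', hdz]; ring
    rw [this, hdet]; ring
  -- build γ'
  have hdet' : (!![(d' : ℤ) * A, (d' : ℤ) * A * k - v; C', C' * k + u]).det = 1 := by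
    rw [Matrix.det_fin_two]
    simp only [Matrix.of_apply, Matrix.cons_val', Matrix.cons_val_zero, Matrix.cons_val_one,
      Matrix.empty_val', Matrix.cons_val_fin_one]
    linear_combination huv
  refine ⟨⟨!![(d' : ℤ) * A, (d' : ℤ) * A * k - v; C', C' * k + u], hdet'⟩, g, b.toNat, d',
    hd'.symm, ?_, rfl, ?_, ?_, ?_⟩
  · -- b < d'
    have : (b.toNat : ℤ) = b := Int.toNat_of_nonneg hb0
    exact_mod_cast this ▸ hb1
  · -- gcd (g, b, d') = 1
    have hbn : (b.toNat : ℤ) = b := Int.toNat_of_nonneg hb0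
    set e : ℕ := Nat.gcd g (Nat.gcd b.toNat d') with he
    have he1 : (e : ℤ) ∣ g := Int.natCast_dvd_natCast.mpr (Nat.gcd_dvd_left _ _)
    have he2 : (e : ℤ) ∣ b := by
      rw [← hbn]
      exact Int.natCast_dvd_natCast.mpr ((Nat.gcd_dvd_right _ _).trans (Nat.gcd_dvd_left _ _))
    have he3 : (e : ℤ) ∣ d' :=
      Int.natCast_dvd_natCast.mpr ((Nat.gcd_dvd_right _ _).trans (Nat.gcd_dvd_right _ _))
    have heC : (e : ℤ) ∣ C := by rw [hC']; exact Dvd.dvd.mul_right he1 _
    have heD : (e : ℤ) ∣ D := by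
      have hDeq : D = C' * b + (C' * k + u) * d' := by
        have h1 : C' * B' + u * d' = D := by
          rw [hB']
          linear_combination u * hkey + D * huv
        rw [← h1, hBb]; ring
      rw [hDeq]
      exact dvd_add (Dvd.dvd.mul_left he2 _) (Dvd.dvd.mul_left he3 _)
    have he1' : (e : ℤ) ∣ 1 := by
      rw [← hdet]
      exact dvd_sub (Dvd.dvd.mul_left heD _) (Dvd.dvd.mul_left heC _)
    have : e ∣ 1 := by exact_mod_cast he1'
    exact Nat.dvd_one.mp this
  · -- the congruence determining `b`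
    have hbn : (b.toNat : ℤ) = b := Int.toNat_of_nonneg hb0
    rw [hbn]
    have hCg : C / (g : ℤ) = C' := by
      rw [hC']; exact Int.mul_ediv_cancel_left _ (by exact_mod_cast hgpos.ne')
    rw [hCg]
    have hDeq : D = C' * b + (C' * k + u) * d' := by
      have h1 : C' * B' + u * d' = D := by
        rw [hB']
        linear_combination u * hkey + D * huv
      rw [← h1, hBb]; ring
    refine ⟨-(C' * k + u), ?_⟩
    linear_combination (-1 : ℤ) * hDeq
  · -- the matrix identity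
    have hbn : (b.toNat : ℤ) = b := Int.toNat_of_nonneg hb0
    rw [hbn]
    have e00 : (d : ℤ) * A = (d' : ℤ) * A * g := by rw [hdz]; ring
    have e10 : C = C' * g := by rw [hC']; ring
    have e01 : (d : ℤ) * B = (d' : ℤ) * A * b + ((d' : ℤ) * A * k - v) * d' := by
      have h1 : (d' : ℤ) * A * B' - v * d' = d * B := by
        rw [hB']
        linear_combination (-v) * hkey + (d : ℤ) * B * huv
      rw [← h1, hBb]; ring
    have e11 : D = C' * b + (C' * k + u) * d' := by
      have h1 : C' * B' + u * d' = D := by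
        rw [hB']
        linear_combination u * hkey + D * huv
      rw [← h1, hBb]; ring
    ext i j
    fin_cases i <;> fin_cases j
    · simpa [Matrix.mul_apply, Fin.sum_univ_two] using e00
    · simpa [Matrix.mul_apply, Fin.sum_univ_two] using e01
    · simpa [Matrix.mul_apply, Fin.sum_univ_two] using e10
    · simpa [Matrix.mul_apply, Fin.sum_univ_two] using e11

/-! ### Canonical Hermite data `(hermA, hermB, hermD)` attached to `(d, γ)` -/

/-- `a = gcd(d, γ₁₀)`. -/
def hermA (d : ℕ) (γ : SL(2, ℤ)) : ℕ := Nat.gcd d (γ 1 0).natAbs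

/-- `d' = d / a`. -/
def hermD (d : ℕ) (γ : SL(2, ℤ)) : ℕ := d / hermA d γ

/-- The property characterising `b`: `b < d'` and `(γ₁₀ / a) * b ≡ γ₁₁ (mod d')`. -/
def HermBProp (d : ℕ) (γ : SL(2, ℤ)) (b : ℕ) : Prop :=
  b < hermD d γ ∧ (hermD d γ : ℤ) ∣ (γ 1 0 / (hermA d γ : ℤ)) * b - γ 1 1

open Classical in
/-- Auxiliary: some natural number satisfying `P` (or `0` if there is none). -/
def chooseNatOr0 (P : ℕ → Prop) : ℕ :=
  if h : ∃ b, P b then Classical.choose h else 0

theorem chooseNatOr0_spec {P : ℕ → Prop} (h : ∃ b, P b) : P (chooseNatOr0 P) := by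
  unfold chooseNatOr0
  rw [dif_pos h]
  exact Classical.choose_spec h

/-- `b` = the unique residue `< d'` with `(γ₁₀ / a) * b ≡ γ₁₁ (mod d')` (and `0` if `d = 0`). -/
def hermB (d : ℕ) (γ : SL(2, ℤ)) : ℕ := chooseNatOr0 (HermBProp d γ)

theorem hermA_dvd (d : ℕ) (γ : SL(2, ℤ)) : hermA d γ ∣ d := Nat.gcd_dvd_left _ _

theorem hermA_pos {d : ℕ} (hd : 0 < d) (γ : SL(2, ℤ)) : 0 < hermA d γ :=
  Nat.gcd_pos_of_pos_left _ hd

theorem hermA_mul_hermD (d : ℕ) (γ : SL(2, ℤ)) : hermA d γ * hermD d γ = d :=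
  Nat.mul_div_cancel' (hermA_dvd d γ)

theorem hermD_pos {d : ℕ} (hd : 0 < d) (γ : SL(2, ℤ)) : 0 < hermD d γ := by
  rcases Nat.eq_zero_or_pos (hermD d γ) with h | h
  · have := hermA_mul_hermD d γ
    rw [h, mul_zero] at this; omega
  · exact h

theorem hermD_dvd (d : ℕ) (γ : SL(2, ℤ)) : hermD d γ ∣ d :=
  ⟨hermA d γ, by rw [mul_comm]; exact (hermA_mul_hermD d γ).symm⟩

theorem hermA_cast_dvd (d : ℕ) (γ : SL(2, ℤ)) : (hermA d γ : ℤ) ∣ γ 1 0 :=
  Int.natCast_dvd.mpr (Nat.gcd_dvd_right _ _)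

theorem herm_isCoprime {d : ℕ} (hd : 0 < d) (γ : SL(2, ℤ)) :
    IsCoprime (hermD d γ : ℤ) (γ 1 0 / (hermA d γ : ℤ)) := by
  have hgpos := hermA_pos hd γ
  obtain ⟨C', hC'⟩ := hermA_cast_dvd d γ
  have hCg : γ 1 0 / (hermA d γ : ℤ) = C' := by
    rw [hC']; exact Int.mul_ediv_cancel_left _ (by exact_mod_cast hgpos.ne')
  rw [hCg]
  have h2 : Nat.Coprime (d / hermA d γ) ((γ 1 0).natAbs / hermA d γ) :=
    Nat.coprime_div_gcd_div_gcd hgpos
  have h4 : (γ 1 0).natAbs / hermA d γ = C'.natAbs := by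
    rw [hC', Int.natAbs_mul, Int.natAbs_natCast]; exact Nat.mul_div_cancel_left _ hgpos
  rw [h4] at h2
  rw [Int.isCoprime_iff_gcd_eq_one]
  show Nat.gcd (hermD d γ : ℤ).natAbs C'.natAbs = 1
  rw [Int.natAbs_natCast]
  exact h2

theorem hermBProp_unique {d : ℕ} (hd : 0 < d) (γ : SL(2, ℤ)) {b₁ b₂ : ℕ}
    (h₁ : HermBProp d γ b₁) (h₂ : HermBProp d γ b₂) : b₁ = b₂ := by
  obtain ⟨h₁l, h₁d⟩ := h₁
  obtain ⟨h₂l, h₂d⟩ := h₂
  have hcop := herm_isCoprime hd γ
  have hdvd : (hermD d γ : ℤ) ∣ (γ 1 0 / (hermA d γ : ℤ)) * ((b₁ : ℤ) - b₂) := by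
    have := dvd_sub h₁d h₂d
    have e : (γ 1 0 / (hermA d γ : ℤ)) * ((b₁ : ℤ) - b₂)
        = (γ 1 0 / (hermA d γ : ℤ)) * b₁ - γ 1 1 - ((γ 1 0 / (hermA d γ : ℤ)) * b₂ - γ 1 1) := by
      ring
    rw [e]; exact this
  have hdvd' : (hermD d γ : ℤ) ∣ (b₁ : ℤ) - b₂ := hcop.dvd_of_dvd_mul_left hdvd
  have := Int.eq_of_sub_eq_zero (Int.eq_zero_of_abs_lt_dvd hdvd' (by
    rw [abs_lt]; constructor <;> omega))
  exact_mod_cast this

theorem hermite_exists_hermBProp {d : ℕ} (hd : 0 < d) (γ : SL(2, ℤ)) :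
    ∃ b, HermBProp d γ b ∧ Nat.gcd (hermA d γ) (Nat.gcd b (hermD d γ)) = 1 ∧
      ∃ γ' : SL(2, ℤ),
        (!![(d : ℤ), 0; 0, 1] : Matrix (Fin 2) (Fin 2) ℤ) * (γ : Matrix (Fin 2) (Fin 2) ℤ)
          = (γ' : Matrix (Fin 2) (Fin 2) ℤ) *
            !![(hermA d γ : ℤ), (b : ℤ); 0, (hermD d γ : ℤ)] := by
  obtain ⟨γ', a, b, d', had, hb, ha, hgcd, hdvd, hmat⟩ := hermite_int γ d hd
  have haA : a = hermA d γ := ha
  have hdD : d' = hermD d γ := by
    have h1 := hermA_mul_hermD d γ
    rw [← haA] at h1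
    have hapos : 0 < a := haA ▸ hermA_pos hd γ
    exact Nat.eq_of_mul_eq_mul_left hapos (had.trans h1.symm)
  subst haA
  subst hdD
  exact ⟨b, ⟨hb, hdvd⟩, hgcd, γ', hmat⟩

theorem hermBProp_hermB {d : ℕ} (hd : 0 < d) (γ : SL(2, ℤ)) : HermBProp d γ (hermB d γ) := by
  have h : ∃ b, HermBProp d γ b := by
    obtain ⟨b, hb, -⟩ := hermite_exists_hermBProp hd γ
    exact ⟨b, hb⟩
  exact chooseNatOr0_spec h

theorem hermB_lt {d : ℕ} (hd : 0 < d) (γ : SL(2, ℤ)) : hermB d γ < hermD d γ :=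
  (hermBProp_hermB hd γ).1

theorem hermB_dvd {d : ℕ} (hd : 0 < d) (γ : SL(2, ℤ)) :
    (hermD d γ : ℤ) ∣ (γ 1 0 / (hermA d γ : ℤ)) * hermB d γ - γ 1 1 :=
  (hermBProp_hermB hd γ).2

theorem hermB_eq_of_prop {d : ℕ} (hd : 0 < d) (γ : SL(2, ℤ)) {b : ℕ} (hb : HermBProp d γ b) :
    hermB d γ = b :=
  hermBProp_unique hd γ (hermBProp_hermB hd γ) hb

/-- **Hermite normal form, canonical data.**  `diag(d,1) * γ = γ' * [[a,b],[0,d']]` with
`(a,b,d') = (hermA d γ, hermB d γ, hermD d γ)`. -/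
theorem hermite_spec {d : ℕ} (hd : 0 < d) (γ : SL(2, ℤ)) :
    ∃ γ' : SL(2, ℤ),
      (!![(d : ℤ), 0; 0, 1] : Matrix (Fin 2) (Fin 2) ℤ) * (γ : Matrix (Fin 2) (Fin 2) ℤ)
        = (γ' : Matrix (Fin 2) (Fin 2) ℤ) *
          !![(hermA d γ : ℤ), (hermB d γ : ℤ); 0, (hermD d γ : ℤ)] := by
  obtain ⟨b, hb, -, γ', hmat⟩ := hermite_exists_hermBProp hd γ
  rw [hermB_eq_of_prop hd γ hb]
  exact ⟨γ', hmat⟩

theorem herm_gcd {d : ℕ} (hd : 0 < d) (γ : SL(2, ℤ)) :
    Nat.gcd (hermA d γ) (Nat.gcd (hermB d γ) (hermD d γ)) = 1 := by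
  obtain ⟨b, hb, hg, -⟩ := hermite_exists_hermBProp hd γ
  rw [hermB_eq_of_prop hd γ hb]
  exact hg

/-- The Hermite data depend only on the bottom row of `γ`. -/
theorem herm_congr_bottom (d : ℕ) {γ₁ γ₂ : SL(2, ℤ)} (h0 : γ₁ 1 0 = γ₂ 1 0)
    (h1 : γ₁ 1 1 = γ₂ 1 1) :
    hermA d γ₁ = hermA d γ₂ ∧ hermB d γ₁ = hermB d γ₂ ∧ hermD d γ₁ = hermD d γ₂ := by
  have hA : hermA d γ₁ = hermA d γ₂ := by unfold hermA; rw [h0]
  have hD : hermD d γ₁ = hermD d γ₂ := by unfold hermD; rw [hA]
  have hP : ∀ b, HermBProp d γ₁ b ↔ HermBProp d γ₂ b := by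
    intro b; unfold HermBProp; rw [hA, hD, h0, h1]
  refine ⟨hA, ?_, hD⟩
  unfold hermB
  have hP' : HermBProp d γ₁ = HermBProp d γ₂ := funext fun b => propext (hP b)
  rw [hP']

/-- Identity element: `(a, b, d') = (d, 0, 1)`. -/
theorem herm_one {d : ℕ} (hd : 0 < d) :
    hermA d (1 : SL(2, ℤ)) = d ∧ hermB d (1 : SL(2, ℤ)) = 0 ∧ hermD d (1 : SL(2, ℤ)) = 1 := by
  have hA : hermA d (1 : SL(2, ℤ)) = d := by simp [hermA]
  have hD : hermD d (1 : SL(2, ℤ)) = 1 := by
    unfold hermD; rw [hA]; exact Nat.div_self hd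
  refine ⟨hA, ?_, hD⟩
  have := hermB_lt hd (1 : SL(2, ℤ))
  rw [hD] at this
  omega

/-! ### Independence of the coset `Γ₀(N) γ` -/

theorem herm_Gamma0_mul {N d : ℕ} (hd : 0 < d) (hdN : d ∣ N) {γ₀ : SL(2, ℤ)}
    (hγ₀ : γ₀ ∈ CongruenceSubgroup.Gamma0 N) (γ : SL(2, ℤ)) :
    hermA d (γ₀ * γ) = hermA d γ ∧ hermB d (γ₀ * γ) = hermB d γ ∧
      hermD d (γ₀ * γ) = hermD d γ := by
  -- entries
  have hN : (N : ℤ) ∣ γ₀ 1 0 := by
    rw [CongruenceSubgroup.Gamma0_mem] at hγ₀
    exact (ZMod.intCast_zmod_eq_zero_iff_dvd _ _).mp hγ₀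
  have hdc0 : (d : ℤ) ∣ γ₀ 1 0 := (Int.natCast_dvd_natCast.mpr hdN).trans hN
  have hdet0 : γ₀ 0 0 * γ₀ 1 1 - γ₀ 0 1 * γ₀ 1 0 = 1 := by
    have := γ₀.det_coe
    rw [Matrix.det_fin_two] at this
    exact this
  have hcop0 : IsCoprime (γ₀ 1 1) (d : ℤ) := by
    obtain ⟨m, hm⟩ := hdc0
    refine ⟨γ₀ 0 0, -(γ₀ 0 1 * m), ?_⟩
    rw [hm] at hdet0
    linear_combination hdet0
  have e10 : (γ₀ * γ) 1 0 = γ₀ 1 0 * γ 0 0 + γ₀ 1 1 * γ 1 0 := by
    simp [Matrix.SpecialLinearGroup.coe_mul, Matrix.mul_apply, Fin.sum_univ_two]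
  have e11 : (γ₀ * γ) 1 1 = γ₀ 1 0 * γ 0 1 + γ₀ 1 1 * γ 1 1 := by
    simp [Matrix.SpecialLinearGroup.coe_mul, Matrix.mul_apply, Fin.sum_univ_two]
  -- hermA
  have hA : hermA d (γ₀ * γ) = hermA d γ := by
    unfold hermA
    apply Nat.dvd_antisymm
    · apply Nat.dvd_gcd (Nat.gcd_dvd_left _ _)
      have h1 : ((Nat.gcd d ((γ₀ * γ) 1 0).natAbs : ℕ) : ℤ) ∣ (γ₀ * γ) 1 0 :=
        Int.natCast_dvd.mpr (Nat.gcd_dvd_right _ _)
      have h2 : ((Nat.gcd d ((γ₀ * γ) 1 0).natAbs : ℕ) : ℤ) ∣ (d : ℤ) :=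
        Int.natCast_dvd_natCast.mpr (Nat.gcd_dvd_left _ _)
      have h3 : ((Nat.gcd d ((γ₀ * γ) 1 0).natAbs : ℕ) : ℤ) ∣ γ₀ 1 1 * γ 1 0 := by
        have : γ₀ 1 1 * γ 1 0 = (γ₀ * γ) 1 0 - γ₀ 1 0 * γ 0 0 := by rw [e10]; ring
        rw [this]
        exact dvd_sub h1 (Dvd.dvd.mul_right (h2.trans hdc0) _)
      have h4 : IsCoprime ((Nat.gcd d ((γ₀ * γ) 1 0).natAbs : ℕ) : ℤ) (γ₀ 1 1) :=
        (hcop0.of_isCoprime_of_dvd_right h2).symm
      have h5 := h4.dvd_of_dvd_mul_left h3
      exact Int.natCast_dvd.mp h5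
    · apply Nat.dvd_gcd (Nat.gcd_dvd_left _ _)
      have h1 : ((Nat.gcd d (γ 1 0).natAbs : ℕ) : ℤ) ∣ γ 1 0 :=
        Int.natCast_dvd.mpr (Nat.gcd_dvd_right _ _)
      have h2 : ((Nat.gcd d (γ 1 0).natAbs : ℕ) : ℤ) ∣ (d : ℤ) :=
        Int.natCast_dvd_natCast.mpr (Nat.gcd_dvd_left _ _)
      have h3 : ((Nat.gcd d (γ 1 0).natAbs : ℕ) : ℤ) ∣ (γ₀ * γ) 1 0 := by
        rw [e10]
        exact dvd_add (Dvd.dvd.mul_right (h2.trans hdc0) _) (Dvd.dvd.mul_left h1 _)
      exact Int.natCast_dvd.mp h3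
  have hD : hermD d (γ₀ * γ) = hermD d γ := by unfold hermD; rw [hA]
  refine ⟨hA, ?_, hD⟩
  -- hermB
  apply hermB_eq_of_prop hd
  have hP := hermBProp_hermB hd γ
  refine ⟨by rw [hD]; exact hP.1, ?_⟩
  rw [hD, hA]
  have hapos : (0 : ℤ) < hermA d γ := by exact_mod_cast hermA_pos hd γ
  obtain ⟨C', hC'⟩ := hermA_cast_dvd d γ
  have hCg : γ 1 0 / (hermA d γ : ℤ) = C' := by
    rw [hC']; exact Int.mul_ediv_cancel_left _ hapos.ne'
  have hP2 := hP.2
  rw [hCg] at hP2
  -- `γ₀ 1 0 = a * d' * m`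
  obtain ⟨m, hm⟩ := hdc0
  have hdz : (d : ℤ) = hermA d γ * hermD d γ := by exact_mod_cast (hermA_mul_hermD d γ).symm
  have hquot : (γ₀ * γ) 1 0 / (hermA d γ : ℤ) = (hermD d γ : ℤ) * m * γ 0 0 + γ₀ 1 1 * C' := by
    have : (γ₀ * γ) 1 0 = (hermA d γ : ℤ) * ((hermD d γ : ℤ) * m * γ 0 0 + γ₀ 1 1 * C') := by
      linear_combination e10 + γ 0 0 * hm + m * γ 0 0 * hdz + γ₀ 1 1 * hC'
    rw [this]; exact Int.mul_ediv_cancel_left _ hapos.ne'
  rw [hquot, e11]
  obtain ⟨w, hw⟩ := hP2
  refine ⟨m * γ 0 0 * hermB d γ - hermA d γ * m * γ 0 1 + γ₀ 1 1 * w, ?_⟩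
  linear_combination (γ₀ 1 1) * hw - γ 0 1 * hm - γ 0 1 * m * hdz

/-! ### The corollary on the upper half plane -/

theorem int_lin_ne_zero (c e : ℤ) (h : c ≠ 0 ∨ e ≠ 0) (τ : ℍ) : (c : ℂ) * (τ : ℂ) + e ≠ 0 := by
  intro h0
  have him : ((c : ℂ) * (τ : ℂ) + e).im = 0 := by rw [h0]; simp
  have hre : ((c : ℂ) * (τ : ℂ) + e).re = 0 := by rw [h0]; simp
  simp only [Complex.add_im, Complex.mul_im, Complex.intCast_re, Complex.intCast_im, zero_mul,
    add_zero, UpperHalfPlane.coe_im] at him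
  have hc : (c : ℝ) = 0 := by
    rcases mul_eq_zero.mp him with h | h
    · exact h
    · exact absurd h τ.im_ne_zero
  simp only [Complex.add_re, Complex.mul_re, Complex.intCast_re, Complex.intCast_im, zero_mul,
    sub_zero, hc] at hre
  have hc' : c = 0 := by exact_mod_cast hc
  have he' : e = 0 := by
    have : (e : ℝ) = 0 := by linarith
    exact_mod_cast this
  rcases h with h | h
  · exact h hc'
  · exact h he'

theorem SL2_bottom_ne_zero (γ : SL(2, ℤ)) : γ 1 0 ≠ 0 ∨ γ 1 1 ≠ 0 := by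
  by_contra h
  rw [not_or, not_not, not_not] at h
  have := γ.det_coe
  rw [Matrix.det_fin_two, h.1, h.2] at this
  simp at this

theorem SL2_coe_smul (γ : SL(2, ℤ)) (τ : ℍ) :
    ((γ • τ : ℍ) : ℂ) = ((γ 0 0 : ℂ) * τ + (γ 0 1 : ℂ)) / ((γ 1 0 : ℂ) * τ + (γ 1 1 : ℂ)) := by
  rw [UpperHalfPlane.coe_specialLinearGroup_apply]
  simp

/-- **Hermite normal form on `ℍ`, full version.**  There is `γ' ∈ SL(2,ℤ)` (depending only on
`d`, `γ`) such that for all `τ` and `σ = (aτ + b)/d'` (with `(a,b,d')` the Hermite data):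
`γ' • σ = d • (γ • τ)` and the automorphy factors are related by
`γ'₁₀ σ + γ'₁₁ = (γ₁₀ τ + γ₁₁) / d'`. -/
theorem hermite_smul_full {d : ℕ} (hd : 0 < d) (γ : SL(2, ℤ)) :
    ∃ γ' : SL(2, ℤ), ∀ τ σ : ℍ,
      (σ : ℂ) = ((hermA d γ : ℂ) * τ + (hermB d γ : ℂ)) / (hermD d γ : ℂ) →
      ((γ' • σ : ℍ) : ℂ) = (d : ℂ) * ((γ • τ : ℍ) : ℂ) ∧
      (γ' 1 0 : ℂ) * σ + (γ' 1 1 : ℂ) = ((γ 1 0 : ℂ) * τ + (γ 1 1 : ℂ)) / (hermD d γ : ℂ) := by
  obtain ⟨γ', hmat⟩ := hermite_spec hd γ
  refine ⟨γ', fun τ σ hσ => ?_⟩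
  -- entry equations
  have h00 := congrFun (congrFun hmat 0) 0
  have h01 := congrFun (congrFun hmat 0) 1
  have h10 := congrFun (congrFun hmat 1) 0
  have h11 := congrFun (congrFun hmat 1) 1
  simp only [Matrix.mul_apply, Fin.sum_univ_two, Matrix.of_apply, Matrix.cons_val',
    Matrix.cons_val_zero, Matrix.cons_val_one, Matrix.empty_val', Matrix.cons_val_fin_one,
    zero_mul, add_zero, one_mul, zero_add, mul_zero] at h00 h01 h10 h11
  have c00 : (d : ℂ) * (γ 0 0 : ℂ) = (γ' 0 0 : ℂ) * (hermA d γ : ℂ) := by exact_mod_cast h00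
  have c01 : (d : ℂ) * (γ 0 1 : ℂ) = (γ' 0 0 : ℂ) * (hermB d γ : ℂ) + (γ' 0 1 : ℂ) * (hermD d γ : ℂ) := by
    exact_mod_cast h01
  have c10 : (γ 1 0 : ℂ) = (γ' 1 0 : ℂ) * (hermA d γ : ℂ) := by exact_mod_cast h10
  have c11 : (γ 1 1 : ℂ) = (γ' 1 0 : ℂ) * (hermB d γ : ℂ) + (γ' 1 1 : ℂ) * (hermD d γ : ℂ) := by
    exact_mod_cast h11
  have hD0 : (hermD d γ : ℂ) ≠ 0 := by exact_mod_cast (hermD_pos hd γ).ne'
  have hden1 := int_lin_ne_zero _ _ (SL2_bottom_ne_zero γ) τ
  have hden2 := int_lin_ne_zero _ _ (SL2_bottom_ne_zero γ') σ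
  have hnum : (γ' 0 0 : ℂ) * σ + (γ' 0 1 : ℂ)
      = (d : ℂ) * ((γ 0 0 : ℂ) * τ + (γ 0 1 : ℂ)) / (hermD d γ : ℂ) := by
    rw [hσ]; field_simp; linear_combination (-(τ : ℂ)) * c00 - c01
  have hdenom : (γ' 1 0 : ℂ) * σ + (γ' 1 1 : ℂ)
      = ((γ 1 0 : ℂ) * τ + (γ 1 1 : ℂ)) / (hermD d γ : ℂ) := by
    rw [hσ]; field_simp; linear_combination (-(τ : ℂ)) * c10 - c11
  refine ⟨?_, hdenom⟩
  rw [SL2_coe_smul, SL2_coe_smul]
  rw [hnum, hdenom]
  field_simp

/-- **Hermite normal form on `ℍ`.**  There is `γ' ∈ SL(2,ℤ)` (depending only on `d`, `γ`) with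
`γ' • ((aτ + b)/d') = d • (γ • τ)` for all `τ`, where `(a,b,d')` is the Hermite data. The points
`(aτ+b)/d'` are passed as arbitrary `σ : ℍ` with the right coercion to `ℂ`. -/
theorem hermite_smul {d : ℕ} (hd : 0 < d) (γ : SL(2, ℤ)) :
    ∃ γ' : SL(2, ℤ), ∀ τ σ : ℍ,
      (σ : ℂ) = ((hermA d γ : ℂ) * τ + (hermB d γ : ℂ)) / (hermD d γ : ℂ) →
      ((γ' • σ : ℍ) : ℂ) = (d : ℂ) * ((γ • τ : ℍ) : ℂ) := by
  obtain ⟨γ', h⟩ := hermite_smul_full hd γ
  exact ⟨γ', fun τ σ hσ => (h τ σ hσ).1⟩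

end Fermat.Agent.S28.H628

end

end
-- ===== PACK-END S28/H628/Hermite.lean

-- ===== PACK-BEGIN A2/IF/H9/InertiaClosed.lean
section





/-!
# A2 / IF (helper9): the inertia group is closed, hence `Gal(L / L^{I_A}) = I_A`

`K ⊆ L` algebraic (Galois for the last statement), `A` a valuation subring of `L`.

* `mem_inertiaSubgroupIn_iff_forall` : `σ ∈ I_A ↔ ∀ x ∈ A, σ x - x ∈ 𝔪_A`
  (stability `σ A = A` is automatic);
* `isClosed_inertiaSubgroupIn` : `I_A` is closed in the Krull topology;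
* `mem_inertiaSubgroupIn_of_fixes_fixedField` : an automorphism fixing the inertia field
  `L^{I_A}` pointwise lies in `I_A` (piece (a) = LemA of IF in its strongest form).
-/

set_option autoImplicit false

open scoped Pointwise

namespace Fermat.Agent.A2.IF.H9

variable {K L : Type*} [Field K] [Field L] [Algebra K L]

section Algebraic

variable [Algebra.IsAlgebraic K L]

/-- every element has finite order under an automorphism of an algebraic extension -/
theorem exists_pow_apply_eq (σ : L ≃ₐ[K] L) (x : L) : ∃ n : ℕ, 0 < n ∧ (σ ^ n) x = x := by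
  classical
  have hint : IsIntegral K x := (Algebra.IsAlgebraic.isAlgebraic x).isIntegral
  have hfin : ((minpoly K x).rootSet L).Finite := Polynomial.rootSet_finite _ _
  have hmem : ∀ n : ℕ, (σ ^ n) x ∈ (minpoly K x).rootSet L := by
    intro n
    rw [Polynomial.mem_rootSet]
    refine ⟨minpoly.ne_zero hint, ?_⟩
    have h1 := Polynomial.aeval_algHom_apply ((σ ^ n : L ≃ₐ[K] L) : L →ₐ[K] L) x (minpoly K x)
    rw [minpoly.aeval, map_zero] at h1
    exact h1
  obtain ⟨i, -, j, -, hij, heq⟩ :=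
    Set.Infinite.exists_ne_map_eq_of_mapsTo (s := (Set.univ : Set ℕ)) Set.infinite_univ
      (fun n _ => hmem n) hfin
  wlog hlt : i < j generalizing i j
  · exact this j i (Ne.symm hij) heq.symm (lt_of_le_of_ne (not_lt.mp hlt) (Ne.symm hij))
  refine ⟨j - i, Nat.sub_pos_of_lt hlt, ?_⟩
  have h1 : (σ ^ i) ((σ ^ (j - i)) x) = (σ ^ i) x := by
    rw [← AlgEquiv.mul_apply, ← pow_add, Nat.add_sub_cancel' hlt.le, heq]
  exact (σ ^ i).injective h1

/-- an automorphism mapping `A` into itself stabilises `A` -/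
theorem smul_eq_of_forall_mem (A : ValuationSubring L) (σ : L ≃ₐ[K] L)
    (h : ∀ x ∈ A, σ x ∈ A) : σ • A = A := by
  have hpow : ∀ (n : ℕ) (x : L), x ∈ A → (σ ^ n) x ∈ A := by
    intro n
    induction n with
    | zero => intro x hx; simpa using hx
    | succ n ih =>
      intro x hx
      rw [pow_succ, AlgEquiv.mul_apply]
      exact ih _ (h x hx)
  ext x
  rw [ValuationSubring.mem_smul_pointwise_iff_exists]
  constructor
  · rintro ⟨y, hy, rfl⟩
    exact h y hy
  · intro hx
    obtain ⟨n, hn, hnx⟩ := exists_pow_apply_eq σ x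
    refine ⟨(σ ^ (n - 1)) x, hpow _ x hx, ?_⟩
    show σ ((σ ^ (n - 1)) x) = x
    rw [← AlgEquiv.mul_apply, ← pow_succ', Nat.sub_add_cancel hn, hnx]

end Algebraic

/-- unfolding membership in `inertiaSubgroupIn` -/
theorem mem_inertiaSubgroupIn_iff_exists (A : ValuationSubring L) (σ : L ≃ₐ[K] L) :
    σ ∈ A.inertiaSubgroupIn K ↔
      ∃ h : σ ∈ A.decompositionSubgroup K,
        (⟨σ, h⟩ : A.decompositionSubgroup K) ∈ A.inertiaSubgroup K := by
  unfold ValuationSubring.inertiaSubgroupIn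
  constructor
  · rintro ⟨τ, hτ, rfl⟩
    exact ⟨τ.2, hτ⟩
  · rintro ⟨h, hσ⟩
    exact ⟨⟨σ, h⟩, hσ, rfl⟩

theorem apply_mem_of_smul_eq {A : ValuationSubring L} {σ : L ≃ₐ[K] L} (hσ : σ • A = A) {t : L}
    (ht : t ∈ A) : σ t ∈ A := by
  have h1 : σ • t ∈ σ • A := ValuationSubring.smul_mem_pointwise_smul σ t A ht
  rw [hσ] at h1
  exact h1

/-- inertia in terms of elements, given stability -/
theorem mem_inertiaSubgroupIn_iff_of_smul_eq (A : ValuationSubring L) (σ : L ≃ₐ[K] L)
    (hσA : σ • A = A) :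
    σ ∈ A.inertiaSubgroupIn K ↔ ∀ x ∈ A, σ x - x ∈ A.nonunits := by
  have hσD : σ ∈ A.decompositionSubgroup K := MulAction.mem_stabilizer_iff.mpr hσA
  have key : ∀ (x : L) (hx : x ∈ A),
      ((⟨σ, hσD⟩ : A.decompositionSubgroup K) • (IsLocalRing.residue A ⟨x, hx⟩)
        = IsLocalRing.residue A ⟨x, hx⟩) ↔ σ x - x ∈ A.nonunits := by
    intro x hx
    rw [← IsLocalRing.ResidueField.residue_smul]
    show Ideal.Quotient.mk _ _ = Ideal.Quotient.mk _ _ ↔ _
    rw [Ideal.Quotient.eq, ← ValuationSubring.coe_mem_nonunits_iff]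
    rfl
  rw [mem_inertiaSubgroupIn_iff_exists]
  constructor
  · rintro ⟨h, hker⟩ x hx
    have h1 : MulSemiringAction.toRingAut (A.decompositionSubgroup K)
        (IsLocalRing.ResidueField A) ⟨σ, h⟩ = 1 := hker
    have h2 : (⟨σ, hσD⟩ : A.decompositionSubgroup K) • (IsLocalRing.residue A ⟨x, hx⟩) =
        IsLocalRing.residue A ⟨x, hx⟩ := by
      have := congrArg (fun f => f (IsLocalRing.residue A ⟨x, hx⟩)) h1
      simpa using this
    exact (key x hx).mp h2
  · intro h
    refine ⟨hσD, ?_⟩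
    rw [ValuationSubring.inertiaSubgroup, MonoidHom.mem_ker]
    ext r
    obtain ⟨a, rfl⟩ := IsLocalRing.residue_surjective r
    exact (key a a.2).mpr (h a a.2)

section Algebraic

variable [Algebra.IsAlgebraic K L]

/-- **inertia in terms of elements** (stability is automatic) -/
theorem mem_inertiaSubgroupIn_iff_forall (A : ValuationSubring L) (σ : L ≃ₐ[K] L) :
    σ ∈ A.inertiaSubgroupIn K ↔ ∀ x ∈ A, σ x - x ∈ A.nonunits := by
  constructor
  · intro h
    have hD : σ • A = A := ((mem_inertiaSubgroupIn_iff_exists A σ).mp h).1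
    exact (mem_inertiaSubgroupIn_iff_of_smul_eq A σ hD).mp h
  · intro h
    have hD : σ • A = A := by
      refine smul_eq_of_forall_mem A σ fun x hx => ?_
      have h1 : σ x - x ∈ A := A.nonunits_le (h x hx)
      have := A.add_mem _ _ h1 hx
      simpa using this
    exact (mem_inertiaSubgroupIn_iff_of_smul_eq A σ hD).mpr h

end Algebraic

section Topology

variable [Algebra.IsAlgebraic K L]

/-- evaluation at `x` is locally constant -/
theorem isOpen_setOf_apply_eq (x y : L) : IsOpen {σ : L ≃ₐ[K] L | σ x = y} := by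
  rw [isOpen_iff_mem_nhds]
  intro g hg
  let E : IntermediateField K L := IntermediateField.adjoin K {x}
  haveI : FiniteDimensional K E :=
    IntermediateField.adjoin.finiteDimensional (Algebra.IsIntegral.isIntegral _)
  have hopen : IsOpen ((g • (E.fixingSubgroup : Set (L ≃ₐ[K] L)))) :=
    (E.fixingSubgroup_isOpen).smul g
  refine Filter.mem_of_superset (hopen.mem_nhds ⟨1, one_mem _, by simp⟩) ?_
  rintro _ ⟨h, hh, rfl⟩
  have hb : h x = x :=
    (IntermediateField.mem_fixingSubgroup_iff E h).mp hh x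
      (IntermediateField.subset_adjoin K _ (Set.mem_singleton _))
  show (g * h) x = y
  rw [AlgEquiv.mul_apply, hb]
  exact hg

theorem isClosed_setOf_apply_mem (x : L) (S : Set L) : IsClosed {σ : L ≃ₐ[K] L | σ x ∈ S} := by
  rw [← isOpen_compl_iff]
  have : {σ : L ≃ₐ[K] L | σ x ∈ S}ᶜ = ⋃ y ∈ Sᶜ, {σ : L ≃ₐ[K] L | σ x = y} := by
    ext σ
    simp
  rw [this]
  exact isOpen_biUnion fun y _ => isOpen_setOf_apply_eq x y

/-- **the inertia group is closed** -/
theorem isClosed_inertiaSubgroupIn (A : ValuationSubring L) :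
    IsClosed ((A.inertiaSubgroupIn K : Subgroup (L ≃ₐ[K] L)) : Set (L ≃ₐ[K] L)) := by
  have : ((A.inertiaSubgroupIn K : Subgroup (L ≃ₐ[K] L)) : Set (L ≃ₐ[K] L))
      = ⋂ x ∈ (A : Set L), {σ : L ≃ₐ[K] L | σ x ∈ {y | y - x ∈ A.nonunits}} := by
    ext σ
    simp only [SetLike.mem_coe, Set.mem_iInter, Set.mem_ofPred_eq]
    exact mem_inertiaSubgroupIn_iff_forall A σ
  rw [this]
  exact isClosed_biInter fun x _ => isClosed_setOf_apply_mem x _

end Topology

section Galois

variable [IsGalois K L]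

/-- **LemA, strong form**: an automorphism fixing the inertia field lies in the inertia group. -/
theorem mem_inertiaSubgroupIn_of_fixes_fixedField (A : ValuationSubring L) (σ : L ≃ₐ[K] L)
    (h : ∀ x ∈ IntermediateField.fixedField (A.inertiaSubgroupIn K), σ x = x) :
    σ ∈ A.inertiaSubgroupIn K := by
  haveI : Algebra.IsAlgebraic K L := inferInstance
  let H : ClosedSubgroup (L ≃ₐ[K] L) :=
    ⟨A.inertiaSubgroupIn K, isClosed_inertiaSubgroupIn A⟩
  have hH := InfiniteGalois.fixingSubgroup_fixedField H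
  have hσ : σ ∈ (IntermediateField.fixedField (H : Subgroup (L ≃ₐ[K] L))).fixingSubgroup := by
    rw [IntermediateField.mem_fixingSubgroup_iff]
    exact h
  rw [hH] at hσ
  exact hσ

end Galois

end Fermat.Agent.A2.IF.H9

end
-- ===== PACK-END A2/IF/H9/InertiaClosed.lean

-- ===== PACK-BEGIN Ribet/H819/PerRoot.lean
section


/-!
# Row 38, WALL-p, crux (I6), leaf INST-D — `p`-th roots of normalised Laurent series
# (helper819; Mathlib only)

`E` a field in which `p ≠ 0`.

* `exists_root_powerSeries_h819` : a power series with constant coefficient `1` has a `p`-th root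
  with constant coefficient `1` (Hensel's lemma in `E⟦X⟧`);
* `exists_root_laurent_h819` : a Laurent series `g ≠ 0` with leading coefficient `1` and order
  divisible by `p` has a `p`-th root `h` in `E((t))`, with leading coefficient `1`.

Application: `g = f_t` the (normalised) Kummer generator of `t` over the tame level `E₁`,
`h ^ p = f_t`, `h ∈ E₁((t))`: the generator of the cover field `F₁(h)` of `PerCtx`.
-/

set_option autoImplicit false
set_option linter.unusedSectionVars false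
set_option linter.style.haveILetI false

noncomputable section

namespace Fermat.Agent.Ribet.H819

open Polynomial

section Root

variable {E : Type*} [Field E]

/-- Hensel: `p`-th roots of `1`-units of `E⟦X⟧`, `p ≠ 0` in `E`. -/
theorem exists_root_powerSeries_h819 (p : ℕ) (hp0 : p ≠ 0) (hp : (p : E) ≠ 0)
    (g : PowerSeries E) (hg : PowerSeries.constantCoeff g = 1) :
    ∃ a : PowerSeries E, a ^ p = g ∧ PowerSeries.constantCoeff a = 1 := by
  have hmon : (X ^ p - C g : Polynomial (PowerSeries E)).Monic := monic_X_pow_sub_C g hp0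
  have h1 : eval (1 : PowerSeries E) (X ^ p - C g : Polynomial (PowerSeries E)) ∈
      (Ideal.span {(PowerSeries.X : PowerSeries E)}) := by
    rw [eval_sub, eval_pow, eval_X, eval_C, one_pow, Ideal.mem_span_singleton,
      PowerSeries.X_dvd_iff, map_sub, map_one, hg, sub_self]
  have h2 : IsUnit (Ideal.Quotient.mk (Ideal.span {(PowerSeries.X : PowerSeries E)})
      (eval (1 : PowerSeries E) (derivative (X ^ p - C g : Polynomial (PowerSeries E))))) := by
    apply IsUnit.map
    rw [derivative_sub, derivative_C, sub_zero, derivative_X_pow, eval_mul, eval_pow, eval_X,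
      one_pow, mul_one]
    have e : eval (1 : PowerSeries E) (C ((p : ℕ) : PowerSeries E)) = (p : PowerSeries E) :=
      eval_C
    rw [e]
    have e2 : ((p : ℕ) : PowerSeries E) = PowerSeries.C (p : E) := by
      rw [map_natCast]
    rw [e2]
    exact (IsUnit.mk0 _ hp).map PowerSeries.C
  obtain ⟨a, ha, ha1⟩ := HenselianRing.is_henselian
    (I := Ideal.span {(PowerSeries.X : PowerSeries E)})
    (X ^ p - C g : Polynomial (PowerSeries E)) hmon 1 h1 h2
  refine ⟨a, ?_, ?_⟩
  · have : eval a (X ^ p - C g : Polynomial (PowerSeries E)) = 0 := ha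
    rw [eval_sub, eval_pow, eval_X, eval_C] at this
    exact sub_eq_zero.mp this
  · rw [Ideal.mem_span_singleton, PowerSeries.X_dvd_iff, map_sub, map_one] at ha1
    exact sub_eq_zero.mp ha1

theorem coeff_zero_ofPowerSeries_h819 (a : PowerSeries E) :
    (HahnSeries.ofPowerSeries ℤ E a).coeff 0 = PowerSeries.constantCoeff a := by
  have := HahnSeries.ofPowerSeries_apply_coeff (Γ := ℤ) a 0
  rw [Nat.cast_zero] at this
  rw [this, PowerSeries.coeff_zero_eq_constantCoeff]

theorem coeff_neg_ofPowerSeries_h819 (a : PowerSeries E) {n : ℤ} (hn : n < 0) :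
    (HahnSeries.ofPowerSeries ℤ E a).coeff n = 0 := by
  rw [HahnSeries.ofPowerSeries_apply]
  apply HahnSeries.embDomain_of_notMem_range
  rintro ⟨m, hm⟩
  have : (0 : ℤ) ≤ n := by
    rw [← hm]
    exact Int.natCast_nonneg m
  omega

/-- A power series with constant coefficient `1`, as a Laurent series: order `0`, leading
coefficient `1`. -/
theorem order_ofPowerSeries_h819 (a : PowerSeries E) (ha : PowerSeries.constantCoeff a = 1) :
    (HahnSeries.ofPowerSeries ℤ E a) ≠ 0 ∧ (HahnSeries.ofPowerSeries ℤ E a).order = 0 ∧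
      (HahnSeries.ofPowerSeries ℤ E a).leadingCoeff = 1 := by
  have hc0 : (HahnSeries.ofPowerSeries ℤ E a).coeff 0 = 1 := by
    rw [coeff_zero_ofPowerSeries_h819, ha]
  have hne : (HahnSeries.ofPowerSeries ℤ E a) ≠ 0 := by
    intro h0
    rw [h0] at hc0
    simp at hc0
  have hord : (HahnSeries.ofPowerSeries ℤ E a).order = 0 := by
    apply le_antisymm
    · apply HahnSeries.order_le_of_coeff_ne_zero
      rw [hc0]
      exact one_ne_zero
    · by_contra hlt
      push Not at hlt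
      exact hne (HahnSeries.coeff_order_eq_zero.mp (coeff_neg_ofPowerSeries_h819 a hlt))
  refine ⟨hne, hord, ?_⟩
  rw [HahnSeries.leadingCoeff_eq, hord, hc0]

/-- **`p`-th roots of normalised Laurent series.** -/
theorem exists_root_laurent_h819 (p : ℕ) (hp0 : p ≠ 0) (hp : (p : E) ≠ 0)
    (g : LaurentSeries E) (hlc : g.leadingCoeff = 1) (hord : (p : ℤ) ∣ g.order) :
    ∃ h : LaurentSeries E, h ^ p = g ∧ h ≠ 0 ∧ h.leadingCoeff = 1 ∧
      (p : ℤ) * h.order = g.order := by
  obtain ⟨m, hm⟩ := hord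
  have hg0 : g ≠ 0 := by
    intro h0
    rw [h0, HahnSeries.leadingCoeff_zero] at hlc
    exact zero_ne_one hlc
  have hG : PowerSeries.constantCoeff g.powerSeriesPart = 1 := by
    rw [← PowerSeries.coeff_zero_eq_constantCoeff, LaurentSeries.powerSeriesPart_coeff,
      Nat.cast_zero, add_zero, ← HahnSeries.leadingCoeff_eq, hlc]
  obtain ⟨a, hap, ha1⟩ := exists_root_powerSeries_h819 p hp0 hp g.powerSeriesPart hG
  obtain ⟨hane, haord, halc⟩ := order_ofPowerSeries_h819 a ha1
  have hs0 : (HahnSeries.single m (1 : E) : LaurentSeries E) ≠ 0 :=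
    HahnSeries.single_ne_zero one_ne_zero
  refine ⟨HahnSeries.single m (1 : E) * HahnSeries.ofPowerSeries ℤ E a, ?_,
    mul_ne_zero hs0 hane, ?_, ?_⟩
  · rw [mul_pow, HahnSeries.single_pow, one_pow, ← map_pow, hap]
    have : p • m = g.order := by
      rw [hm, nsmul_eq_mul]
    rw [this]
    exact LaurentSeries.single_order_mul_powerSeriesPart g
  · rw [HahnSeries.leadingCoeff_mul, halc, mul_one, HahnSeries.leadingCoeff_of_single]
  · rw [HahnSeries.order_mul hs0 hane, haord, add_zero, HahnSeries.order_single one_ne_zero, hm]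

end Root

end Fermat.Agent.Ribet.H819

end

end
-- ===== PACK-END Ribet/H819/PerRoot.lean

-- ===== PACK-BEGIN S29/H991/CoeffDescent.lean
section
/-
S29 / DESC support (helper991): descent of membership in `laurentBaseChange` along a field
embedding `ι : K →+* Ω`:  a Laurent series with coefficients in `K` whose image lies in the
function field over `Ω` already lies in the function field over `K`.
Prelude + Mathlib only.
-/



set_option autoImplicit false

namespace Fermat.Agent.S29.H991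

open ModularCurve

section

variable {K Ω : Type*} [Field K] [Field Ω] [Algebra ℚ K] [Algebra ℚ Ω]
variable (ι : K →+* Ω) (F₀ : IntermediateField ℚ (LaurentSeries ℚ))

theorem desc_coeffMap_coeffEmb (x : LaurentSeries ℚ) :
    coeffMap ι (coeffEmb K x) = coeffEmb Ω x := by
  rw [coeffEmb, coeffMap_coeffMap]
  exact coeffMap_congr (RingHom.ext fun c => ι.map_rat_algebraMap c) x

omit [Algebra ℚ K] [Algebra ℚ Ω] in
theorem desc_coeffMap_injective : Function.Injective (coeffMap ι) := by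
  intro x y h
  ext k
  have := congrArg (fun z => z.coeff k) h
  simpa using ι.injective this

/-- Finite `Ω`-linear combinations of elements of `coeffEmb '' F₀`. -/
def IsLinComb (x : LaurentSeries Ω) : Prop :=
  ∃ (n : ℕ) (c : Fin n → Ω) (f : Fin n → LaurentSeries ℚ), (∀ i, f i ∈ F₀) ∧
    x = ∑ i, HahnSeries.C (c i) * coeffEmb Ω (f i)

variable {F₀}

omit [Algebra ℚ K] in
theorem IsLinComb.add {x y : LaurentSeries Ω} (hx : IsLinComb (Ω := Ω) F₀ x)
    (hy : IsLinComb (Ω := Ω) F₀ y) : IsLinComb (Ω := Ω) F₀ (x + y) := by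
  obtain ⟨n, c, f, hf, rfl⟩ := hx
  obtain ⟨m, d, g, hg, rfl⟩ := hy
  refine ⟨n + m, Fin.append c d, Fin.append f g, ?_, ?_⟩
  · intro i
    refine Fin.addCases (fun i => ?_) (fun i => ?_) i
    · simpa using hf i
    · simpa using hg i
  · rw [Fin.sum_univ_add]
    simp

omit [Algebra ℚ K] in
theorem IsLinComb.C_mul (a : Ω) {x : LaurentSeries Ω} (hx : IsLinComb (Ω := Ω) F₀ x) :
    IsLinComb (Ω := Ω) F₀ (HahnSeries.C a * x) := by
  obtain ⟨n, c, f, hf, rfl⟩ := hx
  refine ⟨n, fun i => a * c i, f, hf, ?_⟩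
  rw [Finset.mul_sum]
  refine Finset.sum_congr rfl fun i _ => ?_
  rw [map_mul, mul_assoc]

omit [Algebra ℚ K] in
theorem IsLinComb.mul_coeffEmb {x : LaurentSeries Ω} (hx : IsLinComb (Ω := Ω) F₀ x)
    {g : LaurentSeries ℚ} (hg : g ∈ F₀) :
    IsLinComb (Ω := Ω) F₀ (x * coeffEmb Ω g) := by
  obtain ⟨n, c, f, hf, rfl⟩ := hx
  refine ⟨n, c, fun i => f i * g, fun i => F₀.mul_mem (hf i) hg, ?_⟩
  rw [Finset.sum_mul]
  refine Finset.sum_congr rfl fun i _ => ?_
  rw [map_mul, mul_assoc]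

omit [Algebra ℚ K] in
theorem IsLinComb.zero : IsLinComb (Ω := Ω) F₀ 0 :=
  ⟨0, Fin.elim0, Fin.elim0, fun i => i.elim0, by simp⟩

omit [Algebra ℚ K] in
theorem IsLinComb.mul {x y : LaurentSeries Ω} (hx : IsLinComb (Ω := Ω) F₀ x)
    (hy : IsLinComb (Ω := Ω) F₀ y) : IsLinComb (Ω := Ω) F₀ (x * y) := by
  obtain ⟨m, d, g, hg, rfl⟩ := hy
  rw [Finset.mul_sum]
  have : ∀ s : Finset (Fin m),
      IsLinComb (Ω := Ω) F₀ (∑ i ∈ s, x * (HahnSeries.C (d i) * coeffEmb Ω (g i))) := by
    intro s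
    induction s using Finset.induction_on with
    | empty => simpa using IsLinComb.zero
    | insert a s ha ih =>
      rw [Finset.sum_insert ha]
      refine IsLinComb.add ?_ ih
      have : x * (HahnSeries.C (d a) * coeffEmb Ω (g a)) =
          HahnSeries.C (d a) * (x * coeffEmb Ω (g a)) := by ring
      rw [this]
      exact (hx.mul_coeffEmb (hg a)).C_mul _
  exact this _

omit [Algebra ℚ K] in
theorem isLinComb_of_mem_adjoin {x : LaurentSeries Ω}
    (hx : x ∈ Algebra.adjoin Ω (⇑(coeffEmb Ω) '' (F₀ : Set (LaurentSeries ℚ)))) :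
    IsLinComb (Ω := Ω) F₀ x := by
  induction hx using Algebra.adjoin_induction with
  | mem y hy =>
    obtain ⟨f, hf, rfl⟩ := hy
    exact ⟨1, fun _ => 1, fun _ => f, fun _ => hf, by simp⟩
  | algebraMap r =>
    refine ⟨1, fun _ => r, fun _ => 1, fun _ => F₀.one_mem, ?_⟩
    rw [algebraMap_laurentSeries_eq_single]
    simp only [Finset.univ_unique, Fin.default_eq_zero, Fin.isValue, map_one, mul_one,
      Finset.sum_const, Finset.card_singleton, one_smul]
    rfl
  | add x y _ _ hx hy => exact hx.add hy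
  | mul x y _ _ hx hy => exact hx.mul hy

omit [Algebra ℚ Ω] in
theorem desc_coeff_sum_C_mul {R : Type*} [Field R] {n : ℕ} (c : Fin n → R)
    (x : Fin n → LaurentSeries R) (k : ℤ) :
    (∑ i, HahnSeries.C (c i) * x i).coeff k = ∑ i, c i * (x i).coeff k := by
  rw [HahnSeries.coeff_sum]
  refine Finset.sum_congr rfl fun i _ => ?_
  rw [HahnSeries.C_mul_eq_smul, HahnSeries.coeff_smul, smul_eq_mul]

theorem desc_sum_mem {n : ℕ} (c : Fin n → K) (f : Fin n → LaurentSeries ℚ)
    (hf : ∀ i, f i ∈ F₀) :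
    (∑ i, HahnSeries.C (c i) * coeffEmb K (f i)) ∈ laurentBaseChange K F₀ := by
  refine sum_mem fun i _ => mul_mem ?_ (coeffEmb_mem_laurentBaseChange K (hf i))
  have : (HahnSeries.C (c i) : LaurentSeries K) = algebraMap K (LaurentSeries K) (c i) := by
    rw [algebraMap_laurentSeries_eq_single]; rfl
  rw [this]
  exact (laurentBaseChange K F₀).algebraMap_mem _

/-- **Descent of membership.**  If the image under `ι : K → Ω` (coefficientwise) of a Laurent
series `y` over `K` lies in the base change of `F₀` to `Ω`, then `y` lies in the base change of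
`F₀` to `K`. -/
theorem mem_laurentBaseChange_of_coeffMap_mem (y : LaurentSeries K)
    (h : coeffMap ι y ∈ laurentBaseChange Ω F₀) : y ∈ laurentBaseChange K F₀ := by
  obtain ⟨r, hr, s, hs, hrs⟩ := IntermediateField.mem_adjoin_iff_div.1 h
  by_cases hs0 : s = 0
  · rw [hs0, div_zero] at hrs
    have : y = 0 := desc_coeffMap_injective ι (by rw [hrs, map_zero])
    rw [this]; exact zero_mem _
  obtain ⟨n, α, f, hf, rfl⟩ := isLinComb_of_mem_adjoin hr
  obtain ⟨m, β, g, hg, rfl⟩ := isLinComb_of_mem_adjoin hs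
  have hmul : coeffMap ι y * (∑ j, HahnSeries.C (β j) * coeffEmb Ω (g j)) =
      ∑ i, HahnSeries.C (α i) * coeffEmb Ω (f i) := by
    rw [hrs, div_mul_cancel₀ _ hs0]
  obtain ⟨k₀, hk₀⟩ : ∃ k₀, (∑ j, HahnSeries.C (β j) * coeffEmb Ω (g j)).coeff k₀ ≠ 0 := by
    by_contra hcon
    push Not at hcon
    exact hs0 (HahnSeries.ext (funext hcon))
  let _ : Algebra K Ω := ι.toAlgebra
  have hsmul : ∀ (c : K) (v : Ω), c • v = ι c * v := fun c v => rfl
  -- a `K`-linear functional not vanishing at the coefficient `s_{k₀}`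
  obtain ⟨lam, hlam⟩ : ∃ lam : Ω →ₗ[K] K,
      lam ((∑ j, HahnSeries.C (β j) * coeffEmb Ω (g j)).coeff k₀) = 1 := by
    set v := (∑ j, HahnSeries.C (β j) * coeffEmb Ω (g j)).coeff k₀ with hv
    have hinj : LinearMap.ker (LinearMap.toSpanSingleton K Ω v) = ⊥ :=
      LinearMap.ker_toSpanSingleton K hk₀
    obtain ⟨gl, hgl⟩ := LinearMap.exists_leftInverse_of_injective _ hinj
    refine ⟨gl, ?_⟩
    have := congrArg (fun φ => φ (1 : K)) hgl
    simpa using this
  have hlin : ∀ (b : Ω) (c : K), lam (b * ι c) = lam b * c := by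
    intro b c
    have : b * ι c = c • b := by rw [hsmul, mul_comm]
    rw [this, map_smul, smul_eq_mul, mul_comm]
  set R : LaurentSeries K := ∑ i, HahnSeries.C (lam (α i)) * coeffEmb K (f i) with hR
  set S : LaurentSeries K := ∑ j, HahnSeries.C (lam (β j)) * coeffEmb K (g j) with hS
  have hRmem : R ∈ laurentBaseChange K F₀ := desc_sum_mem _ _ hf
  have hSmem : S ∈ laurentBaseChange K F₀ := desc_sum_mem _ _ hg
  -- the key identity `y * S = R`
  have hkey : y * S = R := by
    have h1 : ∀ k : ℤ, (∑ j, β j * ι ((y * coeffEmb K (g j)).coeff k)) =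
        ∑ i, α i * ι ((coeffEmb K (f i)).coeff k) := by
      intro k
      have h2 : (coeffMap ι y * ∑ j, HahnSeries.C (β j) * coeffEmb Ω (g j)).coeff k =
          (∑ i, HahnSeries.C (α i) * coeffEmb Ω (f i)).coeff k := by rw [hmul]
      rw [Finset.mul_sum] at h2
      have h3 : ∀ j, coeffMap ι y * (HahnSeries.C (β j) * coeffEmb Ω (g j)) =
          HahnSeries.C (β j) * coeffMap ι (y * coeffEmb K (g j)) := by
        intro j
        rw [map_mul, desc_coeffMap_coeffEmb]
        ring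
      simp only [h3] at h2
      rw [desc_coeff_sum_C_mul, desc_coeff_sum_C_mul] at h2
      simp only [coeffMap_coeff] at h2
      rw [h2]
      refine Finset.sum_congr rfl fun i _ => ?_
      rw [← desc_coeffMap_coeffEmb ι, coeffMap_coeff]
    ext k
    have h4 := congrArg lam (h1 k)
    simp only [map_sum, hlin] at h4
    rw [hS, Finset.mul_sum]
    have h5 : ∀ j, y * (HahnSeries.C (lam (β j)) * coeffEmb K (g j)) =
        HahnSeries.C (lam (β j)) * (y * coeffEmb K (g j)) := by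
      intro j; ring
    simp only [h5]
    rw [hR, desc_coeff_sum_C_mul, desc_coeff_sum_C_mul]
    exact h4
  have hS0 : S ≠ 0 := by
    intro hS0
    have h6 : S.coeff k₀ = 1 := by
      rw [hS, desc_coeff_sum_C_mul]
      rw [desc_coeff_sum_C_mul] at hlam
      have h7 : ∀ j, (coeffEmb Ω (g j)).coeff k₀ = ι ((coeffEmb K (g j)).coeff k₀) := by
        intro j
        rw [← desc_coeffMap_coeffEmb ι, coeffMap_coeff]
      simp only [h7, map_sum, hlin] at hlam
      exact hlam
    rw [hS0] at h6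
    simp at h6
  have : y = R / S := by
    rw [eq_div_iff hS0, hkey]
  rw [this]
  exact div_mem hRmem hSmem

end

end Fermat.Agent.S29.H991

end
-- ===== PACK-END S29/H991/CoeffDescent.lean

-- ===== PACK-BEGIN A2/Mod/H398/LinDisj.lean
section



/-!
# A2 / MOD leaf L8 (helper398) — linear disjointness of `E((t))` and `K` over `E`

For a field extension `K / E`, `ι = coeffMap : E((t)) → K((t))`, `x ∈ E((t))`:
a family `b` of Laurent series over `E` is linearly independent over `E(x)` **iff** `ι ∘ b` is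
linearly independent over `K(ι x)`.  (Proof: apply `E`-linear functionals `K → E` coefficientwise.)
-/

set_option autoImplicit false

noncomputable section

namespace Fermat.Agent.A2.Mod.H398

open ModularCurve HahnSeries Polynomial IntermediateField

section LinDisj

variable {E K : Type*} [Field E] [Field K] [Algebra E K]

/-- The coefficient embedding `E((t)) → K((t))`. -/
abbrev iotaL (E K : Type*) [Field E] [Field K] [Algebra E K] :
    LaurentSeries E →+* LaurentSeries K :=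
  coeffMap (algebraMap E K)

theorem iotaL_injective : Function.Injective (iotaL E K) :=
  (iotaL E K).injective

theorem iotaL_algebraMap (c : E) :
    iotaL E K (algebraMap E (LaurentSeries E) c) =
      algebraMap K (LaurentSeries K) (algebraMap E K c) := by
  rw [algebraMap_laurentSeries_eq_single, algebraMap_laurentSeries_eq_single]
  exact coeffMap_single _ _ _

theorem iotaL_comp_algebraMap :
    (iotaL E K).comp (algebraMap E (LaurentSeries E)) =
      (algebraMap K (LaurentSeries K)).comp (algebraMap E K) :=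
  RingHom.ext fun c => iotaL_algebraMap c

theorem iotaL_aeval (x : LaurentSeries E) (r : E[X]) :
    iotaL E K (aeval x r) = aeval (iotaL E K x) (r.map (algebraMap E K)) := by
  rw [aeval_def, aeval_def, Polynomial.hom_eval₂, iotaL_comp_algebraMap, Polynomial.eval₂_map]

theorem iotaL_mem_adjoin_simple {x c : LaurentSeries E} (hc : c ∈ E⟮x⟯) :
    iotaL E K c ∈ K⟮iotaL E K x⟯ := by
  obtain ⟨r, s, rfl⟩ := (IntermediateField.mem_adjoin_simple_iff E c).mp hc
  rw [map_div₀, iotaL_aeval, iotaL_aeval]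
  exact (IntermediateField.mem_adjoin_simple_iff K _).mpr ⟨_, _, rfl⟩

/-- Apply an `E`-linear functional `K → E` coefficientwise. -/
def coeffLin (φ : K →ₗ[E] E) (y : LaurentSeries K) : LaurentSeries E := y.map φ

@[simp]
theorem coeffLin_coeff (φ : K →ₗ[E] E) (y : LaurentSeries K) (n : ℤ) :
    (coeffLin φ y).coeff n = φ (y.coeff n) := rfl

theorem coeffLin_zero (φ : K →ₗ[E] E) : coeffLin φ 0 = 0 := by
  ext n; simp

theorem coeffLin_add (φ : K →ₗ[E] E) (y z : LaurentSeries K) :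
    coeffLin φ (y + z) = coeffLin φ y + coeffLin φ z := by
  ext n; simp

theorem coeffLin_sum (φ : K →ₗ[E] E) {ι : Type*} (s : Finset ι) (f : ι → LaurentSeries K) :
    coeffLin φ (∑ i ∈ s, f i) = ∑ i ∈ s, coeffLin φ (f i) := by
  classical
  induction s using Finset.induction_on with
  | empty => simp [coeffLin_zero]
  | insert a s ha ih => rw [Finset.sum_insert ha, Finset.sum_insert ha, coeffLin_add, ih]

theorem coeffLin_support_subset (φ : K →ₗ[E] E) (y : LaurentSeries K) :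
    (coeffLin φ y).support ⊆ y.support := by
  intro n hn
  rw [HahnSeries.mem_support] at hn ⊢
  intro h
  apply hn
  rw [coeffLin_coeff, h, map_zero]

theorem iotaL_support_subset (a : LaurentSeries E) :
    (iotaL E K a).support ⊆ a.support := by
  intro n hn
  rw [HahnSeries.mem_support] at hn ⊢
  intro h
  apply hn
  rw [coeffMap_coeff, h, map_zero]

/-- **Semilinearity**: `π_φ (ι a · y) = a · π_φ y`. -/
theorem coeffLin_iotaL_mul (φ : K →ₗ[E] E) (a : LaurentSeries E) (y : LaurentSeries K) :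
    coeffLin φ (iotaL E K a * y) = a * coeffLin φ y := by
  ext n
  rw [coeffLin_coeff, HahnSeries.coeff_mul_left' a.isPWO_support (iotaL_support_subset a),
    HahnSeries.coeff_mul_right' y.isPWO_support (coeffLin_support_subset φ y), map_sum]
  refine Finset.sum_congr rfl fun ij _ => ?_
  rw [coeffMap_coeff, coeffLin_coeff, ← Algebra.smul_def, map_smul, smul_eq_mul]

theorem coeffLin_algebraMap (φ : K →ₗ[E] E) (κ : K) :
    coeffLin φ (algebraMap K (LaurentSeries K) κ) = algebraMap E (LaurentSeries E) (φ κ) := by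
  rw [algebraMap_laurentSeries_eq_single, algebraMap_laurentSeries_eq_single]
  ext n
  rw [coeffLin_coeff]
  by_cases h : n = 0
  · subst h
    simp
  · rw [HahnSeries.coeff_single_of_ne h, HahnSeries.coeff_single_of_ne h, map_zero]

/-- `π_φ` maps `K[ι x]` into `E[x]`. -/
theorem coeffLin_aeval_mem (φ : K →ₗ[E] E) (x : LaurentSeries E) (Q : K[X]) :
    coeffLin φ (aeval (iotaL E K x) Q) ∈ Algebra.adjoin E {x} := by
  induction Q using Polynomial.induction_on' with
  | add p q hp hq =>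
    rw [map_add, coeffLin_add]
    exact add_mem hp hq
  | monomial m κ =>
    have h1 : aeval (iotaL E K x) (monomial m κ) =
        iotaL E K (x ^ m) * algebraMap K (LaurentSeries K) κ := by
      rw [aeval_monomial, map_pow, mul_comm]
    rw [h1, coeffLin_iotaL_mul, coeffLin_algebraMap]
    exact mul_mem (pow_mem (Algebra.self_mem_adjoin_singleton E x) m)
      (Subalgebra.algebraMap_mem _ _)

/-- If all coefficientwise functionals vanish, the series vanishes. -/
theorem eq_zero_of_forall_coeffLin {y : LaurentSeries K}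
    (h : ∀ φ : K →ₗ[E] E, coeffLin φ y = 0) : y = 0 := by
  ext n
  rw [HahnSeries.coeff_zero]
  refine (Module.forall_dual_apply_eq_zero_iff E (y.coeff n)).mp fun φ => ?_
  have := congrArg (fun z => z.coeff n) (h φ)
  simpa using this

/-- **Linear disjointness, subalgebra form.** -/
theorem linearIndependent_adjoin_iotaL (x : LaurentSeries E) {n : ℕ}
    (b : Fin n → LaurentSeries E) (hb : LinearIndependent (Algebra.adjoin E {x}) b) :
    LinearIndependent (Algebra.adjoin K {iotaL E K x}) (fun i => iotaL E K (b i)) := by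
  rw [Fintype.linearIndependent_iff] at hb ⊢
  intro c hc i
  have key : ∀ φ : K →ₗ[E] E, coeffLin φ (c i : LaurentSeries K) = 0 := by
    intro φ
    have hmem : ∀ i, coeffLin φ (c i : LaurentSeries K) ∈ Algebra.adjoin E {x} := by
      intro i
      obtain ⟨Q, hQ⟩ := (Algebra.adjoin_singleton_eq_range_aeval K (iotaL E K x) ▸ (c i).2 :
        (c i : LaurentSeries K) ∈ (aeval (iotaL E K x) : K[X] →ₐ[K] LaurentSeries K).range)
      rw [← hQ]
      exact coeffLin_aeval_mem φ x Q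
    have h1 : ∑ i, (⟨coeffLin φ (c i : LaurentSeries K), hmem i⟩ : Algebra.adjoin E {x}) • b i
        = 0 := by
      have h2 := congrArg (coeffLin φ) hc
      rw [coeffLin_zero, coeffLin_sum] at h2
      rw [← h2]
      refine Finset.sum_congr rfl fun i _ => ?_
      rw [Subalgebra.smul_def, smul_eq_mul, Subalgebra.smul_def, smul_eq_mul,
        mul_comm (c i : LaurentSeries K), coeffLin_iotaL_mul, mul_comm]
    have h3 := hb _ h1 i
    exact congrArg Subtype.val h3
  exact Subtype.ext (eq_zero_of_forall_coeffLin key)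

open IntermediateField.algebraAdjoinAdjoin in
/-- **Linear disjointness**: `E(x)`-independent families stay independent over `K(ι x)`. -/
theorem linearIndependent_iotaL (x : LaurentSeries E) {n : ℕ}
    (b : Fin n → LaurentSeries E) (hb : LinearIndependent E⟮x⟯ b) :
    LinearIndependent K⟮iotaL E K x⟯ (fun i => iotaL E K (b i)) := by
  rw [← LinearIndependent.iff_fractionRing (Algebra.adjoin E {x}) E⟮x⟯] at hb
  rw [← LinearIndependent.iff_fractionRing (Algebra.adjoin K {iotaL E K x}) K⟮iotaL E K x⟯]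
  exact linearIndependent_adjoin_iotaL x b hb

/-- The converse (easy) direction. -/
theorem linearIndependent_of_iotaL (x : LaurentSeries E) {n : ℕ}
    (b : Fin n → LaurentSeries E)
    (hb : LinearIndependent K⟮iotaL E K x⟯ (fun i => iotaL E K (b i))) :
    LinearIndependent E⟮x⟯ b := by
  rw [Fintype.linearIndependent_iff] at hb ⊢
  intro c hc i
  have h1 : ∑ i, (⟨iotaL E K (c i : LaurentSeries E), iotaL_mem_adjoin_simple (c i).2⟩ :
      K⟮iotaL E K x⟯) • iotaL E K (b i) = 0 := by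
    have h2 := congrArg (iotaL E K) hc
    rw [map_zero, map_sum] at h2
    rw [← h2]
    refine Finset.sum_congr rfl fun i _ => ?_
    rw [IntermediateField.smul_def, smul_eq_mul, IntermediateField.smul_def, smul_eq_mul, map_mul]
  have h3 := congrArg Subtype.val (hb _ h1 i)
  apply Subtype.ext
  apply iotaL_injective (K := K)
  rw [IntermediateField.coe_zero, map_zero]
  exact h3

theorem linearIndependent_iotaL_iff (x : LaurentSeries E) {n : ℕ}
    (b : Fin n → LaurentSeries E) :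
    LinearIndependent K⟮iotaL E K x⟯ (fun i => iotaL E K (b i)) ↔ LinearIndependent E⟮x⟯ b :=
  ⟨linearIndependent_of_iotaL x b, linearIndependent_iotaL x b⟩

end LinDisj

end Fermat.Agent.A2.Mod.H398

end

end
-- ===== PACK-END A2/Mod/H398/LinDisj.lean

-- ===== PACK-BEGIN Ribet/H247/KDAbs.lean
section
/-
RIBET row 38, WALL-p, (S4) CORE-OUT, WILD, piece KD (Kummer data), abstract part (helper247).

Mathlib only.

* `hilbert90_quot247` : Hilbert 90 for a group `Γ` acting on a field `F` by automorphisms, a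
  subgroup `H ≤ Γ` and a `1`-cocycle `a : H → Fˣ` which is trivial on the kernel of a
  homomorphism `r : Γ → G` to a FINITE group, where the kernel of `r` is exactly the pointwise
  stabiliser of a subfield `F₀`.  (No finiteness of `H`, no Galois theory of `F`.)
-/


set_option autoImplicit false

namespace Fermat.Agent.Ribet.H247

open Finset

/-- **Hilbert 90, finite-quotient form.**  `a σ · σ b = b` for all `σ ∈ H`. -/
theorem hilbert90_quot247 {F : Type*} [Field F] {Γ : Type*} [Group Γ]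
    (act : Γ →* (F ≃+* F)) (H : Subgroup Γ)
    {G : Type*} [Group G] [Finite G] (r : Γ →* G) (F₀ : Subfield F)
    (hfix : ∀ σ : Γ, r σ = 1 → ∀ c ∈ F₀, act σ c = c)
    (hfaith : ∀ σ : Γ, (∀ c ∈ F₀, act σ c = c) → r σ = 1)
    (a : Γ → F) (ha0 : ∀ σ ∈ H, a σ ≠ 0)
    (hcoc : ∀ σ ∈ H, ∀ τ ∈ H, a (σ * τ) = a σ * act σ (a τ))
    (hker : ∀ σ ∈ H, r σ = 1 → a σ = 1) :
    ∃ b : F, b ≠ 0 ∧ ∀ σ ∈ H, a σ * act σ b = b := by
  classical
  -- the image of `H` in `G`
  let HG : Subgroup G := H.map r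
  letI : Fintype HG := Fintype.ofFinite HG
  -- lifts
  have hlift : ∀ γ : HG, ∃ σ : Γ, σ ∈ H ∧ r σ = (γ : G) := fun γ => by
    obtain ⟨σ, hσ, hσγ⟩ := Subgroup.mem_map.mp γ.2
    exact ⟨σ, hσ, hσγ⟩
  choose s hsH hsr using hlift
  -- the key: `a` and the action on `F₀` only depend on the image in `G`
  have key : ∀ σ ∈ H, ∀ σ' ∈ H, r σ = r σ' →
      a σ = a σ' ∧ ∀ c ∈ F₀, act σ c = act σ' c := by
    intro σ hσ σ' hσ' hrr
    have hρH : σ'⁻¹ * σ ∈ H := H.mul_mem (H.inv_mem hσ') hσ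
    have hρ1 : r (σ'⁻¹ * σ) = 1 := by
      rw [map_mul, map_inv, hrr, inv_mul_cancel]
    have e : σ = σ' * (σ'⁻¹ * σ) := by rw [mul_inv_cancel_left]
    constructor
    · have h1 := hcoc σ' hσ' (σ'⁻¹ * σ) hρH
      rw [← e, hker _ hρH hρ1, map_one, mul_one] at h1
      exact h1
    · intro c hc
      have h2 : act σ c = act σ' (act (σ'⁻¹ * σ) c) := by
        conv_lhs => rw [e]
        rw [map_mul]
        rfl
      rw [h2, hfix _ hρ1 c hc]
  -- the characters
  let χ : HG → (F₀ →* F) := fun γ =>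
    (((act (s γ) : F ≃+* F) : F →+* F) : F →* F).comp ((F₀.subtype : F₀ →+* F) : F₀ →* F)
  have hχ : ∀ (γ : HG) (c : F₀), χ γ c = act (s γ) (c : F) := fun _ _ => rfl
  have hχinj : Function.Injective χ := by
    intro γ γ' h
    have h1 : ∀ c ∈ F₀, act ((s γ')⁻¹ * s γ) c = c := by
      intro c hc
      have h2 : act (s γ) c = act (s γ') c := by
        have := DFunLike.congr_fun h ⟨c, hc⟩
        rwa [hχ, hχ] at this
      rw [map_mul, map_inv]
      show (act (s γ'))⁻¹ (act (s γ) c) = c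
      rw [h2]
      show (act (s γ')).symm (act (s γ') c) = c
      exact RingEquiv.symm_apply_apply _ _
    have h3 := hfaith _ h1
    rw [map_mul, map_inv, hsr, hsr, inv_mul_eq_one] at h3
    exact Subtype.ext h3.symm
  have hind : LinearIndependent F (fun γ : HG => ((χ γ : F₀ →* F) : F₀ → F)) :=
    (linearIndependent_monoidHom F₀ F).comp χ hχinj
  -- some `c` with nonvanishing sum
  obtain ⟨c, hc⟩ : ∃ c : F₀, ∑ γ : HG, a (s γ) * act (s γ) (c : F) ≠ 0 := by
    by_contra hcon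
    push Not at hcon
    have hzero : ∑ γ : HG, a (s γ) • ((χ γ : F₀ →* F) : F₀ → F) = 0 := by
      funext x
      simp only [Finset.sum_apply, Pi.smul_apply, smul_eq_mul, Pi.zero_apply]
      exact hcon x
    have := (Fintype.linearIndependent_iff.mp hind) (fun γ => a (s γ)) hzero (1 : HG)
    exact ha0 _ (hsH 1) this
  refine ⟨∑ γ : HG, a (s γ) * act (s γ) (c : F), hc, fun τ hτ => ?_⟩
  have hτG : r τ ∈ HG := Subgroup.mem_map.mpr ⟨τ, hτ, rfl⟩
  rw [map_sum, Finset.mul_sum]
  rw [← Equiv.sum_comp (Equiv.mulLeft (⟨r τ, hτG⟩ : HG))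
    (fun γ : HG => a (s γ) * act (s γ) (c : F))]
  refine Finset.sum_congr rfl fun γ _ => ?_
  have hmem : τ * s γ ∈ H := H.mul_mem hτ (hsH γ)
  have hr : r (s ((⟨r τ, hτG⟩ : HG) * γ)) = r (τ * s γ) := by
    rw [hsr, map_mul, hsr]
    rfl
  obtain ⟨k1, k2⟩ := key _ (hsH _) _ hmem hr
  show a τ * act τ (a (s γ) * act (s γ) (c : F)) =
    a (s ((⟨r τ, hτG⟩ : HG) * γ)) * act (s ((⟨r τ, hτG⟩ : HG) * γ)) (c : F)
  rw [k1, k2 _ c.2, hcoc τ hτ _ (hsH γ), map_mul, mul_assoc]
  congr 2
  rw [map_mul]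
  rfl

end Fermat.Agent.Ribet.H247

end
-- ===== PACK-END Ribet/H247/KDAbs.lean

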