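import Mathlib
import Fermat.Statements.S13
import Mathlib.RingTheory.Valuation.ValuationSubring
import Mathlib.RingTheory.RootsOfUnity.PrimitiveRoots
import Mathlib.Data.ZMod.Basic
import Mathlib.Algebra.Field.ZMod
import Mathlib.Algebra.Ring.Action.Basic
import Mathlib.Tactic.FieldSimp
import Mathlib.Tactic.Ring
import Mathlib.Tactic.LinearCombination
import Fermat.Prelude.Def_ModularCurve_ReductionModL
import Fermat.Prelude.Def_AlgebraicCurve_DivisorClassGroup
import Fermat.Prelude.Def_AlgebraicCurve_Repartitions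
import Fermat.Prelude.Def_AlgebraicCurve_Correspondence
import Fermat.Prelude.Def_ModularCurve_LaurentCoeff
import Fermat.Agent.Pack.S44C.G0E0L2
import Fermat.Agent.Pack.Fast891

-- ===== PACK-BEGIN S51/FiveAlg.lean
section


/-!
# S51, the `5`-side: algebraic identities

Pure polynomial identities behind the `x`-coordinate duplication map on a Weierstrass curve,
the `5`-division polynomial, and the Hauptmodul `h = Δ / (x(P) - x(2P))^6` of `X₀(5)`.
-/

open WeierstrassCurve WeierstrassCurve.Affine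

namespace Fermat.Agent.S51.Five

variable {K : Type*} [Field K]

/-- value of the `2`-torsion polynomial -/
def dD (b₂ b₄ b₆ x : K) : K := 4*x^3 + b₂*x^2 + 2*b₄*x + b₆
/-- numerator of the duplication map -/
def dN (b₄ b₆ b₈ x : K) : K := x^4 - b₄*x^2 - 2*b₆*x - b₈
/-- value of the `3`-division polynomial -/
def dPsi3 (b₂ b₄ b₆ b₈ x : K) : K := 3*x^4 + b₂*x^3 + 3*b₄*x^2 + 3*b₆*x + b₈
/-- value of `ψ₄ / ψ₂` -/
def dPre4 (b₂ b₄ b₆ b₈ x : K) : K :=
  2*x^6 + b₂*x^5 + 5*b₄*x^4 + 10*b₆*x^3 + 10*b₈*x^2 + (b₂*b₈ - b₄*b₆)*x + (b₄*b₈ - b₆^2)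
/-- value of the `5`-division polynomial -/
def dPsi5 (b₂ b₄ b₆ b₈ x : K) : K :=
  dPre4 b₂ b₄ b₆ b₈ x * (dD b₂ b₄ b₆ x)^2 - (dPsi3 b₂ b₄ b₆ b₈ x)^3
/-- `D(N/D) * D^3` -/
def dD2 (b₂ b₄ b₆ b₈ x : K) : K :=
  4*(dN b₄ b₆ b₈ x)^3 + b₂*(dN b₄ b₆ b₈ x)^2*(dD b₂ b₄ b₆ x)
    + 2*b₄*(dN b₄ b₆ b₈ x)*(dD b₂ b₄ b₆ x)^2 + b₆*(dD b₂ b₄ b₆ x)^3
/-- `N(N/D) * D^4` -/
def dN2 (b₂ b₄ b₆ b₈ x : K) : K :=
  (dN b₄ b₆ b₈ x)^4 - b₄*(dN b₄ b₆ b₈ x)^2*(dD b₂ b₄ b₆ x)^2
    - 2*b₆*(dN b₄ b₆ b₈ x)*(dD b₂ b₄ b₆ x)^3 - b₈*(dD b₂ b₄ b₆ x)^4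

lemma id1 (b₂ b₄ b₆ b₈ x : K) :
    dN b₄ b₆ b₈ x - x * dD b₂ b₄ b₆ x = - dPsi3 b₂ b₄ b₆ b₈ x := by
  simp only [dN, dD, dPsi3]; ring

lemma id2 (b₂ b₄ b₆ b₈ x : K) (hb : 4 * b₈ = b₂ * b₆ - b₄^2) (h4 : (4:K) ≠ 0) :
    dD2 b₂ b₄ b₆ b₈ x = (dPre4 b₂ b₄ b₆ b₈ x)^2 := by
  have hb8 : b₈ = (b₂ * b₆ - b₄^2)/4 := by field_simp; linear_combination hb
  subst hb8
  simp only [dD2, dN, dD, dPre4]
  field_simp
  ring

lemma id3 (b₂ b₄ b₆ b₈ x : K) (hb : 4 * b₈ = b₂ * b₆ - b₄^2) (h4 : (4:K) ≠ 0) :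
    dN2 b₂ b₄ b₆ b₈ x - x * dD b₂ b₄ b₆ x * dD2 b₂ b₄ b₆ b₈ x
      = - dPsi3 b₂ b₄ b₆ b₈ x * dPsi5 b₂ b₄ b₆ b₈ x := by
  have hb8 : b₈ = (b₂ * b₆ - b₄^2)/4 := by field_simp; linear_combination hb
  subst hb8
  simp only [dN2, dD2, dN, dD, dPre4, dPsi5, dPsi3]
  field_simp
  ring

/-- `D(N/D) = D2 / D^3` -/
lemma dD_div (b₂ b₄ b₆ b₈ x : K) (hD : dD b₂ b₄ b₆ x ≠ 0) :
    dD b₂ b₄ b₆ (dN b₄ b₆ b₈ x / dD b₂ b₄ b₆ x) * (dD b₂ b₄ b₆ x)^3 = dD2 b₂ b₄ b₆ b₈ x := by
  rw [dD2]
  generalize dN b₄ b₆ b₈ x = n at *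
  generalize dD b₂ b₄ b₆ x = d at *
  simp only [dD]
  field_simp

/-- `N(N/D) = N2 / D^4` -/
lemma dN_div (b₂ b₄ b₆ b₈ x : K) (hD : dD b₂ b₄ b₆ x ≠ 0) :
    dN b₄ b₆ b₈ (dN b₄ b₆ b₈ x / dD b₂ b₄ b₆ x) * (dD b₂ b₄ b₆ x)^4 = dN2 b₂ b₄ b₆ b₈ x := by
  rw [dN2]
  generalize dN b₄ b₆ b₈ x = n at *
  generalize dD b₂ b₄ b₆ x = d at *
  simp only [dN]
  field_simp

variable (E : WeierstrassCurve.Affine K)

lemma dD_eq {x y : K} (h : E.Equation x y) :
    dD E.b₂ E.b₄ E.b₆ x = (y - E.negY x y)^2 := by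
  rw [Affine.equation_iff] at h
  simp only [dD, Affine.negY, WeierstrassCurve.b₂, WeierstrassCurve.b₄, WeierstrassCurve.b₆]
  linear_combination (-4) * h

lemma dN_eq {x y : K} (h : E.Equation x y) :
    dN E.b₄ E.b₆ E.b₈ x = (3 * x ^ 2 + 2 * E.a₂ * x + E.a₄ - E.a₁ * y)^2
      + E.a₁ * (3 * x ^ 2 + 2 * E.a₂ * x + E.a₄ - E.a₁ * y) * (y - E.negY x y)
      - (E.a₂ + 2 * x) * (y - E.negY x y)^2 := by
  rw [Affine.equation_iff] at h
  simp only [dN, Affine.negY, WeierstrassCurve.b₄, WeierstrassCurve.b₆,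
    WeierstrassCurve.b₈]
  linear_combination (4 * E.a₂ + 8 * x + E.a₁^2) * h

lemma dup_X [DecidableEq K] {x y : K} (h : E.Equation x y) (hy : y ≠ E.negY x y) :
    E.addX x x (E.slope x x y y) * dD E.b₂ E.b₄ E.b₆ x = dN E.b₄ E.b₆ E.b₈ x := by
  rw [Affine.slope_of_Y_ne rfl hy, dD_eq E h, dN_eq E h]
  have h2 : y - E.negY x y ≠ 0 := sub_ne_zero.mpr hy
  simp only [Affine.addX]
  field_simp
  ring

/-- The key identity for the `X₀(5)` Hauptmodul `h = Δ / (u - v)^6`: if `u = x(P)`, `v = x(2P)`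
for a point `P` of order `5`, then `c₄ d^5 = Δ^2 + 10 Δ d^3 + 5 d^6` for `d = (u - v)^2`. -/
lemma hauptmodul_identity [CharZero K] (b₂ b₄ b₆ b₈ u v : K)
    (hb : 4 * b₈ = b₂ * b₆ - b₄^2)
    (R₁ : u^4 - b₄*u^2 - 2*b₆*u - b₈ = v * (4*u^3 + b₂*u^2 + 2*b₄*u + b₆))
    (R₂ : v^4 - b₄*v^2 - 2*b₆*v - b₈ = u * (4*v^3 + b₂*v^2 + 2*b₄*v + b₆))
    (huv : u ≠ v) :
    (b₂^2 - 24*b₄) * ((u - v)^2)^5 =
      (-b₂^2*b₈ - 8*b₄^3 - 27*b₆^2 + 9*b₂*b₄*b₆)^2
      + 10 * (-b₂^2*b₈ - 8*b₄^3 - 27*b₆^2 + 9*b₂*b₄*b₆) * ((u - v)^2)^3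
      + 5 * ((u - v)^2)^6 := by
  have huv' : u - v ≠ 0 := sub_ne_zero.mpr huv
  have R₃ : b₆ = (u+v)*(u^2 - 4*u*v + v^2) - b₂*u*v - b₄*(u+v) := by
    apply mul_left_cancel₀ huv'
    linear_combination R₂ - R₁
  subst R₃
  linear_combination
    (464*u^8 - 5104*u^7*v - 116*u^7*b₂ + 15440*u^6*v^2 - 404*u^6*v*b₂ + 28*u^6*b₂^2 - 1888*u^6*b₄ +
      944*u^5*v^3 + 7956*u^5*v^2*b₂ + 52*u^5*v*b₂^2 + 12240*u^5*v*b₄ + 4*u^5*b₂^3 + 76*u^5*b₂*b₄ -
      44224*u^4*v^4 - 14348*u^4*v^3*b₂ + 188*u^4*v^2*b₂^2 - 7776*u^4*v^2*b₄ - 88*u^4*v*b₂^3 +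
      3804*u^4*v*b₂*b₄ - u^4*b₂^4 - 20*u^4*b₂^2*b₄ + 2332*u^4*b₄^2 + 944*u^3*v^5 - 14348*u^3*v^4*b₂ -
      3128*u^3*v^3*b₂^2 - 39712*u^3*v^3*b₄ + 108*u^3*v^2*b₂^3 - 12520*u^3*v^2*b₂*b₄ - 3*u^3*v*b₂^4 +
      8*u^3*v*b₂^2*b₄ - 5008*u^3*v*b₄^2 + (1/4)*u^3*b₂^5 - 22*u^3*b₂^3*b₄ + 360*u^3*b₂*b₄^2 +
      15440*u^2*v^6 + 7956*u^2*v^5*b₂ + 188*u^2*v^4*b₂^2 - 7776*u^2*v^4*b₄ + 108*u^2*v^3*b₂^3 -
      12520*u^2*v^3*b₂*b₄ + 55*u^2*v^2*b₂^4 - 1992*u^2*v^2*b₂^2*b₄ - 13656*u^2*v^2*b₄^2 +
      (1/4)*u^2*v*b₂^5 + 86*u^2*v*b₂^3*b₄ - 3528*u^2*v*b₂*b₄^2 + u^2*b₂^4*b₄ - 14*u^2*b₂^2*b₄^2 -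
      704*u^2*b₄^3 - 5104*u*v^7 - 404*u*v^6*b₂ + 52*u*v^5*b₂^2 + 12240*u*v^5*b₄ - 88*u*v^4*b₂^3 +
      3804*u*v^4*b₂*b₄ - 3*u*v^3*b₂^4 + 8*u*v^3*b₂^2*b₄ - 5008*u*v^3*b₄^2 + (1/4)*u*v^2*b₂^5 +
      86*u*v^2*b₂^3*b₄ - 3528*u*v^2*b₂*b₄^2 - (1/4)*u*v*b₂^6 + 19*u*v*b₂^4*b₄ - 284*u*v*b₂^2*b₄^2 -
      2432*u*v*b₄^3 - (1/4)*u*b₂^5*b₄ + 18*u*b₂^3*b₄^2 - 320*u*b₂*b₄^3 + 464*v^8 - 116*v^7*b₂ +
      28*v^6*b₂^2 - 1888*v^6*b₄ + 4*v^5*b₂^3 + 76*v^5*b₂*b₄ - v^4*b₂^4 - 20*v^4*b₂^2*b₄ +
      2332*v^4*b₄^2 + (1/4)*v^3*b₂^5 - 22*v^3*b₂^3*b₄ + 360*v^3*b₂*b₄^2 + v^2*b₂^4*b₄ -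
      14*v^2*b₂^2*b₄^2 - 704*v^2*b₄^3 - (1/4)*v*b₂^5*b₄ + 18*v*b₂^3*b₄^2 - 320*v*b₂*b₄^3 -
      (1/4)*b₂^4*b₄^2 + 16*b₂^2*b₄^3 - 256*b₄^4) * R₁
    + (116*u^8 - 1276*u^7*v - 29*u^7*b₂ + 3860*u^6*v^2 - 101*u^6*v*b₂ - 4*u^6*b₂^2 - 472*u^6*b₄ +
      236*u^5*v^3 + 1989*u^5*v^2*b₂ + 79*u^5*v*b₂^2 + 3060*u^5*v*b₄ + u^5*b₂^3 + 19*u^5*b₂*b₄ -
      11056*u^4*v^4 - 3587*u^4*v^3*b₂ + 44*u^4*v^2*b₂^2 - 1944*u^4*v^2*b₄ + 5*u^4*v*b₂^3 +
      951*u^4*v*b₂*b₄ - (1/4)*u^4*b₂^4 + 22*u^4*b₂^2*b₄ + 583*u^4*b₄^2 + 236*u^3*v^5 - 3587*u^3*v^4*b₂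
      - 1102*u^3*v^3*b₂^2 - 9928*u^3*v^3*b₄ - 54*u^3*v^2*b₂^3 - 3130*u^3*v^2*b₂*b₄ - (3/4)*u^3*v*b₂^4
      - 52*u^3*v*b₂^2*b₄ - 1252*u^3*v*b₄^2 - u^3*b₂^3*b₄ + 90*u^3*b₂*b₄^2 + 3860*u^2*v^6 +
      1989*u^2*v^5*b₂ + 44*u^2*v^4*b₂^2 - 1944*u^2*v^4*b₄ - 54*u^2*v^3*b₂^3 - 3130*u^2*v^3*b₂*b₄ +
      (1/4)*u^2*v^2*b₂^4 - 660*u^2*v^2*b₂^2*b₄ - 3414*u^2*v^2*b₄^2 + (1/4)*u^2*v*b₂^5 -
      19*u^2*v*b₂^3*b₄ - 882*u^2*v*b₂*b₄^2 + (1/4)*u^2*b₂^4*b₄ - 17*u^2*b₂^2*b₄^2 - 176*u^2*b₄^3 -
      1276*u*v^7 - 101*u*v^6*b₂ + 79*u*v^5*b₂^2 + 3060*u*v^5*b₄ + 5*u*v^4*b₂^3 + 951*u*v^4*b₂*b₄ -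
      (3/4)*u*v^3*b₂^4 - 52*u*v^3*b₂^2*b₄ - 1252*u*v^3*b₄^2 + (1/4)*u*v^2*b₂^5 - 19*u*v^2*b₂^3*b₄ -
      882*u*v^2*b₂*b₄^2 + (1/4)*u*v*b₂^4*b₄ - 98*u*v*b₂^2*b₄^2 - 608*u*v*b₄^3 - 80*u*b₂*b₄^3 + 116*v^8
      - 29*v^7*b₂ - 4*v^6*b₂^2 - 472*v^6*b₄ + v^5*b₂^3 + 19*v^5*b₂*b₄ - (1/4)*v^4*b₂^4 +
      22*v^4*b₂^2*b₄ + 583*v^4*b₄^2 - v^3*b₂^3*b₄ + 90*v^3*b₂*b₄^2 + (1/4)*v^2*b₂^4*b₄ -
      17*v^2*b₂^2*b₄^2 - 176*v^2*b₄^3 - 80*v*b₂*b₄^3 - (1/4)*b₂^4*b₈ - 64*b₄^4) * hb

end Fermat.Agent.S51.Five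

end
-- ===== PACK-END S51/FiveAlg.lean

-- ===== PACK-BEGIN S55/H414/CycloOrder.lean
section


/-!
# S55, leaf CYC-INF (helper414), part 2: orders of integers modulo `p ^ n`

Elementary number theory: if `q ≥ 2` then the `p`-part of the multiplicative order of `q`
modulo `p ^ n` tends to infinity with `n`.
-/

set_option autoImplicit false

namespace Fermat.Agent.S55.H414

/-- If `o ∣ (p - 1) * p ^ m` and `p ^ k ∤ o` (with `k ≥ 1`), then `o ∣ (p - 1) * p ^ (k - 1)`. -/
theorem dvd_pred_mul_pow_of_not_pow_dvd {p : ℕ} (hp : p.Prime) {o m k : ℕ}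
    (ho : o ∣ (p - 1) * p ^ m) (hk : ¬ p ^ k ∣ o) : o ∣ (p - 1) * p ^ (k - 1) := by
  have ho0 : o ≠ 0 := by
    rintro rfl
    exact hk (dvd_zero _)
  obtain ⟨j, a, ha, rfl⟩ := Nat.exists_eq_pow_mul_and_not_dvd ho0 p hp.ne_one
  have hcop : Nat.Coprime a (p ^ m) := Nat.Coprime.pow_right _
    ((Nat.Prime.coprime_iff_not_dvd hp).2 ha).symm
  have ha1 : a ∣ p - 1 := by
    have : a ∣ (p - 1) * p ^ m := (Dvd.intro_left _ rfl).trans ho
    exact hcop.dvd_of_dvd_mul_right this
  have hj : j < k := by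
    by_contra hjk
    exact hk ((pow_dvd_pow p (Nat.le_of_not_lt hjk)).trans (Dvd.intro _ rfl))
  have hj' : p ^ j ∣ p ^ (k - 1) := pow_dvd_pow p (by omega)
  rw [mul_comm (p - 1)]
  exact Nat.mul_dvd_mul hj' ha1

/-- For `q ≥ 2` and every `k`, for all large `n`, every unit of `ZMod (p ^ n)` which is the class
of `q` has order divisible by `p ^ k`. -/
theorem exists_forall_pow_dvd_orderOf (p q : ℕ) (hp : p.Prime) (hq : 2 ≤ q) (k : ℕ) :
    ∃ n₀ : ℕ, ∀ n, n₀ ≤ n → ∀ u : (ZMod (p ^ n))ˣ, (u : ZMod (p ^ n)) = (q : ZMod (p ^ n)) →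
      p ^ k ∣ orderOf u := by
  set E : ℕ := (p - 1) * p ^ (k - 1) with hE
  have hE0 : 0 < E := Nat.mul_pos (Nat.sub_pos_of_lt hp.one_lt) (pow_pos hp.pos _)
  set m : ℕ := q ^ E with hm
  have hm2 : 2 ≤ m := by
    calc 2 ≤ q := hq
      _ = q ^ 1 := (pow_one q).symm
      _ ≤ q ^ E := Nat.pow_le_pow_right (by omega) hE0
  refine ⟨m, fun n hn u hu => ?_⟩
  by_contra hk
  haveI : NeZero (p ^ n) := ⟨pow_ne_zero _ hp.ne_zero⟩
  have hn0 : n ≠ 0 := by
    rintro rfl
    omega
  have hcard : Nat.card (ZMod (p ^ n))ˣ = (p - 1) * p ^ (n - 1) := by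
    rw [Nat.card_eq_fintype_card, ZMod.card_units_eq_totient,
      Nat.totient_prime_pow hp (Nat.pos_of_ne_zero hn0), mul_comm]
  have ho : orderOf u ∣ (p - 1) * p ^ (n - 1) := by
    rw [← hcard]
    exact orderOf_dvd_natCard u
  have hoE : orderOf u ∣ E := dvd_pred_mul_pow_of_not_pow_dvd hp ho hk
  have h1 : u ^ E = 1 := orderOf_dvd_iff_pow_eq_one.1 hoE
  have h2 : ((m : ℕ) : ZMod (p ^ n)) = 1 := by
    have := congrArg (fun v : (ZMod (p ^ n))ˣ => (v : ZMod (p ^ n))) h1
    simp only [Units.val_pow_eq_pow_val, Units.val_one, hu] at this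
    rw [hm, Nat.cast_pow]
    exact this
  have h3 : ((m - 1 : ℕ) : ZMod (p ^ n)) = 0 := by
    rw [Nat.cast_sub (by omega), h2]
    simp
  have h4 : p ^ n ∣ m - 1 := (ZMod.natCast_eq_zero_iff _ _).1 h3
  have h5 : p ^ n ≤ m - 1 := Nat.le_of_dvd (by omega) h4
  have h6 : m < p ^ m := Nat.lt_pow_self hp.one_lt
  have h7 : p ^ m ≤ p ^ n := Nat.pow_le_pow_right hp.pos hn
  omega

end Fermat.Agent.S55.H414

end
-- ===== PACK-END S55/H414/CycloOrder.lean

-- ===== PACK-BEGIN S13/Skel.lean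
section
/-
S13 skeleton / final glue (row-lead helper13).

`Fermat.Agent.S13.Skel.result_of_parts` proves the frozen S13 statement from the
frozen interface statements (T1, T3, T4, T5, T6, T7) taken as explicit hypotheses.
Imports: the frozen statement module only.  Piece owners only have to match the shapes.
-/


set_option autoImplicit false

namespace Fermat.Agent.S13.Skel

/-! ### Linear algebra over a field: nilpotent maps on lines -/

section LinAlg

variable {K M : Type*} [Field K] [AddCommGroup M] [Module K M]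

/-- On a module of rank `≤ 1`, an endomorphism with square zero is zero. -/
theorem eq_zero_of_sq_zero_of_finrank_le_one [Module.Finite K M]
    (h1 : Module.finrank K M ≤ 1) (g : M →ₗ[K] M) (hg : ∀ x, g (g x) = 0) (x : M) :
    g x = 0 := by
  obtain ⟨v, hv⟩ := finrank_le_one_iff.1 h1
  obtain ⟨c, hc⟩ := hv (g v)
  have hgv : g v = 0 := by
    by_cases hv0 : v = 0
    · rw [hv0, map_zero]
    · have h2 : (c * c) • v = 0 := by
        have := hg v
        rw [← hc, map_smul, ← hc, smul_smul] at this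
        exact this
      rcases smul_eq_zero.1 h2 with h | h
      · have hc0 : c = 0 := by simpa using h
        rw [← hc, hc0, zero_smul]
      · exact absurd h hv0
  obtain ⟨d, hd⟩ := hv x
  rw [← hd, map_smul, hgv, smul_zero]

variable [Module.Finite K M]

/-- In a space of rank `≤ 2`, with `N ≠ ⊥, ⊤` stable under `f`:
`f² = 0` on `N` implies `f = 0` on `N`. -/
theorem eq_zero_on_of_sq_zero (h2 : Module.finrank K M ≤ 2) (N : Submodule K M)
    (hN : N ≠ ⊤) (f : M →ₗ[K] M) (hf : ∀ x ∈ N, f x ∈ N)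
    (hsq : ∀ x ∈ N, f (f x) = 0) : ∀ x ∈ N, f x = 0 := by
  have hlt : Module.finrank K N < Module.finrank K M := Submodule.finrank_lt hN
  have h1 : Module.finrank K N ≤ 1 := by omega
  intro x hx
  have := eq_zero_of_sq_zero_of_finrank_le_one h1 (f.restrict hf)
    (fun y => Subtype.ext (by simpa using hsq y y.2)) ⟨x, hx⟩
  simpa using congrArg Subtype.val this

/-- In a space of rank `≤ 2`, with `N ≠ ⊥, ⊤` stable under `f`:
`f² ⊆ N` implies `f ⊆ N`. -/
theorem mem_of_sq_mem (h2 : Module.finrank K M ≤ 2) (N : Submodule K M)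
    (hN : N ≠ ⊥) (f : M →ₗ[K] M) (hf : ∀ x ∈ N, f x ∈ N)
    (hsq : ∀ x, f (f x) ∈ N) : ∀ x, f x ∈ N := by
  have hpos : 0 < Module.finrank K N := by
    rw [Module.finrank_pos_iff_exists_ne_zero]
    obtain ⟨x, hx, hx0⟩ := (Submodule.ne_bot_iff N).1 hN
    exact ⟨⟨x, hx⟩, fun h => hx0 (congrArg Subtype.val h)⟩
  have hadd := N.finrank_quotient_add_finrank
  have h1 : Module.finrank K (M ⧸ N) ≤ 1 := by omega
  have hle : N ≤ N.comap f := fun x hx => hf x hx
  intro x
  have := eq_zero_of_sq_zero_of_finrank_le_one h1 (N.mapQ N f hle)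
    (fun y => by
      induction y using Submodule.Quotient.induction_on with
      | _ y =>
        simp only [Submodule.mapQ_apply]
        exact (Submodule.Quotient.mk_eq_zero N).2 (hsq y)) (Submodule.Quotient.mk x)
  simpa [Submodule.mapQ_apply, Submodule.Quotient.mk_eq_zero] using this

end LinAlg

/-! ### The Galois glue -/

section Glue

open WeierstrassCurve WeierstrassCurve.Affine WeierstrassCurve.Affine.Point

variable (P : FreyPackage)

/-- `E[p](ℚ̄)` of the Frey curve, in the exact Prelude shape. -/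
abbrev Vp : Type :=
  Submodule.torsionBy ℤ (P.freyCurve⁄(AlgebraicClosure ℚ)).Point P.p

/-- `Gal(ℚ̄/ℚ)`. -/
abbrev GQ : Type := (AlgebraicClosure ℚ) ≃ₐ[ℚ] (AlgebraicClosure ℚ)

/-- `σ - 1` as a `ZMod p`-linear endomorphism of `E[p]`. -/
noncomputable def sigmaSubOne (σ : GQ) : Vp P →ₗ[ZMod P.p] Vp P :=
  AddMonoidHom.toZModLinearMap P.p (DistribSMul.toAddMonoidHom (Vp P) σ) - LinearMap.id

theorem sigmaSubOne_apply (σ : GQ) (x : Vp P) : sigmaSubOne P σ x = σ • x - x := rfl

/-- `dim E[p] ≤ 2` from the T1 count. -/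
theorem finrank_le_two (hfin : Finite (Vp P)) (hcard : Nat.card (Vp P) ≤ P.p ^ 2) :
    Module.finrank (ZMod P.p) (Vp P) ≤ 2 := by
  have : Fact P.p.Prime := ⟨P.pp⟩
  have : Module.Finite (ZMod P.p) (Vp P) := Module.Finite.of_finite
  have h := Module.natCard_eq_pow_finrank (K := ZMod P.p) (V := Vp P)
  rw [Nat.card_zmod] at h
  rw [h] at hcard
  exact (Nat.pow_le_pow_iff_right P.pp.one_lt).1 hcard

/-- The subgroup of `Gal(ℚ̄/ℚ)` fixing `N` pointwise (kernel of `χ₁`). -/
def fixN (N : Submodule (ZMod P.p) (Vp P)) : Subgroup GQ where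
  carrier := {σ | ∀ x ∈ N, σ • x = x}
  one_mem' := fun x _ => one_smul _ x
  mul_mem' := by
    intro σ τ hσ hτ x hx
    rw [mul_smul, hτ x hx, hσ x hx]
  inv_mem' := by
    intro σ hσ x hx
    conv_lhs => rw [← hσ x hx]
    exact inv_smul_smul σ x

/-- The subgroup of `Gal(ℚ̄/ℚ)` acting trivially on `V/N` (kernel of `χ₂`). -/
def cofixN (N : Submodule (ZMod P.p) (Vp P)) : Subgroup GQ where
  carrier := {σ | ∀ x, σ • x - x ∈ N}
  one_mem' := fun x => by simp
  mul_mem' := by
    intro σ τ hσ hτ x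
    have h : (σ * τ) • x - x = (σ • (τ • x) - τ • x) + (τ • x - x) := by
      rw [mul_smul]; abel
    rw [h]
    exact N.add_mem (hσ _) (hτ _)
  inv_mem' := by
    intro σ hσ x
    have h : σ⁻¹ • x - x = -(σ • (σ⁻¹ • x) - σ⁻¹ • x) := by
      rw [smul_inv_smul]; abel
    rw [h]
    exact N.neg_mem (hσ _)

theorem mem_fixN {N : Submodule (ZMod P.p) (Vp P)} {σ : GQ} :
    σ ∈ fixN P N ↔ ∀ x ∈ N, σ • x = x := Iff.rfl

theorem mem_cofixN {N : Submodule (ZMod P.p) (Vp P)} {σ : GQ} :
    σ ∈ cofixN P N ↔ ∀ x, σ • x - x ∈ N := Iff.rfl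

theorem fixN_normal {N : Submodule (ZMod P.p) (Vp P)}
    (hN : IsGaloisStable (K := AlgebraicClosure ℚ) ℚ N) : (fixN P N).Normal := by
  refine ⟨fun σ hσ τ x hx => ?_⟩
  have h1 : τ⁻¹ • x ∈ N := hN τ⁻¹ x hx
  rw [mul_smul, mul_smul, hσ _ h1, smul_inv_smul]

theorem cofixN_normal {N : Submodule (ZMod P.p) (Vp P)}
    (hN : IsGaloisStable (K := AlgebraicClosure ℚ) ℚ N) : (cofixN P N).Normal := by
  refine ⟨fun σ hσ τ x => ?_⟩
  have h1 : σ • (τ⁻¹ • x) - τ⁻¹ • x ∈ N := hσ _
  have h2 := hN τ _ h1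
  have h3 : (τ * σ * τ⁻¹) • x - x = τ • (σ • (τ⁻¹ • x) - τ⁻¹ • x) := by
    rw [mul_smul, mul_smul, smul_sub, smul_inv_smul]
  rw [h3]
  exact h2

/-- Openness: a finite set of coordinates whose pointwise fixer acts trivially on `E[p]`. -/
theorem exists_finset_fix (hfin : Finite (Vp P)) :
    ∃ s : Finset (AlgebraicClosure ℚ), ∀ σ : GQ, (∀ x ∈ s, σ x = x) →
      ∀ v : Vp P, σ • v = v := by
  classical
  have := Fintype.ofFinite (Vp P)
  let coords : (P.freyCurve⁄(AlgebraicClosure ℚ)).Point → Finset (AlgebraicClosure ℚ) :=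
    fun Q => match Q with
      | .zero => ∅
      | .some x y _ => {x, y}
  refine ⟨Finset.univ.biUnion fun v : Vp P => coords v.1, fun σ hσ v => ?_⟩
  have hv : ∀ x ∈ coords v.1, σ x = x := fun x hx =>
    hσ x (Finset.mem_biUnion.2 ⟨v, Finset.mem_univ _, hx⟩)
  apply Subtype.ext
  change Point.map σ.toAlgHom v.1 = v.1
  rcases hQ : v.1 with _ | ⟨x, y, h⟩
  · rfl
  · rw [hQ] at hv
    have hx : σ x = x := hv x (by simp [coords])
    have hy : σ y = y := hv y (by simp [coords])
    rw [Point.map_some]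
    simp only [Point.some.injEq]
    exact ⟨hx, hy⟩

/-- Unipotent inertia (`(σ-1)² = 0` on `E[p]`) lies in both character kernels. -/
theorem unipotent_mem (hfin : Finite (Vp P)) (hcard : Nat.card (Vp P) ≤ P.p ^ 2)
    {N : Submodule (ZMod P.p) (Vp P)}
    (hN : IsGaloisStable (K := AlgebraicClosure ℚ) ℚ N) (hbot : N ≠ ⊥) (htop : N ≠ ⊤)
    (σ : GQ) (hσ : ∀ x : Vp P, σ • (σ • x - x) = σ • x - x) :
    σ ∈ fixN P N ∧ σ ∈ cofixN P N := by
  have : Fact P.p.Prime := ⟨P.pp⟩
  have : Module.Finite (ZMod P.p) (Vp P) := Module.Finite.of_finite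
  have h2 := finrank_le_two P hfin hcard
  have hst : ∀ x ∈ N, sigmaSubOne P σ x ∈ N := fun x hx =>
    N.sub_mem (hN σ x hx) hx
  have hsq : ∀ x : Vp P, sigmaSubOne P σ (sigmaSubOne P σ x) = 0 := fun x => by
    rw [sigmaSubOne_apply, sigmaSubOne_apply, hσ x, sub_self]
  constructor
  · intro x hx
    have := eq_zero_on_of_sq_zero h2 N htop (sigmaSubOne P σ) hst (fun y _ => hsq y) x hx
    rw [sigmaSubOne_apply] at this
    exact sub_eq_zero.1 this
  · intro x
    have := mem_of_sq_mem h2 N hbot (sigmaSubOne P σ) hst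
      (fun y => by rw [hsq y]; exact N.zero_mem) x
    rwa [sigmaSubOne_apply] at this

/-- `(σ-1)² E[p] ⊆ N` and `σ ∈ I` implies `σ` is trivial on `V/N`. -/
theorem mem_cofixN_of_sq (hfin : Finite (Vp P)) (hcard : Nat.card (Vp P) ≤ P.p ^ 2)
    {N : Submodule (ZMod P.p) (Vp P)}
    (hN : IsGaloisStable (K := AlgebraicClosure ℚ) ℚ N) (hbot : N ≠ ⊥)
    (σ : GQ) (hσ : ∀ x : Vp P, σ • (σ • x - x) - (σ • x - x) ∈ N) :
    σ ∈ cofixN P N := by
  have : Fact P.p.Prime := ⟨P.pp⟩
  have : Module.Finite (ZMod P.p) (Vp P) := Module.Finite.of_finite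
  have h2 := finrank_le_two P hfin hcard
  have hst : ∀ x ∈ N, sigmaSubOne P σ x ∈ N := fun x hx =>
    N.sub_mem (hN σ x hx) hx
  intro x
  have := mem_of_sq_mem h2 N hbot (sigmaSubOne P σ) hst
    (fun y => by rw [sigmaSubOne_apply, sigmaSubOne_apply]; exact hσ y) x
  rwa [sigmaSubOne_apply] at this

/-- Adapter: the character form of Minkowski (T6, `minkowski_character`) gives the
subgroup form used by `result_of_parts`. -/
theorem minkowski_subgroup_of_character
    (hchar : ∀ (H : Type) [Group H] (χ : GQ →* H),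
      (∃ s : Finset (AlgebraicClosure ℚ), ∀ σ : GQ, (∀ x ∈ s, σ x = x) → χ σ = 1) →
      (∀ q : ℕ, q.Prime → ∃ A : ValuationSubring (AlgebraicClosure ℚ),
          A.LiesOverPrime q ∧ ∀ σ ∈ A.inertiaSubgroupIn ℚ, χ σ = 1) →
      ∀ σ, χ σ = 1)
    (H : Subgroup GQ) (hH : H.Normal)
    (hopen : ∃ s : Finset (AlgebraicClosure ℚ), ∀ σ : GQ, (∀ x ∈ s, σ x = x) → σ ∈ H)
    (hunr : ∀ q : ℕ, q.Prime → ∃ A : ValuationSubring (AlgebraicClosure ℚ),
        A.LiesOverPrime q ∧ ∀ σ ∈ A.inertiaSubgroupIn ℚ, σ ∈ H) : H = ⊤ := by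
  have key := hchar (GQ ⧸ H) (QuotientGroup.mk' H)
    (by
      obtain ⟨s, hs⟩ := hopen
      exact ⟨s, fun σ hσ => (QuotientGroup.eq_one_iff σ).2 (hs σ hσ)⟩)
    (fun q hq => by
      obtain ⟨A, hA, hA2⟩ := hunr q hq
      exact ⟨A, hA, fun σ hσ => (QuotientGroup.eq_one_iff σ).2 (hA2 σ hσ)⟩)
  exact (Subgroup.eq_top_iff' H).2 fun σ => (QuotientGroup.eq_one_iff σ).1 (key σ)

/-- **S13 from its parts.**  Hypotheses are the frozen interface statements:
* `hT1`  : `E[p](ℚ̄)` is nontrivial, finite, of cardinality `≤ p²`;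
* `hT3`  : S05 (unramified at `q ≠ 2, p`);
* `hT4`  : at ONE valuation ring over `2`, inertia is unipotent: `(σ-1)² = 0`;
* `hT5`  : for each stable line `N`, at ONE valuation ring over `p`, inertia is trivial
           on `N` or trivial on `V/N`;
* `hT6`  : Minkowski (subgroup form): a normal open subgroup containing one inertia
           group at every prime is everything;
* `hT7`  : no nonzero Galois-fixed point in `E[p]`;
* `hex`  : valuation rings over every prime exist. -/
theorem result_of_parts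
    (hT1 : Nontrivial (Vp P) ∧ Finite (Vp P) ∧ Nat.card (Vp P) ≤ P.p ^ 2)
    (hT3 : ∀ q : ℕ, q.Prime → q ≠ 2 → q ≠ P.p → P.GaloisRepUnramifiedAt q)
    (hT4 : ∃ A : ValuationSubring (AlgebraicClosure ℚ), A.LiesOverPrime 2 ∧
        ∀ σ ∈ A.inertiaSubgroupIn ℚ, ∀ x : Vp P, σ • (σ • x - x) = σ • x - x)
    (hT5 : ∀ N : Submodule (ZMod P.p) (Vp P),
        IsGaloisStable (K := AlgebraicClosure ℚ) ℚ N → N ≠ ⊥ → N ≠ ⊤ →
        ∃ A : ValuationSubring (AlgebraicClosure ℚ), A.LiesOverPrime P.p ∧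
          ((∀ σ ∈ A.inertiaSubgroupIn ℚ, ∀ x ∈ N, σ • x = x) ∨
           (∀ σ ∈ A.inertiaSubgroupIn ℚ, ∀ x : Vp P, σ • x - x ∈ N)))
    (hT6 : ∀ H : Subgroup GQ, H.Normal →
        (∃ s : Finset (AlgebraicClosure ℚ), ∀ σ : GQ, (∀ x ∈ s, σ x = x) → σ ∈ H) →
        (∀ q : ℕ, q.Prime → ∃ A : ValuationSubring (AlgebraicClosure ℚ),
            A.LiesOverPrime q ∧ ∀ σ ∈ A.inertiaSubgroupIn ℚ, σ ∈ H) → H = ⊤)
    (hT7 : ∀ x : Vp P, (∀ σ : GQ, σ • x = x) → x = 0)
    (hex : ∀ q : ℕ, q.Prime → ∃ A : ValuationSubring (AlgebraicClosure ℚ), A.LiesOverPrime q)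
    (hred : ¬ GaloisRepIsIrreducible (K := AlgebraicClosure ℚ) ℚ P.freyCurve P.p) :
    HasGaloisStableCofixedLine (K := AlgebraicClosure ℚ) ℚ P.freyCurve P.p := by
  obtain ⟨hnt, hfin, hcard⟩ := hT1
  -- the stable line
  have hex' : ∃ N : Submodule (ZMod P.p) (Vp P),
      IsGaloisStable (K := AlgebraicClosure ℚ) ℚ N ∧ N ≠ ⊥ ∧ N ≠ ⊤ := by
    by_contra hcon
    apply hred
    refine ⟨hnt, fun N hN => ?_⟩
    by_contra h
    exact hcon ⟨N, hN, fun h1 => h (Or.inl h1), fun h1 => h (Or.inr h1)⟩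
  obtain ⟨N, hN, hbot, htop⟩ := hex'
  obtain ⟨s, hs⟩ := exists_finset_fix P hfin
  -- inertia at primes `q ≠ 2, p` and at `2` lies in both kernels
  have hboth : ∀ q : ℕ, q.Prime → q ≠ P.p →
      ∃ A : ValuationSubring (AlgebraicClosure ℚ), A.LiesOverPrime q ∧
        ∀ σ ∈ A.inertiaSubgroupIn ℚ, σ ∈ fixN P N ∧ σ ∈ cofixN P N := by
    intro q hq hqp
    by_cases hq2 : q = 2
    · subst hq2
      obtain ⟨A, hA, hA2⟩ := hT4
      exact ⟨A, hA, fun σ hσ => unipotent_mem P hfin hcard hN hbot htop σ (hA2 σ hσ)⟩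
    · obtain ⟨A, hA⟩ := hex q hq
      refine ⟨A, hA, fun σ hσ => ?_⟩
      have h := hT3 q hq hq2 hqp A hA σ hσ
      refine ⟨fun x _ => h x, fun x => ?_⟩
      have hx0 : σ • x - x = 0 := sub_eq_zero.2 (h x)
      rw [hx0]
      exact N.zero_mem
  obtain ⟨A, hA, hAp⟩ := hT5 N hN hbot htop
  rcases hAp with h1 | h2
  · -- `χ₁` unramified everywhere: contradiction with T7
    exfalso
    have htop1 : fixN P N = ⊤ := by
      refine hT6 _ (fixN_normal P hN) ⟨s, fun σ hσ x _ => hs σ hσ x⟩ (fun q hq => ?_)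
      by_cases hqp : q = P.p
      · subst hqp
        exact ⟨A, hA, fun σ hσ => h1 σ hσ⟩
      · obtain ⟨B, hB, hB2⟩ := hboth q hq hqp
        exact ⟨B, hB, fun σ hσ => (hB2 σ hσ).1⟩
    obtain ⟨x, hx, hx0⟩ := (Submodule.ne_bot_iff N).1 hbot
    refine hx0 (hT7 x fun σ => ?_)
    have : σ ∈ fixN P N := by rw [htop1]; exact Subgroup.mem_top σ
    exact this x hx
  · -- `χ₂` unramified everywhere: done
    have htop2 : cofixN P N = ⊤ := by
      refine hT6 _ (cofixN_normal P hN) ⟨s, fun σ hσ x => ?_⟩ (fun q hq => ?_)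
      · have hx0 : σ • x - x = 0 := sub_eq_zero.2 (hs σ hσ x)
        rw [hx0]
        exact N.zero_mem
      · by_cases hqp : q = P.p
        · subst hqp
          exact ⟨A, hA, fun σ hσ => h2 σ hσ⟩
        · obtain ⟨B, hB, hB2⟩ := hboth q hq hqp
          exact ⟨B, hB, fun σ hσ => (hB2 σ hσ).2⟩
    refine ⟨N, hN, hbot, htop, fun σ x => ?_⟩
    have : σ ∈ cofixN P N := by rw [htop2]; exact Subgroup.mem_top σ
    exact this x

end Glue

end Fermat.Agent.S13.Skel

end
-- ===== PACK-END S13/Skel.lean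

-- ===== PACK-BEGIN S13/H11/ValQ.lean
section


/-!
# S13 / T7 (helper11): valuations on `ℚ` with `w 2 < 1`

Any valuation `w` on `ℚ` with `w 2 < 1` behaves like the `2`-adic valuation:
odd integers are units, every nonzero rational has valuation `(w 2) ^ k`, and the residue
field is `𝔽₂` (an integral rational is congruent to `0` or to `1`).
-/

set_option autoImplicit false

namespace Fermat.Agent.S13.H11

variable {Γ₀ : Type*} [LinearOrderedCommGroupWithZero Γ₀] (w : Valuation ℚ Γ₀)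

lemma val_nat_le_one (n : ℕ) : w (n : ℚ) ≤ 1 := by
  induction n with
  | zero => simp
  | succ n ih =>
    push_cast
    exact (w.map_add _ _).trans (max_le ih (by simp))

lemma val_int_le_one (n : ℤ) : w (n : ℚ) ≤ 1 := by
  rcases Int.eq_nat_or_neg n with ⟨m, rfl | rfl⟩
  · exact_mod_cast val_nat_le_one w m
  · push_cast
    rw [Valuation.map_neg]
    exact val_nat_le_one w m

variable {w}

lemma val_two_ne_zero : w (2 : ℚ) ≠ 0 := by
  rw [Valuation.ne_zero_iff]; norm_num

lemma val_two_pos : 0 < w (2 : ℚ) := by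
  rw [Valuation.pos_iff]; norm_num

lemma val_even_lt_one (h2 : w (2 : ℚ) < 1) {n : ℤ} (hn : Even n) : w (n : ℚ) < 1 := by
  obtain ⟨m, rfl⟩ := hn
  have : ((m + m : ℤ) : ℚ) = 2 * (m : ℚ) := by push_cast; ring
  rw [this, map_mul]
  exact (mul_le_of_le_one_right' (val_int_le_one w m)).trans_lt h2

lemma val_odd_eq_one (h2 : w (2 : ℚ) < 1) {n : ℤ} (hn : Odd n) : w (n : ℚ) = 1 := by
  obtain ⟨m, rfl⟩ := hn
  have h : w ((2 * m : ℤ) : ℚ) < 1 := val_even_lt_one h2 (even_two_mul m)
  have : ((2 * m + 1 : ℤ) : ℚ) = 1 + ((2 * m : ℤ) : ℚ) := by push_cast; ring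
  rw [this, w.map_add_eq_of_lt_left (by rwa [map_one]), map_one]

lemma int_eq_two_pow_mul_odd {z : ℤ} (hz : z ≠ 0) :
    ∃ (a : ℕ) (m : ℤ), Odd m ∧ z = 2 ^ a * m := by
  have hfin : FiniteMultiplicity (2 : ℤ) z :=
    Int.finiteMultiplicity_iff.mpr ⟨by decide, hz⟩
  obtain ⟨c, hc, hnd⟩ := hfin.exists_eq_pow_mul_and_not_dvd
  refine ⟨_, c, ?_, hc⟩
  rw [← Int.not_even_iff_odd, even_iff_two_dvd]
  exact hnd

/-- Every nonzero rational is `2 ^ k * m / n` with `m`, `n` odd. -/
lemma rat_eq_two_zpow_mul_odd_div_odd {r : ℚ} (hr : r ≠ 0) :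
    ∃ (k : ℤ) (m n : ℤ), Odd m ∧ Odd n ∧ r = (2 : ℚ) ^ k * m / n := by
  have hnum : r.num ≠ 0 := by
    rw [Ne, Rat.num_eq_zero]; exact hr
  have hden : (r.den : ℤ) ≠ 0 := by exact_mod_cast r.den_ne_zero
  obtain ⟨a, m, hm, hma⟩ := int_eq_two_pow_mul_odd hnum
  obtain ⟨b, n, hn, hnb⟩ := int_eq_two_pow_mul_odd hden
  refine ⟨(a : ℤ) - b, m, n, hm, hn, ?_⟩
  have h2 : (2 : ℚ) ≠ 0 := by norm_num
  have hn0 : (n : ℚ) ≠ 0 := by
    intro h
    have : n = 0 := by exact_mod_cast h
    rw [this] at hn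
    exact absurd hn (by decide)
  have hnumeq : (r.num : ℚ) = (2 : ℚ) ^ a * m := by
    have := congrArg (Int.cast : ℤ → ℚ) hma
    push_cast at this
    exact this
  have hdeneq : (r.den : ℚ) = (2 : ℚ) ^ b * n := by
    have := congrArg (Int.cast : ℤ → ℚ) hnb
    push_cast at this
    exact this
  calc r = (r.num : ℚ) / (r.den : ℚ) := (Rat.num_div_den r).symm
    _ = ((2 : ℚ) ^ a * m) / ((2 : ℚ) ^ b * n) := by rw [hnumeq, hdeneq]
    _ = (2 : ℚ) ^ ((a : ℤ) - b) * m / n := by
      rw [zpow_sub₀ h2, zpow_natCast, zpow_natCast]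
      field_simp

lemma val_two_zpow (k : ℤ) : w ((2 : ℚ) ^ k) = w 2 ^ k := map_zpow₀ w 2 k

/-- Every nonzero rational has valuation `(w 2) ^ k`. -/
lemma exists_val_eq_zpow (h2 : w (2 : ℚ) < 1) {r : ℚ} (hr : r ≠ 0) :
    ∃ k : ℤ, w r = w 2 ^ k := by
  obtain ⟨k, m, n, hm, hn, rfl⟩ := rat_eq_two_zpow_mul_odd_div_odd hr
  refine ⟨k, ?_⟩
  rw [map_div₀, map_mul, val_odd_eq_one h2 hm, val_odd_eq_one h2 hn, val_two_zpow, mul_one,
    div_one]

lemma zpow_lt_one_iff (h2 : w (2 : ℚ) < 1) (k : ℤ) : w 2 ^ k < 1 ↔ 0 < k := by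
  constructor
  · intro h
    by_contra hk
    rw [not_lt] at hk
    obtain ⟨n, rfl⟩ : ∃ n : ℕ, k = -n := ⟨(-k).toNat, by omega⟩
    rw [zpow_neg, zpow_natCast] at h
    have h1 : (w 2) ^ n ≤ 1 := pow_le_one₀ zero_le h2.le
    have h3 : 0 < (w 2) ^ n := pow_pos val_two_pos n
    have := (one_le_inv₀ h3).mpr h1
    exact absurd h (not_lt.mpr this)
  · intro hk
    obtain ⟨n, rfl⟩ : ∃ n : ℕ, k = n := ⟨k.toNat, by omega⟩
    rw [zpow_natCast]
    have hn : n ≠ 0 := by omega
    exact pow_lt_one₀ zero_le h2 hn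

lemma zpow_lt_zpow_iff (h2 : w (2 : ℚ) < 1) (k l : ℤ) : w 2 ^ k < w 2 ^ l ↔ l < k := by
  have h0 : w (2 : ℚ) ≠ 0 := val_two_ne_zero
  have hl : 0 < w 2 ^ l := zpow_pos val_two_pos l
  have : w 2 ^ k = w 2 ^ (k - l) * w 2 ^ l := by
    rw [← zpow_add₀ h0]; congr 1; ring
  rw [this]
  constructor
  · intro h
    have h' : w 2 ^ (k - l) < 1 := by
      by_contra hc
      rw [not_lt] at hc
      have := mul_le_mul_left hc (w 2 ^ l)
      rw [one_mul] at this
      exact absurd h (not_lt.mpr this)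
    have := (zpow_lt_one_iff h2 _).mp h'
    omega
  · intro h
    have h' : w 2 ^ (k - l) < 1 := (zpow_lt_one_iff h2 _).mpr (by omega)
    calc w 2 ^ (k - l) * w 2 ^ l < 1 * w 2 ^ l := by
          exact mul_lt_mul_of_pos_right h' hl
      _ = w 2 ^ l := one_mul _

lemma zpow_eq_zpow_iff (h2 : w (2 : ℚ) < 1) (k l : ℤ) : w 2 ^ k = w 2 ^ l ↔ k = l := by
  constructor
  · intro h
    rcases lt_trichotomy k l with hlt | heq | hgt
    · exact absurd h ((zpow_lt_zpow_iff h2 l k).mpr hlt).ne'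
    · exact heq
    · exact absurd h ((zpow_lt_zpow_iff h2 k l).mpr hgt).ne
  · rintro rfl; rfl

/-- The residue field is `𝔽₂`. -/
lemma val_lt_one_or_sub_one (h2 : w (2 : ℚ) < 1) {r : ℚ} (hr : w r ≤ 1) :
    w r < 1 ∨ w (r - 1) < 1 := by
  by_cases hr0 : r = 0
  · left; rw [hr0, map_zero]; exact zero_lt_one
  obtain ⟨k, m, n, hm, hn, rfl⟩ := rat_eq_two_zpow_mul_odd_div_odd hr0
  have hval : w ((2 : ℚ) ^ k * m / n) = w 2 ^ k := by
    rw [map_div₀, map_mul, val_odd_eq_one h2 hm, val_odd_eq_one h2 hn, val_two_zpow, mul_one,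
      div_one]
  rcases lt_trichotomy k 0 with hk | hk | hk
  · exfalso
    rw [hval] at hr
    have : w 2 ^ (0 : ℤ) < w 2 ^ k := (zpow_lt_zpow_iff h2 0 k).mpr hk
    rw [zpow_zero] at this
    exact absurd hr (not_le.mpr this)
  · right
    subst hk
    have hn0 : (n : ℚ) ≠ 0 := by
      intro h
      have : n = 0 := by exact_mod_cast h
      rw [this] at hn
      exact absurd hn (by decide)
    have : (2 : ℚ) ^ (0 : ℤ) * m / n - 1 = ((m - n : ℤ) : ℚ) / n := by
      push_cast
      field_simp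
    rw [this, map_div₀, val_odd_eq_one h2 hn, div_one]
    exact val_even_lt_one h2 (hm.sub_odd hn)
  · left
    rw [hval]
    exact (zpow_lt_one_iff h2 k).mpr hk

lemma val_sub_lt_one_of_val_eq_one (h2 : w (2 : ℚ) < 1) {r s : ℚ} (hr : w r = 1) (hs : w s = 1) :
    w (r - s) < 1 := by
  have h1 : w (r - 1) < 1 := (val_lt_one_or_sub_one h2 hr.le).resolve_left hr.not_lt
  have h3 : w (s - 1) < 1 := (val_lt_one_or_sub_one h2 hs.le).resolve_left hs.not_lt
  have : r - s = (r - 1) - (s - 1) := by ring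
  rw [this]
  exact (w.map_sub _ _).trans_lt (max_lt h1 h3)

end Fermat.Agent.S13.H11

end
-- ===== PACK-END S13/H11/ValQ.lean

-- ===== PACK-BEGIN Ribet/H187/ELocVal.lean
section


/-!
# RIBET / S40, piece W-SS = ELOC-ss (helper187), part 1: valuation lemmas (Mathlib only)

`K` a field with a valuation `v`.

* `val_coeff_zero_eq_of_root` : two-term Newton polygon: if `f x = 0` and the term of index `n`
  strictly dominates all terms of index `0 < j < n`, then `v (f_0) = v (f_n x ^ n)`;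
* `val_coeff_prod_lt` : for `g = ∏ (X - a)` with all `1 < v a`: `g_0 ≠ 0` and `v (g_j) < v (g_0)`
  for all `j > 0`;
* `intCast_dvd_of_val_lt_one` : an integer of valuation `< 1` is divisible by `p` (if `v p < 1`);
* `val_root_of_all_roots_large` : **single slope**.  `f ∈ ℤ[X]` of degree `n ≥ 1` with leading
  coefficient `p`, `v p < 1`.  If all roots of `f` in `K` (algebraically closed) have valuation
  `> 1`, then every root `x` satisfies `v p * v x ^ n = 1`.
-/

set_option autoImplicit false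

open Polynomial

namespace Fermat.Agent.Ribet.H187

variable {K : Type*} [Field K] {Γ₀ : Type*} [LinearOrderedCommGroupWithZero Γ₀]
  (v : Valuation K Γ₀)

/-- Two-term lemma: if `f x = 0` and the term of index `n` strictly dominates the terms of
index `0 < j < n`, then `v (f.coeff 0) = v (f.coeff n * x ^ n)`. -/
theorem val_coeff_zero_eq_of_root (f : K[X]) (x : K) (n : ℕ) (hn : 0 < n)
    (hdeg : f.natDegree ≤ n) (hx : f.eval x = 0) (hn0 : f.coeff n * x ^ n ≠ 0)
    (h : ∀ j, 0 < j → j < n → v (f.coeff j * x ^ j) < v (f.coeff n * x ^ n)) :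
    v (f.coeff 0) = v (f.coeff n * x ^ n) := by
  obtain ⟨n', rfl⟩ : ∃ n', n = n' + 1 := ⟨n - 1, by omega⟩
  rw [eval_eq_sum_range' (Nat.lt_succ_of_le hdeg), Finset.sum_range_succ,
    Finset.sum_range_succ'] at hx
  have hlt : v (∑ j ∈ Finset.range n', f.coeff (j + 1) * x ^ (j + 1)) <
      v (f.coeff (n' + 1) * x ^ (n' + 1)) := by
    apply Valuation.map_sum_lt v
    · exact (Valuation.ne_zero_iff v).mpr hn0
    · intro j hj
      rw [Finset.mem_range] at hj
      exact h (j + 1) (by omega) (by omega)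
  have h1 := Valuation.map_add_eq_of_lt_left v hlt
  have h2 : f.coeff 0 = -(f.coeff (n' + 1) * x ^ (n' + 1) +
      ∑ j ∈ Finset.range n', f.coeff (j + 1) * x ^ (j + 1)) := by
    have : f.coeff 0 * x ^ 0 = f.coeff 0 := by simp
    rw [this] at hx
    linear_combination hx
  rw [h2, Valuation.map_neg]
  exact h1

/-- For `g = ∏ (X - a)` with all `1 < v a`: the constant coefficient is nonzero and strictly
dominates all other coefficients. -/
theorem val_coeff_prod_lt (s : Multiset K) (hs : ∀ a ∈ s, 1 < v a) :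
    (s.map (fun a => X - C a)).prod.coeff 0 ≠ 0 ∧
      ∀ j, 0 < j → v ((s.map (fun a => X - C a)).prod.coeff j) <
        v ((s.map (fun a => X - C a)).prod.coeff 0) := by
  induction s using Multiset.induction_on with
  | empty =>
    refine ⟨by simp, fun j hj => ?_⟩
    simp only [Multiset.map_zero, Multiset.prod_zero, coeff_one, if_neg hj.ne', map_zero,
      if_true, map_one]
    exact zero_lt_one
  | cons a t ih =>
    have ha : 1 < v a := hs a (Multiset.mem_cons_self a t)
    have ha0 : a ≠ 0 := by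
      rintro rfl
      rw [map_zero] at ha
      exact not_lt_zero ha
    obtain ⟨h0, hj⟩ := ih (fun b hb => hs b (Multiset.mem_cons_of_mem hb))
    set g := (t.map (fun a => X - C a)).prod with hg
    have hprod : ((a ::ₘ t).map (fun a => X - C a)).prod = (X - C a) * g := by
      rw [Multiset.map_cons, Multiset.prod_cons]
    rw [hprod]
    have hc0 : ((X - C a) * g).coeff 0 = -a * g.coeff 0 := by
      rw [mul_coeff_zero]
      simp
    have hcs : ∀ i, ((X - C a) * g).coeff (i + 1) = g.coeff i - a * g.coeff (i + 1) := by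
      intro i
      rw [sub_mul, coeff_sub, coeff_X_mul, coeff_C_mul]
    have hvg0 : 0 < v (g.coeff 0) := zero_lt_iff.mpr ((Valuation.ne_zero_iff v).mpr h0)
    have hva0 : 0 < v a := lt_trans zero_lt_one ha
    refine ⟨?_, ?_⟩
    · rw [hc0]
      exact mul_ne_zero (neg_ne_zero.mpr ha0) h0
    · intro j hj0
      obtain ⟨i, rfl⟩ : ∃ i, j = i + 1 := ⟨j - 1, by omega⟩
      rw [hcs, hc0, map_mul, Valuation.map_neg]
      have h1 : v (g.coeff i) < v a * v (g.coeff 0) := by
        have hle : v (g.coeff i) ≤ v (g.coeff 0) := by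
          rcases Nat.eq_zero_or_pos i with rfl | hi
          · exact le_rfl
          · exact (hj i hi).le
        calc v (g.coeff i) ≤ v (g.coeff 0) := hle
          _ = 1 * v (g.coeff 0) := (one_mul _).symm
          _ < v a * v (g.coeff 0) := mul_lt_mul_of_pos_right ha hvg0
      have h2 : v (a * g.coeff (i + 1)) < v a * v (g.coeff 0) := by
        rw [map_mul]
        exact mul_lt_mul_of_pos_left (hj (i + 1) (Nat.succ_pos i)) hva0
      exact lt_of_le_of_lt (Valuation.map_sub v _ _) (max_lt h1 h2)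

/-- Integers have valuation `≤ 1`. -/
theorem val_intCast_le_one (c : ℤ) : v (c : K) ≤ 1 :=
  (Valuation.mem_integer_iff v _).mp (intCast_mem v.integer c)

/-- An integer of valuation `< 1` is divisible by `p`, if `v p < 1`. -/
theorem intCast_dvd_of_val_lt_one {p : ℕ} (hp : p.Prime) (hpv : v (p : K) < 1) (c : ℤ)
    (hc : v (c : K) < 1) : (p : ℤ) ∣ c := by
  by_contra hnd
  have hcop : IsCoprime (p : ℤ) c :=
    (Nat.prime_iff_prime_int.mp hp).irreducible.coprime_iff_not_dvd.mpr hnd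
  obtain ⟨a, b, hab⟩ := hcop
  have h1 : ((a : K) * (p : K) + (b : K) * (c : K)) = 1 := by
    have := congrArg (fun z : ℤ => (z : K)) hab
    simpa using this
  have h2 : v ((a : K) * (p : K)) < 1 := by
    rw [map_mul]
    exact mul_lt_of_le_one_of_lt (val_intCast_le_one v a) hpv
  have h3 : v ((b : K) * (c : K)) < 1 := by
    rw [map_mul]
    exact mul_lt_of_le_one_of_lt (val_intCast_le_one v b) hc
  have h4 := lt_of_le_of_lt (Valuation.map_add v _ _) (max_lt h2 h3)
  rw [h1, map_one] at h4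
  exact lt_irrefl _ h4

/-- An integer of valuation `< 1` has valuation `≤ v p`. -/
theorem val_intCast_le_of_lt_one {p : ℕ} (hp : p.Prime) (hpv : v (p : K) < 1) (c : ℤ)
    (hc : v (c : K) < 1) : v (c : K) ≤ v (p : K) := by
  obtain ⟨d, rfl⟩ := intCast_dvd_of_val_lt_one v hp hpv c hc
  push_cast
  rw [map_mul]
  exact mul_le_of_le_one_right zero_le (val_intCast_le_one v d)

/-- **Single slope.**  Let `f ∈ ℤ[X]` have degree `n ≥ 1` and leading coefficient `p`, where
`v p < 1`.  If all roots of `f` in the algebraically closed field `K` have valuation `> 1`, then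
`v p * v x ^ n = 1` for every root `x`. -/
theorem val_root_of_all_roots_large [IsAlgClosed K] {p : ℕ} (hp : p.Prime) (hpK : (p : K) ≠ 0)
    (hpv : v (p : K) < 1) (f : ℤ[X]) (n : ℕ) (hn : 0 < n) (hdeg : f.natDegree ≤ n)
    (hlead : f.coeff n = p)
    (hroots : ∀ x : K, (f.map (Int.castRingHom K)).eval x = 0 → 1 < v x)
    (x : K) (hx : (f.map (Int.castRingHom K)).eval x = 0) :
    v (p : K) * v x ^ n = 1 := by
  set g := f.map (Int.castRingHom K) with hg
  have hcoeff : ∀ j, g.coeff j = ((f.coeff j : ℤ) : K) := fun j => by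
    rw [hg, coeff_map]; rfl
  have hgn : g.coeff n = (p : K) := by rw [hcoeff, hlead]; simp
  have hgdeg : g.natDegree ≤ n := le_trans (natDegree_map_le) hdeg
  have hgnat : g.natDegree = n :=
    natDegree_eq_of_le_of_coeff_ne_zero hgdeg (by rw [hgn]; exact hpK)
  have hlc : g.leadingCoeff = (p : K) := by rw [leadingCoeff, hgnat, hgn]
  have hsplit : g = C (p : K) * (g.roots.map (fun a => X - C a)).prod := by
    have := (IsAlgClosed.splits g).eq_prod_roots
    rw [hlc] at this
    exact this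
  have hrt : ∀ a ∈ g.roots, 1 < v a := fun a ha => hroots a ((mem_roots'.mp ha).2)
  obtain ⟨h0, hj⟩ := val_coeff_prod_lt v g.roots hrt
  set h := (g.roots.map (fun a => X - C a)).prod with hh
  have hgh : ∀ j, g.coeff j = (p : K) * h.coeff j := fun j => by
    conv_lhs => rw [hsplit]
    rw [coeff_C_mul]
  have hvp0 : 0 < v (p : K) := zero_lt_iff.mpr ((Valuation.ne_zero_iff v).mpr hpK)
  -- non-constant coefficients have valuation `≤ v p`
  have hle1 : ∀ j, v (g.coeff j) ≤ 1 := fun j => by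
    rw [hcoeff]; exact val_intCast_le_one v _
  have hlt0 : ∀ j, 0 < j → v (g.coeff j) < v (g.coeff 0) := fun j hj0 => by
    rw [hgh j, hgh 0, map_mul, map_mul]
    exact mul_lt_mul_of_pos_left (hj j hj0) hvp0
  have hlep : ∀ j, 0 < j → v (g.coeff j) ≤ v (p : K) := fun j hj0 => by
    have h1 : v (g.coeff j) < 1 := lt_of_lt_of_le (hlt0 j hj0) (hle1 0)
    rw [hcoeff] at h1 ⊢
    exact val_intCast_le_of_lt_one v hp hpv _ h1
  have hvx : 1 < v x := hroots x hx
  have hvx0 : 0 < v x := lt_trans zero_lt_one hvx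
  have hx0 : x ≠ 0 := (Valuation.ne_zero_iff v).mp hvx0.ne'
  have hdom : ∀ j, 0 < j → j < n → v (g.coeff j * x ^ j) < v (g.coeff n * x ^ n) := by
    intro j hj0 hjn
    rw [map_mul, map_mul, hgn, map_pow, map_pow]
    calc v (g.coeff j) * v x ^ j ≤ v (p : K) * v x ^ j :=
          mul_le_mul_of_nonneg_right (hlep j hj0) zero_le
      _ < v (p : K) * v x ^ n :=
          mul_lt_mul_of_pos_left (pow_lt_pow_right₀ hvx hjn) hvp0
  have hkey := val_coeff_zero_eq_of_root v g x n hn hgdeg hx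
    (by rw [hgn]; exact mul_ne_zero hpK (pow_ne_zero _ hx0)) hdom
  rw [hgn, map_mul, map_pow] at hkey
  rw [← hkey]
  rcases lt_or_eq_of_le (hle1 0) with hlt | heq
  · exfalso
    have h1 : v (g.coeff 0) ≤ v (p : K) := by
      rw [hcoeff] at hlt ⊢
      exact val_intCast_le_of_lt_one v hp hpv _ hlt
    have h2 : v (p : K) < v (p : K) * v x ^ n := by
      calc v (p : K) = v (p : K) * 1 := (mul_one _).symm
        _ < v (p : K) * v x ^ n := mul_lt_mul_of_pos_left (one_lt_pow₀ hvx hn.ne') hvp0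
    rw [← hkey] at h2
    exact lt_irrefl _ (lt_of_le_of_lt h1 h2)
  · exact heq

end Fermat.Agent.Ribet.H187

end
-- ===== PACK-END Ribet/H187/ELocVal.lean

-- ===== PACK-BEGIN Ribet/H375/KummerUnit.lean
section









/-!
# RIBET / WALL-p / ELOC-ord, leaf (K): the Kummer-unit lemma  (helper375; Mathlib only)

A group `G` acts on a field `L` and fixes a primitive `p`-th root of unity `ζ`; a family
`γ : ℤ/p → L` is permuted through `c : G → ℤ/p` (`τ γ_j = γ_{j + c τ}`), and `γ 1 - γ 0` has the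
valuation of a `G`-fixed element `b`.  Then there is a unit `y` with `τ y = ζ ^ c(τ) · y`.

Proof: Lagrange resolvents `α_i = ∑_j ζ^{-ij} γ_j`, `τ α_i = ζ^{i c τ} α_i`, and
`∑_i (ζ^i - 1) α_i = p (γ 1 - γ 0)`.  By the ultrametric inequality either one term has the
valuation of `p b` or two distinct terms have the same valuation; the quotient is a unit with
character `m c`, `m ≠ 0`, and a power of it has character `c`.
-/

set_option autoImplicit false
set_option linter.unusedSectionVars false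
set_option linter.style.haveILetI false

namespace Fermat.Agent.Ribet.H375

open Finset

section Char

variable {L : Type*} [Field L] {p : ℕ} [Fact p.Prime] {ζ : L}

/-- the character `j ↦ ζ ^ j` of `ℤ/p` -/
def kChar (ζ : L) (j : ZMod p) : L := ζ ^ j.val

lemma kChar_zero : kChar (p := p) ζ 0 = 1 := by
  simp [kChar]

lemma kChar_add (hζ : ζ ^ p = 1) (a b : ZMod p) :
    kChar ζ (a + b) = kChar ζ a * kChar ζ b := by
  unfold kChar
  rw [ZMod.val_add, ← pow_add, ← pow_eq_pow_mod _ hζ]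

lemma kChar_mul (hζ : ζ ^ p = 1) (a b : ZMod p) :
    kChar ζ (a * b) = kChar ζ b ^ a.val := by
  unfold kChar
  rw [ZMod.val_mul, ← pow_mul, ← pow_eq_pow_mod _ hζ, mul_comm]

lemma kChar_ne_zero (hζ : ζ ^ p = 1) (a : ZMod p) : kChar ζ a ≠ 0 := by
  unfold kChar
  apply pow_ne_zero
  rintro rfl
  have hp : p ≠ 0 := (Fact.out : p.Prime).ne_zero
  rw [zero_pow hp] at hζ
  exact zero_ne_one hζ

lemma kChar_eq_one_iff (hζ : IsPrimitiveRoot ζ p) (a : ZMod p) : kChar ζ a = 1 ↔ a = 0 := by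
  unfold kChar
  rw [hζ.pow_eq_one_iff_dvd]
  constructor
  · intro h
    have hlt : a.val < p := ZMod.val_lt a
    have h0 : a.val = 0 := Nat.eq_zero_of_dvd_of_lt h hlt
    exact (ZMod.val_eq_zero a).mp h0
  · rintro rfl
    simp

lemma kChar_sum_mul (hζ : IsPrimitiveRoot ζ p) (m : ZMod p) :
    ∑ i : ZMod p, kChar ζ (i * m) = if m = 0 then (p : L) else 0 := by
  have h1 : ζ ^ p = 1 := hζ.pow_eq_one
  split_ifs with hm
  · subst hm
    simp [kChar_zero, ZMod.card]
  · have hsh : ∑ i : ZMod p, kChar ζ ((i + 1) * m) = ∑ i : ZMod p, kChar ζ (i * m) :=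
      Equiv.sum_comp (Equiv.addRight (1 : ZMod p)) (fun i => kChar ζ (i * m))
    have hmul : ∑ i : ZMod p, kChar ζ ((i + 1) * m) =
        kChar ζ m * ∑ i : ZMod p, kChar ζ (i * m) := by
      rw [Finset.mul_sum]
      refine Finset.sum_congr rfl (fun i _ => ?_)
      rw [add_mul, one_mul, kChar_add h1, mul_comm]
    have hne : kChar ζ m - 1 ≠ 0 := by
      rw [sub_ne_zero]
      exact fun h => hm ((kChar_eq_one_iff hζ m).mp h)
    have h0 : (kChar ζ m - 1) * ∑ i : ZMod p, kChar ζ (i * m) = 0 := by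
      rw [sub_mul, one_mul, ← hmul, hsh, sub_self]
    exact (mul_eq_zero.mp h0).resolve_left hne

end Char

section Main

variable {L : Type*} [Field L] (A : ValuationSubring L) {G : Type*} [Group G]
  [MulSemiringAction G L]

/-- **(K)** the Kummer-unit lemma. -/
theorem kummer_unit (p : ℕ) (hp : p.Prime) (hpL : (p : L) ≠ 0)
    (ζ : L) (hζ : IsPrimitiveRoot ζ p) (hζG : ∀ τ : G, τ • ζ = ζ)
    (c : G → ZMod p) (γ : ZMod p → L) (hγ : ∀ (τ : G) (j : ZMod p), τ • γ j = γ (j + c τ))
    (b : L) (hb : ∀ τ : G, τ • b = b) (hb0 : b ≠ 0)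
    (hval : A.valuation ((γ 1 - γ 0) / b) = 1) :
    ∃ y : L, y ≠ 0 ∧ y ∈ A ∧ y⁻¹ ∈ A ∧ ∀ τ : G, τ • y = ζ ^ (c τ).val * y := by
  classical
  haveI : Fact p.Prime := ⟨hp⟩
  have h1 : ζ ^ p = 1 := hζ.pow_eq_one
  have hGe : ∀ (τ : G) (j : ZMod p), τ • kChar ζ j = kChar ζ j := by
    intro τ j
    unfold kChar
    rw [smul_pow', hζG]
  -- resolvents
  set α : ZMod p → L := fun i => ∑ j : ZMod p, kChar ζ (-(i * j)) * γ j with hα
  have hατ : ∀ (τ : G) (i : ZMod p), τ • α i = kChar ζ (i * c τ) * α i := by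
    intro τ i
    simp only [hα]
    rw [Finset.smul_sum, Finset.mul_sum]
    rw [← Equiv.sum_comp (Equiv.addRight (c τ))
      (fun j => kChar ζ (i * c τ) * (kChar ζ (-(i * j)) * γ j))]
    refine Finset.sum_congr rfl (fun j _ => ?_)
    rw [smul_mul', hGe, hγ, Equiv.coe_addRight, ← mul_assoc, ← kChar_add h1]
    congr 2
    ring
  -- the terms
  set a : ZMod p → L := fun i => (kChar ζ i - 1) * α i with ha
  have haτ : ∀ (τ : G) (i : ZMod p), τ • a i = kChar ζ (i * c τ) * a i := by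
    intro τ i
    simp only [ha]
    rw [smul_mul', smul_sub, hGe, smul_one, hατ]
    ring
  have ha0 : a 0 = 0 := by
    simp only [ha, kChar_zero, sub_self, zero_mul]
  have hsum : ∑ i : ZMod p, a i = (p : L) * (γ 1 - γ 0) := by
    simp only [ha, hα]
    simp_rw [Finset.mul_sum]
    rw [Finset.sum_comm]
    have hj : ∀ j : ZMod p, ∑ i : ZMod p, (kChar ζ i - 1) * (kChar ζ (-(i * j)) * γ j) =
        ((if 1 - j = 0 then (p : L) else 0) - (if -j = 0 then (p : L) else 0)) * γ j := by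
      intro j
      rw [← kChar_sum_mul hζ (1 - j), ← kChar_sum_mul hζ (-j), ← Finset.sum_sub_distrib,
        Finset.sum_mul]
      refine Finset.sum_congr rfl (fun i _ => ?_)
      have e1 : kChar ζ (i * (1 - j)) = kChar ζ i * kChar ζ (-(i * j)) := by
        rw [← kChar_add h1]
        congr 1
        ring
      have e2 : kChar ζ (i * -j) = kChar ζ (-(i * j)) := by
        congr 1
        ring
      rw [e1, e2]
      ring
    rw [Finset.sum_congr rfl (fun j _ => hj j)]
    simp_rw [sub_mul]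
    rw [Finset.sum_sub_distrib]
    have s1 : ∑ j : ZMod p, (if 1 - j = 0 then (p : L) else 0) * γ j = (p : L) * γ 1 := by
      rw [Finset.sum_eq_single (1 : ZMod p)]
      · simp
      · intro j _ hj1
        have : 1 - j ≠ 0 := by
          rw [sub_ne_zero]
          exact fun h => hj1 h.symm
        simp [this]
      · intro h
        exact absurd (Finset.mem_univ _) h
    have s0 : ∑ j : ZMod p, (if -j = 0 then (p : L) else 0) * γ j = (p : L) * γ 0 := by
      rw [Finset.sum_eq_single (0 : ZMod p)]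
      · simp
      · intro j _ hj0
        have : -j ≠ 0 := neg_ne_zero.mpr hj0
        simp [this]
      · intro h
        exact absurd (Finset.mem_univ _) h
    rw [s1, s0]
    ring
  -- a unit with a nontrivial character
  have hkey : ∃ (u : L) (m : ZMod p), m ≠ 0 ∧ A.valuation u = 1 ∧
      ∀ τ : G, τ • u = kChar ζ (m * c τ) * u := by
    set s : L := (p : L) * (γ 1 - γ 0) with hs
    have hpb : (p : L) * b ≠ 0 := mul_ne_zero hpL hb0
    have hs_val : A.valuation s = A.valuation ((p : L) * b) := by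
      have : s = ((γ 1 - γ 0) / b) * ((p : L) * b) := by
        rw [hs]
        field_simp
      rw [this, map_mul, hval, one_mul]
    have hs0 : s ≠ 0 := by
      intro h0
      rw [h0, map_zero] at hs_val
      exact hpb ((map_eq_zero _).mp hs_val.symm)
    set T : Finset (ZMod p) := Finset.univ.filter (fun i => a i ≠ 0) with hT
    have hTne : T.Nonempty := by
      by_contra hempty
      rw [Finset.not_nonempty_iff_eq_empty] at hempty
      apply hs0
      rw [← hsum]
      refine Finset.sum_eq_zero (fun i _ => ?_)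
      by_contra hi
      have : i ∈ T := by
        rw [hT, Finset.mem_filter]
        exact ⟨Finset.mem_univ _, hi⟩
      rw [hempty] at this
      exact absurd this (Finset.notMem_empty _)
    obtain ⟨i₁, hi₁T, hmax⟩ := Finset.exists_max_image T (fun i => A.valuation (a i)) hTne
    have hai₁ : a i₁ ≠ 0 := by
      rw [hT, Finset.mem_filter] at hi₁T
      exact hi₁T.2
    have hi₁0 : i₁ ≠ 0 := by
      rintro rfl
      exact hai₁ ha0
    by_cases hB : ∃ i₂ ∈ T, i₂ ≠ i₁ ∧ A.valuation (a i₂) = A.valuation (a i₁)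
    · obtain ⟨i₂, hi₂T, hne, hveq⟩ := hB
      have hai₂ : a i₂ ≠ 0 := by
        rw [hT, Finset.mem_filter] at hi₂T
        exact hi₂T.2
      refine ⟨a i₁ / a i₂, i₁ - i₂, sub_ne_zero.mpr (Ne.symm hne), ?_, ?_⟩
      · rw [map_div₀, hveq]
        exact div_self ((map_ne_zero _).mpr hai₁)
      · intro τ
        rw [smul_div₀', haτ, haτ]
        have hc2 : kChar ζ (i₂ * c τ) ≠ 0 := kChar_ne_zero h1 _
        have e : kChar ζ (i₁ * c τ) = kChar ζ ((i₁ - i₂) * c τ) * kChar ζ (i₂ * c τ) := by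
          rw [← kChar_add h1]
          congr 1
          ring
        rw [e]
        field_simp
    · have hlt : ∀ i ∈ (Finset.univ.erase i₁ : Finset (ZMod p)),
          A.valuation (a i) < A.valuation (a i₁) := by
        intro i hi
        have hine : i ≠ i₁ := (Finset.mem_erase.mp hi).1
        by_cases hai : a i = 0
        · rw [hai, map_zero]
          exact zero_lt_iff.mpr ((map_ne_zero _).mpr hai₁)
        · have hiT : i ∈ T := by
            rw [hT, Finset.mem_filter]
            exact ⟨Finset.mem_univ _, hai⟩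
          refine lt_of_le_of_ne (hmax i hiT) (fun heq => hB ⟨i, hiT, hine, heq⟩)
      have hrest : A.valuation (∑ i ∈ (Finset.univ.erase i₁ : Finset (ZMod p)), a i)
          < A.valuation (a i₁) :=
        Valuation.map_sum_lt _ ((map_ne_zero _).mpr hai₁) hlt
      have hsplit : s = a i₁ + ∑ i ∈ (Finset.univ.erase i₁ : Finset (ZMod p)), a i := by
        rw [← hsum, Finset.add_sum_erase _ _ (Finset.mem_univ i₁)]
      have hvs : A.valuation s = A.valuation (a i₁) := by
        rw [hsplit]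
        exact Valuation.map_add_eq_of_lt_left _ hrest
      refine ⟨a i₁ / ((p : L) * b), i₁, hi₁0, ?_, ?_⟩
      · rw [map_div₀, ← hvs, hs_val]
        exact div_self ((map_ne_zero _).mpr hpb)
      · intro τ
        have hpτ : τ • (p : L) = (p : L) :=
          map_natCast (MulSemiringAction.toRingHom G L τ) p
        rw [smul_div₀', haτ, smul_mul', hb, hpτ]
        ring
  obtain ⟨u, m, hm, hu, huτ⟩ := hkey
  have hu0 : u ≠ 0 := by
    rintro rfl
    rw [map_zero] at hu
    exact zero_ne_one hu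
  refine ⟨u ^ (m⁻¹).val, pow_ne_zero _ hu0, ?_, ?_, ?_⟩
  · rw [← A.valuation_le_one_iff, map_pow, hu, one_pow]
  · rw [← A.valuation_le_one_iff, map_inv₀, map_pow, hu, one_pow, inv_one]
  · intro τ
    rw [smul_pow', huτ, mul_pow, ← kChar_mul h1]
    have : m⁻¹ * (m * c τ) = c τ := by
      rw [← mul_assoc, inv_mul_cancel₀ hm, one_mul]
    rw [this]
    rfl

end Main

end Fermat.Agent.Ribet.H375

end
-- ===== PACK-END Ribet/H375/KummerUnit.lean

-- ===== PACK-BEGIN S12/H411/Count.lean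
section


/-!
# S12 (helper411), piece END, part 1: the trivial bound `#E(F) ≤ 2 #F + 1`

For a Weierstrass cubic `W` over a finite field `F` (any reduction type), the group of
nonsingular points has at most `2 · #F + 1` elements: at most two `y` for every `x`.
-/

set_option autoImplicit false

open WeierstrassCurve WeierstrassCurve.Affine Polynomial

namespace Fermat.Agent.S12.H411

variable {F : Type*} [Field F] (W : Affine F)

/-- the quadratic in `Y` cut out by the Weierstrass equation at a fixed `x` -/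
noncomputable def fibrePoly (x : F) : F[X] :=
  X ^ 2 + C (W.a₁ * x + W.a₃) * X - C (x ^ 3 + W.a₂ * x ^ 2 + W.a₄ * x + W.a₆)

lemma fibrePoly_natDegree (x : F) : (fibrePoly W x).natDegree = 2 := by
  unfold fibrePoly
  compute_degree!

lemma fibrePoly_ne_zero (x : F) : fibrePoly W x ≠ 0 := by
  intro h
  have := fibrePoly_natDegree W x
  rw [h, natDegree_zero] at this
  exact absurd this (by norm_num)

lemma isRoot_fibrePoly {x y : F} (h : W.Equation x y) : (fibrePoly W x).IsRoot y := by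
  rw [equation_iff] at h
  simp only [fibrePoly, IsRoot.def, eval_sub, eval_add, eval_pow, eval_X, eval_mul, eval_C]
  linear_combination h

/-- affine points as pairs -/
def pointPair [DecidableEq F] : W.Point → Option (Σ _ : F, F)
  | .zero => none
  | .some x y _ => some ⟨x, y⟩

lemma pointPair_injective [DecidableEq F] : Function.Injective (pointPair W) := by
  rintro (_ | ⟨x, y, h⟩) (_ | ⟨x', y', h'⟩) e
  · rfl
  · simp [pointPair] at e
  · simp [pointPair] at e
  · simp only [pointPair, Option.some.injEq, Sigma.mk.injEq, heq_eq_eq] at e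
    obtain ⟨rfl, rfl⟩ := e
    rfl

/-- the points over a finite field form a finite set -/
theorem finite_point [Finite F] : Finite W.Point := by
  classical
  exact Finite.of_injective (pointPair W) (pointPair_injective W)

/-- **Trivial point count.** -/
theorem natCard_point_le [Finite F] : Nat.card W.Point ≤ 2 * Nat.card F + 1 := by
  classical
  have := Fintype.ofFinite F
  let S : Finset (Σ _ : F, F) := Finset.univ.sigma fun x => (fibrePoly W x).roots.toFinset
  have hS : S.card ≤ 2 * Nat.card F := by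
    rw [Finset.card_sigma]
    calc ∑ x : F, ((fibrePoly W x).roots.toFinset).card
        ≤ ∑ _x : F, 2 := Finset.sum_le_sum fun x _ => by
          calc ((fibrePoly W x).roots.toFinset).card ≤ Multiset.card (fibrePoly W x).roots :=
                Multiset.toFinset_card_le _
            _ ≤ (fibrePoly W x).natDegree := card_roots' _
            _ = 2 := fibrePoly_natDegree W x
      _ = 2 * Nat.card F := by
          rw [Finset.sum_const, Finset.card_univ, Nat.card_eq_fintype_card, smul_eq_mul, mul_comm]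
  let T : Finset (Option (Σ _ : F, F)) := insert none (S.map Function.Embedding.some)
  have hT : T.card ≤ 2 * Nat.card F + 1 := by
    calc T.card ≤ (S.map Function.Embedding.some).card + 1 := Finset.card_insert_le _ _
      _ = S.card + 1 := by rw [Finset.card_map]
      _ ≤ 2 * Nat.card F + 1 := by omega
  have hmem : ∀ P : W.Point, pointPair W P ∈ T := by
    rintro (_ | ⟨x, y, h⟩)
    · exact Finset.mem_insert_self _ _
    · refine Finset.mem_insert_of_mem (Finset.mem_map.mpr ⟨⟨x, y⟩, ?_, rfl⟩)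
      refine Finset.mem_sigma.mpr ⟨Finset.mem_univ _, ?_⟩
      rw [Multiset.mem_toFinset, mem_roots (fibrePoly_ne_zero W x)]
      exact isRoot_fibrePoly W h.1
  calc Nat.card W.Point ≤ Nat.card T :=
        Nat.card_le_card_of_injective (fun P => (⟨pointPair W P, hmem P⟩ : T))
          (fun P Q e => pointPair_injective W (congrArg Subtype.val e))
    _ = T.card := by rw [Nat.card_eq_fintype_card, Fintype.card_coe]
    _ ≤ 2 * Nat.card F + 1 := hT

end Fermat.Agent.S12.H411

end
-- ===== PACK-END S12/H411/Count.lean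

-- ===== PACK-BEGIN Lib/Cheb/H993/LogAsymp.lean
section


/-!
# `f = a · log (1/(s-1)) + O(1)` on `(1, 2]`, and prime Dirichlet sums

Small calculus used by the glue piece `M` of the shared library CHEB.
-/

set_option autoImplicit false

namespace Fermat.Agent.Lib.Cheb.H993

noncomputable section

/-- The main term `log (1 / (s - 1))`. -/
def ell (s : ℝ) : ℝ := Real.log (1 / (s - 1))

/-- `f = a · ell + O(1)` on `(1, 2]`. -/
def LogAsymp (f : ℝ → ℝ) (a : ℝ) : Prop :=
  ∃ C : ℝ, ∀ s : ℝ, 1 < s → s ≤ 2 → |f s - a * ell s| ≤ C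

theorem LogAsymp.congr {f g : ℝ → ℝ} {a : ℝ} (hf : LogAsymp f a)
    (h : ∀ s : ℝ, 1 < s → s ≤ 2 → g s = f s) : LogAsymp g a := by
  obtain ⟨C, hC⟩ := hf
  exact ⟨C, fun s h1 h2 => by rw [h s h1 h2]; exact hC s h1 h2⟩

theorem LogAsymp.add {f g : ℝ → ℝ} {a b : ℝ} (hf : LogAsymp f a) (hg : LogAsymp g b) :
    LogAsymp (fun s => f s + g s) (a + b) := by
  obtain ⟨C, hC⟩ := hf
  obtain ⟨D, hD⟩ := hg
  refine ⟨C + D, fun s h1 h2 => ?_⟩
  have e : f s + g s - (a + b) * ell s = (f s - a * ell s) + (g s - b * ell s) := by ring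
  rw [e]
  exact (abs_add_le _ _).trans (add_le_add (hC s h1 h2) (hD s h1 h2))

theorem LogAsymp.sub {f g : ℝ → ℝ} {a b : ℝ} (hf : LogAsymp f a) (hg : LogAsymp g b) :
    LogAsymp (fun s => f s - g s) (a - b) := by
  obtain ⟨C, hC⟩ := hf
  obtain ⟨D, hD⟩ := hg
  refine ⟨C + D, fun s h1 h2 => ?_⟩
  have e : f s - g s - (a - b) * ell s = (f s - a * ell s) - (g s - b * ell s) := by ring
  rw [e]
  exact (abs_sub _ _).trans (add_le_add (hC s h1 h2) (hD s h1 h2))

theorem LogAsymp.const_mul {f : ℝ → ℝ} {a : ℝ} (c : ℝ) (hf : LogAsymp f a) :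
    LogAsymp (fun s => c * f s) (c * a) := by
  obtain ⟨C, hC⟩ := hf
  refine ⟨|c| * C, fun s h1 h2 => ?_⟩
  have e : c * f s - c * a * ell s = c * (f s - a * ell s) := by ring
  rw [e, abs_mul]
  exact mul_le_mul_of_nonneg_left (hC s h1 h2) (abs_nonneg c)

theorem LogAsymp.zero_of_bounded {f : ℝ → ℝ} {K : ℝ}
    (h : ∀ s : ℝ, 1 < s → s ≤ 2 → |f s| ≤ K) : LogAsymp f 0 :=
  ⟨K, fun s h1 h2 => by simpa using h s h1 h2⟩

theorem LogAsymp.sum {ι : Type*} (t : Finset ι) {f : ι → ℝ → ℝ} {a : ι → ℝ}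
    (h : ∀ i ∈ t, LogAsymp (f i) (a i)) :
    LogAsymp (fun s => ∑ i ∈ t, f i s) (∑ i ∈ t, a i) := by
  classical
  induction t using Finset.induction_on with
  | empty =>
    exact ⟨0, fun s _ _ => by simp⟩
  | insert i t hi ih =>
    have h1 := h i (Finset.mem_insert_self i t)
    have h2 := ih (fun j hj => h j (Finset.mem_insert_of_mem hj))
    have h3 := h1.add h2
    rw [Finset.sum_insert hi]
    exact h3.congr (fun s _ _ => Finset.sum_insert hi)

/-- `ell` is unbounded above on `(1, 2]`. -/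
theorem exists_ell_gt (M : ℝ) : ∃ s : ℝ, 1 < s ∧ s ≤ 2 ∧ M < ell s := by
  refine ⟨1 + Real.exp (-(|M| + 1)), ?_, ?_, ?_⟩
  · have := Real.exp_pos (-(|M| + 1)); linarith
  · have h : Real.exp (-(|M| + 1)) ≤ 1 := by
      rw [Real.exp_le_one_iff]; have := abs_nonneg M; linarith
    linarith
  · unfold ell
    have e : (1 + Real.exp (-(|M| + 1)) - 1) = Real.exp (-(|M| + 1)) := by ring
    rw [e, one_div, ← Real.exp_neg, Real.log_exp]
    have := le_abs_self M
    linarith

/-- If `f = a · ell + O(1)` with `a > 0` then `f` takes arbitrarily large values. -/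
theorem LogAsymp.exists_gt {f : ℝ → ℝ} {a : ℝ} (hf : LogAsymp f a) (ha : 0 < a) (M : ℝ) :
    ∃ s : ℝ, 1 < s ∧ s ≤ 2 ∧ M < f s := by
  obtain ⟨C, hC⟩ := hf
  obtain ⟨s, h1, h2, hs⟩ := exists_ell_gt ((M + C) / a)
  refine ⟨s, h1, h2, ?_⟩
  have := (abs_le.mp (hC s h1 h2)).1
  have h3 : M + C < a * ell s := by
    rw [div_lt_iff₀ ha] at hs
    linarith
  linarith

/-- The prime Dirichlet sum `∑_p a(p) p^{-s}`. -/
def pSum (a : ℕ → ℝ) (s : ℝ) : ℝ := ∑' p : Nat.Primes, a p * ((p : ℕ) : ℝ) ^ (-s)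

theorem summable_pSum {a : ℕ → ℝ} {K : ℝ} (h0 : ∀ p, 0 ≤ a p) (hK : ∀ p, a p ≤ K)
    {s : ℝ} (hs : 1 < s) : Summable (fun p : Nat.Primes => a p * ((p : ℕ) : ℝ) ^ (-s)) := by
  have hsum : Summable (fun p : Nat.Primes => K * ((p : ℕ) : ℝ) ^ (-s)) :=
    (Nat.Primes.summable_rpow.mpr (by linarith)).mul_left K
  refine Summable.of_nonneg_of_le (fun p => ?_) (fun p => ?_) hsum
  · exact mul_nonneg (h0 p) (Real.rpow_nonneg (Nat.cast_nonneg _) _)
  · exact mul_le_mul_of_nonneg_right (hK p) (Real.rpow_nonneg (Nat.cast_nonneg _) _)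

theorem pSum_nonneg {a : ℕ → ℝ} (h0 : ∀ p, 0 ≤ a p) (s : ℝ) : 0 ≤ pSum a s :=
  tsum_nonneg fun p => mul_nonneg (h0 p) (Real.rpow_nonneg (Nat.cast_nonneg _) _)

theorem pSum_finset_sum {ι : Type*} (t : Finset ι) {a : ι → ℕ → ℝ} {K : ℝ}
    (h0 : ∀ i p, 0 ≤ a i p) (hK : ∀ i p, a i p ≤ K) {s : ℝ} (hs : 1 < s) :
    pSum (fun p => ∑ i ∈ t, a i p) s = ∑ i ∈ t, pSum (a i) s := by
  unfold pSum
  rw [← Summable.tsum_finsetSum (fun i _ => summable_pSum (h0 i) (hK i) hs)]
  congr 1
  funext p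
  rw [Finset.sum_mul]

/-- A prime sum supported on a finite set of primes is bounded. -/
theorem abs_pSum_le_of_support {a : ℕ → ℝ} {K : ℝ} (B : Finset ℕ) (h0 : ∀ p, 0 ≤ a p)
    (hK : ∀ p, a p ≤ K) (hB : ∀ p, p ∉ B → a p = 0) {s : ℝ} (hs : 1 < s) :
    |pSum a s| ≤ K * B.card := by
  have hK0 : 0 ≤ K := (h0 0).trans (hK 0)
  rw [abs_of_nonneg (pSum_nonneg h0 s)]
  unfold pSum
  -- compare with the finite sum over `B`
  let T : Finset Nat.Primes := (B.filter Nat.Prime).attach.map
    ⟨fun p => ⟨p.1, (Finset.mem_filter.mp p.2).2⟩, fun p q h => by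
      apply Subtype.ext; simpa using congrArg Subtype.val h⟩
  have hT : ∀ p : Nat.Primes, p ∉ T → a p * ((p : ℕ) : ℝ) ^ (-s) = 0 := by
    intro p hp
    have : (p : ℕ) ∉ B := by
      intro hpB
      apply hp
      simp only [T, Finset.mem_map, Finset.mem_attach, true_and]
      exact ⟨⟨p.1, Finset.mem_filter.mpr ⟨hpB, p.2⟩⟩, rfl⟩
    rw [hB _ this, zero_mul]
  rw [tsum_eq_sum hT]
  have hcard : T.card ≤ B.card := by
    simp only [T, Finset.card_map, Finset.card_attach]
    exact Finset.card_filter_le _ _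
  calc ∑ p ∈ T, a p * ((p : ℕ) : ℝ) ^ (-s) ≤ ∑ _p ∈ T, K := by
        refine Finset.sum_le_sum fun p _ => ?_
        have h1 : ((p : ℕ) : ℝ) ^ (-s) ≤ 1 := by
          apply Real.rpow_le_one_of_one_le_of_nonpos
          · exact_mod_cast p.2.one_lt.le
          · linarith
        calc a p * ((p : ℕ) : ℝ) ^ (-s) ≤ K * 1 :=
              mul_le_mul (hK p) h1 (Real.rpow_nonneg (Nat.cast_nonneg _) _) hK0
          _ = K := mul_one K
    _ = K * T.card := by rw [Finset.sum_const, nsmul_eq_mul, mul_comm]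
    _ ≤ K * B.card := by
        apply mul_le_mul_of_nonneg_left _ hK0
        exact_mod_cast hcard

end

end Fermat.Agent.Lib.Cheb.H993

end
-- ===== PACK-END Lib/Cheb/H993/LogAsymp.lean

-- ===== PACK-BEGIN Lib/Frob/A2/H720/PolyVec.lean
section


/-!
# S52 / piece A2a-core (helper720): polynomial vectors, primitivity, maximal degree

For a field `F` we consider vectors `v : Fin n → F[X]`.
* `maxDeg v` : the maximum of the `natDegree`s of the entries.
* `IsPrim v` : every common divisor of the entries is a unit.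

Main results of this file:
* `natDegree_aeval_le` : a homogeneous polynomial of degree `k` with coefficients in `F`
  evaluated at `v` has degree at most `k * D` if all entries have degree at most `D`.
* `isPrim_addSubMap`, `maxDeg_addSubMap` : for an elliptic curve `W` over `F`, the quadratic map
  `WeierstrassCurve.addSubMap` sends a primitive vector `v` to a primitive vector of
  maximal degree exactly `2 * maxDeg v`.
-/

set_option autoImplicit false

open Polynomial

namespace Fermat.Agent.Lib.Frob.A2.H720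

section MapLemmas

variable {R A : Type*} [CommRing R] [CommRing A] (W : WeierstrassCurve R) (f : R →+* A)

lemma addSubMap_map (i : Fin 3) :
    (W.map f).addSubMap i = MvPolynomial.map f (W.addSubMap i) := by
  fin_cases i <;> simp [WeierstrassCurve.addSubMap, WeierstrassCurve.map_b₂,
    WeierstrassCurve.map_b₄, WeierstrassCurve.map_b₆, WeierstrassCurve.map_b₈, map_ofNat]

lemma addSubMapCoeff_map (ij : Fin 3 × Fin 3) :
    (W.map f).addSubMapCoeff ij = MvPolynomial.map f (W.addSubMapCoeff ij) := by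
  fin_cases ij <;> simp [WeierstrassCurve.addSubMapCoeff, WeierstrassCurve.map_b₂,
    WeierstrassCurve.map_b₄, WeierstrassCurve.map_b₆, WeierstrassCurve.map_b₈, map_ofNat]

end MapLemmas

variable {F : Type*} [Field F]

/-- Maximal degree of the entries of a polynomial vector. -/
noncomputable def maxDeg {n : ℕ} (v : Fin n → F[X]) : ℕ :=
  Finset.univ.sup fun i => (v i).natDegree

lemma natDegree_le_maxDeg {n : ℕ} (v : Fin n → F[X]) (i : Fin n) :
    (v i).natDegree ≤ maxDeg v :=
  Finset.le_sup (f := fun i => (v i).natDegree) (Finset.mem_univ i)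

lemma maxDeg_le {n : ℕ} {v : Fin n → F[X]} {D : ℕ} (h : ∀ i, (v i).natDegree ≤ D) :
    maxDeg v ≤ D :=
  Finset.sup_le fun i _ => h i

lemma exists_natDegree_eq_maxDeg {n : ℕ} [NeZero n] (v : Fin n → F[X]) :
    ∃ i, (v i).natDegree = maxDeg v := by
  obtain ⟨i, -, hi⟩ := Finset.exists_mem_eq_sup (Finset.univ : Finset (Fin n))
    ⟨0, Finset.mem_univ _⟩ (fun i => (v i).natDegree)
  exact ⟨i, hi.symm⟩

/-- A polynomial vector is primitive if every common divisor of its entries is a unit. -/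
def IsPrim {n : ℕ} (v : Fin n → F[X]) : Prop :=
  ∀ d : F[X], (∀ i, d ∣ v i) → IsUnit d

lemma IsPrim.ne_zero {n : ℕ} {v : Fin n → F[X]} (hv : IsPrim v) : v ≠ 0 := by
  rintro rfl
  exact Polynomial.not_isUnit_X (hv X fun i => dvd_zero _)

/-- Degree bound for the value of a homogeneous polynomial with constant coefficients. -/
lemma natDegree_aeval_le {n k D : ℕ} {p : MvPolynomial (Fin n) F} (hp : p.IsHomogeneous k)
    {v : Fin n → F[X]} (hv : ∀ i, (v i).natDegree ≤ D) :
    (MvPolynomial.aeval v p).natDegree ≤ k * D := by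
  rw [MvPolynomial.aeval_def, MvPolynomial.eval₂_eq]
  refine natDegree_sum_le_of_forall_le _ _ fun m hm => ?_
  have hmk : ∑ i ∈ m.support, m i = k := by
    have := hp (MvPolynomial.mem_support_iff.mp hm)
    rw [← this, Finsupp.weight_apply, Finsupp.sum]
    simp
  calc (algebraMap F F[X] (MvPolynomial.coeff m p) * ∏ i ∈ m.support, v i ^ m i).natDegree
      ≤ (algebraMap F F[X] (MvPolynomial.coeff m p)).natDegree
          + (∏ i ∈ m.support, v i ^ m i).natDegree := natDegree_mul_le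
    _ ≤ 0 + ∑ i ∈ m.support, (v i ^ m i).natDegree := by
        gcongr
        · rw [Polynomial.algebraMap_eq]; simp
        · exact natDegree_prod_le _ _
    _ ≤ 0 + ∑ i ∈ m.support, m i * D := by
        gcongr with i _
        exact natDegree_pow_le.trans (Nat.mul_le_mul_left _ (hv i))
    _ = k * D := by rw [zero_add, ← Finset.sum_mul, hmk]

end Fermat.Agent.Lib.Frob.A2.H720

end
-- ===== PACK-END Lib/Frob/A2/H720/PolyVec.lean

-- ===== PACK-BEGIN S18/Spec.lean
section



/-!
# S18 — frozen interfaces of the row (row-lead helper18)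

`F  := modularFunctionFieldBar N ⊆ Q̄((q))`, `F_k := modularFunctionFieldFullC k N ⊆ k((q))`,
`A ⊆ Q̄` a valuation subring over `ℓ`, `k := A/𝔪`.

* `CoreStatement N A m` : the Kummer-type core (no places of `F_k`, no reduction map `r`).
* `StepAStatement`     : S18 for `(N, A, m)` follows from `CoreStatement N A m` (Prelude unfolding).
-/

set_option autoImplicit false

noncomputable section

namespace Fermat.Agent.S18

open ModularCurve AlgebraicCurve HahnSeries

/-- The field `Q̄`. -/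
abbrev Qb : Type := AlgebraicClosure ℚ

/-- `IsInt A N U`: the series `U ∈ A((q))` lies in `F_N` (after `A ⊆ Q̄`) and its coefficientwise
reduction lies in `F_{N,k}` and is nonzero.  (`O_int ∖ 𝔪` of the plan.) -/
def IsInt (A : ValuationSubring Qb) (N : ℕ) (U : LaurentSeries A) : Prop :=
  coeffMap A.subtype U ∈ modularFunctionFieldBar N ∧
    coeffMap (IsLocalRing.residue A) U ∈
      modularFunctionFieldFullC (IsLocalRing.ResidueField A) N ∧
    coeffMap (IsLocalRing.residue A) U ≠ 0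

/-- The element of `F_N` given by an integral series. -/
def toF {A : ValuationSubring Qb} {N : ℕ} {U : LaurentSeries A} (hU : IsInt A N U) :
    modularFunctionFieldBar N :=
  ⟨coeffMap A.subtype U, hU.1⟩

/-- CORE(N, A, m): two integral series with the same nonzero reduction whose quotient has a
divisor divisible by `m` differ by a constant times an `m`-th power in `F_N`. -/
def CoreStatement (N : ℕ) (A : ValuationSubring Qb) (m : ℕ) : Prop :=
  ∀ (U₁ U₂ : LaurentSeries A) (h₁ : IsInt A N U₁) (h₂ : IsInt A N U₂),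
    coeffMap (IsLocalRing.residue A) U₁ = coeffMap (IsLocalRing.residue A) U₂ →
    (∀ v : Place Qb (modularFunctionFieldBar N),
      (m : ℤ) ∣ v.ord (toF h₁) - v.ord (toF h₂)) →
    ∃ (c : Qb) (y : modularFunctionFieldBar N), c ≠ 0 ∧ y ≠ 0 ∧
      toF h₁ = algebraMap Qb (modularFunctionFieldBar N) c * y ^ m * toF h₂

/-- Step A (Prelude unfolding): S18 at `(N, A, m)` from CORE at `(N, A, m)`.
Uses the hypothesis `h` (place reduction `r` with (i),(ii) and PGI (iii)). -/
def StepAStatement (N : ℕ) [NeZero N] (A : ValuationSubring Qb) (m : ℕ) : Prop :=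
  CoreStatement N A m →
    ∀ (_h : ModularCurve.ReductionInputsModL A N) (z : ModularCurve.JZero N),
      m • z = 0 → ModularCurve.reductionModL A N z = 0 → z = 0

end Fermat.Agent.S18

end
end
-- ===== PACK-END S18/Spec.lean

-- ===== PACK-BEGIN S24/H504/PlaceOrd.lean
section



/-!
# Extra API for `AlgebraicCurve.Place.ord`
-/

set_option autoImplicit false

open IsDedekindDomain WithZero

namespace Fermat.Agent.S24.H504

open AlgebraicCurve

variable {K F : Type*} [Field K] [Field F] [Algebra K F] (v : Place K F)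

theorem adicValuation_eq_exp_neg_ord {f : F} (hf : f ≠ 0) :
    v.adicValuation f = exp (-(v.ord f)) := by
  have h := v.adicValuation_ne_zero hf
  rw [Place.ord, neg_neg, WithZero.exp_log h]

theorem ord_le_ord_iff {f g : F} (hf : f ≠ 0) (hg : g ≠ 0) :
    v.ord f ≤ v.ord g ↔ v.adicValuation g ≤ v.adicValuation f := by
  rw [adicValuation_eq_exp_neg_ord v hf, adicValuation_eq_exp_neg_ord v hg, WithZero.exp_le_exp]
  omega

theorem ord_add_ge {f g : F} (hf : f ≠ 0) (hg : g ≠ 0) (hfg : f + g ≠ 0) :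
    min (v.ord f) (v.ord g) ≤ v.ord (f + g) := by
  have h := v.adicValuation.map_add f g
  rcases le_max_iff.mp h with h1 | h1
  · exact (min_le_left _ _).trans ((ord_le_ord_iff v hf hfg).mpr h1)
  · exact (min_le_right _ _).trans ((ord_le_ord_iff v hg hfg).mpr h1)

theorem mem_iff_adicValuation_le_one (f : F) :
    f ∈ v.toValuationSubring ↔ v.adicValuation f ≤ 1 := by
  constructor
  · intro hf
    have := v.heightOneSpectrum.valuation_le_one (K := F) (⟨f, hf⟩ : v.toValuationSubring)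
    simpa [Place.adicValuation] using this
  · intro hf
    obtain ⟨a, ha⟩ := IsDiscreteValuationRing.exists_lift_of_le_one (A := v.toValuationSubring)
      (K := F) (x := f) hf
    rw [← ha]
    exact a.2

theorem mem_iff_ord_nonneg {f : F} (hf : f ≠ 0) :
    f ∈ v.toValuationSubring ↔ 0 ≤ v.ord f := by
  rw [mem_iff_adicValuation_le_one, adicValuation_eq_exp_neg_ord v hf,
    ← WithZero.exp_zero, WithZero.exp_le_exp]
  omega

/-- Membership in the valuation ring, with no side condition (`ord 0 = 0`). -/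
theorem mem_iff_ord_nonneg' (f : F) :
    f ∈ v.toValuationSubring ↔ 0 ≤ v.ord f := by
  rcases eq_or_ne f 0 with rfl | hf
  · simp [v.toValuationSubring.zero_mem]
  · exact mem_iff_ord_nonneg v hf

theorem ord_neg (f : F) : v.ord (-f) = v.ord f := by
  simp [Place.ord, Valuation.map_neg]

theorem ord_algebraMap (c : K) : v.ord (algebraMap K F c) = 0 := by
  rcases eq_or_ne c 0 with rfl | hc
  · simp
  have h1 : (0 : ℤ) ≤ v.ord (algebraMap K F c) :=
    (mem_iff_ord_nonneg' v _).mp (v.algebraMap_mem' c)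
  have h2 : (0 : ℤ) ≤ v.ord (algebraMap K F c⁻¹) :=
    (mem_iff_ord_nonneg' v _).mp (v.algebraMap_mem' c⁻¹)
  rw [map_inv₀, Place.ord_inv] at h2
  omega

theorem ord_pow (f : F) (n : ℕ) : v.ord (f ^ n) = n * v.ord f := by
  have := v.ord_zpow f n
  simpa using this

theorem ord_div {f g : F} (hf : f ≠ 0) (hg : g ≠ 0) : v.ord (f / g) = v.ord f - v.ord g := by
  rw [div_eq_mul_inv, v.ord_mul hf (inv_ne_zero hg), Place.ord_inv]
  ring

theorem ord_sub_ge {f g : F} (hf : f ≠ 0) (hg : g ≠ 0) (hfg : f - g ≠ 0) :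
    min (v.ord f) (v.ord g) ≤ v.ord (f - g) := by
  have := ord_add_ge v hf (neg_ne_zero.mpr hg) (by rwa [← sub_eq_add_neg])
  rwa [_root_.Fermat.Agent.S24.H504.ord_neg, ← sub_eq_add_neg] at this

theorem ord_add_eq_of_lt {f g : F} (hf : f ≠ 0) (hg : g ≠ 0) (h : v.ord f < v.ord g) :
    v.ord (f + g) = v.ord f := by
  have hfg : f + g ≠ 0 := by
    intro h0
    have : g = -f := by linear_combination h0
    rw [this, _root_.Fermat.Agent.S24.H504.ord_neg] at h
    exact lt_irrefl _ h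
  have h1 := ord_add_ge v hf hg hfg
  rw [min_eq_left h.le] at h1
  by_contra hne
  have h2 : v.ord f < v.ord (f + g) := lt_of_le_of_ne h1 (Ne.symm hne)
  have h3 := ord_sub_ge v hfg hg (by simpa using hf)
  rw [add_sub_cancel_right] at h3
  have := lt_min h2 h
  omega

theorem exists_ord_eq_one : ∃ ϖ : F, v.ord ϖ = 1 := by
  obtain ⟨π, hπ⟩ := IsDiscreteValuationRing.exists_irreducible v.toValuationSubring
  exact ⟨π, v.ord_coe_irreducible hπ⟩

theorem ne_zero_of_ord_ne_zero {f : F} (h : v.ord f ≠ 0) : f ≠ 0 := by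
  rintro rfl
  simp at h

/-- The sum of two elements of positive order has positive order or is zero. -/
theorem ord_add_pos {f g : F} (hf : f = 0 ∨ 0 < v.ord f) (hg : g = 0 ∨ 0 < v.ord g) :
    f + g = 0 ∨ 0 < v.ord (f + g) := by
  rcases hf with rfl | hf
  · simpa using hg
  rcases hg with rfl | hg
  · right; simpa using hf
  by_cases h0 : f + g = 0
  · exact Or.inl h0
  right
  have := ord_add_ge v (ne_zero_of_ord_ne_zero v hf.ne') (ne_zero_of_ord_ne_zero v hg.ne') h0
  exact lt_of_lt_of_le (lt_min hf hg) this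

/-- A finite sum of elements of nonnegative order has nonnegative order. -/
theorem ord_add_nonneg {f g : F} (hf : 0 ≤ v.ord f) (hg : 0 ≤ v.ord g) :
    0 ≤ v.ord (f + g) := by
  rw [← mem_iff_ord_nonneg'] at *
  exact v.toValuationSubring.add_mem _ _ hf hg

theorem ord_mul_nonneg {f g : F} (hf : 0 ≤ v.ord f) (hg : 0 ≤ v.ord g) :
    0 ≤ v.ord (f * g) := by
  rw [← mem_iff_ord_nonneg'] at *
  exact v.toValuationSubring.mul_mem _ _ hf hg

theorem ord_sum_nonneg {ι : Type*} (s : Finset ι) (f : ι → F) (h : ∀ i ∈ s, 0 ≤ v.ord (f i)) :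
    0 ≤ v.ord (∑ i ∈ s, f i) := by
  rw [← mem_iff_ord_nonneg']
  exact Subring.sum_mem v.toValuationSubring.toSubring
    fun i hi => (mem_iff_ord_nonneg' v _).mpr (h i hi)

end Fermat.Agent.S24.H504

end
-- ===== PACK-END S24/H504/PlaceOrd.lean

-- ===== PACK-BEGIN Lib/RR/Defs.lean
section




/-!
# Shared library RR: Riemann's theorem and the Riemann–Roch theorem for function fields

Language: the Prelude's `AlgebraicCurve.Place`, `Divisor`, `riemannRochSpace`, `repartitions`,
`repartitionsOf`, `principalRepartitions`, `H1`, `genusFF`.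

Standing hypotheses (`FF1 K F`): every nonzero function has a divisor of degree `0`
(`HasPrincipalDivisors`), every place has degree one (e.g. `K` algebraically closed and finite
residue fields), there is at least one place, and `F` is finite over `K(x)` for some
transcendental `x`.
-/

set_option autoImplicit false

noncomputable section

open AlgebraicCurve

namespace Fermat.Agent.Lib.RR

variable (K F : Type*) [Field K] [Field F] [Algebra K F]

/-- Standing hypotheses of the RR library: a function field of one variable over `K`, all of whose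
places have degree one. -/
class FF1 : Prop where
  /-- every nonzero function has a divisor, of degree zero -/
  hpd : HasPrincipalDivisors K F
  /-- every place has degree one -/
  deg_eq_one : ∀ v : Place K F, v.deg = 1
  /-- there is a place -/
  nonempty_place : Nonempty (Place K F)
  /-- `F` is a finite extension of a rational function field -/
  exists_finite : ∃ x : F, Transcendental K x ∧
    FiniteDimensional (IntermediateField.adjoin K {x}) F

variable {K F}

/-- `ℓ(D) = dim_K L(D)`. -/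
def ell (D : Divisor K F) : ℕ := Module.finrank K (riemannRochSpace D)

/-- The prime divisor of a place. -/
def prim (v : Place K F) : Divisor K F := Finsupp.single v 1

end Fermat.Agent.Lib.RR

end
end
-- ===== PACK-END Lib/RR/Defs.lean

-- ===== PACK-BEGIN S29/H455/KummerCorr.lean
section


/-!
# Kummer classes in `Pic⁰` and correspondences (Prelude language)

`IsKummerClass n f x` : the class `x ∈ Pic⁰(F)` is represented by a degree-zero divisor `D` with
`n • D = div f`.  Main results: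

* `exists_isKummerClass_of_zsmul_eq_zero` : every `n`-torsion class is a Kummer class;
* `IsKummerClass.unique`, `.add`, `.neg`, `.mul_pow`, `.eq_zero_iff` ;
* `IsKummerClass.correspondence` : the correspondence `ψ_* φ^*` (Prelude `Pic0.correspondence`,
  e.g. the Hecke operator `T_ℓ = α_* β^*`) sends the Kummer class of `f` to the Kummer class of
  `Norm_ψ (φ f)`;
* `IsKummerClass.smul` : semilinear automorphisms send the Kummer class of `f` to that of `g • f`.
-/

set_option autoImplicit false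
set_option linter.style.haveILetI false
set_option linter.unusedSectionVars false

noncomputable section

namespace Fermat.Agent.S29.H455

open AlgebraicCurve

variable {K F F' : Type*} [Field K] [Field F] [Field F'] [Algebra K F] [Algebra K F']

/-- The norm along an algebra homomorphism `ψ : F → F'` (Prelude `algebraAlong`). -/
def normAlong (ψ : F →ₐ[K] F') (y : F') : F :=
  letI := algebraAlong ψ
  Algebra.norm F y

theorem normAlong_ne_zero (ψ : F →ₐ[K] F') (hfin : FiniteAlong K ψ) {y : F'} (hy : y ≠ 0) :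
    normAlong ψ y ≠ 0 := by
  letI := algebraAlong ψ
  haveI : Module.Finite F F' := hfin
  exact Algebra.norm_ne_zero_iff.mpr hy

theorem normAlong_mul (ψ : F →ₐ[K] F') (y z : F') :
    normAlong ψ (y * z) = normAlong ψ y * normAlong ψ z := by
  letI := algebraAlong ψ
  exact map_mul (Algebra.norm F) y z

theorem normAlong_pow (ψ : F →ₐ[K] F') (y : F') (n : ℕ) :
    normAlong ψ (y ^ n) = normAlong ψ y ^ n := by
  letI := algebraAlong ψ
  exact map_pow (Algebra.norm F) y n

section Divisors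

variable [HasPrincipalDivisors K F']
variable (φ ψ : F →ₐ[K] F') (hφ : φ.toRingHom.IsIntegral) (hψ : ψ.toRingHom.IsIntegral)

theorem pullbackAlong_apply_of_ord {f : F} {D : Divisor K F}
    (hD : ∀ v : Place K F, D v = v.ord f) (w : Place K F') :
    Divisor.pullbackAlong φ hφ D w = w.ord (φ f) := by
  letI := algebraAlong φ
  haveI := isScalarTower_along φ
  haveI := isIntegral_along φ hφ
  exact Divisor.pullback_apply_eq_ord hD w

theorem pushforwardAlong_apply_of_ord (hfin : FiniteAlong K ψ) (hN : NormFormulaAlong K ψ hfin)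
    {g : F'} (hg : g ≠ 0) {D : Divisor K F'} (hD : ∀ w : Place K F', D w = w.ord g)
    (v : Place K F) :
    Divisor.pushforwardAlong ψ hψ D v = v.ord (normAlong ψ g) := by
  letI := algebraAlong ψ
  haveI := isScalarTower_along ψ
  haveI := isIntegral_along ψ hψ
  haveI : Module.Finite F F' := hfin
  exact hN g hg D hD v

/-- The correspondence `ψ_* φ^*` sends `div f` to `div (Norm_ψ (φ f))`. -/
theorem correspondence_apply_of_ord (hfin : FiniteAlong K ψ) (hN : NormFormulaAlong K ψ hfin)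
    {f : F} (hf : f ≠ 0) {D : Divisor K F} (hD : ∀ v : Place K F, D v = v.ord f)
    (v : Place K F) :
    Divisor.correspondence φ ψ hφ hψ D v = v.ord (normAlong ψ (φ f)) := by
  rw [Divisor.correspondence_apply]
  refine pushforwardAlong_apply_of_ord ψ hψ hfin hN ?_ (fun w => ?_) v
  · exact (map_ne_zero φ).mpr hf
  · exact pullbackAlong_apply_of_ord φ hφ hD w

/-- If `n • D = div f` then `n • (ψ_* φ^* D) = div (Norm_ψ (φ f))`. -/
theorem correspondence_kummer (hfin : FiniteAlong K ψ) (hN : NormFormulaAlong K ψ hfin)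
    {n : ℤ} {f : F} (hf : f ≠ 0) {D : Divisor K F}
    (hD : ∀ v : Place K F, n * D v = v.ord f) (v : Place K F) :
    n * Divisor.correspondence φ ψ hφ hψ D v = v.ord (normAlong ψ (φ f)) := by
  have h := correspondence_apply_of_ord φ ψ hφ hψ hfin hN hf (D := n • D)
    (fun v => by rw [Finsupp.smul_apply, smul_eq_mul, hD]) v
  rw [map_zsmul, Finsupp.smul_apply, smul_eq_mul] at h
  exact h

end Divisors

/-! ### The Kummer relation -/

/-- `x` is the `n`-Kummer class of `f`: `x = [D]` with `D` of degree zero and `n • D = div f`. -/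
def IsKummerClass (n : ℤ) (f : F) (x : Pic0 K F) : Prop :=
  f ≠ 0 ∧ ∃ D : Divisor.degZero (K := K) (F := F),
    Pic0.mk D = x ∧ ∀ v : Place K F, n * (D : Divisor K F) v = v.ord f

namespace IsKummerClass

variable {n : ℤ} {f g : F} {x y : Pic0 K F}

theorem ne_zero (h : IsKummerClass n f x) : f ≠ 0 := h.1

/-- A Kummer class is `n`-torsion. -/
theorem zsmul_eq_zero (h : IsKummerClass n f x) : n • x = 0 := by
  obtain ⟨hf, D, rfl, hD⟩ := h
  have h1 : n • Pic0.mk D = Pic0.mk (n • D) := rfl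
  rw [h1]
  refine (QuotientAddGroup.eq_zero_iff _).mpr ?_
  rw [AddSubgroup.mem_addSubgroupOf]
  refine ⟨f, hf, fun v => ?_⟩
  rw [← hD v]
  simp

theorem add (hx : IsKummerClass n f x) (hy : IsKummerClass n g y) :
    IsKummerClass n (f * g) (x + y) := by
  obtain ⟨hf, D, rfl, hD⟩ := hx
  obtain ⟨hg, E, rfl, hE⟩ := hy
  refine ⟨mul_ne_zero hf hg, D + E, rfl, fun v => ?_⟩
  rw [Place.ord_mul v hf hg, ← hD v, ← hE v]
  simp [mul_add]

theorem neg (hx : IsKummerClass n f x) : IsKummerClass n f⁻¹ (-x) := by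
  obtain ⟨hf, D, rfl, hD⟩ := hx
  refine ⟨inv_ne_zero hf, -D, rfl, fun v => ?_⟩
  rw [Place.ord_inv, ← hD v]
  simp

theorem zero : IsKummerClass n (1 : F) (0 : Pic0 K F) :=
  ⟨one_ne_zero, 0, rfl, fun v => by simp⟩

/-- Changing `f` by an `n`-th power changes the divisor by a principal divisor. -/
theorem mul_zpow [HasPrincipalDivisors K F] (hx : IsKummerClass n f x) (hg : g ≠ 0) :
    IsKummerClass n (f * g ^ n) x := by
  obtain ⟨hf, D, rfl, hD⟩ := hx
  obtain ⟨E, hE, hE0⟩ := HasPrincipalDivisors.exists_divisor (K := K) g hg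
  refine ⟨mul_ne_zero hf (zpow_ne_zero n hg), D + ⟨E, hE0⟩, ?_, fun v => ?_⟩
  · rw [Pic0.mk_add]
    have : Pic0.mk (⟨E, hE0⟩ : Divisor.degZero (K := K) (F := F)) = 0 := by
      refine (QuotientAddGroup.eq_zero_iff _).mpr ?_
      rw [AddSubgroup.mem_addSubgroupOf]
      exact ⟨g, hg, hE⟩
    rw [this, add_zero]
  · rw [Place.ord_mul v hf (zpow_ne_zero n hg), Place.ord_zpow, ← hD v]
    simp [mul_add, hE v]

/-- The Kummer class of `f` is unique (for `n ≠ 0`). -/
theorem unique (hn : n ≠ 0) (hx : IsKummerClass n f x) (hy : IsKummerClass n f y) : x = y := by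
  obtain ⟨-, D, rfl, hD⟩ := hx
  obtain ⟨-, E, rfl, hE⟩ := hy
  congr 1
  apply Subtype.ext
  apply Finsupp.ext
  intro v
  have := (hD v).trans (hE v).symm
  exact mul_left_cancel₀ hn this

/-- The Kummer class of `f` vanishes iff `div f = n • div g` for some `g`. -/
theorem eq_zero_iff (hn : n ≠ 0) (hx : IsKummerClass n f x) :
    x = 0 ↔ ∃ g : F, g ≠ 0 ∧ ∀ v : Place K F, v.ord f = n * v.ord g := by
  obtain ⟨hf, D, rfl, hD⟩ := hx
  constructor
  · intro h
    have h1 := (QuotientAddGroup.eq_zero_iff _).mp h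
    rw [AddSubgroup.mem_addSubgroupOf] at h1
    obtain ⟨g, hg, hDg⟩ := h1
    exact ⟨g, hg, fun v => by rw [← hD v, hDg v]⟩
  · rintro ⟨g, hg, hfg⟩
    refine (QuotientAddGroup.eq_zero_iff _).mpr ?_
    rw [AddSubgroup.mem_addSubgroupOf]
    refine ⟨g, hg, fun v => ?_⟩
    have := (hD v).trans (hfg v)
    exact mul_left_cancel₀ hn this

/-- **Correspondences on Kummer classes**: `ψ_* φ^*` sends the Kummer class of `f` to the
Kummer class of `Norm_ψ (φ f)`. -/
theorem correspondence [HasPrincipalDivisors K F'] (φ ψ : F →ₐ[K] F')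
    (hφ : φ.toRingHom.IsIntegral) (hψ : ψ.toRingHom.IsIntegral)
    (hFI : FundamentalIdentityAlong K φ hφ) (hfin : FiniteAlong K ψ)
    (hN : NormFormulaAlong K ψ hfin) (hx : IsKummerClass n f x) :
    IsKummerClass n (normAlong ψ (φ f)) (Pic0.correspondence φ ψ hφ hψ hFI hfin hN x) := by
  obtain ⟨hf, D, rfl, hD⟩ := hx
  refine ⟨normAlong_ne_zero ψ hfin ((map_ne_zero φ).mpr hf),
    Pic0.degZeroCorrespondence φ ψ hφ hψ hFI D, (Pic0.correspondence_mk _ _ _ _ _ _ _ D).symm,
    fun v => ?_⟩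
  rw [Pic0.coe_degZeroCorrespondence]
  exact correspondence_kummer φ ψ hφ hψ hfin hN hf hD v

/-- **Semilinear automorphisms on Kummer classes**. -/
theorem smul (σ : SemilinearAut K F) (hx : IsKummerClass n f x) :
    IsKummerClass n (σ • f) (σ • x) := by
  obtain ⟨hf, D, rfl, hD⟩ := hx
  refine ⟨?_, SemilinearAut.degZeroSMulHom σ D, (SemilinearAut.pic0_smul_mk σ D).symm,
    fun v => ?_⟩
  · rw [SemilinearAut.smul_def]
    exact (map_ne_zero _).mpr hf
  · rw [SemilinearAut.coe_degZeroSMulHom, SemilinearAut.divisor_smul_apply, hD (σ⁻¹ • v)]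
    have h := SemilinearAut.ord_smul σ (σ⁻¹ • v) f
    rw [smul_inv_smul] at h
    exact h.symm

end IsKummerClass

/-- Every `n`-torsion class is a Kummer class. -/
theorem exists_isKummerClass_of_zsmul_eq_zero {n : ℤ} {x : Pic0 K F} (hx : n • x = 0) :
    ∃ f : F, IsKummerClass n f x := by
  obtain ⟨D, rfl⟩ := Pic0.mk_surjective x
  have h1 : n • Pic0.mk D = Pic0.mk (n • D) := rfl
  rw [h1] at hx
  have h2 := (QuotientAddGroup.eq_zero_iff _).mp hx
  rw [AddSubgroup.mem_addSubgroupOf] at h2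
  obtain ⟨f, hf, hDf⟩ := h2
  refine ⟨f, hf, D, rfl, fun v => ?_⟩
  rw [← hDf v]
  simp

end Fermat.Agent.S29.H455

end
end
-- ===== PACK-END S29/H455/KummerCorr.lean

-- ===== PACK-BEGIN S24/H84/Kaehler.lean
section


/-!
# Kähler differentials of a function field in one variable (helper84, S24 piece KD1)

`K` a field of characteristic zero, `F/K` a field extension, `x : F` with `F` algebraic over
`K(x)`.  Then `Ω[F⁄K]` is spanned by `D x`.
-/

set_option autoImplicit false

open KaehlerDifferential Polynomial IntermediateField TensorProduct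

namespace Fermat.Agent.S24.H84

section Kaehler

variable {K F : Type*} [Field K] [Field F] [Algebra K F]

/-- `D e ∈ span {D x}` for `e ∈ K⟮x⟯`. -/
theorem D_mem_span_of_mem_adjoin_simple (x : F) {e : F} (he : e ∈ K⟮x⟯) :
    D K F e ∈ Submodule.span F {D K F x} := by
  obtain ⟨r, s, rfl⟩ := (IntermediateField.mem_adjoin_simple_iff K e).1 he
  rw [Derivation.leibniz_div, Derivation.map_aeval, Derivation.map_aeval]
  refine Submodule.smul_mem _ _ (Submodule.sub_mem _ ?_ ?_) <;>
  exact Submodule.smul_mem _ _ (Submodule.smul_mem _ _ (Submodule.mem_span_singleton_self _))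

theorem map_mem_span_D (x : F) (y : Ω[K⟮x⟯⁄K]) :
    KaehlerDifferential.map K K K⟮x⟯ F y ∈ Submodule.span F {D K F x} := by
  have hy : y ∈ Submodule.span K⟮x⟯ (Set.range (D K K⟮x⟯)) := by
    rw [span_range_derivation]; trivial
  induction hy using Submodule.span_induction with
  | mem z hz =>
    obtain ⟨e, rfl⟩ := hz
    rw [map_D]
    exact D_mem_span_of_mem_adjoin_simple x e.2
  | zero => simp
  | add u v _ _ hu hv => rw [map_add]; exact Submodule.add_mem _ hu hv
  | smul c u _ hu =>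
    rw [map_smul, ← algebraMap_smul F c]
    exact Submodule.smul_mem _ _ hu

theorem mapBaseChange_mem_span_D (x : F) (t : F ⊗[K⟮x⟯] Ω[K⟮x⟯⁄K]) :
    KaehlerDifferential.mapBaseChange K K⟮x⟯ F t ∈ Submodule.span F {D K F x} := by
  induction t using TensorProduct.induction_on with
  | zero => simp
  | tmul b y =>
    rw [mapBaseChange_tmul]
    exact Submodule.smul_mem _ _ (map_mem_span_D x y)
  | add a b ha hb => rw [map_add]; exact Submodule.add_mem _ ha hb

/-- If `F` is algebraic over `K⟮x⟯` (characteristic zero), then `D x` spans `Ω[F⁄K]`. -/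
theorem span_D_eq_top [CharZero K] (x : F) [Algebra.IsAlgebraic K⟮x⟯ F] :
    Submodule.span F {D K F x} = ⊤ := by
  have : CharZero K⟮x⟯ := charZero_of_injective_algebraMap (algebraMap K K⟮x⟯).injective
  have : Algebra.IsSeparable K⟮x⟯ F := Algebra.IsAlgebraic.isSeparable_of_perfectField
  have : Algebra.FormallyUnramified K⟮x⟯ F := Algebra.FormallyUnramified.of_isSeparable _ _
  have : Subsingleton Ω[F⁄K⟮x⟯] := Algebra.FormallyUnramified.subsingleton_kaehlerDifferential
  rw [eq_top_iff]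
  intro ω _
  have hex := KaehlerDifferential.exact_mapBaseChange_map K K⟮x⟯ F
  have h0 : KaehlerDifferential.map K K⟮x⟯ F F ω = 0 := Subsingleton.elim _ _
  obtain ⟨t, rfl⟩ := (hex ω).1 h0
  exact mapBaseChange_mem_span_D x t

end Kaehler

end Fermat.Agent.S24.H84

end
-- ===== PACK-END S24/H84/Kaehler.lean

-- ===== PACK-BEGIN S24/H117/OrbitCount.lean
section


/-!
# S24 / H117 — an abstract orbit-counting squeeze

Let `perm` be a permutation of a finite set `X`, `φ : X → β` a `perm`-invariant map and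
`e : β → ℕ` such that `e (φ x)` divides every period of `x`.  If `#X ≤ ∑_{v ∈ range φ} e v`, then
`φ` induces a bijection between the cycles of `perm` and `range φ`, and the cycle through `x`
has exactly `e (φ x)` elements.
-/

set_option autoImplicit false

noncomputable section

open MulAction

namespace Fermat.Agent.S24.H117

variable {X β : Type*}

theorem map_eq_of_mem_orbit_zpowers (perm : Equiv.Perm X) (φ : X → β)
    (hperm : ∀ x, φ (perm x) = φ x) {x y : X}
    (h : y ∈ orbit (Subgroup.zpowers perm) x) : φ y = φ x := by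
  obtain ⟨⟨g, hg⟩, rfl⟩ := h
  obtain ⟨k, rfl⟩ := Subgroup.mem_zpowers_iff.mp hg
  show φ ((perm ^ k) x) = φ x
  have hinv : ∀ z, φ (perm⁻¹ z) = φ z := fun z => by
    have := hperm (perm⁻¹ z)
    simpa using this.symm
  induction k using Int.induction_on generalizing x with
  | zero => simp
  | succ n ih =>
    rw [zpow_add_one, Equiv.Perm.mul_apply, ih (x := perm x), hperm]
    exact Subgroup.zpow_mem _ (Subgroup.mem_zpowers perm) _
  | pred n ih =>
    rw [zpow_sub_one, Equiv.Perm.mul_apply, ih (x := perm⁻¹ x), hinv]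
    exact Subgroup.zpow_mem _ (Subgroup.mem_zpowers perm) _

theorem orbit_count_squeeze [Fintype X] [DecidableEq β] (perm : Equiv.Perm X) (φ : X → β)
    (e : β → ℕ)
    (hperm : ∀ x, φ (perm x) = φ x)
    (hdiv : ∀ x (i : ℕ), (perm ^ i) x = x → e (φ x) ∣ i)
    (hsum : Fintype.card X ≤ ∑ v ∈ Finset.univ.image φ, e v) :
    Nat.card (orbitRel.Quotient (Subgroup.zpowers perm) X) = (Finset.univ.image φ).card ∧
      (∀ x, Nat.card (orbit (Subgroup.zpowers perm) x) = e (φ x)) ∧
      (∑ v ∈ Finset.univ.image φ, e v = Fintype.card X) := by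
  classical
  -- orbit sizes
  have hper : ∀ x, e (φ x) ≤ Fintype.card (orbit (Subgroup.zpowers perm) x) := by
    intro x
    have h1 : Function.minimalPeriod (perm • ·) x
        = Fintype.card (orbit (Subgroup.zpowers perm) x) := minimalPeriod_eq_card perm x
    have h2 : (perm ^ Function.minimalPeriod (perm • ·) x) x = x := by
      have := Function.iterate_minimalPeriod (f := (perm • ·)) (x := x)
      rw [smul_iterate] at this
      exact this
    have h3 := hdiv x _ h2
    rw [h1] at h3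
    have : Nonempty (orbit (Subgroup.zpowers perm) x) := (nonempty_orbit x).to_subtype
    exact Nat.le_of_dvd Fintype.card_pos h3
  -- the orbit is inside the fibre
  have hsub : ∀ x, (Finset.univ.filter (fun y : X => y ∈ orbit (Subgroup.zpowers perm) x))
      ⊆ Finset.univ.filter (fun y : X => φ y = φ x) := by
    intro x y hy
    simp only [Finset.mem_filter, Finset.mem_univ, true_and] at hy ⊢
    exact map_eq_of_mem_orbit_zpowers perm φ hperm hy
  have hcardO : ∀ x, (Finset.univ.filter (fun y : X => y ∈ orbit (Subgroup.zpowers perm) x)).card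
      = Fintype.card (orbit (Subgroup.zpowers perm) x) := by
    intro x
    rw [Fintype.card_subtype]
  have hle : ∀ v ∈ Finset.univ.image φ, e v ≤ (Finset.univ.filter (fun y : X => φ y = v)).card := by
    intro v hv
    obtain ⟨x, -, rfl⟩ := Finset.mem_image.mp hv
    calc e (φ x) ≤ Fintype.card (orbit (Subgroup.zpowers perm) x) := hper x
      _ = _ := (hcardO x).symm
      _ ≤ _ := Finset.card_le_card (hsub x)
  have htot : Fintype.card X = ∑ v ∈ Finset.univ.image φ, (Finset.univ.filter (fun y : X => φ y = v)).card := by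
    rw [← Finset.card_univ]
    exact Finset.card_eq_sum_card_fiberwise (fun x _ => Finset.mem_image_of_mem φ (Finset.mem_univ x))
  have hsumeq : ∑ v ∈ Finset.univ.image φ, e v
      = ∑ v ∈ Finset.univ.image φ, (Finset.univ.filter (fun y : X => φ y = v)).card := by
    apply le_antisymm (Finset.sum_le_sum hle)
    rw [← htot]
    exact hsum
  have hfib : ∀ v ∈ Finset.univ.image φ, e v = (Finset.univ.filter (fun y : X => φ y = v)).card :=
    (Finset.sum_eq_sum_iff_of_le hle).mp hsumeq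
  have hOeq : ∀ x, (Finset.univ.filter (fun y : X => y ∈ orbit (Subgroup.zpowers perm) x))
      = Finset.univ.filter (fun y : X => φ y = φ x) := by
    intro x
    apply Finset.eq_of_subset_of_card_le (hsub x)
    rw [← hfib _ (Finset.mem_image_of_mem φ (Finset.mem_univ x)), hcardO]
    exact hper x
  refine ⟨?_, ?_, ?_⟩
  · -- bijection between orbits and the image
    let Φ : orbitRel.Quotient (Subgroup.zpowers perm) X → (Finset.univ.image φ : Finset β) :=
      fun ω => Quotient.liftOn' ω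
        (fun x => (⟨φ x, Finset.mem_image_of_mem φ (Finset.mem_univ x)⟩ :
          (Finset.univ.image φ : Finset β)))
        (fun a b hab => Subtype.ext (map_eq_of_mem_orbit_zpowers perm φ hperm hab))
    have hΦbij : Function.Bijective Φ := by
      constructor
      · intro ω₁ ω₂ h
        induction ω₁ using Quotient.inductionOn' with | _ x
        induction ω₂ using Quotient.inductionOn' with | _ y
        have hxy : φ x = φ y := congrArg Subtype.val h
        apply Quotient.sound'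
        show x ∈ orbit (Subgroup.zpowers perm) y
        have : x ∈ Finset.univ.filter (fun z : X => φ z = φ y) := by simp [hxy]
        rw [← hOeq y] at this
        simpa using this
      · rintro ⟨v, hv⟩
        obtain ⟨x, -, rfl⟩ := Finset.mem_image.mp hv
        exact ⟨Quotient.mk'' x, rfl⟩
    rw [Nat.card_congr (Equiv.ofBijective Φ hΦbij), Nat.card_eq_fintype_card, Fintype.card_coe]
  · intro x
    rw [Nat.card_eq_fintype_card, ← hcardO, hOeq, hfib _ (Finset.mem_image_of_mem φ (Finset.mem_univ x))]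
  · rw [hsumeq, ← htot]

end Fermat.Agent.S24.H117

end
end
-- ===== PACK-END S24/H117/OrbitCount.lean

-- ===== PACK-BEGIN S29/H32/CoeffDescent.lean
section
/-
S29 row, helper32: descent of the field of constants for subfields of Laurent series.

Setting: `k ⊆ Ω` fields, `F₀ ⊆ ℚ((q))` an intermediate field.  The Prelude field
`laurentBaseChange Ω F₀ ⊆ Ω((q))` is generated by `Ω` and `F₀`.

Main results (namespace `Fermat.Agent.S29.H32`):
* `exists_of_coeff_mem_range` : an element of `laurentBaseChange Ω F₀` all of whose coefficients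
  lie in `k` is the image of an element of `laurentBaseChange k F₀`.
* `coeffMap_mem_laurentBaseChange_of_mem` : `laurentBaseChange k F₀` maps into
  `laurentBaseChange Ω F₀`.
-/



set_option autoImplicit false

namespace Fermat.Agent.S29.H32

open ModularCurve HahnSeries

section General

variable {k Ω : Type*} [Field k] [Field Ω] [Algebra k Ω]

theorem coeffMap_algebraMap_injective :
    Function.Injective (coeffMap (algebraMap k Ω)) := by
  intro x y h
  ext n
  have := congrArg (fun z => z.coeff n) h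
  simp only [coeffMap_coeff] at this
  exact (algebraMap k Ω).injective this

theorem coeff_algebraMap_mul (c : Ω) (z : LaurentSeries Ω) (n : ℤ) :
    (algebraMap Ω (LaurentSeries Ω) c * z).coeff n = c * z.coeff n := by
  rw [algebraMap_laurentSeries_eq_single]
  simp

/-- The `Ω`-linear combination `∑ βᵢ * ι(gᵢ)` attached to a finitely supported family of Laurent
series over `k`. -/
noncomputable def comb {I : Type*} (β : I → Ω) (g : I →₀ LaurentSeries k) : LaurentSeries Ω :=
  g.sum fun i y => algebraMap Ω (LaurentSeries Ω) (β i) * coeffMap (algebraMap k Ω) y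

theorem comb_zero {I : Type*} (β : I → Ω) : comb β (0 : I →₀ LaurentSeries k) = 0 := by
  simp [comb]

theorem comb_add {I : Type*} (β : I → Ω) (g h : I →₀ LaurentSeries k) :
    comb β (g + h) = comb β g + comb β h := by
  classical
  unfold comb
  apply Finsupp.sum_add_index'
  · intro i; simp
  · intro i y z; simp [mul_add]

theorem comb_single {I : Type*} (β : I → Ω) (i : I) (y : LaurentSeries k) :
    comb β (Finsupp.single i y)
      = algebraMap Ω (LaurentSeries Ω) (β i) * coeffMap (algebraMap k Ω) y := by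
  unfold comb
  rw [Finsupp.sum_single_index]
  simp

theorem comb_coeff {I : Type*} (β : I → Ω) (g : I →₀ LaurentSeries k) (n : ℤ) :
    (comb β g).coeff n = g.sum fun i y => algebraMap k Ω (y.coeff n) * β i := by
  classical
  induction g using Finsupp.induction with
  | zero => simp [comb]
  | single_add i y g hi hy ih =>
    rw [comb_add, HahnSeries.coeff_add, ih, comb_single,
      Finsupp.sum_add_index' (by intro i; simp) (by intro i y z; simp [add_mul]),
      Finsupp.sum_single_index (by simp), coeff_algebraMap_mul, coeffMap_coeff, mul_comm]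

/-- Left multiplication by a Laurent series over `k`, coordinatewise. -/
noncomputable def mulLeft {I : Type*} (x : LaurentSeries k) (g : I →₀ LaurentSeries k) :
    I →₀ LaurentSeries k :=
  g.mapRange (fun y => x * y) (mul_zero x)

theorem comb_mulLeft {I : Type*} (β : I → Ω) (x : LaurentSeries k) (g : I →₀ LaurentSeries k) :
    comb β (mulLeft x g) = coeffMap (algebraMap k Ω) x * comb β g := by
  classical
  induction g using Finsupp.induction with
  | zero => simp [comb, mulLeft]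
  | single_add i y g hi hy ih =>
    have h1 : mulLeft x (Finsupp.single i y + g) = Finsupp.single i (x * y) + mulLeft x g := by
      unfold mulLeft
      rw [Finsupp.mapRange_add (by intro a b; exact mul_add x a b), Finsupp.mapRange_single]
    rw [h1, comb_add, comb_add, ih, comb_single, comb_single, map_mul, mul_add]
    congr 1
    ring

/-- Linear independence: if the `βᵢ` are `k`-linearly independent then `comb β` is injective. -/
theorem eq_zero_of_comb_eq_zero {I : Type*} {β : I → Ω} (hβ : LinearIndependent k β)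
    (g : I →₀ LaurentSeries k) (h : comb β g = 0) : g = 0 := by
  classical
  ext i n
  have hn : (comb β g).coeff n = 0 := by rw [h]; rfl
  rw [comb_coeff] at hn
  let c : I →₀ k := g.mapRange (fun y => y.coeff n) rfl
  have hc : Finsupp.linearCombination k β c = 0 := by
    rw [Finsupp.linearCombination_apply]
    rw [Finsupp.sum_mapRange_index (by intro i; simp)]
    rw [← hn]
    apply Finsupp.sum_congr
    intro j _
    rw [Algebra.smul_def]
  have := (linearIndependent_iff.mp hβ) c hc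
  have hci : c i = 0 := by rw [this]; rfl
  simpa [c] using hci

end General

section BaseChange

variable {k Ω : Type*} [Field k] [Field Ω] [Algebra k Ω]

theorem coeffMap_algebraMap_up (c : k) :
    coeffMap (algebraMap k Ω) (algebraMap k (LaurentSeries k) c)
      = algebraMap Ω (LaurentSeries Ω) (algebraMap k Ω c) := by
  rw [algebraMap_laurentSeries_eq_single, algebraMap_laurentSeries_eq_single, coeffMap_single]

variable [Algebra ℚ k] [Algebra ℚ Ω] [IsScalarTower ℚ k Ω]
variable (F₀ : IntermediateField ℚ (LaurentSeries ℚ))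

theorem coeffMap_coeffEmb_up (x : LaurentSeries ℚ) :
    coeffMap (algebraMap k Ω) (coeffEmb k x) = coeffEmb Ω x := by
  rw [coeffEmb, coeffEmb, coeffMap_coeffMap]
  exact coeffMap_congr (IsScalarTower.algebraMap_eq ℚ k Ω).symm x

/-- `laurentBaseChange k F₀` maps into `laurentBaseChange Ω F₀`. -/
theorem coeffMap_mem_laurentBaseChange_of_mem {x : LaurentSeries k}
    (hx : x ∈ laurentBaseChange k F₀) :
    coeffMap (algebraMap k Ω) x ∈ laurentBaseChange Ω F₀ := by
  rw [mem_laurentBaseChange_iff] at hx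
  induction hx using Subfield.closure_induction with
  | mem y hy =>
      rcases hy with ⟨a, rfl⟩ | ⟨z, hz, rfl⟩
      · rw [coeffMap_algebraMap_up]
        exact (laurentBaseChange Ω F₀).algebraMap_mem _
      · rw [coeffMap_coeffEmb_up]
        exact coeffEmb_mem_laurentBaseChange Ω hz
  | one => simp
  | add x y _ _ hx hy => simpa using add_mem hx hy
  | neg x _ hx => simpa using neg_mem hx
  | inv x _ hx => simpa using inv_mem hx
  | mul x y _ _ hx hy => simpa using mul_mem hx hy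

/-- The generating set of `laurentBaseChange Ω F₀` is multiplicatively closed, so the generated
subalgebra is just the `Ω`-span. -/
theorem adjoin_le_span :
    (Algebra.adjoin Ω (⇑(coeffEmb Ω) '' (F₀ : Set (LaurentSeries ℚ)))).toSubmodule
      ≤ @Submodule.span Ω (LaurentSeries Ω) _ _ Algebra.toModule
          (⇑(coeffEmb Ω) '' (F₀ : Set (LaurentSeries ℚ))) := by
  rw [Algebra.adjoin_eq_span]
  have h : ((Submonoid.closure (⇑(coeffEmb Ω) '' (F₀ : Set (LaurentSeries ℚ))) :
      Submonoid (LaurentSeries Ω)) : Set (LaurentSeries Ω))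
      ⊆ (⇑(coeffEmb Ω) '' (F₀ : Set (LaurentSeries ℚ))) := by
    have : (⇑(coeffEmb Ω) '' (F₀ : Set (LaurentSeries ℚ)))
        = ((F₀.toSubfield.toSubring.toSubmonoid.map (coeffEmb Ω : LaurentSeries ℚ →* _) :
            Submonoid (LaurentSeries Ω)) : Set (LaurentSeries Ω)) := by
      ext z
      simp
    rw [this, Submonoid.closure_eq]
  exact @Submodule.span_mono Ω (LaurentSeries Ω) _ _ Algebra.toModule _ _ h

/-- Every element of the `Ω`-span of `F₀` is a combination `∑ βᵢ * ι(gᵢ)` with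
`gᵢ ∈ laurentBaseChange k F₀`, for any `k`-basis `β` of `Ω`. -/
theorem exists_comb_of_mem_span {I : Type*} (β : Module.Basis I k Ω) {a : LaurentSeries Ω}
    (ha : a ∈ Algebra.adjoin Ω (⇑(coeffEmb Ω) '' (F₀ : Set (LaurentSeries ℚ)))) :
    ∃ g : I →₀ LaurentSeries k, (∀ i, g i ∈ laurentBaseChange k F₀) ∧ a = comb (⇑β) g := by
  classical
  -- auxiliary: `ω * ι(y)` for `y ∈ laurentBaseChange k F₀`
  have key : ∀ (ω : Ω) (y : LaurentSeries k), y ∈ laurentBaseChange k F₀ →
      ∃ g : I →₀ LaurentSeries k, (∀ i, g i ∈ laurentBaseChange k F₀) ∧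
        algebraMap Ω (LaurentSeries Ω) ω * coeffMap (algebraMap k Ω) y = comb (⇑β) g := by
    intro ω y hy
    refine ⟨(β.repr ω).mapRange (fun c => algebraMap k (LaurentSeries k) c * y) (by simp),
      fun i => ?_, ?_⟩
    · rw [Finsupp.mapRange_apply]
      exact mul_mem ((laurentBaseChange k F₀).algebraMap_mem _) hy
    · unfold comb
      rw [Finsupp.sum_mapRange_index (by intro i; simp)]
      conv_lhs => rw [← β.linearCombination_repr ω, Finsupp.linearCombination_apply]
      rw [Finsupp.sum, map_sum, Finset.sum_mul, Finsupp.sum]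
      apply Finset.sum_congr rfl
      intro i _
      rw [map_mul, coeffMap_algebraMap_up, Algebra.smul_def (β.repr ω i) (β i), map_mul]
      ring
  have ha' := adjoin_le_span (Ω := Ω) F₀ ha
  clear ha
  induction ha' using Submodule.span_induction with
  | mem x hx =>
      obtain ⟨f, hf, rfl⟩ := hx
      obtain ⟨g, hg, hge⟩ := key 1 (coeffEmb k f) (coeffEmb_mem_laurentBaseChange k hf)
      refine ⟨g, hg, ?_⟩
      rw [← hge, map_one, one_mul, coeffMap_coeffEmb_up]
  | zero => exact ⟨0, fun i => by simp, (comb_zero _).symm⟩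
  | add x y _ _ hx hy =>
      obtain ⟨g, hg, rfl⟩ := hx
      obtain ⟨h, hh, rfl⟩ := hy
      exact ⟨g + h, fun i => by rw [Finsupp.add_apply]; exact add_mem (hg i) (hh i),
        (comb_add _ g h).symm⟩
  | smul ω x _ hx =>
      obtain ⟨g, hg, rfl⟩ := hx
      rw [Algebra.smul_def]
      -- induct on `g`
      clear ‹_›
      induction g using Finsupp.induction with
      | zero => exact ⟨0, fun i => by simp, by rw [comb_zero, mul_zero]⟩
      | single_add i y g hi hy ih =>
          have hyi : y ∈ laurentBaseChange k F₀ := by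
            have := hg i
            rwa [Finsupp.add_apply, Finsupp.single_eq_same,
              Finsupp.notMem_support_iff.mp hi, add_zero] at this
          have hg' : ∀ j, g j ∈ laurentBaseChange k F₀ := by
            intro j
            by_cases hj : j = i
            · subst hj
              rw [Finsupp.notMem_support_iff.mp hi]
              exact zero_mem _
            · have := hg j
              rwa [Finsupp.add_apply, Finsupp.single_eq_of_ne hj, zero_add] at this
          obtain ⟨g₁, hg₁, e₁⟩ := key (ω * β i) y hyi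
          obtain ⟨g₂, hg₂, e₂⟩ := ih hg'
          refine ⟨g₁ + g₂, fun j => by rw [Finsupp.add_apply]; exact add_mem (hg₁ j) (hg₂ j), ?_⟩
          rw [comb_add, comb_add, mul_add, ← e₁, ← e₂, comb_single, map_mul, mul_assoc]

omit [Algebra ℚ k] [Algebra ℚ Ω] [IsScalarTower ℚ k Ω] in
/-- Lift of a Laurent series over `Ω` with coefficients in `k` to a Laurent series over `k`. -/
noncomputable def coeffDown (x : LaurentSeries Ω) : LaurentSeries k :=
  x.map (⟨Function.invFun (algebraMap k Ω), by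
    have h := Function.leftInverse_invFun (algebraMap k Ω).injective (0 : k)
    rwa [map_zero] at h⟩ : ZeroHom Ω k)

omit [Algebra ℚ k] [Algebra ℚ Ω] [IsScalarTower ℚ k Ω] in
theorem coeffMap_coeffDown {x : LaurentSeries Ω}
    (hx : ∀ n, x.coeff n ∈ Set.range (algebraMap k Ω)) :
    coeffMap (algebraMap k Ω) (coeffDown (k := k) x) = x := by
  ext n
  obtain ⟨c, hc⟩ := hx n
  simp only [coeffMap_coeff, coeffDown, HahnSeries.map_coeff, ZeroHom.coe_mk]
  rw [← hc, Function.leftInverse_invFun (algebraMap k Ω).injective c]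

/-- **Descent of constants.**  An element of `laurentBaseChange Ω F₀` whose coefficients all lie
in `k` comes from `laurentBaseChange k F₀`. -/
theorem exists_of_coeff_mem_range {x : LaurentSeries Ω} (hx : x ∈ laurentBaseChange Ω F₀)
    (hcoeff : ∀ n, x.coeff n ∈ Set.range (algebraMap k Ω)) :
    ∃ y ∈ laurentBaseChange k F₀, coeffMap (algebraMap k Ω) y = x := by
  classical
  let β := Module.Basis.ofVectorSpace k Ω
  refine ⟨coeffDown x, ?_, coeffMap_coeffDown hcoeff⟩
  set x₀ : LaurentSeries k := coeffDown x with hx₀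
  have hx₀x : coeffMap (algebraMap k Ω) x₀ = x := coeffMap_coeffDown hcoeff
  obtain ⟨r, hr, s, hs, hxrs⟩ := IntermediateField.mem_adjoin_iff_div.mp hx
  obtain ⟨gr, hgr, rfl⟩ := exists_comb_of_mem_span F₀ β hr
  obtain ⟨gs, hgs, rfl⟩ := exists_comb_of_mem_span F₀ β hs
  by_cases hs0 : comb (⇑β) gs = 0
  · -- then `x = 0`
    have hx0 : x = 0 := by rw [hxrs, hs0, div_zero]
    have : x₀ = 0 := by
      apply coeffMap_algebraMap_injective (Ω := Ω)
      rw [hx₀x, hx0, map_zero]
    rw [this]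
    exact zero_mem _
  · have hmul : coeffMap (algebraMap k Ω) x₀ * comb (⇑β) gs = comb (⇑β) gr := by
      rw [hx₀x, hxrs, div_mul_cancel₀ _ hs0]
    rw [← comb_mulLeft] at hmul
    have hgs0 : gs ≠ 0 := by
      rintro rfl
      exact hs0 (comb_zero _)
    obtain ⟨i, hi⟩ := Finsupp.ne_iff.mp hgs0
    have hsub : comb (⇑β) (mulLeft x₀ gs - gr) = 0 := by
      have := comb_add (⇑β) (mulLeft x₀ gs - gr) gr
      rw [sub_add_cancel, hmul] at this
      exact (add_eq_right.mp this.symm)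
    have hz := eq_zero_of_comb_eq_zero β.linearIndependent _ hsub
    have hi' : x₀ * gs i = gr i := by
      have := congrArg (fun g => g i) hz
      simp only [Finsupp.sub_apply, Finsupp.zero_apply, mulLeft, Finsupp.mapRange_apply] at this
      exact sub_eq_zero.mp this
    have hgsi : gs i ≠ 0 := by simpa using hi
    have : x₀ = gr i / gs i := by
      rw [eq_div_iff hgsi, hi']
    rw [this]
    exact div_mem (hgr i) (hgs i)

end BaseChange

end Fermat.Agent.S29.H32

end
-- ===== PACK-END S29/H32/CoeffDescent.lean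

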