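import Mathlib.Analysis.InnerProductSpace.Basic
import Mathlib.Analysis.SpecificLimits.Basic
import Mathlib
import Fermat.Prelude.Def_FormalHecke_Eigensystem
import Fermat.Prelude.Def_ModularCurve_LaurentCoeff
import Fermat.Prelude.Def_AlgebraicCurve_BaseChangeGalois
import Fermat.Prelude.Def_AlgebraicCurve_Correspondence
import Fermat.Agent.Pack.S44C.G0E2L0
import Fermat.Agent.Pack.Fast891

-- ===== PACK-BEGIN S21/AbstractDirichlet.lean
section



/-!
# Abstract Dirichlet principle (S21, piece MS-E)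

For a vector `a` and a subspace `V` of a real inner product space `H` (no completeness
assumed), a minimizing sequence `v n ∈ V` for `‖a + v‖ ^ 2` is Cauchy and `a + v n` is
asymptotically orthogonal to `V`.
-/

namespace Fermat.Agent.S21

theorem abstract_dirichlet {H : Type*} [NormedAddCommGroup H] [InnerProductSpace ℝ H]
    (a : H) (V : Submodule ℝ H) :
    ∃ v : ℕ → H, (∀ n, v n ∈ V) ∧
      (∀ ε > 0, ∃ M, ∀ m ≥ M, ∀ n ≥ M, ‖v n - v m‖ ^ 2 < ε) ∧
      (∀ w ∈ V, Filter.Tendsto (fun n => inner ℝ (a + v n) w) Filter.atTop (nhds 0)) ∧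
      (∀ n, ‖a + v n‖ ^ 2 ≤ ‖a‖ ^ 2 + 1) := by
  classical
  set S : Set ℝ := {r | ∃ v ∈ V, r = ‖a + v‖ ^ 2} with hS
  have hSne : S.Nonempty := ⟨‖a + 0‖ ^ 2, 0, V.zero_mem, rfl⟩
  have hSbdd : BddBelow S := ⟨0, by
    rintro r ⟨v, -, rfl⟩
    positivity⟩
  set m : ℝ := sInf S with hm
  have hm_le : ∀ v ∈ V, m ≤ ‖a + v‖ ^ 2 := fun v hv => csInf_le hSbdd ⟨v, hv, rfl⟩
  have hm_le_a : m ≤ ‖a‖ ^ 2 := by
    have := hm_le 0 V.zero_mem
    simpa using this
  have hex : ∀ n : ℕ, ∃ v ∈ V, ‖a + v‖ ^ 2 < m + 1 / ((n : ℝ) + 1) := by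
    intro n
    have hpos : (0 : ℝ) < 1 / ((n : ℝ) + 1) := by positivity
    obtain ⟨r, ⟨v, hv, rfl⟩, hr⟩ := Real.lt_sInf_add_pos hSne hpos
    exact ⟨v, hv, hr⟩
  choose v hvV hvlt using hex
  have hone : ∀ n : ℕ, 1 / ((n : ℝ) + 1) ≤ 1 := by
    intro n
    have h1 : (1 : ℝ) ≤ (n : ℝ) + 1 := by
      have : (0 : ℝ) ≤ n := Nat.cast_nonneg n
      linarith
    exact (div_le_one (by positivity)).2 h1
  -- parallelogram estimate
  have hpar : ∀ n k : ℕ, ‖v n - v k‖ ^ 2 ≤ 2 / ((n : ℝ) + 1) + 2 / ((k : ℝ) + 1) := by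
    intro n k
    have h1 := parallelogram_law_with_norm ℝ (a + v n) (a + v k)
    have hmid : m ≤ ‖a + (1 / 2 : ℝ) • (v n + v k)‖ ^ 2 :=
      hm_le _ (V.smul_mem _ (V.add_mem (hvV n) (hvV k)))
    have hsum : (a + v n) + (a + v k) = (2 : ℝ) • (a + (1 / 2 : ℝ) • (v n + v k)) := by
      rw [smul_add, smul_smul]
      norm_num
      rw [two_smul]
      abel
    have hdiff : (a + v n) - (a + v k) = v n - v k := by abel
    rw [hsum, hdiff, norm_smul] at h1
    have h2 : ‖(2 : ℝ)‖ = 2 := by norm_num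
    rw [h2] at h1
    have hn := hvlt n
    have hk := hvlt k
    have e1 : 2 / ((n : ℝ) + 1) = 2 * (1 / ((n : ℝ) + 1)) := by ring
    have e2 : 2 / ((k : ℝ) + 1) = 2 * (1 / ((k : ℝ) + 1)) := by ring
    rw [e1, e2]
    nlinarith [h1, hmid, hn, hk]
  -- near orthogonality
  have horth : ∀ (n : ℕ) (w : H), w ∈ V →
      (inner ℝ (a + v n) w) ^ 2 ≤ ‖w‖ ^ 2 * (1 / ((n : ℝ) + 1)) := by
    intro n w hw
    set c : ℝ := inner ℝ (a + v n) w with hc
    by_cases hW : ‖w‖ ^ 2 = 0
    · have hw0 : w = 0 := by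
        have : ‖w‖ = 0 := by simpa using hW
        exact norm_eq_zero.1 this
      have : c = 0 := by rw [hc, hw0, inner_zero_right]
      rw [this, hW]
      simp
    · have hWpos : 0 < ‖w‖ ^ 2 := lt_of_le_of_ne (by positivity) (Ne.symm hW)
      set t : ℝ := -c / ‖w‖ ^ 2 with ht
      have hmem : v n + t • w ∈ V := V.add_mem (hvV n) (V.smul_mem _ hw)
      have h1 := hm_le _ hmem
      have hexp : ‖a + (v n + t • w)‖ ^ 2 = ‖a + v n‖ ^ 2 + 2 * t * c + t ^ 2 * ‖w‖ ^ 2 := by
        rw [← add_assoc, norm_add_sq_real, real_inner_smul_right, norm_smul, mul_pow]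
        simp only [Real.norm_eq_abs, sq_abs]
        rw [hc]
        ring
      rw [hexp] at h1
      have hn := hvlt n
      have hWne : ‖w‖ ^ 2 ≠ 0 := hW
      have key : 2 * t * c + t ^ 2 * ‖w‖ ^ 2 = -(c ^ 2) / ‖w‖ ^ 2 := by
        rw [ht]
        generalize ‖w‖ ^ 2 = W at hWne
        field_simp
        ring
      have h3 : 0 ≤ 1 / ((n : ℝ) + 1) + -(c ^ 2) / ‖w‖ ^ 2 := by
        rw [← key]; linarith
      have h4 : c ^ 2 / ‖w‖ ^ 2 ≤ 1 / ((n : ℝ) + 1) := by
        have : -(c ^ 2) / ‖w‖ ^ 2 = -(c ^ 2 / ‖w‖ ^ 2) := by ring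
        rw [this] at h3
        linarith
      rw [div_le_iff₀ hWpos] at h4
      linarith
  refine ⟨v, hvV, ?_, ?_, ?_⟩
  · intro ε hε
    obtain ⟨M, hM⟩ := exists_nat_gt (4 / ε)
    refine ⟨M, fun k hk n hn => ?_⟩
    have hMpos : (0 : ℝ) < (M : ℝ) + 1 := by positivity
    have hb : ∀ j : ℕ, j ≥ M → 2 / ((j : ℝ) + 1) < ε / 2 := by
      intro j hj
      have hj' : (M : ℝ) ≤ j := by exact_mod_cast hj
      have hjpos : (0 : ℝ) < (j : ℝ) + 1 := by positivity
      rw [div_lt_iff₀ hjpos]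
      have h4 : 4 / ε < (j : ℝ) + 1 := by linarith
      rw [div_lt_iff₀ hε] at h4
      linarith
    calc ‖v n - v k‖ ^ 2 ≤ 2 / ((n : ℝ) + 1) + 2 / ((k : ℝ) + 1) := hpar n k
      _ < ε / 2 + ε / 2 := add_lt_add (hb n hn) (hb k hk)
      _ = ε := by ring
  · intro w hw
    have hlim : Filter.Tendsto (fun n : ℕ => ‖w‖ ^ 2 * (1 / ((n : ℝ) + 1)))
        Filter.atTop (nhds 0) := by
      have := (tendsto_one_div_add_atTop_nhds_zero_nat (𝕜 := ℝ)).const_mul (‖w‖ ^ 2)
      simpa using this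
    have hsq : Filter.Tendsto (fun n : ℕ => (inner ℝ (a + v n) w) ^ 2)
        Filter.atTop (nhds 0) :=
      squeeze_zero (fun n => sq_nonneg _) (fun n => horth n w hw) hlim
    have habs : Filter.Tendsto (fun n : ℕ => |inner ℝ (a + v n) w|)
        Filter.atTop (nhds 0) := by
      have h := hsq.sqrt
      simpa [Real.sqrt_sq_eq_abs] using h
    exact (tendsto_zero_iff_abs_tendsto_zero _).2 habs
  · intro n
    have := hvlt n
    have := hone n
    linarith

end Fermat.Agent.S21
end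
-- ===== PACK-END S21/AbstractDirichlet.lean

-- ===== PACK-BEGIN S23/Converse.lean
section


/-!
# S23, converse step (function level)

`exists_holo_quotient`: if `g, h` are holomorphic on a connected open set `U ⊆ ℂ`, `h ≢ 0`, and
`g / h` satisfies a monic polynomial equation with continuous coefficient functions (written in the
homogenised form `g ^ n + ∑_{i < n} b_i g ^ i h ^ (n - i) = 0`), then `g / h` extends to a holomorphic
function `F` on `U`, with `F * h = g` and `F ^ n + ∑_{i < n} b_i F ^ i = 0` on all of `U`.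
-/

set_option autoImplicit false

namespace Fermat.Agent.S23.Conv

open Complex Filter Topology

/-- Cauchy root bound: a root of a monic polynomial is bounded by `1 + ∑ ‖coefficients‖`. -/
theorem norm_le_of_monic_root {n : ℕ} (c : ℕ → ℂ) (x : ℂ)
    (hx : x ^ n + ∑ i ∈ Finset.range n, c i * x ^ i = 0) :
    ‖x‖ ≤ 1 + ∑ i ∈ Finset.range n, ‖c i‖ := by
  have hsum_nonneg : 0 ≤ ∑ i ∈ Finset.range n, ‖c i‖ :=
    Finset.sum_nonneg fun i _ ↦ norm_nonneg _
  rcases le_or_gt ‖x‖ 1 with h1 | h1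
  · linarith
  -- now `1 < ‖x‖`
  rcases Nat.eq_zero_or_pos n with rfl | hn
  · simp at hx
  have hxpos : 0 < ‖x‖ := by linarith
  have hpow : x ^ n = -∑ i ∈ Finset.range n, c i * x ^ i := eq_neg_of_add_eq_zero_left hx
  have h2 : ‖x‖ ^ n ≤ (∑ i ∈ Finset.range n, ‖c i‖) * ‖x‖ ^ (n - 1) := by
    calc ‖x‖ ^ n = ‖x ^ n‖ := (norm_pow x n).symm
      _ = ‖∑ i ∈ Finset.range n, c i * x ^ i‖ := by rw [hpow, norm_neg]
      _ ≤ ∑ i ∈ Finset.range n, ‖c i * x ^ i‖ := norm_sum_le _ _
      _ ≤ ∑ i ∈ Finset.range n, ‖c i‖ * ‖x‖ ^ (n - 1) := by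
          refine Finset.sum_le_sum fun i hi ↦ ?_
          rw [norm_mul, norm_pow]
          refine mul_le_mul_of_nonneg_left ?_ (norm_nonneg _)
          exact pow_le_pow_right₀ h1.le (by have := Finset.mem_range.mp hi; omega)
      _ = (∑ i ∈ Finset.range n, ‖c i‖) * ‖x‖ ^ (n - 1) := by rw [Finset.sum_mul]
  have h3 : ‖x‖ ^ n = ‖x‖ * ‖x‖ ^ (n - 1) := by
    rw [← pow_succ']
    congr 1
    omega
  rw [h3] at h2
  have h4 : ‖x‖ ≤ ∑ i ∈ Finset.range n, ‖c i‖ :=
    le_of_mul_le_mul_right h2 (pow_pos hxpos _)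
  linarith

/-- Dehomogenisation of the integrality equation at a point where `h ≠ 0`. -/
theorem monic_eq_div {n : ℕ} (c : ℕ → ℂ) (g h : ℂ) (hh : h ≠ 0)
    (heq : g ^ n + ∑ i ∈ Finset.range n, c i * g ^ i * h ^ (n - i) = 0) :
    (g / h) ^ n + ∑ i ∈ Finset.range n, c i * (g / h) ^ i = 0 := by
  have hhn : h ^ n ≠ 0 := pow_ne_zero _ hh
  have key : ((g / h) ^ n + ∑ i ∈ Finset.range n, c i * (g / h) ^ i) * h ^ n = 0 := by
    rw [add_mul, Finset.sum_mul, div_pow, div_mul_cancel₀ _ hhn, ← heq]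
    congr 1
    refine Finset.sum_congr rfl fun i hi ↦ ?_
    have hi' : i ≤ n := (Finset.mem_range.mp hi).le
    have : h ^ n = h ^ i * h ^ (n - i) := by rw [← pow_add]; congr 1; omega
    rw [this, div_pow]
    field_simp
  exact (mul_eq_zero.mp key).resolve_right hhn

theorem exists_holo_quotient {U : Set ℂ} (hU : IsOpen U) (hUc : IsPreconnected U)
    {g h : ℂ → ℂ} (hg : DifferentiableOn ℂ g U) (hh : DifferentiableOn ℂ h U)
    {n : ℕ} (hn : 0 < n) (b : ℕ → ℂ → ℂ) (hb : ∀ i < n, ContinuousOn (b i) U)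
    (hne : ∃ z ∈ U, h z ≠ 0)
    (heq : ∀ z ∈ U, g z ^ n + ∑ i ∈ Finset.range n, b i z * g z ^ i * h z ^ (n - i) = 0) :
    ∃ F : ℂ → ℂ, DifferentiableOn ℂ F U ∧ (∀ z ∈ U, F z * h z = g z) ∧
      ∀ z ∈ U, F z ^ n + ∑ i ∈ Finset.range n, b i z * F z ^ i = 0 := by
  classical
  -- the quotient
  set q : ℂ → ℂ := fun z ↦ g z / h z with hq
  -- Step 1: the zeros of `h` are isolated in `U`.
  have hiso : ∀ z₀ ∈ U, ∀ᶠ z in 𝓝[≠] z₀, h z ≠ 0 := by
    intro z₀ hz₀
    have han : AnalyticAt ℂ h z₀ := hh.analyticAt (hU.mem_nhds hz₀)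
    rcases han.eventually_eq_zero_or_eventually_ne_zero with h0 | h0
    · exfalso
      have hanU : AnalyticOnNhd ℂ h U := fun z hz ↦ hh.analyticAt (hU.mem_nhds hz)
      have := hanU.eqOn_zero_of_preconnected_of_eventuallyEq_zero hUc hz₀ h0
      obtain ⟨z, hz, hz'⟩ := hne
      exact hz' (this hz)
    · exact h0
  -- Step 2: the monic equation and the bound for `q` away from the zeros of `h`.
  have hqeq : ∀ z ∈ U, h z ≠ 0 → q z ^ n + ∑ i ∈ Finset.range n, b i z * q z ^ i = 0 :=
    fun z hz hhz ↦ monic_eq_div (fun i ↦ b i z) (g z) (h z) hhz (heq z hz)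
  have hqbd : ∀ z ∈ U, h z ≠ 0 → ‖q z‖ ≤ 1 + ∑ i ∈ Finset.range n, ‖b i z‖ :=
    fun z hz hhz ↦ norm_le_of_monic_root (fun i ↦ b i z) (q z) (hqeq z hz hhz)
  -- Step 3: definition of `F`.
  set F : ℂ → ℂ := fun z ↦ if h z = 0 then limUnder (𝓝[≠] z) q else q z with hF
  have hFq : ∀ z, h z ≠ 0 → F z = q z := fun z hz ↦ by simp [hF, hz]
  -- Step 4: local description of `F` near a zero of `h`.
  have hloc : ∀ z₀ ∈ U, h z₀ = 0 → ∃ s ∈ 𝓝 z₀, s ⊆ U ∧ (∀ z ∈ s, z ≠ z₀ → h z ≠ 0) ∧
      DifferentiableOn ℂ F s := by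
    intro z₀ hz₀ hhz₀
    -- neighbourhood on which all `b i` are bounded
    have hbnd : ∀ᶠ z in 𝓝 z₀, ∀ i ∈ Finset.range n, ‖b i z‖ < ‖b i z₀‖ + 1 := by
      rw [Filter.eventually_all_finset]
      intro i hi
      have hc : ContinuousAt (b i) z₀ :=
        (hb i (Finset.mem_range.mp hi)).continuousAt (hU.mem_nhds hz₀)
      have : Tendsto (fun z ↦ ‖b i z‖) (𝓝 z₀) (𝓝 ‖b i z₀‖) := hc.norm
      exact this.eventually (gt_mem_nhds (lt_add_one _)) |>.mono fun z hz ↦ hz
    have hiso' : ∀ᶠ z in 𝓝 z₀, z ≠ z₀ → h z ≠ 0 := by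
      have := hiso z₀ hz₀
      rw [eventually_nhdsWithin_iff] at this
      exact this.mono fun z hz hne ↦ hz hne
    have hUn : ∀ᶠ z in 𝓝 z₀, z ∈ U := hU.mem_nhds hz₀
    obtain ⟨s, hs_sub, hs_open, hs_mem⟩ := eventually_nhds_iff.mp (hbnd.and (hiso'.and hUn))
    have hsU : s ⊆ U := fun z hz ↦ (hs_sub z hz).2.2
    have hsh : ∀ z ∈ s, z ≠ z₀ → h z ≠ 0 := fun z hz ↦ (hs_sub z hz).2.1
    refine ⟨s, hs_open.mem_nhds hs_mem, hsU, hsh, ?_⟩
    -- `q` is differentiable and bounded on `s \ {z₀}`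
    have hqd : DifferentiableOn ℂ q (s \ {z₀}) := by
      intro z hz
      have hzs : z ∈ s := hz.1
      have hzne : z ≠ z₀ := fun hzz ↦ hz.2 (by simpa using hzz)
      have hgz : DifferentiableAt ℂ g z := (hg z (hsU hzs)).differentiableAt (hU.mem_nhds (hsU hzs))
      have hhz : DifferentiableAt ℂ h z := (hh z (hsU hzs)).differentiableAt (hU.mem_nhds (hsU hzs))
      exact (hgz.div hhz (hsh z hzs hzne)).differentiableWithinAt
    have hqb : BddAbove (norm ∘ q '' (s \ {z₀})) := by
      refine ⟨1 + ∑ i ∈ Finset.range n, (‖b i z₀‖ + 1), ?_⟩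
      rintro _ ⟨z, hz, rfl⟩
      have hzs : z ∈ s := hz.1
      have hzne : z ≠ z₀ := fun hzz ↦ hz.2 (by simpa using hzz)
      calc ‖q z‖ ≤ 1 + ∑ i ∈ Finset.range n, ‖b i z‖ := hqbd z (hsU hzs) (hsh z hzs hzne)
        _ ≤ 1 + ∑ i ∈ Finset.range n, (‖b i z₀‖ + 1) := by
            gcongr with i hi
            exact ((hs_sub z hzs).1 i hi).le
    have hupd := Complex.differentiableOn_update_limUnder_of_bddAbove
      (hs_open.mem_nhds hs_mem) hqd hqb
    refine hupd.congr fun z hz ↦ ?_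
    by_cases hzz : z = z₀
    · subst hzz
      simp [hF, hhz₀]
    · rw [Function.update_of_ne hzz, hFq z (hsh z hz hzz)]
  -- Step 5: `F` is differentiable on `U`.
  have hFd : DifferentiableOn ℂ F U := by
    intro z₀ hz₀
    by_cases hhz₀ : h z₀ = 0
    · obtain ⟨s, hs, -, -, hFs⟩ := hloc z₀ hz₀ hhz₀
      exact ((hFs z₀ (mem_of_mem_nhds hs)).differentiableAt hs).differentiableWithinAt
    · have hgz : DifferentiableAt ℂ g z₀ := (hg z₀ hz₀).differentiableAt (hU.mem_nhds hz₀)
      have hhz : DifferentiableAt ℂ h z₀ := (hh z₀ hz₀).differentiableAt (hU.mem_nhds hz₀)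
      have hqz : DifferentiableAt ℂ q z₀ := hgz.div hhz hhz₀
      have hev : F =ᶠ[𝓝 z₀] q := by
        have : ∀ᶠ z in 𝓝 z₀, h z ≠ 0 := hhz.continuousAt.eventually_ne hhz₀
        exact this.mono fun z hz ↦ hFq z hz
      exact (hev.differentiableAt_iff.mpr hqz).differentiableWithinAt
  -- Step 6: `F * h = g`.
  have hFh : ∀ z ∈ U, F z * h z = g z := by
    intro z hz
    by_cases hhz : h z = 0
    · have h1 := heq z hz
      have h2 : ∑ i ∈ Finset.range n, b i z * g z ^ i * h z ^ (n - i) = 0 := by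
        refine Finset.sum_eq_zero fun i hi ↦ ?_
        have : n - i ≠ 0 := by have := Finset.mem_range.mp hi; omega
        rw [hhz, zero_pow this, mul_zero]
      rw [h2, add_zero] at h1
      rw [hhz, mul_zero, pow_eq_zero_iff hn.ne'.symm.symm |>.mp h1]
    · rw [hFq z hhz, hq]
      exact div_mul_cancel₀ _ hhz
  refine ⟨F, hFd, hFh, ?_⟩
  -- Step 7: the monic equation for `F`.
  intro z₀ hz₀
  by_cases hhz₀ : h z₀ = 0
  · -- by continuity
    set Φ : ℂ → ℂ := fun z ↦ F z ^ n + ∑ i ∈ Finset.range n, b i z * F z ^ i with hΦ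
    have hFc : ContinuousAt F z₀ := (hFd.continuousOn).continuousAt (hU.mem_nhds hz₀)
    have hΦc : ContinuousAt Φ z₀ := by
      refine (hFc.pow n).add (tendsto_finsetSum _ fun i hi ↦ ?_)
      exact ((hb i (Finset.mem_range.mp hi)).continuousAt (hU.mem_nhds hz₀)).mul (hFc.pow i)
    have hΦ0 : ∀ᶠ z in 𝓝[≠] z₀, Φ z = 0 := by
      have h1 := hiso z₀ hz₀
      have h2 : ∀ᶠ z in 𝓝[≠] z₀, z ∈ U :=
        nhdsWithin_le_nhds (hU.mem_nhds hz₀)
      filter_upwards [h1, h2] with z hz hzU
      simp only [hΦ]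
      rw [hFq z hz]
      exact hqeq z hzU hz
    have hlim : Tendsto Φ (𝓝[≠] z₀) (𝓝 (Φ z₀)) := hΦc.tendsto.mono_left nhdsWithin_le_nhds
    have hlim0 : Tendsto Φ (𝓝[≠] z₀) (𝓝 0) :=
      (tendsto_congr' hΦ0).mpr tendsto_const_nhds
    exact tendsto_nhds_unique hlim hlim0
  · rw [hFq z₀ hhz₀]
    exact hqeq z₀ hz₀ hhz₀

end Fermat.Agent.S23.Conv

end
-- ===== PACK-END S23/Converse.lean

-- ===== PACK-BEGIN S23/BddDenom.lean
section


/-!
# Bounded denominators: a pure power-series lemma (S23, helper263)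

`IntSpan` is the `ℂ`-subalgebra of `ℂ⟦X⟧` spanned by power series with integer coefficients.

Main result `Fermat.Agent.S23.BddDenom.bdd`:
if `x : ℂ⟦X⟧` has rational coefficients, is a root of a monic polynomial with coefficients in
`IntSpan`, and satisfies `D * x = F` with `D F ∈ IntSpan`, `D ≠ 0`, then some positive integer
multiple of `x` has integer coefficients.
-/

set_option autoImplicit false

open PowerSeries

namespace Fermat.Agent.S23.BddDenom

noncomputable section

/-- The natural map `ℤ⟦X⟧ → ℂ⟦X⟧`. -/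
abbrev iZC : ℤ⟦X⟧ →+* ℂ⟦X⟧ := PowerSeries.map (Int.castRingHom ℂ)

/-- The natural map `ℤ⟦X⟧ → ℚ⟦X⟧`. -/
abbrev iZQ : ℤ⟦X⟧ →+* ℚ⟦X⟧ := PowerSeries.map (Int.castRingHom ℚ)

/-- The natural map `ℚ⟦X⟧ → ℂ⟦X⟧`. -/
abbrev iQC : ℚ⟦X⟧ →+* ℂ⟦X⟧ := PowerSeries.map (algebraMap ℚ ℂ)

/-- The `ℂ`-subalgebra of `ℂ⟦X⟧` generated by the power series with integer coefficients. -/
def IntSpan : Subalgebra ℂ ℂ⟦X⟧ := Algebra.adjoin ℂ (Set.range iZC)

theorem iZC_mem_IntSpan (z : ℤ⟦X⟧) : iZC z ∈ IntSpan :=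
  Algebra.subset_adjoin ⟨z, rfl⟩

/-- A power series all of whose coefficients are integers lies in `IntSpan`. -/
theorem mem_IntSpan_of_int_coeff {s : ℂ⟦X⟧} (hs : ∀ n, ∃ m : ℤ, coeff n s = (m : ℂ)) :
    s ∈ IntSpan := by
  choose m hm using hs
  have : s = iZC (PowerSeries.mk m) := by
    ext n
    simp [hm n]
  rw [this]
  exact iZC_mem_IntSpan _

theorem IntSpan_toSubmodule :
    Subalgebra.toSubmodule IntSpan = Submodule.span ℂ (Set.range iZC) := by
  rw [IntSpan, Algebra.adjoin_eq_span]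
  congr 1
  have : (Submonoid.closure (Set.range iZC) : Set ℂ⟦X⟧) = ((MonoidHom.mrange (iZC : ℤ⟦X⟧ →* ℂ⟦X⟧) :
      Submonoid ℂ⟦X⟧) : Set ℂ⟦X⟧) := by
    have h : (Set.range iZC : Set ℂ⟦X⟧) =
        ((MonoidHom.mrange (iZC : ℤ⟦X⟧ →* ℂ⟦X⟧) : Submonoid ℂ⟦X⟧) : Set ℂ⟦X⟧) := by
      ext; simp
    rw [h, Submonoid.closure_eq]
  rw [this]
  ext; simp

theorem mem_IntSpan_iff {s : ℂ⟦X⟧} : s ∈ IntSpan ↔ s ∈ Submodule.span ℂ (Set.range iZC) := by
  rw [← IntSpan_toSubmodule]
  rfl

/-- Coefficientwise application of a `ℚ`-linear map `ℂ → ℚ`. -/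
def coeffMap (ρ : ℂ →ₗ[ℚ] ℚ) : ℂ⟦X⟧ →ₗ[ℚ] ℚ⟦X⟧ where
  toFun s := PowerSeries.mk fun n => ρ (coeff n s)
  map_add' s t := by
    ext n
    simp
  map_smul' r s := by
    ext n
    simp

@[simp]
theorem coeff_coeffMap (ρ : ℂ →ₗ[ℚ] ℚ) (n : ℕ) (s : ℂ⟦X⟧) :
    coeff n (coeffMap ρ s) = ρ (coeff n s) := by
  simp [coeffMap]

theorem coeffMap_mul_iQC (ρ : ℂ →ₗ[ℚ] ℚ) (s : ℂ⟦X⟧) (y : ℚ⟦X⟧) :
    coeffMap ρ (s * iQC y) = coeffMap ρ s * y := by
  ext n
  rw [coeff_coeffMap, PowerSeries.coeff_mul, PowerSeries.coeff_mul, map_sum]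
  refine Finset.sum_congr rfl fun p _ => ?_
  rw [coeff_coeffMap, PowerSeries.coeff_map]
  have : coeff p.1 s * (algebraMap ℚ ℂ) (coeff p.2 y) = (coeff p.2 y) • coeff p.1 s := by
    rw [Algebra.smul_def, mul_comm]
  rw [this, map_smul, smul_eq_mul, mul_comm]

theorem coeffMap_iQC (ρ : ℂ →ₗ[ℚ] ℚ) (h1 : ρ 1 = 1) (y : ℚ⟦X⟧) :
    coeffMap ρ (iQC y) = y := by
  have := coeffMap_mul_iQC ρ 1 y
  rw [one_mul] at this
  rw [this]
  have h : coeffMap ρ 1 = 1 := by
    ext n
    rw [coeff_coeffMap, PowerSeries.coeff_one, PowerSeries.coeff_one]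
    split_ifs
    · exact h1
    · exact map_zero ρ
  rw [h, one_mul]

/-- `ρ` precomposed with multiplication by `t`. -/
def twist (ρ : ℂ →ₗ[ℚ] ℚ) (t : ℂ) : ℂ →ₗ[ℚ] ℚ :=
  ρ.comp (LinearMap.mulLeft ℚ t)

@[simp]
theorem twist_apply (ρ : ℂ →ₗ[ℚ] ℚ) (t z : ℂ) : twist ρ t z = ρ (t * z) := rfl

theorem coeffMap_smul (ρ : ℂ →ₗ[ℚ] ℚ) (t : ℂ) (s : ℂ⟦X⟧) :
    coeffMap ρ (t • s) = coeffMap (twist ρ t) s := by
  ext n
  simp

/-- Power series over `ℚ` with bounded denominators. -/
def BddQ (u : ℚ⟦X⟧) : Prop := ∃ c : ℕ, 0 < c ∧ ∃ z : ℤ⟦X⟧, (c : ℚ) • u = iZQ z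

theorem iZQ_zsmul (a : ℤ) (z : ℤ⟦X⟧) : iZQ (a • z) = (a : ℚ) • iZQ z := by
  rw [zsmul_eq_mul, map_mul, map_intCast, Algebra.smul_def]
  congr 1
  simp

theorem BddQ.mul_nat {u : ℚ⟦X⟧} {c : ℕ} {z : ℤ⟦X⟧} (h : (c : ℚ) • u = iZQ z) (d : ℕ) :
    ((d * c : ℕ) : ℚ) • u = iZQ ((d : ℤ) • z) := by
  rw [Nat.cast_mul, mul_smul, h, iZQ_zsmul]
  simp

theorem bddQ_coeffMap_of_mem {s : ℂ⟦X⟧} (hs : s ∈ IntSpan) :
    ∀ ρ : ℂ →ₗ[ℚ] ℚ, BddQ (coeffMap ρ s) := by
  rw [mem_IntSpan_iff] at hs
  induction hs using Submodule.span_induction with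
  | mem s hs =>
    obtain ⟨β, rfl⟩ := hs
    intro ρ
    refine ⟨(ρ 1).den, (ρ 1).den_pos, (ρ 1).num • β, ?_⟩
    rw [iZQ_zsmul]
    ext n
    rw [PowerSeries.coeff_smul, coeff_coeffMap, PowerSeries.coeff_map, PowerSeries.coeff_smul,
      PowerSeries.coeff_map]
    have h1 : ((Int.castRingHom ℂ) (coeff n β) : ℂ) = ((coeff n β : ℤ) : ℚ) • (1 : ℂ) := by
      simp [Algebra.smul_def]
    rw [h1, map_smul]
    simp only [smul_eq_mul, eq_intCast]
    have h2 : ((ρ 1).den : ℚ) * ρ 1 = ((ρ 1).num : ℚ) := by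
      rw [mul_comm]
      exact Rat.mul_den_eq_num (ρ 1)
    calc ((ρ 1).den : ℚ) * (((coeff n β : ℤ) : ℚ) * ρ 1)
        = ((coeff n β : ℤ) : ℚ) * (((ρ 1).den : ℚ) * ρ 1) := by ring
      _ = ((ρ 1).num : ℚ) * ((coeff n β : ℤ) : ℚ) := by rw [h2]; ring
  | zero =>
    intro ρ
    exact ⟨1, Nat.one_pos, 0, by simp⟩
  | add s t _ _ ihs iht =>
    intro ρ
    obtain ⟨c₁, hc₁, z₁, h₁⟩ := ihs ρ
    obtain ⟨c₂, hc₂, z₂, h₂⟩ := iht ρ
    refine ⟨c₂ * c₁, Nat.mul_pos hc₂ hc₁, (c₂ : ℤ) • z₁ + (c₁ : ℤ) • z₂, ?_⟩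
    rw [map_add, smul_add, BddQ.mul_nat h₁ c₂, mul_comm c₂ c₁, BddQ.mul_nat h₂ c₁, map_add]
  | smul t s _ ih =>
    intro ρ
    rw [coeffMap_smul]
    exact ih (twist ρ t)

/-- A finite family of bounded-denominator series has a common denominator. -/
theorem BddQ.common {ι : Type*} (s : Finset ι) (u : ι → ℚ⟦X⟧) (hu : ∀ i ∈ s, BddQ (u i)) :
    ∃ c : ℕ, 0 < c ∧ ∀ i ∈ s, ∃ z : ℤ⟦X⟧, (c : ℚ) • u i = iZQ z := by
  classical
  induction s using Finset.induction_on with
  | empty => exact ⟨1, Nat.one_pos, by simp⟩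
  | insert a s ha ih =>
    obtain ⟨c, hc, hz⟩ := ih fun i hi => hu i (Finset.mem_insert_of_mem hi)
    obtain ⟨c', hc', z', hz'⟩ := hu a (Finset.mem_insert_self a s)
    refine ⟨c * c', Nat.mul_pos hc hc', fun i hi => ?_⟩
    rcases Finset.mem_insert.mp hi with rfl | hi
    · exact ⟨_, BddQ.mul_nat hz' c⟩
    · obtain ⟨z, hz⟩ := hz i hi
      rw [mul_comm]
      exact ⟨_, BddQ.mul_nat hz c'⟩

theorem iZQ_injective : Function.Injective iZQ :=
  PowerSeries.map_injective _ (Int.cast_injective (α := ℚ))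

/-- `ℤ⟦X⟧` is integrally closed, in the following concrete form: a power series over `ℚ` which is
a "fraction" of integral power series and is integral over `ℤ⟦X⟧` has integer coefficients. -/
theorem int_of_fraction_of_integral (y : ℚ⟦X⟧) (D F : ℤ⟦X⟧) (hD : D ≠ 0)
    (hDF : iZQ D * y = iZQ F) (hy : iZQ.IsIntegralElem y) : ∃ z : ℤ⟦X⟧, iZQ z = y := by
  obtain ⟨P, hP, hPy⟩ := hy
  let K := FractionRing ℤ⟦X⟧
  let L := FractionRing ℚ⟦X⟧
  let g : ℤ⟦X⟧ →+* L := (algebraMap ℚ⟦X⟧ L).comp iZQ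
  have hg : Function.Injective g :=
    (IsFractionRing.injective ℚ⟦X⟧ L).comp iZQ_injective
  let φ : K →+* L := IsFractionRing.lift hg
  have hφ : ∀ a : ℤ⟦X⟧, φ (algebraMap ℤ⟦X⟧ K a) = g a := IsFractionRing.lift_algebraMap hg
  let w : K := algebraMap ℤ⟦X⟧ K F / algebraMap ℤ⟦X⟧ K D
  have hgD : g D ≠ 0 := fun h => hD (hg (by rw [h, map_zero]))
  have hφw : φ w = algebraMap ℚ⟦X⟧ L y := by
    have : φ w = g F / g D := by
      simp only [w, map_div₀, hφ]
    rw [this, div_eq_iff hgD]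
    simp only [g, RingHom.comp_apply]
    rw [← map_mul, mul_comm, hDF]
  have hw : IsIntegral ℤ⟦X⟧ w := by
    refine ⟨P, hP, ?_⟩
    apply φ.injective
    rw [map_zero, Polynomial.hom_eval₂, hφw]
    have : φ.comp (algebraMap ℤ⟦X⟧ K) = g := RingHom.ext hφ
    rw [this]
    have h2 := Polynomial.hom_eval₂ P iZQ (algebraMap ℚ⟦X⟧ L) y
    rw [hPy, map_zero] at h2
    exact h2.symm
  obtain ⟨z, hz⟩ := IsIntegrallyClosed.isIntegral_iff.mp hw
  refine ⟨z, ?_⟩
  have hKD : algebraMap ℤ⟦X⟧ K D ≠ 0 := fun h =>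
    hD (IsFractionRing.injective ℤ⟦X⟧ K (by rw [h, map_zero]))
  have h3 : z * D = F := by
    apply IsFractionRing.injective ℤ⟦X⟧ K
    rw [map_mul, hz]
    exact div_mul_cancel₀ _ hKD
  have hQD : iZQ D ≠ 0 := fun h => hD (iZQ_injective (by rw [h, map_zero]))
  have h4 : iZQ D * iZQ z = iZQ D * y := by
    rw [hDF, ← map_mul, mul_comm, h3]
  exact mul_left_cancel₀ hQD h4

/-- Existence of a `ℚ`-linear functional `ℂ → ℚ` taking the value `1` at a given nonzero `z`. -/
theorem exists_functional (z : ℂ) (hz : z ≠ 0) : ∃ ρ : ℂ →ₗ[ℚ] ℚ, ρ z = 1 := by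
  let f : ℚ →ₗ[ℚ] ℂ := LinearMap.toSpanSingleton ℚ ℂ z
  have hf : LinearMap.ker f = ⊥ := by
    rw [LinearMap.ker_eq_bot]
    intro a b hab
    simp only [f, LinearMap.toSpanSingleton_apply] at hab
    exact smul_left_injective ℚ hz hab
  obtain ⟨ρ, hρ⟩ := LinearMap.exists_leftInverse_of_injective f hf
  refine ⟨ρ, ?_⟩
  have := congrArg (fun l : ℚ →ₗ[ℚ] ℚ => l 1) hρ
  simpa [f, LinearMap.toSpanSingleton_apply] using this

/-- A power series with rational coefficients comes from `ℚ⟦X⟧`. -/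
theorem exists_rat_series (x : ℂ⟦X⟧) (hx : ∀ n, ∃ r : ℚ, coeff n x = (r : ℂ)) :
    ∃ x₀ : ℚ⟦X⟧, iQC x₀ = x := by
  choose r hr using hx
  refine ⟨PowerSeries.mk r, ?_⟩
  ext n
  simp [hr n]

/-- **Bounded denominators.** Let `x : ℂ⟦X⟧` have rational coefficients. Assume `x` is a root of a
monic polynomial `X^μ + ∑_{m<μ} e m X^m` whose coefficients lie in `IntSpan`, and that
`D * x = F` with `D, F ∈ IntSpan`, `D ≠ 0`. Then a positive integer multiple of `x` has integer
coefficients. -/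
theorem bdd (x : ℂ⟦X⟧) (hx : ∀ n, ∃ r : ℚ, coeff n x = (r : ℂ))
    (μ : ℕ) (e : ℕ → ℂ⟦X⟧) (he : ∀ m, m < μ → e m ∈ IntSpan)
    (hmonic : x ^ μ + ∑ m ∈ Finset.range μ, e m * x ^ m = 0)
    (D F : ℂ⟦X⟧) (hD : D ∈ IntSpan) (hF : F ∈ IntSpan) (hD0 : D ≠ 0) (hDF : D * x = F) :
    ∃ c : ℕ, 0 < c ∧ ∀ n, ∃ m : ℤ, (c : ℂ) * coeff n x = (m : ℂ) := by
  obtain ⟨x₀, rfl⟩ := exists_rat_series x hx
  -- Step 1: the monic equation over `ℚ⟦X⟧` with bounded-denominator coefficients.
  obtain ⟨ρ₁, hρ₁⟩ := exists_functional 1 one_ne_zero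
  have hmonic' : x₀ ^ μ + ∑ m ∈ Finset.range μ, coeffMap ρ₁ (e m) * x₀ ^ m = 0 := by
    have := congrArg (coeffMap ρ₁) hmonic
    rw [map_add, map_sum, map_zero, ← map_pow, coeffMap_iQC ρ₁ hρ₁] at this
    rw [← this]
    congr 1
    refine Finset.sum_congr rfl fun m _ => ?_
    rw [← map_pow, coeffMap_mul_iQC]
  obtain ⟨c, hc, hcz⟩ := BddQ.common (Finset.range μ) (fun m => coeffMap ρ₁ (e m))
    (fun m hm => bddQ_coeffMap_of_mem (he m (Finset.mem_range.mp hm)) ρ₁)
  have hcz' : ∀ m : ℕ, ∃ z : ℤ⟦X⟧, m < μ → (c : ℚ) • coeffMap ρ₁ (e m) = iZQ z := by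
    intro m
    by_cases hm : m < μ
    · obtain ⟨z, hz⟩ := hcz m (Finset.mem_range.mpr hm)
      exact ⟨z, fun _ => hz⟩
    · exact ⟨0, fun h => absurd h hm⟩
  choose z hz using hcz'
  -- Step 2: the fraction relation over `ℚ⟦X⟧`.
  obtain ⟨n₀, hn₀⟩ : ∃ n, coeff n D ≠ 0 := by
    by_contra h
    exact hD0 (PowerSeries.ext fun n => by
      rw [map_zero]
      by_contra h'
      exact h ⟨n, h'⟩)
  obtain ⟨ρ₂, hρ₂⟩ := exists_functional _ hn₀
  have hDF' : coeffMap ρ₂ D * x₀ = coeffMap ρ₂ F := by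
    rw [← coeffMap_mul_iQC, hDF]
  have hD0' : coeffMap ρ₂ D ≠ 0 := by
    intro h
    have := congrArg (coeff n₀) h
    rw [coeff_coeffMap, hρ₂, map_zero] at this
    exact one_ne_zero this
  obtain ⟨cD, hcD, zD, hzD⟩ := bddQ_coeffMap_of_mem hD ρ₂
  obtain ⟨cF, hcF, zF, hzF⟩ := bddQ_coeffMap_of_mem hF ρ₂
  -- Step 3: apply normality of `ℤ⟦X⟧` to `y = c • x₀`.
  have hcQ : (c : ℚ) ≠ 0 := Nat.cast_ne_zero.mpr hc.ne'
  have hcDQ : (cD : ℚ) ≠ 0 := Nat.cast_ne_zero.mpr hcD.ne'
  have hcFQ : (cF : ℚ) ≠ 0 := Nat.cast_ne_zero.mpr hcF.ne'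
  have hzD0 : zD ≠ 0 := by
    rintro rfl
    rw [map_zero] at hzD
    exact hD0' ((smul_eq_zero.mp hzD).resolve_left hcDQ)
  have key : ∃ w : ℤ⟦X⟧, iZQ w = (c : ℚ) • x₀ := by
    refine int_of_fraction_of_integral ((c : ℚ) • x₀) ((cF : ℤ) • zD) (((cD * c : ℕ) : ℤ) • zF)
      ?_ ?_ ?_
    · intro h
      have h' := congrArg iZQ h
      rw [iZQ_zsmul, map_zero] at h'
      rcases smul_eq_zero.mp h' with h'' | h''
      · exact hcFQ (by exact_mod_cast h'')
      · exact hzD0 (iZQ_injective (by rw [h'', map_zero]))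
    · have e1 : iZQ ((cF : ℤ) • zD) = (cF : ℚ) • iZQ zD := by
        rw [iZQ_zsmul]; simp
      have e2 : iZQ (((cD * c : ℕ) : ℤ) • zF) = ((cD : ℚ) * (c : ℚ)) • iZQ zF := by
        rw [iZQ_zsmul]; simp
      rw [e1, e2, ← hzD, ← hzF, ← hDF']
      simp only [smul_mul_assoc, mul_smul_comm, smul_smul]
      congr 1
      ring
    · -- the monic polynomial
      refine ⟨Polynomial.X ^ μ + ∑ i : Fin μ,
        Polynomial.C (((c : ℤ) ^ (μ - 1 - (i : ℕ))) • z i) * Polynomial.X ^ (i : ℕ),
        Polynomial.monic_X_pow_add (Polynomial.degree_sum_fin_lt _), ?_⟩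
      rw [Polynomial.eval₂_add, Polynomial.eval₂_pow, Polynomial.eval₂_X,
        Polynomial.eval₂_finsetSum]
      simp only [Polynomial.eval₂_mul, Polynomial.eval₂_C, Polynomial.eval₂_pow,
        Polynomial.eval₂_X]
      have hsum : ∑ i : Fin μ, iZQ (((c : ℤ) ^ (μ - 1 - (i : ℕ))) • z i) * ((c : ℚ) • x₀) ^ (i : ℕ)
          = ∑ m ∈ Finset.range μ, ((c : ℚ) ^ μ) • (coeffMap ρ₁ (e m) * x₀ ^ m) := by
        rw [Finset.sum_fin_eq_sum_range]
        refine Finset.sum_congr rfl fun m hm => ?_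
        have hm' : m < μ := Finset.mem_range.mp hm
        rw [dif_pos hm']
        have e3 : iZQ (((c : ℤ) ^ (μ - 1 - m)) • z m) = ((c : ℚ) ^ (μ - 1 - m)) • iZQ (z m) := by
          rw [iZQ_zsmul]; simp
        rw [e3, ← hz m hm', smul_pow]
        simp only [smul_mul_assoc, mul_smul_comm, smul_smul]
        congr 1
        have : μ = (μ - 1 - m) + 1 + m := by omega
        conv_rhs => rw [this]
        ring
      rw [hsum, smul_pow, ← Finset.smul_sum, ← smul_add, hmonic', smul_zero]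
  obtain ⟨w, hw⟩ := key
  refine ⟨c, hc, fun n => ⟨coeff n w, ?_⟩⟩
  have := congrArg (coeff n) hw
  rw [PowerSeries.coeff_map, PowerSeries.coeff_smul, smul_eq_mul] at this
  rw [PowerSeries.coeff_map]
  have h5 := congrArg (algebraMap ℚ ℂ) this
  simp only [eq_intCast, map_mul, map_natCast, map_intCast] at h5
  rw [← h5]

end

end Fermat.Agent.S23.BddDenom

end
-- ===== PACK-END S23/BddDenom.lean

-- ===== PACK-BEGIN S49/Formal.lean
section



set_option autoImplicit false

namespace Fermat.Agent.S49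

variable {R : Type*} [CommRing R]

/-- Prime-power recursion from the formal Hecke relations. -/
theorem formal_prime_pow {e a : ℕ → R} (h : FormalHecke.IsEigensystem e a)
    (ℓ r : ℕ) (hℓ : ℓ.Prime) :
    a (ℓ ^ (r + 2)) = a ℓ * a (ℓ ^ (r + 1)) - e ℓ * a (ℓ ^ r) := by
  have h1 := h.2 ℓ hℓ (ℓ ^ (r + 1))
  have hdvd : ℓ ∣ ℓ ^ (r + 1) := dvd_pow_self ℓ (Nat.succ_ne_zero r)
  rw [if_pos hdvd] at h1
  have hdiv : ℓ ^ (r + 1) / ℓ = ℓ ^ r := by
    rw [pow_succ, Nat.mul_div_cancel _ hℓ.pos]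
  rw [hdiv] at h1
  have hpow : ℓ * ℓ ^ (r + 1) = ℓ ^ (r + 2) := by ring
  rw [hpow] at h1
  rw [← h1]; ring

/-- `a (ℓ^k * n) = a (ℓ^k) * a n` when `ℓ ∤ n`. -/
theorem formal_prime_pow_mul {e a : ℕ → R} (h : FormalHecke.IsEigensystem e a)
    (ℓ : ℕ) (hℓ : ℓ.Prime) (n : ℕ) (hn : ¬ ℓ ∣ n) (k : ℕ) :
    a (ℓ ^ k * n) = a (ℓ ^ k) * a n := by
  induction k using Nat.strong_induction_on with
  | _ k ih =>
    match k, ih with
    | 0, _ => simp [h.1]
    | 1, _ =>
      have h1 := h.2 ℓ hℓ n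
      rw [if_neg hn, mul_zero, add_zero] at h1
      simpa using h1
    | (k + 2), ih =>
      have h1 := h.2 ℓ hℓ (ℓ ^ (k + 1) * n)
      have hdvd : ℓ ∣ ℓ ^ (k + 1) * n := Dvd.dvd.mul_right (dvd_pow_self ℓ (Nat.succ_ne_zero k)) n
      rw [if_pos hdvd] at h1
      have hdiv : ℓ ^ (k + 1) * n / ℓ = ℓ ^ k * n := by
        rw [pow_succ, mul_assoc, mul_comm ℓ n, ← mul_assoc, Nat.mul_div_cancel _ hℓ.pos]
      rw [hdiv] at h1
      have hpow : ℓ * (ℓ ^ (k + 1) * n) = ℓ ^ (k + 2) * n := by ring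
      rw [hpow, ih (k + 1) (by omega), ih k (by omega)] at h1
      rw [formal_prime_pow h ℓ k hℓ]
      have : a (ℓ ^ (k + 2) * n) = a ℓ * (a (ℓ ^ (k + 1)) * a n) - e ℓ * (a (ℓ ^ k) * a n) := by
        rw [← h1]; ring
      rw [this]; ring

/-- Multiplicativity on coprime arguments from the formal Hecke relations. -/
theorem formal_mul_of_coprime {e a : ℕ → R} (h : FormalHecke.IsEigensystem e a)
    (m n : ℕ) (hmn : m.Coprime n) : a (m * n) = a m * a n := by
  induction m using Nat.recOnPosPrimePosCoprime generalizing n with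
  | zero =>
    have : n = 1 := by simpa using hmn
    subst this
    simp [h.1]
  | one => simp [h.1]
  | prime_pow p k hp hk =>
    have hpn : ¬ p ∣ n := by
      intro hdvd
      have := Nat.Coprime.coprime_dvd_left (dvd_pow_self p hk.ne') hmn
      exact hp.one_lt.ne' (Nat.Coprime.eq_one_of_dvd this hdvd)
    exact formal_prime_pow_mul h p hp n hpn k
  | coprime x y hx hy hxy ihx ihy =>
    have hxn : x.Coprime n := Nat.Coprime.coprime_dvd_left (Dvd.intro y rfl) hmn
    have hyn : y.Coprime n := Nat.Coprime.coprime_dvd_left (Dvd.intro_left x rfl) hmn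
    have hxyn : x.Coprime (y * n) := Nat.Coprime.mul_right hxy hxn
    rw [mul_assoc, ihx (y * n) hxyn, ihy n hyn, ihx y hxy]
    ring

/-- A formal Hecke eigensystem is recursive (multiplicative with prime-power recursion). -/
theorem isRecursive_of_isEigensystem {e a : ℕ → R} (h : FormalHecke.IsEigensystem e a) :
    FormalHecke.IsRecursive e a :=
  ⟨h.1, formal_mul_of_coprime h, fun ℓ r hℓ => formal_prime_pow h ℓ r hℓ⟩

end Fermat.Agent.S49

end
-- ===== PACK-END S49/Formal.lean

-- ===== PACK-BEGIN Ribet/H940/Theta.lean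
section



/-!
# RIBET wall-p, leaf I3 (helper940): the derivation `θ = q d/dq` on Laurent series

`thetaL f = ∑ n · aₙ qⁿ`.  Additive, Leibniz rule, compatible with coefficient maps, kills
constants and (in characteristic `p`) `p`-th powers.
-/

set_option autoImplicit false

noncomputable section

namespace Fermat.Agent.Ribet.H940

open HahnSeries ModularCurve

variable {R S : Type*} [CommRing R] [CommRing S]

/-- `θ = q d/dq` on Laurent series. -/
def thetaL (f : LaurentSeries R) : LaurentSeries R where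
  coeff n := (n : R) * f.coeff n
  isPWO_support' := f.isPWO_support.mono fun n hn h0 => hn (by
    show (n : R) * f.coeff n = 0
    rw [show f.coeff n = 0 from h0, mul_zero])

@[simp] theorem thetaL_coeff (f : LaurentSeries R) (n : ℤ) :
    (thetaL f).coeff n = (n : R) * f.coeff n := rfl

theorem support_thetaL_subset (f : LaurentSeries R) : (thetaL f).support ⊆ f.support :=
  fun n hn h0 => hn (by
    show (n : R) * f.coeff n = 0
    rw [show f.coeff n = 0 from h0, mul_zero])

@[simp] theorem thetaL_zero : thetaL (0 : LaurentSeries R) = 0 := by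
  ext n; simp

theorem thetaL_add (f g : LaurentSeries R) : thetaL (f + g) = thetaL f + thetaL g := by
  ext n; simp [mul_add]

theorem thetaL_neg (f : LaurentSeries R) : thetaL (-f) = -thetaL f := by
  ext n; simp

theorem thetaL_sub (f g : LaurentSeries R) : thetaL (f - g) = thetaL f - thetaL g := by
  ext n; simp [mul_sub]

/-- `θ` as an additive map. -/
def thetaAdd : LaurentSeries R →+ LaurentSeries R where
  toFun := thetaL
  map_zero' := thetaL_zero
  map_add' := thetaL_add

@[simp] theorem thetaAdd_apply (f : LaurentSeries R) : thetaAdd f = thetaL f := rfl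

theorem thetaL_sum {ι : Type*} (s : Finset ι) (f : ι → LaurentSeries R) :
    thetaL (∑ i ∈ s, f i) = ∑ i ∈ s, thetaL (f i) :=
  map_sum (thetaAdd (R := R)) f s

/-- **Leibniz rule.** -/
theorem thetaL_mul (f g : LaurentSeries R) :
    thetaL (f * g) = thetaL f * g + f * thetaL g := by
  ext n
  rw [thetaL_coeff, HahnSeries.coeff_add, HahnSeries.coeff_mul,
    HahnSeries.coeff_mul_left' f.isPWO_support (support_thetaL_subset f),
    HahnSeries.coeff_mul_right' g.isPWO_support (support_thetaL_subset g),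
    Finset.mul_sum, ← Finset.sum_add_distrib]
  refine Finset.sum_congr rfl fun ij hij => ?_
  have h : ij.1 + ij.2 = n := (Finset.mem_addAntidiagonal.mp hij).2.2
  rw [thetaL_coeff, thetaL_coeff, ← h]
  push_cast
  ring

theorem thetaL_coeffMap (φ : R →+* S) (f : LaurentSeries R) :
    thetaL (coeffMap φ f) = coeffMap φ (thetaL f) := by
  ext n
  simp [map_mul]

theorem thetaL_single_zero (c : R) : thetaL (HahnSeries.single (0 : ℤ) c) = 0 := by
  ext n
  rcases eq_or_ne n 0 with rfl | hn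
  · simp
  · simp [HahnSeries.coeff_single_of_ne hn]

@[simp] theorem thetaL_one : thetaL (1 : LaurentSeries R) = 0 := by
  have h : (1 : LaurentSeries R) = HahnSeries.single (0 : ℤ) (1 : R) := rfl
  rw [h, thetaL_single_zero]

theorem thetaL_C (c : R) : thetaL (HahnSeries.C c : LaurentSeries R) = 0 :=
  thetaL_single_zero c

theorem thetaL_C_mul (c : R) (f : LaurentSeries R) :
    thetaL (HahnSeries.C c * f) = HahnSeries.C c * thetaL f := by
  rw [thetaL_mul, thetaL_C, zero_mul, zero_add]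

theorem thetaL_pow (f : LaurentSeries R) (n : ℕ) :
    thetaL (f ^ (n + 1)) = ((n + 1 : ℕ) : LaurentSeries R) * f ^ n * thetaL f := by
  induction n with
  | zero => simp
  | succ n ih =>
      rw [pow_succ, thetaL_mul, ih]
      push_cast
      ring

/-- in characteristic `p`, `θ` kills `p`-th powers -/
theorem thetaL_pow_char (p : ℕ) [hp : Fact p.Prime] [CharP R p] (f : LaurentSeries R) :
    thetaL (f ^ p) = 0 := by
  obtain ⟨m, rfl⟩ : ∃ m, p = m + 1 := ⟨p - 1, (Nat.succ_pred_eq_of_pos hp.out.pos).symm⟩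
  rw [thetaL_pow]
  have h0 : (((m + 1 : ℕ) : R)) = 0 := CharP.cast_eq_zero R (m + 1)
  have h1 : (((m + 1 : ℕ) : LaurentSeries R)) = HahnSeries.C (((m + 1 : ℕ) : R)) :=
    (map_natCast (HahnSeries.C : R →+* LaurentSeries R) (m + 1)).symm
  rw [h1, h0, map_zero, zero_mul, zero_mul]

section Field

variable {K : Type*} [Field K]

theorem thetaL_algebraMap (c : K) : thetaL (algebraMap K (LaurentSeries K) c) = 0 := by
  rw [algebraMap_laurentSeries_eq_single, thetaL_single_zero]

theorem thetaL_inv (f : LaurentSeries K) (hf : f ≠ 0) :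
    thetaL f⁻¹ = -(thetaL f) * (f⁻¹) ^ 2 := by
  have h := thetaL_mul f f⁻¹
  rw [mul_inv_cancel₀ hf, thetaL_one] at h
  have h2 : f * thetaL f⁻¹ = -(thetaL f * f⁻¹) := by
    rw [eq_neg_iff_add_eq_zero, add_comm]
    exact h.symm
  have h3 : thetaL f⁻¹ = f⁻¹ * (f * thetaL f⁻¹) := by
    rw [← mul_assoc, inv_mul_cancel₀ hf, one_mul]
  rw [h3, h2]
  ring

theorem thetaL_div (f g : LaurentSeries K) (hg : g ≠ 0) :
    thetaL (f / g) = (thetaL f * g - f * thetaL g) * (g⁻¹) ^ 2 := by
  rw [div_eq_mul_inv, thetaL_mul, thetaL_inv g hg]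
  field_simp
  ring

/-- in characteristic zero, `θ f = 0` only for constants -/
theorem eq_C_of_thetaL_eq_zero [CharZero K] {f : LaurentSeries K} (h : thetaL f = 0) :
    f = algebraMap K (LaurentSeries K) (f.coeff 0) := by
  rw [algebraMap_laurentSeries_eq_single]
  ext n
  rcases eq_or_ne n 0 with rfl | hn
  · simp
  · rw [HahnSeries.coeff_single_of_ne hn]
    have h1 : (thetaL f).coeff n = 0 := by rw [h]; rfl
    rw [thetaL_coeff] at h1
    rcases mul_eq_zero.mp h1 with h2 | h2
    · exact absurd (by exact_mod_cast h2) hn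
    · exact h2

end Field

end Fermat.Agent.Ribet.H940

end
end
-- ===== PACK-END Ribet/H940/Theta.lean

-- ===== PACK-BEGIN S37/Red/Spec.lean
section



/-!
# S37-RED — frozen interfaces (architect: helper40)            v1

Abstract construction of the **place reduction map** `r : Pl(F) → Pl(F_k)` of a function field
with a "Gauss-type" reduction datum and good charts, in the generality needed to produce the
hypothesis `ModularCurve.IsPlaceReductionAlong` of the Prelude (row S37; also level `M` of S18).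

Everything here is Mathlib + Prelude `AlgebraicCurve.Place` only.  Documentation, proofs on paper
and the split into pieces: `coord/S37-red.md` on `origin/helper40`.

Conventions: all statements are `def … : Prop` (no `sorry` in this file); a piece `X` is DONE
when `theorem x : XStatement …` is proved sorry-free in `Fermat/Agent/S37/Red/H<seat>/…`.
-/

set_option autoImplicit false

noncomputable section

namespace Fermat.Agent.S37.Red

open AlgebraicCurve IntermediateField

universe u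

/-! ## 1. The datum -/

/-- A **reduction datum**: constants `A ⊆ K`, `π : A ↠ k`; a valuation ring `O ⊆ F` containing
`A` with a surjective ring hom `ρ : O ↠ F_k` extending `π`; a coordinate `x ∈ O` whose reduction
is transcendental over `k`.  (For modular function fields: `O` = valuation ring of the Gauss
valuation of `q`-expansion coefficients, `ρ` = coefficientwise reduction, `x = j` or a
Hauptmodul.) -/
structure Datum {K k : Type u} [Field K] [Field k] (A : ValuationSubring K) (π : A →+* k)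
    (F Fk : Type u) [Field F] [Field Fk] [Algebra K F] [Algebra k Fk] where
  π_surj : Function.Surjective π
  /-- the (Gauss) valuation ring of the function field -/
  O : ValuationSubring F
  /-- reduction of functions -/
  ρ : O →+* Fk
  ρ_surj : Function.Surjective ρ
  const_mem : ∀ a : A, algebraMap K F (a : K) ∈ O
  ρ_const : ∀ a : A, ρ ⟨algebraMap K F (a : K), const_mem a⟩ = algebraMap k Fk (π a)
  /-- the coordinate -/
  x : F
  x_mem : x ∈ O
  xk_transc : Transcendental k (ρ ⟨x, x_mem⟩)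

namespace Datum

variable {K k F Fk : Type u} [Field K] [Field k] [Field F] [Field Fk]
  [Algebra K F] [Algebra k Fk] {A : ValuationSubring K} {π : A →+* k} (G : Datum A π F Fk)

/-- the reduced coordinate `x̄ ∈ F_k` -/
def xk : Fk := G.ρ ⟨G.x, G.x_mem⟩

/-- total reduction `F → F_k` (junk value `0` outside `O`) -/
def red (f : F) : Fk := open Classical in if h : f ∈ G.O then G.ρ ⟨f, h⟩ else 0

/-- the image of `A` in `F` -/
def constRing (_G : Datum A π F Fk) : Subring F := A.toSubring.map (algebraMap K F)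

/-- `A[t] ⊆ F` -/
def polyRing (t : F) : Subring F := G.constRing ⊔ Subring.closure {t}

/-- `B_t` := integral closure of `A[t]` in `F`.  `B_fin = G.chart G.x`, `B_inf = G.chart G.x⁻¹`. -/
def chart (t : F) : Subring F := (integralClosure (G.polyRing t) F).toSubring

/-- `C_s` := integral closure of `k[s]` in `F_k`.  `C_fin = chartk G.xk`, `C_inf = chartk G.xk⁻¹`. -/
def chartk (_G : Datum A π F Fk) (s : Fk) : Subring Fk :=
  (integralClosure (Algebra.adjoin k {s}) Fk).toSubring

/-- `K·B_t` := integral closure of `K[t]` in `F`. -/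
def chartK (_G : Datum A π F Fk) (t : F) : Subring F :=
  (integralClosure (Algebra.adjoin K {t}) F).toSubring

/-- **Good charts** = the hypotheses (H1), (H3), (H4') of `coord/S37-red.md`. -/
structure Good : Prop where
  /-- (H1) `F / K(x)` is finite -/
  finite : FiniteDimensional K⟮G.x⟯ F
  /-- (H1) `F_k / k(x̄)` is finite … -/
  finite_k : FiniteDimensional k⟮G.xk⟯ Fk
  /-- (H1) … and separable … -/
  sep_k : Algebra.IsSeparable k⟮G.xk⟯ Fk
  /-- (H1) … of the same degree. -/
  finrank_eq : Module.finrank K⟮G.x⟯ F = Module.finrank k⟮G.xk⟯ Fk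
  /-- (H3) normality of the special fibre, finite chart: every element of `F_k` integral over
  `k[x̄]` is the reduction of an element of `O` integral over `A[x]`. -/
  lift_fin : ∀ c ∈ G.chartk G.xk, ∃ b ∈ G.chart G.x, ∃ hb : b ∈ G.O, G.ρ ⟨b, hb⟩ = c
  /-- (H3) the same at infinity. -/
  lift_inf : ∀ c ∈ G.chartk G.xk⁻¹, ∃ b ∈ G.chart G.x⁻¹, ∃ hb : b ∈ G.O, G.ρ ⟨b, hb⟩ = c
  /-- (H4') saturation, finite chart: `O ∩ K·B_fin = B_fin`. -/
  sat_fin : ∀ f ∈ G.O, f ∈ G.chartK G.x → f ∈ G.chart G.x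
  /-- (H4') the same at infinity. -/
  sat_inf : ∀ f ∈ G.O, f ∈ G.chartK G.x⁻¹ → f ∈ G.chart G.x⁻¹

end Datum

/-! ## 2. Values at places, the properties of `r` -/

section Props

variable {K k F Fk : Type u} [Field K] [Field k] [Field F] [Field Fk]
  [Algebra K F] [Algebra k Fk]

/-- `f(P) = a`: the function `f` is regular at `P` with value `a`.
(Not `0 < P.ord (f - a)`: the Prelude has `ord 0 = 0`.) -/
def ValAt (P : Place K F) (f : F) (a : K) : Prop :=
  P.toValuationSubring.valuation (f - algebraMap K F a) < 1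

variable {A : ValuationSubring K} {π : A →+* k} (G : Datum A π F Fk)
  (r : Place K F → Place k Fk)

/-- (i) + (ii) of the Prelude `IsPlaceReductionAlong`, in abstract form:
`r` preserves degrees and `r_*(div y) = div (ρ y)` for every unit `y` of `O`. -/
def IsRed : Prop :=
  (∀ P, (r P).deg = P.deg) ∧
    ∀ (y : F) (hy : y ∈ G.O), G.ρ ⟨y, hy⟩ ≠ 0 →
      ∀ D : Divisor K F, (∀ P, D P = P.ord y) →
        ∀ Q, Finsupp.mapDomain r D Q = Q.ord (G.ρ ⟨y, hy⟩)

/-- **Evaluation compatibility** on the chart of `t` (`t = x` or `t = x⁻¹`): if `t(P) ∈ A`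
then for all `b ∈ B_t`: `b(P) = a ∈ A` implies `(ρ b)(r P) = π a`. -/
def EvalCompatAt (t : F) : Prop :=
  ∀ (P : Place K F) (a₀ : A), ValAt P t a₀ →
    ∀ b ∈ G.chart t, ∀ (hb : b ∈ G.O) (a : A), ValAt P b a →
      ValAt (r P) (G.ρ ⟨b, hb⟩) (π a)

/-- (EC) evaluation compatibility on both charts. -/
def EvalCompat : Prop := EvalCompatAt G r G.x ∧ EvalCompatAt G r G.x⁻¹

/-- **RED-C1**: (EC) determines `r` (constants algebraically closed). -/
def EvalCompatUniqueStatement [IsAlgClosed K] [CharZero K] [IsAlgClosed k] : Prop :=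
  G.Good → ∀ r₁ r₂ : Place K F → Place k Fk, EvalCompat G r₁ → EvalCompat G r₂ → r₁ = r₂

end Props

/-! ## 3. MAIN THEOREM of S37-RED (abstract form) -/

/-- **RED-MAIN**: over algebraically closed constants (`K` of characteristic `0`), a datum with
good charts has a place reduction map with (i), (ii) and (EC). -/
def MainStatement : Prop :=
  ∀ (K k F Fk : Type u) [Field K] [Field k] [Field F] [Field Fk] [Algebra K F] [Algebra k Fk]
    [IsAlgClosed K] [CharZero K] [IsAlgClosed k] (A : ValuationSubring K) (π : A →+* k)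
    (G : Datum A π F Fk), G.Good →
    ∃ r : Place K F → Place k Fk, IsRed G r ∧ EvalCompat G r

/-! ## 4. The pieces -/

section Pieces

variable {K k F Fk : Type u} [Field K] [Field k] [Field F] [Field Fk]
  [Algebra K F] [Algebra k Fk] [IsAlgClosed K] [CharZero K] [IsAlgClosed k]
  {A : ValuationSubring K} {π : A →+* k} (G : Datum A π F Fk)

/-- Hypothesis on an auxiliary coordinate `t ∈ O`: reduction transcendental, both extensions
finite of the same degree, the one in characteristic `ℓ` separable. -/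
structure Datum.AuxCoord (t : F) : Prop where
  mem : t ∈ G.O
  transc : Transcendental k (G.red t)
  finite : FiniteDimensional K⟮t⟯ F
  finite_k : FiniteDimensional k⟮G.red t⟯ Fk
  sep_k : Algebra.IsSeparable k⟮G.red t⟯ Fk
  finrank_eq : Module.finrank K⟮t⟯ F = Module.finrank k⟮G.red t⟯ Fk

/-- **RED-A1 (norms commute with reduction)**.  For an auxiliary coordinate `t` and `y ∈ O`:
`N_{F/K(t)}(y) ∈ O` and `ρ (N_{F/K(t)} y) = N_{F_k/k(t̄)} (ρ y)`.
(Gauss: lifts of a `k(t̄)`-basis of `F_k` form a basis of `O` over `O ∩ K(t)`.) -/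
def NormRedStatement : Prop :=
  ∀ t : F, G.AuxCoord t → ∀ y ∈ G.O,
    ((Algebra.norm K⟮t⟯ y : K⟮t⟯) : F) ∈ G.O ∧
      G.red ((Algebra.norm K⟮t⟯ y : K⟮t⟯) : F) =
        ((Algebra.norm k⟮G.red t⟯ (G.red y) : k⟮G.red t⟯) : Fk)

/-- **RED-A (fibre sums)**.  For an auxiliary coordinate `t`, a unit `y` of `O` and `c ∈ A`:
the number of zeros (minus poles) of `ȳ` on the fibre `t̄ = c̄` equals the number of zeros (minus
poles) of `y` on the residue disc `t ≡ c mod 𝔪_A`.  The sums are over arbitrary finite sets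
containing the relevant part of the support. -/
def FibreSumStatement : Prop :=
  ∀ t : F, G.AuxCoord t → ∀ (y : F) (hy : y ∈ G.O), G.ρ ⟨y, hy⟩ ≠ 0 → ∀ c : A,
    ∀ (S : Finset (Place K F)) (T : Finset (Place k Fk)),
      (∀ P : Place K F, P.ord y ≠ 0 → (∃ a : A, π a = π c ∧ ValAt P t a) → P ∈ S) →
      (∀ P ∈ S, ∃ a : A, π a = π c ∧ ValAt P t a) →
      (∀ Q : Place k Fk, Q.ord (G.ρ ⟨y, hy⟩) ≠ 0 → ValAt Q (G.red t) (π c) → Q ∈ T) →
      (∀ Q ∈ T, ValAt Q (G.red t) (π c)) →
      ∑ Q ∈ T, Q.ord (G.ρ ⟨y, hy⟩) = ∑ P ∈ S, P.ord y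

/-- `t` is **monic-like of degree `M`** w.r.t. `x`: `t ∈ B_fin` and `t / x^M ∈ 1 + x⁻¹ B_inf`. -/
def Datum.MonicLike (t : F) (M : ℕ) : Prop :=
  t ∈ G.chart G.x ∧ ∃ β ∈ G.chart G.x⁻¹, t = G.x ^ M * (1 + G.x⁻¹ * β)

/-- **RED-B (degrees)**.  A monic-like `t` of degree `M ≥ 1` whose reduction is a separating
element is an auxiliary coordinate: `[F : K(t)] = M n = [F_k : k(t̄)]`; moreover `t(P) ∈ A`
forces `x(P) ∈ A`. -/
def DegEqStatement : Prop :=
  G.Good → ∀ (t : F) (M : ℕ), 0 < M → G.MonicLike t M →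
    Algebra.IsSeparable k⟮G.red t⟯ Fk →
    G.AuxCoord t ∧ Module.finrank K⟮t⟯ F = M * Module.finrank K⟮G.x⟯ F ∧
      ∀ (P : Place K F) (a : A), ValAt P t a → ∃ a₀ : A, ValAt P G.x a₀

/-- **RED-D1 (separating coordinates)**.  Given a place `Q₁` of `F_k` in the finite chart and a
finite set `T` of places of the finite chart not containing `Q₁`, there is a monic-like `t`
with separating reduction such that `t̄(Q₁) = 0` and `t̄(Q) ≠ 0` for `Q ∈ T`.
(`t = x + (p(x) + h)^ℓ`, `ℓ = char k`, CRT in `C_fin` + (H3).) -/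
def SepStatement : Prop :=
  G.Good → ∀ (Q₁ : Place k Fk) (T : Finset (Place k Fk)), G.xk ∈ Q₁.toValuationSubring →
    (∀ Q ∈ T, G.xk ∈ Q.toValuationSubring) → Q₁ ∉ T →
    ∃ (t : F) (M : ℕ), 0 < M ∧ G.MonicLike t M ∧ Algebra.IsSeparable k⟮G.red t⟯ Fk ∧
      ValAt Q₁ (G.red t) 0 ∧ ∀ Q ∈ T, ¬ ValAt Q (G.red t) 0

/-- **RED-C0 (every chart function has a value in `A`)**: if `t(P) ∈ A` then every `b ∈ B_t`
is regular at `P` with value in `A`. -/
def ChartValueStatement : Prop :=
  ∀ (t : F) (P : Place K F) (a₀ : A), ValAt P t a₀ → ∀ b ∈ G.chart t, ∃ a : A, ValAt P b a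

/-- **RED-C (construction of `r`)**: existence of a map with (i) and (EC). -/
def ExistsEvalCompatStatement : Prop :=
  G.Good → ∃ r : Place K F → Place k Fk, (∀ P, (r P).deg = P.deg) ∧ EvalCompat G r

/-- **RED-D (the count)**: (EC) implies (ii). -/
def RedOfEvalCompatStatement : Prop :=
  G.Good → ∀ r : Place K F → Place k Fk, (∀ P, (r P).deg = P.deg) → EvalCompat G r → IsRed G r

/-- **RED-F (Galois compatibility, abstract)**: a semilinear automorphism `g` of `F/K` which
preserves `A` and `O`, fixes `x` and induces `gk` on `F_k/k` commutes with `r`. -/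
def GaloisCompatStatement : Prop :=
  G.Good → ∀ r : Place K F → Place k Fk, EvalCompat G r →
    ∀ (g : SemilinearAut K F) (gk : SemilinearAut k Fk),
      (∀ a : K, a ∈ A → SemilinearAut.baseAut g a ∈ A) →
      (∀ f : F, f ∈ G.O → g • f ∈ G.O) →
      (∀ (f : F) (hf : f ∈ G.O) (hgf : g • f ∈ G.O), G.ρ ⟨g • f, hgf⟩ = gk • G.ρ ⟨f, hf⟩) →
      g • G.x = G.x →
      ∀ P : Place K F, r (g • P) = gk • r P

end Pieces

end Fermat.Agent.S37.Red

end
end
-- ===== PACK-END S37/Red/Spec.lean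

-- ===== PACK-BEGIN S37/H217/Lattice.lean
section


/-!
# Block ALG, lemmas L1 and L3 (lifted residue bases over valuation rings)

Abstract setting (Mathlib only).  `L/L₀` a finite field extension, `V₀ ⊆ L₀` and `V ⊆ L` valuation
subrings with `V ∩ L₀ = V₀` (`ValExtends`).  A family `e : ι → L` of elements of `V` is
*residually independent* (`ResidIndep`) if a `V₀`-combination of the `e i` lying in the maximal
ideal of `V` has all its coefficients in the maximal ideal of `V₀` (i.e. the residues of the `e i`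
are linearly independent over the residue field of `V₀`).

If `#ι = [L : L₀]` then (this is the "defectless, `e = 1`, `f = n`" case):

* `L1` (`linearIndependent_of_residIndep`, `repr_mem_of_mem`, `repr_mem_nonunits_of_mem`):
  `e` is an `L₀`-basis of `L`, and `V = ⊕ V₀ e i`, `𝔪_V = ⊕ 𝔪_{V₀} e i`;
* `L3` (`exists_matrix_leftMul`, `norm_mem_and_map_norm`, `charpoly_mem_and_map_charpoly`):
  for `y ∈ V` the matrix of multiplication by `y` has entries in `V₀`, and for any compatible pair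
  of ring homs `ρ₀ : V₀ → R₁`, `ρ : V → S₁` (`S₁` free over `R₁` on the images of the `e i`) norm,
  trace and characteristic polynomial commute with `ρ`.
-/

namespace Fermat.Agent.S37.H217

open scoped BigOperators

section Lattice

variable {L₀ L : Type*} [Field L₀] [Field L] [Algebra L₀ L]

/-- `V` lies over `V₀`, i.e. `V ∩ L₀ = V₀`. -/
def ValExtends (V₀ : ValuationSubring L₀) (V : ValuationSubring L) : Prop :=
  ∀ a : L₀, algebraMap L₀ L a ∈ V ↔ a ∈ V₀

/-- Residual independence of a family `e` (see the module docstring). -/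
def ResidIndep (V₀ : ValuationSubring L₀) (V : ValuationSubring L) {ι : Type*} [Fintype ι]
    (e : ι → L) : Prop :=
  ∀ c : ι → L₀, (∀ i, c i ∈ V₀) → (∑ i, c i • e i) ∈ V.nonunits → ∀ i, c i ∈ V₀.nonunits

variable {V₀ : ValuationSubring L₀} {V : ValuationSubring L}

theorem ValExtends.mem_nonunits_iff (h : ValExtends V₀ V) (a : L₀) :
    algebraMap L₀ L a ∈ V.nonunits ↔ a ∈ V₀.nonunits := by
  rw [ValuationSubring.mem_nonunits_iff_or, ValuationSubring.mem_nonunits_iff_or, ← map_inv₀,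
    h a⁻¹, map_eq_zero]

/-- Scaling: a nonzero finite family in `L₀` can be divided by one of its members so that all
members land in `V₀`. -/
theorem exists_scale {ι : Type*} [Fintype ι] (V₀ : ValuationSubring L₀) (c : ι → L₀)
    (hc : c ≠ 0) : ∃ m, c m ≠ 0 ∧ ∀ i, c i / c m ∈ V₀ := by
  classical
  obtain ⟨i₀, hi₀⟩ : ∃ i₀, c i₀ ≠ 0 := by
    by_contra h
    exact hc (funext fun i => not_not.mp fun hi => h ⟨i, hi⟩)
  obtain ⟨m, -, hm⟩ := Finset.exists_max_image Finset.univ (fun i => V₀.valuation (c i))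
    ⟨i₀, Finset.mem_univ _⟩
  have hm0 : c m ≠ 0 := by
    intro h0
    have h1 := hm i₀ (Finset.mem_univ _)
    rw [h0, map_zero] at h1
    exact hi₀ ((map_eq_zero _).mp (le_antisymm h1 zero_le))
  refine ⟨m, hm0, fun i => ?_⟩
  rw [← ValuationSubring.valuation_le_one_iff, map_div₀]
  have hv : V₀.valuation (c m) ≠ 0 := (map_ne_zero _).mpr hm0
  exact (div_le_one₀ (zero_lt_iff.mpr hv)).mpr (hm i (Finset.mem_univ _))

theorem smul_sum_div {ι : Type*} [Fintype ι] (c : ι → L₀) (e : ι → L) (m : ι) :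
    ∑ i, (c i / c m) • e i = algebraMap L₀ L (c m)⁻¹ * ∑ i, c i • e i := by
  rw [Finset.mul_sum]
  refine Finset.sum_congr rfl fun i _ => ?_
  rw [Algebra.smul_def, Algebra.smul_def, ← mul_assoc, ← map_mul, div_eq_inv_mul]

/-- `L1`, key step: a combination of the `e i` lying in `V` has coefficients in `V₀`. -/
theorem coeff_mem_of_sum_mem {ι : Type*} [Fintype ι] (h : ValExtends V₀ V) {e : ι → L}
    (hR : ResidIndep V₀ V e) (c : ι → L₀) (hc : (∑ i, c i • e i) ∈ V) : ∀ i, c i ∈ V₀ := by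
  by_contra hne
  obtain ⟨i₀, hi₀⟩ := not_forall.mp hne
  have hc0 : c ≠ 0 := by
    intro h0
    apply hi₀
    rw [h0]
    exact V₀.zero_mem
  obtain ⟨m, hm0, hm⟩ := exists_scale V₀ c hc0
  have hmV : c m ∉ V₀ := by
    intro hmem
    apply hi₀
    have : c i₀ = c i₀ / c m * c m := by field_simp
    rw [this]
    exact V₀.mul_mem _ _ (hm i₀) hmem
  have hinv : (c m)⁻¹ ∈ V₀.nonunits :=
    (ValuationSubring.inv_mem_nonunits_iff V₀).mpr (Or.inr hmV)
  have hsum : (∑ i, (c i / c m) • e i) ∈ V.nonunits := by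
    rw [smul_sum_div]
    have h1 : algebraMap L₀ L (c m)⁻¹ ∈ V.nonunits := (h.mem_nonunits_iff _).mpr hinv
    rw [ValuationSubring.mem_nonunits_iff] at h1 ⊢
    rw [map_mul]
    exact mul_lt_one_of_nonneg_of_lt_one_left zero_le h1
      ((ValuationSubring.valuation_le_one_iff V _).mpr hc)
  have := hR _ hm hsum m
  rw [div_self hm0] at this
  rw [ValuationSubring.mem_nonunits_iff, map_one] at this
  exact lt_irrefl _ this

/-- `L1`: a residually independent family is linearly independent. -/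
theorem eq_zero_of_sum_eq_zero {ι : Type*} [Fintype ι] {e : ι → L}
    (hR : ResidIndep V₀ V e) (c : ι → L₀) (hc : (∑ i, c i • e i) = 0) : ∀ i, c i = 0 := by
  by_contra hne
  have hc0 : c ≠ 0 := by
    intro h0
    apply hne
    intro i
    rw [h0]
    rfl
  obtain ⟨m, hm0, hm⟩ := exists_scale V₀ c hc0
  have hsum : (∑ i, (c i / c m) • e i) ∈ V.nonunits := by
    rw [smul_sum_div, hc, mul_zero]
    exact V.nonunits.zero_mem
  have := hR _ hm hsum m
  rw [div_self hm0] at this
  rw [ValuationSubring.mem_nonunits_iff, map_one] at this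
  exact lt_irrefl _ this

theorem linearIndependent_of_residIndep {ι : Type*} [Fintype ι]
    {e : ι → L} (hR : ResidIndep V₀ V e) : LinearIndependent L₀ e :=
  Fintype.linearIndependent_iff.mpr fun c hc => eq_zero_of_sum_eq_zero hR c hc

/-- `L1`: a residually independent family of cardinality `[L : L₀]` is a basis. -/
theorem exists_basis_of_residIndep {ι : Type*} [Fintype ι] [Nonempty ι]
    {e : ι → L} (hR : ResidIndep V₀ V e) (hcard : Fintype.card ι = Module.finrank L₀ L) :
    ∃ b : Module.Basis ι L₀ L, ⇑b = e :=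
  ⟨basisOfLinearIndependentOfCardEqFinrank (linearIndependent_of_residIndep hR) hcard,
    coe_basisOfLinearIndependentOfCardEqFinrank _ _⟩

section Basis

variable {ι : Type*} [Fintype ι]

/-- `L1`: coordinates of elements of `V` in a residually independent basis lie in `V₀`. -/
theorem repr_mem_of_mem (h : ValExtends V₀ V) (b : Module.Basis ι L₀ L)
    (hR : ResidIndep V₀ V b) {y : L} (hy : y ∈ V) (i : ι) : b.repr y i ∈ V₀ :=
  coeff_mem_of_sum_mem h hR (fun i => b.repr y i) (by rw [b.sum_repr]; exact hy) i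

/-- `L1`: coordinates of elements of `𝔪_V` in a residually independent basis lie in `𝔪_{V₀}`. -/
theorem repr_mem_nonunits_of_mem (h : ValExtends V₀ V) (b : Module.Basis ι L₀ L)
    (hR : ResidIndep V₀ V b) {y : L} (hy : y ∈ V.nonunits) (i : ι) :
    b.repr y i ∈ V₀.nonunits :=
  hR (fun i => b.repr y i) (fun i => repr_mem_of_mem h b hR (V.nonunits_subset hy) i)
    (by rw [b.sum_repr]; exact hy) i

variable [DecidableEq ι]

/-- The matrix (with entries in `V₀`) of multiplication by `y ∈ V` in a residually independent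
basis consisting of elements of `V`. -/
noncomputable def intMatrix (h : ValExtends V₀ V) (b : Module.Basis ι L₀ L)
    (hR : ResidIndep V₀ V b) (hb : ∀ i, b i ∈ V) (y : V) : Matrix ι ι V₀ :=
  fun i j => ⟨b.repr ((y : L) * b j) i, repr_mem_of_mem h b hR (V.mul_mem _ _ y.2 (hb j)) i⟩

theorem intMatrix_map (h : ValExtends V₀ V) (b : Module.Basis ι L₀ L)
    (hR : ResidIndep V₀ V b) (hb : ∀ i, b i ∈ V) (y : V) :
    (intMatrix h b hR hb y).map (algebraMap V₀ L₀) = Algebra.leftMulMatrix b (y : L) := by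
  ext i j
  rw [Algebra.leftMulMatrix_eq_repr_mul]
  rfl

/-- `L3`: the norm of `y ∈ V` is the determinant of the integral matrix; in particular it lies
in `V₀`. -/
theorem norm_eq_det_intMatrix (h : ValExtends V₀ V) (b : Module.Basis ι L₀ L)
    (hR : ResidIndep V₀ V b) (hb : ∀ i, b i ∈ V) (y : V) :
    Algebra.norm L₀ (y : L) = ((intMatrix h b hR hb y).det : L₀) := by
  rw [Algebra.norm_eq_matrix_det b, ← intMatrix_map h b hR hb y]
  exact (RingHom.map_det (algebraMap V₀ L₀) _).symm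

theorem trace_eq_trace_intMatrix (h : ValExtends V₀ V) (b : Module.Basis ι L₀ L)
    (hR : ResidIndep V₀ V b) (hb : ∀ i, b i ∈ V) (y : V) :
    Algebra.trace L₀ L (y : L) = ((intMatrix h b hR hb y).trace : L₀) := by
  rw [Algebra.trace_eq_matrix_trace b, ← intMatrix_map h b hR hb y]
  exact (AddMonoidHom.map_trace (algebraMap V₀ L₀) _).symm

theorem charpoly_eq_map_charpoly_intMatrix [FiniteDimensional L₀ L] (h : ValExtends V₀ V)
    (b : Module.Basis ι L₀ L) (hR : ResidIndep V₀ V b) (hb : ∀ i, b i ∈ V) (y : V) :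
    (Algebra.lmul L₀ L (y : L)).charpoly =
      (intMatrix h b hR hb y).charpoly.map (algebraMap V₀ L₀) := by
  rw [← Matrix.charpoly_map, intMatrix_map, Algebra.leftMulMatrix_apply,
    LinearMap.charpoly_toMatrix]

theorem norm_mem (h : ValExtends V₀ V) (b : Module.Basis ι L₀ L)
    (hR : ResidIndep V₀ V b) (hb : ∀ i, b i ∈ V) {y : L} (hy : y ∈ V) :
    Algebra.norm L₀ y ∈ V₀ := by
  have := norm_eq_det_intMatrix h b hR hb ⟨y, hy⟩
  rw [this]
  exact Subtype.property _

section Reduction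

variable {R₁ S₁ : Type*} [CommRing R₁] [CommRing S₁] [Algebra R₁ S₁]

/-- `L3`: compatibility of the multiplication matrices with a reduction map. -/
theorem leftMulMatrix_map_eq (h : ValExtends V₀ V) (b : Module.Basis ι L₀ L)
    (hR : ResidIndep V₀ V b) (hb : ∀ i, b i ∈ V) (ρ₀ : V₀ →+* R₁) (ρ : V →+* S₁)
    (hρ : ∀ a : V₀, ρ ⟨algebraMap L₀ L a, (h a).mpr a.2⟩ = algebraMap R₁ S₁ (ρ₀ a))
    (b₁ : Module.Basis ι R₁ S₁) (hb₁ : ∀ i, ρ ⟨b i, hb i⟩ = b₁ i) (y : V) :
    Algebra.leftMulMatrix b₁ (ρ y) = (intMatrix h b hR hb y).map ρ₀ := by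
  have key : ∀ j, ρ y * b₁ j = ∑ i, ρ₀ (intMatrix h b hR hb y i j) • b₁ i := by
    intro j
    have h1 : y * ⟨b j, hb j⟩ =
        ∑ i, (⟨algebraMap L₀ L (intMatrix h b hR hb y i j), (h _).mpr (Subtype.property _)⟩ : V) *
          ⟨b i, hb i⟩ := by
      apply Subtype.ext
      have h2 : ((∑ i, (⟨algebraMap L₀ L (intMatrix h b hR hb y i j),
          (h _).mpr (Subtype.property _)⟩ : V) * ⟨b i, hb i⟩ : V) : L) =
          ∑ i, algebraMap L₀ L (intMatrix h b hR hb y i j) * b i := by
        rw [← ValuationSubring.subtype_apply, map_sum]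
        rfl
      rw [h2]
      have h3 := b.sum_repr ((y : L) * b j)
      simp only [Algebra.smul_def] at h3
      exact h3.symm
    rw [← hb₁ j, ← map_mul, h1, map_sum]
    refine Finset.sum_congr rfl fun i _ => ?_
    rw [map_mul, hρ, hb₁, Algebra.smul_def]
  ext i j
  rw [Algebra.leftMulMatrix_eq_repr_mul, key j, b₁.repr_sum_self]
  rfl

/-- `L3`: **norm commutes with reduction**. -/
theorem map_norm_eq_norm_map (h : ValExtends V₀ V) (b : Module.Basis ι L₀ L)
    (hR : ResidIndep V₀ V b) (hb : ∀ i, b i ∈ V) (ρ₀ : V₀ →+* R₁) (ρ : V →+* S₁)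
    (hρ : ∀ a : V₀, ρ ⟨algebraMap L₀ L a, (h a).mpr a.2⟩ = algebraMap R₁ S₁ (ρ₀ a))
    (b₁ : Module.Basis ι R₁ S₁) (hb₁ : ∀ i, ρ ⟨b i, hb i⟩ = b₁ i) (y : V) :
    ρ₀ ⟨Algebra.norm L₀ (y : L), norm_mem h b hR hb y.2⟩ = Algebra.norm R₁ (ρ y) := by
  rw [Algebra.norm_eq_matrix_det b₁, leftMulMatrix_map_eq h b hR hb ρ₀ ρ hρ b₁ hb₁ y]
  have : (⟨Algebra.norm L₀ (y : L), norm_mem h b hR hb y.2⟩ : V₀) =
      (intMatrix h b hR hb y).det := Subtype.ext (norm_eq_det_intMatrix h b hR hb y)
  rw [this]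
  exact RingHom.map_det ρ₀ _

/-- `L3`: trace commutes with reduction. -/
theorem map_trace_intMatrix_eq_trace_map (h : ValExtends V₀ V) (b : Module.Basis ι L₀ L)
    (hR : ResidIndep V₀ V b) (hb : ∀ i, b i ∈ V) (ρ₀ : V₀ →+* R₁) (ρ : V →+* S₁)
    (hρ : ∀ a : V₀, ρ ⟨algebraMap L₀ L a, (h a).mpr a.2⟩ = algebraMap R₁ S₁ (ρ₀ a))
    (b₁ : Module.Basis ι R₁ S₁) (hb₁ : ∀ i, ρ ⟨b i, hb i⟩ = b₁ i) (y : V) :
    ρ₀ (intMatrix h b hR hb y).trace = Algebra.trace R₁ S₁ (ρ y) := by
  rw [Algebra.trace_eq_matrix_trace b₁, leftMulMatrix_map_eq h b hR hb ρ₀ ρ hρ b₁ hb₁ y]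
  exact AddMonoidHom.map_trace ρ₀ _

/-- `L3`: characteristic polynomial commutes with reduction. -/
theorem map_charpoly_intMatrix_eq_charpoly_map (h : ValExtends V₀ V) (b : Module.Basis ι L₀ L)
    (hR : ResidIndep V₀ V b) (hb : ∀ i, b i ∈ V) (ρ₀ : V₀ →+* R₁) (ρ : V →+* S₁)
    (hρ : ∀ a : V₀, ρ ⟨algebraMap L₀ L a, (h a).mpr a.2⟩ = algebraMap R₁ S₁ (ρ₀ a))
    (b₁ : Module.Basis ι R₁ S₁) (hb₁ : ∀ i, ρ ⟨b i, hb i⟩ = b₁ i) (y : V) :
    (intMatrix h b hR hb y).charpoly.map ρ₀ =
      (Algebra.leftMulMatrix b₁ (ρ y)).charpoly := by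
  rw [leftMulMatrix_map_eq h b hR hb ρ₀ ρ hρ b₁ hb₁ y, Matrix.charpoly_map]

end Reduction

end Basis

end Lattice

end Fermat.Agent.S37.H217

end
-- ===== PACK-END S37/H217/Lattice.lean

-- ===== PACK-BEGIN S37/Red/H759/Directed.lean
section
/-
S37-RED, piece E4(c) "passage R_E → A", generic part (helper759).  Mathlib-only.

Closure operators commute with DIRECTED unions.  `Ω` a field, `κ : ι → Set Ω` a directed family
of sets (in the application: the images of the residue fields `κ_E` of the number fields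
`E ⊆ Q̄`, or of the rings `A ∩ E`), `k0 ⊆ ⋃ κ i`, `S` a set of generators.

* `exists_mem_subring_closure`  : `c ∈ Subring.closure (k0 ∪ S)`  ⟹ `∃ i, c ∈ Subring.closure (κ i ∪ S)`
* `exists_mem_subfield_closure` : `c ∈ Subfield.closure (k0 ∪ S)` ⟹ `∃ i, c ∈ Subfield.closure (κ i ∪ S)`
* `exists_isIntegral`           : `c` integral over `Subring.closure (k0 ∪ S)` ⟹
                                  `∃ i, c` integral over `Subring.closure (κ i ∪ S)`
* `exists_level`                : all three at once, for a common index `i`, which can moreover be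
                                  chosen above any given index.
* `isIntegral_subring_iff`      : normal form of integrality over a subring of `Ω`
                                  (monic polynomial over `Ω` with coefficients in the subring).
-/


set_option autoImplicit false

namespace Fermat.Agent.S37.Red.H759

open Polynomial

section NormalForm

variable {Ω : Type*} [CommRing Ω]

/-- Integrality over a subring `B ⊆ Ω`: normal form with a polynomial over `Ω`. -/
theorem isIntegral_subring_iff (B : Subring Ω) (c : Ω) :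
    IsIntegral B c ↔
      ∃ P : Polynomial Ω, P.Monic ∧ (∀ i, P.coeff i ∈ B) ∧ P.eval c = 0 := by
  constructor
  · rintro ⟨p, hp, hpc⟩
    refine ⟨p.map B.subtype, hp.map _, fun i => ?_, ?_⟩
    · rw [coeff_map]; exact (p.coeff i).2
    · rw [eval_map]; exact hpc
  · rintro ⟨P, hP, hcoeff, hPc⟩
    have hlift : P ∈ Polynomial.lifts B.subtype := by
      rw [Polynomial.lifts_iff_coeff_lifts]
      intro n
      exact ⟨⟨P.coeff n, hcoeff n⟩, rfl⟩
    obtain ⟨q, hq, -, hqm⟩ := Polynomial.lifts_and_natDegree_eq_and_monic hlift hP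
    refine ⟨q, hqm, ?_⟩
    have : eval₂ (algebraMap B Ω) c q = (q.map B.subtype).eval c := by
      rw [eval_map]; rfl
    rw [this, hq, hPc]

/-- Integrality is monotone in the subring. -/
theorem isIntegral_subring_mono {B C : Subring Ω} (h : B ≤ C) {c : Ω} (hc : IsIntegral B c) :
    IsIntegral C c := by
  rw [isIntegral_subring_iff] at hc ⊢
  obtain ⟨P, hP, hcoeff, hPc⟩ := hc
  exact ⟨P, hP, fun i => h (hcoeff i), hPc⟩

/-- Integrality over a subalgebra is integrality over the underlying subring. -/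
theorem isIntegral_subalgebra_iff {k : Type*} [CommRing k] [Algebra k Ω] (B : Subalgebra k Ω)
    (c : Ω) : IsIntegral B c ↔ IsIntegral B.toSubring c := by
  constructor
  · rintro ⟨p, hp, hpc⟩
    exact ⟨p, hp, hpc⟩
  · rintro ⟨p, hp, hpc⟩
    exact ⟨p, hp, hpc⟩

end NormalForm

section Directed

variable {Ω : Type*} [Field Ω] {ι : Type*} [Nonempty ι] (κ : ι → Set Ω)

omit [Nonempty ι] in
theorem directed_subring_closure (hdir : Directed (· ⊆ ·) κ) (S : Set Ω) :
    Directed (· ≤ ·) fun i => Subring.closure (κ i ∪ S) := by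
  intro i j
  obtain ⟨l, hil, hjl⟩ := hdir i j
  exact ⟨l, Subring.closure_mono (Set.union_subset_union_left S hil),
    Subring.closure_mono (Set.union_subset_union_left S hjl)⟩

omit [Nonempty ι] in
theorem directed_subfield_closure (hdir : Directed (· ⊆ ·) κ) (S : Set Ω) :
    Directed (· ≤ ·) fun i => Subfield.closure (κ i ∪ S) := by
  intro i j
  obtain ⟨l, hil, hjl⟩ := hdir i j
  exact ⟨l, Subfield.closure_mono (Set.union_subset_union_left S hil),
    Subfield.closure_mono (Set.union_subset_union_left S hjl)⟩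

/-- Elements of the subring generated by `k0 ∪ S` are defined at a finite level. -/
theorem exists_mem_subring_closure (hdir : Directed (· ⊆ ·) κ) {k0 : Set Ω} (S : Set Ω)
    (hk : k0 ⊆ ⋃ i, κ i) {c : Ω} (hc : c ∈ Subring.closure (k0 ∪ S)) :
    ∃ i, c ∈ Subring.closure (κ i ∪ S) := by
  have hle : Subring.closure (k0 ∪ S) ≤ ⨆ i, Subring.closure (κ i ∪ S) := by
    rw [Subring.closure_le]
    rintro a (ha | ha)
    · obtain ⟨i, hi⟩ := Set.mem_iUnion.mp (hk ha)
      exact (le_iSup (fun i => Subring.closure (κ i ∪ S)) i)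
        (Subring.subset_closure (Or.inl hi))
    · obtain ⟨i⟩ := ‹Nonempty ι›
      exact (le_iSup (fun i => Subring.closure (κ i ∪ S)) i)
        (Subring.subset_closure (Or.inr ha))
  exact (Subring.mem_iSup_of_directed (directed_subring_closure κ hdir S)).mp (hle hc)

/-- Elements of the subfield generated by `k0 ∪ S` are defined at a finite level. -/
theorem exists_mem_subfield_closure (hdir : Directed (· ⊆ ·) κ) {k0 : Set Ω} (S : Set Ω)
    (hk : k0 ⊆ ⋃ i, κ i) {c : Ω} (hc : c ∈ Subfield.closure (k0 ∪ S)) :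
    ∃ i, c ∈ Subfield.closure (κ i ∪ S) := by
  have hle : Subfield.closure (k0 ∪ S) ≤ ⨆ i, Subfield.closure (κ i ∪ S) := by
    rw [Subfield.closure_le]
    rintro a (ha | ha)
    · obtain ⟨i, hi⟩ := Set.mem_iUnion.mp (hk ha)
      exact (le_iSup (fun i => Subfield.closure (κ i ∪ S)) i)
        (Subfield.subset_closure (Or.inl hi))
    · obtain ⟨i⟩ := ‹Nonempty ι›
      exact (le_iSup (fun i => Subfield.closure (κ i ∪ S)) i)
        (Subfield.subset_closure (Or.inr ha))
  exact (Subfield.mem_iSup_of_directed (directed_subfield_closure κ hdir S)).mp (hle hc)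

/-- Finitely many elements of the subring generated by `k0 ∪ S` are defined at a common finite
level. -/
theorem exists_forall_mem_subring_closure (hdir : Directed (· ⊆ ·) κ) {k0 : Set Ω} (S : Set Ω)
    (hk : k0 ⊆ ⋃ i, κ i) (T : Finset Ω) (hT : ∀ c ∈ T, c ∈ Subring.closure (k0 ∪ S)) :
    ∃ i, ∀ c ∈ T, c ∈ Subring.closure (κ i ∪ S) := by
  classical
  induction T using Finset.induction_on with
  | empty =>
    obtain ⟨i⟩ := ‹Nonempty ι›
    exact ⟨i, by simp⟩
  | insert a T _ ih =>
    obtain ⟨i, hi⟩ := ih (fun c hc => hT c (Finset.mem_insert_of_mem hc))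
    obtain ⟨j, hj⟩ := exists_mem_subring_closure κ hdir S hk (hT a (Finset.mem_insert_self a T))
    obtain ⟨l, hil, hjl⟩ := directed_subring_closure κ hdir S i j
    refine ⟨l, fun c hc => ?_⟩
    rcases Finset.mem_insert.mp hc with rfl | hc
    · exact hjl hj
    · exact hil (hi c hc)

/-- Integrality over the subring generated by `k0 ∪ S` holds at a finite level. -/
theorem exists_isIntegral (hdir : Directed (· ⊆ ·) κ) {k0 : Set Ω} (S : Set Ω)
    (hk : k0 ⊆ ⋃ i, κ i) {c : Ω} (hc : IsIntegral (Subring.closure (k0 ∪ S)) c) :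
    ∃ i, IsIntegral (Subring.closure (κ i ∪ S)) c := by
  classical
  rw [isIntegral_subring_iff] at hc
  obtain ⟨P, hP, hcoeff, hPc⟩ := hc
  obtain ⟨i, hi⟩ := exists_forall_mem_subring_closure κ hdir S hk
    (P.support.image fun n => P.coeff n) (by
      intro a ha
      obtain ⟨n, -, rfl⟩ := Finset.mem_image.mp ha
      exact hcoeff n)
  refine ⟨i, (isIntegral_subring_iff _ _).mpr ⟨P, hP, fun n => ?_, hPc⟩⟩
  by_cases hn : n ∈ P.support
  · exact hi _ (Finset.mem_image_of_mem _ hn)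
  · rw [Polynomial.notMem_support_iff.mp hn]
    exact zero_mem _

/-- **Finite level**: an element of the field generated by `k0 ∪ S` which is integral over the
ring generated by `k0 ∪ S'` is, for some index `i ≥ i₀`, an element of the field generated by
`κ i ∪ S` integral over the ring generated by `κ i ∪ S'`. -/
theorem exists_level (hdir : Directed (· ⊆ ·) κ) {k0 : Set Ω} (S S' : Set Ω)
    (hk : k0 ⊆ ⋃ i, κ i) (i₀ : ι) {c : Ω} (hc : c ∈ Subfield.closure (k0 ∪ S))
    (hint : IsIntegral (Subring.closure (k0 ∪ S')) c) :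
    ∃ i, κ i₀ ⊆ κ i ∧ c ∈ Subfield.closure (κ i ∪ S) ∧
      IsIntegral (Subring.closure (κ i ∪ S')) c := by
  obtain ⟨i₁, h₁⟩ := exists_mem_subfield_closure κ hdir S hk hc
  obtain ⟨i₂, h₂⟩ := exists_isIntegral κ hdir S' hk hint
  obtain ⟨i₃, h₁₃, h₂₃⟩ := hdir i₁ i₂
  obtain ⟨i, h₃, h₀⟩ := hdir i₃ i₀
  refine ⟨i, h₀, ?_, ?_⟩
  · exact Subfield.closure_mono (Set.union_subset_union_left S (h₁₃.trans h₃)) h₁
  · exact isIntegral_subring_mono
      (Subring.closure_mono (Set.union_subset_union_left S' (h₂₃.trans h₃))) h₂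

end Directed

end Fermat.Agent.S37.Red.H759

namespace Fermat.Agent.S37.Red.H759

section Monotone

variable {Ω : Type*} [Field Ω] {ι : Type*} [Preorder ι] [IsDirected ι (· ≤ ·)] [Nonempty ι]
  (κ : ι → Set Ω)

omit [Field Ω] [Nonempty ι] in
theorem directed_of_monotone (hmono : Monotone κ) : Directed (· ⊆ ·) κ := by
  intro i j
  obtain ⟨l, hil, hjl⟩ := exists_ge_ge i j
  exact ⟨l, hmono hil, hmono hjl⟩

/-- **Finite level, monotone form**: for a monotone family `κ` over a directed preorder, an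
element of the field generated by `k0 ∪ S` which is integral over the ring generated by
`k0 ∪ S'` is, for some index `i ≥ i₀`, an element of the field generated by `κ i ∪ S` integral
over the ring generated by `κ i ∪ S'`. -/
theorem exists_level_ge (hmono : Monotone κ) {k0 : Set Ω} (S S' : Set Ω)
    (hk : k0 ⊆ ⋃ i, κ i) (i₀ : ι) {c : Ω} (hc : c ∈ Subfield.closure (k0 ∪ S))
    (hint : IsIntegral (Subring.closure (k0 ∪ S')) c) :
    ∃ i, i₀ ≤ i ∧ c ∈ Subfield.closure (κ i ∪ S) ∧
      IsIntegral (Subring.closure (κ i ∪ S')) c := by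
  have hdir := directed_of_monotone κ hmono
  obtain ⟨i₁, h₁⟩ := exists_mem_subfield_closure κ hdir S hk hc
  obtain ⟨i₂, h₂⟩ := exists_isIntegral κ hdir S' hk hint
  obtain ⟨i₃, h₁₃, h₂₃⟩ := exists_ge_ge i₁ i₂
  obtain ⟨i, h₃, h₀⟩ := exists_ge_ge i₃ i₀
  refine ⟨i, h₀, ?_, ?_⟩
  · exact Subfield.closure_mono (Set.union_subset_union_left S (hmono (h₁₃.trans h₃))) h₁
  · exact isIntegral_subring_mono
      (Subring.closure_mono (Set.union_subset_union_left S' (hmono (h₂₃.trans h₃)))) h₂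

end Monotone

end Fermat.Agent.S37.Red.H759

end
-- ===== PACK-END S37/Red/H759/Directed.lean

-- ===== PACK-BEGIN S37/H818/FieldBridge.lean
section
/-
S37 / LEVEL TRANSFER (helper818), part 9: bridges between `IntermediateField` language
(`relfinrank`, `⊔`) and the Prelude's "along" language (`finrankAlong`, `Algebra.adjoin`).
-/



set_option autoImplicit false
set_option linter.style.haveILetI false

noncomputable section

namespace Fermat.Agent.S37.H818

open AlgebraicCurve IntermediateField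

variable {K E : Type*} [Field K] [Field E] [Algebra K E]

/-- `finrankAlong` of an inclusion of intermediate fields is the relative finrank. -/
theorem finrankAlong_inclusion {A B : IntermediateField K E} (h : A ≤ B) :
    finrankAlong K (IntermediateField.inclusion h) = A.relfinrank B := by
  rw [IntermediateField.relfinrank_eq_finrank_of_le h]
  unfold finrankAlong
  letI := algebraAlong (IntermediateField.inclusion h)
  let e : ↥B ≃ₗ[A] ↥(IntermediateField.extendScalars h) :=
    { toFun := fun x => ⟨x.1, x.2⟩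
      invFun := fun x => ⟨x.1, x.2⟩
      map_add' := fun _ _ => rfl
      map_smul' := fun _ _ => rfl
      left_inv := fun _ => rfl
      right_inv := fun _ => rfl }
  exact e.finrank_eq

/-- `FiniteAlong` for an inclusion, from positivity of the relative finrank. -/
theorem finiteAlong_inclusion {A B : IntermediateField K E} (h : A ≤ B)
    (hpos : 0 < A.relfinrank B) : FiniteAlong K (IntermediateField.inclusion h) := by
  unfold FiniteAlong
  letI := algebraAlong (IntermediateField.inclusion h)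
  have h1 : 0 < Module.finrank A B := by
    have := finrankAlong_inclusion h
    unfold finrankAlong at this
    rw [this]
    exact hpos
  exact Module.finite_of_finrank_pos h1

/-- If `C ≤ A ⊔ B` (with `A, B ≤ C`, `C` finite over `A`), then `C` is generated as an
`A`-algebra by the image of `B`. -/
theorem adjoin_range_inclusion_eq_top {A B C : IntermediateField K E} (hAC : A ≤ C)
    (hBC : B ≤ C) (hC : C ≤ A ⊔ B) (hfin : FiniteAlong K (IntermediateField.inclusion hAC)) :
    (letI := algebraAlong (IntermediateField.inclusion hAC)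
     Algebra.adjoin A (Set.range (IntermediateField.inclusion hBC))) = ⊤ := by
  letI := algebraAlong (IntermediateField.inclusion hAC)
  haveI : Module.Finite A C := hfin
  haveI : Algebra.IsAlgebraic A C := Algebra.IsAlgebraic.of_finite A C
  set T : Subalgebra A C := Algebra.adjoin A (Set.range (IntermediateField.inclusion hBC)) with hT
  have key : ∀ y (hy : y ∈ A ⊔ B), ∃ hyC : y ∈ C, (⟨y, hyC⟩ : C) ∈ T := by
    intro y hy
    rw [IntermediateField.sup_def] at hy
    induction hy using IntermediateField.adjoin_induction with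
    | mem x hx =>
      rcases hx with hx | hx
      · refine ⟨hAC hx, ?_⟩
        have : (⟨x, hAC hx⟩ : C) = algebraMap A C ⟨x, hx⟩ := rfl
        rw [this]
        exact T.algebraMap_mem _
      · refine ⟨hBC hx, ?_⟩
        exact Algebra.subset_adjoin ⟨⟨x, hx⟩, rfl⟩
    | algebraMap x =>
      refine ⟨C.algebraMap_mem x, ?_⟩
      have : (⟨algebraMap K E x, C.algebraMap_mem x⟩ : C) =
          algebraMap A C ⟨algebraMap K E x, A.algebraMap_mem x⟩ := rfl
      rw [this]
      exact T.algebraMap_mem _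
    | add x y _ _ hx hy =>
      obtain ⟨hxC, hxT⟩ := hx
      obtain ⟨hyC, hyT⟩ := hy
      exact ⟨C.add_mem hxC hyC, T.add_mem hxT hyT⟩
    | inv x _ hx =>
      obtain ⟨hxC, hxT⟩ := hx
      refine ⟨C.inv_mem hxC, ?_⟩
      have h1 := T.inv_mem_of_algebraic (x := ⟨⟨x, hxC⟩, hxT⟩)
        (Algebra.IsAlgebraic.isAlgebraic (R := A) (⟨x, hxC⟩ : C))
      exact h1
    | mul x y _ _ hx hy =>
      obtain ⟨hxC, hxT⟩ := hx
      obtain ⟨hyC, hyT⟩ := hy
      exact ⟨C.mul_mem hxC hyC, T.mul_mem hxT hyT⟩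
  rw [eq_top_iff]
  rintro ⟨y, hyC⟩ -
  obtain ⟨_, h⟩ := key y (hC hyC)
  exact h

end Fermat.Agent.S37.H818

end

end
-- ===== PACK-END S37/H818/FieldBridge.lean

-- ===== PACK-BEGIN S37/H339/RatTower.lean
section


/-!
# S37 BOARD v3, leaf D4 (helper339): the generic tower lemma

`K(j) ⊆ K(t) ⊆ F` with `j · Q(t) = P(t)`, `P`, `Q` coprime, `t` transcendental:
`[K(t) : K(j)] = max (deg P) (deg Q)` (Mathlib's `RatFunc.finrank_eq_max_natDegree`, transported),
hence `max (deg P) (deg Q) · [F : K(t)] = [F : K(j)]`; finiteness and separability of `F / K(j)`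
pass to `F / K(t)`.
-/

set_option autoImplicit false

noncomputable section

namespace Fermat.Agent.S37.H339

open IntermediateField Polynomial

section RatTower

variable {K F : Type*} [Field K] [Field F] [Algebra K F]

/-- numerator and denominator of `P / Q` for coprime `P`, `Q` have the degrees of `P`, `Q` -/
theorem natDegree_num_denom_of_isCoprime (P Q : K[X]) (hcop : IsCoprime P Q) (hQ : Q ≠ 0) :
    (algebraMap K[X] (RatFunc K) P / algebraMap K[X] (RatFunc K) Q).num.natDegree = P.natDegree ∧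
      (algebraMap K[X] (RatFunc K) P / algebraMap K[X] (RatFunc K) Q).denom.natDegree =
        Q.natDegree := by
  set f : RatFunc K := algebraMap K[X] (RatFunc K) P / algebraMap K[X] (RatFunc K) Q with hf
  have h1 : f.num * Q = P * f.denom := (RatFunc.num_mul_eq_mul_denom_iff hQ).mpr hf
  have hc := RatFunc.isCoprime_num_denom f
  have hnP : f.num ∣ P := hc.dvd_of_dvd_mul_right ⟨Q, h1.symm⟩
  have hPn : P ∣ f.num := hcop.dvd_of_dvd_mul_right ⟨f.denom, h1⟩
  have hdQ : f.denom ∣ Q := hc.symm.dvd_of_dvd_mul_left ⟨P, by linear_combination h1⟩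
  have hQd : Q ∣ f.denom := hcop.symm.dvd_of_dvd_mul_left ⟨f.num, by linear_combination -h1⟩
  constructor
  · exact natDegree_eq_of_degree_eq (degree_eq_degree_of_associated (associated_of_dvd_dvd hnP hPn))
  · exact natDegree_eq_of_degree_eq (degree_eq_degree_of_associated (associated_of_dvd_dvd hdQ hQd))

/-- `[K(t) : K(j)] = max (deg P) (deg Q)` when `j · Q(t) = P(t)` with `P`, `Q` coprime and `t`
transcendental -/
theorem relfinrank_adjoin_of_eq (t j : F) (ht : Transcendental K t) (P Q : K[X])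
    (hcop : IsCoprime P Q) (hQ : Q ≠ 0) (h : j * aeval t Q = aeval t P) :
    relfinrank K⟮j⟯ K⟮t⟯ = max P.natDegree Q.natDegree := by
  classical
  set e := RatFunc.algEquivOfTranscendental t ht with he
  set φ : RatFunc K →ₐ[K] F := (K⟮t⟯.val).comp e.toAlgHom with hφ
  have hφX : φ RatFunc.X = t := by
    show ((e RatFunc.X : K⟮t⟯) : F) = t
    rw [RatFunc.algEquivOfTranscendental_X]
  have hφpoly : ∀ g : K[X], φ (algebraMap K[X] (RatFunc K) g) = aeval t g := by
    intro g
    show ((e (algebraMap K[X] (RatFunc K) g) : K⟮t⟯) : F) = aeval t g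
    rw [RatFunc.algEquivOfTranscendental_algebraMap]
    have : ((aeval (AdjoinSimple.gen K t) g : K⟮t⟯) : F) = aeval ((AdjoinSimple.gen K t : K⟮t⟯) : F) g := by
      rw [← IntermediateField.coe_val, ← aeval_algHom_apply]
    rw [this]
    rfl
  have hQt : aeval t Q ≠ 0 := fun h0 => ht ⟨Q, hQ, h0⟩
  set f : RatFunc K := algebraMap K[X] (RatFunc K) P / algebraMap K[X] (RatFunc K) Q with hf
  have hφf : φ f = j := by
    rw [hf, map_div₀, hφpoly, hφpoly, ← h, mul_div_assoc, div_self hQt, mul_one]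
  have hA : (K⟮f⟯).map φ = K⟮j⟯ := by
    rw [IntermediateField.adjoin_map, Set.image_singleton, hφf]
  have hB : (⊤ : IntermediateField K (RatFunc K)).map φ = K⟮t⟯ := by
    rw [← RatFunc.adjoin_X, IntermediateField.adjoin_map, Set.image_singleton, hφX]
  rw [← hA, ← hB, relfinrank_map_map, relfinrank_top_right, RatFunc.finrank_eq_max_natDegree]
  obtain ⟨h1, h2⟩ := natDegree_num_denom_of_isCoprime P Q hcop hQ
  rw [h1, h2]

/-- `K(j) ⊆ K(t)` when `j · Q(t) = P(t)`, `Q(t) ≠ 0` -/
theorem adjoin_le_adjoin_of_eq (t j : F) (P Q : K[X]) (hQt : aeval t Q ≠ 0)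
    (h : j * aeval t Q = aeval t P) : K⟮j⟯ ≤ K⟮t⟯ := by
  rw [adjoin_simple_le_iff]
  have hj : j = aeval t P / aeval t Q := by
    rw [← h, mul_div_assoc, div_self hQt, mul_one]
  rw [hj]
  have ht : t ∈ K⟮t⟯ := mem_adjoin_simple_self K t
  have hmem : ∀ g : K[X], aeval t g ∈ K⟮t⟯ := by
    intro g
    rw [aeval_eq_sum_range]
    exact sum_mem fun i _ => by
      rw [Algebra.smul_def]
      exact mul_mem (IntermediateField.algebraMap_mem _ _) (pow_mem ht i)
  exact div_mem (hmem P) (hmem Q)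

/-- the tower law for `K(j) ⊆ K(t) ⊆ F` -/
theorem max_natDegree_mul_finrank (t j : F) (ht : Transcendental K t) (P Q : K[X])
    (hcop : IsCoprime P Q) (hQ : Q ≠ 0) (h : j * aeval t Q = aeval t P) :
    max P.natDegree Q.natDegree * Module.finrank K⟮t⟯ F = Module.finrank K⟮j⟯ F := by
  have hQt : aeval t Q ≠ 0 := fun h0 => ht ⟨Q, hQ, h0⟩
  rw [← relfinrank_adjoin_of_eq t j ht P Q hcop hQ h]
  exact relfinrank_mul_finrank_top (adjoin_le_adjoin_of_eq t j P Q hQt h)

/-- finiteness passes up the tower -/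
theorem finiteDimensional_of_le {A B : IntermediateField K F} (hAB : A ≤ B)
    [FiniteDimensional A F] : FiniteDimensional B F := by
  letI : Algebra A B := (IntermediateField.inclusion hAB).toRingHom.toAlgebra
  haveI : IsScalarTower A B F := IsScalarTower.of_algebraMap_eq fun _ => rfl
  exact Module.Finite.of_restrictScalars_finite A B F

/-- separability passes up the tower -/
theorem isSeparable_of_le {A B : IntermediateField K F} (hAB : A ≤ B)
    [Algebra.IsSeparable A F] : Algebra.IsSeparable B F := by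
  letI : Algebra A B := (IntermediateField.inclusion hAB).toRingHom.toAlgebra
  haveI : IsScalarTower A B F := IsScalarTower.of_algebraMap_eq fun _ => rfl
  exact Algebra.isSeparable_tower_top_of_isSeparable A B F

/-- **Tower lemma.** All the (H1)-type information passes from `j` to `t`. -/
theorem h1_of_tower (t j : F) (ht : Transcendental K t) (P Q : K[X])
    (hcop : IsCoprime P Q) (hQ : Q ≠ 0) (h : j * aeval t Q = aeval t P)
    (hfin : FiniteDimensional K⟮j⟯ F) :
    FiniteDimensional K⟮t⟯ F ∧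
      max P.natDegree Q.natDegree * Module.finrank K⟮t⟯ F = Module.finrank K⟮j⟯ F ∧
      (Algebra.IsSeparable K⟮j⟯ F → Algebra.IsSeparable K⟮t⟯ F) := by
  have hQt : aeval t Q ≠ 0 := fun h0 => ht ⟨Q, hQ, h0⟩
  have hle := adjoin_le_adjoin_of_eq t j P Q hQt h
  exact ⟨finiteDimensional_of_le hle, max_natDegree_mul_finrank t j ht P Q hcop hQ h,
    fun hs => isSeparable_of_le hle⟩

end RatTower

end Fermat.Agent.S37.H339

end
end
-- ===== PACK-END S37/H339/RatTower.lean

-- ===== PACK-BEGIN S24/Scott.lean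
section
/-
Ree / Feit–Lyndon–Scott inequality and parity for three permutations with product one
generating a transitive group.  Pure Mathlib.  (S24 long shot, module H.)

Main results (namespace `Fermat.Agent.S24.Scott`):

* `orbits σ`            : number of orbits of `Subgroup.zpowers σ` on `X`
* `finrank_ker_D`       : `finrank ker (1 - L σ) = orbits σ`
* `ree_le`              : `orbits a + orbits b + orbits c ≤ card X + 2`
* `sign_eq`             : `sign σ = (-1) ^ (card X + orbits σ)`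
* `parity`              : `Even (card X + orbits a + orbits b + orbits c)`
* `exists_genus_perm`   : `∃ g, 2 * g + orbits a + orbits b + orbits c = card X + 2`
* `exists_genus`        : the same for a group action
-/


set_option autoImplicit false

namespace Fermat.Agent.S24.Scott

open Module

section Perm

variable {X : Type*}

/-- Number of orbits of the cyclic group generated by `σ`. -/
noncomputable def orbits (σ : Equiv.Perm X) : ℕ :=
  Nat.card (MulAction.orbitRel.Quotient (Subgroup.zpowers σ) X)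

/-- The linear map `f ↦ f ∘ σ` on `X → ℚ`. -/
noncomputable def L (σ : Equiv.Perm X) : (X → ℚ) →ₗ[ℚ] (X → ℚ) :=
  LinearMap.funLeft ℚ ℚ σ

@[simp] lemma L_apply (σ : Equiv.Perm X) (f : X → ℚ) (p : X) : L σ f p = f (σ p) := rfl

lemma L_comp (σ τ : Equiv.Perm X) : L σ ∘ₗ L τ = L (τ * σ) := by
  ext f p
  simp

lemma L_one : L (1 : Equiv.Perm X) = LinearMap.id := by
  ext f p
  simp

/-- `D σ = 1 - L σ`. -/
noncomputable def D (σ : Equiv.Perm X) : (X → ℚ) →ₗ[ℚ] (X → ℚ) :=
  LinearMap.id - L σ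

@[simp] lemma D_apply (σ : Equiv.Perm X) (f : X → ℚ) (p : X) : D σ f p = f p - f (σ p) := rfl

lemma mem_ker_D {σ : Equiv.Perm X} {f : X → ℚ} :
    f ∈ LinearMap.ker (D σ) ↔ ∀ p, f (σ p) = f p := by
  rw [LinearMap.mem_ker]
  constructor
  · intro h p
    have := congrFun h p
    simp only [D_apply, Pi.zero_apply] at this
    linarith
  · intro h
    ext p
    simp [h p]

lemma apply_zpow_of_mem_ker_D {σ : Equiv.Perm X} {f : X → ℚ}
    (hf : f ∈ LinearMap.ker (D σ)) (k : ℤ) (p : X) : f ((σ ^ k) p) = f p := by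
  rw [mem_ker_D] at hf
  induction k using Int.induction_on generalizing p with
  | zero => simp
  | succ n ih =>
    rw [zpow_add, zpow_one, Equiv.Perm.mul_apply, ih, hf]
  | pred n ih =>
    rw [zpow_sub, zpow_one, Equiv.Perm.mul_apply, ih]
    have := hf (σ⁻¹ p)
    simpa using this.symm

lemma apply_eq_of_orbitRel {σ : Equiv.Perm X} {f : X → ℚ}
    (hf : f ∈ LinearMap.ker (D σ)) {p q : X}
    (h : (MulAction.orbitRel (Subgroup.zpowers σ) X) p q) : f p = f q := by
  rw [MulAction.orbitRel_apply] at h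
  obtain ⟨⟨g, hg⟩, rfl⟩ := h
  obtain ⟨k, rfl⟩ := Subgroup.mem_zpowers_iff.mp hg
  exact apply_zpow_of_mem_ker_D hf k q

/-- Pullback along the quotient map to the orbit space. -/
noncomputable def pull (σ : Equiv.Perm X) :
    (MulAction.orbitRel.Quotient (Subgroup.zpowers σ) X → ℚ) →ₗ[ℚ] (X → ℚ) :=
  LinearMap.funLeft ℚ ℚ (Quotient.mk (MulAction.orbitRel (Subgroup.zpowers σ) X))

lemma pull_injective (σ : Equiv.Perm X) : Function.Injective (pull σ) := by
  intro g₁ g₂ h
  funext q
  induction q using Quotient.inductionOn with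
  | _ p => exact congrFun h p

lemma range_pull (σ : Equiv.Perm X) : LinearMap.range (pull σ) = LinearMap.ker (D σ) := by
  apply le_antisymm
  · rintro _ ⟨g, rfl⟩
    rw [mem_ker_D]
    intro p
    show g _ = g _
    congr 1
    apply Quotient.sound
    exact MulAction.orbitRel_apply.mpr ⟨⟨σ, Subgroup.mem_zpowers σ⟩, rfl⟩
  · intro f hf
    refine ⟨Quotient.lift f (fun p q h => apply_eq_of_orbitRel hf h), ?_⟩
    funext p
    rfl

variable [Fintype X]

lemma finrank_ker_D (σ : Equiv.Perm X) : finrank ℚ (LinearMap.ker (D σ)) = orbits σ := by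
  classical
  rw [← range_pull, LinearMap.finrank_range_of_inj (pull_injective σ)]
  let _ : Fintype (MulAction.orbitRel.Quotient (Subgroup.zpowers σ) X) := Fintype.ofFinite _
  rw [Module.finrank_fintype_fun_eq_card, orbits, Nat.card_eq_fintype_card]

lemma finrank_range_D_add (σ : Equiv.Perm X) :
    finrank ℚ (LinearMap.range (D σ)) + orbits σ = Fintype.card X := by
  rw [← finrank_ker_D, LinearMap.finrank_range_add_finrank_ker, Module.finrank_fintype_fun_eq_card]

end Perm

section Ree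

lemma finrank_span_singleton_le_one {V : Type*} [AddCommGroup V] [Module ℚ V] (v : V) :
    finrank ℚ (Submodule.span ℚ {v}) ≤ 1 := by
  by_cases hv : v = 0
  · subst hv
    rw [Submodule.span_zero_singleton, finrank_bot]
    exact Nat.zero_le 1
  · rw [finrank_span_singleton hv]

variable {X : Type*} [Fintype X] [DecidableEq X]

/-- Standard basis vector of `X → ℚ`. -/
noncomputable def e (p : X) : X → ℚ := Pi.single p 1

lemma e_apply (p x : X) : e p x = if x = p then 1 else 0 := by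
  simp [e, Pi.single_apply]

lemma L_e (σ : Equiv.Perm X) (p : X) : L σ (e p) = e (σ⁻¹ p) := by
  funext x
  simp only [L_apply, e_apply]
  have : σ x = p ↔ x = σ⁻¹ p := by
    constructor
    · rintro rfl; simp
    · rintro rfl; simp
  simp [this]

lemma e_sub_mem_range_D (σ : Equiv.Perm X) (p : X) :
    e (σ p) - e p ∈ LinearMap.range (D σ) := by
  refine ⟨e (σ p), ?_⟩
  simp [D, L_e]

variable (a b c : Equiv.Perm X)

/-- The map `δ`. -/
noncomputable def del :
    (X → ℚ) →ₗ[ℚ]
      (LinearMap.range (D c) × LinearMap.range (D b) × LinearMap.range (D a)) :=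
  (D c).rangeRestrict.prod ((D b).rangeRestrict.prod (D a).rangeRestrict)

/-- The map `β`. -/
noncomputable def bet :
    (LinearMap.range (D c) × LinearMap.range (D b) × LinearMap.range (D a)) →ₗ[ℚ] (X → ℚ) :=
  (LinearMap.range (D c)).subtype.coprod
    ((L c ∘ₗ (LinearMap.range (D b)).subtype).coprod
      (L c ∘ₗ L b ∘ₗ (LinearMap.range (D a)).subtype))

lemma bet_apply (u : LinearMap.range (D c)) (v : LinearMap.range (D b))
    (w : LinearMap.range (D a)) :
    bet a b c (u, v, w) = (u : X → ℚ) + (L c (v : X → ℚ) + L c (L b (w : X → ℚ))) := by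
  simp [bet]

lemma del_apply (f : X → ℚ) :
    del a b c f = (⟨D c f, ⟨f, rfl⟩⟩, ⟨D b f, ⟨f, rfl⟩⟩, ⟨D a f, ⟨f, rfl⟩⟩) := rfl

lemma bet_comp_del (habc : a * b * c = 1) : bet a b c ∘ₗ del a b c = 0 := by
  apply LinearMap.ext
  intro f
  funext p
  have h : ∀ x, a (b (c x)) = x := fun x => by
    have := congrArg (fun σ : Equiv.Perm X => σ x) habc
    simpa [Equiv.Perm.mul_apply] using this
  rw [LinearMap.comp_apply, del_apply, bet_apply]
  simp [h]

lemma range_D_c_le : LinearMap.range (D c) ≤ LinearMap.range (bet a b c) := by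
  rintro _ ⟨f, rfl⟩
  refine ⟨(⟨D c f, ⟨f, rfl⟩⟩, 0, 0), ?_⟩
  simp [bet_apply]

lemma range_D_b_le : LinearMap.range (D b) ≤ LinearMap.range (bet a b c) := by
  rintro _ ⟨f, rfl⟩
  -- D b f = L c (D b f) + D c (D b f)
  have h1 : L c (D b f) ∈ LinearMap.range (bet a b c) :=
    ⟨(0, ⟨D b f, ⟨f, rfl⟩⟩, 0), by simp [bet_apply]⟩
  have h2 : D c (D b f) ∈ LinearMap.range (bet a b c) :=
    range_D_c_le a b c ⟨_, rfl⟩
  have : D b f = L c (D b f) + D c (D b f) := by
    simp [D]
  rw [this]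
  exact Submodule.add_mem _ h1 h2

lemma range_D_a_le : LinearMap.range (D a) ≤ LinearMap.range (bet a b c) := by
  rintro _ ⟨f, rfl⟩
  set w := D a f with hw
  have h1 : L c (L b w) ∈ LinearMap.range (bet a b c) :=
    ⟨(0, 0, ⟨w, ⟨f, rfl⟩⟩), by simp [bet_apply]⟩
  have h2 : D c (L b w) ∈ LinearMap.range (bet a b c) :=
    range_D_c_le a b c ⟨_, rfl⟩
  have h3 : D b w ∈ LinearMap.range (bet a b c) :=
    range_D_b_le a b c ⟨_, rfl⟩
  have : w = L c (L b w) + D c (L b w) + D b w := by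
    simp [D]
  rw [this]
  exact Submodule.add_mem _ (Submodule.add_mem _ h1 h2) h3

variable {a b c}

lemma e_sub_mem_range_bet
    {g : Equiv.Perm X} (hg : g ∈ Subgroup.closure ({a, b} : Set (Equiv.Perm X))) :
    ∀ p : X, e (g p) - e p ∈ LinearMap.range (bet a b c) := by
  induction hg using Subgroup.closure_induction with
  | mem x hx =>
    intro p
    rcases hx with rfl | rfl
    · exact range_D_a_le x b c (e_sub_mem_range_D x p)
    · exact range_D_b_le a x c (e_sub_mem_range_D x p)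
  | one => intro p; simp
  | mul x y _ _ hx hy =>
    intro p
    have : e ((x * y) p) - e p = (e (x (y p)) - e (y p)) + (e (y p) - e p) := by
      simp [Equiv.Perm.mul_apply]
    rw [this]
    exact Submodule.add_mem _ (hx (y p)) (hy p)
  | inv x _ hx =>
    intro p
    have : e (x⁻¹ p) - e p = -(e (x (x⁻¹ p)) - e (x⁻¹ p)) := by
      simp
    rw [this]
    exact Submodule.neg_mem _ (hx (x⁻¹ p))

lemma apply_eq_of_mem_closure {f : X → ℚ}
    (ha : f ∈ LinearMap.ker (D a)) (hb : f ∈ LinearMap.ker (D b))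
    {g : Equiv.Perm X} (hg : g ∈ Subgroup.closure ({a, b} : Set (Equiv.Perm X))) :
    ∀ p : X, f (g p) = f p := by
  induction hg using Subgroup.closure_induction with
  | mem x hx =>
    rcases hx with rfl | rfl
    · exact mem_ker_D.mp ha
    · exact mem_ker_D.mp hb
  | one => intro p; simp
  | mul x y _ _ hx hy =>
    intro p
    rw [Equiv.Perm.mul_apply, hx, hy]
  | inv x _ hx =>
    intro p
    have := hx (x⁻¹ p)
    simpa using this.symm

/-- **Ree's inequality** (Feit–Lyndon–Scott), in rank form. -/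
theorem two_mul_card_le (habc : a * b * c = 1)
    (htrans : ∀ p q : X, ∃ g ∈ Subgroup.closure ({a, b} : Set (Equiv.Perm X)), g p = q)
    (p₀ : X) :
    2 * Fintype.card X ≤
      finrank ℚ (LinearMap.range (D a)) + finrank ℚ (LinearMap.range (D b)) +
        finrank ℚ (LinearMap.range (D c)) + 2 := by
  -- kernel of δ is at most one-dimensional
  have hker : LinearMap.ker (del a b c) ≤ Submodule.span ℚ {(fun _ => 1 : X → ℚ)} := by
    intro f hf
    rw [LinearMap.mem_ker] at hf
    have hfb : D b f = 0 := by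
      have := congrArg (fun t => ((t.2.1 : LinearMap.range (D b)) : X → ℚ)) hf
      simpa [del] using this
    have hfa : D a f = 0 := by
      have := congrArg (fun t => ((t.2.2 : LinearMap.range (D a)) : X → ℚ)) hf
      simpa [del] using this
    rw [Submodule.mem_span_singleton]
    refine ⟨f p₀, ?_⟩
    funext q
    obtain ⟨g, hg, rfl⟩ := htrans p₀ q
    simp [apply_eq_of_mem_closure (LinearMap.mem_ker.mpr hfa) (LinearMap.mem_ker.mpr hfb) hg p₀]
  have hker' : finrank ℚ (LinearMap.ker (del a b c)) ≤ 1 := by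
    calc finrank ℚ (LinearMap.ker (del a b c))
        ≤ finrank ℚ (Submodule.span ℚ {(fun _ => 1 : X → ℚ)}) := Submodule.finrank_mono hker
      _ ≤ 1 := finrank_span_singleton_le_one _
  -- range of β has codimension at most one
  have htop : (⊤ : Submodule ℚ (X → ℚ)) ≤
      LinearMap.range (bet a b c) ⊔ Submodule.span ℚ {e p₀} := by
    intro f _
    have hf : f = ∑ p, f p • (e p - e p₀) + (∑ p, f p) • e p₀ := by
      funext x
      simp only [Pi.add_apply, Finset.sum_apply, Pi.smul_apply, Pi.sub_apply, smul_eq_mul,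
        e_apply, mul_sub, Finset.sum_sub_distrib, Finset.sum_mul]
      simp
    rw [hf]
    refine Submodule.add_mem _ (Submodule.mem_sup_left ?_) (Submodule.mem_sup_right ?_)
    · refine Submodule.sum_mem _ (fun p _ => Submodule.smul_mem _ _ ?_)
      obtain ⟨g, hg, rfl⟩ := htrans p₀ p
      exact e_sub_mem_range_bet hg p₀
    · exact Submodule.smul_mem _ _ (Submodule.mem_span_singleton_self _)
  have hrange : Fintype.card X ≤ finrank ℚ (LinearMap.range (bet a b c)) + 1 := by
    have h1 : finrank ℚ (X → ℚ) ≤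
        finrank ℚ ↥(LinearMap.range (bet a b c) ⊔ Submodule.span ℚ {e p₀}) := by
      rw [← finrank_top ℚ (X → ℚ)]
      exact Submodule.finrank_mono htop
    have h2 := Submodule.finrank_add_le_finrank_add_finrank (LinearMap.range (bet a b c))
      (Submodule.span ℚ {e p₀})
    have h3 : finrank ℚ (Submodule.span ℚ {e p₀}) ≤ 1 := finrank_span_singleton_le_one _
    rw [Module.finrank_fintype_fun_eq_card] at h1
    omega
  -- rank-nullity
  have hδ := LinearMap.finrank_range_add_finrank_ker (del a b c)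
  have hβ := LinearMap.finrank_range_add_finrank_ker (bet a b c)
  rw [Module.finrank_fintype_fun_eq_card] at hδ
  rw [Module.finrank_prod, Module.finrank_prod] at hβ
  have hle : finrank ℚ (LinearMap.range (del a b c)) ≤ finrank ℚ (LinearMap.ker (bet a b c)) :=
    Submodule.finrank_mono (LinearMap.range_le_ker_iff.mpr (bet_comp_del a b c habc))
  omega

/-- **Ree's inequality**: three permutations with product one generating a transitive group
have at most `|X| + 2` cycles altogether. -/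
theorem ree_le (habc : a * b * c = 1)
    (htrans : ∀ p q : X, ∃ g ∈ Subgroup.closure ({a, b} : Set (Equiv.Perm X)), g p = q)
    (p₀ : X) :
    orbits a + orbits b + orbits c ≤ Fintype.card X + 2 := by
  have h := two_mul_card_le habc htrans p₀
  have ha := finrank_range_D_add a
  have hb := finrank_range_D_add b
  have hc := finrank_range_D_add c
  omega

end Ree

section Parity

variable {X : Type*}

lemma orbitRel_zpowers_iff (σ : Equiv.Perm X) {x y : X} :
    MulAction.orbitRel (Subgroup.zpowers σ) X x y ↔ σ.SameCycle y x := by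
  rw [MulAction.orbitRel_apply, MulAction.mem_orbit_iff]
  constructor
  · rintro ⟨⟨g, hg⟩, rfl⟩
    obtain ⟨k, rfl⟩ := Subgroup.mem_zpowers_iff.mp hg
    exact ⟨k, rfl⟩
  · rintro ⟨k, rfl⟩
    exact ⟨⟨σ ^ k, Subgroup.mem_zpowers_iff.mpr ⟨k, rfl⟩⟩, rfl⟩

lemma orbits_inv (σ : Equiv.Perm X) : orbits σ⁻¹ = orbits σ := by
  unfold orbits
  rw [Subgroup.zpowers_inv]

variable [Fintype X] [DecidableEq X] (σ : Equiv.Perm X)

/-- A complete invariant of the `σ`-orbit of a point. -/
noncomputable def code (x : X) : X ⊕ Equiv.Perm X :=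
  if σ x = x then Sum.inl x else Sum.inr (σ.cycleOf x)

lemma code_eq_iff {x y : X} : code σ x = code σ y ↔ σ.SameCycle y x := by
  unfold code
  by_cases hx : σ x = x <;> by_cases hy : σ y = y
  · simp only [hx, hy, if_true, Sum.inl.injEq]
    constructor
    · rintro rfl; exact Equiv.Perm.SameCycle.refl _ _
    · intro h; exact (h.eq_of_left hy).symm
  · simp only [hx, hy, if_true, if_false, reduceCtorEq, false_iff]
    intro h
    exact hy (h.apply_eq_self_iff.mpr hx)
  · simp only [hx, hy, if_true, if_false, reduceCtorEq, false_iff]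
    intro h
    exact hx (h.apply_eq_self_iff.mp hy)
  · simp only [hx, hy, if_false, Sum.inr.injEq]
    constructor
    · intro h
      have hx' : x ∈ (σ.cycleOf x).support := by
        rw [Equiv.Perm.mem_support_cycleOf_iff]
        exact ⟨Equiv.Perm.SameCycle.refl _ _, Equiv.Perm.mem_support.mpr hx⟩
      rw [h, Equiv.Perm.mem_support_cycleOf_iff] at hx'
      exact hx'.1
    · intro h
      exact (h.cycleOf_eq).symm

lemma orbitRel_eq_ker_code :
    MulAction.orbitRel (Subgroup.zpowers σ) X = Setoid.ker (code σ) := by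
  ext x y
  rw [orbitRel_zpowers_iff, Setoid.ker_def, code_eq_iff]

lemma image_code :
    Finset.univ.image (code σ) =
      (Finset.univ.filter (fun x => σ x = x)).disjSum σ.cycleFactorsFinset := by
  ext z
  rcases z with x | c
  · rw [Finset.inl_mem_disjSum]
    simp only [Finset.mem_image, Finset.mem_univ, true_and, Finset.mem_filter]
    constructor
    · rintro ⟨y, hy⟩
      unfold code at hy
      by_cases h : σ y = y
      · simp only [h, if_true, Sum.inl.injEq] at hy
        rw [← hy]; exact h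
      · simp [h] at hy
    · intro h
      exact ⟨x, by simp [code, h]⟩
  · rw [Finset.inr_mem_disjSum]
    simp only [Finset.mem_image, Finset.mem_univ, true_and]
    constructor
    · rintro ⟨y, hy⟩
      unfold code at hy
      by_cases h : σ y = y
      · simp [h] at hy
      · simp only [h, if_false, Sum.inr.injEq] at hy
        rw [← hy, Equiv.Perm.cycleOf_mem_cycleFactorsFinset_iff]
        exact Equiv.Perm.mem_support.mpr h
    · intro hc
      have hcyc := (Equiv.Perm.mem_cycleFactorsFinset_iff.mp hc).1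
      obtain ⟨y, hy, -⟩ := hcyc
      have hy' : y ∈ c.support := Equiv.Perm.mem_support.mpr hy
      have hyσ : y ∈ σ.support := Equiv.Perm.mem_cycleFactorsFinset_support_le hc hy'
      refine ⟨y, ?_⟩
      have := Equiv.Perm.cycle_is_cycleOf hy' hc
      simp [code, Equiv.Perm.mem_support.mp hyσ, this]

lemma orbits_eq_card_image : orbits σ = (Finset.univ.image (code σ)).card := by
  unfold orbits MulAction.orbitRel.Quotient
  rw [orbitRel_eq_ker_code]
  rw [Nat.card_congr (Setoid.quotientKerEquivRange (code σ))]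
  rw [Nat.card_coe_set_eq, ← Set.image_univ, ← Finset.coe_univ, ← Finset.coe_image,
    Set.ncard_coe_finset]

/-- Number of orbits = number of fixed points + number of nontrivial cycles. -/
lemma orbits_add_card_support :
    orbits σ + σ.support.card = Fintype.card X + σ.cycleFactorsFinset.card := by
  rw [orbits_eq_card_image, image_code, Finset.card_disjSum]
  have h : (Finset.univ.filter (fun x => σ x = x)).card + σ.support.card = Fintype.card X := by
    have : σ.support = Finset.univ.filter (fun x => ¬ σ x = x) := by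
      ext x; simp
    rw [this, ← Finset.card_univ (α := X)]
    exact Finset.card_filter_add_card_filter_not (s := Finset.univ) (fun x => σ x = x)
  omega

lemma orbits_le_card : orbits σ ≤ Fintype.card X := by
  rw [orbits_eq_card_image, ← Finset.card_univ (α := X)]
  exact Finset.card_image_le

/-- The sign of a permutation in terms of its number of orbits. -/
theorem sign_eq : Equiv.Perm.sign σ = (-1) ^ (Fintype.card X + orbits σ) := by
  rw [Equiv.Perm.sign_of_cycleType, Equiv.Perm.sum_cycleType]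
  have h1 : Multiset.card σ.cycleType = σ.cycleFactorsFinset.card := by
    rw [Equiv.Perm.cycleType_def, Multiset.card_map]; rfl
  rw [h1]
  have h2 := orbits_add_card_support σ
  have h3 : Fintype.card X + orbits σ + 2 * σ.support.card
      = 2 * Fintype.card X + (σ.support.card + σ.cycleFactorsFinset.card) := by omega
  have h4 : ((-1 : ℤˣ) ^ (Fintype.card X + orbits σ)) * ((-1) ^ (2 * σ.support.card))
      = ((-1) ^ (2 * Fintype.card X)) * (-1) ^ (σ.support.card + σ.cycleFactorsFinset.card) := by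
    rw [← pow_add, ← pow_add, h3]
  simpa [pow_mul] using h4.symm

variable {a b c : Equiv.Perm X}

/-- Parity: for `a b c = 1`, the total number of cycles is congruent to `|X|` mod 2. -/
theorem parity (habc : a * b * c = 1) :
    Even (Fintype.card X + orbits a + orbits b + orbits c) := by
  have h := congrArg Equiv.Perm.sign habc
  rw [map_mul, map_mul, map_one, sign_eq a, sign_eq b, sign_eq c, ← pow_add, ← pow_add] at h
  have h' := (neg_one_pow_eq_one_iff_even (R := ℤˣ) (by decide)).mp h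
  obtain ⟨k, hk⟩ := h'
  exact ⟨k - Fintype.card X, by omega⟩

/-- **Riemann–Hurwitz genus is a natural number** (permutation form): if `a b c = 1` and
`⟨a, b⟩` is transitive on the finite set `X`, then
`|X| + 2 - (#cycles a + #cycles b + #cycles c)` is a non-negative even integer. -/
theorem exists_genus_perm (habc : a * b * c = 1)
    (htrans : ∀ p q : X, ∃ g ∈ Subgroup.closure ({a, b} : Set (Equiv.Perm X)), g p = q) :
    ∃ g : ℕ, 2 * g + orbits a + orbits b + orbits c = Fintype.card X + 2 := by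
  obtain ⟨k, hk⟩ := parity habc
  rcases isEmpty_or_nonempty X with hX | ⟨⟨p₀⟩⟩
  · have h0 : Fintype.card X = 0 := Fintype.card_eq_zero
    have ha := orbits_le_card a
    have hb := orbits_le_card b
    have hc := orbits_le_card c
    exact ⟨1, by omega⟩
  · have hle := ree_le habc htrans p₀
    exact ⟨Fintype.card X + 1 - k, by omega⟩

end Parity

section Action

variable {G : Type*} [Group G] {X : Type*} [MulAction G X]

/-- Group-action form: if `x, y` generate `G`, and `G` acts transitively on the finite set `X`,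
then `|X| + 2 - (o(x) + o(y) + o(x y))` is a non-negative even integer, where `o(g)` is the
number of orbits of `g` on `X`. -/
theorem exists_genus [Finite X] [MulAction.IsPretransitive G X] (x y : G)
    (hgen : Subgroup.closure ({x, y} : Set G) = ⊤) :
    ∃ g : ℕ, 2 * g + orbits (MulAction.toPerm x : Equiv.Perm X)
        + orbits (MulAction.toPerm y : Equiv.Perm X)
        + orbits (MulAction.toPerm (x * y) : Equiv.Perm X) = Nat.card X + 2 := by
  classical
  have : Fintype X := Fintype.ofFinite X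
  set φ : G →* Equiv.Perm X := MulAction.toPermHom G X with hφ
  have habc : φ x * φ y * (φ (x * y))⁻¹ = 1 := by
    rw [map_mul]; exact mul_inv_cancel _
  have htrans : ∀ p q : X, ∃ g ∈ Subgroup.closure ({φ x, φ y} : Set (Equiv.Perm X)), g p = q := by
    intro p q
    obtain ⟨γ, hγ⟩ := MulAction.exists_smul_eq G p q
    refine ⟨φ γ, ?_, hγ⟩
    have h1 : φ γ ∈ Subgroup.map φ (Subgroup.closure ({x, y} : Set G)) :=
      Subgroup.mem_map_of_mem φ (by rw [hgen]; exact Subgroup.mem_top γ)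
    rw [MonoidHom.map_closure, Set.image_pair] at h1
    exact h1
  obtain ⟨g, hg⟩ := exists_genus_perm habc htrans
  rw [orbits_inv] at hg
  refine ⟨g, ?_⟩
  rw [Nat.card_eq_fintype_card]
  exact hg

end Action

section SL2Z

open scoped MatrixGroups

/-- Specialisation to `SL₂(ℤ)` acting on the cosets of a finite-index subgroup `Γ`:
`|X| + 2 - o(S) - o(ST) - o(T)` is a non-negative even integer `2g`. -/
theorem exists_genus_SL2Z (Γ : Subgroup SL(2, ℤ)) [Γ.FiniteIndex] :
    ∃ g : ℕ, (Nat.card (SL(2, ℤ) ⧸ Γ) : ℤ) + 2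
        - orbits (MulAction.toPerm ModularGroup.S : Equiv.Perm (SL(2, ℤ) ⧸ Γ))
        - orbits (MulAction.toPerm (ModularGroup.S * ModularGroup.T) :
            Equiv.Perm (SL(2, ℤ) ⧸ Γ))
        - orbits (MulAction.toPerm ModularGroup.T : Equiv.Perm (SL(2, ℤ) ⧸ Γ))
      = 2 * (g : ℤ) := by
  have : Finite (SL(2, ℤ) ⧸ Γ) := inferInstance
  obtain ⟨g, hg⟩ := exists_genus (G := SL(2, ℤ)) (X := SL(2, ℤ) ⧸ Γ)
    ModularGroup.S ModularGroup.T SpecialLinearGroup.SL2Z_generators
  refine ⟨g, ?_⟩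
  have := congrArg (Nat.cast : ℕ → ℤ) hg
  push_cast at this
  linarith

/-- The same for `Γ₀(N)`. -/
theorem exists_genus_Gamma0 (N : ℕ) [NeZero N] :
    ∃ g : ℕ, (Nat.card (SL(2, ℤ) ⧸ CongruenceSubgroup.Gamma0 N) : ℤ) + 2
        - orbits (MulAction.toPerm ModularGroup.S :
            Equiv.Perm (SL(2, ℤ) ⧸ CongruenceSubgroup.Gamma0 N))
        - orbits (MulAction.toPerm (ModularGroup.S * ModularGroup.T) :
            Equiv.Perm (SL(2, ℤ) ⧸ CongruenceSubgroup.Gamma0 N))
        - orbits (MulAction.toPerm ModularGroup.T :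
            Equiv.Perm (SL(2, ℤ) ⧸ CongruenceSubgroup.Gamma0 N))
      = 2 * (g : ℤ) :=
  exists_genus_SL2Z _

end SL2Z

end Fermat.Agent.S24.Scott

end
-- ===== PACK-END S24/Scott.lean

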