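import Mathlib
import Mathlib.RingTheory.Localization.AsSubring
import Mathlib.RingTheory.Localization.AtPrime.Basic
import Mathlib.RingTheory.Localization.Ideal
import Mathlib.RingTheory.DiscreteValuationRing.TFAE
import Mathlib.RingTheory.Ideal.AssociatedPrime.Basic
import Mathlib.RingTheory.Valuation.ValuationSubring
import Mathlib.RingTheory.Valuation.ValuationRing
import Mathlib.RingTheory.IntegralClosure.IntegrallyClosed
import Mathlib.Tactic
import Fermat.Agent.Pack.S44C.G0E3L0

-- ===== PACK-BEGIN S37/H88/CharpolyEmb.lean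
section


/-!
# S37 / E-a (helper88): characteristic polynomial as a product over embeddings (Mathlib only)

`charpoly_map_eq_prod_embeddings` : let `K/F` be a finite field extension, `φ : F →+* Ω` a ring
homomorphism into a field and `σ i : K →+* Ω`, `i : ι`, pairwise distinct extensions of `φ`, with
`#ι = [K : F]`.  Then for every `x : K`

  `(charpoly of multiplication by x).map φ = ∏ i, (X - C (σ i x))`.

No separability or normality hypothesis; `Ω` need not be algebraically closed.
Corollaries: `norm_map_eq_prod_embeddings`, `trace_map_eq_sum_embeddings`.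
-/

set_option autoImplicit false

noncomputable section

namespace Fermat.Agent.S37.H88

open Polynomial Matrix

/-- If `P * M = D * P` with `det P ≠ 0` over a domain, then `M` and `D` have the same
characteristic polynomial. -/
theorem charpoly_eq_of_intertwine' {S : Type*} [CommRing S] [IsDomain S] {n : Type*} [Fintype n]
    [DecidableEq n] (P M D : Matrix n n S) (hPM : P * M = D * P) (hdet : P.det ≠ 0) :
    M.charpoly = D.charpoly := by
  have hscal : (P.map C) * Matrix.scalar n (X : S[X]) = Matrix.scalar n (X : S[X]) * (P.map C) :=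
    ((Matrix.scalar_commute (X : S[X]) (fun r' => Commute.all _ _)) (P.map C)).eq.symm
  have hmap : (P.map C) * (M.map C) = (D.map C) * (P.map (C : S →+* S[X])) := by
    rw [← Matrix.map_mul, ← Matrix.map_mul, hPM]
  have hchar : (P.map C) * charmatrix M = charmatrix D * (P.map C) := by
    rw [charmatrix, charmatrix, Matrix.mul_sub, Matrix.sub_mul, hscal]
    congr 1
  have hdets := congrArg Matrix.det hchar
  rw [Matrix.det_mul, Matrix.det_mul] at hdets
  have hPC : (P.map (C : S →+* S[X])).det ≠ 0 := by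
    have : (P.map (C : S →+* S[X])).det = C P.det := by
      rw [← RingHom.mapMatrix_apply, ← RingHom.map_det]
    rw [this]
    exact (map_ne_zero_iff _ C_injective).mpr hdet
  rw [mul_comm (charmatrix D).det] at hdets
  exact mul_left_cancel₀ hPC hdets

section

variable {F K Ω ι : Type*} [Field F] [Field K] [Field Ω] [Algebra F K] [Fintype ι]
  [DecidableEq ι]

/-- the matrix `(σ i (b j))` of a family of distinct extensions of `φ` is invertible -/
theorem det_embeddings_ne_zero (φ : F →+* Ω) (σ : ι → K →+* Ω)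
    (hσ : ∀ i a, σ i (algebraMap F K a) = φ a) (hinj : Function.Injective σ)
    (b : Module.Basis ι F K) :
    (Matrix.of fun i j => σ i (b j)).det ≠ 0 := by
  intro hdet
  obtain ⟨v, hv0, hv⟩ := Matrix.exists_vecMul_eq_zero_iff.mpr hdet
  apply hv0
  have hli : LinearIndependent Ω (fun i : ι => ((σ i : K →* Ω) : K → Ω)) := by
    have h1 := linearIndependent_monoidHom K Ω
    refine h1.comp (fun i : ι => (σ i : K →* Ω)) ?_
    intro i i' h
    apply hinj
    ext y
    exact DFunLike.congr_fun h y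
  have hsum : ∑ i, v i • ((σ i : K →* Ω) : K → Ω) = 0 := by
    funext y
    rw [Finset.sum_apply, Pi.zero_apply]
    simp only [Pi.smul_apply, smul_eq_mul]
    have hy : ∀ i, (σ i : K →* Ω) y = ∑ j, φ (b.repr y j) * σ i (b j) := by
      intro i
      conv_lhs => rw [← b.sum_repr y]
      show σ i (∑ j, b.repr y j • b j) = _
      rw [map_sum]
      refine Finset.sum_congr rfl fun j _ => ?_
      rw [Algebra.smul_def, map_mul, hσ]
    simp_rw [hy, Finset.mul_sum]
    rw [Finset.sum_comm]
    refine Finset.sum_eq_zero fun j _ => ?_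
    have hj := congrFun hv j
    simp only [Matrix.vecMul, dotProduct, Matrix.of_apply, Pi.zero_apply] at hj
    calc ∑ i, v i * (φ (b.repr y j) * σ i (b j))
        = φ (b.repr y j) * ∑ i, v i * σ i (b j) := by
          rw [Finset.mul_sum]
          refine Finset.sum_congr rfl fun i _ => ?_
          ring
      _ = 0 := by rw [hj, mul_zero]
  funext i
  exact Fintype.linearIndependent_iff.mp hli v hsum i

/-- **Characteristic polynomial as a product over embeddings.** -/
theorem charpoly_map_eq_prod_embeddings [FiniteDimensional F K] (φ : F →+* Ω)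
    (σ : ι → K →+* Ω) (hσ : ∀ i a, σ i (algebraMap F K a) = φ a)
    (hinj : Function.Injective σ) (hcard : Module.finrank F K = Fintype.card ι) (x : K) :
    ((Algebra.lmul F K x).charpoly).map φ = ∏ i, (X - C (σ i x)) := by
  have hcard' : Module.finrank F K = Fintype.card ι := hcard
  let b0 : Module.Basis (Fin (Module.finrank F K)) F K := Module.finBasis F K
  let e : Fin (Module.finrank F K) ≃ ι :=
    Fintype.equivOfCardEq (by rw [Fintype.card_fin, hcard'])
  let b : Module.Basis ι F K := b0.reindex e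
  have hM : (Algebra.lmul F K x).charpoly = (Algebra.leftMulMatrix b x).charpoly := by
    rw [Algebra.leftMulMatrix_apply, LinearMap.charpoly_toMatrix]
  set M := Algebra.leftMulMatrix b x with hMdef
  set P : Matrix ι ι Ω := Matrix.of fun i j => σ i (b j) with hP
  have hPM : P * M.map φ = Matrix.diagonal (fun i => σ i x) * P := by
    ext i j
    rw [Matrix.mul_apply, Matrix.diagonal_mul]
    simp only [hP, Matrix.of_apply, Matrix.map_apply]
    have h1 : x * b j = ∑ k, M k j • b k := by
      have h2 := b.sum_repr (x * b j)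
      rw [← h2]
      refine Finset.sum_congr rfl fun k _ => ?_
      rw [hMdef, Algebra.leftMulMatrix_apply, LinearMap.toMatrix_apply]
      rfl
    have h3 := congrArg (σ i) h1
    rw [map_mul, map_sum] at h3
    rw [h3]
    refine Finset.sum_congr rfl fun k _ => ?_
    rw [Algebra.smul_def, map_mul, hσ, mul_comm]
  have hdet := det_embeddings_ne_zero φ σ hσ hinj b
  rw [hM, ← Matrix.charpoly_map, charpoly_eq_of_intertwine' P (M.map φ) _ hPM hdet,
    Matrix.charpoly_diagonal]

/-- **Norm as a product over embeddings.** -/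
theorem norm_map_eq_prod_embeddings [FiniteDimensional F K] (φ : F →+* Ω)
    (σ : ι → K →+* Ω) (hσ : ∀ i a, σ i (algebraMap F K a) = φ a)
    (hinj : Function.Injective σ) (hcard : Module.finrank F K = Fintype.card ι) (x : K) :
    φ (Algebra.norm F x) = ∏ i, σ i x := by
  have h := charpoly_map_eq_prod_embeddings φ σ hσ hinj hcard x
  have h0 := congrArg (fun p : Polynomial Ω => p.coeff 0) h
  simp only [Polynomial.coeff_map] at h0
  rw [Algebra.norm_apply, LinearMap.det_eq_sign_charpoly_coeff, map_mul, map_pow, map_neg,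
    map_one, h0, hcard, Polynomial.coeff_zero_eq_eval_zero, Polynomial.eval_prod]
  simp only [Polynomial.eval_sub, Polynomial.eval_X, Polynomial.eval_C, zero_sub]
  rw [Finset.prod_neg, Finset.card_univ, ← mul_assoc, ← mul_pow]
  simp

end

end Fermat.Agent.S37.H88

end
end
-- ===== PACK-END S37/H88/CharpolyEmb.lean

-- ===== PACK-BEGIN S18/H754/DivisorPow.lean
section


/-!
# S18 / Route K / étale Kummer cover, piece P2 (helper754)

In a UFD `R` with fraction field `F`: if `u ∈ Fˣ` is, at every prime element `π`, a `π`-unit times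
a `p`-th power, then `u` is a unit of `R` times a `p`-th power.
-/

set_option autoImplicit false

noncomputable section

namespace Fermat.Agent.S18.H754

section P2

variable {R : Type*} [CommRing R] [IsDomain R]
  {F : Type*} [Field F] [Algebra R F] [IsFractionRing R F]

/-- `u` is a `π`-adic unit times a `p`-th power. -/
def LocallyPow (R : Type*) [CommRing R] {F : Type*} [Field F] [Algebra R F]
    (p : ℕ) (u : F) (π : R) : Prop :=
  ∃ t : F, ∃ a b : R, ¬ π ∣ a ∧ ¬ π ∣ b ∧ u * t ^ p * algebraMap R F b = algebraMap R F a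

omit [IsDomain R] [IsFractionRing R F] in
lemma LocallyPow.mul_pow {p : ℕ} {u : F} {π : R} (h : LocallyPow R p u π) {c : F} (hc : c ≠ 0) :
    LocallyPow R p (u * c ^ p) π := by
  obtain ⟨t, a, b, ha, hb, h⟩ := h
  refine ⟨t / c, a, b, ha, hb, ?_⟩
  rw [← h, div_pow]
  field_simp

omit [IsDomain R] in
lemma LocallyPow.inv {p : ℕ} {u : F} {π : R} (hu : u ≠ 0) (h : LocallyPow R p u π) :
    LocallyPow R p u⁻¹ π := by
  obtain ⟨t, a, b, ha, hb, h⟩ := h
  refine ⟨t⁻¹, b, a, hb, ha, ?_⟩
  by_cases hp : p = 0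
  · subst hp
    simp only [pow_zero, mul_one] at h ⊢
    rw [← h]
    field_simp
  · have ht : t ≠ 0 := by
      rintro rfl
      rw [zero_pow hp, mul_zero, zero_mul] at h
      have ha0 : a = 0 := IsFractionRing.injective R F (by rw [← h, map_zero])
      exact ha (ha0 ▸ dvd_zero π)
    rw [← h, inv_pow]
    field_simp

variable [UniqueFactorizationMonoid R]

/-- the key divisibility: a prime dividing the numerator but not the denominator of a locally
`p`-th power divides the numerator at least `p` times. -/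
lemma pow_dvd_of_locallyPow {p : ℕ} {π : R} (hπ : Prime π) {a b : R} (ha : a ≠ 0) (hb : b ≠ 0)
    (hπa : π ∣ a) (hπb : ¬ π ∣ b)
    (h : LocallyPow R p (algebraMap R F a / algebraMap R F b) π) : π ^ p ∣ a := by
  obtain ⟨t, a', b', ha', hb', h⟩ := h
  have ha'0 : a' ≠ 0 := fun h0 => ha' (h0 ▸ dvd_zero π)
  have hb'0 : b' ≠ 0 := fun h0 => hb' (h0 ▸ dvd_zero π)
  obtain ⟨c, d, hd, rfl⟩ := IsFractionRing.div_surjective (A := R) t
  have hd0 : d ≠ 0 := nonZeroDivisors.ne_zero hd
  have hinj := IsFractionRing.injective R F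
  have hbF : algebraMap R F b ≠ 0 := fun h0 => hb (hinj (by rw [h0, map_zero]))
  have hdF : algebraMap R F d ≠ 0 := fun h0 => hd0 (hinj (by rw [h0, map_zero]))
  have hc0 : c ≠ 0 := by
    rintro rfl
    by_cases hp : p = 0
    · subst hp
      simp only [pow_zero, mul_one] at h
      -- `a * b' = a' * b`
      have h2 : a * b' = a' * b := by
        apply hinj
        rw [map_mul, map_mul, ← h]
        field_simp
      have : π ∣ a' * b := h2 ▸ Dvd.dvd.mul_right hπa b'
      rcases hπ.dvd_or_dvd this with h3 | h3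
      · exact ha' h3
      · exact hπb h3
    · rw [map_zero, zero_div, zero_pow hp, mul_zero, zero_mul] at h
      exact ha'0 (hinj (by rw [← h, map_zero]))
  have heq : a * c ^ p * b' = a' * b * d ^ p := by
    apply hinj
    simp only [map_mul, map_pow]
    rw [← h, div_pow]
    field_simp
  -- multiplicities
  have hfin : ∀ x : R, x ≠ 0 → FiniteMultiplicity π x :=
    fun x hx => FiniteMultiplicity.of_prime_left hπ hx
  have e1 := congrArg (emultiplicity π) heq
  rw [emultiplicity_mul hπ, emultiplicity_mul hπ, emultiplicity_mul hπ, emultiplicity_mul hπ,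
    emultiplicity_pow hπ, emultiplicity_pow hπ, emultiplicity_eq_zero.mpr ha',
    emultiplicity_eq_zero.mpr hb', emultiplicity_eq_zero.mpr hπb,
    (hfin a ha).emultiplicity_eq_multiplicity, (hfin c hc0).emultiplicity_eq_multiplicity,
    (hfin d hd0).emultiplicity_eq_multiplicity] at e1
  have e2 : multiplicity π a + p * multiplicity π c = p * multiplicity π d := by
    have : ((multiplicity π a + p * multiplicity π c : ℕ) : ℕ∞) =
        ((p * multiplicity π d : ℕ) : ℕ∞) := by
      push_cast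
      simpa using e1
    exact_mod_cast this
  have h1 : 1 ≤ multiplicity π a := by
    rw [← (hfin a ha).pow_dvd_iff_le_multiplicity, pow_one]
    exact hπa
  have h2 : p ∣ multiplicity π a := by
    have : p ∣ multiplicity π a + p * multiplicity π c := ⟨multiplicity π d, e2⟩
    exact (Nat.dvd_add_left (Dvd.intro _ rfl)).mp this
  have h3 : p ≤ multiplicity π a := Nat.le_of_dvd h1 h2
  exact pow_dvd_of_le_multiplicity h3

lemma pow_dvd_of_locallyPow' {p : ℕ} {π : R} (hπ : Prime π) {a b : R} (ha : a ≠ 0) (hb : b ≠ 0)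
    (hπa : ¬ π ∣ a) (hπb : π ∣ b)
    (h : LocallyPow R p (algebraMap R F a / algebraMap R F b) π) : π ^ p ∣ b := by
  have hinj := IsFractionRing.injective R F
  have haF : algebraMap R F a ≠ 0 := fun h0 => ha (hinj (by rw [h0, map_zero]))
  have hbF : algebraMap R F b ≠ 0 := fun h0 => hb (hinj (by rw [h0, map_zero]))
  have h' := h.inv (div_ne_zero haF hbF)
  rw [inv_div] at h'
  exact pow_dvd_of_locallyPow hπ hb ha hπb hπa h'

/-- **P2.** In a UFD, an element of the fraction field which is locally (at every prime element)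
a unit times a `p`-th power is a unit times a `p`-th power. -/
theorem exists_unit_mul_pow_aux (p : ℕ) (hp : 0 < p) :
    ∀ x : R, x ≠ 0 → ∀ a b : R, a * b = x →
      (∀ π : R, Prime π → LocallyPow R p (algebraMap R F a / algebraMap R F b) π) →
      ∃ s : F, s ≠ 0 ∧ ∃ w : Rˣ,
        algebraMap R F a / algebraMap R F b * s ^ p = algebraMap R F w := by
  intro x
  refine WellFounded.induction (wellFounded_dvdNotUnit (α := R))
    (C := fun x => x ≠ 0 → ∀ a b : R, a * b = x →
      (∀ π : R, Prime π → LocallyPow R p (algebraMap R F a / algebraMap R F b) π) →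
      ∃ s : F, s ≠ 0 ∧ ∃ w : Rˣ,
        algebraMap R F a / algebraMap R F b * s ^ p = algebraMap R F w) x ?_
  intro x ih hx a b hab H
  have hinj := IsFractionRing.injective R F
  have ha : a ≠ 0 := fun h0 => hx (by rw [← hab, h0, zero_mul])
  have hb : b ≠ 0 := fun h0 => hx (by rw [← hab, h0, mul_zero])
  have haF : algebraMap R F a ≠ 0 := fun h0 => ha (hinj (by rw [h0, map_zero]))
  have hbF : algebraMap R F b ≠ 0 := fun h0 => hb (hinj (by rw [h0, map_zero]))
  by_cases hxu : IsUnit x
  · -- both `a` and `b` are units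
    have hau : IsUnit a := isUnit_of_mul_isUnit_left (hab ▸ hxu)
    have hbu : IsUnit b := isUnit_of_mul_isUnit_right (hab ▸ hxu)
    obtain ⟨ua, hua⟩ := hau
    obtain ⟨ub, hub⟩ := hbu
    refine ⟨1, one_ne_zero, ua * ub⁻¹, ?_⟩
    rw [one_pow, mul_one, Units.val_mul, map_mul, ← hua, ← hub, div_eq_mul_inv, map_units_inv]
  · obtain ⟨π, hπirr, hπx⟩ := WfDvdMonoid.exists_irreducible_factor hxu hx
    have hπ : Prime π := UniqueFactorizationMonoid.irreducible_iff_prime.mp hπirr
    have hπF : algebraMap R F π ≠ 0 := fun h0 => hπ.ne_zero (hinj (by rw [h0, map_zero]))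
    by_cases hπa : π ∣ a
    · by_cases hπb : π ∣ b
      · -- cancel `π`
        obtain ⟨a₁, rfl⟩ := hπa
        obtain ⟨b₁, rfl⟩ := hπb
        have ha₁ : a₁ ≠ 0 := right_ne_zero_of_mul ha
        have hb₁ : b₁ ≠ 0 := right_ne_zero_of_mul hb
        have hlt : DvdNotUnit (a₁ * b₁) x := by
          refine ⟨mul_ne_zero ha₁ hb₁, π * π, ?_, ?_⟩
          · intro hu
            exact hπ.not_unit (isUnit_of_mul_isUnit_left hu)
          · rw [← hab]; ring
        have hquot : algebraMap R F (π * a₁) / algebraMap R F (π * b₁) =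
            algebraMap R F a₁ / algebraMap R F b₁ := by
          rw [map_mul, map_mul]
          field_simp
        rw [hquot] at H ⊢
        exact ih (a₁ * b₁) hlt (mul_ne_zero ha₁ hb₁) a₁ b₁ rfl H
      · -- `π ^ p ∣ a`
        obtain ⟨a₂, rfl⟩ := pow_dvd_of_locallyPow hπ ha hb hπa hπb (H π hπ)
        have ha₂ : a₂ ≠ 0 := right_ne_zero_of_mul ha
        have hlt : DvdNotUnit (a₂ * b) x := by
          refine ⟨mul_ne_zero ha₂ hb, π ^ p, ?_, ?_⟩
          · intro hu
            exact hπ.not_unit (isUnit_of_dvd_unit (dvd_pow_self π hp.ne') hu)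
          · rw [← hab]; ring
        have hquot : algebraMap R F a₂ / algebraMap R F b =
            algebraMap R F (π ^ p * a₂) / algebraMap R F b * ((algebraMap R F π)⁻¹) ^ p := by
          rw [map_mul, map_pow, inv_pow]
          field_simp
        have H' : ∀ π' : R, Prime π' →
            LocallyPow R p (algebraMap R F a₂ / algebraMap R F b) π' := by
          intro π' hπ'
          rw [hquot]
          exact (H π' hπ').mul_pow (inv_ne_zero hπF)
        obtain ⟨s, hs, w, hw⟩ := ih (a₂ * b) hlt (mul_ne_zero ha₂ hb) a₂ b rfl H'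
        refine ⟨s * (algebraMap R F π)⁻¹, mul_ne_zero hs (inv_ne_zero hπF), w, ?_⟩
        rw [← hw, hquot]
        ring
    · have hπb : π ∣ b := by
        rcases hπ.dvd_or_dvd (hab ▸ hπx) with h | h
        · exact absurd h hπa
        · exact h
      obtain ⟨b₂, rfl⟩ := pow_dvd_of_locallyPow' hπ ha hb hπa hπb (H π hπ)
      have hb₂ : b₂ ≠ 0 := right_ne_zero_of_mul hb
      have hlt : DvdNotUnit (a * b₂) x := by
        refine ⟨mul_ne_zero ha hb₂, π ^ p, ?_, ?_⟩
        · intro hu
          exact hπ.not_unit (isUnit_of_dvd_unit (dvd_pow_self π hp.ne') hu)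
        · rw [← hab]; ring
      have hb₂F : algebraMap R F b₂ ≠ 0 := fun h0 => hb₂ (hinj (by rw [h0, map_zero]))
      have hquot : algebraMap R F a / algebraMap R F b₂ =
          algebraMap R F a / algebraMap R F (π ^ p * b₂) * (algebraMap R F π) ^ p := by
        rw [map_mul, map_pow]
        field_simp
      have H' : ∀ π' : R, Prime π' →
          LocallyPow R p (algebraMap R F a / algebraMap R F b₂) π' := by
        intro π' hπ'
        rw [hquot]
        exact (H π' hπ').mul_pow hπF
      obtain ⟨s, hs, w, hw⟩ := ih (a * b₂) hlt (mul_ne_zero ha hb₂) a b₂ rfl H'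
      refine ⟨s * algebraMap R F π, mul_ne_zero hs hπF, w, ?_⟩
      rw [← hw, hquot]
      ring

theorem exists_unit_mul_pow (p : ℕ) (hp : 0 < p) (u : F) (hu : u ≠ 0)
    (H : ∀ π : R, Prime π → LocallyPow R p u π) :
    ∃ s : F, s ≠ 0 ∧ ∃ w : Rˣ, u * s ^ p = algebraMap R F w := by
  obtain ⟨a, b, hb, rfl⟩ := IsFractionRing.div_surjective (A := R) u
  have hb0 : b ≠ 0 := nonZeroDivisors.ne_zero hb
  have ha0 : a ≠ 0 := by
    rintro rfl
    rw [map_zero, zero_div] at hu
    exact hu rfl
  exact exists_unit_mul_pow_aux p hp (a * b) (mul_ne_zero ha0 hb0) a b rfl H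

end P2

end Fermat.Agent.S18.H754

end

end
-- ===== PACK-END S18/H754/DivisorPow.lean

-- ===== PACK-BEGIN A2/Alg/H754/ChartDim.lean
section


/-!
# A2 / ALG / P-S (helper754): the components of a two-dimensional chart are Dedekind

`B` a domain, integral over a Noetherian ring `A₀` of Krull dimension `≤ 2` (`A₀ = R[x]`, `R` a
DVR).  Then every prime `q` strictly containing a nonzero prime `p` is maximal; hence `B ⧸ p` is
a Dedekind domain as soon as it is Noetherian and integrally closed.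
-/

set_option autoImplicit false
set_option linter.style.haveILetI false

namespace Fermat.Agent.A2.Alg.H754

section Dim

variable {A₀ B : Type*} [CommRing A₀] [IsNoetherianRing A₀] [CommRing B] [IsDomain B]
  [Algebra A₀ B] [Algebra.IsIntegral A₀ B]

/-- No chain of primes `⊥ < p < q < M` in an integral extension of a ring of dimension `≤ 2`. -/
theorem isMaximal_of_lt_of_ne_bot (hdim : ringKrullDim A₀ ≤ 2) (p q : Ideal B) [hp : p.IsPrime]
    [hq : q.IsPrime] (hp0 : p ≠ ⊥) (hpq : p < q) : q.IsMaximal := by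
  by_contra hmax
  obtain ⟨M, hM, hqM⟩ := Ideal.exists_le_maximal q hq.ne_top
  have hqM' : q < M := lt_of_le_of_ne hqM (fun h => hmax (h ▸ hM))
  haveI hMp : M.IsPrime := hM.isPrime
  haveI hbot : (⊥ : Ideal B).IsPrime := Ideal.isPrime_bot
  have key : ∀ (I J : Ideal B) [I.IsPrime], I < J →
      I.comap (algebraMap A₀ B) < J.comap (algebraMap A₀ B) := by
    intro I J _ hIJ
    obtain ⟨x, hxJ, hxI⟩ := SetLike.exists_of_lt hIJ
    exact Ideal.comap_lt_comap_of_integral_mem_sdiff hIJ.le ⟨hxJ, hxI⟩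
      (Algebra.IsIntegral.isIntegral x)
  have h0 := key ⊥ p (bot_lt_iff_ne_bot.2 hp0)
  have h1 := key p q hpq
  have h2 := key q M hqM'
  haveI := Ideal.finiteHeight_of_isNoetherianRing ((⊥ : Ideal B).comap (algebraMap A₀ B))
  haveI := Ideal.finiteHeight_of_isNoetherianRing (p.comap (algebraMap A₀ B))
  haveI := Ideal.finiteHeight_of_isNoetherianRing (q.comap (algebraMap A₀ B))
  have e0 := Order.add_one_le_of_lt (Ideal.height_strict_mono_of_isPrime h0)
  have e1 := Order.add_one_le_of_lt (Ideal.height_strict_mono_of_isPrime h1)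
  have e2 := Order.add_one_le_of_lt (Ideal.height_strict_mono_of_isPrime h2)
  have hne : M.comap (algebraMap A₀ B) ≠ ⊤ := (Ideal.comap_isPrime _ M).ne_top
  have e3 : ((M.comap (algebraMap A₀ B)).height : WithBot ℕ∞) ≤ 2 :=
    le_trans (Ideal.height_le_ringKrullDim_of_ne_top hne) hdim
  have e3' : (M.comap (algebraMap A₀ B)).height ≤ 2 := by
    have h2 : ((2 : ℕ∞) : WithBot ℕ∞) = 2 := rfl
    rw [← h2] at e3
    exact WithBot.coe_le_coe.1 e3
  have e4 : (3 : ℕ∞) ≤ (M.comap (algebraMap A₀ B)).height := by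
    calc (3 : ℕ∞) = 0 + 1 + 1 + 1 := by norm_num
      _ ≤ ((⊥ : Ideal B).comap (algebraMap A₀ B)).height + 1 + 1 + 1 := by gcongr; exact zero_le
      _ ≤ (p.comap (algebraMap A₀ B)).height + 1 + 1 := by gcongr
      _ ≤ (q.comap (algebraMap A₀ B)).height + 1 := by gcongr
      _ ≤ _ := e2
  have : (3 : ℕ∞) ≤ 2 := le_trans e4 e3'
  exact absurd this (by decide)

/-- The components of the special fibre are Dedekind. -/
theorem isDedekindDomain_quotient_of_dim [IsNoetherianRing B] (hdim : ringKrullDim A₀ ≤ 2)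
    (p : Ideal B) [hp : p.IsPrime] (hp0 : p ≠ ⊥) (hnorm : IsIntegrallyClosed (B ⧸ p)) :
    IsDedekindDomain (B ⧸ p) := by
  have hsurj : Function.Surjective (Ideal.Quotient.mk p) := Ideal.Quotient.mk_surjective
  have h1 : IsNoetherianRing (B ⧸ p) := inferInstance
  have h2 : Ring.DimensionLEOne (B ⧸ p) := by
    refine ⟨fun {Q} hQ0 hQ => ?_⟩
    haveI := hQ
    have hle : p ≤ Q.comap (Ideal.Quotient.mk p) := by
      intro b hb
      rw [Ideal.mem_comap, Ideal.Quotient.eq_zero_iff_mem.2 hb]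
      exact Q.zero_mem
    have hne : p ≠ Q.comap (Ideal.Quotient.mk p) := by
      intro h
      apply hQ0
      rw [← Ideal.map_comap_of_surjective _ hsurj Q, ← h, Ideal.map_quotient_self]
    have hmax : (Q.comap (Ideal.Quotient.mk p)).IsMaximal :=
      isMaximal_of_lt_of_ne_bot (A₀ := A₀) hdim p _ hp0 (lt_of_le_of_ne hle hne)
    rw [← Ideal.map_comap_of_surjective _ hsurj Q]
    haveI := hmax
    exact Ideal.IsMaximal.map_of_surjective_of_ker_le hsurj (by rw [Ideal.mk_ker]; exact hle)
  have h3 : IsIntegrallyClosed (B ⧸ p) := hnorm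
  exact { h1, h2, h3 with }

end Dim

end Fermat.Agent.A2.Alg.H754

end
-- ===== PACK-END A2/Alg/H754/ChartDim.lean

-- ===== PACK-BEGIN A2/H729/RegSeq.lean
section


/-!
# A2 (helper729): the regular-sequence lemma on a normal model

`A` an integrally closed domain, `F` a field containing `A`, `w ∈ A` prime, `s ∈ A` not divisible
by `w`.  If `w t` and `s t` are integral over `A` then `t` is integral over `A`.
(No noetherian hypothesis, no Krull domains: minimal polynomials and `scaleRoots`.)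
-/

set_option autoImplicit false

namespace Fermat.Agent.A2.H729

open Polynomial

variable {A : Type*} [CommRing A] [IsDomain A] [IsIntegrallyClosed A]
  {F : Type*} [Field F] [Algebra A F] [Module.IsTorsionFree A F]

theorem isIntegral_of_smul_of_smul {w s : A} (hw : Prime w) (hs : ¬ w ∣ s) {t : F}
    (h1 : IsIntegral A (w • t)) (h2 : IsIntegral A (s • t)) : IsIntegral A t := by
  classical
  have hw0 : w ≠ 0 := hw.ne_zero
  have hs0 : s ≠ 0 := fun h => hs (h ▸ dvd_zero w)
  set p := minpoly A (w • t) with hp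
  set p' := minpoly A (s • t) with hp'
  have hcomm : s • (w • t) = w • (s • t) := smul_comm s w t
  have hE : p.scaleRoots s = p'.scaleRoots w := by
    rw [hp, hp', ← IsIntegrallyClosed.minpoly_smul hs0 h1, ← IsIntegrallyClosed.minpoly_smul hw0 h2,
      hcomm]
  set n := p.natDegree with hn
  have hn' : p'.natDegree = n := by
    have := congrArg natDegree hE
    rw [natDegree_scaleRoots, natDegree_scaleRoots] at this
    exact this.symm
  have hcoef : ∀ i, p.coeff i * s ^ (n - i) = p'.coeff i * w ^ (n - i) := by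
    intro i
    have := congrArg (fun q => q.coeff i) hE
    simp only [coeff_scaleRoots] at this
    rw [hn'] at this
    exact this
  have hspow : ∀ k : ℕ, ¬ w ∣ s ^ k := fun k h => hs (hw.dvd_of_dvd_pow h)
  have hdvd : ∀ i, w ^ (n - i) ∣ p.coeff i := by
    intro i
    refine hw.pow_dvd_of_dvd_mul_right _ (hspow (n - i)) ?_
    rw [hcoef i]
    exact Dvd.intro_left _ rfl
  choose c hc using hdvd
  have hmonic : p.Monic := minpoly.monic h1
  -- the monic polynomial annihilating `t`
  set q : A[X] := X ^ n + ∑ i : Fin n, C (c i) * X ^ (i : ℕ) with hq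
  have hqm : q.Monic := monic_X_pow_add (degree_sum_fin_lt fun i : Fin n => c i)
  refine ⟨q, hqm, ?_⟩
  have hp_eval : aeval (w • t) p = 0 := minpoly.aeval A (w • t)
  -- expand `p` as a sum over `range (n+1)`
  have hpsum : aeval (w • t) p = ∑ i ∈ Finset.range (n + 1), p.coeff i • (w • t) ^ i := by
    rw [aeval_eq_sum_range]
  have key : (w ^ n) • (eval₂ (algebraMap A F) t q) = aeval (w • t) p := by
    rw [hpsum, hq, eval₂_add, eval₂_pow, eval₂_X, eval₂_finsetSum, Finset.sum_range_succ,
      Finset.sum_range fun i => p.coeff i • (w • t) ^ i]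
    have hlead : p.coeff n = 1 := hmonic.coeff_natDegree
    rw [hlead, one_smul, smul_add, Finset.smul_sum, add_comm]
    congr 1
    · refine Finset.sum_congr rfl fun i _ => ?_
      rw [eval₂_mul, eval₂_C, eval₂_pow, eval₂_X, hc i, _root_.smul_pow, Algebra.smul_def,
        Algebra.smul_def, Algebra.smul_def, map_mul, map_pow, map_pow, map_pow]
      have hpow : (algebraMap A F w) ^ n =
          (algebraMap A F w) ^ (n - (i : ℕ)) * (algebraMap A F w) ^ (i : ℕ) := by
        rw [← pow_add]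
        congr 1
        have := i.2
        omega
      rw [hpow]
      ring
    · rw [_root_.smul_pow]
  have h0 : (w ^ n) • (eval₂ (algebraMap A F) t q) = 0 := by rw [key, hp_eval]
  rcases smul_eq_zero.1 h0 with h | h
  · exact absurd h (pow_ne_zero _ hw0)
  · exact h

end Fermat.Agent.A2.H729

end
-- ===== PACK-END A2/H729/RegSeq.lean

-- ===== PACK-BEGIN Ribet/H224/WPNewton.lean
section


/-!
# RIBET row 38, WALL-p, W-ALGP leaf WPN: the Mathlib-only calculus  (helper224)

`p` a prime, `A` a commutative ring, `lam, κ ∈ A` with `p = lam ^ (p - 1) * κ` (`lam = ζ - 1`).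

* `wpn_one_add_pow`  : `(1 + y) ^ p = 1 + p y + y ^ p + p y² r`.
* `wpn_newton_step`  : in a local ring, `1 + lam^p π^j c = H ^ p (1 + lam^p π^(j+1) c')`, `j ≥ 1`
  (one Newton step; no denominators, the step stays inside `A`).
* `wpn_newton`       : `1 + lam^p π c = H ^ p (1 + lam^p π^k c')` for every `k ≥ 1`:
  an element of `1 + lam^p π A` is a `p`-th power to any `π`-adic precision.
* `wpn_root_close`   : in a valuation ring, `lam^p ∣ d ^ p - 1 ⟹ lam ∣ d - 1`.
-/

set_option autoImplicit false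

namespace Fermat.Agent.Ribet.H224

open Finset

/-- `(1 + y) ^ p = 1 + p y + y ^ p + p y² r`. -/
theorem wpn_one_add_pow {A : Type*} [CommRing A] {p : ℕ} (hp : p.Prime) (y : A) :
    ∃ r : A, (1 + y) ^ p = 1 + p * y + y ^ p + p * y ^ 2 * r := by
  have h := add_pow_prime_eq hp y (1 : A)
  have h1 : 1 ∈ Ioo 0 p := by
    rw [mem_Ioo]
    exact ⟨Nat.zero_lt_one, hp.one_lt⟩
  have hsum : ∃ r : A, ∑ k ∈ Ioo 0 p, y ^ (k - 1) * (1 : A) ^ (p - k - 1) * ↑(p.choose k / p)
      = 1 + y * r := by
    rw [← Finset.add_sum_erase _ _ h1]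
    have hfirst : y ^ (1 - 1) * (1 : A) ^ (p - 1 - 1) * ((p.choose 1 / p : ℕ) : A) = 1 := by
      rw [Nat.choose_one_right, Nat.div_self hp.pos]
      simp
    rw [hfirst]
    have hdvd : y ∣ ∑ k ∈ (Ioo 0 p).erase 1,
        y ^ (k - 1) * (1 : A) ^ (p - k - 1) * ↑(p.choose k / p) := by
      apply Finset.dvd_sum
      intro k hk
      rw [mem_erase, mem_Ioo] at hk
      have hk2 : k - 1 = (k - 2) + 1 := by omega
      rw [hk2, pow_succ]
      exact ⟨y ^ (k - 2) * (1 : A) ^ (p - k - 1) * ↑(p.choose k / p), by ring⟩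
    obtain ⟨r, hr⟩ := hdvd
    exact ⟨r, by rw [hr]⟩
  obtain ⟨r, hr⟩ := hsum
  refine ⟨r, ?_⟩
  rw [add_comm (1 : A) y, h, hr]
  ring

/-- One Newton step, inside a local ring. -/
theorem wpn_newton_step {A : Type*} [CommRing A] [IsLocalRing A] {p : ℕ} (hp : p.Prime)
    {lam π κ : A} (hκ : IsUnit κ) (hpl : (p : A) = lam ^ (p - 1) * κ)
    (hπ : π ∈ IsLocalRing.maximalIdeal A) {j : ℕ} (hj : 1 ≤ j) (c : A) :
    ∃ H c' : A, IsUnit H ∧
      1 + lam ^ p * π ^ j * c = H ^ p * (1 + lam ^ p * π ^ (j + 1) * c') := by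
  obtain ⟨κ', hκ'⟩ := hκ.exists_right_inv
  set s : A := κ' * c with hs
  set y : A := lam * π ^ j * s with hy
  have hym : y ∈ IsLocalRing.maximalIdeal A := by
    rw [hy]
    apply Ideal.mul_mem_right
    apply Ideal.mul_mem_left
    exact Ideal.pow_mem_of_mem _ hπ j (by omega)
  have hH : IsUnit (1 + y) := by
    by_contra h
    have h1 : 1 + y ∈ IsLocalRing.maximalIdeal A := (IsLocalRing.mem_maximalIdeal _).mpr h
    have h2 : (1 : A) ∈ IsLocalRing.maximalIdeal A := by
      have : (1 : A) = (1 + y) - y := by ring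
      rw [this]
      exact Ideal.sub_mem _ h1 hym
    exact (Ideal.ne_top_iff_one _).mp (IsLocalRing.maximalIdeal.isMaximal A).ne_top h2
  obtain ⟨r, hr⟩ := wpn_one_add_pow hp y
  obtain ⟨Hi, hHi⟩ := hH.exists_right_inv
  have hp2 := hp.two_le
  have hpp : lam ^ p = lam ^ (p - 1) * lam := by
    rw [← pow_succ]
    congr 1
    omega
  have hpj : π ^ (p * j) = π ^ (j + 1) * π ^ (p * j - j - 1) := by
    rw [← pow_add]
    congr 1
    have : j + 1 ≤ p * j := by nlinarith
    omega
  have hjj : π ^ (2 * j) = π ^ (j + 1) * π ^ (j - 1) := by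
    rw [← pow_add]
    congr 1
    omega
  -- the expansion
  set m : A := π ^ (p * j - j - 1) * s ^ p + lam * π ^ (j - 1) * κ * s ^ 2 * r with hm
  have hexp : (1 + y) ^ p = 1 + lam ^ p * π ^ j * c + lam ^ p * π ^ (j + 1) * m := by
    have e1 : (p : A) * y = lam ^ p * π ^ j * c := by
      rw [hpl, hy, hs, hpp]
      linear_combination (lam ^ (p - 1) * lam * π ^ j * c) * hκ'
    have e2 : y ^ p = lam ^ p * π ^ (j + 1) * (π ^ (p * j - j - 1) * s ^ p) := by
      rw [hy, mul_pow, mul_pow, ← pow_mul, mul_comm j p, hpj]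
      ring
    have e3 : (p : A) * y ^ 2 * r
        = lam ^ p * π ^ (j + 1) * (lam * π ^ (j - 1) * κ * s ^ 2 * r) := by
      rw [hpl, hy, mul_pow, mul_pow, ← pow_mul, mul_comm j 2, hjj, hpp]
      ring
    rw [hr, e1, e2, e3, hm]
    ring
  refine ⟨1 + y, -(m * Hi ^ p), hH, ?_⟩
  have hHp : (1 + y) ^ p * Hi ^ p = 1 := by
    rw [← mul_pow, hHi, one_pow]
  linear_combination (lam ^ p * π ^ (j + 1) * m) * hHp - hexp

/-- **Newton approximation below the Hensel bound is unnecessary above it**: an element of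
`1 + lam ^ p π A` is a `p`-th power to any `π`-adic precision. -/
theorem wpn_newton {A : Type*} [CommRing A] [IsLocalRing A] {p : ℕ} (hp : p.Prime)
    {lam π κ : A} (hκ : IsUnit κ) (hpl : (p : A) = lam ^ (p - 1) * κ)
    (hπ : π ∈ IsLocalRing.maximalIdeal A) (c : A) :
    ∀ k : ℕ, 1 ≤ k → ∃ H c' : A, IsUnit H ∧
      1 + lam ^ p * π * c = H ^ p * (1 + lam ^ p * π ^ k * c') := by
  intro k hk
  induction k, hk using Nat.le_induction with
  | base => exact ⟨1, c, isUnit_one, by ring⟩
  | succ k hk ih =>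
    obtain ⟨H, c', hH, e⟩ := ih
    obtain ⟨H', c'', hH', e'⟩ := wpn_newton_step hp hκ hpl hπ hk c'
    refine ⟨H * H', c'', hH.mul hH', ?_⟩
    rw [e, e']
    ring

/-- In a valuation ring: `lam ^ p ∣ d ^ p - 1 ⟹ lam ∣ d - 1` (when `p = lam ^ (p-1) κ`). -/
theorem wpn_root_close {V : Type*} [CommRing V] [IsDomain V] [ValuationRing V] {p : ℕ}
    (hp : p.Prime) {lam κ : V} (hpl : (p : V) = lam ^ (p - 1) * κ) {d : V}
    (h : lam ^ p ∣ d ^ p - 1) : lam ∣ d - 1 := by
  rcases ValuationRing.dvd_total lam (d - 1) with h1 | h1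
  · exact h1
  obtain ⟨m, hm⟩ := h1
  set y : V := d - 1 with hy
  by_cases hy0 : y = 0
  · rw [hy0]
    exact dvd_zero _
  by_cases hmu : IsUnit m
  · obtain ⟨m', hm'⟩ := hmu.exists_right_inv
    exact ⟨m', by rw [hm]; linear_combination (-y) * hm'⟩
  exfalso
  have hp2 := hp.two_le
  obtain ⟨r, hr⟩ := wpn_one_add_pow hp y
  have hd : d = 1 + y := by rw [hy]; ring
  have hpp : p - 1 = (p - 2) + 1 := by omega
  -- `d ^ p - 1 = y ^ p * (1 + m * t)`
  have hpy : (p : V) * y = y ^ p * (m * (m ^ (p - 2) * κ)) := by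
    have e0 : y ^ p = y ^ (p - 1) * y := by
      rw [← pow_succ]
      congr 1
      omega
    rw [hpl, hm, mul_pow, e0, hpp, pow_succ m]
    ring
  have hfac : d ^ p - 1 = y ^ p * (1 + m * (m ^ (p - 2) * κ * (1 + y * r))) := by
    rw [hd, hr]
    linear_combination (1 + y * r) * hpy
  have hmm : m ∈ IsLocalRing.maximalIdeal V := (IsLocalRing.mem_maximalIdeal _).mpr hmu
  have hunit : IsUnit (1 + m * (m ^ (p - 2) * κ * (1 + y * r))) := by
    by_contra hnu
    have h1 : 1 + m * (m ^ (p - 2) * κ * (1 + y * r)) ∈ IsLocalRing.maximalIdeal V :=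
      (IsLocalRing.mem_maximalIdeal _).mpr hnu
    have h2 : (1 : V) ∈ IsLocalRing.maximalIdeal V := by
      have : (1 : V) = (1 + m * (m ^ (p - 2) * κ * (1 + y * r)))
          - m * (m ^ (p - 2) * κ * (1 + y * r)) := by ring
      rw [this]
      exact Ideal.sub_mem _ h1 (Ideal.mul_mem_right _ _ hmm)
    exact (Ideal.ne_top_iff_one _).mp (IsLocalRing.maximalIdeal.isMaximal V).ne_top h2
  rw [hfac, hm, mul_pow] at h
  have h3 : m ^ p ∣ 1 + m * (m ^ (p - 2) * κ * (1 + y * r)) :=
    (mul_dvd_mul_iff_left (pow_ne_zero p hy0)).1 h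
  have h4 : IsUnit (m ^ p) := isUnit_of_dvd_unit h3 hunit
  exact hmu ((isUnit_pow_iff hp.ne_zero).1 h4)

end Fermat.Agent.Ribet.H224

end
-- ===== PACK-END Ribet/H224/WPNewton.lean

-- ===== PACK-BEGIN A2/H849/Hartogs.lean
section










/-!
# Algebraic Hartogs lemma for noetherian integrally closed domains (helper849, cell A2)

Mathlib-only.  `R` a noetherian integrally closed domain with fraction field `K`.

* `locAt K P` : the localisation `R_P` as a subalgebra of `K`.
* `isDiscreteValuationRing_locAt_of_colon` : if the prime `P` is a colon ideal `(a) : c`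
  (`a ≠ 0`), then `R_P` is a discrete valuation ring.
* `hartogs_locAt` : an element of `K` lying in `R_P` for every prime `P` with `R_P` a DVR lies
  in `R`.
* `exists_valuationSubring_not_mem` : if `u ∉ R` there is a discrete valuation subring `O ⊇ R`
  of `K`, equal to the localisation of `R` at its centre, with `u ∉ O`.
* `isUnit_of_forall_valuationSubring` : an element with trivial Weil divisor is a unit.
-/

set_option autoImplicit false

namespace Fermat.Agent.A2.H849

open IsLocalRing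

variable {R : Type*} [CommRing R] [IsDomain R]
variable (K : Type*) [Field K] [Algebra R K] [IsFractionRing R K]

/-- The localisation `R_P` as a subalgebra of the fraction field `K`. -/
noncomputable def locAt (P : Ideal R) [P.IsPrime] : Subalgebra R K :=
  Localization.subalgebra.ofField K P.primeCompl P.primeCompl_le_nonZeroDivisors

variable {K}

theorem mem_locAt_iff (P : Ideal R) [P.IsPrime] (x : K) :
    x ∈ locAt K P ↔ ∃ a s : R, s ∉ P ∧ x = algebraMap R K a * (algebraMap R K s)⁻¹ := by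
  constructor
  · rintro ⟨a, s, hs, rfl⟩
    exact ⟨a, s, hs, rfl⟩
  · rintro ⟨a, s, hs, rfl⟩
    exact ⟨a, s, hs, rfl⟩

instance locAt_isLocalization (P : Ideal R) [P.IsPrime] :
    IsLocalization.AtPrime (locAt K P) P :=
  Localization.subalgebra.isLocalization_ofField K P.primeCompl P.primeCompl_le_nonZeroDivisors

instance locAt_isLocalRing (P : Ideal R) [P.IsPrime] : IsLocalRing (locAt K P) :=
  IsLocalization.AtPrime.isLocalRing (locAt K P) P

instance locAt_isNoetherianRing [IsNoetherianRing R] (P : Ideal R) [P.IsPrime] :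
    IsNoetherianRing (locAt K P) :=
  IsLocalization.isNoetherianRing P.primeCompl (locAt K P) inferInstance


/-- **Key lemma.** In a noetherian integrally closed domain, a prime which is a colon ideal
`(a) : c` with `a ≠ 0` has a discrete valuation ring as localisation. -/
theorem isDiscreteValuationRing_locAt_of_colon [IsNoetherianRing R] [IsIntegrallyClosed R]
    (P : Ideal R) [hPp : P.IsPrime] (a c : R) (ha : a ≠ 0)
    (hP : ∀ r, r ∈ P ↔ a ∣ r * c) : IsDiscreteValuationRing (locAt K P) := by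
  have haP : a ∈ P := (hP a).2 ⟨c, rfl⟩
  have hc : ¬ a ∣ c := fun h => by
    have h1 : (1 : R) ∈ P := (hP 1).2 (by simpa using h)
    exact (Ideal.ne_top_iff_one P).1 hPp.ne_top h1
  have hc0 : c ≠ 0 := fun h => hc (h ▸ dvd_zero a)
  have hinj : Function.Injective (algebraMap R K) := IsFractionRing.injective R K
  have haK : algebraMap R K a ≠ 0 := fun h => ha (hinj (by rw [h, map_zero]))
  have hcK : algebraMap R K c ≠ 0 := fun h => hc0 (hinj (by rw [h, map_zero]))
  set v : K := algebraMap R K c / algebraMap R K a with hv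
  have hv0 : v ≠ 0 := div_ne_zero hcK haK
  have hk : ∀ r ∈ P, ∃ k : R, algebraMap R K k = algebraMap R K r * v := by
    intro r hr
    obtain ⟨k, hk⟩ := (hP r).1 hr
    refine ⟨k, ?_⟩
    rw [hv, mul_div_assoc', eq_div_iff haK, ← map_mul, ← map_mul, hk, mul_comm]
  by_cases hcase : ∀ r ∈ P, ∀ k : R, algebraMap R K k = algebraMap R K r * v → k ∈ P
  · exfalso
    let N : Submodule R K := Submodule.map (Algebra.linearMap R K) P
    have hint : IsIntegral R v := by
      refine isIntegral_of_smul_mem_submodule N ?_ ?_ v ?_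
      · rw [Submodule.ne_bot_iff]
        exact ⟨_, ⟨a, haP, rfl⟩, haK⟩
      · exact Submodule.FG.map _ (IsNoetherian.noetherian _)
      · rintro n ⟨r, hr, rfl⟩
        obtain ⟨k, hk'⟩ := hk r hr
        refine ⟨k, hcase r hr k hk', ?_⟩
        rw [Algebra.linearMap_apply, hk', Algebra.linearMap_apply, smul_eq_mul, mul_comm]
    obtain ⟨y, hy⟩ := IsIntegrallyClosed.algebraMap_eq_of_integral hint
    apply hc
    refine ⟨y, hinj ?_⟩
    rw [map_mul, hy, hv, mul_div_cancel₀ _ haK]
  · push Not at hcase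
    obtain ⟨t, htP, k, hkt, hkP⟩ := hcase
    have hk0 : k ≠ 0 := fun h => hkP (h ▸ P.zero_mem)
    have hkK : algebraMap R K k ≠ 0 := fun h => hk0 (hinj (by rw [h, map_zero]))
    have htK : algebraMap R K t ≠ 0 := by
      intro h
      rw [h, zero_mul] at hkt
      exact hkK hkt
    have hmax : maximalIdeal (locAt K P) =
        Ideal.span {algebraMap R (locAt K P) t} := by
      rw [← IsLocalization.AtPrime.map_eq_maximalIdeal P (locAt K P)]
      apply le_antisymm
      · rw [Ideal.map_le_iff_le_comap]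
        intro r hr
        rw [Ideal.mem_comap, Ideal.mem_span_singleton']
        obtain ⟨kr, hkr⟩ := hk r hr
        refine ⟨⟨algebraMap R K kr * (algebraMap R K k)⁻¹,
          (mem_locAt_iff P _).2 ⟨kr, k, hkP, rfl⟩⟩, ?_⟩
        apply Subtype.ext
        show algebraMap R K kr * (algebraMap R K k)⁻¹ * algebraMap R K t = algebraMap R K r
        rw [hkr, hkt]
        field_simp
      · rw [Ideal.span_le, Set.singleton_subset_iff]
        exact Ideal.mem_map_of_mem _ htP
    have hprinc : (maximalIdeal (locAt K P)).IsPrincipal := ⟨⟨_, hmax⟩⟩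
    have hpir : IsPrincipalIdealRing (locAt K P) :=
      ((tfae_of_isNoetherianRing_of_isLocalRing_of_isDomain
        (R := locAt K P)).out 4 0).mp hprinc
    refine { toIsPrincipalIdealRing := hpir, toIsLocalRing := inferInstance, not_a_field' := ?_ }
    intro hbot
    have h1 : algebraMap R (locAt K P) t ∈ maximalIdeal (locAt K P) := by
      rw [hmax]
      exact Ideal.mem_span_singleton_self _
    rw [hbot, Ideal.mem_bot] at h1
    have h2 := congrArg (fun z : locAt K P => (z : K)) h1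
    exact htK h2


omit [IsDomain R] in
theorem smul_mk_span_eq_zero_iff (a r c : R) :
    r • (Ideal.Quotient.mk (Ideal.span {a}) c) = 0 ↔ a ∣ r * c := by
  have h1 : r • (Ideal.Quotient.mk (Ideal.span {a}) c) = Ideal.Quotient.mk (Ideal.span {a}) (r * c) :=
    rfl
  rw [h1, Ideal.Quotient.eq_zero_iff_mem, Ideal.mem_span_singleton]

/-- **Algebraic Hartogs lemma**, localisation form: an element of `K` which lies in `R_P` for
every prime `P` such that `R_P` is a discrete valuation ring lies in `R`. -/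
theorem hartogs_locAt [IsNoetherianRing R] [IsIntegrallyClosed R] (u : K)
    (h : ∀ (P : Ideal R) [P.IsPrime], IsDiscreteValuationRing (locAt K P) → u ∈ locAt K P) :
    u ∈ (algebraMap R K).range := by
  have hinj : Function.Injective (algebraMap R K) := IsFractionRing.injective R K
  obtain ⟨b, a, ha, rfl⟩ := IsFractionRing.div_surjective R u
  have ha0 : a ≠ 0 := nonZeroDivisors.ne_zero ha
  have haK : algebraMap R K a ≠ 0 := fun h => ha0 (hinj (by rw [h, map_zero]))
  by_cases hab : a ∣ b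
  · obtain ⟨y, rfl⟩ := hab
    refine ⟨y, ?_⟩
    rw [map_mul, mul_div_cancel_left₀ _ haK]
  exfalso
  -- the module `R / (a)` and the class of `b`
  set x : R ⧸ Ideal.span {a} := Ideal.Quotient.mk _ b with hx
  have hx0 : x ≠ 0 := by
    rw [hx, Ne, Ideal.Quotient.eq_zero_iff_mem, Ideal.mem_span_singleton]
    exact hab
  obtain ⟨P, hPass, hle⟩ := exists_le_isAssociatedPrime_of_isNoetherianRing R x hx0
  obtain ⟨hPp, y, hy⟩ := (isAssociatedPrime_iff (I := P) (M := R ⧸ Ideal.span {a})).1 hPass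
  obtain ⟨c, rfl⟩ := Ideal.Quotient.mk_surjective y
  have hP : ∀ r, r ∈ P ↔ a ∣ r * c := by
    intro r
    rw [hy, Submodule.mem_colon_singleton, Submodule.mem_bot]
    exact smul_mk_span_eq_zero_iff a r c
  have hdvr : IsDiscreteValuationRing (locAt K P) :=
    isDiscreteValuationRing_locAt_of_colon P a c ha0 hP
  obtain ⟨r, s, hs, hrs⟩ := (mem_locAt_iff P _).1 (h P hdvr)
  have hsK : algebraMap R K s ≠ 0 := by
    intro h0
    apply hs
    rw [hinj (by rw [h0, map_zero] : algebraMap R K s = algebraMap R K 0)]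
    exact P.zero_mem
  have hsb : s * b = r * a := by
    apply hinj
    rw [map_mul, map_mul]
    field_simp at hrs
    rw [mul_comm, hrs, mul_comm]
  apply hs
  apply hle
  rw [Submodule.mem_colon_singleton, Submodule.mem_bot, hx]
  exact (smul_mk_span_eq_zero_iff a s b).2 ⟨r, by rw [hsb, mul_comm]⟩


/-- The valuation subring of `K` given by a localisation `R_P` which is a valuation ring. -/
noncomputable def locValuationSubring (P : Ideal R) [P.IsPrime]
    (h : ValuationRing (locAt K P)) : ValuationSubring K :=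
  { (locAt K P).toSubring with
    mem_or_inv_mem' := fun x => by
      rcases ValuationRing.isInteger_or_isInteger (locAt K P) (K := K) x with ⟨y, hy⟩ | ⟨y, hy⟩
      · left
        rw [← hy]
        exact y.2
      · right
        rw [← hy]
        exact y.2 }

theorem mem_locValuationSubring_iff (P : Ideal R) [P.IsPrime]
    (h : ValuationRing (locAt K P)) (x : K) :
    x ∈ locValuationSubring P h ↔ x ∈ locAt K P := Iff.rfl

theorem algebraMap_mem_locValuationSubring (P : Ideal R) [P.IsPrime]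
    (h : ValuationRing (locAt K P)) (r : R) : algebraMap R K r ∈ locValuationSubring P h :=
  (locAt K P).algebraMap_mem r

/-- The obvious ring isomorphism. -/
noncomputable def locValuationSubringEquiv (P : Ideal R) [P.IsPrime]
    (h : ValuationRing (locAt K P)) : locAt K P ≃+* locValuationSubring P h :=
  { toFun := fun x => ⟨x.1, x.2⟩
    invFun := fun x => ⟨x.1, x.2⟩
    left_inv := fun _ => rfl
    right_inv := fun _ => rfl
    map_mul' := fun _ _ => rfl
    map_add' := fun _ _ => rfl }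

theorem isDiscreteValuationRing_locValuationSubring (P : Ideal R) [P.IsPrime]
    (h : IsDiscreteValuationRing (locAt K P)) :
    IsDiscreteValuationRing (locValuationSubring P (inferInstance : ValuationRing (locAt K P))) :=
  IsDiscreteValuationRing.RingEquivClass.isDiscreteValuationRing
    (locValuationSubringEquiv P inferInstance)

/-- A prime with DVR localisation has height one: it contains no nonzero prime other than
itself. -/
theorem eq_of_le_of_isDiscreteValuationRing (P Q : Ideal R) [hP : P.IsPrime] (hQ : Q.IsPrime)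
    (hdvr : IsDiscreteValuationRing (locAt K P)) (hQ0 : Q ≠ ⊥) (hle : Q ≤ P) : Q = P := by
  have hd : Disjoint (P.primeCompl : Set R) (Q : Set R) := by
    rw [Set.disjoint_left]
    intro x hx hxQ
    exact hx (hle hxQ)
  have hdP : Disjoint (P.primeCompl : Set R) (P : Set R) := by
    rw [Set.disjoint_left]
    intro x hx hxP
    exact hx hxP
  have hQ' : (Ideal.map (algebraMap R (locAt K P)) Q).IsPrime :=
    IsLocalization.isPrime_of_isPrime_disjoint P.primeCompl (locAt K P) Q hQ hd
  have hne : Ideal.map (algebraMap R (locAt K P)) Q ≠ ⊥ := by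
    obtain ⟨q, hq, hq0⟩ := Submodule.exists_mem_ne_zero_of_ne_bot hQ0
    intro h
    have h1 : algebraMap R (locAt K P) q ∈ Ideal.map (algebraMap R (locAt K P)) Q :=
      Ideal.mem_map_of_mem _ hq
    rw [h, Ideal.mem_bot] at h1
    apply hq0
    apply IsFractionRing.injective R K
    have h2 := congrArg (fun z : locAt K P => (z : K)) h1
    simpa using h2
  have hmax : (Ideal.map (algebraMap R (locAt K P)) Q).IsMaximal := hQ'.isMaximal hne
  have h3 : Ideal.map (algebraMap R (locAt K P)) Q = maximalIdeal (locAt K P) :=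
    IsLocalRing.eq_maximalIdeal hmax
  rw [← IsLocalization.AtPrime.map_eq_maximalIdeal P (locAt K P)] at h3
  have h4 : (Ideal.map (algebraMap R (locAt K P)) Q).under R =
      (Ideal.map (algebraMap R (locAt K P)) P).under R := by rw [h3]
  rwa [IsLocalization.under_map_of_isPrime_disjoint P.primeCompl (locAt K P) hQ hd,
    IsLocalization.under_map_of_isPrime_disjoint P.primeCompl (locAt K P) hP hdP] at h4

/-- `O` is a discrete valuation subring of `K` which is the localisation of `R` at the height-one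
prime `P`. -/
structure IsLocDVR (O : ValuationSubring K) (P : Ideal R) : Prop where
  prime : P.IsPrime
  ne_bot : P ≠ ⊥
  dvr : IsDiscreteValuationRing O
  le : ∀ r : R, algebraMap R K r ∈ O
  exists_frac : ∀ x ∈ O, ∃ r s : R, s ∉ P ∧ x = algebraMap R K r * (algebraMap R K s)⁻¹
  inv_mem : ∀ s : R, s ∉ P → (algebraMap R K s)⁻¹ ∈ O
  inv_not_mem : ∀ r : R, r ∈ P → r ≠ 0 → (algebraMap R K r)⁻¹ ∉ O
  height_one : ∀ Q : Ideal R, Q.IsPrime → Q ≠ ⊥ → Q ≤ P → Q = P

theorem isLocDVR_locValuationSubring (P : Ideal R) [hPp : P.IsPrime]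
    (hdvr : IsDiscreteValuationRing (locAt K P)) :
    IsLocDVR (locValuationSubring P (inferInstance : ValuationRing (locAt K P))) P := by
  have hinj : Function.Injective (algebraMap R K) := IsFractionRing.injective R K
  refine ⟨hPp, ?_, isDiscreteValuationRing_locValuationSubring P hdvr,
    algebraMap_mem_locValuationSubring P inferInstance, ?_, ?_, ?_, ?_⟩
  · intro hbot
    apply IsDiscreteValuationRing.not_a_field (locAt K P)
    rw [← IsLocalization.AtPrime.map_eq_maximalIdeal P (locAt K P), Ideal.map_eq_bot_iff_le_ker]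
    intro x hx
    rw [hbot, Ideal.mem_bot] at hx
    rw [hx]
    exact Ideal.zero_mem _
  · intro x hx
    exact (mem_locAt_iff P x).1 hx
  · intro s hs
    exact (mem_locAt_iff P _).2 ⟨1, s, hs, by rw [map_one, one_mul]⟩
  · intro r hr hr0 hinv
    have h1 : algebraMap R (locAt K P) r ∈ maximalIdeal (locAt K P) := by
      rw [← IsLocalization.AtPrime.map_eq_maximalIdeal P (locAt K P)]
      exact Ideal.mem_map_of_mem _ hr
    have h2 : IsUnit (algebraMap R (locAt K P) r) := by
      have hrK : algebraMap R K r ≠ 0 := fun h => hr0 (hinj (by rw [h, map_zero]))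
      refine IsUnit.of_mul_eq_one ⟨(algebraMap R K r)⁻¹, hinv⟩ ?_
      apply Subtype.ext
      show algebraMap R K r * (algebraMap R K r)⁻¹ = 1
      exact mul_inv_cancel₀ hrK
    exact (mem_nonunits_iff.1 ((IsLocalRing.mem_maximalIdeal _).1 h1)) h2
  · intro Q hQ hQ0 hle
    exact eq_of_le_of_isDiscreteValuationRing P Q hQ hdvr hQ0 hle

/-- **Algebraic Hartogs lemma**, valuation form.  If `u ∈ K` is not in `R` there is a discrete
valuation subring `O` of `K`, the localisation of `R` at a height-one prime `P`, with `u ∉ O`. -/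
theorem exists_isLocDVR_not_mem [IsNoetherianRing R] [IsIntegrallyClosed R] (u : K)
    (hu : u ∉ (algebraMap R K).range) :
    ∃ (O : ValuationSubring K) (P : Ideal R), IsLocDVR O P ∧ u ∉ O := by
  by_contra hcon
  apply hu
  apply hartogs_locAt u
  intro P hPp hdvr
  by_contra huP
  exact hcon ⟨_, P, isLocDVR_locValuationSubring P hdvr, huP⟩

/-- **Algebraic Hartogs lemma**, positive form. -/
theorem mem_range_of_forall_isLocDVR [IsNoetherianRing R] [IsIntegrallyClosed R] (u : K)
    (h : ∀ (O : ValuationSubring K) (P : Ideal R), IsLocDVR O P → u ∈ O) :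
    u ∈ (algebraMap R K).range := by
  by_contra hu
  obtain ⟨O, P, hOP, huO⟩ := exists_isLocDVR_not_mem u hu
  exact huO (h O P hOP)

/-- An element of `K` lying in every discrete valuation subring of `K` containing `R` lies in
`R`. -/
theorem mem_range_of_forall_valuationSubring [IsNoetherianRing R] [IsIntegrallyClosed R] (u : K)
    (h : ∀ O : ValuationSubring K, IsDiscreteValuationRing O →
      (∀ r : R, algebraMap R K r ∈ O) → u ∈ O) :
    u ∈ (algebraMap R K).range :=
  mem_range_of_forall_isLocDVR u (fun O _ hOP => h O hOP.dvr hOP.le)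

/-- **Trivial Weil divisor ⇒ unit.**  If `u ≠ 0` is a unit of every discrete valuation subring
of `K` which is the localisation of `R` at a height-one prime, then `u` is (the image of) a unit
of `R`. -/
theorem isUnit_of_forall_isLocDVR [IsNoetherianRing R] [IsIntegrallyClosed R] (u : K)
    (hu : u ≠ 0)
    (h : ∀ (O : ValuationSubring K) (P : Ideal R), IsLocDVR O P → u ∈ O ∧ u⁻¹ ∈ O) :
    ∃ r : Rˣ, algebraMap R K (r : R) = u := by
  obtain ⟨r, hr⟩ := mem_range_of_forall_isLocDVR u (fun O P hOP => (h O P hOP).1)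
  obtain ⟨r', hr'⟩ := mem_range_of_forall_isLocDVR u⁻¹ (fun O P hOP => (h O P hOP).2)
  have hinj : Function.Injective (algebraMap R K) := IsFractionRing.injective R K
  have hmul : r * r' = 1 := by
    apply hinj
    rw [map_mul, map_one]
    show algebraMap R K r * algebraMap R K r' = 1
    rw [hr, hr', mul_inv_cancel₀ hu]
  exact ⟨⟨r, r', hmul, by rw [mul_comm, hmul]⟩, hr⟩

/-- Same with all discrete valuation subrings containing `R`. -/
theorem isUnit_of_forall_valuationSubring [IsNoetherianRing R] [IsIntegrallyClosed R] (u : K)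
    (hu : u ≠ 0)
    (h : ∀ O : ValuationSubring K, IsDiscreteValuationRing O →
      (∀ r : R, algebraMap R K r ∈ O) → u ∈ O ∧ u⁻¹ ∈ O) :
    ∃ r : Rˣ, algebraMap R K (r : R) = u :=
  isUnit_of_forall_isLocDVR u hu (fun O _ hOP => h O hOP.dvr hOP.le)

end Fermat.Agent.A2.H849

end
-- ===== PACK-END A2/H849/Hartogs.lean

-- ===== PACK-BEGIN A2/H372/Transversal.lean
section


/-!
# A2 / T-ALG : abstract transversality at the crossing points (helper372)

Mathlib-only commutative algebra.  Intended instance (helper609 memo `coord/A2-helper609.md`, (T)):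

* `A = B_M`, `B = B_N` (`N = qM`): integral closures of `R[j]` in the function fields of level
  `M` and `N` over a DVR `R` (uniformiser `w`, residue characteristic `q`);
* `α β : A →+* B` the two degeneracy maps (`j_d ↦ j_d`, `j_d ↦ j_{qd}`);
* `P₁ P₂` the centres on `B` of the two Gauss valuations (`P₁ ⊓ P₂ = wB`);
* `n` a maximal ideal of `B` containing `P₁` and `P₂` (a crossing point).

The Kronecker congruences are used in the SEMILINEAR form `KronCong`:
`∀ a, ∃ a', β a - (α a') ^ q ∈ P₁` and `∀ a, ∃ a', α a - (β a') ^ q ∈ P₂`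
(over `ℤ_(q)` one takes `a' = a`; over a general `R` one takes for `a'` a lift of the
coefficientwise inverse Frobenius of `a`), so no `𝔽_q`-structure and no base change is needed.

Main results (all elementwise, no localisation needed to state them):

* `KronCong.exists_transversal` : a local generator `α a₀` of the branch `B/P₁` at `n` is,
  up to a unit at `n` and modulo `P₁`, an element `f ∈ P₂`.
* `KronCong.exists_local_gen`   : `n = (f) + P₁` locally at `n`, with `f ∈ P₂`.
* `KronCong.exists_node`        : node datum `f ∈ P₂`, `g ∈ P₁` with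
  `n = (f, g) + P₁ ⊓ P₂`, `P₁ = (g) + P₁ ⊓ P₂`, `P₂ = (f) + P₁ ⊓ P₂` locally at `n`.
* `exists_smooth_gen`           : at a point of `P₁` not on `P₂`: `n = (α a₀) + P₁ ⊓ P₂` locally.
* `exists_isBranchUnif_of_isDedekindDomain` : the local generator `a₀` exists when
  `A ⧸ comap α P₁` is a Dedekind domain.
* `surjective_of_birational_of_integral` : `α` is onto `B/P₁` (finite birational onto normal).
* localised forms `KronCong.maximalIdeal_eq_span_node`.
-/

set_option autoImplicit false

namespace Fermat.Agent.A2.H372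

open Ideal

variable {A B : Type*} [CommRing A] [CommRing B]

/-- Semilinear Kronecker congruences between two ring homomorphisms `α β : A →+* B`
modulo two ideals `P₁ P₂` of `B`. -/
structure KronCong (q : ℕ) (α β : A →+* B) (P₁ P₂ : Ideal B) : Prop where
  cong₁ : ∀ a : A, ∃ a' : A, β a - (α a') ^ q ∈ P₁
  cong₂ : ∀ a : A, ∃ a' : A, α a - (β a') ^ q ∈ P₂

theorem KronCong.symm {q : ℕ} {α β : A →+* B} {P₁ P₂ : Ideal B}
    (h : KronCong q α β P₁ P₂) : KronCong q β α P₂ P₁ :=
  ⟨h.cong₂, h.cong₁⟩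

/-- The linear Kronecker congruences (`a' = a`) give a `KronCong`. -/
theorem KronCong.of_linear {q : ℕ} {α β : A →+* B} {P₁ P₂ : Ideal B}
    (h₁ : ∀ a : A, β a - (α a) ^ q ∈ P₁) (h₂ : ∀ a : A, α a - (β a) ^ q ∈ P₂) :
    KronCong q α β P₁ P₂ :=
  ⟨fun a => ⟨a, h₁ a⟩, fun a => ⟨a, h₂ a⟩⟩

/-- `a₀` is a local generator at `n` of the branch `B/P` parametrised by `α`:
`α a₀ ∈ n` and every `α a ∈ n` is, up to a factor `α s ∉ n` and modulo `P`, a multiple
of `α a₀`. -/
def IsBranchUnif (α : A →+* B) (P n : Ideal B) (a₀ : A) : Prop :=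
  α a₀ ∈ n ∧ ∀ a : A, α a ∈ n → ∃ s y : A, α s ∉ n ∧ α s * α a - α a₀ * α y ∈ P

theorem pow_sub_pow_mem_of_sub_mem {I : Ideal B} {x y : B} (h : x - y ∈ I) (k : ℕ) :
    x ^ k - y ^ k ∈ I := by
  obtain ⟨c, hc⟩ := sub_dvd_pow_sub_pow x y k
  rw [hc]
  exact I.mul_mem_right c h

/-- **Transversality, core.**  A local generator `α a₀` of the first branch at a crossing
point `n` agrees modulo `P₁`, up to a factor `u ∉ n`, with an element `f` of `P₂`. -/
theorem KronCong.exists_transversal {q : ℕ} (hq : 2 ≤ q) {α β : A →+* B}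
    {P₁ P₂ n : Ideal B} [n.IsPrime] (hP₁ : P₁ ≤ n) (hP₂ : P₂ ≤ n)
    (h : KronCong q α β P₁ P₂) {a₀ : A} (ha₀ : IsBranchUnif α P₁ n a₀) :
    ∃ f ∈ P₂, ∃ u : B, u ∉ n ∧ f - u * α a₀ ∈ P₁ := by
  obtain ⟨a₁, h₁⟩ := h.cong₂ a₀
  obtain ⟨a₂, h₂⟩ := h.cong₁ a₁
  have hq0 : q ≠ 0 := by omega
  have hβ : β a₁ ∈ n := by
    have : (β a₁) ^ q ∈ n := by
      have := n.sub_mem ha₀.1 (hP₂ h₁)
      simpa using this
    exact Ideal.IsPrime.mem_of_pow_mem inferInstance q this
  have hα₂ : α a₂ ∈ n := by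
    have : (α a₂) ^ q ∈ n := by
      have := n.sub_mem hβ (hP₁ h₂)
      simpa using this
    exact Ideal.IsPrime.mem_of_pow_mem inferInstance q this
  obtain ⟨s, y, hs, hsy⟩ := ha₀.2 a₂ hα₂
  have hQ : 1 ≤ q ^ 2 := Nat.one_le_pow _ _ (by omega)
  refine ⟨(α s) ^ (q ^ 2) * (α a₀ - (β a₁) ^ q), P₂.mul_mem_left _ h₁,
    (α s) ^ (q ^ 2) - (α a₀) ^ (q ^ 2 - 1) * (α y) ^ (q ^ 2), ?_, ?_⟩
  · intro hu
    have h1 : (α a₀) ^ (q ^ 2 - 1) ∈ n := by
      have hpos : q ^ 2 - 1 ≠ 0 := by
        have : 4 ≤ q ^ 2 := by nlinarith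
        omega
      exact Ideal.pow_mem_of_mem n ha₀.1 _ (Nat.pos_of_ne_zero hpos)
    have h2 : (α s) ^ (q ^ 2) ∈ n := by
      have := n.add_mem hu (n.mul_mem_right ((α y) ^ (q ^ 2)) h1)
      simpa using this
    exact hs (Ideal.IsPrime.mem_of_pow_mem inferInstance _ h2)
  · have e1 : ((β a₁) ^ q) - ((α a₂) ^ q) ^ q ∈ P₁ := pow_sub_pow_mem_of_sub_mem h₂ q
    have e2 : (α s * α a₂) ^ (q ^ 2) - (α a₀ * α y) ^ (q ^ 2) ∈ P₁ :=
      pow_sub_pow_mem_of_sub_mem hsy (q ^ 2)
    have hpow : (α a₀) ^ (q ^ 2 - 1) * α a₀ = (α a₀) ^ (q ^ 2) := by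
      rw [← pow_succ, Nat.sub_add_cancel hQ]
    have key : (α s) ^ (q ^ 2) * (α a₀ - (β a₁) ^ q)
        - ((α s) ^ (q ^ 2) - (α a₀) ^ (q ^ 2 - 1) * (α y) ^ (q ^ 2)) * α a₀
        = -((α s) ^ (q ^ 2) * ((β a₁) ^ q - ((α a₂) ^ q) ^ q))
          - ((α s * α a₂) ^ (q ^ 2) - (α a₀ * α y) ^ (q ^ 2)) := by
      have hp2 : ((α a₂) ^ q) ^ q = (α a₂) ^ (q ^ 2) := by rw [← pow_mul, sq]
      rw [hp2, mul_pow, mul_pow, ← hpow]
      ring
    rw [key]
    exact P₁.sub_mem (P₁.neg_mem (P₁.mul_mem_left _ e1)) e2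

/-- **Transversality.**  If moreover `α` is onto `B/P₁`, then locally at the crossing point
`n` one has `n = (f) + P₁` with `f ∈ P₂`; in particular `n = P₁ + P₂` locally at `n`. -/
theorem KronCong.exists_local_gen {q : ℕ} (hq : 2 ≤ q) {α β : A →+* B}
    {P₁ P₂ n : Ideal B} [n.IsPrime] (hP₁ : P₁ ≤ n) (hP₂ : P₂ ≤ n)
    (h : KronCong q α β P₁ P₂) (hα : ∀ b : B, ∃ a : A, b - α a ∈ P₁)
    {a₀ : A} (ha₀ : IsBranchUnif α P₁ n a₀) :
    ∃ f ∈ P₂, ∀ x ∈ n, ∃ t : B, t ∉ n ∧ ∃ z : B, t * x - f * z ∈ P₁ := by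
  obtain ⟨f, hf, u, hu, hfu⟩ := h.exists_transversal hq hP₁ hP₂ ha₀
  refine ⟨f, hf, fun x hx => ?_⟩
  obtain ⟨a, ha⟩ := hα x
  have han : α a ∈ n := by
    have := n.sub_mem hx (hP₁ ha)
    simpa using this
  obtain ⟨s, y, hs, hsy⟩ := ha₀.2 a han
  refine ⟨u * α s, fun hmem => ?_, α y, ?_⟩
  · rcases Ideal.IsPrime.mem_or_mem inferInstance hmem with h' | h'
    · exact hu h'
    · exact hs h'
  · have key : u * α s * x - f * α y
        = u * α s * (x - α a) + u * (α s * α a - α a₀ * α y) - (f - u * α a₀) * α y := by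
      ring
    rw [key]
    exact P₁.sub_mem (P₁.add_mem (P₁.mul_mem_left _ ha) (P₁.mul_mem_left _ hsy))
      (P₁.mul_mem_right _ hfu)

/-- `P₁ + P₂` is the maximal ideal locally at a crossing point. -/
theorem KronCong.mem_sup_of_mem {q : ℕ} (hq : 2 ≤ q) {α β : A →+* B}
    {P₁ P₂ n : Ideal B} [n.IsPrime] (hP₁ : P₁ ≤ n) (hP₂ : P₂ ≤ n)
    (h : KronCong q α β P₁ P₂) (hα : ∀ b : B, ∃ a : A, b - α a ∈ P₁)
    {a₀ : A} (ha₀ : IsBranchUnif α P₁ n a₀) {x : B} (hx : x ∈ n) :
    ∃ t : B, t ∉ n ∧ t * x ∈ P₁ ⊔ P₂ := by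
  obtain ⟨f, hf, hloc⟩ := h.exists_local_gen hq hP₁ hP₂ hα ha₀
  obtain ⟨t, ht, z, hz⟩ := hloc x hx
  refine ⟨t, ht, ?_⟩
  have : t * x = (t * x - f * z) + f * z := by ring
  rw [this]
  exact Ideal.add_mem _ (Ideal.mem_sup_left hz) (Ideal.mem_sup_right (P₂.mul_mem_right _ hf))

/-- **Node datum at a crossing point.**  There are `f ∈ P₂`, `g ∈ P₁` such that, locally at
`n` and modulo `P₁ ⊓ P₂` (`= wB` in the application): `n = (f, g)`, `P₁ = (g)`, `P₂ = (f)`;
and `f * g ∈ P₁ ⊓ P₂`. -/
theorem KronCong.exists_node {q : ℕ} (hq : 2 ≤ q) {α β : A →+* B}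
    {P₁ P₂ n : Ideal B} [n.IsPrime] (hP₁ : P₁ ≤ n) (hP₂ : P₂ ≤ n)
    (h : KronCong q α β P₁ P₂)
    (hα : ∀ b : B, ∃ a : A, b - α a ∈ P₁) (hβ : ∀ b : B, ∃ a : A, b - β a ∈ P₂)
    {a₀ b₀ : A} (ha₀ : IsBranchUnif α P₁ n a₀) (hb₀ : IsBranchUnif β P₂ n b₀) :
    ∃ f g : B, f ∈ P₂ ∧ g ∈ P₁ ∧ f * g ∈ P₁ ⊓ P₂ ∧
      (∀ x ∈ n, ∃ t : B, t ∉ n ∧ ∃ y z : B, t * x - (f * y + g * z) ∈ P₁ ⊓ P₂) ∧
      (∀ x ∈ P₁, ∃ t : B, t ∉ n ∧ ∃ z : B, t * x - g * z ∈ P₁ ⊓ P₂) ∧
      (∀ x ∈ P₂, ∃ t : B, t ∉ n ∧ ∃ y : B, t * x - f * y ∈ P₁ ⊓ P₂) := by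
  obtain ⟨f, hf, hlocf⟩ := h.exists_local_gen hq hP₁ hP₂ hα ha₀
  obtain ⟨g, hg, hlocg⟩ := h.symm.exists_local_gen hq hP₂ hP₁ hβ hb₀
  have hP1 : ∀ x ∈ P₁, ∃ t : B, t ∉ n ∧ ∃ z : B, t * x - g * z ∈ P₁ ⊓ P₂ := by
    intro x hx
    obtain ⟨t, ht, z, hz⟩ := hlocg x (hP₁ hx)
    exact ⟨t, ht, z, ⟨P₁.sub_mem (P₁.mul_mem_left _ hx) (P₁.mul_mem_right _ hg), hz⟩⟩
  have hP2 : ∀ x ∈ P₂, ∃ t : B, t ∉ n ∧ ∃ y : B, t * x - f * y ∈ P₁ ⊓ P₂ := by
    intro x hx
    obtain ⟨t, ht, z, hz⟩ := hlocf x (hP₂ hx)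
    exact ⟨t, ht, z, ⟨hz, P₂.sub_mem (P₂.mul_mem_left _ hx) (P₂.mul_mem_right _ hf)⟩⟩
  refine ⟨f, g, hf, hg, ⟨P₁.mul_mem_left _ hg, P₂.mul_mem_right _ hf⟩, ?_, hP1, hP2⟩
  intro x hx
  obtain ⟨t, ht, y, hy⟩ := hlocf x hx
  obtain ⟨t', ht', z, hz⟩ := hP1 _ hy
  refine ⟨t' * t, fun hmem => ?_, t' * y, z, ?_⟩
  · rcases Ideal.IsPrime.mem_or_mem inferInstance hmem with h' | h'
    · exact ht' h'
    · exact ht h'
  · have key : t' * t * x - (f * (t' * y) + g * z) = t' * (t * x - f * y) - g * z := by ring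
    rw [key]
    exact hz

/-- **Smooth points.**  At a point `n` of the first branch which is not on the second one,
`n = (α a₀) + P₁ ⊓ P₂` locally at `n`. -/
theorem exists_smooth_gen {α : A →+* B} {P₁ P₂ n : Ideal B} [n.IsPrime]
    (hP₁ : P₁ ≤ n) (hP₂ : ¬ P₂ ≤ n) (hα : ∀ b : B, ∃ a : A, b - α a ∈ P₁)
    {a₀ : A} (ha₀ : IsBranchUnif α P₁ n a₀) :
    ∀ x ∈ n, ∃ t : B, t ∉ n ∧ ∃ z : B, t * x - α a₀ * z ∈ P₁ ⊓ P₂ := by
  intro x hx
  obtain ⟨e, he, hen⟩ := SetLike.not_le_iff_exists.mp hP₂
  obtain ⟨a, ha⟩ := hα x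
  have han : α a ∈ n := by
    have := n.sub_mem hx (hP₁ ha)
    simpa using this
  obtain ⟨s, y, hs, hsy⟩ := ha₀.2 a han
  refine ⟨e * α s, fun hmem => ?_, e * α y, ?_⟩
  · rcases Ideal.IsPrime.mem_or_mem inferInstance hmem with h' | h'
    · exact hen h'
    · exact hs h'
  · have key : e * α s * x - α a₀ * (e * α y)
        = e * (α s * (x - α a) + (α s * α a - α a₀ * α y)) := by ring
    rw [key]
    exact ⟨P₁.mul_mem_left _ (P₁.add_mem (P₁.mul_mem_left _ ha) hsy), P₂.mul_mem_right _ he⟩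

/-! ### Existence of the local generator on a Dedekind branch -/

/-- In a Dedekind domain every prime ideal is locally principal, in elementwise form. -/
theorem exists_local_generator_of_isDedekindDomain (D : Type*) [CommRing D]
    [IsDedekindDomain D] (m : Ideal D) [m.IsPrime] :
    ∃ a₀ ∈ m, ∀ a ∈ m, ∃ s y : D, s ∉ m ∧ s * a = a₀ * y := by
  by_cases hm : m = ⊥
  · refine ⟨0, m.zero_mem, fun a ha => ⟨1, 0, ?_, ?_⟩⟩
    · exact fun h1 => (Ideal.IsPrime.ne_top inferInstance) ((Ideal.eq_top_iff_one m).mpr h1)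
    · rw [hm] at ha
      rw [Ideal.mem_bot.mp ha]
      simp
  · let L := Localization.AtPrime m
    have : IsDiscreteValuationRing L :=
      IsLocalization.AtPrime.isDiscreteValuationRing_of_dedekind_domain D hm L
    obtain ⟨ϖ, hϖ⟩ := IsDiscreteValuationRing.exists_irreducible L
    obtain ⟨a₀, s₀, rfl⟩ := IsLocalization.exists_mk'_eq m.primeCompl ϖ
    have hs₀ : IsUnit (algebraMap D L (s₀ : D)) := IsLocalization.map_units L s₀
    have hmax : IsLocalRing.maximalIdeal L = Ideal.span {algebraMap D L a₀} := by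
      rw [hϖ.maximalIdeal_eq]
      apply Ideal.span_singleton_eq_span_singleton.mpr
      refine ⟨hs₀.unit, ?_⟩
      simp [IsLocalization.mk'_spec]
    have hinj : Function.Injective (algebraMap D L) :=
      IsLocalization.injective L (Ideal.primeCompl_le_nonZeroDivisors m)
    have ha₀ : a₀ ∈ m := by
      rw [← IsLocalization.AtPrime.to_map_mem_maximal_iff L m a₀, hmax]
      exact Ideal.mem_span_singleton_self _
    refine ⟨a₀, ha₀, fun a ha => ?_⟩
    have : algebraMap D L a ∈ Ideal.span {algebraMap D L a₀} := by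
      rw [← hmax]
      exact (IsLocalization.AtPrime.to_map_mem_maximal_iff L m a).mpr ha
    obtain ⟨c, hc⟩ := Ideal.mem_span_singleton'.mp this
    obtain ⟨y, s, rfl⟩ := IsLocalization.exists_mk'_eq m.primeCompl c
    refine ⟨s, y, s.2, hinj ?_⟩
    rw [map_mul, map_mul, ← hc, ← IsLocalization.mk'_spec L y s]
    ring

/-- If the branch `A ⧸ comap α P` is a Dedekind domain, every prime `n ⊇ P` of `B` has a
local generator in the sense of `IsBranchUnif`. -/
theorem exists_isBranchUnif_of_isDedekindDomain (α : A →+* B) (P n : Ideal B) [n.IsPrime]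
    (hP : P ≤ n) [IsDedekindDomain (A ⧸ Ideal.comap α P)] :
    ∃ a₀ : A, IsBranchUnif α P n a₀ := by
  have hle : Ideal.comap α P ≤ Ideal.comap α n := Ideal.comap_mono hP
  let ψ : A ⧸ Ideal.comap α P →+* B ⧸ n := Ideal.quotientMap n α hle
  let m : Ideal (A ⧸ Ideal.comap α P) := RingHom.ker ψ
  have : m.IsPrime := RingHom.ker_isPrime ψ
  have hmem : ∀ a : A, Ideal.Quotient.mk (Ideal.comap α P) a ∈ m ↔ α a ∈ n := by
    intro a
    simp only [m, ψ, RingHom.mem_ker, Ideal.quotientMap_mk, Ideal.Quotient.eq_zero_iff_mem]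
  obtain ⟨a₀', ha₀', hgen⟩ := exists_local_generator_of_isDedekindDomain _ m
  obtain ⟨a₀, rfl⟩ := Ideal.Quotient.mk_surjective a₀'
  refine ⟨a₀, (hmem a₀).mp ha₀', fun a ha => ?_⟩
  obtain ⟨s', y', hs', hsy'⟩ := hgen _ ((hmem a).mpr ha)
  obtain ⟨s, rfl⟩ := Ideal.Quotient.mk_surjective s'
  obtain ⟨y, rfl⟩ := Ideal.Quotient.mk_surjective y'
  refine ⟨s, y, fun h => hs' ((hmem s).mpr h), ?_⟩
  have h0 : Ideal.Quotient.mk (Ideal.comap α P) (s * a - a₀ * y) = 0 := by
    rw [map_sub, map_mul, map_mul, hsy', sub_self]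
  have := Ideal.Quotient.eq_zero_iff_mem.mp h0
  rw [Ideal.mem_comap, map_sub, map_mul, map_mul] at this
  exact this

/-! ### Localised forms -/

section Localised

variable (R : Type*) [CommRing R] [Algebra B R]

/-- If every element of `n` lies in `J` up to a factor outside `n`, then `n` and `J` generate
the same ideal in the localisation at `n`. -/
theorem map_eq_map_of_local {n J : Ideal B} [n.IsPrime] [IsLocalization.AtPrime R n]
    (hJ : J ≤ n) (h : ∀ x ∈ n, ∃ t : B, t ∉ n ∧ t * x ∈ J) :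
    Ideal.map (algebraMap B R) n = Ideal.map (algebraMap B R) J := by
  refine le_antisymm ?_ (Ideal.map_mono hJ)
  rw [Ideal.map_le_iff_le_comap]
  intro x hx
  obtain ⟨t, ht, htx⟩ := h x hx
  have hu : IsUnit (algebraMap B R t) :=
    IsLocalization.map_units R (⟨t, ht⟩ : n.primeCompl)
  rw [Ideal.mem_comap]
  have hmem : algebraMap B R t * algebraMap B R x ∈ Ideal.map (algebraMap B R) J := by
    rw [← map_mul]
    exact Ideal.mem_map_of_mem _ htx
  exact (Ideal.unit_mul_mem_iff_mem _ hu).mp hmem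

/-- **Node datum, localised form.**  In the local ring `R = B_n` at a crossing point:
`𝔪 = (f, g) + (P₁ ⊓ P₂)R`, `P₁R = (g) + (P₁ ⊓ P₂)R`, `P₂R = (f) + (P₁ ⊓ P₂)R`. -/
theorem KronCong.map_eq_span_node {q : ℕ} (hq : 2 ≤ q) {α β : A →+* B}
    {P₁ P₂ n : Ideal B} [n.IsPrime] [IsLocalization.AtPrime R n]
    (hP₁ : P₁ ≤ n) (hP₂ : P₂ ≤ n) (h : KronCong q α β P₁ P₂)
    (hα : ∀ b : B, ∃ a : A, b - α a ∈ P₁) (hβ : ∀ b : B, ∃ a : A, b - β a ∈ P₂)
    {a₀ b₀ : A} (ha₀ : IsBranchUnif α P₁ n a₀) (hb₀ : IsBranchUnif β P₂ n b₀) :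
    ∃ f g : B, f ∈ P₂ ∧ g ∈ P₁ ∧ f * g ∈ P₁ ⊓ P₂ ∧
      Ideal.map (algebraMap B R) n =
        Ideal.span {algebraMap B R f, algebraMap B R g}
          ⊔ Ideal.map (algebraMap B R) (P₁ ⊓ P₂) ∧
      Ideal.map (algebraMap B R) P₁ =
        Ideal.span {algebraMap B R g} ⊔ Ideal.map (algebraMap B R) (P₁ ⊓ P₂) ∧
      Ideal.map (algebraMap B R) P₂ =
        Ideal.span {algebraMap B R f} ⊔ Ideal.map (algebraMap B R) (P₁ ⊓ P₂) := by
  obtain ⟨f, g, hf, hg, hfg, hn, h1, h2⟩ := h.exists_node hq hP₁ hP₂ hα hβ ha₀ hb₀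
  refine ⟨f, g, hf, hg, hfg, ?_, ?_, ?_⟩
  · have hJ : Ideal.span {f, g} ⊔ (P₁ ⊓ P₂) ≤ n := by
      refine sup_le ?_ (inf_le_left.trans hP₁)
      rw [Ideal.span_le]
      rintro x (rfl | rfl)
      · exact hP₂ hf
      · exact hP₁ hg
    rw [map_eq_map_of_local R hJ, Ideal.map_sup, Ideal.map_span, Set.image_pair]
    intro x hx
    obtain ⟨t, ht, y, z, hyz⟩ := hn x hx
    refine ⟨t, ht, ?_⟩
    have : t * x = (f * y + g * z) + (t * x - (f * y + g * z)) := by ring
    rw [this]
    refine Ideal.add_mem _ (Ideal.mem_sup_left ?_) (Ideal.mem_sup_right hyz)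
    exact Ideal.add_mem _
      (Ideal.mul_mem_right _ _ (Ideal.subset_span (Set.mem_insert _ _)))
      (Ideal.mul_mem_right _ _ (Ideal.subset_span (Set.mem_insert_of_mem _ rfl)))
  · refine le_antisymm ?_ ?_
    · rw [Ideal.map_le_iff_le_comap]
      intro x hx
      obtain ⟨t, ht, z, hz⟩ := h1 x hx
      have hu : IsUnit (algebraMap B R t) :=
        IsLocalization.map_units R (⟨t, ht⟩ : n.primeCompl)
      rw [Ideal.mem_comap]
      refine (Ideal.unit_mul_mem_iff_mem _ hu).mp ?_
      have : algebraMap B R t * algebraMap B R x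
          = algebraMap B R g * algebraMap B R z + algebraMap B R (t * x - g * z) := by
        simp only [map_sub, map_mul]; ring
      rw [this]
      exact Ideal.add_mem _
        (Ideal.mem_sup_left (Ideal.mul_mem_right _ _ (Ideal.mem_span_singleton_self _)))
        (Ideal.mem_sup_right (Ideal.mem_map_of_mem _ hz))
    · refine sup_le ?_ (Ideal.map_mono inf_le_left)
      rw [Ideal.span_le, Set.singleton_subset_iff]
      exact Ideal.mem_map_of_mem _ hg
  · refine le_antisymm ?_ ?_
    · rw [Ideal.map_le_iff_le_comap]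
      intro x hx
      obtain ⟨t, ht, z, hz⟩ := h2 x hx
      have hu : IsUnit (algebraMap B R t) :=
        IsLocalization.map_units R (⟨t, ht⟩ : n.primeCompl)
      rw [Ideal.mem_comap]
      refine (Ideal.unit_mul_mem_iff_mem _ hu).mp ?_
      have : algebraMap B R t * algebraMap B R x
          = algebraMap B R f * algebraMap B R z + algebraMap B R (t * x - f * z) := by
        simp only [map_sub, map_mul]; ring
      rw [this]
      exact Ideal.add_mem _
        (Ideal.mem_sup_left (Ideal.mul_mem_right _ _ (Ideal.mem_span_singleton_self _)))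
        (Ideal.mem_sup_right (Ideal.mem_map_of_mem _ hz))
    · refine sup_le ?_ (Ideal.map_mono inf_le_right)
      rw [Ideal.span_le, Set.singleton_subset_iff]
      exact Ideal.mem_map_of_mem _ hf

/-- **Node datum with a uniformiser.**  If moreover `P₁ ⊓ P₂ = (w)` (reduced special fibre with
exactly the two branches), then in `R = B_n`: `𝔪 = (f, g, w)` and `f * g = w * h`. -/
theorem KronCong.map_eq_span_triple {q : ℕ} (hq : 2 ≤ q) {α β : A →+* B}
    {P₁ P₂ n : Ideal B} [n.IsPrime] [IsLocalization.AtPrime R n]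
    (hP₁ : P₁ ≤ n) (hP₂ : P₂ ≤ n) (h : KronCong q α β P₁ P₂)
    (hα : ∀ b : B, ∃ a : A, b - α a ∈ P₁) (hβ : ∀ b : B, ∃ a : A, b - β a ∈ P₂)
    {a₀ b₀ : A} (ha₀ : IsBranchUnif α P₁ n a₀) (hb₀ : IsBranchUnif β P₂ n b₀)
    {w : B} (hw : P₁ ⊓ P₂ = Ideal.span {w}) :
    ∃ f g k : B, f ∈ P₂ ∧ g ∈ P₁ ∧ f * g = w * k ∧
      Ideal.map (algebraMap B R) n =
        Ideal.span {algebraMap B R f, algebraMap B R g, algebraMap B R w} ∧
      Ideal.map (algebraMap B R) P₁ = Ideal.span {algebraMap B R g, algebraMap B R w} ∧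
      Ideal.map (algebraMap B R) P₂ = Ideal.span {algebraMap B R f, algebraMap B R w} := by
  obtain ⟨f, g, hf, hg, hfg, hn, h1, h2⟩ :=
    h.map_eq_span_node R hq hP₁ hP₂ hα hβ ha₀ hb₀
  rw [hw] at hfg hn h1 h2
  obtain ⟨k, hk⟩ := Ideal.mem_span_singleton'.mp hfg
  refine ⟨f, g, k, hf, hg, by rw [← hk, mul_comm], ?_, ?_, ?_⟩
  · rw [hn, Ideal.map_span, Set.image_singleton, ← Ideal.span_union]
    congr 1
    ext x
    simp only [Set.union_singleton, Set.mem_insert_iff, Set.mem_singleton_iff]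
    tauto
  · rw [h1, Ideal.map_span, Set.image_singleton, ← Ideal.span_union]
    congr 1
  · rw [h2, Ideal.map_span, Set.image_singleton, ← Ideal.span_union]
    congr 1

/-- **Smooth points, localised form.** -/
theorem map_eq_span_smooth {α : A →+* B} {P₁ P₂ n : Ideal B} [n.IsPrime]
    [IsLocalization.AtPrime R n]
    (hP₁ : P₁ ≤ n) (hP₂ : ¬ P₂ ≤ n) (hα : ∀ b : B, ∃ a : A, b - α a ∈ P₁)
    {a₀ : A} (ha₀ : IsBranchUnif α P₁ n a₀) :
    Ideal.map (algebraMap B R) n =
      Ideal.span {algebraMap B R (α a₀)} ⊔ Ideal.map (algebraMap B R) (P₁ ⊓ P₂) := by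
  have hJ : Ideal.span {α a₀} ⊔ (P₁ ⊓ P₂) ≤ n := by
    refine sup_le ?_ (inf_le_left.trans hP₁)
    rw [Ideal.span_le, Set.singleton_subset_iff]
    exact ha₀.1
  rw [map_eq_map_of_local R hJ, Ideal.map_sup, Ideal.map_span, Set.image_singleton]
  intro x hx
  obtain ⟨t, ht, z, hz⟩ := exists_smooth_gen hP₁ hP₂ hα ha₀ x hx
  refine ⟨t, ht, ?_⟩
  have : t * x = α a₀ * z + (t * x - α a₀ * z) := by ring
  rw [this]
  exact Ideal.add_mem _
    (Ideal.mem_sup_left (Ideal.mul_mem_right _ _ (Ideal.mem_span_singleton_self _)))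
    (Ideal.mem_sup_right hz)

end Localised

/-! ### `α` is onto the branch: finite birational onto a normal domain -/

/-- An injective, integral, birational ring homomorphism out of an integrally closed domain is
surjective.  (Used for `A ⧸ wA → B ⧸ P₁`: both have the same fraction field by the residue
degree count, the target is integral over `κ[j]`, the source is normal by `b2`.) -/
theorem surjective_of_birational_of_integral {C D : Type*} [CommRing C] [IsDomain C]
    [IsIntegrallyClosed C] [CommRing D] [IsDomain D] (φ : C →+* D)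
    (hinj : Function.Injective φ) (hint : φ.IsIntegral)
    (hbir : ∀ d : D, ∃ c₁ c₂ : C, c₂ ≠ 0 ∧ φ c₂ * d = φ c₁) : Function.Surjective φ := by
  intro d
  obtain ⟨c₁, c₂, hc₂, hd⟩ := hbir d
  obtain ⟨p, hp, hpd⟩ := hint d
  let K := FractionRing C
  let L := FractionRing D
  let g : C →+* L := (algebraMap D L).comp φ
  have hg : Function.Injective g := (IsFractionRing.injective D L).comp hinj
  let ι : K →+* L := IsFractionRing.lift hg
  have hι : ∀ c : C, ι (algebraMap C K c) = algebraMap D L (φ c) := fun c =>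
    IsFractionRing.lift_algebraMap hg c
  have hc₂K : algebraMap C K c₂ ≠ 0 := by
    simpa using (IsFractionRing.injective C K).ne hc₂
  have hφc₂ : φ c₂ ≠ 0 := by
    simpa using hinj.ne hc₂
  have hc₂L : algebraMap D L (φ c₂) ≠ 0 := by
    simpa using (IsFractionRing.injective D L).ne hφc₂
  set k : K := algebraMap C K c₁ / algebraMap C K c₂ with hk
  have hιk : ι k = algebraMap D L d := by
    rw [hk, map_div₀, hι, hι, ← hd, map_mul, mul_div_cancel_left₀ _ hc₂L]
  have hcomp : ι.comp (algebraMap C K) = (algebraMap D L).comp φ := by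
    ext c; exact hι c
  have he : Polynomial.eval₂ (algebraMap C K) k p = 0 := by
    apply ι.injective
    rw [Polynomial.hom_eval₂, hcomp, hιk, ← Polynomial.hom_eval₂, hpd, map_zero, map_zero]
  have hint' : IsIntegral C k := ⟨p, hp, he⟩
  obtain ⟨c, hc⟩ := IsIntegrallyClosed.isIntegral_iff.mp hint'
  refine ⟨c, ?_⟩
  have h1 : c * c₂ = c₁ := by
    apply IsFractionRing.injective C K
    rw [map_mul, hc, hk, div_mul_cancel₀ _ hc₂K]
  apply mul_left_cancel₀ hφc₂
  rw [hd, ← h1, map_mul, mul_comm]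

end Fermat.Agent.A2.H372

end
-- ===== PACK-END A2/H372/Transversal.lean

-- ===== PACK-BEGIN A2/H912/Cover.lean
section


/-!
# Cell A2, route G, obligation C1 (COVER-EXIST) — helper912

Mathlib-only field theory.  Setting: `F` a field of characteristic zero, `τ : F ≃+* F` a ring
automorphism of finite order (`τ ^ r = 1`, `0 < r`), `0 < m`, `g : F`.

* `coverPoly τ r m g = ∏_{i<r} (X^m - τ^i g)`, a `τ`-invariant polynomial;
* `coverField τ r m g` : its splitting field inside `AlgebraicClosure F` (finite Galois over `F`);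
* `coverLift τ r m g hr hm hτ : L ≃+* L` : a lift `τ̃` of `τ` to `L = coverField τ r m g`;
* `coverRoot τ r m g hr hm : L` : an element `y` with `y ^ m = g`;
* `coverGal τ r m g : Subgroup (L ≃+* L)` : the Galois group `Γ = Gal(L/F)` inside `L ≃+* L`,
  normalised by `τ̃` (`coverLift_conj_mem_coverGal` = `hnorm` of `H12.wallG`);
* `coverGal_smul_root` : every `σ ∈ Γ` multiplies `y` by a `τ̃`-fixed root of unity
  (= `hζ` of `H12.wallG`), if `F` contains a primitive `m`-th root of unity fixed by `τ`;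
* `mem_range_of_coverGal_fixed` : the fixed field of `Γ` is `F`;
* `exists_pow_mul_eq_of_coverGal_fixed` : the conclusion of `H12.wallG` for `y` gives
  `τ g = h ^ m * g` with `h : F` (the Kummer conclusion);
* `coverSeq i = τ̃^i y`, `coverSeq_pow : (τ̃^i y)^m = τ^i g`, and
  `adjoin_coverSeq : F(τ̃^i y : i < r) = L`.
-/

set_option autoImplicit false

namespace Fermat.Agent.A2.H912

open Polynomial

noncomputable section

variable {F : Type*} [Field F]

/-! ### The lift of `τ` to the algebraic closure -/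

/-- A lift of `τ` to the algebraic closure of `F`. -/
def liftCl (τ : F ≃+* F) : AlgebraicClosure F ≃+* AlgebraicClosure F :=
  IsAlgClosure.equivOfEquiv (AlgebraicClosure F) (AlgebraicClosure F) τ

theorem liftCl_algebraMap (τ : F ≃+* F) (a : F) :
    liftCl τ (algebraMap F (AlgebraicClosure F) a) = algebraMap F (AlgebraicClosure F) (τ a) :=
  IsAlgClosure.equivOfEquiv_algebraMap (AlgebraicClosure F) (AlgebraicClosure F) τ a

/-- Semilinear evaluation: `φ (P(z)) = (τ P)(φ z)`. -/
theorem aeval_map_semilinear {K Ω : Type*} [Field K] [Field Ω] [Algebra K Ω] (τ : K →+* K)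
    (φ : Ω →+* Ω) (h : ∀ a, φ (algebraMap K Ω a) = algebraMap K Ω (τ a)) (P : K[X]) (z : Ω) :
    aeval (φ z) (P.map τ) = φ (aeval z P) := by
  rw [aeval_def, eval₂_map, aeval_def, hom_eval₂]
  congr 1
  ext a
  simp [h]

/-! ### The invariant polynomial -/

/-- `∏_{i<r} (X^m - τ^i g)`. -/
def coverPoly (τ : F ≃+* F) (r m : ℕ) (g : F) : F[X] :=
  ∏ i ∈ Finset.range r, (X ^ m - C ((τ ^ i) g))

theorem X_pow_sub_C_ne_zero' {m : ℕ} (hm : 0 < m) (a : F) : (X ^ m - C a : F[X]) ≠ 0 :=
  (monic_X_pow_sub_C a hm.ne').ne_zero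

theorem coverPoly_ne_zero (τ : F ≃+* F) (r : ℕ) {m : ℕ} (hm : 0 < m) (g : F) :
    coverPoly τ r m g ≠ 0 := by
  rw [coverPoly, Finset.prod_ne_zero_iff]
  exact fun i _ => X_pow_sub_C_ne_zero' hm _

theorem coverPoly_map (τ : F ≃+* F) {r : ℕ} {m : ℕ} (hm : 0 < m) (hτ : τ ^ r = 1) (g : F) :
    (coverPoly τ r m g).map (τ : F →+* F) = coverPoly τ r m g := by
  have h1 : (coverPoly τ r m g).map (τ : F →+* F) =
      ∏ i ∈ Finset.range r, (X ^ m - C ((τ ^ (i + 1)) g)) := by
    rw [coverPoly, Polynomial.map_prod]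
    refine Finset.prod_congr rfl fun i _ => ?_
    rw [Polynomial.map_sub, Polynomial.map_pow, map_X, map_C, pow_succ']
    rfl
  rw [h1]
  have h2 := Finset.prod_range_succ' (fun i => (X ^ m - C ((τ ^ i) g) : F[X])) r
  have h3 := Finset.prod_range_succ (fun i => (X ^ m - C ((τ ^ i) g) : F[X])) r
  rw [h3] at h2
  simp only [hτ, pow_zero] at h2
  exact (mul_right_cancel₀ (X_pow_sub_C_ne_zero' hm _) h2).symm

theorem coverPoly_map_symm (τ : F ≃+* F) {r : ℕ} {m : ℕ} (hm : 0 < m) (hτ : τ ^ r = 1) (g : F) :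
    (coverPoly τ r m g).map (τ.symm : F →+* F) = coverPoly τ r m g := by
  conv_lhs => rw [← coverPoly_map τ hm hτ g]
  rw [Polynomial.map_map]
  have : (τ.symm : F →+* F).comp (τ : F →+* F) = RingHom.id F := by
    ext a; simp
  rw [this, Polynomial.map_id]

theorem aeval_coverPoly_eq_zero_iff (τ : F ≃+* F) (r m : ℕ) (g : F) {Ω : Type*} [Field Ω]
    [Algebra F Ω] (z : Ω) :
    aeval z (coverPoly τ r m g) = 0 ↔ ∃ i < r, z ^ m = algebraMap F Ω ((τ ^ i) g) := by
  rw [coverPoly, map_prod, Finset.prod_eq_zero_iff]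
  constructor
  · rintro ⟨i, hi, h⟩
    refine ⟨i, Finset.mem_range.1 hi, ?_⟩
    simpa [sub_eq_zero] using h
  · rintro ⟨i, hi, h⟩
    refine ⟨i, Finset.mem_range.2 hi, ?_⟩
    simp [h]

/-! ### The cover field -/

/-- The splitting field of `coverPoly` inside the algebraic closure. -/
def coverField (τ : F ≃+* F) (r m : ℕ) (g : F) : IntermediateField F (AlgebraicClosure F) :=
  IntermediateField.adjoin F ((coverPoly τ r m g).rootSet (AlgebraicClosure F))

instance coverField_isSplittingField (τ : F ≃+* F) (r m : ℕ) (g : F) :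
    IsSplittingField F (coverField τ r m g) (coverPoly τ r m g) :=
  IntermediateField.adjoin_rootSet_isSplittingField (IsAlgClosed.splits _)

instance coverField_finiteDimensional (τ : F ≃+* F) (r m : ℕ) (g : F) :
    FiniteDimensional F (coverField τ r m g) :=
  IsSplittingField.finiteDimensional _ (coverPoly τ r m g)

instance coverField_normal (τ : F ≃+* F) (r m : ℕ) (g : F) :
    Normal F (coverField τ r m g) :=
  Normal.of_isSplittingField (coverPoly τ r m g)

instance coverField_isGalois [CharZero F] (τ : F ≃+* F) (r m : ℕ) (g : F) :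
    IsGalois F (coverField τ r m g) where

theorem liftCl_mem_rootSet (τ : F ≃+* F) {r m : ℕ} (hm : 0 < m) (hτ : τ ^ r = 1) (g : F)
    {z : AlgebraicClosure F} (hz : z ∈ (coverPoly τ r m g).rootSet (AlgebraicClosure F)) :
    liftCl τ z ∈ (coverPoly τ r m g).rootSet (AlgebraicClosure F) := by
  rw [mem_rootSet] at hz ⊢
  refine ⟨hz.1, ?_⟩
  have := aeval_map_semilinear (τ : F →+* F) (liftCl τ : AlgebraicClosure F →+* AlgebraicClosure F)
    (fun a => liftCl_algebraMap τ a) (coverPoly τ r m g) z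
  rw [coverPoly_map τ hm hτ g] at this
  rw [RingHom.coe_coe] at this
  rw [this, hz.2, map_zero]

theorem liftCl_symm_algebraMap (τ : F ≃+* F) (a : F) :
    (liftCl τ).symm (algebraMap F (AlgebraicClosure F) a) =
      algebraMap F (AlgebraicClosure F) (τ.symm a) := by
  rw [RingEquiv.symm_apply_eq, liftCl_algebraMap, RingEquiv.apply_symm_apply]

theorem liftCl_symm_mem_rootSet (τ : F ≃+* F) {r m : ℕ} (hm : 0 < m) (hτ : τ ^ r = 1) (g : F)
    {z : AlgebraicClosure F} (hz : z ∈ (coverPoly τ r m g).rootSet (AlgebraicClosure F)) :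
    (liftCl τ).symm z ∈ (coverPoly τ r m g).rootSet (AlgebraicClosure F) := by
  rw [mem_rootSet] at hz ⊢
  refine ⟨hz.1, ?_⟩
  have := aeval_map_semilinear (τ.symm : F →+* F)
    ((liftCl τ).symm : AlgebraicClosure F →+* AlgebraicClosure F)
    (fun a => liftCl_symm_algebraMap τ a) (coverPoly τ r m g) z
  rw [coverPoly_map_symm τ hm hτ g] at this
  rw [RingHom.coe_coe] at this
  rw [this, hz.2, map_zero]

/-- A semilinear ring homomorphism mapping the generators into `adjoin F S` maps `adjoin F S`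
into itself. -/
theorem map_mem_adjoin_of_semilinear {Ω : Type*} [Field Ω] [Algebra F Ω] (τ : F →+* F)
    (φ : Ω →+* Ω) (h : ∀ a, φ (algebraMap F Ω a) = algebraMap F Ω (τ a)) (S : Set Ω)
    (hS : ∀ z ∈ S, φ z ∈ S) {z : Ω} (hz : z ∈ IntermediateField.adjoin F S) :
    φ z ∈ IntermediateField.adjoin F S := by
  induction hz using IntermediateField.adjoin_induction with
  | mem x hx => exact IntermediateField.subset_adjoin F S (hS x hx)
  | algebraMap a => rw [h]; exact IntermediateField.algebraMap_mem _ _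
  | add x y _ _ hx hy => rw [map_add]; exact add_mem hx hy
  | inv x _ hx => rw [map_inv₀]; exact inv_mem hx
  | mul x y _ _ hx hy => rw [map_mul]; exact mul_mem hx hy

theorem liftCl_mem_coverField (τ : F ≃+* F) {r m : ℕ} (hm : 0 < m) (hτ : τ ^ r = 1) (g : F)
    {z : AlgebraicClosure F} (hz : z ∈ coverField τ r m g) : liftCl τ z ∈ coverField τ r m g :=
  map_mem_adjoin_of_semilinear (τ : F →+* F)
    (liftCl τ : AlgebraicClosure F →+* AlgebraicClosure F) (fun a => liftCl_algebraMap τ a) _
    (fun _ hx => liftCl_mem_rootSet τ hm hτ g hx) hz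

theorem liftCl_symm_mem_coverField (τ : F ≃+* F) {r m : ℕ} (hm : 0 < m) (hτ : τ ^ r = 1) (g : F)
    {z : AlgebraicClosure F} (hz : z ∈ coverField τ r m g) :
    (liftCl τ).symm z ∈ coverField τ r m g :=
  map_mem_adjoin_of_semilinear (τ.symm : F →+* F)
    ((liftCl τ).symm : AlgebraicClosure F →+* AlgebraicClosure F)
    (fun a => liftCl_symm_algebraMap τ a) _
    (fun _ hx => liftCl_symm_mem_rootSet τ hm hτ g hx) hz

/-- **The lift `τ̃` of `τ` to the cover field.** -/
def coverLift (τ : F ≃+* F) (r m : ℕ) (g : F) (hm : 0 < m) (hτ : τ ^ r = 1) :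
    coverField τ r m g ≃+* coverField τ r m g where
  toFun z := ⟨liftCl τ z, liftCl_mem_coverField τ hm hτ g z.2⟩
  invFun z := ⟨(liftCl τ).symm z, liftCl_symm_mem_coverField τ hm hτ g z.2⟩
  left_inv z := Subtype.ext (by simp)
  right_inv z := Subtype.ext (by simp)
  map_mul' a b := Subtype.ext (by simp)
  map_add' a b := Subtype.ext (by simp)

@[simp]
theorem coe_coverLift (τ : F ≃+* F) (r m : ℕ) (g : F) (hm : 0 < m) (hτ : τ ^ r = 1)
    (z : coverField τ r m g) :
    ((coverLift τ r m g hm hτ z : coverField τ r m g) : AlgebraicClosure F) = liftCl τ z := rfl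

theorem coverLift_algebraMap (τ : F ≃+* F) (r m : ℕ) (g : F) (hm : 0 < m) (hτ : τ ^ r = 1)
    (a : F) :
    coverLift τ r m g hm hτ (algebraMap F (coverField τ r m g) a) =
      algebraMap F (coverField τ r m g) (τ a) :=
  Subtype.ext (by
    rw [coe_coverLift]
    exact liftCl_algebraMap τ a)

theorem coverLift_symm_algebraMap (τ : F ≃+* F) (r m : ℕ) (g : F) (hm : 0 < m) (hτ : τ ^ r = 1)
    (a : F) :
    (coverLift τ r m g hm hτ).symm (algebraMap F (coverField τ r m g) a) =
      algebraMap F (coverField τ r m g) (τ.symm a) := by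
  rw [RingEquiv.symm_apply_eq, coverLift_algebraMap, RingEquiv.apply_symm_apply]

theorem coverLift_pow_algebraMap (τ : F ≃+* F) (r m : ℕ) (g : F) (hm : 0 < m) (hτ : τ ^ r = 1)
    (i : ℕ) (a : F) :
    (coverLift τ r m g hm hτ ^ i) (algebraMap F (coverField τ r m g) a) =
      algebraMap F (coverField τ r m g) ((τ ^ i) a) := by
  induction i with
  | zero => simp
  | succ i ih =>
    rw [pow_succ', pow_succ', RingAut.mul_apply, ih, coverLift_algebraMap, RingAut.mul_apply]

/-! ### The Kummer generator -/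

theorem exists_coverRoot (τ : F ≃+* F) {r m : ℕ} (g : F) (hr : 0 < r) (hm : 0 < m) :
    ∃ y : coverField τ r m g, y ^ m = algebraMap F (coverField τ r m g) g := by
  obtain ⟨y₀, hy₀⟩ := IsAlgClosed.exists_pow_nat_eq (algebraMap F (AlgebraicClosure F) g) hm
  have hmem : y₀ ∈ (coverPoly τ r m g).rootSet (AlgebraicClosure F) := by
    rw [mem_rootSet]
    refine ⟨coverPoly_ne_zero τ r hm g, ?_⟩
    rw [aeval_coverPoly_eq_zero_iff]
    exact ⟨0, hr, by simpa using hy₀⟩
  refine ⟨⟨y₀, IntermediateField.subset_adjoin F _ hmem⟩, Subtype.ext ?_⟩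
  simpa using hy₀

/-- **The Kummer generator** `y` with `y ^ m = g`. -/
def coverRoot (τ : F ≃+* F) (r m : ℕ) (g : F) (hr : 0 < r) (hm : 0 < m) : coverField τ r m g :=
  (exists_coverRoot τ g hr hm).choose

theorem coverRoot_pow (τ : F ≃+* F) (r m : ℕ) (g : F) (hr : 0 < r) (hm : 0 < m) :
    coverRoot τ r m g hr hm ^ m = algebraMap F (coverField τ r m g) g :=
  (exists_coverRoot τ g hr hm).choose_spec

theorem coverRoot_ne_zero (τ : F ≃+* F) (r m : ℕ) {g : F} (hg : g ≠ 0) (hr : 0 < r) (hm : 0 < m) :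
    coverRoot τ r m g hr hm ≠ 0 := by
  intro h
  have := coverRoot_pow τ r m g hr hm
  rw [h, zero_pow hm.ne'] at this
  exact hg ((map_eq_zero (algebraMap F (coverField τ r m g))).1 this.symm)

/-- `y_i = τ̃^i y`. -/
def coverSeq (τ : F ≃+* F) (r m : ℕ) (g : F) (hr : 0 < r) (hm : 0 < m) (hτ : τ ^ r = 1) (i : ℕ) :
    coverField τ r m g :=
  (coverLift τ r m g hm hτ ^ i) (coverRoot τ r m g hr hm)

theorem coverSeq_zero (τ : F ≃+* F) (r m : ℕ) (g : F) (hr : 0 < r) (hm : 0 < m) (hτ : τ ^ r = 1) :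
    coverSeq τ r m g hr hm hτ 0 = coverRoot τ r m g hr hm := by
  simp [coverSeq]

theorem coverLift_coverSeq (τ : F ≃+* F) (r m : ℕ) (g : F) (hr : 0 < r) (hm : 0 < m)
    (hτ : τ ^ r = 1) (i : ℕ) :
    coverLift τ r m g hm hτ (coverSeq τ r m g hr hm hτ i) = coverSeq τ r m g hr hm hτ (i + 1) := by
  rw [coverSeq, coverSeq, pow_succ', RingAut.mul_apply]

theorem coverSeq_pow (τ : F ≃+* F) (r m : ℕ) (g : F) (hr : 0 < r) (hm : 0 < m) (hτ : τ ^ r = 1)
    (i : ℕ) :
    coverSeq τ r m g hr hm hτ i ^ m = algebraMap F (coverField τ r m g) ((τ ^ i) g) := by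
  rw [coverSeq, ← map_pow, coverRoot_pow, coverLift_pow_algebraMap]

theorem coverSeq_ne_zero (τ : F ≃+* F) (r m : ℕ) {g : F} (hg : g ≠ 0) (hr : 0 < r) (hm : 0 < m)
    (hτ : τ ^ r = 1) (i : ℕ) : coverSeq τ r m g hr hm hτ i ≠ 0 := by
  rw [coverSeq]
  exact (map_ne_zero_iff _ (RingEquiv.injective _)).2 (coverRoot_ne_zero τ r m hg hr hm)

/-! ### The Galois group inside `L ≃+* L` -/

/-- `Γ = Gal(L/F)`, as a subgroup of the ring automorphisms of `L`. -/
def coverGal (τ : F ≃+* F) (r m : ℕ) (g : F) :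
    Subgroup (coverField τ r m g ≃+* coverField τ r m g) where
  carrier := {σ | ∀ a : F, σ (algebraMap F (coverField τ r m g) a) =
    algebraMap F (coverField τ r m g) a}
  mul_mem' := by
    intro σ ρ hσ hρ a
    rw [RingAut.mul_apply, hρ a, hσ a]
  one_mem' := fun a => rfl
  inv_mem' := by
    intro σ hσ a
    change σ.symm _ = _
    rw [RingEquiv.symm_apply_eq, hσ a]

theorem mem_coverGal (τ : F ≃+* F) (r m : ℕ) (g : F)
    (σ : coverField τ r m g ≃+* coverField τ r m g) :
    σ ∈ coverGal τ r m g ↔ ∀ a : F, σ (algebraMap F (coverField τ r m g) a) =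
      algebraMap F (coverField τ r m g) a := Iff.rfl

/-- `hnorm` of `H12.wallG`: the lift `τ̃` normalises `Γ`. -/
theorem coverLift_conj_mem_coverGal (τ : F ≃+* F) (r m : ℕ) (g : F) (hm : 0 < m) (hτ : τ ^ r = 1) :
    ∀ σ ∈ coverGal τ r m g,
      coverLift τ r m g hm hτ * σ * (coverLift τ r m g hm hτ)⁻¹ ∈ coverGal τ r m g := by
  intro σ hσ a
  change coverLift τ r m g hm hτ (σ ((coverLift τ r m g hm hτ).symm _)) = _
  rw [coverLift_symm_algebraMap, hσ, coverLift_algebraMap, RingEquiv.apply_symm_apply]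

/-- An `F`-algebra automorphism, as an element of `Γ`. -/
theorem algEquiv_mem_coverGal (τ : F ≃+* F) (r m : ℕ) (g : F)
    (f : coverField τ r m g ≃ₐ[F] coverField τ r m g) :
    f.toRingEquiv ∈ coverGal τ r m g := fun a => f.commutes a

/-- An element of `Γ`, as an `F`-algebra automorphism. -/
def coverGalToAlgEquiv (τ : F ≃+* F) (r m : ℕ) (g : F)
    (σ : coverField τ r m g ≃+* coverField τ r m g) (hσ : σ ∈ coverGal τ r m g) :
    coverField τ r m g ≃ₐ[F] coverField τ r m g :=
  AlgEquiv.ofRingEquiv (f := σ) hσ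

@[simp]
theorem coverGalToAlgEquiv_apply (τ : F ≃+* F) (r m : ℕ) (g : F)
    (σ : coverField τ r m g ≃+* coverField τ r m g) (hσ : σ ∈ coverGal τ r m g)
    (z : coverField τ r m g) : coverGalToAlgEquiv τ r m g σ hσ z = σ z := rfl

/-- The fixed field of `Γ` is `F`. -/
theorem mem_range_of_coverGal_fixed [CharZero F] (τ : F ≃+* F) (r m : ℕ) (g : F)
    (z : coverField τ r m g) (hz : ∀ σ ∈ coverGal τ r m g, σ z = z) :
    ∃ a : F, algebraMap F (coverField τ r m g) a = z := by
  have h : z ∈ Set.range (algebraMap F (coverField τ r m g)) := by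
    rw [IsGalois.mem_range_algebraMap_iff_fixed]
    intro f
    exact hz f.toRingEquiv (algEquiv_mem_coverGal τ r m g f)
  exact h

/-! ### Kummer theory -/

/-- Every `σ ∈ Γ` multiplies an `m`-th root of an element of `F^×` by a root of unity of `F`. -/
theorem coverGal_smul_eq (τ : F ≃+* F) (r m : ℕ) (g : F) {ζ : F} (hζ : IsPrimitiveRoot ζ m)
    (hm : 0 < m) {z : coverField τ r m g} (hz0 : z ≠ 0) {a : F}
    (hz : z ^ m = algebraMap F (coverField τ r m g) a) :
    ∀ σ ∈ coverGal τ r m g, ∃ k < m, σ z = algebraMap F (coverField τ r m g) (ζ ^ k) * z := by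
  intro σ hσ
  have : NeZero m := ⟨hm.ne'⟩
  have h1 : (σ z / z) ^ m = 1 := by
    rw [div_pow, ← map_pow, hz, hσ a]
    exact div_self (by rw [← hz]; exact pow_ne_zero _ hz0)
  have hζ' : IsPrimitiveRoot (algebraMap F (coverField τ r m g) ζ) m :=
    hζ.map_of_injective (algebraMap F (coverField τ r m g)).injective
  obtain ⟨k, hk, hk'⟩ := hζ'.eq_pow_of_pow_eq_one h1
  refine ⟨k, hk, ?_⟩
  rw [map_pow, hk', div_mul_cancel₀ _ hz0]

/-- `hζ` of `H12.wallG`: every `σ ∈ Γ` multiplies `y` by a `τ̃`-fixed root of unity. -/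
theorem coverGal_smul_root (τ : F ≃+* F) (r m : ℕ) {g : F} (hg : g ≠ 0) (hr : 0 < r) (hm : 0 < m)
    (hτ : τ ^ r = 1) {ζ : F} (hζ : IsPrimitiveRoot ζ m) (hτζ : τ ζ = ζ) :
    ∀ σ ∈ coverGal τ r m g, ∃ ζ' : coverField τ r m g,
      σ (coverRoot τ r m g hr hm) = ζ' * coverRoot τ r m g hr hm ∧
        coverLift τ r m g hm hτ ζ' = ζ' := by
  intro σ hσ
  obtain ⟨k, -, hk⟩ := coverGal_smul_eq τ r m g hζ hm (coverRoot_ne_zero τ r m hg hr hm)
    (coverRoot_pow τ r m g hr hm) σ hσ
  refine ⟨_, hk, ?_⟩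
  rw [coverLift_algebraMap, map_pow, hτζ]

/-- **The Kummer conclusion**: if `τ̃ y / y` is `Γ`-invariant (the conclusion of `H12.wallG`),
then `τ g = h ^ m * g` with `h ∈ F^×`. -/
theorem exists_pow_mul_eq_of_coverGal_fixed [CharZero F] (τ : F ≃+* F) (r m : ℕ) {g : F}
    (hg : g ≠ 0) (hr : 0 < r) (hm : 0 < m) (hτ : τ ^ r = 1)
    (hfix : ∀ σ ∈ coverGal τ r m g,
      σ (coverLift τ r m g hm hτ (coverRoot τ r m g hr hm) / coverRoot τ r m g hr hm) =
        coverLift τ r m g hm hτ (coverRoot τ r m g hr hm) / coverRoot τ r m g hr hm) :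
    ∃ h : F, h ≠ 0 ∧ τ g = h ^ m * g := by
  obtain ⟨h, hh⟩ := mem_range_of_coverGal_fixed τ r m g _ hfix
  have hy0 := coverRoot_ne_zero τ r m hg hr hm
  have hg' : algebraMap F (coverField τ r m g) g ≠ 0 :=
    (map_ne_zero_iff _ (algebraMap F (coverField τ r m g)).injective).2 hg
  have key : algebraMap F (coverField τ r m g) (h ^ m * g) =
      algebraMap F (coverField τ r m g) (τ g) := by
    rw [map_mul, map_pow, hh, div_pow, ← map_pow, coverRoot_pow, coverLift_algebraMap,
      div_mul_cancel₀ _ hg']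
  have key' : h ^ m * g = τ g := (algebraMap F (coverField τ r m g)).injective key
  refine ⟨h, ?_, key'.symm⟩
  rintro rfl
  rw [zero_pow hm.ne', zero_mul] at key'
  exact hg ((map_eq_zero τ).1 key'.symm)

/-! ### Generators -/

/-- `L = F(y_0, …, y_{r-1})`. -/
theorem adjoin_coverSeq (τ : F ≃+* F) (r m : ℕ) (g : F) (hr : 0 < r) (hm : 0 < m)
    (hτ : τ ^ r = 1) {ζ : F} (hζ : IsPrimitiveRoot ζ m) :
    IntermediateField.adjoin F
      ((fun i : Fin r => coverSeq τ r m g hr hm hτ i) '' Set.univ) = ⊤ := by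
  have : NeZero m := ⟨hm.ne'⟩
  rw [eq_top_iff]
  rintro ⟨z, hz⟩ -
  induction hz using IntermediateField.adjoin_induction with
  | mem x hx =>
    have hx0 : x ∈ coverField τ r m g := IntermediateField.subset_adjoin F _ hx
    rw [mem_rootSet, aeval_coverPoly_eq_zero_iff] at hx
    obtain ⟨-, i, hi, hxi⟩ := hx
    set K := IntermediateField.adjoin F
      ((fun i : Fin r => coverSeq τ r m g hr hm hτ i) '' Set.univ) with hK
    have hyi : coverSeq τ r m g hr hm hτ i ∈ K :=
      IntermediateField.subset_adjoin F _ ⟨⟨i, hi⟩, Set.mem_univ _, rfl⟩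
    have hpow : (⟨x, hx0⟩ : coverField τ r m g) ^ m = coverSeq τ r m g hr hm hτ i ^ m := by
      rw [coverSeq_pow]
      exact Subtype.ext (by simpa using hxi)
    by_cases hg : g = 0
    · have : (⟨x, hx0⟩ : coverField τ r m g) = 0 := by
        have h0 : (⟨x, hx0⟩ : coverField τ r m g) ^ m = 0 := by
          rw [hpow, coverSeq_pow, hg, map_zero, map_zero]
        exact pow_eq_zero_iff hm.ne' |>.1 h0
      rw [this]
      exact zero_mem _
    · have hy0 := coverSeq_ne_zero τ r m hg hr hm hτ i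
      have h1 : ((⟨x, hx0⟩ : coverField τ r m g) / coverSeq τ r m g hr hm hτ i) ^ m = 1 := by
        rw [div_pow, hpow]
        exact div_self (pow_ne_zero _ hy0)
      have hζ' : IsPrimitiveRoot (algebraMap F (coverField τ r m g) ζ) m :=
        hζ.map_of_injective (algebraMap F (coverField τ r m g)).injective
      obtain ⟨k, -, hk'⟩ := hζ'.eq_pow_of_pow_eq_one h1
      have : (⟨x, hx0⟩ : coverField τ r m g) =
          algebraMap F (coverField τ r m g) ζ ^ k * coverSeq τ r m g hr hm hτ i := by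
        rw [hk', div_mul_cancel₀ _ hy0]
      rw [this]
      exact mul_mem (pow_mem (IntermediateField.algebraMap_mem _ _) _) hyi
  | algebraMap a => exact IntermediateField.algebraMap_mem _ a
  | add x y hx hy ihx ihy => exact add_mem ihx ihy
  | inv x hx ihx => exact inv_mem ihx
  | mul x y hx hy ihx ihy => exact mul_mem ihx ihy

end

end Fermat.Agent.A2.H912

end
-- ===== PACK-END A2/H912/Cover.lean

-- ===== PACK-BEGIN A2/IF/H429/Hilbert.lean
section


/-!
# A2 / IF (helper429): the inertia field is unramified (finite level, Mathlib only)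

Companion of Mathlib's `IsDecompositionField.ramificationIdx_eq` for the inertia field:
if `E` is the inertia field of `P` in the finite Galois extension `L/K` and `𝓟E` is the prime of
`E` below `P`, then `e(𝓟E | p) = 1`.
-/

set_option autoImplicit false
set_option linter.style.haveILetI false
set_option linter.unusedSectionVars false

open MulAction Pointwise Ideal NumberField IsDedekindDomain

namespace Fermat.Agent.A2.IF.H429

section

variable (A K L : Type*) {B : Type*} [Field K] [Field L] [Algebra K L] [CommRing A] [CommRing B]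
  [Algebra A B] {p : Ideal A} (P : Ideal B) [P.LiesOver p]

variable [Algebra A K] [IsFractionRing A K] [Algebra A L] [IsScalarTower A K L] [Algebra B L]
  [IsScalarTower A B L] [IsFractionRing B L] [MulSemiringAction Gal(L/K) B]
  [SMulDistribClass Gal(L/K) B L]

variable (E 𝓞E : Type*) [Field E] [Algebra E L] [IsInertiaField K L P E] [CommRing 𝓞E]
  [Algebra 𝓞E E] [IsFractionRing 𝓞E E] [Algebra 𝓞E B] [Algebra 𝓞E L] [IsScalarTower 𝓞E E L]
  [IsScalarTower 𝓞E B L] (𝓟E : Ideal 𝓞E) [hE : P.LiesOver 𝓟E]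

variable [IsGalois K L] [IsDedekindDomain A] [IsDedekindDomain B] [Module.Finite A B]
  [Module.IsTorsionFree A B] [Algebra A 𝓞E] [Module.Finite A 𝓞E] [IsScalarTower A 𝓞E B]
  [IsDedekindDomain 𝓞E] [𝓟E.LiesOver p]

variable [FiniteDimensional K L] [Ring.HasFiniteQuotients A] [𝓟E.IsMaximal] [P.IsMaximal]

omit [𝓟E.LiesOver p] in
include K L E P in
theorem inertiaField_ramificationIdxIn_eq (hp : p ≠ ⊥) [PerfectField 𝓟E.ResidueField] :
    ramificationIdxIn 𝓟E B = p.ramificationIdxIn B := by
  have inst₁ : Module.Finite 𝓞E B := Module.Finite.right A 𝓞E B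
  have inst₂ : Module.IsTorsionFree 𝓞E B := by
    rw [Module.isTorsionFree_iff_faithfulSMul]
    apply Algebra.IsAlgebraic.faithfulSMul_tower_top A
  have inst₄ : IsGaloisGroup Gal(L/K) A B := .of_isFractionRing _ _ _ K L
  have inst₅ : IsGaloisGroup (inertia Gal(L/K) P) 𝓞E B := .of_isFractionRing _ _ _ E L
  have : p.IsMaximal := over_def P p ▸ Ideal.IsMaximal.under A P
  have : Finite (A ⧸ p) := Ring.HasFiniteQuotients.finiteQuotient hp
  have h1 := card_inertia_eq_ramificationIdxIn (G := Gal(L/K)) p P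
  have h2 := card_inertia_eq_ramificationIdxIn (G := inertia Gal(L/K) P) 𝓟E P
  rw [← h1, ← h2]
  have h3 : (P.inertia (inertia Gal(L/K) P)) = ⊤ := by
    rw [eq_top_iff]
    intro g _
    exact Ideal.coe_mem_inertia.mp g.2
  rw [h3]
  exact Nat.card_congr Subgroup.topEquiv.toEquiv

include K L E P in
/-- Let `E` be the inertia field of `P` in `L/K` and `𝓟E` the prime of `E` below `P`.  Then
`𝓟E` is unramified over `K`. -/
theorem inertiaField_ramificationIdx_eq (hp : p ≠ ⊥) [PerfectField 𝓟E.ResidueField] :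
    𝓟E.ramificationIdx A = 1 := by
  have inst₁ : Module.Finite 𝓞E B := Module.Finite.right A 𝓞E B
  have inst₂ : Module.IsTorsionFree 𝓞E B := by
    rw [Module.isTorsionFree_iff_faithfulSMul]
    apply Algebra.IsAlgebraic.faithfulSMul_tower_top A
  have inst₃ : Module.IsTorsionFree A 𝓞E := Module.IsTorsionFree.of_faithfulSMul _ _ B
  have inst₄ : IsGaloisGroup Gal(L/K) A B := .of_isFractionRing _ _ _ K L
  have inst₅ : IsGaloisGroup (inertia Gal(L/K) P) 𝓞E B := .of_isFractionRing _ _ _ E L
  have := ramificationIdx_tower (R := A) 𝓟E P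
  rwa [← ramificationIdxIn_eq_ramificationIdx 𝓟E P (inertia Gal(L/K) P),
    inertiaField_ramificationIdxIn_eq A K L P E 𝓞E 𝓟E hp,
    ramificationIdxIn_eq_ramificationIdx p P Gal(L/K),
    right_eq_mul₀ <| (ramificationIdx_pos P A).ne'] at this

end


/-- Finite level form of "the inertia field is unramified": an element of the finite Galois
number field `F` fixed by the inertia group of `P` has the `P`-adic value of a power of `q`. -/
theorem exists_zpow_valuation_eq_one_of_fixed (F : Type*) [Field F] [NumberField F] [IsGalois ℚ F]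
    (w : HeightOneSpectrum (𝓞 F)) (q : ℕ) (hq : q.Prime) (hqP : (q : 𝓞 F) ∈ w.asIdeal)
    (y : F) (hy : y ≠ 0) (hfix : ∀ τ ∈ w.asIdeal.inertia Gal(F/ℚ), τ y = y) :
    ∃ k : ℤ, w.valuation F (y / (q : F) ^ k) = 1 := by
  classical
  set P : Ideal (𝓞 F) := w.asIdeal with hP
  haveI : P.IsPrime := w.isPrime
  haveI : P.IsMaximal := w.isMaximal
  let T : IntermediateField ℚ F := FixedPoints.intermediateField (inertia Gal(F/ℚ) P)
  let 𝓟T : Ideal (𝓞 T) := P.under (𝓞 T)
  let p : Ideal ℤ := P.under ℤ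
  have hqp : (q : ℤ) ∈ p := by
    show algebraMap ℤ (𝓞 F) (q : ℤ) ∈ P
    simpa using hqP
  have hp : p ≠ ⊥ := by
    intro h
    rw [h, Ideal.mem_bot] at hqp
    exact hq.ne_zero (by exact_mod_cast hqp)
  have hpq : p = Ideal.span {(q : ℤ)} := by
    have hmax : (Ideal.span {(q : ℤ)}).IsMaximal :=
      PrincipalIdealRing.isMaximal_of_irreducible
        (Nat.prime_iff_prime_int.mp hq).irreducible
    have hle : Ideal.span {(q : ℤ)} ≤ p := by
      rw [Ideal.span_singleton_le_iff_mem]; exact hqp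
    exact (hmax.eq_of_le (Ideal.IsPrime.ne_top inferInstance) hle).symm
  have h𝓟T0 : 𝓟T ≠ ⊥ := Ideal.ne_bot_of_liesOver_of_ne_bot hp 𝓟T
  haveI : 𝓟T.IsMaximal := Ring.DimensionLEOne.maximalOfPrime h𝓟T0 inferInstance
  haveI : Finite (𝓞 T ⧸ 𝓟T) := Ring.HasFiniteQuotients.finiteQuotient h𝓟T0
  have he : 𝓟T.ramificationIdx ℤ = 1 :=
    inertiaField_ramificationIdx_eq ℤ ℚ F P T (𝓞 T) 𝓟T hp
  let v : HeightOneSpectrum ℤ := ⟨p, inferInstance, hp⟩
  let wT : HeightOneSpectrum (𝓞 T) := ⟨𝓟T, inferInstance, h𝓟T0⟩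
  haveI : wT.asIdeal.LiesOver v.asIdeal := (inferInstance : 𝓟T.LiesOver p)
  haveI : w.asIdeal.LiesOver wT.asIdeal := (inferInstance : P.LiesOver 𝓟T)
  have he' : v.asIdeal.ramificationIdx' wT.asIdeal = 1 := by
    rw [Ideal.ramificationIdx'_eq_ramificationIdx v.asIdeal wT.asIdeal hp]
    exact he
  -- value of `q`
  have hvq : v.valuation ℚ (q : ℚ) = WithZero.exp (-1 : ℤ) := by
    have h1 : v.valuation ℚ ((q : ℤ) : ℚ) = v.intValuation (q : ℤ) :=
      v.valuation_of_algebraMap (q : ℤ)
    rw [Int.cast_natCast] at h1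
    rw [h1]
    exact v.intValuation_singleton (by exact_mod_cast hq.ne_zero) hpq
  have hwq : wT.valuation T (q : T) = WithZero.exp (-1 : ℤ) := by
    have h1 := HeightOneSpectrum.valuation_liesOver T v wT (q : ℚ)
    rw [he', pow_one, hvq] at h1
    rw [h1]
    simp
  -- `y` in `T`
  let yT : T := ⟨y, fun g => hfix g.1 g.2⟩
  have hyT : yT ≠ 0 := fun h => hy (congrArg Subtype.val h)
  have hwy : wT.valuation T yT ≠ 0 := (Valuation.ne_zero_iff _).mpr hyT
  refine ⟨- WithZero.log (wT.valuation T yT), ?_⟩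
  have hz : wT.valuation T (yT / (q : T) ^ (- WithZero.log (wT.valuation T yT))) = 1 := by
    rw [map_div₀, map_zpow₀, hwq, ← WithZero.exp_zsmul]
    simp only [smul_eq_mul, mul_neg, mul_one, neg_neg]
    rw [WithZero.exp_log hwy]
    exact div_self hwy
  have h2 := HeightOneSpectrum.valuation_liesOver F wT w
    (yT / (q : T) ^ (- WithZero.log (wT.valuation T yT)))
  rw [hz, one_pow] at h2
  have h3 : algebraMap T F (yT / (q : T) ^ (- WithZero.log (wT.valuation T yT))) =
      y / (q : F) ^ (- WithZero.log (wT.valuation T yT)) := by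
    rw [map_div₀, map_zpow₀, map_natCast]
    rfl
  rw [← h3]
  exact h2.symm


end Fermat.Agent.A2.IF.H429

end
-- ===== PACK-END A2/IF/H429/Hilbert.lean

-- ===== PACK-BEGIN A2/IF/H429/Dvr.lean
section


/-!
# A2 / IF (helper429): a criterion for discrete valuation rings (Mathlib only)

A valuation ring in which a fixed power `x ^ N` of every nonzero element is associated to a
power of a fixed nonzero non-unit `ϖ` is a discrete valuation ring.
-/

set_option autoImplicit false

namespace Fermat.Agent.A2.IF.H429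

section

variable {R : Type*} [CommRing R] [IsDomain R]

theorem pow_associated_inj {ϖ : R} (hϖ0 : ϖ ≠ 0) (hϖ : ¬ IsUnit ϖ) {a b : ℕ}
    (h : Associated (ϖ ^ a) (ϖ ^ b)) : a = b := by
  wlog hab : a ≤ b generalizing a b
  · exact (this h.symm (le_of_not_ge hab)).symm
  obtain ⟨c, rfl⟩ := Nat.exists_eq_add_of_le hab
  by_contra hne
  have hc : c ≠ 0 := fun h0 => hne (by simp [h0])
  obtain ⟨u, hu⟩ := h
  rw [pow_add] at hu
  have h1 : (u : R) = ϖ ^ c := mul_left_cancel₀ (pow_ne_zero a hϖ0) hu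
  have h2 : IsUnit (ϖ ^ c) := h1 ▸ u.isUnit
  exact hϖ ((isUnit_pow_iff hc).mp h2)

variable [ValuationRing R]

/-- **DVR criterion.** -/
theorem isDiscreteValuationRing_of_pow_associated (ϖ : R) (hϖ0 : ϖ ≠ 0) (hϖ : ¬ IsUnit ϖ)
    (N : ℕ) (hN : 0 < N) (h : ∀ x : R, x ≠ 0 → ∃ k : ℕ, Associated (x ^ N) (ϖ ^ k)) :
    IsDiscreteValuationRing R := by
  classical
  -- the "valuation"
  choose! ν hν using h
  have hν_unique : ∀ x : R, x ≠ 0 → ∀ k : ℕ, Associated (x ^ N) (ϖ ^ k) → ν x = k := by
    intro x hx k hk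
    exact pow_associated_inj hϖ0 hϖ ((hν x hx).symm.trans hk)
  have hν_mul : ∀ x y : R, x ≠ 0 → y ≠ 0 → ν (x * y) = ν x + ν y := by
    intro x y hx hy
    apply hν_unique _ (mul_ne_zero hx hy)
    rw [mul_pow, pow_add]
    exact (hν x hx).mul_mul (hν y hy)
  have hν_unit : ∀ x : R, x ≠ 0 → (ν x = 0 ↔ IsUnit x) := by
    intro x hx
    constructor
    · intro h0
      have h1 := hν x hx
      rw [h0, pow_zero] at h1
      have h2 : IsUnit (x ^ N) := h1.symm.isUnit isUnit_one
      exact (isUnit_pow_iff hN.ne').mp h2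
    · intro hu
      apply hν_unique x hx 0
      rw [pow_zero]
      exact associated_one_iff_isUnit.mpr (hu.pow N)
  -- a non-unit of minimal valuation
  have hex : ∃ k : ℕ, ∃ x : R, x ≠ 0 ∧ ¬ IsUnit x ∧ ν x = k := ⟨ν ϖ, ϖ, hϖ0, hϖ, rfl⟩
  obtain ⟨π, hπ0, hπu, hπk⟩ := Nat.find_spec hex
  have hmin : ∀ x : R, x ≠ 0 → ¬ IsUnit x → ν π ≤ ν x := by
    intro x hx hxu
    rw [hπk]
    exact Nat.find_min' hex ⟨x, hx, hxu, rfl⟩
  have hπpos : 0 < ν π := by
    rcases Nat.eq_zero_or_pos (ν π) with h0 | h0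
    · exact absurd ((hν_unit π hπ0).mp h0) hπu
    · exact h0
  have hirr : Irreducible π := by
    refine ⟨hπu, fun a b hab => ?_⟩
    by_contra hcon
    rw [not_or] at hcon
    have ha0 : a ≠ 0 := by
      rintro rfl
      rw [zero_mul] at hab
      exact hπ0 hab
    have hb0 : b ≠ 0 := by
      rintro rfl
      rw [mul_zero] at hab
      exact hπ0 hab
    have h1 := hν_mul a b ha0 hb0
    rw [← hab] at h1
    have h2 := hmin a ha0 hcon.1
    have h3 := hmin b hb0 hcon.2
    omega
  have key : ∀ n : ℕ, ∀ x : R, x ≠ 0 → ν x = n → ∃ j : ℕ, Associated (π ^ j) x := by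
    intro n
    induction n using Nat.strong_induction_on with
    | _ n ih =>
      intro x hx hxn
      by_cases hxu : IsUnit x
      · exact ⟨0, by rw [pow_zero]; exact (associated_one_iff_isUnit.mpr hxu).symm⟩
      · rcases ValuationRing.dvd_total π x with ⟨y, hy⟩ | ⟨z, hz⟩
        · have hy0 : y ≠ 0 := by
            rintro rfl
            rw [mul_zero] at hy
            exact hx hy
          have h1 := hν_mul π y hπ0 hy0
          rw [← hy, hxn] at h1
          obtain ⟨j, hj⟩ := ih (ν y) (by omega) y hy0 rfl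
          refine ⟨j + 1, ?_⟩
          rw [pow_succ', hy]
          exact (Associated.refl π).mul_mul hj
        · have hz0 : z ≠ 0 := by
            rintro rfl
            rw [mul_zero] at hz
            exact hπ0 hz
          rcases hirr.isUnit_or_isUnit hz with h1 | h1
          · exact absurd h1 hxu
          · refine ⟨1, ?_⟩
            rw [pow_one, hz]
            exact (associated_mul_unit_right x z h1).symm
  exact IsDiscreteValuationRing.ofHasUnitMulPowIrreducibleFactorization
    ⟨π, hirr, fun {x} hx => key (ν x) x hx rfl⟩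

end

end Fermat.Agent.A2.IF.H429

end
-- ===== PACK-END A2/IF/H429/Dvr.lean

-- ===== PACK-BEGIN S18/MOD/H396/Sep.lean
section


/-!
# S18 / MOD, piece SEP (helper396, squad S18/S36): separability from a derivation

ABSTRACT, Mathlib-only.  `k` a perfect field, `K` a field extension of `k` with a `k`-derivation
`D : K → K`, `x ∈ K` with `D x ≠ 0`.  Then

* `transcendental_of_D_ne_zero` : `x` is transcendental over `k`;
* `isSeparable_of_D_ne_zero`    : every `y ∈ K` algebraic over `k(x)` is separable over `k(x)`.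

Application: `K = κ((q))`, `D = d/dq`, `x = j̄` (or `t̄₂`, `t̄₃`) `= q⁻¹ + …`: the function field
`F_κ ⊆ κ((q))` of the special fibre is separable over `κ(x̄)` (field G-SEP of `GoodModel`).
-/

set_option autoImplicit false

namespace Fermat.Agent.S18.MOD.H396

open Polynomial IntermediateField

variable {k K : Type*} [Field k] [Field K] [Algebra k K] (D : Derivation k K K)

/-- Over a perfect field of characteristic `p`, a polynomial with zero derivative is a `p`-th
power. -/
theorem exists_pow_eq_of_derivative_eq_zero (p : ℕ) [hp : Fact p.Prime] [CharP k p]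
    [PerfectField k] (u : k[X]) (hu : derivative u = 0) : ∃ v : k[X], v ^ p = u := by
  obtain ⟨v, hv⟩ := Polynomial.map_surjective (frobenius k p) (surjective_frobenius k p)
    (contract p u)
  refine ⟨v, ?_⟩
  rw [← map_frobenius_expand, map_expand, hv, expand_contract p hu hp.out.ne_zero]

/-- `D x ≠ 0` forces `x` to be transcendental over the perfect field `k`. -/
theorem transcendental_of_D_ne_zero [PerfectField k] (x : K) (hx : D x ≠ 0) :
    Transcendental k x := by
  intro halg
  have hint : IsIntegral k x := halg.isIntegral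
  have hsep : (minpoly k x).Separable :=
    PerfectField.separable_of_irreducible (minpoly.irreducible hint)
  have h0 : D (aeval x (minpoly k x)) = 0 := by rw [minpoly.aeval, map_zero]
  rw [Derivation.map_aeval] at h0
  have h1 : aeval x (derivative (minpoly k x)) ≠ 0 :=
    hsep.aeval_derivative_ne_zero (minpoly.aeval k x)
  exact hx ((smul_eq_zero.mp h0).resolve_left h1)

theorem aeval_mem_adjoin_simple (x : K) (r : k[X]) : aeval x r ∈ k⟮x⟯ := by
  rw [mem_adjoin_simple_iff]
  exact ⟨r, 1, by simp⟩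

/-- `D` maps `k(x)` into `k(x) · D x`. -/
theorem exists_D_eq_mul (x : K) (a : K) (ha : a ∈ k⟮x⟯) : ∃ b ∈ k⟮x⟯, D a = b * D x := by
  obtain ⟨r, s, rfl⟩ := (mem_adjoin_simple_iff k a).mp ha
  refine ⟨(aeval x s)⁻¹ ^ 2 *
    (aeval x s * aeval x (derivative r) - aeval x r * aeval x (derivative s)), ?_, ?_⟩
  · exact mul_mem (pow_mem (inv_mem (aeval_mem_adjoin_simple x s)) 2)
      (sub_mem (mul_mem (aeval_mem_adjoin_simple x s) (aeval_mem_adjoin_simple x _))
        (mul_mem (aeval_mem_adjoin_simple x r) (aeval_mem_adjoin_simple x _)))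
  · rw [Derivation.leibniz_div, Derivation.map_aeval, Derivation.map_aeval]
    simp only [smul_eq_mul]
    ring

/-- Key lemma: an element of `k(x)` killed by `D` is a `p`-th power in `k(x)`. -/
theorem exists_pow_eq_of_D_eq_zero (p : ℕ) [hp : Fact p.Prime] [CharP k p] [PerfectField k]
    (x : K) (hx : D x ≠ 0) (a : K) (ha : a ∈ k⟮x⟯) (hDa : D a = 0) :
    ∃ b ∈ k⟮x⟯, b ^ p = a := by
  have : CharP K p := charP_of_injective_algebraMap (algebraMap k K).injective p
  obtain ⟨r, s, rfl⟩ := (mem_adjoin_simple_iff k a).mp ha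
  by_cases hs : aeval x s = 0
  · refine ⟨0, zero_mem _, ?_⟩
    rw [hs, div_zero, zero_pow hp.out.ne_zero]
  set u : k[X] := r * s ^ (p - 1) with hu
  have hp1 : p - 1 + 1 = p := Nat.sub_add_cancel hp.out.one_le
  have ha' : aeval x r / aeval x s = aeval x u / (aeval x s) ^ p := by
    rw [hu, map_mul, map_pow, div_eq_div_iff hs (pow_ne_zero p hs)]
    rw [mul_assoc, ← pow_succ, hp1]
  have hDsp : D ((aeval x s) ^ p) = 0 := by
    rw [Derivation.leibniz_pow, ← Nat.cast_smul_eq_nsmul K, CharP.cast_eq_zero K p, zero_smul]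
  have hDu : D (aeval x u) = 0 := by
    rw [ha', Derivation.leibniz_div_const _ _ _ hDsp] at hDa
    exact (smul_eq_zero.mp hDa).resolve_left (inv_ne_zero (pow_ne_zero p hs))
  rw [Derivation.map_aeval] at hDu
  have hu' : aeval x (derivative u) = 0 := (smul_eq_zero.mp hDu).resolve_right hx
  have htr := transcendental_of_D_ne_zero D x hx
  have hu0 : derivative u = 0 := by
    by_contra h
    exact htr ⟨derivative u, h, hu'⟩
  obtain ⟨v, hv⟩ := exists_pow_eq_of_derivative_eq_zero p u hu0
  refine ⟨aeval x v / aeval x s,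
    div_mem (aeval_mem_adjoin_simple x v) (aeval_mem_adjoin_simple x s), ?_⟩
  rw [div_pow, ← map_pow, hv, ← ha']

/-- **SEP.** If `D x ≠ 0`, every element of `K` algebraic over `k(x)` is separable over `k(x)`. -/
theorem isSeparable_of_D_ne_zero [PerfectField k] (x : K) (hx : D x ≠ 0) (y : K)
    (hy : IsAlgebraic k⟮x⟯ y) : IsSeparable k⟮x⟯ y := by
  classical
  obtain ⟨p, hpc⟩ := CharP.exists k
  have hint : IsIntegral k⟮x⟯ y := hy.isIntegral
  have hirr := minpoly.irreducible hint
  rcases CharP.char_is_prime_or_zero k p with hp | hp0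
  swap
  · -- characteristic zero
    subst hp0
    have : CharZero k := CharP.charP_to_charZero k
    have : CharZero k⟮x⟯ := charZero_of_injective_algebraMap (algebraMap k k⟮x⟯).injective
    exact hirr.separable
  have := Fact.mk hp
  have : CharP k⟮x⟯ p := charP_of_injective_algebraMap (algebraMap k k⟮x⟯).injective p
  rw [IsSeparable, separable_iff_derivative_ne_zero hirr]
  intro hder
  set P := minpoly k⟮x⟯ y with hP
  set n := P.natDegree with hn
  have hmonic : P.Monic := minpoly.monic hint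
  -- the coefficientwise derivative
  have hb : ∀ i : ℕ, ∃ b : k⟮x⟯, D ((P.coeff i : k⟮x⟯) : K) = (b : K) * D x := by
    intro i
    obtain ⟨b, hbm, hb⟩ := exists_D_eq_mul D x _ (P.coeff i).2
    exact ⟨⟨b, hbm⟩, hb⟩
  choose b hb using hb
  -- the terms coming from `∂/∂T` vanish
  have hterm : ∀ i : ℕ, ((P.coeff i : k⟮x⟯) : K) * D (y ^ i) = 0 := by
    intro i
    rcases Nat.eq_zero_or_pos i with rfl | hi
    · rw [pow_zero, Derivation.map_one_eq_zero, mul_zero]
    · obtain ⟨j, rfl⟩ : ∃ j, i = j + 1 := ⟨i - 1, by omega⟩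
      have hc : (derivative P).coeff j = 0 := by rw [hder, coeff_zero]
      rw [coeff_derivative] at hc
      have hcK : ((P.coeff (j + 1) : k⟮x⟯) : K) * ((j : K) + 1) = 0 := by
        have := congrArg (fun z : k⟮x⟯ => (z : K)) hc
        simpa using this
      rw [Derivation.leibniz_pow, ← Nat.cast_smul_eq_nsmul K, smul_eq_mul, smul_eq_mul,
        ← mul_assoc, Nat.cast_succ, hcK, zero_mul]
  have hsum : (∑ i ∈ Finset.range (n + 1), (b i : K) * y ^ i) * D x = 0 := by
    have h0 : D (aeval y P) = 0 := by rw [minpoly.aeval, map_zero]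
    rw [aeval_eq_sum_range, map_sum] at h0
    rw [Finset.sum_mul, ← h0]
    refine Finset.sum_congr rfl fun i _ => ?_
    rw [IntermediateField.smul_def, smul_eq_mul, Derivation.leibniz, smul_eq_mul, smul_eq_mul,
      hterm i, zero_add, hb i]
    ring
  have hsum0 : ∑ i ∈ Finset.range (n + 1), (b i : K) * y ^ i = 0 :=
    (mul_eq_zero.mp hsum).resolve_right hx
  -- `b n = 0`
  have hbn : (b n : K) = 0 := by
    have h1 : P.coeff n = 1 := hmonic.coeff_natDegree
    have h2 := hb n
    rw [h1] at h2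
    have h3 : D ((1 : k⟮x⟯) : K) = 0 := by
      rw [show (((1 : k⟮x⟯) : K)) = 1 from rfl, Derivation.map_one_eq_zero]
    rw [h3] at h2
    exact (mul_eq_zero.mp h2.symm).resolve_right hx
  rw [Finset.sum_range_succ, hbn, zero_mul, add_zero] at hsum0
  -- the polynomial `Pδ`
  set Pδ : (k⟮x⟯)[X] := Polynomial.ofFn n (fun i : Fin n => b i) with hPδ
  have hPδy : aeval y Pδ = 0 := by
    rw [hPδ, ofFn_eq_sum_monomial, map_sum, ← hsum0,
      ← Fin.sum_univ_eq_sum_range (fun i => (b i : K) * y ^ i) n]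
    refine Finset.sum_congr rfl fun i _ => ?_
    rw [aeval_monomial]
    rfl
  have hPδ0 : Pδ = 0 := by
    by_contra hne
    have h1 := minpoly.degree_le_of_ne_zero k⟮x⟯ y hne hPδy
    have h2 : Pδ.degree < n := ofFn_degree_lt _
    have h3 : P.degree = n := degree_eq_natDegree hmonic.ne_zero
    rw [← hP, h3] at h1
    exact absurd (lt_of_le_of_lt h1 h2) (lt_irrefl _)
  have hbi : ∀ i, i < n → b i = 0 := by
    intro i hi
    have := ofFn_coeff_eq_val_of_lt (fun i : Fin n => b i) hi
    rw [← hPδ, hPδ0, coeff_zero] at this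
    exact this.symm
  -- all coefficients are killed by `D`
  have hDc : ∀ i, D ((P.coeff i : k⟮x⟯) : K) = 0 := by
    intro i
    rcases lt_trichotomy i n with hi | hi | hi
    · rw [hb i, hbi i hi]
      simp
    · rw [hb i, hi, hbn, zero_mul]
    · rw [coeff_eq_zero_of_natDegree_lt hi]
      simp
  -- hence they are `p`-th powers
  have hpow : ∀ i, ∃ c : k⟮x⟯, c ^ p = P.coeff i := by
    intro i
    obtain ⟨c, hcm, hc⟩ := exists_pow_eq_of_D_eq_zero D p x hx _ (P.coeff i).2 (hDc i)
    exact ⟨⟨c, hcm⟩, Subtype.ext hc⟩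
  have hrange : contract p P ∈ (mapRingHom (frobenius k⟮x⟯ p)).range := by
    rw [Polynomial.mem_map_range]
    intro m
    rw [coeff_contract hp.ne_zero]
    obtain ⟨c, hc⟩ := hpow (m * p)
    exact ⟨c, by rw [← hc]; rfl⟩
  obtain ⟨Q, hQ⟩ := hrange
  have hPQ : P = Q ^ p := by
    rw [← map_frobenius_expand, map_expand]
    rw [coe_mapRingHom] at hQ
    rw [hQ, expand_contract p hder hp.ne_zero]
  rw [hPQ] at hirr
  exact not_irreducible_pow hp.one_lt.ne' hirr

/-- Every element of `k(x)` is a quotient `r(x) / s(x)` with `s(x) ≠ 0`. -/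
theorem exists_quot_repr (x : K) (a : K) (ha : a ∈ k⟮x⟯) :
    ∃ r s : k[X], aeval x s ≠ 0 ∧ a * aeval x s = aeval x r := by
  obtain ⟨r, s, rfl⟩ := (mem_adjoin_simple_iff k a).mp ha
  by_cases hs : aeval x s = 0
  · refine ⟨0, 1, by simp, ?_⟩
    rw [hs, div_zero]
    simp
  · exact ⟨r, s, hs, div_mul_cancel₀ _ hs⟩

/-- **SEP, bivariate form** (what G-SEP consumes): there is `Q ∈ k[X][T]` with `Q(x, y) = 0` and
`(∂Q/∂T)(x, y) ≠ 0`. -/
theorem exists_bivariate_separable [PerfectField k] (x : K) (hx : D x ≠ 0) (y : K)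
    (hy : IsAlgebraic k⟮x⟯ y) :
    ∃ Q : (k[X])[X], Q.eval₂ (aeval x : k[X] →ₐ[k] K).toRingHom y = 0 ∧
      (derivative Q).eval₂ (aeval x : k[X] →ₐ[k] K).toRingHom y ≠ 0 := by
  classical
  have hint : IsIntegral k⟮x⟯ y := hy.isIntegral
  have hsep : (minpoly k⟮x⟯ y).Separable := isSeparable_of_D_ne_zero D x hx y hy
  set P := minpoly k⟮x⟯ y with hP
  set n := P.natDegree with hn
  have hder : aeval y (derivative P) ≠ 0 :=
    hsep.aeval_derivative_ne_zero (minpoly.aeval k⟮x⟯ y)
  -- representations of the coefficients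
  have hrep : ∀ i : ℕ, ∃ r s : k[X], aeval x s ≠ 0 ∧
      ((P.coeff i : k⟮x⟯) : K) * aeval x s = aeval x r := fun i =>
    exists_quot_repr x _ (P.coeff i).2
  choose r s hs hrs using hrep
  set S : k[X] := ∏ j ∈ Finset.range (n + 1), s j with hS
  have hSx : aeval x S ≠ 0 := by
    rw [hS, map_prod]
    exact Finset.prod_ne_zero_iff.mpr fun j _ => hs j
  set q : ℕ → k[X] := fun i => r i * ∏ j ∈ (Finset.range (n + 1)).erase i, s j with hq
  have hqx : ∀ i, i < n + 1 → aeval x (q i) = aeval x S * ((P.coeff i : k⟮x⟯) : K) := by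
    intro i hi
    have hmem : i ∈ Finset.range (n + 1) := Finset.mem_range.mpr hi
    rw [hq, hS, map_mul, ← hrs i, ← Finset.mul_prod_erase _ _ hmem, map_mul]
    ring
  set φ : k[X] →+* K := (aeval x : k[X] →ₐ[k] K).toRingHom with hφ
  set Q : (k[X])[X] := Polynomial.ofFn (n + 1) (fun i : Fin (n + 1) => q i) with hQ
  have hmap : Q.map φ = C (aeval x S) * P.map (algebraMap k⟮x⟯ K) := by
    ext i
    rw [coeff_map, coeff_C_mul, coeff_map]
    by_cases hi : i < n + 1
    · rw [hQ, ofFn_coeff_eq_val_of_lt _ hi]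
      exact hqx i hi
    · rw [hQ, ofFn_coeff_eq_zero_of_ge _ (not_lt.mp hi),
        coeff_eq_zero_of_natDegree_lt (by omega : P.natDegree < i)]
      simp
  refine ⟨Q, ?_, ?_⟩
  · rw [← eval_map, hmap, eval_mul, eval_C, eval_map_algebraMap, minpoly.aeval, mul_zero]
  · rw [← eval_map, ← derivative_map, hmap, derivative_C_mul, eval_mul, eval_C, derivative_map,
      eval_map_algebraMap]
    exact mul_ne_zero hSx hder

/-- A derivation from a function (useful when the ambient `Module k K` instance of an existing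
derivation is not syntactically `Algebra.toModule`, e.g. for Laurent series). -/
noncomputable def derivationOfFun (d : K → K) (hadd : ∀ a b, d (a + b) = d a + d b)
    (hmul : ∀ a b, d (a * b) = a * d b + b * d a) (hconst : ∀ c : k, d (algebraMap k K c) = 0) :
    Derivation k K K where
  toFun := d
  map_add' := hadd
  map_smul' c a := by
    rw [RingHom.id_apply, Algebra.smul_def, hmul, hconst, mul_zero, add_zero, Algebra.smul_def]
  map_one_eq_zero' := by
    have := hconst 1
    rwa [map_one] at this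
  leibniz' a b := by
    simp only [smul_eq_mul]
    exact hmul a b

@[simp] theorem derivationOfFun_apply (d : K → K) (hadd : ∀ a b, d (a + b) = d a + d b)
    (hmul : ∀ a b, d (a * b) = a * d b + b * d a) (hconst : ∀ c : k, d (algebraMap k K c) = 0)
    (a : K) : derivationOfFun d hadd hmul hconst a = d a := rfl

end Fermat.Agent.S18.MOD.H396

end
-- ===== PACK-END S18/MOD/H396/Sep.lean

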