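import Mathlib
import Fermat.Prelude.Def_ModularCurve_X0ModL
import Mathlib.RingTheory.Valuation.ValuationSubring
import Mathlib.GroupTheory.QuotientGroup.Basic
import Mathlib.Algebra.Group.Subgroup.ZPowers.Basic
import Fermat.Prelude.Def_FLTPrelim_FreyPackage
import Fermat.Prelude.Def_FLTPrelim_Modularity
import Fermat.Prelude.Def_FLTPrelim_Ramification
import Fermat.Prelude.Def_ModularCurve_HeckeModule
import Fermat.Agent.Pack.S44C.G0E0L1
import Fermat.Agent.Pack.S44C.G0E0L2
import Fermat.Agent.Pack.S44C.G0E0L3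
import Fermat.Agent.Pack.S44C.G0E1L1
import Fermat.Agent.Pack.S44C.G0E1L2
import Fermat.Agent.Pack.S44C.G0E1L3
import Fermat.Agent.Pack.S44C.G0E4L2
import Fermat.Agent.Pack.Fast891

-- ===== PACK-BEGIN S28/H867/IntZ.lean
section



set_option autoImplicit false
noncomputable section
open ModularCurve HahnSeries Polynomial

namespace Fermat.Agent.S28.H867

section IntZ

variable {A : Type*} [CommRing A]

theorem ringHom_comp_evalAt {B : Type*} [CommRing B] (ψ : LaurentSeries A →+* LaurentSeries B)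
    (y : LaurentSeries A) : ψ.comp (evalAt y) = evalAt (ψ y) := by
  apply Polynomial.ringHom_ext
  · intro a; simp [evalAt]
  · simp [evalAt]

/-- Integrality is transported by ring homomorphisms. -/
theorem isIntegralElem_map {B : Type*} [CommRing B] (ψ : LaurentSeries A →+* LaurentSeries B)
    {y x : LaurentSeries A} (h : (evalAt y).IsIntegralElem x) :
    (evalAt (ψ y)).IsIntegralElem (ψ x) := by
  obtain ⟨P, hP, hPx⟩ := h
  refine ⟨P, hP, ?_⟩
  rw [← ringHom_comp_evalAt, ← Polynomial.hom_eval₂, hPx, map_zero]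

/-- Transitivity: `y` integral over `ℤ[j]` and `x` integral over `ℤ[y]` imply `x` integral
over `ℤ[j]`. -/
theorem isIntegralElem_trans {j y x : LaurentSeries A} (hy : (evalAt j).IsIntegralElem y)
    (hx : (evalAt y).IsIntegralElem x) : (evalAt j).IsIntegralElem x := by
  let _ : Algebra (Polynomial ℤ) (LaurentSeries A) := (evalAt j).toAlgebra
  have hy' : IsIntegral (Polynomial ℤ) y := hy
  set C := integralClosure (Polynomial ℤ) (LaurentSeries A) with hC
  have hyC : y ∈ C := hy'
  obtain ⟨P, hP, hPx⟩ := hx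
  let φ : Polynomial ℤ →+* C := (Polynomial.aeval (R := ℤ) (⟨y, hyC⟩ : C)).toRingHom
  have hφ : (algebraMap C (LaurentSeries A)).comp φ = evalAt y := by
    apply Polynomial.ringHom_ext
    · intro a; simp [φ, evalAt]
    · simp [φ, evalAt]
  have hxC : IsIntegral C x := by
    refine ⟨P.map φ, hP.map _, ?_⟩
    rw [Polynomial.eval₂_map, hφ]
    exact hPx
  exact isIntegral_trans (R := Polynomial ℤ) (A := C) x hxC

end IntZ

section Jd

/-- `j(q^d)` is integral over `ℤ[j]`, given modular polynomials at all primes dividing `d`. -/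
theorem isIntegralElem_jd (d : ℕ) (hd : d ≠ 0)
    (hΦ : ∀ p : ℕ, p.Prime → p ∣ d → ∀ [NeZero p], Nonempty (ModPolyData p)) :
    (evalAt (jqModC ℤ)).IsIntegralElem (@qExpand ℤ _ d ⟨hd⟩ (jqModC ℤ)) := by
  induction d using Nat.recOnMul with
  | zero => exact absurd rfl hd
  | one =>
    rw [qExpand_one_apply]
    refine ⟨Polynomial.X - Polynomial.C Polynomial.X, Polynomial.monic_X_sub_C _, ?_⟩
    simp [evalAt]
  | prime p hp =>
    have : NeZero p := ⟨hp.ne_zero⟩
    obtain ⟨D⟩ := hΦ p hp dvd_rfl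
    exact ⟨D.Φ, D.monic, D.eval_jp⟩
  | mul a b iha ihb =>
    have ha0 : a ≠ 0 := fun h => hd (by rw [h, zero_mul])
    have hb0 : b ≠ 0 := fun h => hd (by rw [h, mul_zero])
    have : NeZero a := ⟨ha0⟩
    have : NeZero b := ⟨hb0⟩
    have h1 := iha ha0 fun p hp hpa => hΦ p hp (hpa.mul_right b)
    have h2 := ihb hb0 fun p hp hpb => hΦ p hp (hpb.mul_left a)
    have h3 := isIntegralElem_map (qExpand ℤ a) h2
    rw [qExpand_qExpand] at h3
    exact isIntegralElem_trans h1 h3

/-- The `integral` field of `CoreData`. -/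
theorem coreData_integral (N : ℕ) [NeZero N]
    (hΦ : ∀ p : ℕ, p.Prime → p ∣ N → ∀ [NeZero p], Nonempty (ModPolyData p)) :
    ∀ (d : ℕ) [NeZero d], d ∣ N →
      ∃ P : Polynomial (Polynomial ℤ), P.Monic ∧
        P.eval₂ (evalAt (jqModC ℤ)) (qExpand ℤ d (jqModC ℤ)) = 0 := by
  intro d hd hdN
  exact isIntegralElem_jd d hd.out fun p hp hpd => hΦ p hp (hpd.trans hdN)

end Jd

end Fermat.Agent.S28.H867

end
end
-- ===== PACK-END S28/H867/IntZ.lean

-- ===== PACK-BEGIN S28/H88/Theta.lean
section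
/-
S28 (Igusa) -- helper88: the derivation `θ = q d/dq` on formal Laurent series
(toolkit for the prime-level step [L2]: `j(q^p) ∉ k(j)`).
-/


set_option autoImplicit false

noncomputable section

open ModularCurve HahnSeries

namespace Fermat.Agent.S28

section ThetaBasic

variable {R : Type*} [CommRing R]

theorem h88_thetaL_add (f g : LaurentSeries R) :
    thetaL R (f + g) = thetaL R f + thetaL R g := by
  ext n; simp [mul_add]

theorem h88_thetaL_zero : thetaL R (0 : LaurentSeries R) = 0 := by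
  ext n; simp

theorem h88_thetaL_neg (f : LaurentSeries R) : thetaL R (-f) = - thetaL R f := by
  ext n; simp

theorem h88_thetaL_sub (f g : LaurentSeries R) :
    thetaL R (f - g) = thetaL R f - thetaL R g := by
  ext n; simp [mul_sub]

theorem h88_thetaL_support_subset (f : LaurentSeries R) :
    (thetaL R f).support ⊆ f.support := by
  intro n hn
  simp only [HahnSeries.mem_support, thetaL_coeff, ne_eq] at hn ⊢
  intro h; exact hn (by rw [h, mul_zero])

/-- Leibniz rule. -/
theorem h88_thetaL_mul (f g : LaurentSeries R) :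
    thetaL R (f * g) = thetaL R f * g + f * thetaL R g := by
  ext n
  rw [HahnSeries.coeff_add, thetaL_coeff, HahnSeries.coeff_mul,
    HahnSeries.coeff_mul_left' f.isPWO_support (h88_thetaL_support_subset f),
    HahnSeries.coeff_mul_right' g.isPWO_support (h88_thetaL_support_subset g),
    Finset.mul_sum, ← Finset.sum_add_distrib]
  refine Finset.sum_congr rfl fun ij hij => ?_
  rw [Finset.mem_antidiagonal] at hij
  obtain ⟨-, -, h⟩ := hij
  simp only [thetaL_coeff]
  rw [← h]; push_cast; ring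

theorem h88_thetaL_single_zero (c : R) : thetaL R (HahnSeries.single (0 : ℤ) c) = 0 := by
  ext n
  rw [thetaL_coeff, HahnSeries.coeff_zero]
  rcases eq_or_ne n 0 with rfl | hn
  · simp
  · rw [HahnSeries.coeff_single_of_ne hn, mul_zero]

theorem h88_thetaL_C (c : R) : thetaL R (HahnSeries.C c : LaurentSeries R) = 0 :=
  h88_thetaL_single_zero c

theorem h88_thetaL_one : thetaL R (1 : LaurentSeries R) = 0 :=
  h88_thetaL_single_zero 1

theorem h88_thetaL_pow (f : LaurentSeries R) (n : ℕ) :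
    thetaL R (f ^ (n + 1)) = ((n + 1 : ℕ) : LaurentSeries R) * f ^ n * thetaL R f := by
  induction n with
  | zero => simp
  | succ n ih =>
    rw [pow_succ, h88_thetaL_mul, ih]
    push_cast
    ring

/-- `θ` commutes with `q ↦ q^p` up to the factor `p`. -/
theorem h88_thetaL_qExpand (p : ℕ) [NeZero p] (f : LaurentSeries R) :
    thetaL R (qExpand R p f) = (p : LaurentSeries R) * qExpand R p (thetaL R f) := by
  rw [← nsmul_eq_mul]
  ext n
  rw [thetaL_coeff, HahnSeries.coeff_smul]
  by_cases hn : (p : ℤ) ∣ n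
  · obtain ⟨m, rfl⟩ := hn
    rw [qExpand_coeff_mul, qExpand_coeff_mul, thetaL_coeff, nsmul_eq_mul]
    push_cast; ring
  · rw [qExpand_coeff_of_not_dvd p _ hn, qExpand_coeff_of_not_dvd p _ hn, mul_zero, smul_zero]

end ThetaBasic

section CoeffMapCompat

variable {R S : Type*} [CommRing R] [CommRing S]

theorem h88_coeffMap_thetaL (f : R →+* S) (x : LaurentSeries R) :
    coeffMap f (thetaL R x) = thetaL S (coeffMap f x) := by
  ext n
  simp [coeffMap_coeff]

theorem h88_map_map_intCast (f : R →+* S) (P : PowerSeries ℤ) :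
    (P.map (Int.castRingHom R)).map f = P.map (Int.castRingHom S) := by
  rw [← RingHom.comp_apply (PowerSeries.map f) (PowerSeries.map (Int.castRingHom R)),
    ← PowerSeries.map_comp, RingHom.ext_int (f.comp (Int.castRingHom R)) (Int.castRingHom S)]

theorem h88_coeffMap_deltaL (f : R →+* S) : coeffMap f (deltaL R) = deltaL S := by
  rw [deltaL, map_mul, coeffMap_single, map_one, coeffMap_ofPowerSeries, h88_map_map_intCast]
  rfl

theorem h88_coeffMap_deltaInvL (f : R →+* S) : coeffMap f (deltaInvL R) = deltaInvL S := by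
  rw [deltaInvL, map_mul, coeffMap_single, map_one, coeffMap_ofPowerSeries, h88_map_map_intCast]
  rfl

theorem h88_coeffMap_unitL (f : R →+* S) (p : ℕ) [NeZero p] :
    coeffMap f (unitL R p) = unitL S p := by
  rw [unitL, map_mul, coeffMap_qExpand, h88_coeffMap_deltaL, h88_coeffMap_deltaInvL]
  rfl

variable (R) in
theorem h88_deltaL_mul_deltaInvL : deltaL R * deltaInvL R = 1 := by
  rw [deltaL, deltaInvL, mul_mul_mul_comm, HahnSeries.single_mul_single, ← map_mul,
    ← map_mul, dedekindEtaUnit_mul_inv]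
  simp

end CoeffMapCompat

end Fermat.Agent.S28

end

end
-- ===== PACK-END S28/H88/Theta.lean

-- ===== PACK-BEGIN S28/H325/PolyIndep.lean
section



/-!
# S28, piece [L-glue], part 1: polynomial independence and change of coefficients

`PolyIndep J v` says that the family `v` admits no nontrivial linear relation with coefficients
polynomials in `J`.  For a field `k` and transcendental `J` this is linear independence over
`k(J)`.  We transfer it along `ℤ → k` (content descent) and `ℤ → ℚ` (clearing denominators).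
-/

set_option autoImplicit false

noncomputable section

open ModularCurve HahnSeries Polynomial

namespace Fermat.Agent.S28.H325

/-- No nontrivial relation `∑ Pᵢ(J) vᵢ = 0` with polynomial coefficients. -/
def PolyIndep {A : Type*} [CommRing A] {n : ℕ} (J : LaurentSeries A)
    (v : Fin n → LaurentSeries A) : Prop :=
  ∀ P : Fin n → A[X], ∑ i, aeval J (P i) * v i = 0 → ∀ i, P i = 0

section Transport

variable {A B : Type*} [CommRing A] [CommRing B]

theorem coeffMap_aeval (f : A →+* B) (J : LaurentSeries A) (P : A[X]) :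
    coeffMap f (aeval J P) = aeval (coeffMap f J) (P.map f) := by
  induction P using Polynomial.induction_on' with
  | add p q hp hq => simp only [map_add, Polynomial.map_add, hp, hq]
  | monomial m a =>
    rw [Polynomial.map_monomial, Polynomial.aeval_monomial, Polynomial.aeval_monomial, map_mul,
      map_pow]
    congr 1
    rw [HahnSeries.algebraMap_apply', HahnSeries.algebraMap_apply', coeffMap_ofPowerSeries]
    congr 1
    ext k
    simp

theorem coeffMap_injective_of_injective (f : A →+* B) (hf : Function.Injective f) :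
    Function.Injective (coeffMap f) := by
  intro x y h
  ext m
  apply hf
  have := congrArg (fun z => z.coeff m) h
  simpa using this

/-- Polynomial independence descends along an injective coefficient map. -/
theorem PolyIndep.of_injective {n : ℕ} (f : A →+* B) (hf : Function.Injective f)
    {J : LaurentSeries A} {v : Fin n → LaurentSeries A}
    (h : PolyIndep (coeffMap f J) (fun i => coeffMap f (v i))) : PolyIndep J v := by
  intro P hP i
  have h1 : ∑ i, aeval (coeffMap f J) ((P i).map f) * coeffMap f (v i) = 0 := by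
    have := congrArg (coeffMap f) hP
    rw [map_sum, map_zero] at this
    rw [← this]
    refine Finset.sum_congr rfl fun i _ => ?_
    rw [map_mul, coeffMap_aeval]
  have h2 := h (fun i => (P i).map f) h1 i
  exact (Polynomial.map_eq_zero_iff hf).mp h2

end Transport

section Transcendence

variable (A : Type*) [CommRing A]

theorem algebraMap_laurent_eq_C (a : A) :
    algebraMap A (LaurentSeries A) a = HahnSeries.C a := by
  rw [HahnSeries.algebraMap_apply']
  have h1 : algebraMap A (PowerSeries A) a = PowerSeries.C a := by simp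
  rw [h1, HahnSeries.ofPowerSeries_C]

theorem laurent_coeff_smul (a : A) (x : LaurentSeries A) (m : ℤ) :
    (@HSMul.hSMul A (LaurentSeries A) (LaurentSeries A)
      (@instHSMul A (LaurentSeries A) (powerSeriesAlgebra ℤ A).toSMul) a x).coeff m
      = a * x.coeff m := by
  rw [Algebra.smul_def, algebraMap_laurent_eq_C, HahnSeries.C_mul_eq_smul]
  exact @HahnSeries.coeff_smul ℤ A _ A _ _ a x m

/-- The coefficient of `q^{-deg P}` in `P(j)` is the leading coefficient of `P`. -/
theorem coeff_aeval_jqModC (P : A[X]) :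
    (aeval (jqModC A) P).coeff (-(P.natDegree : ℤ)) = P.leadingCoeff := by
  rw [Polynomial.aeval_eq_sum_range, HahnSeries.coeff_sum, Finset.sum_range_succ]
  rw [Finset.sum_eq_zero, zero_add]
  · refine (laurent_coeff_smul A _ _ _).trans ?_
    rw [coeff_jqModC_pow_self, mul_one]
    rfl
  · intro m hm
    refine (laurent_coeff_smul A _ _ _).trans ?_
    rw [coeff_jqModC_pow_of_lt, mul_zero]
    have := Finset.mem_range.mp hm
    omega

theorem aeval_jqModC_eq_zero_iff (P : A[X]) : aeval (jqModC A) P = 0 ↔ P = 0 := by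
  refine ⟨fun h => ?_, fun h => by rw [h, map_zero]⟩
  have := coeff_aeval_jqModC A P
  rw [h, HahnSeries.coeff_zero] at this
  exact Polynomial.leadingCoeff_eq_zero.mp this.symm

end Transcendence

section Field

variable {k : Type*} [Field k] {n : ℕ}

/-- Linear independence over `k(J)` implies polynomial independence, for transcendental `J`. -/
theorem polyIndep_of_linearIndependent {J : LaurentSeries k}
    (hJ : ∀ P : k[X], aeval J P = 0 → P = 0) {v : Fin n → LaurentSeries k}
    (h : LinearIndependent (IntermediateField.adjoin k {J}) v) : PolyIndep J v := by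
  intro P hP i
  rw [Fintype.linearIndependent_iff] at h
  have hmem : ∀ i, aeval J (P i) ∈ IntermediateField.adjoin k {J} := fun i =>
    (IntermediateField.mem_adjoin_simple_iff k _).mpr ⟨P i, 1, by simp⟩
  have h1 := h (fun i => ⟨aeval J (P i), hmem i⟩) (by
    rw [← hP]
    exact Finset.sum_congr rfl fun i _ => rfl) i
  exact hJ _ (congrArg Subtype.val h1)

/-- Polynomial independence implies linear independence over `k(J)`. -/
theorem linearIndependent_of_polyIndep {J : LaurentSeries k} {v : Fin n → LaurentSeries k}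
    (h : PolyIndep J v) : LinearIndependent (IntermediateField.adjoin k {J}) v := by
  classical
  rw [Fintype.linearIndependent_iff]
  intro g hg
  have hrs : ∀ i, ∃ r s : k[X], aeval J s ≠ 0 ∧ (g i : LaurentSeries k) * aeval J s = aeval J r := by
    intro i
    obtain ⟨r, s, hrs⟩ := (IntermediateField.mem_adjoin_simple_iff k _).mp (g i).2
    by_cases hs : aeval J s = 0
    · refine ⟨0, 1, by simp, ?_⟩
      rw [hs, div_zero] at hrs
      simp [hrs]
    · exact ⟨r, s, hs, by rw [hrs, div_mul_cancel₀ _ hs]⟩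
  choose r s hs hrs using hrs
  set t : Fin n → k[X] := fun i => r i * ∏ l ∈ Finset.univ.erase i, s l with ht
  have hS : ∀ i, aeval J (t i) = (g i : LaurentSeries k) * aeval J (∏ l, s l) := by
    intro i
    rw [ht]
    simp only [map_mul]
    rw [← hrs i, ← Finset.mul_prod_erase Finset.univ s (Finset.mem_univ i)]
    simp only [map_mul]
    ring
  have hrel : ∑ i, aeval J (t i) * v i = 0 := by
    have : ∑ i, aeval J (t i) * v i = aeval J (∏ l, s l) * ∑ i, (g i) • v i := by
      rw [Finset.mul_sum]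
      refine Finset.sum_congr rfl fun i _ => ?_
      rw [hS i, IntermediateField.smul_def, smul_eq_mul]
      ring
    rw [this, hg, mul_zero]
  have ht0 := h t hrel
  intro i
  have h1 : (g i : LaurentSeries k) * aeval J (∏ l, s l) = 0 := by
    rw [← hS i, ht0 i, map_zero]
  have h2 : aeval J (∏ l, s l) ≠ 0 := by
    rw [map_prod]
    exact Finset.prod_ne_zero_iff.mpr fun l _ => hs l
  have h3 : (g i : LaurentSeries k) = 0 := (mul_eq_zero.mp h1).resolve_right h2
  exact Subtype.ext h3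

end Field

section Integers

variable {n : ℕ}

/-- Clearing denominators: polynomial independence over `ℤ` gives it over `ℚ`. -/
theorem PolyIndep.rat_of_int {J : LaurentSeries ℤ} {Y : Fin n → LaurentSeries ℤ}
    (h : PolyIndep J Y) :
    PolyIndep (coeffMap (Int.castRingHom ℚ) J) (fun i => coeffMap (Int.castRingHom ℚ) (Y i)) := by
  classical
  intro P hP
  have hnorm : ∀ i, ∃ (b : ℤ) (Q : ℤ[X]), b ≠ 0 ∧
      Q.map (Int.castRingHom ℚ) = Polynomial.C (b : ℚ) * P i := by
    intro i
    obtain ⟨b, hbM, hb⟩ := IsLocalization.integerNormalization_spec (nonZeroDivisors ℤ) (P i)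
    refine ⟨b, IsLocalization.integerNormalization (nonZeroDivisors ℤ) (P i),
      nonZeroDivisors.ne_zero hbM, ?_⟩
    rw [algebraMap_int_eq] at hb
    rw [hb, Polynomial.C_mul', Int.cast_smul_eq_zsmul ℚ b (P i)]
  choose b Q hb hQ using hnorm
  set c : Fin n → ℤ := fun i => ∏ l ∈ Finset.univ.erase i, b l with hc
  set m : ℤ := ∏ l, b l with hm
  have hm0 : (m : ℚ) ≠ 0 := by
    rw [hm]; exact_mod_cast Finset.prod_ne_zero_iff.mpr fun l _ => hb l
  have hcm : ∀ i, c i * b i = m := fun i => by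
    rw [hc, hm, mul_comm]
    exact Finset.mul_prod_erase Finset.univ b (Finset.mem_univ i)
  have hQ' : ∀ i, (Polynomial.C (c i) * Q i).map (Int.castRingHom ℚ)
      = Polynomial.C (m : ℚ) * P i := by
    intro i
    rw [Polynomial.map_mul, Polynomial.map_C, hQ i, ← mul_assoc, ← Polynomial.C_mul]
    congr 2
    rw [eq_intCast, ← hcm i]
    push_cast
    ring
  have hrel : ∑ i, aeval J (Polynomial.C (c i) * Q i) * Y i = 0 := by
    apply coeffMap_injective_of_injective (Int.castRingHom ℚ) Int.cast_injective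
    rw [map_sum, map_zero]
    have : ∑ i, coeffMap (Int.castRingHom ℚ) (aeval J (Polynomial.C (c i) * Q i) * Y i)
        = aeval (coeffMap (Int.castRingHom ℚ) J) (Polynomial.C (m : ℚ)) *
          ∑ i, aeval (coeffMap (Int.castRingHom ℚ) J) (P i) *
            coeffMap (Int.castRingHom ℚ) (Y i) := by
      rw [Finset.mul_sum]
      refine Finset.sum_congr rfl fun i _ => ?_
      rw [map_mul, coeffMap_aeval, hQ' i, map_mul]
      ring
    rw [this, hP, mul_zero]
  have h0 := h _ hrel
  intro i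
  have h1 : Polynomial.C (m : ℚ) * P i = 0 := by rw [← hQ' i, h0 i, Polynomial.map_zero]
  exact (mul_eq_zero.mp h1).resolve_left (by simpa using hm0)

/-- Content descent: polynomial independence over a field `k` (after reducing coefficients along
`ℤ → k`) gives polynomial independence over `ℤ`. -/
theorem PolyIndep.int_of_field {k : Type*} [Field k] {J : LaurentSeries ℤ}
    {Y : Fin n → LaurentSeries ℤ}
    (h : PolyIndep (coeffMap (Int.castRingHom k) J)
      (fun i => coeffMap (Int.castRingHom k) (Y i))) : PolyIndep J Y := by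
  classical
  obtain ⟨p, hp⟩ := CharP.exists k
  -- every relation has all coefficients divisible by `p`
  have hdvd : ∀ P : Fin n → ℤ[X], ∑ i, aeval J (P i) * Y i = 0 →
      ∀ i, Polynomial.C (p : ℤ) ∣ P i := by
    intro P hP i
    have h1 : ∑ i, aeval (coeffMap (Int.castRingHom k) J) ((P i).map (Int.castRingHom k)) *
        coeffMap (Int.castRingHom k) (Y i) = 0 := by
      have := congrArg (coeffMap (Int.castRingHom k)) hP
      rw [map_sum, map_zero] at this
      rw [← this]
      refine Finset.sum_congr rfl fun i _ => ?_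
      rw [map_mul, coeffMap_aeval]
    have h2 := h _ h1 i
    rw [Polynomial.C_dvd_iff_dvd_coeff]
    intro d
    have h3 := congrArg (fun q => q.coeff d) h2
    simp only [Polynomial.coeff_map, Polynomial.coeff_zero, eq_intCast] at h3
    exact (CharP.intCast_eq_zero_iff k p _).mp h3
  rcases Nat.eq_zero_or_pos p with hp0 | hppos
  · intro P hP i
    obtain ⟨R, hR⟩ := hdvd P hP i
    rw [hR, hp0]
    simp
  · have hp2 : 2 ≤ p := by
      rcases (CharP.char_is_prime_or_zero k p) with h | h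
      · exact h.two_le
      · omega
    -- all coefficients are divisible by every power of `p`
    have hpow : ∀ e : ℕ, ∀ P : Fin n → ℤ[X], ∑ i, aeval J (P i) * Y i = 0 →
        ∀ i d, (p : ℤ) ^ e ∣ (P i).coeff d := by
      intro e
      induction e with
      | zero => intro P _ i d; simp
      | succ e ih =>
        intro P hP i d
        have hall := hdvd P hP
        choose R hR using hall
        have hRrel : ∑ i, aeval J (R i) * Y i = 0 := by
          have h1 : ((p : ℤ) : LaurentSeries ℤ) * ∑ i, aeval J (R i) * Y i = 0 := by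
            rw [← hP, Finset.mul_sum]
            refine Finset.sum_congr rfl fun i _ => ?_
            rw [hR i, map_mul, Polynomial.aeval_C, mul_assoc]
            simp
          rcases mul_eq_zero.mp h1 with h2 | h2
          · exfalso
            have h3 : ((p : ℤ) : LaurentSeries ℤ) ≠ 0 := by
              rw [← map_intCast (HahnSeries.C : ℤ →+* LaurentSeries ℤ)]
              intro h4
              have h5 : ((p : ℤ) : ℤ) = 0 :=
                HahnSeries.C_injective (h4.trans (map_zero _).symm)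
              simp at h5
              omega
            exact h3 h2
          · exact h2
        have := ih R hRrel i d
        rw [hR i, Polynomial.coeff_C_mul, pow_succ, mul_comm]
        exact mul_dvd_mul_left _ this
    intro P hP i
    ext d
    rw [Polynomial.coeff_zero]
    set a := (P i).coeff d with ha
    have h1 := hpow a.natAbs P hP i d
    refine Int.eq_zero_of_dvd_of_natAbs_lt_natAbs h1 ?_
    rw [Int.natAbs_pow, Int.natAbs_natCast]
    calc a.natAbs < 2 ^ a.natAbs := Nat.lt_two_pow_self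
      _ ≤ p ^ a.natAbs := Nat.pow_le_pow_left hp2 _

end Integers

end Fermat.Agent.S28.H325

end
end
-- ===== PACK-END S28/H325/PolyIndep.lean

-- ===== PACK-BEGIN S28/H565/EulerProd.lean
section




/-!
# S28 analytic bridge, part 2: the Euler product (helper565)

We show that the formal power series `ModularCurve.etaProd = ∏ (1 - X^(n+1))` of the Prelude
(defined as a `tprod` in the Pi-topology on `ℤ⟦X⟧`) is the Taylor expansion of the analytic
function `q ↦ ∏' (1 - q^(n+1))` on the unit disc.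
-/

set_option autoImplicit false

noncomputable section

open Complex Function Filter Topology
open scoped Real PowerSeries.WithPiTopology

namespace Fermat.Agent.S28.H565

/-- Taylor coefficients at a point are continuous for locally uniform convergence of
holomorphic functions. -/
theorem tendsto_iteratedDeriv_of_tendstoLocallyUniformlyOn {U : Set ℂ} (hU : IsOpen U)
    (k : ℕ) : ∀ {F : ℕ → ℂ → ℂ} {G : ℂ → ℂ}, (∀ n, DifferentiableOn ℂ (F n) U) →
    TendstoLocallyUniformlyOn F G atTop U → ∀ {z : ℂ}, z ∈ U →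
    Tendsto (fun n => iteratedDeriv k (F n) z) atTop (𝓝 (iteratedDeriv k G z)) := by
  induction k with
  | zero =>
    intro F G _ hFG z hz
    simpa [iteratedDeriv_zero] using hFG.tendsto_at hz
  | succ k ih =>
    intro F G hF hFG z hz
    simp only [iteratedDeriv_succ']
    exact ih (F := fun n => deriv (F n)) (G := deriv G) (fun n => (hF n).deriv hU)
      (hFG.deriv (.of_forall hF) hU) hz

/-- Taylor coefficients of a polynomial function. -/
theorem iteratedDeriv_polynomial_eval_zero (P : Polynomial ℂ) (k : ℕ) :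
    iteratedDeriv k (fun q => P.eval q) 0 = (k.factorial : ℂ) * P.coeff k := by
  have h1 : ∀ (k : ℕ) (P : Polynomial ℂ), deriv^[k] (fun q => P.eval q) =
      fun q => ((⇑Polynomial.derivative)^[k] P).eval q := by
    intro k
    induction k with
    | zero => intro P; rfl
    | succ k ih =>
      intro P
      rw [Function.iterate_succ_apply', ih, Function.iterate_succ_apply']
      funext x
      exact Polynomial.deriv _
  rw [iteratedDeriv_eq_iterate, h1]
  simp only
  rw [← Polynomial.coeff_zero_eq_eval_zero, Polynomial.coeff_iterate_derivative, zero_add,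
    Nat.descFactorial_self, nsmul_eq_mul]

/-- The partial Euler products as complex polynomials. -/
def eulerPoly (M : ℕ) : Polynomial ℂ := ∏ n ∈ Finset.range M, (1 - Polynomial.X ^ (n + 1))

theorem eulerPoly_eval (M : ℕ) (q : ℂ) :
    (eulerPoly M).eval q = ∏ n ∈ Finset.range M, (1 - q ^ (n + 1)) := by
  simp [eulerPoly, Polynomial.eval_prod]

theorem eulerPoly_coeff (M k : ℕ) :
    (eulerPoly M).coeff k =
      ((PowerSeries.coeff k (∏ n ∈ Finset.range M, (1 - PowerSeries.X ^ (n + 1)) :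
        PowerSeries ℤ) : ℤ) : ℂ) := by
  have h1 : ((eulerPoly M : Polynomial ℂ) : PowerSeries ℂ) =
      PowerSeries.map (Int.castRingHom ℂ)
        (∏ n ∈ Finset.range M, (1 - PowerSeries.X ^ (n + 1)) : PowerSeries ℤ) := by
    rw [eulerPoly, ← Polynomial.coeToPowerSeries.ringHom_apply, map_prod, map_prod]
    refine Finset.prod_congr rfl fun n _ => ?_
    simp
  rw [← Polynomial.coeff_coe, h1, PowerSeries.coeff_map]
  rfl

/-- Coefficientwise convergence of the formal partial products to `etaProd`. -/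
theorem tendsto_coeff_partial_etaProd (k : ℕ) :
    Tendsto (fun M => ((PowerSeries.coeff k (∏ n ∈ Finset.range M,
      (1 - PowerSeries.X ^ (n + 1)) : PowerSeries ℤ) : ℤ) : ℂ)) atTop
      (𝓝 ((PowerSeries.coeff k ModularCurve.etaProd : ℤ) : ℂ)) := by
  have h1 : HasProd (fun n : ℕ => (1 - PowerSeries.X ^ (n + 1) : PowerSeries ℤ))
      ModularCurve.etaProd :=
    (PowerSeries.WithPiTopology.multipliable_one_sub_X_pow ℤ).hasProd
  have h2 := h1.tendsto_prod_nat
  have h3 := ((PowerSeries.WithPiTopology.continuous_coeff ℤ k).tendsto _).comp h2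
  have h4 : Continuous (fun n : ℤ => (n : ℂ)) := continuous_of_discreteTopology
  exact (h4.tendsto _).comp h3

/-- The Euler function on the unit disc. -/
def eulerFun (q : ℂ) : ℂ := ∏' n : ℕ, (1 - q ^ (n + 1))

theorem differentiableOn_eulerFun : DifferentiableOn ℂ eulerFun (Metric.ball 0 1) :=
  ModularForm.differentiableOn_tprod_one_sub_pow

theorem tendstoLocallyUniformlyOn_eulerPoly :
    TendstoLocallyUniformlyOn (fun M q => (eulerPoly M).eval q) eulerFun atTop
      (Metric.ball 0 1) := by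
  have h := ModularForm.multipliableLocallyUniformlyOn_one_sub_pow.hasProdLocallyUniformlyOn
  have h2 := h.tendstoLocallyUniformlyOn_finsetRange
  refine h2.congr ?_ |>.congr_right ?_
  · intro M q _
    simp [eulerPoly_eval]
  · intro q _
    rfl

/-- The complex version of the formal Euler product. -/
def etaProdC : PowerSeries ℂ := PowerSeries.map (Int.castRingHom ℂ) ModularCurve.etaProd

theorem taylor_eulerFun (k : ℕ) :
    (k.factorial : ℂ)⁻¹ * iteratedDeriv k eulerFun 0 = PowerSeries.coeff k etaProdC := by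
  have h0 : (0 : ℂ) ∈ Metric.ball (0 : ℂ) 1 := Metric.mem_ball_self one_pos
  have h1 := tendsto_iteratedDeriv_of_tendstoLocallyUniformlyOn Metric.isOpen_ball k
    (F := fun M q => (eulerPoly M).eval q) (G := eulerFun)
    (fun M => (Polynomial.differentiable _).differentiableOn)
    tendstoLocallyUniformlyOn_eulerPoly h0
  have h2 : Tendsto (fun M => (k.factorial : ℂ)⁻¹ * iteratedDeriv k
      (fun q => (eulerPoly M).eval q) 0) atTop
      (𝓝 ((k.factorial : ℂ)⁻¹ * iteratedDeriv k eulerFun 0)) := h1.const_mul _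
  have h3 : (fun M => (k.factorial : ℂ)⁻¹ * iteratedDeriv k
      (fun q => (eulerPoly M).eval q) 0) = fun M =>
      ((PowerSeries.coeff k (∏ n ∈ Finset.range M,
      (1 - PowerSeries.X ^ (n + 1)) : PowerSeries ℤ) : ℤ) : ℂ) := by
    funext M
    rw [iteratedDeriv_polynomial_eval_zero, eulerPoly_coeff, ← mul_assoc,
      inv_mul_cancel₀ (by exact_mod_cast Nat.factorial_ne_zero k), one_mul]
  rw [h3] at h2
  have h4 := tendsto_nhds_unique h2 (tendsto_coeff_partial_etaProd k)
  rw [h4, etaProdC, PowerSeries.coeff_map]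
  rfl

/-- **Euler product bridge**: the formal Euler product is the Taylor series of the analytic
Euler product on the unit disc. -/
theorem hasSum_etaProdC {q : ℂ} (hq : ‖q‖ < 1) :
    HasSum (fun k : ℕ => PowerSeries.coeff k etaProdC * q ^ k) (eulerFun q) := by
  have hq' : q ∈ Metric.ball (0 : ℂ) 1 := by simpa using hq
  have := hasSum_taylorSeries_on_ball differentiableOn_eulerFun hq'
  refine this.congr_fun ?_ |>.mono_left le_rfl
  intro k
  rw [← taylor_eulerFun]
  simp only [sub_zero, smul_eq_mul]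
  ring

end Fermat.Agent.S28.H565

end
end
-- ===== PACK-END S28/H565/EulerProd.lean

-- ===== PACK-BEGIN Lib/Frob/Interfaces.lean
section


/-!
# Shared library `Frob` — second-level FROZEN interfaces (row S52, row-lead helper472)

`FrobRelation ⇐ FrobRelationFin ∧ ReductionData`   (proved in `Glue.lean`).

* `FrobRelationFin` (piece A2): over `𝔽_ℓ`, `ℓ ≥ 5`:  `Φ² − a·Φ + ℓ = 0` on `E(k)` for every field
  `k ⊇ 𝔽_ℓ`, where `Φ` is the `ℓ`-power Frobenius on coordinates and `a = ℓ + 1 − #E(𝔽_ℓ)`.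
* `ReductionData` (piece A1): reduction of prime-to-`ℓ` torsion at a valuation subring of `ℚ̄` above a
  good prime `ℓ` is an injective additive map into the points of the reduced curve over the residue
  field, intertwining a Frobenius element with `Φ`.
No `sorry` in this file (definitions only).
-/

set_option autoImplicit false

open WeierstrassCurve WeierstrassCurve.Affine WeierstrassCurve.Affine.Point

namespace Fermat.Agent.Lib.Frob

/-- The `ℓ`-power Frobenius endomorphism of the group `E(k)`, `k ⊇ 𝔽_ℓ`. -/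
noncomputable def frobPt (ℓ : ℕ) [Fact ℓ.Prime] (E : WeierstrassCurve (ZMod ℓ))
    (k : Type) [Field k] [Algebra (ZMod ℓ) k] [DecidableEq k] :
    (E⁄k).Point →+ (E⁄k).Point :=
  Point.map (W' := E) (FiniteField.frobeniusAlgHom (ZMod ℓ) k)

/-- **Piece A2 (Hasse–Weil relation over `𝔽_ℓ`).** -/
def FrobRelationFin : Prop :=
  ∀ (ℓ : ℕ) [Fact ℓ.Prime], 5 ≤ ℓ → ∀ (E : WeierstrassCurve (ZMod ℓ)), E.Δ ≠ 0 →
    ∀ (k : Type) [Field k] [Algebra (ZMod ℓ) k] [DecidableEq k] (P : (E⁄k).Point),
      frobPt ℓ E k (frobPt ℓ E k P) - E.traceOfFrobenius • frobPt ℓ E k P + (ℓ : ℤ) • P = 0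

/-- **Piece A1 (reduction of torsion).**  For `ℓ` prime, `W` good at `ℓ`, `A` a valuation subring of
`ℚ̄` over `ℓ`, `σ` a Frobenius at `A`, `n > 0` prime to `ℓ`: there are a field `k` of
characteristic `ℓ` and an injective additive map `red : W[n](ℚ̄) → (W mod ℓ)(k)` with
`red (σ • P) = Φ (red P)`. -/
def ReductionData : Prop :=
  ∀ (W : WeierstrassCurve ℤ) (ℓ : ℕ) [Fact ℓ.Prime], W.IsGoodPrimeFor ℓ →
    ∀ (A : ValuationSubring Qb) (σ : Qb ≃ₐ[ℚ] Qb), A.LiesOverPrime ℓ → A.IsFrobeniusAt σ ℓ →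
      ∀ (n : ℕ), 0 < n → ¬ ℓ ∣ n →
        ∃ (k : Type) (_ : Field k) (_ : Algebra (ZMod ℓ) k) (_ : DecidableEq k)
          (red : Submodule.torsionBy ℤ (Pts W) n →+ ((W.reductionMod ℓ)⁄k).Point),
          Function.Injective red ∧
          ∀ P : Submodule.torsionBy ℤ (Pts W) n,
            red (σ • P) = frobPt ℓ (W.reductionMod ℓ) k (red P)

end Fermat.Agent.Lib.Frob

end
-- ===== PACK-END Lib/Frob/Interfaces.lean

-- ===== PACK-BEGIN S05/FG.lean
section



/-!
# The kernel of reduction has no prime-to-residue-characteristic torsion (S05 helper)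

`K` a field with a valuation `v`, `W` a Weierstrass curve over `K` with `v`-integral coefficients.
If `P = (x, y)` is a nonsingular affine point with `n • P = 0` and `v n = 1`, then `v x ≤ 1`.

The proof only uses `x`-coordinates: with `s = 1/x` and `s_k = 1/x(kP)` one shows by induction
`s_k ≡ k² s` modulo `{t | v t < v s}`.  No assumption on the residue characteristic (in particular
`v 2 < 1` is allowed).
-/

set_option autoImplicit false

namespace Fermat.Agent.S05.FG

open WeierstrassCurve WeierstrassCurve.Affine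
open Fermat.Agent.S05.XId

variable {K : Type*} [Field K] {Γ₀ : Type*} [LinearOrderedCommGroupWithZero Γ₀]
  (v : Valuation K Γ₀)

/-- The Weierstrass curve `W` has `v`-integral coefficients. -/
def IsIntegralAt (W : Affine K) : Prop :=
  v W.a₁ ≤ 1 ∧ v W.a₂ ≤ 1 ∧ v W.a₃ ≤ 1 ∧ v W.a₄ ≤ 1 ∧ v W.a₆ ≤ 1

lemma v_natCast_le_one (n : ℕ) : v (n : K) ≤ 1 := by
  induction n with
  | zero => simp
  | succ n ih =>
    push_cast
    exact v.map_add_le ih (by simp)

lemma v_ofNat_le_one (n : ℕ) [n.AtLeastTwo] : v (OfNat.ofNat n : K) ≤ 1 := by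
  have := v_natCast_le_one v (OfNat.ofNat n)
  rwa [Nat.cast_ofNat] at this

variable {v}

lemma v_mul_le_one {a b : K} (ha : v a ≤ 1) (hb : v b ≤ 1) : v (a * b) ≤ 1 := by
  rw [map_mul]; exact Left.mul_le_one ha hb

lemma v_pow_le_one {a : K} (ha : v a ≤ 1) (n : ℕ) : v (a ^ n) ≤ 1 := by
  rw [map_pow]; exact pow_le_one' ha n

lemma v_add_le_one {a b : K} (ha : v a ≤ 1) (hb : v b ≤ 1) : v (a + b) ≤ 1 :=
  v.map_add_le ha hb

lemma v_sub_le_one {a b : K} (ha : v a ≤ 1) (hb : v b ≤ 1) : v (a - b) ≤ 1 :=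
  v.map_sub_le ha hb

lemma v_neg_le_one {a : K} (ha : v a ≤ 1) : v (-a) ≤ 1 := by
  rwa [v.map_neg]

/-- `v (a * t) < g` if `v a ≤ 1` and `v t < g`. -/
lemma v_mul_lt_left {a t : K} {g : Γ₀} (ha : v a ≤ 1) (ht : v t < g) : v (a * t) < g := by
  rw [map_mul]; exact mul_lt_of_le_one_of_lt ha ht

lemma v_mul_lt_right {a t : K} {g : Γ₀} (ha : v a ≤ 1) (ht : v t < g) : v (t * a) < g := by
  rw [mul_comm]; exact v_mul_lt_left ha ht

/-- `v (a * t) < v t` if `v a < 1` and `t ≠ 0`. -/
lemma v_mul_lt_self {a t : K} (ha : v a < 1) (ht : t ≠ 0) : v (a * t) < v t := by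
  rw [map_mul]
  exact mul_lt_of_lt_one_left (zero_lt_iff.mpr ((v.ne_zero_iff).mpr ht)) ha

lemma v_mul_lt_of_lt_one_of_le {a t : K} {g : Γ₀} (hg : g ≠ 0) (ha : v a < 1) (ht : v t ≤ g) :
    v (a * t) < g := by
  rw [map_mul]
  calc v a * v t ≤ v a * g := by gcongr
    _ < g := mul_lt_of_lt_one_left (zero_lt_iff.mpr hg) ha

section coeffs

variable {W : Affine K} (hW : IsIntegralAt v W)
include hW

lemma v_b₂ : v W.b₂ ≤ 1 := by
  obtain ⟨h1, h2, h3, h4, h6⟩ := hW
  rw [WeierstrassCurve.b₂]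
  exact v_add_le_one (v_pow_le_one h1 2) (v_mul_le_one (v_ofNat_le_one v 4) h2)

lemma v_b₄ : v W.b₄ ≤ 1 := by
  obtain ⟨h1, h2, h3, h4, h6⟩ := hW
  rw [WeierstrassCurve.b₄]
  exact v_add_le_one (v_mul_le_one (v_ofNat_le_one v 2) h4) (v_mul_le_one h1 h3)

lemma v_b₆ : v W.b₆ ≤ 1 := by
  obtain ⟨h1, h2, h3, h4, h6⟩ := hW
  rw [WeierstrassCurve.b₆]
  exact v_add_le_one (v_pow_le_one h3 2) (v_mul_le_one (v_ofNat_le_one v 4) h6)

lemma v_b₈ : v W.b₈ ≤ 1 := by
  obtain ⟨h1, h2, h3, h4, h6⟩ := hW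
  rw [WeierstrassCurve.b₈]
  refine v_sub_le_one (v_add_le_one (v_sub_le_one (v_add_le_one ?_ ?_) ?_) ?_) ?_
  · exact v_mul_le_one (v_pow_le_one h1 2) h6
  · exact v_mul_le_one (v_mul_le_one (v_ofNat_le_one v 4) h2) h6
  · exact v_mul_le_one (v_mul_le_one h1 h3) h4
  · exact v_mul_le_one h2 (v_pow_le_one h3 2)
  · exact v_pow_le_one h4 2

end coeffs

section estimates

variable {W : Affine K} (hW : IsIntegralAt v W)
include hW

/-- Generic step: estimate for `1/x(Q+P) + 1/x(Q-P)` in terms of `s = 1/x(P)`, `s' = 1/x(Q)`. -/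
lemma step_generic {s s' x₃ x₄ : K} (hs0 : s ≠ 0) (hs'0 : s' ≠ 0) (hs : v s < 1)
    (hs' : v s' ≤ v s)
    (hsum : (s'⁻¹ - s⁻¹) ^ 2 * (x₃ + x₄) = sumNum W s'⁻¹ s⁻¹)
    (hprod : (s'⁻¹ - s⁻¹) ^ 2 * (x₃ * x₄) = prodNum W s'⁻¹ s⁻¹) :
    x₃ ≠ 0 ∧ x₄ ≠ 0 ∧ v (x₃⁻¹ + x₄⁻¹ - 2 * (s + s')) < v s := by
  have hb2 := v_b₂ hW
  have hb4 := v_b₄ hW
  have hb6 := v_b₆ hW
  have hb8 := v_b₈ hW
  have hs1 : v s ≤ 1 := hs.le
  have hs'1 : v s' ≤ 1 := hs'.trans hs1
  have hs'lt : v s' < 1 := lt_of_le_of_lt hs' hs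
  have hss : v (s + s') ≤ 1 := v_add_le_one hs1 hs'1
  have h2 : v (2 : K) ≤ 1 := v_ofNat_le_one v 2
  set V : K := 1 - W.b₄ * s * s' - W.b₆ * s * s' * (s + s') - W.b₈ * (s * s') ^ 2 with hV
  set U : K := 2 * (s + s') + W.b₂ * s * s' + W.b₄ * s * s' * (s + s') + W.b₆ * (s * s') ^ 2
    with hU
  have e1 : (s'⁻¹ - s⁻¹) ^ 2 * (s * s') ^ 2 = (s - s') ^ 2 := by
    field_simp
  have e2 : sumNum W s'⁻¹ s⁻¹ * (s * s') ^ 2 = U := by
    simp only [sumNum, hU]
    field_simp
  have e3 : prodNum W s'⁻¹ s⁻¹ * (s * s') ^ 2 = V := by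
    simp only [prodNum, hV]
    field_simp
  have hsum' : (s - s') ^ 2 * (x₃ + x₄) = U := by
    rw [← e1, ← e2, ← hsum]; ring
  have hprod' : (s - s') ^ 2 * (x₃ * x₄) = V := by
    rw [← e1, ← e3, ← hprod]; ring
  -- `V` is a unit
  have hV1 : v (V - 1) < 1 := by
    have : V - 1 = -(s' * (s * (W.b₄ + W.b₆ * (s + s') + W.b₈ * (s * s')))) := by
      simp only [hV]; ring
    rw [this, v.map_neg]
    refine v_mul_lt_right ?_ hs'lt
    exact v_mul_le_one hs1 (v_add_le_one (v_add_le_one hb4 (v_mul_le_one hb6 hss))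
      (v_mul_le_one hb8 (v_mul_le_one hs1 hs'1)))
  have hVv : v V = 1 := by
    have : V = 1 + (V - 1) := by ring
    rw [this]
    exact v.map_one_add_of_lt hV1
  have hV0 : V ≠ 0 := by
    intro h
    rw [h, map_zero] at hVv
    exact zero_ne_one hVv
  have h34 : x₃ * x₄ ≠ 0 := by
    intro h
    rw [h, mul_zero] at hprod'
    exact hV0 hprod'.symm
  have hx3 : x₃ ≠ 0 := left_ne_zero_of_mul h34
  have hx4 : x₄ ≠ 0 := right_ne_zero_of_mul h34
  refine ⟨hx3, hx4, ?_⟩
  have key : (x₃⁻¹ + x₄⁻¹ - 2 * (s + s')) * V = U - 2 * (s + s') * V := by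
    have : (x₃⁻¹ + x₄⁻¹) * V = U := by
      rw [← hprod', ← hsum']
      field_simp
      ring
    rw [sub_mul, this]
  have hR : U - 2 * (s + s') * V = s' * (s * (W.b₂ + W.b₄ * (s + s') + W.b₆ * (s * s') +
      2 * (s + s') * (W.b₄ + W.b₆ * (s + s') + W.b₈ * (s * s')))) := by
    simp only [hU, hV]; ring
  have hRv : v (U - 2 * (s + s') * V) < v s := by
    rw [hR]
    refine v_mul_lt_of_lt_one_of_le ((v.ne_zero_iff).mpr hs0) hs'lt ?_
    rw [map_mul]
    refine mul_le_of_le_one_right' ?_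
    refine v_add_le_one (v_add_le_one (v_add_le_one hb2 (v_mul_le_one hb4 hss))
      (v_mul_le_one hb6 (v_mul_le_one hs1 hs'1))) ?_
    exact v_mul_le_one (v_mul_le_one h2 hss) (v_add_le_one (v_add_le_one hb4
      (v_mul_le_one hb6 hss)) (v_mul_le_one hb8 (v_mul_le_one hs1 hs'1)))
  have : v ((x₃⁻¹ + x₄⁻¹ - 2 * (s + s')) * V) < v s := by rw [key]; exact hRv
  rwa [map_mul, hVv, mul_one] at this

/-- Duplication step. -/
lemma step_dbl {s x' : K} (hs0 : s ≠ 0) (hs : v s < 1)
    (h : x' * dblDen W s⁻¹ = dblNum W s⁻¹) :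
    x' ≠ 0 ∧ v (x'⁻¹ - 4 * s) < v s := by
  have hb2 := v_b₂ hW
  have hb4 := v_b₄ hW
  have hb6 := v_b₆ hW
  have hb8 := v_b₈ hW
  have hs1 : v s ≤ 1 := hs.le
  have h2 : v (2 : K) ≤ 1 := v_ofNat_le_one v 2
  have h4 : v (4 : K) ≤ 1 := v_ofNat_le_one v 4
  set V : K := 1 - W.b₄ * s ^ 2 - 2 * W.b₆ * s ^ 3 - W.b₈ * s ^ 4 with hV
  set U : K := 4 * s + W.b₂ * s ^ 2 + 2 * W.b₄ * s ^ 3 + W.b₆ * s ^ 4 with hU
  have e2 : dblDen W s⁻¹ * s ^ 4 = U := by
    simp only [dblDen, hU]
    field_simp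
  have e3 : dblNum W s⁻¹ * s ^ 4 = V := by
    simp only [dblNum, hV]
    field_simp
  have h' : x' * U = V := by
    rw [← e2, ← e3, ← h]; ring
  have hV1 : v (V - 1) < 1 := by
    have : V - 1 = -(s * (s * (W.b₄ + 2 * W.b₆ * s + W.b₈ * s ^ 2))) := by
      simp only [hV]; ring
    rw [this, v.map_neg]
    refine v_mul_lt_right ?_ hs
    exact v_mul_le_one hs1 (v_add_le_one (v_add_le_one hb4 (v_mul_le_one (v_mul_le_one h2 hb6) hs1))
      (v_mul_le_one hb8 (v_pow_le_one hs1 2)))
  have hVv : v V = 1 := by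
    have : V = 1 + (V - 1) := by ring
    rw [this]
    exact v.map_one_add_of_lt hV1
  have hV0 : V ≠ 0 := by
    intro h
    rw [h, map_zero] at hVv
    exact zero_ne_one hVv
  have hxU : x' * U ≠ 0 := by rw [h']; exact hV0
  have hx' : x' ≠ 0 := left_ne_zero_of_mul hxU
  have hU0 : U ≠ 0 := right_ne_zero_of_mul hxU
  refine ⟨hx', ?_⟩
  have key : (x'⁻¹ - 4 * s) * V = U - 4 * s * V := by
    have : x'⁻¹ * V = U := by
      rw [← h']; field_simp
    rw [sub_mul, this]
  have hR : U - 4 * s * V = s * (s * (W.b₂ + 2 * W.b₄ * s + W.b₆ * s ^ 2 +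
      4 * (W.b₄ * s + 2 * W.b₆ * s ^ 2 + W.b₈ * s ^ 3))) := by
    simp only [hU, hV]; ring
  have hRv : v (U - 4 * s * V) < v s := by
    rw [hR]
    refine v_mul_lt_of_lt_one_of_le ((v.ne_zero_iff).mpr hs0) hs ?_
    rw [map_mul]
    refine mul_le_of_le_one_right' ?_
    refine v_add_le_one (v_add_le_one (v_add_le_one hb2 (v_mul_le_one (v_mul_le_one h2 hb4) hs1))
      (v_mul_le_one hb6 (v_pow_le_one hs1 2))) ?_
    exact v_mul_le_one h4 (v_add_le_one (v_add_le_one (v_mul_le_one hb4 hs1)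
      (v_mul_le_one (v_mul_le_one h2 hb6) (v_pow_le_one hs1 2)))
      (v_mul_le_one hb8 (v_pow_le_one hs1 3)))
  have : v ((x'⁻¹ - 4 * s) * V) < v s := by rw [key]; exact hRv
  rwa [map_mul, hVv, mul_one] at this

/-- If `P = (1/s, y)` is 2-torsion and in the kernel of reduction then `v 2 < 1`. -/
lemma v_two_lt_one_of_dblDen_eq_zero {s : K} (hs0 : s ≠ 0) (hs : v s < 1)
    (h : dblDen W s⁻¹ = 0) : v (2 : K) < 1 := by
  have hb2 := v_b₂ hW
  have hb4 := v_b₄ hW
  have hb6 := v_b₆ hW
  have hs1 : v s ≤ 1 := hs.le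
  have h2 : v (2 : K) ≤ 1 := v_ofNat_le_one v 2
  have e2 : dblDen W s⁻¹ * s ^ 3 = 4 + W.b₂ * s + 2 * W.b₄ * s ^ 2 + W.b₆ * s ^ 3 := by
    simp only [dblDen]
    field_simp
  rw [h, zero_mul] at e2
  have h4 : (4 : K) = -(s * (W.b₂ + 2 * W.b₄ * s + W.b₆ * s ^ 2)) := by
    linear_combination -e2
  have hv4 : v (4 : K) < 1 := by
    rw [h4, v.map_neg]
    refine v_mul_lt_right ?_ hs
    exact v_add_le_one (v_add_le_one hb2 (v_mul_le_one (v_mul_le_one h2 hb4) hs1))
      (v_mul_le_one hb6 (v_pow_le_one hs1 2))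
  by_contra hcon
  have h21 : v (2 : K) = 1 := le_antisymm h2 (not_lt.mp hcon)
  have : v (4 : K) = 1 := by
    have : (4 : K) = 2 * 2 := by norm_num
    rw [this, map_mul, h21, mul_one]
  rw [this] at hv4
  exact lt_irrefl _ hv4

end estimates

section main

variable [DecidableEq K] {W : Affine K}

/-- The induction predicate: either `k • P = 0` and `v k < 1`, or `k • P = (xk, yk)` with
`1/xk ≡ k² s` modulo elements of valuation `< v s`. -/
def Good (v : Valuation K Γ₀) (W : Affine K) (P : W.Point) (s : K) (k : ℕ) : Prop :=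
  (k • P = 0 ∧ v (k : K) < 1) ∨
  ∃ (xk yk : K) (hk : W.Nonsingular xk yk), k • P = Point.some xk yk hk ∧ xk ≠ 0 ∧
    v (xk⁻¹ - (k : K) ^ 2 * s) < v s

theorem good_all (hW : IsIntegralAt v W) {x y : K} (h : W.Nonsingular x y) (hx : 1 < v x)
    (k : ℕ) :
    Good v W (Point.some x y h) x⁻¹ k ∧ Good v W (Point.some x y h) x⁻¹ (k + 1) := by
  have hx0 : x ≠ 0 := by
    rintro rfl
    rw [map_zero] at hx
    exact not_lt_zero hx
  have hs0 : x⁻¹ ≠ 0 := inv_ne_zero hx0
  have hs : v x⁻¹ < 1 := by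
    rw [map_inv₀]; exact inv_lt_one_of_one_lt₀ hx
  have hvs0 : v x⁻¹ ≠ 0 := (v.ne_zero_iff).mpr hs0
  have hvspos : 0 < v x⁻¹ := zero_lt_iff.mpr hvs0
  have h2 : v (2 : K) ≤ 1 := v_ofNat_le_one v 2
  induction k with
  | zero =>
    refine ⟨Or.inl ⟨zero_nsmul _, by simp⟩, Or.inr ⟨x, y, h, one_nsmul _, hx0, ?_⟩⟩
    simpa using hvspos
  | succ j ih =>
    obtain ⟨gj, gj1⟩ := ih
    refine ⟨gj1, ?_⟩
    have e1 : (j + 1 + 1) • Point.some x y h = (j + 1) • Point.some x y h + Point.some x y h :=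
      succ_nsmul _ (j + 1)
    have e0 : (j + 1) • Point.some x y h = j • Point.some x y h + Point.some x y h :=
      succ_nsmul _ j
    rcases gj1 with ⟨hQ0, hvk⟩ | ⟨xk, yk, hk, hQ, hxk0, hvk⟩
    · -- `(j+1) P = 0`
      refine Or.inr ⟨x, y, h, by rw [e1, hQ0, zero_add], hx0, ?_⟩
      have : x⁻¹ - ((j + 1 + 1 : ℕ) : K) ^ 2 * x⁻¹ =
          -(((j + 1 : ℕ) : K) * ((((j + 3 : ℕ) : K)) * x⁻¹)) := by
        push_cast; ring
      rw [this, v.map_neg]
      refine v_mul_lt_of_lt_one_of_le hvs0 hvk ?_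
      rw [map_mul]
      exact mul_le_of_le_one_left' (v_natCast_le_one v _)
    · by_cases hxk : xk = x
      · subst hxk
        by_cases hyy : yk = y
        · -- `(j+1) P = P`
          subst hyy
          have hj0 : j • Point.some xk yk h = 0 := by
            have := e0
            rw [hQ] at this
            exact add_eq_right.mp this.symm
          have hvj : v (j : K) < 1 := by
            rcases gj with ⟨-, hvj⟩ | ⟨xj, yj, hj, hjP, -, -⟩
            · exact hvj
            · rw [hj0] at hjP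
              exact absurd hjP.symm (Point.some_ne_zero hj)
          by_cases hy2 : yk = W.negY xk yk
          · -- `2P = 0`
            refine Or.inl ⟨by rw [e1, hQ]; exact Point.add_self_of_Y_eq hy2, ?_⟩
            have hd := dblDen_eq_zero_of_Y_eq h.1 hy2
            have h2lt := v_two_lt_one_of_dblDen_eq_zero hW hs0 hs (by rwa [inv_inv])
            push_cast
            have : (j : K) + 1 + 1 = j + 2 := by ring
            rw [this]
            exact v.map_add_lt hvj h2lt
          · obtain ⟨x', y', h', hPP, hdbl, -⟩ := add_self_some h hy2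
            obtain ⟨hx'0, hvx'⟩ := step_dbl hW hs0 hs (x' := x') (by rwa [inv_inv])
            refine Or.inr ⟨x', y', h', by rw [e1, hQ]; exact hPP, hx'0, ?_⟩
            have : x'⁻¹ - ((j + 1 + 1 : ℕ) : K) ^ 2 * xk⁻¹ =
                (x'⁻¹ - 4 * xk⁻¹) - (j : K) * ((((j + 4 : ℕ) : K)) * xk⁻¹) := by
              push_cast; ring
            rw [this]
            refine v.map_sub_lt hvx' (v_mul_lt_of_lt_one_of_le hvs0 hvj ?_)
            rw [map_mul]
            exact mul_le_of_le_one_left' (v_natCast_le_one v _)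
        · -- `(j+1) P = -P ≠ P`
          have hy : yk = W.negY xk y := (Y_eq_of_X_eq hk.1 h.1 rfl).resolve_left hyy
          have hy2 : y ≠ W.negY xk y := fun hcon => hyy (hy.trans hcon.symm)
          refine Or.inl ⟨by rw [e1, hQ]; exact Point.add_of_Y_eq rfl hy, ?_⟩
          obtain ⟨x', y', h', hPP, hdbl, -⟩ := add_self_some h hy2
          obtain ⟨hx'0, hvx'⟩ := step_dbl hW hs0 hs (x' := x') (by rwa [inv_inv])
          -- `j P = -(2P)`
          have hQneg : Point.some xk yk hk = -Point.some xk y h := by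
            rw [Point.neg_some]
            congr 1
          have hjP' : j • Point.some xk y h = -Point.some x' y' h' := by
            have : j • Point.some xk y h = (j + 1) • Point.some xk y h - Point.some xk y h :=
              eq_sub_of_add_eq e0.symm
            rw [this, hQ, hQneg, ← hPP]
            abel
          rw [Point.neg_some] at hjP'
          have hvj2 : v (x'⁻¹ - (j : K) ^ 2 * xk⁻¹) < v xk⁻¹ := by
            rcases gj with ⟨hj0, -⟩ | ⟨xj, yj, hj, hjP, -, hvj⟩
            · rw [hj0] at hjP'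
              exact absurd hjP' (Point.some_ne_zero _).symm
            · rw [hjP'] at hjP
              have hxx : x' = xj := (Point.some.inj hjP).1
              rw [hxx]
              exact hvj
          -- `v (j * (j+2)) < 1`
          have hA : v ((j : K) * ((j : K) + 2)) < 1 := by
            have e : xk⁻¹ - ((j + 1 : ℕ) : K) ^ 2 * xk⁻¹ = -(((j : K) * ((j : K) + 2)) * xk⁻¹) := by
              push_cast; ring
            rw [e, v.map_neg, map_mul] at hvk
            by_contra hcon
            exact absurd hvk (not_lt.mpr (le_mul_of_one_le_left' (not_lt.mp hcon)))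
          -- `v ((j-2) * (j+2)) < 1`
          have hB : v (((j : K) - 2) * ((j : K) + 2)) < 1 := by
            have e : (((j : K) - 2) * ((j : K) + 2)) * xk⁻¹ =
                (x'⁻¹ - 4 * xk⁻¹) - (x'⁻¹ - (j : K) ^ 2 * xk⁻¹) := by ring
            have hlt : v ((((j : K) - 2) * ((j : K) + 2)) * xk⁻¹) < v xk⁻¹ := by
              rw [e]; exact v.map_sub_lt hvx' hvj2
            rw [map_mul] at hlt
            by_contra hcon
            exact absurd hlt (not_lt.mpr (le_mul_of_one_le_left' (not_lt.mp hcon)))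
          have hle : v ((j : K) + 2) ≤ 1 := v_add_le_one (v_natCast_le_one v j) h2
          push_cast
          have e12 : (j : K) + 1 + 1 = j + 2 := by ring
          rw [e12]
          by_contra hcon
          have h1 : v ((j : K) + 2) = 1 := le_antisymm hle (not_lt.mp hcon)
          rw [map_mul, h1, mul_one] at hA hB
          have h2lt : v (2 : K) < 1 := by
            have : (2 : K) = (j : K) - ((j : K) - 2) := by ring
            rw [this]
            exact v.map_sub_lt hA hB
          exact hcon (v.map_add_lt hA h2lt)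
      · -- generic case
        obtain ⟨x₃, y₃, x₄, y₄, h₃, h₄, hadd, hsub, hsum, hprod⟩ := add_sub_some hk h hxk
        have hjP' : j • Point.some x y h = Point.some x₄ y₄ h₄ := by
          have : j • Point.some x y h = (j + 1) • Point.some x y h - Point.some x y h :=
            eq_sub_of_add_eq e0.symm
          rw [this, hQ, hsub]
        have hvj : v (x₄⁻¹ - (j : K) ^ 2 * x⁻¹) < v x⁻¹ := by
          rcases gj with ⟨hj0, -⟩ | ⟨xj, yj, hj, hjP, -, hvj⟩
          · rw [hj0] at hjP'
            exact absurd hjP' (Point.some_ne_zero _).symm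
          · rw [hjP'] at hjP
            have hxx : x₄ = xj := (Point.some.inj hjP).1
            rw [hxx]
            exact hvj
        have hs' : v xk⁻¹ ≤ v x⁻¹ := by
          have e : xk⁻¹ = (xk⁻¹ - ((j + 1 : ℕ) : K) ^ 2 * x⁻¹) + ((j + 1 : ℕ) : K) ^ 2 * x⁻¹ := by
            ring
          rw [e]
          refine v.map_add_le hvk.le ?_
          rw [map_mul]
          exact mul_le_of_le_one_left' (v_pow_le_one (v_natCast_le_one v _) 2)
        obtain ⟨hx₃0, -, hv34⟩ := step_generic hW (s := x⁻¹) (s' := xk⁻¹) (x₃ := x₃) (x₄ := x₄)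
          hs0 (inv_ne_zero hxk0) hs hs' (by rwa [inv_inv, inv_inv]) (by rwa [inv_inv, inv_inv])
        refine Or.inr ⟨x₃, y₃, h₃, by rw [e1, hQ]; exact hadd, hx₃0, ?_⟩
        have e : x₃⁻¹ - ((j + 1 + 1 : ℕ) : K) ^ 2 * x⁻¹ =
            (x₃⁻¹ + x₄⁻¹ - 2 * (x⁻¹ + xk⁻¹)) - (x₄⁻¹ - (j : K) ^ 2 * x⁻¹) +
              2 * (xk⁻¹ - ((j + 1 : ℕ) : K) ^ 2 * x⁻¹) := by
          push_cast; ring
        rw [e]
        exact v.map_add_lt (v.map_sub_lt hv34 hvj) (v_mul_lt_left h2 hvk)

/-- **No torsion in the kernel of reduction.** If `W` has `v`-integral coefficients, `n` is a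
`v`-unit and `n • (x, y) = 0`, then `x` is `v`-integral. -/
theorem v_x_le_one_of_nsmul_eq_zero (hW : IsIntegralAt v W) {x y : K} (h : W.Nonsingular x y)
    {n : ℕ} (hn : v (n : K) = 1) (hP : n • Point.some x y h = 0) : v x ≤ 1 := by
  by_contra hx
  rcases (good_all hW h (not_le.mp hx) n).1 with ⟨-, hlt⟩ | ⟨xk, yk, hk, hkP, -, -⟩
  · rw [hn] at hlt
    exact lt_irrefl _ hlt
  · rw [hP] at hkP
    exact Point.some_ne_zero hk hkP.symm

/-- Point form of `v_x_le_one_of_nsmul_eq_zero`. -/
theorem eq_zero_or_v_x_le_one_of_nsmul_eq_zero (hW : IsIntegralAt v W) (P : W.Point)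
    {n : ℕ} (hn : v (n : K) = 1) (hP : n • P = 0) :
    P = 0 ∨ ∃ (x y : K) (h : W.Nonsingular x y), P = Point.some x y h ∧ v x ≤ 1 := by
  rcases P with _ | ⟨x, y, h⟩
  · exact Or.inl rfl
  · exact Or.inr ⟨x, y, h, rfl, v_x_le_one_of_nsmul_eq_zero hW h hn hP⟩

/-- A point in the kernel of reduction (`1 < v x`) killed by a `v`-unit integer does not exist. -/
theorem nsmul_ne_zero_of_one_lt_v_x (hW : IsIntegralAt v W) {x y : K} (h : W.Nonsingular x y)
    (hx : 1 < v x) {n : ℕ} (hn : v (n : K) = 1) : n • Point.some x y h ≠ 0 := fun hP =>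
  absurd (v_x_le_one_of_nsmul_eq_zero hW h hn hP) (not_le.mpr hx)

/-- Integer-multiple version. -/
theorem v_x_le_one_of_zsmul_eq_zero (hW : IsIntegralAt v W) {x y : K} (h : W.Nonsingular x y)
    {n : ℕ} (hn : v (n : K) = 1) (hP : (n : ℤ) • Point.some x y h = 0) : v x ≤ 1 :=
  v_x_le_one_of_nsmul_eq_zero hW h hn (by rwa [natCast_zsmul] at hP)

omit [DecidableEq K] in
/-- The `y`-coordinate of an affine point with `v`-integral `x`-coordinate is `v`-integral. -/
theorem v_y_le_one_of_v_x_le_one (hW : IsIntegralAt v W) {x y : K} (h : W.Equation x y)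
    (hx : v x ≤ 1) : v y ≤ 1 := by
  obtain ⟨h1, h2, h3, h4, h6⟩ := hW
  rw [Affine.equation_iff] at h
  by_contra hy
  have hy1 : 1 < v y := not_le.mp hy
  have hy0 : v y ≠ 0 := (zero_lt_one.trans hy1).ne'
  -- `y² = -(a₁ x + a₃) y + (x³ + a₂ x² + a₄ x + a₆)`, so `v y ^ 2 ≤ v y`
  have e : y ^ 2 = -((W.a₁ * x + W.a₃) * y) + (x ^ 3 + W.a₂ * x ^ 2 + W.a₄ * x + W.a₆) := by
    linear_combination h
  have hA : v ((W.a₁ * x + W.a₃) * y) ≤ v y := by
    rw [map_mul]
    exact mul_le_of_le_one_left' (v_add_le_one (v_mul_le_one h1 hx) h3)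
  have hB : v (x ^ 3 + W.a₂ * x ^ 2 + W.a₄ * x + W.a₆) ≤ v y :=
    (v_add_le_one (v_add_le_one (v_add_le_one (v_pow_le_one hx 3)
      (v_mul_le_one h2 (v_pow_le_one hx 2))) (v_mul_le_one h4 hx)) h6).trans hy1.le
  have hle : v (y ^ 2) ≤ v y := by
    rw [e]
    exact v.map_add_le (by rwa [v.map_neg]) hB
  rw [map_pow, sq] at hle
  have : v y * v y ≤ 1 * v y := by rwa [one_mul]
  have := le_of_mul_le_mul_right this (zero_lt_iff.mpr hy0)
  exact hy this

end main

section subring

variable {K : Type*} [Field K] [DecidableEq K] {W : Affine K}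

/-- `ValuationSubring` form: if the coefficients of `W` lie in `A`, the natural number `n` is a
unit of `A` (i.e. `(n : K) ∉ A.nonunits`), and `n • (x, y) = 0`, then `x ∈ A` and `y ∈ A`. -/
theorem mem_of_nsmul_eq_zero (A : ValuationSubring K)
    (h₁ : W.a₁ ∈ A) (h₂ : W.a₂ ∈ A) (h₃ : W.a₃ ∈ A) (h₄ : W.a₄ ∈ A) (h₆ : W.a₆ ∈ A)
    {x y : K} (h : W.Nonsingular x y) {n : ℕ} (hn : (n : K) ∉ A.nonunits)
    (hP : n • Point.some x y h = 0) : x ∈ A ∧ y ∈ A := by
  have hW : IsIntegralAt A.valuation W :=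
    ⟨(A.valuation_le_one_iff _).mpr h₁, (A.valuation_le_one_iff _).mpr h₂,
      (A.valuation_le_one_iff _).mpr h₃, (A.valuation_le_one_iff _).mpr h₄,
      (A.valuation_le_one_iff _).mpr h₆⟩
  have hn1 : A.valuation (n : K) = 1 := by
    refine le_antisymm (v_natCast_le_one _ n) (not_lt.mp ?_)
    rwa [← ValuationSubring.mem_nonunits_iff]
  have hx := v_x_le_one_of_nsmul_eq_zero hW h hn1 hP
  exact ⟨(A.valuation_le_one_iff _).mp hx,
    (A.valuation_le_one_iff _).mp (v_y_le_one_of_v_x_le_one hW h.1 hx)⟩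

end subring

end Fermat.Agent.S05.FG

end
-- ===== PACK-END S05/FG.lean

-- ===== PACK-BEGIN S52/H621/RatDegComp.lean
section



/-!
# S52 / Part A: multiplicativity of the degree of rational functions under composition

`ratDeg_comp : ratDeg (N(S) / D(S)) = ratDeg (N / D) * ratDeg S` (piece A2d).
-/

set_option autoImplicit false

open Polynomial

namespace Fermat.Agent.S52.H621

variable {F : Type*} [Field F]

/-- degree bound for the homogenisation evaluated at polynomials -/
theorem natDegree_homog_le (n m : ℕ) (N P Q : F[X]) (hP : P.natDegree ≤ m)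
    (hQ : Q.natDegree ≤ m) : (homog n N P Q).natDegree ≤ n * m := by
  unfold homog
  refine natDegree_sum_le_of_forall_le _ _ fun i hi => ?_
  have hi' : i ≤ n := Nat.lt_succ_iff.mp (Finset.mem_range.mp hi)
  have h1 : (P ^ i).natDegree ≤ i * m := natDegree_pow_le_of_le i hP
  have h2 : (Q ^ (n - i)).natDegree ≤ (n - i) * m := natDegree_pow_le_of_le (n - i) hQ
  have h3 : (algebraMap F F[X] (N.coeff i) * P ^ i).natDegree ≤ i * m := by
    rw [algebraMap_eq]
    exact (natDegree_C_mul_le _ _).trans h1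
  calc (algebraMap F F[X] (N.coeff i) * P ^ i * Q ^ (n - i)).natDegree
      ≤ i * m + (n - i) * m := natDegree_mul_le_of_le h3 h2
    _ = n * m := by rw [← add_mul, Nat.add_sub_cancel' hi']

/-- top coefficient of the homogenisation evaluated at polynomials -/
theorem coeff_homog (n m : ℕ) (N P Q : F[X]) (hP : P.natDegree ≤ m)
    (hQ : Q.natDegree ≤ m) :
    (homog n N P Q).coeff (n * m) = homog n N (P.coeff m) (Q.coeff m) := by
  unfold homog
  rw [finsetSum_coeff]
  refine Finset.sum_congr rfl fun i hi => ?_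
  have hi' : i ≤ n := Nat.lt_succ_iff.mp (Finset.mem_range.mp hi)
  have h1 : (P ^ i).natDegree ≤ i * m := natDegree_pow_le_of_le i hP
  have h2 : (Q ^ (n - i)).natDegree ≤ (n - i) * m := natDegree_pow_le_of_le (n - i) hQ
  have hnm : n * m = i * m + (n - i) * m := by rw [← add_mul, Nat.add_sub_cancel' hi']
  rw [algebraMap_eq, mul_assoc, coeff_C_mul, hnm, coeff_mul_add_eq_of_natDegree_le h1 h2,
    coeff_pow_of_natDegree_le hP, coeff_pow_of_natDegree_le hQ]
  simp [mul_assoc]

/-- The algebra map `F[X] → RatFunc F` as an `F`-algebra homomorphism. -/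
noncomputable def toRatFuncAlgHom (F : Type*) [Field F] : F[X] →ₐ[F] RatFunc F :=
  IsScalarTower.toAlgHom F F[X] (RatFunc F)

@[simp] theorem toRatFuncAlgHom_apply (p : F[X]) :
    toRatFuncAlgHom F p = algebraMap F[X] (RatFunc F) p := rfl

/-- **Core case**: coprime `N`, `D` and coprime `P`, `Q`. -/
theorem ratDeg_homog_div (N D P Q : F[X]) (hND : IsCoprime N D) (hPQ : IsCoprime P Q)
    (hQ : Q ≠ 0) :
    IsCoprime (homog (max N.natDegree D.natDegree) N P Q)
        (homog (max N.natDegree D.natDegree) D P Q) ∧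
      max (homog (max N.natDegree D.natDegree) N P Q).natDegree
          (homog (max N.natDegree D.natDegree) D P Q).natDegree
        = max N.natDegree D.natDegree * max P.natDegree Q.natDegree := by
  set n := max N.natDegree D.natDegree with hn
  set m := max P.natDegree Q.natDegree with hm
  have hPm : P.natDegree ≤ m := le_max_left _ _
  have hQm : Q.natDegree ≤ m := le_max_right _ _
  -- the leading coefficients
  have hlead : P.coeff m ≠ 0 ∨ Q.coeff m ≠ 0 := by
    rcases max_cases P.natDegree Q.natDegree with ⟨h1, -⟩ | ⟨h1, -⟩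
    · by_cases hP0 : P = 0
      · right
        have : Q.natDegree = m := by
          have h2 : Q.natDegree ≤ P.natDegree := by
            have := le_max_right P.natDegree Q.natDegree
            omega
          rw [hP0, natDegree_zero] at h2
          have : m = 0 := by rw [hm, h1, hP0, natDegree_zero]
          omega
        rw [← this]
        exact leadingCoeff_ne_zero.mpr hQ
      · left
        rw [hm, h1]
        exact leadingCoeff_ne_zero.mpr hP0
    · right
      rw [hm, h1]
      exact leadingCoeff_ne_zero.mpr hQ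
  have htop := homog_ne_zero_of_isCoprime (L := F) N D hND n hn.symm (P.coeff m) (Q.coeff m) hlead
  rw [← coeff_homog n m N P Q hPm hQm, ← coeff_homog n m D P Q hPm hQm] at htop
  have hA := natDegree_homog_le n m N P Q hPm hQm
  have hB := natDegree_homog_le n m D P Q hPm hQm
  refine ⟨?_, ?_⟩
  · -- coprimality
    refine isCoprime_of_irreducible_dvd ?_ ?_
    · rintro ⟨h1, h2⟩
      rcases htop with h | h
      · exact h (by rw [h1, coeff_zero])
      · exact h (by rw [h2, coeff_zero])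
    · intro π hπ hπA hπB
      have : Fact (Irreducible π) := ⟨hπ⟩
      let φ : F[X] →ₐ[F] AdjoinRoot π := AdjoinRoot.mkₐ π
      have hφ : ∀ g : F[X], φ g = 0 ↔ π ∣ g := fun g => AdjoinRoot.mk_eq_zero
      have hA0 : homog n N (φ P) (φ Q) = 0 := by
        rw [← homog_map φ, hφ]; exact hπA
      have hB0 : homog n D (φ P) (φ Q) = 0 := by
        rw [← homog_map φ, hφ]; exact hπB
      have hpq : φ P ≠ 0 ∨ φ Q ≠ 0 := by
        by_contra hcon
        push Not at hcon
        obtain ⟨h1, h2⟩ := hcon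
        rw [hφ] at h1 h2
        obtain ⟨u, v, huv⟩ := hPQ
        have : π ∣ 1 := huv ▸ dvd_add (dvd_mul_of_dvd_right h1 u) (dvd_mul_of_dvd_right h2 v)
        exact hπ.not_isUnit (isUnit_of_dvd_one this)
      rcases homog_ne_zero_of_isCoprime (L := AdjoinRoot π) N D hND n hn.symm (φ P) (φ Q) hpq
        with h | h
      · exact h hA0
      · exact h hB0
  · -- degree
    apply le_antisymm (max_le hA hB)
    rcases htop with h | h
    · exact le_max_of_le_left (le_natDegree_of_ne_zero h)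
    · exact le_max_of_le_right (le_natDegree_of_ne_zero h)

/-- evaluation of a polynomial at a rational function, in terms of the homogenisation -/
theorem aeval_ratFunc_eq (N : F[X]) (n : ℕ) (hn : N.natDegree ≤ n) (S : RatFunc F) :
    aeval S N = algebraMap F[X] (RatFunc F) (homog n N S.num S.denom)
      / algebraMap F[X] (RatFunc F) S.denom ^ n := by
  have hq : algebraMap F[X] (RatFunc F) S.denom ≠ 0 := RatFunc.algebraMap_ne_zero S.denom_ne_zero
  have h1 := homog_eq_of_ne_zero (L := RatFunc F) n N hn (algebraMap F[X] (RatFunc F) S.num)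
    (algebraMap F[X] (RatFunc F) S.denom) hq
  rw [RatFunc.num_div_denom] at h1
  rw [← toRatFuncAlgHom_apply (homog n N S.num S.denom), homog_map, toRatFuncAlgHom_apply,
    toRatFuncAlgHom_apply, h1, mul_div_cancel_left₀ _ (pow_ne_zero n hq)]

/-- `ratDeg S = 0` iff `S` is constant. -/
theorem ratDeg_eq_zero_iff (S : RatFunc F) : ratDeg S = 0 ↔ ∃ c : F, S = RatFunc.C c := by
  constructor
  · intro h
    rw [ratDeg, Nat.max_eq_zero_iff] at h
    obtain ⟨h1, h2⟩ := h
    refine ⟨S.num.coeff 0 / S.denom.coeff 0, ?_⟩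
    conv_lhs => rw [← RatFunc.num_div_denom S]
    rw [eq_C_of_natDegree_eq_zero h1, eq_C_of_natDegree_eq_zero h2]
    simp only [coeff_C_zero, RatFunc.algebraMap_C]
    rw [map_div₀]
  · rintro ⟨c, rfl⟩
    exact ratDeg_C c

/-- **A2d, coprime form.** -/
theorem ratDeg_comp_of_isCoprime (N D : F[X]) (hND : IsCoprime N D) (S : RatFunc F) :
    ratDeg (aeval S N / aeval S D) = max N.natDegree D.natDegree * ratDeg S := by
  set n := max N.natDegree D.natDegree with hn
  have hNn : N.natDegree ≤ n := le_max_left _ _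
  have hDn : D.natDegree ≤ n := le_max_right _ _
  have hq : algebraMap F[X] (RatFunc F) S.denom ≠ 0 := RatFunc.algebraMap_ne_zero S.denom_ne_zero
  rw [aeval_ratFunc_eq N n hNn S, aeval_ratFunc_eq D n hDn S,
    div_div_div_cancel_right₀ (pow_ne_zero n hq)]
  obtain ⟨hcop, hdeg⟩ := ratDeg_homog_div N D S.num S.denom hND S.isCoprime_num_denom
    S.denom_ne_zero
  rw [← hn] at hcop hdeg
  by_cases hB : homog n D S.num S.denom = 0
  · rw [hB, map_zero, div_zero, ratDeg_zero]
    rw [hB, natDegree_zero] at hdeg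
    have hA : IsUnit (homog n N S.num S.denom) := by
      rw [hB] at hcop
      exact isCoprime_zero_right.mp hcop
    rw [natDegree_eq_zero_of_isUnit hA, max_self] at hdeg
    rw [ratDeg]
    exact hdeg
  · rw [ratDeg_div_of_isCoprime _ _ hB hcop, hdeg, ratDeg]

/-- **A2d**: the degree of a composition of rational functions is the product of the degrees.
Here the composition `R ∘ S` is written `N(S) / D(S)` for `R = N / D` (any representation
with `D ≠ 0`). -/
theorem ratDeg_comp (N D : F[X]) (hD : D ≠ 0) (S : RatFunc F) :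
    ratDeg (aeval S N / aeval S D)
      = ratDeg (algebraMap F[X] (RatFunc F) N / algebraMap F[X] (RatFunc F) D) * ratDeg S := by
  classical
  by_cases hS : ratDeg S = 0
  · -- `S` constant
    rw [hS, mul_zero]
    obtain ⟨c, rfl⟩ := (ratDeg_eq_zero_iff S).mp hS
    have h1 : ∀ p : F[X], aeval (RatFunc.C c : RatFunc F) p = RatFunc.C (p.eval c) := by
      intro p
      have : (RatFunc.C c : RatFunc F) = algebraMap F (RatFunc F) c := by
        rw [RatFunc.algebraMap_eq_C]
      rw [this, aeval_algebraMap_apply, ← RatFunc.algebraMap_eq_C]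
      simp
    rw [h1, h1, ← map_div₀, ratDeg_C]
  · -- `S` transcendental
    have htr : Transcendental F S := by
      apply RatFunc.transcendental_of_ne_C
      rintro ⟨c, hc⟩
      exact hS ((ratDeg_eq_zero_iff S).mpr ⟨c, by rw [hc]⟩)
    have hne : ∀ p : F[X], p ≠ 0 → aeval S p ≠ 0 := fun p hp h =>
      hp ((transcendental_iff.mp htr) p h)
    -- remove the gcd
    set R := algebraMap F[X] (RatFunc F) N / algebraMap F[X] (RatFunc F) D with hR
    have hRnd : algebraMap F[X] (RatFunc F) R.num / algebraMap F[X] (RatFunc F) R.denom = R :=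
      RatFunc.num_div_denom R
    have hcross : R.num * D = N * R.denom := by
      have h1 : algebraMap F[X] (RatFunc F) (R.num * D)
          = algebraMap F[X] (RatFunc F) (N * R.denom) := by
        rw [map_mul, map_mul]
        have hD' : algebraMap F[X] (RatFunc F) D ≠ 0 := RatFunc.algebraMap_ne_zero hD
        have hd' : algebraMap F[X] (RatFunc F) R.denom ≠ 0 :=
          RatFunc.algebraMap_ne_zero R.denom_ne_zero
        have := hRnd
        rw [hR] at this ⊢
        rw [div_eq_div_iff hd' hD'] at this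
        exact this
      exact (IsFractionRing.injective F[X] (RatFunc F)) h1
    have hcomp : aeval S N / aeval S D = aeval S R.num / aeval S R.denom := by
      rw [div_eq_div_iff (hne D hD) (hne _ R.denom_ne_zero), ← map_mul, ← map_mul, hcross]
    rw [hcomp, ratDeg_comp_of_isCoprime _ _ R.isCoprime_num_denom]
    rfl

/-- Special case: powers. -/
theorem ratDeg_pow (S : RatFunc F) (k : ℕ) : ratDeg (S ^ k) = k * ratDeg S := by
  have h := ratDeg_comp (Polynomial.X ^ k : F[X]) 1 one_ne_zero S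
  simp only [map_pow, aeval_X, map_one, div_one] at h
  rw [h]
  congr 1
  rw [← map_pow, ratDeg_algebraMap, natDegree_X_pow]

end Fermat.Agent.S52.H621

end
-- ===== PACK-END S52/H621/RatDegComp.lean

-- ===== PACK-BEGIN S55/Bridge/Cyclo.lean
section


/-!
# S55 bridge, part B2b: the mod `p` cyclotomic character is unramified outside `p`,
and `M.dualTwist (cycloChar p)` inherits smoothness and unramifiedness from `M`.
-/

set_option autoImplicit false

namespace Fermat.Agent.S55.Bridge

open ExtCitation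

section inertia

variable (A : ValuationSubring (AlgebraicClosure ℚ))

/-- Elements of the inertia group act trivially on the residue field. -/
theorem inertia_val_sub_lt_one {σ : AlgebraicClosure ℚ ≃ₐ[ℚ] AlgebraicClosure ℚ}
    (hσ : σ ∈ A.inertiaSubgroupIn ℚ) (z : AlgebraicClosure ℚ)
    (hz : A.valuation z ≤ 1) : A.valuation (σ z - z) < 1 := by
  obtain ⟨g, hg, rfl⟩ := hσ
  have hzA : z ∈ A := (A.valuation_le_one_iff z).mp hz
  have h1 : MulSemiringAction.toRingAut (A.decompositionSubgroup ℚ)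
      (IsLocalRing.ResidueField A) g = 1 := hg
  have h2 : g • (IsLocalRing.residue A ⟨z, hzA⟩) = IsLocalRing.residue A ⟨z, hzA⟩ := by
    have := congrArg (fun f => f (IsLocalRing.residue A ⟨z, hzA⟩)) h1
    simpa using this
  rw [← IsLocalRing.ResidueField.residue_smul] at h2
  have h3 : (g • (⟨z, hzA⟩ : A)) - ⟨z, hzA⟩ ∈ IsLocalRing.maximalIdeal A := by
    rw [← Ideal.Quotient.eq]
    exact h2
  rw [ValuationSubring.valuation_lt_one_iff] at h3
  exact h3

variable {A}

theorem val_intCast_le_one (n : ℤ) : A.valuation (n : AlgebraicClosure ℚ) ≤ 1 :=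
  (A.valuation_le_one_iff _).mpr (intCast_mem A n)

/-- A prime `p ≠ q` is a unit at a place over `q`. -/
theorem val_prime_eq_one {q p : ℕ} (hq : A.LiesOverPrime q) (hqp : q.Prime) (hp : p.Prime)
    (hne : q ≠ p) : A.valuation (p : AlgebraicClosure ℚ) = 1 := by
  have hq' : A.valuation (q : AlgebraicClosure ℚ) < 1 := (A.mem_nonunits_iff).mp hq
  have hcop : IsCoprime (q : ℤ) (p : ℤ) := by
    rw [Int.isCoprime_iff_gcd_eq_one, Int.gcd_natCast_natCast]
    exact (Nat.coprime_primes hqp hp).2 hne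
  obtain ⟨u, w, huw⟩ := hcop
  have h1 : (u : AlgebraicClosure ℚ) * (q : AlgebraicClosure ℚ)
      + (w : AlgebraicClosure ℚ) * (p : AlgebraicClosure ℚ) = 1 := by
    exact_mod_cast congrArg (Int.cast : ℤ → AlgebraicClosure ℚ) huw
  have hsmall : A.valuation ((u : AlgebraicClosure ℚ) * (q : AlgebraicClosure ℚ)) < 1 := by
    rw [map_mul]
    exact (mul_le_of_le_one_left' (val_intCast_le_one u)).trans_lt hq'
  have hwn : A.valuation ((w : AlgebraicClosure ℚ) * (p : AlgebraicClosure ℚ)) = 1 := by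
    have : (w : AlgebraicClosure ℚ) * (p : AlgebraicClosure ℚ)
        = 1 + -((u : AlgebraicClosure ℚ) * (q : AlgebraicClosure ℚ)) := by linear_combination h1
    rw [this, (A.valuation).map_add_eq_of_lt_left
      (by rw [Valuation.map_neg, map_one]; exact hsmall), map_one]
  rw [map_mul] at hwn
  have hp1 : A.valuation (p : AlgebraicClosure ℚ) ≤ 1 := by
    have := val_intCast_le_one (A := A) (p : ℤ)
    simpa using this
  refine le_antisymm hp1 ?_
  calc (1 : A.ValueGroup)
      = A.valuation (w : AlgebraicClosure ℚ) * A.valuation (p : AlgebraicClosure ℚ) := hwn.symm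
    _ ≤ 1 * A.valuation (p : AlgebraicClosure ℚ) := mul_le_mul_left (val_intCast_le_one w) _
    _ = A.valuation (p : AlgebraicClosure ℚ) := one_mul _

/-- A nontrivial `p`-th root of unity `η` has `v (1 - η) = 1` at places where `p` is a unit. -/
theorem val_one_sub_root_eq_one {p : ℕ} (hpv : A.valuation (p : AlgebraicClosure ℚ) = 1)
    {η : AlgebraicClosure ℚ} (hη : η ^ p = 1) (hη1 : η ≠ 1) (hηA : η ∈ A) :
    A.valuation (1 - η) = 1 := by
  -- work in the ring `A`
  let e : A := ⟨η, hηA⟩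
  have hdvd : (1 : A) - e ∣ ((∑ i ∈ Finset.range p, (Polynomial.X : Polynomial A) ^ i).eval 1
      - (∑ i ∈ Finset.range p, (Polynomial.X : Polynomial A) ^ i).eval e) :=
    Polynomial.sub_dvd_eval_sub 1 e _
  have hsum : ∑ i ∈ Finset.range p, η ^ i = 0 := by
    have h := geom_sum_mul η p
    rw [hη, sub_self] at h
    rcases mul_eq_zero.1 h with h | h
    · exact h
    · exact absurd (sub_eq_zero.1 h) hη1
  have hsumA : ∑ i ∈ Finset.range p, e ^ i = 0 := by
    apply Subtype.ext
    simpa [e] using hsum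
  have heval1 : (∑ i ∈ Finset.range p, (Polynomial.X : Polynomial A) ^ i).eval 1 = (p : A) := by
    simp [Polynomial.eval_finsetSum]
  have hevale : (∑ i ∈ Finset.range p, (Polynomial.X : Polynomial A) ^ i).eval e = 0 := by
    simpa [Polynomial.eval_finsetSum] using hsumA
  rw [heval1, hevale, sub_zero] at hdvd
  obtain ⟨y, hy⟩ := hdvd
  have hy' : (p : AlgebraicClosure ℚ) = (1 - η) * (y : AlgebraicClosure ℚ) := by
    have := congrArg (fun a : A => (a : AlgebraicClosure ℚ)) hy
    simpa [e] using this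
  have hle : A.valuation (1 - η) ≤ 1 :=
    (A.valuation_le_one_iff _).mpr (A.sub_mem A.one_mem hηA)
  refine le_antisymm hle ?_
  have hyv : A.valuation (y : AlgebraicClosure ℚ) ≤ 1 := A.valuation_le_one y
  calc (1 : A.ValueGroup) = A.valuation (p : AlgebraicClosure ℚ) := hpv.symm
    _ = A.valuation (1 - η) * A.valuation (y : AlgebraicClosure ℚ) := by rw [hy', map_mul]
    _ ≤ A.valuation (1 - η) * 1 := mul_le_mul_right hyv _
    _ = A.valuation (1 - η) := mul_one _

/-- Two distinct `p`-th roots of unity stay distinct in the residue field at places where `p`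
is a unit. -/
theorem val_sub_roots_eq_one {p : ℕ} (hp0 : p ≠ 0)
    (hpv : A.valuation (p : AlgebraicClosure ℚ) = 1)
    {a b : AlgebraicClosure ℚ} (ha : a ^ p = 1) (hb : b ^ p = 1) (hab : a ≠ b) :
    A.valuation (a - b) = 1 := by
  have hb0 : b ≠ 0 := by
    rintro rfl
    rw [zero_pow hp0] at hb
    exact zero_ne_one hb
  have hvb : A.valuation b = 1 := by
    have h : (A.valuation b) ^ p = 1 := by rw [← map_pow, hb, map_one]
    exact (pow_eq_one_iff.1 h).resolve_right hp0
  have hva : A.valuation a = 1 := by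
    have h : (A.valuation a) ^ p = 1 := by rw [← map_pow, ha, map_one]
    exact (pow_eq_one_iff.1 h).resolve_right hp0
  have hη : (a / b) ^ p = 1 := by rw [div_pow, ha, hb, div_one]
  have hη1 : a / b ≠ 1 := by
    intro h
    exact hab ((div_eq_one_iff_eq hb0).1 h)
  have hηA : a / b ∈ A := by
    rw [← A.valuation_le_one_iff, map_div₀, hva, hvb, div_one]
  have h1 := val_one_sub_root_eq_one hpv hη hη1 hηA
  have : a - b = -(b * (1 - a / b)) := by
    field_simp
    ring
  rw [this, Valuation.map_neg, map_mul, hvb, h1, one_mul]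

end inertia

section cyclo

variable (p : ℕ) [Fact p.Prime]

/-- Defining property of `cycloChar`. -/
theorem cycloChar_spec (σ : AlgebraicClosure ℚ ≃ₐ[ℚ] AlgebraicClosure ℚ)
    {t : (AlgebraicClosure ℚ)ˣ} (ht : t ∈ rootsOfUnity p (AlgebraicClosure ℚ)) :
    σ (t : AlgebraicClosure ℚ)
      = (t : AlgebraicClosure ℚ) ^ ((cycloChar p σ : (ZMod p)ˣ) : ZMod p).val := by
  haveI : NeZero p := ⟨(Fact.out : p.Prime).ne_zero⟩
  have h := modularCyclotomicCharacter.spec (AlgebraicClosure ℚ) (card_rootsOfUnity_eq_self p)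
    (σ : AlgebraicClosure ℚ ≃+* AlgebraicClosure ℚ) ht
  exact h

/-- If `σ` fixes all `p`-th roots of unity then `cycloChar p σ = 1`. -/
theorem cycloChar_eq_one_of_fixes (σ : AlgebraicClosure ℚ ≃ₐ[ℚ] AlgebraicClosure ℚ)
    (hσ : ∀ t : (AlgebraicClosure ℚ)ˣ, t ∈ rootsOfUnity p (AlgebraicClosure ℚ) →
      σ (t : AlgebraicClosure ℚ) = t) : cycloChar p σ = 1 := by
  haveI : NeZero p := ⟨(Fact.out : p.Prime).ne_zero⟩
  haveI : Fact (1 < p) := ⟨(Fact.out : p.Prime).one_lt⟩
  have h := modularCyclotomicCharacter.unique (AlgebraicClosure ℚ) (card_rootsOfUnity_eq_self p)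
    (σ : AlgebraicClosure ℚ ≃+* AlgebraicClosure ℚ) (c := 1)
    (fun t ht => by rw [ZMod.val_one, pow_one]; exact hσ t ht)
  apply Units.ext
  exact h.symm

/-- `cycloChar p σ = 1` iff `σ` fixes all `p`-th roots of unity. -/
theorem cycloChar_eq_one_iff (σ : AlgebraicClosure ℚ ≃ₐ[ℚ] AlgebraicClosure ℚ) :
    cycloChar p σ = 1 ↔ ∀ t : (AlgebraicClosure ℚ)ˣ, t ∈ rootsOfUnity p (AlgebraicClosure ℚ) →
      σ (t : AlgebraicClosure ℚ) = t := by
  haveI : Fact (1 < p) := ⟨(Fact.out : p.Prime).one_lt⟩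
  refine ⟨fun h t ht => ?_, cycloChar_eq_one_of_fixes p σ⟩
  rw [cycloChar_spec p σ ht, h, Units.val_one, ZMod.val_one, pow_one]

/-- **B2b.** The mod `p` cyclotomic character is unramified at every prime `q ≠ p`. -/
theorem cycloChar_eq_one_of_mem_inertia {q : ℕ} (hq : q.Prime) (hqp : q ≠ p)
    (A : ValuationSubring (AlgebraicClosure ℚ)) (hA : A.LiesOverPrime q)
    (σ : AlgebraicClosure ℚ ≃ₐ[ℚ] AlgebraicClosure ℚ) (hσ : σ ∈ A.inertiaSubgroupIn ℚ) :
    cycloChar p σ = 1 := by
  have hp : p.Prime := Fact.out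
  apply cycloChar_eq_one_of_fixes
  intro t ht
  have htp : (t : AlgebraicClosure ℚ) ^ p = 1 := by
    have := (mem_rootsOfUnity p t).1 ht
    rw [← Units.val_pow_eq_pow_val, this, Units.val_one]
  by_contra hne
  have hpv := val_prime_eq_one (A := A) hA hq hp hqp
  have hσt : (σ (t : AlgebraicClosure ℚ)) ^ p = 1 := by rw [← map_pow, htp, map_one]
  have h1 := val_sub_roots_eq_one (A := A) hp.ne_zero hpv hσt htp hne
  have hvt : A.valuation (t : AlgebraicClosure ℚ) ≤ 1 := by
    have h : (A.valuation (t : AlgebraicClosure ℚ)) ^ p = 1 := by rw [← map_pow, htp, map_one]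
    exact ((pow_eq_one_iff.1 h).resolve_right hp.ne_zero).le
  have h2 := inertia_val_sub_lt_one A hσ t hvt
  rw [h1] at h2
  exact lt_irrefl _ h2

end cyclo

end Fermat.Agent.S55.Bridge

end
-- ===== PACK-END S55/Bridge/Cyclo.lean

-- ===== PACK-BEGIN S05/CompXY.lean
section




/-!
# The component map on coordinates, and its multiplicativity on collinear triples
-/

set_option autoImplicit false

namespace Fermat.Agent.S05.Comp

variable {K : Type*} [Field K] {Γ₀ : Type*} [LinearOrderedCommGroupWithZero Γ₀]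

/-- The unit of `Γ₀` attached to a (possibly zero) element; junk value `1` at `0`. -/
noncomputable def toU (g : Γ₀) : Γ₀ˣ := if h : g = 0 then 1 else Units.mk0 g h

lemma toU_coe {g : Γ₀} (h : g ≠ 0) : ((toU g : Γ₀ˣ) : Γ₀) = g := by
  simp [toU, h]

lemma toU_mul {a b : Γ₀} (ha : a ≠ 0) (hb : b ≠ 0) : toU (a * b) = toU a * toU b := by
  apply Units.ext
  rw [Units.val_mul, toU_coe ha, toU_coe hb, toU_coe (mul_ne_zero ha hb)]

lemma toU_pow {a : Γ₀} (ha : a ≠ 0) (k : ℕ) : toU (a ^ k) = toU a ^ k := by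
  apply Units.ext
  rw [Units.val_pow_eq_pow_val, toU_coe ha, toU_coe (pow_ne_zero k ha)]

lemma toU_one : toU (1 : Γ₀) = 1 := by
  apply Units.ext
  rw [toU_coe one_ne_zero, Units.val_one]

variable (v : Valuation K Γ₀)

/-- The component group `Γ₀ˣ / ⟨v(α)²⟩`. -/
abbrev CompGroup (α : K) : Type _ := Γ₀ˣ ⧸ Subgroup.zpowers (toU (v α) ^ 2)

/-- The class of an element of `Γ₀` in the component group. -/
noncomputable def cls (α : K) (g : Γ₀) : CompGroup v α := QuotientGroup.mk (toU g)

lemma cls_mul (α : K) {a b : Γ₀} (ha : a ≠ 0) (hb : b ≠ 0) :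
    cls v α (a * b) = cls v α a * cls v α b := by
  rw [cls, toU_mul ha hb]; rfl

lemma cls_one (α : K) : cls v α 1 = 1 := by
  rw [cls, toU_one]; rfl

lemma cls_alpha_sq (α : K) (hα0 : α ≠ 0) : cls v α (v α ^ 2) = 1 := by
  have h0 : v α ≠ 0 := (Valuation.ne_zero_iff v).mpr hα0
  rw [cls, toU_pow h0]
  exact (QuotientGroup.eq_one_iff _).mpr (Subgroup.mem_zpowers _)

lemma cls_alpha_mul_self (α : K) (hα0 : α ≠ 0) : cls v α (v α) * cls v α (v α) = 1 := by
  have h0 : v α ≠ 0 := (Valuation.ne_zero_iff v).mpr hα0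
  rw [← cls_mul v α h0 h0, ← pow_two, cls_alpha_sq v α hα0]

lemma cls_alpha_inv (α : K) (hα0 : α ≠ 0) : (cls v α (v α))⁻¹ = cls v α (v α) :=
  inv_eq_of_mul_eq_one_left (cls_alpha_mul_self v α hα0)

/-- The component of a point with coordinates `(x, y)` on `y² = x (x - α) (x - β)`,
relative to the branch `y ≡ γ x`. -/
noncomputable def compXY (α γ : K) (x y : K) : CompGroup v α :=
  if 1 ≤ v x then 1
  else if v x ≤ v α then cls v α (v α)
  else if v (y - γ * x) < v x then cls v α (v x)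
  else (cls v α (v x))⁻¹

variable {v}
variable {α β γ x₁ y₁ x₂ y₂ x₃ y₃ l n : K}

lemma compXY_of_Z {x y : K} (h : 1 ≤ v x) : compXY v α γ x y = 1 := by
  simp [compXY, h]

lemma compXY_of_M {x y : K} (hα : v α < 1) (h : v x ≤ v α) :
    compXY v α γ x y = cls v α (v α) := by
  have : ¬ 1 ≤ v x := not_le.mpr (h.trans_lt hα)
  simp [compXY, this, h]

lemma compXY_of_P {x y : K} (hlo : v α < v x) (hhi : v x < 1)
    (hP : v (y - γ * x) < v x) : compXY v α γ x y = cls v α (v x) := by
  simp [compXY, not_le.mpr hhi, not_le.mpr hlo, hP]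

lemma compXY_of_N {x y : K} (h2 : v 2 = 1) (hβ : v β = 1) (hγ : γ ^ 2 = -β)
    (hlo : v α < v x) (hhi : v x < 1)
    (hN : v (y - (-γ) * x) < v x) : compXY v α γ x y = (cls v α (v x))⁻¹ := by
  have hP : ¬ v (y - γ * x) < v x := fun hP => sign_exclusive h2 hβ hγ ⟨hP, hN⟩
  simp [compXY, not_le.mpr hhi, not_le.mpr hlo, hP]

/-- The four types of points. -/
lemma compXY_cases {x y : K} (h2 : v 2 = 1) (hα : v α < 1) (hβ : v β = 1) (hγ : γ ^ 2 = -β)
    (hE : y ^ 2 = x * (x - α) * (x - β)) :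
    (1 ≤ v x ∧ compXY v α γ x y = 1) ∨
    (v x ≤ v α ∧ compXY v α γ x y = cls v α (v α)) ∨
    (v α < v x ∧ v x < 1 ∧ v (y - γ * x) < v x ∧ compXY v α γ x y = cls v α (v x)) ∨
    (v α < v x ∧ v x < 1 ∧ v (y - (-γ) * x) < v x ∧
      compXY v α γ x y = (cls v α (v x))⁻¹) := by
  rcases le_or_gt 1 (v x) with hZ | hhi
  · exact Or.inl ⟨hZ, compXY_of_Z hZ⟩
  rcases le_or_gt (v x) (v α) with hM | hlo
  · exact Or.inr (Or.inl ⟨hM, compXY_of_M hα hM⟩)
  rcases sign_exists hα hβ hγ hE hlo hhi with hP | hN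
  · exact Or.inr (Or.inr (Or.inl ⟨hlo, hhi, hP, compXY_of_P hlo hhi hP⟩))
  · exact Or.inr (Or.inr (Or.inr ⟨hlo, hhi, hN, compXY_of_N h2 hβ hγ hlo hhi hN⟩))

lemma neg_gamma_sq (hγ : γ ^ 2 = -β) : (-γ) ^ 2 = -β := by rw [neg_sq, hγ]

/-- Two points at the node, third away: the components cancel. -/
lemma core_two (h : Coll α β x₁ y₁ x₂ y₂ x₃ y₃ l n) (h2 : v 2 = 1) (hα : v α < 1)
    (hα0 : α ≠ 0) (hβ : v β = 1) (hγ : γ ^ 2 = -β)
    (h1 : v x₁ < 1) (h2' : v x₂ < 1) (h3 : 1 ≤ v x₃) :
    compXY v α γ x₁ y₁ * compXY v α γ x₂ y₂ = 1 := by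
  have hμ : 0 < v α := by rw [Valuation.pos_iff]; exact hα0
  rcases compXY_cases h2 hα hβ hγ h.E1 with ⟨hZ, -⟩ | ⟨hM1, e1⟩ | ⟨hlo1, hhi1, hP1, e1⟩ |
    ⟨hlo1, hhi1, hN1, e1⟩
  · exact absurd hZ (not_le.mpr h1)
  · rcases compXY_cases h2 hα hβ hγ h.E2 with ⟨hZ, -⟩ | ⟨hM2, e2⟩ | ⟨hlo2, hhi2, hP2, e2⟩ |
      ⟨hlo2, hhi2, hN2, e2⟩
    · exact absurd hZ (not_le.mpr h2')
    · rw [e1, e2]; exact cls_alpha_mul_self v α hα0
    · exact (factD h h2 hα hβ (hM1.trans_lt hlo2) (h1.trans_le h3) (hhi2.le.trans h3) h3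
        (hlo2.trans_le (le_mul_of_one_le_right (hμ.trans hlo2).le h3))).elim
    · exact (factD h h2 hα hβ (hM1.trans_lt hlo2) (h1.trans_le h3) (hhi2.le.trans h3) h3
        (hlo2.trans_le (le_mul_of_one_le_right (hμ.trans hlo2).le h3))).elim
  all_goals
    rcases compXY_cases h2 hα hβ hγ h.E2 with ⟨hZ, -⟩ | ⟨hM2, e2⟩ | ⟨hlo2, hhi2, hP2, e2⟩ |
      ⟨hlo2, hhi2, hN2, e2⟩
    · exact absurd hZ (not_le.mpr h2')
    · exact (factD h.swap12 h2 hα hβ (hM2.trans_lt hlo1) (h2'.trans_le h3) (hhi1.le.trans h3) h3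
        (hlo1.trans_le (le_mul_of_one_le_right (hμ.trans hlo1).le h3))).elim
  all_goals
    have h12 : v x₁ = v x₂ := by
      rcases lt_trichotomy (v x₁) (v x₂) with hlt | heq | hgt
      · exact (factD h h2 hα hβ hlt (h1.trans_le h3) (hhi2.le.trans h3) h3
          (hlo2.trans_le (le_mul_of_one_le_right (hμ.trans hlo2).le h3))).elim
      · exact heq
      · exact (factD h.swap12 h2 hα hβ hgt (h2'.trans_le h3) (hhi1.le.trans h3) h3
          (hlo1.trans_le (le_mul_of_one_le_right (hμ.trans hlo1).le h3))).elim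
    have hx1 : x₁ ≠ 0 := (Valuation.ne_zero_iff v).mp (hμ.trans hlo1).ne'
  · exact (factBsign h h2 hα hβ hγ h12 h1 hx1 h3 hP1 hP2).elim
  · rw [e1, e2, h12]; exact mul_inv_cancel _
  · rw [e1, e2, h12]; exact inv_mul_cancel _
  · exact (factBsign h h2 hα hβ (neg_gamma_sq hγ) h12 h1 hx1 h3 hN1 hN2).elim


/-- All three points at the node, the first one in the `M`-range. -/
lemma core_three_M (h : Coll α β x₁ y₁ x₂ y₂ x₃ y₃ l n) (h2 : v 2 = 1) (hα : v α < 1)
    (hα0 : α ≠ 0) (hβ : v β = 1) (hγ : γ ^ 2 = -β)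
    (h1 : v x₁ ≤ v α) (h2' : v x₂ < 1) (h3 : v x₃ < 1) :
    compXY v α γ x₁ y₁ * compXY v α γ x₂ y₂ * compXY v α γ x₃ y₃ = 1 := by
  have hμ : 0 < v α := by rw [Valuation.pos_iff]; exact hα0
  have e1 : compXY v α γ x₁ y₁ = cls v α (v α) := compXY_of_M hα h1
  rcases compXY_cases h2 hα hβ hγ h.E2 with ⟨hZ, -⟩ | ⟨hM2, e2⟩ | ⟨hlo2, hhi2, hP2, e2⟩ |
    ⟨hlo2, hhi2, hN2, e2⟩
  · exact absurd hZ (not_le.mpr h2')
  · exact (factMMmid h h2 hα hα0 hβ h1 hM2 h3).elim
  all_goals
    rcases compXY_cases h2 hα hβ hγ h.E3 with ⟨hZ, -⟩ | ⟨hM3, e3⟩ | ⟨hlo3, hhi3, hP3, e3⟩ |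
      ⟨hlo3, hhi3, hN3, e3⟩
    · exact absurd hZ (not_le.mpr h3)
    · exact (factMMmid h.swap23 h2 hα hα0 hβ h1 hM3 h2').elim
  all_goals
    have hval := factA'_val h h2 hα hα0 hβ h1 hlo2 hhi2 hlo3 hhi3
    have hne2 : v x₂ ≠ 0 := (hμ.trans hlo2).ne'
    have hne3 : v x₃ ≠ 0 := (hμ.trans hlo3).ne'
  · rw [e1, e2, e3, mul_assoc, ← cls_mul v α hne2 hne3, hval]
    exact cls_alpha_mul_self v α hα0
  · exact (factA'_sign h h2 hα hβ hγ h1 hlo2 hhi2 hlo3 hhi3 hP2 hN3).elim
  · exact (factA'_sign h h2 hα hβ (neg_gamma_sq hγ) h1 hlo2 hhi2 hlo3 hhi3 hN2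
      (by rwa [neg_neg])).elim
  · rw [e1, e2, e3, mul_assoc, ← mul_inv, ← cls_mul v α hne2 hne3, hval]
    exact mul_inv_cancel _

/-- All three points in the middle range. -/
lemma core_three_mid (h : Coll α β x₁ y₁ x₂ y₂ x₃ y₃ l n) (h2 : v 2 = 1) (hα : v α < 1)
    (hα0 : α ≠ 0) (hβ : v β = 1) (hγ : γ ^ 2 = -β)
    (h1lo : v α < v x₁) (h1hi : v x₁ < 1)
    (h2lo : v α < v x₂) (h2hi : v x₂ < 1) (h3lo : v α < v x₃) (h3hi : v x₃ < 1) :
    compXY v α γ x₁ y₁ * compXY v α γ x₂ y₂ * compXY v α γ x₃ y₃ = 1 := by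
  have hμ : 0 < v α := by rw [Valuation.pos_iff]; exact hα0
  have hne1 : v x₁ ≠ 0 := (hμ.trans h1lo).ne'
  have hne2 : v x₂ ≠ 0 := (hμ.trans h2lo).ne'
  have hne3 : v x₃ ≠ 0 := (hμ.trans h3lo).ne'
  have hγ' := neg_gamma_sq hγ
  rcases sign_exists hα hβ hγ h.E1 h1lo h1hi with hP1 | hN1 <;>
  rcases sign_exists hα hβ hγ h.E2 h2lo h2hi with hP2 | hN2 <;>
  rcases sign_exists hα hβ hγ h.E3 h3lo h3hi with hP3 | hN3
  · -- PPP
    rw [compXY_of_P h1lo h1hi hP1, compXY_of_P h2lo h2hi hP2, compXY_of_P h3lo h3hi hP3,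
      ← cls_mul v α hne1 hne2, ← cls_mul v α (mul_ne_zero hne1 hne2) hne3,
      factA_same h h2 hα hβ hγ h1lo h1hi h2lo h2hi h3lo h3hi hP1 hP2 hP3]
    exact cls_alpha_sq v α hα0
  · -- PPN
    rw [compXY_of_P h1lo h1hi hP1, compXY_of_P h2lo h2hi hP2,
      compXY_of_N h2 hβ hγ h3lo h3hi hN3,
      factA_mixed h h2 hα hβ hγ h1lo h1hi h2lo h2hi h3lo h3hi hP1 hP2 hN3,
      ← cls_mul v α hne1 hne2]
    exact mul_inv_cancel _
  · -- PNP
    rw [compXY_of_P h1lo h1hi hP1, compXY_of_N h2 hβ hγ h2lo h2hi hN2,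
      compXY_of_P h3lo h3hi hP3,
      factA_mixed h.swap23 h2 hα hβ hγ h1lo h1hi h3lo h3hi h2lo h2hi hP1 hP3 hN2,
      cls_mul v α hne1 hne3, mul_right_comm]
    exact mul_inv_cancel _
  · -- PNN
    have := factA_mixed h.rot h2 hα hβ hγ' h2lo h2hi h3lo h3hi h1lo h1hi hN2 hN3
      (by rwa [neg_neg])
    rw [compXY_of_P h1lo h1hi hP1, compXY_of_N h2 hβ hγ h2lo h2hi hN2,
      compXY_of_N h2 hβ hγ h3lo h3hi hN3, this, cls_mul v α hne2 hne3, mul_assoc, ← mul_inv]
    exact mul_inv_cancel _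
  · -- NPP
    have := factA_mixed h.rot h2 hα hβ hγ h2lo h2hi h3lo h3hi h1lo h1hi hP2 hP3 hN1
    rw [compXY_of_N h2 hβ hγ h1lo h1hi hN1, compXY_of_P h2lo h2hi hP2,
      compXY_of_P h3lo h3hi hP3, this, cls_mul v α hne2 hne3, mul_assoc]
    exact inv_mul_cancel _
  · -- NPN
    have := factA_mixed h.swap23 h2 hα hβ hγ' h1lo h1hi h3lo h3hi h2lo h2hi hN1 hN3
      (by rwa [neg_neg])
    rw [compXY_of_N h2 hβ hγ h1lo h1hi hN1, compXY_of_P h2lo h2hi hP2,
      compXY_of_N h2 hβ hγ h3lo h3hi hN3, this, cls_mul v α hne1 hne3, mul_right_comm,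
      ← mul_inv]
    exact inv_mul_cancel _
  · -- NNP
    have := factA_mixed h h2 hα hβ hγ' h1lo h1hi h2lo h2hi h3lo h3hi hN1 hN2
      (by rwa [neg_neg])
    rw [compXY_of_N h2 hβ hγ h1lo h1hi hN1, compXY_of_N h2 hβ hγ h2lo h2hi hN2,
      compXY_of_P h3lo h3hi hP3, this, cls_mul v α hne1 hne2, ← mul_inv]
    exact inv_mul_cancel _
  · -- NNN
    have := factA_same h h2 hα hβ hγ' h1lo h1hi h2lo h2hi h3lo h3hi hN1 hN2 hN3
    rw [compXY_of_N h2 hβ hγ h1lo h1hi hN1, compXY_of_N h2 hβ hγ h2lo h2hi hN2,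
      compXY_of_N h2 hβ hγ h3lo h3hi hN3, ← mul_inv, ← mul_inv,
      ← cls_mul v α hne1 hne2, ← cls_mul v α (mul_ne_zero hne1 hne2) hne3, this,
      cls_alpha_sq v α hα0, inv_one]

/-- **Core theorem**: the components of three collinear points multiply to `1`. -/
theorem compXY_mul (h : Coll α β x₁ y₁ x₂ y₂ x₃ y₃ l n) (h2 : v 2 = 1) (hα : v α < 1)
    (hα0 : α ≠ 0) (hβ : v β = 1) (hγ : γ ^ 2 = -β) :
    compXY v α γ x₁ y₁ * compXY v α γ x₂ y₂ * compXY v α γ x₃ y₃ = 1 := by
  rcases le_or_gt 1 (v x₁) with hZ1 | h1 <;>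
  rcases le_or_gt 1 (v x₂) with hZ2 | h2' <;>
  rcases le_or_gt 1 (v x₃) with hZ3 | h3
  · rw [compXY_of_Z hZ1, compXY_of_Z hZ2, compXY_of_Z hZ3]; simp
  · exact (factC h.swap13 h2 hα hβ h3 hZ2 hZ1).elim
  · exact (factC h.swap12 h2 hα hβ h2' hZ1 hZ3).elim
  · rw [compXY_of_Z hZ1, one_mul]
    exact core_two h.rot h2 hα hα0 hβ hγ h2' h3 hZ1
  · exact (factC h h2 hα hβ h1 hZ2 hZ3).elim
  · rw [compXY_of_Z hZ2, mul_one]
    exact core_two h.swap23 h2 hα hα0 hβ hγ h1 h3 hZ2
  · rw [compXY_of_Z hZ3, mul_one]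
    exact core_two h h2 hα hα0 hβ hγ h1 h2' hZ3
  · -- all three at the node
    rcases le_or_gt (v x₁) (v α) with hM1 | hlo1
    · exact core_three_M h h2 hα hα0 hβ hγ hM1 h2' h3
    rcases le_or_gt (v x₂) (v α) with hM2 | hlo2
    · have := core_three_M h.swap12 h2 hα hα0 hβ hγ hM2 h1 h3
      rw [mul_comm (compXY v α γ x₁ y₁)]; exact this
    rcases le_or_gt (v x₃) (v α) with hM3 | hlo3
    · have := core_three_M h.rot' h2 hα hα0 hβ hγ hM3 h1 h2'
      rw [mul_comm, ← mul_assoc]; exact this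
    exact core_three_mid h h2 hα hα0 hβ hγ hlo1 h1 hlo2 h2' hlo3 h3

end Fermat.Agent.S05.Comp

end
-- ===== PACK-END S05/CompXY.lean

-- ===== PACK-BEGIN S13/H11/FreyArith.lean
section




/-!
# S13 / T7 (helper11): `2`-adic arithmetic of the Frey curve

For a Frey package (`a ≡ 3 mod 4`, `b` even, `p ≥ 5`) and a valuation `w` on `ℚ` with `w 2 < 1`:
`a₂ ∈ ℤ`, `w a₄ = (w 2) ^ M` with `M = p β - 4 ≥ 1`, `β ≥ 1`, and `p ∤ 2 M`.
-/

set_option autoImplicit false

namespace Fermat.Agent.S13.H11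

variable (P : FreyPackage)

lemma frey_a_odd : Odd P.a := by
  rw [← Int.not_even_iff_odd]
  intro h
  obtain ⟨k, hk⟩ := h
  have h4 := P.ha4
  rw [hk] at h4
  push_cast at h4
  have : ∀ z : ZMod 4, z + z ≠ 3 := by decide
  exact this _ h4

lemma frey_b_even : Even P.b := by
  rw [even_iff_two_dvd]
  exact (ZMod.intCast_zmod_eq_zero_iff_dvd P.b 2).1 P.hb2

lemma frey_four_dvd : (4 : ℤ) ∣ P.b ^ P.p - 1 - P.a ^ P.p := by
  have h1 : (4 : ℤ) ∣ P.b ^ P.p := by
    obtain ⟨k, hk⟩ := even_iff_two_dvd.mp (frey_b_even P)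
    have hp : P.p = 2 + (P.p - 2) := by have := P.hp5; omega
    have h2p : (2 : ℤ) ^ P.p = 4 * 2 ^ (P.p - 2) := by
      conv_lhs => rw [hp, pow_add]
      norm_num
    rw [hk, mul_pow, h2p]
    exact ⟨2 ^ (P.p - 2) * k ^ P.p, by ring⟩
  have h2 : (4 : ℤ) ∣ 1 + P.a ^ P.p := by
    apply (ZMod.intCast_zmod_eq_zero_iff_dvd (1 + P.a ^ P.p) 4).mp
    push_cast
    rw [P.ha4]
    have h3 : (3 : ZMod 4) = -1 := by decide
    rw [h3, P.hp_odd.neg_one_pow]
    ring
  have : P.b ^ P.p - 1 - P.a ^ P.p = P.b ^ P.p - (1 + P.a ^ P.p) := by ring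
  rw [this]
  exact dvd_sub h1 h2

/-- The `2`-adic valuation of `b` (as a bare natural number with its defining property). -/
lemma frey_b_decomp : ∃ (β : ℕ) (b' : ℤ), 1 ≤ β ∧ Odd b' ∧ P.b = 2 ^ β * b' := by
  obtain ⟨β, b', hb', hb⟩ := int_eq_two_pow_mul_odd P.hb0
  refine ⟨β, b', ?_, hb', hb⟩
  by_contra h
  have h0 : β = 0 := by omega
  subst h0
  rw [pow_zero, one_mul] at hb
  have := frey_b_even P
  rw [hb] at this
  exact (Int.not_even_iff_odd.mpr hb') this

lemma frey_a₂_eq : ∃ z : ℤ, P.freyCurve.a₂ = (z : ℚ) := by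
  obtain ⟨z, hz⟩ := frey_four_dvd P
  refine ⟨z, ?_⟩
  have : ((P.b : ℚ) ^ P.p - 1 - (P.a : ℚ) ^ P.p) = 4 * (z : ℚ) := by
    have := congrArg (Int.cast : ℤ → ℚ) hz
    push_cast at this
    exact this
  simp only [FreyPackage.freyCurve]
  rw [this]
  field_simp

lemma frey_a₁_eq : P.freyCurve.a₁ = 1 := rfl
lemma frey_a₃_eq : P.freyCurve.a₃ = 0 := rfl
lemma frey_a₆_eq : P.freyCurve.a₆ = 0 := rfl
lemma frey_a₄_eq : P.freyCurve.a₄ = -((P.a : ℚ) ^ P.p) * ((P.b : ℚ) ^ P.p) / 16 := rfl

lemma frey_a₄_ne_zero : P.freyCurve.a₄ ≠ 0 := by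
  rw [frey_a₄_eq]
  have ha : (P.a : ℚ) ≠ 0 := by exact_mod_cast P.ha0
  have hb : (P.b : ℚ) ≠ 0 := by exact_mod_cast P.hb0
  have := pow_ne_zero P.p ha
  have := pow_ne_zero P.p hb
  simp only [ne_eq, div_eq_zero_iff, mul_eq_zero, neg_eq_zero, not_or]
  refine ⟨⟨by assumption, by assumption⟩, by norm_num⟩

variable {Γ₀ : Type*} [LinearOrderedCommGroupWithZero Γ₀] {w : Valuation ℚ Γ₀}

lemma frey_val_a₂ : w P.freyCurve.a₂ ≤ 1 := by
  obtain ⟨z, hz⟩ := frey_a₂_eq P
  rw [hz]
  exact val_int_le_one w z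

/-- `w a₄ = (w 2) ^ (p β - 4)` where `β ≥ 1` is the `2`-adic valuation of `b`. -/
lemma frey_val_a₄ (h2 : w (2 : ℚ) < 1) :
    ∃ β : ℕ, 1 ≤ β ∧ w P.freyCurve.a₄ = w 2 ^ ((P.p : ℤ) * β - 4) := by
  obtain ⟨β, b', hβ, hb', hb⟩ := frey_b_decomp P
  refine ⟨β, hβ, ?_⟩
  have h20 : (2 : ℚ) ≠ 0 := by norm_num
  have hbq : (P.b : ℚ) = 2 ^ β * (b' : ℚ) := by
    have := congrArg (Int.cast : ℤ → ℚ) hb
    push_cast at this
    exact this
  have hwa : w ((P.a : ℚ) ^ P.p) = 1 := by
    rw [map_pow, val_odd_eq_one h2 (frey_a_odd P), one_pow]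
  have hwb' : w ((b' : ℚ) ^ P.p) = 1 := by
    rw [map_pow, val_odd_eq_one h2 hb', one_pow]
  have h16 : (16 : ℚ) = 2 ^ (4 : ℕ) := by norm_num
  rw [frey_a₄_eq, map_div₀, map_mul, Valuation.map_neg, hwa, one_mul, hbq, mul_pow, map_mul,
    hwb', mul_one, h16, map_pow, map_pow, map_pow, ← pow_mul, zpow_sub₀ val_two_ne_zero]
  congr 1
  · rw [mul_comm]
    exact_mod_cast (zpow_natCast (w (2 : ℚ)) (P.p * β)).symm
  · exact_mod_cast (zpow_natCast (w (2 : ℚ)) 4).symm

/-- `p` is prime to `2 M` for `M = p β - 4`. -/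
lemma frey_not_dvd (β : ℤ) : ¬ ((P.p : ℤ) ∣ 2 * ((P.p : ℤ) * β - 4)) := by
  intro h
  have h8 : (P.p : ℤ) ∣ 8 := by
    have h1 : (P.p : ℤ) ∣ 2 * ((P.p : ℤ) * β) := Dvd.intro (2 * β) (by ring)
    have := dvd_sub h1 h
    have e : 2 * ((P.p : ℤ) * β) - 2 * ((P.p : ℤ) * β - 4) = 8 := by ring
    rwa [e] at this
  have h8' : P.p ∣ 8 := by exact_mod_cast h8
  have h2 : P.p ∣ 2 := P.pp.dvd_of_dvd_pow (n := 3) (by norm_num; exact h8')
  have hle : P.p ≤ 2 := Nat.le_of_dvd (by norm_num) h2
  have h5 := P.hp5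
  omega

/-- The arithmetic contradiction: `0 < ξ < M`, `p ξ = 2 M j` is impossible. -/
lemma frey_arith_contra (β ξ j : ℤ) (h0 : 0 < ξ) (h1 : ξ < (P.p : ℤ) * β - 4)
    (h : (P.p : ℤ) * ξ = 2 * ((P.p : ℤ) * β - 4) * j) : False := by
  have hp : Prime (P.p : ℤ) := Nat.prime_iff_prime_int.mp P.pp
  have hdvd : (P.p : ℤ) ∣ 2 * ((P.p : ℤ) * β - 4) * j := Dvd.intro _ h
  rcases hp.dvd_or_dvd hdvd with h' | h'
  · exact frey_not_dvd P β h'
  · obtain ⟨j', rfl⟩ := h'
    have hp0 : (P.p : ℤ) ≠ 0 := by exact_mod_cast P.hp0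
    have hξ : ξ = 2 * ((P.p : ℤ) * β - 4) * j' := by
      apply mul_left_cancel₀ hp0
      rw [h]; ring
    have hM : 0 < (P.p : ℤ) * β - 4 := lt_trans h0 h1
    rcases lt_trichotomy j' 0 with hj | hj | hj
    · have : 2 * ((P.p : ℤ) * β - 4) * j' < 0 :=
        mul_neg_of_pos_of_neg (by linarith) hj
      linarith
    · subst hj; simp at hξ; omega
    · have : 2 * ((P.p : ℤ) * β - 4) * 1 ≤ 2 * ((P.p : ℤ) * β - 4) * j' :=
        mul_le_mul_of_nonneg_left (by omega) (by linarith)
      linarith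

end Fermat.Agent.S13.H11

end
-- ===== PACK-END S13/H11/FreyArith.lean

-- ===== PACK-BEGIN S59/H899/ZModel.lean
section





/-!
# Row S59, layer E (helper899): an integral Weierstrass model over `ℚ̄` with a place

Vocabulary shared by the pieces CR-U / CR-O: for `W : WeierstrassCurve ℤ` and a valuation
subring `A` of `ℚ̄`,

* `coeff lemmas` : the coefficients of `(W.map (Int.castRingHom ℚ))⁄ℚ̄` are the integers `W.aᵢ`;
* `integralCoeffs W A` : they are `A`-integral;
* `val_intCast_eq_one`, `val_intCast_lt_one` : valuations of integers at a place over `ℓ`;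
* `inertia_val_sub_lt_one`, `decomp_val_eq` : the inertia group acts trivially on the residue
  field, the decomposition group preserves the valuation.
-/

set_option autoImplicit false

namespace Fermat.Agent.S59.H899

open WeierstrassCurve WeierstrassCurve.Affine
open scoped WeierstrassCurve.Affine
open Fermat.Agent.S05.SameRed

/-- `ℚ̄` -/
abbrev QbarH : Type := AlgebraicClosure ℚ

/-- `Gal(ℚ̄/ℚ)` -/
abbrev GalQH : Type := QbarH ≃ₐ[ℚ] QbarH

section valuation

variable (A : ValuationSubring QbarH)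

lemma val_intCast_le_one (n : ℤ) : A.valuation (n : QbarH) ≤ 1 :=
  (A.valuation_le_one_iff _).mpr (intCast_mem A n)

lemma val_natCast_le_one' (n : ℕ) : A.valuation (n : QbarH) ≤ 1 :=
  (A.valuation_le_one_iff _).mpr (natCast_mem A n)

variable {A}

/-- An integer divisible by `q` lies in the maximal ideal. -/
lemma val_intCast_lt_one {q : ℕ} (hq : A.LiesOverPrime q) {n : ℤ} (hn : (q : ℤ) ∣ n) :
    A.valuation (n : QbarH) < 1 := by
  obtain ⟨m, rfl⟩ := hn
  have hq' : A.valuation (q : QbarH) < 1 := (A.mem_nonunits_iff).mp hq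
  push_cast
  rw [map_mul]
  exact (mul_le_of_le_one_right' (val_intCast_le_one A m)).trans_lt hq'

/-- An integer prime to `q` is a unit. -/
lemma val_intCast_eq_one {q : ℕ} (hq : A.LiesOverPrime q) (hqp : q.Prime) {n : ℤ}
    (hn : ¬ (q : ℤ) ∣ n) : A.valuation (n : QbarH) = 1 := by
  have hq' : A.valuation (q : QbarH) < 1 := (A.mem_nonunits_iff).mp hq
  have hcop : IsCoprime (q : ℤ) n :=
    (Prime.coprime_iff_not_dvd (Nat.prime_iff_prime_int.mp hqp)).mpr hn
  obtain ⟨u, w, huw⟩ := hcop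
  have h1 : (u : QbarH) * (q : QbarH) + (w : QbarH) * (n : QbarH) = 1 := by
    exact_mod_cast congrArg (Int.cast : ℤ → QbarH) huw
  have hsmall : A.valuation ((u : QbarH) * (q : QbarH)) < 1 := by
    rw [map_mul]
    exact (mul_le_of_le_one_left' (val_intCast_le_one A u)).trans_lt hq'
  have hwn : A.valuation ((w : QbarH) * (n : QbarH)) = 1 := by
    have h2 : (w : QbarH) * (n : QbarH) = 1 - (u : QbarH) * (q : QbarH) := by
      rw [← h1]; ring
    rw [h2]
    have := A.valuation.map_sub_eq_of_lt_left (x := (1 : QbarH))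
      (y := (u : QbarH) * (q : QbarH)) (by rw [map_one]; exact hsmall)
    rw [this, map_one]
  rw [map_mul] at hwn
  refine le_antisymm (val_intCast_le_one A n) ?_
  by_contra hlt
  rw [not_le] at hlt
  have : A.valuation (w : QbarH) * A.valuation (n : QbarH) < 1 :=
    (mul_le_of_le_one_left' (val_intCast_le_one A w)).trans_lt hlt
  exact absurd hwn (ne_of_lt this)

/-- A natural number prime to `q` is a unit. -/
lemma val_natCast_eq_one {q : ℕ} (hq : A.LiesOverPrime q) (hqp : q.Prime) {n : ℕ}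
    (hn : ¬ q ∣ n) : A.valuation (n : QbarH) = 1 := by
  have := val_intCast_eq_one hq hqp (n := (n : ℤ)) (by exact_mod_cast hn)
  simpa using this

/-- Elements of the inertia group act trivially on the residue field. -/
lemma inertia_val_sub_lt_one {σ : GalQH} (hσ : σ ∈ A.inertiaSubgroupIn ℚ) (z : QbarH)
    (hz : A.valuation z ≤ 1) : A.valuation (σ z - z) < 1 := by
  obtain ⟨g, hg, rfl⟩ := hσ
  have hzA : z ∈ A := (A.valuation_le_one_iff z).mp hz
  have h1 : MulSemiringAction.toRingAut (A.decompositionSubgroup ℚ)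
      (IsLocalRing.ResidueField A) g = 1 := hg
  have h2 : g • (IsLocalRing.residue A ⟨z, hzA⟩) = IsLocalRing.residue A ⟨z, hzA⟩ := by
    have := congrArg (fun f => f (IsLocalRing.residue A ⟨z, hzA⟩)) h1
    simpa using this
  rw [← IsLocalRing.ResidueField.residue_smul] at h2
  have h3 : (g • (⟨z, hzA⟩ : A)) - ⟨z, hzA⟩ ∈ IsLocalRing.maximalIdeal A := by
    rw [← Ideal.Quotient.eq]
    exact h2
  rw [ValuationSubring.valuation_lt_one_iff] at h3
  exact h3

end valuation

section model

variable (W : WeierstrassCurve ℤ)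

/-- the curve over `ℚ̄` attached to the integral model `W` -/
noncomputable abbrev curveQbar : WeierstrassCurve.Affine QbarH := (W.map (Int.castRingHom ℚ))⁄QbarH

lemma curveQbar_a₁ : (curveQbar W).a₁ = ((W.a₁ : ℤ) : QbarH) := by
  simp [WeierstrassCurve.baseChange]

lemma curveQbar_a₂ : (curveQbar W).a₂ = ((W.a₂ : ℤ) : QbarH) := by
  simp [WeierstrassCurve.baseChange]

lemma curveQbar_a₃ : (curveQbar W).a₃ = ((W.a₃ : ℤ) : QbarH) := by
  simp [WeierstrassCurve.baseChange]

lemma curveQbar_a₄ : (curveQbar W).a₄ = ((W.a₄ : ℤ) : QbarH) := by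
  simp [WeierstrassCurve.baseChange]

lemma curveQbar_a₆ : (curveQbar W).a₆ = ((W.a₆ : ℤ) : QbarH) := by
  simp [WeierstrassCurve.baseChange]

lemma curveQbar_eq_map : curveQbar W = W.map (Int.castRingHom QbarH) := by
  ext <;> simp [WeierstrassCurve.baseChange]

lemma curveQbar_Δ : (curveQbar W).Δ = ((W.Δ : ℤ) : QbarH) := by
  rw [curveQbar_eq_map, WeierstrassCurve.map_Δ]; rfl

lemma curveQbar_c₄ : (curveQbar W).c₄ = ((W.c₄ : ℤ) : QbarH) := by
  rw [curveQbar_eq_map, WeierstrassCurve.map_c₄]; rfl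

lemma curveQbar_b₂ : (curveQbar W).b₂ = ((W.b₂ : ℤ) : QbarH) := by
  rw [curveQbar_eq_map, WeierstrassCurve.map_b₂]; rfl

lemma curveQbar_b₄ : (curveQbar W).b₄ = ((W.b₄ : ℤ) : QbarH) := by
  rw [curveQbar_eq_map, WeierstrassCurve.map_b₄]; rfl

lemma curveQbar_b₆ : (curveQbar W).b₆ = ((W.b₆ : ℤ) : QbarH) := by
  rw [curveQbar_eq_map, WeierstrassCurve.map_b₆]; rfl

lemma curveQbar_b₈ : (curveQbar W).b₈ = ((W.b₈ : ℤ) : QbarH) := by
  rw [curveQbar_eq_map, WeierstrassCurve.map_b₈]; rfl

/-- the coefficients of the integral model are integral at every place -/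
lemma integralCoeffs (A : ValuationSubring QbarH) :
    IntegralCoeffs (curveQbar W) A.valuation :=
  ⟨by rw [curveQbar_a₁]; exact val_intCast_le_one A _,
   by rw [curveQbar_a₂]; exact val_intCast_le_one A _,
   by rw [curveQbar_a₃]; exact val_intCast_le_one A _,
   by rw [curveQbar_a₄]; exact val_intCast_le_one A _,
   by rw [curveQbar_a₆]; exact val_intCast_le_one A _⟩

variable {W}

lemma val_Δ_eq_one_of_good {A : ValuationSubring QbarH} {ℓ : ℕ} (hℓ : ℓ.Prime)
    (hA : A.LiesOverPrime ℓ) (hgood : W.IsGoodPrimeFor ℓ) :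
    A.valuation (curveQbar W).Δ = 1 := by
  rw [curveQbar_Δ]
  exact val_intCast_eq_one hA hℓ hgood

lemma val_Δ_lt_one_of_bad {A : ValuationSubring QbarH} {ℓ : ℕ}
    (hA : A.LiesOverPrime ℓ) (hbad : ¬ W.IsGoodPrimeFor ℓ) :
    A.valuation (curveQbar W).Δ < 1 := by
  rw [curveQbar_Δ]
  exact val_intCast_lt_one hA (not_not.mp hbad)

lemma val_c₄_eq_one_of_semistable {A : ValuationSubring QbarH} {ℓ : ℕ} (hℓ : ℓ.Prime)
    (hA : A.LiesOverPrime ℓ) (hss : W.IsSemistableModel) (hbad : ¬ W.IsGoodPrimeFor ℓ) :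
    A.valuation (curveQbar W).c₄ = 1 := by
  rw [curveQbar_c₄]
  exact val_intCast_eq_one hA hℓ (hss ℓ hℓ (not_not.mp hbad))

end model

end Fermat.Agent.S59.H899

end
-- ===== PACK-END S59/H899/ZModel.lean

-- ===== PACK-BEGIN S29/DefsM.lean
section
/-
S29 row — FROZEN interface definitions for layer M (the torsion module).  Row-lead helper269.
Namespace `Fermat.Agent.S29`.  Do not edit; propose changes via a note kind='question' stmt='S29'.
-/



set_option autoImplicit false

noncomputable section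

namespace Fermat.Agent.S29

open ModularCurve AlgebraicCurve
open scoped TensorProduct MatrixGroups

/-! ### The `p`-torsion of `J₀(N)(ℚ̄)` (Prelude `JZero N`) with Hecke and Galois operators -/

section Jp

variable (N : ℕ) [NeZero N] (p : ℕ)

/-- `J₀(N)(ℚ̄)[p]` as a `ℤ`-submodule of the Prelude's `JZero N`. -/
abbrev Jp : Submodule ℤ (JZero N) := Submodule.torsionBy ℤ (JZero N) (p : ℤ)

/-- The Prelude Hecke operator `T_ℓ` restricted to `J₀(N)[p]`. -/
def heckeJp (ℓ : Nat.Primes) : Jp N p →ₗ[ℤ] Jp N p :=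
  (heckeOperatorBar N ℓ).restrict (p := Jp N p) (q := Jp N p) (fun x hx => by
    rw [Submodule.mem_torsionBy_iff] at hx ⊢
    rw [← map_smul, hx, map_zero])

@[simp] theorem coe_heckeJp (ℓ : Nat.Primes) (x : Jp N p) :
    ((heckeJp N p ℓ x : Jp N p) : JZero N) = heckeOperatorBar N ℓ (x : JZero N) := rfl

/-- The Galois action on `J₀(N)[p]`. -/
def galJp (σ : GQ) : Jp N p →ₗ[ℤ] Jp N p :=
  ((DistribSMul.toAddMonoidHom (JZero N) σ).toIntLinearMap).restrict
    (p := Jp N p) (q := Jp N p) (fun x hx => by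
    rw [Submodule.mem_torsionBy_iff] at hx ⊢
    rw [← map_smul, hx, map_zero])

omit [NeZero N] in
@[simp] theorem coe_galJp (σ : GQ) (x : Jp N p) :
    ((galJp N p σ x : Jp N p) : JZero N) = σ • (x : JZero N) := rfl

end Jp

/-! ### Parabolic additive characters of `Γ₀(N)` and the cohomological Hecke operator -/

section ParHom

variable (N : ℕ)

/-- The group `Γ₀(N)` as a type. -/
abbrev G0 : Type := ↥(CongruenceSubgroup.Gamma0 N)

/-- Integer matrix of an element of `Γ₀(N)`. -/
def G0.mat {N : ℕ} (γ : G0 N) : Matrix (Fin 2) (Fin 2) ℤ := ((γ : SL(2, ℤ)) : Matrix (Fin 2) (Fin 2) ℤ)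

/-- `c : Γ₀(N) → A` is an additive character vanishing on all elements of trace `±2`
(cusp stabilisers, `-1`) and on all torsion (elliptic) elements. -/
structure IsParHom {N : ℕ} {A : Type*} [AddCommGroup A] (c : G0 N → A) : Prop where
  map_mul : ∀ γ γ' : G0 N, c (γ * γ') = c γ + c γ'
  parabolic : ∀ γ : G0 N, (γ.mat.trace = 2 ∨ γ.mat.trace = -2) → c γ = 0
  elliptic : ∀ (γ : G0 N) (n : ℕ), 0 < n → γ ^ n = 1 → c γ = 0

/-- Coset representatives of `Γ₀(N) \ Γ₀(N) diag(1,ℓ) Γ₀(N)` (`ℓ ∤ N` prime):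
`none ↦ [[ℓ,0],[0,1]]`, `some b ↦ [[1,b],[0,ℓ]]`. -/
def heckeRep (ℓ : ℕ) : Option (Fin ℓ) → Matrix (Fin 2) (Fin 2) ℤ
  | none => !![(ℓ : ℤ), 0; 0, 1]
  | some b => !![1, ((b : ℕ) : ℤ); 0, (ℓ : ℤ)]

/-- `heckeRep i * γ = γ' * heckeRep j`. -/
def IsHeckeFactor {N : ℕ} (ℓ : ℕ) (γ : G0 N) (i : Option (Fin ℓ)) (q : Option (Fin ℓ) × G0 N) :
    Prop :=
  heckeRep ℓ i * γ.mat = q.2.mat * heckeRep ℓ q.1

open Classical in
/-- The (unique, for `ℓ ∤ N` prime) pair `(j, γ')` with `heckeRep i * γ = γ' * heckeRep j`. -/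
def heckeFac (ℓ : ℕ) (γ : G0 N) (i : Option (Fin ℓ)) : Option (Fin ℓ) × G0 N :=
  if h : ∃ q : Option (Fin ℓ) × G0 N, IsHeckeFactor ℓ γ i q then Classical.choose h else (i, 1)

/-- The cohomological Hecke operator on functions `Γ₀(N) → A`:
`(T_ℓ c)(γ) = ∑ᵢ c(γ'ᵢ)` where `αᵢ γ = γ'ᵢ α_{π(i)}`. -/
def heckeCoh {A : Type*} [AddCommMonoid A] (ℓ : ℕ) (c : G0 N → A) : G0 N → A :=
  fun γ => ∑ i : Option (Fin ℓ), c (heckeFac N ℓ γ i).2

end ParHom

/-! ### External input: the frozen statement S37 -/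

/-- The frozen statement S37 as a `Prop` (row S37 proves it as `Fermat.Agent.S37.result`). -/
def S37Statement : Prop :=
  ∀ (N p : ℕ) [NeZero N] (_ : ModularCurve.HeckeOperatorsCommuteBar N),
    letI := ModularCurve.heckeModuleBar N
    ∀ (_ : SMulCommClass GQ ModularCurve.HeckeAlg (ModularCurve.JZero N)),
      ModularCurve.SpecializationExists (K := ℚ) (L := AlgebraicClosure ℚ) N p
        (ModularCurve.JZero N)

end Fermat.Agent.S29

end
end
-- ===== PACK-END S29/DefsM.lean

-- ===== PACK-BEGIN Lib/Ribet/H223/Burnside2.lean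
section



/-!
# Burnside for two-dimensional odd representations over an arbitrary field (helper223, RIBET P2)

If `ρ : G → GL(W₀)`, `dim W₀ = 2`, `2 ≠ 0` in `k`, is irreducible over `k` and some `c ∈ G` acts as
an involution `≠ ± 1` (complex conjugation for an odd representation), then `k[G] → End_k(W₀)` is
surjective.  No algebraic closedness is needed.
-/

set_option autoImplicit false

namespace Fermat.Agent.Lib.Ribet.H223

open Module Fermat.Agent.S29.H872

variable {k : Type*} [Field k] {U : Type*} [AddCommGroup U] [Module k U]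

/-- Burnside's theorem from the Schur property `End_A(U) = k`. -/
theorem burnside_of_schur (A : Subalgebra k (Module.End k U)) [FiniteDimensional k U]
    [Nontrivial U]
    (hirr : ∀ W : Submodule k U, (∀ a ∈ A, W ≤ W.comap a) → W = ⊥ ∨ W = ⊤)
    (hschur : ∀ e : Module.End A U, ∃ c : k, ∀ u, e u = c • u) : A = ⊤ := by
  have : IsSimpleModule A U := isSimpleModule_of_irr A hirr
  have : Module.Finite (Module.End A U) U :=
    Module.Finite.of_restrictScalars_finite k (Module.End A U) U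
  have hdens := Module.Finite.toModuleEnd_moduleEnd_surjective (R := A) (M := U)
  rw [eq_top_iff]
  intro f _
  let f' : Module.End (Module.End A U) U :=
    { toFun := f
      map_add' := f.map_add
      map_smul' := fun e u => by
        obtain ⟨c, hc⟩ := hschur e
        simp only [Module.End.smul_def, RingHom.id_apply, hc, map_smul] }
  obtain ⟨a, ha⟩ := hdens f'
  have : (a : Module.End k U) = f := by
    ext u
    have := congrArg (fun g : Module.End (Module.End A U) U => g u) ha
    have h2 : a • u = f u := by simpa [f'] using this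
    exact h2
  rw [← this]
  exact a.2

/-- Schur property from an involution `C ∈ A`, `C ≠ ± 1`, in dimension two. -/
theorem schur_of_involution (h2 : Module.finrank k U = 2)
    (A : Subalgebra k (Module.End k U))
    (hirr : ∀ W : Submodule k U, (∀ a ∈ A, W ≤ W.comap a) → W = ⊥ ∨ W = ⊤)
    (C : Module.End k U) (hCA : C ∈ A) (hC : C * C = 1) (hC1 : C ≠ 1) (hC2 : C ≠ -1) :
    ∀ e : Module.End A U, ∃ c : k, ∀ u, e u = c • u := by
  have hfin : Module.Finite k U := Module.finite_of_finrank_eq_succ h2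
  have hnt : Nontrivial U := Module.nontrivial_of_finrank_pos (R := k) (by rw [h2]; norm_num)
  have hsimple : IsSimpleModule A U := isSimpleModule_of_irr A hirr
  intro e
  -- an eigenvector of `C` for the eigenvalue `1`
  have hex : ∃ x, (C + 1) x ≠ 0 := by
    by_contra hcon
    push Not at hcon
    apply hC2
    apply LinearMap.ext
    intro x
    have := hcon x
    rw [LinearMap.add_apply, Module.End.one_apply] at this
    rw [LinearMap.neg_apply, Module.End.one_apply]
    exact eq_neg_of_add_eq_zero_left this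
  obtain ⟨x, hx⟩ := hex
  set w := (C + 1) x with hw
  have hCw : C w = w := by
    rw [hw, LinearMap.add_apply, Module.End.one_apply, map_add, ← Module.End.mul_apply, hC,
      Module.End.one_apply, add_comm]
  -- the eigenspace is a line
  let K₁ : Submodule k U := LinearMap.ker (C - 1)
  have hwK : w ∈ K₁ := by
    rw [LinearMap.mem_ker, LinearMap.sub_apply, Module.End.one_apply, hCw, sub_self]
  have hK1 : K₁ ≠ ⊤ := by
    intro htop
    apply hC1
    apply LinearMap.ext
    intro u
    have : u ∈ K₁ := htop ▸ Submodule.mem_top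
    rw [LinearMap.mem_ker, LinearMap.sub_apply, sub_eq_zero] at this
    exact this
  have hrank : Module.finrank k K₁ = 1 := by
    have hlt : Module.finrank k K₁ < Module.finrank k U := Submodule.finrank_lt hK1
    have hpos : 0 < Module.finrank k K₁ := by
      rw [Module.finrank_pos_iff_exists_ne_zero]
      exact ⟨⟨w, hwK⟩, fun h => hx (congrArg Subtype.val h)⟩
    omega
  -- `e w ∈ K₁`
  have heC : ∀ u, e (C u) = C (e u) := by
    intro u
    have := e.map_smul (⟨C, hCA⟩ : A) u
    exact this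
  have hewK : e w ∈ K₁ := by
    rw [LinearMap.mem_ker, LinearMap.sub_apply, Module.End.one_apply, ← heC, hCw, sub_self]
  have hspan := (finrank_eq_one_iff_of_nonzero' (⟨w, hwK⟩ : K₁)
    (fun h => hx (congrArg Subtype.val h))).mp hrank ⟨e w, hewK⟩
  obtain ⟨α, hα⟩ := hspan
  have hα' : α • w = e w := congrArg Subtype.val hα
  -- `e - α` kills `w`, hence is zero
  let g : Module.End A U := e - algebraMap k (Module.End A U) α
  have hgw : g w = 0 := by
    change e w - (algebraMap k (Module.End A U) α) w = 0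
    rw [Module.algebraMap_end_apply, hα', sub_self]
  have hg0 : g = 0 := by
    rcases LinearMap.bijective_or_eq_zero g with hbij | h0
    · exact absurd (hbij.1 (hgw.trans (map_zero g).symm)) hx
    · exact h0
  refine ⟨α, fun u => ?_⟩
  have := congrArg (fun f : Module.End A U => f u) hg0
  change e u - (algebraMap k (Module.End A U) α) u = 0 at this
  rw [Module.algebraMap_end_apply, sub_eq_zero] at this
  exact this

/-- **Burnside in dimension two, odd case**: an irreducible two-dimensional representation in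
which some group element acts as an involution `≠ ± 1` generates the full endomorphism algebra. -/
theorem lift_surjective_of_involution {G : Type*} [Group G] (h2 : Module.finrank k U = 2)
    (ρ : G →* Module.End k U)
    (hirr : ∀ W : Submodule k U, (∀ g, W ≤ W.comap (ρ g)) → W = ⊥ ∨ W = ⊤)
    (c : G) (hc : ρ c * ρ c = 1) (hc1 : ρ c ≠ 1) (hc2 : ρ c ≠ -1) :
    Function.Surjective (MonoidAlgebra.lift k (Module.End k U) G ρ) := by
  have hfin : Module.Finite k U := Module.finite_of_finrank_eq_succ h2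
  have hnt : Nontrivial U := Module.nontrivial_of_finrank_pos (R := k) (by rw [h2]; norm_num)
  set A : Subalgebra k (Module.End k U) := (MonoidAlgebra.lift k (Module.End k U) G ρ).range
    with hA
  have hρA : ∀ g, ρ g ∈ A := fun g => ⟨MonoidAlgebra.of k G g, MonoidAlgebra.lift_of ρ g⟩
  have hirrA : ∀ W : Submodule k U, (∀ a ∈ A, W ≤ W.comap a) → W = ⊥ ∨ W = ⊤ :=
    fun W hW => hirr W (fun g => hW _ (hρA g))
  have htop : A = ⊤ :=
    burnside_of_schur A hirrA (schur_of_involution h2 A hirrA (ρ c) (hρA c) hc hc1 hc2)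
  rw [← AlgHom.range_eq_top]
  exact htop

end Fermat.Agent.Lib.Ribet.H223

end
-- ===== PACK-END Lib/Ribet/H223/Burnside2.lean

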