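import Mathlib
import Fermat.Statements.S21
import Fermat.Prelude.Def_CuspForm_IntegralStructure
import Fermat.Prelude.Def_FLTPrelim_Ramification
import Fermat.Prelude.Def_ModularCurve_GenusNumerics
import Fermat.Agent.Pack.S44C.G0E2L1

-- ===== PACK-BEGIN S21/H561/Weyl.lean
section


/-!
# Weyl's lemma for the Cauchy–Riemann operator (helper561)

If `g` is locally integrable on an open set `U ⊆ ℂ` and `∫ g · ∂η/∂z̄ = 0` for every real-valued
smooth compactly supported `η` with support in `U`, then `g` agrees a.e. on `U` with a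
holomorphic function.
-/

open MeasureTheory Complex Metric Set Filter Topology
open scoped Convolution ContDiff Real

namespace Fermat.Agent.S21.H561

noncomputable section

/-- The Wirtinger derivative `∂/∂z̄` of a real-valued function on `ℂ`. -/
def dbarR (η : ℂ → ℝ) (z : ℂ) : ℂ :=
  (1 / 2 : ℂ) * ((fderiv ℝ η z 1 : ℝ) + I * (fderiv ℝ η z I : ℝ))

/-- `g` is weakly holomorphic on `U`: it is orthogonal to `∂η/∂z̄` for every real test function
supported in `U`. -/
def WeakHolo (U : Set ℂ) (g : ℂ → ℂ) : Prop :=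
  ∀ η : ℂ → ℝ, ContDiff ℝ ∞ η → HasCompactSupport η → tsupport η ⊆ U →
    ∫ z, g z * dbarR η z = 0

/-- mollification of `G` by the real kernel `m`. -/
def mol (m : ℂ → ℝ) (G : ℂ → ℂ) (x : ℂ) : ℂ := ∫ t, m (x - t) • G t

/-- The bilinear map `(c, r) ↦ r • c`. -/
def smulFlip : ℂ →L[ℝ] ℝ →L[ℝ] ℂ := (ContinuousLinearMap.lsmul ℝ ℝ).flip

@[simp] lemma smulFlip_apply (c : ℂ) (r : ℝ) : smulFlip c r = r • c := rfl

lemma mol_eq_convolution (m : ℂ → ℝ) (G : ℂ → ℂ) :
    mol m G = G ⋆[smulFlip, volume] m := by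
  ext x
  simp [mol, convolution_def]

lemma mol_eq_convolution' (m : ℂ → ℝ) (G : ℂ → ℂ) :
    mol m G = m ⋆[ContinuousLinearMap.lsmul ℝ ℝ, volume] G := by
  rw [mol_eq_convolution, smulFlip, convolution_flip]

lemma hasFDerivAt_mol {m : ℂ → ℝ} {G : ℂ → ℂ} (hm : ContDiff ℝ 1 m) (hcm : HasCompactSupport m)
    (hG : LocallyIntegrable G volume) (x : ℂ) :
    HasFDerivAt (mol m G) ((G ⋆[smulFlip.precompR ℂ, volume] fderiv ℝ m) x) x := by
  rw [mol_eq_convolution]
  exact hcm.hasFDerivAt_convolution_right smulFlip hG hm x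

lemma fderiv_mol_apply {m : ℂ → ℝ} {G : ℂ → ℂ} (hm : ContDiff ℝ 1 m) (hcm : HasCompactSupport m)
    (hG : LocallyIntegrable G volume) (x v : ℂ) :
    (G ⋆[smulFlip.precompR ℂ, volume] fderiv ℝ m) x v = ∫ t, (fderiv ℝ m (x - t) v) • G t := by
  rw [convolution_precompR_apply smulFlip hG (hcm.fderiv ℝ) (hm.continuous_fderiv one_ne_zero)]
  simp [convolution_def]

lemma differentiableAt_mol_of_weak {m : ℂ → ℝ} {G : ℂ → ℂ} (hm : ContDiff ℝ 1 m)
    (hcm : HasCompactSupport m) (hG : LocallyIntegrable G volume) (x : ℂ)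
    (hw : ∫ t, G t * dbarR (fun t => m (x - t)) t = 0) :
    DifferentiableAt ℂ (mol m G) x := by
  have hD := hasFDerivAt_mol hm hcm hG x
  refine differentiableAt_complex_iff_differentiableAt_real.2 ⟨hD.differentiableAt, ?_⟩
  rw [hD.fderiv, fderiv_mol_apply hm hcm hG, fderiv_mol_apply hm hcm hG]
  -- the two directional derivatives of the kernel
  have hfd : ∀ t v, fderiv ℝ (fun t => m (x - t)) t v = - fderiv ℝ m (x - t) v := by
    intro t v
    have h1 : HasFDerivAt (fun t : ℂ => m (x - t))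
        ((fderiv ℝ m (x - t)).comp (-(ContinuousLinearMap.id ℝ ℂ))) t := by
      have := (hm.differentiable one_ne_zero (x - t)).hasFDerivAt
      exact this.comp t ((hasFDerivAt_id t).const_sub x)
    rw [h1.fderiv]
    simp
  have hcont : ∀ v : ℂ, Continuous fun t => fderiv ℝ m (x - t) v := by
    intro v
    have := hm.continuous_fderiv one_ne_zero
    exact (this.comp (continuous_const.sub continuous_id)).clm_apply continuous_const
  have hcs : ∀ v : ℂ, HasCompactSupport fun t => fderiv ℝ m (x - t) v := by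
    intro v
    have h1 : HasCompactSupport (fun t => fderiv ℝ m t v) := by
      refine (hcm.fderiv ℝ).mono ?_
      intro t ht
      simp only [Function.mem_support, ne_eq] at ht ⊢
      intro h0
      exact ht (by simp [h0])
    have := h1.comp_homeomorph ((Homeomorph.neg ℂ).trans (Homeomorph.addLeft x))
    refine this.mono ?_
    intro t ht
    simpa [sub_eq_add_neg] using ht
  have hint : ∀ v : ℂ, Integrable (fun t => fderiv ℝ m (x - t) v • G t) volume := fun v =>
    hG.integrable_smul_left_of_hasCompactSupport (hcont v) (hcs v)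
  have key : (∫ t, fderiv ℝ m (x - t) 1 • G t) + I • ∫ t, fderiv ℝ m (x - t) I • G t = 0 := by
    have hI : Integrable (fun t => I • fderiv ℝ m (x - t) I • G t) volume := (hint I).smul I
    rw [← integral_smul, ← integral_add (hint 1) hI]
    have : ∀ t, fderiv ℝ m (x - t) 1 • G t + I • fderiv ℝ m (x - t) I • G t
        = (-2 : ℂ) * (G t * dbarR (fun t => m (x - t)) t) := by
      intro t
      simp only [dbarR, hfd, Complex.real_smul, smul_eq_mul, Complex.ofReal_neg]
      ring
    simp_rw [this]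
    rw [integral_const_mul, hw, mul_zero]
  have h2 : I • ((∫ t, fderiv ℝ m (x - t) 1 • G t) + I • ∫ t, fderiv ℝ m (x - t) I • G t) = 0 := by
    rw [key, smul_zero]
  rw [smul_add, smul_smul, I_mul_I, neg_one_smul] at h2
  exact (eq_of_sub_eq_zero (by rw [← h2]; ring)).symm

/-- rotation invariance of the integral on `ℂ`. -/
lemma integral_comp_rot (f : ℂ → ℂ) (θ : ℝ) :
    ∫ s, f (Complex.exp (θ * I) * s) = ∫ s, f s := by
  have hmp : MeasurePreserving (rotation (Circle.exp θ)) (volume : Measure ℂ) volume :=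
    LinearIsometryEquiv.measurePreserving _
  have := hmp.integral_comp' (f := (rotation (Circle.exp θ)).toHomeomorph.toMeasurableEquiv) f
  simpa [rotation_apply] using this

/-- mean value property of holomorphic functions for averages against a radial kernel. -/
lemma mol_radial_eq {ρ : ℂ → ℝ} {k : ℂ → ℂ} {x : ℂ} {ε R : ℝ} (hρc : Continuous ρ)
    (hρs : ∀ z, ε ≤ ‖z‖ → ρ z = 0) (hρr : ∀ z w, ‖z‖ = ‖w‖ → ρ z = ρ w) (hεR : ε < R)
    (hkc : Continuous k) (hk : DifferentiableOn ℂ k (ball x R)) :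
    mol ρ k x = (∫ t, ρ t) • k x := by
  -- change of variables
  have h0 : mol ρ k x = ∫ u, ρ u • k (x - u) := by
    unfold mol
    rw [← integral_sub_left_eq_self (fun u => ρ u • k (x - u)) volume x]
    simp
  set J : ℂ := ∫ u, ρ u • k (x - u) with hJ
  set F : ℝ → ℂ → ℂ := fun θ s => ρ s • k (x - Complex.exp (θ * I) * s) with hF
  have hFJ : ∀ θ, ∫ s, F θ s = J := by
    intro θ
    have := integral_comp_rot (fun u => ρ u • k (x - u)) θ
    rw [hJ, ← this]
    refine integral_congr_ae (Eventually.of_forall fun s => ?_)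
    simp only [hF]
    rw [hρr (Complex.exp (θ * I) * s) s (by simp [Complex.norm_exp_ofReal_mul_I])]
  -- mean value in θ
  have hmv : ∀ s, ∫ θ in Ioc (0 : ℝ) (2 * π), F θ s = (2 * π) • (ρ s • k x) := by
    intro s
    by_cases hs : ε ≤ ‖s‖
    · simp [hF, hρs s hs]
    · rw [not_le] at hs
      have hd : DiffContOnCl ℂ (fun u => k (x - (u - x) * s)) (ball x |1|) := by
        apply DifferentiableOn.diffContOnCl
        intro u hu
        have hu' : u ∈ closedBall x 1 := by
          have := closure_ball_subset_closedBall hu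
          simpa using this
        have hmem : x - (u - x) * s ∈ ball x R := by
          rw [mem_ball, dist_eq_norm]
          have h1 : ‖(u - x) * s‖ ≤ ‖s‖ := by
            rw [norm_mul]
            have : ‖u - x‖ ≤ 1 := by simpa [dist_eq_norm] using hu'
            calc ‖u - x‖ * ‖s‖ ≤ 1 * ‖s‖ := by gcongr
              _ = ‖s‖ := one_mul _
          have : x - (u - x) * s - x = -((u - x) * s) := by ring
          rw [this, norm_neg]
          linarith
        have hka : DifferentiableAt ℂ k (x - (u - x) * s) :=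
          hk.differentiableAt (isOpen_ball.mem_nhds hmem)
        have hin : DifferentiableAt ℂ (fun u : ℂ => x - (u - x) * s) u := by fun_prop
        exact (hka.comp u hin).differentiableWithinAt
      have hca := hd.circleAverage
      rw [Real.circleAverage_def] at hca
      simp only [sub_self, zero_mul, sub_zero] at hca
      have h2 : ∫ θ in Ioc (0 : ℝ) (2 * π), F θ s
          = ρ s • ∫ θ in (0 : ℝ)..(2 * π), k (x - (circleMap x 1 θ - x) * s) := by
        rw [intervalIntegral.integral_of_le (by positivity), ← integral_smul]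
        refine integral_congr_ae (Eventually.of_forall fun θ => ?_)
        simp [hF, circleMap]
      rw [h2]
      have h3 : ∫ θ in (0 : ℝ)..(2 * π), k (x - (circleMap x 1 θ - x) * s) = (2 * π) • k x := by
        rw [← hca, smul_smul, mul_inv_cancel₀ (by positivity), one_smul]
      rw [h3, smul_comm]
  -- integrability on the product
  have hFc : Continuous (Function.uncurry F) := by
    simp only [hF]
    refine Continuous.smul (hρc.comp continuous_snd) (hkc.comp ?_)
    refine continuous_const.sub (Continuous.mul ?_ continuous_snd)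
    exact Complex.continuous_exp.comp ((Complex.continuous_ofReal.comp continuous_fst).mul
      continuous_const)
  have hFs : ∀ θ s, ε ≤ ‖s‖ → F θ s = 0 := by
    intro θ s hs
    simp [hF, hρs s hs]
  have hint : Integrable (Function.uncurry F)
      ((volume.restrict (Ioc (0 : ℝ) (2 * π))).prod (volume : Measure ℂ)) := by
    obtain ⟨C, hC⟩ := (isCompact_Icc.prod (isCompact_closedBall (0 : ℂ) ε)).exists_bound_of_continuousOn
      (f := Function.uncurry F) hFc.continuousOn (s := Icc (0 : ℝ) (2 * π) ×ˢ closedBall (0 : ℂ) ε)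
    have hdom : Integrable (fun p : ℝ × ℂ => (closedBall (0 : ℂ) ε).indicator (fun _ => C) p.2)
        ((volume.restrict (Ioc (0 : ℝ) (2 * π))).prod (volume : Measure ℂ)) := by
      have h1 : Integrable (fun _ : ℝ => (1 : ℝ)) (volume.restrict (Ioc (0 : ℝ) (2 * π))) :=
        integrable_const _
      have h2 : Integrable ((closedBall (0 : ℂ) ε).indicator (fun _ => C)) (volume : Measure ℂ) := by
        rw [integrable_indicator_iff measurableSet_closedBall]
        exact integrableOn_const (measure_closedBall_lt_top (x := (0 : ℂ)) (r := ε)).ne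
      simpa using h1.mul_prod h2
    refine hdom.mono' hFc.aestronglyMeasurable ?_
    have hae : ∀ᵐ p : ℝ × ℂ ∂((volume.restrict (Ioc (0 : ℝ) (2 * π))).prod (volume : Measure ℂ)),
        p.1 ∈ Ioc (0 : ℝ) (2 * π) := by
      have : (volume.restrict (Ioc (0 : ℝ) (2 * π))).prod (volume : Measure ℂ)
          = ((volume : Measure ℝ).prod (volume : Measure ℂ)).restrict
              (Ioc (0 : ℝ) (2 * π) ×ˢ (univ : Set ℂ)) := by
        rw [← Measure.prod_restrict, Measure.restrict_univ]
      rw [this]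
      filter_upwards [ae_restrict_mem (measurableSet_Ioc.prod MeasurableSet.univ)] with p hp
      exact hp.1
    filter_upwards [hae] with p hp
    by_cases hs : p.2 ∈ closedBall (0 : ℂ) ε
    · rw [indicator_of_mem hs]
      exact hC p ⟨Ioc_subset_Icc_self hp, hs⟩
    · rw [indicator_of_notMem hs]
      have : ε ≤ ‖p.2‖ := by
        simp only [mem_closedBall, dist_zero_right, not_le] at hs
        exact hs.le
      simp [Function.uncurry, hFs p.1 p.2 this]
  have hswap := integral_integral_swap (μ := volume.restrict (Ioc (0 : ℝ) (2 * π)))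
    (ν := (volume : Measure ℂ)) (f := F) hint
  simp_rw [hFJ, hmv] at hswap
  rw [integral_const, integral_smul] at hswap
  simp only [measureReal_restrict_apply_univ, Real.volume_real_Ioc_of_le (by positivity : (0:ℝ) ≤ 2 * π),
    sub_zero] at hswap
  rw [h0]
  have h2π : (2 * π : ℝ) ≠ 0 := by positivity
  have := congrArg (fun z : ℂ => (2 * π : ℝ)⁻¹ • z) hswap
  simp only [smul_smul, inv_mul_cancel₀ h2π, one_smul] at this
  rw [this, integral_smul_const]

lemma integrable_mol_kernel {ρ ψ : ℂ → ℝ} {G : ℂ → ℂ} (hρ : Continuous ρ)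
    (hρc : HasCompactSupport ρ) (hψ : Continuous ψ) (hψc : HasCompactSupport ψ)
    (hG : LocallyIntegrable G volume) (x : ℂ) :
    Integrable (Function.uncurry fun t s : ℂ => ρ (x - t) • ψ (t - s) • G s)
      ((volume : Measure ℂ).prod (volume : Measure ℂ)) := by
  -- compact sets carrying the support
  set K₁ : Set ℂ := (fun t => x - t) '' tsupport ρ with hK₁
  have hK₁c : IsCompact K₁ := hρc.isCompact.image (by fun_prop)
  set K₂ : Set ℂ := (fun p : ℂ × ℂ => p.1 - p.2) '' (K₁ ×ˢ tsupport ψ) with hK₂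
  have hK₂c : IsCompact K₂ := (hK₁c.prod hψc.isCompact).image (by fun_prop)
  obtain ⟨Cρ, hCρ⟩ := hρ.bounded_above_of_compact_support hρc
  obtain ⟨Cψ, hCψ⟩ := hψ.bounded_above_of_compact_support hψc
  have hCρ0 : 0 ≤ Cρ := (norm_nonneg _).trans (hCρ 0)
  have hCψ0 : 0 ≤ Cψ := (norm_nonneg _).trans (hCψ 0)
  have h1 : Integrable (K₁.indicator (fun _ => Cρ * Cψ)) (volume : Measure ℂ) := by
    rw [integrable_indicator_iff hK₁c.measurableSet]
    exact integrableOn_const hK₁c.measure_lt_top.ne
  have h2 : Integrable (K₂.indicator (fun s => ‖G s‖)) (volume : Measure ℂ) := by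
    rw [integrable_indicator_iff hK₂c.measurableSet]
    exact (hG.integrableOn_isCompact hK₂c).norm
  have hdom := h1.mul_prod h2
  refine hdom.mono' ?_ (Eventually.of_forall ?_)
  · have hc : Continuous fun p : ℂ × ℂ => ρ (x - p.1) * ψ (p.1 - p.2) := by fun_prop
    have hGm : AEStronglyMeasurable (fun p : ℂ × ℂ => G p.2)
        ((volume : Measure ℂ).prod (volume : Measure ℂ)) := hG.aestronglyMeasurable.comp_snd
    have := hc.aestronglyMeasurable.smul hGm
    refine this.congr (Eventually.of_forall fun p => ?_)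
    simp [Function.uncurry, mul_smul]
  · rintro ⟨t, s⟩
    simp only [Function.uncurry]
    by_cases ht : ρ (x - t) = 0
    · simp only [ht, zero_smul, norm_zero]
      exact mul_nonneg (indicator_nonneg (fun _ _ => mul_nonneg hCρ0 hCψ0) _)
        (indicator_nonneg (fun _ _ => norm_nonneg _) _)
    by_cases hs : ψ (t - s) = 0
    · simp only [hs, zero_smul, smul_zero, norm_zero]
      exact mul_nonneg (indicator_nonneg (fun _ _ => mul_nonneg hCρ0 hCψ0) _)
        (indicator_nonneg (fun _ _ => norm_nonneg _) _)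
    have htK : t ∈ K₁ := ⟨x - t, subset_tsupport _ ht, by ring⟩
    have hsK : s ∈ K₂ := ⟨(t, t - s), ⟨htK, subset_tsupport _ hs⟩, by simp⟩
    rw [indicator_of_mem htK, indicator_of_mem hsK, norm_smul, norm_smul]
    calc ‖ρ (x - t)‖ * (‖ψ (t - s)‖ * ‖G s‖) = (‖ρ (x - t)‖ * ‖ψ (t - s)‖) * ‖G s‖ := by ring
      _ ≤ (Cρ * Cψ) * ‖G s‖ := by
        gcongr
        · exact hCρ _
        · exact hCψ _

lemma mol_mol_eq {ρ ψ : ℂ → ℝ} {G : ℂ → ℂ} (hρ : Continuous ρ)
    (hρc : HasCompactSupport ρ) (hψ : Continuous ψ) (hψc : HasCompactSupport ψ)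
    (hG : LocallyIntegrable G volume) (x : ℂ) :
    mol ρ (mol ψ G) x = ∫ s, (∫ t, ρ (x - t) * ψ (t - s)) • G s := by
  unfold mol
  simp_rw [← integral_smul]
  rw [integral_integral_swap (integrable_mol_kernel hρ hρc hψ hψc hG x)]
  refine integral_congr_ae (Eventually.of_forall fun s => ?_)
  simp only
  rw [← integral_smul_const]
  refine integral_congr_ae (Eventually.of_forall fun t => ?_)
  simp [mul_smul]

lemma mol_mol_comm {ρ ψ : ℂ → ℝ} {G : ℂ → ℂ} (hρ : Continuous ρ)
    (hρc : HasCompactSupport ρ) (hψ : Continuous ψ) (hψc : HasCompactSupport ψ)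
    (hG : LocallyIntegrable G volume) (x : ℂ) :
    mol ρ (mol ψ G) x = mol ψ (mol ρ G) x := by
  rw [mol_mol_eq hρ hρc hψ hψc hG, mol_mol_eq hψ hψc hρ hρc hG]
  refine integral_congr_ae (Eventually.of_forall fun s => ?_)
  simp only
  congr 1
  rw [← integral_sub_left_eq_self (fun t => ρ (x - t) * ψ (t - s)) volume (x + s)]
  refine integral_congr_ae (Eventually.of_forall fun t => ?_)
  simp only
  rw [mul_comm]
  congr 2 <;> ring

lemma exists_radial_mollifier {ε : ℝ} (hε : 0 < ε) :
    ∃ ρ : ℂ → ℝ, ContDiff ℝ ∞ ρ ∧ HasCompactSupport ρ ∧ (∀ z, ε ≤ ‖z‖ → ρ z = 0) ∧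
      (∀ z w, ‖z‖ = ‖w‖ → ρ z = ρ w) ∧ ∫ z, ρ z = 1 := by
  set ρ₀ : ℂ → ℝ := fun z => Real.smoothTransition (1 - ‖z‖ ^ 2 / ε ^ 2) with hρ₀
  have hsm : ContDiff ℝ ∞ ρ₀ := by
    refine Real.smoothTransition.contDiff.comp ?_
    exact contDiff_const.sub ((contDiff_norm_sq ℝ).div_const _)
  have hz : ∀ z, ε ≤ ‖z‖ → ρ₀ z = 0 := by
    intro z hz
    refine Real.smoothTransition.zero_of_nonpos ?_
    have h1 : ε ^ 2 ≤ ‖z‖ ^ 2 := by gcongr
    have h2 : 1 ≤ ‖z‖ ^ 2 / ε ^ 2 := by
      rw [le_div_iff₀ (by positivity)]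
      linarith
    linarith
  have hcs : HasCompactSupport ρ₀ := by
    refine HasCompactSupport.intro (isCompact_closedBall (0 : ℂ) ε) ?_
    intro z hz'
    apply hz
    simp only [mem_closedBall, dist_zero_right, not_le] at hz'
    exact hz'.le
  have hrad : ∀ z w, ‖z‖ = ‖w‖ → ρ₀ z = ρ₀ w := by
    intro z w h
    simp only [hρ₀, h]
  have hpos : 0 < ∫ z, ρ₀ z := by
    refine hsm.continuous.integral_pos_of_hasCompactSupport_nonneg_nonzero hcs
      (fun z => Real.smoothTransition.nonneg _) (x := 0) ?_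
    simp [hρ₀, Real.smoothTransition.one_of_one_le]
  refine ⟨fun z => (∫ z, ρ₀ z)⁻¹ * ρ₀ z, contDiff_const.mul hsm, ?_, ?_, ?_, ?_⟩
  · exact hcs.mul_left
  · intro z hz'
    simp [hz z hz']
  · intro z w h
    simp [hrad z w h]
  · rw [integral_const_mul, inv_mul_cancel₀ hpos.ne']

/-- weak holomorphy on a ball implies holomorphy of every mollification (small kernel). -/
lemma differentiableAt_mol_of_weakHolo {m : ℂ → ℝ} {G : ℂ → ℂ} {z₀ z : ℂ} {R ε : ℝ}
    (hm : ContDiff ℝ ∞ m) (hcm : HasCompactSupport m) (hms : tsupport m ⊆ closedBall 0 ε)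
    (hG : LocallyIntegrable G volume) (hw : WeakHolo (ball z₀ R) G)
    (hz : dist z z₀ + ε < R) :
    DifferentiableAt ℂ (mol m G) z := by
  have hm1 : ContDiff ℝ 1 m := hm.of_le (by norm_num)
  refine differentiableAt_mol_of_weak hm1 hcm hG z ?_
  have hsm : ContDiff ℝ ∞ (fun t => m (z - t)) := hm.comp (contDiff_const.sub contDiff_id)
  have hcs : HasCompactSupport (fun t => m (z - t)) := by
    have := hcm.comp_homeomorph ((Homeomorph.neg ℂ).trans (Homeomorph.addLeft z))
    refine this.mono ?_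
    intro t ht
    simpa [sub_eq_add_neg] using ht
  have hts : tsupport (fun t => m (z - t)) ⊆ ball z₀ R := by
    have h1 : tsupport (fun t => m (z - t)) ⊆ closedBall z ε := by
      refine closure_minimal ?_ isClosed_closedBall
      intro t ht
      have : z - t ∈ tsupport m := subset_tsupport _ ht
      have := hms this
      simpa [dist_eq_norm, norm_sub_rev] using this
    refine h1.trans ?_
    intro t ht
    rw [mem_ball]
    rw [mem_closedBall] at ht
    calc dist t z₀ ≤ dist t z + dist z z₀ := dist_triangle _ _ _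
      _ ≤ ε + dist z z₀ := by linarith
      _ < R := by linarith
  exact hw _ hsm hcs hts

lemma continuous_mol {m : ℂ → ℝ} {G : ℂ → ℂ} (hm : ContDiff ℝ 1 m) (hcm : HasCompactSupport m)
    (hG : LocallyIntegrable G volume) : Continuous (mol m G) :=
  continuous_iff_continuousAt.2 fun x => (hasFDerivAt_mol hm hcm hG x).continuousAt

/-- local form of Weyl's lemma. -/
lemma weyl_local {G : ℂ → ℂ} {z₀ : ℂ} {r : ℝ} (hr : 0 < r)
    (hG : LocallyIntegrable G volume) (hw : WeakHolo (ball z₀ (4 * r)) G) :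
    ∃ f : ℂ → ℂ, DifferentiableOn ℂ f (ball z₀ r) ∧ ∀ᵐ z, z ∈ ball z₀ r → G z = f z := by
  obtain ⟨ρ, hρsm, hρcs, hρz, hρr, hρ1⟩ := exists_radial_mollifier hr
  have hρ1' : ContDiff ℝ 1 ρ := hρsm.of_le (by norm_num)
  have hρts : tsupport ρ ⊆ closedBall 0 r := by
    refine closure_minimal ?_ isClosed_closedBall
    intro t ht
    by_contra hcon
    simp only [mem_closedBall, dist_zero_right, not_le] at hcon
    exact ht (hρz t hcon.le)
  set h : ℂ → ℂ := mol ρ G with hh
  have hhc : Continuous h := continuous_mol hρ1' hρcs hG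
  have hhd : ∀ z ∈ ball z₀ (3 * r), DifferentiableAt ℂ h z := by
    intro z hz
    rw [mem_ball] at hz
    exact differentiableAt_mol_of_weakHolo hρsm hρcs hρts hG hw (by linarith)
  -- Mathlib bump functions
  let φ : ℕ → ContDiffBump (0 : ℂ) := fun n =>
    ⟨r / (2 * (n + 2)), r / (n + 2), by positivity, by
      rw [div_lt_div_iff₀ (by positivity) (by positivity)]
      have : (0 : ℝ) < (n : ℝ) + 2 := by positivity
      nlinarith⟩
  have hφout : ∀ n, (φ n).rOut = r / (n + 2) := fun n => rfl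
  have hφin : ∀ n, (φ n).rIn = r / (2 * (n + 2)) := fun n => rfl
  have hφlt : ∀ n, (φ n).rOut < r := by
    intro n
    rw [hφout, div_lt_iff₀ (by positivity)]
    have : (0 : ℝ) ≤ n := Nat.cast_nonneg n
    nlinarith
  have hφ0 : Tendsto (fun n => (φ n).rOut) atTop (𝓝 0) := by
    simp only [hφout]
    have h1 : Tendsto (fun n : ℕ => (n : ℝ) + 2) atTop atTop :=
      tendsto_atTop_add_const_right _ _ tendsto_natCast_atTop_atTop
    exact h1.const_div_atTop r
  have hφK : ∀ᶠ n in atTop, (φ n).rOut ≤ 2 * (φ n).rIn := by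
    refine Eventually.of_forall fun n => ?_
    rw [hφout, hφin]
    have : (0 : ℝ) < (n : ℝ) + 2 := by positivity
    field_simp
    rfl
  set mφ : ℕ → ℂ → ℝ := fun n => (φ n).normed volume with hmφ
  have hmsm : ∀ n, ContDiff ℝ ∞ (mφ n) := fun n => (φ n).contDiff_normed
  have hmcs : ∀ n, HasCompactSupport (mφ n) := fun n => (φ n).hasCompactSupport_normed
  have hmts : ∀ n, tsupport (mφ n) ⊆ closedBall 0 (φ n).rOut := fun n =>
    ((φ n).tsupport_normed_eq (μ := volume)).le
  have hm1 : ∀ n, ContDiff ℝ 1 (mφ n) := fun n => (hmsm n).of_le (by norm_num)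
  -- the mollifications `k n`
  set k : ℕ → ℂ → ℂ := fun n => mol (mφ n) G with hk
  have hkc : ∀ n, Continuous (k n) := fun n => continuous_mol (hm1 n) (hmcs n) hG
  have hkd : ∀ n, DifferentiableOn ℂ (k n) (ball z₀ (3 * r)) := by
    intro n z hz
    rw [mem_ball] at hz
    refine (differentiableAt_mol_of_weakHolo (hmsm n) (hmcs n) (hmts n) hG hw
      ?_).differentiableWithinAt
    have := hφlt n
    linarith
  -- mean value + commutation
  have hkey : ∀ n, ∀ z ∈ ball z₀ (2 * r), k n z = mol (mφ n) h z := by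
    intro n z hz
    rw [mem_ball] at hz
    have hsub : ball z (3 * r - dist z z₀) ⊆ ball z₀ (3 * r) := by
      intro w hw'
      rw [mem_ball] at hw' ⊢
      calc dist w z₀ ≤ dist w z + dist z z₀ := dist_triangle _ _ _
        _ < 3 * r := by linarith
    have h1 := mol_radial_eq (ρ := ρ) (k := k n) (x := z) (ε := r) (R := 3 * r - dist z z₀)
      hρsm.continuous hρz hρr (by linarith) (hkc n) ((hkd n).mono hsub)
    rw [hρ1, one_smul] at h1
    rw [← h1]
    exact mol_mol_comm hρsm.continuous hρcs (hmsm n).continuous (hmcs n) hG z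
  -- convergence statements
  have hconv1 : ∀ z, Tendsto (fun n => mol (mφ n) h z) atTop (𝓝 (h z)) := by
    intro z
    have := ContDiffBump.convolution_tendsto_right_of_continuous (μ := (volume : Measure ℂ))
      (φ := φ) hφ0 hhc z
    simpa only [mol_eq_convolution'] using this
  have hconv2 : ∀ᵐ z, Tendsto (fun n => k n z) atTop (𝓝 (G z)) := by
    have := ContDiffBump.ae_convolution_tendsto_right_of_locallyIntegrable
      (μ := (volume : Measure ℂ)) (φ := φ) (K := 2) hφ0 hφK hG
    filter_upwards [this] with z hz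
    simpa only [hk, mol_eq_convolution'] using hz
  refine ⟨h, fun z hz => ?_, ?_⟩
  · exact (hhd z (ball_subset_ball (by linarith) hz)).differentiableWithinAt
  · filter_upwards [hconv2] with z hz hzb
    have hzb' : z ∈ ball z₀ (2 * r) := ball_subset_ball (by linarith) hzb
    have h2 : Tendsto (fun n => k n z) atTop (𝓝 (h z)) := by
      refine (hconv1 z).congr fun n => ?_
      exact (hkey n z hzb').symm
    exact tendsto_nhds_unique hz h2

/-- restriction of a weakly holomorphic function to a closed ball inside `U`. -/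
lemma weakHolo_indicator {U : Set ℂ} {g : ℂ → ℂ} (hweak : WeakHolo U g) {z₀ : ℂ} {R : ℝ}
    (hsub : closedBall z₀ R ⊆ U) :
    WeakHolo (ball z₀ R) ((closedBall z₀ R).indicator g) := by
  intro η hη hηc hηs
  have := hweak η hη hηc ((hηs.trans ball_subset_closedBall).trans hsub)
  rw [← this]
  refine integral_congr_ae (Eventually.of_forall fun z => ?_)
  by_cases hz : z ∈ closedBall z₀ R
  · simp only [indicator_of_mem hz]
  · have hz' : z ∉ tsupport η := fun h => hz (ball_subset_closedBall (hηs h))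
    simp [dbarR, fderiv_of_notMem_tsupport ℝ hz']

/-- **Weyl's lemma** for the Cauchy–Riemann operator: a locally integrable weakly holomorphic
function on an open set agrees almost everywhere with a holomorphic function. -/
theorem weyl_dbar {U : Set ℂ} (hU : IsOpen U) (g : ℂ → ℂ) (hg : LocallyIntegrableOn g U volume)
    (hweak : WeakHolo U g) :
    ∃ f : ℂ → ℂ, DifferentiableOn ℂ f U ∧ ∀ᵐ z ∂(volume.restrict U), g z = f z := by
  -- local data
  have hloc : ∀ z₀ ∈ U, ∃ r : ℝ, 0 < r ∧ ball z₀ r ⊆ U ∧ ∃ f : ℂ → ℂ,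
      DifferentiableOn ℂ f (ball z₀ r) ∧ ∀ᵐ z, z ∈ ball z₀ r → g z = f z := by
    intro z₀ hz₀
    obtain ⟨δ, hδ, hδU⟩ := Metric.isOpen_iff.1 hU z₀ hz₀
    have hsub : closedBall z₀ (4 * (δ / 8)) ⊆ U :=
      (closedBall_subset_ball (by linarith)).trans hδU
    have hGi : Integrable ((closedBall z₀ (4 * (δ / 8))).indicator g) volume := by
      rw [integrable_indicator_iff measurableSet_closedBall]
      exact hg.integrableOn_compact_subset hsub (isCompact_closedBall _ _)
    obtain ⟨f, hf, hfg⟩ := weyl_local (z₀ := z₀) (r := δ / 8) (by positivity)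
      hGi.locallyIntegrable (weakHolo_indicator hweak hsub)
    refine ⟨δ / 8, by positivity, (ball_subset_ball (by linarith)).trans hδU, f, hf, ?_⟩
    filter_upwards [hfg] with z hz hzb
    rw [← hz hzb, indicator_of_mem]
    exact closedBall_subset_closedBall (by linarith) (ball_subset_closedBall hzb)
  choose! r hr hrU F hF hFg using hloc
  -- compatibility on overlaps
  have hcompat : ∀ z ∈ U, ∀ w ∈ U, ∀ u ∈ ball z (r z) ∩ ball w (r w), F z u = F w u := by
    intro z hz w hw
    have hopen : IsOpen (ball z (r z) ∩ ball w (r w)) := isOpen_ball.inter isOpen_ball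
    refine Measure.eqOn_open_of_ae_eq (μ := (volume : Measure ℂ)) ?_ hopen
      ((hF z hz).continuousOn.mono inter_subset_left)
      ((hF w hw).continuousOn.mono inter_subset_right)
    rw [Filter.EventuallyEq, ae_restrict_iff' hopen.measurableSet]
    filter_upwards [hFg z hz, hFg w hw] with u h1 h2 hu
    rw [← h1 hu.1, ← h2 hu.2]
  -- the glued function
  refine ⟨fun w => F w w, ?_, ?_⟩
  · intro z hz
    have hev : (fun w => F w w) =ᶠ[𝓝 z] F z := by
      filter_upwards [isOpen_ball.mem_nhds (mem_ball_self (hr z hz))] with w hw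
      have hwU : w ∈ U := hrU z hz hw
      exact (hcompat z hz w hwU w ⟨hw, mem_ball_self (hr w hwU)⟩).symm
    have hd : DifferentiableAt ℂ (F z) z :=
      (hF z hz).differentiableAt (isOpen_ball.mem_nhds (mem_ball_self (hr z hz)))
    exact (hd.congr_of_eventuallyEq hev).differentiableWithinAt
  · obtain ⟨T, hTU, hTc, hTcov⟩ := TopologicalSpace.countable_cover_nhdsWithin
      (f := fun z => ball z (r z)) (s := U)
      (fun z hz => mem_nhdsWithin_of_mem_nhds (isOpen_ball.mem_nhds (mem_ball_self (hr z hz))))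
    rw [ae_restrict_iff' hU.measurableSet]
    have hall : ∀ᵐ u, ∀ z ∈ T, u ∈ ball z (r z) → g u = F z u := by
      rw [ae_ball_iff hTc]
      intro z hz
      exact hFg z (hTU hz)
    filter_upwards [hall] with u hu huU
    obtain ⟨z, hzT, huz⟩ := mem_iUnion₂.1 (hTcov huU)
    rw [hu z hzT huz]
    exact hcompat z (hTU hzT) u huU u ⟨huz, mem_ball_self (hr u huU)⟩

end

end Fermat.Agent.S21.H561

end
-- ===== PACK-END S21/H561/Weyl.lean

-- ===== PACK-BEGIN S21/Section.lean
section


/-!
# S21, piece MS-B: a section `φt : SL(2,ℤ) → ℝ` of a parabolic homomorphism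

Pure group theory: for a parabolic homomorphism `φ : Γ₀(N) → ℝ` there is a function `φt` on
`SL(2,ℤ)` which is right-`Γ₀(N)`-equivariant (with cocycle `φ`), left-`T`-invariant and even.
-/

set_option autoImplicit false

open CongruenceSubgroup
open scoped MatrixGroups

namespace Fermat.Agent.S21

/-- The double coset relation of `⟨T⟩ \ SL(2,ℤ) / Γ₀(N)`. -/
def sectionRel (N : ℕ) (g g' : SL(2, ℤ)) : Prop :=
  ∃ (n : ℤ) (γ : Gamma0 N), g' = ModularGroup.T ^ n * g * (γ : SL(2, ℤ))

theorem sectionRel_refl (N : ℕ) (g : SL(2, ℤ)) : sectionRel N g g :=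
  ⟨0, 1, by simp⟩

theorem sectionRel_symm {N : ℕ} {g g' : SL(2, ℤ)} (h : sectionRel N g g') :
    sectionRel N g' g := by
  obtain ⟨n, γ, rfl⟩ := h
  refine ⟨-n, γ⁻¹, ?_⟩
  simp only [Subgroup.coe_inv, zpow_neg]
  group

theorem sectionRel_trans {N : ℕ} {g g' g'' : SL(2, ℤ)} (h : sectionRel N g g')
    (h' : sectionRel N g' g'') : sectionRel N g g'' := by
  obtain ⟨n, γ, rfl⟩ := h
  obtain ⟨m, γ', rfl⟩ := h'
  refine ⟨m + n, γ * γ', ?_⟩
  simp only [Subgroup.coe_mul, zpow_add]
  group

/-- The setoid of double cosets `⟨T⟩ \ SL(2,ℤ) / Γ₀(N)`. -/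
def sectionSetoid (N : ℕ) : Setoid SL(2, ℤ) where
  r := sectionRel N
  iseqv := ⟨sectionRel_refl N, sectionRel_symm, sectionRel_trans⟩

/-- The chosen representative of the double coset of `g`. -/
noncomputable def sectionRep (N : ℕ) (g : SL(2, ℤ)) : SL(2, ℤ) :=
  @Quotient.out _ (sectionSetoid N) (@Quotient.mk _ (sectionSetoid N) g)

theorem sectionRep_rel (N : ℕ) (g : SL(2, ℤ)) : sectionRel N (sectionRep N g) g :=
  @Quotient.exact _ (sectionSetoid N) _ _ (@Quotient.out_eq _ (sectionSetoid N) _)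

theorem sectionRep_eq_of_rel {N : ℕ} {g g' : SL(2, ℤ)} (h : sectionRel N g g') :
    sectionRep N g = sectionRep N g' := by
  unfold sectionRep
  rw [@Quotient.sound _ (sectionSetoid N) g g' h]

/-- The trace of a conjugate of a power of `T` is `2`. -/
theorem section_trace_conj_T_zpow (r : SL(2, ℤ)) (k : ℤ) :
    ((r⁻¹ * ModularGroup.T ^ k * r : SL(2, ℤ)) : Matrix (Fin 2) (Fin 2) ℤ).trace = 2 := by
  have h1 : ((r⁻¹ * ModularGroup.T ^ k * r : SL(2, ℤ)) : Matrix (Fin 2) (Fin 2) ℤ)
      = (r⁻¹ : SL(2, ℤ)).1 * (ModularGroup.T ^ k : SL(2, ℤ)).1 * r.1 := by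
    simp [Matrix.SpecialLinearGroup.coe_mul]
  rw [h1, Matrix.trace_mul_cycle]
  have h2 : r.1 * (r⁻¹ : SL(2, ℤ)).1 = 1 := by
    rw [← Matrix.SpecialLinearGroup.coe_mul, mul_inv_cancel, Matrix.SpecialLinearGroup.coe_one]
  rw [h2, one_mul]
  show (↑(ModularGroup.T ^ k) : Matrix (Fin 2) (Fin 2) ℤ).trace = 2
  rw [ModularGroup.coe_T_zpow, Matrix.trace_fin_two_of]
  norm_num

/-- Well-definedness of the section: two decompositions with the same representative
give the same `φ`-value. -/
theorem section_wd (N : ℕ) (φ : Additive (Gamma0 N) →+ ℝ)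
    (hφ : ModularCurve.Period.IsParabolicHom (Gamma0 N) φ) (r : SL(2, ℤ)) (n m : ℤ)
    (γ γ' : Gamma0 N)
    (h : ModularGroup.T ^ n * r * (γ : SL(2, ℤ)) = ModularGroup.T ^ m * r * (γ' : SL(2, ℤ))) :
    φ (Additive.ofMul γ) = φ (Additive.ofMul γ') := by
  -- γ' * γ⁻¹ = r⁻¹ * T ^ (n - m) * r
  have key : ((γ' * γ⁻¹ : Gamma0 N) : SL(2, ℤ)) = r⁻¹ * ModularGroup.T ^ (n - m) * r := by
    have h' : (γ' : SL(2, ℤ)) = (ModularGroup.T ^ m * r)⁻¹
        * (ModularGroup.T ^ n * r * (γ : SL(2, ℤ))) := by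
      rw [h]; group
    rw [Subgroup.coe_mul, Subgroup.coe_inv, h', zpow_sub]
    group
  have htr : (((γ' * γ⁻¹ : Gamma0 N) : SL(2, ℤ)) : Matrix (Fin 2) (Fin 2) ℤ).trace ^ 2 = 4 := by
    rw [key, section_trace_conj_T_zpow]; norm_num
  have h0 := hφ (γ' * γ⁻¹) htr
  have h1 : φ (Additive.ofMul (γ' * γ⁻¹)) = φ (Additive.ofMul γ') - φ (Additive.ofMul γ) := by
    rw [ofMul_mul, ofMul_inv, map_add, map_neg, sub_eq_add_neg]
  rw [h1] at h0
  linarith

/-- The section value: `φ γ` for any decomposition `g = T ^ n * rep g * γ`. -/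
noncomputable def sectionVal (N : ℕ) (φ : Additive (Gamma0 N) →+ ℝ) (g : SL(2, ℤ)) : ℝ :=
  φ (Additive.ofMul (sectionRep_rel N g).choose_spec.choose)

theorem sectionVal_spec (N : ℕ) (g : SL(2, ℤ)) :
    g = ModularGroup.T ^ (sectionRep_rel N g).choose * sectionRep N g
      * (((sectionRep_rel N g).choose_spec.choose : Gamma0 N) : SL(2, ℤ)) :=
  (sectionRep_rel N g).choose_spec.choose_spec

theorem sectionVal_eq (N : ℕ) (φ : Additive (Gamma0 N) →+ ℝ)
    (hφ : ModularCurve.Period.IsParabolicHom (Gamma0 N) φ) (g : SL(2, ℤ)) (n : ℤ)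
    (γ : Gamma0 N) (h : g = ModularGroup.T ^ n * sectionRep N g * (γ : SL(2, ℤ))) :
    sectionVal N φ g = φ (Additive.ofMul γ) := by
  unfold sectionVal
  refine section_wd N φ hφ (sectionRep N g) (sectionRep_rel N g).choose n
    (sectionRep_rel N g).choose_spec.choose γ ?_
  rw [← sectionVal_spec N g, ← h]

/-- **MS-B**: a section of a parabolic homomorphism on `SL(2,ℤ)`. -/
theorem exists_section (N : ℕ) [NeZero N] (φ : Additive (Gamma0 N) →+ ℝ)
    (hφ : ModularCurve.Period.IsParabolicHom (Gamma0 N) φ) :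
    ∃ φt : SL(2, ℤ) → ℝ,
      (∀ (g : SL(2, ℤ)) (γ : Gamma0 N),
          φt (g * (γ : SL(2, ℤ))) = φt g + φ (Additive.ofMul γ)) ∧
      (∀ g : SL(2, ℤ), φt (ModularGroup.T * g) = φt g) ∧
      (∀ g : SL(2, ℤ), φt (-g) = φt g) := by
  have hmul : ∀ (g : SL(2, ℤ)) (γ : Gamma0 N),
      sectionVal N φ (g * (γ : SL(2, ℤ))) = sectionVal N φ g + φ (Additive.ofMul γ) := by
    intro g γ
    have hrel : sectionRel N g (g * (γ : SL(2, ℤ))) := ⟨0, γ, by simp⟩
    have hrep : sectionRep N g = sectionRep N (g * (γ : SL(2, ℤ))) := sectionRep_eq_of_rel hrel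
    set n := (sectionRep_rel N g).choose
    set γ₀ := (sectionRep_rel N g).choose_spec.choose
    have hg : g = ModularGroup.T ^ n * sectionRep N g * ((γ₀ : Gamma0 N) : SL(2, ℤ)) :=
      sectionVal_spec N g
    have h1 : g * (γ : SL(2, ℤ)) = ModularGroup.T ^ n * sectionRep N (g * (γ : SL(2, ℤ)))
        * (((γ₀ * γ : Gamma0 N)) : SL(2, ℤ)) := by
      rw [← hrep, Subgroup.coe_mul, ← mul_assoc, ← hg]
    rw [sectionVal_eq N φ hφ _ n (γ₀ * γ) h1, ofMul_mul, map_add]
    rfl
  refine ⟨sectionVal N φ, hmul, ?_, ?_⟩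
  · intro g
    have hrel : sectionRel N g (ModularGroup.T * g) := ⟨1, 1, by simp⟩
    have hrep : sectionRep N g = sectionRep N (ModularGroup.T * g) := sectionRep_eq_of_rel hrel
    set n := (sectionRep_rel N g).choose
    set γ₀ := (sectionRep_rel N g).choose_spec.choose
    have hg : g = ModularGroup.T ^ n * sectionRep N g * ((γ₀ : Gamma0 N) : SL(2, ℤ)) :=
      sectionVal_spec N g
    have h1 : ModularGroup.T * g = ModularGroup.T ^ (1 + n) * sectionRep N (ModularGroup.T * g)
        * ((γ₀ : Gamma0 N) : SL(2, ℤ)) := by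
      rw [← hrep, zpow_add, zpow_one, mul_assoc, mul_assoc, ← mul_assoc (ModularGroup.T ^ n),
        ← hg]
    rw [sectionVal_eq N φ hφ _ (1 + n) γ₀ h1]
    rfl
  · intro g
    have hneg : (-1 : SL(2, ℤ)) ∈ Gamma0 N := by
      rw [Gamma0_mem]
      simp
    have h := hmul g ⟨-1, hneg⟩
    have h2 : g * ((⟨-1, hneg⟩ : Gamma0 N) : SL(2, ℤ)) = -g := by
      simp
    rw [h2] at h
    rw [h]
    have htr : ((((⟨-1, hneg⟩ : Gamma0 N)) : SL(2, ℤ)) : Matrix (Fin 2) (Fin 2) ℤ).trace ^ 2
        = 4 := by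
      simp
    rw [hφ ⟨-1, hneg⟩ htr, add_zero]

end Fermat.Agent.S21

end
-- ===== PACK-END S21/Section.lean

-- ===== PACK-BEGIN S23/LevelOne.lean
section



/-!
# S23 helper: structure of level-one modular forms

* `qE4`, `qE6` : integral `q`-expansions of `E₄`, `E₆`.
* `levelOne_qExpansion_mem_span` : the `q`-expansion of every level-one modular form of
  weight `k` is a `ℂ`-linear combination of the integral monomials `qE4 ^ a * qE6 ^ b`
  with `4 a + 6 b = k`.
* `exists_levelOne_of_mem_span` : conversely every such combination is the `q`-expansion of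
  a level-one form of weight `k`.
* `levelOne_transport` : transport of level-one forms along an arbitrary additive map
  `ρ : ℂ →+ ℂ` applied coefficientwise.
* `levelOne_bounded_denominators` : a level-one form with rational `q`-expansion has
  bounded denominators.
-/

set_option autoImplicit false

namespace Fermat.Agent.S23.LevelOne

open ModularForm ModularFormClass EisensteinSeries UpperHalfPlane MatrixGroups

noncomputable section

/-- The integral `q`-expansion of `E₄`. -/
def qE4 : PowerSeries ℤ :=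
  PowerSeries.mk fun m => if m = 0 then 1 else 240 * (ArithmeticFunction.sigma 3 m : ℤ)

/-- The integral `q`-expansion of `E₆`. -/
def qE6 : PowerSeries ℤ :=
  PowerSeries.mk fun m => if m = 0 then 1 else -504 * (ArithmeticFunction.sigma 5 m : ℤ)

theorem qExpansion_E4 : qExpansion 1 E₄ = qE4.map (Int.castRingHom ℂ) := by
  ext m
  rw [E_qExpansion_coeff _ ⟨2, rfl⟩]
  simp only [qE4, PowerSeries.coeff_map, PowerSeries.coeff_mk]
  split_ifs with h
  · simp
  · norm_num [show bernoulli 4 = -1 / 30 by decide +kernel]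

theorem qExpansion_E6 : qExpansion 1 E₆ = qE6.map (Int.castRingHom ℂ) := by
  ext m
  rw [E_qExpansion_coeff _ ⟨3, rfl⟩]
  simp only [qE6, PowerSeries.coeff_map, PowerSeries.coeff_mk]
  split_ifs with h
  · simp
  · norm_num [show bernoulli 6 = 1 / 42 by decide +kernel]

/-- The integral monomial `qE4 ^ a * qE6 ^ b`. -/
def qMono (a b : ℕ) : PowerSeries ℤ := qE4 ^ a * qE6 ^ b

/-- The monomial `q`-expansions of weight `k`. -/
def monoSet (k : ℤ) : Set (PowerSeries ℂ) :=
  {P | ∃ a b : ℕ, (4 * (a : ℤ) + 6 * (b : ℤ)) = k ∧ P = (qMono a b).map (Int.castRingHom ℂ)}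

/-- The monomial `E₄ ^ a * E₆ ^ b` as a level one modular form. -/
def monoForm (a b : ℕ) : ModularForm 𝒮ℒ (4 * (a : ℤ) + 6 * (b : ℤ)) :=
  ModularForm.mcast (by ring) ((E₄.pow a).mul (E₆.pow b))

theorem monoForm_apply (a b : ℕ) (z : ℍ) : monoForm a b z = E₄ z ^ a * E₆ z ^ b := by
  simp [monoForm]

theorem qExpansion_monoForm (a b : ℕ) :
    qExpansion 1 (monoForm a b) = (qMono a b).map (Int.castRingHom ℂ) := by
  rw [monoForm, ModularForm.qExpansion_mcast,
    ModularForm.qExpansion_mul one_pos one_mem_strictPeriods_SL,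
    ModularForm.qExpansion_pow one_pos one_mem_strictPeriods_SL,
    ModularForm.qExpansion_pow one_pos one_mem_strictPeriods_SL,
    qExpansion_E4, qExpansion_E6, qMono]
  simp


theorem qExpansion_discriminant_eq :
    qExpansion 1 ModularForm.discriminant =
      (1 / 1728 : ℂ) • ((qMono 3 0).map (Int.castRingHom ℂ) - (qMono 0 2).map (Int.castRingHom ℂ)) := by
  have h : (ModularForm.discriminant : ℍ → ℂ) =
      ((1 / 1728 : ℂ) • (ModularForm.mcast (by norm_num) (monoForm 3 0) -
        ModularForm.mcast (by norm_num) (monoForm 0 2) : ModularForm 𝒮ℒ 12) : ModularForm 𝒮ℒ 12) := by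
    ext z
    simp only [FunLike.coe_smul, FunLike.coe_sub, coe_mcast, Pi.smul_apply, Pi.sub_apply,
      smul_eq_mul, monoForm_apply]
    rw [discriminant_eq_E₄_cube_sub_E₆_sq z]
    ring
  rw [h, FunLike.coe_smul, ModularForm.qExpansion_smul one_pos one_mem_strictPeriods_SL,
    FunLike.coe_sub, ModularForm.qExpansion_sub one_pos one_mem_strictPeriods_SL,
    ModularForm.qExpansion_mcast, ModularForm.qExpansion_mcast, qExpansion_monoForm,
    qExpansion_monoForm]

/-- `Δ * monomial` is a combination of monomials. -/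
theorem discriminant_mul_mem_span (k : ℤ) (P : PowerSeries ℂ)
    (hP : P ∈ Submodule.span ℂ (monoSet (k - 12))) :
    qExpansion 1 ModularForm.discriminant * P ∈ Submodule.span ℂ (monoSet k) := by
  induction hP using Submodule.span_induction with
  | mem x hx =>
    obtain ⟨a, b, hab, rfl⟩ := hx
    rw [qExpansion_discriminant_eq]
    have h1 : (qMono 3 0).map (Int.castRingHom ℂ) * (qMono a b).map (Int.castRingHom ℂ) =
        (qMono (a + 3) b).map (Int.castRingHom ℂ) := by
      rw [← map_mul]; congr 1; simp only [qMono]; ring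
    have h2 : (qMono 0 2).map (Int.castRingHom ℂ) * (qMono a b).map (Int.castRingHom ℂ) =
        (qMono a (b + 2)).map (Int.castRingHom ℂ) := by
      rw [← map_mul]; congr 1; simp only [qMono]; ring
    rw [smul_mul_assoc, sub_mul, h1, h2]
    refine Submodule.smul_mem _ _ (Submodule.sub_mem _ ?_ ?_)
    · exact Submodule.subset_span ⟨a + 3, b, by push_cast; linarith, rfl⟩
    · exact Submodule.subset_span ⟨a, b + 2, by push_cast; linarith, rfl⟩
  | zero => simp
  | add x y _ _ hx hy => rw [mul_add]; exact Submodule.add_mem _ hx hy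
  | smul c x _ hx => rw [mul_smul_comm]; exact Submodule.smul_mem _ _ hx



theorem constantCoeff_qE4 : PowerSeries.constantCoeff qE4 = 1 := by
  simp [qE4]

theorem constantCoeff_qE6 : PowerSeries.constantCoeff qE6 = 1 := by
  simp [qE6]

theorem constantCoeff_qMono (a b : ℕ) : PowerSeries.constantCoeff (qMono a b) = 1 := by
  simp [qMono, constantCoeff_qE4, constantCoeff_qE6]

theorem exists_weight_decomp (k : ℤ) (hk : 4 ≤ k) (hev : Even k) :
    ∃ a b : ℕ, 4 * (a : ℤ) + 6 * (b : ℤ) = k := by
  obtain ⟨m, hm⟩ := hev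
  rcases Int.even_or_odd m with ⟨n, hn⟩ | ⟨n, hn⟩
  · refine ⟨n.toNat, 0, ?_⟩
    have : 0 ≤ n := by omega
    rw [Int.toNat_of_nonneg this]; omega
  · refine ⟨(n - 1).toNat, 1, ?_⟩
    have : 0 ≤ n - 1 := by omega
    rw [Int.toNat_of_nonneg this]; omega

theorem levelOne_qExpansion_mem_span_aux (n : ℕ) : ∀ (k : ℤ), k.toNat = n →
    ∀ f : ModularForm 𝒮ℒ k, qExpansion 1 f ∈ Submodule.span ℂ (monoSet k) := by
  induction n using Nat.strong_induction_on with
  | _ n ih =>
  intro k hk f
  rcases lt_or_ge k 0 with hneg | hnn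
  · have : f = 0 := rank_zero_iff_forall_zero.mp (levelOne_neg_weight_rank_zero hneg) f
    rw [this]; simp [qExpansion_zero]
  rcases Int.even_or_odd k with hev | hodd
  swap
  · have : f = 0 := levelOne_odd_weight_eq_zero hodd f
    rw [this]; simp [qExpansion_zero]
  rcases eq_or_lt_of_le hnn with h0 | hpos
  · subst h0
    obtain ⟨c, hc⟩ := levelOne_weight_zero_const f
    have h1 : (f : ℍ → ℂ) = c • (1 : ℍ → ℂ) := by
      rw [hc]; ext z; simp
    have hq : qExpansion 1 f = c • (1 : PowerSeries ℂ) := by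
      rw [h1]
      have := ModularForm.qExpansion_smul one_pos one_mem_strictPeriods_SL c (1 : ModularForm 𝒮ℒ 0)
      have h2 : ((1 : ModularForm 𝒮ℒ 0) : ℍ → ℂ) = 1 := by ext z; simp
      rw [h2] at this
      rw [this, qExpansion_one]
    rw [hq]
    refine Submodule.smul_mem _ _ (Submodule.subset_span ⟨0, 0, by simp, ?_⟩)
    simp [qMono]
  by_cases h2 : k = 2
  · subst h2
    have : f = 0 := rank_zero_iff_forall_zero.mp levelOne_weight_two_rank_zero f
    rw [this]; simp [qExpansion_zero]
  have hk4 : 4 ≤ k := by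
    obtain ⟨m, hm⟩ := hev
    omega
  obtain ⟨a, b, hab⟩ := exists_weight_decomp k hk4 hev
  subst hab
  set c := (qExpansion 1 f).coeff 0 with hc
  set g : ModularForm 𝒮ℒ (4 * (a : ℤ) + 6 * (b : ℤ)) := f - c • monoForm a b with hg
  have hqg : qExpansion 1 g = qExpansion 1 f - c • (qMono a b).map (Int.castRingHom ℂ) := by
    rw [hg, FunLike.coe_sub, ModularForm.qExpansion_sub one_pos one_mem_strictPeriods_SL,
      FunLike.coe_smul, ModularForm.qExpansion_smul one_pos one_mem_strictPeriods_SL,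
      qExpansion_monoForm]
  have hg0 : (qExpansion 1 g).coeff 0 = 0 := by
    rw [hqg]
    have h7 : PowerSeries.constantCoeff ((qMono a b).map (Int.castRingHom ℂ)) = 1 := by
      rw [← PowerSeries.coeff_zero_eq_constantCoeff_apply, PowerSeries.coeff_map,
        PowerSeries.coeff_zero_eq_constantCoeff_apply, constantCoeff_qMono]; simp
    simp [h7, hc]
  have h3 := qExpansion_eq_qExpansion_discriminant_mul g hg0
  have hh := ih ((4 * (a : ℤ) + 6 * (b : ℤ) - 12).toNat) (by omega) _ rfl
    (CuspForm.discriminantEquiv (toCuspForm g hg0))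
  have h4 := discriminant_mul_mem_span _ _ hh
  rw [← h3, hqg] at h4
  have h5 : c • (qMono a b).map (Int.castRingHom ℂ) ∈
      Submodule.span ℂ (monoSet (4 * (a : ℤ) + 6 * (b : ℤ))) :=
    Submodule.smul_mem _ _ (Submodule.subset_span ⟨a, b, rfl, rfl⟩)
  have := Submodule.add_mem _ h4 h5
  simpa using this

/-- The `q`-expansion of a level-one modular form of weight `k` is a `ℂ`-combination of the
integral monomials `qE4 ^ a * qE6 ^ b`, `4 a + 6 b = k`. -/
theorem levelOne_qExpansion_mem_span (k : ℤ) (f : ModularForm 𝒮ℒ k) :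
    qExpansion 1 f ∈ Submodule.span ℂ (monoSet k) :=
  levelOne_qExpansion_mem_span_aux _ k rfl f

/-- Every `ℂ`-combination of monomials of weight `k` is the `q`-expansion of a level-one form. -/
theorem exists_levelOne_of_mem_span (k : ℤ) (P : PowerSeries ℂ)
    (hP : P ∈ Submodule.span ℂ (monoSet k)) :
    ∃ f : ModularForm 𝒮ℒ k, qExpansion 1 f = P := by
  induction hP using Submodule.span_induction with
  | mem x hx =>
    obtain ⟨a, b, hab, rfl⟩ := hx
    subst hab
    exact ⟨monoForm a b, qExpansion_monoForm a b⟩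
  | zero => exact ⟨0, by simp [qExpansion_zero]⟩
  | add x y _ _ hx hy =>
    obtain ⟨f, rfl⟩ := hx
    obtain ⟨g, rfl⟩ := hy
    exact ⟨f + g, by
      rw [FunLike.coe_add, ModularForm.qExpansion_add one_pos one_mem_strictPeriods_SL]⟩
  | smul c x _ hx =>
    obtain ⟨f, rfl⟩ := hx
    exact ⟨c • f, by
      rw [FunLike.coe_smul, ModularForm.qExpansion_smul one_pos one_mem_strictPeriods_SL]⟩



/-- Coefficientwise application of an additive map to a power series. -/
def mapCoeff (ρ : ℂ →+ ℂ) (P : PowerSeries ℂ) : PowerSeries ℂ :=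
  PowerSeries.mk fun n => ρ (P.coeff n)

@[simp] theorem coeff_mapCoeff (ρ : ℂ →+ ℂ) (P : PowerSeries ℂ) (n : ℕ) :
    (mapCoeff ρ P).coeff n = ρ (P.coeff n) := by
  simp [mapCoeff]

theorem mapCoeff_ringHom (σ : ℂ →+* ℂ) (P : PowerSeries ℂ) :
    mapCoeff σ.toAddMonoidHom P = P.map σ := by
  ext n; simp

theorem mapCoeff_mem_span (k : ℤ) (P : PowerSeries ℂ)
    (hP : P ∈ Submodule.span ℂ (monoSet k)) :
    ∀ ρ : ℂ →+ ℂ, mapCoeff ρ P ∈ Submodule.span ℂ (monoSet k) := by
  induction hP using Submodule.span_induction with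
  | mem x hx =>
    intro ρ
    obtain ⟨a, b, hab, rfl⟩ := hx
    have : mapCoeff ρ ((qMono a b).map (Int.castRingHom ℂ)) =
        ρ 1 • (qMono a b).map (Int.castRingHom ℂ) := by
      ext n
      simp only [coeff_mapCoeff, PowerSeries.coeff_map, PowerSeries.coeff_smul, smul_eq_mul,
        eq_intCast]
      rw [(zsmul_one ((PowerSeries.coeff n) (qMono a b))).symm, map_zsmul]
      simp [mul_comm]
    rw [this]
    exact Submodule.smul_mem _ _ (Submodule.subset_span ⟨a, b, hab, rfl⟩)
  | zero =>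
    intro ρ
    have : mapCoeff ρ 0 = 0 := by ext n; simp
    rw [this]; exact Submodule.zero_mem _
  | add x y _ _ hx hy =>
    intro ρ
    have : mapCoeff ρ (x + y) = mapCoeff ρ x + mapCoeff ρ y := by ext n; simp
    rw [this]; exact Submodule.add_mem _ (hx ρ) (hy ρ)
  | smul c x _ hx =>
    intro ρ
    have : mapCoeff ρ (c • x) = mapCoeff (ρ.comp (AddMonoidHom.mulLeft c)) x := by
      ext n; simp
    rw [this]; exact hx _

/-- Transport of a level-one modular form along an arbitrary additive map `ρ : ℂ →+ ℂ`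
applied coefficientwise to the `q`-expansion. -/
theorem levelOne_transport (ρ : ℂ →+ ℂ) (k : ℤ) (f : ModularForm 𝒮ℒ k) :
    ∃ g : ModularForm 𝒮ℒ k, ∀ n, (qExpansion 1 g).coeff n = ρ ((qExpansion 1 f).coeff n) := by
  obtain ⟨g, hg⟩ := exists_levelOne_of_mem_span k _
    (mapCoeff_mem_span k _ (levelOne_qExpansion_mem_span k f) ρ)
  exact ⟨g, fun n => by rw [hg, coeff_mapCoeff]⟩

/-- Transport of a level-one modular form along a ring endomorphism of `ℂ`. -/
theorem levelOne_transport_ringHom (σ : ℂ →+* ℂ) (k : ℤ) (f : ModularForm 𝒮ℒ k) :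
    ∃ g : ModularForm 𝒮ℒ k, qExpansion 1 g = (qExpansion 1 f).map σ := by
  obtain ⟨g, hg⟩ := levelOne_transport σ.toAddMonoidHom k f
  exact ⟨g, by ext n; rw [hg]; simp⟩

/-- Transport of a level-one cusp form along an arbitrary additive map. -/
theorem levelOne_transport_cusp (ρ : ℂ →+ ℂ) (k : ℤ) (f : CuspForm 𝒮ℒ k) :
    ∃ g : CuspForm 𝒮ℒ k, ∀ n, (qExpansion 1 g).coeff n = ρ ((qExpansion 1 f).coeff n) := by
  obtain ⟨g, hg⟩ := levelOne_transport ρ k (CuspForm.toModularFormₗ f)
  have hcoe : (⇑(CuspForm.toModularFormₗ f) : ℍ → ℂ) = ⇑f := rfl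
  rw [hcoe] at hg
  have h0 : (qExpansion 1 f).coeff 0 = 0 :=
    CuspFormClass.qExpansion_coeff_zero f one_pos one_mem_strictPeriods_SL
  have hg0 : (qExpansion 1 g).coeff 0 = 0 := by rw [hg, h0, map_zero]
  refine ⟨toCuspForm g hg0, fun n => ?_⟩
  have hcoe2 : (⇑(toCuspForm g hg0) : ℍ → ℂ) = ⇑g := rfl
  rw [hcoe2]
  exact hg n

/-- Transport of a level-one cusp form along a ring endomorphism of `ℂ`. -/
theorem levelOne_transport_cusp_ringHom (σ : ℂ →+* ℂ) (k : ℤ) (f : CuspForm 𝒮ℒ k) :
    ∃ g : CuspForm 𝒮ℒ k, qExpansion 1 g = (qExpansion 1 f).map σ := by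
  obtain ⟨g, hg⟩ := levelOne_transport_cusp σ.toAddMonoidHom k f
  exact ⟨g, by ext n; rw [hg]; simp⟩

theorem bounded_of_mem_span (k : ℤ) (P : PowerSeries ℂ)
    (hP : P ∈ Submodule.span ℂ (monoSet k)) :
    ∀ ρ : ℂ →ₗ[ℚ] ℚ, ∃ M : ℕ, M ≠ 0 ∧ ∀ n, ∃ m : ℤ, (M : ℚ) * ρ (P.coeff n) = m := by
  induction hP using Submodule.span_induction with
  | mem x hx =>
    intro ρ
    obtain ⟨a, b, hab, rfl⟩ := hx
    refine ⟨(ρ 1).den, (ρ 1).den_nz, fun n => ⟨(ρ 1).num * (qMono a b).coeff n, ?_⟩⟩
    simp only [PowerSeries.coeff_map, eq_intCast]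
    have h1 : ρ (((PowerSeries.coeff n) (qMono a b) : ℤ) : ℂ) =
        ((PowerSeries.coeff n) (qMono a b) : ℤ) * ρ 1 := by
      rw [(zsmul_one ((PowerSeries.coeff n) (qMono a b))).symm, map_zsmul]
      simp
    rw [h1]
    push_cast
    have h2 : ((ρ 1).den : ℚ) * ρ 1 = (ρ 1).num := Rat.den_mul_eq_num (ρ 1)
    calc ((ρ 1).den : ℚ) * (((PowerSeries.coeff n) (qMono a b) : ℤ) * ρ 1)
        = ((PowerSeries.coeff n) (qMono a b) : ℤ) * (((ρ 1).den : ℚ) * ρ 1) := by ring
      _ = _ := by rw [h2]; ring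
  | zero =>
    intro ρ
    exact ⟨1, one_ne_zero, fun n => ⟨0, by simp⟩⟩
  | add x y _ _ hx hy =>
    intro ρ
    obtain ⟨M₁, hM₁, h₁⟩ := hx ρ
    obtain ⟨M₂, hM₂, h₂⟩ := hy ρ
    refine ⟨M₁ * M₂, Nat.mul_ne_zero hM₁ hM₂, fun n => ?_⟩
    obtain ⟨m₁, hm₁⟩ := h₁ n
    obtain ⟨m₂, hm₂⟩ := h₂ n
    refine ⟨M₂ * m₁ + M₁ * m₂, ?_⟩
    simp only [map_add]
    push_cast
    rw [← hm₁, ← hm₂]; ring
  | smul c x _ hx =>
    intro ρ
    obtain ⟨M, hM, h⟩ := hx (ρ.comp ((LinearMap.mulLeft ℂ c).restrictScalars ℚ))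
    exact ⟨M, hM, fun n => by simpa using h n⟩

/-- There is a `ℚ`-linear retraction `ℂ → ℚ`. -/
theorem exists_rat_retraction : ∃ π : ℂ →ₗ[ℚ] ℚ, ∀ r : ℚ, π (r : ℂ) = r := by
  obtain ⟨π, hπ⟩ := LinearMap.exists_leftInverse_of_injective
    (Algebra.linearMap ℚ ℂ) (by
      rw [LinearMap.ker_eq_bot]
      exact (algebraMap ℚ ℂ).injective)
  refine ⟨π, fun r => ?_⟩
  have := LinearMap.congr_fun hπ r
  simpa using this

/-- A level-one modular form with rational `q`-expansion has bounded denominators. -/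
theorem levelOne_bounded_denominators (k : ℤ) (f : ModularForm 𝒮ℒ k)
    (hf : ∀ n, ∃ r : ℚ, (qExpansion 1 f).coeff n = (r : ℂ)) :
    ∃ M : ℕ, M ≠ 0 ∧ ∀ n, ∃ m : ℤ, (M : ℂ) * (qExpansion 1 f).coeff n = (m : ℂ) := by
  obtain ⟨π, hπ⟩ := exists_rat_retraction
  obtain ⟨M, hM, h⟩ := bounded_of_mem_span k _ (levelOne_qExpansion_mem_span k f) π
  refine ⟨M, hM, fun n => ?_⟩
  obtain ⟨m, hm⟩ := h n
  obtain ⟨r, hr⟩ := hf n
  refine ⟨m, ?_⟩
  rw [hr] at hm ⊢
  rw [hπ] at hm
  exact_mod_cast hm

end

end Fermat.Agent.S23.LevelOne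

end
-- ===== PACK-END S23/LevelOne.lean

-- ===== PACK-BEGIN S18/H9/Res.lean
section



/-!
# S18, squad S18/S05, pieces RES.1 and RES.2 (helper9)

Mathlib + Prelude only.  The two theorems have EXACTLY the unfolded types of
`Fermat.Agent.S18.Sq05.ResAlgClosedStatement` and `Fermat.Agent.S18.Sq05.ResCharStatement`
(frozen in `Fermat/Agent/S18/Sq05/Spec.lean`, squad-lead helper5), so
`(resAlgClosed : Sq05.ResAlgClosedStatement)` and `(resChar : Sq05.ResCharStatement)` hold by
unfolding the definitions.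

* `resAlgClosed` — the residue field of a valuation subring of an algebraically closed field is
  algebraically closed.
* `resChar` — primes different from the residue characteristic are invertible in the residue
  field.
-/

set_option autoImplicit false

namespace Fermat.Agent.S18.H9

open Polynomial

/-- **RES.1**: the residue field of a valuation subring of an algebraically closed field is
algebraically closed. -/
theorem resAlgClosed :
    ∀ (L : Type) [Field L] [IsAlgClosed L] (A : ValuationSubring L),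
      IsAlgClosed (IsLocalRing.ResidueField A) := by
  intro L _ _ A
  refine IsAlgClosed.of_exists_root _ fun p hpm hpi => ?_
  -- lift `p` to a monic polynomial over `A`
  have hsurj : Function.Surjective (IsLocalRing.residue A) := IsLocalRing.residue_surjective
  have hlift : p ∈ Polynomial.lifts (IsLocalRing.residue A) :=
    (Polynomial.mem_lifts p).mpr (Polynomial.map_surjective _ hsurj p)
  obtain ⟨P, hPmap, hPdeg, hPm⟩ := Polynomial.lifts_and_degree_eq_and_monic hlift hpm
  -- a root of `P` in `L`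
  have hdeg : (P.map (algebraMap A L)).degree ≠ 0 := by
    rw [Polynomial.degree_map_eq_of_injective (FaithfulSMul.algebraMap_injective A L), hPdeg]
    exact Polynomial.degree_pos_of_irreducible hpi |>.ne'
  obtain ⟨x, hx⟩ := IsAlgClosed.exists_root (P.map (algebraMap A L)) hdeg
  -- the root is integral over `A`, hence lies in `A`
  have hint : IsIntegral A x := ⟨P, hPm, by
    rw [← Polynomial.eval_map]; exact hx⟩
  obtain ⟨y, hy⟩ := (IsIntegrallyClosed.isIntegral_iff (R := A) (K := L)).mp hint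
  refine ⟨IsLocalRing.residue A y, ?_⟩
  have hy0 : P.eval y = 0 := by
    apply FaithfulSMul.algebraMap_injective A L
    rw [map_zero, ← Polynomial.eval₂_at_apply, Polynomial.eval₂_eq_eval_map, hy]
    exact hx
  rw [← hPmap, Polynomial.eval_map, Polynomial.eval₂_at_apply, hy0, map_zero]

/-- **RES.2**: primes different from the residue characteristic are invertible in the residue
field. -/
theorem resChar :
    ∀ (L : Type) [Field L] (A : ValuationSubring L) (ℓ p : ℕ), ℓ.Prime → p.Prime →
      A.LiesOverPrime ℓ → p ≠ ℓ → ((p : ℕ) : IsLocalRing.ResidueField A) ≠ 0 := by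
  intro L _ A ℓ p hℓ hp hA hne h0
  -- `ℓ` is in the maximal ideal
  have hℓm : ((ℓ : ℕ) : A) ∈ IsLocalRing.maximalIdeal A := by
    obtain ⟨ha, hm⟩ := (ValuationSubring.mem_nonunits_iff_exists_mem_maximalIdeal).mp hA
    have : (⟨(ℓ : L), ha⟩ : A) = ((ℓ : ℕ) : A) := by
      apply Subtype.ext; simp
    rwa [this] at hm
  -- `p` is in the maximal ideal
  have hpm : ((p : ℕ) : A) ∈ IsLocalRing.maximalIdeal A := by
    rw [← IsLocalRing.residue_eq_zero_iff]
    rw [map_natCast]
    exact h0
  -- Bezout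
  have hcop : IsCoprime (p : ℤ) (ℓ : ℤ) := by
    rw [Int.isCoprime_iff_gcd_eq_one]
    exact (Nat.coprime_primes hp hℓ).mpr hne
  obtain ⟨a, b, hab⟩ := hcop
  have h1 : (1 : A) ∈ IsLocalRing.maximalIdeal A := by
    have e : (1 : A) = (a : A) * ((p : ℕ) : A) + (b : A) * ((ℓ : ℕ) : A) := by
      have := congrArg (Int.cast : ℤ → A) hab
      push_cast at this
      rw [← this]
    rw [e]
    exact Ideal.add_mem _ (Ideal.mul_mem_left _ _ hpm) (Ideal.mul_mem_left _ _ hℓm)
  exact (Ideal.ne_top_iff_one _).mp (IsLocalRing.maximalIdeal.isMaximal A).ne_top h1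

end Fermat.Agent.S18.H9

end
-- ===== PACK-END S18/H9/Res.lean

-- ===== PACK-BEGIN S18/H602/LaurentDeriv.lean
section


/-!
# The derivation `d/dq` of `k((q))`  (helper602, S18 / MOD piece SEP, part 1)

Mathlib has `LaurentSeries.derivative` as a linear map only.  We prove the Leibniz rule and bundle
it as a `Derivation k k((q)) k((q))`.

* `dq_mul` : `d/dq (f g) = f · d/dq g + g · d/dq f`.
* `dqDer k : Derivation k (LaurentSeries k) (LaurentSeries k)`.
-/

set_option autoImplicit false

noncomputable section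

namespace Fermat.Agent.S18.H602

open HahnSeries

variable {k : Type*} [CommRing k]

/-- `d/dq` on `k((q))`. -/
def dq (f : LaurentSeries k) : LaurentSeries k := LaurentSeries.derivative k f

@[simp]
theorem dq_coeff (f : LaurentSeries k) (n : ℤ) : (dq f).coeff n = (n + 1) • f.coeff (n + 1) := by
  simp [dq]

theorem dq_add (f g : LaurentSeries k) : dq (f + g) = dq f + dq g := map_add _ f g

theorem dq_single_mul (n : ℤ) (h : LaurentSeries k) :
    dq (single n (1 : k) * h) = n • (single (n - 1) (1 : k) * h) + single n (1 : k) * dq h := by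
  ext m
  simp only [dq_coeff, coeff_add, coeff_single_mul, one_mul, HahnSeries.coeff_smul]
  have e1 : m + 1 - n = m - (n - 1) := by ring
  have e2 : m - n + 1 = m - (n - 1) := by ring
  rw [e1, e2]
  simp only [zsmul_eq_mul]
  push_cast
  ring

theorem dq_ofPowerSeries (F : PowerSeries k) :
    dq (ofPowerSeries ℤ k F) = ofPowerSeries ℤ k (PowerSeries.derivative k F) := by
  ext m
  rw [dq_coeff]
  rcases lt_or_ge m 0 with hm | hm
  · have h1 : ((ofPowerSeries ℤ k) ((PowerSeries.derivative k) F)).coeff m = 0 := by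
      rw [ofPowerSeries_apply]
      apply HahnSeries.embDomain_of_notMem_range
      rintro ⟨a, ha⟩
      have : (0 : ℤ) ≤ m := by rw [← ha]; simp
      omega
    rw [h1]
    rcases eq_or_lt_of_le (show m + 1 ≤ 0 by omega) with h0 | h0
    · rw [h0]; simp
    · have h2 : ((ofPowerSeries ℤ k) F).coeff (m + 1) = 0 := by
        rw [ofPowerSeries_apply]
        apply HahnSeries.embDomain_of_notMem_range
        rintro ⟨a, ha⟩
        have : (0 : ℤ) ≤ m + 1 := by rw [← ha]; simp
        omega
      rw [h2, smul_zero]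
  · lift m to ℕ using hm
    have e : ((m : ℤ) + 1) = ((m + 1 : ℕ) : ℤ) := by push_cast; ring
    rw [ofPowerSeries_apply_coeff, PowerSeries.coeff_derivative, e, ofPowerSeries_apply_coeff]
    simp only [zsmul_eq_mul]
    push_cast
    ring

theorem dq_ofPowerSeries_mul (F G : PowerSeries k) :
    dq (ofPowerSeries ℤ k F * ofPowerSeries ℤ k G) =
      ofPowerSeries ℤ k F * dq (ofPowerSeries ℤ k G) +
        ofPowerSeries ℤ k G * dq (ofPowerSeries ℤ k F) := by
  rw [← map_mul, dq_ofPowerSeries, dq_ofPowerSeries, dq_ofPowerSeries, Derivation.leibniz,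
    map_add, smul_eq_mul, smul_eq_mul, map_mul, map_mul]

/-- **Leibniz rule** for `d/dq` on Laurent series. -/
theorem dq_mul (f g : LaurentSeries k) : dq (f * g) = f * dq g + g * dq f := by
  obtain ⟨a, F, rfl⟩ : ∃ (a : ℤ) (F : PowerSeries k), single a (1 : k) * ofPowerSeries ℤ k F = f :=
    ⟨_, _, LaurentSeries.single_order_mul_powerSeriesPart f⟩
  obtain ⟨b, G, rfl⟩ : ∃ (b : ℤ) (G : PowerSeries k), single b (1 : k) * ofPowerSeries ℤ k G = g :=
    ⟨_, _, LaurentSeries.single_order_mul_powerSeriesPart g⟩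
  set F' := ofPowerSeries ℤ k F with hF'
  set G' := ofPowerSeries ℤ k G with hG'
  have h1 : single a (1 : k) * F' * (single b (1 : k) * G') =
      single (a + b) (1 : k) * (F' * G') := by
    rw [mul_mul_mul_comm, single_mul_single, one_mul]
  have s1 : (single (a - 1) (1 : k) : LaurentSeries k) * single b (1 : k) =
      single (a + b - 1) (1 : k) := by
    rw [single_mul_single, one_mul, show a - 1 + b = a + b - 1 by ring]
  have s2 : (single a (1 : k) : LaurentSeries k) * single (b - 1) (1 : k) =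
      single (a + b - 1) (1 : k) := by
    rw [single_mul_single, one_mul, show a + (b - 1) = a + b - 1 by ring]
  have s3 : (single a (1 : k) : LaurentSeries k) * single b (1 : k) =
      single (a + b) (1 : k) := by
    rw [single_mul_single, one_mul]
  rw [h1, dq_single_mul, dq_single_mul, dq_single_mul, dq_ofPowerSeries_mul]
  simp only [zsmul_eq_mul]
  push_cast
  linear_combination ((a : LaurentSeries k) * F' * G' ) * s1.symm +
    ((b : LaurentSeries k) * F' * G') * s2.symm +
    (F' * dq G' + G' * dq F') * s3.symm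

theorem dq_C (c : k) : dq (C c : LaurentSeries k) = 0 := by
  ext m
  rw [dq_coeff, coeff_zero]
  by_cases h : m + 1 = 0
  · rw [h]; simp
  · rw [C_apply, coeff_single_of_ne h, smul_zero]

theorem dq_one : dq (1 : LaurentSeries k) = 0 := by
  have := dq_C (1 : k)
  rwa [map_one] at this

theorem algebraMap_eq_C (c : k) : algebraMap k (LaurentSeries k) c = C c := by
  have h1 : algebraMap k (PowerSeries k) c = PowerSeries.C c := by simp
  rw [HahnSeries.algebraMap_apply', h1, HahnSeries.ofPowerSeries_C]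

theorem dq_algebraMap (c : k) : dq (algebraMap k (LaurentSeries k) c) = 0 := by
  rw [algebraMap_eq_C]
  exact dq_C c

/-- `d/dq` as a `k`-derivation of `k((q))`. -/
def dqDer (k : Type*) [CommRing k] : Derivation k (LaurentSeries k) (LaurentSeries k) where
  toFun := dq
  map_add' := dq_add
  map_smul' c f := by
    rw [Algebra.smul_def, dq_mul, dq_algebraMap, mul_zero, add_zero, RingHom.id_apply,
      algebraMap_eq_C, HahnSeries.C_mul_eq_smul]
  map_one_eq_zero' := dq_one
  leibniz' a b := by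
    have := dq_mul a b
    simpa [smul_eq_mul] using this

@[simp]
theorem dqDer_apply (f : LaurentSeries k) : dqDer k f = dq f := rfl

end Fermat.Agent.S18.H602

end
end
-- ===== PACK-END S18/H602/LaurentDeriv.lean

-- ===== PACK-BEGIN Ribet/H940/CharP.lean
section


/-!
# RIBET wall-p, leaf I3 (helper940): derivations of separably generated fields in characteristic `p`

`E / k(x)` separable algebraic, `char k = p`, `D : Derivation k E M`:

* `exists_smul_of_isSeparable` : every `D f` is a multiple `z • D x`, `z ∈ E`;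
* `exists_pow_eq_of_derivation_eq_zero` : if `k` is perfect and `D x ≠ 0`, then `D f = 0` only for
  `p`-th powers.
-/

set_option autoImplicit false
set_option linter.unusedSectionVars false
set_option linter.style.haveILetI false

noncomputable section

namespace Fermat.Agent.Ribet.H940

open IntermediateField Polynomial

section Sep

variable {k E M : Type*} [Field k] [Field E] [Algebra k E] [AddCommGroup M] [Module E M]
  [Module k M]

/-- the elements whose derivative is a multiple of `D x` -/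
def derMulField (D : Derivation k E M) (x : E) : IntermediateField k E where
  carrier := {f | ∃ z : E, D f = z • D x}
  mul_mem' := by
    rintro f g ⟨zf, hf⟩ ⟨zg, hg⟩
    refine ⟨f * zg + g * zf, ?_⟩
    rw [D.leibniz, hf, hg, smul_smul, smul_smul, add_smul]
  one_mem' := ⟨0, by rw [D.map_one_eq_zero, zero_smul]⟩
  add_mem' := by
    rintro f g ⟨zf, hf⟩ ⟨zg, hg⟩
    exact ⟨zf + zg, by rw [map_add, hf, hg, add_smul]⟩
  zero_mem' := ⟨0, by rw [map_zero, zero_smul]⟩
  algebraMap_mem' := fun c => ⟨0, by rw [D.map_algebraMap, zero_smul]⟩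
  inv_mem' := by
    rintro f ⟨zf, hf⟩
    refine ⟨-f⁻¹ ^ 2 * zf, ?_⟩
    rw [D.leibniz_inv, hf, smul_smul]

theorem mem_derMulField {D : Derivation k E M} {x f : E} :
    f ∈ derMulField D x ↔ ∃ z : E, D f = z • D x := Iff.rfl

theorem self_mem_derMulField (D : Derivation k E M) (x : E) : x ∈ derMulField D x :=
  ⟨1, by rw [one_smul]⟩

theorem derivation_pow_char (p : ℕ) [Fact p.Prime] [CharP k p]
    (D : Derivation k E M) (a : E) : D (a ^ p) = 0 := by
  haveI : CharP E p := charP_of_injective_algebraMap (algebraMap k E).injective p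
  rw [D.leibniz_pow, ← Nat.cast_smul_eq_nsmul E, CharP.cast_eq_zero E p, zero_smul]

/-- **(θ-ii)**: over a separably generated field, every derivative is a multiple of `D x`. -/
theorem exists_smul_of_isSeparable (p : ℕ) [hp : Fact p.Prime] [CharP k p]
    (D : Derivation k E M) (x : E)
    [Algebra.IsSeparable k⟮x⟯ E] (f : E) : ∃ z : E, D f = z • D x := by
  haveI : CharP k⟮x⟯ p := charP_of_injective_algebraMap (algebraMap k k⟮x⟯).injective p
  haveI : ExpChar k⟮x⟯ p := ExpChar.prime hp.out
  have h := adjoin_eq_adjoin_pow_expChar_of_isSeparable' k⟮x⟯ E Set.univ p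
  have hle : k⟮x⟯ ≤ derMulField D x := by
    rw [adjoin_le_iff]
    rintro y hy
    rw [Set.mem_singleton_iff] at hy
    subst hy
    exact self_mem_derMulField D y
  have hf : f ∈ adjoin k⟮x⟯ ((· ^ p) '' (Set.univ : Set E)) := by
    rw [← h]
    exact subset_adjoin _ _ (Set.mem_univ f)
  have key : f ∈ derMulField D x := by
    induction hf using IntermediateField.adjoin_induction with
    | mem y hy =>
        obtain ⟨a, -, rfl⟩ := hy
        exact ⟨0, by rw [zero_smul]; exact derivation_pow_char p D a⟩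
    | algebraMap c => exact hle c.2
    | add y z _ _ hy hz => exact add_mem hy hz
    | inv y _ hy => exact inv_mem hy
    | mul y z _ _ hy hz => exact mul_mem hy hz
  exact key

end Sep

section Pow

variable {k E M : Type*} [Field k] [Field E] [Algebra k E] [AddCommGroup M] [Module E M]
  [Module k M]

/-- **(θ-iii)**: `D f = 0` only for `p`-th powers. -/
theorem exists_pow_eq_of_derivation_eq_zero (p : ℕ) [hp : Fact p.Prime] [CharP k p]
    [PerfectField k] (D : Derivation k E M) (x : E)
    [Algebra.IsSeparable k⟮x⟯ E] (hx : D x ≠ 0) {f : E} (hf : D f = 0) :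
    ∃ s : E, f = s ^ p := by
  classical
  haveI : CharP E p := charP_of_injective_algebraMap (algebraMap k E).injective p
  haveI : CharP k⟮x⟯ p := charP_of_injective_algebraMap (algebraMap k k⟮x⟯).injective p
  haveI : ExpChar k⟮x⟯ p := ExpChar.prime hp.out
  let φ : E →+* E := frobenius E p
  let Ep : Subfield E := φ.fieldRange
  have hpow : ∀ a : E, a ^ p ∈ Ep := fun a => ⟨a, rfl⟩
  haveI : CharP Ep p :=
    (RingHom.charP_iff (algebraMap Ep E) (algebraMap Ep E).injective p).mpr inferInstance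
  -- `D` kills `Ep`
  have hDEp : ∀ c : Ep, D (c : E) = 0 := by
    rintro ⟨c, a, rfl⟩
    exact derivation_pow_char p D a
  -- Step B: everything lies in `Ep(x)`
  let W : IntermediateField Ep E := IntermediateField.adjoin Ep {x}
  have hxW : x ∈ W := IntermediateField.mem_adjoin_simple_self Ep x
  have hEpW : ∀ a : E, a ∈ Ep → a ∈ W := fun a ha => W.algebraMap_mem ⟨a, ha⟩
  have hkW : ∀ c : k, algebraMap k E c ∈ W := by
    intro c
    obtain ⟨c', hc'⟩ := surjective_frobenius k p c
    refine hEpW _ ⟨algebraMap k E c', ?_⟩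
    show (algebraMap k E c') ^ p = _
    rw [← map_pow, ← hc']
    rfl
  have hkxW : ∀ c : E, c ∈ k⟮x⟯ → c ∈ W := by
    intro c hc
    induction hc using IntermediateField.adjoin_induction with
    | mem y hy =>
        rw [Set.mem_singleton_iff] at hy
        subst hy
        exact hxW
    | algebraMap c => exact hkW c
    | add y z _ _ hy hz => exact add_mem hy hz
    | inv y _ hy => exact inv_mem hy
    | mul y z _ _ hy hz => exact mul_mem hy hz
  have hall : ∀ g : E, g ∈ W := by
    intro g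
    have h := adjoin_eq_adjoin_pow_expChar_of_isSeparable' k⟮x⟯ E Set.univ p
    have hg : g ∈ adjoin k⟮x⟯ ((· ^ p) '' (Set.univ : Set E)) := by
      rw [← h]
      exact subset_adjoin _ _ (Set.mem_univ g)
    induction hg using IntermediateField.adjoin_induction with
    | mem y hy =>
        obtain ⟨a, -, rfl⟩ := hy
        exact hEpW _ (hpow a)
    | algebraMap c => exact hkxW _ c.2
    | add y z _ _ hy hz => exact add_mem hy hz
    | inv y _ hy => exact inv_mem hy
    | mul y z _ _ hy hz => exact mul_mem hy hz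
  -- Step A: `x` is integral over `Ep`, of degree `≤ p`
  let c₀ : Ep := ⟨x ^ p, hpow x⟩
  have hroot : aeval x (X ^ p - C c₀ : Ep[X]) = 0 := by
    rw [map_sub, map_pow, aeval_X, aeval_C]
    exact sub_self _
  have hmonic : (X ^ p - C c₀ : Ep[X]).Monic := monic_X_pow_sub_C c₀ hp.out.ne_zero
  have hint : IsIntegral Ep x := ⟨_, hmonic, hroot⟩
  have hdeg : (minpoly Ep x).natDegree ≤ p := by
    have hdvd := minpoly.dvd Ep x hroot
    have := natDegree_le_of_dvd hdvd hmonic.ne_zero
    rwa [natDegree_X_pow_sub_C] at this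
  -- Step C: a polynomial representation of small degree
  have hfW : f ∈ W.toSubalgebra := hall f
  rw [IntermediateField.adjoin_simple_toSubalgebra_of_isAlgebraic hint.isAlgebraic,
    Algebra.adjoin_singleton_eq_range_aeval] at hfW
  obtain ⟨P, hP⟩ := hfW
  have hP' : aeval x P = f := hP
  let P₁ : Ep[X] := P %ₘ minpoly Ep x
  have hP₁ : aeval x P₁ = f := by
    rw [← hP']
    exact aeval_modByMonic_eq_self_of_root (minpoly.aeval Ep x)
  have hdeg₁ : P₁.degree < (minpoly Ep x).degree :=
    degree_modByMonic_lt P (minpoly.monic hint)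
  -- Step D: the derivative
  have hder : ∀ Q : Ep[X], D (aeval x Q) = aeval x (derivative Q) • D x := by
    intro Q
    induction Q using Polynomial.induction_on' with
    | add Q₁ Q₂ h₁ h₂ => rw [map_add, map_add, h₁, h₂, derivative_add, map_add, add_smul]
    | monomial n c =>
        rw [aeval_monomial, derivative_monomial, aeval_monomial, D.leibniz, D.leibniz_pow]
        have h0 : D (algebraMap Ep E c) = 0 := hDEp c
        rw [h0, smul_zero, add_zero, ← Nat.cast_smul_eq_nsmul E, smul_smul, smul_smul, map_mul,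
          map_natCast]
  have h1 : aeval x (derivative P₁) • D x = 0 := by
    rw [← hder, hP₁, hf]
  have h2 : aeval x (derivative P₁) = 0 := (smul_eq_zero.mp h1).resolve_right hx
  have h3 : derivative P₁ = 0 := by
    by_contra hne
    have hle := minpoly.degree_le_of_ne_zero Ep x hne h2
    have hlt : (derivative P₁).degree < (minpoly Ep x).degree :=
      lt_of_le_of_lt (degree_derivative_le) hdeg₁
    exact absurd hle (not_le.mpr hlt)
  have hnat : P₁.natDegree < p := by
    rcases eq_or_ne P₁ 0 with h0 | h0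
    · rw [h0, natDegree_zero]
      exact hp.out.pos
    · have := (natDegree_lt_natDegree_iff h0).mpr hdeg₁
      omega
  have h4 : ∀ n : ℕ, P₁.coeff (n + 1) = 0 := by
    intro n
    by_contra hne
    have hn : n + 1 ≤ P₁.natDegree := le_natDegree_of_ne_zero hne
    have hc : (derivative P₁).coeff n = 0 := by rw [h3, coeff_zero]
    rw [coeff_derivative] at hc
    rcases mul_eq_zero.mp hc with h | h
    · exact hne h
    · have h' : ((n + 1 : ℕ) : Ep) = 0 := by exact_mod_cast h
      rw [CharP.cast_eq_zero_iff Ep p] at h'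
      have := Nat.le_of_dvd (Nat.succ_pos n) h'
      omega
  have h5 : P₁ = C (P₁.coeff 0) := by
    ext n
    rcases n with _ | n
    · simp
    · rw [h4 n, coeff_C_succ]
  obtain ⟨s, hs⟩ : ∃ s : E, φ s = (P₁.coeff 0 : E) := (P₁.coeff 0).2
  refine ⟨s, ?_⟩
  rw [← hP₁, h5, aeval_C]
  exact hs.symm

end Pow

end Fermat.Agent.Ribet.H940

end
end
-- ===== PACK-END Ribet/H940/CharP.lean

-- ===== PACK-BEGIN S37/H939/MatrixCorank.lean
section


/-!
# Corank of the reduction of a matrix bounds the valuation of its determinant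
(row S37 / S18, piece b2 = R2; seat helper939)

`S` a commutative ring, `K` a field, `φ : S →+* K` surjective with kernel contained in `(π)`.
For a square matrix `G` over `S`:  `π ^ (n - rank (φ G)) ∣ det G`.
-/

set_option autoImplicit false

namespace Fermat.Agent.S37.H939

open Matrix

variable {S K : Type*} [CommRing S] [Field K] {ι : Type*} [Fintype ι] [DecidableEq ι]

lemma prod_ite_mem_eq_pow_card (J : Finset ι) (π : S) :
    (∏ j, if j ∈ J then π else 1) = π ^ J.card := by
  classical
  rw [Finset.prod_ite, Finset.prod_const_one, mul_one, Finset.prod_const]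
  congr 1
  congr 1
  ext j
  simp

/-- If every column indexed by `J` of `G` is divisible by `π`, then `π ^ #J ∣ det G`. -/
lemma pow_card_dvd_det_of_cols (G : Matrix ι ι S) (π : S) (J : Finset ι)
    (h : ∀ j ∈ J, ∀ i, π ∣ G i j) : π ^ J.card ∣ G.det := by
  classical
  choose! q hq using h
  -- `G = H * diagonal δ`
  let δ : ι → S := fun j => if j ∈ J then π else 1
  let H : Matrix ι ι S := fun i j => if j ∈ J then q j i else G i j
  have hG : G = H * diagonal δ := by
    ext i j
    rw [Matrix.mul_diagonal]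
    by_cases hj : j ∈ J
    · simp only [H, δ, hj, if_true]
      rw [hq j hj i, mul_comm]
    · simp only [H, δ, hj, if_false, mul_one]
  have hδ : ∏ j, δ j = π ^ J.card := prod_ite_mem_eq_pow_card J π
  rw [hG, Matrix.det_mul, Matrix.det_diagonal, hδ]
  exact Dvd.intro_left _ rfl

omit [Fintype ι] in
/-- Lift a transvection along a surjective ring hom. -/
lemma exists_transvection_lift (φ : S →+* K) (hφ : Function.Surjective φ)
    (t : TransvectionStruct ι K) :
    ∃ t' : TransvectionStruct ι S, t'.toMatrix.map φ = t.toMatrix := by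
  obtain ⟨s, hs⟩ := hφ t.c
  refine ⟨⟨t.i, t.j, t.hij, s⟩, ?_⟩
  ext a b
  simp only [TransvectionStruct.toMatrix, transvection, Matrix.map_apply, Matrix.add_apply,
    Matrix.one_apply, Matrix.single_apply]
  split_ifs <;> simp [hs]

/-- Lift a product of transvections along a surjective ring hom, keeping determinant `1`. -/
lemma exists_lift_prod_transvections (φ : S →+* K) (hφ : Function.Surjective φ)
    (L : List (TransvectionStruct ι K)) :
    ∃ P : Matrix ι ι S, P.det = 1 ∧ P.map φ = (L.map TransvectionStruct.toMatrix).prod := by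
  induction L with
  | nil => exact ⟨1, by simp, by simp⟩
  | cons t L ih =>
    obtain ⟨P, hP, hPφ⟩ := ih
    obtain ⟨t', ht'⟩ := exists_transvection_lift φ hφ t
    refine ⟨t'.toMatrix * P, by simp [hP], ?_⟩
    rw [List.map_cons, List.prod_cons, ← hPφ, ← ht', Matrix.map_mul]

/-- **Corank lemma.** If `φ : S →+* K` is surjective with `ker φ ⊆ (π)`, then for every square
matrix `G` over `S` we have `π ^ (n - rank (φ G)) ∣ det G`. -/
theorem pow_corank_dvd_det (φ : S →+* K) (hφ : Function.Surjective φ) (π : S)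
    (hπ : ∀ s, φ s = 0 → π ∣ s) (G : Matrix ι ι S) :
    π ^ (Fintype.card ι - (G.map φ).rank) ∣ G.det := by
  classical
  obtain ⟨L, L', D, hD⟩ :=
    Matrix.Pivot.exists_list_transvec_mul_diagonal_mul_list_transvec (G.map φ)
  obtain ⟨P, hP, hPφ⟩ := exists_lift_prod_transvections φ hφ L
  obtain ⟨P', hP', hP'φ⟩ := exists_lift_prod_transvections φ hφ L'
  -- `G' = adj P * G * adj P'` reduces to `diagonal D`
  set G' : Matrix ι ι S := P.adjugate * G * P'.adjugate with hG'
  have hdet : G'.det = G.det := by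
    rw [hG', Matrix.det_mul, Matrix.det_mul, Matrix.det_adjugate, Matrix.det_adjugate, hP, hP']
    simp
  have hPu : IsUnit (P.map φ).det := by
    rw [← RingHom.mapMatrix_apply, ← RingHom.map_det, hP, map_one]; exact isUnit_one
  have hP'u : IsUnit (P'.map φ).det := by
    rw [← RingHom.mapMatrix_apply, ← RingHom.map_det, hP', map_one]; exact isUnit_one
  have hadjP : (P.adjugate).map φ * P.map φ = 1 := by
    rw [← Matrix.map_mul, Matrix.adjugate_mul, hP, one_smul]
    simp
  have hadjP' : P'.map φ * (P'.adjugate).map φ = 1 := by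
    rw [← Matrix.map_mul, Matrix.mul_adjugate, hP', one_smul]
    simp
  have hred : G'.map φ = diagonal D := by
    rw [hG', Matrix.map_mul, Matrix.map_mul, hD, ← hPφ, ← hP'φ]
    calc (P.adjugate).map φ * (P.map φ * diagonal D * P'.map φ) * (P'.adjugate).map φ
        = ((P.adjugate).map φ * P.map φ) * diagonal D * (P'.map φ * (P'.adjugate).map φ) := by
          simp only [Matrix.mul_assoc]
      _ = diagonal D := by rw [hadjP, hadjP', Matrix.one_mul, Matrix.mul_one]
  -- the rank
  have hrank : (G.map φ).rank = Fintype.card {i // D i ≠ 0} := by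
    rw [hD, ← hPφ, ← hP'φ, Matrix.rank_mul_eq_left_of_isUnit_det _ _ hP'u,
      Matrix.rank_mul_eq_right_of_isUnit_det _ _ hPu, Matrix.rank_diagonal]
  -- the zero columns
  let J : Finset ι := Finset.univ.filter fun j => D j = 0
  have hJ : J.card = Fintype.card ι - (G.map φ).rank := by
    rw [hrank]
    have h1 : Fintype.card {i // D i ≠ 0} = (Finset.univ.filter fun j => D j ≠ 0).card := by
      rw [Fintype.card_subtype]
    have h2 : (Finset.univ.filter fun j => D j ≠ 0).card + J.card = Fintype.card ι := by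
      rw [add_comm]
      exact Finset.card_filter_add_card_filter_not (s := Finset.univ) (p := fun j => D j = 0)
        |>.trans Finset.card_univ
    omega
  rw [← hJ, ← hdet]
  apply pow_card_dvd_det_of_cols
  intro j hj i
  apply hπ
  have hj' : D j = 0 := by simpa [J] using hj
  have := congrFun (congrFun hred i) j
  rw [Matrix.map_apply] at this
  rw [this, Matrix.diagonal_apply]
  split_ifs with h
  · rw [h]; exact hj'
  · rfl

end Fermat.Agent.S37.H939

end
-- ===== PACK-END S37/H939/MatrixCorank.lean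

-- ===== PACK-BEGIN S37/H217/Gauss.lean
section


/-!
# Block ALG, lemma L4 (Gauss lemma for roots over a valuation ring)

`K` an algebraically closed field, `A` a valuation subring of `K` with residue field `k`,
`N ∈ A[X]` with nonzero reduction.  Then for every `cbar ∈ k` the multiplicity of `cbar` as a
root of the reduction of `N` equals the number (with multiplicity) of roots `c` of `N` in `K`
such that `c ∈ A` and `c` reduces to `cbar`.
-/

namespace Fermat.Agent.S37.H217

open Polynomial

section Gauss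

variable {K : Type*} [Field K]

/-- Coefficient recursion: if `(1 - C d * X) * Q = P` with `d ∈ A` and `P` with coefficients in
`A`, then `Q` has coefficients in `A`. -/
theorem coeff_mem_of_one_sub_mul (A : ValuationSubring K) (d : K) (hd : d ∈ A) (P Q : K[X])
    (hP : ∀ i, P.coeff i ∈ A) (h : (1 - C d * X) * Q = P) : ∀ i, Q.coeff i ∈ A := by
  have key : ∀ i, Q.coeff (i + 1) = P.coeff (i + 1) + d * Q.coeff i := by
    intro i
    rw [← h]
    simp [sub_mul, mul_assoc, coeff_X_mul, coeff_C_mul]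
  have key0 : Q.coeff 0 = P.coeff 0 := by
    rw [← h]; simp [sub_mul, mul_assoc]
  intro i
  induction i with
  | zero => rw [key0]; exact hP 0
  | succ i ih => rw [key]; exact A.add_mem _ _ (hP _) (A.mul_mem _ _ hd ih)

/-- If `c ∉ A` is a root (in `K`) of `N ∈ A[X]`, then `N = (1 - C d * X) * N₁` in `A[X]`, where
`d = c⁻¹` lies in the maximal ideal of `A`. -/
theorem exists_factor_of_root_not_mem (A : ValuationSubring K) (N : Polynomial A) (c : K)
    (hc : (N.map (algebraMap A K)).IsRoot c) (hcA : c ∉ A) :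
    ∃ (d : A) (N₁ : Polynomial A), d ∈ IsLocalRing.maximalIdeal A ∧ (d : K) = c⁻¹ ∧
      N = (1 - C d * X) * N₁ ∧
      N.map (algebraMap A K) = (X - C c) * (C (-c)⁻¹ * N₁.map (algebraMap A K)) := by
  have hinj : Function.Injective (algebraMap A K) := Subtype.coe_injective
  have hc0 : c ≠ 0 := fun h => hcA (h ▸ A.zero_mem)
  have hdA : c⁻¹ ∈ A := (A.mem_or_inv_mem c).resolve_left hcA
  obtain ⟨Q, hQ⟩ := dvd_iff_isRoot.mpr hc
  -- `N_K = (X - c) * Q = (1 - c⁻¹ X) * ((-c) Q)`
  have hfac : (1 - C c⁻¹ * X) * (C (-c) * Q) = N.map (algebraMap A K) := by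
    rw [hQ]
    have : (1 - C c⁻¹ * X) * (C (-c) * Q) = (C (-c) * (1 - C c⁻¹ * X)) * Q := by ring
    rw [this]
    congr 1
    rw [mul_sub, mul_one, ← mul_assoc, ← C_mul]
    have : -c * c⁻¹ = -1 := by field_simp
    rw [this]
    simp only [map_neg, map_one, neg_mul, one_mul, sub_neg_eq_add]
    ring
  have hcoeff : ∀ i, (C (-c) * Q).coeff i ∈ A := by
    refine coeff_mem_of_one_sub_mul A c⁻¹ hdA _ _ ?_ hfac
    intro i
    rw [coeff_map]
    exact (N.coeff i).2
  have hlift : (C (-c) * Q) ∈ Polynomial.lifts (algebraMap A K) := by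
    rw [Polynomial.lifts_iff_coeff_lifts]
    intro i
    exact ⟨⟨_, hcoeff i⟩, rfl⟩
  obtain ⟨N₁, hN₁⟩ := (Polynomial.mem_lifts _).mp hlift
  refine ⟨⟨c⁻¹, hdA⟩, N₁, ?_, rfl, ?_, ?_⟩
  · rw [IsLocalRing.mem_maximalIdeal]
    intro hu
    apply hcA
    have := (A.inv_mem_nonunits_iff (x := c))
    obtain ⟨u, hu'⟩ := hu
    have h1 : ((u⁻¹ : Aˣ) : A) * ⟨c⁻¹, hdA⟩ = 1 := by
      rw [← hu']; simp
    have h2 : (((u⁻¹ : Aˣ) : A) : K) * c⁻¹ = 1 := by
      have := congrArg (fun x : A => (x : K)) h1
      simpa using this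
    have h3 : (((u⁻¹ : Aˣ) : A) : K) = c := by
      field_simp at h2
      exact h2
    rw [← h3]
    exact ((u⁻¹ : Aˣ) : A).2
  · apply Polynomial.map_injective _ hinj
    rw [Polynomial.map_mul, hN₁, ← hfac]
    congr 1
    simp [Polynomial.map_sub, Polynomial.map_mul]
  · rw [hN₁, hQ, ← mul_assoc (C (-c)⁻¹), ← C_mul]
    have : (-c)⁻¹ * -c = 1 := by field_simp
    rw [this]; simp

open Classical in
/-- **Gauss lemma for roots.**  For `N ∈ A[X]` with nonzero reduction, the multiplicity of `cbar`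
as a root of the reduction equals the number of roots of `N` in `K` (with multiplicity) lying in
`A` and reducing to `cbar`. -/
theorem rootMultiplicity_map_residue_eq_card_filter [IsAlgClosed K]
    (A : ValuationSubring K) (N : Polynomial A)
    (hN : N.map (IsLocalRing.residue A) ≠ 0) (cbar : IsLocalRing.ResidueField A) :
    (N.map (IsLocalRing.residue A)).rootMultiplicity cbar =
      ((N.map (algebraMap A K)).roots.filter
        (fun c => ∃ h : c ∈ A, IsLocalRing.residue A ⟨c, h⟩ = cbar)).card := by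
  have hinj : Function.Injective (algebraMap A K) := Subtype.coe_injective
  induction' hn : N.natDegree using Nat.strong_induction_on with n ih generalizing N
  have hN0 : N ≠ 0 := by
    intro h; apply hN; rw [h, Polynomial.map_zero]
  have hNK : N.map (algebraMap A K) ≠ 0 := by
    intro h; apply hN0; apply Polynomial.map_injective _ hinj; rw [h, Polynomial.map_zero]
  by_cases hdeg : N.natDegree = 0
  · obtain ⟨a, rfl⟩ := natDegree_eq_zero.mp hdeg
    simp only [Polynomial.map_C, rootMultiplicity_C, roots_C, Multiset.filter_zero,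
      Multiset.card_zero]
  · have hK : (N.map (algebraMap A K)).degree ≠ 0 := by
      intro h
      apply hdeg
      have := natDegree_eq_of_degree_eq_some h
      rwa [natDegree_map_eq_of_injective hinj] at this
    obtain ⟨c, hc⟩ := IsAlgClosed.exists_root _ hK
    by_cases hcA : c ∈ A
    · have hroot : N.IsRoot ⟨c, hcA⟩ := by
        have := eval_map_apply (p := N) (algebraMap A K) ⟨c, hcA⟩
        apply hinj
        rw [map_zero, ← this]
        exact hc
      obtain ⟨N₁, hN₁⟩ := dvd_iff_isRoot.mpr hroot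
      subst hN₁
      have hN₁bar : N₁.map (IsLocalRing.residue A) ≠ 0 := by
        intro h; apply hN; rw [Polynomial.map_mul, h, mul_zero]
      have hN₁0 : N₁ ≠ 0 := by
        intro h; apply hN₁bar; rw [h, Polynomial.map_zero]
      have hdeg₁ : N₁.natDegree < n := by
        rw [← hn, natDegree_mul (X_sub_C_ne_zero _) hN₁0, natDegree_X_sub_C]; omega
      have IH := ih _ hdeg₁ N₁ hN₁bar rfl
      rw [Polynomial.map_mul] at hN hNK
      rw [Polynomial.map_mul, Polynomial.map_mul, rootMultiplicity_mul hN, roots_mul hNK,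
        Multiset.filter_add, Multiset.card_add, IH]
      congr 1
      simp only [Polynomial.map_sub, map_X, map_C, rootMultiplicity_X_sub_C, roots_X_sub_C,
        Multiset.filter_singleton]
      by_cases hcb : cbar = IsLocalRing.residue A ⟨c, hcA⟩
      · rw [if_pos hcb, if_pos ⟨hcA, hcb.symm⟩]
        rfl
      · rw [if_neg hcb, if_neg]
        · rfl
        · rintro ⟨h, hh⟩
          exact hcb hh.symm
    · obtain ⟨d, N₁, hd, hdc, hfac, hfacK⟩ := exists_factor_of_root_not_mem A N c hc hcA
      have hdbar : IsLocalRing.residue A d = 0 := (IsLocalRing.residue_eq_zero_iff d).mpr hd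
      have hbar : N.map (IsLocalRing.residue A) = N₁.map (IsLocalRing.residue A) := by
        rw [hfac, Polynomial.map_mul]
        simp [hdbar]
      have hN₁bar : N₁.map (IsLocalRing.residue A) ≠ 0 := by rwa [← hbar]
      have hN₁0 : N₁ ≠ 0 := by
        intro h; apply hN₁bar; rw [h, Polynomial.map_zero]
      have hc0 : c ≠ 0 := fun h => hcA (h ▸ A.zero_mem)
      have hcinv : (-c)⁻¹ ≠ 0 := inv_ne_zero (neg_ne_zero.mpr hc0)
      have hdeg₁ : N₁.natDegree < n := by
        have h1 := congrArg natDegree hfacK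
        rw [natDegree_map_eq_of_injective hinj, natDegree_mul (X_sub_C_ne_zero _)
          (mul_ne_zero (C_ne_zero.mpr hcinv) ((Polynomial.map_ne_zero_iff hinj).mpr hN₁0)),
          natDegree_X_sub_C, natDegree_C_mul hcinv, natDegree_map_eq_of_injective hinj] at h1
        omega
      have IH := ih _ hdeg₁ N₁ hN₁bar rfl
      rw [hbar, IH, hfacK, roots_mul (by rw [← hfacK]; exact hNK), roots_X_sub_C,
        roots_C_mul _ hcinv, Multiset.filter_add, Multiset.filter_singleton, if_neg]
      · simp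
      · rintro ⟨h, -⟩
        exact hcA h

end Gauss

end Fermat.Agent.S37.H217

end
-- ===== PACK-END S37/H217/Gauss.lean

-- ===== PACK-BEGIN S37/H160/ValPoly.lean
section


/-!
# S37 / RED-V (helper160): polynomials over a valuation ring

`A` a valuation subring of a field `K`.  Mathlib-only.

* `exists_dvd_all`        : among finitely many elements of `K`, one divides all others in `A`;
* `exists_primitive_scale`: a finite family of polynomials over `K`, not all zero, is a common
  scalar multiple of polynomials over `A`, one of which has a coefficient equal to `1`;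
* `mem_lifts_of_mul_mem_lifts` (Gauss' lemma): `p * s ∈ A[X]`, `s ∈ A[X]` with nonzero
  reduction  ⟹  `p ∈ A[X]`;
* `roots_map_residue` (Gauss' lemma for roots): the roots of the reduction of `g ∈ A[X]` are the
  reductions of the roots of `g` lying in `A` (with multiplicities), `K` algebraically closed.
-/

set_option autoImplicit false

namespace Fermat.Agent.S37.H160

open Polynomial

variable {K : Type*} [Field K] (A : ValuationSubring K)

/-- Among finitely many elements of `K`, not all zero, one divides all the others in `A`. -/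
theorem exists_dvd_all {ι : Type*} (s : Finset ι) (a : ι → K) (h : ∃ i ∈ s, a i ≠ 0) :
    ∃ i₀ ∈ s, a i₀ ≠ 0 ∧ ∀ i ∈ s, a i / a i₀ ∈ A := by
  obtain ⟨i₁, hi₁, hne⟩ := h
  obtain ⟨i₀, hi₀, hmax⟩ := s.exists_max_image (fun i => A.valuation (a i)) ⟨i₁, hi₁⟩
  have h0 : a i₀ ≠ 0 := by
    intro h
    have h1 := hmax i₁ hi₁
    simp only [h, map_zero] at h1
    exact hne ((map_eq_zero _).mp (le_antisymm h1 zero_le))
  refine ⟨i₀, hi₀, h0, fun i hi => ?_⟩
  rw [← A.valuation_le_one_iff, map_div₀]
  have hpos : 0 < A.valuation (a i₀) := by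
    rw [zero_lt_iff]
    exact (_root_.map_ne_zero _).mpr h0
  exact (div_le_one₀ hpos).mpr (hmax i hi)

/-- A finite family of polynomials over `K`, not all zero, is a common scalar multiple of
polynomials over `A`, one of which has a coefficient equal to `1`. -/
theorem exists_primitive_scale {ι : Type*} (s : Finset ι) (p : ι → K[X])
    (h : ∃ i ∈ s, p i ≠ 0) :
    ∃ (c : K) (p₀ : ι → A[X]), c ≠ 0 ∧ (∀ i ∈ s, p i = C c * (p₀ i).map A.subtype) ∧
      ∃ i ∈ s, ∃ n, (p₀ i).coeff n = 1 := by
  classical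
  obtain ⟨i₁, hi₁, hne⟩ := h
  obtain ⟨n₁, hn₁⟩ : ∃ n, (p i₁).coeff n ≠ 0 := by
    by_contra hall
    push Not at hall
    exact hne (Polynomial.ext fun n => by simpa using hall n)
  let T : Finset (Σ _ : ι, ℕ) := s.sigma fun i => (p i).support
  have hT : ∃ x ∈ T, (p x.1).coeff x.2 ≠ 0 :=
    ⟨⟨i₁, n₁⟩, Finset.mem_sigma.mpr ⟨hi₁, mem_support_iff.mpr hn₁⟩, hn₁⟩
  obtain ⟨x₀, hx₀, hc, hall⟩ := exists_dvd_all A T (fun x => (p x.1).coeff x.2) hT
  set c := (p x₀.1).coeff x₀.2 with hcdef
  have hmem : ∀ i ∈ s, ∀ n, (p i).coeff n / c ∈ A := by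
    intro i hi n
    by_cases hn : (p i).coeff n = 0
    · rw [hn, zero_div]; exact A.zero_mem
    · exact hall ⟨i, n⟩ (Finset.mem_sigma.mpr ⟨hi, mem_support_iff.mpr hn⟩)
  have hlift : ∀ i ∈ s, ∃ q : A[X], q.map A.subtype = C c⁻¹ * p i := by
    intro i hi
    have : C c⁻¹ * p i ∈ lifts A.subtype := by
      rw [lifts_iff_coeff_lifts]
      intro n
      rw [coeff_C_mul]
      exact ⟨⟨(p i).coeff n / c, hmem i hi n⟩, by simp [div_eq_inv_mul]⟩
    exact (mem_lifts _).mp this
  choose! q hq using hlift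
  refine ⟨c, q, hc, fun i hi => ?_, x₀.1, (Finset.mem_sigma.mp hx₀).1, x₀.2, ?_⟩
  · rw [hq i hi, ← mul_assoc, ← C_mul, mul_inv_cancel₀ hc, C_1, one_mul]
  · have h1 := congrArg (fun r => coeff r x₀.2) (hq x₀.1 (Finset.mem_sigma.mp hx₀).1)
    simp only [coeff_map, coeff_C_mul] at h1
    apply Subtype.ext
    have h2 : A.subtype ((q x₀.1).coeff x₀.2) = 1 := by
      rw [h1, ← hcdef, inv_mul_cancel₀ hc]
    simpa using h2

/-- Single polynomial version of `exists_primitive_scale`. -/
theorem exists_primitive_scale_one (p : K[X]) (hp : p ≠ 0) :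
    ∃ (c : K) (p₀ : A[X]), c ≠ 0 ∧ p = C c * p₀.map A.subtype ∧ ∃ n, p₀.coeff n = 1 := by
  obtain ⟨c, p₀, hc, h1, i, -, n, hn⟩ :=
    exists_primitive_scale A (Finset.univ : Finset Unit) (fun _ => p) ⟨(), Finset.mem_univ _, hp⟩
  cases i
  exact ⟨c, p₀ (), hc, h1 () (Finset.mem_univ _), n, hn⟩

variable {A}

theorem map_subtype_injective : Function.Injective (Polynomial.map (A.subtype) : A[X] → K[X]) :=
  Polynomial.map_injective _ Subtype.val_injective

variable {k : Type*} [Field k] (π : A →+* k)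

theorem map_ne_zero_of_coeff_eq_one {p : A[X]} {n : ℕ} (h : p.coeff n = 1) : p.map π ≠ 0 := by
  intro h0
  have := congrArg (fun r => coeff r n) h0
  simp [h] at this

variable (hπ : ∀ a : A, π a = 0 ↔ a ∈ IsLocalRing.maximalIdeal A)

include hπ in
/-- An element of `K` outside `A` has an inverse in the kernel of `π`. -/
theorem inv_mem_ker_of_not_mem {c : K} (hc : c ∉ A) :
    ∃ h : c⁻¹ ∈ A, π ⟨c⁻¹, h⟩ = 0 := by
  have hinv : c⁻¹ ∈ A := (A.mem_or_inv_mem c).resolve_left hc
  refine ⟨hinv, (hπ _).mpr ?_⟩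
  rw [IsLocalRing.mem_maximalIdeal, mem_nonunits_iff]
  intro hu
  obtain ⟨u, hu⟩ := hu
  apply hc
  have h1 : ((u⁻¹ : Aˣ) : A) * ⟨c⁻¹, hinv⟩ = 1 := by rw [← hu]; simp
  have h2 : (((u⁻¹ : Aˣ) : A) : K) * c⁻¹ = 1 := by
    have := congrArg Subtype.val h1
    simpa using this
  have hc0 : c ≠ 0 := by
    rintro rfl
    exact hc A.zero_mem
  have h3 : (((u⁻¹ : Aˣ) : A) : K) = c := by
    field_simp at h2
    exact h2
  rw [← h3]
  exact ((u⁻¹ : Aˣ) : A).2

include hπ in
/-- **Gauss' lemma.**  If `p * s` has coefficients in `A`, where `s ∈ A[X]` has nonzero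
reduction, then `p` has coefficients in `A`. -/
theorem mem_lifts_of_mul_mem_lifts (p : K[X]) (s q : A[X]) (hs : s.map π ≠ 0)
    (h : p * s.map A.subtype = q.map A.subtype) : ∃ p' : A[X], p'.map A.subtype = p := by
  rcases eq_or_ne p 0 with rfl | hp
  · exact ⟨0, by simp⟩
  obtain ⟨c, p₀, hc, hpc, n, hn⟩ := exists_primitive_scale_one A p hp
  by_cases hcA : c ∈ A
  · refine ⟨C ⟨c, hcA⟩ * p₀, ?_⟩
    rw [Polynomial.map_mul, map_C, hpc]
    rfl
  · exfalso
    obtain ⟨hinv, hker⟩ := inv_mem_ker_of_not_mem π hπ hcA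
    have h1 : p₀ * s = C ⟨c⁻¹, hinv⟩ * q := by
      apply map_subtype_injective
      rw [Polynomial.map_mul, Polynomial.map_mul, map_C, ← h, hpc]
      simp only [ValuationSubring.subtype_apply]
      rw [← mul_assoc, ← mul_assoc, ← C_mul, inv_mul_cancel₀ hc, C_1, one_mul]
    have h2 := congrArg (Polynomial.map π) h1
    rw [Polynomial.map_mul, Polynomial.map_mul, map_C, hker, C_0, zero_mul] at h2
    rcases mul_eq_zero.mp h2 with h3 | h3
    · exact map_ne_zero_of_coeff_eq_one π hn h3
    · exact hs h3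

/-- Reduction `K → k`, extended by `0` outside `A`. -/
noncomputable def redK (c : K) : k := by
  classical
  exact if h : c ∈ A then π ⟨c, h⟩ else 0

theorem redK_of_mem {c : K} (h : c ∈ A) : redK π c = π ⟨c, h⟩ := by
  simp [redK, h]

theorem redK_coe (a : A) : redK π (a : K) = π a := by
  rw [redK_of_mem π a.2]

open Classical in
include hπ in
/-- **Gauss' lemma for roots.**  For `g ∈ A[X]` with nonzero reduction, `K` algebraically closed,
the roots of the reduction of `g` are the reductions of the roots of `g` that lie in `A`. -/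
theorem roots_map_residue [IsAlgClosed K] (g : A[X]) (hg : g.map π ≠ 0) :
    (g.map π).roots = ((g.map A.subtype).roots.filter (· ∈ A)).map (redK π) := by
  suffices H : ∀ (n : ℕ) (g : A[X]), (g.map A.subtype).natDegree = n → g.map π ≠ 0 →
      (g.map π).roots = ((g.map A.subtype).roots.filter (· ∈ A)).map (redK π) from
    H _ g rfl hg
  intro n
  induction n with
  | zero =>
    intro g hn _
    have h1 : g.map A.subtype = C ((g.map A.subtype).coeff 0) := eq_C_of_natDegree_eq_zero hn
    have h2 : g = C (g.coeff 0) := by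
      apply map_subtype_injective
      rw [h1, map_C, coeff_map]
    rw [h1, roots_C, h2, map_C, roots_C]
    simp
  | succ n ih =>
    intro g hn hg
    have hG : g.map A.subtype ≠ 0 := by
      intro h0
      rw [h0, natDegree_zero] at hn
      omega
    have hdeg : (g.map A.subtype).degree ≠ 0 := by
      rw [degree_eq_natDegree hG, hn]
      exact_mod_cast Nat.succ_ne_zero n
    obtain ⟨γ, hγ⟩ := IsAlgClosed.exists_root (g.map A.subtype) hdeg
    obtain ⟨G₁, hG₁⟩ := dvd_iff_isRoot.mpr hγ
    have hG₁0 : G₁ ≠ 0 := by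
      rintro rfl
      rw [mul_zero] at hG₁
      exact hG hG₁
    have hdeg₁ : G₁.natDegree = n := by
      have := congrArg natDegree hG₁
      rw [natDegree_mul (X_sub_C_ne_zero γ) hG₁0, natDegree_X_sub_C, hn] at this
      omega
    by_cases hγA : γ ∈ A
    · -- integral root
      have hroot : IsRoot g ⟨γ, hγA⟩ := by
        have h1 : eval γ (g.map A.subtype) = A.subtype (eval ⟨γ, hγA⟩ g) := by
          rw [eval_map, ← eval₂_hom]
          rfl
        rw [IsRoot.def] at hγ ⊢
        rw [h1] at hγ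
        exact Subtype.ext hγ
      obtain ⟨g₁, hg₁⟩ := dvd_iff_isRoot.mpr hroot
      have hg₁map : g₁.map A.subtype = G₁ := by
        have h1 : (X - C γ) * g₁.map A.subtype = (X - C γ) * G₁ := by
          rw [← hG₁, hg₁, Polynomial.map_mul, Polynomial.map_sub, map_X, map_C]
          rfl
        exact mul_left_cancel₀ (X_sub_C_ne_zero γ) h1
      have hg₁π : g₁.map π ≠ 0 := by
        intro h0
        apply hg
        rw [hg₁, Polynomial.map_mul, h0, mul_zero]
      have hih := ih g₁ (by rw [hg₁map, hdeg₁]) hg₁π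
      have e1 : g.map π = (X - C (π ⟨γ, hγA⟩)) * g₁.map π := by
        rw [hg₁, Polynomial.map_mul, Polynomial.map_sub, map_X, map_C]
      have e1ne : (X - C (π ⟨γ, hγA⟩)) * g₁.map π ≠ 0 := e1 ▸ hg
      have e2ne : (X - C γ) * G₁ ≠ 0 := hG₁ ▸ hG
      rw [e1, roots_mul e1ne, roots_X_sub_C, hih, hG₁, roots_mul e2ne, roots_X_sub_C,
        Multiset.filter_add, Multiset.map_add, hg₁map]
      congr 1
      rw [Multiset.filter_singleton, if_pos hγA, Multiset.map_singleton, redK_of_mem π hγA]
    · -- root outside `A`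
      obtain ⟨hinv, hker⟩ := inv_mem_ker_of_not_mem π hπ hγA
      have hγ0 : γ ≠ 0 := by
        rintro rfl
        exact hγA A.zero_mem
      set s : A[X] := 1 - C ⟨γ⁻¹, hinv⟩ * X with hs
      have hsmap : s.map A.subtype = C (-γ⁻¹) * (X - C γ) := by
        rw [hs, Polynomial.map_sub, Polynomial.map_one, Polynomial.map_mul, map_C, map_X]
        simp only [ValuationSubring.subtype_apply]
        rw [mul_sub, ← C_mul, neg_mul, inv_mul_cancel₀ hγ0, C_neg, C_neg, C_1]
        ring
      have hsπ : s.map π = 1 := by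
        rw [hs, Polynomial.map_sub, Polynomial.map_one, Polynomial.map_mul, map_C, hker, C_0,
          zero_mul, sub_zero]
      have hG₂ : (C (-γ) * G₁) * s.map A.subtype = g.map A.subtype := by
        rw [hsmap, hG₁]
        have : C (-γ) * C (-γ⁻¹) = (1 : K[X]) := by
          rw [← C_mul, neg_mul_neg, mul_inv_cancel₀ hγ0, C_1]
        calc C (-γ) * G₁ * (C (-γ⁻¹) * (X - C γ))
            = (C (-γ) * C (-γ⁻¹)) * ((X - C γ) * G₁) := by ring
          _ = (X - C γ) * G₁ := by rw [this, one_mul]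
      obtain ⟨g₂, hg₂⟩ := mem_lifts_of_mul_mem_lifts π hπ (C (-γ) * G₁) s g
        (by rw [hsπ]; exact one_ne_zero) hG₂
      have hgs : g = g₂ * s := by
        apply map_subtype_injective
        rw [Polynomial.map_mul, hg₂, hG₂]
      have hg₂π : g₂.map π = g.map π := by
        rw [hgs, Polynomial.map_mul, hsπ, mul_one]
      have hCγ : C (-γ) ≠ (0 : K[X]) := by
        rw [Ne, C_eq_zero, neg_eq_zero]
        exact hγ0
      have hdeg₂ : (g₂.map A.subtype).natDegree = n := by
        rw [hg₂, natDegree_C_mul (by rwa [neg_ne_zero]), hdeg₁]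
      have hih := ih g₂ hdeg₂ (hg₂π ▸ hg)
      have e2ne : (X - C γ) * G₁ ≠ 0 := hG₁ ▸ hG
      rw [← hg₂π, hih, hG₁, roots_mul e2ne, roots_X_sub_C, Multiset.filter_add,
        Multiset.filter_singleton, if_neg hγA, hg₂, roots_C_mul _ (by rwa [neg_ne_zero])]
      simp

open Classical in
include hπ in
/-- Counting form of `roots_map_residue`. -/
theorem rootMultiplicity_map_residue [IsAlgClosed K] (g : A[X]) (hg : g.map π ≠ 0) (cb : k) :
    (g.map π).rootMultiplicity cb =
      Multiset.card ((g.map A.subtype).roots.filter (fun c => c ∈ A ∧ redK π c = cb)) := by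
  rw [← count_roots, roots_map_residue π hπ g hg, Multiset.count_map, Multiset.filter_filter]
  congr 1
  refine Multiset.filter_congr fun c _ => ?_
  constructor
  · rintro ⟨h1, h2⟩
    exact ⟨h2, h1.symm⟩
  · rintro ⟨h1, h2⟩
    exact ⟨h2.symm, h1⟩

end Fermat.Agent.S37.H160

end
-- ===== PACK-END S37/H160/ValPoly.lean

-- ===== PACK-BEGIN S20/T1Lattice.lean
section


set_option autoImplicit false

open Filter Topology

noncomputable section

namespace Fermat.Agent.S20.T1H544

open PeriodPair

/-- A function analytic at `0` satisfying a singular first-order linear ODE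
`z w'(z) A(z) = w(z) B(z)` with `n A(0) ≠ B(0)` for all natural `n` vanishes near `0`. -/
theorem eventually_eq_zero_of_singular_ode {w A B : ℂ → ℂ} (hw : AnalyticAt ℂ w 0)
    (hA : ContinuousAt A 0) (hB : ContinuousAt B 0)
    (h : ∀ᶠ z in 𝓝[≠] (0 : ℂ), z * deriv w z * A z = w z * B z)
    (hAB : ∀ n : ℕ, (n : ℂ) * A 0 ≠ B 0) :
    ∀ᶠ z in 𝓝 (0 : ℂ), w z = 0 := by
  by_contra hne
  obtain ⟨n, g, hg, hg0, hwg⟩ := (hw.exists_eventuallyEq_pow_smul_nonzero_iff).mpr hne
  simp only [sub_zero, smul_eq_mul] at hwg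
  -- derivative of `w` near `0`
  have hderiv : ∀ᶠ z in 𝓝 (0 : ℂ), deriv w z = n * z ^ (n - 1) * g z + z ^ n * deriv g z := by
    have h1 : ∀ᶠ z in 𝓝 (0 : ℂ), w =ᶠ[𝓝 z] fun y => y ^ n * g y :=
      (eventually_eventually_nhds.mpr hwg)
    have h2 : ∀ᶠ z in 𝓝 (0 : ℂ), AnalyticAt ℂ g z := hg.eventually_analyticAt
    filter_upwards [h1, h2] with z hz1 hz2
    rw [hz1.deriv_eq]
    have hd : DifferentiableAt ℂ g z := hz2.differentiableAt
    have := ((hasDerivAt_pow n z).fun_mul hd.hasDerivAt).deriv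
    simpa using this
  -- the key identity away from `0`
  have key : ∀ᶠ z in 𝓝[≠] (0 : ℂ), (n * g z + z * deriv g z) * A z = g z * B z := by
    filter_upwards [h, hwg.filter_mono nhdsWithin_le_nhds, hderiv.filter_mono nhdsWithin_le_nhds,
      self_mem_nhdsWithin] with z hz hzw hzd hz0
    have hz0' : z ≠ 0 := hz0
    rw [hzw, hzd] at hz
    have hzn : z ^ n ≠ 0 := pow_ne_zero _ hz0'
    have hpow : z * (n * z ^ (n - 1)) = n * z ^ n := by
      rcases Nat.eq_zero_or_pos n with h0 | hpos
      · simp [h0]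
      · have : z ^ n = z ^ (n - 1) * z := by
          rw [← pow_succ, Nat.sub_add_cancel hpos]
        rw [this]; ring
    apply mul_left_cancel₀ hzn
    calc z ^ n * ((n * g z + z * deriv g z) * A z)
        = (z * (n * z ^ (n - 1)) * g z + z * z ^ n * deriv g z) * A z := by rw [hpow]; ring
      _ = z * (n * z ^ (n - 1) * g z + z ^ n * deriv g z) * A z := by ring
      _ = z ^ n * g z * B z := hz
      _ = z ^ n * (g z * B z) := by ring
  -- pass to the limit
  have hcontL : ContinuousAt (fun z => (n * g z + z * deriv g z) * A z) 0 := by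
    have hg' : ContinuousAt (deriv g) 0 := hg.deriv.continuousAt
    have hgc : ContinuousAt g 0 := hg.continuousAt
    fun_prop
  have hcontR : ContinuousAt (fun z => g z * B z) 0 := by
    have hgc : ContinuousAt g 0 := hg.continuousAt
    fun_prop
  have hlimL := hcontL.tendsto.mono_left (nhdsWithin_le_nhds (s := ({0}ᶜ : Set ℂ)))
  have hlimR := hcontR.tendsto.mono_left (nhdsWithin_le_nhds (s := ({0}ᶜ : Set ℂ)))
  have heq := tendsto_nhds_unique (hlimL.congr' key) hlimR
  simp only [zero_mul, add_zero] at heq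
  apply hAB n
  apply mul_left_cancel₀ hg0
  linear_combination heq

/-- Near `0` (and away from it), no point lies in the lattice. -/
theorem eventually_notMem_lattice (L : PeriodPair) :
    ∀ᶠ z in 𝓝[≠] (0 : ℂ), z ∉ L.lattice := by
  have h := L.compl_lattice_sdiff_singleton_mem_nhds 0
  filter_upwards [mem_nhdsWithin_of_mem_nhds h, self_mem_nhdsWithin] with z hz hz0
  intro hzL
  exact hz ⟨hzL, hz0⟩

/-- The Weierstrass ODE, cleared of denominators, near `0`. -/
theorem cleared_ode (L : PeriodPair) {z : ℂ} (hz0 : z ≠ 0) (hz : z ∉ L.lattice) :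
    (z ^ 3 * ℘'[L - (0 : ℂ)] z - 2) ^ 2 =
      4 * (z ^ 2 * ℘[L - (0 : ℂ)] z + 1) ^ 3 - L.g₂ * z ^ 4 * (z ^ 2 * ℘[L - (0 : ℂ)] z + 1)
        - L.g₃ * z ^ 6 := by
  have h := L.derivWeierstrassP_sq z hz
  have h1 := L.weierstrassPExcept_def (0 : L.lattice) z
  have h2 := L.derivWeierstrassPExcept_def (0 : L.lattice) z
  simp only [ZeroMemClass.coe_zero, sub_zero, ne_eq, OfNat.ofNat_ne_zero, not_false_eq_true,
    zero_pow, div_zero, zero_sub] at h1 h2
  have e1 : ℘[L] z = ℘[L - (0 : ℂ)] z + 1 / z ^ 2 := by rw [h1]; ring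
  have e2 : ℘'[L] z = ℘'[L - (0 : ℂ)] z - 2 / z ^ 3 := by rw [h2]; ring
  rw [e1, e2] at h
  have hz2 : z ^ 2 ≠ 0 := pow_ne_zero _ hz0
  have hz3 : z ^ 3 ≠ 0 := pow_ne_zero _ hz0
  field_simp at h
  linear_combination h

/-- If two period pairs have the same `g₂`, `g₃`, the regular parts of their `℘`-functions
agree near `0`. -/
theorem weierstrassPExcept_eventuallyEq (L L' : PeriodPair) (h2 : L.g₂ = L'.g₂)
    (h3 : L.g₃ = L'.g₃) :
    ∀ᶠ z in 𝓝 (0 : ℂ), ℘[L - (0 : ℂ)] z = ℘[L' - (0 : ℂ)] z := by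
  set f := ℘[L - (0 : ℂ)] with hf
  set g := ℘[L' - (0 : ℂ)] with hg
  set f' := ℘'[L - (0 : ℂ)] with hf'
  set g' := ℘'[L' - (0 : ℂ)] with hg'
  have hfa : AnalyticAt ℂ f 0 := L.analyticAt_weierstrassPExcept 0
  have hga : AnalyticAt ℂ g 0 := L'.analyticAt_weierstrassPExcept 0
  have hf'a : AnalyticAt ℂ f' 0 := L.analyticAt_derivWeierstrassPExcept 0
  have hg'a : AnalyticAt ℂ g' 0 := L'.analyticAt_derivWeierstrassPExcept 0
  have hwa : AnalyticAt ℂ (fun z => f z - g z) 0 := hfa.sub hga
  set A : ℂ → ℂ := fun z => z ^ 3 * (f' z + g' z) - 4 with hA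
  set B : ℂ → ℂ := fun z => 4 * ((z ^ 2 * f z + 1) ^ 2 + (z ^ 2 * f z + 1) * (z ^ 2 * g z + 1)
    + (z ^ 2 * g z + 1) ^ 2) - L.g₂ * z ^ 4 with hB
  have hAc : ContinuousAt A 0 := by
    have := hf'a.continuousAt
    have := hg'a.continuousAt
    fun_prop
  have hBc : ContinuousAt B 0 := by
    have := hfa.continuousAt
    have := hga.continuousAt
    fun_prop
  have hderivf : ∀ᶠ z in 𝓝 (0 : ℂ), deriv f z = f' z := by
    filter_upwards [L.compl_lattice_sdiff_singleton_mem_nhds 0] with z hz
    exact L.eqOn_deriv_weierstrassPExcept_derivWeierstrassPExcept 0 hz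
  have hderivg : ∀ᶠ z in 𝓝 (0 : ℂ), deriv g z = g' z := by
    filter_upwards [L'.compl_lattice_sdiff_singleton_mem_nhds 0] with z hz
    exact L'.eqOn_deriv_weierstrassPExcept_derivWeierstrassPExcept 0 hz
  have hderivw : ∀ᶠ z in 𝓝 (0 : ℂ), deriv (fun z => f z - g z) z = f' z - g' z := by
    filter_upwards [hderivf, hderivg, hfa.eventually_analyticAt, hga.eventually_analyticAt]
      with z h1 h2 h3 h4
    rw [deriv_fun_sub h3.differentiableAt h4.differentiableAt, h1, h2]
  have hode : ∀ᶠ z in 𝓝[≠] (0 : ℂ),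
      z * deriv (fun z => f z - g z) z * A z = (f z - g z) * B z := by
    filter_upwards [eventually_notMem_lattice L, eventually_notMem_lattice L',
      hderivw.filter_mono nhdsWithin_le_nhds, self_mem_nhdsWithin] with z hzL hzL' hd hz0
    have hz0' : z ≠ 0 := hz0
    have e1 := cleared_ode L hz0' hzL
    have e2 := cleared_ode L' hz0' hzL'
    rw [← h2, ← h3] at e2
    rw [hd]
    have hz2 : z ^ 2 ≠ 0 := pow_ne_zero _ hz0'
    apply mul_left_cancel₀ hz2
    simp only [hA, hB]
    linear_combination e1 - e2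
  have hAB : ∀ n : ℕ, (n : ℂ) * A 0 ≠ B 0 := by
    intro n
    simp only [hA, hB]
    norm_num
    intro h
    have h' : ((n : ℂ) * 4 + 12) = 0 := by linear_combination -h
    have h'' : ((n * 4 + 12 : ℕ) : ℂ) = 0 := by push_cast; exact h'
    have := Nat.cast_eq_zero.mp h''
    omega
  have := eventually_eq_zero_of_singular_ode hwa hAc hBc hode hAB
  filter_upwards [this] with z hz
  exact sub_eq_zero.mp hz

/-- The two `℘`-functions agree on a punctured neighbourhood of `0`. -/
theorem weierstrassP_eventuallyEq_zero (L L' : PeriodPair) (h2 : L.g₂ = L'.g₂)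
    (h3 : L.g₃ = L'.g₃) :
    ∀ᶠ z in 𝓝[≠] (0 : ℂ), ℘[L] z = ℘[L'] z := by
  filter_upwards [(weierstrassPExcept_eventuallyEq L L' h2 h3).filter_mono nhdsWithin_le_nhds]
    with z hz
  have h1 := L.weierstrassPExcept_add (0 : L.lattice) z
  have h1' := L'.weierstrassPExcept_add (0 : L'.lattice) z
  simp only [ZeroMemClass.coe_zero] at h1 h1'
  rw [← h1, ← h1', hz]

theorem countable_lattice (L : PeriodPair) : (L.lattice : Set ℂ).Countable := by
  have : Countable L.lattice := L.latticeEquivProd.toEquiv.countable_iff.mpr inferInstance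
  exact Set.countable_coe_iff.mp this

theorem isPreconnected_compl_lattices (L L' : PeriodPair) :
    IsPreconnected ((L.lattice : Set ℂ) ∪ (L'.lattice : Set ℂ))ᶜ := by
  refine (Set.Countable.isPathConnected_compl_of_one_lt_rank ?_
    ((countable_lattice L).union (countable_lattice L'))).isConnected.isPreconnected
  rw [Complex.rank_real_complex]
  norm_num

/-- The two `℘`-functions agree off the union of the two lattices. -/
theorem weierstrassP_eqOn (L L' : PeriodPair) (h2 : L.g₂ = L'.g₂) (h3 : L.g₃ = L'.g₃) :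
    Set.EqOn ℘[L] ℘[L'] ((L.lattice : Set ℂ) ∪ (L'.lattice : Set ℂ))ᶜ := by
  have hev := weierstrassP_eventuallyEq_zero L L' h2 h3
  -- find a point near `0` around which the functions agree
  have h1 : ∀ᶠ y in 𝓝[≠] (0 : ℂ), ∀ᶠ z in 𝓝 y, ℘[L] z = ℘[L'] z := by
    have := eventually_eventually_nhds.mpr (eventually_nhdsWithin_iff.mp hev)
    filter_upwards [this.filter_mono nhdsWithin_le_nhds, self_mem_nhdsWithin] with y hy hy0
    have hy0' : ∀ᶠ z in 𝓝 y, z ∈ ({0}ᶜ : Set ℂ) := isOpen_compl_singleton.mem_nhds hy0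
    filter_upwards [hy, hy0'] with z hz hz0
    exact hz hz0
  obtain ⟨y, hy, hyL, hyL'⟩ :=
    (h1.and ((eventually_notMem_lattice L).and (eventually_notMem_lattice L'))).exists
  have hyU : y ∈ ((L.lattice : Set ℂ) ∪ (L'.lattice : Set ℂ))ᶜ := by
    simp only [Set.mem_compl_iff, Set.mem_union, SetLike.mem_coe, not_or]
    exact ⟨hyL, hyL'⟩
  refine AnalyticOnNhd.eqOn_of_preconnected_of_eventuallyEq
    (L.analyticOnNhd_weierstrassP.mono ?_) (L'.analyticOnNhd_weierstrassP.mono ?_)
    (isPreconnected_compl_lattices L L') hyU hy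
  · exact Set.compl_subset_compl.mpr Set.subset_union_left
  · exact Set.compl_subset_compl.mpr Set.subset_union_right

theorem lattice_le_of_g₂_g₃ (L L' : PeriodPair) (h2 : L.g₂ = L'.g₂) (h3 : L.g₃ = L'.g₃) :
    L.lattice ≤ L'.lattice := by
  intro l hl
  by_contra hl'
  have hEq := weierstrassP_eqOn L L' h2 h3
  have hcongr : ℘[L] =ᶠ[𝓝[≠] l] ℘[L'] := by
    have hA := L.compl_lattice_sdiff_singleton_mem_nhds l
    have hB : (L'.lattice : Set ℂ)ᶜ ∈ 𝓝 l := L'.isClosed_lattice.isOpen_compl.mem_nhds hl'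
    filter_upwards [mem_nhdsWithin_of_mem_nhds hA, mem_nhdsWithin_of_mem_nhds hB,
      self_mem_nhdsWithin] with z hzA hzB hz0
    apply hEq
    simp only [Set.mem_compl_iff, Set.mem_union, SetLike.mem_coe, not_or]
    refine ⟨fun hzL => hzA ⟨hzL, hz0⟩, hzB⟩
  have hord := meromorphicOrderAt_congr hcongr
  rw [L.order_weierstrassP l hl] at hord
  have hnonneg := (L'.analyticOnNhd_weierstrassP l hl').meromorphicOrderAt_nonneg
  rw [← hord] at hnonneg
  exact absurd hnonneg (by decide)

end Fermat.Agent.S20.T1H544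

namespace Fermat.Agent.S20

/-- **T1.** The invariants `g₂`, `g₃` determine the lattice. -/
theorem lattice_eq_of_g₂_g₃ (L L' : PeriodPair) (h2 : L.g₂ = L'.g₂) (h3 : L.g₃ = L'.g₃) :
    L.lattice = L'.lattice :=
  le_antisymm (T1H544.lattice_le_of_g₂_g₃ L L' h2 h3)
    (T1H544.lattice_le_of_g₂_g₃ L' L h2.symm h3.symm)

end Fermat.Agent.S20

end
end
-- ===== PACK-END S20/T1Lattice.lean

-- ===== PACK-BEGIN S20/Defs.lean
section



/-!
# S20 (dim S₂(Γ₀(N)) = genus formula): shared definitions

Everything lives in `namespace Fermat.Agent.S20`.  Modular forms are handled as plain functions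
`ℍ → ℂ` with predicates, so that products / quotients need no weight casts.
-/

set_option autoImplicit false

open UpperHalfPlane ModularForm CongruenceSubgroup Matrix.SpecialLinearGroup EisensteinSeries
open scoped MatrixGroups ModularForm Manifold

namespace Fermat.Agent.S20

/-- `f` is the underlying function of a weight-`k` holomorphic modular form for `Γ ≤ SL(2,ℤ)`:
holomorphic, `Γ`-invariant, and every `SL(2,ℤ)`-translate is bounded at `i∞`. -/
def IsMF (Γ : Subgroup SL(2, ℤ)) (k : ℤ) (f : ℍ → ℂ) : Prop :=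
  MDiff f ∧ (∀ γ ∈ Γ, f ∣[k] γ = f) ∧ ∀ g : SL(2, ℤ), IsBoundedAtImInfty (f ∣[k] g)

/-- Same with "zero at `i∞`": cusp forms. -/
def IsCF (Γ : Subgroup SL(2, ℤ)) (k : ℤ) (f : ℍ → ℂ) : Prop :=
  MDiff f ∧ (∀ γ ∈ Γ, f ∣[k] γ = f) ∧ ∀ g : SL(2, ℤ), IsZeroAtImInfty (f ∣[k] g)

/-- Cusp forms of weight `k` for `Γ`, as a submodule of `ℍ → ℂ`. -/
def CFsub (Γ : Subgroup SL(2, ℤ)) (k : ℤ) : Submodule ℂ (ℍ → ℂ) where
  carrier := {f | IsCF Γ k f}
  add_mem' := by
    rintro f g ⟨hf1, hf2, hf3⟩ ⟨hg1, hg2, hg3⟩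
    refine ⟨hf1.add hg1, fun γ hγ => ?_, fun γ => ?_⟩
    · rw [SlashAction.add_slash, hf2 γ hγ, hg2 γ hγ]
    · rw [SlashAction.add_slash]
      exact (zeroAtImInftySubmodule ℂ).add_mem (hf3 γ) (hg3 γ)
  zero_mem' := by
    refine ⟨mdifferentiable_const, fun γ _ => SlashAction.zero_slash _ _, fun γ => ?_⟩
    rw [SlashAction.zero_slash]
    exact (zeroAtImInftySubmodule ℂ).zero_mem
  smul_mem' := by
    rintro c f ⟨hf1, hf2, hf3⟩
    refine ⟨hf1.const_smul c, fun γ hγ => ?_, fun γ => ?_⟩
    · rw [ModularForm.SL_smul_slash, hf2 γ hγ]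
    · rw [ModularForm.SL_smul_slash]
      exact (zeroAtImInftySubmodule ℂ).smul_mem c (hf3 γ)

@[simp] lemma mem_CFsub {Γ : Subgroup SL(2, ℤ)} {k : ℤ} {f : ℍ → ℂ} :
    f ∈ CFsub Γ k ↔ IsCF Γ k f := Iff.rfl

/-- The conjugate `f ∣[k] g⁻¹` attached to the left coset `q = gΓ` (well defined for
`Γ`-invariant `f`; we use the representative `q.out`). -/
noncomputable def conj (Γ : Subgroup SL(2, ℤ)) (k : ℤ) (f : ℍ → ℂ) (q : SL(2, ℤ) ⧸ Γ) : ℍ → ℂ :=
  f ∣[k] ((q.out : SL(2, ℤ))⁻¹)

/-- The elliptic point `ρ = e^{2πi/3} = -1/2 + (√3/2) i`, fixed by `S * T`. -/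
noncomputable def rho : ℍ := ⟨⟨-1 / 2, Real.sqrt 3 / 2⟩, by simp⟩

noncomputable instance instFintypeQuot (N : ℕ) [NeZero N] : Fintype (SL(2, ℤ) ⧸ Gamma0 N) :=
  Subgroup.fintypeQuotientOfFiniteIndex

noncomputable instance instDecEqQuot (N : ℕ) : DecidableEq (SL(2, ℤ) ⧸ Gamma0 N) :=
  Classical.decEq _

/-- number of fixed points of `S` on `SL(2,ℤ)/Γ₀(N)` -/
noncomputable def fixS (N : ℕ) : ℕ :=
  Nat.card {q : SL(2, ℤ) ⧸ Gamma0 N // ModularGroup.S • q = q}

/-- number of fixed points of `S * T` on `SL(2,ℤ)/Γ₀(N)` -/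
noncomputable def fixU (N : ℕ) : ℕ :=
  Nat.card {q : SL(2, ℤ) ⧸ Gamma0 N // (ModularGroup.S * ModularGroup.T) • q = q}

/-- number of orbits of `⟨T⟩` on `SL(2,ℤ)/Γ₀(N)` (= number of cusps of `Γ₀(N)`) -/
noncomputable def numCusps (N : ℕ) : ℕ :=
  Nat.card (MulAction.orbitRel.Quotient (Subgroup.zpowers ModularGroup.T) (SL(2, ℤ) ⧸ Gamma0 N))

/-- A homogeneous basis of the graded module `⊕_w M_w(Γ₀(N))` over `⊕_w M_w(SL(2,ℤ))`. -/
structure IsHomBasis (N : ℕ) {ι : Type} [Fintype ι] (k : ι → ℤ) (F : ι → ℍ → ℂ) : Prop where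
  mem : ∀ j, IsMF (Gamma0 N) (k j) (F j)
  span : ∀ (w : ℤ) (f : ℍ → ℂ), IsMF (Gamma0 N) w f →
    ∃ a : ι → ℍ → ℂ, (∀ j, IsMF ⊤ (w - k j) (a j)) ∧ f = ∑ j, a j * F j
  indep : ∀ (w : ℤ) (a : ι → ℍ → ℂ), (∀ j, IsMF ⊤ (w - k j) (a j)) →
    ∑ j, a j * F j = 0 → ∀ j, a j = 0

end Fermat.Agent.S20

end
-- ===== PACK-END S20/Defs.lean

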