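import Mathlib
import Fermat.Prelude.Def_CuspForm_IntegralStructure
import Mathlib.NumberTheory.ModularForms.NormTrace
import Mathlib.NumberTheory.ModularForms.EisensteinSeries.QExpansion
import Mathlib.NumberTheory.ModularForms.LevelOne.DimensionFormula
import Fermat.Prelude.Def_ModularForm_HeckeOperator
import Fermat.Prelude.Thm_CongruenceSubgroup_one_mem_strictPeriods_Gamma0
import Mathlib.NumberTheory.ModularForms.CongruenceSubgroups
import Mathlib.RingTheory.Polynomial.Vieta
import Fermat.Prelude.Def_ModularCurve_ReductionModL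
import Fermat.Agent.Pack.S44C.G0E2L2
import Fermat.Agent.Pack.Fast891

-- ===== PACK-BEGIN S23/Cap/Defs.lean
section



/-!
# S23 common definitions (captain: helper23)

Everything is phrased for plain functions `ℍ → ℂ` with the predicates `IsMF` / `IsCF`
("is the underlying function of a modular / cusp form of level `Γ`, weight `k`"),
so that weights never appear in types.
-/

set_option autoImplicit false

namespace Fermat.Agent.S23.Cap

open UpperHalfPlane ModularForm ModularFormClass MatrixGroups CongruenceSubgroup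

/-- `Γ₀(N)` as a subgroup of `GL(2,ℝ)` (this is what `CuspForm (Gamma0 N) k` elaborates to). -/
abbrev G0 (N : ℕ) : Subgroup (GL (Fin 2) ℝ) :=
  Subgroup.map (Matrix.SpecialLinearGroup.mapGL ℝ) (Gamma0 N)

/-- `SL(2,ℤ)` as a subgroup of `GL(2,ℝ)` (Mathlib notation `𝒮ℒ`). -/
abbrev SLZ : Subgroup (GL (Fin 2) ℝ) := 𝒮ℒ

/-- `f` is (the function underlying) a modular form of level `Γ` and weight `k`. -/
def IsMF (Γ : Subgroup (GL (Fin 2) ℝ)) (k : ℤ) (f : ℍ → ℂ) : Prop :=
  ∃ g : ModularForm Γ k, (g : ℍ → ℂ) = f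

/-- `f` is (the function underlying) a cusp form of level `Γ` and weight `k`. -/
def IsCF (Γ : Subgroup (GL (Fin 2) ℝ)) (k : ℤ) (f : ℍ → ℂ) : Prop :=
  ∃ g : CuspForm Γ k, (g : ℍ → ℂ) = f

/-- The `q`-expansion (period 1). -/
noncomputable abbrev qx (f : ℍ → ℂ) : PowerSeries ℂ := qExpansion 1 f

/-- All coefficients are integers (same shape as in `CuspForm.intLattice`). -/
def IsIntSeries (F : PowerSeries ℂ) : Prop := ∀ n : ℕ, ∃ m : ℤ, PowerSeries.coeff n F = (m : ℂ)

/-- All coefficients are rational. -/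
def IsRatSeries (F : PowerSeries ℂ) : Prop := ∀ n : ℕ, ∃ r : ℚ, PowerSeries.coeff n F = (r : ℂ)

end Fermat.Agent.S23.Cap

end
-- ===== PACK-END S23/Cap/Defs.lean

-- ===== PACK-BEGIN S23/H143/PrimElt.lean
section






set_option autoImplicit false

open UpperHalfPlane ModularForm CongruenceSubgroup Filter Topology Matrix.SpecialLinearGroup
open scoped MatrixGroups ModularForm Manifold

namespace Fermat.Agent.S23.H143

noncomputable section

theorem primElt_det_eq (g : SL(2, ℤ)) : g 0 0 * g 1 1 - g 0 1 * g 1 0 = 1 := by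
  have h := g.det_coe
  rwa [Matrix.det_fin_two] at h

/-- Hermite normal form: `diag(N,1) * g = h * [a b; 0 d]` with `h ∈ SL₂(ℤ)`, `a = gcd(N, c)`,
`a * d = N`. Integer-entry version. -/
theorem primElt_hermite_int {N : ℕ} (hN : N ≠ 0) (g : SL(2, ℤ)) :
    ∃ (h : SL(2, ℤ)) (b : ℤ) (a d : ℕ), a * d = N ∧ a = Int.gcd N (g 1 0) ∧
      (N : ℤ) * g 0 0 = h 0 0 * a ∧ (N : ℤ) * g 0 1 = h 0 0 * b + h 0 1 * d ∧
      g 1 0 = h 1 0 * a ∧ g 1 1 = h 1 0 * b + h 1 1 * d := by
  have hdet := primElt_det_eq g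
  set e : ℕ := Int.gcd N (g 1 0) with he
  have he0 : e ≠ 0 := by
    intro h0
    rw [he, Int.gcd_eq_zero_iff] at h0
    exact hN (by exact_mod_cast h0.1)
  have heN : (e : ℤ) ∣ N := Int.gcd_dvd_left _ _
  have hec : (e : ℤ) ∣ g 1 0 := Int.gcd_dvd_right _ _
  obtain ⟨n', hn'⟩ := heN
  obtain ⟨y, hy⟩ := hec
  -- gcd(n', y) = 1
  have hcop1 : IsCoprime n' y := by
    have hgcd : Int.gcd (e * n') (e * y) = e := by rw [← hn', ← hy]
    rw [Int.gcd_mul_left, Int.natAbs_natCast] at hgcd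
    have : Int.gcd n' y = 1 := by
      have he0' : 0 < e := Nat.pos_of_ne_zero he0
      exact Nat.eq_of_mul_eq_mul_left he0' (by rw [hgcd, mul_one])
    exact Int.isCoprime_iff_gcd_eq_one.mpr this
  -- gcd(g00, y) = 1 since gcd(g00, g10) = 1
  have hcop2 : IsCoprime (g 0 0) y := by
    have : IsCoprime (g 0 0) (g 1 0) := ⟨g 1 1, -g 0 1, by linear_combination hdet⟩
    rw [hy] at this
    exact this.of_mul_right_right
  have hcop : IsCoprime (n' * g 0 0) y := hcop1.mul_left hcop2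
  obtain ⟨h, h00, h10⟩ := hcop.exists_SL2_col 0
  have hdeth := primElt_det_eq h
  have hn'pos : 0 < n' := by
    have h1 : (0 : ℤ) < e * n' := by rw [← hn']; exact_mod_cast Nat.pos_of_ne_zero hN
    have h2 : (0 : ℤ) < e := by exact_mod_cast Nat.pos_of_ne_zero he0
    exact (pos_iff_pos_of_mul_pos h1).mp h2
  refine ⟨h, h 1 1 * N * g 0 1 - h 0 1 * g 1 1, e, n'.toNat, ?_, rfl, ?_, ?_, ?_, ?_⟩
  · have : ((e * n'.toNat : ℕ) : ℤ) = (N : ℤ) := by
      push_cast
      rw [Int.toNat_of_nonneg hn'pos.le, hn']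
    exact_mod_cast this
  · rw [h00, hn']; ring
  · rw [Int.toNat_of_nonneg hn'pos.le]
    rw [h00, h10] at hdeth
    rw [hy] at hdet
    rw [h00, hn']
    linear_combination (-(e * n' * g 0 1)) * hdeth + (n' * h 0 1) * hdet
  · rw [h10, hy]; ring
  · rw [Int.toNat_of_nonneg hn'pos.le]
    rw [h00, h10] at hdeth
    rw [hy] at hdet
    rw [h10, hn']
    linear_combination (-(g 1 1)) * hdeth + (h 1 1 * n') * hdet

/-- Restriction of a modular form to a smaller subgroup. -/
def restrictMF {Γ Γ' : Subgroup (GL (Fin 2) ℝ)} {k : ℤ} (h : Γ ≤ Γ') (f : ModularForm Γ' k) :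
    ModularForm Γ k where
  toFun := f
  slash_action_eq' γ hγ := f.slash_action_eq' γ (h hγ)
  holo' := f.holo'
  bdd_at_cusps' hc := f.bdd_at_cusps' (hc.mono h)

@[simp] theorem coe_restrictMF {Γ Γ' : Subgroup (GL (Fin 2) ℝ)} {k : ℤ} (h : Γ ≤ Γ')
    (f : ModularForm Γ' k) : ⇑(restrictMF h f) = ⇑f := rfl

/-- GL₂(ℝ) version of the Hermite decomposition. -/
theorem primElt_hermite {N : ℕ} (hN : N ≠ 0) (g : SL(2, ℤ)) :
    ∃ (h : SL(2, ℤ)) (b : ℤ) (a d : ℕ) (had : (a : ℝ) * (d : ℝ) ≠ 0),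
      a * d = N ∧ a = Int.gcd N (g 1 0) ∧
      heckeDiagMatrix N * mapGL ℝ g = mapGL ℝ h * upperTriangularGL a b d had := by
  obtain ⟨h, b, a, d, had, ha, h1, h2, h3, h4⟩ := primElt_hermite_int hN g
  have had' : (a : ℝ) * (d : ℝ) ≠ 0 := by
    have : ((a * d : ℕ) : ℝ) ≠ 0 := by rw [had]; exact_mod_cast hN
    exact_mod_cast this
  refine ⟨h, b, a, d, had', had, ha, ?_⟩
  have e1 := congrArg (Int.cast : ℤ → ℝ) h1
  have e2 := congrArg (Int.cast : ℤ → ℝ) h2
  have e3 := congrArg (Int.cast : ℤ → ℝ) h3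
  have e4 := congrArg (Int.cast : ℤ → ℝ) h4
  push_cast at e1 e2 e3 e4
  ext i j
  fin_cases i <;> fin_cases j <;>
    simp [hN, Matrix.mul_apply, Fin.sum_univ_two] <;> linarith

theorem det_upperTriangularGL (a b d : ℝ) (had : a * d ≠ 0) :
    ((upperTriangularGL a b d had).det : ℝ) = a * d := by
  rw [Matrix.GeneralLinearGroup.val_det_apply, val_upperTriangularGL, Matrix.det_fin_two_of]
  ring

theorem slash_upperTriangularGL_apply (k : ℤ) {a d : ℝ} (b : ℝ) (ha : 0 < a) (hd : 0 < d)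
    (had : a * d ≠ 0) (f : ℍ → ℂ) (τ : ℍ) :
    (f ∣[k] upperTriangularGL a b d had) τ =
      f (upperTriangularGL a b d had • τ) * ((a : ℂ) * d) ^ (k - 1) * (d : ℂ) ^ (-k) := by
  have hdet : 0 < ((upperTriangularGL a b d had).det : ℝ) := by
    rw [det_upperTriangularGL]; positivity
  have hσ : UpperHalfPlane.σ (upperTriangularGL a b d had) = .refl ℝ ℂ := by
    rw [UpperHalfPlane.σ, if_pos hdet]
  have hden : UpperHalfPlane.denom (upperTriangularGL a b d had) τ = d := by
    simp [UpperHalfPlane.denom]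
  rw [ModularForm.slash_apply, hσ, det_upperTriangularGL, hden]
  simp only [ContinuousAlgEquiv.refl_apply]
  rw [abs_of_pos (by positivity)]
  push_cast
  ring

theorem tendsto_E₄_atImInfty : Tendsto (⇑E₄) atImInfty (𝓝 1) := by
  have hanal := ModularFormClass.analyticAt_cuspFunction_zero E₄ one_pos
    one_mem_strictPeriods_SL
  have hper := SlashInvariantFormClass.periodic_comp_ofComplex E₄
    one_mem_strictPeriods_SL
  have h0 : cuspFunction 1 (⇑E₄) 0 = 1 := by
    rw [cuspFunction_apply_zero one_pos hanal hper,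
      ← qExpansion_coeff_zero one_pos hanal hper]
    exact EisensteinSeries.E_qExpansion_coeff_zero (by norm_num) (by decide)
  have := (hanal.continuousAt.tendsto.comp (qParam_tendsto_atImInfty one_pos)).congr
    (fun τ ↦ SlashInvariantFormClass.eq_cuspFunction E₄ τ
      one_mem_strictPeriods_SL one_ne_zero)
  rwa [h0] at this

theorem primElt_mapGL_apply (g : SL(2, ℤ)) (i j : Fin 2) :
    (mapGL ℝ g : GL (Fin 2) ℝ) i j = ((g i j : ℤ) : ℝ) := by
  simp

theorem primElt_diag_mul_of_dvd {N : ℕ} (hN : N ≠ 0) (g : SL(2, ℤ)) (e : ℤ)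
    (he : g 1 0 = N * e) :
    ∃ g' : SL(2, ℤ), heckeDiagMatrix N * mapGL ℝ g = mapGL ℝ g' * heckeDiagMatrix N := by
  have hdet := primElt_det_eq g
  refine ⟨⟨!![g 0 0, N * g 0 1; e, g 1 1], ?_⟩, ?_⟩
  · rw [Matrix.det_fin_two_of]
    linear_combination hdet + (g 0 1) * he
  · ext i j
    fin_cases i <;> fin_cases j <;>
      simp [hN, Matrix.mul_apply, Fin.sum_univ_two]
    all_goals first
      | (have := congrArg (Int.cast : ℤ → ℝ) he; push_cast at this ⊢; linear_combination this)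
      | (have := congrArg (Int.cast : ℤ → ℝ) he; push_cast at this ⊢; linear_combination -this)
      | ring1

open ConjAct Pointwise in
theorem Gamma0_le_conj_SL {N : ℕ} (hN : N ≠ 0) :
    (Gamma0 N : Subgroup (GL (Fin 2) ℝ)) ≤ toConjAct (heckeDiagMatrix N)⁻¹ • 𝒮ℒ := by
  rintro γ ⟨g, hg, rfl⟩
  rw [Subgroup.mem_pointwise_smul_iff_inv_smul_mem, ← map_inv, inv_inv, ConjAct.smul_def,
    ConjAct.ofConjAct_toConjAct]
  have hg' : ((g 1 0 : ℤ) : ZMod N) = 0 := by simpa [Gamma0_mem] using hg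
  obtain ⟨e, he⟩ := (ZMod.intCast_zmod_eq_zero_iff_dvd _ _).mp hg'
  obtain ⟨g', hg'⟩ := primElt_diag_mul_of_dvd hN g e he
  rw [hg', mul_inv_cancel_right]
  exact ⟨g', rfl⟩

/-- The primitive element `t = N³ E₄(N τ)`, a weight-4 modular form on `Γ₀(N)`. -/
def primElt (N : ℕ) [NeZero N] : ModularForm (Gamma0 N : Subgroup (GL (Fin 2) ℝ)) 4 :=
  restrictMF (Gamma0_le_conj_SL (NeZero.ne N)) (ModularForm.translate E₄ (heckeDiagMatrix N))

theorem coe_primElt (N : ℕ) [NeZero N] :
    ⇑(primElt N) = (⇑E₄) ∣[(4 : ℤ)] heckeDiagMatrix N := rfl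

theorem primElt_apply (N : ℕ) [NeZero N] (τ : ℍ) :
    primElt N τ = (N : ℂ) ^ 3 * E₄ (heckeDiagMatrix N • τ) := by
  rw [coe_primElt, slash_heckeDiagMatrix_apply 4 (NeZero.ne N)]
  norm_num

theorem tendsto_primElt_atImInfty (N : ℕ) [NeZero N] :
    Tendsto (⇑(primElt N)) atImInfty (𝓝 ((N : ℂ) ^ 3)) := by
  have h1 : Tendsto (fun τ : ℍ ↦ heckeDiagMatrix N • τ) atImInfty atImInfty :=
    tendsto_smul_atImInfty (by simp [val_heckeDiagMatrix (NeZero.ne N)])
  have h2 := (tendsto_E₄_atImInfty.comp h1).const_mul ((N : ℂ) ^ 3)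
  rw [mul_one] at h2
  exact h2.congr (fun τ ↦ (primElt_apply N τ).symm)

/-- Slash of the primitive element by an arbitrary `g ∈ SL₂(ℤ)`: its limit at `i∞` is
`N³ / d⁴` where `d = N / gcd(N, c)`. -/
theorem tendsto_primElt_slash_atImInfty (N : ℕ) [NeZero N] (g : SL(2, ℤ)) :
    ∃ a d : ℕ, a * d = N ∧ a = Int.gcd N (g 1 0) ∧
      Tendsto ((⇑(primElt N)) ∣[(4 : ℤ)] (mapGL ℝ g)) atImInfty
        (𝓝 ((N : ℂ) ^ 3 * ((d : ℂ) ^ 4)⁻¹)) := by
  obtain ⟨h, b, a, d, had, hadN, ha, hmat⟩ := primElt_hermite (NeZero.ne N) g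
  refine ⟨a, d, hadN, ha, ?_⟩
  have hN : (N : ℝ) ≠ 0 := by exact_mod_cast NeZero.ne N
  have ha0 : (0 : ℝ) < a := by
    rcases Nat.eq_zero_or_pos a with h0 | h0
    · simp [h0] at had
    · exact_mod_cast h0
  have hd0 : (0 : ℝ) < d := by
    rcases Nat.eq_zero_or_pos d with h0 | h0
    · simp [h0] at had
    · exact_mod_cast h0
  have hE : (⇑E₄) ∣[(4 : ℤ)] (mapGL ℝ h) = ⇑E₄ :=
    SlashInvariantFormClass.slash_action_eq E₄ _ ⟨h, rfl⟩
  have hfun : (⇑(primElt N)) ∣[(4 : ℤ)] (mapGL ℝ g) =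
      (⇑E₄) ∣[(4 : ℤ)] (upperTriangularGL a b d had) := by
    rw [coe_primElt, ← SlashAction.slash_mul, hmat, SlashAction.slash_mul, hE]
  rw [hfun]
  have h1 : Tendsto (fun τ : ℍ ↦ upperTriangularGL a b d had • τ) atImInfty atImInfty :=
    tendsto_smul_atImInfty (by simp)
  have h2 := ((tendsto_E₄_atImInfty.comp h1).mul_const
    (((a : ℂ) * d) ^ ((4 : ℤ) - 1))).mul_const ((d : ℂ) ^ (-(4 : ℤ)))
  have hval : (1 : ℂ) * ((a : ℂ) * d) ^ ((4 : ℤ) - 1) * (d : ℂ) ^ (-(4 : ℤ)) =
      (N : ℂ) ^ 3 * ((d : ℂ) ^ 4)⁻¹ := by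
    have : ((a : ℂ) * d) = N := by exact_mod_cast congrArg (Nat.cast : ℕ → ℂ) hadN
    rw [this, one_mul]
    norm_num [zpow_neg]
  rw [hval] at h2
  refine h2.congr (fun τ ↦ ?_)
  rw [slash_upperTriangularGL_apply 4 (b : ℝ) ha0 hd0 had]
  simp

theorem primElt_slash_ne (N : ℕ) [NeZero N] (g : SL(2, ℤ)) (hg : g ∉ Gamma0 N) :
    (⇑(primElt N)) ∣[(4 : ℤ)] (mapGL ℝ g) ≠ ⇑(primElt N) := by
  intro heq
  obtain ⟨a, d, hadN, ha, hlim⟩ := tendsto_primElt_slash_atImInfty N g
  rw [heq] at hlim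
  have huniq := tendsto_nhds_unique hlim (tendsto_primElt_atImInfty N)
  have hN : (N : ℂ) ≠ 0 := by exact_mod_cast NeZero.ne N
  have hd4 : ((d : ℂ) ^ 4)⁻¹ = 1 := by
    have := mul_left_cancel₀ (pow_ne_zero 3 hN) (huniq.trans (mul_one _).symm)
    exact this
  have hd4' : (d : ℂ) ^ 4 = 1 := by
    rw [inv_eq_one] at hd4; exact hd4
  have hd : d = 1 := by
    have : (d ^ 4 : ℕ) = 1 := by exact_mod_cast hd4'
    exact (Nat.pow_eq_one.mp this).resolve_right (by norm_num)
  rw [hd, mul_one] at hadN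
  rw [hadN] at ha
  apply hg
  rw [Gamma0_mem, ZMod.intCast_zmod_eq_zero_iff_dvd]
  have : ((Int.gcd N (g 1 0) : ℕ) : ℤ) ∣ g 1 0 := Int.gcd_dvd_right _ _
  rwa [← ha] at this

/-- The `q`-expansion coefficients of `E₄` are integers. -/
theorem E₄_qExpansion_coeff_int (m : ℕ) : ∃ z : ℤ, (qExpansion 1 E₄).coeff m = (z : ℂ) := by
  rw [EisensteinSeries.E_qExpansion_coeff (by norm_num : 3 ≤ 4) ⟨2, rfl⟩ m]
  have hb : bernoulli 4 = -1 / 30 := by
    rw [bernoulli_eq_bernoulli'_of_ne_one (by norm_num), bernoulli'_four]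
  split_ifs with h
  · exact ⟨1, by simp⟩
  · refine ⟨240 * (ArithmeticFunction.sigma 3 m : ℤ), ?_⟩
    rw [hb]
    push_cast
    norm_num

theorem qParam_heckeDiagMatrix_smul (N : ℕ) [NeZero N] (τ : ℍ) :
    Function.Periodic.qParam 1 ((heckeDiagMatrix N • τ : ℍ) : ℂ) =
      Function.Periodic.qParam 1 (τ : ℂ) ^ N := by
  rw [coe_heckeDiagMatrix_smul (NeZero.ne N), Function.Periodic.qParam, Function.Periodic.qParam,
    ← Complex.exp_nat_mul]
  congr 1
  push_cast
  ring

/-- The `q`-expansion of the primitive element `N³ E₄(N τ)`. -/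
theorem primElt_qExpansion_coeff (N : ℕ) [NeZero N] (n : ℕ) :
    (qExpansion 1 (primElt N)).coeff n =
      if N ∣ n then (N : ℂ) ^ 3 * (qExpansion 1 E₄).coeff (n / N) else 0 := by
  set c : ℕ → ℂ := fun n ↦ if N ∣ n then (N : ℂ) ^ 3 * (qExpansion 1 E₄).coeff (n / N) else 0
    with hc
  have hN : 0 < N := Nat.pos_of_ne_zero (NeZero.ne N)
  have hinj : Function.Injective (fun m : ℕ ↦ N * m) := fun a b h ↦
    Nat.eq_of_mul_eq_mul_left hN h
  have key : ∀ τ : ℍ, HasSum (fun m ↦ c m • Function.Periodic.qParam 1 (τ : ℂ) ^ m)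
      (primElt N τ) := by
    intro τ
    have h1 := ModularForm.hasSum_qExpansion E₄ one_pos one_mem_strictPeriods_SL
      (heckeDiagMatrix N • τ)
    rw [qParam_heckeDiagMatrix_smul] at h1
    have h2 := h1.mul_left ((N : ℂ) ^ 3)
    rw [← primElt_apply] at h2
    rw [← hinj.hasSum_iff]
    · have hfun : ((fun m ↦ c m • Function.Periodic.qParam 1 (τ : ℂ) ^ m) ∘ fun m : ℕ ↦ N * m) =
          fun i ↦ (N : ℂ) ^ 3 * ((qExpansion 1 E₄).coeff i *
            (Function.Periodic.qParam 1 (τ : ℂ) ^ N) ^ i) := by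
        funext m
        simp only [Function.comp_apply, hc, dvd_mul_right, if_true,
          Nat.mul_div_cancel_left m hN, smul_eq_mul]
        rw [pow_mul]
        ring
      rw [hfun]
      exact h2
    · intro x hx
      have : ¬ N ∣ x := fun ⟨m, hm⟩ ↦ hx ⟨m, hm.symm⟩
      simp [hc, this]
  exact (ModularFormClass.qExpansion_coeff_unique one_pos
    (CongruenceSubgroup.one_mem_strictPeriods_Gamma0 N) key n).symm

theorem primElt_qExpansion_coeff_int (N : ℕ) [NeZero N] (n : ℕ) :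
    ∃ z : ℤ, (qExpansion 1 (primElt N)).coeff n = (z : ℂ) := by
  rw [primElt_qExpansion_coeff]
  split_ifs with h
  · obtain ⟨z, hz⟩ := E₄_qExpansion_coeff_int (n / N)
    exact ⟨(N : ℤ) ^ 3 * z, by rw [hz]; push_cast; ring⟩
  · exact ⟨0, by simp⟩

section conjugates

open SlashInvariantForm

local notation "𝒢₀" N => (Gamma0 N : Subgroup (GL (Fin 2) ℝ))

/-- The conjugates of the primitive element under the nontrivial cosets of `Γ₀(N)` in `SL₂(ℤ)`
are all different from the primitive element itself. -/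
theorem quotientFunc_primElt_ne (N : ℕ) [NeZero N]
    (q : 𝒮ℒ ⧸ (𝒢₀ N).subgroupOf 𝒮ℒ) (hq : q ≠ QuotientGroup.mk 1) :
    quotientFunc (primElt N) q ≠ ⇑(primElt N) := by
  induction q using Quotient.inductionOn with
  | h r =>
    obtain ⟨g, hgr⟩ := MonoidHom.mem_range.mp r.2
    rw [quotientFunc_mk]
    have hg : g⁻¹ ∉ Gamma0 N := by
      intro hmem
      apply hq
      have h1 : (Quotient.mk _ r : 𝒮ℒ ⧸ (𝒢₀ N).subgroupOf 𝒮ℒ) = QuotientGroup.mk r := rfl
      rw [h1, QuotientGroup.eq, mul_one, Subgroup.mem_subgroupOf]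
      refine ⟨g⁻¹, hmem, ?_⟩
      rw [map_inv, hgr]
      rfl
    have := primElt_slash_ne N g⁻¹ hg
    rwa [map_inv, hgr] at this

theorem mdiff_quotientFunc_primElt (N : ℕ) [NeZero N]
    (q : 𝒮ℒ ⧸ (𝒢₀ N).subgroupOf 𝒮ℒ) : MDiff (quotientFunc (primElt N) q) := by
  induction q using Quotient.inductionOn with
  | h r => exact (ModularForm.translate (primElt N) r.val⁻¹).holo'

/-- The "different" `∏_{q ≠ 1} (t - t_q)` of the primitive element is not identically zero
(function version, for any finset of cosets avoiding the trivial coset). -/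
theorem prod_primElt_sub_quotientFunc_ne_zero (N : ℕ) [NeZero N]
    (s : Finset (𝒮ℒ ⧸ (𝒢₀ N).subgroupOf 𝒮ℒ)) (hs : QuotientGroup.mk 1 ∉ s) :
    (∏ q ∈ s, (⇑(primElt N) - quotientFunc (primElt N) q)) ≠ 0 := by
  intro h0
  have hmd : ∀ q ∈ s, MDiff (⇑(primElt N) - quotientFunc (primElt N) q) :=
    fun q _ ↦ (ModularFormClass.holo (primElt N)).sub (mdiff_quotientFunc_primElt N q)
  obtain ⟨q, hq, hq0⟩ := (UpperHalfPlane.prod_eq_zero_iff hmd).mp h0
  have hq1 : q ≠ QuotientGroup.mk 1 := fun h ↦ hs (h ▸ hq)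
  exact quotientFunc_primElt_ne N q hq1 (sub_eq_zero.mp hq0).symm

/-- Pointwise version. -/
theorem exists_prod_primElt_sub_quotientFunc_ne_zero (N : ℕ) [NeZero N]
    (s : Finset (𝒮ℒ ⧸ (𝒢₀ N).subgroupOf 𝒮ℒ)) (hs : QuotientGroup.mk 1 ∉ s) :
    ∃ τ : ℍ, (∏ q ∈ s, (primElt N τ - quotientFunc (primElt N) q τ)) ≠ 0 := by
  by_contra hcon
  push Not at hcon
  apply prod_primElt_sub_quotientFunc_ne_zero N s hs
  funext τ
  simpa using hcon τ

end conjugates

end

end Fermat.Agent.S23.H143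

end
-- ===== PACK-END S23/H143/PrimElt.lean

-- ===== PACK-BEGIN S23/H503/Lagrange.lean
section




/-!
# Symmetric functions of the translates of a modular form, and Lagrange interpolation

For `f` a modular form of weight `k` for `𝒢`, and `ℋ` a subgroup in which `𝒢 ⊓ ℋ` has finite
index, the elementary symmetric functions of the translates `f ∣[k] h⁻¹` (`h ∈ ℋ ⧸ 𝒢 ⊓ ℋ`) are
modular forms of weight `k * m` for `ℋ`; `f` is a root of the corresponding monic polynomial.

Moreover, for a second form `t` of weight `w`, the coefficients of the Lagrange interpolation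
polynomial `∑_q f_q ∏_{q' ≠ q} (X - t_{q'})` are modular forms for `ℋ`, and evaluating at `X = t`
gives `f * ∏_{q ≠ 1} (t - t_q)`.
-/

set_option autoImplicit false

noncomputable section

namespace Fermat.Agent.S23.H503

open UpperHalfPlane SlashInvariantForm

open scoped ModularForm Topology Filter Manifold MatrixGroups

variable {𝒢 ℋ : Subgroup (GL (Fin 2) ℝ)} {F : Type*} (f : F) [FunLike F ℍ ℂ] {k : ℤ}

local notation "𝒬" => ℋ ⧸ (𝒢.subgroupOf ℋ)

/-! ### Pure algebra -/

section algebra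

variable {ι R : Type*} [CommRing R]

/-- Vieta's formula, evaluated at a point. -/
lemma prod_sub_eq_sum_esymm (s : Finset ι) (x : ι → R) (y : R) :
    ∏ i ∈ s, (y - x i) = ∑ j ∈ Finset.range (s.card + 1),
      (-1) ^ j * (∑ t ∈ Finset.powersetCard j s, ∏ i ∈ t, x i) * y ^ (s.card - j) := by
  have h := congrArg (Polynomial.eval y) (Multiset.prod_X_sub_X_eq_sum_esymm (s.val.map x))
  simp only [Multiset.map_map, Function.comp_def, Multiset.card_map, Finset.card_val,
    Polynomial.eval_finsetSum, Polynomial.eval_mul, Polynomial.eval_pow, Polynomial.eval_neg,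
    Polynomial.eval_one, Polynomial.eval_C, Polynomial.eval_X, Finset.esymm_map_val] at h
  have h2 : Polynomial.eval y
      (Multiset.map (fun i ↦ Polynomial.X - Polynomial.C (x i)) s.val).prod =
      ∏ i ∈ s, (y - x i) := by
    rw [Polynomial.eval_multiset_prod, Multiset.map_map]
    simp only [Function.comp_def, Polynomial.eval_sub, Polynomial.eval_X, Polynomial.eval_C]
    rfl
  rw [← h2, h]
  exact Finset.sum_congr rfl fun j _ ↦ by ring

/-- Sums over `powersetCard` are invariant under permutations of the ground type. -/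
lemma sum_powersetCard_prod_comp [Fintype ι] [DecidableEq ι]
    (σ : Equiv.Perm ι) (g : ι → R) (m : ℕ) :
    ∑ s ∈ Finset.powersetCard m (Finset.univ : Finset ι), ∏ q ∈ s, g (σ q) =
      ∑ s ∈ Finset.powersetCard m (Finset.univ : Finset ι), ∏ q ∈ s, g q := by
  have h1 : Finset.powersetCard m (Finset.univ : Finset ι) =
      (Finset.powersetCard m (Finset.univ : Finset ι)).map
        (Finset.mapEmbedding σ.toEmbedding).toEmbedding := by
    rw [← Finset.powersetCard_map, Finset.map_univ_equiv]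
  conv_rhs => rw [h1]
  rw [Finset.sum_map]
  refine Finset.sum_congr rfl fun s _ ↦ ?_
  simp [Finset.mapEmbedding_apply]

/-- Reindexing lemma for the interpolation sums. -/
lemma sum_mul_sum_powersetCard_erase_comp [Fintype ι] [DecidableEq ι]
    (σ : Equiv.Perm ι) (a b : ι → R) (m : ℕ) :
    ∑ q, a (σ q) * ∑ s ∈ Finset.powersetCard m (Finset.univ.erase q), ∏ q' ∈ s, b (σ q') =
      ∑ q, a q * ∑ s ∈ Finset.powersetCard m (Finset.univ.erase q), ∏ q' ∈ s, b q' := by
  rw [← Equiv.sum_comp σ (fun q ↦ a q *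
    ∑ s ∈ Finset.powersetCard m (Finset.univ.erase q), ∏ q' ∈ s, b q')]
  refine Finset.sum_congr rfl fun q _ ↦ ?_
  congr 1
  have h1 : Finset.powersetCard m (Finset.univ.erase (σ q)) =
      (Finset.powersetCard m (Finset.univ.erase q)).map
        (Finset.mapEmbedding σ.toEmbedding).toEmbedding := by
    rw [← Finset.powersetCard_map]
    congr 1
    ext x
    simp [Finset.mem_erase]
  rw [h1, Finset.sum_map]
  refine Finset.sum_congr rfl fun s _ ↦ ?_
  simp [Finset.mapEmbedding_apply]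

end algebra

/-! ### Translates -/

section translates

lemma quotientFunc_one [SlashInvariantFormClass F 𝒢 k] :
    quotientFunc (ℋ := ℋ) f ((1 : ℋ) : 𝒬) = f := by
  change quotientFunc f ⟦(1 : ℋ)⟧ = f
  rw [quotientFunc_mk]
  simp

variable (ℋ)

lemma mdifferentiable_quotientFunc [ModularFormClass F 𝒢 k] (q : 𝒬) :
    MDiff (quotientFunc f q) := by
  induction q using Quotient.inductionOn with
  | h r => exact (ModularForm.translate f r.val⁻¹).holo'

/-- Translates of a modular form are bounded at `i∞` after slashing with any `γ` mapping `∞` to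
a cusp of `ℋ`. -/
lemma isBoundedAtImInfty_quotientFunc_slash [𝒢.IsFiniteRelIndex ℋ] [ModularFormClass F 𝒢 k]
    (q : 𝒬) {γ : GL (Fin 2) ℝ} (hγ : IsCusp (γ • OnePoint.infty) ℋ) :
    IsBoundedAtImInfty (quotientFunc f q ∣[k] γ) := by
  induction q using Quotient.inductionOn with
  | h r =>
    obtain ⟨r, hr⟩ := r
    refine (ModularForm.translate f _).bdd_at_cusps' ?_ γ rfl
    simpa using hγ.of_isFiniteRelIndex_conj hr

lemma isZeroAtImInfty_quotientFunc_slash [𝒢.IsFiniteRelIndex ℋ] [CuspFormClass F 𝒢 k]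
    (q : 𝒬) {γ : GL (Fin 2) ℝ} (hγ : IsCusp (γ • OnePoint.infty) ℋ) :
    IsZeroAtImInfty (quotientFunc f q ∣[k] γ) := by
  induction q using Quotient.inductionOn with
  | h r =>
    obtain ⟨r, hr⟩ := r
    refine (CuspForm.translate f _).zero_at_cusps' ?_ γ rfl
    simpa using hγ.of_isFiniteRelIndex_conj hr

end translates

/-! ### Elementary symmetric functions of the translates -/

section esymm

variable (ℋ) [𝒢.IsFiniteRelIndex ℋ]

/-- The `m`-th elementary symmetric function of the translates of `f`. -/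
def esymmFun [SlashInvariantFormClass F 𝒢 k] (m : ℕ) : ℍ → ℂ :=
  let := Fintype.ofFinite 𝒬
  ∑ s ∈ Finset.powersetCard m (Finset.univ : Finset 𝒬), ∏ q ∈ s, quotientFunc f q

variable {ℋ} in
lemma esymmFun_eq [SlashInvariantFormClass F 𝒢 k] [Fintype 𝒬] (m : ℕ) :
    esymmFun ℋ f m =
      ∑ s ∈ Finset.powersetCard m (Finset.univ : Finset 𝒬), ∏ q ∈ s, quotientFunc f q := by
  unfold esymmFun
  congr!

variable {ℋ} in
lemma esymmFun_slash [SlashInvariantFormClass F 𝒢 k] [ℋ.HasDetPlusMinusOne] (m : ℕ)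
    {h : GL (Fin 2) ℝ} (hh : h ∈ ℋ) :
    esymmFun ℋ f m ∣[k * m] h = esymmFun ℋ f m := by
  classical
  let := Fintype.ofFinite 𝒬
  rw [esymmFun_eq, SlashAction.sum_slash]
  have key : ∀ s ∈ Finset.powersetCard m (Finset.univ : Finset 𝒬),
      (∏ q ∈ s, quotientFunc f q) ∣[k * m] h =
        ∏ q ∈ s, quotientFunc f ((MulAction.toPerm (⟨h, hh⟩ : ℋ)⁻¹) q) := by
    intro s hs
    rw [Finset.mem_powersetCard] at hs
    rw [← hs.2, ModularForm.prod_slash]
    simp [quotientFunc_smul f hh, Subgroup.HasDetPlusMinusOne.abs_det hh,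
      -Matrix.GeneralLinearGroup.val_det_apply]
  rw [Finset.sum_congr rfl key]
  exact sum_powersetCard_prod_comp _ (fun q ↦ quotientFunc f q) m

lemma mdifferentiable_esymmFun [ModularFormClass F 𝒢 k] (m : ℕ) :
    MDiff (esymmFun ℋ f m) := by
  let := Fintype.ofFinite 𝒬
  rw [esymmFun_eq]
  exact .sum fun s _ ↦ .prod fun q _ ↦ mdifferentiable_quotientFunc ℋ f q

/-- The elementary symmetric functions of translates of a modular form, as a modular form. -/
def esymmMF [ℋ.HasDetPlusMinusOne] [ModularFormClass F 𝒢 k] (m : ℕ) :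
    ModularForm ℋ (k * m) where
  toFun := esymmFun ℋ f m
  slash_action_eq' _ hh := esymmFun_slash f m hh
  holo' := mdifferentiable_esymmFun ℋ f m
  bdd_at_cusps' h γ := by
    rintro rfl
    let := Fintype.ofFinite 𝒬
    change IsBoundedAtImInfty (esymmFun ℋ f m ∣[k * m] γ)
    rw [esymmFun_eq, SlashAction.sum_slash, IsBoundedAtImInfty, Filter.BoundedAtFilter,
      Finset.sum_fn]
    refine .fun_sum fun s hs ↦ ?_
    rw [Finset.mem_powersetCard] at hs
    rw [← hs.2, ModularForm.prod_slash]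
    apply Asymptotics.IsBigO.const_smul_left
    rw [show (1 : ℍ → ℝ) = (fun x ↦ ∏ (i ∈ s), 1) by ext; simp, Finset.prod_fn]
    exact .finsetProd fun q _ ↦ isBoundedAtImInfty_quotientFunc_slash ℋ f q h

@[simp] lemma coe_esymmMF [ℋ.HasDetPlusMinusOne] [ModularFormClass F 𝒢 k] (m : ℕ) :
    ⇑(esymmMF ℋ f m) = esymmFun ℋ f m := rfl

/-- The elementary symmetric functions (of positive degree) of translates of a cusp form, as a
cusp form. -/
def esymmCF [ℋ.HasDetPlusMinusOne] [CuspFormClass F 𝒢 k] (m : ℕ) (hm : m ≠ 0) :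
    CuspForm ℋ (k * m) where
  __ := esymmMF ℋ f m
  zero_at_cusps' h γ := by
    rintro rfl
    let := Fintype.ofFinite 𝒬
    change IsZeroAtImInfty (esymmFun ℋ f m ∣[k * m] γ)
    rw [esymmFun_eq, SlashAction.sum_slash, IsZeroAtImInfty, Filter.ZeroAtFilter,
      Finset.sum_fn]
    rw [show (0 : ℂ) = ∑ s ∈ Finset.powersetCard m (Finset.univ : Finset 𝒬), 0 by simp]
    refine tendsto_finsetSum _ fun s hs ↦ ?_
    rw [Finset.mem_powersetCard] at hs
    have hs0 : s.card ≠ 0 := by rw [hs.2]; exact hm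
    rw [← hs.2, ModularForm.prod_slash]
    have h0 : (0 : ℂ) = |(Matrix.GeneralLinearGroup.det γ : ℝ)| ^ ((s.card : ℤ) - 1) •
        ∏ q ∈ s, (0 : ℂ) := by
      rw [Finset.prod_const, zero_pow hs0, smul_zero]
    rw [h0]
    have h1 : Filter.Tendsto (fun z ↦ ∏ q ∈ s, (quotientFunc f q ∣[k] γ) z) atImInfty
        (nhds (∏ q ∈ s, (0 : ℂ))) :=
      tendsto_finsetProd _ fun q _ ↦ isZeroAtImInfty_quotientFunc_slash ℋ f q h
    have h2 := h1.const_smul (|(Matrix.GeneralLinearGroup.det γ : ℝ)| ^ ((s.card : ℤ) - 1))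
    refine h2.congr fun z ↦ ?_
    simp [Finset.prod_apply]

@[simp] lemma coe_esymmCF [ℋ.HasDetPlusMinusOne] [CuspFormClass F 𝒢 k] (m : ℕ) (hm : m ≠ 0) :
    ⇑(esymmCF ℋ f m hm) = esymmFun ℋ f m := rfl

/-- `f` is a root of the monic polynomial `∑ (-1)^j e_j X^(d-j)`, `d = [ℋ : 𝒢 ⊓ ℋ]`, whose
coefficients are the elementary symmetric functions of the translates of `f`. -/
theorem sum_esymmFun_mul_pow_eq_zero [SlashInvariantFormClass F 𝒢 k] (z : ℍ) :
    ∑ j ∈ Finset.range (Nat.card 𝒬 + 1),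
      (-1) ^ j * esymmFun ℋ f j z * (f : ℍ → ℂ) z ^ (Nat.card 𝒬 - j) = 0 := by
  classical
  let := Fintype.ofFinite 𝒬
  have h := prod_sub_eq_sum_esymm (Finset.univ : Finset 𝒬) (fun q ↦ quotientFunc f q z)
    ((f : ℍ → ℂ) z)
  rw [Finset.card_univ, ← Nat.card_eq_fintype_card] at h
  have h0 : ∏ q : 𝒬, ((f : ℍ → ℂ) z - quotientFunc f q z) = 0 :=
    Finset.prod_eq_zero (Finset.mem_univ ((1 : ℋ) : 𝒬)) (by rw [quotientFunc_one]; simp)
  rw [h0] at h
  rw [h]
  refine Finset.sum_congr rfl fun j _ ↦ ?_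
  rw [esymmFun_eq, Finset.sum_apply]
  simp [Finset.prod_apply]

end esymm

/-! ### Lagrange interpolation -/

section interp

variable {F' : Type*} (t : F') [FunLike F' ℍ ℂ] {w : ℤ}

variable (ℋ) [𝒢.IsFiniteRelIndex ℋ]

/-- The coefficients of the Lagrange interpolation polynomial
`∑_q f_q ∏_{q' ≠ q} (X - t_{q'})` (up to sign): `interpFun f t m` is, up to the sign `(-1)^m`,
the coefficient of `X^(d-1-m)`. -/
def interpFun [SlashInvariantFormClass F 𝒢 k] [SlashInvariantFormClass F' 𝒢 w] (m : ℕ) :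
    ℍ → ℂ :=
  open Classical in
  let := Fintype.ofFinite 𝒬
  ∑ q : 𝒬, quotientFunc f q *
    ∑ s ∈ Finset.powersetCard m (Finset.univ.erase q), ∏ q' ∈ s, quotientFunc t q'

variable {ℋ} in
lemma interpFun_eq [SlashInvariantFormClass F 𝒢 k] [SlashInvariantFormClass F' 𝒢 w]
    [Fintype 𝒬] [DecidableEq 𝒬] (m : ℕ) :
    interpFun ℋ f t m = ∑ q : 𝒬, quotientFunc f q *
      ∑ s ∈ Finset.powersetCard m (Finset.univ.erase q), ∏ q' ∈ s, quotientFunc t q' := by
  unfold interpFun
  congr!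

variable {ℋ} in
lemma interpFun_slash [SlashInvariantFormClass F 𝒢 k] [SlashInvariantFormClass F' 𝒢 w]
    [ℋ.HasDetPlusMinusOne] (m : ℕ) {h : GL (Fin 2) ℝ} (hh : h ∈ ℋ) :
    interpFun ℋ f t m ∣[k + w * m] h = interpFun ℋ f t m := by
  classical
  let := Fintype.ofFinite 𝒬
  rw [interpFun_eq, SlashAction.sum_slash]
  have key : ∀ q : 𝒬,
      (quotientFunc f q * ∑ s ∈ Finset.powersetCard m (Finset.univ.erase q),
        ∏ q' ∈ s, quotientFunc t q') ∣[k + w * m] h =
      quotientFunc f ((MulAction.toPerm (⟨h, hh⟩ : ℋ)⁻¹) q) *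
        ∑ s ∈ Finset.powersetCard m (Finset.univ.erase q),
          ∏ q' ∈ s, quotientFunc t ((MulAction.toPerm (⟨h, hh⟩ : ℋ)⁻¹) q') := by
    intro q
    rw [ModularForm.mul_slash, SlashAction.sum_slash, quotientFunc_smul f hh,
      Subgroup.HasDetPlusMinusOne.abs_det hh, one_smul]
    congr 1
    refine Finset.sum_congr rfl fun s hs ↦ ?_
    rw [Finset.mem_powersetCard] at hs
    rw [← hs.2, ModularForm.prod_slash]
    simp [quotientFunc_smul t hh, Subgroup.HasDetPlusMinusOne.abs_det hh,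
      -Matrix.GeneralLinearGroup.val_det_apply]
  rw [Finset.sum_congr rfl fun q _ ↦ key q]
  exact sum_mul_sum_powersetCard_erase_comp _ (fun q ↦ quotientFunc f q)
    (fun q ↦ quotientFunc t q) m

lemma mdifferentiable_interpFun [ModularFormClass F 𝒢 k] [ModularFormClass F' 𝒢 w] (m : ℕ) :
    MDiff (interpFun ℋ f t m) := by
  classical
  let := Fintype.ofFinite 𝒬
  rw [interpFun_eq]
  exact .sum fun q _ ↦ (mdifferentiable_quotientFunc ℋ f q).mul
    (.sum fun s _ ↦ .prod fun q' _ ↦ mdifferentiable_quotientFunc ℋ t q')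

/-- The coefficients of the Lagrange interpolation polynomial, as modular forms for `ℋ`. -/
def interpMF [ℋ.HasDetPlusMinusOne] [ModularFormClass F 𝒢 k] [ModularFormClass F' 𝒢 w]
    (m : ℕ) : ModularForm ℋ (k + w * m) where
  toFun := interpFun ℋ f t m
  slash_action_eq' _ hh := interpFun_slash f t m hh
  holo' := mdifferentiable_interpFun ℋ f t m
  bdd_at_cusps' h γ := by
    rintro rfl
    classical
    let := Fintype.ofFinite 𝒬
    change IsBoundedAtImInfty (interpFun ℋ f t m ∣[k + w * m] γ)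
    rw [interpFun_eq, SlashAction.sum_slash, IsBoundedAtImInfty, Filter.BoundedAtFilter,
      Finset.sum_fn]
    refine .fun_sum fun q _ ↦ ?_
    rw [ModularForm.mul_slash, SlashAction.sum_slash]
    apply Asymptotics.IsBigO.const_smul_left
    refine Filter.BoundedAtFilter.mul (isBoundedAtImInfty_quotientFunc_slash ℋ f q h) ?_
    rw [Filter.BoundedAtFilter, Finset.sum_fn]
    refine .fun_sum fun s hs ↦ ?_
    rw [Finset.mem_powersetCard] at hs
    rw [← hs.2, ModularForm.prod_slash]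
    apply Asymptotics.IsBigO.const_smul_left
    rw [show (1 : ℍ → ℝ) = (fun x ↦ ∏ (i ∈ s), 1) by ext; simp, Finset.prod_fn]
    exact .finsetProd fun q' _ ↦ isBoundedAtImInfty_quotientFunc_slash ℋ t q' h

@[simp] lemma coe_interpMF [ℋ.HasDetPlusMinusOne] [ModularFormClass F 𝒢 k]
    [ModularFormClass F' 𝒢 w] (m : ℕ) : ⇑(interpMF ℋ f t m) = interpFun ℋ f t m := rfl

/-- The "derivative of the characteristic polynomial of `t`, evaluated at `t`":
`∏_{q ≠ 1} (t - t_q)`. -/
def charDerivFun [SlashInvariantFormClass F' 𝒢 w] : ℍ → ℂ := fun z ↦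
  open Classical in
  let := Fintype.ofFinite 𝒬
  ∏ q ∈ (Finset.univ : Finset 𝒬).erase ((1 : ℋ) : 𝒬), ((t : ℍ → ℂ) z - quotientFunc t q z)

variable {ℋ} in
lemma charDerivFun_apply [SlashInvariantFormClass F' 𝒢 w] [Fintype 𝒬] [DecidableEq 𝒬]
    (z : ℍ) :
    charDerivFun ℋ t z =
      ∏ q ∈ (Finset.univ : Finset 𝒬).erase ((1 : ℋ) : 𝒬),
        ((t : ℍ → ℂ) z - quotientFunc t q z) := by
  unfold charDerivFun
  congr!

/-- If all the nontrivial translates of `t` differ from `t`, then `∏_{q ≠ 1} (t - t_q)` is not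
identically zero. -/
lemma charDerivFun_ne_zero [ModularFormClass F' 𝒢 w]
    (ht : ∀ q : 𝒬, q ≠ ((1 : ℋ) : 𝒬) → quotientFunc t q ≠ (t : ℍ → ℂ)) :
    charDerivFun ℋ t ≠ 0 := by
  classical
  let := Fintype.ofFinite 𝒬
  have h1 : charDerivFun ℋ t = ∏ q ∈ (Finset.univ : Finset 𝒬).erase ((1 : ℋ) : 𝒬),
      ((t : ℍ → ℂ) - quotientFunc t q) := by
    ext z
    rw [charDerivFun_apply, Finset.prod_apply]
    rfl
  rw [h1, Ne, UpperHalfPlane.prod_eq_zero_iff]
  · rintro ⟨q, hq, h0⟩
    exact ht q (Finset.ne_of_mem_erase hq) (sub_eq_zero.mp h0).symm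
  · intro q _
    exact (ModularFormClass.holo t).sub (mdifferentiable_quotientFunc ℋ t q)

/-- **Lagrange interpolation**: `f * ∏_{q ≠ 1} (t - t_q) = ∑_m (-1)^m a_m t^(d-1-m)`, where the
`a_m = interpFun ℋ f t m` are modular forms for `ℋ` of weight `k + w * m`. -/
theorem sum_interpFun_mul_pow [SlashInvariantFormClass F 𝒢 k] [SlashInvariantFormClass F' 𝒢 w]
    (z : ℍ) :
    ∑ m ∈ Finset.range (Nat.card 𝒬),
      (-1) ^ m * interpFun ℋ f t m z * (t : ℍ → ℂ) z ^ (Nat.card 𝒬 - 1 - m) =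
    (f : ℍ → ℂ) z * charDerivFun ℋ t z := by
  classical
  let := Fintype.ofFinite 𝒬
  have hcard : ∀ q : 𝒬, ((Finset.univ : Finset 𝒬).erase q).card = Nat.card 𝒬 - 1 := by
    intro q
    rw [Finset.card_erase_of_mem (Finset.mem_univ _), Finset.card_univ,
      Nat.card_eq_fintype_card]
  have hpos : 0 < Nat.card 𝒬 := Nat.card_pos
  have hV : ∀ q : 𝒬, ∏ q' ∈ (Finset.univ : Finset 𝒬).erase q,
      ((t : ℍ → ℂ) z - quotientFunc t q' z) =
      ∑ m ∈ Finset.range (Nat.card 𝒬), (-1) ^ m *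
        (∑ s ∈ Finset.powersetCard m ((Finset.univ : Finset 𝒬).erase q),
          ∏ q' ∈ s, quotientFunc t q' z) * (t : ℍ → ℂ) z ^ (Nat.card 𝒬 - 1 - m) := by
    intro q
    rw [prod_sub_eq_sum_esymm, hcard q, Nat.sub_add_cancel hpos]
  -- the right-hand side is the sum over all `q`, only `q = 1` contributing
  have h1 : (f : ℍ → ℂ) z * charDerivFun ℋ t z =
      ∑ q : 𝒬, quotientFunc f q z * ∏ q' ∈ (Finset.univ : Finset 𝒬).erase q,
        ((t : ℍ → ℂ) z - quotientFunc t q' z) := by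
    rw [Finset.sum_eq_single ((1 : ℋ) : 𝒬), quotientFunc_one, charDerivFun_apply]
    · intro q _ hq
      rw [Finset.prod_eq_zero (i := ((1 : ℋ) : 𝒬)), mul_zero]
      · exact Finset.mem_erase.mpr ⟨fun h ↦ hq h.symm, Finset.mem_univ _⟩
      · rw [quotientFunc_one]; simp
    · intro h; exact absurd (Finset.mem_univ _) h
  rw [h1]
  have h2 : ∀ q : 𝒬, quotientFunc f q z * ∏ q' ∈ (Finset.univ : Finset 𝒬).erase q,
      ((t : ℍ → ℂ) z - quotientFunc t q' z) =
      ∑ m ∈ Finset.range (Nat.card 𝒬), (-1) ^ m * (quotientFunc f q z *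
        (∑ s ∈ Finset.powersetCard m ((Finset.univ : Finset 𝒬).erase q),
          ∏ q' ∈ s, quotientFunc t q' z)) * (t : ℍ → ℂ) z ^ (Nat.card 𝒬 - 1 - m) := by
    intro q
    rw [hV q, Finset.mul_sum]
    exact Finset.sum_congr rfl fun m _ ↦ by ring
  rw [Finset.sum_congr rfl fun q _ ↦ h2 q, Finset.sum_comm]
  refine Finset.sum_congr rfl fun m _ ↦ ?_
  rw [interpFun_eq, Finset.sum_apply, Finset.mul_sum, Finset.sum_mul]
  refine Finset.sum_congr rfl fun q _ ↦ ?_
  simp only [Pi.mul_apply, Finset.sum_apply, Finset.prod_apply]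

/-- The special case `f = 1` of Lagrange interpolation: `∏_{q ≠ 1} (t - t_q)` is a polynomial in
`t` whose coefficients are modular forms for `ℋ`. -/
theorem sum_interpFun_one_mul_pow [𝒢.HasDetPlusMinusOne] [SlashInvariantFormClass F' 𝒢 w]
    (z : ℍ) :
    ∑ m ∈ Finset.range (Nat.card 𝒬),
      (-1) ^ m * interpFun ℋ (1 : ModularForm 𝒢 0) t m z *
        (t : ℍ → ℂ) z ^ (Nat.card 𝒬 - 1 - m) = charDerivFun ℋ t z := by
  rw [sum_interpFun_mul_pow ℋ (1 : ModularForm 𝒢 0) t z]
  simp [ModularForm.one_coe_eq_one]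

end interp

/-! ### Packaged statements -/

section packaged

variable {F' : Type*} (t : F') [FunLike F' ℍ ℂ] {w : ℤ}

/-- **Monic equation** (packaged, for cusp forms for an arithmetic subgroup `𝒢`): a cusp form `f`
of weight `k` satisfies `f ^ n + ∑_{m = 1}^{n} b_m f ^ (n - m) = 0` where `b_m` is a level one
cusp form of weight `k * m`. -/
theorem exists_monic_cusp [𝒢.IsArithmetic] [CuspFormClass F 𝒢 k] :
    ∃ (n : ℕ) (b : (m : ℕ) → CuspForm 𝒮ℒ (k * m)), 0 < n ∧
      ∀ τ : ℍ, (f : ℍ → ℂ) τ ^ n +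
        ∑ m ∈ Finset.Icc 1 n, b m τ * (f : ℍ → ℂ) τ ^ (n - m) = 0 := by
  classical
  refine ⟨Nat.card (𝒮ℒ ⧸ 𝒢.subgroupOf 𝒮ℒ),
    fun m ↦ if hm : m = 0 then 0 else ((-1 : ℂ) ^ m) • esymmCF 𝒮ℒ f m hm, Nat.card_pos,
    fun τ ↦ ?_⟩
  have h := sum_esymmFun_mul_pow_eq_zero 𝒮ℒ f τ
  rw [Finset.range_eq_Ico, Finset.sum_eq_sum_Ico_succ_bot (Nat.succ_pos _)] at h
  have h0 : esymmFun 𝒮ℒ f 0 τ = 1 := by
    let := Fintype.ofFinite (𝒮ℒ ⧸ 𝒢.subgroupOf 𝒮ℒ)
    rw [esymmFun_eq]
    simp
  rw [h0] at h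
  simp only [pow_zero, one_mul, Nat.sub_zero] at h
  rw [← h]
  congr 1
  refine Finset.sum_congr (by ext; simp [Nat.succ_le_iff]) fun m hm ↦ ?_
  have hm0 : m ≠ 0 := by
    have := (Finset.mem_Icc.mp hm).1
    omega
  simp [hm0]

/-- **Lagrange interpolation** (packaged, for an arithmetic subgroup `𝒢`, e.g. the image of
`Gamma0 N`): if no nontrivial `𝒮ℒ`-translate of `t` equals
`t`, then there is `D = ∑_{m < n} c_m t ^ (n - 1 - m) ≢ 0` with `c_m` of level one and
weight `w * m`, such that `f * D = ∑_{m < n} a_m t ^ (n - 1 - m)` with `a_m` of level one and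
weight `k + w * m`. -/
theorem exists_lagrange [𝒢.IsArithmetic] [ModularFormClass F 𝒢 k] [ModularFormClass F' 𝒢 w]
    (ht : ∀ q : 𝒮ℒ ⧸ 𝒢.subgroupOf 𝒮ℒ, q ≠ ((1 : 𝒮ℒ) : 𝒮ℒ ⧸ 𝒢.subgroupOf 𝒮ℒ) →
      quotientFunc t q ≠ (t : ℍ → ℂ)) :
    ∃ (n : ℕ) (a : (m : ℕ) → ModularForm 𝒮ℒ (k + w * m))
      (c : (m : ℕ) → ModularForm 𝒮ℒ (w * m)), 0 < n ∧
      (∃ τ : ℍ, ∑ m ∈ Finset.range n, c m τ * (t : ℍ → ℂ) τ ^ (n - 1 - m) ≠ 0) ∧
      ∀ τ : ℍ, (f : ℍ → ℂ) τ * (∑ m ∈ Finset.range n, c m τ * (t : ℍ → ℂ) τ ^ (n - 1 - m)) =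
        ∑ m ∈ Finset.range n, a m τ * (t : ℍ → ℂ) τ ^ (n - 1 - m) := by
  have hD : ∀ τ : ℍ, ∑ m ∈ Finset.range (Nat.card (𝒮ℒ ⧸ 𝒢.subgroupOf 𝒮ℒ)),
      (ModularForm.mcast (zero_add _)
        (((-1 : ℂ) ^ m) • interpMF 𝒮ℒ (1 : ModularForm 𝒢 0) t m) :
          ModularForm 𝒮ℒ (w * m)) τ *
        (t : ℍ → ℂ) τ ^ (Nat.card (𝒮ℒ ⧸ 𝒢.subgroupOf 𝒮ℒ) - 1 - m) = charDerivFun 𝒮ℒ t τ := by
    intro τ
    rw [← sum_interpFun_one_mul_pow 𝒮ℒ t τ]
    refine Finset.sum_congr rfl fun m _ ↦ ?_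
    simp
  refine ⟨Nat.card (𝒮ℒ ⧸ 𝒢.subgroupOf 𝒮ℒ), fun m ↦ ((-1 : ℂ) ^ m) • interpMF 𝒮ℒ f t m,
    fun m ↦ ModularForm.mcast (zero_add _)
      (((-1 : ℂ) ^ m) • interpMF 𝒮ℒ (1 : ModularForm 𝒢 0) t m), Nat.card_pos, ?_, fun τ ↦ ?_⟩
  · by_contra hcon
    rw [not_exists] at hcon
    replace hcon := fun τ ↦ not_not.mp (hcon τ)
    refine charDerivFun_ne_zero 𝒮ℒ t ht ?_
    ext τ
    rw [← hD τ, hcon τ]
    rfl
  · rw [hD τ, ← sum_interpFun_mul_pow 𝒮ℒ f t τ]
    refine Finset.sum_congr rfl fun m _ ↦ ?_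
    simp

end packaged

end Fermat.Agent.S23.H503

end
end
-- ===== PACK-END S23/H503/Lagrange.lean

-- ===== PACK-BEGIN S23/FixedField.lean
section


set_option autoImplicit false
set_option linter.style.haveILetI false

/-!
# An element of `ℂ` fixed by every ring automorphism of `ℂ` is rational.
-/

namespace Fermat.Agent.S23

open MvPolynomial

theorem exists_ringEquiv_ne_of_transcendental (x : ℂ) (hx : Transcendental ℚ x) :
    ∃ σ : ℂ ≃+* ℂ, σ x ≠ x := by
  have hs : AlgebraicIndepOn ℚ id ({x} : Set ℂ) := by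
    have : AlgebraicIndependent ℚ (fun i : ({x} : Set ℂ) => (i : ℂ)) := by
      rw [algebraicIndependent_unique_type_iff]
      exact hx
    exact this
  obtain ⟨t, hst, ht⟩ := exists_isTranscendenceBasis_superset hs
  let i₀ : t := ⟨x, hst (Set.mem_singleton x)⟩
  let _ := IsAlgClosed.isAlgClosure_of_transcendence_basis (Subtype.val : t → ℂ) ht
  let f : t → MvPolynomial t ℚ := fun i => if i = i₀ then X i + 1 else X i
  let g : t → MvPolynomial t ℚ := fun i => if i = i₀ then X i - 1 else X i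
  let ψ : MvPolynomial t ℚ ≃ₐ[ℚ] MvPolynomial t ℚ :=
    AlgEquiv.ofAlgHom (aeval f) (aeval g)
      (by
        ext i
        by_cases h : i = i₀
        · simp [f, g, h]
        · simp [f, g, h])
      (by
        ext i
        by_cases h : i = i₀
        · simp [f, g, h]
        · simp [f, g, h])
  let e : Algebra.adjoin ℚ (Set.range (Subtype.val : t → ℂ)) ≃+*
      Algebra.adjoin ℚ (Set.range (Subtype.val : t → ℂ)) :=
    (ht.1.aevalEquiv.symm.trans (ψ.trans ht.1.aevalEquiv)).toRingEquiv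
  refine ⟨IsAlgClosure.equivOfEquiv ℂ ℂ e, ?_⟩
  have hxmem : x ∈ Algebra.adjoin ℚ (Set.range (Subtype.val : t → ℂ)) :=
    Algebra.subset_adjoin ⟨i₀, rfl⟩
  have h1 : (IsAlgClosure.equivOfEquiv ℂ ℂ e) x =
      ((e ⟨x, hxmem⟩ : Algebra.adjoin ℚ (Set.range (Subtype.val : t → ℂ))) : ℂ) := by
    have := IsAlgClosure.equivOfEquiv_algebraMap ℂ ℂ e ⟨x, hxmem⟩
    simpa using this
  have h3 : ht.1.aevalEquiv.symm ⟨x, hxmem⟩ = X i₀ := by
    apply ht.1.aevalEquiv.injective
    rw [AlgEquiv.apply_symm_apply]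
    ext
    simp [i₀]
  have h2 : ((e ⟨x, hxmem⟩ : Algebra.adjoin ℚ (Set.range (Subtype.val : t → ℂ))) : ℂ) = x + 1 := by
    have : e ⟨x, hxmem⟩ = ht.1.aevalEquiv (ψ (ht.1.aevalEquiv.symm ⟨x, hxmem⟩)) := rfl
    rw [this, h3]
    simp [ψ, f, i₀]
  rw [h1, h2]
  simp

theorem exists_ringEquiv_ne_of_algebraic (x : ℂ) (hx : IsAlgebraic ℚ x)
    (hx' : x ∉ Set.range (algebraMap ℚ ℂ)) :
    ∃ σ : ℂ ≃+* ℂ, σ x ≠ x := by
  have hxA : x ∈ algebraicClosure ℚ ℂ := mem_algebraicClosure_iff.mpr hx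
  haveI hcl : IsAlgClosure ℚ (algebraicClosure ℚ ℂ) := algebraicClosure.isAlgClosure ℚ ℂ
  haveI : IsAlgClosed (algebraicClosure ℚ ℂ) := hcl.isAlgClosed
  haveI : Normal ℚ (algebraicClosure ℚ ℂ) := IsAlgClosure.normal ℚ _
  have hx'' : (⟨x, hxA⟩ : algebraicClosure ℚ ℂ) ∉ (⊥ : Subalgebra ℚ (algebraicClosure ℚ ℂ)) := by
    intro h
    rw [Algebra.mem_bot] at h
    obtain ⟨r, hr⟩ := h
    apply hx'
    refine ⟨r, ?_⟩
    have := congrArg (fun z : algebraicClosure ℚ ℂ => (z : ℂ)) hr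
    simpa using this
  have hsep : IsSeparable ℚ (⟨x, hxA⟩ : algebraicClosure ℚ ℂ) :=
    Algebra.IsSeparable.isSeparable ℚ _
  have hsplit : ((minpoly ℚ (⟨x, hxA⟩ : algebraicClosure ℚ ℂ)).map
      (algebraMap ℚ (algebraicClosure ℚ ℂ))).Splits := IsAlgClosed.splits _
  obtain ⟨y, hne, hconj⟩ := (notMem_iff_exists_ne_and_isConjRoot hsep hsplit).mp hx''
  obtain ⟨τ, hτ⟩ := hconj.exists_algEquiv
  obtain ⟨ι, v, hv⟩ := exists_isTranscendenceBasis' (algebraicClosure ℚ ℂ) ℂ
  let _ := IsAlgClosed.isAlgClosure_of_transcendence_basis v hv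
  let e : Algebra.adjoin (algebraicClosure ℚ ℂ) (Set.range v) ≃+*
      Algebra.adjoin (algebraicClosure ℚ ℂ) (Set.range v) :=
    hv.1.aevalEquiv.symm.toRingEquiv.trans
      ((MvPolynomial.mapEquiv ι τ.toRingEquiv).trans hv.1.aevalEquiv.toRingEquiv)
  refine ⟨(IsAlgClosure.equivOfEquiv ℂ ℂ e).symm, ?_⟩
  -- τ y = x', so e maps y to x; hence σ = (ext e)⁻¹ maps x to y ≠ x
  have hymem : (y : ℂ) ∈ Algebra.adjoin (algebraicClosure ℚ ℂ) (Set.range v) :=
    Subalgebra.algebraMap_mem _ y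
  have hxmem : x ∈ Algebra.adjoin (algebraicClosure ℚ ℂ) (Set.range v) :=
    Subalgebra.algebraMap_mem _ (⟨x, hxA⟩ : algebraicClosure ℚ ℂ)
  have h3 : hv.1.aevalEquiv.symm ⟨(y : ℂ), hymem⟩ = C y := by
    apply hv.1.aevalEquiv.injective
    rw [AlgEquiv.apply_symm_apply]
    ext
    simp
  have h2 : e ⟨(y : ℂ), hymem⟩ = ⟨x, hxmem⟩ := by
    have : e ⟨(y : ℂ), hymem⟩ = hv.1.aevalEquiv
        ((MvPolynomial.mapEquiv ι τ.toRingEquiv) (hv.1.aevalEquiv.symm ⟨(y : ℂ), hymem⟩)) := rfl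
    rw [this, h3]
    ext
    simp [hτ]
  have h1 : (IsAlgClosure.equivOfEquiv ℂ ℂ e) (y : ℂ) = x := by
    have := IsAlgClosure.equivOfEquiv_algebraMap ℂ ℂ e ⟨(y : ℂ), hymem⟩
    rw [h2] at this
    simpa using this
  intro h
  apply hne
  have h4 : (IsAlgClosure.equivOfEquiv ℂ ℂ e).symm x = (y : ℂ) := by
    rw [← h1, RingEquiv.symm_apply_apply]
  rw [h4] at h
  exact Subtype.ext h.symm

/-- **Fixed field of `Aut(ℂ)`**: a complex number which is not rational is moved by some ring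
automorphism of `ℂ`. -/
theorem exists_ringEquiv_ne (x : ℂ) (hx : x ∉ Set.range (algebraMap ℚ ℂ)) :
    ∃ σ : ℂ ≃+* ℂ, σ x ≠ x := by
  by_cases h : IsAlgebraic ℚ x
  · exact exists_ringEquiv_ne_of_algebraic x h hx
  · exact exists_ringEquiv_ne_of_transcendental x h

/-- A complex number fixed by every ring automorphism of `ℂ` is rational. -/
theorem mem_range_ratCast_of_forall_ringEquiv (x : ℂ) (hx : ∀ σ : ℂ ≃+* ℂ, σ x = x) :
    ∃ r : ℚ, (r : ℂ) = x := by
  by_contra h
  obtain ⟨σ, hσ⟩ := exists_ringEquiv_ne x (by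
    rintro ⟨r, hr⟩
    exact h ⟨r, by simpa using hr⟩)
  exact hσ (hx σ)

end Fermat.Agent.S23

end
-- ===== PACK-END S23/FixedField.lean

-- ===== PACK-BEGIN S49/LinAlg.lean
section


set_option autoImplicit false

namespace Fermat.Agent.S49

/-- Auxiliary statement for `exists_eigenvector_ker_le'`: induction over invariant subspaces. -/
theorem exists_eigenvector_aux {K V A : Type*} [Field K] [IsAlgClosed K]
    [AddCommGroup V] [Module K V] [FiniteDimensional K V]
    [CommRing A] (ρ : A →+* Module.End K V) (𝔫 : Ideal A) [h𝔫 : 𝔫.IsPrime] :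
    ∀ (n : ℕ) (W : Submodule K V), Module.finrank K W = n → W ≠ ⊥ →
      (∀ t : A, ∀ w ∈ W, ρ t w ∈ W) →
      (∀ t : A, (∀ w ∈ W, ρ t w = 0) → t ∈ 𝔫) →
      ∃ (g : V) (χ : A →+* K), g ≠ 0 ∧ (∀ t, ρ t g = χ t • g) ∧ RingHom.ker χ ≤ 𝔫 := by
  intro n
  induction n using Nat.strong_induction_on with
  | _ n ih =>
    intro W hWn hW0 hstab hann
    have hcomm : ∀ s t : A, ∀ w : V, ρ s (ρ t w) = ρ t (ρ s w) := by
      intro s t w
      rw [← Module.End.mul_apply, ← Module.End.mul_apply, ← map_mul, ← map_mul, mul_comm]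
    by_cases hsc : ∀ t : A, ∃ c : K, ∀ w ∈ W, ρ t w = c • w
    · -- every `t` acts as a scalar on `W`
      obtain ⟨g, hgW, hg0⟩ := Submodule.exists_mem_ne_zero_of_ne_bot hW0
      choose c hc using hsc
      have huniq : ∀ a b : K, a • g = b • g → a = b := by
        intro a b hab
        by_contra hne
        have : (a - b) • g = 0 := by rw [sub_smul, hab, sub_self]
        rcases smul_eq_zero.mp this with h | h
        · exact hne (sub_eq_zero.mp h)
        · exact hg0 h
      let χ : A →+* K :=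
        { toFun := c
          map_one' := by
            apply huniq
            rw [← hc 1 g hgW, map_one, Module.End.one_apply, one_smul]
          map_mul' := by
            intro s t
            apply huniq
            rw [← hc (s * t) g hgW, map_mul, Module.End.mul_apply, hc t g hgW, map_smul,
              hc s g hgW, smul_smul, mul_comm]
          map_zero' := by
            apply huniq
            rw [← hc 0 g hgW, map_zero, LinearMap.zero_apply, zero_smul]
          map_add' := by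
            intro s t
            apply huniq
            rw [← hc (s + t) g hgW, map_add, LinearMap.add_apply, hc s g hgW, hc t g hgW,
              add_smul] }
      refine ⟨g, χ, hg0, fun t => hc t g hgW, ?_⟩
      intro t ht
      apply hann
      intro w hw
      have h0 : c t = 0 := ht
      rw [hc t w hw, h0, zero_smul]
    · -- some `t` does not act as a scalar on `W`
      push Not at hsc
      obtain ⟨t, ht⟩ := hsc
      have : Nontrivial W := Submodule.nontrivial_iff_ne_bot.mpr hW0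
      obtain ⟨μ, hμ⟩ := Module.End.exists_eigenvalue ((ρ t).restrict (hstab t))
      obtain ⟨v, hv⟩ := hμ.exists_hasEigenvector
      have hv0 : (v : V) ≠ 0 := fun h => hv.2 (Subtype.ext h)
      have hvμ : ρ t (v : V) = μ • (v : V) := by
        have := congrArg Subtype.val hv.apply_eq_smul
        simpa using this
      -- the operator `S = ρ t - μ`
      set S : Module.End K V := ρ t - μ • (1 : Module.End K V) with hS
      have hSapp : ∀ w, S w = ρ t w - μ • w := by
        intro w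
        simp [hS]
      have hScomm : ∀ s : A, ∀ w : V, ρ s (S w) = S (ρ s w) := by
        intro s w
        rw [hSapp, hSapp, map_sub, map_smul, hcomm s t w]
      have hSW : ∀ w ∈ W, S w ∈ W := by
        intro w hw
        rw [hSapp]
        exact W.sub_mem (hstab t w hw) (W.smul_mem μ hw)
      obtain ⟨w₀, hw₀W, hw₀⟩ := ht μ
      have hSw₀ : S w₀ ≠ 0 := by
        rw [hSapp]
        exact fun h => hw₀ (sub_eq_zero.mp h)
      -- the two smaller invariant subspaces
      set W' : Submodule K V := W ⊓ LinearMap.ker S with hW'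
      set W'' : Submodule K V := W.map S with hW''
      have hW'le : W' ≤ W := inf_le_left
      have hW''le : W'' ≤ W := by
        rintro _ ⟨w, hw, rfl⟩
        exact hSW w hw
      have hW'ne : W' ≠ ⊥ := by
        intro h
        have hvW' : (v : V) ∈ W' := by
          refine Submodule.mem_inf.mpr ⟨v.2, LinearMap.mem_ker.mpr ?_⟩
          rw [hSapp, hvμ, sub_self]
        rw [h] at hvW'
        exact hv0 ((Submodule.mem_bot K).mp hvW')
      have hW''ne : W'' ≠ ⊥ := by
        intro h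
        have : S w₀ ∈ W'' := ⟨w₀, hw₀W, rfl⟩
        rw [h] at this
        exact hSw₀ ((Submodule.mem_bot K).mp this)
      have hW'lt : W' < W := by
        refine lt_of_le_of_ne hW'le ?_
        intro h
        have : w₀ ∈ W' := h ▸ hw₀W
        exact hSw₀ (LinearMap.mem_ker.mp (Submodule.mem_inf.mp this).2)
      have hW''lt : W'' < W := by
        refine lt_of_le_of_ne hW''le ?_
        intro h
        -- `S` restricted to `W` is surjective onto `W`, hence injective
        have hsurj : Function.Surjective (S.restrict hSW) := by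
          rintro ⟨y, hy⟩
          have hy' : y ∈ W'' := h ▸ hy
          obtain ⟨x, hx, rfl⟩ := hy'
          exact ⟨⟨x, hx⟩, Subtype.ext rfl⟩
        have hinj : Function.Injective (S.restrict hSW) :=
          LinearMap.injective_iff_surjective.mpr hsurj
        have h1 : (S.restrict hSW) v = 0 := by
          apply Subtype.ext
          simp only [LinearMap.coe_restrict_apply, ZeroMemClass.coe_zero]
          rw [hSapp, hvμ, sub_self]
        have : v = 0 := hinj (h1.trans (map_zero _).symm)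
        exact hv.2 this
      have hW'stab : ∀ s : A, ∀ w ∈ W', ρ s w ∈ W' := by
        intro s w hw
        have hw' := Submodule.mem_inf.mp hw
        refine Submodule.mem_inf.mpr ⟨hstab s w hw'.1, LinearMap.mem_ker.mpr ?_⟩
        rw [← hScomm, LinearMap.mem_ker.mp hw'.2, map_zero]
      have hW''stab : ∀ s : A, ∀ w ∈ W'', ρ s w ∈ W'' := by
        rintro s _ ⟨w, hw, rfl⟩
        exact ⟨ρ s w, hstab s w hw, (hScomm s w).symm⟩
      by_cases h' : ∀ s : A, (∀ w ∈ W', ρ s w = 0) → s ∈ 𝔫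
      · exact ih (Module.finrank K W') (hWn ▸ Submodule.finrank_lt_finrank_of_lt hW'lt) W' rfl
          hW'ne hW'stab h'
      · push Not at h'
        obtain ⟨s', hs', hs'n⟩ := h'
        refine ih (Module.finrank K W'') (hWn ▸ Submodule.finrank_lt_finrank_of_lt hW''lt) W'' rfl
          hW''ne hW''stab ?_
        intro s'' hs''
        have hprod : s' * s'' ∈ 𝔫 := by
          apply hann
          intro w hw
          rw [map_mul, Module.End.mul_apply]
          apply hs'
          refine Submodule.mem_inf.mpr ⟨hstab s'' w hw, LinearMap.mem_ker.mpr ?_⟩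
          rw [← hScomm]
          exact hs'' _ ⟨w, hw, rfl⟩
        rcases h𝔫.mem_or_mem hprod with h | h
        · exact absurd h hs'n
        · exact h

/-- (C), general form: `ρ` need not be injective, only `ker ρ ≤ 𝔫`. -/
theorem exists_eigenvector_ker_le' {K V A : Type*} [Field K] [IsAlgClosed K]
    [AddCommGroup V] [Module K V] [FiniteDimensional K V]
    [CommRing A] (ρ : A →+* Module.End K V)
    (𝔫 : Ideal A) [h𝔫 : 𝔫.IsPrime] (hρ : RingHom.ker ρ ≤ 𝔫) :
    ∃ (g : V) (χ : A →+* K), g ≠ 0 ∧ (∀ t, ρ t g = χ t • g) ∧ RingHom.ker χ ≤ 𝔫 := by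
  have hann : ∀ t : A, (∀ w ∈ (⊤ : Submodule K V), ρ t w = 0) → t ∈ 𝔫 := by
    intro t ht
    apply hρ
    rw [RingHom.mem_ker]
    ext w
    simpa using ht w Submodule.mem_top
  refine exists_eigenvector_aux ρ 𝔫 _ ⊤ rfl ?_ (fun _ _ _ => Submodule.mem_top) hann
  intro htop
  apply (Ideal.ne_top_iff_one 𝔫).mp h𝔫.ne_top
  apply hann
  intro w _
  have : w ∈ (⊥ : Submodule K V) := htop ▸ Submodule.mem_top
  rw [(Submodule.mem_bot K).mp this, map_zero]

/-- (C) linear algebra lemma: a commutative ring acting faithfully on a finite-dimensional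
vector space over an algebraically closed field has, for every prime ideal `𝔫`, a simultaneous
eigenvector whose eigencharacter has kernel contained in `𝔫`. -/
theorem exists_eigenvector_ker_le {K V A : Type*} [Field K] [IsAlgClosed K]
    [AddCommGroup V] [Module K V] [FiniteDimensional K V]
    [CommRing A] (ρ : A →+* Module.End K V) (hρ : Function.Injective ρ)
    (𝔫 : Ideal A) [𝔫.IsPrime] :
    ∃ (g : V) (χ : A →+* K), g ≠ 0 ∧ (∀ t, ρ t g = χ t • g) ∧ RingHom.ker χ ≤ 𝔫 := by
  apply exists_eigenvector_ker_le' ρ 𝔫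
  intro t ht
  rw [RingHom.mem_ker] at ht
  rw [hρ (ht.trans (map_zero ρ).symm)]
  exact 𝔫.zero_mem

end Fermat.Agent.S49

end
-- ===== PACK-END S49/LinAlg.lean

-- ===== PACK-BEGIN S49/GoingUp.lean
section


set_option autoImplicit false

namespace Fermat.Agent.S49

/-- (D) going up: a maximal ideal of `ℤ̄` lying over a maximal ideal containing the kernel. -/
theorem exists_maximal_over {A : Type*} [CommRing A] (χ : A →+* integralClosure ℤ ℂ)
    (𝔫 : Ideal A) [𝔫.IsMaximal] (h : RingHom.ker χ ≤ 𝔫) :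
    ∃ 𝔪' : Ideal (integralClosure ℤ ℂ), 𝔪'.IsMaximal ∧ ∀ t ∈ 𝔫, χ t ∈ 𝔪' := by
  letI : Algebra A (integralClosure ℤ ℂ) := χ.toAlgebra
  have hint : Algebra.IsIntegral A (integralClosure ℤ ℂ) :=
    ⟨fun x => (Algebra.IsIntegral.isIntegral (R := ℤ) x).tower_top⟩
  obtain ⟨Q, hQ, hQc⟩ := Ideal.exists_ideal_over_maximal_of_isIntegral 𝔫 h
  refine ⟨Q, hQ, fun t ht => ?_⟩
  have : t ∈ Q.comap (algebraMap A (integralClosure ℤ ℂ)) := hQc ▸ ht
  exact this

end Fermat.Agent.S49

end
-- ===== PACK-END S49/GoingUp.lean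

-- ===== PACK-BEGIN Ribet/H751/LogHolExpand.lean
section


/-!
# RIBET row 38, WALL-p, I3 leaf LOGHOL (helper751), part 1: formal expansions

Pure algebra (Mathlib only).  Let `A` be a commutative `K`-algebra (`K` a field) and `t ∈ A` such
that every `a ∈ A` can be written UNIQUELY as `a = c + t·b` with `c ∈ K`, `b ∈ A`
(e.g. `A` a discrete valuation ring containing its residue field `K`, `t` a uniformiser).
Then the `t`-adic expansion

  `expand E : A →ₐ[K] K⟦X⟧`,  `a ↦ ∑ₙ ε(σⁿ a) Xⁿ`   (`a = ε a + t·σ a`)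

is a `K`-algebra homomorphism with `expand E t = X`, `constantCoeff (expand E a) = ε a`, and
`expand E a = 0 → ∀ n, t ^ n ∣ a`.
-/

set_option autoImplicit false

noncomputable section

namespace Fermat.Agent.Ribet.H751

open PowerSeries

/-- Expansion data: unique decompositions `a = ε a + t · σ a`. -/
structure ExpandData (K A : Type*) [Field K] [CommRing A] [Algebra K A] where
  /-- the parameter -/
  t : A
  /-- the constant term -/
  eps : A → K
  /-- the shift -/
  sh : A → A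
  dec : ∀ a : A, a = algebraMap K A (eps a) + t * sh a
  uniq : ∀ (c : K) (b : A), algebraMap K A c + t * b = 0 → c = 0 ∧ b = 0

namespace ExpandData

variable {K A : Type*} [Field K] [CommRing A] [Algebra K A] (E : ExpandData K A)

theorem eps_sh_eq {a : A} {c : K} {b : A} (h : a = algebraMap K A c + E.t * b) :
    E.eps a = c ∧ E.sh a = b := by
  have h1 := E.dec a
  have h2 : algebraMap K A (E.eps a - c) + E.t * (E.sh a - b) = 0 := by
    rw [map_sub, mul_sub]
    linear_combination h - h1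
  obtain ⟨h3, h4⟩ := E.uniq _ _ h2
  exact ⟨sub_eq_zero.mp h3, sub_eq_zero.mp h4⟩

theorem eps_eq {a : A} {c : K} {b : A} (h : a = algebraMap K A c + E.t * b) : E.eps a = c :=
  (E.eps_sh_eq h).1

theorem sh_eq {a : A} {c : K} {b : A} (h : a = algebraMap K A c + E.t * b) : E.sh a = b :=
  (E.eps_sh_eq h).2

theorem dec_add (a b : A) :
    a + b = algebraMap K A (E.eps a + E.eps b) + E.t * (E.sh a + E.sh b) := by
  conv_lhs => rw [E.dec a, E.dec b]
  rw [map_add]
  ring

theorem dec_mul (a b : A) :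
    a * b = algebraMap K A (E.eps a * E.eps b) +
      E.t * (algebraMap K A (E.eps a) * E.sh b + E.sh a * b) := by
  conv_lhs => rw [E.dec a]
  conv_lhs => rw [add_mul]; arg 1; rw [E.dec b]
  rw [map_mul]
  ring

theorem dec_algebraMap (c : K) : algebraMap K A c = algebraMap K A c + E.t * 0 := by
  rw [mul_zero, add_zero]

theorem dec_t : E.t = algebraMap K A 0 + E.t * 1 := by
  rw [map_zero, zero_add, mul_one]

@[simp] theorem eps_add (a b : A) : E.eps (a + b) = E.eps a + E.eps b := E.eps_eq (E.dec_add a b)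
@[simp] theorem sh_add (a b : A) : E.sh (a + b) = E.sh a + E.sh b := E.sh_eq (E.dec_add a b)
@[simp] theorem eps_mul (a b : A) : E.eps (a * b) = E.eps a * E.eps b := E.eps_eq (E.dec_mul a b)
theorem sh_mul (a b : A) :
    E.sh (a * b) = algebraMap K A (E.eps a) * E.sh b + E.sh a * b := E.sh_eq (E.dec_mul a b)
@[simp] theorem eps_algebraMap (c : K) : E.eps (algebraMap K A c) = c :=
  E.eps_eq (E.dec_algebraMap c)
@[simp] theorem sh_algebraMap (c : K) : E.sh (algebraMap K A c) = 0 :=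
  E.sh_eq (E.dec_algebraMap c)
@[simp] theorem eps_t : E.eps E.t = 0 := E.eps_eq E.dec_t
@[simp] theorem sh_t : E.sh E.t = 1 := E.sh_eq E.dec_t

@[simp] theorem eps_zero : E.eps 0 = 0 := by
  have := E.eps_algebraMap 0
  rwa [map_zero] at this

@[simp] theorem sh_zero : E.sh 0 = 0 := by
  have := E.sh_algebraMap 0
  rwa [map_zero] at this

@[simp] theorem eps_one : E.eps 1 = 1 := by
  have := E.eps_algebraMap 1
  rwa [map_one] at this

@[simp] theorem sh_one : E.sh 1 = 0 := by
  have := E.sh_algebraMap 1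
  rwa [map_one] at this

/-- The `t`-adic expansion, as a function. -/
def expandFun (a : A) : PowerSeries K := PowerSeries.mk fun n => E.eps (E.sh^[n] a)

@[simp] theorem coeff_zero_expandFun (a : A) : coeff 0 (E.expandFun a) = E.eps a := by
  simp [expandFun]

@[simp] theorem constantCoeff_expandFun (a : A) : constantCoeff (E.expandFun a) = E.eps a := by
  rw [← coeff_zero_eq_constantCoeff_apply, coeff_zero_expandFun]

theorem coeff_succ_expandFun (n : ℕ) (a : A) :
    coeff (n + 1) (E.expandFun a) = coeff n (E.expandFun (E.sh a)) := by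
  simp [expandFun, Function.iterate_succ_apply]

theorem coeff_expandFun_add (n : ℕ) : ∀ a b : A,
    coeff n (E.expandFun (a + b)) = coeff n (E.expandFun a) + coeff n (E.expandFun b) := by
  induction n with
  | zero => intro a b; simp
  | succ n ih =>
    intro a b
    rw [coeff_succ_expandFun, coeff_succ_expandFun, coeff_succ_expandFun, sh_add, ih]

theorem expandFun_add (a b : A) : E.expandFun (a + b) = E.expandFun a + E.expandFun b := by
  ext n
  rw [map_add, coeff_expandFun_add]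

theorem coeff_expandFun_zero (n : ℕ) : coeff n (E.expandFun (0 : A)) = 0 := by
  induction n with
  | zero => simp
  | succ n ih => rw [coeff_succ_expandFun, sh_zero, ih]

theorem expandFun_zero : E.expandFun (0 : A) = 0 := by
  ext n
  rw [coeff_expandFun_zero, map_zero]

theorem expandFun_algebraMap (c : K) : E.expandFun (algebraMap K A c) = C c := by
  ext n
  rcases n with _ | n
  · simp
  · rw [coeff_succ_expandFun, sh_algebraMap, coeff_expandFun_zero, coeff_C]
    simp

theorem expandFun_one : E.expandFun (1 : A) = 1 := by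
  have := E.expandFun_algebraMap 1
  rwa [map_one, map_one] at this

theorem coeff_expandFun_smul (c : K) (n : ℕ) : ∀ b : A,
    coeff n (E.expandFun (algebraMap K A c * b)) = c * coeff n (E.expandFun b) := by
  induction n with
  | zero => intro b; simp
  | succ n ih =>
    intro b
    rw [coeff_succ_expandFun, coeff_succ_expandFun, sh_mul, sh_algebraMap, zero_mul, add_zero,
      eps_algebraMap, ih]

theorem coeff_expandFun_mul (n : ℕ) : ∀ a b : A,
    coeff n (E.expandFun (a * b)) = coeff n (E.expandFun a * E.expandFun b) := by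
  induction n with
  | zero => intro a b; simp
  | succ n ih =>
    intro a b
    rw [coeff_succ_expandFun, sh_mul, coeff_expandFun_add, coeff_expandFun_smul, ih,
      coeff_mul, coeff_mul, Finset.Nat.sum_antidiagonal_succ]
    simp only [coeff_succ_expandFun, coeff_zero_expandFun]

theorem expandFun_mul (a b : A) : E.expandFun (a * b) = E.expandFun a * E.expandFun b := by
  ext n
  exact E.coeff_expandFun_mul n a b

/-- **The `t`-adic expansion** `A →ₐ[K] K⟦X⟧`. -/
def expand : A →ₐ[K] PowerSeries K where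
  toFun := E.expandFun
  map_one' := E.expandFun_one
  map_mul' := E.expandFun_mul
  map_zero' := E.expandFun_zero
  map_add' := E.expandFun_add
  commutes' := fun c => by
    rw [E.expandFun_algebraMap]
    rfl

@[simp] theorem expand_apply (a : A) : E.expand a = E.expandFun a := rfl

@[simp] theorem constantCoeff_expand (a : A) : constantCoeff (E.expand a) = E.eps a := by
  rw [← coeff_zero_eq_constantCoeff_apply, expand_apply, coeff_zero_expandFun]

theorem expand_eq (a : A) : E.expand a = C (E.eps a) + X * E.expand (E.sh a) := by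
  ext n
  rcases n with _ | n
  · simp
  · rw [expand_apply, coeff_succ_expandFun, map_add, coeff_C, if_neg (Nat.succ_ne_zero n),
      zero_add, mul_comm, coeff_succ_mul_X, expand_apply]

theorem expand_t : E.expand E.t = X := by
  rw [expand_eq, eps_t, sh_t, map_zero, zero_add, map_one, mul_one]

theorem pow_dvd_of_expand_eq_zero (n : ℕ) : ∀ a : A, E.expand a = 0 → E.t ^ n ∣ a := by
  induction n with
  | zero => intro a _; simp
  | succ n ih =>
    intro a ha
    have h0 : E.eps a = 0 := by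
      rw [← constantCoeff_expand, ha, map_zero]
    have h1 : E.expand (E.sh a) = 0 := by
      ext m
      have := E.coeff_succ_expandFun m a
      rw [← expand_apply, ha, map_zero] at this
      rw [expand_apply, ← this, map_zero]
    obtain ⟨b, hb⟩ := ih _ h1
    refine ⟨b, ?_⟩
    conv_lhs => rw [E.dec a, h0, map_zero, zero_add, hb]
    ring

theorem X_dvd_expand_of_eps_eq_zero {a : A} (h : E.eps a = 0) : X ∣ E.expand a := by
  rw [PowerSeries.X_dvd_iff, constantCoeff_expand, h]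

end ExpandData

end Fermat.Agent.Ribet.H751

end
end
-- ===== PACK-END Ribet/H751/LogHolExpand.lean

-- ===== PACK-BEGIN S37/H697/Bounded.lean
section


/-!
# S37 (helper697): the bounded-homomorphism trick

An additive map `δ : (X →₀ ℤ) →+ (Y →₀ ℤ)` which kills a subgroup `Pr` ("principal divisors") and
is bounded on the generators `single P 1` vanishes on every `D` all of whose multiples `n • D` are
congruent modulo `Pr` to elements of bounded `ℓ¹`-norm.

This replaces divisibility of `Pic⁰` in uniqueness statements for place reductions, and pointwise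
arguments in the Eichler–Shimura relation: the boundedness hypothesis on multiples is supplied by
Riemann's inequality.
-/

set_option autoImplicit false

namespace Fermat.Agent.S37.H697

open Finsupp

variable {X Y : Type*}

/-- The `ℓ¹`-norm of a finitely supported integer-valued function. -/
noncomputable def l1norm (E : X →₀ ℤ) : ℕ := E.sum fun _ n => n.natAbs

@[simp] theorem l1norm_zero : l1norm (0 : X →₀ ℤ) = 0 := by simp [l1norm]

theorem l1norm_single (P : X) (n : ℤ) : l1norm (single P n) = n.natAbs := by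
  simp [l1norm]

theorem l1norm_add_le (D E : X →₀ ℤ) : l1norm (D + E) ≤ l1norm D + l1norm E := by
  classical
  unfold l1norm
  have h1 : (D + E).sum (fun _ n => n.natAbs)
      = ∑ x ∈ D.support ∪ E.support, ((D + E) x).natAbs :=
    Finsupp.sum_of_support_subset _ Finsupp.support_add _ (fun _ _ => rfl)
  have h2 : D.sum (fun _ n => n.natAbs) = ∑ x ∈ D.support ∪ E.support, (D x).natAbs :=
    Finsupp.sum_of_support_subset _ Finset.subset_union_left _ (fun _ _ => rfl)
  have h3 : E.sum (fun _ n => n.natAbs) = ∑ x ∈ D.support ∪ E.support, (E x).natAbs :=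
    Finsupp.sum_of_support_subset _ Finset.subset_union_right _ (fun _ _ => rfl)
  rw [h1, h2, h3, ← Finset.sum_add_distrib]
  exact Finset.sum_le_sum fun x _ => by
    rw [Finsupp.add_apply]; exact Int.natAbs_add_le _ _

theorem l1norm_neg (D : X →₀ ℤ) : l1norm (-D) = l1norm D := by
  unfold l1norm
  rw [Finsupp.sum_neg_index (fun _ => rfl)]
  simp [Finsupp.sum]

theorem l1norm_sub_le (D E : X →₀ ℤ) : l1norm (D - E) ≤ l1norm D + l1norm E := by
  rw [sub_eq_add_neg]
  exact (l1norm_add_le D (-E)).trans (by rw [l1norm_neg])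

theorem natAbs_apply_le_l1norm (E : X →₀ ℤ) (x : X) : (E x).natAbs ≤ l1norm E := by
  classical
  by_cases hx : x ∈ E.support
  · unfold l1norm Finsupp.sum
    exact Finset.single_le_sum (f := fun a => (E a).natAbs) (fun _ _ => Nat.zero_le _) hx
  · rw [Finsupp.notMem_support_iff.mp hx]; simp

/-- A bounded additive functional is bounded by the `ℓ¹`-norm. -/
theorem natAbs_map_le (φ : (X →₀ ℤ) →+ ℤ) (C : ℕ)
    (hC : ∀ P : X, (φ (single P 1)).natAbs ≤ C) (E : X →₀ ℤ) :
    (φ E).natAbs ≤ C * l1norm E := by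
  classical
  induction E using Finsupp.induction with
  | zero => simp
  | single_add P n E hP hn ih =>
    have hsingle : φ (single P n) = n * φ (single P 1) := by
      have : single P n = n • single P (1 : ℤ) := by
        rw [Finsupp.smul_single, smul_eq_mul, mul_one]
      rw [this, map_zsmul, smul_eq_mul]
    have hnorm : l1norm (single P n + E) = n.natAbs + l1norm E := by
      unfold l1norm
      rw [Finsupp.sum_add_index_of_disjoint]
      · simp
      · rw [Finset.disjoint_left]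
        intro x hx hx'
        have : x = P := by
          have := Finsupp.support_single_subset hx
          simpa using this
        exact hP (this ▸ hx')
    rw [map_add, hnorm, hsingle, mul_add]
    refine (Int.natAbs_add_le _ _).trans (Nat.add_le_add ?_ ih)
    rw [Int.natAbs_mul, mul_comm]
    exact Nat.mul_le_mul_right _ (hC P)

/-- **Bounded-homomorphism trick.** -/
theorem eq_zero_of_bounded (δ : (X →₀ ℤ) →+ (Y →₀ ℤ)) (Pr : AddSubgroup (X →₀ ℤ))
    (hPr : ∀ D ∈ Pr, δ D = 0) (C : ℕ) (hC : ∀ P : X, l1norm (δ (single P 1)) ≤ C)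
    (D : X →₀ ℤ) (B : ℕ)
    (hB : ∀ n : ℕ, ∃ E : X →₀ ℤ, l1norm E ≤ B ∧ n • D - E ∈ Pr) :
    δ D = 0 := by
  ext y
  rw [Finsupp.zero_apply]
  set φ : (X →₀ ℤ) →+ ℤ := (Finsupp.applyAddHom y).comp δ with hφ
  have hφC : ∀ P : X, (φ (single P 1)).natAbs ≤ C := fun P =>
    (natAbs_apply_le_l1norm (δ (single P 1)) y).trans (hC P)
  have hbound : ∀ n : ℕ, n * (φ D).natAbs ≤ C * B := by
    intro n
    obtain ⟨E, hE, hmem⟩ := hB n
    have h0 : δ (n • D - E) = 0 := hPr _ hmem
    have h1 : φ (n • D) = φ E := by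
      have : φ (n • D - E) = 0 := by
        show (δ (n • D - E)) y = 0
        rw [h0]; rfl
      rw [map_sub, sub_eq_zero] at this
      exact this
    have h2 : (φ (n • D)).natAbs = n * (φ D).natAbs := by
      rw [map_nsmul, nsmul_eq_mul, Int.natAbs_mul, Int.natAbs_natCast]
    rw [← h2, h1]
    exact (natAbs_map_le φ C hφC E).trans (Nat.mul_le_mul_left _ hE)
  have hzero : (φ D).natAbs = 0 := by
    by_contra hne
    have hpos : 1 ≤ (φ D).natAbs := Nat.one_le_iff_ne_zero.mpr hne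
    have := hbound (C * B + 1)
    have h3 : (C * B + 1) * 1 ≤ (C * B + 1) * (φ D).natAbs := Nat.mul_le_mul_left _ hpos
    omega
  exact Int.natAbs_eq_zero.mp hzero

end Fermat.Agent.S37.H697

end
-- ===== PACK-END S37/H697/Bounded.lean

-- ===== PACK-BEGIN S37/H697/FrobF.lean
section


/-!
# S37 (helper697): coefficientwise automorphisms of the function field `k(j(q^d) : d ∣ N)`

For a field `k` and a ring automorphism `φ` of `k`, the coefficientwise map `coeffMap φ` on
`k((q))` preserves `modularFunctionFieldFullC k N` (its generators have coefficients in the prime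
ring).  This gives a semilinear automorphism `coeffSL N φ` of the function field, hence an action
on places and divisors (Prelude `SemilinearAut`).  For `φ` = Frobenius this is the map `Φ` of the
Eichler–Shimura relation.
-/

set_option autoImplicit false

noncomputable section

open HahnSeries IntermediateField AlgebraicCurve ModularCurve

namespace Fermat.Agent.S37.H697

variable {k : Type*} [Field k] (N : ℕ)

theorem mem_fullC_iff {x : LaurentSeries k} :
    x ∈ modularFunctionFieldFullC k N ↔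
      x ∈ Subfield.closure
        (Set.range (algebraMap k (LaurentSeries k)) ∪ divisorExpansionsC k N) :=
  Iff.rfl

theorem coeffMap_mem_fullC (φ : k →+* k) {x : LaurentSeries k}
    (hx : x ∈ modularFunctionFieldFullC k N) :
    coeffMap φ x ∈ modularFunctionFieldFullC k N := by
  rw [mem_fullC_iff] at hx
  induction hx using Subfield.closure_induction with
  | mem y hy =>
      rcases hy with ⟨a, rfl⟩ | ⟨d, hd, hdN, rfl⟩
      · rw [coeffMap_algebraMap]
        exact (modularFunctionFieldFullC k N).algebraMap_mem _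
      · have := hd
        rw [coeffMap_qExpand, coeffMap_jqModC]
        exact jqModCd_mem_full k N hdN
  | one => simp
  | add x y _ _ hx hy => simpa using add_mem hx hy
  | neg x _ hx => simpa using neg_mem hx
  | inv x _ hx => simpa using inv_mem hx
  | mul x y _ _ hx hy => simpa using mul_mem hx hy

/-- The coefficientwise ring automorphism of `modularFunctionFieldFullC k N` induced by a ring
automorphism of `k`. -/
def coeffRingAut (φ : k ≃+* k) :
    (modularFunctionFieldFullC k N) ≃+* (modularFunctionFieldFullC k N) where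
  toFun x := ⟨coeffMap (φ : k →+* k) (x : LaurentSeries k), coeffMap_mem_fullC N _ x.2⟩
  invFun x := ⟨coeffMap (φ.symm : k →+* k) (x : LaurentSeries k), coeffMap_mem_fullC N _ x.2⟩
  left_inv x := Subtype.ext <| by
    show coeffMap (φ.symm : k →+* k) (coeffMap (φ : k →+* k) (x : LaurentSeries k))
      = (x : LaurentSeries k)
    rw [coeffMap_coeffMap,
      coeffMap_congr (g := RingHom.id k) (RingHom.ext fun a => φ.symm_apply_apply a)
        (x : LaurentSeries k),
      coeffMap_id]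
  right_inv x := Subtype.ext <| by
    show coeffMap (φ : k →+* k) (coeffMap (φ.symm : k →+* k) (x : LaurentSeries k))
      = (x : LaurentSeries k)
    rw [coeffMap_coeffMap,
      coeffMap_congr (g := RingHom.id k) (RingHom.ext fun a => φ.apply_symm_apply a)
        (x : LaurentSeries k),
      coeffMap_id]
  map_mul' x y :=
    Subtype.ext (map_mul (coeffMap (φ : k →+* k)) (x : LaurentSeries k) (y : LaurentSeries k))
  map_add' x y :=
    Subtype.ext (map_add (coeffMap (φ : k →+* k)) (x : LaurentSeries k) (y : LaurentSeries k))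

@[simp]
theorem coe_coeffRingAut_apply (φ : k ≃+* k) (x : modularFunctionFieldFullC k N) :
    (coeffRingAut N φ x : LaurentSeries k) = coeffMap (φ : k →+* k) (x : LaurentSeries k) :=
  rfl

theorem coeffRingAut_algebraMap (φ : k ≃+* k) (a : k) :
    coeffRingAut N φ (algebraMap k (modularFunctionFieldFullC k N) a)
      = algebraMap k (modularFunctionFieldFullC k N) (φ a) :=
  Subtype.ext (coeffMap_algebraMap (φ : k →+* k) a)

/-- The semilinear automorphism of `modularFunctionFieldFullC k N` induced by a ring automorphism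
of `k`. -/
def coeffSL (φ : k ≃+* k) : SemilinearAut k (modularFunctionFieldFullC k N) :=
  ⟨(coeffRingAut N φ, φ), fun a => coeffRingAut_algebraMap N φ a⟩

@[simp]
theorem coe_coeffSL_smul (φ : k ≃+* k) (x : modularFunctionFieldFullC k N) :
    ((coeffSL N φ • x : modularFunctionFieldFullC k N) : LaurentSeries k)
      = coeffMap (φ : k →+* k) (x : LaurentSeries k) :=
  rfl

theorem coeffSL_symm (φ : k ≃+* k) : coeffSL N φ.symm = (coeffSL N φ)⁻¹ := rfl

theorem coeffSL_refl : coeffSL N (RingEquiv.refl k) = 1 := by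
  refine Subtype.ext (Prod.ext (RingEquiv.ext fun x => Subtype.ext ?_) rfl)
  show coeffMap ((RingEquiv.refl k : k ≃+* k) : k →+* k) (x : LaurentSeries k)
    = (x : LaurentSeries k)
  rw [show ((RingEquiv.refl k : k ≃+* k) : k →+* k) = RingHom.id k from RingHom.ext fun _ => rfl,
    coeffMap_id]

end Fermat.Agent.S37.H697

end
end
-- ===== PACK-END S37/H697/FrobF.lean

-- ===== PACK-BEGIN Lib/RR/H80/Res/FPTrace.lean
section


/-!
# Traces of finite-potent endomorphisms (Tate, *Residues of differentials on curves*, §1)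

`FinPot θ` : some power of `θ` has finite-dimensional range.
`fpTr θ`   : the trace of `θ` on the range of such a power (`0` if `θ` is not finite-potent).

Main lemma `fpTr_eq_trace_restrict`: the trace can be computed on any finite-dimensional
`θ`-stable subspace containing the range of some power of `θ`.
-/

set_option autoImplicit false

noncomputable section

namespace Fermat.Agent.Lib.RR.H80

open LinearMap Module

variable {K V V' : Type*} [Field K] [AddCommGroup V] [Module K V] [AddCommGroup V'] [Module K V']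

/-- `θ` is finite-potent: some power has finite-dimensional range. -/
def FinPot (θ : Module.End K V) : Prop :=
  ∃ n : ℕ, FiniteDimensional K (LinearMap.range (θ ^ n))

theorem range_pow_stable (θ : Module.End K V) (n : ℕ) :
    ∀ x ∈ LinearMap.range (θ ^ n), θ x ∈ LinearMap.range (θ ^ n) := by
  rintro x ⟨y, rfl⟩
  refine ⟨θ y, ?_⟩
  rw [← Module.End.mul_apply, ← Module.End.mul_apply, ← pow_succ, ← pow_succ']

open Classical in
def fpTr (θ : Module.End K V) : K :=
  if h : FinPot θ then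
    LinearMap.trace K (LinearMap.range (θ ^ h.choose)) (θ.restrict (range_pow_stable θ h.choose))
  else 0

theorem trace_restrict_eq_of_map_le (θ : Module.End K V) {W W' : Submodule K V}
    [FiniteDimensional K W] [FiniteDimensional K W'] (hle : W' ≤ W)
    (hW : ∀ x ∈ W, θ x ∈ W) (hW' : ∀ x ∈ W', θ x ∈ W') (h : ∀ x ∈ W, θ x ∈ W') :
    LinearMap.trace K W (θ.restrict hW) = LinearMap.trace K W' (θ.restrict hW') := by
  let ι : W' →ₗ[K] W := Submodule.inclusion hle
  let p : W →ₗ[K] W' := (θ.domRestrict W).codRestrict W' (fun x => h x x.2)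
  have h1 : θ.restrict hW = ι ∘ₗ p := by
    ext x
    rfl
  have h2 : θ.restrict hW' = p ∘ₗ ι := by
    ext x
    rfl
  rw [h1, h2]
  exact (LinearMap.trace_comp_comm' ι p).symm

theorem pow_mem_of_stable (θ : Module.End K V) {W : Submodule K V} (hW : ∀ x ∈ W, θ x ∈ W)
    (k : ℕ) : ∀ x ∈ W, (θ ^ k) x ∈ W := by
  induction k with
  | zero => intro x hx; simpa using hx
  | succ k ih =>
    intro x hx
    rw [pow_succ', Module.End.mul_apply]
    exact hW _ (ih x hx)

theorem trace_restrict_eq_of_pow_map_le (θ : Module.End K V) {W' : Submodule K V}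
    [FiniteDimensional K W'] (hW' : ∀ x ∈ W', θ x ∈ W') (k : ℕ) :
    ∀ (W : Submodule K V) [FiniteDimensional K W] (_ : W' ≤ W) (hW : ∀ x ∈ W, θ x ∈ W)
      (_ : ∀ x ∈ W, (θ ^ k) x ∈ W'),
    LinearMap.trace K W (θ.restrict hW) = LinearMap.trace K W' (θ.restrict hW') := by
  induction k with
  | zero =>
    intro W _ hle hW h
    have hWW : W = W' := le_antisymm (fun x hx => by simpa using h x hx) hle
    subst hWW
    rfl
  | succ k ih =>
    intro W _ hle hW h
    have hmapW : W.map θ ≤ W := by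
      rintro _ ⟨x, hx, rfl⟩
      exact hW x hx
    set W₁ : Submodule K V := W' ⊔ W.map θ with hW₁
    have hW₁le : W₁ ≤ W := sup_le hle hmapW
    have : FiniteDimensional K W₁ := Submodule.finiteDimensional_of_le hW₁le
    have hW₁st : ∀ x ∈ W₁, θ x ∈ W₁ := by
      intro x hx
      obtain ⟨a, ha, b, hb, rfl⟩ := Submodule.mem_sup.mp hx
      rw [map_add]
      refine Submodule.add_mem _ (Submodule.mem_sup_left (hW' a ha)) (Submodule.mem_sup_right ?_)
      exact Submodule.mem_map_of_mem (hmapW hb)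
    have hstep : ∀ x ∈ W, θ x ∈ W₁ := fun x hx =>
      Submodule.mem_sup_right (Submodule.mem_map_of_mem hx)
    have hk : ∀ x ∈ W₁, (θ ^ k) x ∈ W' := by
      intro x hx
      obtain ⟨a, ha, b, hb, rfl⟩ := Submodule.mem_sup.mp hx
      rw [map_add]
      refine Submodule.add_mem _ (pow_mem_of_stable θ hW' k a ha) ?_
      obtain ⟨c, hc, rfl⟩ := hb
      have := h c hc
      rwa [pow_succ, Module.End.mul_apply] at this
    rw [trace_restrict_eq_of_map_le θ hW₁le hW hW₁st hstep]
    exact ih W₁ (le_sup_left) hW₁st hk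

theorem fpTr_eq_trace_restrict (θ : Module.End K V) (W : Submodule K V) [FiniteDimensional K W]
    (hW : ∀ x ∈ W, θ x ∈ W) (n : ℕ) (hn : LinearMap.range (θ ^ n) ≤ W) :
    fpTr θ = LinearMap.trace K W (θ.restrict hW) := by
  have hfp : FinPot θ := ⟨n, Submodule.finiteDimensional_of_le hn⟩
  rw [fpTr, dif_pos hfp]
  have : FiniteDimensional K (LinearMap.range (θ ^ hfp.choose)) := hfp.choose_spec
  set W₀ := LinearMap.range (θ ^ hfp.choose) with hW₀
  have hW₀st := range_pow_stable θ hfp.choose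
  set U : Submodule K V := W₀ ⊔ W with hU
  have : FiniteDimensional K U := by
    rw [hU]; infer_instance
  have hUst : ∀ x ∈ U, θ x ∈ U := by
    intro x hx
    obtain ⟨a, ha, b, hb, rfl⟩ := Submodule.mem_sup.mp hx
    rw [map_add]
    exact Submodule.add_mem _ (Submodule.mem_sup_left (hW₀st a ha))
      (Submodule.mem_sup_right (hW b hb))
  have e1 := trace_restrict_eq_of_pow_map_le θ hW₀st hfp.choose U le_sup_left hUst
    (fun x _ => LinearMap.mem_range_self _ x)
  have e2 := trace_restrict_eq_of_pow_map_le θ hW n U le_sup_right hUst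
    (fun x _ => hn (LinearMap.mem_range_self _ x))
  rw [← e1, e2]

theorem fpTr_of_not_finPot {θ : Module.End K V} (h : ¬ FinPot θ) : fpTr θ = 0 := by
  unfold fpTr
  exact dif_neg h

theorem finPot_of_range_pow_le (θ : Module.End K V) (W : Submodule K V) [FiniteDimensional K W]
    (n : ℕ) (hn : LinearMap.range (θ ^ n) ≤ W) : FinPot θ :=
  ⟨n, Submodule.finiteDimensional_of_le hn⟩

/-- A nilpotent endomorphism has trace zero. -/
theorem fpTr_eq_zero_of_pow_eq_zero (θ : Module.End K V) (n : ℕ) (h : θ ^ n = 0) : fpTr θ = 0 := by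
  have hst : ∀ x ∈ (⊥ : Submodule K V), θ x ∈ (⊥ : Submodule K V) := by
    intro x hx
    rw [Submodule.mem_bot] at hx ⊢
    rw [hx, map_zero]
  rw [fpTr_eq_trace_restrict θ ⊥ hst n (by rw [h, LinearMap.range_zero])]
  have : θ.restrict hst = 0 := Subsingleton.elim _ _
  rw [this, map_zero]

theorem fpTr_zero : fpTr (0 : Module.End K V) = 0 :=
  fpTr_eq_zero_of_pow_eq_zero 0 1 (pow_one 0)

theorem finPot_smul {c : K} (hc : c ≠ 0) (θ : Module.End K V) : FinPot (c • θ) ↔ FinPot θ := by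
  have key : ∀ n : ℕ, LinearMap.range ((c • θ) ^ n) = LinearMap.range (θ ^ n) := by
    intro n
    rw [smul_pow]
    exact LinearMap.range_smul _ _ (pow_ne_zero n hc)
  constructor
  · rintro ⟨n, hn⟩
    exact ⟨n, by rwa [key n] at hn⟩
  · rintro ⟨n, hn⟩
    exact ⟨n, by rwa [key n]⟩

theorem fpTr_smul (c : K) (θ : Module.End K V) : fpTr (c • θ) = c * fpTr θ := by
  rcases eq_or_ne c 0 with rfl | hc
  · rw [zero_smul, fpTr_zero, zero_mul]
  by_cases h : FinPot θ
  · obtain ⟨n, hn⟩ := h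
    have hst := range_pow_stable θ n
    have hst' : ∀ x ∈ LinearMap.range (θ ^ n), (c • θ) x ∈ LinearMap.range (θ ^ n) :=
      fun x hx => Submodule.smul_mem _ c (hst x hx)
    rw [fpTr_eq_trace_restrict θ _ hst n le_rfl,
      fpTr_eq_trace_restrict (c • θ) _ hst' n (by
        rw [smul_pow, LinearMap.range_smul _ _ (pow_ne_zero n hc)])]
    have : (c • θ).restrict hst' = c • θ.restrict hst := by
      ext x
      rfl
    rw [this, map_smul, smul_eq_mul]
  · have h' : ¬ FinPot (c • θ) := fun hh => h ((finPot_smul hc θ).mp hh)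
    rw [fpTr_of_not_finPot h, fpTr_of_not_finPot h', mul_zero]

theorem fpTr_neg (θ : Module.End K V) : fpTr (-θ) = -fpTr θ := by
  have := fpTr_smul (-1 : K) θ
  simpa using this

/-- Additivity on a common finite-dimensional stable subspace. -/
theorem fpTr_add_of_stable (θ φ : Module.End K V) (W : Submodule K V) [FiniteDimensional K W]
    (hθ : ∀ x ∈ W, θ x ∈ W) (hφ : ∀ x ∈ W, φ x ∈ W) (n : ℕ)
    (hθn : LinearMap.range (θ ^ n) ≤ W) (hφn : LinearMap.range (φ ^ n) ≤ W)
    (hn : LinearMap.range ((θ + φ) ^ n) ≤ W) :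
    fpTr (θ + φ) = fpTr θ + fpTr φ := by
  have hst : ∀ x ∈ W, (θ + φ) x ∈ W := fun x hx => Submodule.add_mem _ (hθ x hx) (hφ x hx)
  rw [fpTr_eq_trace_restrict θ W hθ n hθn, fpTr_eq_trace_restrict φ W hφ n hφn,
    fpTr_eq_trace_restrict (θ + φ) W hst n hn, ← map_add]
  congr 1

theorem comp_pow_succ (φ : V' →ₗ[K] V) (ψ : V →ₗ[K] V') (n : ℕ) :
    ((ψ ∘ₗ φ : Module.End K V') ^ (n + 1)) = ψ ∘ₗ ((φ ∘ₗ ψ : Module.End K V) ^ n) ∘ₗ φ := by
  induction n with
  | zero =>
    ext x
    simp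
  | succ n ih =>
    rw [pow_succ, ih]
    ext x
    simp only [Module.End.mul_apply, LinearMap.comp_apply]
    rw [pow_succ, Module.End.mul_apply]
    rfl

/-- `Tr (φ ψ) = Tr (ψ φ)`. -/
theorem fpTr_comp_comm (φ : V' →ₗ[K] V) (ψ : V →ₗ[K] V')
    (h : FinPot (φ ∘ₗ ψ : Module.End K V)) :
    fpTr (φ ∘ₗ ψ : Module.End K V) = fpTr (ψ ∘ₗ φ : Module.End K V') := by
  obtain ⟨n, hn⟩ := h
  set W : Submodule K V := LinearMap.range ((φ ∘ₗ ψ : Module.End K V) ^ n) with hWdef
  have hWst : ∀ x ∈ W, (φ ∘ₗ ψ : Module.End K V) x ∈ W := range_pow_stable _ n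
  set W' : Submodule K V' := W.map ψ with hW'def
  have : FiniteDimensional K W' := by rw [hW'def]; infer_instance
  have hW'st : ∀ x ∈ W', (ψ ∘ₗ φ : Module.End K V') x ∈ W' := by
    rintro _ ⟨w, hw, rfl⟩
    exact ⟨_, hWst w hw, rfl⟩
  have hn' : LinearMap.range ((ψ ∘ₗ φ : Module.End K V') ^ (n + 1)) ≤ W' := by
    rintro _ ⟨x, rfl⟩
    rw [comp_pow_succ]
    exact ⟨_, LinearMap.mem_range_self _ (φ x), rfl⟩
  rw [fpTr_eq_trace_restrict _ W hWst n le_rfl, fpTr_eq_trace_restrict _ W' hW'st (n + 1) hn']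
  let a : W →ₗ[K] W' := (ψ.domRestrict W).codRestrict W' (fun x => ⟨x, x.2, rfl⟩)
  let b : W' →ₗ[K] W := (φ.domRestrict W').codRestrict W (fun x => by
    obtain ⟨w, hw, hx⟩ := x.2
    show φ (x : V') ∈ W
    rw [← hx]
    exact hWst w hw)
  have h1 : (φ ∘ₗ ψ : Module.End K V).restrict hWst = b ∘ₗ a := by
    ext x
    rfl
  have h2 : (ψ ∘ₗ φ : Module.End K V').restrict hW'st = a ∘ₗ b := by
    ext x
    rfl
  rw [h1, h2]
  exact LinearMap.trace_comp_comm' a b

end Fermat.Agent.Lib.RR.H80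

end
end
-- ===== PACK-END Lib/RR/H80/Res/FPTrace.lean

-- ===== PACK-BEGIN S20/Core.lean
section


/-!
# S20 long shot — core definitions (FROZEN INTERFACE, owner helper20)

Everything is stated for a subgroup `Γ : Subgroup SL(2, ℤ)` and at FUNCTION level
(no bundled forms, hence no weight casts).

* `MF Γ k`, `SF Γ k` : modular / cusp forms of weight `k` for `Γ`, as `Submodule ℂ (ℍ → ℂ)`.
* `X Γ := SL(2, ℤ) ⧸ Γ` (left cosets, left multiplication action).
* `ev Γ k τ f : X Γ → ℂ`, `x ↦ (f ∣[k] (x.out)⁻¹) τ`  (vector of conjugates of `f` at `τ`).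
* `shiftT Γ`, `per Γ`, `proj Γ a`, `Theta Γ s` : the permutation operator of `T` on `ℂ^X`,
  its order, its spectral projectors and `Theta s = ∑ₐ exp(2πi a s / h) • proj a`.
* `HasJet Γ k f v` : `Theta (-τ) (ev τ f) → v` as `im τ → ∞` ("leading coefficients at the cusps").
* `LevelOneDivisor z₀ w P` : `P` is a level one form of weight `w` with simple zeros, exactly on
  the orbit of `z₀`, not vanishing at `∞`.
* `FundSystem Γ` : a unimodular frame (fundamental system of generators).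
-/

set_option autoImplicit false

noncomputable section

namespace Fermat.Agent.S20

open UpperHalfPlane ModularForm CongruenceSubgroup MatrixGroups Filter
open scoped Manifold Topology Real

lemma smul_slash_SL (k : ℤ) (γ : SL(2, ℤ)) (c : ℂ) (f : ℍ → ℂ) :
    (c • f) ∣[k] γ = c • (f ∣[k] γ) := by
  simp

/-- Function-level space of weight `k` modular forms for `Γ ≤ SL(2, ℤ)`. -/
def MF (Γ : Subgroup SL(2, ℤ)) (k : ℤ) : Submodule ℂ (ℍ → ℂ) where
  carrier := {f | MDiff f ∧ (∀ γ ∈ Γ, f ∣[k] γ = f) ∧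
    ∀ γ : SL(2, ℤ), IsBoundedAtImInfty (f ∣[k] γ)}
  zero_mem' := by
    refine ⟨mdifferentiable_const, fun γ _ => by simp, fun γ => ?_⟩
    simpa using (zero_form_isBoundedAtImInfty : IsBoundedAtImInfty (0 : ℍ → ℂ))
  add_mem' := by
    rintro f g ⟨hf, hf', hf''⟩ ⟨hg, hg', hg''⟩
    refine ⟨hf.add hg, fun γ hγ => by rw [SlashAction.add_slash, hf' γ hγ, hg' γ hγ],
      fun γ => ?_⟩
    rw [SlashAction.add_slash]
    exact (hf'' γ).add (hg'' γ)
  smul_mem' := by
    rintro c f ⟨hf, hf', hf''⟩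
    refine ⟨hf.const_smul c, fun γ hγ => by rw [smul_slash_SL, hf' γ hγ], fun γ => ?_⟩
    rw [smul_slash_SL]
    exact (hf'' γ).const_smul_left c

/-- Function-level space of weight `k` cusp forms for `Γ ≤ SL(2, ℤ)`. -/
def SF (Γ : Subgroup SL(2, ℤ)) (k : ℤ) : Submodule ℂ (ℍ → ℂ) where
  carrier := {f | MDiff f ∧ (∀ γ ∈ Γ, f ∣[k] γ = f) ∧
    ∀ γ : SL(2, ℤ), IsZeroAtImInfty (f ∣[k] γ)}
  zero_mem' := by
    refine ⟨mdifferentiable_const, fun γ _ => by simp, fun γ => ?_⟩
    rw [SlashAction.zero_slash]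
    exact Filter.zero_zeroAtFilter atImInfty
  add_mem' := by
    rintro f g ⟨hf, hf', hf''⟩ ⟨hg, hg', hg''⟩
    refine ⟨hf.add hg, fun γ hγ => by rw [SlashAction.add_slash, hf' γ hγ, hg' γ hγ],
      fun γ => ?_⟩
    rw [SlashAction.add_slash]
    exact (hf'' γ).add (hg'' γ)
  smul_mem' := by
    rintro c f ⟨hf, hf', hf''⟩
    refine ⟨hf.const_smul c, fun γ hγ => by rw [smul_slash_SL, hf' γ hγ], fun γ => ?_⟩
    rw [smul_slash_SL]
    exact (hf'' γ).smul c

lemma mem_MF {Γ : Subgroup SL(2, ℤ)} {k : ℤ} {f : ℍ → ℂ} :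
    f ∈ MF Γ k ↔ MDiff f ∧ (∀ γ ∈ Γ, f ∣[k] γ = f) ∧
      ∀ γ : SL(2, ℤ), IsBoundedAtImInfty (f ∣[k] γ) := Iff.rfl

lemma mem_SF {Γ : Subgroup SL(2, ℤ)} {k : ℤ} {f : ℍ → ℂ} :
    f ∈ SF Γ k ↔ MDiff f ∧ (∀ γ ∈ Γ, f ∣[k] γ = f) ∧
      ∀ γ : SL(2, ℤ), IsZeroAtImInfty (f ∣[k] γ) := Iff.rfl

lemma SF_le_MF (Γ : Subgroup SL(2, ℤ)) (k : ℤ) : SF Γ k ≤ MF Γ k :=
  fun _ hf => ⟨hf.1, hf.2.1, fun γ => (hf.2.2 γ).isBoundedAtImInfty⟩

/-- The coset space, with the left multiplication action of `SL(2, ℤ)`. -/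
abbrev X (Γ : Subgroup SL(2, ℤ)) : Type := SL(2, ℤ) ⧸ Γ

/-- The vector of conjugates of `f` at `τ`. -/
def ev (Γ : Subgroup SL(2, ℤ)) (k : ℤ) (τ : ℍ) : (ℍ → ℂ) →ₗ[ℂ] (X Γ → ℂ) where
  toFun f x := (f ∣[k] (x.out)⁻¹) τ
  map_add' f g := by
    ext x
    simp [SlashAction.add_slash]
  map_smul' c f := by
    ext x
    simp

lemma ev_apply (Γ : Subgroup SL(2, ℤ)) (k : ℤ) (τ : ℍ) (f : ℍ → ℂ) (x : X Γ) :
    ev Γ k τ f x = (f ∣[k] (x.out)⁻¹) τ := rfl

section Cusp

variable (Γ : Subgroup SL(2, ℤ))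

/-- The permutation operator of `T` on `ℂ^X`: `(shiftT v) x = v (T⁻¹ • x)`.
For `Γ`-invariant `f` one has `ev Γ k (T • τ) f = shiftT Γ (ev Γ k τ f)`. -/
def shiftT : (X Γ → ℂ) →ₗ[ℂ] (X Γ → ℂ) :=
  LinearMap.funLeft ℂ ℂ (fun x : X Γ => (ModularGroup.T)⁻¹ • x)

/-- The order of `T` acting on `X Γ` (positive when `Γ` has finite index). -/
def per : ℕ := orderOf (MulAction.toPermHom SL(2, ℤ) (X Γ) ModularGroup.T)

/-- Spectral projector of `shiftT` for the eigenvalue `exp (2πi a / h)`, `h = per Γ`. -/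
def proj (a : ℕ) : (X Γ → ℂ) →ₗ[ℂ] (X Γ → ℂ) :=
  ((per Γ : ℂ))⁻¹ • ∑ i ∈ Finset.range (per Γ),
    Complex.exp (-(2 * π * Complex.I * a * i / per Γ)) • (shiftT Γ) ^ i

/-- `Theta s = ∑_{a < h} exp (2πi a s / h) • proj a`. -/
def Theta (s : ℂ) : (X Γ → ℂ) →ₗ[ℂ] (X Γ → ℂ) :=
  ∑ a ∈ Finset.range (per Γ), Complex.exp (2 * π * Complex.I * a * s / per Γ) • proj Γ a

/-- The normalised vector of conjugates, whose limit at `i∞` is the jet. -/
def jetFun (k : ℤ) (f : ℍ → ℂ) (τ : ℍ) : X Γ → ℂ := Theta Γ (-(τ : ℂ)) (ev Γ k τ f)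

/-- `v` is the jet (vector of leading coefficients at the cusps) of `f`. -/
def HasJet (k : ℤ) (f : ℍ → ℂ) (v : X Γ → ℂ) : Prop :=
  Tendsto (jetFun Γ k f) atImInfty (𝓝 v)

end Cusp

/-- `P` is a level one modular form of weight `w`, with simple zeros located exactly on the
`SL(2, ℤ)`-orbit of `z₀`, and not vanishing at `i∞`. -/
structure LevelOneDivisor (z₀ : ℍ) (w : ℤ) (P : ℍ → ℂ) : Prop where
  mem : P ∈ MF ⊤ w
  zero_iff : ∀ z : ℍ, P z = 0 ↔ ∃ γ : SL(2, ℤ), γ • z₀ = z
  simple : ∀ z : ℍ, P z = 0 → deriv (P ∘ ofComplex) z ≠ 0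
  not_zero_at_infty : ¬ IsZeroAtImInfty P

/-- A fundamental system (unimodular frame) for `Γ`: homogeneous generators of `⊕ₖ MF Γ k` over
the level one forms whose vectors of conjugates are linearly independent at every point of `ℍ`
and at `i∞`. -/
structure FundSystem (Γ : Subgroup SL(2, ℤ)) where
  J : Type
  [fintypeJ : Fintype J]
  wt : J → ℤ
  F : J → ℍ → ℂ
  mem : ∀ j, F j ∈ MF Γ (wt j)
  gen : ∀ (k : ℤ) (f : ℍ → ℂ), f ∈ MF Γ k →
    ∃ c : J → ℍ → ℂ, (∀ j, c j ∈ MF ⊤ (k - wt j)) ∧ f = ∑ j, c j * F j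
  indep : ∀ τ : ℍ, LinearIndependent ℂ fun j => ev Γ (wt j) τ (F j)
  jet : J → X Γ → ℂ
  hasJet : ∀ j, HasJet Γ (wt j) (F j) (jet j)
  jet_indep : LinearIndependent ℂ jet
  card_eq : Fintype.card J = Nat.card (X Γ)

attribute [instance] FundSystem.fintypeJ

end Fermat.Agent.S20

end
end
-- ===== PACK-END S20/Core.lean

-- ===== PACK-BEGIN S20/JInjective.lean
section
/-
S20 / T3 (helper588): `j` is injective modulo `SL(2,ℤ)`, assuming
* T1: a lattice is determined by `g₂, g₃`;
* T2: `g₂, g₃` of the lattice `ℤ + ℤτ` are (fixed) multiples of `E₄ τ`, `E₆ τ`.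
-/


set_option autoImplicit false

open UpperHalfPlane ModularForm MatrixGroups EisensteinSeries

noncomputable section

namespace Fermat.Agent.S20.JInjective

/-- `1, τ` are `ℝ`-linearly independent for `τ ∈ ℍ`. -/
theorem linearIndependent_one_coe (τ : ℍ) : LinearIndependent ℝ ![(1 : ℂ), (τ : ℂ)] := by
  rw [LinearIndependent.pair_iff]
  intro s t h
  have him := congrArg Complex.im h
  have hre := congrArg Complex.re h
  simp at him hre
  have ht : t = 0 := by
    rcases him with h | h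
    · exact h
    · exact absurd h τ.im_ne_zero
  subst ht
  simpa using hre

/-- the period pair `(1, τ)` -/
def pairOf (τ : ℍ) : PeriodPair where
  ω₁ := 1
  ω₂ := τ
  indep := linearIndependent_one_coe τ

@[simp] lemma pairOf_ω₁ (τ : ℍ) : (pairOf τ).ω₁ = 1 := rfl
@[simp] lemma pairOf_ω₂ (τ : ℍ) : (pairOf τ).ω₂ = τ := rfl

/-- the period pair `(c ω₁, c ω₂)` -/
def scalePair (L : PeriodPair) (c : ℂ) (hc : c ≠ 0) : PeriodPair where
  ω₁ := c * L.ω₁
  ω₂ := c * L.ω₂
  indep := by
    have h := L.indep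
    rw [LinearIndependent.pair_iff] at h ⊢
    intro s t hst
    apply h s t
    have : c * (s • L.ω₁ + t • L.ω₂) = 0 := by
      rw [← hst]
      simp only [Complex.real_smul]
      ring
    rcases mul_eq_zero.mp this with h0 | h0
    · exact absurd h0 hc
    · exact h0

@[simp] lemma scalePair_ω₁ (L : PeriodPair) (c : ℂ) (hc : c ≠ 0) :
    (scalePair L c hc).ω₁ = c * L.ω₁ := rfl
@[simp] lemma scalePair_ω₂ (L : PeriodPair) (c : ℂ) (hc : c ≠ 0) :
    (scalePair L c hc).ω₂ = c * L.ω₂ := rfl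

lemma mem_scalePair_lattice (L : PeriodPair) (c : ℂ) (hc : c ≠ 0) (x : ℂ) :
    x ∈ (scalePair L c hc).lattice ↔ c⁻¹ * x ∈ L.lattice := by
  simp only [PeriodPair.mem_lattice, scalePair_ω₁, scalePair_ω₂]
  constructor
  · rintro ⟨m, n, rfl⟩
    refine ⟨m, n, ?_⟩
    field_simp
  · rintro ⟨m, n, h⟩
    refine ⟨m, n, ?_⟩
    have : x = c * (c⁻¹ * x) := by field_simp
    rw [this, ← h]
    ring

lemma mul_mem_scalePair_lattice (L : PeriodPair) (c : ℂ) (hc : c ≠ 0) (x : ℂ) :
    c * x ∈ (scalePair L c hc).lattice ↔ x ∈ L.lattice := by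
  rw [mem_scalePair_lattice]
  rw [inv_mul_cancel_left₀ hc]

/-- multiplication by `c` as an equivalence of lattices -/
def scaleEquiv (L : PeriodPair) (c : ℂ) (hc : c ≠ 0) :
    L.lattice ≃ (scalePair L c hc).lattice where
  toFun l := ⟨c * l, (mul_mem_scalePair_lattice L c hc _).2 l.2⟩
  invFun l := ⟨c⁻¹ * l, (mem_scalePair_lattice L c hc _).1 l.2⟩
  left_inv l := by
    ext
    simp [inv_mul_cancel_left₀ hc]
  right_inv l := by
    ext
    simp [mul_inv_cancel_left₀ hc]

lemma G_scalePair (L : PeriodPair) (c : ℂ) (hc : c ≠ 0) (n : ℕ) :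
    (scalePair L c hc).G n = (c ^ n)⁻¹ * L.G n := by
  unfold PeriodPair.G
  rw [← (scaleEquiv L c hc).tsum_eq, ← tsum_mul_left]
  congr 1
  ext l
  simp [scaleEquiv, mul_pow, mul_comm]

lemma g₂_scalePair (L : PeriodPair) (c : ℂ) (hc : c ≠ 0) :
    (scalePair L c hc).g₂ = (c ^ 4)⁻¹ * L.g₂ := by
  unfold PeriodPair.g₂
  rw [G_scalePair]
  ring

lemma g₃_scalePair (L : PeriodPair) (c : ℂ) (hc : c ≠ 0) :
    (scalePair L c hc).g₃ = (c ^ 6)⁻¹ * L.g₃ := by
  unfold PeriodPair.g₃
  rw [G_scalePair]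
  ring

/-- algebra: from `a³ b'² = a'³ b²` with `a³ ≠ b²`, `a'³ ≠ b'²`, find `μ ≠ 0` with
`a' = μ⁴ a`, `b' = μ⁶ b`. -/
lemma exists_scale (a b a' b' : ℂ) (hd : a ^ 3 - b ^ 2 ≠ 0) (hd' : a' ^ 3 - b' ^ 2 ≠ 0)
    (h : a ^ 3 * b' ^ 2 = a' ^ 3 * b ^ 2) :
    ∃ μ : ℂ, μ ≠ 0 ∧ a' = μ ^ 4 * a ∧ b' = μ ^ 6 * b := by
  by_cases ha : a = 0
  · subst ha
    have hb : b ≠ 0 := by
      intro hb; apply hd; simp [hb]
    have ha' : a' = 0 := by
      have : a' ^ 3 * b ^ 2 = 0 := by rw [← h]; simp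
      rcases mul_eq_zero.mp this with h1 | h1
      · exact pow_eq_zero_iff (by norm_num) |>.mp h1
      · exact absurd (pow_eq_zero_iff (by norm_num) |>.mp h1) hb
    subst ha'
    have hb' : b' ≠ 0 := by
      intro hb'; apply hd'; simp [hb']
    obtain ⟨μ, hμ⟩ := IsAlgClosed.exists_pow_nat_eq (b' / b) (n := 6) (by norm_num)
    refine ⟨μ, ?_, by simp, ?_⟩
    · rintro rfl
      have : b' / b = 0 := by rw [← hμ]; simp
      exact div_ne_zero hb' hb this
    · rw [hμ]; field_simp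
  by_cases hb : b = 0
  · subst hb
    have hb' : b' = 0 := by
      have : a ^ 3 * b' ^ 2 = 0 := by rw [h]; simp
      rcases mul_eq_zero.mp this with h1 | h1
      · exact absurd (pow_eq_zero_iff (by norm_num) |>.mp h1) ha
      · exact pow_eq_zero_iff (by norm_num) |>.mp h1
    subst hb'
    have ha' : a' ≠ 0 := by
      intro ha'; apply hd'; simp [ha']
    obtain ⟨μ, hμ⟩ := IsAlgClosed.exists_pow_nat_eq (a' / a) (n := 4) (by norm_num)
    refine ⟨μ, ?_, ?_, by simp⟩
    · rintro rfl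
      have : a' / a = 0 := by rw [← hμ]; simp
      exact div_ne_zero ha' ha this
    · rw [hμ]; field_simp
  have ha' : a' ≠ 0 := by
    rintro rfl
    have : a ^ 3 * b' ^ 2 = 0 := by rw [h]; simp
    rcases mul_eq_zero.mp this with h1 | h1
    · exact absurd (pow_eq_zero_iff (by norm_num) |>.mp h1) ha
    · have hb' : b' = 0 := pow_eq_zero_iff (by norm_num) |>.mp h1
      apply hd'; simp [hb']
  have hb' : b' ≠ 0 := by
    rintro rfl
    have : a' ^ 3 * b ^ 2 = 0 := by rw [← h]; simp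
    rcases mul_eq_zero.mp this with h1 | h1
    · exact absurd (pow_eq_zero_iff (by norm_num) |>.mp h1) ha'
    · exact absurd (pow_eq_zero_iff (by norm_num) |>.mp h1) hb
  obtain ⟨μ, hμ⟩ := IsAlgClosed.exists_pow_nat_eq (a * b' / (a' * b)) (n := 2) (by norm_num)
  have hμ0 : μ ≠ 0 := by
    rintro rfl
    have : a * b' / (a' * b) = 0 := by rw [← hμ]; simp
    exact div_ne_zero (mul_ne_zero ha hb') (mul_ne_zero ha' hb) this
  have h4 : μ ^ 4 = a' / a := by
    have : μ ^ 4 = (μ ^ 2) ^ 2 := by ring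
    rw [this, hμ]
    field_simp
    exact h
  refine ⟨μ, hμ0, ?_, ?_⟩
  · rw [h4]; field_simp
  · have : μ ^ 6 = μ ^ 4 * μ ^ 2 := by ring
    rw [this, h4, hμ]
    field_simp

/-- **T3, conditional form.** `j` is injective modulo `SL(2,ℤ)`, assuming that lattices are
determined by `g₂, g₃` (T1) and that `g₂, g₃` of `ℤ + ℤ τ` are fixed multiples of `E₄ τ`, `E₆ τ`. -/
theorem exists_smul_eq_of_j_eq_of
    (T1 : ∀ L L' : PeriodPair, L.g₂ = L'.g₂ → L.g₃ = L'.g₃ → L.lattice = L'.lattice)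
    (c₂ c₃ : ℂ) (T2a : ∀ τ : ℍ, (pairOf τ).g₂ = c₂ * E₄ τ)
    (T2b : ∀ τ : ℍ, (pairOf τ).g₃ = c₃ * E₆ τ)
    (τ τ' : ℍ) (h : E₄ τ ^ 3 * discriminant τ' = E₄ τ' ^ 3 * discriminant τ) :
    ∃ γ : SL(2, ℤ), γ • τ = τ' := by
  -- Step 1: the scaling factor
  have hΔ := discriminant_eq_E₄_cube_sub_E₆_sq τ
  have hΔ' := discriminant_eq_E₄_cube_sub_E₆_sq τ'
  have hne := discriminant_ne_zero τ
  have hne' := discriminant_ne_zero τ'
  have hd : E₄ τ ^ 3 - E₆ τ ^ 2 ≠ 0 := by
    intro h0; apply hne; rw [hΔ, h0]; simp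
  have hd' : E₄ τ' ^ 3 - E₆ τ' ^ 2 ≠ 0 := by
    intro h0; apply hne'; rw [hΔ', h0]; simp
  have hab : E₄ τ ^ 3 * E₆ τ' ^ 2 = E₄ τ' ^ 3 * E₆ τ ^ 2 := by
    rw [hΔ, hΔ'] at h
    linear_combination (-1728 : ℂ) * h
  obtain ⟨μ, hμ0, hμ4, hμ6⟩ := exists_scale _ _ _ _ hd hd' hab
  -- Step 2: equality of lattices
  have hμi : μ⁻¹ ≠ 0 := inv_ne_zero hμ0
  have hlat : (scalePair (pairOf τ) μ⁻¹ hμi).lattice = (pairOf τ').lattice := by
    apply T1
    · rw [g₂_scalePair, T2a, T2a, hμ4]; simp only [inv_pow, inv_inv]; ring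
    · rw [g₃_scalePair, T2b, T2b, hμ6]; simp only [inv_pow, inv_inv]; ring
  have key : ∀ x : ℂ, x ∈ (pairOf τ').lattice ↔ μ * x ∈ (pairOf τ).lattice := by
    intro x
    rw [← hlat, mem_scalePair_lattice, inv_inv]
  -- Step 3: the integer matrix
  obtain ⟨d, c, hdc⟩ := PeriodPair.mem_lattice.mp ((key 1).1 (pairOf τ').ω₁_mem_lattice)
  obtain ⟨b, a, hba⟩ := PeriodPair.mem_lattice.mp ((key τ').1 (pairOf τ').ω₂_mem_lattice)
  have h1 : μ⁻¹ ∈ (pairOf τ').lattice := by
    rw [key, mul_inv_cancel₀ hμ0]; exact (pairOf τ).ω₁_mem_lattice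
  have h2 : μ⁻¹ * τ ∈ (pairOf τ').lattice := by
    rw [key, mul_inv_cancel_left₀ hμ0]; exact (pairOf τ).ω₂_mem_lattice
  obtain ⟨s, r, hsr⟩ := PeriodPair.mem_lattice.mp h1
  obtain ⟨q, p, hqp⟩ := PeriodPair.mem_lattice.mp h2
  simp only [pairOf_ω₁, pairOf_ω₂, mul_one] at hdc hba hsr hqp
  -- Step 4: the matrix is invertible over `ℤ`
  have hind := (pairOf τ).indep
  rw [LinearIndependent.pair_iff] at hind
  simp only [pairOf_ω₁, pairOf_ω₂] at hind
  have e1 : ((s * d + r * b - 1 : ℤ) : ℂ) + ((s * c + r * a : ℤ) : ℂ) * τ = 0 := by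
    have : μ * μ⁻¹ = 1 := mul_inv_cancel₀ hμ0
    rw [← hsr] at this
    push_cast
    linear_combination this + (s : ℂ) * hdc + (r : ℂ) * hba
  have e2 : ((q * d + p * b : ℤ) : ℂ) + ((q * c + p * a - 1 : ℤ) : ℂ) * τ = 0 := by
    have : μ * (μ⁻¹ * τ) = τ := mul_inv_cancel_left₀ hμ0 _
    rw [← hqp] at this
    push_cast
    linear_combination this + (q : ℂ) * hdc + (p : ℂ) * hba
  have f1 := hind ((s * d + r * b - 1 : ℤ) : ℝ) ((s * c + r * a : ℤ) : ℝ)
    (by simpa using e1)
  have f2 := hind ((q * d + p * b : ℤ) : ℝ) ((q * c + p * a - 1 : ℤ) : ℝ)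
    (by simpa using e2)
  have g1 : s * d + r * b - 1 = 0 := by exact_mod_cast f1.1
  have g2 : s * c + r * a = 0 := by exact_mod_cast f1.2
  have g3 : q * d + p * b = 0 := by exact_mod_cast f2.1
  have g4 : q * c + p * a - 1 = 0 := by exact_mod_cast f2.2
  have hunit : (a * d - b * c) * (p * s - q * r) = 1 := by
    linear_combination (q * c + p * a) * g1 + g4 - (q * d + p * b) * g2
  have hpm : a * d - b * c = 1 ∨ a * d - b * c = -1 :=
    Int.isUnit_iff.mp (IsUnit.of_mul_eq_one _ hunit)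
  -- Step 5: the determinant is positive
  have hIm : (a : ℝ) * τ.im = (d + c * τ.re) * τ'.im + c * τ.im * τ'.re := by
    have := congrArg Complex.im hba
    rw [← hdc] at this
    simp at this
    linarith
  have hRe : (b : ℝ) + a * τ.re = (d + c * τ.re) * τ'.re - c * τ.im * τ'.im := by
    have := congrArg Complex.re hba
    rw [← hdc] at this
    simp at this
    linarith
  have hN : 0 < ((d : ℝ) + c * τ.re) ^ 2 + (c * τ.im) ^ 2 := by
    have h0 : 0 < Complex.normSq μ := Complex.normSq_pos.mpr hμ0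
    rw [← hdc] at h0
    simp [Complex.normSq_apply] at h0
    nlinarith [h0]
  have hpos : ((a * d - b * c : ℤ) : ℝ) * τ.im =
      (((d : ℝ) + c * τ.re) ^ 2 + (c * τ.im) ^ 2) * τ'.im := by
    push_cast
    linear_combination (d + c * τ.re) * hIm - (c * τ.im) * hRe
  have hdet : a * d - b * c = 1 := by
    rcases hpm with h1 | h1
    · exact h1
    · exfalso
      rw [h1] at hpos
      have := mul_pos hN τ'.im_pos
      have := τ.im_pos
      push_cast at hpos
      nlinarith
  -- Step 6: the Möbius transformation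
  refine ⟨⟨!![a, b; c, d], by rw [Matrix.det_fin_two_of]; exact hdet⟩, ?_⟩
  apply UpperHalfPlane.ext
  have hγ := coe_specialLinearGroup_apply (R := ℤ)
    (⟨!![a, b; c, d], by rw [Matrix.det_fin_two_of]; exact hdet⟩ : SL(2, ℤ)) τ
  rw [hγ]
  simp only [Matrix.of_apply, Matrix.cons_val_zero,
    Matrix.cons_val_one, Matrix.cons_val', Matrix.cons_val_fin_one, algebraMap_int_eq,
    Int.coe_castRingHom, Complex.ofReal_intCast]
  have hμ' : (c : ℂ) * τ + d = μ := by rw [← hdc]; ring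
  rw [hμ', div_eq_iff hμ0]
  linear_combination hba

/-- **T3, conditional form (Spec-shaped hypotheses).** -/
theorem exists_smul_eq_of_j_eq_of_G
    (T1 : ∀ L L' : PeriodPair, L.g₂ = L'.g₂ → L.g₃ = L'.g₃ → L.lattice = L'.lattice)
    (T2 : ∀ (τ : ℍ) {k : ℕ} (hk : 3 ≤ k), (pairOf τ).G k = 2 * riemannZeta k * E hk τ)
    (τ τ' : ℍ) (h : E₄ τ ^ 3 * discriminant τ' = E₄ τ' ^ 3 * discriminant τ) :
    ∃ γ : SL(2, ℤ), γ • τ = τ' := by
  refine exists_smul_eq_of_j_eq_of T1 (60 * (2 * riemannZeta (4 : ℕ)))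
    (140 * (2 * riemannZeta (6 : ℕ))) ?_ ?_ τ τ' h
  · intro z
    rw [PeriodPair.g₂, T2 z (by norm_num : 3 ≤ 4)]
    ring
  · intro z
    rw [PeriodPair.g₃, T2 z (by norm_num : 3 ≤ 6)]
    ring

end Fermat.Agent.S20.JInjective

end
end
-- ===== PACK-END S20/JInjective.lean

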