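import Mathlib
import Fermat.Prelude.Def_ModularCurve_ArithmeticGalois
import Fermat.Prelude.Def_AlgebraicCurve_Correspondence
import Fermat.Prelude.Def_ModularCurve_X0ModL
import Fermat.Prelude.Def_ModularCurve_X0
import Fermat.Prelude.Def_FLTPrelim_Ramification
import Fermat.Agent.Pack.S44C.G0E0L0
import Fermat.Agent.Pack.S44C.G0E5L3
import Fermat.Agent.Pack.S44C.G0E0L3
import Fermat.Agent.Pack.S44C.G0E5L1
import Fermat.Agent.Pack.S44C.G0E6L1
import Fermat.Agent.Pack.S44C.G0E6L3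
import Fermat.Agent.Pack.S44C.G0E0L1
import Fermat.Agent.Pack.S44C.G0E6L2
import Fermat.Agent.Pack.S44C.G0E6L0
import Fermat.Agent.Pack.S44C.G0E1L1
import Fermat.Agent.Pack.S44C.G0E1L3
import Fermat.Agent.Pack.S44C.G0E7L1
import Fermat.Agent.Pack.S44C.G0E8L1
import Fermat.Agent.Pack.Fast891

-- ===== PACK-BEGIN A2/H708/GaussInfQbar.lean
section








/-!
# A2 (helper708): the Gauss valuation at `∞` over `ℚ̄`, and the K2 hypotheses for inertia

`A` a valuation subring of `ℚ̄` over a prime `ℓ` (non-discrete!), `F₀ ⊆ ℚ((t))` generated by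
integer series, `F = laurentBaseChange ℚ̄ F₀`.

* `attainsMax_Qbar` : `AttainsMax A F₀` (every element of `F` is defined over a number field `E`,
  and `A ∩ E` is a DVR; `S18/H602`).
* `gaussInfBar A F₀ hgen hℓ hA : ValuationSubring F`.
* for `σ ∈ A.inertiaSubgroupIn ℚ`, `τ = arithmeticRingAut F₀ σ` and `Kc` = the constants:
  `hasConstValues`, `inInertia`, `preservesConstValues`, `constants_stable`
  = EXACTLY the hypotheses of `H129.exists_const_twice_two` / `H129.oneAddNonunits_twice`;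
  `oneAddNonunits_twice_gaussInfBar` : `(τ - 1)² f ∈ 1 + 𝔪_V` for every `f ≠ 0`.
-/

set_option autoImplicit false

noncomputable section

namespace Fermat.Agent.A2.H708

open ModularCurve HahnSeries IntermediateField Fermat.Agent.S18.H602 Fermat.Agent.A2.H129

local notation "Q̄" => AlgebraicClosure ℚ

variable {A : ValuationSubring Q̄}
variable {ℓ : ℕ} (hℓ : ℓ ≠ 0) (hA : (ℓ : Q̄) ∈ A.nonunits)
variable (F₀ : IntermediateField ℚ (LaurentSeries ℚ))

include hℓ hA in
/-- **Discreteness over `ℚ̄`.** A nonzero element of `F = ℚ̄·F₀` with bounded denominators has a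
coefficient of maximal valuation. -/
theorem attainsMax_Qbar : AttainsMax A F₀ := by
  classical
  intro x hx hx0 hb
  obtain ⟨d, hd0, hd⟩ := hb
  have hQalg : Algebra.IsAlgebraic ℚ Q̄ := AlgebraicClosure.isAlgebraic ℚ
  have : FiniteDimensional ℚ ℚ⟮d⟯ := IntermediateField.adjoin.finiteDimensional
    (Algebra.IsAlgebraic.isAlgebraic d).isIntegral
  obtain ⟨E, hE, hdE, hxE, -⟩ := exists_finite_descent₂ (F₀ := F₀) ℚ⟮d⟯ hx hx
  obtain ⟨y, -, rfl⟩ := hxE
  have hdmem : d ∈ E := hdE (mem_adjoin_simple_self ℚ d)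
  set dE : E := ⟨d, hdmem⟩ with hdE'
  have hdE0 : dE ≠ 0 := fun h => hd0 (congrArg Subtype.val h)
  have := isDiscreteValuationRing_RE A E hℓ hA
  have hy0 : y ≠ 0 := by
    rintro rfl
    exact hx0 (map_zero _)
  have hcoeff : ∀ n, (coeffMap (algebraMap E Q̄) y).coeff n = algebraMap E Q̄ (y.coeff n) :=
    fun n => rfl
  have hb' : ∃ d' : E, d' ≠ 0 ∧ ∀ n, d' * y.coeff n ∈ _root_.Fermat.Agent.S18.H602.RE A E := by
    refine ⟨dE, hdE0, fun n => ?_⟩
    rw [mem_RE]
    have := hd n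
    rw [hcoeff] at this
    simpa using this
  obtain ⟨n₀, hn₀, hmax⟩ := exists_max_coeff_of_isNoetherianRing (_root_.Fermat.Agent.S18.H602.RE A E) hy0 hb'
  refine ⟨n₀, ?_, fun n => ?_⟩
  · rw [hcoeff]
    exact fun h => hn₀ ((map_eq_zero_iff _ (algebraMap E Q̄).injective).mp h)
  · -- compare the valuations of `R_E` and of `A`
    rw [hcoeff, hcoeff]
    by_cases h0 : y.coeff n = 0
    · rw [h0, map_zero, map_zero]; exact zero_le
    have h1 := hmax n
    have hv0 : (_root_.Fermat.Agent.S18.H602.RE A E).valuation (y.coeff n₀) ≠ 0 := (Valuation.ne_zero_iff _).mpr hn₀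
    have h2 : (_root_.Fermat.Agent.S18.H602.RE A E).valuation (y.coeff n / y.coeff n₀) ≤ 1 := by
      rw [map_div₀, div_le_one₀ (zero_lt_iff.mpr hv0)]
      exact h1
    have h3 : y.coeff n / y.coeff n₀ ∈ _root_.Fermat.Agent.S18.H602.RE A E := ((_root_.Fermat.Agent.S18.H602.RE A E).valuation_le_one_iff _).mp h2
    rw [mem_RE] at h3
    have h4 : A.valuation (algebraMap E Q̄ (y.coeff n / y.coeff n₀)) ≤ 1 :=
      (A.valuation_le_one_iff _).mpr h3
    rw [map_div₀, map_div₀] at h4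
    have hv0' : A.valuation (algebraMap E Q̄ (y.coeff n₀)) ≠ 0 :=
      (Valuation.ne_zero_iff _).mpr
        (fun h => hn₀ ((map_eq_zero_iff _ (algebraMap E Q̄).injective).mp h))
    rwa [div_le_one₀ (zero_lt_iff.mpr hv0')] at h4

variable (A) in
/-- **The Gauss valuation ring at `∞`** of `F = ℚ̄·F₀` for a valuation subring `A` of `ℚ̄` over a
prime. -/
def gaussInfBar (hgen : IntGen F₀) : ValuationSubring ↥(laurentBaseChange Q̄ F₀) :=
  gaussInf A F₀ hgen (attainsMax_Qbar hℓ hA F₀)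

/-- the subfield of constants of `F`. -/
def constField : Subfield ↥(laurentBaseChange Q̄ F₀) :=
  (algebraMap Q̄ ↥(laurentBaseChange Q̄ F₀)).fieldRange

variable {F₀}
variable (hgen : IntGen F₀)

/-- the value group of `V` is the value group of the constants. -/
theorem hasConstValues : HasConstValues (constField F₀) (gaussInfBar A hℓ hA F₀ hgen) := by
  intro f hf
  obtain ⟨c, hc, hu⟩ := exists_const_mul_unit hgen (attainsMax_Qbar hℓ hA F₀) hf
  refine ⟨algebraMap Q̄ _ c, ⟨c, rfl⟩, ?_, hu⟩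
  rw [Ne, map_eq_zero_iff _ (algebraMap Q̄ ↥(laurentBaseChange Q̄ F₀)).injective]
  exact hc

/-- valuation of constants. -/
theorem valuation_algebraMap_eq_one {c : Q̄} (hc : A.valuation c = 1) :
    (gaussInfBar A hℓ hA F₀ hgen).valuation (algebraMap Q̄ ↥(laurentBaseChange Q̄ F₀) c) = 1 := by
  have hc0 : c ≠ 0 := by
    rintro rfl
    simp at hc
  have h1 : algebraMap Q̄ ↥(laurentBaseChange Q̄ F₀) c ∈ gaussInfBar A hℓ hA F₀ hgen :=
    (algebraMap_mem_gaussInf_iff hgen _ c).mpr ((A.valuation_le_one_iff _).mp hc.le)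
  have h2 : algebraMap Q̄ ↥(laurentBaseChange Q̄ F₀) c⁻¹ ∈ gaussInfBar A hℓ hA F₀ hgen :=
    (algebraMap_mem_gaussInf_iff hgen _ c⁻¹).mpr
      ((A.valuation_le_one_iff _).mp (by rw [map_inv₀, hc, inv_one]))
  have h1' := ((gaussInfBar A hℓ hA F₀ hgen).valuation_le_one_iff _).mpr h1
  have h2' := ((gaussInfBar A hℓ hA F₀ hgen).valuation_le_one_iff _).mpr h2
  rw [map_inv₀, map_inv₀] at h2'
  have hv0 : (gaussInfBar A hℓ hA F₀ hgen).valuation
      (algebraMap Q̄ ↥(laurentBaseChange Q̄ F₀) c) ≠ 0 := by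
    rw [Valuation.ne_zero_iff, Ne, map_eq_zero_iff _ (algebraMap Q̄ _).injective]
    exact hc0
  rw [inv_le_one₀ (zero_lt_iff.mpr hv0)] at h2'
  exact le_antisymm h1' h2'

section inertia

variable {σ : Q̄ ≃ₐ[ℚ] Q̄} (hσ : σ ∈ A.inertiaSubgroupIn ℚ)

/-- the restriction of `σ` to `A`. -/
def resA (hσ : σ ∈ A.inertiaSubgroupIn ℚ) : A →+* A :=
  ((σ : Q̄ →+* Q̄).comp A.subtype).codRestrict A.toSubring
    (fun a => apply_mem_of_mem_decomposition A (mem_decomposition_of_mem_inertiaIn A hσ) a.2)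

theorem coe_resA (a : A) : ((resA hσ a : A) : Q̄) = σ (a : Q̄) := rfl

theorem incl_coeffMap_resA (U : LaurentSeries A) :
    incl A (coeffMap (resA hσ) U) = coeffMap (σ : Q̄ →+* Q̄) (incl A U) := by
  rw [incl, coeffMap_coeffMap, coeffMap_coeffMap]
  exact coeffMap_congr (RingHom.ext fun a => rfl) U

theorem red_coeffMap_resA (U : LaurentSeries A) :
    red A (coeffMap (resA hσ) U) = red A U := by
  rw [red, coeffMap_coeffMap]
  refine coeffMap_congr (RingHom.ext fun a => ?_) U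
  rw [RingHom.comp_apply, ← sub_eq_zero, ← map_sub, IsLocalRing.residue_eq_zero_iff,
    ← ValuationSubring.coe_mem_nonunits_iff]
  exact sub_mem_nonunits_of_mem_inertiaIn A hσ a.2

include hσ in
/-- **`τ` acts trivially on the residue field of `V`.** -/
theorem inInertia :
    InInertia (gaussInfBar A hℓ hA F₀ hgen) (arithmeticRingAut F₀ σ) := by
  intro u hu
  rw [ValuationSubring.valuation_le_one_iff] at hu
  obtain ⟨U₁, U₂, hp₂, hm₂, he⟩ := hu
  set τ := arithmeticRingAut F₀ σ with hτ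
  set x : ↥(laurentBaseChange Q̄ F₀) := τ u - u with hx
  by_cases hx0 : x = 0
  · rw [hx0, map_zero]; exact zero_lt_one
  have hx0' : (x : LaurentSeries Q̄) ≠ 0 := fun h => hx0 (Subtype.ext h)
  -- the integral relation for `x`
  set U₁' := coeffMap (resA hσ) U₁
  set U₂' := coeffMap (resA hσ) U₂
  have hτu : ((τ u : ↥(laurentBaseChange Q̄ F₀)) : LaurentSeries Q̄) * incl A U₂' = incl A U₁' := by
    rw [incl_coeffMap_resA, incl_coeffMap_resA, ← he, map_mul]
    rfl
  have hxW : (x : LaurentSeries Q̄) * incl A (U₂ * U₂') = incl A (U₁' * U₂ - U₁ * U₂') := by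
    have : (x : LaurentSeries Q̄) = ((τ u : ↥(laurentBaseChange Q̄ F₀)) : LaurentSeries Q̄)
        - (u : LaurentSeries Q̄) := rfl
    rw [this, map_mul, map_sub, map_mul, map_mul, ← hτu, ← he]
    ring
  have hW : red A (U₁' * U₂ - U₁ * U₂') = 0 := by
    rw [map_sub, map_mul, map_mul, red_coeffMap_resA, red_coeffMap_resA, mul_comm, sub_self]
  have hD : red A (U₂ * U₂') ≠ 0 := by
    rw [map_mul, red_coeffMap_resA]
    exact mul_ne_zero hp₂ hp₂
  obtain ⟨c, T₁, T₂, hc, hT₁, hT₂, hmT₁, hmT₂, heT⟩ :=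
    exists_normal_form hgen (attainsMax_Qbar hℓ hA F₀) x.2 hx0'
  have key : cst c * incl A (T₁ * (U₂ * U₂')) = incl A ((U₁' * U₂ - U₁ * U₂') * T₂) := by
    rw [map_mul, ← mul_assoc, ← heT, map_mul (incl A) _ T₂, ← hxW]
    ring
  have hc1 : A.valuation c < 1 := by
    refine valuation_lt_one_of_cst_mul_prim A ?_ ?_ key
    · rw [map_mul]
      exact mul_ne_zero hT₁ hD
    · rw [map_mul, hW, zero_mul]
  exact (valuation_lt_one_iff_of_normal_form hgen _ hc hT₁ hT₂ hmT₁ heT).mpr hc1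

include hσ in
/-- **`τ` preserves the values of the constants.** -/
theorem preservesConstValues :
    PreservesConstValues (constField F₀) (gaussInfBar A hℓ hA F₀ hgen)
      (arithmeticRingAut F₀ σ) := by
  have : Algebra.IsAlgebraic ℚ Q̄ := AlgebraicClosure.isAlgebraic ℚ
  rintro _ ⟨a, rfl⟩ ha0
  have ha : a ≠ 0 := by
    rintro rfl
    exact ha0 (map_zero _)
  have h1 : arithmeticRingAut F₀ σ (algebraMap Q̄ ↥(laurentBaseChange Q̄ F₀) a)
      * (algebraMap Q̄ ↥(laurentBaseChange Q̄ F₀) a)⁻¹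
      = algebraMap Q̄ ↥(laurentBaseChange Q̄ F₀) (σ a / a) := by
    rw [arithmeticRingAut_algebraMap, map_div₀, div_eq_mul_inv]
  show (gaussInfBar A hℓ hA F₀ hgen).valuation _ = 1
  rw [h1]
  exact valuation_algebraMap_eq_one hℓ hA hgen
    (valuation_apply_div_self A (mem_decomposition_of_mem_inertiaIn A hσ) ha)

omit hσ in
/-- `τ` maps constants to constants. -/
theorem constants_stable (σ : Q̄ ≃ₐ[ℚ] Q̄) :
    ∀ c ∈ constField F₀, arithmeticRingAut F₀ σ c ∈ constField F₀ := by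
  rintro _ ⟨a, rfl⟩
  exact ⟨σ a, (arithmeticRingAut_algebraMap F₀ σ a).symm⟩

include hσ in
/-- **`(τ - 1)² f ∈ 1 + 𝔪_{V∞}`** for every `f ≠ 0` and every `τ` in the inertia group. -/
theorem oneAddNonunits_twice_gaussInfBar {f : ↥(laurentBaseChange Q̄ F₀)} (hf : f ≠ 0) :
    OneAddNonunits (gaussInfBar A hℓ hA F₀ hgen)
      (tauSubOne (arithmeticRingAut F₀ σ) (tauSubOne (arithmeticRingAut F₀ σ) f)) :=
  oneAddNonunits_twice (hasConstValues hℓ hA hgen) (inInertia hℓ hA hgen hσ)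
    (preservesConstValues hℓ hA hgen hσ) hf

end inertia

/-! ## The hypotheses of `H528.comapW_ne` -/

/-- functions with an `A`-integral expansion lie in `V`. -/
theorem mem_gaussInfBar_of_incl {f : ↥(laurentBaseChange Q̄ F₀)} (U : LaurentSeries A)
    (h : (f : LaurentSeries Q̄) = incl A U) : f ∈ gaussInfBar A hℓ hA F₀ hgen := by
  show IsGaussInt A F₀ (f : LaurentSeries Q̄)
  rw [h]
  exact IsGaussInt.of_incl U

/-- functions with a primitive `A`-integral expansion are units of `V`. -/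
theorem inv_mem_gaussInfBar_of_incl {f : ↥(laurentBaseChange Q̄ F₀)} (U : LaurentSeries A)
    (h : (f : LaurentSeries Q̄) = incl A U) (hU : red A U ≠ 0) :
    f⁻¹ ∈ gaussInfBar A hℓ hA F₀ hgen := by
  show IsGaussInt A F₀ ((f⁻¹ : ↥(laurentBaseChange Q̄ F₀)) : LaurentSeries Q̄)
  have hf0 : (f : LaurentSeries Q̄) ≠ 0 := by
    rw [h]
    exact incl_ne_zero A (ne_zero_of_red_ne_zero A hU)
  refine ⟨1, U, hU, h ▸ f.2, ?_⟩
  rw [IntermediateField.coe_inv, ← h, inv_mul_cancel₀ hf0, map_one]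

/-- the prime `ℓ` is not a unit of `V`. -/
theorem inv_prime_not_mem_gaussInfBar :
    (algebraMap Q̄ ↥(laurentBaseChange Q̄ F₀) (ℓ : Q̄))⁻¹ ∉ gaussInfBar A hℓ hA F₀ hgen := by
  rw [← map_inv₀]
  intro h
  have h1 : ((ℓ : Q̄))⁻¹ ∈ A := (algebraMap_mem_gaussInf_iff hgen _ _).mp h
  have h2 : A.valuation ((ℓ : Q̄)) < 1 := A.mem_nonunits_iff.mp hA
  have h3 : A.valuation ((ℓ : Q̄))⁻¹ ≤ 1 := (A.valuation_le_one_iff _).mpr h1
  rw [map_inv₀] at h3
  have hℓ0 : (ℓ : Q̄) ≠ 0 := by exact_mod_cast hℓ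
  have hv0 : A.valuation ((ℓ : Q̄)) ≠ 0 := (Valuation.ne_zero_iff _).mpr hℓ0
  rw [inv_le_one₀ (zero_lt_iff.mpr hv0)] at h3
  exact absurd h2 (not_lt.mpr h3)

end Fermat.Agent.A2.H708

end
end
-- ===== PACK-END A2/H708/GaussInfQbar.lean

-- ===== PACK-BEGIN S37/H818/HeckeComm.lean
section
/-
S37 / LEVEL TRANSFER (helper818), part 3: a correspondence `a_* b^*` commutes with pullback
along a degeneracy map `i`, at the level of divisors and of `Pic0`.

      F  ==a,b==>  F₁
      |i           |i₁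
      v            v
      G  ==a',b'=> G₁          i₁ ∘ a = a' ∘ i,   i₁ ∘ b = b' ∘ i.
-/




set_option autoImplicit false
set_option linter.style.haveILetI false

noncomputable section

namespace Fermat.Agent.S37.H818

open AlgebraicCurve

variable {K F F₁ G G₁ : Type*} [Field K] [Field F] [Field F₁] [Field G] [Field G₁]
  [Algebra K F] [Algebra K F₁] [Algebra K G] [Algebra K G₁]

theorem pullbackAlong_congr [HasPrincipalDivisors K G] {φ φ' : F →ₐ[K] G} (h : φ = φ')
    (hφ : φ.toRingHom.IsIntegral) (hφ' : φ'.toRingHom.IsIntegral) (D : Divisor K F) :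
    Divisor.pullbackAlong φ hφ D = Divisor.pullbackAlong φ' hφ' D := by
  subst h
  rfl

section

variable (a b : F →ₐ[K] F₁) (i : F →ₐ[K] G) (a' b' : G →ₐ[K] G₁) (i₁ : F₁ →ₐ[K] G₁)
  (ha : a.toRingHom.IsIntegral) (hb : b.toRingHom.IsIntegral) (hi : i.toRingHom.IsIntegral)
  (ha' : a'.toRingHom.IsIntegral) (hb' : b'.toRingHom.IsIntegral)
  (hi₁ : i₁.toRingHom.IsIntegral)
  (hsqa : i₁.comp a = a'.comp i) (hsqb : i₁.comp b = b'.comp i)

variable [HasPrincipalDivisors K G] [HasPrincipalDivisors K G₁] [HasPrincipalDivisors K F₁]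

include hsqa hsqb hi₁ in
/-- **Hecke/degeneracy commutation on divisors**:
`i^* (a_* b^* D) = a'_* b'^* (i^* D)`. -/
theorem pullbackAlong_correspondence
    (hfin : FiniteAlong K a) (hN : NormFormulaAlong K a hfin)
    (hfin' : FiniteAlong K a') (hN' : NormFormulaAlong K a' hfin')
    (hnorm : NormCompat a i a' i₁) (hLG : HasLocalGenerators a ha) (D : Divisor K F) :
    Divisor.pullbackAlong i hi (Divisor.correspondence b a hb ha D) =
      Divisor.correspondence b' a' hb' ha' (Divisor.pullbackAlong i hi D) := by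
  have h1 : (i₁.comp b).toRingHom.IsIntegral := RingHom.IsIntegral.trans _ _ hb hi₁
  have h2 : (b'.comp i).toRingHom.IsIntegral := RingHom.IsIntegral.trans _ _ hi hb'
  rw [Divisor.correspondence_apply, Divisor.correspondence_apply,
    pullback_pushforward_eq a i a' i₁ ha hi ha' hi₁ hsqa hfin hN hfin' hN' hnorm hLG,
    ← pullbackAlong_comp b i₁ hb hi₁ h1, ← pullbackAlong_comp i b' hi hb' h2,
    pullbackAlong_congr hsqb h1 h2]

end

/-! ### Pullback on `Pic0` along a homomorphism -/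

section PullbackHom

variable [HasPrincipalDivisors K G] (i : F →ₐ[K] G) (hi : i.toRingHom.IsIntegral)
  (hFI : FundamentalIdentityAlong K i hi)

/-- Pullback of degree-zero divisors along `i`. -/
def pullbackDegZeroAlong :
    Divisor.degZero (K := K) (F := F) →+ Divisor.degZero (K := K) (F := G) :=
  ((Divisor.pullbackAlong i hi).domRestrict (Divisor.degZero (K := K) (F := F))).codRestrict _
    fun D => Divisor.pullbackAlong_mem_degZero i hi hFI D.2

@[simp]
theorem coe_pullbackDegZeroAlong (D : Divisor.degZero (K := K) (F := F)) :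
    (pullbackDegZeroAlong i hi hFI D : Divisor K G) =
      Divisor.pullbackAlong i hi (D : Divisor K F) := rfl

/-- Pullback on `Pic0` along `i` (the map `π^*` of the level transfer). -/
def pullbackPic0Along : Pic0 K F →+ Pic0 K G :=
  QuotientAddGroup.map _ _ (pullbackDegZeroAlong i hi hFI) (by
    rintro ⟨D, hD0⟩ hD
    simp only [AddSubgroup.mem_addSubgroupOf] at hD ⊢
    exact Divisor.isPrincipal_pullbackAlong i hi hD)

theorem pullbackPic0Along_mk (D : Divisor.degZero (K := K) (F := F)) :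
    pullbackPic0Along i hi hFI (Pic0.mk D) = Pic0.mk (pullbackDegZeroAlong i hi hFI D) := rfl

end PullbackHom

section Pic0Comm

variable (a b : F →ₐ[K] F₁) (i : F →ₐ[K] G) (a' b' : G →ₐ[K] G₁) (i₁ : F₁ →ₐ[K] G₁)
  (ha : a.toRingHom.IsIntegral) (hb : b.toRingHom.IsIntegral) (hi : i.toRingHom.IsIntegral)
  (ha' : a'.toRingHom.IsIntegral) (hb' : b'.toRingHom.IsIntegral)
  (hi₁ : i₁.toRingHom.IsIntegral)
  (hsqa : i₁.comp a = a'.comp i) (hsqb : i₁.comp b = b'.comp i)

variable [HasPrincipalDivisors K G] [HasPrincipalDivisors K G₁] [HasPrincipalDivisors K F₁]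

include hsqa hsqb hi₁ in
/-- **Hecke/degeneracy commutation on `Pic0`**: `π^* ∘ T = T' ∘ π^*`, where
`T = a_* b^*` on `Pic0 F`, `T' = a'_* b'^*` on `Pic0 G` and `π^* = i^*`. -/
theorem pullbackPic0Along_correspondence
    (hFIb : FundamentalIdentityAlong K b hb)
    (hfin : FiniteAlong K a) (hN : NormFormulaAlong K a hfin)
    (hFIb' : FundamentalIdentityAlong K b' hb')
    (hfin' : FiniteAlong K a') (hN' : NormFormulaAlong K a' hfin')
    (hFIi : FundamentalIdentityAlong K i hi)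
    (hnorm : NormCompat a i a' i₁) (hLG : HasLocalGenerators a ha) (x : Pic0 K F) :
    pullbackPic0Along i hi hFIi (Pic0.correspondence b a hb ha hFIb hfin hN x) =
      Pic0.correspondence b' a' hb' ha' hFIb' hfin' hN' (pullbackPic0Along i hi hFIi x) := by
  obtain ⟨D, rfl⟩ := Pic0.mk_surjective x
  rw [Pic0.correspondence_mk, pullbackPic0Along_mk, pullbackPic0Along_mk,
    Pic0.correspondence_mk]
  congr 1
  apply Subtype.ext
  simp only [coe_pullbackDegZeroAlong, Pic0.coe_degZeroCorrespondence]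
  exact pullbackAlong_correspondence a b i a' b' i₁ ha hb hi ha' hb' hi₁ hsqa hsqb
    hfin hN hfin' hN' hnorm hLG D

end Pic0Comm

end Fermat.Agent.S37.H818

end

end
-- ===== PACK-END S37/H818/HeckeComm.lean

-- ===== PACK-BEGIN S28/H867/Degree.lean
section



set_option autoImplicit false
noncomputable section
open ModularCurve HahnSeries IntermediateField

namespace Fermat.Agent.S28.H867

section Generic

variable {k Ω : Type*} [Field k] [Field Ω] [Algebra k Ω]

/-- `[A(S) : A]` as a `relfinrank`. -/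
theorem relfinrank_sup_adjoin (A : IntermediateField k Ω) (S : Set Ω) :
    A.relfinrank (A ⊔ adjoin k S) = Module.finrank A (adjoin A S) := by
  have h : A ≤ A ⊔ adjoin k S := le_sup_left
  rw [relfinrank_eq_finrank_of_le h]
  have : extendScalars h = adjoin A S := by
    apply IntermediateField.restrictScalars_injective k
    rw [extendScalars_restrictScalars, restrictScalars_adjoin_eq_sup]
  rw [this]

theorem relfinrank_sup_adjoin_simple (A : IntermediateField k Ω) {x : Ω} (hx : IsIntegral A x) :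
    A.relfinrank (A ⊔ adjoin k {x}) = (minpoly A x).natDegree := by
  rw [relfinrank_sup_adjoin, adjoin.finrank hx]

theorem relfinrank_sup_adjoin_ne_zero (A : IntermediateField k Ω) {S : Set Ω} (hS : S.Finite)
    (hint : ∀ x ∈ S, IsIntegral A x) : A.relfinrank (A ⊔ adjoin k S) ≠ 0 := by
  rw [relfinrank_sup_adjoin]
  have : Finite S := hS
  have := finiteDimensional_adjoin (K := A) hint
  exact Module.finrank_pos.ne'

theorem relfinrank_ne_zero_of_le {A B C : IntermediateField k Ω} (hAB : A ≤ B) (hBC : B ≤ C)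
    (h : A.relfinrank C ≠ 0) : A.relfinrank B ≠ 0 ∧ B.relfinrank C ≠ 0 := by
  rw [← relfinrank_mul_relfinrank hAB hBC] at h
  exact ⟨left_ne_zero_of_mul h, right_ne_zero_of_mul h⟩

/-- A linearly independent family of size `n` inside `C` bounds `[C : B]` from below
(when finite). -/
theorem le_relfinrank_of_linearIndependent {B C : IntermediateField k Ω} (hBC : B ≤ C)
    (hfin : B.relfinrank C ≠ 0) {n : ℕ} (v : Fin n → Ω) (hv : ∀ i, v i ∈ C)
    (hli : LinearIndependent B v) : n ≤ B.relfinrank C := by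
  rw [relfinrank_eq_finrank_of_le hBC] at hfin ⊢
  have hfd : FiniteDimensional B (extendScalars hBC) :=
    Module.finite_of_finrank_pos (Nat.pos_of_ne_zero hfin)
  let v' : Fin n → extendScalars hBC := fun i => ⟨v i, hv i⟩
  have hli' : LinearIndependent B v' := by
    apply LinearIndependent.of_comp (extendScalars hBC).val.toLinearMap
    exact hli
  simpa using hli'.fintype_card_le_finrank

end Generic

section Basic

variable (k : Type*) [Field k]

theorem jField_le_EF (M : ℕ) : jField k ≤ EF k M := by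
  rw [jField, adjoin_simple_le_iff]
  exact jqModC_mem_full k M

theorem jpField_eq_map (p : ℕ) [NeZero p] :
    jpField k p = (jField k).map (qExpandAlgHomC k p) := by
  rw [jpField, jField, adjoin_map, Set.image_singleton]
  rfl

theorem EF_le_EF_mul (M p : ℕ) [NeZero M] [NeZero p] : EF k M ≤ EF k (M * p) :=
  haveI : NeZero (M * p) := ⟨Nat.mul_ne_zero (NeZero.ne M) (NeZero.ne p)⟩
  full_degeneracyC_le k (Dvd.intro _ rfl)

theorem map_EF_le (M p : ℕ) [NeZero p] :
    (EF k M).map (qExpandAlgHomC k p) ≤ EF k (M * p) :=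
  full_degeneracyC_map_le k M p

/-- Step (b): `[E_{Mp} : k(j)] ≥ p · [E_M : k(j)]`. -/
theorem degE_mul_ge (M p : ℕ) [NeZero p] (hP : PrimeLevel k p) (hI : LeafI k p)
    (hfin : degE k (M * p) ≠ 0) : p * degE k M ≤ degE k (M * p) := by
  set V := qExpandAlgHomC k p with hV
  set A₀ := jField k with hA₀
  set A := jpField k p with hA
  set B := (EF k M).map V with hB
  set C := B ⊔ A₀ with hC
  set E' := EF k (M * p) with hE'
  set P := A₀ ⊔ A with hPdef
  have hAB : A ≤ B := by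
    rw [hA, jpField_eq_map, hB]
    exact IntermediateField.map_mono _ (jField_le_EF k M)
  have hBE : B ≤ E' := map_EF_le k M p
  have hA₀E : A₀ ≤ E' := jField_le_EF k (M * p)
  have hCE : C ≤ E' := sup_le hBE hA₀E
  have hBC : B ≤ C := le_sup_left
  have hPC : P ≤ C := sup_le le_sup_right (hAB.trans hBC)
  have hPE : P ≤ E' := hPC.trans hCE
  have hA₀P : A₀ ≤ P := le_sup_left
  have hAP : A ≤ P := le_sup_right
  -- D_{Mp} = [E' : A]
  have h1 : A₀.relfinrank E' = A.relfinrank E' := by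
    rw [← relfinrank_mul_relfinrank hA₀P hPE, ← relfinrank_mul_relfinrank hAP hPE,
      hP.deg_j, hP.deg_jp]
  have h2 : A.relfinrank E' = A.relfinrank B * (B.relfinrank C * C.relfinrank E') := by
    rw [relfinrank_mul_relfinrank hBC hCE, relfinrank_mul_relfinrank hAB hBE]
  have h3 : A.relfinrank B = degE k M := by
    rw [hA, jpField_eq_map, hB, relfinrank_map_map]
    rfl
  have hfin' : A.relfinrank E' ≠ 0 := by rw [← h1]; exact hfin
  have hBCfin : B.relfinrank C ≠ 0 := by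
    rw [h2] at hfin'
    exact left_ne_zero_of_mul (right_ne_zero_of_mul hfin')
  have hCEfin : C.relfinrank E' ≠ 0 := by
    rw [h2] at hfin'
    exact right_ne_zero_of_mul (right_ne_zero_of_mul hfin')
  have h4 : p ≤ B.relfinrank C := by
    refine le_relfinrank_of_linearIndependent hBC hBCfin _ ?_ (hI B ?_)
    · intro i
      refine pow_mem ?_ _
      exact (le_sup_right : A₀ ≤ C) (mem_adjoin_simple_self k _)
    · rw [hB]
      intro x hx
      obtain ⟨y, -, rfl⟩ := hx
      exact ⟨y, rfl⟩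
  show p * degE k M ≤ A₀.relfinrank E'
  rw [h1, h2, h3]
  calc p * degE k M = degE k M * (p * 1) := by ring
    _ ≤ degE k M * (B.relfinrank C * C.relfinrank E') := by
        apply Nat.mul_le_mul_left
        exact Nat.mul_le_mul h4 (Nat.one_le_iff_ne_zero.mpr hCEfin)

end Basic

end Fermat.Agent.S28.H867

end
end
-- ===== PACK-END S28/H867/Degree.lean

-- ===== PACK-BEGIN S28/H626/Pair.lean
section
/-
S28 helper (helper626): the gcd lemma for the generators `j(q^d)`:
`j(q^{pre}) ∈ k(j(q^{re}), j(q^{pe}))` for distinct primes `p ≠ r` (invertible in `k`).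
-/




set_option autoImplicit false

noncomputable section

open ModularCurve HahnSeries Polynomial

namespace Fermat.Agent.S28.H626

section Relations

variable (k : Type*) [Field k]

/-- `j(q^d) ∈ k((q))`. -/
abbrev jd (d : ℕ) [NeZero d] : LaurentSeries k := qExpand k d (jqModC k)

theorem jd_congr {d d' : ℕ} [NeZero d] [NeZero d'] (h : d = d') : jd k d = jd k d' := by
  subst h; rfl

/-- the ring hom `ℤ((q)) → k((q))`, `q ↦ q^e`. -/
def levelHom (e : ℕ) [NeZero e] : LaurentSeries ℤ →+* LaurentSeries k :=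
  (qExpand k e).comp (coeffMap (Int.castRingHom k))

theorem levelHom_j (e : ℕ) [NeZero e] : levelHom k e (jqModC ℤ) = jd k e := by
  simp only [levelHom, RingHom.comp_apply, coeffMap_jqModC]

theorem levelHom_jp (e : ℕ) [NeZero e] (p : ℕ) [NeZero p] :
    levelHom k e (qExpand ℤ p (jqModC ℤ)) = jd k (e * p) := by
  simp only [levelHom, RingHom.comp_apply, coeffMap_qExpand, coeffMap_jqModC, qExpand_qExpand]

variable {k}

/-- `Φ_p(j(q^e), j(q^{ep})) = 0`. -/
theorem ev2_jd_up {p : ℕ} [NeZero p] {Φ : Polynomial (Polynomial ℤ)} (hΦ : IsModPoly p Φ)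
    (e : ℕ) [NeZero e] : ev2 Φ (jd k e) (jd k (e * p)) = 0 := by
  have h := congrArg (levelHom k e) hΦ.eval_jp
  rwa [map_ev2, levelHom_j, levelHom_jp, map_zero] at h

/-- `Φ_p(j(q^{ep}), j(q^e)) = 0`. -/
theorem ev2_jd_down {p : ℕ} [NeZero p] {Φ : Polynomial (Polynomial ℤ)} (hΦ : IsModPoly p Φ)
    (e : ℕ) [NeZero e] : ev2 Φ (jd k (e * p)) (jd k e) = 0 := by
  have h := congrArg (levelHom k e) hΦ.eval_j
  rwa [map_ev2, levelHom_j, levelHom_jp, map_zero] at h

theorem jd_ne_of_ne {d d' : ℕ} [NeZero d] [NeZero d'] (h : d ≠ d') : jd k d ≠ jd k d' := by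
  have h1 : jd k d = jTw k 1 d := (jTw_one k d).symm
  have h2 : jd k d' = jTw k 1 d' := (jTw_one k d').symm
  rw [h1, h2]
  exact jTw_ne_of_ne h

end Relations

section Embedding

variable (k : Type*) [Field k] (Ω : Type*) [Field Ω] [Algebra k Ω]

/-- The embedding `k((q)) → Ω((t))`, `q ↦ t^m`. -/
def embHom (m : ℕ) [NeZero m] : LaurentSeries k →+* LaurentSeries Ω :=
  (qExpand Ω m).comp (coeffMap (algebraMap k Ω))

theorem embHom_jd (m : ℕ) [NeZero m] (d : ℕ) [NeZero d] :
    embHom k Ω m (jd k d) = jTw Ω 1 (m * d) := by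
  simp only [embHom, RingHom.comp_apply, jd, coeffMap_qExpand, coeffMap_jqModC, qExpand_qExpand,
    jTw_one]

end Embedding

section Pair

variable {k : Type*} [Field k]

theorem exists_primitiveRoot_unit (Ω : Type*) [Field Ω] (p : ℕ) [HasEnoughRootsOfUnity Ω p]
    (hp : p ≠ 0) : ∃ ζ : Ωˣ, IsPrimitiveRoot ζ p := by
  obtain ⟨ζ, hζ⟩ := HasEnoughRootsOfUnity.exists_primitiveRoot Ω p
  obtain ⟨u, hu⟩ := hζ.isUnit hp
  refine ⟨u, ?_⟩
  rw [← IsPrimitiveRoot.coe_units_iff, hu]
  exact hζ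

/-- **The gcd lemma.** For distinct primes `p ≠ r` invertible in `k`,
`j(q^{pre})` lies in every subfield of `k((q))` containing `j(q^{re})` and `j(q^{pe})`. -/
theorem jd_mem_of_pair {p r : ℕ} [NeZero p] [NeZero r] (hp : p.Prime) (hr : r.Prime)
    (hpr : p ≠ r) [NeZero (p : k)] [NeZero (r : k)]
    {Φp Φr : Polynomial (Polynomial ℤ)} (hΦp : IsModPoly p Φp) (hΦr : IsModPoly r Φr)
    (e : ℕ) [NeZero e] (E : IntermediateField k (LaurentSeries k))
    (h1 : jd k (r * e) ∈ E) (h2 : jd k (p * e) ∈ E) : jd k (p * r * e) ∈ E := by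
  classical
  obtain ⟨ζp, hζp⟩ := exists_primitiveRoot_unit (AlgebraicClosure k) p hp.ne_zero
  obtain ⟨ζr, hζr⟩ := exists_primitiveRoot_unit (AlgebraicClosure k) r hr.ne_zero
  have hp0 : 0 < p := hp.pos
  have hr0 : 0 < r := hr.pos
  have he0 : 0 < e := Nat.pos_of_ne_zero (NeZero.ne e)
  -- the two polynomials over `E`
  set y1 : E := ⟨jd k (r * e), h1⟩ with hy1
  set y2 : E := ⟨jd k (p * e), h2⟩ with hy2
  set ι : LaurentSeries k →+* LaurentSeries (AlgebraicClosure k) :=
    embHom k (AlgebraicClosure k) (p * r) with hι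
  have hP : ((spec Φp y1).map (ι.comp (algebraMap E (LaurentSeries k)))) =
      spec Φp (jTw (AlgebraicClosure k) 1 (r * r * e * p)) := by
    rw [map_spec]
    congr 1
    show ι (jd k (r * e)) = _
    rw [hι, embHom_jd]
    exact jTw_congr _ (by ring)
  have hQ : ((spec Φr y2).map (ι.comp (algebraMap E (LaurentSeries k)))) =
      spec Φr (jTw (AlgebraicClosure k) 1 (p * p * e * r)) := by
    rw [map_spec]
    congr 1
    show ι (jd k (p * e)) = _
    rw [hι, embHom_jd]
    exact jTw_congr _ (by ring)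
  have hx : ι (jd k (p * r * e)) = jTw (AlgebraicClosure k) 1 (r * r * e * p * p) := by
    rw [hι, embHom_jd]
    exact jTw_congr _ (by ring)
  have hmem : jd k (p * r * e) ∈ (algebraMap E (LaurentSeries k)).range := by
    refine mem_range_of_unique_common_root ι (jd k (p * r * e)) (spec Φp y1) (spec Φr y2)
      (spec_monic hΦp.monic y1).ne_zero ?_ ?_ ?_ ?_ ?_
    · -- root of P
      rw [Polynomial.aeval_def, Polynomial.eval₂_eq_eval_map, map_spec, eval_spec]
      show ev2 Φp (jd k (r * e)) (jd k (p * r * e)) = 0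
      rw [jd_congr k (show p * r * e = r * e * p by ring)]
      exact ev2_jd_up hΦp (r * e)
    · rw [Polynomial.aeval_def, Polynomial.eval₂_eq_eval_map, map_spec, eval_spec]
      show ev2 Φr (jd k (p * e)) (jd k (p * r * e)) = 0
      rw [jd_congr k (show p * r * e = p * e * r by ring)]
      exact ev2_jd_up hΦr (p * e)
    · rw [hP]
      exact splits_spec hp.one_lt hΦp hζp (r * r * e)
    · rw [hP, roots_spec hp.one_lt hΦp hζp (r * r * e)]
      exact rootMultiset_nodup hp.one_lt hζp _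
    · intro β hβ hQβ
      rw [hP, roots_spec hp.one_lt hΦp hζp (r * r * e)] at hβ
      rw [hx]
      rcases mem_rootMultiset.mp hβ with hβ1 | ⟨b, -, hβ1⟩
      · exact hβ1
      · exfalso
        have hβroot : β ∈ (spec Φr (jTw (AlgebraicClosure k) 1 (p * p * e * r))).roots := by
          rw [Polynomial.mem_roots (spec_monic hΦr.monic _).ne_zero, Polynomial.IsRoot, ← hQ]
          exact hQβ
        rw [roots_spec hr.one_lt hΦr hζr (p * p * e)] at hβroot
        have hne : r * r ≠ p * p := by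
          intro h
          exact hpr ((Nat.mul_self_inj.mp h).symm)
        rcases mem_rootMultiset.mp hβroot with hβ2 | ⟨c, -, hβ2⟩
        · have h3 := (jTw_inj (hβ1.symm.trans hβ2)).1
          -- r*r*e = p*p*e*r*r
          have h4 : r * r * e * 1 = r * r * e * (p * p) := by
            rw [mul_one]; exact h3.trans (by ring)
          have h5 : 1 = p * p := Nat.eq_of_mul_eq_mul_left (by positivity) h4
          have : 1 < p * p := by nlinarith [hp.one_lt]
          omega
        · have h3 := (jTw_inj (hβ1.symm.trans hβ2)).1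
          exact hne (Nat.eq_of_mul_eq_mul_right he0 h3)
  obtain ⟨z, hz⟩ := hmem
  rw [← hz]
  exact z.2

end Pair

end Fermat.Agent.S28.H626

end

end
-- ===== PACK-END S28/H626/Pair.lean

-- ===== PACK-BEGIN S28/H685/EtaBridge.lean
section




/-!
# S28 helper (helper685): the formal eta product is the Taylor series of the analytic one

The Prelude defines `ModularCurve.etaProd = ∏' n, (1 - X ^ (n + 1))` as a formal product in
`PowerSeries ℤ` (Pi topology).  We show that its coefficients are the Taylor coefficients of the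
analytic function `q ↦ ∏' n, (1 - q ^ (n + 1))` on the open unit disc.
-/

set_option autoImplicit false

namespace Fermat.Agent.S28.H685

open UpperHalfPlane Function Complex Filter
open scoped Topology Manifold PowerSeries.WithPiTopology

noncomputable section

local notation "𝕢" => Periodic.qParam

/-- Iterated derivatives of a locally uniform limit of holomorphic functions. -/
theorem tendstoLocallyUniformlyOn_iteratedDeriv {ι : Type*} {l : Filter ι} {U : Set ℂ}
    (hU : IsOpen U) {F : ι → ℂ → ℂ} {f : ℂ → ℂ} (hF : TendstoLocallyUniformlyOn F f l U)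
    (hd : ∀ᶠ i in l, DifferentiableOn ℂ (F i) U) (k : ℕ) :
    TendstoLocallyUniformlyOn (fun i => iteratedDeriv k (F i)) (iteratedDeriv k f) l U ∧
      ∀ᶠ i in l, DifferentiableOn ℂ (iteratedDeriv k (F i)) U := by
  induction k with
  | zero =>
    simp only [iteratedDeriv_zero]
    exact ⟨hF, hd⟩
  | succ k ih =>
    obtain ⟨h1, h2⟩ := ih
    refine ⟨?_, ?_⟩
    · have := h1.deriv h2 hU
      simpa only [iteratedDeriv_succ, Function.comp_def] using this
    · filter_upwards [h2] with i hi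
      simpa only [iteratedDeriv_succ] using hi.deriv hU

theorem iteratedDeriv_polynomial_eval (P : Polynomial ℂ) (k : ℕ) :
    iteratedDeriv k (fun x => P.eval x) = fun x => (Polynomial.derivative^[k] P).eval x := by
  induction k with
  | zero => simp
  | succ k ih =>
    rw [iteratedDeriv_succ, ih]
    funext x
    rw [Polynomial.deriv, Function.iterate_succ_apply']

theorem iteratedDeriv_polynomial_eval_zero (P : Polynomial ℂ) (k : ℕ) :
    iteratedDeriv k (fun x => P.eval x) 0 = k.factorial * P.coeff k := by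
  rw [iteratedDeriv_polynomial_eval]
  beta_reduce
  rw [← Polynomial.coeff_zero_eq_eval_zero,
    Polynomial.coeff_iterate_derivative, zero_add, Nat.descFactorial_self, nsmul_eq_mul]

/-- The analytic eta product `∏ (1 - q ^ (n + 1))`. -/
def etaC (q : ℂ) : ℂ := ∏' n : ℕ, (1 - q ^ (n + 1))

/-- Partial products of the eta product, as integer polynomials. -/
def etaPartial (s : Finset ℕ) : Polynomial ℤ := ∏ n ∈ s, (1 - Polynomial.X ^ (n + 1))

theorem coe_etaPartial (s : Finset ℕ) :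
    ((etaPartial s : Polynomial ℤ) : PowerSeries ℤ) = ∏ n ∈ s, (1 - PowerSeries.X ^ (n + 1)) := by
  have := map_prod (Polynomial.coeToPowerSeries.ringHom (R := ℤ))
    (fun n : ℕ => (1 - Polynomial.X ^ (n + 1) : Polynomial ℤ)) s
  rw [etaPartial]
  rw [Polynomial.coeToPowerSeries.ringHom_apply] at this
  rw [this]
  refine Finset.prod_congr rfl fun n _ => ?_
  rw [Polynomial.coeToPowerSeries.ringHom_apply]
  simp

theorem eval_etaPartial (s : Finset ℕ) (q : ℂ) :
    ((etaPartial s).map (Int.castRingHom ℂ)).eval q = ∏ n ∈ s, (1 - q ^ (n + 1)) := by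
  simp [etaPartial, Polynomial.map_prod, Polynomial.eval_prod]

theorem tendsto_coeff_etaPartial (k : ℕ) :
    Tendsto (fun s : Finset ℕ => (((etaPartial s).coeff k : ℤ) : ℂ)) atTop
      (𝓝 ((PowerSeries.coeff k ModularCurve.etaProd : ℤ) : ℂ)) := by
  have h1 : HasProd (fun n : ℕ => (1 - PowerSeries.X ^ (n + 1) : PowerSeries ℤ))
      ModularCurve.etaProd :=
    (PowerSeries.WithPiTopology.multipliable_one_sub_X_pow ℤ).hasProd
  have h2 : Tendsto (fun s : Finset ℕ => ∏ n ∈ s, (1 - PowerSeries.X ^ (n + 1) : PowerSeries ℤ))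
      atTop (𝓝 ModularCurve.etaProd) := h1
  have h3 := ((PowerSeries.WithPiTopology.continuous_coeff ℤ k).tendsto _).comp h2
  have h4 : Continuous (fun n : ℤ => (n : ℂ)) := continuous_of_discreteTopology
  have h5 := (h4.tendsto _).comp h3
  refine h5.congr fun s => ?_
  simp only [Function.comp_apply]
  rw [← coe_etaPartial, Polynomial.coeff_coe]

theorem differentiableOn_etaC : DifferentiableOn ℂ etaC (Metric.ball 0 1) :=
  ModularForm.differentiableOn_tprod_one_sub_pow

theorem taylor_etaC (k : ℕ) :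
    (k.factorial : ℂ)⁻¹ * iteratedDeriv k etaC 0 =
      ((PowerSeries.coeff k ModularCurve.etaProd : ℤ) : ℂ) := by
  have hloc : TendstoLocallyUniformlyOn
      (fun (s : Finset ℕ) (q : ℂ) => ∏ n ∈ s, (1 - q ^ (n + 1))) etaC atTop (Metric.ball 0 1) :=
    hasProdLocallyUniformlyOn_iff_tendstoLocallyUniformlyOn.mp
      ModularForm.multipliableLocallyUniformlyOn_one_sub_pow.hasProdLocallyUniformlyOn
  have hd : ∀ᶠ s : Finset ℕ in atTop,
      DifferentiableOn ℂ (fun q : ℂ => ∏ n ∈ s, (1 - q ^ (n + 1))) (Metric.ball 0 1) :=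
    .of_forall fun s => by
      have : DifferentiableOn ℂ (∏ n ∈ s, fun q : ℂ => (1 - q ^ (n + 1))) (Metric.ball 0 1) :=
        DifferentiableOn.finsetProd (fun _ _ => by fun_prop)
      simpa [Finset.prod_fn] using this
  have h1 := (tendstoLocallyUniformlyOn_iteratedDeriv Metric.isOpen_ball hloc hd k).1.tendsto_at
    (Metric.mem_ball_self (one_pos : (0 : ℝ) < 1))
  have h2 : ∀ s : Finset ℕ, iteratedDeriv k (fun q : ℂ => ∏ n ∈ s, (1 - q ^ (n + 1))) 0 =
      k.factorial * (((etaPartial s).coeff k : ℤ) : ℂ) := by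
    intro s
    have := iteratedDeriv_polynomial_eval_zero ((etaPartial s).map (Int.castRingHom ℂ)) k
    simp only [eval_etaPartial, Polynomial.coeff_map, eq_intCast] at this
    exact this
  simp only [h2] at h1
  have h3 := (tendsto_coeff_etaPartial k).const_mul (k.factorial : ℂ)
  have h4 := tendsto_nhds_unique h1 h3
  rw [h4, ← mul_assoc, inv_mul_cancel₀ (by exact_mod_cast k.factorial_ne_zero), one_mul]

/-- The formal eta product with complex coefficients. -/
def etaProdC : PowerSeries ℂ := ModularCurve.etaProd.map (Int.castRingHom ℂ)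

theorem hasSum_etaC {q : ℂ} (hq : ‖q‖ < 1) :
    HasSum (fun n : ℕ => PowerSeries.coeff n etaProdC * q ^ n) (etaC q) := by
  have := Complex.hasSum_taylorSeries_on_ball differentiableOn_etaC
    (z := q) (by simpa using hq)
  simp only [sub_zero, smul_eq_mul] at this
  have hfun : (fun n : ℕ => PowerSeries.coeff n etaProdC * q ^ n) =
      fun n : ℕ => ((n.factorial : ℂ))⁻¹ * (q ^ n * iteratedDeriv n etaC 0) := by
    funext n
    rw [etaProdC, PowerSeries.coeff_map, eq_intCast, ← taylor_etaC]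
    ring
  rw [hfun]
  exact this

/-- The function `τ ↦ ∏ (1 - q ^ (n + 1))` has `q`-expansion the formal eta product. -/
theorem hasQExp_etaC : HasQExp 1 (fun τ => etaC (𝕢 1 τ)) etaProdC :=
  fun τ => hasSum_etaC (Periodic.norm_qParam_lt_one one_pos τ.im_pos)

end

end Fermat.Agent.S28.H685

end
-- ===== PACK-END S28/H685/EtaBridge.lean

-- ===== PACK-BEGIN Ribet/H52/ElocAlg.lean
section



/-!
# Row RIBET, wall at `p`, piece ELOC: the symmetric difference formula  (helper52)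

`W` a Weierstrass curve over a field `K` with a valuation `v`.
* `xC_h52`, `etaC_h52` : the `x`-coordinate and `η = 2y + a₁x + a₃` of a point (`0` at infinity);
* `xC_add_sub_xC_sub_h52` : `x(Q + S) - x(Q - S) = - η_Q η_S / (x_Q - x_S)²`;
* `val_xC_add_sub_h52` : for `Q` integral and `S ≠ 0` in the kernel of reduction,
  `v (x(Q + S) - x(Q - S)) = v η_Q * v η_S / v x_S ^ 2`.
-/

set_option autoImplicit false
set_option linter.unusedSectionVars false

namespace Fermat.Agent.Ribet.H52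

open WeierstrassCurve WeierstrassCurve.Affine WeierstrassCurve.Affine.Point
open Fermat.Agent.S05.SameRed

variable {K : Type*} [Field K] [DecidableEq K]
  {Γ₀ : Type*} [LinearOrderedCommGroupWithZero Γ₀]
  {W : Affine K} {v : Valuation K Γ₀}

/-- The `x`-coordinate of a point (`0` at infinity). -/
def xC_h52 : W.Point → K
  | .zero => 0
  | .some x _ _ => x

/-- `η = 2 y + a₁ x + a₃` at a point (`0` at infinity). -/
def etaC_h52 : W.Point → K
  | .zero => 0
  | .some x y _ => 2 * y + W.a₁ * x + W.a₃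

@[simp] lemma xC_some_h52 {x y : K} (h : W.Nonsingular x y) : xC_h52 (Point.some x y h) = x := rfl

@[simp] lemma etaC_some_h52 {x y : K} (h : W.Nonsingular x y) :
    etaC_h52 (Point.some x y h) = 2 * y + W.a₁ * x + W.a₃ := rfl

/-- `η_P = 0` iff `P` is killed by `2`. -/
theorem etaC_eq_zero_iff_h52 (P : W.Point) : etaC_h52 P = 0 ↔ P + P = 0 := by
  rcases P with _ | ⟨x, y, h⟩
  · exact ⟨fun _ => rfl, fun _ => rfl⟩
  · rw [etaC_some_h52]
    constructor
    · intro h0
      apply Point.add_of_Y_eq rfl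
      simp only [Affine.negY]
      linear_combination h0
    · intro h0
      by_contra hne
      have hy : y ≠ W.negY x y := by
        intro hy
        apply hne
        simp only [Affine.negY] at hy
        linear_combination hy
      rw [Point.add_of_Y_ne hy] at h0
      exact Point.some_ne_zero _ h0

/-- **The symmetric difference formula.** -/
theorem xC_add_sub_xC_sub_h52 {x₁ y₁ x₂ y₂ : K} (h₁ : W.Nonsingular x₁ y₁)
    (h₂ : W.Nonsingular x₂ y₂) (hx : x₁ ≠ x₂) :
    xC_h52 (Point.some x₁ y₁ h₁ + Point.some x₂ y₂ h₂) -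
        xC_h52 (Point.some x₁ y₁ h₁ - Point.some x₂ y₂ h₂) =
      -((2 * y₁ + W.a₁ * x₁ + W.a₃) * (2 * y₂ + W.a₁ * x₂ + W.a₃)) / (x₁ - x₂) ^ 2 := by
  have hd : x₁ - x₂ ≠ 0 := sub_ne_zero.mpr hx
  rw [sub_eq_add_neg (Point.some x₁ y₁ h₁), Point.neg_some, Point.add_of_X_ne hx,
    Point.add_of_X_ne hx, xC_some_h52, xC_some_h52, Affine.slope_of_X_ne hx,
    Affine.slope_of_X_ne hx]
  simp only [Affine.addX, Affine.negY]
  field_simp
  ring

/-- Valuation form: `Q` integral, `S ≠ 0` in the kernel of reduction. -/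
theorem val_xC_add_sub_h52 {Q S : W.Point} (hQ : ¬ InKer W v Q) (hS : InKer W v S)
    (hS0 : S ≠ 0) :
    v (xC_h52 (Q + S) - xC_h52 (Q - S)) =
      v (etaC_h52 Q) * v (etaC_h52 S) / v (xC_h52 S) ^ 2 := by
  rcases Q with _ | ⟨x₁, y₁, h₁⟩
  · exact absurd trivial hQ
  rcases S with _ | ⟨x₂, y₂, h₂⟩
  · exact absurd rfl hS0
  have hx₁ : v x₁ ≤ 1 := not_lt.mp hQ
  have hx₂ : 1 < v x₂ := hS
  have hx : x₁ ≠ x₂ := by
    rintro rfl
    exact absurd hx₂ (not_lt.mpr hx₁)
  have hv : v (x₁ - x₂) = v x₂ := by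
    rw [sub_eq_add_neg, add_comm]
    rw [Valuation.map_add_eq_of_lt_left v (by rw [Valuation.map_neg]; exact hx₁.trans_lt hx₂),
      Valuation.map_neg]
  rw [xC_add_sub_xC_sub_h52 h₁ h₂ hx, map_div₀, Valuation.map_neg, map_mul, map_pow, hv]
  rfl

end Fermat.Agent.Ribet.H52

end
-- ===== PACK-END Ribet/H52/ElocAlg.lean

-- ===== PACK-BEGIN Lib/Cheb/H221/CycAlg.lean
section






/-!
# CYC, algebraic part (helper221)

Setting of `Spec.CycStatement`: `L/ℚ` Galois, `ζ ∈ L` a primitive `m`-th root of unity,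
`g ∈ Gal(L/ℚ)` such that `⟨g⟩` acts faithfully on `ζ`.
-/

set_option autoImplicit false

open NumberField

namespace Fermat.Agent.Lib.Cheb.H221

set_option linter.unusedSectionVars false

section basic

variable {L : Type} [Field L] [NumberField L] [IsGalois ℚ L]

lemma modEq_of_pow_eq_pow {m : ℕ} [NeZero m] {ζ : L} (hζ : IsPrimitiveRoot ζ m) {i j : ℕ}
    (h : ζ ^ i = ζ ^ j) : i ≡ j [MOD m] := by
  have ho := hζ.eq_orderOf
  have h1 : ζ ^ (i % m) = ζ ^ (j % m) := by
    rw [ho, pow_mod_orderOf, pow_mod_orderOf, h]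
  exact hζ.pow_inj (Nat.mod_lt _ (NeZero.pos m)) (Nat.mod_lt _ (NeZero.pos m)) h1

lemma card_quot_under_eq {p : ℕ} (hp : p.Prime) {P : Ideal (𝓞 L)} (hP : P.IsPrime)
    (hpP : (p : 𝓞 L) ∈ P) : Nat.card (ℤ ⧸ P.under ℤ) = p := by
  have : Fact p.Prime := ⟨hp⟩
  have hmax := Int.ideal_span_isMaximal_of_prime p
  have hle : Ideal.span {(p : ℤ)} ≤ P.under ℤ := by
    rw [Ideal.span_le, Set.singleton_subset_iff]
    change (p : ℤ) ∈ Ideal.comap (algebraMap ℤ (𝓞 L)) P
    rw [Ideal.mem_comap]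
    simpa using hpP
  have hne : P.under ℤ ≠ ⊤ := (Ideal.IsPrime.under ℤ P).ne_top
  have heq : Ideal.span {(p : ℤ)} = P.under ℤ := hmax.eq_of_le hne hle
  rw [← heq, ← Submodule.cardQuot_apply, ← Ideal.absNorm_apply, Ideal.absNorm_span_singleton]
  simp

lemma natCast_notMem_of_not_dvd {p m : ℕ} (hp : p.Prime) (hpm : ¬ p ∣ m) {P : Ideal (𝓞 L)}
    (hP : P.IsPrime) (hpP : (p : 𝓞 L) ∈ P) : (m : 𝓞 L) ∉ P := by
  intro hm
  have hcop : Nat.Coprime p m := (Nat.Prime.coprime_iff_not_dvd hp).mpr hpm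
  have h1 : ((p : ℤ) * Nat.gcdA p m + (m : ℤ) * Nat.gcdB p m : ℤ) = 1 := by
    have := Nat.gcd_eq_gcd_ab p m
    rw [hcop] at this
    simpa using this.symm
  have h2 : ((1 : ℤ) : 𝓞 L) ∈ P := by
    rw [← h1]
    push_cast
    exact P.add_mem (P.mul_mem_right _ hpP) (P.mul_mem_right _ hm)
  exact hP.ne_top ((Ideal.eq_top_iff_one P).mpr (by simpa using h2))

variable {m : ℕ} [NeZero m] {ζ : L} (hζ : IsPrimitiveRoot ζ m)

include hζ in
/-- A Frobenius at a prime above `p ∤ m` raises `ζ` to the `p`-th power. -/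
lemma frob_apply_zeta {p : ℕ} (hp : p.Prime) (hpm : ¬ p ∣ m) {P : Ideal (𝓞 L)}
    (hP : P.IsPrime) (hpP : (p : 𝓞 L) ∈ P) {τ : L ≃ₐ[ℚ] L} (hτ : IsArithFrobAt ℤ τ P) :
    τ ζ = ζ ^ p := by
  have h1 : hζ.toInteger ^ m = 1 := hζ.toInteger_isPrimitiveRoot.pow_eq_one
  have h2 := AlgHom.IsArithFrobAt.apply_of_pow_eq_one hτ h1
    (natCast_notMem_of_not_dvd hp hpm hP hpP)
  rw [card_quot_under_eq hp hP hpP] at h2
  have h3 := congrArg (fun x : 𝓞 L => (x : L)) h2
  exact h3

/-- The cyclotomic character of a Frobenius at a prime above `p ∤ m` is `p mod m`. -/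
lemma autToPow_frob {p : ℕ} (hp : p.Prime) (hpm : ¬ p ∣ m) {P : Ideal (𝓞 L)}
    (hP : P.IsPrime) (hpP : (p : 𝓞 L) ∈ P) {τ : L ≃ₐ[ℚ] L} (hτ : IsArithFrobAt ℤ τ P) :
    ((hζ.autToPow ℚ τ : (ZMod m)ˣ) : ZMod m) = (p : ZMod m) := by
  have h1 := frob_apply_zeta hζ hp hpm hP hpP hτ
  have h2 := hζ.autToPow_spec ℚ τ
  rw [h1] at h2
  have h3 := modEq_of_pow_eq_pow hζ h2
  have := (ZMod.natCast_eq_natCast_iff _ _ m).mpr h3
  simpa using this

include hζ in
lemma apply_zeta_of_autToPow_eq_one {σ : L ≃ₐ[ℚ] L} (h : hζ.autToPow ℚ σ = 1) : σ ζ = ζ := by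
  have h2 := hζ.autToPow_spec ℚ σ
  rw [h] at h2
  rw [← h2]
  have ho := hζ.eq_orderOf
  have h3 : ((1 : (ZMod m)ˣ) : ZMod m).val = 1 % m := by
    rw [Units.val_one, ZMod.val_one_eq_one_mod]
  rw [h3]
  conv_lhs => rw [ho, pow_mod_orderOf]
  exact pow_one ζ

lemma autToPow_eq_one_of_apply_zeta {σ : L ≃ₐ[ℚ] L} (h : σ ζ = ζ) : hζ.autToPow ℚ σ = 1 := by
  have h2 := hζ.autToPow_spec ℚ σ
  rw [h] at h2
  have h3 : (hζ.autToPow ℚ σ : ZMod m).val ≡ 1 [MOD m] := by
    apply modEq_of_pow_eq_pow hζ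
    rw [h2, pow_one]
  have := (ZMod.natCast_eq_natCast_iff _ _ m).mpr h3
  ext
  simpa using this

variable {g : L ≃ₐ[ℚ] L} (hg : ∀ k : ℕ, (g ^ k) ζ = ζ → g ^ k = 1)

include hg in
lemma eq_one_of_mem_zpowers {τ : L ≃ₐ[ℚ] L} (hτ : τ ∈ Subgroup.zpowers g)
    (h : hζ.autToPow ℚ τ = 1) : τ = 1 := by
  rw [← mem_powers_iff_mem_zpowers] at hτ
  obtain ⟨k, rfl⟩ := hτ
  exact hg k (apply_zeta_of_autToPow_eq_one hζ h)

include hg in
lemma eq_of_mem_zpowers {τ : L ≃ₐ[ℚ] L} (hτ : τ ∈ Subgroup.zpowers g)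
    (h : hζ.autToPow ℚ τ = hζ.autToPow ℚ g) : τ = g := by
  have h1 : τ * g⁻¹ ∈ Subgroup.zpowers g :=
    Subgroup.mul_mem _ hτ (Subgroup.inv_mem _ (Subgroup.mem_zpowers g))
  have h2 : hζ.autToPow ℚ (τ * g⁻¹) = 1 := by
    rw [map_mul, map_inv, h, mul_inv_cancel]
  have := eq_one_of_mem_zpowers hζ hg h1 h2
  exact mul_inv_eq_one.mp this

include hg in
lemma orderOf_autToPow : orderOf (hζ.autToPow ℚ g) = orderOf g := by
  rw [orderOf_eq_orderOf_iff]
  intro n
  rw [← map_pow]
  constructor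
  · intro h
    exact hg n (apply_zeta_of_autToPow_eq_one hζ h)
  · intro h
    rw [h, map_one]

end basic

section weight

variable (L : Type) [Field L] [NumberField L] [IsGalois ℚ L]

lemma primesLe_finite (H : Subgroup (L ≃ₐ[ℚ] L)) {p : ℕ} (hp : p.Prime) :
    (Spec.primesLe L H p).Finite :=
  (H341.primesAbove_finite L hp).subset (fun _ hP => ⟨hP.1, hP.2.1⟩)

variable {L}

lemma exists_of_decompWeight_ne_zero {H : Subgroup (L ≃ₐ[ℚ] L)} {p : ℕ}
    (h : Spec.decompWeight L H p ≠ 0) : ∃ P, P ∈ Spec.primesLe L H p := by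
  by_contra hcon
  push Not at hcon
  apply h
  unfold Spec.decompWeight
  have : IsEmpty (Spec.primesLe L H p) := ⟨fun P => hcon P.1 P.2⟩
  exact finsum_of_isEmpty _

lemma decompWeight_ne_zero {H : Subgroup (L ≃ₐ[ℚ] L)} {p : ℕ} (hp : p.Prime)
    {P : Ideal (𝓞 L)} (hP : P ∈ Spec.primesLe L H p) : Spec.decompWeight L H p ≠ 0 := by
  unfold Spec.decompWeight
  have hfin : Finite (Spec.primesLe L H p) := (primesLe_finite L H hp).to_subtype
  have : Fintype (Spec.primesLe L H p) := Fintype.ofFinite _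
  rw [finsum_eq_sum_of_fintype]
  intro h0
  rw [Finset.sum_eq_zero_iff] at h0
  have h1 := h0 ⟨P, hP⟩ (Finset.mem_univ _)
  exact Nat.card_pos.ne' h1

lemma decompWeight_congr {H H' : Subgroup (L ≃ₐ[ℚ] L)} {p : ℕ}
    (h : Spec.primesLe L H p = Spec.primesLe L H' p) :
    Spec.decompWeight L H p = Spec.decompWeight L H' p := by
  unfold Spec.decompWeight
  rw [finsum_set_coe_eq_finsum_mem (f := fun P : Ideal (𝓞 L) => Nat.card (Spec.decomp L P))
      (Spec.primesLe L H p),
    finsum_set_coe_eq_finsum_mem (f := fun P : Ideal (𝓞 L) => Nat.card (Spec.decomp L P))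
      (Spec.primesLe L H' p), h]

lemma decompWeight_eq_zero {H : Subgroup (L ≃ₐ[ℚ] L)} {p : ℕ}
    (h : ∀ P, P ∉ Spec.primesLe L H p) : Spec.decompWeight L H p = 0 := by
  by_contra h0
  obtain ⟨P, hP⟩ := exists_of_decompWeight_ne_zero h0
  exact h P hP

end weight

section main

variable {L : Type} [Field L] [NumberField L] [IsGalois ℚ L]
variable {m : ℕ} [NeZero m] {ζ : L} (hζ : IsPrimitiveRoot ζ m)
variable {g : L ≃ₐ[ℚ] L} (hg : ∀ k : ℕ, (g ^ k) ζ = ζ → g ^ k = 1)

/-- Frobenius data at a prime `P ∣ p` whose decomposition group lies in `⟨g⟩`. -/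
lemma exists_frob_of_mem_primesLe {B : Finset ℕ}
    (hB : ∀ p : ℕ, p.Prime → p ∉ B → ∀ P : Ideal (𝓞 L), P.IsPrime → (p : 𝓞 L) ∈ P →
        Spec.InertiaTrivial L P ∧
        ∃ τ : L ≃ₐ[ℚ] L, IsArithFrobAt ℤ τ P ∧ Spec.decomp L P = Subgroup.zpowers τ)
    {p : ℕ} (hp : p.Prime) (hpB : p ∉ B) (hpm : ¬ p ∣ m) {H : Subgroup (L ≃ₐ[ℚ] L)}
    {P : Ideal (𝓞 L)} (hP : P ∈ Spec.primesLe L H p) :
    Spec.InertiaTrivial L P ∧ ∃ τ : L ≃ₐ[ℚ] L, IsArithFrobAt ℤ τ P ∧
      Spec.decomp L P = Subgroup.zpowers τ ∧ τ ∈ H ∧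
      ((hζ.autToPow ℚ τ : (ZMod m)ˣ) : ZMod m) = (p : ZMod m) := by
  obtain ⟨hI, τ, hτ, hD⟩ := hB p hp hpB P hP.1 hP.2.1
  refine ⟨hI, τ, hτ, hD, ?_, autToPow_frob hζ hp hpm hP.1 hP.2.1 hτ⟩
  apply hP.2.2
  rw [hD]
  exact Subgroup.mem_zpowers τ

theorem cycAlg : CycAlgStatement := by
  intro hA hD hM L _ _ _ m _ ζ hζ g hg
  classical
  refine ⟨by rw [Nat.card_zpowers]; exact orderOf_autToPow hζ hg, ?_⟩
  obtain ⟨B1, hB1⟩ := hA L (Subgroup.zpowers g)
  obtain ⟨B2, hB2⟩ := hA L ⊥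
  obtain ⟨B3, hB3⟩ := hD L
  have hcard : 0 < Nat.card (Subgroup.zpowers g) := Nat.card_pos
  refine ⟨B1 ∪ B2 ∪ B3 ∪ m.primeFactors, ?_, ?_, ?_, ?_⟩
  · -- SUPP
    intro p hp hpB hc
    simp only [Finset.mem_union, not_or] at hpB
    obtain ⟨⟨⟨hp1, hp2⟩, hp3⟩, hp4⟩ := hpB
    have hpm : ¬ p ∣ m := fun h => hp4 (Nat.mem_primeFactors.mpr ⟨hp, h, NeZero.ne m⟩)
    have hw : Spec.decompWeight L (Subgroup.zpowers g) p ≠ 0 := by
      rw [← hB1 p hp hp1]
      exact Nat.mul_ne_zero hc hcard.ne'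
    obtain ⟨P, hP⟩ := exists_of_decompWeight_ne_zero hw
    obtain ⟨-, τ, -, -, hτg, hτp⟩ := exists_frob_of_mem_primesLe hζ hB3 hp hp3 hpm hP
    refine ⟨hζ.autToPow ℚ τ, ?_, hτp⟩
    obtain ⟨k, rfl⟩ := Subgroup.mem_zpowers_iff.mp hτg
    rw [map_zpow]
    exact Subgroup.zpow_mem _ (Subgroup.mem_zpowers _) k
  · -- SPLIT
    intro p hp hpB
    simp only [Finset.mem_union, not_or] at hpB
    obtain ⟨⟨⟨hp1, hp2⟩, hp3⟩, hp4⟩ := hpB
    have hpm : ¬ p ∣ m := fun h => hp4 (Nat.mem_primeFactors.mpr ⟨hp, h, NeZero.ne m⟩)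
    have h1 := hB1 p hp hp1
    have h2 := hB2 p hp hp2
    rw [Nat.card_eq_one_iff_unique.mpr ⟨inferInstance, inferInstance⟩, mul_one] at h2
    rw [Nat.card_zpowers] at h1
    split_ifs with hp1m
    · -- p ≡ 1
      have hset : Spec.primesLe L (Subgroup.zpowers g) p = Spec.primesLe L ⊥ p := by
        ext P
        constructor
        · intro hP
          obtain ⟨-, τ, -, hDP, hτg, hτp⟩ := exists_frob_of_mem_primesLe hζ hB3 hp hp3 hpm hP
          have hτ1 : τ = 1 := by
            apply eq_one_of_mem_zpowers hζ hg hτg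
            ext
            rw [hτp, hp1m]
            simp
          refine ⟨hP.1, hP.2.1, ?_⟩
          rw [hDP, hτ1]
          simp
        · intro hP
          exact ⟨hP.1, hP.2.1, hP.2.2.trans bot_le⟩
      rw [h2, ← decompWeight_congr hset, ← h1, mul_comm]
    · -- p ≢ 1
      rw [h2]
      apply decompWeight_eq_zero
      intro P hP
      obtain ⟨-, τ, -, hDP, hτg, hτp⟩ := exists_frob_of_mem_primesLe hζ hB3 hp hp3 hpm hP
      apply hp1m
      rw [← hτp]
      have : τ = 1 := by simpa using hτg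
      rw [this, map_one]
      simp
  · -- NT
    intro χ hχ
    obtain ⟨p, P, τ, hp, hpB, hP, hpP, hI, hτ, hτg⟩ :=
      hM L g (B1 ∪ B2 ∪ B3 ∪ m.primeFactors)
    simp only [Finset.mem_union, not_or] at hpB
    obtain ⟨⟨⟨hp1, hp2⟩, hp3⟩, hp4⟩ := hpB
    have hpm : ¬ p ∣ m := fun h => hp4 (Nat.mem_primeFactors.mpr ⟨hp, h, NeZero.ne m⟩)
    have hDP : Spec.decomp L P = Subgroup.zpowers g := by
      have := hP
      rw [H943.decomp_eq_zpowers hp hpP hI hτ, hτg]
    have hPle : P ∈ Spec.primesLe L (Subgroup.zpowers g) p := ⟨hP, hpP, hDP.le⟩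
    have hw := decompWeight_ne_zero hp hPle
    rw [← hB1 p hp hp1] at hw
    have hc : Spec.primeCount (fixM L g) p ≠ 0 := fun h => hw (by rw [h, zero_mul])
    -- a prime of norm `p`
    have hne : Nonempty {𝔮 : Ideal (𝓞 (fixM L g)) // 𝔮.IsPrime ∧ Ideal.absNorm 𝔮 = p} := by
      by_contra hemp
      rw [not_nonempty_iff] at hemp
      exact hc Nat.card_of_isEmpty
    obtain ⟨𝔮, -, h𝔮⟩ := hne
    refine ⟨𝔮, ?_, ?_⟩
    · rw [h𝔮]
      have hu : IsUnit (p : ZMod m) := by
        rw [ZMod.isUnit_iff_coprime]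
        exact (Nat.Prime.coprime_iff_not_dvd hp).mpr hpm
      exact (hu.map χ).ne_zero
    · rw [h𝔮]
      intro h1
      apply hχ
      have hτp := autToPow_frob hζ hp hpm hP hpP hτ
      have hgτ : g ∈ Subgroup.zpowers τ := by rw [hτg]; exact Subgroup.mem_zpowers g
      obtain ⟨k, hk⟩ := (mem_powers_iff_mem_zpowers.mpr hgτ)
      rw [← hk, map_pow, Units.val_pow_eq_pow_val, hτp, map_pow, h1, one_pow]
  · -- FIN
    intro p hp hpB hc hpa
    simp only [Finset.mem_union, not_or] at hpB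
    obtain ⟨⟨⟨hp1, hp2⟩, hp3⟩, hp4⟩ := hpB
    have hpm : ¬ p ∣ m := fun h => hp4 (Nat.mem_primeFactors.mpr ⟨hp, h, NeZero.ne m⟩)
    have hw : Spec.decompWeight L (Subgroup.zpowers g) p ≠ 0 := by
      rw [← hB1 p hp hp1]
      exact Nat.mul_ne_zero hc hcard.ne'
    obtain ⟨P, hP⟩ := exists_of_decompWeight_ne_zero hw
    obtain ⟨hI, τ, hτ, -, hτg, hτp⟩ := exists_frob_of_mem_primesLe hζ hB3 hp hp3 hpm hP
    have : τ = g := by
      apply eq_of_mem_zpowers hζ hg hτg
      ext
      rw [hτp, hpa]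
    exact ⟨P, hP.1, hP.2.1, hI, this ▸ hτ⟩

end main

end Fermat.Agent.Lib.Cheb.H221

end
-- ===== PACK-END Lib/Cheb/H221/CycAlg.lean

-- ===== PACK-BEGIN Lib/Cheb/H221/CycEP.lean
section





/-!
# CYC, Euler product of `L_F(s, χ ∘ N)` (helper221)
-/

set_option autoImplicit false

open NumberField IsDedekindDomain Filter Topology

namespace Fermat.Agent.Lib.Cheb.H221

set_option linter.unusedSectionVars false

section

variable (F : Type) [Field F] [NumberField F] {m : ℕ} [NeZero m] (χ : DirichletCharacter ℂ m)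

/-- `χ(N I) N(I)^(-s)` -/
noncomputable def twTerm (s : ℝ) (I : Ideal (𝓞 F)) : ℂ :=
  χ (Ideal.absNorm I : ZMod m) * (((Ideal.absNorm I : ℝ) ^ (-s) : ℝ) : ℂ)

lemma twTerm_mul (s : ℝ) (I J : Ideal (𝓞 F)) :
    twTerm F χ s (I * J) = twTerm F χ s I * twTerm F χ s J := by
  unfold twTerm
  have h := H761.normPow_mul F s I J
  unfold H761.normPow at h
  rw [h, map_mul, Nat.cast_mul, map_mul]
  push_cast
  ring

lemma twTerm_top (s : ℝ) : twTerm F χ s ⊤ = 1 := by
  simp [twTerm]

lemma twTerm_bot {s : ℝ} (hs : s ≠ 0) : twTerm F χ s ⊥ = 0 := by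
  have h0 : (0 : ℝ) ^ (-s) = 0 := Real.zero_rpow (neg_ne_zero.mpr hs)
  simp [twTerm, h0]

lemma norm_twTerm_le (s : ℝ) (I : Ideal (𝓞 F)) : ‖twTerm F χ s I‖ ≤ H761.normPow F s I := by
  unfold twTerm H761.normPow
  rw [norm_mul, Complex.norm_real, Real.norm_of_nonneg (Real.rpow_nonneg (Nat.cast_nonneg _) _)]
  calc ‖χ (Ideal.absNorm I : ZMod m)‖ * (Ideal.absNorm I : ℝ) ^ (-s)
      ≤ 1 * (Ideal.absNorm I : ℝ) ^ (-s) :=
        mul_le_mul_of_nonneg_right (DirichletCharacter.norm_le_one χ _)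
          (Real.rpow_nonneg (Nat.cast_nonneg _) _)
    _ = _ := one_mul _

lemma summable_twTerm {s : ℝ} (hs : 1 < s) : Summable (twTerm F χ s) :=
  Summable.of_norm_bounded (H761.summable_normPow F hs) (norm_twTerm_le F χ s)

/-- the sum over the ideals of norm `n` -/
lemma tsum_fiber_twTerm (s : ℝ) (n : ℕ) :
    ∑' I : {I : Ideal (𝓞 F) // Ideal.absNorm I = n}, twTerm F χ s I.1 =
      χ (n : ZMod m) * ((Spec.idealCount F n : ℂ) * (((n : ℝ) ^ (-s) : ℝ) : ℂ)) := by
  have hfin : Finite {I : Ideal (𝓞 F) // Ideal.absNorm I = n} :=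
    (Ideal.finite_setOfPred_absNorm_eq n).to_subtype
  have : Fintype {I : Ideal (𝓞 F) // Ideal.absNorm I = n} := Fintype.ofFinite _
  rw [tsum_fintype]
  have h1 : ∀ I : {I : Ideal (𝓞 F) // Ideal.absNorm I = n},
      twTerm F χ s I.1 = χ (n : ZMod m) * (((n : ℝ) ^ (-s) : ℝ) : ℂ) := by
    intro I
    simp only [twTerm, I.2]
  simp only [h1, Finset.sum_const, Finset.card_univ, nsmul_eq_mul, Spec.idealCount,
    Nat.card_eq_fintype_card]
  ring

lemma tsum_twTerm_eq_lseries {s : ℝ} (hs : 1 < s) :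
    ∑' I : Ideal (𝓞 F), twTerm F χ s I =
      LSeries (fun n => χ (n : ZMod m) * (Spec.idealCount F n : ℂ)) (s : ℂ) := by
  have hsum := summable_twTerm F χ hs
  have hsum' : Summable (fun x : Σ n : ℕ, {I : Ideal (𝓞 F) // Ideal.absNorm I = n} =>
      twTerm F χ s x.2.1) :=
    ((Equiv.sigmaFiberEquiv (fun I : Ideal (𝓞 F) => Ideal.absNorm I)).summable_iff
      (f := twTerm F χ s)).mpr hsum
  calc ∑' I : Ideal (𝓞 F), twTerm F χ s I
      = ∑' x : Σ n : ℕ, {I : Ideal (𝓞 F) // Ideal.absNorm I = n}, twTerm F χ s x.2.1 :=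
        ((Equiv.sigmaFiberEquiv (fun I : Ideal (𝓞 F) => Ideal.absNorm I)).tsum_eq
          (twTerm F χ s)).symm
    _ = ∑' n : ℕ, ∑' I : {I : Ideal (𝓞 F) // Ideal.absNorm I = n}, twTerm F χ s I.1 :=
        hsum'.tsum_sigma
    _ = _ := by
        unfold LSeries
        refine tsum_congr fun n => ?_
        rw [tsum_fiber_twTerm]
        rcases eq_or_ne n 0 with rfl | hn
        · have : (0 : ℝ) ^ (-s) = 0 := Real.zero_rpow (by linarith)
          simp [this]
        · rw [LSeries.term_of_ne_zero hn, Complex.ofReal_cpow (Nat.cast_nonneg n),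
            Complex.ofReal_neg, Complex.cpow_neg]
          simp [div_eq_mul_inv, mul_assoc]

lemma tsum_sieveSet_empty_twTerm {s : ℝ} (hs : 1 < s) :
    ∑' I : H761.sieveSet (∅ : Set (HeightOneSpectrum (𝓞 F))), twTerm F χ s I =
      ∑' I : Ideal (𝓞 F), twTerm F χ s I := by
  have hs0 : s ≠ 0 := by linarith
  rw [← tsum_subtype_eq_of_support_subset (f := twTerm F χ s)
    (s := H761.sieveSet (∅ : Set (HeightOneSpectrum (𝓞 F))))]
  intro I hI
  rw [H761.mem_sieveSet_empty]
  rintro rfl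
  exact hI (twTerm_bot F χ hs0)

theorem eulerProduct : EulerProductStatement := by
  intro F _ _ m _ χ s hs
  have hf := summable_twTerm F χ hs
  have h1 := H761.hasProd_one_sub hf (twTerm_mul F χ s) (twTerm_top F χ s)
  have hne := H761.tsum_sieve_empty_ne_zero hf (twTerm_mul F χ s) (twTerm_top F χ s)
  have h2 := h1.inv₀ (inv_ne_zero hne)
  rw [inv_inv, tsum_sieveSet_empty_twTerm F χ hs, tsum_twTerm_eq_lseries F χ hs] at h2
  exact h2

end

end Fermat.Agent.Lib.Cheb.H221

end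
-- ===== PACK-END Lib/Cheb/H221/CycEP.lean

-- ===== PACK-BEGIN Lib/Cheb/H941/DirichletLimitBridge.lean
section



/-!
# Bridge for the analytic core (AN) of CHEB (helper941)

`Spec.DirichletLimitStatement` is phrased with Mathlib's `LSeries` of the arithmetic function
`n ↦ χ n * idealCount F n`.  The analytic work (tent method) naturally produces statements about
the ideal-indexed series

  `idealL K χ s = ∑' I : (Ideal (𝓞 K))⁰, χ (N I) * N(I) ^ (-s)`   (real `s > 1`).

This file proves that the two agree for real `s > 1` and deduces `Spec.DirichletLimitStatement`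
from the existence of a limit (or of a continuous extension to `[1, 2]`) of `idealL`.
-/

set_option autoImplicit false

open NumberField Ideal Filter Topology
open scoped nonZeroDivisors

namespace Fermat.Agent.Lib.Cheb.H941

noncomputable section

variable (K : Type*) [Field K] [NumberField K]

/-- The ideal-indexed norm-twisted `L`-series, for a real argument. -/
def idealL {m : ℕ} (χ : DirichletCharacter ℂ m) (s : ℝ) : ℂ :=
  ∑' I : (Ideal (𝓞 K))⁰, χ ((absNorm (I : Ideal (𝓞 K)) : ℕ) : ZMod m) *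
    (((absNorm (I : Ideal (𝓞 K)) : ℝ) ^ (-s) : ℝ) : ℂ)

/-- The summand, extended to all ideals (it vanishes at the zero ideal). -/
def idealTerm {m : ℕ} (χ : DirichletCharacter ℂ m) (s : ℝ) (I : Ideal (𝓞 K)) : ℂ :=
  χ ((absNorm I : ℕ) : ZMod m) * (((absNorm I : ℝ) ^ (-s) : ℝ) : ℂ)

lemma norm_idealTerm_le {m : ℕ} (χ : DirichletCharacter ℂ m) (s : ℝ) (I : Ideal (𝓞 K)) :
    ‖idealTerm K χ s I‖ ≤ H761.normPow K s I := by
  unfold idealTerm H761.normPow
  rw [norm_mul, Complex.norm_real, Real.norm_of_nonneg (Real.rpow_nonneg (Nat.cast_nonneg _) _)]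
  calc ‖χ ((absNorm I : ℕ) : ZMod m)‖ * (absNorm I : ℝ) ^ (-s)
      ≤ 1 * (absNorm I : ℝ) ^ (-s) :=
        mul_le_mul_of_nonneg_right (DirichletCharacter.norm_le_one χ _)
          (Real.rpow_nonneg (Nat.cast_nonneg _) _)
    _ = (absNorm I : ℝ) ^ (-s) := one_mul _

lemma summable_idealTerm {m : ℕ} (χ : DirichletCharacter ℂ m) {s : ℝ} (hs : 1 < s) :
    Summable (idealTerm K χ s) :=
  Summable.of_norm_bounded (H761.summable_normPow K hs) (norm_idealTerm_le K χ s)

lemma idealTerm_bot {m : ℕ} (χ : DirichletCharacter ℂ m) {s : ℝ} (hs : s ≠ 0) :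
    idealTerm K χ s ⊥ = 0 := by
  unfold idealTerm
  simp [Real.zero_rpow (neg_ne_zero.mpr hs)]

/-- `idealL` as a sum over all ideals. -/
lemma idealL_eq_tsum {m : ℕ} (χ : DirichletCharacter ℂ m) {s : ℝ} (hs : s ≠ 0) :
    idealL K χ s = ∑' I : Ideal (𝓞 K), idealTerm K χ s I := by
  unfold idealL
  have h1 : ∑' I : (Ideal (𝓞 K))⁰, χ ((absNorm (I : Ideal (𝓞 K)) : ℕ) : ZMod m) *
      (((absNorm (I : Ideal (𝓞 K)) : ℝ) ^ (-s) : ℝ) : ℂ)
      = ∑' I : ((Ideal (𝓞 K))⁰ : Set (Ideal (𝓞 K))), idealTerm K χ s I := rfl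
  rw [h1, tsum_subtype]
  refine tsum_congr fun I => ?_
  by_cases hI : I ∈ ((Ideal (𝓞 K))⁰ : Set (Ideal (𝓞 K)))
  · rw [Set.indicator_of_mem hI]
  · rw [Set.indicator_of_notMem hI]
    have hI' : I = ⊥ := by
      by_contra hne
      exact hI (mem_nonZeroDivisors_iff_ne_zero.mpr hne)
    rw [hI', idealTerm_bot K χ hs]

/-- The sum of the summands over the ideals of norm `n`. -/
lemma tsum_fiber_idealTerm {m : ℕ} (χ : DirichletCharacter ℂ m) (s : ℝ) (n : ℕ) :
    ∑' I : {I : Ideal (𝓞 K) // absNorm I = n}, idealTerm K χ s I.1 =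
      χ ((n : ℕ) : ZMod m) * ((Nat.card {I : Ideal (𝓞 K) // absNorm I = n} : ℂ) *
        (((n : ℝ) ^ (-s) : ℝ) : ℂ)) := by
  have hfin : Finite {I : Ideal (𝓞 K) // absNorm I = n} :=
    (Ideal.finite_setOfPred_absNorm_eq n).to_subtype
  have : Fintype {I : Ideal (𝓞 K) // absNorm I = n} := Fintype.ofFinite _
  rw [tsum_fintype]
  have h : ∀ I : {I : Ideal (𝓞 K) // absNorm I = n},
      idealTerm K χ s I.1 = χ ((n : ℕ) : ZMod m) * (((n : ℝ) ^ (-s) : ℝ) : ℂ) := by
    intro I
    simp only [idealTerm, I.2]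
  simp only [h, Finset.sum_const, Finset.card_univ, nsmul_eq_mul, Nat.card_eq_fintype_card]
  ring

/-- `idealL` as a sum over the norms. -/
lemma idealL_eq_tsum_nat {m : ℕ} (χ : DirichletCharacter ℂ m) {s : ℝ} (hs : 1 < s) :
    idealL K χ s = ∑' n : ℕ, χ ((n : ℕ) : ZMod m) *
      ((Nat.card {I : Ideal (𝓞 K) // absNorm I = n} : ℂ) * (((n : ℝ) ^ (-s) : ℝ) : ℂ)) := by
  have hsum := summable_idealTerm K χ hs
  have hsum' : Summable (fun x : Σ n : ℕ, {I : Ideal (𝓞 K) // absNorm I = n} =>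
      idealTerm K χ s x.2.1) :=
    ((Equiv.sigmaFiberEquiv (fun I : Ideal (𝓞 K) => absNorm I)).summable_iff
      (f := idealTerm K χ s)).mpr hsum
  calc idealL K χ s
      = ∑' I : Ideal (𝓞 K), idealTerm K χ s I := idealL_eq_tsum K χ (by linarith)
    _ = ∑' x : Σ n : ℕ, {I : Ideal (𝓞 K) // absNorm I = n}, idealTerm K χ s x.2.1 :=
        ((Equiv.sigmaFiberEquiv (fun I : Ideal (𝓞 K) => absNorm I)).tsum_eq
          (idealTerm K χ s)).symm
    _ = ∑' n : ℕ, ∑' I : {I : Ideal (𝓞 K) // absNorm I = n}, idealTerm K χ s I.1 :=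
        hsum'.tsum_sigma
    _ = _ := tsum_congr fun n => tsum_fiber_idealTerm K χ s n

/-- The `LSeries` of `n ↦ χ n * idealCount n` at a real `s > 1` is `idealL`. -/
theorem lseries_eq_idealL {m : ℕ} (χ : DirichletCharacter ℂ m) {s : ℝ} (hs : 1 < s) :
    LSeries (fun n => χ (n : ZMod m) *
      (Nat.card {I : Ideal (𝓞 K) // absNorm I = n} : ℂ)) (s : ℂ) = idealL K χ s := by
  rw [idealL_eq_tsum_nat K χ hs, LSeries]
  refine tsum_congr fun n => ?_
  rcases eq_or_ne n 0 with rfl | hn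
  · have : (0 : ℝ) ^ (-s) = 0 := Real.zero_rpow (by linarith)
    simp [this]
  · rw [LSeries.term_of_ne_zero hn, Complex.ofReal_cpow (Nat.cast_nonneg n), Complex.ofReal_neg,
      Complex.cpow_neg]
    simp only [Complex.ofReal_natCast]
    rw [div_eq_mul_inv]
    ring

/-- A function agreeing on `(1, 2]` with a function continuous on `[1, 2]` has a limit at `1⁺`. -/
theorem tendsto_of_continuousOn_Icc {f G : ℝ → ℂ} (hG : ContinuousOn G (Set.Icc 1 2))
    (hfG : ∀ s : ℝ, 1 < s → s ≤ 2 → G s = f s) :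
    Tendsto f (𝓝[>] 1) (𝓝 (G 1)) := by
  have h1 : Tendsto G (𝓝[Set.Icc 1 2] 1) (𝓝 (G 1)) := hG 1 ⟨le_rfl, by norm_num⟩
  have h2 : 𝓝[Set.Ioc 1 2] (1:ℝ) = 𝓝[>] 1 := nhdsWithin_Ioc_eq_nhdsGT (by norm_num)
  have h3 : Tendsto G (𝓝[Set.Ioc 1 2] 1) (𝓝 (G 1)) :=
    h1.mono_left (nhdsWithin_mono _ Set.Ioc_subset_Icc_self)
  rw [h2] at h3
  refine h3.congr' ?_
  have hev : ∀ᶠ s in 𝓝[>] (1:ℝ), s ≤ 2 :=
    mem_nhdsWithin_of_mem_nhds (Iic_mem_nhds (by norm_num))
  filter_upwards [self_mem_nhdsWithin, hev] with s hs hs2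
  exact hfG s hs hs2

end

/-- **AN in the frozen `Spec` shape**, from the ideal-indexed statement. -/
theorem dirichletLimit_of_tendsto_idealL
    (h : ∀ (F : Type) [Field F] [NumberField F] (m : ℕ) [NeZero m] (χ : DirichletCharacter ℂ m)
      (I₀ : (Ideal (𝓞 F))⁰),
      χ ((absNorm (I₀ : Ideal (𝓞 F)) : ℕ) : ZMod m) ≠ 0 →
      χ ((absNorm (I₀ : Ideal (𝓞 F)) : ℕ) : ZMod m) ≠ 1 →
      ∃ c : ℂ, Tendsto (fun s : ℝ => idealL F χ s) (𝓝[>] 1) (𝓝 c)) :
    Spec.DirichletLimitStatement := by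
  intro F _ _ m _ χ hI
  obtain ⟨I, hI0, hI1⟩ := hI
  have hIne : I ≠ ⊥ := by
    rintro rfl
    rw [Ideal.absNorm_bot] at hI0 hI1
    by_cases hm : m = 1
    · subst hm
      apply hI1
      have : ((0 : ℕ) : ZMod 1) = 1 := Subsingleton.elim _ _
      rw [this, map_one]
    · apply hI0
      have hnu : ¬ IsUnit (((0 : ℕ) : ZMod m)) := by
        have : Fact (1 < m) := ⟨by
          have := NeZero.ne m
          omega⟩
        simp
      exact χ.map_nonunit hnu
  obtain ⟨c, hc⟩ := h F m χ ⟨I, mem_nonZeroDivisors_iff_ne_zero.mpr hIne⟩ hI0 hI1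
  refine ⟨c, hc.congr' ?_⟩
  filter_upwards [self_mem_nhdsWithin] with s hs
  have hs1 : (1:ℝ) < s := hs
  exact (lseries_eq_idealL F χ hs1).symm

/-- **AN in the frozen `Spec` shape**, from a continuous extension to `[1, 2]`. -/
theorem dirichletLimit_of_continuousOn
    (h : ∀ (F : Type) [Field F] [NumberField F] (m : ℕ) [NeZero m] (χ : DirichletCharacter ℂ m)
      (I₀ : (Ideal (𝓞 F))⁰),
      χ ((absNorm (I₀ : Ideal (𝓞 F)) : ℕ) : ZMod m) ≠ 0 →
      χ ((absNorm (I₀ : Ideal (𝓞 F)) : ℕ) : ZMod m) ≠ 1 →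
      ∃ G : ℝ → ℂ, ContinuousOn G (Set.Icc 1 2) ∧
        ∀ s : ℝ, 1 < s → s ≤ 2 → G s = idealL F χ s) :
    Spec.DirichletLimitStatement :=
  dirichletLimit_of_tendsto_idealL fun F _ _ m _ χ I₀ h0 h1 => by
    obtain ⟨G, hG, hGf⟩ := h F m χ I₀ h0 h1
    exact ⟨G 1, tendsto_of_continuousOn_Icc hG hGf⟩

end Fermat.Agent.Lib.Cheb.H941

end
-- ===== PACK-END Lib/Cheb/H941/DirichletLimitBridge.lean

-- ===== PACK-BEGIN Lib/Frob/Glue.lean
section


/-!
# `FrobRelation ⇐ FrobRelationFin ∧ ReductionData`  (row-lead glue, no `sorry`)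
-/

set_option autoImplicit false

open WeierstrassCurve WeierstrassCurve.Affine WeierstrassCurve.Affine.Point

namespace Fermat.Agent.Lib.Frob

theorem reductionMod_Δ_ne_zero (W : WeierstrassCurve ℤ) (ℓ : ℕ) (h : W.IsGoodPrimeFor ℓ) :
    (W.reductionMod ℓ).Δ ≠ 0 := by
  unfold WeierstrassCurve.reductionMod
  rw [WeierstrassCurve.map_Δ]
  intro h0
  apply h
  have := (ZMod.intCast_zmod_eq_zero_iff_dvd W.Δ ℓ).mp (by simpa using h0)
  exact this

theorem coe_galois_smul_torsion (W : WeierstrassCurve ℤ) (n : ℕ) (σ : Qb ≃ₐ[ℚ] Qb)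
    (P : Submodule.torsionBy ℤ (Pts W) n) :
    ((σ • P : Submodule.torsionBy ℤ (Pts W) n) : Pts W) = σ • (P : Pts W) := rfl

theorem frobRelation_of_parts (hFin : FrobRelationFin) (hRed : ReductionData) : FrobRelation := by
  intro W ℓ hℓ h5 hgood A σ hA hσ n hn hℓn P hP
  have : Fact ℓ.Prime := ⟨hℓ⟩
  obtain ⟨k, hk1, hk2, hk3, red, hinj, hcomm⟩ := hRed W ℓ hgood A σ hA hσ n hn hℓn
  have hmem : P ∈ Submodule.torsionBy ℤ (Pts W) n := by
    rw [Submodule.mem_torsionBy_iff]
    rw [← hP]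
    exact (natCast_zsmul P n)
  set P' : Submodule.torsionBy ℤ (Pts W) n := ⟨P, hmem⟩ with hP'
  have key : σ • σ • P' - W.apOfModel ℓ • σ • P' + (ℓ : ℤ) • P' = 0 := by
    apply hinj
    rw [_root_.map_zero, map_add, map_sub, map_zsmul, map_zsmul, hcomm, hcomm]
    exact hFin ℓ h5 (W.reductionMod ℓ) (reductionMod_Δ_ne_zero W ℓ hgood) k (red P')
  have h2 := congrArg Subtype.val key
  simp only [Submodule.coe_add, Submodule.coe_sub, Submodule.coe_smul_of_tower, 
    coe_galois_smul_torsion, ZeroMemClass.coe_zero] at h2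
  exact h2

end Fermat.Agent.Lib.Frob

end
-- ===== PACK-END Lib/Frob/Glue.lean

-- ===== PACK-BEGIN Lib/Frob/A2/H230/OddPts.lean
section


/-!
# The odd points of a short Weierstrass curve over its function field (helper230)

`W` a Weierstrass curve over a field `F` with `a₁ = a₃ = 0`, `2 ≠ 0`, `Δ ≠ 0`;
`K = FF W F` its function field, `(gx, gy)` the generic point.

* `tau` : the `F`-algebra endomorphism of `K` with `gx ↦ gx`, `gy ↦ -gy`.
* `oddPts` : the subgroup `{P | Point.map tau P = -P}` of `W(K)`; it contains the generic point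
  and is stable under every endomorphism commuting with `Point.map`.
* `exists_ratFunc_of_mem_oddPts` : the `x`-coordinate of an odd point is in the image of
  `RatFunc F` (`jhat`).
-/

open WeierstrassCurve Polynomial
open scoped Polynomial.Bivariate WeierstrassCurve.Affine

namespace Fermat.Agent.Lib.Frob.A2.H230

open Fermat.Agent.Lib.FrobRel.H230

universe u

variable {F : Type u} [Field F] (W : WeierstrassCurve F)

/-- The function field of `W` over its field of definition. -/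
abbrev KK : Type u := FF W F

/-- `F[X] → K`, `X ↦ gx`. -/
noncomputable def jj : F[X] →ₐ[F] KK W := IsScalarTower.toAlgHom F F[X] (KK W)

lemma jj_apply (p : F[X]) : jj W p = algebraMap F[X] (KK W) p := rfl

lemma jj_X : jj W X = gx W F := (gx_eq_algebraMap_X W F).symm

lemma jj_injective : Function.Injective (jj W) := algebraMap_poly_FF_injective W F

lemma jj_eq_aeval (p : F[X]) : jj W p = Polynomial.aeval (gx W F) p := by
  have : jj W = Polynomial.aeval (gx W F) := by
    apply Polynomial.algHom_ext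
    rw [jj_X, aeval_X]
  rw [this]

/-- `RatFunc F → K`, `X ↦ gx`. -/
noncomputable def jhat : RatFunc F →ₐ[F] KK W :=
  IsFractionRing.liftAlgHom (g := jj W) (jj_injective W)

lemma jhat_algebraMap (p : F[X]) : jhat W (algebraMap F[X] (RatFunc F) p) = jj W p := by
  rw [jhat, IsFractionRing.liftAlgHom_apply, IsFractionRing.lift_algebraMap]
  rfl

lemma jhat_injective : Function.Injective (jhat W) := (jhat W).injective

lemma jhat_div (p r : F[X]) :
    jhat W (algebraMap F[X] (RatFunc F) p / algebraMap F[X] (RatFunc F) r)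
      = jj W p / jj W r := by
  rw [map_div₀, jhat_algebraMap, jhat_algebraMap]

lemma jhat_eq_num_div_denom (S : RatFunc F) : jhat W S = jj W S.num / jj W S.denom := by
  conv_lhs => rw [← RatFunc.num_div_denom S]
  exact jhat_div W _ _

lemma jj_denom_ne_zero (S : RatFunc F) : jj W S.denom ≠ 0 :=
  (map_ne_zero_iff _ (jj_injective W)).mpr S.denom_ne_zero

lemma jhat_C (c : F) : jhat W (RatFunc.C c) = algebraMap F (KK W) c := by
  rw [← RatFunc.algebraMap_eq_C]
  exact (jhat W).commutes c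

/-! ### Every element of the function field is `(p + q·y) / r` -/

/-- Every nonzero element of the coordinate ring divides a nonzero polynomial in `X`. -/
lemma exists_mul_eq_algebraMap (w : CR W F) (hw0 : w ≠ 0) :
    ∃ (wbar : CR W F) (N : F[X]), N ≠ 0 ∧ algebraMap F[X] (CR W F) N = w * wbar := by
  obtain ⟨p', q', rfl⟩ := Affine.CoordinateRing.exists_smul_basis_eq w
  have : Module.Finite F[X] (CR W F) :=
    Module.Finite.of_basis (Affine.CoordinateRing.basis (W⁄F))
  have hN : Algebra.norm F[X] (p' • (1 : CR W F) + q' • Affine.CoordinateRing.mk (W⁄F) Y) ≠ 0 :=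
    Algebra.norm_ne_zero_iff.mpr hw0
  have hcoe := Affine.CoordinateRing.coe_norm_smul_basis (W' := W⁄F) p' q'
  have hfac : Affine.CoordinateRing.mk (W⁄F) (C p' + C q' * Y)
      = p' • (1 : CR W F) + q' • Affine.CoordinateRing.mk (W⁄F) Y := by
    simp only [Affine.CoordinateRing.smul, map_add, map_mul, mul_one]
  refine ⟨Affine.CoordinateRing.mk (W⁄F)
    (C p' + C q' * (-(Y : F[X][Y]) - C (C (W⁄F).a₁ * X + C (W⁄F).a₃))), _, hN, ?_⟩
  have h1 : algebraMap F[X] (CR W F) (Algebra.norm F[X]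
      (p' • (1 : CR W F) + q' • Affine.CoordinateRing.mk (W⁄F) Y))
      = Affine.CoordinateRing.mk (W⁄F) ((C p' + C q' * X) *
            (C p' + C q' * (-(Y : F[X][Y]) - C (C (W⁄F).a₁ * X + C (W⁄F).a₃)))) := hcoe
  rw [h1, map_mul, hfac]

lemma jj_eq_algebraMap_CR (p : F[X]) :
    jj W p = algebraMap (CR W F) (KK W) (algebraMap F[X] (CR W F) p) := by
  rw [jj_apply, IsScalarTower.algebraMap_apply F[X] (CR W F) (KK W)]

lemma jj_add_mul_gy (p q : F[X]) : jj W p + jj W q * gy W F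
    = algebraMap (CR W F) (KK W) (p • (1 : CR W F) + q • Affine.CoordinateRing.mk (W⁄F) Y) := by
  rw [map_add, Algebra.smul_def, Algebra.smul_def, mul_one, map_mul, jj_eq_algebraMap_CR,
    jj_eq_algebraMap_CR]
  rfl

lemma exists_rep (u : KK W) : ∃ p q r : F[X], r ≠ 0 ∧
    u = (jj W p + jj W q * gy W F) / jj W r := by
  obtain ⟨z, w, hw, rfl⟩ := IsFractionRing.div_surjective (A := CR W F) u
  have hw0 : w ≠ 0 := nonZeroDivisors.ne_zero hw
  obtain ⟨wbar, N, hN, hprod⟩ := exists_mul_eq_algebraMap W w hw0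
  obtain ⟨p, q, hpq⟩ := Affine.CoordinateRing.exists_smul_basis_eq (z * wbar)
  refine ⟨p, q, N, hN, ?_⟩
  have hjN : jj W N ≠ 0 := (map_ne_zero_iff _ (jj_injective W)).mpr hN
  have hwK : algebraMap (CR W F) (KK W) w ≠ 0 :=
    (map_ne_zero_iff _ (IsFractionRing.injective (CR W F) (KK W))).mpr hw0
  rw [div_eq_div_iff hwK hjN, jj_eq_algebraMap_CR, jj_add_mul_gy, hpq, hprod, ← map_mul,
    ← map_mul]
  congr 1
  ring

/-! ### The hyperelliptic involution and the odd points -/

/-- The `F`-algebra endomorphism of the function field sending the generic point `P₀` to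
`-P₀`. -/
noncomputable def tau : KK W →ₐ[F] KK W :=
  sigma F ((Affine.equation_neg (gx W F) (gy W F)).mpr (generic_equation W F))
    (gx_transcendental W F)

lemma tau_gx : tau W (gx W F) = gx W F := sigma_gx F _ _

lemma tau_gy : tau W (gy W F) = (W⁄(KK W)).negY (gx W F) (gy W F) := sigma_gy F _ _

lemma tau_jj (p : F[X]) : tau W (jj W p) = jj W p := by
  have : (tau W).comp (jj W) = jj W := by
    apply Polynomial.algHom_ext
    rw [AlgHom.comp_apply, jj_X, tau_gx]
  exact congrArg (fun f => f p) this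

section Short

variable {W}
variable (ha₁ : W.a₁ = 0) (ha₃ : W.a₃ = 0)

include ha₁ ha₃ in
lemma negY_eq_neg (x y : KK W) : (W⁄(KK W)).negY x y = -y := by
  have h1 : (W⁄(KK W)).a₁ = 0 := by
    show algebraMap F (KK W) W.a₁ = 0
    rw [ha₁, map_zero]
  have h3 : (W⁄(KK W)).a₃ = 0 := by
    show algebraMap F (KK W) W.a₃ = 0
    rw [ha₃, map_zero]
  rw [Affine.negY, h1, h3]
  ring

include ha₁ ha₃ in
lemma tau_gy_short : tau W (gy W F) = -gy W F := by
  rw [tau_gy, negY_eq_neg ha₁ ha₃]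

lemma gy_ne_zero : gy W F ≠ 0 := by
  intro h0
  -- then `gx` is a root of the cubic, hence algebraic
  have heq := generic_equation W F
  rw [Affine.equation_iff, h0] at heq
  apply gx_transcendental W F
  refine ⟨X ^ 3 + C (W⁄F).a₂ * X ^ 2 + C (W⁄F).a₄ * X + C (W⁄F).a₆, ?_, ?_⟩
  · intro h
    have := congrArg (fun p => p.coeff 3) h
    simp [coeff_X_pow] at this
  · simp only [map_add, map_mul, map_pow, aeval_X, aeval_C]
    rw [baseChange_a₂ (k := F), baseChange_a₄ (k := F), baseChange_a₆ (k := F)] at heq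
    simpa using heq.symm

include ha₁ ha₃ in
/-- Elements of the function field fixed by `tau` are rational functions of `gx`. -/
lemma exists_ratFunc_of_tau_fixed (h2 : (2 : F) ≠ 0) (u : KK W)
    (hu : tau W u = u) : ∃ S : RatFunc F, u = jhat W S := by
  obtain ⟨p, q, r, hr, rfl⟩ := exists_rep W u
  have hjr : jj W r ≠ 0 := (map_ne_zero_iff _ (jj_injective W)).mpr hr
  rw [map_div₀, map_add, map_mul, tau_jj, tau_jj, tau_jj, tau_gy_short ha₁ ha₃,
    div_left_inj' hjr] at hu
  have h2K : (2 : KK W) ≠ 0 := by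
    rw [← map_ofNat (algebraMap F (KK W)) 2]
    exact (map_ne_zero_iff _ (algebraMap F (KK W)).injective).mpr h2
  have hq : jj W q = 0 := by
    have h3 : 2 * (jj W q * gy W F) = 0 := by linear_combination -hu
    rcases mul_eq_zero.mp h3 with h4 | h4
    · exact absurd h4 h2K
    · exact (mul_eq_zero.mp h4).resolve_right gy_ne_zero
  refine ⟨algebraMap F[X] (RatFunc F) p / algebraMap F[X] (RatFunc F) r, ?_⟩
  rw [jhat_div, hq, zero_mul, add_zero]

end Short

section Odd

variable [DecidableEq (KK W)]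

/-- `Point.map tau`. -/
noncomputable def tauPt : (W⁄(KK W)).Point →+ (W⁄(KK W)).Point :=
  Affine.Point.map (W' := W) (tau W)

/-- The subgroup of odd points `{P | τ P = -P}`. -/
noncomputable def oddPts : AddSubgroup (W⁄(KK W)).Point :=
  (tauPt W + AddMonoidHom.id _).ker

variable {W}

lemma mem_oddPts {P : (W⁄(KK W)).Point} : P ∈ oddPts W ↔ tauPt W P = -P := by
  rw [oddPts, AddMonoidHom.mem_ker, AddMonoidHom.add_apply, AddMonoidHom.id_apply,
    add_eq_zero_iff_eq_neg]

lemma generic_mem_oddPts (hΔ : (W⁄F).Δ ≠ 0) : genericPoint W F hΔ ∈ oddPts W := by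
  rw [mem_oddPts, tauPt, tau]
  rw [map_sigma_genericPoint F hΔ
    ((Affine.nonsingular_neg (gx W F) (gy W F)).mpr (generic_nonsingular W F hΔ))
    (gx_transcendental W F)]
  rfl

lemma map_mem_oddPts (φ : (W⁄(KK W)).Point →+ (W⁄(KK W)).Point)
    (hφ : ∀ P, φ (tauPt W P) = tauPt W (φ P)) {P : (W⁄(KK W)).Point} (hP : P ∈ oddPts W) :
    φ P ∈ oddPts W := by
  rw [mem_oddPts] at hP ⊢
  rw [← hφ, hP, map_neg]

lemma tau_x_of_mem_oddPts {x y : KK W} {h : (W⁄(KK W)).Nonsingular x y}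
    (hP : Affine.Point.some x y h ∈ oddPts W) : tau W x = x := by
  rw [mem_oddPts, tauPt, Affine.Point.map_some, Affine.Point.neg_some] at hP
  exact ((Affine.Point.some.injEq ..).mp hP).1

lemma exists_ratFunc_of_mem_oddPts (ha₁ : W.a₁ = 0) (ha₃ : W.a₃ = 0) (h2 : (2 : F) ≠ 0)
    {x y : KK W} {h : (W⁄(KK W)).Nonsingular x y}
    (hP : Affine.Point.some x y h ∈ oddPts W) : ∃ S : RatFunc F, x = jhat W S :=
  exists_ratFunc_of_tau_fixed ha₁ ha₃ h2 x (tau_x_of_mem_oddPts hP)

end Odd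

end Fermat.Agent.Lib.Frob.A2.H230

end
-- ===== PACK-END Lib/Frob/A2/H230/OddPts.lean

-- ===== PACK-BEGIN Lib/Frob/A2/H240/ShortNF.lean
section



/-!
# Piece A3 of row S52 / shared lib `Frob`: long ↔ short Weierstrass form

`FrobRelationFin` (the frozen interface of piece A2, stated for ARBITRARY long Weierstrass curves
over `𝔽_ℓ`, `ℓ ≥ 5`) follows from its special case for short Weierstrass curves
`y² = x³ + A x + B`  (`FrobRelationFinShort`, resp. `FrobRelationFinShortLit`).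

Main results:
* `frobRelationFin_of_short    : FrobRelationFinShort → FrobRelationFin`
* `frobRelationFin_of_shortLit : FrobRelationFinShortLit → FrobRelationFin`
* `traceOfFrobenius_smul : (C • E).traceOfFrobenius = E.traceOfFrobenius`

(helper240)
-/

set_option autoImplicit false

open WeierstrassCurve WeierstrassCurve.Affine WeierstrassCurve.Affine.Point

namespace Fermat.Agent.Lib.Frob.A2.H240

open Fermat.Agent.Lib.Frob Fermat.Agent.Lib.VC

/-- Piece A2 restricted to curves in short Weierstrass form (`a₁ = a₂ = a₃ = 0`). -/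
def FrobRelationFinShort : Prop :=
  ∀ (ℓ : ℕ) [Fact ℓ.Prime], 5 ≤ ℓ → ∀ (E : WeierstrassCurve (ZMod ℓ)),
    E.a₁ = 0 → E.a₂ = 0 → E.a₃ = 0 → E.Δ ≠ 0 →
    ∀ (k : Type) [Field k] [Algebra (ZMod ℓ) k] [DecidableEq k] (P : (E⁄k).Point),
      frobPt ℓ E k (frobPt ℓ E k P) - E.traceOfFrobenius • frobPt ℓ E k P + (ℓ : ℤ) • P = 0

/-- Piece A2 for the literal curves `⟨0, 0, 0, A, B⟩`. -/
def FrobRelationFinShortLit : Prop :=
  ∀ (ℓ : ℕ) [Fact ℓ.Prime], 5 ≤ ℓ → ∀ (A B : ZMod ℓ),
    (⟨0, 0, 0, A, B⟩ : WeierstrassCurve (ZMod ℓ)).Δ ≠ 0 →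
    ∀ (k : Type) [Field k] [Algebra (ZMod ℓ) k] [DecidableEq k]
      (P : ((⟨0, 0, 0, A, B⟩ : WeierstrassCurve (ZMod ℓ))⁄k).Point),
      frobPt ℓ ⟨0, 0, 0, A, B⟩ k (frobPt ℓ ⟨0, 0, 0, A, B⟩ k P)
        - (⟨0, 0, 0, A, B⟩ : WeierstrassCurve (ZMod ℓ)).traceOfFrobenius
            • frobPt ℓ ⟨0, 0, 0, A, B⟩ k P + (ℓ : ℤ) • P = 0

theorem frobRelationFinShort_of_lit (h : FrobRelationFinShortLit) : FrobRelationFinShort := by
  intro ℓ _ hℓ E h₁ h₂ h₃ hΔ k _ _ _ P
  obtain ⟨a₁, a₂, a₃, a₄, a₆⟩ := E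
  simp only at h₁ h₂ h₃
  subst h₁ h₂ h₃
  exact h ℓ hℓ a₄ a₆ hΔ k P

/-- The number of points is invariant under a change of variables. -/
theorem card_smul {F : Type*} [Field F] (E : WeierstrassCurve F) (C : VariableChange F) :
    (C • E).card = E.card := by
  classical
  exact Nat.card_congr (vcPoint E C).toEquiv

/-- The trace of Frobenius is invariant under a change of variables. -/
theorem traceOfFrobenius_smul {F : Type*} [Field F] (E : WeierstrassCurve F)
    (C : VariableChange F) : (C • E).traceOfFrobenius = E.traceOfFrobenius := by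
  unfold WeierstrassCurve.traceOfFrobenius
  rw [card_smul]

/-- The Frobenius relation is invariant under a change of variables defined over `𝔽_ℓ`. -/
theorem frobRel_of_smul (ℓ : ℕ) [Fact ℓ.Prime] (E : WeierstrassCurve (ZMod ℓ))
    (C : VariableChange (ZMod ℓ)) (k : Type) [Field k] [Algebra (ZMod ℓ) k] [DecidableEq k]
    (h : ∀ P : ((C • E)⁄k).Point,
      frobPt ℓ (C • E) k (frobPt ℓ (C • E) k P)
        - (C • E).traceOfFrobenius • frobPt ℓ (C • E) k P + (ℓ : ℤ) • P = 0)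
    (Q : (E⁄k).Point) :
    frobPt ℓ E k (frobPt ℓ E k Q) - E.traceOfFrobenius • frobPt ℓ E k Q + (ℓ : ℤ) • Q = 0 := by
  have h' := h
  simp only [traceOfFrobenius_smul] at h'
  exact relation_transfer E C (FiniteField.frobeniusAlgHom (ZMod ℓ) k) E.traceOfFrobenius
    (ℓ : ℤ) h' Q

theorem two_ne_zero_zmod (ℓ : ℕ) [Fact ℓ.Prime] (hℓ : 5 ≤ ℓ) : (2 : ZMod ℓ) ≠ 0 := by
  intro h
  have h2 : ((2 : ℕ) : ZMod ℓ) = 0 := by exact_mod_cast h
  rw [ZMod.natCast_eq_zero_iff] at h2
  have := Nat.le_of_dvd (by norm_num) h2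
  omega

theorem three_ne_zero_zmod (ℓ : ℕ) [Fact ℓ.Prime] (hℓ : 5 ≤ ℓ) : (3 : ZMod ℓ) ≠ 0 := by
  intro h
  have h3 : ((3 : ℕ) : ZMod ℓ) = 0 := by exact_mod_cast h
  rw [ZMod.natCast_eq_zero_iff] at h3
  have := Nat.le_of_dvd (by norm_num) h3
  omega

/-- **A3**: the frozen interface `FrobRelationFin` follows from its short-Weierstrass case. -/
theorem frobRelationFin_of_short (h : FrobRelationFinShort) : FrobRelationFin := by
  intro ℓ _ hℓ E hΔ k _ _ _ Q
  let _i2 : Invertible (2 : ZMod ℓ) := invertibleOfNonzero (two_ne_zero_zmod ℓ hℓ)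
  let _i3 : Invertible (3 : ZMod ℓ) := invertibleOfNonzero (three_ne_zero_zmod ℓ hℓ)
  set C : VariableChange (ZMod ℓ) := E.toShortNF with hC
  have hNF : (C • E).IsShortNF := E.toShortNF_spec
  have hΔ' : (C • E).Δ ≠ 0 := by
    rw [variableChange_Δ]
    exact mul_ne_zero (pow_ne_zero _ (Units.ne_zero _)) hΔ
  exact frobRel_of_smul ℓ E C k
    (h ℓ hℓ (C • E) (a₁_of_isShortNF _) (a₂_of_isShortNF _) (a₃_of_isShortNF _) hΔ' k) Q

theorem frobRelationFin_of_shortLit (h : FrobRelationFinShortLit) : FrobRelationFin :=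
  frobRelationFin_of_short (frobRelationFinShort_of_lit h)

end Fermat.Agent.Lib.Frob.A2.H240

end
-- ===== PACK-END Lib/Frob/A2/H240/ShortNF.lean

-- ===== PACK-BEGIN S13/H175/Minkowski.lean
section







set_option autoImplicit false
set_option linter.style.haveILetI false

/-!
# Minkowski's theorem for characters of `Gal(ℚ̄/ℚ)`

A homomorphism `χ` from `Gal(ℚ̄/ℚ)` with open kernel which is trivial on the inertia subgroup of
ONE valuation subring of `ℚ̄` over each rational prime is trivial.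
-/

open scoped Pointwise

namespace Fermat.Agent.S13.H175

/-- The ring hom from the integers of an intermediate field to the ring of all algebraic
integers. -/
noncomputable def intIncl (F : IntermediateField ℚ (AlgebraicClosure ℚ)) :
    integralClosure ℤ F →+* integralClosure ℤ (AlgebraicClosure ℚ) where
  toFun x := ⟨((x : F) : AlgebraicClosure ℚ), by
    have h := x.2
    exact h.map (F.val.restrictScalars ℤ)⟩
  map_one' := rfl
  map_mul' _ _ := rfl
  map_zero' := rfl
  map_add' _ _ := rfl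

theorem intIncl_coe (F : IntermediateField ℚ (AlgebraicClosure ℚ)) (x : integralClosure ℤ F) :
    ((intIncl F x : integralClosure ℤ (AlgebraicClosure ℚ)) : AlgebraicClosure ℚ) =
      ((x : F) : AlgebraicClosure ℚ) := rfl

theorem exists_inertia_not_fixing
    (N : Subgroup (AlgebraicClosure ℚ ≃ₐ[ℚ] AlgebraicClosure ℚ)) [hnormal : N.Normal]
    (hNopen : IsOpen (N : Set (AlgebraicClosure ℚ ≃ₐ[ℚ] AlgebraicClosure ℚ)))
    (hNtop : N ≠ ⊤) :
    ∃ q : ℕ, q.Prime ∧ ∀ A : ValuationSubring (AlgebraicClosure ℚ), A.LiesOverPrime q →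
      ∃ σ ∈ A.inertiaSubgroupIn ℚ, σ ∉ N := by
  have hgal := Fermat.Agent.S54.isGalois_algebraicClosure_rat
  have hclosed : IsClosed (N : Set (AlgebraicClosure ℚ ≃ₐ[ℚ] AlgebraicClosure ℚ)) :=
    Subgroup.isClosed_of_isOpen N hNopen
  set F : IntermediateField ℚ (AlgebraicClosure ℚ) := IntermediateField.fixedField N with hFdef
  have hfixN : F.fixingSubgroup = N := InfiniteGalois.fixingSubgroup_fixedField ⟨N, hclosed⟩
  have hgalF : IsGalois ℚ F := by
    have := IsGalois.of_fixedField_normal_subgroup N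
    convert this
    exact Subsingleton.elim _ _
  have hfdF : FiniteDimensional ℚ F := by
    have := (InfiniteGalois.isOpen_iff_finite F).mp (by rw [hfixN]; exact hNopen)
    convert this
  have hF : F ≠ ⊥ := by
    intro h
    apply hNtop
    rw [← hfixN, h]
    exact IntermediateField.fixingSubgroup_bot
  have : NumberField F := ⟨⟩
  have hfr : 1 < Module.finrank ℚ F := by
    have h1 : 0 < Module.finrank ℚ F := Module.finrank_pos
    have h2 : Module.finrank ℚ F ≠ 1 := by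
      intro h
      apply hF
      have h3 : Module.finrank ℚ F = 1 := by
        convert h using 2
      exact IntermediateField.finrank_eq_one_iff.mp h3
    omega
  obtain ⟨q, hq, hin⟩ := Fermat.Agent.S13.H175.exists_inertia_ne_one F hfr
  refine ⟨q, hq, fun A hA => ?_⟩
  have hQprime := Fermat.Agent.S54.primeBelow_isPrime A
  -- the prime of `𝓞_F` below `A`
  have hPprime : ((Fermat.Agent.S54.primeBelow A).comap (intIncl F)).IsPrime :=
    Ideal.comap_isPrime _ _
  have hqP : (q : integralClosure ℤ F) ∈ (Fermat.Agent.S54.primeBelow A).comap (intIncl F) := by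
    rw [Ideal.mem_comap, map_natCast, Fermat.Agent.S54.mem_primeBelow]
    have hA' : (q : AlgebraicClosure ℚ) ∈ A.nonunits := hA
    simpa using hA'
  obtain ⟨τ, hτ1, hτ⟩ := hin _ hPprime hqP
  -- lift `τ` to the absolute Galois group
  obtain ⟨g₀, hg₀⟩ := AlgEquiv.restrictNormalHom_surjective (F := ℚ) (K₁ := F)
    (AlgebraicClosure ℚ) τ
  have hg₀F : ∀ x : F, g₀ (x : AlgebraicClosure ℚ) = ((τ x : F) : AlgebraicClosure ℚ) := by
    intro x
    rw [← hg₀]
    exact (AlgEquiv.restrictNormal_commutes g₀ F x).symm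
  -- `g₀` acts trivially mod `Q` on the `N`-invariant algebraic integers
  have h₀ : ∀ x : integralClosure ℤ (AlgebraicClosure ℚ),
      (∀ n ∈ N, n • x = x) → g₀ • x - x ∈ Fermat.Agent.S54.primeBelow A := by
    intro x hx
    have hxF : (x : AlgebraicClosure ℚ) ∈ F := by
      rw [hFdef, IntermediateField.mem_fixedField_iff]
      intro f hf
      exact congrArg Subtype.val (hx f hf)
    have hxint : IsIntegral ℤ (⟨(x : AlgebraicClosure ℚ), hxF⟩ : F) := by
      have h1 : IsIntegral ℤ (x : AlgebraicClosure ℚ) := x.2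
      exact (isIntegral_algebraMap_iff (A := F) (B := AlgebraicClosure ℚ)
        (FaithfulSMul.algebraMap_injective F (AlgebraicClosure ℚ))).mp h1
    have h2 := hτ ⟨⟨(x : AlgebraicClosure ℚ), hxF⟩, hxint⟩
    have h2' : (((τ • (⟨⟨(x : AlgebraicClosure ℚ), hxF⟩, hxint⟩ : integralClosure ℤ F) -
        ⟨⟨(x : AlgebraicClosure ℚ), hxF⟩, hxint⟩ : integralClosure ℤ F) : F) :
        AlgebraicClosure ℚ) ∈ A.nonunits := h2
    rw [Fermat.Agent.S54.mem_primeBelow]
    have h3 := hg₀F ⟨(x : AlgebraicClosure ℚ), hxF⟩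
    have h4 : ((g₀ • x - x : integralClosure ℤ (AlgebraicClosure ℚ)) : AlgebraicClosure ℚ) =
        g₀ (x : AlgebraicClosure ℚ) - x := rfl
    rw [h4, h3]
    exact h2'
  -- apply the profinite lifting lemma
  letI : TopologicalSpace (integralClosure ℤ (AlgebraicClosure ℚ)) := ⊥
  haveI : DiscreteTopology (integralClosure ℤ (AlgebraicClosure ℚ)) := ⟨rfl⟩
  haveI := Fermat.Agent.S54.continuousSMul_integralClosure
  obtain ⟨σ, hσN, hσ⟩ := Fermat.Agent.S13.H175.exists_inertia_lift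
    (G := AlgebraicClosure ℚ ≃ₐ[ℚ] AlgebraicClosure ℚ) N hclosed
    (Fermat.Agent.S54.primeBelow A) g₀ h₀
  refine ⟨σ, ?_, ?_⟩
  · apply Fermat.Agent.S13.H175.mem_inertiaSubgroupIn_of_integral A q hq hA σ
    intro x hx
    exact hσ ⟨x, hx⟩
  · intro hσF
    apply hτ1
    have hg₀N : g₀ ∈ F.fixingSubgroup := by
      rw [hfixN]
      have h1 : g₀⁻¹ ∈ N := by
        have := N.mul_mem hσN (N.inv_mem hσF)
        simpa using this
      simpa using N.inv_mem h1
    ext x
    have h1 := hg₀F x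
    have h2 := (IntermediateField.mem_fixingSubgroup_iff F g₀).mp hg₀N x x.2
    rw [h2] at h1
    exact h1.symm

/-- **Minkowski for characters.** A homomorphism from `Gal(ℚ̄/ℚ)` with open kernel which is
trivial on the inertia subgroup of one valuation subring over every rational prime is trivial. -/
theorem minkowski_character {H : Type*} [Group H]
    (χ : (AlgebraicClosure ℚ ≃ₐ[ℚ] AlgebraicClosure ℚ) →* H)
    (hopen : ∃ s : Finset (AlgebraicClosure ℚ),
      ∀ σ : AlgebraicClosure ℚ ≃ₐ[ℚ] AlgebraicClosure ℚ, (∀ x ∈ s, σ x = x) → χ σ = 1)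
    (hunr : ∀ q : ℕ, q.Prime → ∃ A : ValuationSubring (AlgebraicClosure ℚ),
      A.LiesOverPrime q ∧ ∀ σ ∈ A.inertiaSubgroupIn ℚ, χ σ = 1) :
    ∀ σ, χ σ = 1 := by
  have hgal := Fermat.Agent.S54.isGalois_algebraicClosure_rat
  obtain ⟨s, hs⟩ := hopen
  by_contra hcon
  push Not at hcon
  obtain ⟨σ₀, hσ₀⟩ := hcon
  -- the kernel is open
  have hNopen : IsOpen (χ.ker : Set (AlgebraicClosure ℚ ≃ₐ[ℚ] AlgebraicClosure ℚ)) := by
    have hfd : FiniteDimensional ℚ
        (IntermediateField.adjoin ℚ (s : Set (AlgebraicClosure ℚ))) :=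
      IntermediateField.finiteDimensional_adjoin
        (fun x _ => (AlgebraicClosure.isAlgebraic ℚ).isIntegral.isIntegral x)
    have h1 := IntermediateField.fixingSubgroup_isOpen
      (IntermediateField.adjoin ℚ (s : Set (AlgebraicClosure ℚ)))
    refine Subgroup.isOpen_mono ?_ h1
    intro σ hσ
    rw [MonoidHom.mem_ker]
    apply hs
    intro x hx
    exact (IntermediateField.mem_fixingSubgroup_iff _ σ).mp hσ x
      (IntermediateField.subset_adjoin ℚ _ hx)
  have hNtop : χ.ker ≠ ⊤ := by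
    intro h
    apply hσ₀
    have : σ₀ ∈ χ.ker := by rw [h]; trivial
    exact MonoidHom.mem_ker.mp this
  obtain ⟨q, hq, hqA⟩ := exists_inertia_not_fixing χ.ker hNopen hNtop
  obtain ⟨A, hA, hAχ⟩ := hunr q hq
  obtain ⟨σ, hσI, hσN⟩ := hqA A hA
  exact hσN (MonoidHom.mem_ker.mpr (hAχ σ hσI))

/-- **Minkowski for normal subgroups.** A normal subgroup of `Gal(ℚ̄/ℚ)` which contains the
pointwise stabiliser of a finite set and the inertia subgroup of one valuation subring over
every rational prime is everything. -/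
theorem minkowski_subgroup (H : Subgroup (AlgebraicClosure ℚ ≃ₐ[ℚ] AlgebraicClosure ℚ))
    (hH : H.Normal)
    (hopen : ∃ s : Finset (AlgebraicClosure ℚ),
      ∀ σ : AlgebraicClosure ℚ ≃ₐ[ℚ] AlgebraicClosure ℚ, (∀ x ∈ s, σ x = x) → σ ∈ H)
    (hunr : ∀ q : ℕ, q.Prime → ∃ A : ValuationSubring (AlgebraicClosure ℚ),
      A.LiesOverPrime q ∧ ∀ σ ∈ A.inertiaSubgroupIn ℚ, σ ∈ H) : H = ⊤ := by
  have key := minkowski_character (QuotientGroup.mk' H)
    (by
      obtain ⟨s, hs⟩ := hopen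
      exact ⟨s, fun σ hσ => (QuotientGroup.eq_one_iff σ).mpr (hs σ hσ)⟩)
    (by
      intro q hq
      obtain ⟨A, hA, hAH⟩ := hunr q hq
      exact ⟨A, hA, fun σ hσ => (QuotientGroup.eq_one_iff σ).mpr (hAH σ hσ)⟩)
  rw [eq_top_iff]
  intro σ _
  exact (QuotientGroup.eq_one_iff σ).mp (key σ)

end Fermat.Agent.S13.H175

end
-- ===== PACK-END S13/H175/Minkowski.lean

-- ===== PACK-BEGIN S29/M4c.lean
section
/-
S29 row, PIECE `M4c` (helper92): linear algebra of the eigenclass.

* `M4c_tensor_ne_zero`  : `w j` linearly independent over `𝔽_p`, `κ` additive and injective on a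
  class `P` of characters, some `c j ≠ 0`  ⟹  `∑ j, w j ⊗ κ (c j) ≠ 0` in `F ⊗[ℤ] V`.
* `M4c_tensor_eigen`    : a pointwise identity `∑ j, w j * c' j γ = t * ∑ j, w j * c j γ` in `F`
  ⟹  `∑ j, w j ⊗ κ (c' j) = t • ∑ j, w j ⊗ κ (c j)`.
* `M4c_exists_eigenclass_of` : the Skeleton statement `exists_eigenclass`, with the conclusions of
  the pieces `M4a`, `M4b`, `HCoh` as hypotheses.
-/


set_option autoImplicit false

noncomputable section

namespace Fermat.Agent.S29

open ModularCurve AlgebraicCurve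
open scoped TensorProduct

section Abstract

variable {p : ℕ} [Fact p.Prime] {F : Type*} [Field F] [Algebra (ZMod p) F]
  {V : Type*} [AddCommGroup V] [Module (ZMod p) V] {Γ : Type*}

/-- `𝔽_p`-scalars move across `⊗[ℤ]`. -/
theorem M4c_smul_tmul (r : ZMod p) (f : F) (v : V) :
    (r • f) ⊗ₜ[ℤ] v = f ⊗ₜ[ℤ] (r • v) := by
  have h1 : r • f = ((r.val : ℤ)) • f := by
    conv_lhs => rw [← ZMod.natCast_zmod_val r]
    rw [Nat.cast_smul_eq_nsmul, natCast_zsmul]
  have h2 : r • v = ((r.val : ℤ)) • v := by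
    conv_lhs => rw [← ZMod.natCast_zmod_val r]
    rw [Nat.cast_smul_eq_nsmul, natCast_zsmul]
  rw [h1, h2, TensorProduct.smul_tmul]

/-- Coordinates: `f ⊗ v = ∑ i ∈ S, b i ⊗ (coord_i f • v)` for `S ⊇ supp f`. -/
theorem M4c_tmul_eq_sum {ι : Type*} (b : Module.Basis ι (ZMod p) F) (f : F) (v : V)
    (S : Finset ι) (hS : (b.repr f).support ⊆ S) :
    f ⊗ₜ[ℤ] v = ∑ i ∈ S, b i ⊗ₜ[ℤ] ((b.repr f i) • v) := by
  classical
  have hf : f = ∑ i ∈ S, (b.repr f i) • b i := by
    conv_lhs => rw [← b.linearCombination_repr f]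
    rw [Finsupp.linearCombination_apply, Finsupp.sum]
    refine Finset.sum_subset hS ?_
    intro i _ hi
    rw [Finsupp.notMem_support_iff.1 hi, zero_smul]
  conv_lhs => rw [hf]
  rw [TensorProduct.sum_tmul]
  refine Finset.sum_congr rfl fun i _ => ?_
  rw [M4c_smul_tmul]

variable (P : (Γ → ZMod p) → Prop) (κ : (Γ → ZMod p) → V)

/-- `κ` is `𝔽_p`-linear on finite combinations of characters in `P`. -/
theorem M4c_kappa_sum
    (hP0 : P 0) (hPadd : ∀ c c', P c → P c' → P (c + c'))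
    (hκadd : ∀ c c', P c → P c' → κ (c + c') = κ c + κ c')
    {n : ℕ} (c : Fin n → Γ → ZMod p) (hc : ∀ j, P (c j)) (r : Fin n → ZMod p) :
    P (∑ j, r j • c j) ∧ κ (∑ j, r j • c j) = ∑ j, r j • κ (c j) := by
  classical
  have hκ0 : κ 0 = 0 := by
    have := hκadd 0 0 hP0 hP0
    rw [add_zero] at this
    exact left_eq_add.mp this
  -- natural multiples
  have hnat : ∀ (m : ℕ) (d : Γ → ZMod p), P d → P (m • d) ∧ κ (m • d) = m • κ d := by
    intro m d hd
    induction m with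
    | zero => simpa using ⟨hP0, hκ0⟩
    | succ m ih =>
      rw [succ_nsmul, succ_nsmul]
      exact ⟨hPadd _ _ ih.1 hd, by rw [hκadd _ _ ih.1 hd, ih.2]⟩
  have hsmul : ∀ (s : ZMod p) (d : Γ → ZMod p), P d → P (s • d) ∧ κ (s • d) = s • κ d := by
    intro s d hd
    have h1 : s • d = s.val • d := by
      conv_lhs => rw [← ZMod.natCast_zmod_val s]
      rw [Nat.cast_smul_eq_nsmul]
    have h2 : s • κ d = s.val • κ d := by
      conv_lhs => rw [← ZMod.natCast_zmod_val s]
      rw [Nat.cast_smul_eq_nsmul]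
    rw [h1, h2]
    exact hnat _ d hd
  -- finite sums
  have hsum : ∀ T : Finset (Fin n),
      P (∑ j ∈ T, r j • c j) ∧ κ (∑ j ∈ T, r j • c j) = ∑ j ∈ T, r j • κ (c j) := by
    intro T
    induction T using Finset.induction_on with
    | empty => simpa using ⟨hP0, hκ0⟩
    | insert j T hj ih =>
      rw [Finset.sum_insert hj, Finset.sum_insert hj]
      have hj' := hsmul (r j) (c j) (hc j)
      exact ⟨hPadd _ _ hj'.1 ih.1, by rw [hκadd _ _ hj'.1 ih.1, hj'.2, ih.2]⟩
  exact hsum Finset.univ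

/-- The eigen-identity passes from values to `F ⊗ V`. -/
theorem M4c_tensor_eigen
    (hP0 : P 0) (hPadd : ∀ c c', P c → P c' → P (c + c'))
    (hκadd : ∀ c c', P c → P c' → κ (c + c') = κ c + κ c')
    {n : ℕ} (w : Fin n → F) (c c' : Fin n → Γ → ZMod p)
    (hc : ∀ j, P (c j)) (hc' : ∀ j, P (c' j)) (t : F)
    (hid : ∀ γ : Γ, ∑ j, w j * algebraMap (ZMod p) F (c' j γ)
      = t * ∑ j, w j * algebraMap (ZMod p) F (c j γ)) :
    (∑ j, w j ⊗ₜ[ℤ] κ (c' j) : F ⊗[ℤ] V) = t • ∑ j, w j ⊗ₜ[ℤ] κ (c j) := by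
  classical
  let b := Module.Free.chooseBasis (ZMod p) F
  let S : Finset (Module.Free.ChooseBasisIndex (ZMod p) F) :=
    (Finset.univ.biUnion fun j => (b.repr (w j)).support) ∪
      (Finset.univ.biUnion fun j => (b.repr (t * w j)).support)
  have hS1 : ∀ j, (b.repr (w j)).support ⊆ S := fun j =>
    (Finset.subset_biUnion_of_mem (fun j => (b.repr (w j)).support) (Finset.mem_univ j)).trans
      Finset.subset_union_left
  have hS2 : ∀ j, (b.repr (t * w j)).support ⊆ S := fun j =>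
    (Finset.subset_biUnion_of_mem (fun j => (b.repr (t * w j)).support)
      (Finset.mem_univ j)).trans Finset.subset_union_right
  -- coordinate identity
  have hcoord : ∀ i, (∑ j, (b.repr (w j) i) • c' j) = ∑ j, (b.repr (t * w j) i) • c j := by
    intro i
    funext γ
    have h := congrArg (fun f => b.repr f i) (hid γ)
    simp only [Finset.mul_sum] at h
    simp only [map_sum, Finsupp.coe_finset_sum, Finset.sum_apply] at h
    have e1 : ∀ j, b.repr (w j * algebraMap (ZMod p) F (c' j γ)) i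
        = b.repr (w j) i * c' j γ := by
      intro j
      rw [mul_comm (w j), ← Algebra.smul_def, map_smul, Finsupp.smul_apply, smul_eq_mul,
        mul_comm]
    have e2 : ∀ j, b.repr (t * (w j * algebraMap (ZMod p) F (c j γ))) i
        = b.repr (t * w j) i * c j γ := by
      intro j
      rw [← mul_assoc, mul_comm (t * w j), ← Algebra.smul_def, map_smul, Finsupp.smul_apply,
        smul_eq_mul, mul_comm]
    simp only [e1, e2] at h
    simpa [Finset.sum_apply, Pi.smul_apply, smul_eq_mul] using h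
  -- expand both sides
  have hL : (∑ j, w j ⊗ₜ[ℤ] κ (c' j) : F ⊗[ℤ] V)
      = ∑ i ∈ S, b i ⊗ₜ[ℤ] κ (∑ j, (b.repr (w j) i) • c' j) := by
    have : ∀ j, w j ⊗ₜ[ℤ] κ (c' j) = ∑ i ∈ S, b i ⊗ₜ[ℤ] ((b.repr (w j) i) • κ (c' j)) :=
      fun j => M4c_tmul_eq_sum b (w j) (κ (c' j)) S (hS1 j)
    simp only [this]
    rw [Finset.sum_comm]
    refine Finset.sum_congr rfl fun i _ => ?_
    rw [(M4c_kappa_sum P κ hP0 hPadd hκadd c' hc' fun j => b.repr (w j) i).2,
      TensorProduct.tmul_sum]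
  have hR : (t • ∑ j, w j ⊗ₜ[ℤ] κ (c j) : F ⊗[ℤ] V)
      = ∑ i ∈ S, b i ⊗ₜ[ℤ] κ (∑ j, (b.repr (t * w j) i) • c j) := by
    rw [Finset.smul_sum]
    have : ∀ j, t • (w j ⊗ₜ[ℤ] κ (c j) : F ⊗[ℤ] V)
        = ∑ i ∈ S, b i ⊗ₜ[ℤ] ((b.repr (t * w j) i) • κ (c j)) := by
      intro j
      rw [TensorProduct.smul_tmul', smul_eq_mul]
      exact M4c_tmul_eq_sum b (t * w j) (κ (c j)) S (hS2 j)
    simp only [this]
    rw [Finset.sum_comm]
    refine Finset.sum_congr rfl fun i _ => ?_
    rw [(M4c_kappa_sum P κ hP0 hPadd hκadd c hc fun j => b.repr (t * w j) i).2,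
      TensorProduct.tmul_sum]
  rw [hL, hR]
  refine Finset.sum_congr rfl fun i _ => ?_
  rw [hcoord i]

/-- Non-vanishing of the eigenclass. -/
theorem M4c_tensor_ne_zero
    (hκinj : ∀ c, P c → κ c = 0 → c = 0)
    {n : ℕ} (w : Fin n → F) (c : Fin n → Γ → ZMod p)
    (hw : LinearIndependent (ZMod p) w) (hc : ∀ j, P (c j)) (hc0 : ∃ j, c j ≠ 0) :
    (∑ j, w j ⊗ₜ[ℤ] κ (c j) : F ⊗[ℤ] V) ≠ 0 := by
  classical
  intro hx
  obtain ⟨j0, hj0⟩ := hc0
  apply hj0
  apply hκinj _ (hc j0)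
  -- a left inverse of `r ↦ ∑ r j • w j`
  let W : (Fin n → ZMod p) →ₗ[ZMod p] F := Fintype.linearCombination (ZMod p) w
  have hWinj : Function.Injective W := by
    rw [injective_iff_map_eq_zero]
    intro r hr
    have h0 := Fintype.linearIndependent_iff.1 hw r (by
      simpa [W, Fintype.linearCombination_apply] using hr)
    funext i
    exact h0 i
  obtain ⟨L, hL⟩ := W.exists_leftInverse_of_injective (LinearMap.ker_eq_bot.2 hWinj)
  have hLw : ∀ j, L (w j) = Pi.single j 1 := by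
    intro j
    have h1 : W (Pi.single j 1) = w j := by
      simp [W, Fintype.linearCombination_apply, Pi.single_apply]
    rw [← h1]
    exact LinearMap.congr_fun hL (Pi.single j 1)
  -- the functional `f ⊗ v ↦ (L f j0) • v`
  let β : F →+ V →+ V :=
    { toFun := fun f => DistribSMul.toAddMonoidHom V (L f j0)
      map_zero' := by
        ext v
        simp
      map_add' := fun f f' => by
        ext v
        simp [add_smul] }
  have hβ : ∀ (r : ℤ) (f : F) (v : V), β (r • f) v = β f (r • v) := by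
    intro r f v
    show L (r • f) j0 • v = L f j0 • (r • v)
    rw [map_zsmul, Pi.smul_apply, smul_assoc, smul_comm]
  let Φ : F ⊗[ℤ] V →+ V := TensorProduct.liftAddHom β hβ
  have hΦt : ∀ (f : F) (v : V), Φ (f ⊗ₜ[ℤ] v) = L f j0 • v := fun f v => rfl
  have hΦ : Φ (∑ j, w j ⊗ₜ[ℤ] κ (c j)) = κ (c j0) := by
    rw [map_sum]
    simp only [hΦt, hLw]
    rw [Finset.sum_eq_single j0]
    · simp
    · intro j _ hj
      simp [hj.symm]
    · intro h
      exact absurd (Finset.mem_univ j0) h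
  rw [hx, map_zero] at hΦ
  exact hΦ.symm

end Abstract

section Final

variable (N : ℕ)

theorem M4c_isParHom_zero {A : Type*} [AddCommGroup A] : IsParHom (0 : G0 N → A) :=
  ⟨fun _ _ => by simp, fun _ _ => rfl, fun _ _ _ _ => rfl⟩

variable {N}

theorem M4c_isParHom_add {A : Type*} [AddCommGroup A] {c c' : G0 N → A}
    (h : IsParHom c) (h' : IsParHom c') : IsParHom (c + c') :=
  ⟨fun γ γ' => by
      simp only [Pi.add_apply, h.map_mul, h'.map_mul]
      abel,
    fun γ hγ => by simp only [Pi.add_apply, h.parabolic γ hγ, h'.parabolic γ hγ, add_zero],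
    fun γ n hn hγ => by
      simp only [Pi.add_apply, h.elliptic γ n hn hγ, h'.elliptic γ n hn hγ, add_zero]⟩

variable (N) [NeZero N]

/-- PIECE `M4c`, with the conclusions of `M4a` (`hA`), `M4b` (`hB`) and `HCoh` (`hH`) as
hypotheses; `t ℓ` plays the role of `ψ (a ℓ)`.  The Skeleton statement `exists_eigenclass` is
`M4c_exists_eigenclass_of N hp (fun ℓ => ψ (a ℓ)) (fun _ _ => exists_eigen_parHom N hg ψ a ha)
  (fun _ => exists_kummerMap N p) (fun ℓ hℓ hℓN c hc => isParHom_heckeCoh N hℓ hℓN hc)`. -/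
theorem M4c_exists_eigenclass_of {p : ℕ} (hp : p.Prime) {F : Type} [Field F] [CharP F p]
    (t : ℕ → F)
    (hA : ∀ (_ : Fact p.Prime) (_ : Algebra (ZMod p) F),
      ∃ (n : ℕ) (w : Fin n → F) (c : Fin n → G0 N → ZMod p),
        LinearIndependent (ZMod p) w ∧ (∀ j, IsParHom (c j)) ∧ (∃ j, c j ≠ 0) ∧
        ∀ ℓ : ℕ, ℓ.Prime → ¬ ℓ ∣ N * p → ∀ γ : G0 N,
          ∑ j, w j * algebraMap (ZMod p) F (heckeCoh N ℓ (c j) γ)
            = t ℓ * ∑ j, w j * algebraMap (ZMod p) F (c j γ))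
    (hB : ∀ (_ : Fact p.Prime),
      ∃ κ : (G0 N → ZMod p) → Jp N p,
        (∀ c c', IsParHom c → IsParHom c' → κ (c + c') = κ c + κ c') ∧
        (∀ c, IsParHom c → κ c = 0 → c = 0) ∧
        (∀ ℓ : Nat.Primes, ¬ (ℓ : ℕ) ∣ N * p → ∀ c, IsParHom c →
          κ (heckeCoh N ℓ c) = heckeJp N p ℓ (κ c)))
    (hH : ∀ ℓ : ℕ, ℓ.Prime → ¬ ℓ ∣ N → ∀ c : G0 N → ZMod p, IsParHom c →
      IsParHom (heckeCoh N ℓ c)) :
    ∃ x : F ⊗[ℤ] Jp N p, x ≠ 0 ∧ ∀ ℓ : Nat.Primes, ¬ (ℓ : ℕ) ∣ N * p →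
      (heckeJp N p ℓ).baseChange F x = t ℓ • x := by
  classical
  haveI hpF : Fact p.Prime := ⟨hp⟩
  letI : Algebra (ZMod p) F := ZMod.algebra F p
  letI : Module (ZMod p) (Jp N p) := AddCommGroup.zmodModule (n := p) (fun x => by
    have hx := x.2
    rw [Submodule.mem_torsionBy_iff] at hx
    apply Subtype.ext
    have h2 : ((p • x : Jp N p) : JZero N) = (p : ℤ) • (x : JZero N) := by
      rw [natCast_zsmul]
      exact Submodule.coe_smul_of_tower p x
    rw [h2, hx]
    rfl)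
  obtain ⟨n, w, c, hw, hc, hc0, hid⟩ := hA hpF inferInstance
  obtain ⟨κ, hκadd, hκinj, hκT⟩ := hB hpF
  refine ⟨∑ j, w j ⊗ₜ[ℤ] κ (c j),
    M4c_tensor_ne_zero (fun c : G0 N → ZMod p => IsParHom c) κ hκinj w c hw hc hc0, ?_⟩
  intro ℓ hℓ
  have hℓN : ¬ (ℓ : ℕ) ∣ N := fun h => hℓ (Dvd.dvd.mul_right h p)
  have hc' : ∀ j, IsParHom (heckeCoh N ℓ (c j)) := fun j => hH ℓ ℓ.2 hℓN (c j) (hc j)
  rw [map_sum]
  simp only [LinearMap.baseChange_tmul]
  have h1 : ∀ j, heckeJp N p ℓ (κ (c j)) = κ (heckeCoh N ℓ (c j)) := fun j =>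
    (hκT ℓ hℓ (c j) (hc j)).symm
  simp only [h1]
  exact M4c_tensor_eigen (fun c : G0 N → ZMod p => IsParHom c) κ (M4c_isParHom_zero N)
    (fun c c' h h' => M4c_isParHom_add h h') hκadd w c (fun j => heckeCoh N ℓ (c j)) hc hc'
    (t ℓ) (hid ℓ ℓ.2 hℓ)

end Final

end Fermat.Agent.S29

end
end
-- ===== PACK-END S29/M4c.lean

-- ===== PACK-BEGIN S29/Orb.lean
section
/-
S29 row, PIECE `Orb` (helper449): exact skeleton statement `exists_finite_stable_submodule`,
proved in `Fermat/Agent/S29/H449/Orb.lean`.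
-/



set_option autoImplicit false

namespace Fermat.Agent.S29

/-- PIECE `Orb` (a smooth nonzero module contains a nonzero finite-dimensional stable subspace on
which an open subgroup acts trivially). -/
theorem exists_finite_stable_submodule {F : Type} [Field F] {M : Type} [AddCommGroup M]
    [Module F M] [Nontrivial M] (ρ : GQ →* Module.End F M) (hsm : IsSmoothRep ρ) :
    ∃ W : Submodule F M, W ≠ ⊥ ∧ Module.Finite F W ∧ (∀ σ : GQ, ∀ x ∈ W, ρ σ x ∈ W) ∧
      ∃ L : IntermediateField ℚ (AlgebraicClosure ℚ), FiniteDimensional ℚ L ∧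
        ∀ σ : GQ, (∀ y ∈ L, σ y = y) → ∀ x ∈ W, ρ σ x = x :=
  H449.exists_finite_stable_submodule ρ hsm

end Fermat.Agent.S29

end
-- ===== PACK-END S29/Orb.lean

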