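import Mathlib
import Mathlib.RingTheory.IntegralClosure.IntegrallyClosed
import Mathlib.RingTheory.Ideal.Span
import Mathlib.Data.Nat.Choose.Sum
import Mathlib.Tactic.Ring
import Mathlib.RingTheory.Henselian
import Mathlib.Algebra.Polynomial.Reverse
import Mathlib.Algebra.Polynomial.Taylor
import Mathlib.FieldTheory.IsAlgClosed.Basic
import Mathlib.Tactic.LinearCombination
import Mathlib.RingTheory.Valuation.ValuationSubring
import Mathlib.Tactic
import Mathlib.RingTheory.Polynomial.Cyclotomic.Basic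
import Mathlib.RingTheory.Adjoin.Basic
import Mathlib.Tactic.FieldSimp
import Mathlib.Tactic.GCongr
import Mathlib.RingTheory.IntegralClosure.GoingDown
import Mathlib.RingTheory.Ideal.GoingUp
import Fermat.Agent.Pack.S44C.G0E1L2

-- ===== PACK-BEGIN A2/H48/TwoVal.lean
section


/-!
# A2 / piece QEP2, part 1 (helper48): two valuation rings with a common uniformiser

Mathlib-only.  `F` a field, `V₁ ≠ V₂` valuation subrings of `F` whose maximal ideals are both
generated by the same element `ϖ` (both "unramified" over a common base).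

* `IsUnif V ϖ` : `ϖ ∈ V`, `ϖ⁻¹ ∉ V`, and every non-unit of `V` is divisible by `ϖ` in `V`;
* `exists_separating` : there is `c` with `c ∈ 𝔪₁` and `c⁻¹ ∈ 𝔪₂`;
* `exists_approx` : for `f ∈ V₁` with `ϖ ^ k * f ∈ V₂` there is `g ∈ V₁ ∩ V₂` with
  `g ≡ f mod ϖ V₁` and `g ∈ ϖ V₂` (explicit weak approximation).
-/

set_option autoImplicit false

namespace Fermat.Agent.A2.H48

variable {F : Type*} [Field F]

/-- `ϖ` generates the maximal ideal of the valuation subring `V` (elementwise form). -/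
structure IsUnif (V : ValuationSubring F) (ϖ : F) : Prop where
  mem : ϖ ∈ V
  inv_not_mem : ϖ⁻¹ ∉ V
  gen : ∀ f ∈ V, f⁻¹ ∉ V → f * ϖ⁻¹ ∈ V

namespace IsUnif

variable {V : ValuationSubring F} {ϖ : F}

theorem ne_zero (h : IsUnif V ϖ) : ϖ ≠ 0 := by
  rintro rfl
  exact h.inv_not_mem (by simp)

theorem val_lt_one (h : IsUnif V ϖ) : V.valuation ϖ < 1 := by
  have h1 : V.valuation ϖ ≤ 1 := (V.valuation_le_one_iff ϖ).2 h.mem
  rcases lt_or_eq_of_le h1 with h2 | h2
  · exact h2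
  · exfalso
    apply h.inv_not_mem
    rw [← V.valuation_le_one_iff, map_inv₀, h2, inv_one]

theorem val_ne_zero (h : IsUnif V ϖ) : V.valuation ϖ ≠ 0 :=
  (Valuation.ne_zero_iff _).2 h.ne_zero

theorem val_le_of_lt_one (h : IsUnif V ϖ) {f : F} (hf : V.valuation f < 1) :
    V.valuation f ≤ V.valuation ϖ := by
  by_cases hf0 : f = 0
  · subst hf0; simp
  have hfV : f ∈ V := (V.valuation_le_one_iff f).1 hf.le
  have hfinv : f⁻¹ ∉ V := by
    intro hmem
    have h1 : V.valuation f⁻¹ ≤ 1 := (V.valuation_le_one_iff _).2 hmem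
    rw [map_inv₀] at h1
    have h2 : V.valuation f ≠ 0 := (Valuation.ne_zero_iff _).2 hf0
    have h3 : 1 ≤ V.valuation f := by
      rwa [inv_le_one₀ (zero_lt_iff.2 h2)] at h1
    exact absurd hf (not_lt.2 h3)
  have h4 := h.gen f hfV hfinv
  have h5 : V.valuation (f * ϖ⁻¹) ≤ 1 := (V.valuation_le_one_iff _).2 h4
  rw [map_mul, map_inv₀] at h5
  rwa [mul_inv_le_iff₀ (zero_lt_iff.2 h.val_ne_zero), one_mul] at h5

/-- membership in `ϖ V` in terms of the valuation -/
theorem mul_inv_mem_iff (h : IsUnif V ϖ) {f : F} :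
    f * ϖ⁻¹ ∈ V ↔ V.valuation f < 1 := by
  rw [← V.valuation_le_one_iff, map_mul, map_inv₀,
    mul_inv_le_iff₀ (zero_lt_iff.2 h.val_ne_zero), one_mul]
  constructor
  · intro h1; exact lt_of_le_of_lt h1 h.val_lt_one
  · intro h1; exact h.val_le_of_lt_one h1

theorem pow_mul_inv_mem (h : IsUnif V ϖ) {f : F} (k : ℕ) (hf : V.valuation f ≤ V.valuation ϖ ^ k) :
    f * (ϖ ^ k)⁻¹ ∈ V := by
  rw [← V.valuation_le_one_iff, map_mul, map_inv₀, map_pow,
    mul_inv_le_iff₀ (pow_pos (zero_lt_iff.2 h.val_ne_zero) k), one_mul]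
  exact hf

end IsUnif

section Two

variable {V₁ V₂ : ValuationSubring F} {ϖ : F}

theorem not_le_of_ne (h₁ : IsUnif V₁ ϖ) (h₂ : IsUnif V₂ ϖ) (hne : V₁ ≠ V₂) : ¬ V₁ ≤ V₂ := by
  intro hle
  have : ¬ V₂ ≤ V₁ := fun h => hne (le_antisymm hle h)
  obtain ⟨b, hb2, hb1⟩ := SetLike.not_le_iff_exists.1 this
  have hb0 : b ≠ 0 := by rintro rfl; exact hb1 (zero_mem _)
  have hv1 : 1 < V₁.valuation b := by
    rw [← not_le, V₁.valuation_le_one_iff]; exact hb1
  have hv1' : V₁.valuation b⁻¹ < 1 := by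
    rw [map_inv₀]
    exact inv_lt_one_of_one_lt₀ hv1
  have h3 : b⁻¹ * ϖ⁻¹ ∈ V₁ := h₁.mul_inv_mem_iff.2 hv1'
  have h4 : b⁻¹ * ϖ⁻¹ ∈ V₂ := hle h3
  apply h₂.inv_not_mem
  have : ϖ⁻¹ = b * (b⁻¹ * ϖ⁻¹) := by field_simp
  rw [this]
  exact mul_mem hb2 h4

/-- Two distinct valuation rings with the same uniformiser are incomparable: there is `c` in the
maximal ideal of `V₁` whose inverse lies in the maximal ideal of `V₂`. -/
theorem exists_separating (h₁ : IsUnif V₁ ϖ) (h₂ : IsUnif V₂ ϖ) (hne : V₁ ≠ V₂) :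
    ∃ c : F, c ≠ 0 ∧ V₁.valuation c < 1 ∧ V₂.valuation c⁻¹ < 1 := by
  obtain ⟨a, ha1, ha2⟩ := SetLike.not_le_iff_exists.1 (not_le_of_ne h₁ h₂ hne)
  obtain ⟨b, hb2, hb1⟩ := SetLike.not_le_iff_exists.1 (not_le_of_ne h₂ h₁ (Ne.symm hne))
  have ha0 : a ≠ 0 := by rintro rfl; exact ha2 (zero_mem _)
  have hb0 : b ≠ 0 := by rintro rfl; exact hb1 (zero_mem _)
  have hv1a : V₁.valuation a ≤ 1 := (V₁.valuation_le_one_iff a).2 ha1
  have hv2b : V₂.valuation b ≤ 1 := (V₂.valuation_le_one_iff b).2 hb2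
  have hv1b : 1 < V₁.valuation b := by
    rw [← not_le, V₁.valuation_le_one_iff]; exact hb1
  have hv2a : 1 < V₂.valuation a := by
    rw [← not_le, V₂.valuation_le_one_iff]; exact ha2
  refine ⟨a * b⁻¹, mul_ne_zero ha0 (inv_ne_zero hb0), ?_, ?_⟩
  · rw [map_mul, map_inv₀]
    calc V₁.valuation a * (V₁.valuation b)⁻¹ ≤ 1 * (V₁.valuation b)⁻¹ :=
          mul_le_mul_left hv1a _
      _ < 1 := by rw [one_mul]; exact inv_lt_one_of_one_lt₀ hv1b
  · rw [mul_inv, inv_inv, map_mul, map_inv₀]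
    calc (V₂.valuation a)⁻¹ * V₂.valuation b ≤ (V₂.valuation a)⁻¹ * 1 :=
          mul_le_mul_right hv2b _
      _ < 1 := by rw [mul_one]; exact inv_lt_one_of_one_lt₀ hv2a

/-- Explicit weak approximation: an element `f ∈ V₁` can be corrected, modulo `ϖ V₁`, to an
element of `V₁ ∩ ϖ V₂`. -/
theorem exists_approx (h₁ : IsUnif V₁ ϖ) (h₂ : IsUnif V₂ ϖ) (hne : V₁ ≠ V₂)
    {f : F} (hf : f ∈ V₁) {k : ℕ} (hk : ϖ ^ k * f ∈ V₂) :
    ∃ g : F, g ∈ V₁ ∧ (g - f) * ϖ⁻¹ ∈ V₁ ∧ g * ϖ⁻¹ ∈ V₂ := by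
  obtain ⟨c, hc0, hc1, hc2⟩ := exists_separating h₁ h₂ hne
  set n := k + 1 with hn
  have hcn1 : V₁.valuation (c ^ n) < 1 := by
    rw [map_pow]; exact pow_lt_one₀ zero_le hc1 (by omega)
  have hcn2 : V₂.valuation ((c⁻¹) ^ n) < 1 := by
    rw [map_pow]; exact pow_lt_one₀ zero_le hc2 (by omega)
  have hu1 : V₁.valuation (1 + c ^ n) = 1 := Valuation.map_one_add_of_lt _ hcn1
  have hu2 : V₂.valuation (1 + (c⁻¹) ^ n) = 1 := Valuation.map_one_add_of_lt _ hcn2
  have hne1 : 1 + c ^ n ≠ 0 := by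
    intro h; rw [h, map_zero] at hu1; exact zero_ne_one hu1
  have hne2 : 1 + (c⁻¹) ^ n ≠ 0 := by
    intro h; rw [h, map_zero] at hu2; exact zero_ne_one hu2
  set e := (1 + c ^ n)⁻¹ with he
  have he1 : V₁.valuation e = 1 := by rw [he, map_inv₀, hu1, inv_one]
  have hee : e - 1 = -(c ^ n) * e := by
    rw [he]; field_simp; ring
  have he1' : V₁.valuation (e - 1) < 1 := by
    rw [hee, map_mul, Valuation.map_neg, he1, mul_one]; exact hcn1
  have hee2 : e = (c⁻¹) ^ n * (1 + (c⁻¹) ^ n)⁻¹ := by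
    have hcn0 : c ^ n ≠ 0 := pow_ne_zero _ hc0
    have h3 : 1 + (c ^ n)⁻¹ ≠ 0 := by rwa [inv_pow] at hne2
    rw [he, inv_pow, eq_comm, ← div_eq_mul_inv, div_eq_iff h3, ← div_eq_inv_mul, 
      eq_div_iff hne1]
    field_simp
    ring
  have he2 : V₂.valuation e ≤ V₂.valuation ϖ ^ n := by
    rw [hee2, map_mul, map_inv₀, hu2, inv_one, mul_one, map_pow]
    exact pow_le_pow_left₀ zero_le (h₂.val_le_of_lt_one hc2) n
  refine ⟨f * e, ?_, ?_, ?_⟩
  · exact mul_mem hf ((V₁.valuation_le_one_iff e).1 he1.le)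
  · rw [h₁.mul_inv_mem_iff]
    have : f * e - f = f * (e - 1) := by ring
    rw [this, map_mul]
    calc V₁.valuation f * V₁.valuation (e - 1) ≤ 1 * V₁.valuation (e - 1) :=
          mul_le_mul_left ((V₁.valuation_le_one_iff f).2 hf) _
      _ < 1 := by rw [one_mul]; exact he1'
  · rw [h₂.mul_inv_mem_iff]
    have hk' : V₂.valuation ϖ ^ k * V₂.valuation f ≤ 1 := by
      have := (V₂.valuation_le_one_iff _).2 hk
      rwa [map_mul, map_pow] at this
    rw [map_mul]
    calc V₂.valuation f * V₂.valuation e ≤ V₂.valuation f * V₂.valuation ϖ ^ n :=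
          mul_le_mul_right he2 _
      _ = (V₂.valuation ϖ ^ k * V₂.valuation f) * V₂.valuation ϖ := by
          rw [hn, pow_succ, mul_comm (V₂.valuation ϖ ^ k) (V₂.valuation f), mul_assoc]
      _ ≤ 1 * V₂.valuation ϖ := mul_le_mul_left hk' _
      _ < 1 := by rw [one_mul]; exact h₂.val_lt_one

end Two

end Fermat.Agent.A2.H48

end
-- ===== PACK-END A2/H48/TwoVal.lean

-- ===== PACK-BEGIN A2/Alg/H754/LocU.lean
section


/-!
# A2 / ALG / P-S (helper754): elementwise local units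

`B` a domain with fraction field `F`, `𝔮` a prime of `B`.  `LocU 𝔮 f` : `f` is a unit of `B_𝔮`,
elementwise (`f = a / b`, `a, b ∈ B ∖ 𝔮`).  Closure under products, inverses, integer powers;
comparison with a valuation subring `W = B_𝔮` of `F`.
-/

set_option autoImplicit false

namespace Fermat.Agent.A2.Alg.H754

variable {B F : Type*} [CommRing B] [Field F] [Algebra B F]

/-- `f` is a unit of `B_𝔮`, elementwise. -/
def LocU (𝔮 : Ideal B) (f : F) : Prop :=
  ∃ a b : B, a ∉ 𝔮 ∧ b ∉ 𝔮 ∧ f * algebraMap B F b = algebraMap B F a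

namespace LocU

variable {𝔮 : Ideal B}

theorem one (h1 : (1 : B) ∉ 𝔮) : LocU 𝔮 (1 : F) :=
  ⟨1, 1, h1, h1, by rw [map_one, mul_one]⟩

theorem of_notMem {b : B} (hb : b ∉ 𝔮) (h1 : (1 : B) ∉ 𝔮) : LocU 𝔮 (algebraMap B F b) :=
  ⟨b, 1, hb, h1, by rw [map_one, mul_one]⟩

theorem mono {𝔮' : Ideal B} (h : 𝔮 ≤ 𝔮') {f : F} (hf : LocU 𝔮' f) : LocU 𝔮 f := by
  obtain ⟨a, b, ha, hb, hab⟩ := hf
  exact ⟨a, b, fun h' => ha (h h'), fun h' => hb (h h'), hab⟩

theorem mul [h𝔮 : 𝔮.IsPrime] {f g : F} (hf : LocU 𝔮 f) (hg : LocU 𝔮 g) : LocU 𝔮 (f * g) := by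
  obtain ⟨a, b, ha, hb, hab⟩ := hf
  obtain ⟨a', b', ha', hb', hab'⟩ := hg
  refine ⟨a * a', b * b', ?_, ?_, ?_⟩
  · exact fun h => (h𝔮.mem_or_mem h).elim ha ha'
  · exact fun h => (h𝔮.mem_or_mem h).elim hb hb'
  · rw [map_mul, map_mul, ← hab, ← hab']
    ring

theorem pow [h𝔮 : 𝔮.IsPrime] {f : F} (hf : LocU 𝔮 f) (k : ℕ) : LocU 𝔮 (f ^ k) := by
  induction k with
  | zero =>
    rw [pow_zero]
    exact one (fun h => h𝔮.ne_top ((Ideal.eq_top_iff_one _).2 h))
  | succ k ih =>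
    rw [pow_succ]
    exact ih.mul hf

variable [FaithfulSMul B F]

theorem algebraMap_ne_zero {b : B} (hb : b ∉ 𝔮) : algebraMap B F b ≠ 0 := by
  intro h
  have : b = 0 := FaithfulSMul.algebraMap_injective B F (by rw [h, map_zero])
  exact hb (this ▸ 𝔮.zero_mem)

theorem ne_zero {f : F} (hf : LocU 𝔮 f) : f ≠ 0 := by
  obtain ⟨a, b, ha, hb, hab⟩ := hf
  rintro rfl
  rw [zero_mul] at hab
  exact algebraMap_ne_zero ha hab.symm

theorem inv {f : F} (hf : LocU 𝔮 f) : LocU 𝔮 f⁻¹ := by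
  have hf0 := hf.ne_zero
  obtain ⟨a, b, ha, hb, hab⟩ := hf
  refine ⟨b, a, hb, ha, ?_⟩
  rw [← hab, ← mul_assoc, inv_mul_cancel₀ hf0, one_mul]

theorem zpow [h𝔮 : 𝔮.IsPrime] {f : F} (hf : LocU 𝔮 f) (k : ℤ) : LocU 𝔮 (f ^ k) := by
  cases k with
  | ofNat k =>
    rw [Int.ofNat_eq_natCast, zpow_natCast]
    exact hf.pow k
  | negSucc k =>
    rw [zpow_negSucc]
    exact (hf.pow (k + 1)).inv

/-- cancel a power: used with a valuation ring. -/
theorem of_mul_left [h𝔮 : 𝔮.IsPrime] {f g : F} (hfg : LocU 𝔮 (f * g)) (hg : LocU 𝔮 g) :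
    LocU 𝔮 f := by
  have hg0 := hg.ne_zero
  have := hfg.mul hg.inv
  rwa [mul_assoc, mul_inv_cancel₀ hg0, mul_one] at this

end LocU

section Val

variable [FaithfulSMul B F]

/-- `f` and `f⁻¹` both in `B_𝔮` (elementwise) implies `f` is a unit of `B_𝔮`. -/
theorem locU_of_frac_of_inv_frac (𝔮 : Ideal B) [h𝔮 : 𝔮.IsPrime] {f : F} (hf : f ≠ 0)
    (h1 : ∃ a s : B, s ∉ 𝔮 ∧ f * algebraMap B F s = algebraMap B F a)
    (h2 : ∃ a s : B, s ∉ 𝔮 ∧ f⁻¹ * algebraMap B F s = algebraMap B F a) : LocU 𝔮 f := by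
  obtain ⟨a, s, hs, has⟩ := h1
  obtain ⟨a', s', hs', has'⟩ := h2
  refine ⟨a, s, ?_, hs, has⟩
  intro ha
  have e : algebraMap B F (a * a') = algebraMap B F (s * s') := by
    rw [map_mul, map_mul, ← has, ← has']
    field_simp
  have e' : a * a' = s * s' := FaithfulSMul.algebraMap_injective B F e
  have : s * s' ∈ 𝔮 := e' ▸ 𝔮.mul_mem_right a' ha
  exact (h𝔮.mem_or_mem this).elim hs hs'

/-- Units of a valuation subring `W = B_𝔮`. -/
theorem locU_iff_of_valuationSubring (𝔮 : Ideal B) [h𝔮 : 𝔮.IsPrime] (W : ValuationSubring F)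
    (hW : ∀ f : F, f ∈ W ↔ ∃ a s : B, s ∉ 𝔮 ∧ f * algebraMap B F s = algebraMap B F a)
    {f : F} (hf : f ≠ 0) : LocU 𝔮 f ↔ f ∈ W ∧ f⁻¹ ∈ W := by
  constructor
  · intro h
    refine ⟨?_, ?_⟩
    · obtain ⟨a, b, -, hb, hab⟩ := h
      exact (hW f).2 ⟨a, b, hb, hab⟩
    · obtain ⟨a, b, -, hb, hab⟩ := h.inv
      exact (hW f⁻¹).2 ⟨a, b, hb, hab⟩
  · rintro ⟨h1, h2⟩
    exact locU_of_frac_of_inv_frac 𝔮 hf ((hW f).1 h1) ((hW f⁻¹).1 h2)

/-- In a valuation ring, an element whose positive power is a unit is a unit. -/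
theorem locU_of_pow (𝔮 : Ideal B) [h𝔮 : 𝔮.IsPrime] (W : ValuationSubring F)
    (hW : ∀ f : F, f ∈ W ↔ ∃ a s : B, s ∉ 𝔮 ∧ f * algebraMap B F s = algebraMap B F a)
    {f : F} {m : ℕ} (hm : 0 < m) (h : LocU 𝔮 (f ^ m)) : LocU 𝔮 f := by
  have hf0 : f ≠ 0 := by
    rintro rfl
    rw [zero_pow hm.ne'] at h
    exact h.ne_zero rfl
  obtain ⟨k, rfl⟩ : ∃ k, m = k + 1 := ⟨m - 1, (Nat.sub_add_cancel hm).symm⟩
  obtain ⟨h1, h2⟩ := (locU_iff_of_valuationSubring 𝔮 W hW (pow_ne_zero _ hf0)).1 h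
  rw [locU_iff_of_valuationSubring 𝔮 W hW hf0]
  rcases W.mem_or_inv_mem f with hf | hf
  · refine ⟨hf, ?_⟩
    have e : f⁻¹ = f ^ k * (f ^ (k + 1))⁻¹ := by
      rw [pow_succ]
      field_simp
    rw [e]
    exact W.mul_mem _ _ (pow_mem hf k) h2
  · refine ⟨?_, hf⟩
    have e : f = f⁻¹ ^ k * f ^ (k + 1) := by
      rw [pow_succ, inv_pow]
      field_simp
    rw [e]
    exact W.mul_mem _ _ (pow_mem hf k) h1

end Val

end Fermat.Agent.A2.Alg.H754

end
-- ===== PACK-END A2/Alg/H754/LocU.lean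

-- ===== PACK-BEGIN A2/H609/RootIdeal.lean
section





/-!
# Node purity, part 1: the root ideals `I_j = {f : u ^ j ∣ f ^ m}`

`R` is an integrally closed domain, `u : R`, `m ≥ 1`.  The set `{f | u ^ j ∣ f ^ m}` is an ideal
(integral closedness), `I_0 = ⊤`, `I_m = (u)`, `I_{j+1} ≤ I_j`, `I_j * I_k ≤ I_{j+k}`.
Mathlib only.
-/

set_option autoImplicit false

namespace Fermat.Agent.A2.H609

variable {R : Type*} [CommRing R] [IsDomain R] [IsIntegrallyClosed R]

/-- In an integrally closed domain, `a ^ m ∣ b ^ m → a ∣ b`. -/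
theorem dvd_of_pow_dvd_pow {m : ℕ} (hm : m ≠ 0) {a b : R} (h : a ^ m ∣ b ^ m) : a ∣ b :=
  (IsIntegrallyClosed.pow_dvd_pow_iff hm).1 h

/-- Key closure property: if `c ∣ f ^ m` and `c ∣ g ^ m` then `c ∣ f ^ i * g ^ (m - i)`. -/
theorem dvd_pow_mul_pow {m : ℕ} (hm : m ≠ 0) {c f g : R} (hf : c ∣ f ^ m) (hg : c ∣ g ^ m)
    {i : ℕ} (hi : i ≤ m) : c ∣ f ^ i * g ^ (m - i) := by
  apply dvd_of_pow_dvd_pow hm
  have h1 : (f ^ i * g ^ (m - i)) ^ m = (f ^ m) ^ i * (g ^ m) ^ (m - i) := by ring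
  have h2 : c ^ m = c ^ i * c ^ (m - i) := by
    rw [← pow_add, Nat.add_sub_cancel' hi]
  rw [h1, h2]
  exact mul_dvd_mul (pow_dvd_pow_of_dvd hf i) (pow_dvd_pow_of_dvd hg (m - i))

/-- The root ideal `I_j = {f | u ^ j ∣ f ^ m}`. -/
def rootIdeal (u : R) (m : ℕ) (hm : m ≠ 0) (j : ℕ) : Ideal R where
  carrier := {f | u ^ j ∣ f ^ m}
  add_mem' := by
    intro f g hf hg
    change u ^ j ∣ f ^ m at hf
    change u ^ j ∣ g ^ m at hg
    change u ^ j ∣ (f + g) ^ m
    rw [add_pow]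
    refine Finset.dvd_sum fun i hi => ?_
    have hi' : i ≤ m := Nat.lt_succ_iff.mp (Finset.mem_range.mp hi)
    exact Dvd.dvd.mul_right (dvd_pow_mul_pow hm hf hg hi') _
  zero_mem' := by
    change u ^ j ∣ (0 : R) ^ m
    rw [zero_pow hm]
    exact dvd_zero _
  smul_mem' := by
    intro c f hf
    change u ^ j ∣ f ^ m at hf
    change u ^ j ∣ (c * f) ^ m
    rw [mul_pow]
    exact Dvd.dvd.mul_left hf _

theorem mem_rootIdeal {u : R} {m : ℕ} {hm : m ≠ 0} {j : ℕ} {f : R} :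
    f ∈ rootIdeal u m hm j ↔ u ^ j ∣ f ^ m := Iff.rfl

theorem rootIdeal_zero (u : R) (m : ℕ) (hm : m ≠ 0) : rootIdeal u m hm 0 = ⊤ := by
  rw [Ideal.eq_top_iff_one, mem_rootIdeal, pow_zero]
  exact one_dvd _

theorem rootIdeal_self (u : R) (m : ℕ) (hm : m ≠ 0) :
    rootIdeal u m hm m = Ideal.span {u} := by
  ext f
  rw [mem_rootIdeal, Ideal.mem_span_singleton]
  exact IsIntegrallyClosed.pow_dvd_pow_iff hm

theorem rootIdeal_antitone (u : R) (m : ℕ) (hm : m ≠ 0) {j k : ℕ} (h : j ≤ k) :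
    rootIdeal u m hm k ≤ rootIdeal u m hm j := by
  intro f hf
  rw [mem_rootIdeal] at hf ⊢
  exact (pow_dvd_pow u h).trans hf

theorem mul_mem_rootIdeal {u : R} {m : ℕ} {hm : m ≠ 0} {j k : ℕ} {f g : R}
    (hf : f ∈ rootIdeal u m hm j) (hg : g ∈ rootIdeal u m hm k) :
    f * g ∈ rootIdeal u m hm (j + k) := by
  rw [mem_rootIdeal] at hf hg ⊢
  rw [mul_pow, pow_add]
  exact mul_dvd_mul hf hg

theorem pow_mem_rootIdeal {u : R} {m : ℕ} {hm : m ≠ 0} {f : R}
    (hf : f ∈ rootIdeal u m hm 1) (j : ℕ) : f ^ j ∈ rootIdeal u m hm j := by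
  rw [mem_rootIdeal] at hf ⊢
  rw [pow_one] at hf
  rw [← pow_mul, mul_comm, pow_mul]
  exact pow_dvd_pow_of_dvd hf j

theorem self_mem_rootIdeal_one (u : R) (m : ℕ) (hm : m ≠ 0) : u ∈ rootIdeal u m hm 1 := by
  rw [mem_rootIdeal, pow_one]
  exact dvd_pow_self u hm

theorem self_mul_mem_rootIdeal_succ {u : R} {m : ℕ} {hm : m ≠ 0} {j : ℕ} {f : R}
    (hf : f ∈ rootIdeal u m hm j) : u * f ∈ rootIdeal u m hm (j + 1) := by
  have := mul_mem_rootIdeal (self_mem_rootIdeal_one u m hm) hf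
  rwa [add_comm] at this

/-- `π`-saturation: if `u` is regular modulo `π` (i.e. `π ∣ u * r → π ∣ r`), then
`π * f ∈ I_j → f ∈ I_j`. -/
theorem mem_rootIdeal_of_mul_mem {u π : R} {m : ℕ} {hm : m ≠ 0} {j : ℕ}
    (hπ0 : π ≠ 0) (hreg : ∀ r : R, π ∣ u * r → π ∣ r) {f : R}
    (hf : π * f ∈ rootIdeal u m hm j) : f ∈ rootIdeal u m hm j := by
  rw [mem_rootIdeal] at hf ⊢
  -- `π ^ k ∣ u ^ j * r → π ^ k ∣ r`
  have hreg_pow : ∀ i : ℕ, ∀ r : R, π ∣ u ^ i * r → π ∣ r := by
    intro i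
    induction i with
    | zero => intro r h; simpa using h
    | succ i ih =>
      intro r h
      apply ih
      apply hreg
      rwa [← mul_assoc, ← pow_succ']
  have hkey : ∀ k : ℕ, ∀ r x : R, π ^ k * x = u ^ j * r → ∃ r', x = u ^ j * r' := by
    intro k
    induction k with
    | zero => intro r x h; exact ⟨r, by simpa using h⟩
    | succ k ih =>
      intro r x h
      have h1 : π ∣ u ^ j * r := ⟨π ^ k * x, by rw [← h]; ring⟩
      obtain ⟨r1, hr1⟩ := hreg_pow j r h1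
      apply ih r1 x
      have h2 : π * (π ^ k * x) = π * (u ^ j * r1) := by
        rw [← mul_assoc, ← pow_succ', h, hr1]; ring
      exact mul_left_cancel₀ hπ0 h2
  obtain ⟨r, hr⟩ := hf
  rw [mul_pow] at hr
  obtain ⟨r', hr'⟩ := hkey m r (f ^ m) hr
  exact ⟨r', hr'⟩

end Fermat.Agent.A2.H609

end
-- ===== PACK-END A2/H609/RootIdeal.lean

-- ===== PACK-BEGIN Ribet/H704/Period.lean
section
/-
RIBET row 38, wall at p, crux (I6) / W-FLAT: the abstract PERIOD lemma (piece P-ALG + P-DESC of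
`origin/helper704:coord/RIBET-I6-helper704.md`).  Mathlib only.

Setting (abstract): a field `F` (in the application `F = F'·K'`, the function field of the étale
`μ_p`-cover `X'_y` of `X₀(pM')` over the field of definition `K'` of `x`), two commuting
automorphisms `σ` (Galois, acts on constants) and `τ` (deck transformation, acts on functions), a
multiplicative "leading coefficient" map `lc` (evaluation at a rational point / leading coefficient
of the `t`-expansion) commuting with `σ`.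

Input : `τ f = f`, `σ f = f · c₀ · (h G)^p` with `σ h = h`, `τ h = ζ h`, `τ G = G`, `lc c₀ = c₀`.
Output: `f = lc f · f' · b^p` with `σ f' = f'` (descent of the class of `f` to the `σ`-fixed field),
and `τ f' = f' · ξ^p · G₁^p` with `σ G₁ = G₁` and a CONSTANT `ξ = lc ξ` with `σ ξ = ζ⁻¹ ξ`.
So `c := ξ^p` is `σ`-fixed, is not a `p`-th power of a `σ`-fixed element, and the constants `ξ` with
`σ ξ = ζ⁻¹ ξ` generate the field of definition: `c` is the "period" of `x`.
-/


namespace Fermat.Agent.Ribet.H704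

open Finset

section Hilbert90

variable {F : Type*} [Field F]

/-- The partial norms `∏_{j<i} σ^j η`. -/
noncomputable def partialNorm704 (σ : F ≃+* F) (η : F) (i : ℕ) : F :=
  ∏ j ∈ range i, (σ ^ j) η

lemma partialNorm704_zero (σ : F ≃+* F) (η : F) : partialNorm704 σ η 0 = 1 := by
  simp [partialNorm704]

lemma partialNorm704_succ (σ : F ≃+* F) (η : F) (i : ℕ) :
    η * σ (partialNorm704 σ η i) = partialNorm704 σ η (i + 1) := by
  unfold partialNorm704
  rw [map_prod, prod_range_succ']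
  have : ∀ j ∈ range i, σ ((σ ^ j) η) = (σ ^ (j + 1)) η := by
    intro j _
    rw [pow_succ', RingAut.mul_apply]
  rw [prod_congr rfl this]
  simp [mul_comm]

/-- Powers `σ^i`, `i < p`, of an automorphism of prime order are pairwise distinct. -/
lemma pow_injective_of_prime704 {p : ℕ} (hp : p.Prime) (σ : F ≃+* F) (hσp : σ ^ p = 1)
    (hσ1 : σ ≠ 1) : Function.Injective (fun i : Fin p => σ ^ (i : ℕ)) := by
  have : Fact p.Prime := ⟨hp⟩
  have hord : orderOf σ = p := orderOf_eq_prime hσp hσ1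
  intro i j hij
  have h := pow_injOn_Iio_orderOf (x := σ)
  have hi : (i : ℕ) ∈ Set.Iio (orderOf σ) := by rw [hord]; exact i.2
  have hj : (j : ℕ) ∈ Set.Iio (orderOf σ) := by rw [hord]; exact j.2
  exact Fin.ext (h hi hj hij)

/-- **Hilbert 90** for an automorphism of prime order of a field (no algebra structure needed):
if `∏_{i<p} σ^i η = 1` then `η = b / σ b`, i.e. `η * σ b = b`, for some `b ≠ 0`. -/
theorem hilbert90_prime704 {p : ℕ} (hp : p.Prime) (σ : F ≃+* F) (hσp : σ ^ p = 1)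
    (hσ1 : σ ≠ 1) (η : F) (hη : partialNorm704 σ η p = 1) :
    ∃ b : F, b ≠ 0 ∧ η * σ b = b := by
  classical
  -- the operator `B θ = ∑_{i<p} c_i σ^i θ`
  set B : F → F := fun θ => ∑ i ∈ range p, partialNorm704 σ η i * (σ ^ i) θ with hB
  have hfix : ∀ θ, η * σ (B θ) = B θ := by
    intro θ
    simp only [hB]
    rw [map_sum, mul_sum]
    have h1 : ∀ i ∈ range p, η * σ (partialNorm704 σ η i * (σ ^ i) θ)
        = partialNorm704 σ η (i + 1) * (σ ^ (i + 1)) θ := by
      intro i _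
      rw [map_mul, ← mul_assoc, partialNorm704_succ, pow_succ', RingAut.mul_apply]
    rw [sum_congr rfl h1]
    have h2 := sum_range_succ' (fun i => partialNorm704 σ η i * (σ ^ i) θ) p
    have h3 := sum_range_succ (fun i => partialNorm704 σ η i * (σ ^ i) θ) p
    rw [h3] at h2
    simp only [partialNorm704_zero, pow_zero, RingAut.one_apply, one_mul, hη, hσp] at h2
    -- h2 : ∑_{i<p} c_i σ^i θ + θ = ∑_{i<p} c_{i+1} σ^{i+1} θ + θ
    exact (add_right_cancel h2).symm
  by_cases hex : ∃ θ, B θ ≠ 0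
  · obtain ⟨θ, hθ⟩ := hex
    exact ⟨B θ, hθ, hfix θ⟩
  · exfalso
    simp only [not_exists, not_not] at hex
    -- linear independence of the characters `σ^i`
    have hli := linearIndependent_monoidHom F F
    let χ : Fin p → (F →* F) := fun i => ((σ ^ (i : ℕ) : F ≃+* F) : F →+* F).toMonoidHom
    have hχinj : Function.Injective χ := by
      intro i j hij
      apply pow_injective_of_prime704 hp σ hσp hσ1
      apply RingEquiv.ext
      intro z
      have := DFunLike.congr_fun hij z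
      simpa [χ] using this
    have hli' := hli.comp χ hχinj
    rw [Fintype.linearIndependent_iff] at hli'
    have h0 := hli' (fun i => partialNorm704 σ η (i : ℕ)) (by
      funext θ
      have := hex θ
      simp only [hB] at this
      rw [← Fin.sum_univ_eq_sum_range (fun i => partialNorm704 σ η i * (σ ^ i) θ) p] at this
      simpa [χ, Finset.sum_apply] using this) ⟨0, hp.pos⟩
    simp [partialNorm704_zero] at h0

lemma partialNorm704_mul (σ : F ≃+* F) (a b : F) (i : ℕ) :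
    partialNorm704 σ (a * b) i = partialNorm704 σ a i * partialNorm704 σ b i := by
  simp [partialNorm704, prod_mul_distrib]

lemma partialNorm704_inv (σ : F ≃+* F) (a : F) (i : ℕ) :
    partialNorm704 σ a⁻¹ i = (partialNorm704 σ a i)⁻¹ := by
  simp [partialNorm704]

lemma partialNorm704_pow (σ : F ≃+* F) (a : F) (n i : ℕ) :
    partialNorm704 σ (a ^ n) i = (partialNorm704 σ a i) ^ n := by
  simp [partialNorm704, prod_pow]

/-- Telescoping: the partial norm of `σ a / a` is `σ^i a / a`. -/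
lemma partialNorm704_div (σ : F ≃+* F) (a : F) (ha : a ≠ 0) (i : ℕ) :
    partialNorm704 σ (σ a / a) i = (σ ^ i) a / a := by
  induction i with
  | zero => simp [partialNorm704_zero, ha]
  | succ i ih =>
    rw [← partialNorm704_succ, ih, map_div₀, pow_succ', RingAut.mul_apply]
    have h1 : σ a ≠ 0 := by simpa using ha
    field_simp

end Hilbert90

section Period

variable {F : Type*} [Field F]

/-- **The period lemma (P-ALG + P-DESC).**
`σ`, `τ` commuting automorphisms of a field, `σ` of prime order `p`, `lc` a multiplicative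
"leading coefficient" map (idempotent, commuting with `σ`, with `τ`-fixed values), `ζ` a primitive
`p`-th root of unity which is a constant.  If `τ f = f` and `σ f = f · c₀ · H^p` with `c₀` constant
and `τ H = ζ H`, then the class of `f` modulo constants and `p`-th powers descends to the `σ`-fixed
field (`f = lc f · f' · b^p`, `σ f' = f'`), and the deck transformation `τ` moves the descended
function `f'` by a PERIOD: `τ f' = f' · ξ^p · G₁^p`, with `G₁` fixed by `σ` and `ξ` a constant with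
`σ ξ = ζ⁻¹ ξ` (so `ξ^p` is `σ`-fixed, but `ξ` is not). -/
theorem period_exists704 {p : ℕ} (hp : p.Prime) (σ τ : F ≃+* F)
    (hcomm : ∀ z, σ (τ z) = τ (σ z)) (hσp : σ ^ p = 1) (hσ1 : σ ≠ 1)
    (ζ : F) (hζ : IsPrimitiveRoot ζ p)
    (lc : F →*₀ F) (hlc_idem : ∀ z, lc (lc z) = lc z)
    (hlcσ : ∀ z, lc (σ z) = σ (lc z)) (hτlc : ∀ z, τ (lc z) = lc z) (hlcζ : lc ζ = ζ)
    (f H c₀ : F) (hf : f ≠ 0) (hc₀ : lc c₀ = c₀)
    (hτf : τ f = f) (hτH : τ H = ζ * H)
    (hσf : σ f = f * c₀ * H ^ p) :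
    ∃ f' b ξ G₁ : F, f' ≠ 0 ∧ b ≠ 0 ∧ ξ ≠ 0 ∧ G₁ ≠ 0 ∧ σ f' = f' ∧ f = lc f * f' * b ^ p ∧
      lc ξ = ξ ∧ σ ξ = ζ⁻¹ * ξ ∧ σ G₁ = G₁ ∧ lc G₁ = 1 ∧ τ f' = f' * ξ ^ p * G₁ ^ p := by
  have hp0 : p ≠ 0 := hp.ne_zero
  have : NeZero p := ⟨hp0⟩
  have hζ0 : ζ ≠ 0 := hζ.ne_zero hp0
  have hσf0 : σ f ≠ 0 := by simpa using hf
  have hc₀0 : c₀ ≠ 0 := by
    rintro rfl; apply hσf0; rw [hσf]; simp
  have hH0 : H ≠ 0 := by
    rintro rfl; apply hσf0; rw [hσf]; simp [hp0]
  have hlc0 : ∀ z, z ≠ 0 → lc z ≠ 0 := fun z hz => by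
    simpa using hz
  have hlcf : lc f ≠ 0 := hlc0 f hf
  have hlcH : lc H ≠ 0 := hlc0 H hH0
  -- normalise
  set f₁ : F := f / lc f with hf₁
  set H₁ : F := H / lc H with hH₁
  have hf₁0 : f₁ ≠ 0 := div_ne_zero hf hlcf
  have hH₁0 : H₁ ≠ 0 := div_ne_zero hH0 hlcH
  have hlcH₁ : lc H₁ = 1 := by
    rw [hH₁, map_div₀, hlc_idem, div_self hlcH]
  have hσlcf : σ (lc f) = lc f * c₀ * lc H ^ p := by
    rw [← hlcσ, hσf, map_mul, map_mul, map_pow, hc₀]
  have hσf₁ : σ f₁ = f₁ * H₁ ^ p := by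
    rw [hf₁, hH₁, map_div₀, hσf, hσlcf, div_pow]
    field_simp
  -- the norm of `H₁` is one
  have hN : partialNorm704 σ H₁ p = 1 := by
    have h1 : (partialNorm704 σ H₁ p) ^ p = 1 := by
      rw [← partialNorm704_pow]
      have : H₁ ^ p = σ f₁ / f₁ := by rw [hσf₁]; field_simp
      rw [this, partialNorm704_div σ f₁ hf₁0, hσp, RingAut.one_apply, div_self hf₁0]
    obtain ⟨j, _, hj⟩ := hζ.eq_pow_of_pow_eq_one h1
    have h2 : lc (partialNorm704 σ H₁ p) = 1 := by
      unfold partialNorm704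
      rw [map_prod]
      apply prod_eq_one
      intro i _
      have : ∀ i : ℕ, lc ((σ ^ i) H₁) = 1 := by
        intro i
        induction i with
        | zero => simpa using hlcH₁
        | succ i ih => rw [pow_succ', RingAut.mul_apply, hlcσ, ih, map_one]
      exact this i
    rw [← hj, map_pow, hlcζ, hj] at h2
    exact h2
  have hN' : partialNorm704 σ H₁⁻¹ p = 1 := by
    rw [partialNorm704_inv, hN, inv_one]
  obtain ⟨b, hb0, hb⟩ := hilbert90_prime704 hp σ hσp hσ1 H₁⁻¹ hN'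
  have hσb : σ b = H₁ * b := by
    calc σ b = H₁ * (H₁⁻¹ * σ b) := by field_simp
      _ = H₁ * b := by rw [hb]
  have hτb0 : τ b ≠ 0 := by simpa using hb0
  -- the descended function
  set f' : F := f₁ / b ^ p with hf'
  have hf'0 : f' ≠ 0 := div_ne_zero hf₁0 (pow_ne_zero _ hb0)
  have hσf' : σ f' = f' := by
    rw [hf', map_div₀, map_pow, hσf₁, hσb, mul_pow]
    field_simp
  have hτf₁ : τ f₁ = f₁ := by
    rw [hf₁, map_div₀, hτf, hτlc]
  have hτH₁ : τ H₁ = ζ * H₁ := by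
    rw [hH₁, map_div₀, hτH, hτlc, mul_div_assoc]
  -- the quotient `w = b / τ b`
  set w : F := b / τ b with hw
  have hw0 : w ≠ 0 := div_ne_zero hb0 hτb0
  have hσw : σ w = ζ⁻¹ * w := by
    rw [hw, map_div₀, hcomm, hσb, map_mul, hτH₁]
    field_simp
  have hτf' : τ f' = f' * w ^ p := by
    rw [hf', map_div₀, map_pow, hτf₁, hw, div_pow]
    field_simp
  have hlcw0 : lc w ≠ 0 := hlc0 w hw0
  refine ⟨f', b, lc w, w / lc w, hf'0, hb0, hlcw0, div_ne_zero hw0 hlcw0, hσf', ?_,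
    hlc_idem w, ?_, ?_, ?_, ?_⟩
  · rw [hf', hf₁]; field_simp
  · rw [← hlcσ, hσw, map_mul, map_inv₀, hlcζ]
  · rw [map_div₀, ← hlcσ, hσw, map_mul, map_inv₀, hlcζ]
    field_simp
  · rw [map_div₀, hlc_idem, div_self hlcw0]
  · have h : lc w ^ p * (w / lc w) ^ p = w ^ p := by
      rw [← mul_pow, mul_div_cancel₀ _ hlcw0]
    rw [hτf', mul_assoc, h]

/-- **Period lemma, Kummer-generator form.**  With the hypotheses of `period_exists704`, for ANY
nonzero constant `u` with `σ u = ζ⁻¹ u` (a Kummer generator of the field of definition of `x`; in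
the application `K₁(E[p]) = K₁(u)`, `u^p ∈ K₁`), the descended function `f'` can be chosen with
`τ f' = f' · u^p · G₂^p`, `σ G₂ = G₂`.  Hence for every discrete valuation `v` of the `σ`-fixed
field with `p ∣ v (u^p)` ("peu ramifié"):  `v (τ f') ≡ v f'  mod p`. -/
theorem period_of_generator704 {p : ℕ} (hp : p.Prime) (σ τ : F ≃+* F)
    (hcomm : ∀ z, σ (τ z) = τ (σ z)) (hσp : σ ^ p = 1) (hσ1 : σ ≠ 1)
    (ζ : F) (hζ : IsPrimitiveRoot ζ p)
    (lc : F →*₀ F) (hlc_idem : ∀ z, lc (lc z) = lc z)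
    (hlcσ : ∀ z, lc (σ z) = σ (lc z)) (hτlc : ∀ z, τ (lc z) = lc z) (hlcζ : lc ζ = ζ)
    (f H c₀ : F) (hf : f ≠ 0) (hc₀ : lc c₀ = c₀)
    (hτf : τ f = f) (hτH : τ H = ζ * H)
    (hσf : σ f = f * c₀ * H ^ p)
    (u : F) (hu0 : u ≠ 0) (hσu : σ u = ζ⁻¹ * u) :
    ∃ f' b G₂ : F, f' ≠ 0 ∧ b ≠ 0 ∧ G₂ ≠ 0 ∧ σ f' = f' ∧ f = lc f * f' * b ^ p ∧
      σ G₂ = G₂ ∧ τ f' = f' * u ^ p * G₂ ^ p := by
  obtain ⟨f', b, ξ, G₁, hf'0, hb0, hξ0, hG₁0, hσf', hfb, -, hσξ, hσG₁, -, hτf'⟩ :=
    period_exists704 hp σ τ hcomm hσp hσ1 ζ hζ lc hlc_idem hlcσ hτlc hlcζ f H c₀ hf hc₀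
      hτf hτH hσf
  have hζ0 : ζ ≠ 0 := hζ.ne_zero hp.ne_zero
  refine ⟨f', b, ξ / u * G₁, hf'0, hb0, mul_ne_zero (div_ne_zero hξ0 hu0) hG₁0, hσf', hfb, ?_, ?_⟩
  · rw [map_mul, map_div₀, hσξ, hσu, hσG₁]
    field_simp
  · rw [hτf', mul_pow, div_pow]; field_simp

/-- The period is not a `p`-th power of a `σ`-fixed element: if `σ ξ = ζ⁻¹ ξ`, `ξ ≠ 0` and
`ξ^p = d^p` then `σ d ≠ d`. -/
theorem period_not_pow704 {p : ℕ} (hp : p.Prime) (σ : F ≃+* F)
    (ζ : F) (hζ : IsPrimitiveRoot ζ p) (hσζ : σ ζ = ζ)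
    (ξ d : F) (hξ0 : ξ ≠ 0) (hσξ : σ ξ = ζ⁻¹ * ξ) (hd : ξ ^ p = d ^ p) : σ d ≠ d := by
  intro hσd
  have hp0 : p ≠ 0 := hp.ne_zero
  have : NeZero p := ⟨hp0⟩
  have hζ0 : ζ ≠ 0 := hζ.ne_zero hp0
  have hd0 : d ≠ 0 := by
    rintro rfl
    rw [zero_pow hp0] at hd
    exact hξ0 (pow_eq_zero_iff hp0 |>.mp hd)
  have h1 : (ξ / d) ^ p = 1 := by rw [div_pow, hd, div_self (pow_ne_zero _ hd0)]
  obtain ⟨j, _, hj⟩ := hζ.eq_pow_of_pow_eq_one h1
  have h2 : σ (ξ / d) = ξ / d := by rw [← hj, map_pow, hσζ]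
  rw [map_div₀, hσξ, hσd] at h2
  have h3 : ζ⁻¹ * ξ = ξ := by
    field_simp at h2
    field_simp
    linear_combination h2
  have h4 : ζ⁻¹ = 1 := by
    have := mul_right_cancel₀ hξ0 (h3.trans (one_mul ξ).symm)
    exact this
  have h5 : ζ = 1 := by simpa using h4
  exact hζ.ne_one hp.one_lt h5

/-- **Kummer transfer.**  Two Kummer generators of the same cyclic extension differ by a power and
a `σ`-fixed element: if `σ ξ = ζ⁻¹ ξ` and `σ η = ζ⁻¹^i η` then `η / ξ^i` is `σ`-fixed.  (So the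
class of the period modulo `p`-th powers of the base field depends only on the Galois module, up to
an exponent.) -/
theorem kummer_transfer704 (σ : F ≃+* F) (ζ ξ η : F) (i : ℕ) (hζ0 : ζ ≠ 0) (hξ0 : ξ ≠ 0)
    (hσξ : σ ξ = ζ⁻¹ * ξ) (hση : σ η = (ζ⁻¹) ^ i * η) : σ (η / ξ ^ i) = η / ξ ^ i := by
  rw [map_div₀, map_pow, hσξ, hση, mul_pow]
  field_simp

end Period

end Fermat.Agent.Ribet.H704

end
-- ===== PACK-END Ribet/H704/Period.lean

-- ===== PACK-BEGIN A2/H552/Hensel.lean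
section







/-!
# A2 / ALG (c1), part 1 (helper552): Hensel's lemma for non-monic polynomials

Mathlib's `HenselianLocalRing` only provides lifting of simple roots of **monic** polynomials.
Here we derive, for an arbitrary Henselian local ring `R`:

* `exists_root_of_coeff` : a polynomial `1 + c₁ X + (terms with coefficients in 𝔪)`, `c₁` a unit,
  has a root in `R` (reverse the polynomial, apply Hensel to the monic reverse).
* `exists_root_of_simple_root` : Hensel's lemma for arbitrary (not necessarily monic)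
  polynomials: a simple root modulo `𝔪` lifts.
* `exists_root_of_approx` : the strong form ("Newton"): if `p(s) = w^(2c+1) u` and
  `p'(s) = w^c ε` with `ε` a unit and `w ∈ 𝔪`, then `p` has a root `a` with `w^(c+1) ∣ a - s`.
* `exists_pow_eq_of_isUnit`, `exists_pow_eq_of_isUnit_of_not_dvd` : if the residue field is
  algebraically closed and `m` is invertible in it, every unit of `R` is an `m`-th power.
-/

set_option autoImplicit false

namespace Fermat.Agent.A2.H552

open Polynomial IsLocalRing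

section Hensel

variable {R : Type*} [CommRing R] [HenselianLocalRing R]

/-- Hensel's lemma in residue-field form (item 2 of Mathlib's `HenselianLocalRing.TFAE`),
stated with `Polynomial.map`. -/
theorem exists_root_of_residue_simple_root (f : R[X]) (hf : f.Monic) (a₀ : ResidueField R)
    (h₀ : (f.map (residue R)).eval a₀ = 0)
    (h₁ : (derivative (f.map (residue R))).eval a₀ ≠ 0) :
    ∃ a : R, f.IsRoot a ∧ residue R a = a₀ := by
  have H := ((HenselianLocalRing.TFAE R).out 0 1).mp ‹HenselianLocalRing R›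
  refine H f hf a₀ ?_ ?_
  · rw [aeval_def, eval₂_eq_eval_map, ResidueField.algebraMap_eq]
    exact h₀
  · rw [aeval_def, eval₂_eq_eval_map, ResidueField.algebraMap_eq, ← derivative_map]
    exact h₁

/-- A polynomial `1 + c₁ X + ∑_{i ≥ 2} cᵢ Xⁱ` with `c₁` a unit and `cᵢ ∈ 𝔪` for `i ≥ 2` has a
root in a Henselian local ring. -/
theorem exists_root_of_coeff (g : R[X]) (h0 : g.coeff 0 = 1) (h1 : IsUnit (g.coeff 1))
    (h2 : ∀ i, 2 ≤ i → g.coeff i ∈ maximalIdeal R) : ∃ b : R, g.IsRoot b := by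
  set d := g.natDegree with hd
  have hd1 : 1 ≤ d := le_natDegree_of_ne_zero h1.ne_zero
  set G := reflect d g with hG
  have hGdeg : G.natDegree ≤ d := natDegree_reflect_le.trans (by simp [hd])
  have hGm : G.Monic := by
    refine monic_of_natDegree_le_of_coeff_eq_one d hGdeg ?_
    rw [hG, coeff_reflect, revAt_le le_rfl, Nat.sub_self, h0]
  set c := residue R (g.coeff 1) with hc
  have hc0 : c ≠ 0 := by
    intro h
    rw [hc, residue_eq_zero_iff] at h
    exact (IsLocalRing.notMem_maximalIdeal.mpr h1) h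
  have hgbar : g.map (residue R) = C 1 + C c * X := by
    ext i
    rcases i with _ | _ | i
    · simp [h0]
    · simp [hc, coeff_one]
    · have : residue R (g.coeff (i + 2)) = 0 :=
        (residue_eq_zero_iff _).mpr (h2 _ (by omega))
      simp [this, coeff_one]
  have hGbar : G.map (residue R) = X ^ d + C c * X ^ (d - 1) := by
    rw [hG, ← reflect_map, hgbar, reflect_add, reflect_C, map_one, one_mul]
    have : (C c * X : (ResidueField R)[X]) = C c * X ^ 1 := by rw [pow_one]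
    rw [this, reflect_C_mul_X_pow, revAt_le hd1]
  obtain ⟨e, he⟩ : ∃ e, d = e + 1 := ⟨d - 1, by omega⟩
  obtain ⟨z, hz, hzres⟩ := exists_root_of_residue_simple_root G hGm (-c)
    (by
      rw [hGbar, he]
      simp only [eval_add, eval_pow, eval_X, eval_mul, eval_C, Nat.add_sub_cancel]
      ring)
    (by
      rw [hGbar, he]
      simp only [derivative_add, derivative_X_pow, derivative_mul, derivative_C, zero_mul,
        zero_add, eval_add, eval_mul, eval_C, eval_pow, eval_X, Nat.add_sub_cancel]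
      rcases e with _ | e
      · simp
      · simp only [Nat.add_sub_cancel, Nat.cast_add, Nat.cast_one]
        have : ((e : ResidueField R) + 1 + 1) * (-c) ^ (e + 1) + c * (((e : ResidueField R) + 1)
            * (-c) ^ e) = (-c) ^ (e + 1) := by ring
        rw [this]
        exact pow_ne_zero _ (neg_ne_zero.mpr hc0))
  have hzu : IsUnit z := by
    rw [← IsLocalRing.notMem_maximalIdeal, ← residue_eq_zero_iff, hzres]
    exact neg_ne_zero.mpr hc0
  obtain ⟨u, rfl⟩ := hzu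
  refine ⟨(↑u⁻¹ : R), ?_⟩
  let _ : Invertible (u : R) := Units.invertible u
  have key := eval₂_reflect_mul_pow (RingHom.id R) (u : R) d G hGdeg
  rw [hG, reflect_reflect, ← hG, eval₂_id, eval₂_id, invOf_units] at key
  have hz' : G.eval (u : R) = 0 := hz
  rw [hz'] at key
  have hu : IsUnit ((u : R) ^ d) := (u.isUnit).pow d
  exact (hu.mul_left_eq_zero).mp key

/-- Rescaling a polynomial: if `t₀ = A a₀`, `t₁ W = A a₁` and `W² = A B`, then
`t(W X) = A (a₀ + a₁ X + B X² q(X))` with `q = (t / X²)(W X)`. -/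
theorem comp_C_mul_X_eq {S : Type*} [CommRing S] (t : S[X]) (W A B a₀ a₁ : S)
    (h0 : t.coeff 0 = A * a₀) (h1 : t.coeff 1 * W = A * a₁) (h2 : W ^ 2 = A * B) :
    t.comp (C W * X) =
      C A * (C a₀ + C a₁ * X + C B * X ^ 2 * (t.divX.divX.comp (C W * X))) := by
  have e0 : (C (t.coeff 0) : S[X]) = C A * C a₀ := by rw [h0, C_mul]
  have e1 : (C (t.coeff 1) : S[X]) * C W = C A * C a₁ := by rw [← C_mul, h1, C_mul]
  have e2 : (C W : S[X]) * C W = C A * C B := by rw [← C_mul, ← C_mul, ← pow_two, h2]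
  have ht : t = (t.divX.divX * X + C (t.coeff 1)) * X + C (t.coeff 0) := by
    have h := divX_mul_X_add t.divX
    rw [coeff_divX, zero_add] at h
    rw [h, divX_mul_X_add]
  conv_lhs => rw [ht]
  simp only [add_comp, mul_comp, X_comp, C_comp]
  linear_combination (t.divX.divX.comp (C W * X) * X ^ 2) * e2 + X * e1 + e0

/-- Coefficients of `a + b X + B X² q`. -/
theorem coeff_quadratic_form {S : Type*} [CommRing S] (a b B : S) (q : S[X]) :
    (C a + C b * X + C B * X ^ 2 * q).coeff 0 = a ∧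
    (C a + C b * X + C B * X ^ 2 * q).coeff 1 = b ∧
    ∀ j, (C a + C b * X + C B * X ^ 2 * q).coeff (j + 2) = B * q.coeff j := by
  have h : ∀ n, (C B * X ^ 2 * q).coeff n = if 2 ≤ n then B * q.coeff (n - 2) else 0 := by
    intro n
    rw [mul_assoc, coeff_C_mul, coeff_X_pow_mul']
    split_ifs <;> simp
  refine ⟨?_, ?_, fun j => ?_⟩
  · rw [coeff_add, coeff_add, h]; simp
  · rw [coeff_add, coeff_add, h]; simp
  · rw [coeff_add, coeff_add, h, coeff_C_mul, coeff_X, coeff_C]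
    simp

/-- **Hensel's lemma for arbitrary polynomials**: in a Henselian local ring a simple root
modulo the maximal ideal of a (not necessarily monic) polynomial lifts to a root. -/
theorem exists_root_of_simple_root (h : R[X]) (a₀ : R) (h₀ : h.eval a₀ ∈ maximalIdeal R)
    (h₁ : IsUnit ((derivative h).eval a₀)) :
    ∃ a : R, h.IsRoot a ∧ a - a₀ ∈ maximalIdeal R := by
  set t := taylor a₀ h with ht
  set c₀ := h.eval a₀ with hc₀
  set c₁ := (derivative h).eval a₀ with hc₁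
  have key := comp_C_mul_X_eq t c₀ c₀ c₀ 1 c₁
    (by rw [ht, taylor_coeff_zero, mul_one]) (by rw [ht, taylor_coeff_one, mul_comm])
    (by rw [pow_two])
  set g : R[X] := C 1 + C c₁ * X + C c₀ * X ^ 2 * (t.divX.divX.comp (C c₀ * X)) with hg
  obtain ⟨hg0, hg1, hg2⟩ := coeff_quadratic_form 1 c₁ c₀ (t.divX.divX.comp (C c₀ * X))
  rw [← hg] at hg0 hg1 hg2
  obtain ⟨b, hb⟩ := exists_root_of_coeff g hg0 (by rw [hg1]; exact h₁)
    (by
      intro i hi
      obtain ⟨j, rfl⟩ : ∃ j, i = j + 2 := ⟨i - 2, by omega⟩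
      rw [hg2]
      exact Ideal.mul_mem_right _ _ h₀)
  have hb' : eval b g = 0 := hb
  refine ⟨c₀ * b + a₀, ?_, ?_⟩
  · have h3 := congrArg (eval b) key
    simp only [eval_comp, eval_mul, eval_C, eval_X] at h3
    rw [hb', mul_zero, ht, taylor_eval] at h3
    exact h3
  · rw [add_sub_cancel_right]
    exact Ideal.mul_mem_right _ _ h₀

/-- **Strong form of Hensel's lemma** (Newton): if `p(s) = w^(2c+1) u` and `p'(s) = w^c ε`
with `ε` a unit and `w` in the maximal ideal, then `p` has a root `a` with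
`w^(c+1) ∣ a - s`. -/
theorem exists_root_of_approx (p : R[X]) (s w u ε : R) (c : ℕ) (hw : w ∈ maximalIdeal R)
    (hε : IsUnit ε) (h₀ : p.eval s = w ^ (2 * c + 1) * u)
    (h₁ : (derivative p).eval s = w ^ c * ε) :
    ∃ a : R, p.IsRoot a ∧ w ^ (c + 1) ∣ a - s := by
  set t := taylor s p with ht
  have key := comp_C_mul_X_eq t (w ^ (c + 1)) (w ^ (2 * c + 1)) w u ε
    (by rw [ht, taylor_coeff_zero, h₀]) (by rw [ht, taylor_coeff_one, h₁]; ring) (by ring)
  set q := t.divX.divX.comp (C (w ^ (c + 1)) * X) with hq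
  set g : R[X] := C u + C ε * X + C w * X ^ 2 * q with hg
  obtain ⟨ε', hε'⟩ := hε.exists_right_inv
  obtain ⟨b, hb, -⟩ := exists_root_of_simple_root g (-u * ε')
    (by
      have : g.eval (-u * ε') = w * ((-u * ε') ^ 2 * q.eval (-u * ε')) := by
        simp only [hg, eval_add, eval_mul, eval_C, eval_X, eval_pow]
        linear_combination (-u) * hε'
      rw [this]
      exact Ideal.mul_mem_right _ _ hw)
    (by
      have : (derivative g).eval (-u * ε') =
          ε + w * (derivative (X ^ 2 * q)).eval (-u * ε') := by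
        rw [hg, mul_assoc]
        simp only [derivative_add, derivative_C, derivative_C_mul, derivative_X, zero_add,
          eval_add, eval_mul, eval_C, mul_one]
      rw [this, ← IsLocalRing.notMem_maximalIdeal]
      intro hmem
      have h4 : w * (derivative (X ^ 2 * q)).eval (-u * ε') ∈ maximalIdeal R :=
        Ideal.mul_mem_right _ _ hw
      exact (IsLocalRing.notMem_maximalIdeal.mpr hε)
        ((Ideal.add_mem_iff_left _ h4).mp hmem))
  have hb' : eval b g = 0 := hb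
  refine ⟨w ^ (c + 1) * b + s, ?_, ?_⟩
  · have h3 := congrArg (eval b) key
    simp only [eval_comp, eval_mul, eval_C, eval_X] at h3
    rw [hb', mul_zero, ht, taylor_eval] at h3
    exact h3
  · rw [add_sub_cancel_right]
    exact Dvd.intro _ rfl

/-- In a Henselian local ring with algebraically closed residue field, every unit is an `m`-th
power, for `m` invertible in the residue field. -/
theorem exists_pow_eq_of_isUnit [IsAlgClosed (ResidueField R)] (m : ℕ)
    (hm : (m : ResidueField R) ≠ 0) (u : R) (hu : IsUnit u) : ∃ v : R, v ^ m = u := by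
  have hm0 : m ≠ 0 := by
    rintro rfl
    exact hm (by simp)
  have hu0 : residue R u ≠ 0 := by
    intro h
    rw [residue_eq_zero_iff] at h
    exact (IsLocalRing.notMem_maximalIdeal.mpr hu) h
  obtain ⟨a, ha⟩ := IsAlgClosed.exists_pow_nat_eq (residue R u) (Nat.pos_of_ne_zero hm0)
  have ha0 : a ≠ 0 := by
    rintro rfl
    rw [zero_pow hm0] at ha
    exact hu0 ha.symm
  obtain ⟨v, hv, -⟩ := exists_root_of_residue_simple_root (X ^ m - C u)
    (monic_X_pow_sub_C u hm0) a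
    (by simp [ha])
    (by
      simp only [Polynomial.map_sub, Polynomial.map_pow, map_X, map_C, derivative_sub,
        derivative_X_pow, derivative_C, sub_zero, eval_mul, eval_C, eval_pow, eval_X]
      exact mul_ne_zero hm (pow_ne_zero _ ha0))
  refine ⟨v, ?_⟩
  have : (X ^ m - C u : R[X]).eval v = 0 := hv
  simpa [sub_eq_zero] using this

/-- The same, with the hypotheses of `Fermat.Agent.A2.algSS`: the residue characteristic is the
prime `q` and `q ∤ m`. -/
theorem exists_pow_eq_of_isUnit_of_not_dvd [IsAlgClosed (ResidueField R)] (q m : ℕ)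
    (hq : q.Prime) (hqR : (q : R) ∈ maximalIdeal R) (hqm : ¬ q ∣ m) (u : R) (hu : IsUnit u) :
    ∃ v : R, v ^ m = u := by
  refine exists_pow_eq_of_isUnit m (fun hm0 => hqm ?_) u hu
  have h1 : ((q : ℕ) : ResidueField R) = 0 := by
    rw [← map_natCast (residue R)]
    exact (residue_eq_zero_iff _).mpr hqR
  have hdq : ringChar (ResidueField R) ∣ q := ringChar.dvd h1
  have hdm : ringChar (ResidueField R) ∣ m := ringChar.dvd hm0
  rcases (Nat.dvd_prime hq).mp hdq with h | h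
  · exact absurd h CharP.ringChar_ne_one
  · rwa [h] at hdm

end Hensel

end Fermat.Agent.A2.H552

end
-- ===== PACK-END A2/H552/Hensel.lean

-- ===== PACK-BEGIN A2/Alg/H34/Val.lean
section


/-!
# WALL A2 / ALG — the `w`-adic valuation at a component (helper34), Mathlib-only

`B` a noetherian domain, `p` a prime with `p B_p = w B_p` (elementwise: every `a ∈ p` satisfies
`a * s = w * a'` with `s ∉ p`).  Then every `b ≠ 0` is `w ^ k * a / t` with `a, t ∉ p`
(`exists_pow_mul_eq`): `B_p` is a discrete valuation ring with uniformiser `w`.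
-/

set_option autoImplicit false
set_option linter.unusedSectionVars false

namespace Fermat.Agent.A2.Alg.H34

open IsLocalRing

variable {B : Type*} [CommRing B] [IsDomain B] [IsNoetherianRing B]

theorem maximalIdeal_atPrime_eq_span (p : Ideal B) [hp : p.IsPrime] (w : B) (hw : w ∈ p)
    (hloc : ∀ a ∈ p, ∃ s, s ∉ p ∧ ∃ a', a * s = w * a') :
    maximalIdeal (Localization.AtPrime p) =
      Ideal.span {algebraMap B (Localization.AtPrime p) w} := by
  rw [← Localization.AtPrime.map_eq_maximalIdeal]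
  set L := Localization.AtPrime p with hL
  apply le_antisymm
  · rw [Ideal.map_le_iff_le_comap]
    intro a ha
    obtain ⟨s, hs, a', h⟩ := hloc a ha
    rw [Ideal.mem_comap, Ideal.mem_span_singleton']
    have hsu : IsUnit (algebraMap B L s) :=
      (IsLocalization.AtPrime.isUnit_to_map_iff _ p s).2 hs
    obtain ⟨v, hv⟩ := hsu
    refine ⟨algebraMap B L a' * (↑v⁻¹ : L), ?_⟩
    have h2 := congrArg (algebraMap B L) h
    rw [map_mul, map_mul, ← hv] at h2
    calc algebraMap B L a' * (↑v⁻¹ : L) * algebraMap B L w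
        = (algebraMap B L w * algebraMap B L a') * (↑v⁻¹ : L) := by ring
      _ = (algebraMap B L a * (↑v : L)) * (↑v⁻¹ : L) := by rw [h2]
      _ = algebraMap B L a := by rw [mul_assoc, Units.mul_inv, mul_one]
  · rw [Ideal.span_le, Set.singleton_subset_iff]
    exact Ideal.mem_map_of_mem _ hw

/-- `B_p` is a discrete valuation ring with uniformiser `w`, elementwise. -/
theorem exists_pow_mul_eq (p : Ideal B) [hp : p.IsPrime] (w : B) (hw : w ∈ p)
    (hloc : ∀ a ∈ p, ∃ s, s ∉ p ∧ ∃ a', a * s = w * a')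
    (b : B) (hb : b ≠ 0) : ∃ (k : ℕ) (a t : B), a ∉ p ∧ t ∉ p ∧ t * b = w ^ k * a := by
  set L := Localization.AtPrime p with hL
  have hinj : Function.Injective (algebraMap B L) :=
    IsLocalization.injective L p.primeCompl_le_nonZeroDivisors
  have : IsNoetherianRing L := IsLocalization.isNoetherianRing p.primeCompl L inferInstance
  have hm := maximalIdeal_atPrime_eq_span p w hw hloc
  have hkrull : ⨅ i, maximalIdeal L ^ i = ⊥ :=
    Ideal.iInf_pow_eq_bot_of_isLocalRing _ (maximalIdeal.isMaximal L).ne_top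
  have hφb : algebraMap B L b ≠ 0 := fun h => hb (hinj (by rw [h, map_zero]))
  have hex : ∃ k, algebraMap B L b ∉ maximalIdeal L ^ k := by
    by_contra hcon
    push Not at hcon
    apply hφb
    have : algebraMap B L b ∈ ⨅ i, maximalIdeal L ^ i := by
      rw [Ideal.mem_iInf]
      exact hcon
    rw [hkrull] at this
    exact this
  classical
  set k₀ := Nat.find hex with hk₀
  have hk₀spec : algebraMap B L b ∉ maximalIdeal L ^ k₀ := Nat.find_spec hex
  have hk₀pos : k₀ ≠ 0 := by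
    intro h0
    rw [h0, pow_zero, Ideal.one_eq_top] at hk₀spec
    exact hk₀spec Submodule.mem_top
  obtain ⟨k, hk⟩ := Nat.exists_eq_succ_of_ne_zero hk₀pos
  have hmem : algebraMap B L b ∈ maximalIdeal L ^ k := by
    by_contra hcon
    have := Nat.find_min' hex hcon
    omega
  rw [hm, Ideal.span_singleton_pow, Ideal.mem_span_singleton'] at hmem
  obtain ⟨y, hy⟩ := hmem
  obtain ⟨⟨a, t⟩, hat⟩ := IsLocalization.mk'_surjective p.primeCompl y
  simp only at hat
  have htu : IsUnit (algebraMap B L t) :=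
    (IsLocalization.AtPrime.isUnit_to_map_iff _ p t).2 t.2
  have hspec : y * algebraMap B L t = algebraMap B L a := by
    rw [← hat]
    exact IsLocalization.mk'_spec L a t
  refine ⟨k, a, t, ?_, t.2, ?_⟩
  · intro ha
    apply hk₀spec
    rw [hk, pow_succ]
    have hya : y ∈ maximalIdeal L := by
      have h1 : algebraMap B L a ∈ maximalIdeal L :=
        (IsLocalization.AtPrime.to_map_mem_maximal_iff L p a).2 ha
      rw [← hspec] at h1
      rcases (maximalIdeal.isMaximal L).isPrime.mem_or_mem h1 with h | h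
      · exact h
      · exact absurd htu ((IsLocalRing.mem_maximalIdeal _).1 h)
    have h1 : algebraMap B L w ^ k ∈ maximalIdeal L ^ k := by
      rw [hm, Ideal.span_singleton_pow]
      exact Ideal.mem_span_singleton_self _
    have h2 : algebraMap B L w ^ k * y ∈ maximalIdeal L ^ k * maximalIdeal L :=
      Ideal.mul_mem_mul h1 hya
    rw [← hy, mul_comm y]
    exact h2
  · apply hinj
    rw [map_mul, map_mul, map_pow, ← hspec, ← hy]
    ring

end Fermat.Agent.A2.Alg.H34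

end
-- ===== PACK-END A2/Alg/H34/Val.lean

-- ===== PACK-BEGIN A2/H373/SheetsAbs.lean
section



/-!
# Cell A2 — route G, leaf SHEETS: a discrete valuation ring is determined by its centre (helper373)

Mathlib-only.  `le_of_same_centre`: let `B ⊆ V, V'` be a subring of a field `F = Frac B` contained
in two valuation subrings with the same centre on `B`.  If `V` is discrete with uniformiser
`W ∈ B` and the centre is generated by `W` up to a unit `s ∈ B` of `V` (`s · 𝔭 ⊆ W B`), then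
`V ≤ V'`.
-/

set_option autoImplicit false

namespace Fermat.Agent.A2.H373

section Abs

variable {F : Type*} [Field F]

theorem isUnitV_ne_nonunit (V : ValuationSubring F) {u : F} (hu0 : u ≠ 0) (hu : u⁻¹ ∈ V) :
    u ∉ V.nonunits := by
  rw [ValuationSubring.mem_nonunits_iff_or]
  rintro (h | h)
  · exact hu0 h
  · exact h hu

theorem inv_mem_of_not_nonunit (V : ValuationSubring F) {u : F} (hu : u ∉ V.nonunits) :
    u⁻¹ ∈ V := by
  rw [ValuationSubring.mem_nonunits_iff_or, not_or, not_not] at hu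
  exact hu.2

theorem ne_zero_of_not_nonunit (V : ValuationSubring F) {u : F} (hu : u ∉ V.nonunits) :
    u ≠ 0 := by
  rw [ValuationSubring.mem_nonunits_iff_or, not_or] at hu
  exact hu.1

theorem pow_succ_mul_mem_nonunits (V : ValuationSubring F) {W : F} (hW : W ∈ V.nonunits)
    (n : ℕ) {v : F} (hv : v ∈ V) : W ^ (n + 1) * v ∈ V.nonunits := by
  rw [ValuationSubring.mem_nonunits_iff] at hW ⊢
  have hW1 : V.valuation W ≤ 1 := hW.le
  have hv1 : V.valuation v ≤ 1 := (V.valuation_le_one_iff v).2 hv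
  rw [map_mul, map_pow, pow_succ]
  calc V.valuation W ^ n * V.valuation W * V.valuation v
      ≤ 1 * V.valuation W * 1 := by
        gcongr
        exact pow_le_one₀ zero_le hW1
    _ = V.valuation W := by rw [one_mul, mul_one]
    _ < 1 := hW

/-- natural-number form of discreteness on the valuation ring -/
theorem exists_nat_pow_mul (V : ValuationSubring F) {W : F} (hW : W ∈ V.nonunits)
    (hdisc : ∀ f : F, f ≠ 0 → ∃ (n : ℤ) (u : F), u ∈ V ∧ u⁻¹ ∈ V ∧ f = W ^ n * u)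
    {a : F} (ha : a ∈ V) (ha0 : a ≠ 0) :
    ∃ (n : ℕ) (u : F), u ∈ V ∧ u⁻¹ ∈ V ∧ u ≠ 0 ∧ a = W ^ n * u := by
  obtain ⟨n, u, hu, hu', hau⟩ := hdisc a ha0
  have hu0 : u ≠ 0 := by
    rintro rfl
    rw [mul_zero] at hau
    exact ha0 hau
  rcases le_or_gt 0 n with hn | hn
  · obtain ⟨k, rfl⟩ := Int.eq_ofNat_of_zero_le hn
    exact ⟨k, u, hu, hu', hu0, by rw [hau, zpow_natCast]⟩
  · exfalso
    have hW0 : W ≠ 0 := by
      rintro rfl
      rw [zero_zpow n hn.ne, zero_mul] at hau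
      exact ha0 hau
    obtain ⟨k, hk⟩ : ∃ k : ℕ, n = -((k : ℤ) + 1) := ⟨(-n - 1).toNat, by omega⟩
    have h1 : u = W ^ (k + 1) * a := by
      rw [hau, hk, zpow_neg, ← Nat.cast_succ, zpow_natCast]
      field_simp
    have h2 : u ∈ V.nonunits := by
      rw [h1]
      exact pow_succ_mul_mem_nonunits V hW k ha
    exact isUnitV_ne_nonunit V hu0 hu' h2

/-- A discrete valuation subring `V ⊇ B` with uniformiser `W ∈ B` is determined by its centre on
`B`, provided the centre is generated by `W` up to an element `s ∈ B` which is a unit of `V`. -/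
theorem le_of_same_centre (B : Subring F) (V V' : ValuationSubring F) {W : F}
    (hBV : ∀ b ∈ B, b ∈ V) (hBV' : ∀ b ∈ B, b ∈ V')
    (hW : W ∈ V.nonunits) (hW0 : W ≠ 0) (hWB : W ∈ B)
    (hdisc : ∀ f : F, f ≠ 0 → ∃ (n : ℤ) (u : F), u ∈ V ∧ u⁻¹ ∈ V ∧ f = W ^ n * u)
    (hfrac : ∀ f : F, ∃ a ∈ B, ∃ b ∈ B, b ≠ 0 ∧ f = a / b)
    (hcen : ∀ b ∈ B, b ∈ V.nonunits ↔ b ∈ V'.nonunits)
    {s : F} (hsB : s ∈ B) (hs : s ∉ V.nonunits)
    (hdiv : ∀ a ∈ B, a ∈ V.nonunits → ∃ a' ∈ B, s * a = W * a') : V ≤ V' := by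
  have hs0 : s ≠ 0 := ne_zero_of_not_nonunit V hs
  have hsV : s ∈ V := hBV s hsB
  have hsinv : s⁻¹ ∈ V := inv_mem_of_not_nonunit V hs
  have key : ∀ n : ℕ, ∀ a ∈ B, ∀ u : F, u ∈ V → u⁻¹ ∈ V → u ≠ 0 → a = W ^ n * u →
      ∃ c ∈ B, c ∉ V.nonunits ∧ s ^ n * a = W ^ n * c := by
    intro n
    induction n with
    | zero =>
      intro a ha u hu hu' hu0 hau
      rw [pow_zero, one_mul] at hau
      refine ⟨a, ha, ?_, by simp⟩
      rw [hau]
      exact isUnitV_ne_nonunit V hu0 hu'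
    | succ n ih =>
      intro a ha u hu hu' hu0 hau
      have hanu : a ∈ V.nonunits := by
        rw [hau]
        exact pow_succ_mul_mem_nonunits V hW n hu
      obtain ⟨a', ha', haa'⟩ := hdiv a ha hanu
      have ha'eq : a' = W ^ n * (s * u) := by
        have h1 : W * a' = W * (W ^ n * (s * u)) := by
          rw [← haa', hau]; ring
        exact mul_left_cancel₀ hW0 h1
      obtain ⟨c, hc, hcn, hca⟩ := ih a' ha' (s * u) (V.mul_mem _ _ hsV hu)
        (by rw [mul_inv]; exact V.mul_mem _ _ hsinv hu') (mul_ne_zero hs0 hu0) ha'eq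
      refine ⟨c, hc, hcn, ?_⟩
      calc s ^ (n + 1) * a = s ^ n * (s * a) := by ring
        _ = s ^ n * (W * a') := by rw [haa']
        _ = W * (s ^ n * a') := by ring
        _ = W * (W ^ n * c) := by rw [hca]
        _ = W ^ (n + 1) * c := by ring
  intro f hf
  by_cases hf0 : f = 0
  · rw [hf0]; exact V'.zero_mem
  obtain ⟨a, ha, b, hb, hb0, hfab⟩ := hfrac f
  have ha0 : a ≠ 0 := by
    rintro rfl
    rw [zero_div] at hfab
    exact hf0 hfab
  obtain ⟨n, u, hu, hu', hu0, hau⟩ := exists_nat_pow_mul V hW hdisc (hBV a ha) ha0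
  obtain ⟨k, v, hv, hv', hv0, hbv⟩ := exists_nat_pow_mul V hW hdisc (hBV b hb) hb0
  have hkn : k ≤ n := by
    by_contra hcon
    rw [not_le] at hcon
    obtain ⟨j, hj⟩ : ∃ j : ℕ, k = n + (j + 1) := ⟨k - n - 1, by omega⟩
    have h1 : W ^ (j + 1) * f = u * v⁻¹ := by
      rw [hfab, hau, hbv, hj]
      field_simp
      ring
    have h2 : W ^ (j + 1) * f ∈ V.nonunits := pow_succ_mul_mem_nonunits V hW j hf
    rw [h1] at h2
    refine isUnitV_ne_nonunit V (mul_ne_zero hu0 (inv_ne_zero hv0)) ?_ h2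
    rw [mul_inv, inv_inv]
    exact V.mul_mem _ _ hu' hv
  obtain ⟨c, hc, hcn, hca⟩ := key n a ha u hu hu' hu0 hau
  obtain ⟨d, hd, hdn, hdb⟩ := key k b hb v hv hv' hv0 hbv
  have hs' : s ∉ V'.nonunits := fun h => hs ((hcen s hsB).2 h)
  have hd' : d ∉ V'.nonunits := fun h => hdn ((hcen d hd).2 h)
  have hd0 : d ≠ 0 := ne_zero_of_not_nonunit V hdn
  obtain ⟨j, hj⟩ : ∃ j : ℕ, n = k + j := ⟨n - k, by omega⟩
  have hfeq : f = W ^ j * c * s ^ k * (s ^ n)⁻¹ * d⁻¹ := by
    have h1 : a = W ^ n * c / s ^ n := by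
      rw [← hca]; field_simp
    have h2 : b = W ^ k * d / s ^ k := by
      rw [← hdb]; field_simp
    rw [hfab, h1, h2, hj]
    field_simp
    ring
  rw [hfeq, ← inv_pow]
  have hsV' : s ∈ V' := hBV' s hsB
  have hsinv' : s⁻¹ ∈ V' := inv_mem_of_not_nonunit V' hs'
  have hdinv' : d⁻¹ ∈ V' := inv_mem_of_not_nonunit V' hd'
  have hWV' : W ∈ V' := hBV' W hWB
  exact V'.mul_mem _ _ (V'.mul_mem _ _ (V'.mul_mem _ _ (V'.mul_mem _ _ (pow_mem hWV' j)
    (hBV' c hc)) (pow_mem hsV' k)) (pow_mem hsinv' n)) hdinv'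

end Abs

end Fermat.Agent.A2.H373

end
-- ===== PACK-END A2/H373/SheetsAbs.lean

-- ===== PACK-BEGIN A2/H93/CoverSplit.lean
section








/-!
# Cell A2, route G, obligation C2 (COVER-SPLIT) — helper93 — Mathlib-only

Setting (`CoverSplit`): `V` a valuation subring of a field `F` whose maximal ideal is generated
by `w` and which is discrete (`∀ f, ∃ k, f * w ^ k ∈ V`); `m` invertible in `V`, `ζ ∈ F` a
primitive `m`-th root of unity; `L = F[y_i]` with `y_i ^ m = g_i`, `g_i ∈ Vˣ`,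
`g_i ≡ c_i ^ m mod w` (`c_i ∈ V`); `W` ANY valuation subring of `L` with `W ∩ F = V`.

Results (elementary: `W` is the localisation of `V[y_i]` at its centre; no étale / Dedekind /
Henselian API):

* `CoverSplit.exists_sub_mem`   : `W = V + w W`  (residue field of `W` = residue field of `V`);
* `CoverSplit.mul_inv_mem`      : `𝔪_W = w W`     (`e = 1`);
* `CoverSplit.eq_one_of_map_eq` : an `F`-automorphism `σ` of `L` with `σ W = W` is the identity
  (the decomposition group is trivial: `V` splits completely in `L`).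
-/

set_option autoImplicit false
set_option linter.style.haveILetI false

namespace Fermat.Agent.A2.H93

variable {F L : Type*} [Field F] [Field L] [Algebra F L]

/-- Hypotheses of COVER-SPLIT (see the module docstring). -/
structure CoverSplit (V : ValuationSubring F) (W : ValuationSubring L) (w : F) (m : ℕ) (ζ : F)
    {ι : Type*} (y : ι → L) (g c : ι → F) : Prop where
  ext : ∀ f : F, algebraMap F L f ∈ W ↔ f ∈ V
  w_inv_notMem : w⁻¹ ∉ V
  w_gen : ∀ f ∈ V, f⁻¹ ∉ V → f * w⁻¹ ∈ V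
  w_disc : ∀ f : F, ∃ k : ℕ, f * w ^ k ∈ V
  zeta : IsPrimitiveRoot ζ m
  m_pos : 0 < m
  m_inv : (m : F)⁻¹ ∈ V
  pow_eq : ∀ i, y i ^ m = algebraMap F L (g i)
  g_mem : ∀ i, g i ∈ V
  g_ne_zero : ∀ i, g i ≠ 0
  g_inv : ∀ i, (g i)⁻¹ ∈ V
  c_mem : ∀ i, c i ∈ V
  cong : ∀ i, (g i - c i ^ m) * w⁻¹ ∈ V
  gen : Algebra.adjoin F (Set.range y) = ⊤

section Val

variable (W : ValuationSubring L)

theorem val_lt_one_of_inv_notMem {x : L} (hx : x⁻¹ ∉ W) : W.valuation x < 1 := by
  by_contra h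
  rw [not_lt] at h
  apply hx
  rw [← W.valuation_le_one_iff, map_inv₀]
  exact inv_le_one_of_one_le₀ h

theorem inv_notMem_of_val_lt_one {x : L} (hx0 : x ≠ 0) (h : W.valuation x < 1) : x⁻¹ ∉ W := by
  intro hmem
  have h1 : W.valuation x⁻¹ ≤ 1 := (W.valuation_le_one_iff _).2 hmem
  have h2 : W.valuation x * W.valuation x⁻¹ = 1 := by
    rw [← map_mul, mul_inv_cancel₀ hx0, map_one]
  have h3 : W.valuation x * W.valuation x⁻¹ < 1 := by
    calc W.valuation x * W.valuation x⁻¹ ≤ W.valuation x * 1 := by gcongr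
      _ = W.valuation x := mul_one _
      _ < 1 := h
  rw [h2] at h3
  exact lt_irrefl _ h3

theorem val_eq_one_of_mem_of_inv_mem {x : L} (hx0 : x ≠ 0) (hx : x ∈ W) (hx' : x⁻¹ ∈ W) :
    W.valuation x = 1 := by
  have h1 : W.valuation x ≤ 1 := (W.valuation_le_one_iff _).2 hx
  rcases lt_or_eq_of_le h1 with h | h
  · exact absurd hx' (inv_notMem_of_val_lt_one W hx0 h)
  · exact h

theorem inv_mem_of_val_eq_one {x : L} (h : W.valuation x = 1) : x⁻¹ ∈ W := by
  rw [← W.valuation_le_one_iff, map_inv₀, h, inv_one]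

end Val

namespace CoverSplit

variable {V : ValuationSubring F} {W : ValuationSubring L} {w : F} {m : ℕ} {ζ : F}
  {ι : Type*} {y : ι → L} {g c : ι → F}

local notation "φ" => algebraMap F L

theorem w_mem (D : CoverSplit V W w m ζ y g c) : w ∈ V :=
  (V.mem_or_inv_mem w).resolve_right D.w_inv_notMem

theorem w_ne_zero (D : CoverSplit V W w m ζ y g c) : w ≠ 0 := by
  intro h
  apply D.w_inv_notMem
  rw [h, inv_zero]
  exact V.zero_mem

theorem φw_ne_zero (D : CoverSplit V W w m ζ y g c) : φ w ≠ 0 := by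
  intro h
  exact D.w_ne_zero ((algebraMap F L).injective (by rw [h, map_zero]))

theorem val_w_lt (D : CoverSplit V W w m ζ y g c) : W.valuation (φ w) < 1 := by
  apply val_lt_one_of_inv_notMem
  rw [← map_inv₀, D.ext]
  exact D.w_inv_notMem

theorem val_le_one (D : CoverSplit V W w m ζ y g c) {a : F} (ha : a ∈ V) :
    W.valuation (φ a) ≤ 1 :=
  (W.valuation_le_one_iff _).2 ((D.ext a).2 ha)

theorem val_eq_one (D : CoverSplit V W w m ζ y g c) {a : F} (ha : a ∈ V) (ha' : a⁻¹ ∈ V)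
    (ha0 : a ≠ 0) : W.valuation (φ a) = 1 := by
  apply val_eq_one_of_mem_of_inv_mem
  · intro h
    exact ha0 ((algebraMap F L).injective (by rw [h, map_zero]))
  · exact (D.ext a).2 ha
  · rw [← map_inv₀]; exact (D.ext _).2 ha'

/-- An element of `F` which is a non-unit at `W` is divisible by `w` in `V`. -/
theorem mul_inv_mem_of_val_lt (D : CoverSplit V W w m ζ y g c) {a : F}
    (ha : W.valuation (φ a) < 1) : a * w⁻¹ ∈ V := by
  by_cases ha0 : a = 0
  · rw [ha0, zero_mul]; exact V.zero_mem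
  have haV : a ∈ V := (D.ext a).1 ((W.valuation_le_one_iff _).1 ha.le)
  refine D.w_gen a haV ?_
  intro h
  have := D.val_eq_one haV h ha0
  rw [this] at ha
  exact lt_irrefl _ ha

/-- In `V`: an element with unit `m`-th power modulo `w`... more precisely, if `a ^ m ≡ u` mod
`w` with `u` a unit, then `a` is a unit. -/
theorem inv_mem_of_pow_cong (D : CoverSplit V W w m ζ y g c) {a u : F} (ha : a ∈ V)
    (hu' : u⁻¹ ∈ V) (hu0 : u ≠ 0) (h : (u - a ^ m) * w⁻¹ ∈ V) : a⁻¹ ∈ V := by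
  by_contra hcon
  -- `a ∈ 𝔪_V`, so `a = w a'`
  have h1 : a * w⁻¹ ∈ V := D.w_gen a ha hcon
  -- then `u = (u - a^m) + a^m ∈ w V`
  have h2 : u * w⁻¹ ∈ V := by
    have : u * w⁻¹ = (u - a ^ m) * w⁻¹ + a ^ (m - 1) * (a * w⁻¹) := by
      have : a ^ m = a ^ (m - 1) * a := by
        rw [← pow_succ, Nat.sub_add_cancel D.m_pos]
      rw [this]; ring
    rw [this]
    exact V.add_mem _ _ h (V.mul_mem _ _ (pow_mem ha _) h1)
  -- so `w⁻¹ = u⁻¹ (u w⁻¹) ∈ V`
  apply D.w_inv_notMem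
  have : w⁻¹ = u⁻¹ * (u * w⁻¹) := by
    field_simp
  rw [this]
  exact V.mul_mem _ _ hu' h2

theorem c_inv (D : CoverSplit V W w m ζ y g c) (i : ι) : (c i)⁻¹ ∈ V :=
  D.inv_mem_of_pow_cong (D.c_mem i) (D.g_inv i) (D.g_ne_zero i) (D.cong i)

/-! ### Roots of unity -/

theorem m_ne_zero (D : CoverSplit V W w m ζ y g c) : (m : F) ≠ 0 := by
  haveI : NeZero m := ⟨D.m_pos.ne'⟩
  exact (D.zeta.neZero').out

theorem root_mem (D : CoverSplit V W w m ζ y g c) {ξ : F} (hξ : ξ ^ m = 1) : ξ ∈ V := by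
  rcases V.mem_or_inv_mem ξ with h | h
  · exact h
  · have hξ0 : ξ ≠ 0 := by
      rintro rfl
      rw [zero_pow D.m_pos.ne'] at hξ
      exact zero_ne_one hξ
    have h1 : ξ = ξ⁻¹ ^ (m - 1) := by
      have h2 : ξ ^ (m - 1) * ξ = 1 := by
        rw [← pow_succ, Nat.sub_add_cancel D.m_pos, hξ]
      rw [inv_pow]
      exact eq_inv_of_mul_eq_one_right h2
    rw [h1]
    exact pow_mem h _

theorem root_inv_mem (D : CoverSplit V W w m ζ y g c) {ξ : F} (hξ : ξ ^ m = 1) : ξ⁻¹ ∈ V :=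
  D.root_mem (by rw [inv_pow, hξ, inv_one])

theorem root_ne_zero (D : CoverSplit V W w m ζ y g c) {ξ : F} (hξ : ξ ^ m = 1) : ξ ≠ 0 := by
  rintro rfl
  rw [zero_pow D.m_pos.ne'] at hξ
  exact zero_ne_one hξ

/-- `1 - ξ` is a unit of `V` for every `m`-th root of unity `ξ ≠ 1`. -/
theorem one_sub_root_inv_mem (D : CoverSplit V W w m ζ y g c) {ξ : F} (hξ : ξ ^ m = 1)
    (hξ1 : ξ ≠ 1) : (1 - ξ)⁻¹ ∈ V := by
  have hsum : ∑ k ∈ Finset.range m, ξ ^ k = 0 := by
    have h := mul_geom_sum ξ m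
    rw [hξ, sub_self] at h
    exact (mul_eq_zero.1 h).resolve_left (sub_ne_zero.2 hξ1)
  have hq : (m : F) = (1 - ξ) * ∑ k ∈ Finset.range m, ∑ j ∈ Finset.range k, ξ ^ j := by
    calc (m : F) = ∑ k ∈ Finset.range m, (1 - ξ ^ k) := by
          rw [Finset.sum_sub_distrib, hsum]; simp
      _ = ∑ k ∈ Finset.range m, (1 - ξ) * ∑ j ∈ Finset.range k, ξ ^ j := by
          refine Finset.sum_congr rfl fun k _ => ?_
          have h := mul_geom_sum ξ k
          linear_combination h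
      _ = (1 - ξ) * ∑ k ∈ Finset.range m, ∑ j ∈ Finset.range k, ξ ^ j := by
          rw [Finset.mul_sum]
  have hqV : (∑ k ∈ Finset.range m, ∑ j ∈ Finset.range k, ξ ^ j) ∈ V :=
    sum_mem (fun k _ => sum_mem (fun j _ => pow_mem (D.root_mem hξ) j))
  have h1 : (1 - ξ)⁻¹ = (∑ k ∈ Finset.range m, ∑ j ∈ Finset.range k, ξ ^ j) * (m : F)⁻¹ := by
    apply inv_eq_of_mul_eq_one_right
    rw [← mul_assoc, ← hq, mul_inv_cancel₀ D.m_ne_zero]
  rw [h1]
  exact V.mul_mem _ _ hqV D.m_inv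

/-- every `m`-th root of unity of `L` comes from `F` -/
theorem exists_root_eq (D : CoverSplit V W w m ζ y g c) {ξ : L} (hξ : ξ ^ m = 1) :
    ∃ ξ₀ : F, ξ₀ ^ m = 1 ∧ φ ξ₀ = ξ := by
  haveI : NeZero m := ⟨D.m_pos.ne'⟩
  have hζL : IsPrimitiveRoot (φ ζ) m := D.zeta.map_of_injective (algebraMap F L).injective
  obtain ⟨i, -, hi⟩ := hζL.eq_pow_of_pow_eq_one hξ
  refine ⟨ζ ^ i, ?_, by rw [map_pow, hi]⟩
  rw [← pow_mul, mul_comm, pow_mul, D.zeta.pow_eq_one, one_pow]

/-! ### The generators -/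

theorem val_y (D : CoverSplit V W w m ζ y g c) (i : ι) : W.valuation (y i) = 1 := by
  have h : W.valuation (y i) ^ m = 1 := by
    rw [← map_pow, D.pow_eq]
    exact D.val_eq_one (D.g_mem i) (D.g_inv i) (D.g_ne_zero i)
  exact (pow_eq_one_iff_left D.m_pos.ne').mp h

theorem y_mem (D : CoverSplit V W w m ζ y g c) (i : ι) : y i ∈ W :=
  (W.valuation_le_one_iff _).1 (D.val_y i).le

theorem val_pow_sub (D : CoverSplit V W w m ζ y g c) (i : ι) :
    W.valuation (y i ^ m - φ (c i) ^ m) < 1 := by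
  rw [D.pow_eq, ← map_pow, ← map_sub]
  have h : g i - c i ^ m = (g i - c i ^ m) * w⁻¹ * w := by
    have := D.w_ne_zero
    field_simp
  rw [h, map_mul, map_mul]
  calc W.valuation (φ ((g i - c i ^ m) * w⁻¹)) * W.valuation (φ w)
      ≤ 1 * W.valuation (φ w) := by
        gcongr
        exact D.val_le_one (D.cong i)
    _ < 1 := by rw [one_mul]; exact D.val_w_lt

/-- The centre: `y_i ≡ ξ c_i` modulo `𝔪_W` for some `m`-th root of unity `ξ ∈ F`. -/
theorem exists_root_val_lt (D : CoverSplit V W w m ζ y g c) (i : ι) :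
    ∃ ξ₀ : F, ξ₀ ^ m = 1 ∧ W.valuation (y i - φ (ξ₀ * c i)) < 1 := by
  classical
  have hζL : IsPrimitiveRoot (φ ζ) m := D.zeta.map_of_injective (algebraMap F L).injective
  have hprod := hζL.pow_sub_pow_eq_prod_sub_mul (y i) (φ (c i)) D.m_pos
  have hlhs := D.val_pow_sub i
  by_contra hcon
  push Not at hcon
  have hall : ∀ ξ ∈ Polynomial.nthRootsFinset m (1 : L),
      W.valuation (y i - ξ * φ (c i)) = 1 := by
    intro ξ hξ
    rw [Polynomial.mem_nthRootsFinset D.m_pos] at hξ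
    obtain ⟨ξ₀, h1, rfl⟩ := D.exists_root_eq hξ
    have hle : W.valuation (y i - φ ξ₀ * φ (c i)) ≤ 1 :=
      (W.valuation_le_one_iff _).2 (sub_mem (D.y_mem i)
        (mul_mem ((D.ext _).2 (D.root_mem h1)) ((D.ext _).2 (D.c_mem i))))
    have h2 := hcon ξ₀ h1
    rw [map_mul] at h2
    exact le_antisymm hle h2
  rw [hprod, map_prod, Finset.prod_eq_one hall] at hlhs
  exact lt_irrefl _ hlhs

/-- The other roots give units of `W`. -/
theorem val_sub_root_eq_one (D : CoverSplit V W w m ζ y g c) (i : ι) {ξ₀ η₀ : F}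
    (hξ : ξ₀ ^ m = 1) (hη : η₀ ^ m = 1) (hne : η₀ ≠ ξ₀)
    (h : W.valuation (y i - φ (ξ₀ * c i)) < 1) : W.valuation (y i - φ (η₀ * c i)) = 1 := by
  have hξ0 := D.root_ne_zero hξ
  have hc0 : c i ≠ 0 := by
    intro h0
    have h1 := D.cong i
    rw [h0, zero_pow D.m_pos.ne', sub_zero] at h1
    apply D.w_inv_notMem
    have : w⁻¹ = (g i)⁻¹ * (g i * w⁻¹) := by
      have := D.g_ne_zero i
      field_simp
    rw [this]
    exact V.mul_mem _ _ (D.g_inv i) h1
  -- the root of unity `ρ = η₀ / ξ₀ ≠ 1`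
  have hρ : (η₀ * ξ₀⁻¹) ^ m = 1 := by rw [mul_pow, inv_pow, hξ, hη, inv_one, mul_one]
  have hρ1 : η₀ * ξ₀⁻¹ ≠ 1 := by
    intro h1
    apply hne
    field_simp at h1
    exact h1
  have hunit : (1 - η₀ * ξ₀⁻¹)⁻¹ ∈ V := D.one_sub_root_inv_mem hρ hρ1
  have hd0 : (ξ₀ - η₀) * c i ≠ 0 :=
    mul_ne_zero (sub_ne_zero.2 (Ne.symm hne)) hc0
  have hdV : (ξ₀ - η₀) * c i ∈ V :=
    V.mul_mem _ _ (sub_mem (D.root_mem hξ) (D.root_mem hη)) (D.c_mem i)
  have hdV' : ((ξ₀ - η₀) * c i)⁻¹ ∈ V := by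
    have : ((ξ₀ - η₀) * c i)⁻¹ = (1 - η₀ * ξ₀⁻¹)⁻¹ * ξ₀⁻¹ * (c i)⁻¹ := by
      have h1 : 1 - η₀ * ξ₀⁻¹ ≠ 0 := sub_ne_zero.2 (Ne.symm hρ1)
      have h2 : ξ₀ - η₀ ≠ 0 := sub_ne_zero.2 (Ne.symm hne)
      field_simp
    rw [this]
    exact V.mul_mem _ _ (V.mul_mem _ _ hunit (D.root_inv_mem hξ)) (D.c_inv i)
  have hv : W.valuation (φ ((ξ₀ - η₀) * c i)) = 1 := D.val_eq_one hdV hdV' hd0
  have hsum : y i - φ (η₀ * c i) = (y i - φ (ξ₀ * c i)) + φ ((ξ₀ - η₀) * c i) := by
    simp only [map_mul, map_sub]; ring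
  rw [hsum, Valuation.map_add_eq_of_lt_right]
  · exact hv
  · rw [hv]; exact h

section Rings

variable (V W y)

/-- `V[y_i] ⊆ L`. -/
def ringB : Subring L := Subring.closure ((algebraMap F L) '' (V : Set F) ∪ Set.range y)

/-- The localisation of `V[y_i]` at its centre in `W`. -/
def ringB' : Subring L :=
  Subring.closure ((ringB V y : Set L) ∪ {x | ∃ s ∈ ringB V y, W.valuation s = 1 ∧ x = s⁻¹})

end Rings

theorem algebraMap_mem_ringB {a : F} (ha : a ∈ V) : φ a ∈ ringB V y :=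
  Subring.subset_closure (Or.inl ⟨a, ha, rfl⟩)

theorem y_mem_ringB (i : ι) : y i ∈ ringB V y :=
  Subring.subset_closure (Or.inr ⟨i, rfl⟩)

theorem ringB_le_ringB' : ringB V y ≤ ringB' V W y :=
  fun _ hx => Subring.subset_closure (Or.inl hx)

theorem inv_mem_ringB' {s : L} (hs : s ∈ ringB V y) (hv : W.valuation s = 1) :
    s⁻¹ ∈ ringB' V W y :=
  Subring.subset_closure (Or.inr ⟨s, hs, hv, rfl⟩)

theorem ringB_le (D : CoverSplit V W w m ζ y g c) : ringB V y ≤ W.toSubring := by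
  rw [ringB, Subring.closure_le]
  rintro x (⟨a, ha, rfl⟩ | ⟨i, rfl⟩)
  · exact (D.ext a).2 ha
  · exact D.y_mem i

theorem ringB'_le (D : CoverSplit V W w m ζ y g c) : ringB' V W y ≤ W.toSubring := by
  rw [ringB', Subring.closure_le]
  rintro x (hx | ⟨s, -, hv, rfl⟩)
  · exact D.ringB_le hx
  · exact inv_mem_of_val_eq_one W hv

/-- `y_i - ξ c_i = w · t` with `t` in the localisation. -/
theorem exists_unit_mul (D : CoverSplit V W w m ζ y g c) (i : ι) {ξ₀ : F} (hξ : ξ₀ ^ m = 1)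
    (h : W.valuation (y i - φ (ξ₀ * c i)) < 1) :
    ∃ u ∈ ringB V y, W.valuation u = 1 ∧ (y i - φ (ξ₀ * c i)) * u = φ (g i - c i ^ m) := by
  classical
  have hζL : IsPrimitiveRoot (φ ζ) m := D.zeta.map_of_injective (algebraMap F L).injective
  have hprod := hζL.pow_sub_pow_eq_prod_sub_mul (y i) (φ (c i)) D.m_pos
  have hmem : φ ξ₀ ∈ Polynomial.nthRootsFinset m (1 : L) := by
    rw [Polynomial.mem_nthRootsFinset D.m_pos, ← map_pow, hξ, map_one]
  refine ⟨∏ η ∈ (Polynomial.nthRootsFinset m (1 : L)).erase (φ ξ₀), (y i - η * φ (c i)),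
    ?_, ?_, ?_⟩
  · refine Subring.prod_mem _ fun η hη => ?_
    have hη' := Finset.mem_of_mem_erase hη
    rw [Polynomial.mem_nthRootsFinset D.m_pos] at hη'
    obtain ⟨η₀, h1, rfl⟩ := D.exists_root_eq hη'
    exact Subring.sub_mem _ (y_mem_ringB i)
      (Subring.mul_mem _ (algebraMap_mem_ringB (D.root_mem h1)) (algebraMap_mem_ringB (D.c_mem i)))
  · rw [map_prod]
    refine Finset.prod_eq_one fun η hη => ?_
    have hη' := Finset.mem_of_mem_erase hη
    have hne := Finset.ne_of_mem_erase hη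
    rw [Polynomial.mem_nthRootsFinset D.m_pos] at hη'
    obtain ⟨η₀, h1, rfl⟩ := D.exists_root_eq hη'
    have hne' : η₀ ≠ ξ₀ := fun h0 => hne (by rw [h0])
    have := D.val_sub_root_eq_one i hξ h1 hne' h
    rwa [map_mul] at this
  · rw [map_mul, Finset.mul_prod_erase _ (fun η => y i - η * φ (c i)) hmem, ← hprod, D.pow_eq,
      map_sub, map_pow]

/-- The property `x ∈ V + w B'`. -/
def Good (V : ValuationSubring F) (W : ValuationSubring L) (w : F) (y : ι → L) (x : L) : Prop :=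
  ∃ a ∈ V, ∃ t ∈ ringB' V W y, x = algebraMap F L a + algebraMap F L w * t

theorem good_algebraMap {a : F} (ha : a ∈ V) : Good V W w y (φ a) :=
  ⟨a, ha, 0, Subring.zero_mem _, by rw [mul_zero, add_zero]⟩

theorem good_add {x x' : L} (hx : Good V W w y x) (hx' : Good V W w y x') :
    Good V W w y (x + x') := by
  obtain ⟨a, ha, t, ht, rfl⟩ := hx
  obtain ⟨a', ha', t', ht', rfl⟩ := hx'
  exact ⟨a + a', V.add_mem _ _ ha ha', t + t', Subring.add_mem _ ht ht', by
    rw [map_add]; ring⟩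

theorem good_neg {x : L} (hx : Good V W w y x) : Good V W w y (-x) := by
  obtain ⟨a, ha, t, ht, rfl⟩ := hx
  exact ⟨-a, V.neg_mem _ ha, -t, Subring.neg_mem _ ht, by rw [map_neg]; ring⟩

theorem good_mul (D : CoverSplit V W w m ζ y g c) {x x' : L} (hx : Good V W w y x)
    (hx' : Good V W w y x') : Good V W w y (x * x') := by
  obtain ⟨a, ha, t, ht, rfl⟩ := hx
  obtain ⟨a', ha', t', ht', rfl⟩ := hx'
  have hB : ∀ {b : F}, b ∈ V → φ b ∈ ringB' V W y :=
    fun hb => ringB_le_ringB' (algebraMap_mem_ringB hb)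
  refine ⟨a * a', V.mul_mem _ _ ha ha', φ a * t' + φ a' * t + φ w * t * t', ?_, ?_⟩
  · exact Subring.add_mem _ (Subring.add_mem _ (Subring.mul_mem _ (hB ha) ht')
      (Subring.mul_mem _ (hB ha') ht))
      (Subring.mul_mem _ (Subring.mul_mem _ (hB D.w_mem) ht) ht')
  · rw [map_mul]; ring

theorem good_y (D : CoverSplit V W w m ζ y g c) (i : ι) : Good V W w y (y i) := by
  obtain ⟨ξ₀, hξ, h⟩ := D.exists_root_val_lt i
  obtain ⟨u, huB, hu, hmul⟩ := D.exists_unit_mul i hξ h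
  have hu0 : u ≠ 0 := by
    rintro rfl
    rw [map_zero] at hu
    exact zero_ne_one hu
  refine ⟨ξ₀ * c i, V.mul_mem _ _ (D.root_mem hξ) (D.c_mem i),
    φ ((g i - c i ^ m) * w⁻¹) * u⁻¹, ?_, ?_⟩
  · exact Subring.mul_mem _ (ringB_le_ringB' (algebraMap_mem_ringB (D.cong i)))
      (inv_mem_ringB' huB hu)
  · have h1 : y i - φ (ξ₀ * c i) = φ (g i - c i ^ m) * u⁻¹ := by
      rw [← hmul, mul_assoc, mul_inv_cancel₀ hu0, mul_one]
    have h2 : φ (g i - c i ^ m) = φ w * φ ((g i - c i ^ m) * w⁻¹) := by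
      rw [← map_mul]
      congr 1
      have := D.w_ne_zero
      field_simp
    rw [h2] at h1
    rw [← mul_assoc, ← h1]; ring

theorem good_of_mem_ringB (D : CoverSplit V W w m ζ y g c) {x : L} (hx : x ∈ ringB V y) :
    Good V W w y x := by
  induction hx using Subring.closure_induction with
  | mem x hx =>
    rcases hx with ⟨a, ha, rfl⟩ | ⟨i, rfl⟩
    · exact good_algebraMap ha
    · exact D.good_y i
  | zero => simpa using good_algebraMap (V := V) (W := W) (w := w) (y := y) V.zero_mem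
  | one => simpa using good_algebraMap (V := V) (W := W) (w := w) (y := y) V.one_mem
  | add x x' _ _ hx hx' => exact good_add hx hx'
  | neg x _ hx => exact good_neg hx
  | mul x x' _ _ hx hx' => exact D.good_mul hx hx'

/-- If `x = a + w t` is a unit of `W` then `a` is a unit of `V`. -/
theorem inv_mem_of_good_of_val_eq_one (D : CoverSplit V W w m ζ y g c) {a : F} (ha : a ∈ V)
    {t x : L} (ht : t ∈ W) (hx : x = φ a + φ w * t) (hv : W.valuation x = 1) :
    a ≠ 0 ∧ a⁻¹ ∈ V := by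
  have hwt : W.valuation (φ w * t) < 1 := by
    rw [map_mul]
    calc W.valuation (φ w) * W.valuation t ≤ W.valuation (φ w) * 1 := by
          gcongr
          exact (W.valuation_le_one_iff _).2 ht
      _ = W.valuation (φ w) := mul_one _
      _ < 1 := D.val_w_lt
  have hva : W.valuation (φ a) = 1 := by
    have h1 : φ a = x + -(φ w * t) := by rw [hx]; ring
    rw [h1, Valuation.map_add_eq_of_lt_left]
    · exact hv
    · rw [Valuation.map_neg, hv]; exact hwt
  have ha0 : a ≠ 0 := by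
    rintro rfl
    rw [map_zero, map_zero] at hva
    exact zero_ne_one hva
  refine ⟨ha0, ?_⟩
  rw [← D.ext, map_inv₀]
  exact inv_mem_of_val_eq_one W hva

/-- If `x = a + w t` is a non-unit of `W` then `w ∣ a` in `V`. -/
theorem mul_inv_mem_of_good_of_val_lt (D : CoverSplit V W w m ζ y g c) {a : F}
    {t x : L} (ht : t ∈ W) (hx : x = φ a + φ w * t) (hv : W.valuation x < 1) :
    a * w⁻¹ ∈ V := by
  have hwt : W.valuation (φ w * t) < 1 := by
    rw [map_mul]
    calc W.valuation (φ w) * W.valuation t ≤ W.valuation (φ w) * 1 := by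
          gcongr
          exact (W.valuation_le_one_iff _).2 ht
      _ = W.valuation (φ w) := mul_one _
      _ < 1 := D.val_w_lt
  apply D.mul_inv_mem_of_val_lt
  have h1 : φ a = x + -(φ w * t) := by rw [hx]; ring
  rw [h1]
  refine lt_of_le_of_lt (Valuation.map_add _ _ _) (max_lt hv ?_)
  rw [Valuation.map_neg]; exact hwt

theorem good_inv (D : CoverSplit V W w m ζ y g c) {s : L} (hs : s ∈ ringB V y)
    (hv : W.valuation s = 1) : Good V W w y s⁻¹ := by
  obtain ⟨a, ha, t, ht, hst⟩ := D.good_of_mem_ringB hs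
  obtain ⟨ha0, ha'⟩ := D.inv_mem_of_good_of_val_eq_one ha (D.ringB'_le ht) hst hv
  have hs0 : s ≠ 0 := by
    rintro rfl
    rw [map_zero] at hv
    exact zero_ne_one hv
  have hφa0 : φ a ≠ 0 := fun h => ha0 ((algebraMap F L).injective (by rw [h, map_zero]))
  refine ⟨a⁻¹, ha', -(t * s⁻¹ * φ a⁻¹), ?_, ?_⟩
  · exact Subring.neg_mem _ (Subring.mul_mem _ (Subring.mul_mem _ ht (inv_mem_ringB' hs hv))
      (ringB_le_ringB' (algebraMap_mem_ringB ha')))
  · rw [map_inv₀]
    have h1 : φ w * t = s - φ a := by rw [hst]; ring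
    have : φ w * -(t * s⁻¹ * (φ a)⁻¹) = -((φ w * t) * s⁻¹ * (φ a)⁻¹) := by ring
    rw [this, h1]
    field_simp
    ring

theorem good_of_mem_ringB' (D : CoverSplit V W w m ζ y g c) {x : L} (hx : x ∈ ringB' V W y) :
    Good V W w y x := by
  induction hx using Subring.closure_induction with
  | mem x hx =>
    rcases hx with hx | ⟨s, hs, hv, rfl⟩
    · exact D.good_of_mem_ringB hx
    · exact D.good_inv hs hv
  | zero => simpa using good_algebraMap (V := V) (W := W) (w := w) (y := y) V.zero_mem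
  | one => simpa using good_algebraMap (V := V) (W := W) (w := w) (y := y) V.one_mem
  | add x x' _ _ hx hx' => exact good_add hx hx'
  | neg x _ hx => exact good_neg hx
  | mul x x' _ _ hx hx' => exact D.good_mul hx hx'

/-- Clearing denominators: `w ^ k x ∈ V[y_i]` for `k ≫ 0`. -/
theorem exists_pow_mul_mem_ringB (D : CoverSplit V W w m ζ y g c) (x : L) :
    ∃ k : ℕ, φ w ^ k * x ∈ ringB V y := by
  have hx : x ∈ Algebra.adjoin F (Set.range y) := by rw [D.gen]; trivial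
  have hwB : φ w ∈ ringB V y := algebraMap_mem_ringB D.w_mem
  induction hx using Algebra.adjoin_induction with
  | mem x hx =>
    obtain ⟨i, rfl⟩ := hx
    exact ⟨0, by rw [pow_zero, one_mul]; exact y_mem_ringB i⟩
  | algebraMap a =>
    obtain ⟨k, hk⟩ := D.w_disc a
    refine ⟨k, ?_⟩
    have : φ w ^ k * φ a = φ (a * w ^ k) := by rw [map_mul, map_pow]; ring
    rw [this]
    exact algebraMap_mem_ringB hk
  | add x x' _ _ hx hx' =>
    obtain ⟨k, hk⟩ := hx
    obtain ⟨k', hk'⟩ := hx'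
    refine ⟨k + k', ?_⟩
    have : φ w ^ (k + k') * (x + x') = φ w ^ k' * (φ w ^ k * x) + φ w ^ k * (φ w ^ k' * x') := by
      rw [pow_add]; ring
    rw [this]
    exact Subring.add_mem _ (Subring.mul_mem _ (Subring.pow_mem _ hwB _) hk)
      (Subring.mul_mem _ (Subring.pow_mem _ hwB _) hk')
  | mul x x' _ _ hx hx' =>
    obtain ⟨k, hk⟩ := hx
    obtain ⟨k', hk'⟩ := hx'
    refine ⟨k + k', ?_⟩
    have : φ w ^ (k + k') * (x * x') = (φ w ^ k * x) * (φ w ^ k' * x') := by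
      rw [pow_add]; ring
    rw [this]
    exact Subring.mul_mem _ hk hk'

/-- Descending induction: dividing by `w` stays in the localisation as long as we stay in `W`. -/
theorem mem_ringB'_of_mul_inv_pow_mem (D : CoverSplit V W w m ζ y g c) :
    ∀ (k : ℕ) (z : L), z ∈ ringB' V W y → z * (φ w)⁻¹ ^ k ∈ W → z * (φ w)⁻¹ ^ k ∈ ringB' V W y := by
  intro k
  induction k with
  | zero =>
    intro z hz _
    rwa [pow_zero, mul_one]
  | succ k ih =>
    intro z hz hzW
    have hw0 := D.φw_ne_zero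
    -- `z` is a non-unit of `W`
    have hzlt : W.valuation z < 1 := by
      have h1 : z = z * (φ w)⁻¹ ^ (k + 1) * φ w ^ (k + 1) := by
        rw [inv_pow, mul_assoc, inv_mul_cancel₀ (pow_ne_zero _ hw0), mul_one]
      rw [h1, map_mul, map_pow]
      calc W.valuation (z * (φ w)⁻¹ ^ (k + 1)) * W.valuation (φ w) ^ (k + 1)
          ≤ 1 * W.valuation (φ w) ^ (k + 1) := by
            gcongr
            exact (W.valuation_le_one_iff _).2 hzW
        _ = W.valuation (φ w) ^ (k + 1) := one_mul _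
        _ < 1 := pow_lt_one₀ zero_le D.val_w_lt (Nat.succ_ne_zero k)
    obtain ⟨a, ha, t, ht, hzt⟩ := D.good_of_mem_ringB' hz
    have haw : a * w⁻¹ ∈ V := D.mul_inv_mem_of_good_of_val_lt (D.ringB'_le ht) hzt hzlt
    -- `z / w = a / w + t`
    have hz1 : z * (φ w)⁻¹ = φ (a * w⁻¹) + t := by
      rw [hzt, map_mul, map_inv₀]
      field_simp
    have hz1B : z * (φ w)⁻¹ ∈ ringB' V W y := by
      rw [hz1]
      exact Subring.add_mem _ (ringB_le_ringB' (algebraMap_mem_ringB haw)) ht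
    have heq : z * (φ w)⁻¹ ^ (k + 1) = z * (φ w)⁻¹ * (φ w)⁻¹ ^ k := by
      rw [pow_succ]; ring
    rw [heq] at hzW ⊢
    exact ih _ hz1B hzW

/-- `W` is the localisation of `V[y_i]` at its centre. -/
theorem mem_ringB' (D : CoverSplit V W w m ζ y g c) {x : L} (hx : x ∈ W) : x ∈ ringB' V W y := by
  obtain ⟨k, hk⟩ := D.exists_pow_mul_mem_ringB x
  have hw0 := D.φw_ne_zero
  have h1 : x = (φ w ^ k * x) * (φ w)⁻¹ ^ k := by
    rw [inv_pow, mul_comm (φ w ^ k) x, mul_assoc, mul_inv_cancel₀ (pow_ne_zero _ hw0), mul_one]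
  rw [h1]
  refine D.mem_ringB'_of_mul_inv_pow_mem k _ (ringB_le_ringB' hk) ?_
  rw [← h1]
  exact hx

/-- **COVER-SPLIT (2)**: `W = V + w W`: the residue field of `W` is that of `V`. -/
theorem exists_sub_mem (D : CoverSplit V W w m ζ y g c) {x : L} (hx : x ∈ W) :
    ∃ a ∈ V, (x - φ a) * (φ w)⁻¹ ∈ W := by
  obtain ⟨a, ha, t, ht, hxt⟩ := D.good_of_mem_ringB' (D.mem_ringB' hx)
  refine ⟨a, ha, ?_⟩
  have hw0 := D.φw_ne_zero
  have : (x - φ a) * (φ w)⁻¹ = t := by
    rw [hxt]; field_simp; ring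
  rw [this]
  exact D.ringB'_le ht

/-- **COVER-SPLIT (1)**: `𝔪_W = w W` (`e = 1`). -/
theorem mul_inv_mem (D : CoverSplit V W w m ζ y g c) {x : L} (hx : x ∈ W) (hx' : x⁻¹ ∉ W) :
    x * (φ w)⁻¹ ∈ W := by
  obtain ⟨a, ha, t, ht, hxt⟩ := D.good_of_mem_ringB' (D.mem_ringB' hx)
  have hlt : W.valuation x < 1 := val_lt_one_of_inv_notMem W hx'
  have haw : a * w⁻¹ ∈ V := D.mul_inv_mem_of_good_of_val_lt (D.ringB'_le ht) hxt hlt
  have hw0 := D.φw_ne_zero
  have : x * (φ w)⁻¹ = φ (a * w⁻¹) + t := by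
    rw [hxt, map_mul, map_inv₀]
    field_simp
  rw [this]
  exact W.add_mem _ _ ((D.ext _).2 haw) (D.ringB'_le ht)

/-! ### The decomposition group is trivial -/

/-- A ring endomorphism of `L` fixing `F` and mapping `𝔪_W` into itself fixes every `y_i`. -/
theorem map_y_eq (D : CoverSplit V W w m ζ y g c) (σ : L →+* L) (hσF : ∀ a : F, σ (φ a) = φ a)
    (hσ : ∀ x, W.valuation x < 1 → W.valuation (σ x) < 1) (i : ι) : σ (y i) = y i := by
  have hy0 : y i ≠ 0 := by
    intro h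
    have := D.val_y i
    rw [h, map_zero] at this
    exact zero_ne_one this
  -- `σ y = ρ y` with `ρ` a root of unity of `F`
  have hpow : (σ (y i) * (y i)⁻¹) ^ m = 1 := by
    rw [mul_pow, ← map_pow, D.pow_eq, hσF, inv_pow, D.pow_eq]
    exact mul_inv_cancel₀ (by
      intro h
      exact D.g_ne_zero i ((algebraMap F L).injective (by rw [h, map_zero])))
  obtain ⟨ρ, hρ, hρy⟩ := D.exists_root_eq hpow
  have hσy : σ (y i) = φ ρ * y i := by
    rw [hρy, mul_assoc, inv_mul_cancel₀ hy0, mul_one]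
  by_cases hρ1 : ρ = 1
  · rw [hσy, hρ1, map_one, one_mul]
  exfalso
  obtain ⟨ξ₀, hξ, h⟩ := D.exists_root_val_lt i
  -- `(ρ - 1) ξ₀ c ∈ 𝔪_W`
  have h1 : W.valuation (σ (y i - φ (ξ₀ * c i))) < 1 := hσ _ h
  rw [map_sub, hσF, hσy] at h1
  have h2 : W.valuation (φ ρ * (y i - φ (ξ₀ * c i))) < 1 := by
    rw [map_mul]
    calc W.valuation (φ ρ) * W.valuation (y i - φ (ξ₀ * c i))
        ≤ 1 * W.valuation (y i - φ (ξ₀ * c i)) := by
          gcongr
          exact D.val_le_one (D.root_mem hρ)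
      _ = W.valuation (y i - φ (ξ₀ * c i)) := one_mul _
      _ < 1 := h
  have h3 : φ ((ρ - 1) * (ξ₀ * c i)) =
      (φ ρ * y i - φ (ξ₀ * c i)) + -(φ ρ * (y i - φ (ξ₀ * c i))) := by
    simp only [map_mul, map_sub, map_one]; ring
  have h4 : W.valuation (φ ((ρ - 1) * (ξ₀ * c i))) < 1 := by
    rw [h3]
    refine lt_of_le_of_lt (Valuation.map_add _ _ _) (max_lt h1 ?_)
    rw [Valuation.map_neg]; exact h2
  -- but it is a unit of `V`
  have hu : ((ρ - 1) * (ξ₀ * c i))⁻¹ ∈ V := by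
    have h5 : (1 - ρ)⁻¹ ∈ V := D.one_sub_root_inv_mem hρ hρ1
    have : ((ρ - 1) * (ξ₀ * c i))⁻¹ = -((1 - ρ)⁻¹ * (ξ₀⁻¹ * (c i)⁻¹)) := by
      have e1 : ρ - 1 = -(1 - ρ) := by ring
      rw [e1, neg_mul, inv_neg, mul_inv, mul_inv]
    rw [this]
    exact V.neg_mem _ (V.mul_mem _ _ h5 (V.mul_mem _ _ (D.root_inv_mem hξ) (D.c_inv i)))
  have hc0 : c i ≠ 0 := by
    intro h0
    have h6 := D.cong i
    rw [h0, zero_pow D.m_pos.ne', sub_zero] at h6
    apply D.w_inv_notMem
    have : w⁻¹ = (g i)⁻¹ * (g i * w⁻¹) := by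
      have := D.g_ne_zero i
      field_simp
    rw [this]
    exact V.mul_mem _ _ (D.g_inv i) h6
  have hne : (ρ - 1) * (ξ₀ * c i) ≠ 0 :=
    mul_ne_zero (sub_ne_zero.2 hρ1) (mul_ne_zero (D.root_ne_zero hξ) hc0)
  have hV : (ρ - 1) * (ξ₀ * c i) ∈ V :=
    V.mul_mem _ _ (sub_mem (D.root_mem hρ) V.one_mem)
      (V.mul_mem _ _ (D.root_mem hξ) (D.c_mem i))
  have h7 := D.val_eq_one hV hu hne
  rw [h7] at h4
  exact lt_irrefl _ h4

/-- **COVER-SPLIT (3)**, ring-hom form: a ring endomorphism of `L` over `F` which maps the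
maximal ideal of `W` into itself is the identity. -/
theorem eq_id_of_map_lt (D : CoverSplit V W w m ζ y g c) (σ : L →+* L)
    (hσF : ∀ a : F, σ (φ a) = φ a) (hσ : ∀ x, W.valuation x < 1 → W.valuation (σ x) < 1)
    (x : L) : σ x = x := by
  let σ' : L →ₐ[F] L := { σ with commutes' := hσF }
  have h : σ' = AlgHom.id F L := by
    refine AlgHom.ext_of_adjoin_eq_top D.gen ?_
    rintro _ ⟨i, rfl⟩
    exact D.map_y_eq σ hσF hσ i
  have := congrArg (fun f : L →ₐ[F] L => f x) h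
  exact this

/-- **COVER-SPLIT (3)**: an `F`-automorphism of `L` with `σ W = W` is the identity
(`V` splits completely in `L`). -/
theorem eq_one_of_map_eq (D : CoverSplit V W w m ζ y g c) (σ : L ≃ₐ[F] L)
    (hσ : ∀ x, x ∈ W ↔ σ x ∈ W) : σ = 1 := by
  ext x
  refine D.eq_id_of_map_lt (σ : L →+* L) (fun a => σ.commutes a) ?_ x
  intro z hz
  by_cases hz0 : z = 0
  · rw [hz0, map_zero, map_zero]; exact zero_lt_one
  have hzW : z ∈ W := (W.valuation_le_one_iff _).1 hz.le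
  have hzinv : z⁻¹ ∉ W := inv_notMem_of_val_lt_one W hz0 hz
  apply val_lt_one_of_inv_notMem
  show (σ z)⁻¹ ∉ W
  rw [← map_inv₀, ← hσ]
  exact hzinv

end CoverSplit

end Fermat.Agent.A2.H93

end
-- ===== PACK-END A2/H93/CoverSplit.lean

-- ===== PACK-BEGIN A2/H643/BaseOver.lean
section




/-!
# Cell A2, route G, leaf BASE — lying over `(π)` (helper643)

`A` an integrally closed domain, `B` a domain, integral and faithful over `A`, `π ∈ A` prime,
`w = π` in `B`, and two incomparable primes `p₁`, `p₂` of `B` with `p₁ ⊓ p₂ = (w)`.  Then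
`p₁` and `p₂` lie over `(π)` (going down), and they are the only primes of `B` lying over `(π)`
(incomparability).
-/

set_option autoImplicit false
set_option linter.unusedSectionVars false

namespace Fermat.Agent.A2.H643

section Over

variable {A B : Type*} [CommRing A] [IsDomain A] [IsIntegrallyClosed A]
  [CommRing B] [IsDomain B] [Algebra A B] [FaithfulSMul A B] [Algebra.IsIntegral A B]

/-- A prime `p₁` which is a component of `(w)` lies over `(π)`. -/
theorem over_under_eq {π : A} (hπ : Prime π) {p₁ p₂ : Ideal B} [hp₁ : p₁.IsPrime]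
    (hinf : p₁ ⊓ p₂ = Ideal.span {algebraMap A B π}) (hle : ¬ p₂ ≤ p₁) :
    p₁.comap (algebraMap A B) = Ideal.span {π} := by
  have hq₀ : (Ideal.span {π} : Ideal A).IsPrime :=
    (Ideal.span_singleton_prime hπ.ne_zero).2 hπ
  have hwp : algebraMap A B π ∈ p₁ := by
    have h : algebraMap A B π ∈ p₁ ⊓ p₂ := by
      rw [hinf]
      exact Ideal.mem_span_singleton_self _
    exact h.1
  have hle0 : Ideal.span {π} ≤ p₁.under A := by
    rw [Ideal.span_singleton_le_iff_mem]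
    exact hwp
  obtain ⟨P, hPle, hPprime, hPover⟩ :=
    Ideal.exists_ideal_le_liesOver_of_le (p := Ideal.span {π}) (q := p₁.under A) p₁ hle0
  have hPu : Ideal.span {π} = P.under A := hPover.over
  have hwP : algebraMap A B π ∈ P := by
    have h1 : π ∈ P.under A := by
      rw [← hPu]
      exact Ideal.mem_span_singleton_self _
    exact h1
  have h2 : p₁ ⊓ p₂ ≤ P := by
    rw [hinf, Ideal.span_singleton_le_iff_mem]
    exact hwP
  rcases hPprime.inf_le.1 h2 with h3 | h3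
  · have hP : P = p₁ := le_antisymm hPle h3
    rw [hPu, hP]
  · exact absurd (h3.trans hPle) hle

/-- The components are the only primes lying over `(π)`. -/
theorem eq_or_eq_of_under_eq {π : A} (hπ : Prime π) {p₁ p₂ : Ideal B} [hp₁ : p₁.IsPrime]
    [hp₂ : p₂.IsPrime] (hinf : p₁ ⊓ p₂ = Ideal.span {algebraMap A B π})
    (h₁₂ : ¬ p₁ ≤ p₂) (h₂₁ : ¬ p₂ ≤ p₁) {P : Ideal B} (hP : P.IsPrime)
    (hPu : P.comap (algebraMap A B) = Ideal.span {π}) : P = p₁ ∨ P = p₂ := by
  have hwP : algebraMap A B π ∈ P := by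
    have h1 : π ∈ P.comap (algebraMap A B) := by
      rw [hPu]
      exact Ideal.mem_span_singleton_self _
    exact h1
  have h2 : p₁ ⊓ p₂ ≤ P := by
    rw [hinf, Ideal.span_singleton_le_iff_mem]
    exact hwP
  have hinf' : p₂ ⊓ p₁ = Ideal.span {algebraMap A B π} := by rw [inf_comm, hinf]
  have key : ∀ (p p' : Ideal B) [p.IsPrime], p ⊓ p' = Ideal.span {algebraMap A B π} →
      ¬ p' ≤ p → p ≤ P → P = p := by
    intro p p' _ hi hl hle
    by_contra hne
    have hlt : p < P := lt_of_le_of_ne hle (Ne.symm hne)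
    obtain ⟨b, hbP, hbp⟩ := SetLike.exists_of_lt hlt
    have h3 := Ideal.comap_lt_comap_of_integral_mem_sdiff (R := A) hle ⟨hbP, hbp⟩
      (Algebra.IsIntegral.isIntegral b)
    rw [over_under_eq hπ hi hl, hPu] at h3
    exact lt_irrefl _ h3
  rcases hP.inf_le.1 h2 with h3 | h3
  · exact Or.inl (key p₁ p₂ hinf h₂₁ h3)
  · exact Or.inr (key p₂ p₁ hinf' h₁₂ h3)

end Over

end Fermat.Agent.A2.H643

end
-- ===== PACK-END A2/H643/BaseOver.lean

-- ===== PACK-BEGIN A2/Mod/H378/L11Abstract.lean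
section


/-!
# A2 / MOD leaf L11 (helper378): residue degree one, abstract form

`K` a field, `V ⊆ K` a subring (a discrete valuation ring with uniformiser `w` in the
application), `O ⊆ V` a subring with `O ∩ w V = w O` and `O ∩ Vˣ = Oˣ`, `X ⊆ V` a set of
elements each satisfying a "Kronecker relation" `s (x - a) = w c` with `a ∈ O`,
`s, c ∈ B := O[X]`, `s ∈ Vˣ`.  If `K` is generated as a field by `O ∪ X`, then `V = O + w V`
(`ResOneData.exists_congr`): the localisation of `B` at `B ∩ w V` is a discrete valuation ring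
with fraction field `K` contained in `V`, hence equal to `V`, and its residue field is the
residue field of `O`.
-/

set_option autoImplicit false

namespace Fermat.Agent.A2.Mod.H378

variable {K : Type*} [Field K]

/-- The hypotheses of the abstract residue-degree-one lemma. -/
structure ResOneData (V O : Subring K) (w : K) (X : Set K) : Prop where
  O_le : ∀ x ∈ O, x ∈ V
  w_mem : w ∈ O
  w_ne : w ≠ 0
  w_nonunit : w⁻¹ ∉ V
  O_div : ∀ x ∈ O, x * w⁻¹ ∈ V → x * w⁻¹ ∈ O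
  O_inv : ∀ x ∈ O, x⁻¹ ∈ V → x⁻¹ ∈ O
  X_le : ∀ x ∈ X, x ∈ V
  disc : ∀ x ∈ V, x ≠ 0 → ∃ (n : ℕ) (u : K), u ∈ V ∧ u⁻¹ ∈ V ∧ x = w ^ n * u
  kron : ∀ x ∈ X, ∃ a ∈ O, ∃ s ∈ Subring.closure ((O : Set K) ∪ X), s ≠ 0 ∧ s⁻¹ ∈ V ∧
    ∃ c ∈ Subring.closure ((O : Set K) ∪ X), s * (x - a) = w * c
  gen : ∀ f : K, f ∈ Subfield.closure ((O : Set K) ∪ X)

namespace ResOneData

variable {V O : Subring K} {w : K} {X : Set K}

/-- `x ≡ g mod w V` for some `g ∈ O`. -/
def Cong (V O : Subring K) (w : K) (x : K) : Prop := ∃ g ∈ O, (x - g) * w⁻¹ ∈ V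

theorem w_mem_V (h : ResOneData V O w X) : w ∈ V := h.O_le w h.w_mem

theorem closure_le (h : ResOneData V O w X) : Subring.closure ((O : Set K) ∪ X) ≤ V := by
  rw [Subring.closure_le]
  rintro x (hx | hx)
  · exact h.O_le x hx
  · exact h.X_le x hx

theorem mem_closure_of_O (O : Subring K) (X : Set K) {x : K} (hx : x ∈ O) :
    x ∈ Subring.closure ((O : Set K) ∪ X) :=
  Subring.subset_closure (Or.inl hx)

theorem Cong.mem (h : ResOneData V O w X) {x : K} (hx : Cong V O w x) : x ∈ V := by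
  obtain ⟨g, hg, hv⟩ := hx
  have h1 : x = g + w * ((x - g) * w⁻¹) := by
    have := h.w_ne
    field_simp
    ring
  rw [h1]
  exact V.add_mem (h.O_le g hg) (V.mul_mem h.w_mem_V hv)

theorem Cong.of_O {x : K} (hx : x ∈ O) : Cong V O w x :=
  ⟨x, hx, by rw [sub_self, zero_mul]; exact V.zero_mem⟩

theorem Cong.add {x y : K} (hx : Cong V O w x) (hy : Cong V O w y) : Cong V O w (x + y) := by
  obtain ⟨g, hg, hv⟩ := hx
  obtain ⟨g', hg', hv'⟩ := hy
  refine ⟨g + g', O.add_mem hg hg', ?_⟩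
  have : (x + y - (g + g')) * w⁻¹ = (x - g) * w⁻¹ + (y - g') * w⁻¹ := by ring
  rw [this]
  exact V.add_mem hv hv'

theorem Cong.neg {x : K} (hx : Cong V O w x) : Cong V O w (-x) := by
  obtain ⟨g, hg, hv⟩ := hx
  refine ⟨-g, O.neg_mem hg, ?_⟩
  have : (-x - -g) * w⁻¹ = -((x - g) * w⁻¹) := by ring
  rw [this]
  exact V.neg_mem hv

theorem Cong.mul (h : ResOneData V O w X) {x y : K} (hx : Cong V O w x) (hy : Cong V O w y) :
    Cong V O w (x * y) := by
  have hyV := Cong.mem h hy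
  obtain ⟨g, hg, hv⟩ := hx
  obtain ⟨g', hg', hv'⟩ := hy
  refine ⟨g * g', O.mul_mem hg hg', ?_⟩
  have : (x * y - g * g') * w⁻¹ = (x - g) * w⁻¹ * y + g * ((y - g') * w⁻¹) := by ring
  rw [this]
  exact V.add_mem (V.mul_mem hv hyV) (V.mul_mem (h.O_le g hg) hv')

/-- A unit of `V` which is congruent to an element of `O` has its inverse congruent to an
element of `O`. -/
theorem Cong.inv (h : ResOneData V O w X) {x : K} (hx : Cong V O w x) (hx0 : x ≠ 0)
    (hxi : x⁻¹ ∈ V) : Cong V O w x⁻¹ := by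
  obtain ⟨g, hg, hv⟩ := hx
  have hw := h.w_ne
  have hxg : x = g + w * ((x - g) * w⁻¹) := by
    field_simp
    ring
  have hgV : g ∈ V := h.O_le g hg
  -- `g` is a unit of `V`
  have hg0 : g ≠ 0 := by
    rintro rfl
    apply h.w_nonunit
    have h1 : w⁻¹ = x⁻¹ * ((x - 0) * w⁻¹) := by
      rw [sub_zero]
      field_simp
    rw [h1]
    exact V.mul_mem hxi hv
  have hgi : g⁻¹ ∈ V := by
    obtain ⟨n, u, hu, hui, hgu⟩ := h.disc g hgV hg0
    rcases Nat.eq_zero_or_pos n with hn | hn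
    · rw [hn, pow_zero, one_mul] at hgu
      rw [hgu]
      exact hui
    · exfalso
      apply h.w_nonunit
      obtain ⟨m, rfl⟩ : ∃ m, n = m + 1 := ⟨n - 1, by omega⟩
      have h1 : w⁻¹ = x⁻¹ * (w ^ m * u + (x - g) * w⁻¹) := by
        have h2 : x = w * (w ^ m * u + (x - g) * w⁻¹) := by
          have h5 : w * (w ^ m * u + (x - g) * w⁻¹)
              = w ^ (m + 1) * u + w * ((x - g) * w⁻¹) := by ring
          rw [h5, ← hgu]
          exact hxg
        have h3 : w ^ m * u + (x - g) * w⁻¹ ≠ 0 := by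
          intro h0
          rw [h0, mul_zero] at h2
          exact hx0 h2
        set z := w ^ m * u + (x - g) * w⁻¹ with hz
        have h4 : x⁻¹ = w⁻¹ * z⁻¹ := by
          rw [h2, mul_inv]
        rw [h4, mul_assoc, inv_mul_cancel₀ h3, mul_one]
      rw [h1]
      exact V.mul_mem hxi (V.add_mem (V.mul_mem (V.pow_mem h.w_mem_V m) hu) hv)
  refine ⟨g⁻¹, h.O_inv g hg hgi, ?_⟩
  have : (x⁻¹ - g⁻¹) * w⁻¹ = -((x - g) * w⁻¹) * x⁻¹ * g⁻¹ := by
    field_simp
    ring
  rw [this]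
  exact V.mul_mem (V.mul_mem (V.neg_mem hv) hxi) hgi

/-- Every element of `B = O[X]` is congruent to an element of `O`. -/
theorem cong_of_mem_closure (h : ResOneData V O w X) {b : K}
    (hb : b ∈ Subring.closure ((O : Set K) ∪ X)) : Cong V O w b := by
  induction hb using Subring.closure_induction with
  | mem x hx =>
    rcases hx with hx | hx
    · exact Cong.of_O hx
    · obtain ⟨a, ha, s, hs, hs0, hsi, c, hc, he⟩ := h.kron x hx
      refine ⟨a, ha, ?_⟩
      have h1 : (x - a) * w⁻¹ = c * s⁻¹ := by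
        have hw := h.w_ne
        field_simp
        rw [mul_comm, he, mul_comm]
      rw [h1]
      exact V.mul_mem (h.closure_le hc) hsi
  | zero => exact Cong.of_O O.zero_mem
  | one => exact Cong.of_O O.one_mem
  | add x y _ _ hx hy => exact Cong.add hx hy
  | neg x _ hx => exact Cong.neg hx
  | mul x y _ _ hx hy => exact Cong.mul h hx hy

/-- The Kronecker relation for every element of `B = O[X]`. -/
theorem kron_closure (h : ResOneData V O w X) {b : K}
    (hb : b ∈ Subring.closure ((O : Set K) ∪ X)) :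
    ∃ a ∈ O, ∃ s ∈ Subring.closure ((O : Set K) ∪ X), s ≠ 0 ∧ s⁻¹ ∈ V ∧
      ∃ c ∈ Subring.closure ((O : Set K) ∪ X), s * (b - a) = w * c := by
  induction hb using Subring.closure_induction with
  | mem x hx =>
    rcases hx with hx | hx
    · exact ⟨x, hx, 1, Subring.one_mem _, one_ne_zero, by rw [inv_one]; exact V.one_mem,
        0, Subring.zero_mem _, by rw [sub_self, mul_zero, mul_zero]⟩
    · exact h.kron x hx
  | zero =>
    exact ⟨0, O.zero_mem, 1, Subring.one_mem _, one_ne_zero, by rw [inv_one]; exact V.one_mem,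
        0, Subring.zero_mem _, by rw [sub_self, mul_zero, mul_zero]⟩
  | one =>
    exact ⟨1, O.one_mem, 1, Subring.one_mem _, one_ne_zero, by rw [inv_one]; exact V.one_mem,
        0, Subring.zero_mem _, by rw [sub_self, mul_zero, mul_zero]⟩
  | add x y _ _ hx hy =>
    obtain ⟨a, ha, s, hs, hs0, hsi, c, hc, he⟩ := hx
    obtain ⟨a', ha', s', hs', hs0', hsi', c', hc', he'⟩ := hy
    refine ⟨a + a', O.add_mem ha ha', s * s', Subring.mul_mem _ hs hs', mul_ne_zero hs0 hs0', ?_,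
      s' * c + s * c', Subring.add_mem _ (Subring.mul_mem _ hs' hc) (Subring.mul_mem _ hs hc'), ?_⟩
    · rw [mul_inv]
      exact V.mul_mem hsi hsi'
    · have : s * s' * (x + y - (a + a')) = s' * (s * (x - a)) + s * (s' * (y - a')) := by ring
      rw [this, he, he']
      ring
  | neg x _ hx =>
    obtain ⟨a, ha, s, hs, hs0, hsi, c, hc, he⟩ := hx
    refine ⟨-a, O.neg_mem ha, s, hs, hs0, hsi, -c, Subring.neg_mem _ hc, ?_⟩
    have : s * (-x - -a) = -(s * (x - a)) := by ring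
    rw [this, he]
    ring
  | mul x y hxB hyB hx hy =>
    obtain ⟨a, ha, s, hs, hs0, hsi, c, hc, he⟩ := hx
    obtain ⟨a', ha', s', hs', hs0', hsi', c', hc', he'⟩ := hy
    refine ⟨a * a', O.mul_mem ha ha', s * s', Subring.mul_mem _ hs hs', mul_ne_zero hs0 hs0', ?_,
      c * s' * y + a * s * c', Subring.add_mem _
        (Subring.mul_mem _ (Subring.mul_mem _ hc hs') hyB)
        (Subring.mul_mem _ (Subring.mul_mem _ (mem_closure_of_O O X ha) hs) hc'), ?_⟩
    · rw [mul_inv]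
      exact V.mul_mem hsi hsi'
    · have : s * s' * (x * y - a * a') = (s * (x - a)) * s' * y + a * s * (s' * (y - a')) := by
        ring
      rw [this, he, he']
      ring

/-- `B ∩ w V ⊆ w B_𝔪`. -/
theorem div_closure (h : ResOneData V O w X) {b : K}
    (hb : b ∈ Subring.closure ((O : Set K) ∪ X)) (hbw : b * w⁻¹ ∈ V) :
    ∃ s ∈ Subring.closure ((O : Set K) ∪ X), s ≠ 0 ∧ s⁻¹ ∈ V ∧
      ∃ c ∈ Subring.closure ((O : Set K) ∪ X), s * b = w * c := by
  obtain ⟨a, ha, s, hs, hs0, hsi, c, hc, he⟩ := h.kron_closure hb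
  have hw := h.w_ne
  have haw : a * w⁻¹ ∈ V := by
    have h1 : a * w⁻¹ = b * w⁻¹ - c * s⁻¹ := by
      have h2 : c = s * (b - a) * w⁻¹ := by
        rw [he]
        field_simp
      rw [h2]
      field_simp
      ring
    rw [h1]
    exact V.sub_mem hbw (V.mul_mem (h.closure_le hc) hsi)
  have haO : a * w⁻¹ ∈ O := h.O_div a ha haw
  refine ⟨s, hs, hs0, hsi, s * (a * w⁻¹) + c,
    Subring.add_mem _ (Subring.mul_mem _ hs (mem_closure_of_O O X haO)) hc, ?_⟩
  have h1 : s * b = s * (b - a) + s * a := by ring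
  rw [h1, he]
  field_simp
  ring

/-- Every nonzero element of `B` is `w ^ n` times a unit of `B_𝔪`. -/
theorem unit_closure (h : ResOneData V O w X) (n : ℕ) :
    ∀ b ∈ Subring.closure ((O : Set K) ∪ X), ∀ u : K, u ∈ V → u⁻¹ ∈ V → u ≠ 0 →
      b = w ^ n * u →
      ∃ s ∈ Subring.closure ((O : Set K) ∪ X), s ≠ 0 ∧ s⁻¹ ∈ V ∧
        ∃ s' ∈ Subring.closure ((O : Set K) ∪ X), s' ≠ 0 ∧ s'⁻¹ ∈ V ∧ s * b = w ^ n * s' := by
  have hw := h.w_ne
  induction n with
  | zero =>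
    intro b hb u hu hui hu0 hbu
    rw [pow_zero, one_mul] at hbu
    refine ⟨1, Subring.one_mem _, one_ne_zero, by rw [inv_one]; exact V.one_mem,
      b, hb, by rw [hbu]; exact hu0, by rw [hbu]; exact hui, by rw [pow_zero]⟩
  | succ n ih =>
    intro b hb u hu hui hu0 hbu
    have hbw : b * w⁻¹ ∈ V := by
      have : b * w⁻¹ = w ^ n * u := by
        rw [hbu, pow_succ]
        field_simp
      rw [this]
      exact V.mul_mem (V.pow_mem h.w_mem_V n) hu
    obtain ⟨s, hs, hs0, hsi, c, hc, he⟩ := h.div_closure hb hbw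
    have hc' : c = w ^ n * (s * u) := by
      have h1 : w * c = w * (w ^ n * (s * u)) := by
        rw [← he, hbu, pow_succ]
        ring
      exact mul_left_cancel₀ hw h1
    obtain ⟨s₁, hs₁, hs₁0, hs₁i, s₂, hs₂, hs₂0, hs₂i, he₁⟩ :=
      ih c hc (s * u) (V.mul_mem (h.closure_le hs) hu)
        (by rw [mul_inv]; exact V.mul_mem hsi hui) (mul_ne_zero hs0 hu0) hc'
    refine ⟨s₁ * s, Subring.mul_mem _ hs₁ hs, mul_ne_zero hs₁0 hs0,
      by rw [mul_inv]; exact V.mul_mem hs₁i hsi, s₂, hs₂, hs₂0, hs₂i, ?_⟩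
    rw [mul_assoc, he, mul_left_comm, he₁, pow_succ]
    ring

/-- Every element of `K` is a fraction of elements of `B`. -/
theorem exists_frac (h : ResOneData V O w X) (f : K) :
    ∃ b₁ ∈ Subring.closure ((O : Set K) ∪ X), ∃ b₂ ∈ Subring.closure ((O : Set K) ∪ X),
      b₂ ≠ 0 ∧ f * b₂ = b₁ := by
  have hf := h.gen f
  induction hf using Subfield.closure_induction with
  | mem x hx =>
    exact ⟨x, Subring.subset_closure hx, 1, Subring.one_mem _, one_ne_zero, mul_one _⟩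
  | one => exact ⟨1, Subring.one_mem _, 1, Subring.one_mem _, one_ne_zero, mul_one _⟩
  | add x y _ _ hx hy =>
    obtain ⟨b₁, hb₁, b₂, hb₂, h0, he⟩ := hx
    obtain ⟨b₁', hb₁', b₂', hb₂', h0', he'⟩ := hy
    refine ⟨b₁ * b₂' + b₁' * b₂, Subring.add_mem _ (Subring.mul_mem _ hb₁ hb₂')
      (Subring.mul_mem _ hb₁' hb₂), b₂ * b₂', Subring.mul_mem _ hb₂ hb₂', mul_ne_zero h0 h0', ?_⟩
    rw [← he, ← he']
    ring
  | neg x _ hx =>
    obtain ⟨b₁, hb₁, b₂, hb₂, h0, he⟩ := hx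
    exact ⟨-b₁, Subring.neg_mem _ hb₁, b₂, hb₂, h0, by rw [← he, neg_mul]⟩
  | inv x _ hx =>
    obtain ⟨b₁, hb₁, b₂, hb₂, h0, he⟩ := hx
    by_cases hx0 : x = 0
    · exact ⟨0, Subring.zero_mem _, 1, Subring.one_mem _, one_ne_zero,
        by rw [hx0, inv_zero, zero_mul]⟩
    · have hb₁0 : b₁ ≠ 0 := by
        rw [← he]
        exact mul_ne_zero hx0 h0
      refine ⟨b₂, hb₂, b₁, hb₁, hb₁0, ?_⟩
      rw [← he, ← mul_assoc, inv_mul_cancel₀ hx0, one_mul]
  | mul x y _ _ hx hy =>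
    obtain ⟨b₁, hb₁, b₂, hb₂, h0, he⟩ := hx
    obtain ⟨b₁', hb₁', b₂', hb₂', h0', he'⟩ := hy
    refine ⟨b₁ * b₁', Subring.mul_mem _ hb₁ hb₁', b₂ * b₂', Subring.mul_mem _ hb₂ hb₂',
      mul_ne_zero h0 h0', ?_⟩
    rw [← he, ← he']
    ring

/-- **Residue degree one.**  Every element of `V` is congruent modulo `w V` to an element
of `O`. -/
theorem exists_congr (h : ResOneData V O w X) {f : K} (hf : f ∈ V) :
    ∃ g ∈ O, (f - g) * w⁻¹ ∈ V := by
  have hw := h.w_ne
  by_cases hf0 : f = 0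
  · exact ⟨0, O.zero_mem, by rw [hf0, sub_zero, zero_mul]; exact V.zero_mem⟩
  obtain ⟨b₁, hb₁, b₂, hb₂, hb₂0, he⟩ := h.exists_frac f
  have hb₁0 : b₁ ≠ 0 := by
    rw [← he]
    exact mul_ne_zero hf0 hb₂0
  obtain ⟨n₁, u₁, hu₁, hu₁i, hbu₁⟩ := h.disc b₁ (h.closure_le hb₁) hb₁0
  obtain ⟨n₂, u₂, hu₂, hu₂i, hbu₂⟩ := h.disc b₂ (h.closure_le hb₂) hb₂0
  have hu₁0 : u₁ ≠ 0 := by
    rintro rfl
    rw [mul_zero] at hbu₁
    exact hb₁0 hbu₁
  have hu₂0 : u₂ ≠ 0 := by
    rintro rfl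
    rw [mul_zero] at hbu₂
    exact hb₂0 hbu₂
  obtain ⟨s₁, hs₁, hs₁0, hs₁i, t₁, ht₁, ht₁0, ht₁i, he₁⟩ :=
    h.unit_closure n₁ b₁ hb₁ u₁ hu₁ hu₁i hu₁0 hbu₁
  obtain ⟨s₂, hs₂, hs₂0, hs₂i, t₂, ht₂, ht₂0, ht₂i, he₂⟩ :=
    h.unit_closure n₂ b₂ hb₂ u₂ hu₂ hu₂i hu₂0 hbu₂
  -- `n₂ ≤ n₁`
  have hle : n₂ ≤ n₁ := by
    by_contra hlt
    rw [not_le] at hlt
    obtain ⟨m, rfl⟩ : ∃ m, n₂ = n₁ + (m + 1) := ⟨n₂ - n₁ - 1, by omega⟩
    apply h.w_nonunit
    have h1 : w⁻¹ = w ^ m * f * u₂ * u₁⁻¹ := by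
      have h2 : f * (w ^ (n₁ + (m + 1)) * u₂) = w ^ n₁ * u₁ := by
        rw [← hbu₂, ← hbu₁, he]
      have h3 : w ^ n₁ * (w * (w ^ m * f * u₂ * u₁⁻¹)) = w ^ n₁ * 1 := by
        have : w ^ n₁ * (w * (w ^ m * f * u₂ * u₁⁻¹))
            = f * (w ^ (n₁ + (m + 1)) * u₂) * u₁⁻¹ := by
          rw [pow_add, pow_succ]
          ring
        rw [this, h2, mul_assoc, mul_inv_cancel₀ hu₁0]
      have h4 := mul_left_cancel₀ (pow_ne_zero n₁ hw) h3
      exact (eq_inv_of_mul_eq_one_right h4).symm ▸ rfl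
    rw [h1]
    exact V.mul_mem (V.mul_mem (V.mul_mem (V.pow_mem h.w_mem_V m) hf) hu₂) hu₁i
  obtain ⟨k, rfl⟩ : ∃ k, n₁ = n₂ + k := ⟨n₁ - n₂, by omega⟩
  -- `f = w ^ k * (t₁ s₂) / (s₁ t₂)`
  have hfe : f = w ^ k * ((t₁ * s₂) * (s₁ * t₂)⁻¹) := by
    have h1 : b₁ = w ^ (n₂ + k) * t₁ * s₁⁻¹ := by
      rw [← he₁]
      field_simp
    have h2 : b₂ = w ^ n₂ * t₂ * s₂⁻¹ := by
      rw [← he₂]
      field_simp
    have h3 : f = b₁ * b₂⁻¹ := by
      rw [← he]
      field_simp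
    rw [h3, h1, h2, pow_add]
    field_simp
  have hC : Cong V O w f := by
    rw [hfe]
    refine Cong.mul h ?_ (Cong.mul h (Cong.mul h (h.cong_of_mem_closure ht₁)
      (h.cong_of_mem_closure hs₂)) ?_)
    · exact Cong.of_O (O.pow_mem h.w_mem k)
    · refine Cong.inv h (Cong.mul h (h.cong_of_mem_closure hs₁) (h.cong_of_mem_closure ht₂))
        (mul_ne_zero hs₁0 ht₂0) ?_
      rw [mul_inv]
      exact V.mul_mem hs₁i ht₂i
  exact hC

end ResOneData

end Fermat.Agent.A2.Mod.H378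

end
-- ===== PACK-END A2/Mod/H378/L11Abstract.lean

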