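import Mathlib.Analysis.Complex.Periodic
import Mathlib.Analysis.Complex.UpperHalfPlane.Basic
import Mathlib.Analysis.Normed.Ring.InfiniteSum
import Mathlib.Analysis.SpecificLimits.Normed
import Mathlib
import Fermat.Prelude.Def_AlgebraicCurve_Correspondence
import Mathlib.RingTheory.Valuation.ValuationSubring
import Mathlib.RingTheory.IntegralClosure.IntegrallyClosed
import Mathlib.RingTheory.IntegralClosure.IsIntegralClosure.Basic
import Mathlib.RingTheory.Localization.FractionRing
import Mathlib.RingTheory.LocalRing.ResidueField.Basic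
import Mathlib.RingTheory.Polynomial.Basic
import Mathlib.RingTheory.Valuation.LocalSubring
import Mathlib.RingTheory.Adjoin.Polynomial.Basic
import Mathlib.RingTheory.Trace.Quotient
import Mathlib.RingTheory.Discriminant
import Mathlib.RingTheory.Ideal.Over
import Mathlib.FieldTheory.Separable
import Fermat.Prelude.Def_ModularCurve_IgusaScheme
import Fermat.Prelude.Def_ModularCurve_X0ModL
import Mathlib.RingTheory.Invariant.Basic
import Mathlib.FieldTheory.Fixed
import Mathlib.Algebra.Ring.Action.Invariant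
import Fermat.Agent.Pack.S44C.G0E0L3
import Fermat.Agent.Pack.S44C.G0E4L0
import Fermat.Agent.Pack.Fast891

-- ===== PACK-BEGIN S24/Inf/Conv.lean
section






/-!
# S24 / MOD-INF — convergent Laurent expansions at `∞`

`InfExp N f φ` : the Laurent series `φ` converges to `f : ℍ → ℂ` on all of `ℍ` in the
variable `z = exp (2πiτ/N)`.  We prove closure under the ring operations and uniqueness.
-/

set_option autoImplicit false

noncomputable section

open HahnSeries ModularCurve UpperHalfPlane Complex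
open scoped Real

namespace Fermat.Agent.S24

/-- The local parameter `exp (2πiτ/N)` at `∞` (width `N`). -/
def infZ (N : ℕ) (τ : ℍ) : ℂ := Function.Periodic.qParam (N : ℝ) (τ : ℂ)

theorem infZ_def (N : ℕ) (τ : ℍ) : infZ N τ = Complex.exp (2 * π * Complex.I * τ / N) := by
  simp [infZ, Function.Periodic.qParam]

theorem infZ_ne_zero (N : ℕ) (τ : ℍ) : infZ N τ ≠ 0 :=
  Function.Periodic.qParam_ne_zero _

theorem norm_infZ_lt_one (N : ℕ) [NeZero N] (τ : ℍ) : ‖infZ N τ‖ < 1 :=
  Function.Periodic.norm_qParam_lt_one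
    (by exact_mod_cast Nat.pos_of_ne_zero (NeZero.ne N)) τ.im_pos

/-- Every point of the punctured unit disc is a value of `infZ N`. -/
theorem exists_infZ_eq (N : ℕ) [NeZero N] {z : ℂ} (hz : z ≠ 0) (hz1 : ‖z‖ < 1) :
    ∃ τ : ℍ, infZ N τ = z := by
  have hN : (0 : ℝ) < N := by exact_mod_cast Nat.pos_of_ne_zero (NeZero.ne N)
  have him : 0 < (Function.Periodic.invQParam (N : ℝ) z).im := by
    rw [Function.Periodic.im_invQParam]
    have hlog : Real.log ‖z‖ < 0 := Real.log_neg (norm_pos_iff.mpr hz) hz1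
    have : -(N : ℝ) / (2 * π) < 0 := by
      apply div_neg_of_neg_of_pos (by linarith) (by positivity)
    exact mul_pos_of_neg_of_neg this hlog
  exact ⟨⟨_, him⟩, Function.Periodic.qParam_right_inv hN.ne' hz⟩

/-- `φ` converges to `f` on `ℍ` in the variable `z = exp (2πiτ/N)`. -/
def InfExp (N : ℕ) (f : ℍ → ℂ) (φ : LaurentSeries ℂ) : Prop :=
  ∀ τ : ℍ, HasSum (fun n : ℤ => φ.coeff n * infZ N τ ^ n) (f τ)

/-- Power series version. -/
def InfPExp (N : ℕ) (f : ℍ → ℂ) (ψ : PowerSeries ℂ) : Prop :=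
  ∀ τ : ℍ, HasSum (fun n : ℕ => PowerSeries.coeff n ψ * infZ N τ ^ n) (f τ)

section Shift

theorem inf_coeff_single_mul_ofPowerSeries (k : ℤ) (ψ : PowerSeries ℂ) (n : ℕ) :
    (single k (1 : ℂ) * ofPowerSeries ℤ ℂ ψ).coeff ((n : ℤ) + k) = PowerSeries.coeff n ψ := by
  rw [coeff_single_mul, one_mul, add_sub_cancel_right, ofPowerSeries_apply_coeff]

theorem inf_coeff_single_mul_ofPowerSeries_of_lt (k : ℤ) (ψ : PowerSeries ℂ) {m : ℤ}
    (hm : m < k) : (single k (1 : ℂ) * ofPowerSeries ℤ ℂ ψ).coeff m = 0 := by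
  rw [coeff_single_mul, one_mul]
  exact ofPowerSeries_coeff_of_neg _ (by omega)

theorem inf_hasSum_shift_iff (k : ℤ) (ψ : PowerSeries ℂ) {z : ℂ} (hz : z ≠ 0) (s : ℂ) :
    HasSum (fun n : ℤ => (single k (1 : ℂ) * ofPowerSeries ℤ ℂ ψ).coeff n * z ^ n) s ↔
      HasSum (fun n : ℕ => PowerSeries.coeff n ψ * z ^ n) (z ^ (-k) * s) := by
  have hinj : Function.Injective (fun n : ℕ => (n : ℤ) + k) := fun a b h => by
    simpa using h
  have hrange : ∀ m : ℤ, m ∉ Set.range (fun n : ℕ => (n : ℤ) + k) →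
      (single k (1 : ℂ) * ofPowerSeries ℤ ℂ ψ).coeff m * z ^ m = 0 := by
    intro m hm
    have : m < k := by
      by_contra h
      rw [not_lt] at h
      exact hm ⟨(m - k).toNat, by simp [Int.toNat_of_nonneg (sub_nonneg.mpr h)]⟩
    rw [inf_coeff_single_mul_ofPowerSeries_of_lt k ψ this, zero_mul]
  rw [← hinj.hasSum_iff hrange]
  have hfun : ((fun n : ℤ => (single k (1 : ℂ) * ofPowerSeries ℤ ℂ ψ).coeff n * z ^ n) ∘
      fun n : ℕ => (n : ℤ) + k) = fun n : ℕ => z ^ k * (PowerSeries.coeff n ψ * z ^ n) := by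
    funext n
    simp only [Function.comp_apply, inf_coeff_single_mul_ofPowerSeries]
    rw [zpow_add₀ hz, zpow_natCast]
    ring
  rw [hfun]
  constructor
  · intro h
    have := h.mul_left (z ^ (-k))
    have e : (fun n : ℕ => z ^ (-k) * (z ^ k * (PowerSeries.coeff n ψ * z ^ n))) =
        fun n : ℕ => PowerSeries.coeff n ψ * z ^ n := by
      funext n
      rw [← mul_assoc, ← zpow_add₀ hz, neg_add_cancel, zpow_zero, one_mul]
    rwa [e] at this
  · intro h
    have := h.mul_left (z ^ k)
    rwa [← mul_assoc, ← zpow_add₀ hz, add_neg_cancel, zpow_zero, one_mul] at this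

end Shift

section Basic

variable {N : ℕ}

theorem InfExp.powerSeriesPart {f : ℍ → ℂ} {φ : LaurentSeries ℂ} (h : InfExp N f φ) :
    InfPExp N (fun τ => infZ N τ ^ (-φ.order) * f τ) φ.powerSeriesPart := by
  intro τ
  have := h τ
  have h2 : HasSum (fun n : ℤ =>
      (single φ.order (1 : ℂ) * ofPowerSeries ℤ ℂ φ.powerSeriesPart).coeff n * infZ N τ ^ n)
      (f τ) := by
    rw [LaurentSeries.single_order_mul_powerSeriesPart φ]
    exact this
  exact (inf_hasSum_shift_iff _ _ (infZ_ne_zero N τ) _).mp h2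

theorem InfPExp.infExp {g : ℍ → ℂ} {ψ : PowerSeries ℂ} (h : InfPExp N g ψ) (k : ℤ) :
    InfExp N (fun τ => infZ N τ ^ k * g τ) (single k (1 : ℂ) * ofPowerSeries ℤ ℂ ψ) := by
  intro τ
  rw [inf_hasSum_shift_iff _ _ (infZ_ne_zero N τ)]
  have hz := infZ_ne_zero N τ
  rw [← mul_assoc, ← zpow_add₀ hz, neg_add_cancel, zpow_zero, one_mul]
  exact h τ

theorem InfPExp.mul {g₁ g₂ : ℍ → ℂ} {ψ₁ ψ₂ : PowerSeries ℂ} (h₁ : InfPExp N g₁ ψ₁)
    (h₂ : InfPExp N g₂ ψ₂) : InfPExp N (fun τ => g₁ τ * g₂ τ) (ψ₁ * ψ₂) := by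
  intro τ
  have s₁ := (h₁ τ).summable.norm
  have s₂ := (h₂ τ).summable.norm
  have key := summable_norm_sum_mul_antidiagonal_of_summable_norm s₁ s₂
  have hsum := key.of_norm.hasSum
  rw [← tsum_mul_tsum_eq_tsum_sum_antidiagonal_of_summable_norm s₁ s₂, (h₁ τ).tsum_eq,
    (h₂ τ).tsum_eq] at hsum
  have e : (fun n : ℕ => PowerSeries.coeff n (ψ₁ * ψ₂) * infZ N τ ^ n) =
      fun n => ∑ kl ∈ Finset.HasAntidiagonal.antidiagonal n,
        PowerSeries.coeff kl.1 ψ₁ * infZ N τ ^ kl.1 *
          (PowerSeries.coeff kl.2 ψ₂ * infZ N τ ^ kl.2) := by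
    funext n
    rw [PowerSeries.coeff_mul, Finset.sum_mul]
    refine Finset.sum_congr rfl fun p hp => ?_
    have hp' : p.1 + p.2 = n := Finset.HasAntidiagonal.mem_antidiagonal.mp hp
    rw [← hp', _root_.pow_add]
    ring
  show HasSum (fun n : ℕ => PowerSeries.coeff n (ψ₁ * ψ₂) * infZ N τ ^ n) (g₁ τ * g₂ τ)
  rw [e]
  exact hsum

theorem InfExp.zero : InfExp N (fun _ => 0) 0 := by
  intro τ
  simp [hasSum_zero]

theorem InfExp.const (c : ℂ) : InfExp N (fun _ => c) (HahnSeries.C c) := by
  intro τ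
  have h := hasSum_single (f := fun n : ℤ => (HahnSeries.C c : LaurentSeries ℂ).coeff n *
    infZ N τ ^ n) (0 : ℤ) (fun n hn => by
      rw [C_apply, coeff_single_of_ne hn, zero_mul])
  simpa using h

theorem InfExp.one : InfExp N (fun _ => 1) 1 := by
  have := InfExp.const (N := N) 1
  rwa [map_one] at this

theorem InfExp.add {f g : ℍ → ℂ} {φ ψ : LaurentSeries ℂ} (hf : InfExp N f φ)
    (hg : InfExp N g ψ) : InfExp N (fun τ => f τ + g τ) (φ + ψ) := by
  intro τ
  have := (hf τ).add (hg τ)
  simpa [add_mul] using this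

theorem InfExp.neg {f : ℍ → ℂ} {φ : LaurentSeries ℂ} (hf : InfExp N f φ) :
    InfExp N (fun τ => -f τ) (-φ) := by
  intro τ
  have := (hf τ).neg
  simpa [neg_mul] using this

theorem InfExp.sub {f g : ℍ → ℂ} {φ ψ : LaurentSeries ℂ} (hf : InfExp N f φ)
    (hg : InfExp N g ψ) : InfExp N (fun τ => f τ - g τ) (φ - ψ) := by
  have := hf.add hg.neg
  simpa [sub_eq_add_neg] using this

theorem InfExp.mul {f g : ℍ → ℂ} {φ ψ : LaurentSeries ℂ} (hf : InfExp N f φ)
    (hg : InfExp N g ψ) : InfExp N (fun τ => f τ * g τ) (φ * ψ) := by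
  have h := (hf.powerSeriesPart.mul hg.powerSeriesPart).infExp (φ.order + ψ.order)
  have hφ : φ * ψ = single (φ.order + ψ.order) (1 : ℂ) *
      ofPowerSeries ℤ ℂ (φ.powerSeriesPart * ψ.powerSeriesPart) := by
    conv_lhs => rw [← LaurentSeries.single_order_mul_powerSeriesPart φ,
      ← LaurentSeries.single_order_mul_powerSeriesPart ψ]
    rw [map_mul, mul_mul_mul_comm, single_mul_single, one_mul]
  rw [hφ]
  intro τ
  have hz := infZ_ne_zero N τ
  have this : infZ N τ ^ (φ.order + ψ.order) * (infZ N τ ^ (-φ.order) * f τ *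
      (infZ N τ ^ (-ψ.order) * g τ)) = f τ * g τ := by
    have e : infZ N τ ^ (φ.order + ψ.order) * (infZ N τ ^ (-φ.order) * f τ *
      (infZ N τ ^ (-ψ.order) * g τ)) =
      (infZ N τ ^ (φ.order + ψ.order) * infZ N τ ^ (-φ.order) * infZ N τ ^ (-ψ.order)) *
        (f τ * g τ) := by ring
    rw [e, ← zpow_add₀ hz, ← zpow_add₀ hz]
    simp
  have h' := h τ
  simp only [this] at h'
  exact h'

theorem InfExp.congr {f g : ℍ → ℂ} {φ : LaurentSeries ℂ} (hf : InfExp N f φ)
    (h : ∀ τ, f τ = g τ) : InfExp N g φ := by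
  intro τ
  rw [← h τ]
  exact hf τ

/-- The function is determined by the expansion. -/
theorem InfExp.fun_unique {f g : ℍ → ℂ} {φ : LaurentSeries ℂ} (hf : InfExp N f φ)
    (hg : InfExp N g φ) : f = g :=
  funext fun τ => (hf τ).unique (hg τ)

end Basic

end Fermat.Agent.S24

end
end
-- ===== PACK-END S24/Inf/Conv.lean

-- ===== PACK-BEGIN S29/H801/M1Push.lean
section
/-
S29 / M1 (helper801), part 1: functoriality of the Prelude's `inertiaDegAlong` and
`pushforwardAlong` under composition of field embeddings.  Mathlib + Prelude + helper818's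
`S37/H818/PullFunct` only.
-/




set_option autoImplicit false
set_option linter.style.haveILetI false

noncomputable section

namespace Fermat.Agent.S29.H801

open AlgebraicCurve Fermat.Agent.S37.H818

variable {K F G G₁ : Type*} [Field K] [Field F] [Field G] [Field G₁]
  [Algebra K F] [Algebra K G] [Algebra K G₁]

section Tower

variable [Algebra F G] [Algebra G G₁] [Algebra F G₁] [IsScalarTower F G G₁]
  [IsScalarTower K F G] [IsScalarTower K G G₁] [IsScalarTower K F G₁]
  [Algebra.IsIntegral F G] [Algebra.IsIntegral G G₁] [Algebra.IsIntegral F G₁]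

theorem restrict_restrict (W : Place K G₁) : (W.restrict G).restrict F = W.restrict F := by
  apply Place.ext
  ext x
  simp only [Place.restrict_toValuationSubring, ValuationSubring.mem_comap]
  rw [IsScalarTower.algebraMap_apply F G G₁]

/-- Inertia degrees are multiplicative in towers (instance version). -/
theorem inertiaDeg_tower (W : Place K G₁) :
    W.inertiaDeg F = (W.restrict G).inertiaDeg F * W.inertiaDeg G := by
  set w := W.restrict G with hw
  have hv : w.restrict F = W.restrict F := restrict_restrict W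
  -- the composite of the residue maps
  let ι : (w.restrict F).ResidueField →+* W.ResidueField :=
    (Place.restrictResidueMap G W).comp (Place.restrictResidueMap F w)
  letI alg : Algebra (w.restrict F).ResidueField W.ResidueField := ι.toAlgebra
  haveI : IsScalarTower (w.restrict F).ResidueField w.ResidueField W.ResidueField :=
    IsScalarTower.of_algebraMap_eq fun _ => rfl
  have h1 : Module.finrank (w.restrict F).ResidueField w.ResidueField *
      Module.finrank w.ResidueField W.ResidueField =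
      Module.finrank (w.restrict F).ResidueField W.ResidueField :=
    Module.finrank_mul_finrank _ _ _
  have h2 : Module.finrank (w.restrict F).ResidueField W.ResidueField = W.inertiaDeg F := by
    unfold Place.inertiaDeg
    -- transport along `hv`
    have key : ∀ (v' : Place K F) (hv' : v' = W.restrict F)
        (j : v'.ResidueField →+* W.ResidueField),
        (∀ (a : v'.toValuationSubring) (ha : algebraMap F G₁ (a : F) ∈ W.toValuationSubring),
          j (IsLocalRing.residue _ a) =
            IsLocalRing.residue _ (⟨algebraMap F G₁ (a : F), ha⟩ : W.toValuationSubring)) →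
        @Module.finrank v'.ResidueField W.ResidueField _ _ j.toAlgebra.toModule =
          Module.finrank (W.restrict F).ResidueField W.ResidueField := by
      intro v' hv' j hj
      subst hv'
      have : j = Place.restrictResidueMap F W := by
        apply Ideal.Quotient.ringHom_ext
        ext a
        exact (hj a (ValuationSubring.mem_comap.mp a.2)).trans
          (Place.restrictResidueMap_residue W a).symm
      subst this
      rfl
    refine key (w.restrict F) hv ι ?_
    intro a ha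
    show (Place.restrictResidueMap G W) ((Place.restrictResidueMap F w)
      (IsLocalRing.residue _ a)) = _
    rw [Place.restrictResidueMap_residue, Place.restrictResidueMap_residue]
    refine congrArg _ (Subtype.ext ?_)
    show algebraMap G G₁ (algebraMap F G (a : F)) = algebraMap F G₁ (a : F)
    rw [← IsScalarTower.algebraMap_apply]
  rw [← h2, ← h1]
  rfl

end Tower

/-- Inertia degrees are multiplicative in towers (`Along` version). -/
theorem inertiaDegAlong_comp (φ : F →ₐ[K] G) (ψ : G →ₐ[K] G₁)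
    (hφ : φ.toRingHom.IsIntegral) (hψ : ψ.toRingHom.IsIntegral)
    (hψφ : (ψ.comp φ).toRingHom.IsIntegral) (W : Place K G₁) :
    W.inertiaDegAlong (ψ.comp φ) hψφ =
      (W.restrictAlong ψ hψ).inertiaDegAlong φ hφ * W.inertiaDegAlong ψ hψ := by
  letI := algebraAlong φ
  letI := algebraAlong ψ
  letI := algebraAlong (ψ.comp φ)
  haveI := isScalarTower_along φ
  haveI := isScalarTower_along ψ
  haveI := isScalarTower_along (ψ.comp φ)
  haveI := isIntegral_along φ hφ
  haveI := isIntegral_along ψ hψ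
  haveI := isIntegral_along (ψ.comp φ) hψφ
  haveI : IsScalarTower F G G₁ := IsScalarTower.of_algebraMap_eq fun _ => rfl
  exact inertiaDeg_tower (F := F) (G := G) W

/-- Pushforward of divisors is functorial. -/
theorem pushforwardAlong_comp (φ : F →ₐ[K] G) (ψ : G →ₐ[K] G₁)
    (hφ : φ.toRingHom.IsIntegral) (hψ : ψ.toRingHom.IsIntegral)
    (hψφ : (ψ.comp φ).toRingHom.IsIntegral) (D : Divisor K G₁) :
    Divisor.pushforwardAlong (ψ.comp φ) hψφ D =
      Divisor.pushforwardAlong φ hφ (Divisor.pushforwardAlong ψ hψ D) := by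
  induction D using Finsupp.induction with
  | zero => simp
  | single_add W n D _ _ ih =>
    rw [map_add, map_add, map_add, ih]
    congr 1
    rw [Divisor.pushforwardAlong_single, Divisor.pushforwardAlong_single,
      Divisor.pushforwardAlong_single, restrictAlong_comp φ ψ hφ hψ hψφ W,
      inertiaDegAlong_comp φ ψ hφ hψ hψφ W]
    congr 1
    push_cast
    ring

end Fermat.Agent.S29.H801

end

end
-- ===== PACK-END S29/H801/M1Push.lean

-- ===== PACK-BEGIN S24/Deg/H457_Descent.lean
section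


/-!
# S24 / DEG-ALG (helper457), part 1: descent of algebraic relations along a coefficient embedding

`K →+* L` a field embedding, `coeffMap ι : K((q)) → L((q))`.
* `linearIndependent_coeffMap`: `coeffMap ι` maps `K`-linearly independent families to
  `L`-linearly independent families.
* `exists_relation_of_coeffMap_monic`: if `coeffMap ι a` is a root of a monic polynomial of
  degree `n` over `L[coeffMap ι J]`, then `a` is a root of a nonzero polynomial of degree `≤ n`
  over `K[J]`.
-/

set_option autoImplicit false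

noncomputable section

open Polynomial ModularCurve

namespace Fermat.Agent.S24.Deg457

variable {K L : Type*} [Field K] [Field L]

/-- `coeffMap ι` preserves linear independence (over the respective coefficient fields). -/
theorem linearIndependent_coeffMap (ι : K →+* L) {I : Type*} (v : I → LaurentSeries K)
    (hv : LinearIndependent K v) :
    LinearIndependent L (fun i => coeffMap ι (v i)) := by
  classical
  let _ : Algebra K L := ι.toAlgebra
  rw [linearIndependent_iff'] at hv ⊢
  intro s g hg i hi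
  -- it suffices to show that every `K`-linear functional kills `g i`
  rw [← Module.forall_dual_apply_eq_zero_iff K]
  intro φ
  refine hv s (fun i => φ (g i)) ?_ i hi
  ext k
  have hk := congrArg (fun x : LaurentSeries L => x.coeff k) hg
  simp only [HahnSeries.coeff_sum, HahnSeries.coeff_smul, coeffMap_coeff, smul_eq_mul,
    HahnSeries.coeff_zero] at hk ⊢
  have h2 := congrArg φ hk
  rw [map_zero, map_sum] at h2
  rw [← h2]
  refine Finset.sum_congr rfl fun x _ => ?_
  have : g x * ι ((v x).coeff k) = ((v x).coeff k) • g x := by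
    rw [Algebra.smul_def, mul_comm]; rfl
  rw [this, map_smul, smul_eq_mul, mul_comm]

/-- evaluation of polynomials at `J`, as a ring hom -/
abbrev evJ (J : LaurentSeries K) : K[X] →+* LaurentSeries K :=
  (aeval J : K[X] →ₐ[K] LaurentSeries K).toRingHom

theorem evJ_apply (J : LaurentSeries K) (p : K[X]) : evJ J p = aeval J p := rfl

theorem coeffMap_algebraMap' (ι : K →+* L) (c : K) :
    coeffMap ι (algebraMap K (LaurentSeries K) c) = algebraMap L (LaurentSeries L) (ι c) := by
  rw [algebraMap_laurentSeries_eq_single, algebraMap_laurentSeries_eq_single, coeffMap_single]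

theorem coeffMap_smul' (ι : K →+* L) (c : K) (x : LaurentSeries K) :
    coeffMap ι (c • x) = ι c • coeffMap ι x := by
  ext k; simp

/-- the `HahnSeries` scalar action agrees with multiplication by `algebraMap` (for the
power-series algebra structure on Laurent series). -/
theorem hsmul_eq_algebraMap_mul (c : K) (x : LaurentSeries K) :
    c • x = algebraMap K (LaurentSeries K) c * x := by
  rw [algebraMap_laurentSeries_eq_single, HahnSeries.single_zero_mul_eq_smul]

/-- bivariate polynomial attached to a finite coefficient table -/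
def tablePoly {D n : ℕ} (g : Fin (D + 1) × Fin (n + 1) → K) : K[X][X] :=
  ∑ k : Fin (n + 1), monomial (k : ℕ) (∑ i : Fin (D + 1), monomial (i : ℕ) (g (i, k)))

theorem tablePoly_coeff_coeff {D n : ℕ} (g : Fin (D + 1) × Fin (n + 1) → K)
    (i : Fin (D + 1)) (k : Fin (n + 1)) :
    ((tablePoly g).coeff k).coeff i = g (i, k) := by
  classical
  simp only [tablePoly, finsetSum_coeff, coeff_monomial]
  rw [Finset.sum_eq_single k]
  · simp only [if_true, finsetSum_coeff, coeff_monomial]
    rw [Finset.sum_eq_single i]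
    · simp
    · intro b _ hb
      rw [if_neg]
      exact fun h => hb (Fin.ext h)
    · simp
  · intro b _ hb
    rw [if_neg]
    · simp
    · exact fun h => hb (Fin.ext h)
  · simp

theorem tablePoly_natDegree_le {D n : ℕ} (g : Fin (D + 1) × Fin (n + 1) → K) :
    (tablePoly g).natDegree ≤ n := by
  refine natDegree_sum_le_of_forall_le _ _ fun k _ => ?_
  exact (natDegree_monomial_le _).trans (Nat.lt_succ_iff.mp k.2)

theorem tablePoly_eval₂ {D n : ℕ} (g : Fin (D + 1) × Fin (n + 1) → K)
    (J a : LaurentSeries K) :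
    (tablePoly g).eval₂ (evJ J) a = ∑ p : Fin (D + 1) × Fin (n + 1), g p • (J ^ (p.1 : ℕ) * a ^ (p.2 : ℕ)) := by
  rw [tablePoly, eval₂_finsetSum, Fintype.sum_prod_type_right]
  refine Finset.sum_congr rfl fun k _ => ?_
  rw [eval₂_monomial, evJ_apply, map_sum, Finset.sum_mul]
  refine Finset.sum_congr rfl fun i _ => ?_
  rw [aeval_monomial, hsmul_eq_algebraMap_mul, mul_assoc]

/-- **Descent**: a monic relation of degree `n` over `L[ι J]` for `ι a` gives a nonzero relation
of degree `≤ n` over `K[J]` for `a`. -/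
theorem exists_relation_of_coeffMap_monic (ι : K →+* L) (J a : LaurentSeries K) (n : ℕ)
    (P : L[X][X]) (hP : P.Monic) (hn : P.natDegree = n)
    (h0 : P.eval₂ (evJ (coeffMap ι J)) (coeffMap ι a) = 0) :
    ∃ Q : K[X][X], Q ≠ 0 ∧ Q.natDegree ≤ n ∧ Q.eval₂ (evJ J) a = 0 := by
  classical
  set D : ℕ := P.support.sup fun k => (P.coeff k).natDegree with hD
  have hDle : ∀ k, (P.coeff k).natDegree ≤ D := by
    intro k
    by_cases hk : k ∈ P.support
    · exact Finset.le_sup (f := fun k => (P.coeff k).natDegree) hk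
    · rw [notMem_support_iff.mp hk]; simp
  let v : Fin (D + 1) × Fin (n + 1) → LaurentSeries K := fun p => J ^ (p.1 : ℕ) * a ^ (p.2 : ℕ)
  have hnot : ¬ LinearIndependent K v := by
    intro hv
    have hw := linearIndependent_coeffMap ι v hv
    rw [Fintype.linearIndependent_iff] at hw
    have key := hw (fun p => (P.coeff p.2).coeff p.1) ?_ (0, Fin.last n)
    · simp only [Fin.val_last] at key
      rw [← hn, hP.coeff_natDegree] at key
      simp at key
    · rw [Fintype.sum_prod_type_right]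
      rw [eval₂_eq_sum_range' _ (n := n + 1) (by omega)] at h0
      rw [← h0, Finset.sum_range]
      refine Finset.sum_congr rfl fun k _ => ?_
      rw [evJ_apply, aeval_eq_sum_range' (n := D + 1) (Nat.lt_succ_of_le (hDle _)),
        Finset.sum_range, Finset.sum_mul]
      refine Finset.sum_congr rfl fun i _ => ?_
      simp only [v, map_mul, map_pow]
      rw [hsmul_eq_algebraMap_mul, Algebra.smul_def, mul_assoc]
  rw [Fintype.not_linearIndependent_iff] at hnot
  obtain ⟨g, hg, p, hp⟩ := hnot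
  refine ⟨tablePoly g, ?_, tablePoly_natDegree_le g, ?_⟩
  · intro h
    apply hp
    rw [← tablePoly_coeff_coeff g p.1 p.2, h]
    simp
  · rw [tablePoly_eval₂]
    exact hg

end Fermat.Agent.S24.Deg457

end
end
-- ===== PACK-END S24/Deg/H457_Descent.lean

-- ===== PACK-BEGIN A2/Mod/H142/S2Core.lean
section









/-!
# A2 / MODASM sub-assembly S2 (components normal) — abstract core (helper142)

Mathlib-only.  `F` a field, `V` a valuation subring of `F`, `B ⊆ V` a subalgebra (the chart),
`p = B ∩ 𝔪_V` (the component of the special fibre cut out by `V`).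

* `isIntegrallyClosed_quotient_of_normal` (**core A**): if the image of `B` in the residue field
  `κ(V)` is integrally closed in `κ(V)` (elementwise form `NormalIn`), then `B ⧸ p` is an
  integrally closed domain.
* `normalIn_transfer` (**core B**): transfer of `NormalIn` along a ring homomorphism
  `γ : F₀ → F` (a degeneracy map) with `γ⁻¹ V = V₀`, `γ B₀ ⊆ B`, residue degree one
  (`V = γ V₀ + 𝔪_V`) and `B` integral over `γ B₀` MODULO `𝔪_V`.

No integrality of `B` over `γ B₀` itself is needed (it fails in the chart at infinity).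
-/

set_option autoImplicit false

noncomputable section

open Polynomial

namespace Fermat.Agent.A2.Mod.H142

section Integral

variable {A₀ A K : Type*} [CommRing A₀] [CommRing A] [CommRing K]

/-- Transitivity of integrality for two ring homomorphisms into a common target. -/
theorem isIntegralElem_trans (ρ₀ : A₀ →+* K) (ρ : A →+* K)
    (h : ∀ a, ρ₀.IsIntegralElem (ρ a)) {x : K} (hx : ρ.IsIntegralElem x) :
    ρ₀.IsIntegralElem x := by
  let _ : Algebra A₀ K := ρ₀.toAlgebra
  have hmem : ∀ a, ρ a ∈ (integralClosure A₀ K).toSubring := fun a => h a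
  obtain ⟨p, hp, hpx⟩ := hx
  let ρ' : A →+* (integralClosure A₀ K).toSubring := ρ.codRestrict _ hmem
  have hx' : IsIntegral (integralClosure A₀ K) x := by
    refine ⟨p.map ρ', hp.map _, ?_⟩
    rw [eval₂_map]
    exact hpx
  exact isIntegral_trans x hx'

/-- A monic relation in `Fin`-indexed form gives integrality. -/
theorem isIntegralElem_of_fin (ρ : A →+* K) {x : K} (n : ℕ) (c : Fin n → A)
    (h : x ^ n + ∑ i : Fin n, ρ (c i) * x ^ (i : ℕ) = 0) : ρ.IsIntegralElem x := by
  refine ⟨X ^ n + ∑ i : Fin n, C (c i) * X ^ (i : ℕ),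
    Polynomial.monic_X_pow_add (Polynomial.degree_sum_fin_lt c), ?_⟩
  rw [eval₂_add, eval₂_pow, eval₂_X, eval₂_finsetSum]
  simpa using h

/-- Integrality gives a monic relation in `Fin`-indexed form. -/
theorem exists_fin_of_isIntegralElem (ρ : A →+* K) {x : K} (hx : ρ.IsIntegralElem x) :
    ∃ (n : ℕ) (c : Fin n → A), x ^ n + ∑ i : Fin n, ρ (c i) * x ^ (i : ℕ) = 0 := by
  obtain ⟨p, hp, hpx⟩ := hx
  refine ⟨p.natDegree, fun i => p.coeff i, ?_⟩
  have h1 := hp.as_sum
  have h2 : eval₂ ρ x p = x ^ p.natDegree + ∑ i : Fin p.natDegree, ρ (p.coeff i) * x ^ (i : ℕ) := by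
    conv_lhs => rw [h1]
    rw [eval₂_add, eval₂_pow, eval₂_X, eval₂_finsetSum,
      ← Fin.sum_univ_eq_sum_range (fun i => eval₂ ρ x (C (p.coeff i) * X ^ i)) p.natDegree]
    simp
  rw [← h2]
  exact hpx

end Integral

section Val

variable {R F : Type*} [CommRing R] [Field F] [Algebra R F]

/-- The residue class map `B → κ(V)` of a subalgebra `B ⊆ V`. -/
def resMap (V : ValuationSubring F) (B : Subalgebra R F) (hBV : ∀ b ∈ B, b ∈ V) :
    B →+* IsLocalRing.ResidueField V :=
  (IsLocalRing.residue V).comp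
    { toFun := fun b => ⟨b.1, hBV b.1 b.2⟩
      map_one' := rfl
      map_mul' := fun _ _ => rfl
      map_zero' := rfl
      map_add' := fun _ _ => rfl }

theorem residue_eq_zero_iff_val (V : ValuationSubring F) (f : V) :
    IsLocalRing.residue V f = 0 ↔ V.valuation (f : F) < 1 := by
  rw [IsLocalRing.residue_eq_zero_iff]
  exact V.valuation_lt_one_iff f

theorem resMap_apply (V : ValuationSubring F) (B : Subalgebra R F) (hBV : ∀ b ∈ B, b ∈ V)
    (b : B) : resMap V B hBV b = IsLocalRing.residue V ⟨b.1, hBV b.1 b.2⟩ := rfl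

theorem resMap_eq_zero_iff (V : ValuationSubring F) (B : Subalgebra R F)
    (hBV : ∀ b ∈ B, b ∈ V) (b : B) : resMap V B hBV b = 0 ↔ V.valuation (b : F) < 1 := by
  rw [resMap_apply, residue_eq_zero_iff_val]

/-- `f̄ = ḡ` in `κ(V)` iff `f - g ∈ 𝔪_V`. -/
theorem residue_eq_iff_val (V : ValuationSubring F) (f g : V) :
    IsLocalRing.residue V f = IsLocalRing.residue V g ↔ V.valuation ((f : F) - g) < 1 := by
  rw [← sub_eq_zero, ← map_sub, residue_eq_zero_iff_val]
  rfl

/-- The image of `B` in the residue field of `V` is integrally closed in it (elementwise form;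
the shape of `Mod.GoodRedAt.normal`). -/
def NormalIn (V : ValuationSubring F) (B : Set F) : Prop :=
  ∀ f ∈ V, (∃ (n : ℕ) (c : Fin n → F), (∀ i, c i ∈ B) ∧
      V.valuation (f ^ n + ∑ i : Fin n, c i * f ^ (i : ℕ)) < 1) →
    ∃ b ∈ B, V.valuation (f - b) < 1

/-- A monic relation modulo `𝔪_V` with coefficients in `B` is integrality of the residue class
over `B` (via `resMap`). -/
theorem isIntegralElem_residue_of_rel (V : ValuationSubring F) (B : Subalgebra R F)
    (hBV : ∀ b ∈ B, b ∈ V) (f : V) (n : ℕ) (c : Fin n → F) (hc : ∀ i, c i ∈ B)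
    (h : V.valuation ((f : F) ^ n + ∑ i : Fin n, c i * (f : F) ^ (i : ℕ)) < 1) :
    (resMap V B hBV).IsIntegralElem (IsLocalRing.residue V f) := by
  refine isIntegralElem_of_fin _ n (fun i => ⟨c i, hc i⟩) ?_
  have h1 : (f ^ n + ∑ i : Fin n, (⟨c i, hBV _ (hc i)⟩ : V) * f ^ (i : ℕ) : V) =
      (⟨(f : F) ^ n + ∑ i : Fin n, c i * (f : F) ^ (i : ℕ),
        V.add_mem _ _ (V.pow_mem f.2 n)
          (V.toSubring.sum_mem fun i _ => V.mul_mem _ _ (hBV _ (hc i)) (V.pow_mem f.2 _))⟩ : V) := by
    apply Subtype.ext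
    push_cast
    rfl
  have h2 : IsLocalRing.residue V (f ^ n + ∑ i : Fin n, (⟨c i, hBV _ (hc i)⟩ : V) * f ^ (i : ℕ))
      = 0 := by
    rw [h1, residue_eq_zero_iff_val]
    exact h
  rw [map_add, map_pow, map_sum] at h2
  simp only [map_mul, map_pow] at h2
  exact h2

/-- Integrality of a residue class over `B` gives a monic relation modulo `𝔪_V`. -/
theorem exists_rel_of_isIntegralElem_residue (V : ValuationSubring F) (B : Subalgebra R F)
    (hBV : ∀ b ∈ B, b ∈ V) (f : V)
    (h : (resMap V B hBV).IsIntegralElem (IsLocalRing.residue V f)) :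
    ∃ (n : ℕ) (c : Fin n → F), (∀ i, c i ∈ B) ∧
      V.valuation ((f : F) ^ n + ∑ i : Fin n, c i * (f : F) ^ (i : ℕ)) < 1 := by
  obtain ⟨n, c, hrel⟩ := exists_fin_of_isIntegralElem _ h
  refine ⟨n, fun i => (c i : F), fun i => (c i).2, ?_⟩
  have h1 : (f ^ n + ∑ i : Fin n, (⟨(c i : F), hBV _ (c i).2⟩ : V) * f ^ (i : ℕ) : V) =
      (⟨(f : F) ^ n + ∑ i : Fin n, (c i : F) * (f : F) ^ (i : ℕ),
        V.add_mem _ _ (V.pow_mem f.2 n)
          (V.toSubring.sum_mem fun i _ =>
            V.mul_mem _ _ (hBV _ (c i).2) (V.pow_mem f.2 _))⟩ : V) := by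
    apply Subtype.ext
    push_cast
    rfl
  have h2 : IsLocalRing.residue V (f ^ n + ∑ i : Fin n, (⟨(c i : F), hBV _ (c i).2⟩ : V) * f ^ (i : ℕ))
      = 0 := by
    rw [map_add, map_pow, map_sum]
    simp only [map_mul, map_pow]
    exact hrel
  rw [h1, residue_eq_zero_iff_val] at h2
  exact h2

/-- **Core A.**  If the image of `B` in `κ(V)` is integrally closed in `κ(V)`, then
`B ⧸ (B ∩ 𝔪_V)` is an integrally closed domain. -/
theorem isIntegrallyClosed_quotient_of_normal
    (V : ValuationSubring F) (B : Subalgebra R F) (hBV : ∀ b ∈ B, b ∈ V)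
    (p : Ideal B) (hp : ∀ b : B, b ∈ p ↔ V.valuation (b : F) < 1)
    (hnorm : NormalIn V (B : Set F)) :
    IsIntegrallyClosed (B ⧸ p) := by
  classical
  set ρ := resMap V B hBV with hρ
  have hker : ∀ b : B, b ∈ p → ρ b = 0 := fun b hb =>
    (resMap_eq_zero_iff V B hBV b).2 ((hp b).1 hb)
  let ρq : B ⧸ p →+* IsLocalRing.ResidueField V := Ideal.Quotient.lift p ρ hker
  have hρq : ∀ b : B, ρq (Ideal.Quotient.mk p b) = ρ b := fun b => Ideal.Quotient.lift_mk p ρ hker
  have hinj : Function.Injective ρq := by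
    rw [injective_iff_map_eq_zero]
    intro a ha
    obtain ⟨b, rfl⟩ := Ideal.Quotient.mk_surjective a
    rw [hρq] at ha
    exact Ideal.Quotient.eq_zero_iff_mem.2 ((hp b).2 ((resMap_eq_zero_iff V B hBV b).1 ha))
  have : IsDomain (B ⧸ p) := hinj.isDomain ρq
  rw [isIntegrallyClosed_iff (FractionRing (B ⧸ p))]
  intro x hx
  let ρK : FractionRing (B ⧸ p) →+* IsLocalRing.ResidueField V := IsFractionRing.lift hinj
  have hρK : ∀ a : B ⧸ p, ρK (algebraMap _ _ a) = ρq a := fun a =>
    IsFractionRing.lift_algebraMap hinj a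
  -- `ρK x` is integral over `B ⧸ p`, hence over `B`
  have h1 : ρq.IsIntegralElem (ρK x) := by
    obtain ⟨P, hP, hPx⟩ := hx
    refine ⟨P, hP, ?_⟩
    have h := congrArg ρK hPx
    rw [hom_eval₂, map_zero] at h
    have hcomp : ρK.comp (algebraMap (B ⧸ p) (FractionRing (B ⧸ p))) = ρq := by
      ext a
      exact hρK a
    rwa [hcomp] at h
  have h2 : ρ.IsIntegralElem (ρK x) := by
    obtain ⟨n, c, hrel⟩ := exists_fin_of_isIntegralElem _ h1
    choose c' hc' using fun i => Ideal.Quotient.mk_surjective (c i)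
    refine isIntegralElem_of_fin _ n c' ?_
    rw [← hrel]
    congr 1
    refine Finset.sum_congr rfl fun i _ => ?_
    rw [← hρq, hc']
  obtain ⟨f, hf⟩ := IsLocalRing.residue_surjective (R := V) (ρK x)
  rw [← hf] at h2
  obtain ⟨n, c, hc, hrel⟩ := exists_rel_of_isIntegralElem_residue V B hBV f h2
  obtain ⟨b, hb, hfb⟩ := hnorm f f.2 ⟨n, c, hc, hrel⟩
  refine ⟨Ideal.Quotient.mk p ⟨b, hb⟩, ?_⟩
  apply ρK.injective
  rw [hρK, hρq, ← hf, resMap_apply]
  symm
  rw [residue_eq_iff_val]
  exact hfb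

end Val

section Transfer

variable {R F₀ F : Type*} [CommRing R] [Field F₀] [Field F] [Algebra R F₀] [Algebra R F]

/-- A ring homomorphism mapping `V₀` into `V` reflects the maximal ideals. -/
theorem val_lt_one_of_map (γ : F₀ →+* F) (V₀ : ValuationSubring F₀) (V : ValuationSubring F)
    (hγV : ∀ g ∈ V₀, γ g ∈ V) {g : F₀} (hg : g ∈ V₀) (h : V.valuation (γ g) < 1) :
    V₀.valuation g < 1 := by
  by_contra hcon
  rw [not_lt] at hcon
  have hone : V₀.valuation g = 1 := le_antisymm ((V₀.valuation_le_one_iff _).2 hg) hcon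
  have hinv : g⁻¹ ∈ V₀ := by
    rw [← V₀.valuation_le_one_iff, map_inv₀, hone, inv_one]
  have h1 : (γ g)⁻¹ ∈ V := by
    rw [← map_inv₀]
    exact hγV _ hinv
  have h2 : V.valuation (γ g)⁻¹ ≤ 1 := (V.valuation_le_one_iff _).2 h1
  have hne : V.valuation (γ g) ≠ 0 := by
    intro h0
    rw [map_inv₀, h0, inv_zero] at h2
    have hg0 : γ g = 0 := (Valuation.zero_iff _).1 h0
    have : g = 0 := by
      by_contra hg0'
      exact (map_ne_zero γ).2 hg0' hg0
    rw [this, map_zero] at hone
    exact zero_ne_one hone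
  rw [map_inv₀, inv_le_one₀ (zero_lt_iff.2 hne)] at h2
  exact absurd h (not_lt.2 h2)

/-- The restriction `B₀ → B` of a ring homomorphism `γ : F₀ → F` with `γ B₀ ⊆ B`. -/
def mapSub (γ : F₀ →+* F) (B₀ : Subalgebra R F₀) (B : Subalgebra R F)
    (hγB : ∀ b ∈ B₀, γ b ∈ B) : B₀ →+* B where
  toFun b := ⟨γ b.1, hγB b.1 b.2⟩
  map_one' := Subtype.ext (map_one γ)
  map_mul' a b := Subtype.ext (map_mul γ a.1 b.1)
  map_zero' := Subtype.ext (map_zero γ)
  map_add' a b := Subtype.ext (map_add γ a.1 b.1)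

@[simp]
theorem coe_mapSub (γ : F₀ →+* F) (B₀ : Subalgebra R F₀) (B : Subalgebra R F)
    (hγB : ∀ b ∈ B₀, γ b ∈ B) (b : B₀) : ((mapSub γ B₀ B hγB b : B) : F) = γ b := rfl

/-- **Core B.**  Transfer of normality of the special fibre along `γ : F₀ → F`:
* `γ V₀ ⊆ V` and `γ 𝔪_{V₀} ⊆ 𝔪_V`;
* `γ B₀ ⊆ B`;
* residue degree one: `V = γ V₀ + 𝔪_V`;
* `B` is integral over `γ B₀` modulo `𝔪_V` (in the residue field of `V`). -/
theorem normalIn_transfer (γ : F₀ →+* F)
    (V₀ : ValuationSubring F₀) (V : ValuationSubring F)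
    (hγV : ∀ g ∈ V₀, γ g ∈ V)
    (hγp : ∀ g : F₀, V₀.valuation g < 1 → V.valuation (γ g) < 1)
    (B₀ : Subalgebra R F₀) (B : Subalgebra R F)
    (hB₀ : ∀ b ∈ B₀, b ∈ V₀) (hB : ∀ b ∈ B, b ∈ V)
    (hγB : ∀ b ∈ B₀, γ b ∈ B)
    (hres : ∀ f ∈ V, ∃ g ∈ V₀, V.valuation (f - γ g) < 1)
    (hint : ∀ b : B, ((resMap V B hB).comp (mapSub γ B₀ B hγB)).IsIntegralElem
      (resMap V B hB b))
    (hnorm₀ : NormalIn V₀ (B₀ : Set F₀)) :
    NormalIn V (B : Set F) := by
  classical
  intro f hf ⟨n, c, hc, hrel⟩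
  -- the two residue maps into `κ(V)`
  set ρ := resMap V B hB with hρ
  set ρ₀ : B₀ →+* IsLocalRing.ResidueField V := ρ.comp (mapSub γ B₀ B hγB) with hρ₀
  -- `f̄` is integral over `γ B̄₀`
  have h2 : ρ₀.IsIntegralElem (IsLocalRing.residue V ⟨f, hf⟩) :=
    isIntegralElem_trans ρ₀ ρ hint (isIntegralElem_residue_of_rel V B hB ⟨f, hf⟩ n c hc hrel)
  -- residue degree one
  obtain ⟨g, hg, hfg⟩ := hres f hf
  have hfg' : IsLocalRing.residue V ⟨f, hf⟩ = IsLocalRing.residue V ⟨γ g, hγV g hg⟩ := by
    rw [residue_eq_iff_val]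
    exact hfg
  rw [hfg'] at h2
  obtain ⟨m, d, hrel₀⟩ := exists_fin_of_isIntegralElem _ h2
  -- descend the relation to level `F₀`
  have hmem₀ : g ^ m + ∑ i : Fin m, (d i : F₀) * g ^ (i : ℕ) ∈ V₀ :=
    V₀.add_mem _ _ (V₀.pow_mem hg m)
      (V₀.toSubring.sum_mem fun i _ => V₀.mul_mem _ _ (hB₀ _ (d i).2) (V₀.pow_mem hg _))
  have hval : V.valuation (γ (g ^ m + ∑ i : Fin m, (d i : F₀) * g ^ (i : ℕ))) < 1 := by
    have hv : (⟨γ g, hγV g hg⟩ ^ m + ∑ i : Fin m,
        (⟨γ (d i), hB _ (hγB _ (d i).2)⟩ : V) * ⟨γ g, hγV g hg⟩ ^ (i : ℕ) : V) =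
        (⟨γ (g ^ m + ∑ i : Fin m, (d i : F₀) * g ^ (i : ℕ)), hγV _ hmem₀⟩ : V) := by
      apply Subtype.ext
      push_cast
      simp only [map_add, map_pow, map_sum, map_mul]
    have h3 : IsLocalRing.residue V (⟨γ g, hγV g hg⟩ ^ m + ∑ i : Fin m,
        (⟨γ (d i), hB _ (hγB _ (d i).2)⟩ : V) * ⟨γ g, hγV g hg⟩ ^ (i : ℕ)) = 0 := by
      rw [map_add, map_pow, map_sum]
      simp only [map_mul, map_pow]
      exact hrel₀
    rw [hv, residue_eq_zero_iff_val] at h3
    exact h3
  obtain ⟨b₀, hb₀, hgb⟩ := hnorm₀ g hg ⟨m, fun i => (d i : F₀), fun i => (d i).2,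
    val_lt_one_of_map γ V₀ V hγV hmem₀ hval⟩
  refine ⟨γ b₀, hγB b₀ hb₀, ?_⟩
  have hpres : V.valuation (γ (g - b₀)) < 1 := hγp _ hgb
  have : f - γ b₀ = (f - γ g) + γ (g - b₀) := by
    rw [map_sub]
    ring
  rw [this]
  exact lt_of_le_of_lt (Valuation.map_add _ _ _) (max_lt hfg hpres)

/-- The hypothesis `hint` of `normalIn_transfer` from a coordinate congruence:
`B` integral over `R[y]`, `y ≡ γ c₀ mod 𝔪_V` with `c₀ ∈ B₀`. -/
theorem isIntegralElem_of_coord (γ : F₀ →+* F)
    (hγR : ∀ r : R, γ (algebraMap R F₀ r) = algebraMap R F r)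
    (V : ValuationSubring F) (B₀ : Subalgebra R F₀) (B : Subalgebra R F)
    (hB : ∀ b ∈ B, b ∈ V) (hγB : ∀ b ∈ B₀, γ b ∈ B)
    (y : F) (hyB : y ∈ B) (c₀ : F₀) (hc₀ : c₀ ∈ B₀) (hy : V.valuation (y - γ c₀) < 1)
    (hBint : ∀ b ∈ B, IsIntegral (Algebra.adjoin R ({y} : Set F)) b) (b : B) :
    ((resMap V B hB).comp (mapSub γ B₀ B hγB)).IsIntegralElem (resMap V B hB b) := by
  classical
  set ρ := resMap V B hB with hρ
  set ρ₀ : B₀ →+* IsLocalRing.ResidueField V := ρ.comp (mapSub γ B₀ B hγB) with hρ₀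
  have hle : Algebra.adjoin R ({y} : Set F) ≤ B :=
    Algebra.adjoin_le (Set.singleton_subset_iff.2 hyB)
  let ι : Algebra.adjoin R ({y} : Set F) →+* B := (Subalgebra.inclusion hle).toRingHom
  have hι : ∀ a, ((ι a : B) : F) = (a : F) := fun _ => rfl
  -- `b̄` is integral over the image of `R[y]`
  have h1 : (ρ.comp ι).IsIntegralElem (ρ b) := by
    obtain ⟨Q, hQ, hQb⟩ := hBint b.1 b.2
    refine ⟨Q, hQ, ?_⟩
    have h0 : Q.eval₂ ι b = 0 := by
      apply Subtype.ext
      have := Polynomial.hom_eval₂ Q ι B.val.toRingHom b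
      rw [ZeroMemClass.coe_zero]
      calc ((Q.eval₂ ι b : B) : F) = B.val.toRingHom (Q.eval₂ ι b) := rfl
        _ = Q.eval₂ (B.val.toRingHom.comp ι) (B.val.toRingHom b) := this
        _ = 0 := hQb
    have := congrArg ρ h0
    rwa [Polynomial.hom_eval₂, map_zero] at this
  -- the image of `R[y]` lies in the image of `B₀`
  refine isIntegralElem_trans ρ₀ (ρ.comp ι) (fun a => ?_) h1
  have hmem : (a : F) ∈ (Polynomial.aeval (R := R) y).range := by
    rw [← Algebra.adjoin_singleton_eq_range_aeval]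
    exact a.2
  obtain ⟨Q, hQ⟩ := hmem
  have key : ρ.comp (Polynomial.aeval (R := R) (⟨y, hyB⟩ : B)).toRingHom =
      ρ₀.comp (Polynomial.aeval (R := R) (⟨c₀, hc₀⟩ : B₀)).toRingHom := by
    apply Polynomial.ringHom_ext
    · intro r
      simp only [RingHom.comp_apply, AlgHom.toRingHom_eq_coe, RingHom.coe_coe,
        Polynomial.aeval_C, hρ₀]
      rw [resMap_apply, resMap_apply]
      congr 1
      apply Subtype.ext
      show algebraMap R F r = γ (algebraMap R F₀ r)
      exact (hγR r).symm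
    · simp only [RingHom.comp_apply, AlgHom.toRingHom_eq_coe, RingHom.coe_coe,
        Polynomial.aeval_X, hρ₀]
      rw [resMap_apply, resMap_apply, residue_eq_iff_val]
      exact hy
  have h2 : (ρ.comp ι) a = ρ₀ (Polynomial.aeval (R := R) (⟨c₀, hc₀⟩ : B₀) Q) := by
    have h3 : ι a = Polynomial.aeval (R := R) (⟨y, hyB⟩ : B) Q := by
      apply Subtype.ext
      rw [hι, ← hQ]
      exact (Polynomial.aeval_algHom_apply B.val (⟨y, hyB⟩ : B) Q).symm ▸ rfl
    rw [RingHom.comp_apply, h3]
    exact congrArg (fun φ : Polynomial R →+* IsLocalRing.ResidueField V => φ Q) key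
  rw [h2]
  exact ρ₀.isIntegralElem_map

end Transfer

section Chart

variable {R F₀ F : Type*} [CommRing R] [Field F₀] [Field F] [Algebra R F₀] [Algebra R F]

/-- Integrality over `R[y]` in the form used by `Mod.chart`. -/
theorem isIntegral_adjoin_iff (y f : F) :
    IsIntegral (Algebra.adjoin R ({y} : Set F)) f ↔
      ∃ p : Polynomial (Polynomial R), p.Monic ∧
        p.eval₂ (Polynomial.eval₂RingHom (algebraMap R F) y) f = 0 := by
  classical
  let ψ : Polynomial R →ₐ[R] Algebra.adjoin R ({y} : Set F) :=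
    (Polynomial.aeval (R := R) y).codRestrict (Algebra.adjoin R ({y} : Set F)) (fun p => by
      rw [Algebra.adjoin_singleton_eq_range_aeval]
      exact ⟨p, rfl⟩)
  have hψ : (algebraMap (Algebra.adjoin R ({y} : Set F)) F).comp ψ.toRingHom =
      Polynomial.eval₂RingHom (algebraMap R F) y := by
    apply Polynomial.ringHom_ext
    · intro r
      simp [ψ]
    · simp [ψ]
  have hsurj : Function.Surjective ψ.toRingHom := by
    rintro ⟨a, ha⟩
    have ha' : a ∈ (Polynomial.aeval (R := R) y).range := by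
      rw [← Algebra.adjoin_singleton_eq_range_aeval]
      exact ha
    obtain ⟨Q, hQ⟩ := ha'
    exact ⟨Q, Subtype.ext hQ⟩
  constructor
  · rintro ⟨Q, hQ, hQf⟩
    have hlift : Q ∈ Polynomial.lifts ψ.toRingHom := by
      rw [Polynomial.lifts_iff_coeff_lifts]
      intro n
      exact hsurj _
    obtain ⟨p, hp, -, hpm⟩ := Polynomial.lifts_and_natDegree_eq_and_monic hlift hQ
    refine ⟨p, hpm, ?_⟩
    rw [← hψ, ← Polynomial.eval₂_map, hp]
    exact hQf
  · rintro ⟨p, hp, hpf⟩
    refine ⟨p.map ψ.toRingHom, hp.map _, ?_⟩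
    rw [Polynomial.eval₂_map, hψ]
    exact hpf

/-- A valuation subring containing `R` and `y` contains the integral closure of `R[y]`. -/
theorem mem_valuationSubring_of_isIntegral_adjoin (V : ValuationSubring F)
    (hR : ∀ r : R, algebraMap R F r ∈ V) {y : F} (hy : y ∈ V) {f : F}
    (hf : IsIntegral (Algebra.adjoin R ({y} : Set F)) f) : f ∈ V := by
  classical
  let VA : Subalgebra R F :=
    { V.toSubring.toSubsemiring with algebraMap_mem' := hR }
  have hle : Algebra.adjoin R ({y} : Set F) ≤ VA :=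
    Algebra.adjoin_le (Set.singleton_subset_iff.2 hy)
  obtain ⟨Q, hQ, hQf⟩ := hf
  let ι : Algebra.adjoin R ({y} : Set F) →+* V :=
    { toFun := fun a => ⟨a.1, hle a.2⟩
      map_one' := rfl
      map_mul' := fun _ _ => rfl
      map_zero' := rfl
      map_add' := fun _ _ => rfl }
  have hint : IsIntegral V f := by
    refine ⟨Q.map ι, hQ.map _, ?_⟩
    rw [Polynomial.eval₂_map]
    exact hQf
  obtain ⟨z, hz⟩ := (IsIntegrallyClosed.isIntegral_iff (R := V) (K := F)).mp hint
  rw [← hz]
  exact z.2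

/-- Functoriality of charts: if `γ y₀` is integral over `R[y]` then `γ` maps the integral
closure of `R[y₀]` into the integral closure of `R[y]`. -/
theorem isIntegral_adjoin_map (γ : F₀ →+* F)
    (hγR : ∀ r : R, γ (algebraMap R F₀ r) = algebraMap R F r) {y₀ : F₀} {y : F}
    (hy : IsIntegral (Algebra.adjoin R ({y} : Set F)) (γ y₀)) {b : F₀}
    (hb : IsIntegral (Algebra.adjoin R ({y₀} : Set F₀)) b) :
    IsIntegral (Algebra.adjoin R ({y} : Set F)) (γ b) := by
  classical
  rw [isIntegral_adjoin_iff] at hb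
  obtain ⟨p, hp, hpb⟩ := hb
  -- `γ b` is integral over `R[γ y₀]`
  have h1 : (Polynomial.eval₂RingHom (algebraMap R F) (γ y₀)).IsIntegralElem (γ b) := by
    refine ⟨p, hp, ?_⟩
    have h := congrArg γ hpb
    rw [Polynomial.hom_eval₂, map_zero] at h
    have hcomp : γ.comp (Polynomial.eval₂RingHom (algebraMap R F₀) y₀) =
        Polynomial.eval₂RingHom (algebraMap R F) (γ y₀) := by
      apply Polynomial.ringHom_ext
      · intro r
        simp [hγR]
      · simp
    rwa [hcomp] at h
  -- `R[γ y₀]` is integral over `R[y]`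
  refine isIntegralElem_trans (algebraMap (Algebra.adjoin R ({y} : Set F)) F)
    (Polynomial.eval₂RingHom (algebraMap R F) (γ y₀)) (fun a => ?_) h1
  show IsIntegral (Algebra.adjoin R ({y} : Set F)) (Polynomial.eval₂ (algebraMap R F) (γ y₀) a)
  rw [Polynomial.eval₂_eq_sum_range]
  refine IsIntegral.sum _ fun i _ => IsIntegral.mul ?_ (hy.pow i)
  have : algebraMap R F (a.coeff i) =
      algebraMap (Algebra.adjoin R ({y} : Set F)) F (algebraMap R _ (a.coeff i)) := rfl
  rw [this]
  exact isIntegral_algebraMap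

end Chart

end Fermat.Agent.A2.Mod.H142

end
end
-- ===== PACK-END A2/Mod/H142/S2Core.lean

-- ===== PACK-BEGIN A2/Mod/H732/SepEtale.lean
section





/-!
# A2 / MOD, piece S4 (SepCoord producer), part 1 (helper732): two-point etale criterion

Mathlib-only.  `R` a local ring with residue field `κ`, `S` a finite free `R`-algebra with basis
`b`.  If `𝔪 S = P₁ ⊓ P₂` for two different maximal ideals `P₁, P₂` of `S` and both residue fields
`S ⧸ Pᵢ` are separable over `κ` (elementwise, in the "liftable" form: every `s : S` is a root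
modulo `Pᵢ` of some `Q ∈ R[X]` with `Q'(s) ∉ Pᵢ`), then the discriminant of `b` is a unit of `R`.

This is the two-component version of `S18.H425.isUnit_discr_of_isSeparable_quotient`
(one component, `𝔪 S` maximal).

* `isSeparable_of_aeval_derivative_ne_zero₂` : a root `y` of `P` with `P'(y) ≠ 0` is separable;
* `traceForm_nondegenerate_of_algEquiv_prod` : the trace form of a product of two finite
  separable field extensions is nondegenerate;
* `isUnit_discr_of_two_maximal` : the criterion.
-/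

set_option autoImplicit false
set_option linter.style.haveILetI false

noncomputable section

namespace Fermat.Agent.A2.Mod.H732

open Polynomial IsLocalRing

/-- A root `y` of `P` with `P'(y) ≠ 0` is separable over the base field. -/
theorem isSeparable_of_aeval_derivative_ne_zero₂ {K F : Type*} [Field K] [Field F] [Algebra K F]
    (y : F) (P : K[X]) (h0 : aeval y P = 0) (h1 : aeval y (derivative P) ≠ 0) :
    IsSeparable K y := by
  have hP0 : P ≠ 0 := by
    rintro rfl
    simp at h1
  have hint : IsIntegral K y := (isAlgebraic_iff_isIntegral).mp ⟨P, hP0, h0⟩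
  obtain ⟨Q, hQ⟩ := minpoly.dvd K y h0
  have hirr : Irreducible (minpoly K y) := minpoly.irreducible hint
  rw [IsSeparable, separable_iff_derivative_ne_zero hirr]
  intro hd
  apply h1
  rw [hQ, derivative_mul, hd, zero_mul, zero_add, map_mul, minpoly.aeval, zero_mul]

section Prod

variable {κ C L₁ L₂ : Type*} [Field κ] [CommRing C] [Algebra κ C]
  [Field L₁] [Field L₂] [Algebra κ L₁] [Algebra κ L₂]
  [FiniteDimensional κ L₁] [FiniteDimensional κ L₂]
  [Algebra.IsSeparable κ L₁] [Algebra.IsSeparable κ L₂]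

/-- The trace form of an algebra isomorphic to a product of two finite separable field
extensions is left-separating. -/
theorem traceForm_separatingLeft_of_algEquiv_prod (e : C ≃ₐ[κ] L₁ × L₂) :
    (Algebra.traceForm κ C).SeparatingLeft := by
  intro x hx
  have key : ∀ z : C, Algebra.trace κ C z =
      Algebra.trace κ L₁ (e z).1 + Algebra.trace κ L₂ (e z).2 := by
    intro z
    rw [← Algebra.trace_prod_apply, Algebra.trace_eq_of_algEquiv e z]
  have h1 : (e x).1 = 0 := by
    refine (_root_.traceForm_nondegenerate κ L₁).1 _ (fun c => ?_)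
    have := hx (e.symm (c, 0))
    rw [Algebra.traceForm_apply, key, map_mul, AlgEquiv.apply_symm_apply] at this
    simpa [Algebra.traceForm_apply] using this
  have h2 : (e x).2 = 0 := by
    refine (_root_.traceForm_nondegenerate κ L₂).1 _ (fun c => ?_)
    have := hx (e.symm (0, c))
    rw [Algebra.traceForm_apply, key, map_mul, AlgEquiv.apply_symm_apply] at this
    simpa [Algebra.traceForm_apply] using this
  have h3 : e x = 0 := Prod.ext h1 h2
  exact (map_eq_zero_iff e e.injective).1 h3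

/-- The trace form of an algebra isomorphic to a product of two finite separable field
extensions is nondegenerate. -/
theorem traceForm_nondegenerate_of_algEquiv_prod (e : C ≃ₐ[κ] L₁ × L₂) :
    (Algebra.traceForm κ C).Nondegenerate := by
  have hl := traceForm_separatingLeft_of_algEquiv_prod e
  refine ⟨hl, ?_⟩
  intro y hy
  refine hl y (fun x => ?_)
  have := hy x
  rw [Algebra.traceForm_apply] at this ⊢
  rwa [mul_comm]

end Prod

section TwoMax

variable {R S : Type*} [CommRing R] [CommRing S] [Algebra R S] [IsLocalRing R]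

/-- A maximal ideal of `S` containing `𝔪 S` lies over `𝔪`. -/
theorem liesOver_maximalIdeal_of_map_le (P : Ideal S) (hP : P.IsMaximal)
    (hle : Ideal.map (algebraMap R S) (maximalIdeal R) ≤ P) :
    P.LiesOver (maximalIdeal R) := by
  constructor
  refine (IsLocalRing.maximalIdeal.isMaximal R).eq_of_le ?_ (Ideal.map_le_iff_le_comap.1 hle)
  exact Ideal.comap_ne_top _ hP.ne_top

attribute [local instance] Ideal.Quotient.field

/-- Elementwise separability of `S ⧸ P` over `R ⧸ 𝔪` from the liftable form. -/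
theorem isSeparable_quotient_of_lift (P : Ideal S) [P.IsMaximal] [P.LiesOver (maximalIdeal R)]
    (hsep : ∀ s : S, ∃ Q : R[X], aeval s Q ∈ P ∧ aeval s (derivative Q) ∉ P) :
    Algebra.IsSeparable (R ⧸ maximalIdeal R) (S ⧸ P) := by
  refine ⟨fun y => ?_⟩
  obtain ⟨s, rfl⟩ := Ideal.Quotient.mk_surjective y
  obtain ⟨Q, hQ0, hQ1⟩ := hsep s
  have hcomp : (algebraMap (R ⧸ maximalIdeal R) (S ⧸ P)).comp
      (Ideal.Quotient.mk (maximalIdeal R)) = (Ideal.Quotient.mk P).comp (algebraMap R S) := by
    ext r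
    rfl
  have hev : ∀ T : R[X], aeval (Ideal.Quotient.mk P s) (T.map (Ideal.Quotient.mk (maximalIdeal R)))
      = Ideal.Quotient.mk P (aeval s T) := by
    intro T
    rw [aeval_def, eval₂_map, hcomp, aeval_def, hom_eval₂]
  apply isSeparable_of_aeval_derivative_ne_zero₂ _ (Q.map (Ideal.Quotient.mk (maximalIdeal R)))
  · rw [hev]
    exact Ideal.Quotient.eq_zero_iff_mem.2 hQ0
  · rw [derivative_map, hev]
    exact fun h => hQ1 (Ideal.Quotient.eq_zero_iff_mem.1 h)

variable [Module.Free R S] [Module.Finite R S]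

/-- **Two-point etale criterion.**  `R` local, `S` finite free over `R` with basis `b`,
`𝔪 S = P₁ ⊓ P₂` with `P₁ ≠ P₂` maximal and both `S ⧸ Pᵢ` separable over `R ⧸ 𝔪` (liftable
elementwise form).  Then `discr R b` is a unit. -/
theorem isUnit_discr_of_two_maximal
    {ι : Type*} [Fintype ι] [DecidableEq ι] (b : Module.Basis ι R S)
    (P₁ P₂ : Ideal S) (h₁ : P₁.IsMaximal) (h₂ : P₂.IsMaximal) (hne : P₁ ≠ P₂)
    (hinf : P₁ ⊓ P₂ = Ideal.map (algebraMap R S) (maximalIdeal R))
    (hsep₁ : ∀ s : S, ∃ Q : R[X], aeval s Q ∈ P₁ ∧ aeval s (derivative Q) ∉ P₁)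
    (hsep₂ : ∀ s : S, ∃ Q : R[X], aeval s Q ∈ P₂ ∧ aeval s (derivative Q) ∉ P₂) :
    IsUnit (Algebra.discr R b) := by
  classical
  haveI := h₁
  haveI := h₂
  haveI : P₁.LiesOver (maximalIdeal R) :=
    liesOver_maximalIdeal_of_map_le P₁ h₁ (hinf ▸ inf_le_left)
  haveI : P₂.LiesOver (maximalIdeal R) :=
    liesOver_maximalIdeal_of_map_le P₂ h₂ (hinf ▸ inf_le_right)
  haveI : Algebra.IsSeparable (R ⧸ maximalIdeal R) (S ⧸ P₁) :=
    isSeparable_quotient_of_lift P₁ hsep₁
  haveI : Algebra.IsSeparable (R ⧸ maximalIdeal R) (S ⧸ P₂) :=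
    isSeparable_quotient_of_lift P₂ hsep₂
  haveI : Module.Finite (R ⧸ maximalIdeal R) (S ⧸ P₁) :=
    Module.Finite.of_restrictScalars_finite R _ _
  haveI : Module.Finite (R ⧸ maximalIdeal R) (S ⧸ P₂) :=
    Module.Finite.of_restrictScalars_finite R _ _
  -- the Chinese remainder isomorphism
  have hcop : IsCoprime P₁ P₂ := by
    rw [Ideal.isCoprime_iff_sup_eq]
    exact Ideal.IsMaximal.coprime_of_ne h₁ h₂ hne
  let e₀ : (S ⧸ Ideal.map (algebraMap R S) (maximalIdeal R)) ≃+* (S ⧸ P₁) × (S ⧸ P₂) :=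
    (Ideal.quotEquivOfEq hinf.symm).trans (Ideal.quotientInfEquivQuotientProd P₁ P₂ hcop)
  have he₀ : ∀ s : S, e₀ (Ideal.Quotient.mk _ s) =
      (Ideal.Quotient.mk P₁ s, Ideal.Quotient.mk P₂ s) := by
    intro s
    rfl
  let e : (S ⧸ Ideal.map (algebraMap R S) (maximalIdeal R)) ≃ₐ[R ⧸ maximalIdeal R]
      (S ⧸ P₁) × (S ⧸ P₂) :=
    AlgEquiv.ofRingEquiv (f := e₀) (by
      intro r
      obtain ⟨r, rfl⟩ := Ideal.Quotient.mk_surjective r
      rfl)
  have hnd := traceForm_nondegenerate_of_algEquiv_prod e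
  have hne0 : Algebra.discr (R ⧸ maximalIdeal R) (basisQuotient b) ≠ 0 := by
    rw [Algebra.discr_def, Algebra.traceMatrix_of_basis,
      ← LinearMap.BilinForm.nondegenerate_iff_det_ne_zero]
    exact hnd
  have hmk : Algebra.discr (R ⧸ maximalIdeal R) (basisQuotient b) =
      Ideal.Quotient.mk (maximalIdeal R) (Algebra.discr R b) := by
    rw [Algebra.discr_def, Algebra.discr_def, RingHom.map_det]
    congr 1
    ext i j
    simp only [Algebra.traceMatrix_apply, Algebra.traceForm_apply, basisQuotient_apply,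
      RingHom.mapMatrix_apply, Matrix.map_apply, ← map_mul]
    exact Algebra.trace_quotient_mk (b i * b j)
  rw [hmk] at hne0
  by_contra hu
  apply hne0
  rw [Ideal.Quotient.eq_zero_iff_mem]
  exact (IsLocalRing.mem_maximalIdeal _).mpr hu

end TwoMax

end Fermat.Agent.A2.Mod.H732

end
end
-- ===== PACK-END A2/Mod/H732/SepEtale.lean

-- ===== PACK-BEGIN Ribet/H399/CuspPoint.lean
section


/-!
# Row 38, W-EIS leaf CUSP (helper399): two Mathlib-only lemmas on charts

* `isMaximal_of_coord_mem` : `R` a local ring, `B` an `R`-algebra integral over `R[y]`; a prime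
  ideal `n` of `B` containing `y` and the image of the maximal ideal of `R` is maximal
  (no hypothesis on residue fields).
* `isIntegral_adjoin_sub` : integrality over `R[y] ⊆ F` of an element of a subalgebra `B ⊆ F`
  containing `y` is integrality over `R[y] ⊆ B`.
-/

set_option autoImplicit false

namespace Fermat.Agent.Ribet.H399

open Polynomial

section Maximal

variable {R B : Type*} [CommRing R] [IsLocalRing R] [CommRing B] [Algebra R B]

/-- every element of `R[y]` is congruent to a constant modulo `y`. -/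
theorem exists_const_sub_mem_span (y : B) (s : B) (hs : s ∈ Algebra.adjoin R ({y} : Set B)) :
    ∃ r : R, s - algebraMap R B r ∈ Ideal.span ({y} : Set B) := by
  induction hs using Algebra.adjoin_induction with
  | mem x hx =>
    rw [Set.mem_singleton_iff] at hx
    subst hx
    exact ⟨0, by rw [map_zero, sub_zero]; exact Ideal.mem_span_singleton_self _⟩
  | algebraMap r => exact ⟨r, by rw [sub_self]; exact Ideal.zero_mem _⟩
  | add a b _ _ ha hb =>
    obtain ⟨r₁, h₁⟩ := ha
    obtain ⟨r₂, h₂⟩ := hb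
    refine ⟨r₁ + r₂, ?_⟩
    have : a + b - algebraMap R B (r₁ + r₂) =
        (a - algebraMap R B r₁) + (b - algebraMap R B r₂) := by
      rw [map_add]; ring
    rw [this]
    exact Ideal.add_mem _ h₁ h₂
  | mul a b _ _ ha hb =>
    obtain ⟨r₁, h₁⟩ := ha
    obtain ⟨r₂, h₂⟩ := hb
    refine ⟨r₁ * r₂, ?_⟩
    have : a * b - algebraMap R B (r₁ * r₂) =
        (a - algebraMap R B r₁) * b + algebraMap R B r₁ * (b - algebraMap R B r₂) := by
      rw [map_mul]; ring
    rw [this]
    exact Ideal.add_mem _ (Ideal.mul_mem_right _ _ h₁) (Ideal.mul_mem_left _ _ h₂)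

/-- **A point over the closed point of `Spec R[y]` is closed.** -/
theorem isMaximal_of_coord_mem (y : B)
    (hint : ∀ b : B, IsIntegral (Algebra.adjoin R ({y} : Set B)) b)
    (n : Ideal B) [hn : n.IsPrime] (hy : y ∈ n)
    (hR : ∀ r ∈ IsLocalRing.maximalIdeal R, algebraMap R B r ∈ n) : n.IsMaximal := by
  set S₀ := Algebra.adjoin R ({y} : Set B) with hS₀
  haveI : Algebra.IsIntegral S₀ B := ⟨hint⟩
  have hspan : Ideal.span ({y} : Set B) ≤ n := by
    rw [Ideal.span_singleton_le_iff_mem]
    exact hy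
  have hcomap : (n.comap (algebraMap S₀ B)).IsMaximal := by
    rw [Ideal.isMaximal_iff]
    refine ⟨fun h1 => hn.ne_top ((Ideal.eq_top_iff_one _).mpr (by simpa using h1)), ?_⟩
    intro J s hnJ hs hsJ
    obtain ⟨r, hr⟩ := exists_const_sub_mem_span (R := R) y (s : B) s.2
    have hrn : algebraMap R B r ∉ n := by
      intro h
      apply hs
      rw [Ideal.mem_comap]
      have : algebraMap S₀ B s = ((s : B) - algebraMap R B r) + algebraMap R B r := by
        rw [sub_add_cancel]; rfl
      rw [this]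
      exact n.add_mem (hspan hr) h
    have hru : IsUnit r := by
      by_contra hnu
      exact hrn (hR r ((IsLocalRing.mem_maximalIdeal r).mpr hnu))
    obtain ⟨r', hr'⟩ := hru.exists_right_inv
    -- `1 = r' * s - r' * (s - r)` in `S₀`
    have h1 : algebraMap R S₀ r' * s - 1 ∈ n.comap (algebraMap S₀ B) := by
      rw [Ideal.mem_comap]
      have e : algebraMap S₀ B (algebraMap R S₀ r' * s - 1) =
          algebraMap R B r' * ((s : B) - algebraMap R B r) := by
        rw [map_sub, map_mul, map_one, ← IsScalarTower.algebraMap_apply, mul_sub, ← map_mul,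
          mul_comm r' r, hr', map_one]
        rfl
      rw [e]
      exact n.mul_mem_left _ (hspan hr)
    have h2 : algebraMap R S₀ r' * s ∈ J := J.mul_mem_left _ hsJ
    have h3 : algebraMap R S₀ r' * s - (algebraMap R S₀ r' * s - 1) ∈ J :=
      J.sub_mem h2 (hnJ h1)
    simpa using h3
  exact Ideal.isMaximal_of_isIntegral_of_isMaximal_comap n hcomap

end Maximal

section Sub

variable {R F : Type*} [CommRing R] [Field F] [Algebra R F]

/-- integrality over `R[y] ⊆ F` of an element of a subalgebra `B ∋ y` is integrality over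
`R[y] ⊆ B`. -/
theorem isIntegral_adjoin_sub (B : Subalgebra R F) (y : B) (b : B)
    (hb : IsIntegral (Algebra.adjoin R ({(y : F)} : Set F)) (b : F)) :
    IsIntegral (Algebra.adjoin R ({y} : Set B)) b := by
  classical
  -- the comparison map `R[y] ⊆ F → R[y] ⊆ B`
  have hle : ∀ s : F, s ∈ Algebra.adjoin R ({(y : F)} : Set F) →
      ∃ s' : B, s' ∈ Algebra.adjoin R ({y} : Set B) ∧ (s' : F) = s := by
    intro s hs
    induction hs using Algebra.adjoin_induction with
    | mem x hx =>
      rw [Set.mem_singleton_iff] at hx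
      subst hx
      exact ⟨y, Algebra.subset_adjoin (Set.mem_singleton y), rfl⟩
    | algebraMap r => exact ⟨algebraMap R B r, Subalgebra.algebraMap_mem _ r, rfl⟩
    | add a c _ _ ha hc =>
      obtain ⟨a', ha', rfl⟩ := ha
      obtain ⟨c', hc', rfl⟩ := hc
      exact ⟨a' + c', add_mem ha' hc', rfl⟩
    | mul a c _ _ ha hc =>
      obtain ⟨a', ha', rfl⟩ := ha
      obtain ⟨c', hc', rfl⟩ := hc
      exact ⟨a' * c', mul_mem ha' hc', rfl⟩
  choose g hg hgs using hle
  let ψ : Algebra.adjoin R ({(y : F)} : Set F) →+* Algebra.adjoin R ({y} : Set B) :=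
    { toFun := fun s => ⟨g s s.2, hg s s.2⟩
      map_one' := by
        apply Subtype.ext; apply Subtype.ext
        show ((g _ _ : B) : F) = 1
        rw [hgs]; rfl
      map_mul' := fun a c => by
        apply Subtype.ext; apply Subtype.ext
        show ((g _ _ : B) : F) = ((g _ _ : B) : F) * ((g _ _ : B) : F)
        rw [hgs, hgs, hgs]; rfl
      map_zero' := by
        apply Subtype.ext; apply Subtype.ext
        show ((g _ _ : B) : F) = 0
        rw [hgs]; rfl
      map_add' := fun a c => by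
        apply Subtype.ext; apply Subtype.ext
        show ((g _ _ : B) : F) = ((g _ _ : B) : F) + ((g _ _ : B) : F)
        rw [hgs, hgs, hgs]; rfl }
  obtain ⟨P, hP, hPb⟩ := hb
  refine ⟨P.map ψ, hP.map ψ, ?_⟩
  rw [Polynomial.eval₂_map]
  apply Subtype.ext
  have h1 : (B.val : B →+* F).comp
      ((algebraMap (Algebra.adjoin R ({y} : Set B)) B).comp ψ) =
      algebraMap (Algebra.adjoin R ({(y : F)} : Set F)) F := by
    ext s
    show ((g _ _ : B) : F) = _
    rw [hgs]; rfl
  have h2 := Polynomial.hom_eval₂ P ((algebraMap (Algebra.adjoin R ({y} : Set B)) B).comp ψ)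
    (B.val : B →+* F) b
  rw [h1] at h2
  show ((Polynomial.eval₂ ((algebraMap (Algebra.adjoin R ({y} : Set B)) B).comp ψ) b P : B) : F)
    = ((0 : B) : F)
  rw [ZeroMemClass.coe_zero, ← hPb]
  exact h2

end Sub

end Fermat.Agent.Ribet.H399

end
-- ===== PACK-END Ribet/H399/CuspPoint.lean

-- ===== PACK-BEGIN A2/H189/NodeAlg.lean
section


/-!
# A2 (helper189): local algebra at a node / smooth point of a model — Mathlib only

Setting: `O` a domain (in applications a DVR `O'` with uniformiser `π`), `R` a noetherian local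
`O`-algebra (local ring of the normal model at a closed point `P̄` of the special fibre),
`ev : R →ₐ[O] O` an `O`-point of `Spec R` (evaluation at an `O`-rational place centred at `P̄`).

* `ker_eval_eq` : if `I ≤ ker ev` and `𝔪_R ≤ I + (π)` then `ker ev = I`  (no completion needed:
  Krull's intersection theorem in `R`).
* `ker_eval_node` : node `𝔪_R = (S, T, π)` : `ker ev = (S - a, T - b)`, `a = ev S`, `b = ev T`.
* `ker_eval_smooth` : smooth point `𝔪_R = (S, π)` : `ker ev = (S - a)`.
* `eval_eq_of_node` : if moreover `S * T = c` is a nonzero CONSTANT, an `O`-point is determined by its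
  `S`-coordinate (so `S - a` has exactly one zero among the `O`-places centred at the node).
* `node_uniformizer_identity` : `a * (T - b) = -T * (S - a)`; hence `S - a` generates `ker ev` wherever
  `a` is invertible (= at the generic point of the horizontal prime).
* `node_step`, `node_normal_form_or` : the FINITE normal form iteration inside `R` itself (no power
  series): from `S * T = ℓ * G` one gets, for every `n`, either `S' * T' = ℓ ^ k * unit` with `k ≤ n`
  or `S' * T' ∈ (ℓ ^ (n + 1))`, with `S' ≡ S`, `T' ≡ T` mod `ℓ`.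
-/

set_option autoImplicit false

namespace Fermat.Agent.A2.H189

open IsLocalRing

section Eval

variable {O R : Type*} [CommRing O] [IsDomain O] [CommRing R] [IsLocalRing R] [IsNoetherianRing R]
  [Algebra O R]

theorem ker_eval_le_maximalIdeal (ev : R →ₐ[O] O) :
    RingHom.ker (ev : R →+* O) ≤ maximalIdeal R := by
  apply IsLocalRing.le_maximalIdeal
  rw [Ne, Ideal.eq_top_iff_one, RingHom.mem_ker]
  simp

theorem algebraMap_mem_maximalIdeal (ev : R →ₐ[O] O) {π : O} (hπu : ¬ IsUnit π) :
    algebraMap O R π ∈ maximalIdeal R := by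
  rw [IsLocalRing.mem_maximalIdeal, mem_nonunits_iff]
  intro hu
  apply hπu
  have := hu.map (ev : R →+* O)
  simpa using this

/-- The evaluation of a non-unit is a non-unit (a section of a local algebra is a local
homomorphism). -/
theorem eval_not_isUnit (ev : R →ₐ[O] O) {s : R} (hs : s ∈ maximalIdeal R) : ¬ IsUnit (ev s) := by
  intro hu
  have h1 : s - algebraMap O R (ev s) ∈ maximalIdeal R :=
    ker_eval_le_maximalIdeal ev (by rw [RingHom.mem_ker]; simp)
  have h2 : algebraMap O R (ev s) ∈ maximalIdeal R := by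
    have := (maximalIdeal R).sub_mem hs h1
    simpa using this
  rw [IsLocalRing.mem_maximalIdeal, mem_nonunits_iff] at h2
  exact h2 (hu.map (algebraMap O R))

/-- **Lemma A.** If `I ≤ ker ev` and `𝔪_R ≤ I + (π)`, `π` a nonzero non-unit of `O`, then
`ker ev = I`. -/
theorem ker_eval_eq (π : O) (hπ : π ≠ 0) (hπu : ¬ IsUnit π) (ev : R →ₐ[O] O) (I : Ideal R)
    (hI : I ≤ RingHom.ker (ev : R →+* O))
    (hm : maximalIdeal R ≤ I ⊔ Ideal.span {algebraMap O R π}) :
    RingHom.ker (ev : R →+* O) = I := by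
  refine le_antisymm ?_ hI
  have hπm : algebraMap O R π ∈ maximalIdeal R := algebraMap_mem_maximalIdeal ev hπu
  -- Step 1: `ker ev ≤ I + (π ^ n)` for every `n`.
  have key : ∀ n : ℕ, ∀ x ∈ RingHom.ker (ev : R →+* O),
      ∃ i ∈ I, ∃ r : R, x = i + algebraMap O R π ^ n * r := by
    intro n
    induction n with
    | zero => intro x _; exact ⟨0, I.zero_mem, x, by simp⟩
    | succ n ih =>
      intro x hx
      obtain ⟨i, hi, r, hr⟩ := ih x hx
      have hevr : ev r = 0 := by
        have h1 : ev x = 0 := hx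
        have h2 : ev i = 0 := hI hi
        rw [hr, map_add, map_mul, map_pow, h2, zero_add] at h1
        have h3 : ev (algebraMap O R π) = π := by simp
        rw [h3] at h1
        exact (mul_eq_zero.mp h1).resolve_left (pow_ne_zero n hπ)
      have hrm : r ∈ I ⊔ Ideal.span {algebraMap O R π} :=
        hm (ker_eval_le_maximalIdeal ev hevr)
      obtain ⟨i', hi', z, hz, hsum⟩ := Submodule.mem_sup.mp hrm
      obtain ⟨r', hr'⟩ := Ideal.mem_span_singleton'.mp hz
      refine ⟨i + algebraMap O R π ^ n * i', I.add_mem hi (I.mul_mem_left _ hi'), r', ?_⟩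
      rw [hr, ← hsum, ← hr']
      ring
  -- Step 2: Krull's intersection theorem in `R ⧸ I`.
  intro x hx
  have hne : (Ideal.span {algebraMap O R π} : Ideal R) ≠ ⊤ := by
    intro h
    have : (1 : R) ∈ maximalIdeal R := by
      have h1 : (1 : R) ∈ Ideal.span {algebraMap O R π} := by rw [h]; trivial
      exact ((Ideal.span_singleton_le_iff_mem _).mpr hπm) h1
    exact (Ideal.ne_top_iff_one _).mp (maximalIdeal.isMaximal R).ne_top this
  have hkrull := Ideal.iInf_pow_smul_eq_bot_of_isLocalRing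
    (I := Ideal.span {algebraMap O R π}) (M := R ⧸ I) hne
  have hmem : (Ideal.Quotient.mk I x : R ⧸ I) ∈
      (⨅ n : ℕ, (Ideal.span {algebraMap O R π}) ^ n • (⊤ : Submodule R (R ⧸ I))) := by
    rw [Submodule.mem_iInf]
    intro n
    obtain ⟨i, hi, r, hr⟩ := key n x hx
    have h1 : (Ideal.Quotient.mk I x : R ⧸ I)
        = (algebraMap O R π ^ n) • (Ideal.Quotient.mk I r : R ⧸ I) := by
      rw [hr, map_add, Ideal.Quotient.eq_zero_iff_mem.mpr hi, zero_add, map_mul]
      rfl
    rw [h1]
    refine Submodule.smul_mem_smul ?_ Submodule.mem_top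
    exact Ideal.pow_mem_pow (Ideal.mem_span_singleton_self _) n
  rw [hkrull, Submodule.mem_bot] at hmem
  exact Ideal.Quotient.eq_zero_iff_mem.mp hmem

/-- **Node**: if `𝔪_R = (S, T, π)` then the kernel of an `O`-point is `(S - a, T - b)`. -/
theorem ker_eval_node (π : O) (hπ : π ≠ 0) (hπmax : ∀ z : O, ¬ IsUnit z → π ∣ z)
    (hπu : ¬ IsUnit π) (ev : R →ₐ[O] O) (S T : R)
    (hm : maximalIdeal R = Ideal.span {S, T, algebraMap O R π}) :
    RingHom.ker (ev : R →+* O)
      = Ideal.span {S - algebraMap O R (ev S), T - algebraMap O R (ev T)} := by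
  have hS : S ∈ maximalIdeal R := by rw [hm]; exact Ideal.subset_span (by simp)
  have hT : T ∈ maximalIdeal R := by rw [hm]; exact Ideal.subset_span (by simp)
  obtain ⟨a', ha'⟩ := hπmax _ (eval_not_isUnit ev hS)
  obtain ⟨b', hb'⟩ := hπmax _ (eval_not_isUnit ev hT)
  apply ker_eval_eq π hπ hπu ev
  · rw [Ideal.span_le]
    rintro x (rfl | rfl)
    · rw [SetLike.mem_coe, RingHom.mem_ker]; simp
    · rw [SetLike.mem_coe, RingHom.mem_ker]; simp
  · rw [hm, Ideal.span_le]
    rintro x (rfl | rfl | rfl)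
    · have : x = (x - algebraMap O R (ev x)) + algebraMap O R π * algebraMap O R a' := by
        rw [← map_mul, ← ha']; ring
      rw [SetLike.mem_coe, this]
      exact Ideal.add_mem _ (Ideal.mem_sup_left (Ideal.subset_span (by simp)))
        (Ideal.mem_sup_right (Ideal.mul_mem_right _ _ (Ideal.mem_span_singleton_self _)))
    · have : x = (x - algebraMap O R (ev x)) + algebraMap O R π * algebraMap O R b' := by
        rw [← map_mul, ← hb']; ring
      rw [SetLike.mem_coe, this]
      exact Ideal.add_mem _ (Ideal.mem_sup_left (Ideal.subset_span (by simp)))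
        (Ideal.mem_sup_right (Ideal.mul_mem_right _ _ (Ideal.mem_span_singleton_self _)))
    · exact Ideal.mem_sup_right (Ideal.mem_span_singleton_self _)

/-- **Smooth point**: if `𝔪_R = (S, π)` then the kernel of an `O`-point is `(S - a)`. -/
theorem ker_eval_smooth (π : O) (hπ : π ≠ 0) (hπmax : ∀ z : O, ¬ IsUnit z → π ∣ z)
    (hπu : ¬ IsUnit π) (ev : R →ₐ[O] O) (S : R)
    (hm : maximalIdeal R = Ideal.span {S, algebraMap O R π}) :
    RingHom.ker (ev : R →+* O) = Ideal.span {S - algebraMap O R (ev S)} := by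
  have hS : S ∈ maximalIdeal R := by rw [hm]; exact Ideal.subset_span (by simp)
  obtain ⟨a', ha'⟩ := hπmax _ (eval_not_isUnit ev hS)
  apply ker_eval_eq π hπ hπu ev
  · rw [Ideal.span_le]
    rintro x rfl
    rw [SetLike.mem_coe, RingHom.mem_ker]; simp
  · rw [hm, Ideal.span_le]
    rintro x (rfl | rfl)
    · have : x = (x - algebraMap O R (ev x)) + algebraMap O R π * algebraMap O R a' := by
        rw [← map_mul, ← ha']; ring
      rw [SetLike.mem_coe, this]
      exact Ideal.add_mem _ (Ideal.mem_sup_left (Ideal.subset_span (by simp)))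
        (Ideal.mem_sup_right (Ideal.mul_mem_right _ _ (Ideal.mem_span_singleton_self _)))
    · exact Ideal.mem_sup_right (Ideal.mem_span_singleton_self _)

/-- Two `O`-points with the same kernel are equal. -/
theorem eval_eq_of_ker_le (ev ev' : R →ₐ[O] O)
    (h : RingHom.ker (ev : R →+* O) ≤ RingHom.ker (ev' : R →+* O)) : ev' = ev := by
  ext x
  have h1 : x - algebraMap O R (ev x) ∈ RingHom.ker (ev : R →+* O) := by
    rw [RingHom.mem_ker]; simp
  have h2 := h h1
  rw [RingHom.mem_ker] at h2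
  have h3 : ev' x - ev x = 0 := by simpa using h2
  exact sub_eq_zero.mp h3

/-- **Uniqueness at a node with constant product**: if `S * T = c ≠ 0` is constant, an `O`-point of
the node is determined by its `S`-coordinate. -/
theorem eval_eq_of_node (π : O) (hπ : π ≠ 0) (hπmax : ∀ z : O, ¬ IsUnit z → π ∣ z)
    (hπu : ¬ IsUnit π) (ev ev' : R →ₐ[O] O) (S T : R) (c : O) (hc : c ≠ 0)
    (hST : S * T = algebraMap O R c)
    (hm : maximalIdeal R = Ideal.span {S, T, algebraMap O R π})
    (hS : ev' S = ev S) : ev' = ev := by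
  have h1 : ev S * ev T = c := by rw [← map_mul, hST]; simp
  have h2 : ev' S * ev' T = c := by rw [← map_mul, hST]; simp
  have hS0 : ev S ≠ 0 := by
    intro h0; rw [h0, zero_mul] at h1; exact hc h1.symm
  have hT : ev' T = ev T := by
    rw [hS, ← h1] at h2
    exact mul_left_cancel₀ hS0 h2
  apply eval_eq_of_ker_le
  rw [ker_eval_node π hπ hπmax hπu ev S T hm, Ideal.span_le]
  rintro x (rfl | rfl)
  · rw [SetLike.mem_coe, RingHom.mem_ker]; simp [hS]
  · rw [SetLike.mem_coe, RingHom.mem_ker]; simp [hT]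

/-- At the generic point of the horizontal prime `ker ev` (where the constant `a = ev S ≠ 0` is
invertible), `S - a` alone generates: `a (T - b) = - T (S - a)`. -/
theorem node_uniformizer_identity (ev : R →ₐ[O] O) (S T : R) (c : O)
    (hST : S * T = algebraMap O R c) :
    algebraMap O R (ev S) * (T - algebraMap O R (ev T))
      = - T * (S - algebraMap O R (ev S)) := by
  have h1 : ev S * ev T = c := by rw [← map_mul, hST]; simp
  have h2 : algebraMap O R (ev S) * algebraMap O R (ev T) = S * T := by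
    rw [← map_mul, h1, hST]
  linear_combination (-1 : R) * h2

end Eval

section NormalForm

variable {R : Type*} [CommRing R] [IsLocalRing R]

/-- One step of the normal form iteration: if `S T = ℓ^(n+1) G` with `G` a non-unit and
`𝔪 = (S, T, ℓ)`, then `S' T' = ℓ^(n+2) G'` with `S' ≡ S`, `T' ≡ T` mod `ℓ^(n+1)`. -/
theorem node_step (ℓ S T G : R) (n : ℕ)
    (hm : maximalIdeal R = Ideal.span {S, T, ℓ})
    (h : S * T = ℓ ^ (n + 1) * G) (hG : ¬ IsUnit G) :
    ∃ S' T' G' : R, (∃ β, S' = S - ℓ ^ (n + 1) * β) ∧ (∃ α, T' = T - ℓ ^ (n + 1) * α) ∧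
      S' * T' = ℓ ^ (n + 2) * G' ∧ maximalIdeal R = Ideal.span {S', T', ℓ} := by
  have hGm : G ∈ maximalIdeal R := by
    rw [IsLocalRing.mem_maximalIdeal, mem_nonunits_iff]; exact hG
  rw [hm] at hGm
  obtain ⟨α, β, γ, hαβγ⟩ : ∃ α β γ : R, G = α * S + β * T + γ * ℓ := by
    rw [Ideal.mem_span_insert] at hGm
    obtain ⟨a, z, hz, rfl⟩ := hGm
    rw [Ideal.mem_span_insert] at hz
    obtain ⟨b, z', hz', rfl⟩ := hz
    obtain ⟨c, rfl⟩ := Ideal.mem_span_singleton'.mp hz'
    exact ⟨a, b, c, by ring⟩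
  refine ⟨S - ℓ ^ (n + 1) * β, T - ℓ ^ (n + 1) * α, γ + ℓ ^ n * (α * β), ⟨β, rfl⟩, ⟨α, rfl⟩, ?_, ?_⟩
  · have : (S - ℓ ^ (n + 1) * β) * (T - ℓ ^ (n + 1) * α)
        = S * T - ℓ ^ (n + 1) * (α * S + β * T) + ℓ ^ (n + 1) * ℓ ^ (n + 1) * (α * β) := by ring
    rw [this, h, hαβγ]
    ring
  · rw [hm]
    have e1 : S = (S - ℓ ^ (n + 1) * β) + (ℓ ^ n * β) * ℓ := by ring
    have e2 : T = (T - ℓ ^ (n + 1) * α) + (ℓ ^ n * α) * ℓ := by ring
    have e3 : S - ℓ ^ (n + 1) * β = S - (ℓ ^ n * β) * ℓ := by ring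
    have e4 : T - ℓ ^ (n + 1) * α = T - (ℓ ^ n * α) * ℓ := by ring
    have hS' : S ∈ Ideal.span {S - ℓ ^ (n + 1) * β, T - ℓ ^ (n + 1) * α, ℓ} := by
      have h1 : (S - ℓ ^ (n + 1) * β) + (ℓ ^ n * β) * ℓ ∈
          Ideal.span {S - ℓ ^ (n + 1) * β, T - ℓ ^ (n + 1) * α, ℓ} :=
        Ideal.add_mem _ (Ideal.subset_span (by simp))
          (Ideal.mul_mem_left _ _ (Ideal.subset_span (by simp)))
      rwa [← e1] at h1
    have hT' : T ∈ Ideal.span {S - ℓ ^ (n + 1) * β, T - ℓ ^ (n + 1) * α, ℓ} := by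
      have h1 : (T - ℓ ^ (n + 1) * α) + (ℓ ^ n * α) * ℓ ∈
          Ideal.span {S - ℓ ^ (n + 1) * β, T - ℓ ^ (n + 1) * α, ℓ} :=
        Ideal.add_mem _ (Ideal.subset_span (by simp))
          (Ideal.mul_mem_left _ _ (Ideal.subset_span (by simp)))
      rwa [← e2] at h1
    have hS'' : S - ℓ ^ (n + 1) * β ∈ Ideal.span {S, T, ℓ} := by
      rw [e3]
      exact Ideal.sub_mem _ (Ideal.subset_span (by simp))
        (Ideal.mul_mem_left _ _ (Ideal.subset_span (by simp)))
    have hT'' : T - ℓ ^ (n + 1) * α ∈ Ideal.span {S, T, ℓ} := by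
      rw [e4]
      exact Ideal.sub_mem _ (Ideal.subset_span (by simp))
        (Ideal.mul_mem_left _ _ (Ideal.subset_span (by simp)))
    apply le_antisymm
    · rw [Ideal.span_le]
      intro x hx
      simp only [Set.mem_insert_iff, Set.mem_singleton_iff] at hx
      rcases hx with rfl | rfl | rfl
      · exact hS'
      · exact hT'
      · exact Ideal.subset_span (by simp)
    · rw [Ideal.span_le]
      intro x hx
      simp only [Set.mem_insert_iff, Set.mem_singleton_iff] at hx
      rcases hx with rfl | rfl | rfl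
      · exact hS''
      · exact hT''
      · exact Ideal.subset_span (by simp)

/-- **Finite normal form** inside `R`: starting from `S T = ℓ G`, for every `n` either the node has
thickness `k ≤ n + 1` (`S' T' = ℓ^k · unit`) or `S' T' ∈ (ℓ^(n+2))`, with `S' ≡ S`, `T' ≡ T` mod `ℓ`
and `𝔪 = (S', T', ℓ)`. -/
theorem node_normal_form_or (ℓ S T G : R) (hm : maximalIdeal R = Ideal.span {S, T, ℓ})
    (h : S * T = ℓ * G) (n : ℕ) :
    ∃ S' T' G' : R, (∃ β, S' = S - ℓ * β) ∧ (∃ α, T' = T - ℓ * α) ∧
      maximalIdeal R = Ideal.span {S', T', ℓ} ∧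
      ((∃ k, k ≤ n ∧ S' * T' = ℓ ^ (k + 1) * G' ∧ IsUnit G') ∨ S' * T' = ℓ ^ (n + 2) * G') := by
  induction n with
  | zero =>
    by_cases hG : IsUnit G
    · exact ⟨S, T, G, ⟨0, by simp⟩, ⟨0, by simp⟩, hm, Or.inl ⟨0, le_rfl, by simpa using h, hG⟩⟩
    · obtain ⟨S', T', G', ⟨β, hβ⟩, ⟨α, hα⟩, h', hm'⟩ :=
        node_step ℓ S T G 0 hm (by simpa using h) hG
      exact ⟨S', T', G', ⟨β, by simpa using hβ⟩, ⟨α, by simpa using hα⟩, hm', Or.inr h'⟩
  | succ n ih =>
    obtain ⟨S₁, T₁, G₁, ⟨β₁, hβ₁⟩, ⟨α₁, hα₁⟩, hm₁, hcase⟩ := ih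
    rcases hcase with ⟨k, hk, hprod, hu⟩ | hprod
    · exact ⟨S₁, T₁, G₁, ⟨β₁, hβ₁⟩, ⟨α₁, hα₁⟩, hm₁, Or.inl ⟨k, by omega, hprod, hu⟩⟩
    · by_cases hG : IsUnit G₁
      · exact ⟨S₁, T₁, G₁, ⟨β₁, hβ₁⟩, ⟨α₁, hα₁⟩, hm₁, Or.inl ⟨n + 1, le_rfl, hprod, hu_of hG⟩⟩
      · obtain ⟨S', T', G', ⟨β, hβ⟩, ⟨α, hα⟩, h', hm'⟩ :=
          node_step ℓ S₁ T₁ G₁ (n + 1) hm₁ hprod hG
        refine ⟨S', T', G', ⟨β₁ + ℓ ^ (n + 1) * β, ?_⟩, ⟨α₁ + ℓ ^ (n + 1) * α, ?_⟩, hm',
          Or.inr h'⟩
        · rw [hβ, hβ₁]; ring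
        · rw [hα, hα₁]; ring
where
  hu_of {G₁ : R} (h : IsUnit G₁) : IsUnit G₁ := h

end NormalForm

end Fermat.Agent.A2.H189

end
-- ===== PACK-END A2/H189/NodeAlg.lean

-- ===== PACK-BEGIN S28/H868/Interface.lean
section




/-!
# S28 (Igusa) -- shared interface between the analytic side and the algebraic core

`ModFunPackage N` is the ONLY thing the decomposition-group core needs from the analytic theory.
Everything is phrased with formal Laurent series in `t = q^{1/N}` with complex coefficients.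
-/

set_option autoImplicit false

noncomputable section

namespace Fermat.Agent.S28

open ModularCurve HahnSeries

theorem coeff_mul_both' {R : Type*} [CommRing R] {x y : LaurentSeries R} {a : ℤ} {s t : Set ℤ}
    (hs : s.IsPWO) (ht : t.IsPWO) (hxs : x.support ⊆ s) (hyt : y.support ⊆ t) :
    (x * y).coeff a =
      ∑ ij ∈ Finset.antidiagonal hs ht a, x.coeff ij.fst * y.coeff ij.snd := by
  rw [HahnSeries.coeff_mul_left' hs hxs]
  refine Finset.sum_subset (Finset.antidiagonal_mono_right hyt) ?_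
  intro ij hij hnot
  have hj : ij.2 ∉ y.support := by
    intro hj
    apply hnot
    rw [Finset.mem_antidiagonal] at hij ⊢
    exact ⟨hij.1, hj, hij.2.2⟩
  simp only [HahnSeries.mem_support, not_not] at hj
  rw [hj, mul_zero]

/-- underlying function of `twist` -/
def twistFun {R : Type*} [CommRing R] (c : Rˣ) (φ : LaurentSeries R) : LaurentSeries R :=
  HahnSeries.ofSuppBddBelow (fun n : ℤ => ((c ^ n : Rˣ) : R) * φ.coeff n)
    ⟨φ.order, fun m hm => by
      by_contra h
      exact hm (by simp [HahnSeries.coeff_eq_zero_of_lt_order (not_le.mp h)])⟩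

@[simp] theorem twistFun_coeff {R : Type*} [CommRing R] (c : Rˣ) (φ : LaurentSeries R) (n : ℤ) :
    (twistFun c φ).coeff n = ((c ^ n : Rˣ) : R) * φ.coeff n := rfl

theorem twistFun_support {R : Type*} [CommRing R] (c : Rˣ) (φ : LaurentSeries R) :
    (twistFun c φ).support ⊆ φ.support := by
  intro m hm
  simp only [HahnSeries.mem_support, twistFun_coeff] at hm ⊢
  intro h0
  exact hm (by rw [h0, mul_zero])

/-- The substitution `t ↦ c t` on Laurent series, for a unit `c`:
`(twist c φ).coeff n = c ^ n * φ.coeff n`. -/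
def twist {R : Type*} [CommRing R] (c : Rˣ) : LaurentSeries R →+* LaurentSeries R where
  toFun := twistFun c
  map_zero' := by ext n; simp
  map_one' := by
    ext n
    by_cases h : n = 0
    · subst h; simp
    · simp [HahnSeries.coeff_one, h]
  map_add' φ ψ := by ext n; simp [mul_add]
  map_mul' φ ψ := by
    ext n
    rw [coeff_mul_both' φ.isPWO_support ψ.isPWO_support (twistFun_support c φ)
      (twistFun_support c ψ)]
    simp only [twistFun_coeff, HahnSeries.coeff_mul, Finset.mul_sum]
    refine Finset.sum_congr rfl ?_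
    intro ij hij
    rw [Finset.mem_antidiagonal] at hij
    rw [← hij.2.2, zpow_add, Units.val_mul]
    ring

@[simp] theorem twist_coeff {R : Type*} [CommRing R] (c : Rˣ) (φ : LaurentSeries R) (n : ℤ) :
    (twist c φ).coeff n = ((c ^ n : Rˣ) : R) * φ.coeff n := rfl

/-- The embedding `ℚ((q)) → ℂ((t))`, `q ↦ t ^ N` (so `t = q^{1/N}`). -/
def iotaN (N : ℕ) [NeZero N] : LaurentSeries ℚ →+* LaurentSeries ℂ :=
  (qExpand ℂ N).comp (coeffMap (algebraMap ℚ ℂ))

/-- The formal discriminant `Δ = q ∏ (1 - q^n)^24 ∈ ℚ((q))`. -/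
def deltaq : LaurentSeries ℚ :=
  HahnSeries.single (1 : ℤ) 1 *
    HahnSeries.ofPowerSeries ℤ ℚ (dedekindEtaUnit.map (Int.castRingHom ℚ))

/-- The formal modular unit `u_d = Δ(q^d) / Δ(q) ∈ ℚ((q))`. -/
def unitq (d : ℕ) [NeZero d] : LaurentSeries ℚ := qExpand ℚ d deltaq / deltaq

open scoped MatrixGroups

/-- **The analytic package.**  A finite family of Laurent series in `t = q^{1/N}` (in practice: the
`j(ζ_δ^b t^{aN/δ})` and `δ^{-12} Δ(ζ_δ^b t^{aN/δ}) / Δ(t^N)`, i.e. the expansions of
`J((aτ+b)/δ)` and of `δ^{-12} Δ((aτ+b)/δ)/Δ(τ)`), permuted by `SL(2,ℤ)`, such that polynomial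
relations are preserved and invariant polynomial expressions are polynomials in `j`. -/
structure ModFunPackage (N : ℕ) [NeZero N] where
  /-- index type of the generators -/
  ι : Type
  fin : Fintype ι
  /-- the generators, as Laurent series in `t = q^{1/N}` -/
  gen : ι → LaurentSeries ℂ
  /-- the (left) action of `SL(2,ℤ)` on the indices -/
  perm : SL(2, ℤ) →* Equiv.Perm ι
  /-- polynomial relations between the generators are preserved by the action -/
  rel : ∀ (γ : SL(2, ℤ)) (p : MvPolynomial ι ℂ),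
    MvPolynomial.aeval gen p = 0 → MvPolynomial.aeval (gen ∘ perm γ) p = 0
  /-- invariant polynomial expressions in the generators are polynomials in `j` -/
  inv : ∀ p : MvPolynomial ι ℂ,
    (∀ γ : SL(2, ℤ), MvPolynomial.aeval (gen ∘ perm γ) p = MvPolynomial.aeval gen p) →
      MvPolynomial.aeval gen p ∈ Algebra.adjoin ℂ {iotaN N jq}
  /-- the coefficients of the generators lie in `ℤ[ζ_N, 1/N]` -/
  coeff_mem : ∀ (i : ι) (n : ℤ), (gen i).coeff n ∈
    Subring.closure ({Complex.exp (2 * Real.pi * Complex.I / N), (N : ℂ)⁻¹} : Set ℂ)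
  /-- the translation `T` acts through `t ↦ c t` for some `N`-th root of unity `c` -/
  twistUnit : ℂˣ
  twistUnit_pow : twistUnit ^ N = 1
  perm_T : ∀ i : ι, gen (perm ModularGroup.T i) = twist twistUnit (gen i)
  /-- the index of `j(q^d)`, `d ∣ N` -/
  idxJ : ∀ (d : ℕ) [NeZero d], d ∣ N → ι
  gen_idxJ : ∀ (d : ℕ) [NeZero d] (hd : d ∣ N), gen (idxJ d hd) = iotaN N (qExpand ℚ d jq)
  fixJ : ∀ (d : ℕ) [NeZero d] (hd : d ∣ N), ∀ γ ∈ CongruenceSubgroup.Gamma0 N,
    perm γ (idxJ d hd) = idxJ d hd
  /-- the index of the modular unit `u_p = Δ(q^p)/Δ(q)`, `p ∣ N` prime -/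
  idxU : ∀ (p : ℕ) [NeZero p], p.Prime → p ∣ N → ι
  gen_idxU : ∀ (p : ℕ) [NeZero p] (hp : p.Prime) (hpN : p ∣ N),
    gen (idxU p hp hpN) = iotaN N (unitq p)
  fixU : ∀ (p : ℕ) [NeZero p] (hp : p.Prime) (hpN : p ∣ N), ∀ γ ∈ CongruenceSubgroup.Gamma0 p,
    perm γ (idxU p hp hpN) = idxU p hp hpN

end Fermat.Agent.S28

end
end
-- ===== PACK-END S28/H868/Interface.lean

-- ===== PACK-BEGIN Lib/ValConj/Basic.lean
section
/-
Shared library **ValConj** (helper168).  Mathlib only.

Conjugacy of the extensions of a valuation ring in a finite Galois-type situation: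

  `L` a field, `G` a finite group acting on `L` by ring automorphisms, `V V' : ValuationSubring L`
  with the same `G`-fixed elements  ⟹  `∃ g : G, g • V = V'`.

(Used for decomposition-group arguments: Igusa for `Γ₁` (row S48, node IGUSA1 (b)), sheets of
split covers (cell A2), uniqueness of Gauss valuations.)

This file: the fixed part `W = V ∩ L^G`, the integral closure `C` of `W` in `L`, its `G`-action,
`Algebra.IsInvariant W C G`, and the "denominator trick" (`exists_mul_eq_of_mem`):
every `x ∈ V` is `z / y` with `y, z ∈ C`, `y` a unit of `V`.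
-/






set_option autoImplicit false

open scoped Pointwise

namespace Fermat.Agent.Lib.ValConj

variable {L : Type*} [Field L] (G : Type*) [Group G] [MulSemiringAction G L]

/-- `W = V ∩ L^G` as a subring of `L`. -/
def fixedPart (V : ValuationSubring L) : Subring L :=
  V.toSubring ⊓ (FixedPoints.subfield G L).toSubring

variable {G}

theorem mem_fixedPart {V : ValuationSubring L} {x : L} :
    x ∈ fixedPart G V ↔ x ∈ V ∧ ∀ g : G, g • x = x := by
  unfold fixedPart
  rw [Subring.mem_inf]
  exact Iff.rfl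

theorem fixedPart_le (V : ValuationSubring L) : fixedPart G V ≤ V.toSubring := inf_le_left

theorem smul_eq_of_mem_fixedPart {V : ValuationSubring L} {x : L} (hx : x ∈ fixedPart G V)
    (g : G) : g • x = x := (mem_fixedPart.1 hx).2 g

variable (G)

/-- The integral closure of `W = V ∩ L^G` in `L`, as a subring of `L`. -/
def intClosure (V : ValuationSubring L) : Subring L :=
  (integralClosure (fixedPart G V) L).toSubring

variable {G}

theorem mem_intClosure {V : ValuationSubring L} {x : L} :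
    x ∈ intClosure G V ↔ IsIntegral (fixedPart G V) x := Iff.rfl

/-- `C` is the intersection of the valuation subrings containing `W`. -/
theorem mem_intClosure_iff_forall {V : ValuationSubring L} {x : L} :
    x ∈ intClosure G V ↔
      ∀ U : ValuationSubring L, fixedPart G V ≤ U.toSubring → x ∈ U := by
  have h := iInf_valuationSubring_superset (K := L) (s := (fixedPart G V : Set L))
  have hcl : Subring.closure (fixedPart G V : Set L) = fixedPart G V := Subring.closure_eq _
  constructor
  · intro hx U hU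
    have hx' : x ∈ (integralClosure (Subring.closure (fixedPart G V : Set L)) L).toSubring := by
      rw [mem_intClosure] at hx
      obtain ⟨p, hp, hpx⟩ := hx
      refine ⟨p.map (Subring.inclusion (le_of_eq hcl.symm)), hp.map _, ?_⟩
      rw [← hpx, Polynomial.eval₂_map]
      rfl
    rw [← h] at hx'
    have := (Subring.mem_iInf.1 hx') ⟨U, fun y hy => hU hy⟩
    exact this
  · intro hx
    have hx' : x ∈ (⨅ U : {U : ValuationSubring L // (fixedPart G V : Set L) ⊆ U.toSubring},
        U.1.toSubring) := Subring.mem_iInf.2 fun U => hx U.1 (fun y hy => U.2 hy)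
    rw [h] at hx'
    obtain ⟨p, hp, hpx⟩ := hx'
    rw [mem_intClosure]
    refine ⟨p.map (Subring.inclusion (le_of_eq hcl)), hp.map _, ?_⟩
    rw [← hpx, Polynomial.eval₂_map]
    rfl

theorem fixedPart_le_intClosure (V : ValuationSubring L) : fixedPart G V ≤ intClosure G V := by
  intro x hx
  rw [mem_intClosure_iff_forall]
  exact fun U hU => hU hx

theorem intClosure_le (V : ValuationSubring L) : intClosure G V ≤ V.toSubring := by
  intro x hx
  exact (mem_intClosure_iff_forall.1 hx) V (fixedPart_le V)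

/-- `C` is `G`-stable. -/
theorem smul_mem_intClosure {V : ValuationSubring L} (g : G) {x : L} (hx : x ∈ intClosure G V) :
    g • x ∈ intClosure G V := by
  rw [mem_intClosure] at hx ⊢
  obtain ⟨p, hp, hpx⟩ := hx
  refine ⟨p, hp, ?_⟩
  have h1 : (MulSemiringAction.toRingHom G L g).comp (algebraMap (fixedPart G V) L)
      = algebraMap (fixedPart G V) L := by
    ext w
    exact smul_eq_of_mem_fixedPart w.2 g
  have h2 := congrArg (MulSemiringAction.toRingHom G L g) hpx
  rw [map_zero, Polynomial.hom_eval₂, h1] at h2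
  exact h2

instance isInvariantSubring_intClosure (V : ValuationSubring L) :
    IsInvariantSubring G (intClosure G V) :=
  ⟨fun g _ hx => smul_mem_intClosure g hx⟩

end Fermat.Agent.Lib.ValConj

end
-- ===== PACK-END Lib/ValConj/Basic.lean

-- ===== PACK-BEGIN Ribet/H712/FrameCover.lean
section


/-!
# Row 38, WALL-p, CORE-OUT WILD, frame assembly (helper712): the Kummer cover `ι(K)(h) ⊆ Ω`

Generic, Mathlib only.  `ι : K →+* Ω` a homomorphism of fields, `h ∈ Ω`.

* `cov ι h : Subfield Ω`            : the subfield generated by `ι(K)` and `h`;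
* `covMap ι h : K →+* cov ι h`, `covGen ι h`, `covAlgebra ι h` (a `def`, not an instance);
* `adjoin_covGen`                   : `K⟮h⟯ = ⊤` in `cov ι h`;
* `covIncl`                         : `cov ι h → cov ι' h` for `ι = ι' ∘ φ`;
* Kummer case (`ζ ∈ K` primitive `p`-th root of unity, `h ^ p = ι a`, `h ∉ ι(K)`):
  `isGalois_cov`, `finiteDimensional_cov`, `covDeck` (the deck transformation `h ↦ ι(ζ) h`),
  `exists_pow_eq_covDeck` (it generates the Galois group), `covDeck_eq_of_ringHom`
  (every ring homomorphism `cov ι h → Ω` which is the inclusion on `ι(K)` and maps `h` to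
  `ι(ζ) h` is `covDeck`).
-/

set_option autoImplicit false

noncomputable section

namespace Fermat.Agent.Ribet.H712.Frame

open Polynomial

section Cover

variable {K Ω : Type*} [Field K] [Field Ω] (ι : K →+* Ω) (h : Ω)

/-- `ι(K)(h) ⊆ Ω`. -/
def cov : Subfield Ω := Subfield.closure (Set.range ι ∪ {h})

theorem map_mem_cov (x : K) : ι x ∈ cov ι h := Subfield.subset_closure (Or.inl ⟨x, rfl⟩)

theorem gen_mem_cov : h ∈ cov ι h := Subfield.subset_closure (Or.inr rfl)

/-- The structure map `K → ι(K)(h)`. -/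
def covMap : K →+* ↥(cov ι h) := ι.codRestrict (cov ι h) (map_mem_cov ι h)

@[simp]
theorem coe_covMap (x : K) : ((covMap ι h x : ↥(cov ι h)) : Ω) = ι x := rfl

/-- The generator `h` of the cover. -/
def covGen : ↥(cov ι h) := ⟨h, gen_mem_cov ι h⟩

@[simp]
theorem coe_covGen : ((covGen ι h : ↥(cov ι h)) : Ω) = h := rfl

/-- The `K`-algebra structure of the cover (a `def`; use `letI`). -/
@[reducible]
def covAlgebra : Algebra K ↥(cov ι h) := (covMap ι h).toAlgebra

theorem cov_le {T : Subfield Ω} (h1 : ∀ x : K, ι x ∈ T) (h2 : h ∈ T) : cov ι h ≤ T := by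
  rw [cov, Subfield.closure_le]
  rintro z (⟨x, rfl⟩ | hz)
  · exact h1 x
  · rw [Set.mem_singleton_iff] at hz
    rw [hz]
    exact h2

/-- `K⟮h⟯ = ⊤` in the cover. -/
theorem adjoin_covGen :
    letI := covAlgebra ι h
    IntermediateField.adjoin K ({covGen ι h} : Set ↥(cov ι h)) = ⊤ := by
  letI := covAlgebra ι h
  rw [eq_top_iff]
  rintro ⟨z, hz⟩ -
  -- the subfield of `Ω` of elements whose restriction lies in `K⟮h⟯`
  let T : Subfield Ω :=
    (IntermediateField.adjoin K ({covGen ι h} : Set ↥(cov ι h))).toSubfield.map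
      (cov ι h).subtype
  have hT : cov ι h ≤ T := by
    apply cov_le
    · intro x
      exact ⟨covMap ι h x,
        (IntermediateField.adjoin K ({covGen ι h} : Set ↥(cov ι h))).algebraMap_mem x, rfl⟩
    · exact ⟨covGen ι h, IntermediateField.mem_adjoin_simple_self K (covGen ι h), rfl⟩
  obtain ⟨y, hy, hyz⟩ := hT hz
  have : y = ⟨z, hz⟩ := Subtype.ext hyz
  rw [← this]
  exact hy

/-- Two ring homomorphisms `cov ι h → Ω'` which agree on `ι(K)` and at `h` are equal. -/
theorem covHom_ext {Ω' : Type*} [Field Ω'] (f g : ↥(cov ι h) →+* Ω')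
    (h1 : ∀ x : K, f (covMap ι h x) = g (covMap ι h x)) (h2 : f (covGen ι h) = g (covGen ι h)) :
    f = g := by
  -- the equaliser, pushed to `Ω`
  let T : Subfield Ω := (RingHom.eqLocusField f g).map (cov ι h).subtype
  have hT : cov ι h ≤ T := by
    apply cov_le
    · intro x
      exact ⟨covMap ι h x, h1 x, rfl⟩
    · exact ⟨covGen ι h, h2, rfl⟩
  ext ⟨z, hz⟩
  obtain ⟨y, hy, hyz⟩ := hT hz
  have : y = ⟨z, hz⟩ := Subtype.ext hyz
  rw [← this]
  exact hy

/-- Inclusion of covers along `ι = ι' ∘ φ`. -/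
def covIncl {K' : Type*} [Field K'] (ι' : K' →+* Ω) (φ : K →+* K')
    (hφ : ∀ x, ι' (φ x) = ι x) : ↥(cov ι h) →+* ↥(cov ι' h) where
  toFun z := ⟨z.1, cov_le ι h (fun x => hφ x ▸ map_mem_cov ι' h (φ x)) (gen_mem_cov ι' h) z.2⟩
  map_one' := Subtype.ext rfl
  map_mul' _ _ := Subtype.ext rfl
  map_zero' := Subtype.ext rfl
  map_add' _ _ := Subtype.ext rfl

@[simp]
theorem coe_covIncl {K' : Type*} [Field K'] (ι' : K' →+* Ω) (φ : K →+* K')
    (hφ : ∀ x, ι' (φ x) = ι x) (z : ↥(cov ι h)) :
    ((covIncl ι h ι' φ hφ z : ↥(cov ι' h)) : Ω) = (z : Ω) := by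
  cases z
  rfl

end Cover

section Kummer

variable {K Ω : Type*} [Field K] [Field Ω] (ι : K →+* Ω) (h : Ω)
variable {p : ℕ} (hp : p.Prime) {ζ : K} (hζ : IsPrimitiveRoot ζ p) {a : K}
  (ha : h ^ p = ι a) (hh : h ∉ Set.range ι)

include hp hζ ha hh in
/-- `a` is not a `p`-th power in `K`. -/
theorem not_pow_of_not_mem (b : K) : b ^ p ≠ a := by
  intro hb
  apply hh
  haveI : NeZero p := ⟨hp.ne_zero⟩
  by_cases hb0 : ι b = 0
  · have h0 : h ^ p = 0 := by rw [ha, ← hb, map_pow, hb0, zero_pow hp.ne_zero]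
    exact ⟨0, by rw [map_zero]; exact (pow_eq_zero_iff hp.ne_zero).mp h0 |>.symm⟩
  · have h1 : (h / ι b) ^ p = 1 := by
      rw [div_pow, ha, ← hb, map_pow, div_self (pow_ne_zero p hb0)]
    have hζ' : IsPrimitiveRoot (ι ζ) p := hζ.map_of_injective ι.injective
    obtain ⟨i, -, hi⟩ := hζ'.eq_pow_of_pow_eq_one h1
    refine ⟨ζ ^ i * b, ?_⟩
    rw [map_mul, map_pow, hi]
    field_simp

include hp hζ ha hh in
theorem irreducible_cov : Irreducible (X ^ p - C a : K[X]) :=
  X_pow_sub_C_irreducible_of_prime hp (not_pow_of_not_mem ι h hp hζ ha hh)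

include ha in
theorem covGen_pow :
    letI := covAlgebra ι h
    (covGen ι h) ^ p = algebraMap K ↥(cov ι h) a := by
  letI := covAlgebra ι h
  exact Subtype.ext ha

include hp hζ ha in
theorem isSplittingField_cov :
    letI := covAlgebra ι h
    IsSplittingField K ↥(cov ι h) (X ^ p - C a : K[X]) := by
  letI := covAlgebra ι h
  have hα := covGen_pow ι h ha
  have hint : IsIntegral K (covGen ι h) :=
    ⟨X ^ p - C a, monic_X_pow_sub_C a hp.ne_zero, by
      rw [eval₂_sub, eval₂_X_pow, eval₂_C, hα, sub_self]⟩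
  constructor
  · rw [Polynomial.map_sub, Polynomial.map_pow, Polynomial.map_C, Polynomial.map_X]
    exact X_pow_sub_C_splits_of_isPrimitiveRoot
      (hζ.map_of_injective (algebraMap K ↥(cov ι h)).injective) hα
  · rw [eq_top_iff, ← IntermediateField.top_toSubalgebra, ← adjoin_covGen ι h,
      IntermediateField.adjoin_simple_toSubalgebra_of_isAlgebraic hint.isAlgebraic]
    apply Algebra.adjoin_mono
    rw [Set.singleton_subset_iff, mem_rootSet_of_ne (X_pow_sub_C_ne_zero hp.pos a),
      aeval_def, eval₂_sub, eval₂_X_pow, eval₂_C, hα, sub_self]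

include hp hζ ha in
theorem finiteDimensional_cov :
    letI := covAlgebra ι h
    FiniteDimensional K ↥(cov ι h) := by
  letI := covAlgebra ι h
  haveI := isSplittingField_cov ι h hp hζ ha
  exact Polynomial.IsSplittingField.finiteDimensional ↥(cov ι h) (X ^ p - C a : K[X])

include hp hζ ha hh in
theorem isGalois_cov :
    letI := covAlgebra ι h
    IsGalois K ↥(cov ι h) := by
  letI := covAlgebra ι h
  haveI := isSplittingField_cov ι h hp hζ ha
  exact isGalois_of_isSplittingField_X_pow_sub_C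
    ⟨ζ, (mem_primitiveRoots hp.pos).mpr hζ⟩ (irreducible_cov ι h hp hζ ha hh) ↥(cov ι h)

/-- **The deck transformation** `h ↦ ζ h` of the cover. -/
def covDeck :
    letI := covAlgebra ι h
    ↥(cov ι h) ≃ₐ[K] ↥(cov ι h) :=
  letI := covAlgebra ι h
  haveI := isSplittingField_cov ι h hp hζ ha
  haveI : NeZero p := ⟨hp.ne_zero⟩
  (autEquivZmod (irreducible_cov ι h hp hζ ha hh) ↥(cov ι h) hζ).symm
    (Multiplicative.ofAdd (1 : ZMod p))

theorem covDeck_gen :
    letI := covAlgebra ι h
    covDeck ι h hp hζ ha hh (covGen ι h) = covMap ι h ζ * covGen ι h := by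
  letI := covAlgebra ι h
  haveI := isSplittingField_cov ι h hp hζ ha
  haveI : NeZero p := ⟨hp.ne_zero⟩
  have h1 := autEquivZmod_symm_apply_natCast (irreducible_cov ι h hp hζ ha hh) ↥(cov ι h)
    (covGen_pow ι h ha) hζ 1
  rw [Nat.cast_one, pow_one, Algebra.smul_def] at h1
  exact h1

theorem coe_covDeck_gen :
    letI := covAlgebra ι h
    ((covDeck ι h hp hζ ha hh (covGen ι h) : ↥(cov ι h)) : Ω) = ι ζ * h := by
  letI := covAlgebra ι h
  rw [covDeck_gen]
  rfl

/-- **The deck transformation generates the Galois group.** -/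
theorem exists_pow_eq_covDeck :
    letI := covAlgebra ι h
    ∀ g : ↥(cov ι h) ≃ₐ[K] ↥(cov ι h), ∃ j : ℕ, g = covDeck ι h hp hζ ha hh ^ j := by
  letI := covAlgebra ι h
  haveI := isSplittingField_cov ι h hp hζ ha
  haveI : NeZero p := ⟨hp.ne_zero⟩
  intro g
  set e := autEquivZmod (irreducible_cov ι h hp hζ ha hh) ↥(cov ι h) hζ with he
  refine ⟨(Multiplicative.toAdd (e g)).val, ?_⟩
  apply e.injective
  rw [map_pow]
  have h1 : e (covDeck ι h hp hζ ha hh) = Multiplicative.ofAdd (1 : ZMod p) := by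
    unfold covDeck
    exact e.apply_symm_apply _
  rw [h1, ← ofAdd_nsmul, nsmul_eq_mul, mul_one, ZMod.natCast_zmod_val]
  rfl

/-- Every ring homomorphism `cov ι h → Ω` which is the inclusion on `ι(K)` and maps `h` to
`ι(ζ) h` is the deck transformation. -/
theorem covDeck_eq_of_ringHom (f : ↥(cov ι h) →+* Ω) (h1 : ∀ x : K, f (covMap ι h x) = ι x)
    (h2 : f (covGen ι h) = ι ζ * h) (z : ↥(cov ι h)) :
    letI := covAlgebra ι h
    ((covDeck ι h hp hζ ha hh z : ↥(cov ι h)) : Ω) = f z := by
  letI := covAlgebra ι h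
  have key : ((cov ι h).subtype).comp
      ((covDeck ι h hp hζ ha hh : ↥(cov ι h) ≃ₐ[K] ↥(cov ι h)) : ↥(cov ι h) →+* ↥(cov ι h)) = f := by
    apply covHom_ext
    · intro x
      rw [h1 x]
      show ((covDeck ι h hp hζ ha hh (algebraMap K ↥(cov ι h) x) : ↥(cov ι h)) : Ω) = ι x
      rw [AlgEquiv.commutes]
      rfl
    · rw [h2]
      exact coe_covDeck_gen ι h hp hζ ha hh
  exact congrArg (fun φ : ↥(cov ι h) →+* Ω => φ z) key

end Kummer

end Fermat.Agent.Ribet.H712.Frame

end

end
-- ===== PACK-END Ribet/H712/FrameCover.lean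

-- ===== PACK-BEGIN Ribet/H819/PerDeckAbs.lean
section


/-!
# Row 38, WALL-p, crux (I6), leaf INST-D — Kummer extensions of prime degree inside a field
# (helper819; Mathlib only)

`Ω` a field, `B ≤ Ω` a subfield, `ζ ∈ B` a primitive `p`-th root of unity (`p` prime),
`h ∈ Ω` with `h ^ p ∈ B`, `h ∉ B`.  For `M = B(h) = IntermediateField.adjoin B {h}`:

* `kummer_irreducible_h819` : `X ^ p - h ^ p` is irreducible over `B`;
* `kummer_finrank_h819`     : `[M : B] = p`;
* `kummer_adjoin_gen_h819`  : `B(gen) = ⊤` in `M`;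
* `kummer_isGalois_h819`    : `M / B` is Galois;
* `kummer_mem_zpowers_h819` : an automorphism `τ` with `τ h = ζ h` generates `Gal(M / B)`;
* `kummer_pow_eq_one_h819`  : `τ ^ p = 1`.
-/

set_option autoImplicit false
set_option linter.unusedSectionVars false
set_option linter.style.haveILetI false

noncomputable section

namespace Fermat.Agent.Ribet.H819

open Polynomial

section Kummer

variable {Ω : Type*} [Field Ω] (B : Subfield Ω) {p : ℕ} (hp : p.Prime) {ζ : Ω}
  (hζ : IsPrimitiveRoot ζ p) (hζB : ζ ∈ B) {h : Ω} (hhp : h ^ p ∈ B) (hhB : h ∉ B)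

include hp hζ hζB hhB in
theorem kummer_irreducible_h819 :
    Irreducible (X ^ p - C (⟨h ^ p, hhp⟩ : ↥B) : Polynomial ↥B) := by
  have hh0 : h ≠ 0 := fun h0 => hhB (h0 ▸ B.zero_mem)
  apply X_pow_sub_C_irreducible_of_prime hp
  intro b hb
  have hb' : (b : Ω) ^ p = h ^ p := by
    have := congrArg (fun z : ↥B => (z : Ω)) hb
    simpa using this
  have hb0 : (b : Ω) ≠ 0 := by
    intro h0
    rw [h0, zero_pow hp.ne_zero] at hb'
    exact pow_ne_zero p hh0 hb'.symm
  have h1 : (h / (b : Ω)) ^ p = 1 := by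
    rw [div_pow, hb', div_self (pow_ne_zero p hh0)]
  haveI : NeZero p := ⟨hp.ne_zero⟩
  obtain ⟨i, -, hi⟩ := hζ.eq_pow_of_pow_eq_one h1
  apply hhB
  have : h = ζ ^ i * (b : Ω) := by
    rw [hi]
    field_simp
  rw [this]
  exact B.mul_mem (B.pow_mem hζB i) b.2

theorem kummer_aeval_h819 :
    aeval h (X ^ p - C (⟨h ^ p, hhp⟩ : ↥B) : Polynomial ↥B) = 0 := by
  rw [map_sub, map_pow, aeval_X, aeval_C]
  exact sub_self (h ^ p)

include hp hhp in
theorem kummer_isIntegral_h819 : IsIntegral ↥B h :=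
  ⟨X ^ p - C (⟨h ^ p, hhp⟩ : ↥B), monic_X_pow_sub_C _ hp.ne_zero, kummer_aeval_h819 B hhp⟩

include hp hζ hζB hhB in
theorem kummer_minpoly_h819 : minpoly ↥B h = X ^ p - C (⟨h ^ p, hhp⟩ : ↥B) :=
  (minpoly.eq_of_irreducible_of_monic (kummer_irreducible_h819 B hp hζ hζB hhp hhB)
    (kummer_aeval_h819 B hhp) (monic_X_pow_sub_C _ hp.ne_zero)).symm

include hp hζ hζB hhp hhB in
theorem kummer_finrank_h819 :
    Module.finrank ↥B ↥(IntermediateField.adjoin ↥B ({h} : Set Ω)) = p := by
  rw [IntermediateField.adjoin.finrank (kummer_isIntegral_h819 B hp hhp),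
    kummer_minpoly_h819 B hp hζ hζB hhp hhB, natDegree_X_pow_sub_C]

include hp hhp in
theorem kummer_finiteDimensional_h819 :
    FiniteDimensional ↥B ↥(IntermediateField.adjoin ↥B ({h} : Set Ω)) :=
  IntermediateField.adjoin.finiteDimensional (kummer_isIntegral_h819 B hp hhp)

include hp hhp in
/-- The generator generates. -/
theorem kummer_adjoin_gen_h819 :
    IntermediateField.adjoin ↥B
      ({IntermediateField.AdjoinSimple.gen ↥B h} :
        Set ↥(IntermediateField.adjoin ↥B ({h} : Set Ω))) = ⊤ := by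
  apply IntermediateField.adjoin_eq_top_of_algebra
  have := (IntermediateField.adjoin.powerBasis (kummer_isIntegral_h819 B hp hhp)).adjoin_gen_eq_top
  rwa [IntermediateField.adjoin.powerBasis_gen] at this

include hp hζ hζB hhp hhB in
/-- `B(h) / B` is Galois. -/
theorem kummer_isGalois_h819 :
    IsGalois ↥B ↥(IntermediateField.adjoin ↥B ({h} : Set Ω)) := by
  haveI := kummer_finiteDimensional_h819 B hp hhp
  have hfr := kummer_finrank_h819 B hp hζ hζB hhp hhB
  have hζ' : IsPrimitiveRoot (⟨ζ, hζB⟩ : ↥B) p := by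
    have : IsPrimitiveRoot (B.subtype (⟨ζ, hζB⟩ : ↥B)) p := hζ
    exact this.of_map_of_injective B.subtype.injective
  have hK : (primitiveRoots p ↥B).Nonempty :=
    ⟨⟨ζ, hζB⟩, (mem_primitiveRoots hp.pos).mpr hζ'⟩
  have hgen : (IntermediateField.AdjoinSimple.gen ↥B h) ^ p =
      algebraMap ↥B ↥(IntermediateField.adjoin ↥B ({h} : Set Ω)) (⟨h ^ p, hhp⟩ : ↥B) :=
    Subtype.ext rfl
  haveI : IsSplittingField ↥B ↥(IntermediateField.adjoin ↥B ({h} : Set Ω))
      (X ^ p - C (⟨h ^ p, hhp⟩ : ↥B)) := by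
    have := isSplittingField_X_pow_sub_C_of_root_adjoin_eq_top
      (K := ↥B) (L := ↥(IntermediateField.adjoin ↥B ({h} : Set Ω)))
      (by rw [hfr]; exact hK) (a := (⟨h ^ p, hhp⟩ : ↥B))
      (α := IntermediateField.AdjoinSimple.gen ↥B h) (by rw [hfr]; exact hgen)
      (kummer_adjoin_gen_h819 B hp hhp)
    rwa [hfr] at this
  exact isGalois_of_isSplittingField_X_pow_sub_C hK
    (kummer_irreducible_h819 B hp hζ hζB hhp hhB) _

include hp hhp in
/-- Two `B`-algebra homomorphisms on `B(h)` which agree at `h` are equal. -/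
theorem kummer_algHom_ext_h819 {A : Type*} [Ring A] [Algebra ↥B A]
    (f g : ↥(IntermediateField.adjoin ↥B ({h} : Set Ω)) →ₐ[↥B] A)
    (hh : f (IntermediateField.AdjoinSimple.gen ↥B h) =
      g (IntermediateField.AdjoinSimple.gen ↥B h)) : f = g :=
  (IntermediateField.adjoin.powerBasis (kummer_isIntegral_h819 B hp hhp)).algHom_ext hh

variable (τ : ↥(IntermediateField.adjoin ↥B ({h} : Set Ω)) ≃ₐ[↥B]
    ↥(IntermediateField.adjoin ↥B ({h} : Set Ω)))
  (hτ : ((τ (IntermediateField.AdjoinSimple.gen ↥B h) :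
    ↥(IntermediateField.adjoin ↥B ({h} : Set Ω))) : Ω) = ζ * h)

include hζB hτ in
theorem kummer_pow_gen_h819 (j : ℕ) :
    (((τ ^ j) (IntermediateField.AdjoinSimple.gen ↥B h) :
      ↥(IntermediateField.adjoin ↥B ({h} : Set Ω))) : Ω) = ζ ^ j * h := by
  induction j with
  | zero => simp
  | succ j ih =>
    rw [pow_succ', AlgEquiv.mul_apply]
    have e : (τ ^ j) (IntermediateField.AdjoinSimple.gen ↥B h) =
        algebraMap ↥B ↥(IntermediateField.adjoin ↥B ({h} : Set Ω)) (⟨ζ, hζB⟩ ^ j) *
          IntermediateField.AdjoinSimple.gen ↥B h := Subtype.ext (by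
      rw [ih]
      rfl)
    rw [e, map_mul, AlgEquiv.commutes]
    show ζ ^ j * ((τ (IntermediateField.AdjoinSimple.gen ↥B h) :
      ↥(IntermediateField.adjoin ↥B ({h} : Set Ω))) : Ω) = ζ ^ (j + 1) * h
    rw [hτ]
    ring

include hp hζ hζB hhp hhB hτ in
/-- **`τ` generates the Galois group.** -/
theorem kummer_exists_pow_h819
    (g : ↥(IntermediateField.adjoin ↥B ({h} : Set Ω)) ≃ₐ[↥B]
      ↥(IntermediateField.adjoin ↥B ({h} : Set Ω))) :
    ∃ j : ℕ, j < p ∧ g = τ ^ j := by
  have hh0 : h ≠ 0 := fun h0 => hhB (h0 ▸ B.zero_mem)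
  have hgp : (g (IntermediateField.AdjoinSimple.gen ↥B h)) ^ p =
      (IntermediateField.AdjoinSimple.gen ↥B h) ^ p := by
    have h1 : (IntermediateField.AdjoinSimple.gen ↥B h) ^ p =
        algebraMap ↥B ↥(IntermediateField.adjoin ↥B ({h} : Set Ω)) (⟨h ^ p, hhp⟩ : ↥B) :=
      Subtype.ext rfl
    rw [← map_pow, h1, g.commutes]
  have h1 : (((g (IntermediateField.AdjoinSimple.gen ↥B h) :
      ↥(IntermediateField.adjoin ↥B ({h} : Set Ω))) : Ω) / h) ^ p = 1 := by
    have := congrArg (fun z : ↥(IntermediateField.adjoin ↥B ({h} : Set Ω)) => (z : Ω)) hgp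
    simp only [IntermediateField.coe_pow, IntermediateField.AdjoinSimple.coe_gen] at this
    rw [div_pow, this, div_self (pow_ne_zero p hh0)]
  haveI : NeZero p := ⟨hp.ne_zero⟩
  obtain ⟨j, hj, hi⟩ := hζ.eq_pow_of_pow_eq_one h1
  refine ⟨j, hj, ?_⟩
  have key : g.toAlgHom = (τ ^ j).toAlgHom := by
    apply kummer_algHom_ext_h819 B hp hhp
    show g (IntermediateField.AdjoinSimple.gen ↥B h) =
      (τ ^ j) (IntermediateField.AdjoinSimple.gen ↥B h)
    apply Subtype.ext
    rw [kummer_pow_gen_h819 B hζB τ hτ j, hi]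
    field_simp [hh0]
  exact AlgEquiv.ext fun z =>
    congrArg (fun f : ↥(IntermediateField.adjoin ↥B ({h} : Set Ω)) →ₐ[↥B]
      ↥(IntermediateField.adjoin ↥B ({h} : Set Ω)) => f z) key

include hp hζ hζB hhp hhB hτ in
theorem kummer_mem_zpowers_h819
    (g : ↥(IntermediateField.adjoin ↥B ({h} : Set Ω)) ≃ₐ[↥B]
      ↥(IntermediateField.adjoin ↥B ({h} : Set Ω))) :
    g ∈ Subgroup.zpowers τ := by
  obtain ⟨j, -, hj⟩ := kummer_exists_pow_h819 B hp hζ hζB hhp hhB τ hτ g
  exact Subgroup.mem_zpowers_iff.mpr ⟨(j : ℤ), by rw [zpow_natCast, hj]⟩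

include hp hζ hζB hhp hτ in
theorem kummer_pow_eq_one_h819 : τ ^ p = 1 := by
  have key : (τ ^ p).toAlgHom =
      AlgHom.id ↥B ↥(IntermediateField.adjoin ↥B ({h} : Set Ω)) := by
    apply kummer_algHom_ext_h819 B hp hhp
    show (τ ^ p) (IntermediateField.AdjoinSimple.gen ↥B h) =
      IntermediateField.AdjoinSimple.gen ↥B h
    apply Subtype.ext
    rw [kummer_pow_gen_h819 B hζB τ hτ p, hζ.pow_eq_one, one_mul]
    rfl
  exact AlgEquiv.ext fun z =>
    congrArg (fun f : ↥(IntermediateField.adjoin ↥B ({h} : Set Ω)) →ₐ[↥B]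
      ↥(IntermediateField.adjoin ↥B ({h} : Set Ω)) => f z) key

end Kummer

end Fermat.Agent.Ribet.H819

end

end
-- ===== PACK-END Ribet/H819/PerDeckAbs.lean

-- ===== PACK-BEGIN Ribet/H708/ConstRoot.lean
section


/-!
# Roots of constants in `k((t))` are constants   (helper708; Mathlib only)

`k` algebraically closed, `y ∈ k((t))` with `y ^ m = c ∈ k` (`m ≠ 0`): then `y ∈ k`.
(The polynomial `X ^ m - c` splits over `k`, and `k((t))` is a domain.)  No hypothesis on the
characteristic.  Used to pass from modulus `p ^ n` to modulus `p` in RED-pow (Q3-pow).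
-/

set_option autoImplicit false

namespace Fermat.Agent.Ribet.H708

open Polynomial

/-- Generic form: in a domain `L` receiving an algebraically closed field `k`, an `m`-th root of a
constant is a constant. -/
theorem h708_const_of_pow_eq_map {k L : Type*} [Field k] [IsAlgClosed k] [CommRing L]
    [IsDomain L] (φ : k →+* L) {m : ℕ} (hm : m ≠ 0) {y : L} {c : k}
    (h : y ^ m = φ c) : ∃ c' : k, c' ^ m = c ∧ y = φ c' := by
  classical
  set P : k[X] := X ^ m - C c with hP
  have hPne : P ≠ 0 := X_pow_sub_C_ne_zero (Nat.pos_of_ne_zero hm) c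
  have hsplit : P.Splits := IsAlgClosed.splits P
  have hroot : (P.map φ).IsRoot y := by
    rw [IsRoot, eval_map, hP]
    simp [h]
  have hmapne : P.map φ ≠ 0 := (Polynomial.map_ne_zero_iff φ.injective).mpr hPne
  have hmem : y ∈ (P.map φ).roots := (mem_roots hmapne).mpr hroot
  rw [hsplit.roots_map] at hmem
  obtain ⟨c', hc', rfl⟩ := Multiset.mem_map.mp hmem
  refine ⟨c', ?_, rfl⟩
  have h2 : P.IsRoot c' := (mem_roots hPne).mp hc'
  rw [IsRoot, hP] at h2
  simpa [sub_eq_zero] using h2

/-- In `k((t))`, `k` algebraically closed: `y ^ m = C c` implies `y = C c'`. -/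
theorem h708_const_of_pow_eq_C {k : Type*} [Field k] [IsAlgClosed k] {m : ℕ} (hm : m ≠ 0)
    {y : LaurentSeries k} {c : k} (h : y ^ m = HahnSeries.C c) :
    ∃ c' : k, c' ^ m = c ∧ y = HahnSeries.C c' :=
  h708_const_of_pow_eq_map (k := k) (L := HahnSeries ℤ k) HahnSeries.C hm h

/-- Quotient form: `u ^ m = C c * v ^ m`, `v ≠ 0` implies `u = C c' * v`. -/
theorem h708_eq_C_mul_of_pow_eq {k : Type*} [Field k] [IsAlgClosed k] {m : ℕ} (hm : m ≠ 0)
    {u v : LaurentSeries k} {c : k} (hv : v ≠ 0) (h : u ^ m = HahnSeries.C c * v ^ m) :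
    ∃ c' : k, c' ^ m = c ∧ u = HahnSeries.C c' * v := by
  have h1 : (u / v) ^ m = HahnSeries.C c := by
    rw [div_pow, h, mul_div_assoc, div_self (pow_ne_zero m hv), mul_one]
  obtain ⟨c', hc', h2⟩ := h708_const_of_pow_eq_C hm h1
  exact ⟨c', hc', by rw [← h2, div_mul_cancel₀ _ hv]⟩

end Fermat.Agent.Ribet.H708

end
-- ===== PACK-END Ribet/H708/ConstRoot.lean

-- ===== PACK-BEGIN A2/Mod/H398/Conv.lean
section


/-!
# A2 / MOD leaf L8 (helper398) — generic conversions (Mathlib only)

* `finrank_adjoin_simple_eq_relfinrank`: `[F : k(x)]` computed inside `F` equals the relative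
  degree `[F : k(x)]` computed inside the ambient field `L`;
* linear independence of the first `n` powers of `a` versus the degree of `a`.
-/

set_option autoImplicit false

noncomputable section

namespace Fermat.Agent.A2.Mod.H398

open IntermediateField Polynomial

section Conv

variable {k L : Type*} [Field k] [Field L] [Algebra k L]

theorem map_val_adjoin_simple (F : IntermediateField k L) (x : F) :
    (k⟮x⟯).map F.val = k⟮(x : L)⟯ := by
  rw [IntermediateField.adjoin_map, Set.image_singleton]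
  rfl

/-- `[F : k(x)]`, computed in `F`, is the relative degree computed in `L`. -/
theorem finrank_adjoin_simple_eq_relfinrank (F : IntermediateField k L) (x : F) :
    Module.finrank k⟮x⟯ F = (k⟮(x : L)⟯).relfinrank F := by
  rw [← relfinrank_top_right, ← relfinrank_map_map (k⟮x⟯) ⊤ F.val, map_val_adjoin_simple,
    ← AlgHom.fieldRange_eq_map, fieldRange_val]

theorem finiteDimensional_adjoin_simple_of_relfinrank_ne_zero (F : IntermediateField k L) (x : F)
    (h : (k⟮(x : L)⟯).relfinrank F ≠ 0) : FiniteDimensional k⟮x⟯ F := by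
  rw [← finrank_adjoin_simple_eq_relfinrank] at h
  exact Module.finite_of_finrank_pos (Nat.pos_of_ne_zero h)

end Conv

section Pow

variable {F L : Type*} [Field F] [Field L] [Algebra F L]

theorem linearIndependent_pow_of_le {a : L} {n : ℕ}
    (hn : n ≤ (minpoly F a).natDegree) :
    LinearIndependent F (fun i : Fin n => a ^ (i : ℕ)) := by
  have h := linearIndependent_pow (K := F) a
  exact h.comp (Fin.castLE hn) (Fin.castLE_injective hn)

theorem le_natDegree_of_linearIndependent_pow {a : L} (ha : IsIntegral F a) {n : ℕ}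
    (h : LinearIndependent F (fun i : Fin n => a ^ (i : ℕ))) :
    n ≤ (minpoly F a).natDegree := by
  by_contra hlt
  rw [not_le] at hlt
  rw [Fintype.linearIndependent_iff] at h
  have h1 : ∑ i : Fin n, (minpoly F a).coeff i • a ^ (i : ℕ) = 0 := by
    rw [Fin.sum_univ_eq_sum_range (fun i => (minpoly F a).coeff i • a ^ i) n,
      ← aeval_eq_sum_range' hlt, minpoly.aeval]
  have h2 := h (fun i => (minpoly F a).coeff i) h1 ⟨(minpoly F a).natDegree, hlt⟩
  have h3 : (minpoly F a).leadingCoeff = 0 := h2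
  rw [(minpoly.monic ha).leadingCoeff] at h3
  exact one_ne_zero h3

theorem isIntegral_of_not_linearIndependent_pow {a : L} {n : ℕ}
    (h : ¬ LinearIndependent F (fun i : Fin n => a ^ (i : ℕ))) : IsIntegral F a := by
  by_contra hint
  apply h
  have htr : Transcendental F a := fun halg => hint halg.isIntegral
  rw [Fintype.linearIndependent_iff]
  intro g hg i
  have h1 : aeval a (∑ i : Fin n, C (g i) * X ^ (i : ℕ)) = 0 := by
    rw [map_sum, ← hg]
    refine Finset.sum_congr rfl fun i _ => ?_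
    rw [map_mul, aeval_C, map_pow, aeval_X, Algebra.smul_def]
  have h2 := (transcendental_iff.mp htr) _ h1
  have h3 := congrArg (fun p : F[X] => p.coeff i) h2
  simp only [finsetSum_coeff, coeff_C_mul, coeff_X_pow, coeff_zero] at h3
  rw [Finset.sum_eq_single i] at h3
  · simpa using h3
  · intro j _ hji
    rw [if_neg, mul_zero]
    intro h4
    exact hji (Fin.ext h4.symm)
  · intro hi
    exact absurd (Finset.mem_univ i) hi

end Pow

end Fermat.Agent.A2.Mod.H398

end

end
-- ===== PACK-END A2/Mod/H398/Conv.lean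

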