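import Mathlib
import Fermat.Prelude.Def_AlgebraicCurve_DivisorClassGroup
import Fermat.Prelude.Def_ModularCurve_ReductionModL
import Fermat.Prelude.Def_ModularCurve_X0ModL
import Fermat.Agent.Pack.S44C.G0E2L2
import Fermat.Agent.Pack.S44C.G0E2L1
import Fermat.Agent.Pack.S44C.G0E2L3
import Fermat.Agent.Pack.S44C.G0E3L1
import Fermat.Agent.Pack.S44C.G0E3L2
import Fermat.Agent.Pack.S44C.G1E0L0
import Fermat.Agent.Pack.S44C.G0E3L0
import Fermat.Agent.Pack.S44C.G0E1L0
import Fermat.Agent.Pack.S44C.G0E0L3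
import Fermat.Agent.Pack.S44C.G0E7L0
import Fermat.Agent.Pack.Fast891

-- ===== PACK-BEGIN S18/H214/LocalExist.lean
section




/-!
# S18, route K, piece LE ("local existence"): the input `σ₀, σ₁` of the Kummer endgame

One chart (`exists_sigma`): `B` a noetherian integrally closed domain, `F = Frac B`, `ϖ ∈ B` prime,
special fibre regular (`H754.RegularAlong ϖ`, output of b2), `u ≡ 1 mod ϖ` (`H754.OneModPi`),
`m ∣ div u` (`H754.DivisibleDivisor B m u`).  Then there is `σ ∈ F` with
`σ ^ m * u ∈ 1 + ϖ B` and `σ ∈ 1 + ϖ B_(ϖ)`.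
-/

set_option autoImplicit false

namespace Fermat.Agent.S18.H214

open Fermat.Agent.S18.H754

section LocalRing

variable {B : Type*} [CommRing B] [IsDomain B]

/-- The image of a prime element `ϖ ∈ 𝔪` in the localisation at `𝔪` is prime. -/
theorem prime_algebraMap_atPrime (ϖ : B) (hϖ : Prime ϖ) (𝔪 : Ideal B) [𝔪.IsPrime]
    (hm : ϖ ∈ 𝔪) : Prime (algebraMap B (Localization.AtPrime 𝔪) ϖ) := by
  have hinj : Function.Injective (algebraMap B (Localization.AtPrime 𝔪)) :=
    IsLocalization.injective (Localization.AtPrime 𝔪) 𝔪.primeCompl_le_nonZeroDivisors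
  have h0 : algebraMap B (Localization.AtPrime 𝔪) ϖ ≠ 0 := by
    rw [Ne, ← map_zero (algebraMap B (Localization.AtPrime 𝔪))]
    exact fun h => hϖ.ne_zero (hinj h)
  rw [← Ideal.span_singleton_prime h0]
  have hp : (Ideal.span {ϖ}).IsPrime := (Ideal.span_singleton_prime hϖ.ne_zero).2 hϖ
  have hd : Disjoint (𝔪.primeCompl : Set B) (Ideal.span {ϖ} : Ideal B) := by
    rw [Set.disjoint_left]
    intro x hx hx'
    exact hx ((Ideal.span_singleton_le_iff_mem 𝔪).2 hm hx')
  have := IsLocalization.isPrime_of_isPrime_disjoint 𝔪.primeCompl (Localization.AtPrime 𝔪)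
    (Ideal.span {ϖ}) hp hd
  rwa [Ideal.map_span, Set.image_singleton] at this

/-- Divisibility by `ϖ` descends from the localisation at `𝔪 ∋ ϖ`. -/
theorem dvd_of_algebraMap_dvd_atPrime (ϖ : B) (hϖ : Prime ϖ) (𝔪 : Ideal B) [𝔪.IsPrime]
    (hm : ϖ ∈ 𝔪) (x : B)
    (h : algebraMap B (Localization.AtPrime 𝔪) ϖ ∣ algebraMap B (Localization.AtPrime 𝔪) x) :
    ϖ ∣ x := by
  have hinj : Function.Injective (algebraMap B (Localization.AtPrime 𝔪)) :=
    IsLocalization.injective (Localization.AtPrime 𝔪) 𝔪.primeCompl_le_nonZeroDivisors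
  obtain ⟨y, hy⟩ := h
  obtain ⟨b, r, rfl⟩ := IsLocalization.exists_mk'_eq 𝔪.primeCompl y
  have h1 : algebraMap B (Localization.AtPrime 𝔪) (x * r) =
      algebraMap B (Localization.AtPrime 𝔪) (ϖ * b) := by
    rw [map_mul, map_mul, hy, mul_assoc, IsLocalization.mk'_spec]
  have h2 : x * r = ϖ * b := hinj h1
  have h3 : ϖ ∣ x * r := ⟨b, h2⟩
  rcases hϖ.dvd_or_dvd h3 with h4 | h4
  · exact h4
  · exact absurd (𝔪.mem_of_dvd h4 hm) r.2

/-- b2 output ⟹ the local ring of the special fibre at a closed point is a principal ideal ring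
(a discrete valuation ring or a field). -/
theorem isPrincipalIdealRing_quotient_atPrime [IsNoetherianRing B] (ϖ : B) (hϖ : Prime ϖ)
    (hreg : RegularAlong ϖ) (𝔪 : Ideal B) [h𝔪 : 𝔪.IsMaximal] (hm : ϖ ∈ 𝔪) :
    IsPrincipalIdealRing (Localization.AtPrime 𝔪 ⧸
      Ideal.span {algebraMap B (Localization.AtPrime 𝔪) ϖ}) := by
  set A := Localization.AtPrime 𝔪 with hA
  set ϖA := algebraMap B A ϖ with hϖA
  have hpr : Prime ϖA := prime_algebraMap_atPrime ϖ hϖ 𝔪 hm
  have hI : (Ideal.span {ϖA}).IsPrime := (Ideal.span_singleton_prime hpr.ne_zero).2 hpr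
  have : IsLocalRing (A ⧸ Ideal.span {ϖA}) :=
    IsLocalRing.of_surjective' (Ideal.Quotient.mk (Ideal.span {ϖA})) Ideal.Quotient.mk_surjective
  obtain ⟨t, htm, ht⟩ := hreg 𝔪 h𝔪 hm
  have hϖmax : ϖA ∈ IsLocalRing.maximalIdeal A :=
    (IsLocalization.AtPrime.to_map_mem_maximal_iff A 𝔪 ϖ).2 hm
  have htmax : algebraMap B A t ∈ IsLocalRing.maximalIdeal A :=
    (IsLocalization.AtPrime.to_map_mem_maximal_iff A 𝔪 t).2 htm
  -- the maximal ideal of the quotient is generated by the image of `t`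
  have key : IsLocalRing.maximalIdeal (A ⧸ Ideal.span {ϖA}) =
      Ideal.span {Ideal.Quotient.mk (Ideal.span {ϖA}) (algebraMap B A t)} := by
    apply le_antisymm
    · intro x hx
      obtain ⟨y, rfl⟩ := Ideal.Quotient.mk_surjective x
      have hy : y ∈ IsLocalRing.maximalIdeal A := by
        rw [IsLocalRing.mem_maximalIdeal, mem_nonunits_iff] at hx ⊢
        exact fun hu => hx (hu.map _)
      obtain ⟨b, r, rfl⟩ := IsLocalization.exists_mk'_eq 𝔪.primeCompl y
      rw [IsLocalization.AtPrime.mk'_mem_maximal_iff A 𝔪] at hy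
      obtain ⟨s, hs, hsb⟩ := ht b hy
      obtain ⟨c₁, c₂, hc⟩ := Ideal.mem_span_pair.1 hsb
      have hsu : IsUnit (algebraMap B A s) :=
        (IsLocalization.AtPrime.isUnit_to_map_iff A 𝔪 s).2 hs
      have hru : IsUnit (algebraMap B A r) :=
        (IsLocalization.AtPrime.isUnit_to_map_iff A 𝔪 r).2 r.2
      obtain ⟨su, hsu'⟩ := hsu
      obtain ⟨ru, hru'⟩ := hru
      have e1 : IsLocalization.mk' A b r * algebraMap B A r = algebraMap B A b :=
        IsLocalization.mk'_spec A b r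
      have e2 : algebraMap B A s * algebraMap B A b =
          algebraMap B A c₁ * ϖA + algebraMap B A c₂ * algebraMap B A t := by
        rw [← map_mul, ← hc, map_add, map_mul, map_mul]
      have e3 : IsLocalization.mk' A b r =
          ((su⁻¹ * ru⁻¹ : Aˣ) : A) * algebraMap B A c₁ * ϖA +
            ((su⁻¹ * ru⁻¹ : Aˣ) : A) * algebraMap B A c₂ * algebraMap B A t := by
        have : IsLocalization.mk' A b r * ((su * ru : Aˣ) : A) =
            algebraMap B A c₁ * ϖA + algebraMap B A c₂ * algebraMap B A t := by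
          rw [Units.val_mul, hsu', hru', ← e2, ← e1]; ring
        calc IsLocalization.mk' A b r
            = IsLocalization.mk' A b r * ((su * ru : Aˣ) : A) * ((su⁻¹ * ru⁻¹ : Aˣ) : A) := by
              rw [mul_assoc, ← Units.val_mul]
              have : su * ru * (su⁻¹ * ru⁻¹) = 1 := by
                rw [mul_comm su⁻¹, mul_assoc, ← mul_assoc ru, mul_inv_cancel, one_mul,
                  mul_inv_cancel]
              rw [this, Units.val_one, mul_one]
          _ = _ := by rw [this]; ring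
      refine Ideal.mem_span_singleton'.2
        ⟨Ideal.Quotient.mk (Ideal.span {ϖA}) (((su⁻¹ * ru⁻¹ : Aˣ) : A) * algebraMap B A c₂), ?_⟩
      rw [← map_mul, Ideal.Quotient.eq, Ideal.mem_span_singleton]
      refine ⟨-(((su⁻¹ * ru⁻¹ : Aˣ) : A) * algebraMap B A c₁), ?_⟩
      rw [e3]; ring
    · rw [Ideal.span_singleton_le_iff_mem, IsLocalRing.mem_maximalIdeal, mem_nonunits_iff]
      intro hu
      obtain ⟨e, he⟩ := hu.exists_right_inv
      obtain ⟨e', rfl⟩ := Ideal.Quotient.mk_surjective e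
      have he' : algebraMap B A t * e' - 1 ∈ Ideal.span {ϖA} := by
        rw [← Ideal.Quotient.eq, map_mul, map_one]; exact he
      obtain ⟨d, hd⟩ := Ideal.mem_span_singleton.1 he'
      have h1 : (1 : A) = algebraMap B A t * e' - ϖA * d := by rw [← hd]; ring
      have h2 : (1 : A) ∈ IsLocalRing.maximalIdeal A := by
        rw [h1]
        exact Ideal.sub_mem _ (Ideal.mul_mem_right _ _ htmax) (Ideal.mul_mem_right _ _ hϖmax)
      exact (Ideal.ne_top_iff_one _).1 (IsLocalRing.maximalIdeal.isMaximal A).ne_top h2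
  have hprin : (IsLocalRing.maximalIdeal (A ⧸ Ideal.span {ϖA})).IsPrincipal := ⟨⟨_, key⟩⟩
  exact ((tfae_of_isNoetherianRing_of_isLocalRing_of_isDomain
    (R := A ⧸ Ideal.span {ϖA})).out 0 4).2 hprin

end LocalRing

section LocalData

variable {B : Type*} [CommRing B] [IsDomain B] [IsNoetherianRing B]
  {F : Type*} [Field F] [Algebra B F] [IsFractionRing B F]

/-- **Local data at a closed point of the special fibre**, written without denominators in `B`:
`u = a / s = (b / r) · (t₁ / t₂) ^ m` with `r ∉ 𝔪`, `t₁ ≡ t₂ ≢ 0 mod ϖ`. -/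
theorem exists_local_data (ϖ : B) (hϖ : Prime ϖ) (hreg : RegularAlong ϖ) (m : ℕ) (hm : m ≠ 0)
    (a s : B) (hs : ¬ ϖ ∣ s) (has : ϖ ∣ a - s)
    (u : F) (hu : u * algebraMap B F s = algebraMap B F a)
    (hdiv : DivisibleDivisor B m u)
    (𝔪 : Ideal B) [h𝔪 : 𝔪.IsMaximal] (hm𝔪 : ϖ ∈ 𝔪) :
    ∃ t₁ t₂ b r : B, r ∉ 𝔪 ∧ ¬ ϖ ∣ t₁ ∧ ¬ ϖ ∣ t₂ ∧ ϖ ∣ t₁ - t₂ ∧
      a * t₂ ^ m * r = b * s * t₁ ^ m := by
  classical
  set A := Localization.AtPrime 𝔪 with hA
  set f := algebraMap B A with hf
  have hinj : Function.Injective f :=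
    IsLocalization.injective A 𝔪.primeCompl_le_nonZeroDivisors
  have hinjF : Function.Injective (algebraMap B F) := IsFractionRing.injective B F
  have ha : ¬ ϖ ∣ a := by
    intro h
    apply hs
    have := dvd_sub h has
    rwa [sub_sub_cancel] at this
  have hpr : Prime (f ϖ) := prime_algebraMap_atPrime ϖ hϖ 𝔪 hm𝔪
  have hI : (Ideal.span {f ϖ}).IsPrime := (Ideal.span_singleton_prime hpr.ne_zero).2 hpr
  have : IsPrincipalIdealRing (A ⧸ Ideal.span {f ϖ}) :=
    isPrincipalIdealRing_quotient_atPrime ϖ hϖ hreg 𝔪 hm𝔪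
  have : UniqueFactorizationMonoid A :=
    ufd_of_quotient_isPrincipalIdealRing (f ϖ) hpr.ne_zero hpr.not_isUnit hI
  have hndvd : ∀ x : B, ¬ ϖ ∣ x → ¬ f ϖ ∣ f x := fun x hx h =>
    hx (dvd_of_algebraMap_dvd_atPrime ϖ hϖ 𝔪 hm𝔪 x h)
  -- the hypothesis of `local_kummer_structure`
  have hloc : ∀ π : A, Prime π → ¬ Associated π (f ϖ) → ∃ a' s' z₁ z₂ : A, ¬ π ∣ a' ∧ ¬ π ∣ s' ∧
      z₁ ≠ 0 ∧ z₂ ≠ 0 ∧ f a * s' * z₂ ^ m = a' * f s * z₁ ^ m := by
    intro π hπ _
    have hπI : (Ideal.span {π}).IsPrime := (Ideal.span_singleton_prime hπ.ne_zero).2 hπ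
    set 𝔭 : Ideal B := (Ideal.span {π}).under B with h𝔭
    have h𝔭prime : 𝔭.IsPrime := Ideal.IsPrime.under B (Ideal.span {π})
    have hht : 𝔭.height = 1 := by
      rw [h𝔭, IsLocalization.height_under 𝔪.primeCompl]
      exact Ideal.height_span_singleton_eq_one_of_mem_nonZeroDivisors
        (mem_nonZeroDivisors_of_ne_zero hπ.ne_zero) hπ.not_isUnit
    obtain ⟨t, a', s', ha', hs', heq⟩ := hdiv 𝔭 h𝔭prime hht
    have hmem : ∀ x : B, x ∉ 𝔭 → ¬ π ∣ f x := by
      intro x hx hd
      apply hx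
      rw [h𝔭, Ideal.under_def, Ideal.mem_comap, Ideal.mem_span_singleton]
      exact hd
    obtain ⟨n, d, hd, rfl⟩ := IsFractionRing.div_surjective B t
    have hd0 : d ≠ 0 := nonZeroDivisors.ne_zero hd
    have hdF : algebraMap B F d ≠ 0 := fun h => hd0 (hinjF (by rw [h, map_zero]))
    have hs0 : s ≠ 0 := fun h => hs (h ▸ dvd_zero ϖ)
    have hsF : algebraMap B F s ≠ 0 := fun h => hs0 (hinjF (by rw [h, map_zero]))
    have ha'0 : a' ≠ 0 := fun h => ha' (h ▸ 𝔭.zero_mem)
    -- the identity in `B`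
    have key : a * s' * n ^ m = a' * s * d ^ m := by
      apply hinjF
      simp only [map_mul, map_pow]
      have hu' : u = algebraMap B F a / algebraMap B F s := by
        rw [eq_div_iff hsF]; exact hu
      rw [hu', div_pow] at heq
      field_simp at heq
      linear_combination heq
    have hn0 : n ≠ 0 := by
      rintro rfl
      rw [zero_pow hm, mul_zero] at key
      have := key.symm
      rcases mul_eq_zero.1 this with h | h
      · rcases mul_eq_zero.1 h with h | h
        · exact ha'0 h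
        · exact hs0 h
      · exact hd0 (pow_eq_zero_iff hm |>.1 h)
    refine ⟨f a', f s', f d, f n, hmem a' ha', hmem s' hs', ?_, ?_, ?_⟩
    · exact fun h => hd0 (hinj (by rw [h, map_zero]))
    · exact fun h => hn0 (hinj (by rw [h, map_zero]))
    · rw [← map_pow, ← map_pow, ← map_mul, ← map_mul, ← map_mul, ← map_mul, key]
  obtain ⟨c, t₁, t₂, ht₁, ht₂, ht₁₂, -, heq⟩ :=
    local_kummer_structure (f ϖ) hpr m hm (f a) (f s) (hndvd a ha) (hndvd s hs)
      (by rw [← map_sub]; exact map_dvd f has) hloc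
  -- clear denominators
  obtain ⟨b₁, r₁, rfl⟩ := IsLocalization.exists_mk'_eq 𝔪.primeCompl t₁
  obtain ⟨b₂, r₂, rfl⟩ := IsLocalization.exists_mk'_eq 𝔪.primeCompl t₂
  obtain ⟨bc, rc, hc⟩ := IsLocalization.exists_mk'_eq 𝔪.primeCompl (c : A)
  have e₁ : f (b₁ * r₂) = IsLocalization.mk' A b₁ r₁ * (f r₁ * f r₂) := by
    rw [map_mul, ← mul_assoc, IsLocalization.mk'_spec]
  have e₂ : f (b₂ * r₁) = IsLocalization.mk' A b₂ r₂ * (f r₁ * f r₂) := by
    rw [map_mul, mul_comm (f r₁), ← mul_assoc, IsLocalization.mk'_spec]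
  have ec : (c : A) * f rc = f bc := by rw [← hc, IsLocalization.mk'_spec]
  have hr₁u : IsUnit (f r₁) := (IsLocalization.AtPrime.isUnit_to_map_iff A 𝔪 r₁).2 r₁.2
  have hr₂u : IsUnit (f r₂) := (IsLocalization.AtPrime.isUnit_to_map_iff A 𝔪 r₂).2 r₂.2
  have hru : IsUnit (f r₁ * f r₂) := hr₁u.mul hr₂u
  refine ⟨b₁ * r₂, b₂ * r₁, bc, rc, rc.2, ?_, ?_, ?_, ?_⟩
  · intro h
    have h1 : f ϖ ∣ IsLocalization.mk' A b₁ r₁ * (f r₁ * f r₂) := by
      rw [← e₁]; exact map_dvd f h
    exact ht₁ ((hru.dvd_mul_right).1 h1)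
  · intro h
    have h1 : f ϖ ∣ IsLocalization.mk' A b₂ r₂ * (f r₁ * f r₂) := by
      rw [← e₂]; exact map_dvd f h
    exact ht₂ ((hru.dvd_mul_right).1 h1)
  · apply dvd_of_algebraMap_dvd_atPrime ϖ hϖ 𝔪 hm𝔪
    rw [map_sub]
    show f ϖ ∣ f (b₁ * r₂) - f (b₂ * r₁)
    rw [e₁, e₂, ← sub_mul]
    exact Dvd.dvd.mul_right ht₁₂ _
  · apply hinj
    rw [map_mul, map_mul, map_mul, map_mul, map_pow, map_pow, e₁, e₂, ← ec]
    have : f a * IsLocalization.mk' A b₂ r₂ ^ m =
        (c : A) * f s * IsLocalization.mk' A b₁ r₁ ^ m := heq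
    rw [mul_pow, mul_pow]
    linear_combination (f r₁ * f r₂) ^ m * f rc * this

omit [IsNoetherianRing B] in
/-- Elements `σ` with `σ ^ m * u ∈ B` are closed under addition (`B` integrally closed). -/
theorem exists_add_pow_mul_eq [IsIntegrallyClosed B] (m : ℕ) (hm : m ≠ 0) (u σ₁ σ₂ : F)
    (b₁ b₂ : B) (h₁ : σ₁ ^ m * u = algebraMap B F b₁) (h₂ : σ₂ ^ m * u = algebraMap B F b₂) :
    ∃ b : B, (σ₁ + σ₂) ^ m * u = algebraMap B F b := by
  classical
  have hterm : ∀ k ∈ Finset.range (m + 1), ∃ c : B,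
      σ₁ ^ k * σ₂ ^ (m - k) * u = algebraMap B F c := by
    intro k hk
    have hk' : k ≤ m := Nat.lt_succ_iff.1 (Finset.mem_range.1 hk)
    have hpow : (σ₁ ^ k * σ₂ ^ (m - k) * u) ^ m = algebraMap B F (b₁ ^ k * b₂ ^ (m - k)) := by
      rw [map_mul, map_pow, map_pow, ← h₁, ← h₂]
      have : u ^ m = u ^ k * u ^ (m - k) := by rw [← pow_add, Nat.add_sub_cancel' hk']
      rw [mul_pow, mul_pow, this]
      ring
    have hint : IsIntegral B (σ₁ ^ k * σ₂ ^ (m - k) * u) :=
      IsIntegral.of_pow (Nat.pos_of_ne_zero hm) (hpow ▸ isIntegral_algebraMap)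
    obtain ⟨c, hc⟩ := IsIntegrallyClosed.isIntegral_iff.1 hint
    exact ⟨c, hc.symm⟩
  choose! c hc using hterm
  refine ⟨∑ k ∈ Finset.range (m + 1), c k * (m.choose k : B), ?_⟩
  rw [add_pow, Finset.sum_mul, map_sum]
  refine Finset.sum_congr rfl fun k hk => ?_
  rw [map_mul, ← hc k hk, map_natCast]
  ring

/-- **LE, one chart.**  There is `σ ∈ F` with `σ ^ m * u ∈ 1 + ϖ B` and `σ ∈ 1 + ϖ B_(ϖ)`. -/
theorem exists_sigma [IsIntegrallyClosed B] (ϖ : B) (hϖ : Prime ϖ) (hreg : RegularAlong ϖ)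
    (m : ℕ) (hm : m ≠ 0) (u : F) (hu : OneModPi ϖ u) (hdiv : DivisibleDivisor B m u) :
    ∃ σ : F, (∃ b : B, σ ^ m * u - 1 = algebraMap B F (ϖ * b)) ∧
      ∃ a' s' : B, ¬ ϖ ∣ s' ∧ (σ - 1) * algebraMap B F s' = algebraMap B F (ϖ * a') := by
  classical
  obtain ⟨a, s, hs, has, hus⟩ := hu
  rw [Ideal.mem_span_singleton] at hs has
  have hinjF : Function.Injective (algebraMap B F) := IsFractionRing.injective B F
  have hs0 : s ≠ 0 := fun h => hs (h ▸ dvd_zero ϖ)
  have hsF : algebraMap B F s ≠ 0 := fun h => hs0 (hinjF (by rw [h, map_zero]))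
  -- the ideal of "good" elements
  let Good : B → Prop := fun g => ∃ σ : F, (∃ b : B, σ ^ m * u = algebraMap B F b) ∧
    ∃ a' s' : B, ¬ ϖ ∣ s' ∧ (σ - algebraMap B F g) * algebraMap B F s' = algebraMap B F (ϖ * a')
  let I : Ideal B :=
    { carrier := {g | Good g}
      zero_mem' := by
        refine ⟨0, ⟨0, by rw [zero_pow hm, zero_mul, map_zero]⟩, 0, 1, hϖ.not_dvd_one, ?_⟩
        simp
      add_mem' := by
        rintro g₁ g₂ ⟨σ₁, ⟨b₁, hb₁⟩, a₁, s₁, hs₁, e₁⟩ ⟨σ₂, ⟨b₂, hb₂⟩, a₂, s₂, hs₂, e₂⟩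
        refine ⟨σ₁ + σ₂, exists_add_pow_mul_eq m hm u σ₁ σ₂ b₁ b₂ hb₁ hb₂,
          a₁ * s₂ + a₂ * s₁, s₁ * s₂, ?_, ?_⟩
        · exact fun h => (hϖ.dvd_or_dvd h).elim hs₁ hs₂
        · simp only [map_add, map_mul] at e₁ e₂ ⊢
          linear_combination algebraMap B F s₂ * e₁ + algebraMap B F s₁ * e₂
      smul_mem' := by
        rintro c g ⟨σ, ⟨b, hb⟩, a', s', hs', e⟩
        refine ⟨algebraMap B F c * σ, ⟨c ^ m * b, ?_⟩, c * a', s', hs', ?_⟩
        · rw [mul_pow, mul_assoc, hb, map_mul, map_pow]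
        · simp only [smul_eq_mul, map_mul] at e ⊢
          linear_combination algebraMap B F c * e }
  have hI : ∀ g : B, g ∈ I ↔ Good g := fun g => Iff.rfl
  -- `ϖ ∈ I`
  have hϖI : ϖ ∈ I := by
    obtain ⟨k, rfl⟩ : ∃ k, m = k + 1 := ⟨m - 1, by omega⟩
    refine ⟨algebraMap B F (ϖ * s), ⟨ϖ ^ (k + 1) * s ^ k * a, ?_⟩, s - 1, 1, hϖ.not_dvd_one, ?_⟩
    · simp only [map_mul, map_pow]
      rw [← hus]; ring
    · simp only [map_mul, map_sub, map_one]; ring
  -- `I` is contained in no maximal ideal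
  have htop : I = ⊤ := by
    by_contra hne
    obtain ⟨𝔪, h𝔪, hle⟩ := Ideal.exists_le_maximal I hne
    have hm𝔪 : ϖ ∈ 𝔪 := hle hϖI
    obtain ⟨t₁, t₂, b, r, hr, ht₁, ht₂, ⟨d, hd⟩, heq⟩ :=
      exists_local_data ϖ hϖ hreg m hm a s hs has u hus hdiv 𝔪 hm𝔪
    apply hr
    apply hle
    have ht₁0 : t₁ ≠ 0 := fun h => ht₁ (h ▸ dvd_zero ϖ)
    have ht₁F : algebraMap B F t₁ ≠ 0 := fun h => ht₁0 (hinjF (by rw [h, map_zero]))
    obtain ⟨k, rfl⟩ : ∃ k, m = k + 1 := ⟨m - 1, by omega⟩
    refine ⟨algebraMap B F r * algebraMap B F t₂ / algebraMap B F t₁,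
      ⟨r ^ k * b, ?_⟩, -(r * d), t₁, ht₁, ?_⟩
    · have hu' : u = algebraMap B F a / algebraMap B F s := by
        rw [eq_div_iff hsF]; exact hus
      have heqF := congrArg (algebraMap B F) heq
      simp only [map_mul, map_pow] at heqF ⊢
      rw [hu', div_pow, div_mul_div_comm, div_eq_iff (mul_ne_zero (pow_ne_zero _ ht₁F) hsF)]
      linear_combination (algebraMap B F r) ^ k * heqF
    · have hdF := congrArg (algebraMap B F) hd
      simp only [map_mul, map_sub, map_neg] at hdF ⊢
      rw [sub_mul, div_mul_cancel₀ _ ht₁F]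
      linear_combination (-(algebraMap B F r)) * hdF
  have h1 : (1 : B) ∈ I := by rw [htop]; exact Submodule.mem_top
  obtain ⟨σ, ⟨b, hb⟩, a', s', hs', e⟩ := h1
  rw [map_one] at e
  refine ⟨σ, ?_, a', s', hs', e⟩
  -- `ϖ ∣ b - 1`
  obtain ⟨a'', ha''⟩ := has
  have key : b * s' ^ m * s = (s' + ϖ * a') ^ m * a := by
    apply hinjF
    simp only [map_mul, map_pow, map_add]
    rw [← hb, ← hus]
    have : algebraMap B F s' + algebraMap B F ϖ * algebraMap B F a' = σ * algebraMap B F s' := by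
      rw [map_mul] at e
      linear_combination -e
    rw [this]; ring
  have hdvd1 : ϖ ∣ (s' + ϖ * a') ^ m - s' ^ m := by
    have := sub_dvd_pow_sub_pow (s' + ϖ * a') s' m
    rw [add_sub_cancel_left] at this
    exact (Dvd.intro _ rfl).trans this
  have hdvd2 : ϖ ∣ (b - 1) * (s' ^ m * s) := by
    obtain ⟨e₁, he₁⟩ := hdvd1
    refine ⟨e₁ * a + s' ^ m * a'', ?_⟩
    linear_combination key + a * he₁ + s' ^ m * ha''
  have hdvd3 : ϖ ∣ b - 1 := by
    rcases hϖ.dvd_or_dvd hdvd2 with h | h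
    · exact h
    · rcases hϖ.dvd_or_dvd h with h' | h'
      · exact absurd (hϖ.dvd_of_dvd_pow h') hs'
      · exact absurd h' hs
  obtain ⟨b', hb'⟩ := hdvd3
  refine ⟨b', ?_⟩
  rw [hb, ← map_one (algebraMap B F), ← map_sub, hb']

end LocalData

section TwoCharts

variable {R : Type*} [CommRing R] {F : Type*} [Field F] [Algebra R F]

/-- In an `m`-root closed subalgebra, `{σ | σ ^ m * u ∈ M}` is closed under addition. -/
theorem add_pow_mul_mem_of_rootClosed (M : Subalgebra R F) (m : ℕ)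
    (hrc : ∀ f : F, f ^ m ∈ M → f ∈ M) (u σ₁ σ₂ : F)
    (h₁ : σ₁ ^ m * u ∈ M) (h₂ : σ₂ ^ m * u ∈ M) : (σ₁ + σ₂) ^ m * u ∈ M := by
  classical
  rw [add_pow, Finset.sum_mul]
  refine M.sum_mem fun k hk => ?_
  have hk' : k ≤ m := Nat.lt_succ_iff.1 (Finset.mem_range.1 hk)
  have hterm : σ₁ ^ k * σ₂ ^ (m - k) * u ∈ M := by
    apply hrc
    have : (σ₁ ^ k * σ₂ ^ (m - k) * u) ^ m = (σ₁ ^ m * u) ^ k * (σ₂ ^ m * u) ^ (m - k) := by
      have hu : u ^ m = u ^ k * u ^ (m - k) := by rw [← pow_add, Nat.add_sub_cancel' hk']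
      rw [mul_pow, mul_pow, hu]
      ring
    rw [this]
    exact M.mul_mem (M.pow_mem h₁ _) (M.pow_mem h₂ _)
  have : σ₁ ^ k * σ₂ ^ (m - k) * (m.choose k : F) * u =
      (m.choose k : F) * (σ₁ ^ k * σ₂ ^ (m - k) * u) := by ring
  rw [this]
  exact M.mul_mem (natCast_mem M _) hterm

/-- **LE, two charts**: exactly the input `σ₀, σ₁, h₀, h₁, h₀₁` of `H394.kummer_endgame`.

Hypotheses per chart `B ∈ {B₀, B₁}` (as a ring `↥B`): noetherian, integrally closed with fraction
field `F`, `w` prime, special fibre regular (b2), `u ≡ 1 mod w`, `m ∣ div u`.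
On the overlap `M`: `m`-root closed, and saturated (`hsat`: an element `f` with `w f ∈ M` and
`s₀ s₁ f ∈ M` for some `sᵢ ∈ Bᵢ ∖ w Bᵢ` lies in `M`; this is the `q`-expansion principle on `M`). -/
theorem local_existence (m : ℕ) (hm : m ≠ 0) (w : R) (u : F) (B₀ B₁ M : Subalgebra R F)
    (h0M : B₀ ≤ M) (h1M : B₁ ≤ M)
    [IsNoetherianRing B₀] [IsIntegrallyClosed B₀] [IsFractionRing B₀ F]
    [IsNoetherianRing B₁] [IsIntegrallyClosed B₁] [IsFractionRing B₁ F]
    (hw₀ : Prime (algebraMap R B₀ w)) (hw₁ : Prime (algebraMap R B₁ w))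
    (hreg₀ : RegularAlong (algebraMap R B₀ w)) (hreg₁ : RegularAlong (algebraMap R B₁ w))
    (hu₀ : OneModPi (algebraMap R B₀ w) u) (hu₁ : OneModPi (algebraMap R B₁ w) u)
    (hdiv₀ : DivisibleDivisor B₀ m u) (hdiv₁ : DivisibleDivisor B₁ m u)
    (hrcM : ∀ f : F, f ^ m ∈ M → f ∈ M)
    (hsat : ∀ f : F, ∀ s₀ : B₀, ¬ algebraMap R B₀ w ∣ s₀ → ∀ s₁ : B₁, ¬ algebraMap R B₁ w ∣ s₁ →
      (s₀ : F) * (s₁ : F) * f ∈ M → algebraMap R F w * f ∈ M → f ∈ M) :
    ∃ σ₀ σ₁ : F, (∃ b ∈ B₀, σ₀ ^ m * u - 1 = algebraMap R F w * b) ∧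
      (∃ b ∈ B₁, σ₁ ^ m * u - 1 = algebraMap R F w * b) ∧
      ∃ γ : F, σ₀ - σ₁ = algebraMap R F w * γ ∧ γ ^ m * u ∈ M := by
  classical
  obtain ⟨σ₀, ⟨b₀, hb₀⟩, a₀, s₀, hs₀, e₀⟩ := exists_sigma _ hw₀ hreg₀ m hm u hu₀ hdiv₀
  obtain ⟨σ₁, ⟨b₁, hb₁⟩, a₁, s₁, hs₁, e₁⟩ := exists_sigma _ hw₁ hreg₁ m hm u hu₁ hdiv₁
  obtain ⟨a, s, hs, -, hus⟩ := hu₀
  rw [Ideal.mem_span_singleton] at hs
  set W : F := algebraMap R F w with hW
  have hW0 : W ≠ 0 := by
    intro h
    apply hw₀.ne_zero
    apply Subtype.ext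
    exact h
  have hc₀ : ∀ x : B₀, algebraMap B₀ F x = (x : F) := fun _ => rfl
  have hc₁ : ∀ x : B₁, algebraMap B₁ F x = (x : F) := fun _ => rfl
  have hwc₀ : ((algebraMap R B₀ w : B₀) : F) = W := rfl
  have hwc₁ : ((algebraMap R B₁ w : B₁) : F) = W := rfl
  simp only [hc₀, Subalgebra.coe_mul, hwc₀] at hb₀ e₀ hus
  simp only [hc₁, Subalgebra.coe_mul, hwc₁] at hb₁ e₁
  refine ⟨σ₀, σ₁, ⟨b₀, b₀.2, hb₀⟩, ⟨b₁, b₁.2, hb₁⟩, (σ₀ - σ₁) / W, ?_, ?_⟩
  · rw [mul_div_cancel₀ _ hW0]
  -- `f := γ ^ m * u`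
  set f : F := ((σ₀ - σ₁) / W) ^ m * u with hf
  -- (i) `W ^ m * f ∈ M`
  have hσ₀M : σ₀ ^ m * u ∈ M := by
    have : σ₀ ^ m * u = 1 + W * b₀ := by rw [← hb₀]; ring
    rw [this]
    exact M.add_mem M.one_mem (M.mul_mem (M.algebraMap_mem w) (h0M b₀.2))
  have hσ₁M : σ₁ ^ m * u ∈ M := by
    have : σ₁ ^ m * u = 1 + W * b₁ := by rw [← hb₁]; ring
    rw [this]
    exact M.add_mem M.one_mem (M.mul_mem (M.algebraMap_mem w) (h1M b₁.2))
  have hnegM : (-σ₁) ^ m * u ∈ M := by
    rcases Nat.even_or_odd m with h | h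
    · rwa [h.neg_pow]
    · rw [h.neg_pow, neg_mul]; exact M.neg_mem hσ₁M
  have hi : W ^ m * f ∈ M := by
    have h := add_pow_mul_mem_of_rootClosed M m hrcM u σ₀ (-σ₁) hσ₀M hnegM
    have : W ^ m * f = (σ₀ + -σ₁) ^ m * u := by
      rw [hf, div_pow, ← sub_eq_add_neg]
      field_simp
    rw [this]; exact h
  -- (ii) `D * f ∈ M`
  set S₀ : B₀ := s₀ ^ m * s with hS₀
  set S₁ : B₁ := s₁ ^ m with hS₁
  have hS₀' : ¬ algebraMap R B₀ w ∣ S₀ := by
    intro h
    rcases hw₀.dvd_or_dvd h with h' | h'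
    · exact hs₀ (hw₀.dvd_of_dvd_pow h')
    · exact hs h'
  have hS₁' : ¬ algebraMap R B₁ w ∣ S₁ := fun h => hs₁ (hw₁.dvd_of_dvd_pow h)
  have hii : (S₀ : F) * (S₁ : F) * f ∈ M := by
    have hγ : (σ₀ - σ₁) / W * ((s₀ : F) * (s₁ : F)) = (a₀ : F) * s₁ - (a₁ : F) * s₀ := by
      field_simp
      linear_combination (s₁ : F) * e₀ - (s₀ : F) * e₁
    have hS₀c : (S₀ : F) = (s₀ : F) ^ m * (s : F) := by
      rw [hS₀, Subalgebra.coe_mul, Subalgebra.coe_pow]
    have hS₁c : (S₁ : F) = (s₁ : F) ^ m := by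
      rw [hS₁, Subalgebra.coe_pow]
    have : (S₀ : F) * (S₁ : F) * f = ((a₀ : F) * s₁ - (a₁ : F) * s₀) ^ m * (a : F) := by
      rw [← hγ, ← hus, hf, hS₀c, hS₁c, mul_pow, mul_pow]
      ring
    rw [this]
    exact M.mul_mem (M.pow_mem (M.sub_mem (M.mul_mem (h0M a₀.2) (h1M s₁.2))
      (M.mul_mem (h1M a₁.2) (h0M s₀.2))) _) (h0M a.2)
  -- (iii) descend
  have hdesc : ∀ k : ℕ, k ≤ m → W ^ (m - k) * f ∈ M := by
    intro k
    induction k with
    | zero => intro _; simpa using hi
    | succ k ih =>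
      intro hk
      have h1 := ih (Nat.le_of_succ_le hk)
      apply hsat _ S₀ hS₀' S₁ hS₁'
      · have : (S₀ : F) * (S₁ : F) * (W ^ (m - (k + 1)) * f) =
            W ^ (m - (k + 1)) * ((S₀ : F) * (S₁ : F) * f) := by ring
        rw [this]
        exact M.mul_mem (M.pow_mem (M.algebraMap_mem w) _) hii
      · have : W * (W ^ (m - (k + 1)) * f) = W ^ (m - k) * f := by
          rw [← mul_assoc, ← pow_succ']
          congr 2
          omega
        rw [this]; exact h1
  have := hdesc m le_rfl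
  simpa using this

end TwoCharts

end Fermat.Agent.S18.H214

end
-- ===== PACK-END S18/H214/LocalExist.lean

-- ===== PACK-BEGIN S18/H394/KummerFinite.lean
section



/-!
# S18, Route K, pieces b3+b4 (helper394): finiteness of the Kummer chart

If `B` is contained in a finitely generated `R[x]`-submodule of `F` and `u` has a denominator in
`B`, then `kummerSub B` is finitely generated over `R[x]` (in the explicit form consumed by the
two-chart connectedness theorem).
-/

set_option autoImplicit false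

namespace Fermat.Agent.S18.H394

open Polynomial

section Finite

variable {R F C : Type*} [CommRing R] [IsNoetherianRing R] [Field F] [Algebra R F]
  [CommRing C] [Algebra F C] [Algebra R C] [IsScalarTower R F C]

omit [IsNoetherianRing R] [Algebra R C] [IsScalarTower R F C] [CommRing C] [Algebra F C] in
theorem pow_mul_mem_of_mem_degSet {m : ℕ} (hm0 : 0 < m) {u : F} (hu : u ≠ 0)
    {B : Subalgebra R F} (hB : RootClosed m B) {d : F} (hdB : d ∈ B) (hdu : d * u⁻¹ ∈ B)
    {k : ℕ} {f : F} (hf : f ∈ degSet B m u k) : d ^ k * f ∈ B := by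
  apply hB
  obtain ⟨m', rfl⟩ : ∃ m', m = m' + 1 := Nat.exists_eq_succ_of_ne_zero hm0.ne'
  have hf' : f ^ (m' + 1) * u ^ k ∈ B := hf
  have key : (d ^ k * f) ^ (m' + 1) = (d * u⁻¹) ^ k * (d ^ k) ^ m' * (f ^ (m' + 1) * u ^ k) := by
    have hu' : (u⁻¹) ^ k * u ^ k = 1 := by rw [← mul_pow, inv_mul_cancel₀ hu, one_pow]
    calc (d ^ k * f) ^ (m' + 1) = d ^ k * (d ^ k) ^ m' * f ^ (m' + 1) * 1 := by ring
      _ = d ^ k * (d ^ k) ^ m' * f ^ (m' + 1) * ((u⁻¹) ^ k * u ^ k) := by rw [hu']
      _ = (d * u⁻¹) ^ k * (d ^ k) ^ m' * (f ^ (m' + 1) * u ^ k) := by ring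
  rw [key]
  exact B.mul_mem (B.mul_mem (B.pow_mem hdu k) (B.pow_mem (B.pow_mem hdB k) m')) hf'

theorem kummerSub_fg (pb : PowerBasis F C) (u : F) (hu : u ≠ 0)
    (hT : pb.gen ^ pb.dim = algebraMap F C u) (hm0 : 0 < pb.dim)
    (B : Subalgebra R F) (hB : RootClosed pb.dim B)
    (x : F) (hx : x ∈ B)
    (hfin : ∃ s : Finset F, ∀ b ∈ B, ∃ P : F → Polynomial R,
      b = ∑ β ∈ s, Polynomial.aeval x (P β) * β)
    (hden : ∃ d ∈ B, d ≠ 0 ∧ d * u⁻¹ ∈ B) :
    ∃ S : Finset C, (∀ c ∈ S, c ∈ kummerSub pb u hT hm0 B hB) ∧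
      ∀ b ∈ kummerSub pb u hT hm0 B hB, ∃ P : C → Polynomial R,
        b = ∑ c ∈ S, Polynomial.aeval (algebraMap F C x) (P c) * c := by
  classical
  letI modF : Module R[X] F := Module.compHom F (aeval x : R[X] →ₐ[R] F).toRingHom
  letI modC : Module R[X] C :=
    Module.compHom C (aeval (algebraMap F C x) : R[X] →ₐ[R] C).toRingHom
  have smulF : ∀ (p : R[X]) (f : F), p • f = aeval x p * f := fun _ _ => rfl
  have smulC : ∀ (p : R[X]) (c : C), p • c = aeval (algebraMap F C x) p * c := fun _ _ => rfl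
  have haevalB : ∀ p : R[X], aeval x p ∈ B := fun p => by
    have : aeval x p ∈ Algebra.adjoin R {x} := Polynomial.aeval_mem_adjoin_singleton R x
    exact (Algebra.adjoin_le (Set.singleton_subset_iff.mpr hx)) this
  set K := kummerSub pb u hT hm0 B hB with hK
  have haevalC : ∀ p : R[X], aeval (algebraMap F C x) p = algebraMap F C (aeval x p) := fun p =>
    Polynomial.aeval_algebraMap_apply C x p
  obtain ⟨s₀, hs₀⟩ := hfin
  obtain ⟨d, hdB, hd0, hdu⟩ := hden
  -- the ambient finitely generated module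
  let N : Submodule R[X] F := Submodule.span R[X] (s₀ : Set F)
  have hNfg : N.FG := Submodule.fg_span (Finset.finite_toSet s₀)
  have hBN : ∀ b ∈ B, b ∈ N := by
    intro b hb
    obtain ⟨P, hP⟩ := hs₀ b hb
    rw [hP]
    refine N.sum_mem fun β hβ => ?_
    rw [← smulF]
    exact N.smul_mem (P β) (Submodule.subset_span hβ)
  -- the graded pieces as `R[X]`-submodules of `F`
  let I : ℕ → Submodule R[X] F := fun k =>
    { carrier := degSet B pb.dim u k
      add_mem' := fun ha hb => add_mem_degSet hB ha hb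
      zero_mem' := zero_mem_degSet hm0 k
      smul_mem' := fun p f hf => by
        show p • f ∈ degSet B pb.dim u k
        rw [smulF]
        exact smul_mem_degSet (haevalB p) hf }
  -- multiplication by a constant as an `R[X]`-linear map
  let mulL : F → (F →ₗ[R[X]] F) := fun a =>
    { toFun := fun f => a * f
      map_add' := fun f g => mul_add a f g
      map_smul' := fun p f => by
        show a * (p • f) = p • (a * f)
        rw [smulF, smulF]; ring }
  have hIfg : ∀ k, (I k).FG := by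
    intro k
    have hJle : (I k).map (mulL (d ^ k)) ≤ N := by
      rintro _ ⟨f, hf, rfl⟩
      exact hBN _ (pow_mul_mem_of_mem_degSet hm0 hu hB hdB hdu hf)
    have hJfg : ((I k).map (mulL (d ^ k))).FG := Submodule.FG.of_le hNfg hJle
    have hI : I k = ((I k).map (mulL (d ^ k))).map (mulL (d ^ k)⁻¹) := by
      rw [← Submodule.map_comp]
      have : (mulL (d ^ k)⁻¹).comp (mulL (d ^ k)) = LinearMap.id := by
        apply LinearMap.ext
        intro f
        show (d ^ k)⁻¹ * (d ^ k * f) = f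
        rw [← mul_assoc, inv_mul_cancel₀ (pow_ne_zero k hd0), one_mul]
      rw [this, Submodule.map_id]
    rw [hI]
    exact hJfg.map _
  -- the Kummer algebra as an `R[X]`-submodule of `C`
  let K' : Submodule R[X] C :=
    { carrier := K
      add_mem' := fun ha hb => K.add_mem ha hb
      zero_mem' := K.zero_mem
      smul_mem' := fun p c hc => by
        show p • c ∈ K
        rw [smulC, haevalC]
        exact K.mul_mem (algebraMap_mem_kummerSub hT hm0 hB (haevalB p)) hc }
  let φ : ℕ → (F →ₗ[R[X]] C) := fun k =>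
    { toFun := fun f => algebraMap F C f * pb.gen ^ k
      map_add' := fun f g => by rw [map_add, add_mul]
      map_smul' := fun p f => by
        show algebraMap F C (p • f) * pb.gen ^ k = p • (algebraMap F C f * pb.gen ^ k)
        rw [smulF, smulC, haevalC, map_mul, mul_assoc] }
  have hK' : K' = ⨆ k : Fin pb.dim, (I (k : ℕ)).map (φ (k : ℕ)) := by
    apply le_antisymm
    · intro c hc
      have hcK : c ∈ K := hc
      rw [← sum_co pb c]
      refine Submodule.sum_mem _ fun k _ => ?_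
      refine (le_iSup (fun k : Fin pb.dim => (I (k : ℕ)).map (φ (k : ℕ))) k) ?_
      exact ⟨co pb k c, hcK k, rfl⟩
    · refine iSup_le fun k => ?_
      rintro _ ⟨f, hf, rfl⟩
      exact monomial_mem_kummerSub hT hm0 hB hf
  have hK'fg : K'.FG := by
    rw [hK']
    exact Submodule.fg_iSup _ fun k => (hIfg k).map _
  obtain ⟨S, hS⟩ := hK'fg
  refine ⟨S, fun c hc => ?_, fun b hb => ?_⟩
  · have : c ∈ K' := hS ▸ Submodule.subset_span hc
    exact this
  · have hb' : b ∈ Submodule.span R[X] (S : Set C) := by rw [hS]; exact hb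
    obtain ⟨f, -, hf⟩ := Submodule.mem_span_finset.mp hb'
    exact ⟨f, hf.symm⟩

end Finite

end Fermat.Agent.S18.H394

end
-- ===== PACK-END S18/H394/KummerFinite.lean

-- ===== PACK-BEGIN S18/H425/GoodModelInv.lean
section


/-!
# S18 / ALG (helper425): `GoodModel` is symmetric under `x ↦ x⁻¹`

* `mem_polyRing_iff` : `c ∈ polyRing R x ↔ ∃ Q : R[X], aeval x Q = c`.
* `goodModel_x_inv_mem_V` : `x⁻¹ ∈ V` (so `x` is a unit of `V`, with the field `x_mem_V`).
* `not_isIntegral_mul_inv` : `z / w` is not integral over `R[z]` (`z` transcendental, `w` a non-unit).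
* `goodModel_inv` : `GoodModel Lc Ec Fc R V w x S →
    GoodModel Lc Ec Fc R V w x⁻¹ (insert 0 ((S.erase 0).image (·⁻¹)))`.
* `goodFamily_inv` : the same for `GoodFamily` (same family `𝓕`).

So the chart at infinity needs no separate treatment: apply any chart theorem to `x⁻¹`.
Imports only the frozen interface `Alg/Spec.lean`.
-/

set_option autoImplicit false

noncomputable section

namespace Fermat.Agent.S18.H425

open Polynomial Fermat.Agent.S18.Alg

variable {Ω : Type*} [Field Ω]

/-- `R[x]` consists of the values at `x` of the polynomials with coefficients in `R`. -/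
theorem mem_polyRing_iff {R : Subring Ω} {x c : Ω} :
    c ∈ polyRing R x ↔ ∃ Q : Polynomial R, aeval x Q = c := by
  have h : polyRing R x = (Algebra.adjoin R {x}).toSubring := by
    rw [Algebra.adjoin_eq_ring_closure]
    unfold polyRing
    congr 1
    have hr : Set.range (algebraMap R Ω) = (R : Set Ω) := by
      ext y
      constructor
      · rintro ⟨a, rfl⟩
        exact a.2
      · intro hy
        exact ⟨⟨y, hy⟩, rfl⟩
    rw [hr]
  rw [h, Subalgebra.mem_toSubring, Algebra.adjoin_singleton_eq_range_aeval]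
  rfl

theorem mem_polyRing_of_mem {R : Subring Ω} (x : Ω) {r : Ω} (hr : r ∈ R) : r ∈ polyRing R x :=
  Subring.subset_closure (Or.inl hr)

theorem self_mem_polyRing (R : Subring Ω) (x : Ω) : x ∈ polyRing R x :=
  Subring.subset_closure (Or.inr rfl)

/-- `x⁻¹ ^ N * Q(x) = (reflect N Q)(x⁻¹)` for `natDegree Q ≤ N`. -/
theorem aeval_inv_reflect {R : Subring Ω} {x : Ω} (hx : x ≠ 0) (N : ℕ) (Q : Polynomial R)
    (hQ : Q.natDegree ≤ N) : aeval x⁻¹ (reflect N Q) = aeval x Q * (x⁻¹) ^ N := by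
  let _ : Invertible x := invertibleOfNonzero hx
  have h := eval₂_reflect_mul_pow (algebraMap R Ω) x N Q hQ
  rw [invOf_eq_inv] at h
  rw [aeval_def, aeval_def, ← h, mul_assoc, ← mul_pow, mul_inv_cancel₀ hx, one_pow, mul_one]

/-- A polynomial relation over a subring `R ≤ Lc` is a polynomial relation over `Lc`. -/
theorem transcendental_subring {R : Subring Ω} {Lc : Subfield Ω} (hRL : ∀ r ∈ R, r ∈ Lc)
    {z : Ω} (hz : Transcendental Lc z) : Transcendental R z := by
  rw [transcendental_iff]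
  intro Q hQ
  let ι : R →+* Lc :=
    { toFun := fun r => ⟨r.1, hRL r.1 r.2⟩
      map_one' := rfl
      map_mul' := fun _ _ => rfl
      map_zero' := rfl
      map_add' := fun _ _ => rfl }
  have hι : Function.Injective ι := fun a b hab =>
    Subtype.ext (congrArg (fun y : Lc => (y : Ω)) hab)
  have hcomp : (algebraMap Lc Ω).comp ι = algebraMap R Ω := rfl
  have h0 : aeval z (Q.map ι) = 0 := by
    rw [aeval_def, eval₂_map, hcomp, ← aeval_def, hQ]
  have := (transcendental_iff.mp hz) (Q.map ι) h0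
  exact (Polynomial.map_eq_zero_iff hι).mp this

/-- If `z` is transcendental over `R` and `w ∈ R` is a nonzero non-unit of `R`, then `z / w` is
not integral over `R[z]`. -/
theorem not_isIntegral_mul_inv {R : Subring Ω} {z w : Ω} (hz : Transcendental R z)
    (hw : w ∈ R) (hw0 : w ≠ 0) (hwinv : w⁻¹ ∉ R) :
    ¬ IsIntegral (polyRing R z) (z * w⁻¹) := by
  rintro ⟨p, hp, hp0⟩
  set n := p.natDegree with hn
  have hcoeff : ∀ i, ∃ Q : Polynomial R, aeval z Q = ((p.coeff i : polyRing R z) : Ω) :=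
    fun i => mem_polyRing_iff.mp (p.coeff i).2
  choose Q hQ using hcoeff
  let ω : R := ⟨w, hw⟩
  let H : Polynomial R := ∑ i ∈ Finset.range n, Q i * C ω ^ (n - 1 - i) * X ^ i
  have hsum : (z * w⁻¹) ^ n +
      ∑ i ∈ Finset.range n, ((p.coeff i : polyRing R z) : Ω) * (z * w⁻¹) ^ i = 0 := by
    rw [eval₂_eq_sum_range, Finset.sum_range_succ, ← hn] at hp0
    have hlead : p.coeff n = 1 := hp
    rw [hlead, map_one, one_mul, add_comm] at hp0
    exact hp0
  have hG : aeval z (X ^ n + C ω * H) = 0 := by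
    have hω : algebraMap R Ω ω = w := rfl
    rw [map_add, map_mul, map_pow, aeval_X, aeval_C, hω, map_sum]
    have : w ^ n * ((z * w⁻¹) ^ n +
        ∑ i ∈ Finset.range n, ((p.coeff i : polyRing R z) : Ω) * (z * w⁻¹) ^ i) = 0 := by
      rw [hsum, mul_zero]
    rw [← this, mul_add, Finset.mul_sum, Finset.mul_sum]
    congr 1
    · rw [mul_pow, mul_comm (z ^ n), ← mul_assoc, ← mul_pow, mul_inv_cancel₀ hw0, one_pow,
        one_mul]
    · apply Finset.sum_congr rfl
      intro i hi
      have hi' : i < n := Finset.mem_range.mp hi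
      rw [map_mul, map_mul, map_pow, map_pow, aeval_X, aeval_C, hω, hQ]
      have hwn : w ^ n = w * w ^ (n - 1 - i) * w ^ i := by
        rw [← pow_succ', ← pow_add]
        congr 1
        omega
      rw [hwn, mul_pow]
      have hwi : w ^ i * (w⁻¹) ^ i = 1 := by
        rw [← mul_pow, mul_inv_cancel₀ hw0, one_pow]
      calc w * (((p.coeff i : polyRing R z) : Ω) * w ^ (n - 1 - i) * z ^ i)
          = w * w ^ (n - 1 - i) * (((p.coeff i : polyRing R z) : Ω) * z ^ i) * 1 := by ring
        _ = w * w ^ (n - 1 - i) * (((p.coeff i : polyRing R z) : Ω) * z ^ i) *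
              (w ^ i * (w⁻¹) ^ i) := by rw [hwi]
        _ = w * w ^ (n - 1 - i) * w ^ i *
              (((p.coeff i : polyRing R z) : Ω) * (z ^ i * w⁻¹ ^ i)) := by ring
  have hG0 := (transcendental_iff.mp hz) _ hG
  have hc := congrArg (fun P => P.coeff n) hG0
  simp only [coeff_add, coeff_X_pow, if_true, coeff_C_mul, coeff_zero] at hc
  apply hwinv
  have h1 : w * (-(H.coeff n : R) : R) = 1 := by
    have h2 : (1 : R) + ω * H.coeff n = 0 := hc
    have h3 := congrArg (fun r : R => (r : Ω)) h2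
    simp only [Subring.coe_add, Subring.coe_one, Subring.coe_mul, Subring.coe_zero] at h3
    have hω : (ω : Ω) = w := rfl
    rw [hω] at h3
    rw [Subring.coe_neg, mul_neg]
    linear_combination -h3
  have h4 : w⁻¹ = ((-(H.coeff n : R) : R) : Ω) := by
    exact inv_eq_of_mul_eq_one_right h1
  rw [h4]
  exact (-(H.coeff n)).2

/-- `P(x⁻¹) = (reflect N P)(x) * x⁻¹ ^ N` for a polynomial over `Ω`, `natDegree P ≤ N`. -/
theorem eval_inv_eq_reflect {x : Ω} (hx : x ≠ 0) (N : ℕ) (P : Polynomial Ω)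
    (hP : P.natDegree ≤ N) : P.eval x⁻¹ = (reflect N P).eval x * (x⁻¹) ^ N := by
  let _ : Invertible x⁻¹ := invertibleOfNonzero (inv_ne_zero hx)
  have h := eval₂_reflect_mul_pow (RingHom.id Ω) x⁻¹ N P hP
  rw [invOf_eq_inv, inv_inv] at h
  rw [eval, eval, h]

/-- For a valuation subring: `a⁻¹ ∉ O` iff `a ≠ 0` and `v a < 1`. -/
theorem inv_not_mem_iff (O : ValuationSubring Ω) {a : Ω} :
    a⁻¹ ∉ O ↔ a ≠ 0 ∧ O.valuation a < 1 := by
  constructor
  · intro h
    have ha : a ≠ 0 := by
      rintro rfl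
      exact h (by simp)
    refine ⟨ha, ?_⟩
    by_contra hlt
    apply h
    rw [← ValuationSubring.valuation_le_one_iff, map_inv₀]
    exact inv_le_one_of_one_le₀ (not_lt.mp hlt)
  · rintro ⟨ha, hlt⟩ hmem
    rw [← ValuationSubring.valuation_le_one_iff, map_inv₀] at hmem
    have hv0 : O.valuation a ≠ 0 := (Valuation.ne_zero_iff _).mpr ha
    have : 1 ≤ O.valuation a := by
      have := (inv_le_one₀ (zero_lt_iff.mpr hv0)).mp hmem
      exact this
    exact absurd hlt (not_lt.mpr this)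

section GoodModel

variable {Lc Ec Fc : Subfield Ω} {R V : Subring Ω} {w x : Ω} {S : Finset Ω}

theorem goodModel_x_ne_zero (h : GoodModel Lc Ec Fc R V w x S) : x ≠ 0 := by
  rintro rfl
  exact h.x_transcendental isAlgebraic_zero

theorem goodModel_R_le_Lc (h : GoodModel Lc Ec Fc R V w x S) : ∀ r ∈ R, r ∈ Lc :=
  fun _ hr => h.E_le_L (h.R_le hr)

theorem goodModel_transcendental_inv (h : GoodModel Lc Ec Fc R V w x S) :
    Transcendental Lc x⁻¹ := by
  intro hx
  apply h.x_transcendental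
  have := hx.inv
  rwa [inv_inv] at this

/-- `x⁻¹ ∈ V`. -/
theorem goodModel_x_inv_mem_V (h : GoodModel Lc Ec Fc R V w x S) : x⁻¹ ∈ V := by
  have := h.gauss X (fun i => by
    rw [coeff_X]
    split_ifs
    · exact R.one_mem
    · exact R.zero_mem) ⟨1, by simp, by simp⟩
  simpa using this

theorem ratField_inv (Ec : Subfield Ω) (x : Ω) : ratField Ec x⁻¹ = ratField Ec x := by
  unfold ratField
  apply le_antisymm
  · rw [Subfield.closure_le]
    rintro y (hy | hy)
    · exact Subfield.subset_closure (Or.inl hy)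
    · rw [Set.mem_singleton_iff] at hy
      rw [hy]
      exact Subfield.inv_mem _ (Subfield.subset_closure (Or.inr rfl))
  · rw [Subfield.closure_le]
    rintro y (hy | hy)
    · exact Subfield.subset_closure (Or.inl hy)
    · rw [Set.mem_singleton_iff] at hy
      rw [hy]
      have : x⁻¹ ∈ Subfield.closure ((Ec : Set Ω) ∪ {x⁻¹}) :=
        Subfield.subset_closure (Or.inr rfl)
      have := Subfield.inv_mem _ this
      rwa [inv_inv] at this

/-- `gauss` for `x⁻¹`. -/
theorem goodModel_gauss_inv (h : GoodModel Lc Ec Fc R V w x S) (P : Polynomial Ω)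
    (hP : ∀ i, P.coeff i ∈ R) (hu : ∃ i, P.coeff i ≠ 0 ∧ (P.coeff i)⁻¹ ∈ R) :
    (P.eval x⁻¹)⁻¹ ∈ V := by
  have hx := goodModel_x_ne_zero h
  rw [eval_inv_eq_reflect hx P.natDegree P le_rfl, mul_inv, ← inv_pow, inv_inv]
  refine V.mul_mem (h.gauss _ (fun i => ?_) ?_) (V.pow_mem h.x_mem_V _)
  · rw [coeff_reflect]
    exact hP _
  · obtain ⟨i, hi0, hi⟩ := hu
    refine ⟨revAt P.natDegree i, ?_, ?_⟩
    · rw [coeff_reflect, revAt_invol]
      exact hi0
    · rw [coeff_reflect, revAt_invol]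
      exact hi

/-- `separable` for `x⁻¹`. -/
theorem goodModel_separable_inv (h : GoodModel Lc Ec Fc R V w x S) (f : Ω) (hf : f ∈ V) :
    ∃ P : Polynomial Ω, (∀ i, P.coeff i ∈ polyRing R x⁻¹) ∧
      P.eval f * w⁻¹ ∈ V ∧ (Polynomial.derivative P).eval f ≠ 0 ∧
      ((Polynomial.derivative P).eval f)⁻¹ ∈ V := by
  have hx := goodModel_x_ne_zero h
  obtain ⟨P, hPc, hP0, hP1, hP2⟩ := h.separable f hf
  have hex : ∀ i, ∃ Q : Polynomial R, aeval x Q = P.coeff i := fun i => mem_polyRing_iff.mp (hPc i)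
  choose Q hQ using hex
  let D : ℕ := P.support.sup fun i => (Q i).natDegree
  refine ⟨C ((x⁻¹) ^ D) * P, fun i => ?_, ?_, ?_, ?_⟩
  · rw [coeff_C_mul]
    by_cases hi : i ∈ P.support
    · have hdeg : (Q i).natDegree ≤ D := Finset.le_sup (f := fun i => (Q i).natDegree) hi
      rw [mem_polyRing_iff]
      exact ⟨reflect D (Q i), by rw [aeval_inv_reflect hx D (Q i) hdeg, hQ, mul_comm]⟩
    · rw [notMem_support_iff.mp hi, mul_zero]
      exact Subring.zero_mem _
  · rw [eval_mul, eval_C, mul_assoc]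
    exact V.mul_mem (V.pow_mem (goodModel_x_inv_mem_V h) _) hP0
  · rw [derivative_C_mul, eval_mul, eval_C]
    exact mul_ne_zero (pow_ne_zero _ (inv_ne_zero hx)) hP1
  · rw [derivative_C_mul, eval_mul, eval_C, mul_inv, ← inv_pow, inv_inv]
    exact V.mul_mem (V.pow_mem h.x_mem_V _) hP2

/-- `unramified` for `x⁻¹`. -/
theorem goodModel_unramified_inv [DecidableEq Ω] (h : GoodModel Lc Ec Fc R V w x S)
    (O : ValuationSubring Ω) (hL : ∀ a ∈ Lc, a ∈ O) (c : Ω) (hc : c ∈ Lc)
    (hcS : c ∉ insert 0 ((S.erase 0).image (·⁻¹)))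
    (h1 : x⁻¹ - c ∈ O) (h2 : (x⁻¹ - c)⁻¹ ∉ O) (t : Ω) (ht : t ∈ O) (ht' : t⁻¹ ∉ O) :
    t * (x⁻¹ - c)⁻¹ ∈ O := by
  have hx := goodModel_x_ne_zero h
  have hc0 : c ≠ 0 := by
    rintro rfl
    exact hcS (Finset.mem_insert_self _ _)
  have hcinvS : c⁻¹ ∉ S := by
    intro hmem
    apply hcS
    apply Finset.mem_insert_of_mem
    rw [Finset.mem_image]
    exact ⟨c⁻¹, Finset.mem_erase.mpr ⟨inv_ne_zero hc0, hmem⟩, inv_inv c⟩
  have hcO : c ∈ O := hL c hc
  have hcinvO : c⁻¹ ∈ O := hL _ (Lc.inv_mem hc)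
  obtain ⟨hne, hlt⟩ := (inv_not_mem_iff O).mp h2
  have hvc : O.valuation c = 1 := by
    apply le_antisymm ((ValuationSubring.valuation_le_one_iff O c).mpr hcO)
    have := (ValuationSubring.valuation_le_one_iff O c⁻¹).mpr hcinvO
    rw [map_inv₀] at this
    exact (inv_le_one₀ (zero_lt_iff.mpr ((Valuation.ne_zero_iff _).mpr hc0))).mp this
  have hvxinv : O.valuation x⁻¹ = 1 := by
    have : x⁻¹ = (x⁻¹ - c) + c := by ring
    rw [this, Valuation.map_add_eq_of_lt_right _ (by rw [hvc]; exact hlt), hvc]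
  have hvx : O.valuation x = 1 := by
    rw [map_inv₀] at hvxinv
    exact inv_eq_one.mp hvxinv
  have hxO : x ∈ O := (ValuationSubring.valuation_le_one_iff O x).mp hvx.le
  have hid : x - c⁻¹ = -(c⁻¹ * x * (x⁻¹ - c)) := by
    field_simp
    ring
  have h1' : x - c⁻¹ ∈ O := by
    rw [hid]
    exact O.neg_mem _ (O.mul_mem _ _ (O.mul_mem _ _ hcinvO hxO) h1)
  have h2' : (x - c⁻¹)⁻¹ ∉ O := by
    rw [inv_not_mem_iff]
    refine ⟨?_, ?_⟩
    · rw [hid]
      exact neg_ne_zero.mpr (mul_ne_zero (mul_ne_zero (inv_ne_zero hc0) hx) hne)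
    · rw [hid, Valuation.map_neg, map_mul, map_mul, map_inv₀, hvc, hvx, inv_one, one_mul, one_mul]
      exact hlt
  have key := h.unramified O hL c⁻¹ (Lc.inv_mem hc) hcinvS h1' h2' t ht ht'
  have hid2 : t * (x⁻¹ - c)⁻¹ = -(t * (x - c⁻¹)⁻¹ * (c⁻¹ * x)) := by
    have hne' : x - c⁻¹ ≠ 0 := by
      rw [hid]
      exact neg_ne_zero.mpr (mul_ne_zero (mul_ne_zero (inv_ne_zero hc0) hx) hne)
    rw [hid]
    field_simp
  rw [hid2]
  exact O.neg_mem _ (O.mul_mem _ _ key (O.mul_mem _ _ hcinvO hxO))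

/-- **`GoodModel` is symmetric under `x ↦ x⁻¹`**, with branch set
`S' = {0} ∪ {s⁻¹ : s ∈ S, s ≠ 0}`. -/
theorem goodModel_inv [DecidableEq Ω] (h : GoodModel Lc Ec Fc R V w x S) :
    GoodModel Lc Ec Fc R V w x⁻¹ (insert 0 ((S.erase 0).image (·⁻¹))) where
  charZero := h.charZero
  R_le := h.R_le
  R_total := h.R_total
  w_mem := h.w_mem
  w_ne_zero := h.w_ne_zero
  w_inv_not_mem := h.w_inv_not_mem
  w_gen := h.w_gen
  w_discrete := h.w_discrete
  residue_perfect := h.residue_perfect
  E_le_L := h.E_le_L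
  E_le_F := h.E_le_F
  L_algebraic := h.L_algebraic
  L_algClosed := h.L_algClosed
  E_closed_in_F := h.E_closed_in_F
  compositum := h.compositum
  x_mem := Fc.inv_mem h.x_mem
  x_transcendental := goodModel_transcendental_inv h
  finite := by
    rw [ratField_inv]
    exact h.finite
  V_le := h.V_le
  V_total := h.V_total
  R_le_V := h.R_le_V
  w_inv_not_mem_V := h.w_inv_not_mem_V
  V_gen := h.V_gen
  x_mem_V := goodModel_x_inv_mem_V h
  gauss := goodModel_gauss_inv h
  qep_fin := h.qep_inf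
  qep_inf := by
    rw [inv_inv]
    exact h.qep_fin
  separable := goodModel_separable_inv h
  S_mem := by
    intro s hs
    rcases Finset.mem_insert.mp hs with rfl | hs
    · exact R.zero_mem
    · obtain ⟨s', hs', rfl⟩ := Finset.mem_image.mp hs
      obtain ⟨hs0, hsS⟩ := Finset.mem_erase.mp hs'
      exact h.S_unit s' hsS hs0
  S_distinct := by
    intro a ha b hb hab
    rcases Finset.mem_insert.mp ha with rfl | ha
    · rcases Finset.mem_insert.mp hb with rfl | hb
      · exact absurd rfl hab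
      · obtain ⟨s', hs', rfl⟩ := Finset.mem_image.mp hb
        obtain ⟨hs0, hsS⟩ := Finset.mem_erase.mp hs'
        have : (0 - s'⁻¹)⁻¹ = -s' := by
          rw [zero_sub, inv_neg, inv_inv]
        rw [this]
        exact R.neg_mem (h.S_mem s' hsS)
    · obtain ⟨s', hs', rfl⟩ := Finset.mem_image.mp ha
      obtain ⟨hs0, hsS⟩ := Finset.mem_erase.mp hs'
      rcases Finset.mem_insert.mp hb with rfl | hb
      · have : (s'⁻¹ - 0)⁻¹ = s' := by
          rw [sub_zero, inv_inv]
        rw [this]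
        exact h.S_mem s' hsS
      · obtain ⟨t', ht', rfl⟩ := Finset.mem_image.mp hb
        obtain ⟨ht0, htS⟩ := Finset.mem_erase.mp ht'
        have hst : s' ≠ t' := by
          rintro rfl
          exact hab rfl
        have hts : t' - s' ≠ 0 := sub_ne_zero.mpr (Ne.symm hst)
        have : (s'⁻¹ - t'⁻¹)⁻¹ = s' * t' * (t' - s')⁻¹ := by
          field_simp
        rw [this]
        exact R.mul_mem (R.mul_mem (h.S_mem s' hsS) (h.S_mem t' htS))
          (h.S_distinct t' htS s' hsS (Ne.symm hst))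
  S_unit := by
    intro s hs hs0
    rcases Finset.mem_insert.mp hs with rfl | hs
    · exact absurd rfl hs0
    · obtain ⟨s', hs', rfl⟩ := Finset.mem_image.mp hs
      obtain ⟨_, hsS⟩ := Finset.mem_erase.mp hs'
      rw [inv_inv]
      exact h.S_mem s' hsS
  unramified := goodModel_unramified_inv h

/-- A good family for `x` is a good family for `x⁻¹`. -/
theorem goodFamily_inv [DecidableEq Ω] {𝓕 : Set (Model Ω)} (h : GoodFamily Lc x S 𝓕) :
    GoodFamily Lc x⁻¹ (insert 0 ((S.erase 0).image (·⁻¹))) 𝓕 where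
  good := fun p hp => goodModel_inv (h.good p hp)
  enlarge := h.enlarge

end GoodModel

end Fermat.Agent.S18.H425

end
end
-- ===== PACK-END S18/H425/GoodModelInv.lean

-- ===== PACK-BEGIN S21/H561/WeylL2.lean
section


/-!
# Weyl's lemma, `L²_loc`-limit form (helper561)

A sequence of continuous functions on an open set `U ⊆ ℂ` which is Cauchy in `L²` on every compact
subset of `U` and asymptotically weakly holomorphic converges in `L²_loc` to a holomorphic function.
-/

open MeasureTheory Complex Metric Set Filter Topology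
open scoped ContDiff Real ENNReal

namespace Fermat.Agent.S21.H561

noncomputable section

lemma l2_memLp_of_continuousOn {F : ℂ → ℂ} {K : Set ℂ} (hK : IsCompact K)
    (hF : ContinuousOn F K) : MemLp F 2 (volume.restrict K) := by
  have : IsFiniteMeasure (volume.restrict K) := isFiniteMeasure_restrict.2 hK.measure_lt_top.ne
  obtain ⟨C, hC⟩ := hK.exists_bound_of_continuousOn hF
  exact MemLp.of_bound (hF.aestronglyMeasurable hK.measurableSet) C
    ((ae_restrict_iff' hK.measurableSet).2 (ae_of_all _ hC))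

lemma l2_integral_eq {F : ℂ → ℂ} {K : Set ℂ} (hK : IsCompact K) (hF : ContinuousOn F K) :
    ∫ z in K, ‖F z‖ ^ 2 = (eLpNorm F 2 (volume.restrict K)).toReal ^ 2 := by
  have hmem := l2_memLp_of_continuousOn hK hF
  rw [hmem.eLpNorm_eq_integral_rpow_norm two_ne_zero ENNReal.ofNat_ne_top]
  have h0 : 0 ≤ ∫ z in K, ‖F z‖ ^ 2 := integral_nonneg fun z => by positivity
  simp only [ENNReal.toReal_ofNat, Real.rpow_two]
  rw [ENNReal.toReal_ofReal (by positivity), ← Real.rpow_natCast, ← Real.rpow_mul h0]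
  norm_num

/-- `L²` completeness on a compact set, for continuous functions. -/
lemma l2_exists_limit {K : Set ℂ} (hK : IsCompact K) (g : ℕ → ℂ → ℂ)
    (hg : ∀ n, ContinuousOn (g n) K)
    (hcauchy : ∀ ε > 0, ∃ M, ∀ m ≥ M, ∀ n ≥ M, ∫ z in K, ‖g n z - g m z‖ ^ 2 < ε) :
    ∃ h : ℂ → ℂ, MemLp h 2 (volume.restrict K) ∧
      Tendsto (fun n => eLpNorm (g n - h) 2 (volume.restrict K)) atTop (𝓝 0) := by
  have hmem : ∀ n, MemLp (g n) 2 (volume.restrict K) :=
    fun n => l2_memLp_of_continuousOn hK (hg n)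
  set x : ℕ → Lp ℂ 2 (volume.restrict K) := fun n => (hmem n).toLp (g n) with hx
  have hcs : CauchySeq x := by
    rw [Metric.cauchySeq_iff]
    intro ε hε
    obtain ⟨M, hM⟩ := hcauchy (ε ^ 2) (by positivity)
    refine ⟨M, fun m hm n hn => ?_⟩
    have h1 := hM n hn m hm
    have h2 : dist (x m) (x n) = (eLpNorm (g m - g n) 2 (volume.restrict K)).toReal := by
      rw [dist_edist, Lp.edist_toLp_toLp]
    rw [h2]
    have h3 := l2_integral_eq hK ((hg m).sub (hg n))
    have h4 : (eLpNorm (g m - g n) 2 (volume.restrict K)).toReal ^ 2 < ε ^ 2 := by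
      rw [← h3]; exact h1
    exact lt_of_pow_lt_pow_left₀ 2 hε.le h4
  obtain ⟨y, hy⟩ := cauchySeq_tendsto_of_complete hcs
  refine ⟨y, Lp.memLp y, ?_⟩
  refine (Lp.tendsto_Lp_iff_tendsto_eLpNorm'' g hmem y (Lp.memLp y)).1 ?_
  rw [Lp.toLp_coeFn]
  exact hy

/-- `L²` convergence on a compact set implies convergence of integrals against a continuous
function vanishing outside the compact set. -/
lemma l2_tendsto_integral_mul {K : Set ℂ} (hK : IsCompact K) (g : ℕ → ℂ → ℂ)
    (hg : ∀ n, ContinuousOn (g n) K) {h : ℂ → ℂ} (hh : MemLp h 2 (volume.restrict K))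
    (hlim : Tendsto (fun n => eLpNorm (g n - h) 2 (volume.restrict K)) atTop (𝓝 0))
    (D : ℂ → ℂ) (hD : Continuous D) (hDK : ∀ z, z ∉ K → D z = 0) :
    Tendsto (fun n => ∫ z, g n z * D z) atTop (𝓝 (∫ z, h z * D z)) := by
  have : IsFiniteMeasure (volume.restrict K) := isFiniteMeasure_restrict.2 hK.measure_lt_top.ne
  have hres : ∀ F : ℂ → ℂ, ∫ z, F z * D z = ∫ z in K, F z * D z := fun F =>
    (setIntegral_eq_integral_of_forall_compl_eq_zero fun z hz => by rw [hDK z hz, mul_zero]).symm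
  simp_rw [hres]
  obtain ⟨C, hC⟩ := hK.exists_bound_of_continuousOn hD.continuousOn
  refine tendsto_integral_of_L1' (μ := volume.restrict K) (fun z => h z * D z)
    (hh.1.mul hD.aestronglyMeasurable)
    (Eventually.of_forall fun n => ((hg n).mul hD.continuousOn).integrableOn_compact hK) ?_
  have hbound : ∀ n, eLpNorm ((fun z => g n z * D z) - fun z => h z * D z) 1 (volume.restrict K)
      ≤ ENNReal.ofReal C * (eLpNorm (g n - h) 2 (volume.restrict K)
          * (volume.restrict K) Set.univ ^ (1 / (1 : ℝ≥0∞).toReal - 1 / (2 : ℝ≥0∞).toReal)) := by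
    intro n
    have hae : AEStronglyMeasurable (g n - h) (volume.restrict K) :=
      ((hg n).aestronglyMeasurable hK.measurableSet).sub hh.1
    calc eLpNorm ((fun z => g n z * D z) - fun z => h z * D z) 1 (volume.restrict K)
        ≤ ENNReal.ofReal C * eLpNorm (g n - h) 1 (volume.restrict K) := by
          refine eLpNorm_le_mul_eLpNorm_of_ae_le_mul ?_ 1
          rw [ae_restrict_iff' hK.measurableSet]
          refine ae_of_all _ fun z hz => ?_
          simp only [Pi.sub_apply]
          rw [← sub_mul, norm_mul, mul_comm]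
          exact mul_le_mul_of_nonneg_right (hC z hz) (norm_nonneg _)
      _ ≤ _ := by
          gcongr
          exact eLpNorm_le_eLpNorm_mul_rpow_measure_univ (by norm_num) hae
  have hlim2 : Tendsto (fun n => ENNReal.ofReal C * (eLpNorm (g n - h) 2 (volume.restrict K)
          * (volume.restrict K) Set.univ ^ (1 / (1 : ℝ≥0∞).toReal - 1 / (2 : ℝ≥0∞).toReal)))
      atTop (𝓝 0) := by
    have hfin : (volume.restrict K) Set.univ ^ (1 / (1 : ℝ≥0∞).toReal - 1 / (2 : ℝ≥0∞).toReal)
        ≠ (⊤ : ℝ≥0∞) := by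
      refine ENNReal.rpow_ne_top_of_nonneg ?_ (measure_ne_top _ _)
      simp only [ENNReal.toReal_one, ENNReal.toReal_ofNat]
      norm_num
    have h1 := ENNReal.Tendsto.mul_const hlim (Or.inr hfin)
    have h2 := ENNReal.Tendsto.const_mul h1 (Or.inr (ENNReal.ofReal_ne_top (r := C)))
    simpa using h2
  exact tendsto_of_tendsto_of_tendsto_of_le_of_le tendsto_const_nhds hlim2
    (fun n => bot_le) hbound

lemma continuous_dbarR {η : ℂ → ℝ} (hη : ContDiff ℝ ∞ η) : Continuous (dbarR η) := by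
  have h1 : Continuous (fderiv ℝ η) := hη.continuous_fderiv (by norm_num)
  have h2 : ∀ v : ℂ, Continuous fun z => ((fderiv ℝ η z v : ℝ) : ℂ) := fun v =>
    continuous_ofReal.comp ((ContinuousLinearMap.apply ℝ ℝ v).continuous.comp h1)
  unfold dbarR
  exact continuous_const.mul ((h2 1).add (continuous_const.mul (h2 I)))

lemma dbarR_eq_zero_of_notMem {η : ℂ → ℝ} {z : ℂ} (hz : z ∉ tsupport η) : dbarR η z = 0 := by
  unfold dbarR
  rw [fderiv_of_notMem_tsupport ℝ hz]
  simp

/-- The local form: on a ball whose closure lies in `U`, the `L²` limit is holomorphic. -/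
lemma weyl_l2_local {U : Set ℂ} (g : ℕ → ℂ → ℂ) (hg : ∀ n, ContinuousOn (g n) U)
    (hcauchy : ∀ K : Set ℂ, IsCompact K → K ⊆ U → ∀ ε > 0, ∃ M, ∀ m ≥ M, ∀ n ≥ M,
        ∫ z in K, ‖g n z - g m z‖ ^ 2 < ε)
    (hweak : ∀ η : ℂ → ℝ, ContDiff ℝ ∞ η → HasCompactSupport η → tsupport η ⊆ U →
        Tendsto (fun n => ∫ z, g n z *
          (((fderiv ℝ η z 1 : ℝ) : ℂ) + Complex.I * ((fderiv ℝ η z Complex.I : ℝ) : ℂ)))
          atTop (𝓝 0))
    {z₀ : ℂ} {r : ℝ} (hsub : closedBall z₀ r ⊆ U) :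
    ∃ f : ℂ → ℂ, DifferentiableOn ℂ f (ball z₀ r) ∧
      Tendsto (fun n => eLpNorm (g n - f) 2 (volume.restrict (ball z₀ r))) atTop (𝓝 0) := by
  have hK : IsCompact (closedBall z₀ r) := isCompact_closedBall z₀ r
  have hgK : ∀ n, ContinuousOn (g n) (closedBall z₀ r) := fun n => (hg n).mono hsub
  obtain ⟨h, hh, hlim⟩ := l2_exists_limit hK g hgK (hcauchy _ hK hsub)
  have : IsFiniteMeasure (volume.restrict (closedBall z₀ r)) :=
    isFiniteMeasure_restrict.2 hK.measure_lt_top.ne
  have hint : IntegrableOn h (closedBall z₀ r) volume := hh.integrable (by norm_num)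
  have hloc : LocallyIntegrableOn h (ball z₀ r) volume :=
    (hint.mono_set ball_subset_closedBall).locallyIntegrableOn
  have hwk : WeakHolo (ball z₀ r) h := by
    intro η hη hc hs
    have hDK : ∀ z, z ∉ closedBall z₀ r → dbarR η z = 0 := fun z hz =>
      dbarR_eq_zero_of_notMem fun hz' => hz (ball_subset_closedBall (hs hz'))
    have h1 := l2_tendsto_integral_mul hK g hgK hh hlim (dbarR η) (continuous_dbarR hη) hDK
    have h2 := hweak η hη hc (hs.trans (ball_subset_closedBall.trans hsub))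
    have h3 : ∀ n, ∫ z, g n z * dbarR η z = (1 / 2 : ℂ) * ∫ z, g n z *
          (((fderiv ℝ η z 1 : ℝ) : ℂ) + Complex.I * ((fderiv ℝ η z Complex.I : ℝ) : ℂ)) := by
      intro n
      rw [← integral_const_mul]
      refine integral_congr_ae (ae_of_all _ fun z => ?_)
      simp only [dbarR]
      ring
    simp_rw [h3] at h1
    have h4 := h2.const_mul (1 / 2 : ℂ)
    rw [mul_zero] at h4
    exact tendsto_nhds_unique h1 h4
  obtain ⟨f, hf, hfe⟩ := weyl_dbar isOpen_ball h hloc hwk
  refine ⟨f, hf, ?_⟩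
  have hle : ∀ n, eLpNorm (g n - f) 2 (volume.restrict (ball z₀ r))
      ≤ eLpNorm (g n - h) 2 (volume.restrict (closedBall z₀ r)) := by
    intro n
    have e1 : eLpNorm (g n - f) 2 (volume.restrict (ball z₀ r))
        = eLpNorm (g n - h) 2 (volume.restrict (ball z₀ r)) := by
      refine eLpNorm_congr_ae ?_
      filter_upwards [hfe] with z hz
      simp only [Pi.sub_apply, hz]
    rw [e1]
    exact eLpNorm_mono_measure _ (Measure.restrict_mono ball_subset_closedBall le_rfl)
  exact tendsto_of_tendsto_of_tendsto_of_le_of_le tendsto_const_nhds hlim (fun n => bot_le) hle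

/-- Uniqueness of continuous `L²_loc` limits on overlaps. -/
lemma l2_limit_unique {g : ℕ → ℂ → ℂ} {V₁ V₂ : Set ℂ} (hV₁ : IsOpen V₁) (hV₂ : IsOpen V₂)
    (hg₁ : ∀ n, ContinuousOn (g n) V₁)
    {f₁ f₂ : ℂ → ℂ} (hf₁ : ContinuousOn f₁ V₁) (hf₂ : ContinuousOn f₂ V₂)
    (h₁ : Tendsto (fun n => eLpNorm (g n - f₁) 2 (volume.restrict V₁)) atTop (𝓝 0))
    (h₂ : Tendsto (fun n => eLpNorm (g n - f₂) 2 (volume.restrict V₂)) atTop (𝓝 0)) :
    EqOn f₁ f₂ (V₁ ∩ V₂) := by
  have hW : IsOpen (V₁ ∩ V₂) := hV₁.inter hV₂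
  have hm1 : ∀ n, AEStronglyMeasurable (g n - f₁) (volume.restrict (V₁ ∩ V₂)) := fun n =>
    (((hg₁ n).sub hf₁).mono inter_subset_left).aestronglyMeasurable hW.measurableSet
  have hm2 : ∀ n, AEStronglyMeasurable (g n - f₂) (volume.restrict (V₁ ∩ V₂)) := fun n =>
    ((((hg₁ n).mono inter_subset_left).sub (hf₂.mono inter_subset_right))).aestronglyMeasurable
      hW.measurableSet
  have hle : ∀ n, eLpNorm (f₁ - f₂) 2 (volume.restrict (V₁ ∩ V₂))
      ≤ eLpNorm (g n - f₂) 2 (volume.restrict V₂) + eLpNorm (g n - f₁) 2 (volume.restrict V₁) := by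
    intro n
    have e : f₁ - f₂ = (g n - f₂) - (g n - f₁) := by
      ext z; simp
    rw [e]
    refine (eLpNorm_sub_le (hm2 n) (hm1 n) (by norm_num)).trans ?_
    exact add_le_add
      (eLpNorm_mono_measure _ (Measure.restrict_mono inter_subset_right le_rfl))
      (eLpNorm_mono_measure _ (Measure.restrict_mono inter_subset_left le_rfl))
  have hlim : Tendsto (fun n => eLpNorm (g n - f₂) 2 (volume.restrict V₂)
      + eLpNorm (g n - f₁) 2 (volume.restrict V₁)) atTop (𝓝 (0 + 0)) := h₂.add h₁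
  rw [add_zero] at hlim
  have hz : eLpNorm (f₁ - f₂) 2 (volume.restrict (V₁ ∩ V₂)) = 0 :=
    le_antisymm (ge_of_tendsto' hlim hle) bot_le
  have hmf : AEStronglyMeasurable (f₁ - f₂) (volume.restrict (V₁ ∩ V₂)) :=
    ((hf₁.mono inter_subset_left).sub (hf₂.mono inter_subset_right)).aestronglyMeasurable
      hW.measurableSet
  rw [eLpNorm_eq_zero_iff hmf two_ne_zero] at hz
  refine Measure.eqOn_open_of_ae_eq (μ := (volume : Measure ℂ)) ?_ hW
    (hf₁.mono inter_subset_left) (hf₂.mono inter_subset_right)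
  filter_upwards [hz] with z hz
  simpa [sub_eq_zero] using hz

lemma l2_eLpNorm_union_le (F : ℂ → ℂ) (S T : Set ℂ) :
    eLpNorm F 2 (volume.restrict (S ∪ T))
      ≤ eLpNorm F 2 (volume.restrict S) + eLpNorm F 2 (volume.restrict T) := by
  simp only [eLpNorm_eq_lintegral_rpow_enorm_toReal (two_ne_zero) (ENNReal.ofNat_ne_top)]
  refine le_trans (ENNReal.rpow_le_rpow (lintegral_union_le _ S T) (by positivity)) ?_
  refine ENNReal.rpow_add_le_add_rpow _ _ (by positivity) ?_
  simp only [ENNReal.toReal_ofNat]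
  norm_num

lemma l2_tendsto_biUnion (F : ℕ → ℂ → ℂ) (S : ℂ → Set ℂ) (t : Finset ℂ)
    (h : ∀ i ∈ t, Tendsto (fun n => eLpNorm (F n) 2 (volume.restrict (S i))) atTop (𝓝 0)) :
    Tendsto (fun n => eLpNorm (F n) 2 (volume.restrict (⋃ i ∈ t, S i))) atTop (𝓝 0) := by
  classical
  induction t using Finset.induction_on with
  | empty => simp
  | insert a t ha ih =>
    have h1 := h a (Finset.mem_insert_self a t)
    have h2 := ih fun i hi => h i (Finset.mem_insert_of_mem hi)
    have h3 : Tendsto (fun n => eLpNorm (F n) 2 (volume.restrict (S a))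
        + eLpNorm (F n) 2 (volume.restrict (⋃ i ∈ t, S i))) atTop (𝓝 (0 + 0)) := h1.add h2
    rw [add_zero] at h3
    refine tendsto_of_tendsto_of_tendsto_of_le_of_le tendsto_const_nhds h3 (fun n => bot_le)
      fun n => ?_
    rw [Finset.set_biUnion_insert]
    exact l2_eLpNorm_union_le _ _ _

/-- **Weyl's lemma, `L²_loc`-limit form**, on an arbitrary open subset of `ℂ`. -/
theorem weyl_lemma_open {U : Set ℂ} (hU : IsOpen U) (g : ℕ → ℂ → ℂ)
    (hg : ∀ n, ContinuousOn (g n) U)
    (hcauchy : ∀ K : Set ℂ, IsCompact K → K ⊆ U → ∀ ε > 0, ∃ M, ∀ m ≥ M, ∀ n ≥ M,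
        ∫ z in K, ‖g n z - g m z‖ ^ 2 < ε)
    (hweak : ∀ η : ℂ → ℝ, ContDiff ℝ ∞ η → HasCompactSupport η → tsupport η ⊆ U →
        Tendsto (fun n => ∫ z, g n z *
          (((fderiv ℝ η z 1 : ℝ) : ℂ) + Complex.I * ((fderiv ℝ η z Complex.I : ℝ) : ℂ)))
          atTop (𝓝 0)) :
    ∃ f : ℂ → ℂ, DifferentiableOn ℂ f U ∧
      ∀ K : Set ℂ, IsCompact K → K ⊆ U →
        Tendsto (fun n => ∫ z in K, ‖g n z - f z‖ ^ 2) atTop (𝓝 0) := by
  -- local data
  have hloc : ∀ z ∈ U, ∃ r : ℝ, 0 < r ∧ closedBall z r ⊆ U ∧ ∃ f : ℂ → ℂ,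
      DifferentiableOn ℂ f (ball z r) ∧
      Tendsto (fun n => eLpNorm (g n - f) 2 (volume.restrict (ball z r))) atTop (𝓝 0) := by
    intro z hz
    obtain ⟨r, hr, hrU⟩ := Metric.nhds_basis_closedBall.mem_iff.mp (hU.mem_nhds hz)
    exact ⟨r, hr, hrU, weyl_l2_local g hg hcauchy hweak hrU⟩
  choose! r hr hrU F hF hFlim using hloc
  have hballU : ∀ z ∈ U, ball z (r z) ⊆ U := fun z hz =>
    ball_subset_closedBall.trans (hrU z hz)
  -- compatibility on overlaps
  have hcompat : ∀ z ∈ U, ∀ w ∈ U, EqOn (F z) (F w) (ball z (r z) ∩ ball w (r w)) :=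
    fun z hz w hw => l2_limit_unique isOpen_ball isOpen_ball
      (fun n => (hg n).mono (hballU z hz)) (hF z hz).continuousOn (hF w hw).continuousOn
      (hFlim z hz) (hFlim w hw)
  have hglue : ∀ z ∈ U, EqOn (fun w => F w w) (F z) (ball z (r z)) := by
    intro z hz w hw
    have hwU : w ∈ U := hballU z hz hw
    exact hcompat w hwU z hz ⟨mem_ball_self (hr w hwU), hw⟩
  refine ⟨fun w => F w w, ?_, ?_⟩
  · intro z hz
    have h1 : DifferentiableAt ℂ (F z) z :=
      (hF z hz).differentiableAt (isOpen_ball.mem_nhds (mem_ball_self (hr z hz)))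
    have h2 : (fun w => F w w) =ᶠ[𝓝 z] F z := by
      filter_upwards [isOpen_ball.mem_nhds (mem_ball_self (hr z hz))] with w hw
      exact hglue z hz hw
    exact (h2.differentiableAt_iff.2 h1).differentiableWithinAt
  · intro K hK hKU
    set f : ℂ → ℂ := fun w => F w w with hf
    have hfcont : ContinuousOn f U := by
      intro z hz
      have h1 : ContinuousAt (F z) z :=
        (hF z hz).continuousOn.continuousAt (isOpen_ball.mem_nhds (mem_ball_self (hr z hz)))
      have h2 : f =ᶠ[𝓝 z] F z := by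
        filter_upwards [isOpen_ball.mem_nhds (mem_ball_self (hr z hz))] with w hw
        exact hglue z hz hw
      exact (h1.congr h2.symm).continuousWithinAt
    obtain ⟨t, htK, hcov⟩ := hK.elim_nhds_subcover (fun z => ball z (r z))
      (fun z hz => isOpen_ball.mem_nhds (mem_ball_self (hr z (hKU hz))))
    have hlimU := l2_tendsto_biUnion (fun n => g n - f) (fun z => ball z (r z)) t (by
      intro z hz
      have hzU : z ∈ U := hKU (htK z hz)
      have e : ∀ n, eLpNorm (g n - f) 2 (volume.restrict (ball z (r z)))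
          = eLpNorm (g n - F z) 2 (volume.restrict (ball z (r z))) := by
        intro n
        refine eLpNorm_congr_ae ?_
        rw [Filter.EventuallyEq, ae_restrict_iff' measurableSet_ball]
        refine ae_of_all _ fun w hw => ?_
        simp only [Pi.sub_apply]
        rw [hglue z hzU hw]
      simp_rw [e]
      exact hFlim z hzU)
    have hlimK : Tendsto (fun n => eLpNorm (g n - f) 2 (volume.restrict K)) atTop (𝓝 0) :=
      tendsto_of_tendsto_of_tendsto_of_le_of_le tendsto_const_nhds hlimU (fun n => bot_le)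
        fun n => eLpNorm_mono_measure _ (Measure.restrict_mono hcov le_rfl)
    have hconv : ∀ n, ∫ z in K, ‖g n z - f z‖ ^ 2
        = (eLpNorm (g n - f) 2 (volume.restrict K)).toReal ^ 2 := fun n =>
      l2_integral_eq hK (((hg n).sub hfcont).mono hKU)
    simp_rw [hconv]
    have h1 := (ENNReal.tendsto_toReal ENNReal.zero_ne_top).comp hlimK
    have h2 := h1.pow 2
    simpa using h2

end

end Fermat.Agent.S21.H561

end
-- ===== PACK-END S21/H561/WeylL2.lean

-- ===== PACK-BEGIN S21/DefsMS.lean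
section


/-!
# S21 — definitions for the minimizing-sequence part (MS)
-/

set_option autoImplicit false

open UpperHalfPlane CongruenceSubgroup
open scoped MatrixGroups ContDiff

namespace Fermat.Agent.S21

/-- Test functions: smooth, compactly supported in the upper half plane. -/
def IsTest (η : ℂ → ℝ) : Prop :=
  ContDiff ℝ ∞ η ∧ HasCompactSupport η ∧ tsupport η ⊆ Uhp

/-- The properties of a smooth `SL(2,ℤ)`-partition of unity (output of MS-A). -/
structure IsSL2ZPartition (χ₁ : ℂ → ℝ) : Prop where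
  smooth : ContDiffOn ℝ ∞ χ₁ Uhp
  nonneg : ∀ z, 0 ≤ χ₁ z
  supp : ∀ z, χ₁ z ≠ 0 → |z.re| ≤ 1 ∧ 1 / 2 < z.im
  locfin : ∀ K : Set ℂ, IsCompact K → K ⊆ Uhp →
    {g : SL(2, ℤ) | ∃ z ∈ K, χ₁ (mob g z) ≠ 0}.Finite
  sum_eq_one : ∀ z ∈ Uhp, ∑ᶠ g : SL(2, ℤ), χ₁ (mob g z) = 1

/-- The `Γ₀(N)`-partition of unity built from an `SL(2,ℤ)`-partition `χ₁`
(sum over representatives of the left cosets `g Γ₀(N)`), extended by `0` off the upper half
plane. -/
noncomputable def chi (N : ℕ) (χ₁ : ℂ → ℝ) : ℂ → ℝ :=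
  Set.indicator Uhp fun z => ∑ᶠ q : SL(2, ℤ) ⧸ Gamma0 N, χ₁ (mob (Quotient.out q) z)

/-- `Γ₀(N)`-symmetrization of a test function. -/
noncomputable def sym (N : ℕ) (η : ℂ → ℝ) : ℂ → ℝ :=
  fun z => ∑ᶠ γ : Gamma0 N, η (mob (γ : SL(2, ℤ)) z)

end Fermat.Agent.S21

end
-- ===== PACK-END S21/DefsMS.lean

-- ===== PACK-BEGIN S23/H683/Descent.lean
section



set_option autoImplicit false
set_option linter.style.haveILetI false

/-!
# Galois descent for a finite-dimensional space of "q-expansions"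

`V` is a finite dimensional complex vector space with a jointly injective family of linear
functionals `a n` ("q-expansion coefficients").  If for every automorphism `σ` of `ℂ` and every
`f : V` there is a `g : V` with `a n g = σ (a n f)`, then `V` is spanned by the elements all of
whose coefficients are rational.
-/

namespace Fermat.Agent.S23.H683

open Module

theorem descent_span_dual_eq_top {V : Type*} [AddCommGroup V] [Module ℂ V] [FiniteDimensional ℂ V]
    (a : ℕ → V →ₗ[ℂ] ℂ) (hinj : ∀ f, (∀ n, a n f = 0) → f = 0) :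
    Submodule.span ℂ (Set.range a) = (⊤ : Submodule ℂ (Module.Dual ℂ V)) := by
  have h1 : (Submodule.span ℂ (Set.range a) : Submodule ℂ (Module.Dual ℂ V)).dualCoannihilator
      = ⊥ := by
    rw [eq_bot_iff]
    intro f hf
    rw [Submodule.mem_dualCoannihilator] at hf
    rw [Submodule.mem_bot]
    exact hinj f fun n => hf (a n) (Submodule.subset_span ⟨n, rfl⟩)
  have h2 := Subspace.dualCoannihilator_dualAnnihilator_eq
    (W := (Submodule.span ℂ (Set.range a) : Subspace ℂ (Module.Dual ℂ V)))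
  rw [h1] at h2
  rw [← h2]
  simp

theorem descent {V : Type*} [AddCommGroup V] [Module ℂ V] [FiniteDimensional ℂ V]
    (a : ℕ → V →ₗ[ℂ] ℂ) (hinj : ∀ f, (∀ n, a n f = 0) → f = 0)
    (hσ : ∀ (σ : ℂ ≃+* ℂ) (f : V), ∃ g : V, ∀ n, a n g = σ (a n f)) :
    Submodule.span ℂ {f : V | ∀ n, ∃ r : ℚ, a n f = (r : ℂ)} = ⊤ := by
  classical
  have hS := descent_span_dual_eq_top a hinj
  obtain ⟨b, hbS, hbspan, hbli⟩ := exists_linearIndependent ℂ (Set.range a)
  let B : Basis b ℂ (Module.Dual ℂ V) :=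
    Basis.mk hbli (by rw [Subtype.range_coe, hbspan, hS])
  haveI : Finite b := Module.Finite.finite_basis B
  haveI : Fintype b := Fintype.ofFinite b
  have hBi : ∀ i : b, B i = (i : Module.Dual ℂ V) := fun i => by simp [B]
  let F : Basis b ℂ V := B.dualBasis.map (Module.evalEquiv ℂ V).symm
  have hBF : ∀ i j : b, (B i) (F j) = if j = i then 1 else 0 := by
    intro i j
    have h1 : Module.evalEquiv ℂ V (F j) = B.dualBasis j := by
      simp [F]
    have h2 : (B i) (F j) = Module.evalEquiv ℂ V (F j) (B i) := by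
      simp
    rw [h2, h1, Basis.dualBasis_apply_self]
    by_cases h : i = j
    · simp [h]
    · simp [h, Ne.symm h]
  have hsep : ∀ g g' : V, (∀ i : b, B i g = B i g') → g = g' := by
    intro g g' h
    apply (Module.evalEquiv ℂ V).injective
    apply B.ext
    intro i
    simpa using h i
  have hn : ∀ i : b, ∃ n : ℕ, a n = B i := fun i => by
    rw [hBi]
    exact hbS i.2
  choose n hn using hn
  have hmem : ∀ j : b, F j ∈ {f : V | ∀ n, ∃ r : ℚ, a n f = (r : ℂ)} := by
    intro j m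
    have hfix : ∀ σ : ℂ ≃+* ℂ, σ (a m (F j)) = a m (F j) := by
      intro σ
      obtain ⟨g, hg⟩ := hσ σ (F j)
      have hgF : g = F j := by
        apply hsep
        intro i
        rw [← hn i, hg, hn i, hBF]
        split_ifs <;> simp
      rw [← hg m, hgF]
    obtain ⟨r, hr⟩ := Fermat.Agent.S23.mem_range_ratCast_of_forall_ringEquiv _ hfix
    exact ⟨r, hr.symm⟩
  rw [eq_top_iff, ← F.span_eq]
  apply Submodule.span_mono
  rintro _ ⟨j, rfl⟩
  exact hmem j

end Fermat.Agent.S23.H683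

end
-- ===== PACK-END S23/H683/Descent.lean

-- ===== PACK-BEGIN S18/H602/Sep.lean
section


/-!
# Separability from a derivation  (helper602, S18 / MOD piece SEP, part 2)

Let `k` be a perfect field, `L ⊇ k` a field with a `k`-derivation `D : L → L`, and `x ∈ L` with
`D x ≠ 0`.  Then

* `transcendental_of_derivation_ne_zero` : `x` is transcendental over `k`;
* `separable_minpoly_of_derivation` : every `y ∈ L` integral over `k(x)` has separable minimal
  polynomial over `k(x)`;
* `isSeparable_of_derivation` : the same as `IsSeparable k⟮x⟯ y`.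

Specialised to `L = k((q))`, `D = d/dq`:

* `laurent_transcendental`, `laurent_separable_minpoly`, `laurent_isSeparable`.
-/

set_option autoImplicit false

noncomputable section

namespace Fermat.Agent.S18.H602

open Polynomial IntermediateField

section Generic

variable {k L : Type*} [Field k] [Field L] [Algebra k L]

/-- If `D x ≠ 0` for a `k`-derivation `D` and `k` is perfect, then `x` is transcendental. -/
theorem transcendental_of_derivation_ne_zero [PerfectField k] (D : Derivation k L L) (x : L)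
    (hx : D x ≠ 0) : Transcendental k x := by
  intro halg
  have hint : IsIntegral k x := halg.isIntegral
  have hsep : (minpoly k x).Separable :=
    PerfectField.separable_of_irreducible (minpoly.irreducible hint)
  have h0 : aeval x (minpoly k x) = 0 := minpoly.aeval k x
  have h1 := D.map_aeval (minpoly k x) x
  rw [h0, map_zero] at h1
  have h2 := hsep.aeval_derivative_ne_zero h0
  rcases smul_eq_zero.mp h1.symm with h | h
  · exact h2 h
  · exact hx h

theorem aeval_mem_adjoin_simple (x : L) (r : k[X]) : aeval x r ∈ k⟮x⟯ :=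
  (mem_adjoin_simple_iff k _).mpr ⟨r, 1, by simp⟩

/-- For `c ∈ k(x)`, `D c ∈ k(x) · D x`. -/
theorem exists_mem_adjoin_derivation_eq (D : Derivation k L L) (x : L) {c : L}
    (hc : c ∈ k⟮x⟯) : ∃ c' ∈ k⟮x⟯, D c = c' * D x := by
  obtain ⟨r, s, rfl⟩ := (mem_adjoin_simple_iff k c).mp hc
  refine ⟨((aeval x s)⁻¹ ^ 2 *
    (aeval x s * aeval x (derivative r) - aeval x r * aeval x (derivative s))), ?_, ?_⟩
  · exact mul_mem (pow_mem (inv_mem (aeval_mem_adjoin_simple x s)) 2)
      (sub_mem (mul_mem (aeval_mem_adjoin_simple x s) (aeval_mem_adjoin_simple x _))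
        (mul_mem (aeval_mem_adjoin_simple x r) (aeval_mem_adjoin_simple x _)))
  · rw [Derivation.leibniz_div, D.map_aeval, D.map_aeval]
    simp only [smul_eq_mul]
    ring

/-- Kernel of `D` on `k(x)`: `p`-th powers. -/
theorem exists_pow_eq_of_derivation_eq_zero [PerfectField k] (p : ℕ) [hp : Fact p.Prime]
    [CharP k p] (D : Derivation k L L) (x : L) (hx : D x ≠ 0) {c : L} (hc : c ∈ k⟮x⟯)
    (hDc : D c = 0) : ∃ d ∈ k⟮x⟯, d ^ p = c := by
  have : CharP L p := charP_of_injective_algebraMap (algebraMap k L).injective p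
  obtain ⟨r, s, rfl⟩ := (mem_adjoin_simple_iff k c).mp hc
  by_cases hs : aeval x s = 0
  · refine ⟨0, zero_mem _, ?_⟩
    rw [hs, div_zero, zero_pow hp.out.ne_zero]
  set R := r * s ^ (p - 1) with hR
  have hpow : (aeval x s) ^ p = aeval x s ^ (p - 1) * aeval x s := by
    rw [← pow_succ, Nat.sub_add_cancel hp.out.one_le]
  have hRx : aeval x R = (aeval x r / aeval x s) * (aeval x s) ^ p := by
    rw [hR, map_mul, map_pow, hpow]
    field_simp
  have hDR : D (aeval x R) = 0 := by
    rw [hRx, D.leibniz, hDc, smul_zero, add_zero, D.leibniz_pow]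
    simp [CharP.cast_eq_zero]
  have hR' : derivative R = 0 := by
    have h1 := D.map_aeval R x
    rw [hDR] at h1
    rcases smul_eq_zero.mp h1.symm with h | h
    · exact (transcendental_iff.mp (transcendental_of_derivation_ne_zero D x hx)) _ h
    · exact absurd h hx
  have hexp := expand_contract p hR' hp.out.ne_zero
  have : ExpChar k p := ExpChar.prime hp.out
  have : PerfectRing k p := PerfectField.toPerfectRing p
  rw [polynomial_expand_eq] at hexp
  refine ⟨aeval x (map ((frobeniusEquiv k p).symm : k →+* k) (contract p R)) / aeval x s,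
    ?_, ?_⟩
  · exact (mem_adjoin_simple_iff k _).mpr ⟨_, s, rfl⟩
  · rw [div_pow, ← map_pow, hexp, hRx]
    field_simp

/-- **Separability from a derivation**, characteristic `p`. -/
theorem separable_minpoly_of_derivation_charP [PerfectField k] (p : ℕ) [hp : Fact p.Prime]
    [CharP k p] (D : Derivation k L L) (x : L) (hx : D x ≠ 0) (y : L)
    (hy : IsIntegral k⟮x⟯ y) : (minpoly k⟮x⟯ y).Separable := by
  have hK : CharP k⟮x⟯ p := charP_of_injective_algebraMap (algebraMap k k⟮x⟯).injective p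
  have hL : CharP L p := charP_of_injective_algebraMap (algebraMap k L).injective p
  have hE : ExpChar k⟮x⟯ p := ExpChar.prime hp.out
  have hirr := minpoly.irreducible hy
  rcases separable_or p hirr with h | ⟨-, g, hg, hgP⟩
  · exact h
  exfalso
  have hgm : g.Monic := (monic_expand_iff hp.out.pos).mp (hgP ▸ minpoly.monic hy)
  have h0 : aeval (y ^ p) g = 0 := by
    rw [← expand_aeval, hgP]
    exact minpoly.aeval _ y
  have hgmin : g = minpoly k⟮x⟯ (y ^ p) := minpoly.eq_of_irreducible_of_monic hg h0 hgm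
  -- the derivative function `δ` on `k(x)`
  have hδ : ∀ c : k⟮x⟯, ∃ c' : k⟮x⟯, D (c : L) = (c' : L) * D x := fun c => by
    obtain ⟨c', hc', h⟩ := exists_mem_adjoin_derivation_eq D x c.2
    exact ⟨⟨c', hc'⟩, h⟩
  choose δ hδ using hδ
  have hδ0 : ∀ c : k⟮x⟯, δ c = 0 → D (c : L) = 0 := fun c hc => by
    rw [hδ c, hc, ZeroMemClass.coe_zero, zero_mul]
  have hδ1 : δ 1 = 0 := by
    have h1 := hδ 1
    rw [OneMemClass.coe_one, D.map_one_eq_zero] at h1
    rcases mul_eq_zero.mp h1.symm with h | h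
    · exact Subtype.ext h
    · exact absurd h hx
  have hDyp : D (y ^ p) = 0 := by
    rw [D.leibniz_pow]
    simp [CharP.cast_eq_zero]
  have hDypj : ∀ j : ℕ, D ((y ^ p) ^ j) = 0 := fun j => by
    rw [D.leibniz_pow, hDyp, smul_zero, smul_zero]
  set n := g.natDegree with hn
  set G : (k⟮x⟯)[X] := ∑ j ∈ Finset.range (n + 1), monomial j (δ (g.coeff j)) with hG
  have hGcoeff : ∀ m, G.coeff m = if m < n + 1 then δ (g.coeff m) else 0 := fun m => by
    rw [hG, finsetSum_coeff]
    simp only [coeff_monomial]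
    rw [Finset.sum_ite_eq' (Finset.range (n + 1)) m]
    simp only [Finset.mem_range]
  have hGy : aeval (y ^ p) G = 0 := by
    have h1 : D (aeval (y ^ p) g) = 0 := by rw [h0, map_zero]
    rw [aeval_eq_sum_range, map_sum] at h1
    have h2 : aeval (y ^ p) G * D x = 0 := by
      rw [hG, map_sum, Finset.sum_mul, ← h1]
      refine Finset.sum_congr rfl fun j _ => ?_
      rw [aeval_monomial, Algebra.smul_def, D.leibniz, hDypj, smul_zero, zero_add,
        IntermediateField.algebraMap_apply, IntermediateField.algebraMap_apply, hδ,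
        smul_eq_mul]
      ring
    rcases mul_eq_zero.mp h2 with h | h
    · exact h
    · exact absurd h hx
  have hG0 : G = 0 := by
    by_contra hne
    have hle := minpoly.degree_le_of_ne_zero k⟮x⟯ (y ^ p) hne hGy
    rw [← hgmin] at hle
    have hlt : G.degree < g.degree := by
      rw [degree_eq_natDegree hgm.ne_zero, degree_lt_iff_coeff_zero]
      intro m hm
      rw [hGcoeff]
      split_ifs with h
      · have : m = n := by omega
        rw [this, hn, hgm.coeff_natDegree, hδ1]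
      · rfl
    exact absurd hle (not_le.mpr hlt)
  have hcoeff : ∀ j, D ((g.coeff j : k⟮x⟯) : L) = 0 := fun j => by
    by_cases hj : j < n + 1
    · apply hδ0
      have := hGcoeff j
      rw [if_pos hj, hG0, coeff_zero] at this
      exact this.symm
    · rw [coeff_eq_zero_of_natDegree_lt (by omega), ZeroMemClass.coe_zero, map_zero]
  have hlift : g ∈ lifts (frobenius k⟮x⟯ p) := by
    rw [lifts_iff_coeff_lifts]
    intro j
    obtain ⟨d, hd, hdp⟩ := exists_pow_eq_of_derivation_eq_zero p D x hx (g.coeff j).2 (hcoeff j)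
    exact ⟨⟨d, hd⟩, Subtype.ext (by simpa [frobenius_def] using hdp)⟩
  obtain ⟨g₀, hg₀⟩ := (mem_lifts g).mp hlift
  have hpow : minpoly k⟮x⟯ y = g₀ ^ p := by
    rw [← hgP, ← hg₀, ← map_expand, map_frobenius_expand]
  rw [hpow] at hirr
  exact not_irreducible_pow hp.out.ne_one hirr

/-- **Separability from a derivation.**  `k` perfect, `D : L → L` a `k`-derivation of the field
`L`, `D x ≠ 0`: every `y ∈ L` integral over `k(x)` has separable minimal polynomial. -/
theorem separable_minpoly_of_derivation [PerfectField k] (D : Derivation k L L) (x : L)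
    (hx : D x ≠ 0) (y : L) (hy : IsIntegral k⟮x⟯ y) : (minpoly k⟮x⟯ y).Separable := by
  obtain ⟨p, hp⟩ := CharP.exists k
  rcases CharP.char_is_prime_or_zero k p with h | h
  · have : Fact p.Prime := ⟨h⟩
    exact separable_minpoly_of_derivation_charP p D x hx y hy
  · subst h
    have : CharZero k := CharP.charP_to_charZero k
    have : CharZero k⟮x⟯ := charZero_of_injective_algebraMap (algebraMap k k⟮x⟯).injective
    exact PerfectField.separable_of_irreducible (minpoly.irreducible hy)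

/-- The same, as `IsSeparable`. -/
theorem isSeparable_of_derivation [PerfectField k] (D : Derivation k L L) (x : L)
    (hx : D x ≠ 0) (y : L) (hy : IsIntegral k⟮x⟯ y) : IsSeparable k⟮x⟯ y :=
  separable_minpoly_of_derivation D x hx y hy

/-- Consequently the relative separable closure of `k(x)` in `L` is all of the algebraic
closure: any intermediate field `k(x) ≤ F ≤ L` algebraic over `k(x)` is separable over `k(x)`. -/
theorem isSeparable_of_derivation_of_isAlgebraic [PerfectField k] (D : Derivation k L L) (x : L)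
    (hx : D x ≠ 0) (F : IntermediateField k⟮x⟯ L) [Algebra.IsAlgebraic k⟮x⟯ F] :
    Algebra.IsSeparable k⟮x⟯ F := by
  refine ⟨fun z => ?_⟩
  have hz : IsIntegral k⟮x⟯ (z : L) :=
    (isIntegral_algebraMap_iff (algebraMap F L).injective).mpr
      (Algebra.IsIntegral.isIntegral (R := k⟮x⟯) z)
  have := separable_minpoly_of_derivation D x hx (z : L) hz
  rwa [IsSeparable, ← minpoly.algebraMap_eq (algebraMap F L).injective z]

/-- Clearing denominators: a polynomial over `k(x)`, multiplied by a suitable nonzero element of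
`k[x]`, has coefficients in `k[x]`. -/
theorem exists_clear_denominators (x : L) (m : (k⟮x⟯)[X]) :
    ∃ (s : k[X]) (P : k[X][X]), aeval x s ≠ 0 ∧
      P.map (aeval x : k[X] →ₐ[k] L).toRingHom = C (aeval x s) * m.map (algebraMap k⟮x⟯ L) := by
  induction m using Polynomial.induction_on' with
  | add m₁ m₂ h₁ h₂ =>
    obtain ⟨s₁, P₁, hs₁, hP₁⟩ := h₁
    obtain ⟨s₂, P₂, hs₂, hP₂⟩ := h₂
    refine ⟨s₁ * s₂, C s₂ * P₁ + C s₁ * P₂, ?_, ?_⟩
    · rw [map_mul]
      exact mul_ne_zero hs₁ hs₂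
    · rw [Polynomial.map_add, Polynomial.map_mul, Polynomial.map_mul, hP₁, hP₂, map_C, map_C,
        Polynomial.map_add, map_mul, C_mul]
      simp only [AlgHom.toRingHom_eq_coe, RingHom.coe_coe]
      ring
  | monomial n c =>
    obtain ⟨r, s, hc⟩ := (mem_adjoin_simple_iff k (c : L)).mp c.2
    by_cases hs : aeval x s = 0
    · refine ⟨1, 0, by simp, ?_⟩
      have hc0 : algebraMap k⟮x⟯ L c = 0 := by
        rw [IntermediateField.algebraMap_apply, hc, hs, div_zero]
      rw [Polynomial.map_zero, map_monomial, hc0, monomial_zero_right, mul_zero]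
    · refine ⟨s, monomial n r, hs, ?_⟩
      rw [map_monomial, map_monomial, C_mul_monomial, IntermediateField.algebraMap_apply, hc,
        mul_div_cancel₀ _ hs]
      rfl

/-- **Separability, polynomial form.**  `k` perfect, `D x ≠ 0`, `y` algebraic over `k(x)`:
there is `P ∈ k[X][T]` with `P(x, y) = 0` and `(∂P/∂T)(x, y) ≠ 0`. -/
theorem exists_sep_poly_of_derivation [PerfectField k] (D : Derivation k L L) (x : L)
    (hx : D x ≠ 0) (y : L) (hy : IsIntegral k⟮x⟯ y) :
    ∃ P : k[X][X], eval₂ (aeval x : k[X] →ₐ[k] L).toRingHom y P = 0 ∧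
      eval₂ (aeval x : k[X] →ₐ[k] L).toRingHom y (derivative P) ≠ 0 := by
  have hsep := separable_minpoly_of_derivation D x hx y hy
  obtain ⟨s, P, hs, hP⟩ := exists_clear_denominators x (minpoly k⟮x⟯ y)
  refine ⟨P, ?_, ?_⟩
  · rw [eval₂_eq_eval_map, hP, eval_mul, eval_C, eval_map_algebraMap, minpoly.aeval, mul_zero]
  · rw [eval₂_eq_eval_map, ← derivative_map, hP, derivative_mul, derivative_C, zero_mul,
      zero_add, eval_mul, eval_C, derivative_map, eval_map_algebraMap]
    exact mul_ne_zero hs (hsep.aeval_derivative_ne_zero (minpoly.aeval _ y))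

end Generic

section Laurent

/-- `Derivation k L L` for a field extension, with the `k`-module structure on `L` coming from
the algebra structure (for `L = k((q))` Mathlib has a second, non-defeq, instance path). -/
abbrev FieldDerivation (k L : Type*) [Field k] [Field L] [Algebra k L] : Type _ :=
  Derivation k L L

variable {k : Type*} [Field k]

/-- `d/dq` as a `k`-derivation of the field `k((q))` (algebra-module structure). -/
def dqDerAlg (k : Type*) [Field k] : FieldDerivation k (LaurentSeries k) :=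
  letI : Module k (LaurentSeries k) := Algebra.toModule
  { toFun := dq
    map_add' := dq_add
    map_smul' := fun c f => by
      rw [Algebra.smul_def, dq_mul, dq_algebraMap, mul_zero, add_zero, RingHom.id_apply,
        Algebra.smul_def]
    map_one_eq_zero' := dq_one
    leibniz' := fun a b => by
      have := dq_mul a b
      simpa [smul_eq_mul] using this }

@[simp]
theorem dqDerAlg_apply (f : LaurentSeries k) : dqDerAlg k f = dq f := rfl

/-- Criterion for `dx/dq ≠ 0`: some coefficient `a_n` with `n · a_n ≠ 0`. -/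
theorem dq_ne_zero_of_coeff (x : LaurentSeries k) (n : ℤ) (h : (n : k) * x.coeff n ≠ 0) :
    dq x ≠ 0 := by
  intro h0
  have h1 : (dq x).coeff (n - 1) = (n : k) * x.coeff n := by
    rw [dq_coeff, sub_add_cancel, zsmul_eq_mul]
  rw [h0, HahnSeries.coeff_zero] at h1
  exact h h1.symm

/-- `x = a q⁻¹ + …` with `a ≠ 0` (e.g. `x = j`) has `dx/dq ≠ 0`, in any characteristic. -/
theorem dq_ne_zero_of_coeff_neg_one (x : LaurentSeries k) (h : x.coeff (-1) ≠ 0) : dq x ≠ 0 := by
  refine dq_ne_zero_of_coeff x (-1) ?_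
  simpa using h

/-- `x = … + a q + …` with `a ≠ 0` (e.g. `x = 1/j`) has `dx/dq ≠ 0`, in any characteristic. -/
theorem dq_ne_zero_of_coeff_one (x : LaurentSeries k) (h : x.coeff 1 ≠ 0) : dq x ≠ 0 := by
  refine dq_ne_zero_of_coeff x 1 ?_
  simpa using h

variable [PerfectField k]

/-- `x ∈ k((q))` with `dx/dq ≠ 0` is transcendental over the perfect field `k`. -/
theorem laurent_transcendental (x : LaurentSeries k) (hx : dq x ≠ 0) : Transcendental k x :=
  have hx' : dqDerAlg k x ≠ 0 := hx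
  transcendental_of_derivation_ne_zero (dqDerAlg k) x hx'

/-- **SEP.**  `k` perfect, `x ∈ k((q))` with `dx/dq ≠ 0`: every `y ∈ k((q))` algebraic over `k(x)`
has separable minimal polynomial over `k(x)`. -/
theorem laurent_separable_minpoly (x : LaurentSeries k) (hx : dq x ≠ 0) (y : LaurentSeries k)
    (hy : IsIntegral k⟮x⟯ y) : (minpoly k⟮x⟯ y).Separable :=
  have hx' : dqDerAlg k x ≠ 0 := hx
  separable_minpoly_of_derivation (dqDerAlg k) x hx' y hy

theorem laurent_isSeparable (x : LaurentSeries k) (hx : dq x ≠ 0) (y : LaurentSeries k)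
    (hy : IsAlgebraic k⟮x⟯ y) : IsSeparable k⟮x⟯ y :=
  laurent_separable_minpoly x hx y hy.isIntegral

/-- Any intermediate field of `k((q)) / k(x)` algebraic over `k(x)` is separable over `k(x)`. -/
theorem laurent_algebra_isSeparable (x : LaurentSeries k) (hx : dq x ≠ 0)
    (F : IntermediateField k⟮x⟯ (LaurentSeries k)) [Algebra.IsAlgebraic k⟮x⟯ F] :
    Algebra.IsSeparable k⟮x⟯ F :=
  have hx' : dqDerAlg k x ≠ 0 := hx
  isSeparable_of_derivation_of_isAlgebraic (dqDerAlg k) x hx' F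

/-- **SEP, polynomial form**: `P ∈ k[X][T]` with `P(x, y) = 0`, `(∂P/∂T)(x, y) ≠ 0`. -/
theorem laurent_exists_sep_poly (x : LaurentSeries k) (hx : dq x ≠ 0) (y : LaurentSeries k)
    (hy : IsAlgebraic k⟮x⟯ y) :
    ∃ P : k[X][X], eval₂ (aeval x : k[X] →ₐ[k] LaurentSeries k).toRingHom y P = 0 ∧
      eval₂ (aeval x : k[X] →ₐ[k] LaurentSeries k).toRingHom y (derivative P) ≠ 0 :=
  have hx' : dqDerAlg k x ≠ 0 := hx
  exists_sep_poly_of_derivation (dqDerAlg k) x hx' y hy.isIntegral

end Laurent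

end Fermat.Agent.S18.H602

end
end
-- ===== PACK-END S18/H602/Sep.lean

-- ===== PACK-BEGIN S37/H940/PlaceBasic.lean
section




/-!
# S37 / RIM (helper940): basic vocabulary on places

`InMax P f` : `f` lies in the maximal ideal of the place `P` (`f = 0` or `ord_P f > 0`);
closure properties; uniqueness of the value of a function at a place.
Everything is characteristic free.
-/

set_option autoImplicit false

namespace Fermat.Agent.S37.H940

open AlgebraicCurve
open Fermat.Agent.S24.FF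

variable {K F : Type*} [Field K] [Field F] [Algebra K F]

/-- `f` lies in the maximal ideal of the place `P`. -/
def InMax (P : Place K F) (f : F) : Prop := f = 0 ∨ 0 < P.ord f

theorem inMax_zero (P : Place K F) : InMax P (0 : F) := Or.inl rfl

theorem inMax_of_ord_pos {P : Place K F} {f : F} (h : 0 < P.ord f) : InMax P f := Or.inr h

theorem InMax.ord_pos {P : Place K F} {f : F} (h : InMax P f) (hf : f ≠ 0) : 0 < P.ord f :=
  h.resolve_left hf

theorem InMax.ord_nonneg {P : Place K F} {f : F} (h : InMax P f) : 0 ≤ P.ord f := by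
  rcases h with rfl | h
  · simp
  · exact h.le

theorem inMax_iff_mem_nonunits {P : Place K F} {f : F} :
    InMax P f ↔ f ∈ P.toValuationSubring.nonunits := by
  rcases eq_or_ne f 0 with rfl | hf
  · refine ⟨fun _ => ?_, fun _ => inMax_zero P⟩
    rw [ValuationSubring.mem_nonunits_iff_exists_mem_maximalIdeal]
    exact ⟨zero_mem _, Ideal.zero_mem _⟩
  · rw [← ord_pos_iff_mem_nonunits P hf]
    exact ⟨fun h => h.ord_pos hf, inMax_of_ord_pos⟩

theorem inMax_iff_exists_mem_maximalIdeal {P : Place K F} {f : F} :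
    InMax P f ↔ ∃ h : f ∈ P.toValuationSubring,
      (⟨f, h⟩ : P.toValuationSubring) ∈ IsLocalRing.maximalIdeal P.toValuationSubring := by
  rw [inMax_iff_mem_nonunits, ValuationSubring.mem_nonunits_iff_exists_mem_maximalIdeal]

theorem InMax.add {P : Place K F} {f g : F} (hf : InMax P f) (hg : InMax P g) :
    InMax P (f + g) := by
  rw [inMax_iff_exists_mem_maximalIdeal] at hf hg ⊢
  obtain ⟨hf1, hf2⟩ := hf
  obtain ⟨hg1, hg2⟩ := hg
  exact ⟨add_mem hf1 hg1, Ideal.add_mem _ hf2 hg2⟩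

theorem InMax.neg {P : Place K F} {f : F} (hf : InMax P f) : InMax P (-f) := by
  rw [inMax_iff_exists_mem_maximalIdeal] at hf ⊢
  obtain ⟨hf1, hf2⟩ := hf
  exact ⟨neg_mem hf1, Ideal.neg_mem_iff _ |>.mpr hf2⟩

theorem InMax.sub {P : Place K F} {f g : F} (hf : InMax P f) (hg : InMax P g) :
    InMax P (f - g) := by
  rw [sub_eq_add_neg]
  exact hf.add hg.neg

theorem InMax.mul_of_ord_nonneg {P : Place K F} {f g : F} (hf : InMax P f) (hg : 0 ≤ P.ord g) :
    InMax P (f * g) := by
  rw [inMax_iff_exists_mem_maximalIdeal] at hf ⊢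
  obtain ⟨hf1, hf2⟩ := hf
  have hg1 : g ∈ P.toValuationSubring := mem_of_ord_nonneg P hg
  exact ⟨mul_mem hf1 hg1, Ideal.mul_mem_right ⟨g, hg1⟩ _ hf2⟩

theorem InMax.ord_nonneg_mul {P : Place K F} {f g : F} (hg : 0 ≤ P.ord g) (hf : InMax P f) :
    InMax P (g * f) := by
  rw [mul_comm]
  exact hf.mul_of_ord_nonneg hg

theorem InMax.const_mul {P : Place K F} {f : F} (hf : InMax P f) (c : K) :
    InMax P (algebraMap K F c * f) :=
  hf.ord_nonneg_mul (ord_algebraMap P c).ge

theorem not_inMax_one (P : Place K F) : ¬ InMax P (1 : F) := by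
  rintro (h | h)
  · exact one_ne_zero h
  · simp at h

theorem not_inMax_of_ord_eq_zero {P : Place K F} {f : F} (hf : f ≠ 0) (h : P.ord f = 0) :
    ¬ InMax P f := by
  rintro (h0 | h0)
  · exact hf h0
  · omega

theorem inMax_algebraMap_iff {P : Place K F} {c : K} : InMax P (algebraMap K F c) ↔ c = 0 := by
  constructor
  · rintro (h | h)
    · exact (map_eq_zero_iff _ (algebraMap K F).injective).mp h
    · rw [ord_algebraMap] at h
      exact absurd h (lt_irrefl _)
  · rintro rfl
    rw [map_zero]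
    exact inMax_zero P

/-- the value of a function at a place is unique -/
theorem value_unique {P : Place K F} {f : F} {a b : K}
    (ha : InMax P (f - algebraMap K F a)) (hb : InMax P (f - algebraMap K F b)) : a = b := by
  have h := hb.sub ha
  have e : f - algebraMap K F b - (f - algebraMap K F a) = algebraMap K F (a - b) := by
    rw [map_sub]; ring
  rw [e, inMax_algebraMap_iff] at h
  exact sub_eq_zero.mp h

/-- a function congruent to a constant modulo the maximal ideal is regular -/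
theorem ord_nonneg_of_inMax_sub {P : Place K F} {f : F} {a : K}
    (h : InMax P (f - algebraMap K F a)) : 0 ≤ P.ord f := by
  have h1 : f - algebraMap K F a ∈ P.toValuationSubring := mem_of_ord_nonneg P h.ord_nonneg
  have h2 : f = (f - algebraMap K F a) + algebraMap K F a := by ring
  rw [h2]
  exact ord_nonneg_of_mem P (add_mem h1 (P.algebraMap_mem' a))

/-- a function with a nonzero value is a unit at the place -/
theorem ord_eq_zero_of_inMax_sub {P : Place K F} {f : F} {a : K}
    (h : InMax P (f - algebraMap K F a)) (ha : a ≠ 0) : P.ord f = 0 := by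
  have h0 := ord_nonneg_of_inMax_sub h
  by_contra hne
  have hpos : 0 < P.ord f := lt_of_le_of_ne h0 (Ne.symm hne)
  have h1 : InMax P f := inMax_of_ord_pos hpos
  have h2 := h1.sub h
  rw [sub_sub_cancel, inMax_algebraMap_iff] at h2
  exact ha h2

theorem ord_neg (P : Place K F) (f : F) : P.ord (-f) = P.ord f := by
  rcases eq_or_ne f 0 with rfl | hf
  · simp
  have h1 : P.ord (-1 : F) = 0 := by
    have := ord_algebraMap P (-1 : K)
    simpa using this
  rw [neg_eq_neg_one_mul, P.ord_mul (neg_ne_zero.mpr one_ne_zero) hf, h1, zero_add]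

theorem ord_const_mul (P : Place K F) {c : K} (hc : c ≠ 0) (f : F) :
    P.ord (algebraMap K F c * f) = P.ord f := by
  rcases eq_or_ne f 0 with rfl | hf
  · simp
  have hc' : algebraMap K F c ≠ 0 := by
    rwa [Ne, map_eq_zero_iff _ (algebraMap K F).injective]
  rw [P.ord_mul hc' hf, ord_algebraMap, zero_add]

theorem ord_nonneg_add {P : Place K F} {f g : F} (hf : 0 ≤ P.ord f) (hg : 0 ≤ P.ord g) :
    0 ≤ P.ord (f + g) :=
  ord_nonneg_of_mem P (add_mem (mem_of_ord_nonneg P hf) (mem_of_ord_nonneg P hg))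

theorem ord_nonneg_sub {P : Place K F} {f g : F} (hf : 0 ≤ P.ord f) (hg : 0 ≤ P.ord g) :
    0 ≤ P.ord (f - g) :=
  ord_nonneg_of_mem P (sub_mem (mem_of_ord_nonneg P hf) (mem_of_ord_nonneg P hg))

theorem ord_nonneg_mul {P : Place K F} {f g : F} (hf : 0 ≤ P.ord f) (hg : 0 ≤ P.ord g) :
    0 ≤ P.ord (f * g) :=
  ord_nonneg_of_mem P (mul_mem (mem_of_ord_nonneg P hf) (mem_of_ord_nonneg P hg))

theorem ord_nonneg_const (P : Place K F) (c : K) : 0 ≤ P.ord (algebraMap K F c) :=
  (ord_algebraMap P c).ge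

end Fermat.Agent.S37.H940

end
-- ===== PACK-END S37/H940/PlaceBasic.lean

-- ===== PACK-BEGIN S37/Red/H759/Passage.lean
section
/-
S37-RED, piece E4(c) "passage R_E → A" for (H3) (helper759).  Mathlib + Prelude only.

`A ⊆ Q̄` a valuation subring, `k = A/𝔪`.  The number fields `E ⊆ Q̄` form a directed family,
`A = ⋃ (A ∩ E)`, `k = ⋃ κ_E` (`κ_E` = image of `A ∩ E` in `k`).

* `constk A E`  : the constants of `k((q))` coming from `A ∩ E`   (`= κ_E ⊆ k((q))`)
* `constA A E`  : the constants of `Q̄((q))` coming from `A ∩ E`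
* `constE E`    : the constants of `Q̄((q))` coming from `E`
* `exists_numberField_k` : `c ∈ F_{N,k}` integral over `k[s]` ⟹ for some number field `E ⊇ E₀`:
      `c ∈ κ_E(j(q^d) : d ∣ N)` and `c` is integral over `κ_E[s]`.
* `exists_numberField_A` : `b ∈ F_N` integral over `A[t]` ⟹ for some number field `E ⊇ E₀`:
      `b ∈ E(j(q^d) : d ∣ N)` and `b` is integral over `(A ∩ E)[t]`.      (`B_A = ⋃ B_{R_E}`)
* `LiftAtLevel N A E t s` : (H3) at the level of a number field `E` (normality of the special fibre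
      of the model over the DVR `A ∩ E`), in `q`-expansion language.
* `lift_of_levels` : (H3) for all number fields ⟹ (H3) over `A`.
-/




set_option autoImplicit false

noncomputable section

namespace Fermat.Agent.S37.Red.H759

open ModularCurve HahnSeries IsLocalRing IntermediateField

/-- `Q̄` -/
abbrev Qbar : Type := AlgebraicClosure ℚ

/-- The index set: number fields inside `Q̄`. -/
abbrev NumberFieldIn : Type := {E : IntermediateField ℚ Qbar // FiniteDimensional ℚ E}

instance : Nonempty NumberFieldIn :=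
  ⟨⟨⊥, inferInstanceAs (FiniteDimensional ℚ (⊥ : IntermediateField ℚ Qbar))⟩⟩

instance : IsDirected NumberFieldIn (· ≤ ·) :=
  ⟨fun E E' => by
    have := E.2
    have := E'.2
    exact ⟨⟨E.1 ⊔ E'.1, IntermediateField.finiteDimensional_sup E.1 E'.1⟩,
      (le_sup_left : E.1 ≤ E.1 ⊔ E'.1), (le_sup_right : E'.1 ≤ E.1 ⊔ E'.1)⟩⟩

/-- every element of `Q̄` lies in a number field -/
theorem exists_numberField_mem (a : Qbar) : ∃ E : NumberFieldIn, a ∈ E.1 := by
  have halg : Algebra.IsAlgebraic ℚ Qbar := AlgebraicClosure.isAlgebraic ℚ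
  have ha : IsIntegral ℚ a := (halg.isAlgebraic a).isIntegral
  exact ⟨⟨ℚ⟮a⟯, IntermediateField.adjoin.finiteDimensional ha⟩,
    IntermediateField.mem_adjoin_simple_self ℚ a⟩

variable (A : ValuationSubring Qbar)

/-- the constants of `k((q))` coming from `A ∩ E` -/
def constk (E : IntermediateField ℚ Qbar) : Set (LaurentSeries (ResidueField A)) :=
  {c | ∃ a : A, (a : Qbar) ∈ E ∧
    c = algebraMap (ResidueField A) (LaurentSeries (ResidueField A)) (residue A a)}

/-- the constants of `Q̄((q))` coming from `A ∩ E` -/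
def constA (E : IntermediateField ℚ Qbar) : Set (LaurentSeries Qbar) :=
  {c | ∃ a : A, (a : Qbar) ∈ E ∧ c = algebraMap Qbar (LaurentSeries Qbar) (a : Qbar)}

/-- the constants of `Q̄((q))` coming from `E` -/
def constE (E : IntermediateField ℚ Qbar) : Set (LaurentSeries Qbar) :=
  {c | ∃ a : Qbar, a ∈ E ∧ c = algebraMap Qbar (LaurentSeries Qbar) a}

/-- all constants of `Q̄((q))` coming from `A` -/
def constAll : Set (LaurentSeries Qbar) :=
  {c | ∃ a : A, c = algebraMap Qbar (LaurentSeries Qbar) (a : Qbar)}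

theorem constk_mono : Monotone fun E : NumberFieldIn => constk A E.1 := by
  rintro E E' h c ⟨a, ha, rfl⟩
  exact ⟨a, h ha, rfl⟩

theorem constA_mono : Monotone fun E : NumberFieldIn => constA A E.1 := by
  rintro E E' h c ⟨a, ha, rfl⟩
  exact ⟨a, h ha, rfl⟩

theorem constE_mono : Monotone fun E : NumberFieldIn => constE E.1 := by
  rintro E E' h c ⟨a, ha, rfl⟩
  exact ⟨a, h ha, rfl⟩

theorem constA_subset_constAll (E : IntermediateField ℚ Qbar) : constA A E ⊆ constAll A := by
  rintro c ⟨a, -, rfl⟩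
  exact ⟨a, rfl⟩

theorem constA_subset_constE (E : IntermediateField ℚ Qbar) : constA A E ⊆ constE E := by
  rintro c ⟨a, ha, rfl⟩
  exact ⟨a, ha, rfl⟩

theorem range_subset_iUnion_constk :
    Set.range (algebraMap (ResidueField A) (LaurentSeries (ResidueField A))) ⊆
      ⋃ E : NumberFieldIn, constk A E.1 := by
  rintro c ⟨x, rfl⟩
  obtain ⟨a, rfl⟩ := IsLocalRing.residue_surjective x
  obtain ⟨E, hE⟩ := exists_numberField_mem (a : Qbar)
  exact Set.mem_iUnion.mpr ⟨E, a, hE, rfl⟩

theorem constAll_subset_iUnion_constA :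
    constAll A ⊆ ⋃ E : NumberFieldIn, constA A E.1 := by
  rintro c ⟨a, rfl⟩
  obtain ⟨E, hE⟩ := exists_numberField_mem (a : Qbar)
  exact Set.mem_iUnion.mpr ⟨E, a, hE, rfl⟩

theorem range_subset_iUnion_constE :
    Set.range (algebraMap Qbar (LaurentSeries Qbar)) ⊆ ⋃ E : NumberFieldIn, constE E.1 := by
  rintro c ⟨a, rfl⟩
  obtain ⟨E, hE⟩ := exists_numberField_mem a
  exact Set.mem_iUnion.mpr ⟨E, a, hE, rfl⟩

/-- **Finite level in characteristic `ℓ`.**  An element of `F_{N,k}` integral over `k[s]` lies in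
`κ_E(j(q^d) : d ∣ N)` and is integral over `κ_E[s]`, for some number field `E ⊇ E₀`. -/
theorem exists_numberField_k (N : ℕ) (s : LaurentSeries (ResidueField A))
    (E₀ : NumberFieldIn) {c : LaurentSeries (ResidueField A)}
    (hc : c ∈ modularFunctionFieldFullC (ResidueField A) N)
    (hint : IsIntegral (Subring.closure
      (Set.range (algebraMap (ResidueField A) (LaurentSeries (ResidueField A))) ∪ {s})) c) :
    ∃ E : NumberFieldIn, E₀ ≤ E ∧
      c ∈ Subfield.closure (constk A E.1 ∪ divisorExpansionsC (ResidueField A) N) ∧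
      IsIntegral (Subring.closure (constk A E.1 ∪ {s})) c :=
  exists_level_ge (fun E : NumberFieldIn => constk A E.1) (constk_mono A)
    (divisorExpansionsC (ResidueField A) N) {s} (range_subset_iUnion_constk A) E₀ hc hint

/-- **Finite level in characteristic `0`** (`B_A = ⋃ B_{R_E}`).  An element of `F_N` integral over
`A[t]` lies in `E(j(q^d) : d ∣ N)` and is integral over `(A ∩ E)[t]`, for some number field
`E ⊇ E₀`. -/
theorem exists_numberField_A (N : ℕ) (t : LaurentSeries Qbar)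
    (E₀ : NumberFieldIn) {b : LaurentSeries Qbar}
    (hb : b ∈ Subfield.closure (Set.range (algebraMap Qbar (LaurentSeries Qbar)) ∪
      divisorExpansionsC Qbar N))
    (hint : IsIntegral (Subring.closure (constAll A ∪ {t})) b) :
    ∃ E : NumberFieldIn, E₀ ≤ E ∧
      b ∈ Subfield.closure (constE E.1 ∪ divisorExpansionsC Qbar N) ∧
      IsIntegral (Subring.closure (constA A E.1 ∪ {t})) b := by
  obtain ⟨E₁, h₁⟩ := exists_mem_subfield_closure (fun E : NumberFieldIn => constE E.1)
    (directed_of_monotone _ constE_mono) (divisorExpansionsC Qbar N)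
    range_subset_iUnion_constE hb
  obtain ⟨E₂, h₂⟩ := exists_isIntegral (fun E : NumberFieldIn => constA A E.1)
    (directed_of_monotone _ (constA_mono A)) {t} (constAll_subset_iUnion_constA A) hint
  obtain ⟨E₃, h₁₃, h₂₃⟩ := exists_ge_ge E₁ E₂
  obtain ⟨E, h₃, h₀⟩ := exists_ge_ge E₃ E₀
  refine ⟨E, h₀, ?_, ?_⟩
  · exact Subfield.closure_mono
      (Set.union_subset_union_left _ (constE_mono (h₁₃.trans h₃))) h₁
  · exact isIntegral_subring_mono (Subring.closure_mono
      (Set.union_subset_union_left _ (constA_mono A (h₂₃.trans h₃)))) h₂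

/-- **(H3) at the level of a number field `E`** (finite chart w.r.t. the coordinate `t`, with
reduction `s`): every element of `κ_E(j(q^d) : d ∣ N)` integral over `κ_E[s]` is the
coefficientwise reduction of a series `U ∈ A((q))` lying in `F_N` and integral over `A[t]`.
(Producers over the DVR `R = A ∩ E` prove more: `U ∈ R((q))`, `U ∈ E(j(q^d))`, integral over
`R[t]`; see `LiftAtLevel.of_strong`.) -/
def LiftAtLevel (N : ℕ) (E : IntermediateField ℚ Qbar) (t : LaurentSeries Qbar)
    (s : LaurentSeries (ResidueField A)) : Prop :=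
  ∀ c : LaurentSeries (ResidueField A),
    c ∈ Subfield.closure (constk A E ∪ divisorExpansionsC (ResidueField A) N) →
    IsIntegral (Subring.closure (constk A E ∪ {s})) c →
    ∃ U : LaurentSeries A, coeffMap A.subtype U ∈ modularFunctionFieldBar N ∧
      IsIntegral (Subring.closure (constAll A ∪ {t})) (coeffMap A.subtype U) ∧
      coeffMap (residue A) U = c

/-- The strong form of (H3) at level `E` (what the model over the DVR `A ∩ E` gives). -/
def StrongLiftAtLevel (N : ℕ) (E : IntermediateField ℚ Qbar) (t : LaurentSeries Qbar)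
    (s : LaurentSeries (ResidueField A)) : Prop :=
  ∀ c : LaurentSeries (ResidueField A),
    c ∈ Subfield.closure (constk A E ∪ divisorExpansionsC (ResidueField A) N) →
    IsIntegral (Subring.closure (constk A E ∪ {s})) c →
    ∃ U : LaurentSeries A, (∀ n : ℤ, ((U.coeff n : A) : Qbar) ∈ E) ∧
      coeffMap A.subtype U ∈ Subfield.closure (constE E ∪ divisorExpansionsC Qbar N) ∧
      IsIntegral (Subring.closure (constA A E ∪ {t})) (coeffMap A.subtype U) ∧
      coeffMap (residue A) U = c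

/-- **Passage `R_E → A` for (H3)**: (H3) at the level of all number fields `E ⊇ E₀` gives (H3)
over `A`: every element of `F_{N,k}` integral over `k[s]` is the coefficientwise reduction of a
series `U ∈ A((q))` lying in `F_N` and integral over `A[t]`. -/
theorem lift_of_levels (N : ℕ) (t : LaurentSeries Qbar) (s : LaurentSeries (ResidueField A))
    (E₀ : NumberFieldIn) (h : ∀ E : NumberFieldIn, E₀ ≤ E → LiftAtLevel A N E.1 t s)
    {c : LaurentSeries (ResidueField A)}
    (hc : c ∈ modularFunctionFieldFullC (ResidueField A) N)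
    (hint : IsIntegral (Subring.closure
      (Set.range (algebraMap (ResidueField A) (LaurentSeries (ResidueField A))) ∪ {s})) c) :
    ∃ U : LaurentSeries A, coeffMap A.subtype U ∈ modularFunctionFieldBar N ∧
      IsIntegral (Subring.closure (constAll A ∪ {t})) (coeffMap A.subtype U) ∧
      coeffMap (residue A) U = c := by
  obtain ⟨E, hE, hcE, hintE⟩ := exists_numberField_k A N s E₀ hc hint
  exact h E hE c hcE hintE

theorem subfield_closure_constE_le (N : ℕ) (E : IntermediateField ℚ Qbar) :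
    Subfield.closure (constE E ∪ divisorExpansionsC Qbar N) ≤
      (modularFunctionFieldFullC Qbar N).toSubfield := by
  rw [Subfield.closure_le]
  rintro x (⟨a, -, rfl⟩ | hx)
  · exact (modularFunctionFieldFullC Qbar N).algebraMap_mem a
  · exact IntermediateField.subset_adjoin _ _ hx

end Fermat.Agent.S37.Red.H759

end

end
-- ===== PACK-END S37/Red/H759/Passage.lean

-- ===== PACK-BEGIN S37/H340/KronFrob.lean
section



/-!
# S37 / R3-K : the Kronecker polynomial in characteristic `ℓ` (helper340)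

* `pow_char_eq_qExpand` : in characteristic `ℓ`, `f ^ ℓ = V (f^φ)` where `f^φ` is `f` with
  Frobenius applied to the coefficients (`coeffMap (frobenius R ℓ) f`) and `V = qExpand R ℓ`;
* `kronMat_mul`, `kronMat_qExpand` : the regular representation `f ↦ kronMat ℓ f`;
* `kron_char` : over a domain of characteristic `ℓ`, `kron ℓ f = Y ^ ℓ - C (f^φ)`
  (**Kronecker congruence**).
-/

set_option autoImplicit false

noncomputable section

namespace Fermat.Agent.S37.H340

open ModularCurve Polynomial Matrix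

variable {R : Type*} [CommRing R] (ℓ : ℕ) [NeZero ℓ]

section Frobenius

variable [hℓ : Fact ℓ.Prime] [CharP R ℓ]

omit [NeZero ℓ] in
/-- coefficients of the `ℓ`-th power of a power series in characteristic `ℓ` -/
lemma powerSeries_coeff_pow_char (p : PowerSeries R) (n : ℕ) :
    PowerSeries.coeff n (p ^ ℓ) = if ℓ ∣ n then (PowerSeries.coeff (n / ℓ) p) ^ ℓ else 0 := by
  have h1 : PowerSeries.coeff n (p ^ ℓ) =
      PowerSeries.coeff n (((PowerSeries.trunc (n + 1) p : R[X]) : PowerSeries R) ^ ℓ) := by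
    rw [← PowerSeries.coeff_coe_trunc_of_lt (Nat.lt_succ_self n) (f := p ^ ℓ),
      ← PowerSeries.trunc_trunc_pow, PowerSeries.coeff_coe_trunc_of_lt (Nat.lt_succ_self n)]
  rw [h1, ← Polynomial.coe_pow, Polynomial.coeff_coe, ← Polynomial.map_frobenius_expand,
    Polynomial.coeff_map, Polynomial.coeff_expand hℓ.out.pos, frobenius_def]
  split_ifs with h
  · rw [PowerSeries.coeff_trunc, if_pos]
    exact lt_of_le_of_lt (Nat.div_le_self n ℓ) (Nat.lt_succ_self n)
  · exact zero_pow hℓ.out.ne_zero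

omit [NeZero ℓ] hℓ in
/-- `LaurentSeries R` has characteristic `ℓ`. -/
lemma charP_laurentSeries : CharP (LaurentSeries R) ℓ :=
  charP_of_injective_ringHom (f := (HahnSeries.C : R →+* LaurentSeries R))
    HahnSeries.C_injective ℓ

/-- In characteristic `ℓ`: `f ^ ℓ = V (f^φ)`. -/
theorem pow_char_eq_qExpand (f : LaurentSeries R) :
    f ^ ℓ = qExpand R ℓ (coeffMap (frobenius R ℓ) f) := by
  have := charP_laurentSeries (R := R) ℓ
  have key : (frobenius (LaurentSeries R) ℓ) =
      (qExpand R ℓ).comp (coeffMap (frobenius R ℓ)) := by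
    refine IsLocalization.ringHom_ext (Submonoid.powers (PowerSeries.X : PowerSeries R)) ?_
    ext p : 1
    simp only [RingHom.comp_apply, LaurentSeries.coe_algebraMap, frobenius_def]
    rw [← map_pow, coeffMap_ofPowerSeries]
    ext k
    rw [qExpand_coeff]
    rcases le_or_gt 0 k with hk | hk
    · lift k to ℕ using hk
      rw [HahnSeries.ofPowerSeries_apply_coeff, powerSeries_coeff_pow_char]
      have hdvd : ((ℓ : ℤ) ∣ (k : ℤ)) ↔ ℓ ∣ k := Int.natCast_dvd_natCast
      by_cases h : ℓ ∣ k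
      · rw [if_pos h, if_pos (hdvd.mpr h)]
        have : ((k : ℤ) / (ℓ : ℤ)) = ((k / ℓ : ℕ) : ℤ) := by push_cast; rfl
        rw [this, HahnSeries.ofPowerSeries_apply_coeff, PowerSeries.coeff_map, frobenius_def]
      · rw [if_neg h, if_neg (fun h' => h (hdvd.mp h'))]
    · rw [ofPowerSeries_coeff_of_neg _ hk]
      split_ifs with h
      · rw [ofPowerSeries_coeff_of_neg]
        have hℓpos : (0 : ℤ) < ℓ := by exact_mod_cast hℓ.out.pos
        exact Int.ediv_neg_of_neg_of_pos hk hℓpos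
      · rfl
  have := congrArg (fun φ : LaurentSeries R →+* LaurentSeries R => φ f) key
  simpa [frobenius_def] using this

end Frobenius

section RegularRep

/-- sections of a decomposed series -/
lemma sect_sum (h : Fin ℓ → LaurentSeries R) (k : Fin ℓ) :
    sect ℓ ((k : ℕ) : ℤ)
      (∑ i : Fin ℓ, (qq : LaurentSeries R) ^ (i : ℕ) * qExpand R ℓ (h i)) = h k := by
  have hℓ : (0 : ℤ) < ℓ := by exact_mod_cast Nat.pos_of_ne_zero (NeZero.ne ℓ)
  ext n
  rw [sect_coeff, HahnSeries.coeff_sum]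
  simp only [coeff_qq_pow_mul, qExpand_coeff]
  rw [Finset.sum_eq_single k]
  · have : (ℓ : ℤ) * n + (k : ℕ) - (k : ℕ) = (ℓ : ℤ) * n := by ring
    rw [this, if_pos (dvd_mul_right _ _), Int.mul_ediv_cancel_left _ hℓ.ne']
  · intro i _ hi
    rw [if_neg]
    intro hdvd
    apply hi
    have h1 : (ℓ : ℤ) ∣ ((k : ℕ) : ℤ) - ((i : ℕ) : ℤ) := by
      have h2 : (ℓ : ℤ) * n + (k : ℕ) - (i : ℕ) = (ℓ : ℤ) * n + (((k : ℕ) : ℤ) - (i : ℕ)) := by
        ring
      rw [h2] at hdvd
      exact (Int.dvd_add_right (dvd_mul_right _ _)).mp hdvd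
    have hi1 : ((i : ℕ) : ℤ) < ℓ := by exact_mod_cast i.2
    have hi0 : (0 : ℤ) ≤ ((i : ℕ) : ℤ) := Int.natCast_nonneg _
    have hk1 : ((k : ℕ) : ℤ) < ℓ := by exact_mod_cast k.2
    have hk0 : (0 : ℤ) ≤ ((k : ℕ) : ℤ) := Int.natCast_nonneg _
    obtain ⟨c, hc⟩ := h1
    have hc0 : c = 0 := by
      by_contra hne
      rcases lt_or_gt_of_ne hne with h | h
      · have : (ℓ : ℤ) * c ≤ -ℓ := by nlinarith
        omega
      · have : (ℓ : ℤ) ≤ (ℓ : ℤ) * c := by nlinarith
        omega
    rw [hc0, mul_zero] at hc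
    ext
    omega
  · intro h; exact absurd (Finset.mem_univ _) h

/-- uniqueness of the decomposition -/
lemma decomp_unique {h h' : Fin ℓ → LaurentSeries R}
    (e : ∑ i : Fin ℓ, (qq : LaurentSeries R) ^ (i : ℕ) * qExpand R ℓ (h i) =
      ∑ i : Fin ℓ, (qq : LaurentSeries R) ^ (i : ℕ) * qExpand R ℓ (h' i)) : h = h' := by
  funext k
  rw [← sect_sum ℓ h k, e, sect_sum ℓ h' k]

/-- `f ↦ kronMat ℓ f` is multiplicative. -/
theorem kronMat_mul (f g : LaurentSeries R) :
    kronMat ℓ (f * g) = kronMat ℓ g * kronMat ℓ f := by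
  refine Matrix.ext fun k j => ?_
  have e : ∑ i : Fin ℓ, (qq : LaurentSeries R) ^ (i : ℕ) * qExpand R ℓ (kronMat ℓ (f * g) i j) =
      ∑ i : Fin ℓ, (qq : LaurentSeries R) ^ (i : ℕ) *
        qExpand R ℓ ((kronMat ℓ g * kronMat ℓ f) i j) := by
    rw [← qq_pow_mul_eq_sum, ← mul_assoc, qq_pow_mul_eq_sum ℓ f j, Finset.sum_mul]
    have h1 : ∀ i : Fin ℓ, (qq : LaurentSeries R) ^ (i : ℕ) * qExpand R ℓ (kronMat ℓ f i j) * g =
        ∑ k' : Fin ℓ, (qq : LaurentSeries R) ^ (k' : ℕ) *
          qExpand R ℓ (kronMat ℓ g k' i * kronMat ℓ f i j) := by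
      intro i
      rw [mul_right_comm, qq_pow_mul_eq_sum ℓ g i, Finset.sum_mul]
      refine Finset.sum_congr rfl fun k' _ => ?_
      rw [map_mul]; ring
    simp_rw [h1]
    rw [Finset.sum_comm]
    refine Finset.sum_congr rfl fun k' _ => ?_
    rw [Matrix.mul_apply, map_sum, Finset.mul_sum]
  exact congrFun (decomp_unique ℓ (h := fun i => kronMat ℓ (f * g) i j)
    (h' := fun i => (kronMat ℓ g * kronMat ℓ f) i j) e) k

theorem kronMat_qExpand (g : LaurentSeries R) :
    kronMat ℓ (qExpand R ℓ g) = Matrix.scalar (Fin ℓ) g := by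
  have hℓ : (0 : ℤ) < ℓ := by exact_mod_cast Nat.pos_of_ne_zero (NeZero.ne ℓ)
  ext i j n
  rw [kronMat_apply, sect_coeff, qExpand_coeff, Matrix.scalar_apply, Matrix.diagonal_apply]
  by_cases hij : i = j
  · subst hij
    have : (ℓ : ℤ) * n + (((i : ℕ) : ℤ) - (i : ℕ)) = (ℓ : ℤ) * n := by ring
    rw [this, if_pos (dvd_mul_right _ _), Int.mul_ediv_cancel_left _ hℓ.ne', if_pos rfl]
  · rw [if_neg hij, if_neg]
    · simp
    · intro hdvd
      apply hij
      have h1 : (ℓ : ℤ) ∣ ((i : ℕ) : ℤ) - ((j : ℕ) : ℤ) :=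
        (Int.dvd_add_right (dvd_mul_right _ _)).mp hdvd
      have hi1 : ((i : ℕ) : ℤ) < ℓ := by exact_mod_cast i.2
      have hi0 : (0 : ℤ) ≤ ((i : ℕ) : ℤ) := Int.natCast_nonneg _
      have hj1 : ((j : ℕ) : ℤ) < ℓ := by exact_mod_cast j.2
      have hj0 : (0 : ℤ) ≤ ((j : ℕ) : ℤ) := Int.natCast_nonneg _
      obtain ⟨c, hc⟩ := h1
      have hc0 : c = 0 := by
        by_contra hne
        rcases lt_or_gt_of_ne hne with h | h
        · have : (ℓ : ℤ) * c ≤ -ℓ := by nlinarith
          omega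
        · have : (ℓ : ℤ) ≤ (ℓ : ℤ) * c := by nlinarith
          omega
      rw [hc0, mul_zero] at hc
      ext
      omega

theorem kronMat_one : kronMat ℓ (1 : LaurentSeries R) = 1 := by
  have := kronMat_qExpand ℓ (1 : LaurentSeries R)
  rwa [map_one, map_one] at this

theorem kronMat_pow (f : LaurentSeries R) (n : ℕ) : kronMat ℓ (f ^ n) = kronMat ℓ f ^ n := by
  induction n with
  | zero => rw [pow_zero, pow_zero, kronMat_one]
  | succ n ih => rw [pow_succ, kronMat_mul, ih, pow_succ']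

end RegularRep

section Congruence

variable [hℓ : Fact ℓ.Prime] [CharP R ℓ] [IsDomain R]

/-- **Kronecker congruence**: in characteristic `ℓ`, the Kronecker polynomial of `f` is
`Y ^ ℓ - f^φ`, where `f^φ` is `f` with Frobenius applied to the coefficients. -/
theorem kron_char (f : LaurentSeries R) :
    kron ℓ f = X ^ ℓ - C (coeffMap (frobenius R ℓ) f) := by
  classical
  have := charP_laurentSeries (R := R) ℓ
  set g := coeffMap (frobenius R ℓ) f with hg
  have hVg : qExpand R ℓ g = f ^ ℓ := (pow_char_eq_qExpand ℓ f).symm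
  -- `M ^ ℓ = g • 1`
  have hMpow : kronMat ℓ f ^ ℓ = Matrix.scalar (Fin ℓ) g := by
    rw [← kronMat_pow, pow_char_eq_qExpand, kronMat_qExpand]
  set M' : Matrix (Fin ℓ) (Fin ℓ) (LaurentSeries R) :=
    (qExpand R ℓ).mapMatrix (kronMat ℓ f) with hM'
  have hM'pow : M' ^ ℓ = Matrix.scalar (Fin ℓ) (f ^ ℓ) := by
    rw [hM', ← map_pow, hMpow, ← hVg]
    ext i j
    simp [Matrix.scalar_apply, Matrix.diagonal_apply, apply_ite]
  have hcomm : Commute M' (Matrix.scalar (Fin ℓ) f) :=
    (Matrix.scalar_commute f (fun r' => Commute.all _ _) M').symm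
  have hNpow : (M' - Matrix.scalar (Fin ℓ) f) ^ ℓ = 0 := by
    rw [sub_pow_char_of_commute ℓ hcomm, hM'pow, ← map_pow, sub_self]
  have hnil : IsNilpotent (M' - Matrix.scalar (Fin ℓ) f) := ⟨ℓ, hNpow⟩
  have h1 : (M' - Matrix.scalar (Fin ℓ) f).charpoly = X ^ ℓ := by
    have h := Matrix.isNilpotent_charpoly_sub_pow_of_isNilpotent hnil
    rw [Fintype.card_fin] at h
    exact sub_eq_zero.mp (IsReduced.eq_zero _ h)
  rw [Matrix.charpoly_sub_scalar] at h1
  have h2 : M'.charpoly = (X - C f) ^ ℓ := by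
    have h3 := congrArg (fun P : (LaurentSeries R)[X] => P.comp (X - C f)) h1
    simp only [Polynomial.comp_assoc, Polynomial.add_comp, Polynomial.X_comp,
      Polynomial.C_comp, sub_add_cancel, Polynomial.comp_X, Polynomial.pow_comp] at h3
    exact h3
  have h4 : (kron ℓ f).map (qExpand R ℓ) = (X ^ ℓ - C g : (LaurentSeries R)[X]).map
      (qExpand R ℓ) := by
    rw [kron, ← Matrix.charpoly_map]
    change M'.charpoly = _
    rw [h2, sub_pow_char, Polynomial.map_sub, Polynomial.map_pow, Polynomial.map_X,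
      Polynomial.map_C, hVg, ← C_pow]
  exact Polynomial.map_injective _ (qExpand_injective ℓ) h4

end Congruence

end Fermat.Agent.S37.H340

end
end
-- ===== PACK-END S37/H340/KronFrob.lean

-- ===== PACK-BEGIN S24/GenusNat.lean
section



/-!
# S24 — the Riemann–Hurwitz number is a non-negative even integer
(parity via signs of permutations, non-negativity via Scott's lemma / Ree's theorem)

INTERFACE FILE (statement frozen by helper984); proof by helper883 (`Fermat.Agent.S24.Scott`).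
-/

set_option autoImplicit false

noncomputable section

open scoped MatrixGroups

namespace Fermat.Agent.S24

variable (N : ℕ) [NeZero N]

theorem exists_genus_nat :
    ∃ g : ℕ, (Nat.card (XX N) : ℤ) + 2 - numOrbits (permOf N ModularGroup.S)
        - numOrbits (permOf N (ModularGroup.S * ModularGroup.T))
        - numOrbits (permOf N ModularGroup.T) = 2 * (g : ℤ) :=
  Scott.exists_genus_Gamma0 N

end Fermat.Agent.S24

end
end
-- ===== PACK-END S24/GenusNat.lean

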