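import Mathlib
import Fermat.Agent.Pack.S44C.G0E1L3
import Fermat.Agent.Pack.S44C.G0E7L0
import Fermat.Agent.Pack.S44C.G0E7L2
import Fermat.Agent.Pack.S44C.G0E7L1
import Fermat.Agent.Pack.S44C.G0E7L3
import Fermat.Agent.Pack.S44C.G0E1L0
import Fermat.Agent.Pack.S44C.G0E6L1
import Fermat.Agent.Pack.S44C.G0E2L3
import Fermat.Agent.Pack.S44C.G0E2L1
import Fermat.Agent.Pack.S44C.G0E8L1
import Fermat.Agent.Pack.S44C.G0E2L2
import Fermat.Agent.Pack.S44C.G0E8L3
import Fermat.Agent.Pack.S44C.G0E8L2
import Fermat.Agent.Pack.S44C.G0E10L1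
import Fermat.Agent.Pack.Fast891

-- ===== PACK-BEGIN S52/H545/Gen.lean
section





/-!
# S52 Part A (helper545): the generic point, the subgroup `M` and the exact height

`F` a field, `W₀` an elliptic curve over `F`, `κ` a field extension of `F` with `Sep`
(e.g. of characteristic `≠ 2`), `KK = κ(W₀)` the function field.  Inside the group `W₀(KK)` we consider

* `genericPoint = (x, y)`;
* `tauP` : the action of the hyperelliptic involution on points, and `MM = {P | τ P = -P}`,
  a subgroup containing the generic point, whose affine points have `x`-coordinate in `κ(x)`;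
* `hgt : W₀(KK) → ℕ`, the degree of the `x`-coordinate as a rational function of `x`;
* `hgt_parallelogram` : the exact parallelogram law on `MM`.
-/

set_option autoImplicit false

namespace Fermat.Agent.S52.H545

open WeierstrassCurve WeierstrassCurve.Affine Polynomial

variable {F : Type*} [Field F] (W₀ : WeierstrassCurve F)
variable (κ : Type*) [Field κ] [Algebra F κ]

/-- The curve over `κ`. -/
abbrev Wκ : WeierstrassCurve.Affine κ := W₀⁄κ

/-- The function field of the curve over `κ`. -/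
abbrev KK : Type _ := (Wκ W₀ κ).FunctionField

noncomputable instance instDecEqKK : DecidableEq (KK W₀ κ) := Classical.decEq _

/-- The group of points over the function field. -/
abbrev EK : Type _ := (W₀⁄(KK W₀ κ)).Point

lemma algebraMap_KK (a : F) :
    algebraMap F (KK W₀ κ) a = algebraMap κ (KK W₀ κ) (algebraMap F κ a) :=
  IsScalarTower.algebraMap_apply F κ (KK W₀ κ) a

lemma generic_equation :
    (W₀⁄(KK W₀ κ)).Equation (xF (Wκ W₀ κ)) (yF (Wκ W₀ κ)) := by
  rw [Affine.equation_iff]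
  have h := yF_equation (Wκ W₀ κ)
  simp only [Wκ, WeierstrassCurve.baseChange, WeierstrassCurve.map_a₁, WeierstrassCurve.map_a₂,
    WeierstrassCurve.map_a₃, WeierstrassCurve.map_a₄, WeierstrassCurve.map_a₆,
    ← algebraMap_KK] at h ⊢
  exact h

/-- The hyperelliptic involution acting on points. -/
noncomputable def tauP : EK W₀ κ →+ EK W₀ κ :=
  Point.map (W' := W₀) (conjF (Wκ W₀ κ))

/-- The subgroup of points `P` with `τ P = -P`. -/
noncomputable def MM : AddSubgroup (EK W₀ κ) :=
  (tauP W₀ κ + AddMonoidHom.id _).ker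

lemma mem_MM {P : EK W₀ κ} : P ∈ MM W₀ κ ↔ tauP W₀ κ P = -P := by
  rw [MM, AddMonoidHom.mem_ker, AddMonoidHom.add_apply, AddMonoidHom.id_apply,
    add_eq_zero_iff_eq_neg]

lemma tauP_some {X Y : KK W₀ κ} (h : (W₀⁄(KK W₀ κ)).Nonsingular X Y) :
    ∃ h', tauP W₀ κ (Point.some X Y h) =
      Point.some (conjF (Wκ W₀ κ) X) (conjF (Wκ W₀ κ) Y) h' :=
  ⟨_, rfl⟩

/-- Affine points of `MM` have their `x`-coordinate in `κ(x)`. -/
lemma exists_ιK_eq_of_mem (hs : Sep (Wκ W₀ κ)) {X Y : KK W₀ κ}
    {h : (W₀⁄(KK W₀ κ)).Nonsingular X Y} (hM : Point.some X Y h ∈ MM W₀ κ) :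
    ∃ r : RatFunc κ, ιK (Wκ W₀ κ) r = X := by
  rw [mem_MM] at hM
  obtain ⟨h', e⟩ := tauP_some W₀ κ h
  rw [e, Point.neg_some] at hM
  have hX : conjF (Wκ W₀ κ) X = X := by
    injection hM
  exact mem_range_ιK_of_conjF_eq _ hs hX

/-! ### The height -/

open Classical in
/-- A primitive pair of polynomials representing the `x`-coordinate (`(1, 0)` for the point at
infinity). -/
noncomputable def xvec (P : EK W₀ κ) : Fin 2 → κ[X] :=
  match P with
  | .zero => ![1, 0]
  | .some X _ _ =>
    if h : ∃ r : RatFunc κ, ιK (Wκ W₀ κ) r = X then ![h.choose.num, h.choose.denom] else ![1, 0]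

/-- The height: the degree of the `x`-coordinate as a rational function of `x`. -/
noncomputable def hgt (P : EK W₀ κ) : ℕ := maxDeg (xvec W₀ κ P)

lemma xvec_zero : xvec W₀ κ (0 : EK W₀ κ) = ![1, 0] := rfl

lemma hgt_zero : hgt W₀ κ (0 : EK W₀ κ) = 0 := by
  rw [hgt, xvec_zero, maxDeg]
  apply Nat.le_zero.mp
  apply Finset.sup_le
  intro i _
  fin_cases i <;> simp

lemma xvec_some {X Y : KK W₀ κ} {h : (W₀⁄(KK W₀ κ)).Nonsingular X Y} (r : RatFunc κ)
    (hr : ιK (Wκ W₀ κ) r = X) : xvec W₀ κ (Point.some X Y h) = ![r.num, r.denom] := by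
  have hex : ∃ r : RatFunc κ, ιK (Wκ W₀ κ) r = X := ⟨r, hr⟩
  have hc : hex.choose = r := ιK_injective _ (hex.choose_spec.trans hr.symm)
  simp only [xvec, dif_pos hex, hc]

lemma prim_xvec (P : EK W₀ κ) : Prim (xvec W₀ κ P) := by
  rw [prim_pair_iff]
  rcases P with _ | ⟨X, Y, h⟩
  · exact ⟨1, 0, by simp [xvec]⟩
  · by_cases hex : ∃ r : RatFunc κ, ιK (Wκ W₀ κ) r = X
    · obtain ⟨r, hr⟩ := hex
      rw [xvec_some W₀ κ r hr]
      exact RatFunc.isCoprime_num_denom r
    · simp only [xvec, dif_neg hex]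
      exact ⟨1, 0, by simp⟩

/-- For points of `MM` the pair `xvec` represents the `x`-coordinate. -/
lemma ιP_xvec (hs : Sep (Wκ W₀ κ)) {P : EK W₀ κ} (hP : P ∈ MM W₀ κ) :
    ∃ c : KK W₀ κ, c ≠ 0 ∧ (ιP (Wκ W₀ κ)) ∘ (xvec W₀ κ P) = c • P.xRep := by
  rcases P with _ | ⟨X, Y, h⟩
  · refine ⟨1, one_ne_zero, ?_⟩
    funext i
    fin_cases i <;> simp [xvec, Point.xRep]
  · obtain ⟨r, hr⟩ := exists_ιK_eq_of_mem W₀ κ hs hP
    rw [xvec_some W₀ κ r hr]
    have hd : ιP (Wκ W₀ κ) r.denom ≠ 0 := fun h0 =>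
      r.denom_ne_zero ((ιP_eq_zero _).mp h0)
    refine ⟨ιP (Wκ W₀ κ) r.denom, hd, ?_⟩
    have hX : X = ιP (Wκ W₀ κ) r.num / ιP (Wκ W₀ κ) r.denom := by rw [← hr, ιK_apply]
    funext i
    fin_cases i
    · simp only [Point.xRep, Function.comp_apply, Pi.smul_apply, smul_eq_mul, Fin.zero_eta,
        Fin.isValue, Matrix.cons_val_zero]
      rw [hX, mul_div_cancel₀ _ hd]
    · simp [Point.xRep]

lemma sym2x_eq_sv (P Q : EK W₀ κ) : P.sym2x Q = sv P.xRep Q.xRep := rfl

lemma polyCurve_map :
    (polyCurve (Wκ W₀ κ)).map (ιP (Wκ W₀ κ)) = W₀.baseChange (KK W₀ κ) := by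
  ext <;>
  simp only [WeierstrassCurve.baseChange, WeierstrassCurve.map_a₁, WeierstrassCurve.map_a₂,
    WeierstrassCurve.map_a₃, WeierstrassCurve.map_a₄, WeierstrassCurve.map_a₆, ιP_C,
    ← algebraMap_KK]

/-! ### The generic point and the parallelogram law (elliptic case) -/

variable [W₀.IsElliptic]

instance instIsEllipticBaseChangeH545 {A : Type*} [CommRing A] [Algebra F A] :
    (W₀.baseChange A).IsElliptic :=
  inferInstanceAs (W₀.map (algebraMap F A)).IsElliptic

lemma generic_nonsingular :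
    (W₀⁄(KK W₀ κ)).Nonsingular (xF (Wκ W₀ κ)) (yF (Wκ W₀ κ)) :=
  Affine.equation_iff_nonsingular.mp (generic_equation W₀ κ)

/-- The generic point `(x, y)`. -/
noncomputable def genericPoint : EK W₀ κ :=
  Point.some _ _ (generic_nonsingular W₀ κ)

lemma genericPoint_mem : genericPoint W₀ κ ∈ MM W₀ κ := by
  rw [mem_MM, genericPoint]
  obtain ⟨h', e⟩ := tauP_some W₀ κ (generic_nonsingular W₀ κ)
  rw [e, Point.neg_some]
  congr 1
  · exact conjF_xF _
  · rw [conjF_yF, Affine.negY]
    simp only [Wκ, WeierstrassCurve.baseChange, WeierstrassCurve.map_a₁,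
      WeierstrassCurve.map_a₃, map_add, map_mul, ιP_C, ιP_X, ← algebraMap_KK]
    ring

/-- **The exact parallelogram law** on `MM`. -/
theorem hgt_parallelogram (hs : Sep (Wκ W₀ κ)) {P Q : EK W₀ κ} (hP : P ∈ MM W₀ κ)
    (hQ : Q ∈ MM W₀ κ) :
    hgt W₀ κ (P + Q) + hgt W₀ κ (P - Q) = 2 * hgt W₀ κ P + 2 * hgt W₀ κ Q := by
  have hPQ : P + Q ∈ MM W₀ κ := (MM W₀ κ).add_mem hP hQ
  have hPQ' : P - Q ∈ MM W₀ κ := (MM W₀ κ).sub_mem hP hQ
  obtain ⟨cP, hcP, eP⟩ := ιP_xvec W₀ κ hs hP
  obtain ⟨cQ, hcQ, eQ⟩ := ιP_xvec W₀ κ hs hQ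
  obtain ⟨cA, hcA, eA⟩ := ιP_xvec W₀ κ hs hPQ
  obtain ⟨cS, hcS, eS⟩ := ιP_xvec W₀ κ hs hPQ'
  obtain ⟨cL, hcL, eL⟩ := Fermat.Agent.S52.H309.addSubVec_sym2x (W := W₀⁄(KK W₀ κ)) P Q
  set v := sv (xvec W₀ κ P) (xvec W₀ κ Q) with hv
  set v' := sv (xvec W₀ κ (P + Q)) (xvec W₀ κ (P - Q)) with hv'
  set w := asv (polyCurve (Wκ W₀ κ)) v with hw
  have pv : Prim v := prim_sv (prim_xvec W₀ κ P) (prim_xvec W₀ κ Q)
  have pv' : Prim v' := prim_sv (prim_xvec W₀ κ _) (prim_xvec W₀ κ _)
  haveI : (Wκ W₀ κ).IsElliptic := instIsEllipticBaseChangeH545 W₀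
  have pw : Prim w := prim_asv _ pv
  have dv : maxDeg v = hgt W₀ κ P + hgt W₀ κ Q :=
    maxDeg_sv (prim_xvec W₀ κ P).ne_zero (prim_xvec W₀ κ Q).ne_zero
  have dv' : maxDeg v' = hgt W₀ κ (P + Q) + hgt W₀ κ (P - Q) :=
    maxDeg_sv (prim_xvec W₀ κ _).ne_zero (prim_xvec W₀ κ _).ne_zero
  have dw : maxDeg w = 2 * maxDeg v := maxDeg_asv _ pv.ne_zero
  -- images in the function field
  have iv : (ιP (Wκ W₀ κ)) ∘ v = (cP * cQ) • P.sym2x Q := by
    rw [hv, ← sv_map, eP, eQ, sv_smul, sym2x_eq_sv]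
  have iv' : (ιP (Wκ W₀ κ)) ∘ v' = (cA * cS) • (P + Q).sym2x (P - Q) := by
    rw [hv', ← sv_map, eA, eS, sv_smul, sym2x_eq_sv]
  have iw : (ιP (Wκ W₀ κ)) ∘ w = ((cP * cQ) ^ 2 * cL) • (P + Q).sym2x (P - Q) := by
    rw [hw, ← asv_map, polyCurve_map, iv, asv_smul, asv_eq_eval]
    have : (fun i => MvPolynomial.eval (P.sym2x Q) ((W₀.baseChange (KK W₀ κ)).addSubMap i))
        = cL • (P + Q).sym2x (P - Q) := eL
    rw [this, smul_smul]
  have hcross : ∀ i j, w i * v' j = w j * v' i := by
    intro i j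
    apply ιP_injective (Wκ W₀ κ)
    have e1 := congrFun iw i
    have e2 := congrFun iw j
    have e3 := congrFun iv' i
    have e4 := congrFun iv' j
    simp only [Function.comp_apply, Pi.smul_apply, smul_eq_mul] at e1 e2 e3 e4
    rw [map_mul, map_mul, e1, e2, e3, e4]
    ring
  have := maxDeg_eq_of_cross pw pv' hcross
  rw [← dv', ← this, dw, dv]
  ring

end Fermat.Agent.S52.H545

end
-- ===== PACK-END S52/H545/Gen.lean

-- ===== PACK-BEGIN S13/H164/Torsion.lean
section




/-!
# S13 / T1 (helper164): odd torsion of a Weierstrass curve via the `x`-ladder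

For `n = 2m+1` we get a polynomial `Qpoly W m ∈ R[X]` (functorial in the coefficient ring `R`),
of degree `≤ (n² - 1)/2 = 2m² + 2m` with coefficient `n` in that degree, such that for every
nonsingular affine point `P = (x, y)` over a field: `n • P = 0 ↔ Qpoly(x) = 0`.

Consequences over an algebraically closed field in which `n ≠ 0` (and `Δ ≠ 0` for existence):
a nonzero point killed by `n` exists, and there are at most `n²` points killed by `n`.
-/

set_option autoImplicit false

namespace Fermat.Agent.S13.H164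

open Polynomial WeierstrassCurve

section Ring

variable {R : Type*} [CommRing R]

/-- The `x`-ladder division polynomial for `n = 2m + 1`. -/
noncomputable def Qpoly (W : WeierstrassCurve R) (m : ℕ) : R[X] :=
  ladQ W.b₂ W.b₄ W.b₆ W.b₈ m

lemma ringHom_ladP {S : Type*} [CommRing S] (φ : R[X] →+* S) (b₂ b₄ b₆ b₈ : R) (n : ℕ) :
    lad (φ (C b₂)) (φ (C b₄)) (φ (C b₆)) (φ (C b₈)) (φ X) n =
      (φ (ladP b₂ b₄ b₆ b₈ n).1, φ (ladP b₂ b₄ b₆ b₈ n).2) :=
  map_lad (C b₂) (C b₄) (C b₆) (C b₈) X φ n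

lemma ringHom_ladQ {S : Type*} [CommRing S] (φ : R[X] →+* S) (b₂ b₄ b₆ b₈ : R) (m : ℕ) :
    φ (ladQ b₂ b₄ b₆ b₈ m) =
      oW (lad (φ (C b₂)) (φ (C b₄)) (φ (C b₆)) (φ (C b₈)) (φ X) m).1
        (lad (φ (C b₂)) (φ (C b₄)) (φ (C b₆)) (φ (C b₈)) (φ X) m).2
        (lad (φ (C b₂)) (φ (C b₄)) (φ (C b₆)) (φ (C b₈)) (φ X) (m + 1)).1
        (lad (φ (C b₂)) (φ (C b₄)) (φ (C b₆)) (φ (C b₈)) (φ X) (m + 1)).2 := by
  rw [ringHom_ladP, ringHom_ladP]
  simp only [ladQ, oW, map_sub, map_mul]

/-- Evaluating `Qpoly` along a ring homomorphism. -/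
lemma eval₂_Qpoly {S : Type*} [CommRing S] (f : R →+* S) (W : WeierstrassCurve R) (m : ℕ) (x : S) :
    (Qpoly W m).eval₂ f x =
      oW (lad (W.map f).b₂ (W.map f).b₄ (W.map f).b₆ (W.map f).b₈ x m).1
        (lad (W.map f).b₂ (W.map f).b₄ (W.map f).b₆ (W.map f).b₈ x m).2
        (lad (W.map f).b₂ (W.map f).b₄ (W.map f).b₆ (W.map f).b₈ x (m + 1)).1
        (lad (W.map f).b₂ (W.map f).b₄ (W.map f).b₆ (W.map f).b₈ x (m + 1)).2 := by
  have := ringHom_ladQ (eval₂RingHom f x) W.b₂ W.b₄ W.b₆ W.b₈ m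
  simp only [coe_eval₂RingHom, eval₂_C, eval₂_X] at this
  rw [Qpoly, this, WeierstrassCurve.map_b₂, WeierstrassCurve.map_b₄, WeierstrassCurve.map_b₆,
    WeierstrassCurve.map_b₈]

lemma eval_Qpoly (W : WeierstrassCurve R) (m : ℕ) (x : R) :
    (Qpoly W m).eval x =
      oW (lad W.b₂ W.b₄ W.b₆ W.b₈ x m).1 (lad W.b₂ W.b₄ W.b₆ W.b₈ x m).2
        (lad W.b₂ W.b₄ W.b₆ W.b₈ x (m + 1)).1 (lad W.b₂ W.b₄ W.b₆ W.b₈ x (m + 1)).2 := by
  have := ringHom_ladQ (evalRingHom x) W.b₂ W.b₄ W.b₆ W.b₈ m
  simp only [coe_evalRingHom, eval_C, eval_X] at this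
  rw [Qpoly, this]

/-- `Qpoly` is functorial in the coefficient ring. -/
lemma map_Qpoly {S : Type*} [CommRing S] (f : R →+* S) (W : WeierstrassCurve R) (m : ℕ) :
    (Qpoly W m).map f = Qpoly (W.map f) m := by
  have := ringHom_ladQ (mapRingHom f) W.b₂ W.b₄ W.b₆ W.b₈ m
  simp only [coe_mapRingHom, map_C, map_X] at this
  rw [Qpoly, this, Qpoly, ladQ, WeierstrassCurve.map_b₂, WeierstrassCurve.map_b₄,
    WeierstrassCurve.map_b₆, WeierstrassCurve.map_b₈]
  rfl

lemma lead_Qpoly (W : WeierstrassCurve R) (m : ℕ) :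
    Lead (Qpoly W m) (2 * m * m + 2 * m) ((2 * m + 1 : ℕ) : R) :=
  lead_ladQ W.b₂ W.b₄ W.b₆ W.b₈ m

lemma natDegree_Qpoly_le (W : WeierstrassCurve R) (m : ℕ) :
    (Qpoly W m).natDegree ≤ 2 * m * m + 2 * m := (lead_Qpoly W m).1

lemma coeff_Qpoly (W : WeierstrassCurve R) (m : ℕ) :
    (Qpoly W m).coeff (2 * m * m + 2 * m) = ((2 * m + 1 : ℕ) : R) := (lead_Qpoly W m).2

lemma natDegree_Qpoly (W : WeierstrassCurve R) (m : ℕ) (h : ((2 * m + 1 : ℕ) : R) ≠ 0) :
    (Qpoly W m).natDegree = 2 * m * m + 2 * m := by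
  refine le_antisymm (natDegree_Qpoly_le W m) ?_
  apply le_natDegree_of_ne_zero
  rw [coeff_Qpoly]; exact h

lemma leadingCoeff_Qpoly (W : WeierstrassCurve R) (m : ℕ) (h : ((2 * m + 1 : ℕ) : R) ≠ 0) :
    (Qpoly W m).leadingCoeff = ((2 * m + 1 : ℕ) : R) := by
  rw [leadingCoeff, natDegree_Qpoly W m h, coeff_Qpoly]

lemma Qpoly_ne_zero (W : WeierstrassCurve R) (m : ℕ) (h : ((2 * m + 1 : ℕ) : R) ≠ 0) :
    Qpoly W m ≠ 0 := by
  intro h0
  have := coeff_Qpoly W m
  rw [h0, coeff_zero] at this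
  exact h this.symm

end Ring

section Field

variable {F : Type*} [Field F] [DecidableEq F] (W : WeierstrassCurve.Affine F)

/-- **Torsion criterion**: `(2m+1) • P = 0 ↔ Qpoly(x(P)) = 0`. -/
theorem odd_nsmul_eq_zero_iff_eval {x y : F} (hP : W.Nonsingular x y) (m : ℕ) :
    (2 * m + 1) • Affine.Point.some x y hP = 0 ↔ (Qpoly W m).eval x = 0 := by
  rw [odd_nsmul_eq_zero_iff, eval_Qpoly]

/-- Version for a curve defined over a subring: the polynomial has coefficients in `R`. -/
theorem odd_nsmul_eq_zero_iff_eval₂ {R : Type*} [CommRing R] (f : R →+* F)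
    (W₀ : WeierstrassCurve R) {x y : F} (hP : (W₀.map f).toAffine.Nonsingular x y) (m : ℕ) :
    (2 * m + 1) • Affine.Point.some x y hP = 0 ↔ (Qpoly W₀ m).eval₂ f x = 0 := by
  rw [odd_nsmul_eq_zero_iff, eval₂_Qpoly]

lemma mem_torsionBy_iff_nsmul' {n : ℕ} (P : W.Point) :
    P ∈ Submodule.torsionBy ℤ W.Point n ↔ n • P = 0 := by
  rw [Submodule.mem_torsionBy_iff, Nat.cast_smul_eq_nsmul]

open Fermat.Agent.S51.H780 in
/-- There are at most `n²` points killed by an odd `n = 2m+1` which is nonzero in `F`. -/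
theorem finite_card_odd_torsion (m : ℕ) (h : ((2 * m + 1 : ℕ) : F) ≠ 0) :
    Finite (Submodule.torsionBy ℤ W.Point ((2 * m + 1 : ℕ) : ℤ)) ∧
      Nat.card (Submodule.torsionBy ℤ W.Point ((2 * m + 1 : ℕ) : ℤ)) ≤ (2 * m + 1) ^ 2 := by
  have key := finite_and_ncard_le_of_xc_roots W
    (Submodule.torsionBy ℤ W.Point ((2 * m + 1 : ℕ) : ℤ) : Set W.Point) (Qpoly W m)
    (Qpoly_ne_zero W m h) (by
      intro P hP hP0
      match P, hP, hP0 with
      | .zero, _, hP0 => exact absurd rfl hP0
      | .some x y hxy, hP, _ =>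
        rw [xc_some]
        exact (odd_nsmul_eq_zero_iff_eval W hxy m).mp ((mem_torsionBy_iff_nsmul' W _).mp hP))
  refine ⟨key.1.to_subtype, ?_⟩
  have hdeg := natDegree_Qpoly_le W m
  have e : Nat.card (Submodule.torsionBy ℤ W.Point ((2 * m + 1 : ℕ) : ℤ)) =
      (Submodule.torsionBy ℤ W.Point ((2 * m + 1 : ℕ) : ℤ) : Set W.Point).ncard := rfl
  rw [e]
  calc _ ≤ 2 * (Qpoly W m).natDegree + 1 := key.2
    _ ≤ 2 * (2 * m * m + 2 * m) + 1 := by omega
    _ = (2 * m + 1) ^ 2 := by ring

open Fermat.Agent.S51.H780 in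
/-- Over an algebraically closed field, a nonzero point killed by `n = 2m+1 ≥ 3` exists. -/
theorem exists_odd_torsion [IsAlgClosed F] (hΔ : W.Δ ≠ 0) (m : ℕ) (hm : 1 ≤ m)
    (h : ((2 * m + 1 : ℕ) : F) ≠ 0) :
    ∃ P : W.Point, P ≠ 0 ∧ (2 * m + 1) • P = 0 := by
  obtain ⟨x, hx⟩ := IsAlgClosed.exists_root (Qpoly W m) (by
    rw [Polynomial.degree_eq_natDegree (Qpoly_ne_zero W m h), natDegree_Qpoly W m h]
    have : 0 < 2 * m * m + 2 * m := by positivity
    exact_mod_cast this.ne')
  obtain ⟨y, hy⟩ := IsAlgClosed.exists_root (yPoly W x) (by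
    rw [Polynomial.degree_eq_natDegree (yPoly_ne_zero W x), yPoly_natDegree]; norm_num)
  have he : W.Equation x y := (yPoly_eval W).mp hy
  have hns : W.Nonsingular x y := (Affine.equation_iff_nonsingular_of_Δ_ne_zero hΔ).mp he
  exact ⟨Affine.Point.some x y hns, Affine.Point.some_ne_zero hns,
    (odd_nsmul_eq_zero_iff_eval W hns m).mpr hx⟩

/-- `E[n]` is nontrivial for odd `n ≥ 3` invertible in an algebraically closed field. -/
theorem nontrivial_odd_torsion [IsAlgClosed F] (hΔ : W.Δ ≠ 0) (n : ℕ) (hn : Odd n) (hn3 : 3 ≤ n)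
    (h : (n : F) ≠ 0) : Nontrivial (Submodule.torsionBy ℤ W.Point (n : ℤ)) := by
  obtain ⟨m, rfl⟩ := hn
  obtain ⟨P, hP0, hP⟩ := exists_odd_torsion W hΔ m (by omega) h
  refine ⟨⟨⟨P, (mem_torsionBy_iff_nsmul' W P).mpr hP⟩, 0, ?_⟩⟩
  intro h0
  exact hP0 (congrArg Subtype.val h0)

/-- `#E[n] ≤ n²` for odd `n` invertible in the field. -/
theorem finite_card_torsion_of_odd (n : ℕ) (hn : Odd n) (h : (n : F) ≠ 0) :
    Finite (Submodule.torsionBy ℤ W.Point (n : ℤ)) ∧
      Nat.card (Submodule.torsionBy ℤ W.Point (n : ℤ)) ≤ n ^ 2 := by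
  obtain ⟨m, rfl⟩ := hn
  exact finite_card_odd_torsion W m h

end Field

end Fermat.Agent.S13.H164

end
-- ===== PACK-END S13/H164/Torsion.lean

-- ===== PACK-BEGIN S29/H872/Charpoly.lean
section


/-!
# Characteristic polynomials in the two-dimensional case of the dimension lemma
-/

set_option autoImplicit false

namespace Fermat.Agent.S29.H872

open Module Polynomial

variable {K : Type*} [Field K] {U : Type*} [AddCommGroup U] [Module K U]
variable {G : Type*} [Group G]

/-- `T` is not a scalar. -/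
def NonScalar (T : Module.End K U) : Prop := ∀ c : K, T ≠ c • 1

theorem smul_one_injective [Nontrivial U] : Function.Injective fun c : K => c • (1 : Module.End K U) := by
  intro c c' h
  obtain ⟨u, hu⟩ := exists_ne (0 : U)
  have := congrArg (fun f : Module.End K U => f u) h
  simp only [LinearMap.smul_apply, Module.End.one_apply] at this
  exact smul_left_injective K hu this

/-- Uniqueness of the quadratic relation of a non-scalar endomorphism. -/
theorem quad_unique {T : Module.End K U} [Nontrivial U] (hT : NonScalar T) {α β γ δ : K}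
    (h1 : T * T = α • T - γ • 1) (h2 : T * T = β • T - δ • 1) : α = β ∧ γ = δ := by
  have h : (α - β) • T = (γ - δ) • (1 : Module.End K U) := by
    have := h1.symm.trans h2
    rw [sub_smul, sub_smul]
    rw [sub_eq_sub_iff_add_eq_add] at this ⊢
    rw [this]
    abel
  have hαβ : α = β := by
    by_contra hne
    have hne' : α - β ≠ 0 := sub_ne_zero.2 hne
    apply hT ((α - β)⁻¹ * (γ - δ))
    rw [mul_smul, ← h, smul_smul, inv_mul_cancel₀ hne', one_smul]
  refine ⟨hαβ, ?_⟩
  rw [hαβ, sub_self, zero_smul] at h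
  have := smul_one_injective (K := K) (U := U) (h.symm.trans (zero_smul K _).symm)
  exact sub_eq_zero.1 this

variable [FiniteDimensional K U]

theorem charpoly_smul_one (c : K) :
    (c • (1 : Module.End K U)).charpoly = (X - C c) ^ Module.finrank K U := by
  have h := LinearMap.charpoly_sub_smul (0 : Module.End K U) (-c)
  rw [LinearMap.charpoly_zero] at h
  have e : (0 : Module.End K U) - (-c) • 1 = c • 1 := by simp
  rw [e] at h
  rw [h]
  simp [sub_eq_add_neg]

/-- Characteristic polynomial of a non-scalar endomorphism of a plane with a quadratic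
relation. -/
theorem charpoly_of_nonScalar [Nontrivial U] (h2 : Module.finrank K U = 2)
    {T : Module.End K U} (hT : NonScalar T) {α δ : K} (hrel : T * T = α • T - δ • 1) :
    T.charpoly = X ^ 2 - C α * X + C δ := by
  have hmon := LinearMap.charpoly_monic T
  have hdeg : T.charpoly.natDegree = 2 := by rw [LinearMap.charpoly_natDegree, h2]
  have hCH := LinearMap.aeval_self_charpoly T
  -- write the characteristic polynomial as `X² + c₁ X + c₀`
  have hP : T.charpoly = X ^ 2 + C (T.charpoly.coeff 1) * X + C (T.charpoly.coeff 0) := by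
    ext n
    have hlead : T.charpoly.coeff 2 = 1 := by
      have := hmon.coeff_natDegree
      rwa [hdeg] at this
    rcases n with _ | _ | _ | n
    · simp
    · simp
    · simp [hlead]
    · have : T.charpoly.coeff (n + 3) = 0 :=
        coeff_eq_zero_of_natDegree_lt (by rw [hdeg]; omega)
      rw [this]
      simp
  rw [hP] at hCH
  simp only [map_add, map_mul, map_pow, aeval_X, aeval_C, Module.algebraMap_end_eq_smul_id] at hCH
  have hCH' : T * T + (T.charpoly.coeff 1) • T + (T.charpoly.coeff 0) • (1 : Module.End K U)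
      = 0 := by
    rw [← hCH, pow_two]
    congr 2
  have h3 : T * T = (-(T.charpoly.coeff 1)) • T - (T.charpoly.coeff 0) • (1 : Module.End K U) := by
    rw [neg_smul]
    have e1 := eq_neg_of_add_eq_zero_left hCH'
    have e2 := eq_sub_of_add_eq e1
    rw [e2]
    abel
  obtain ⟨e1, e0⟩ := quad_unique hT hrel h3
  rw [hP, ← e0, show T.charpoly.coeff 1 = -α by rw [e1, neg_neg]]
  simp [sub_eq_add_neg]

omit [FiniteDimensional K U] in
theorem exists_nonScalar [Nontrivial U] (h2 : Module.finrank K U = 2) (r : G →* Module.End K U)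
    (hirr : ∀ W : Submodule K U, (∀ g, W ≤ W.comap (r g)) → W = ⊥ ∨ W = ⊤) :
    ∃ h, NonScalar (r h) := by
  by_contra hcon
  simp only [NonScalar, not_exists, not_forall, not_not] at hcon
  obtain ⟨u, hu⟩ := exists_ne (0 : U)
  have hW := hirr (Submodule.span K {u}) (fun g w hw => by
    obtain ⟨c, hc⟩ := hcon g
    rw [Submodule.mem_comap, hc]
    exact Submodule.smul_mem _ _ hw)
  rcases hW with hW | hW
  · exact hu ((Submodule.span_singleton_eq_bot).1 hW)
  · have := finrank_span_singleton (K := K) hu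
    rw [hW, finrank_top, h2] at this
    omega

/-- **Characteristic polynomial lemma.**  In the two-dimensional irreducible case, every
quadratic relation `g² = α g - d(g)` (with `d` multiplicative) is the characteristic
polynomial. -/
theorem charpoly_eq_of_quadRel [IsAlgClosed K] [Nontrivial U] {r : G →* Module.End K U}
    {a d : G → K} (hq : QuadRel r a d)
    (hirr : ∀ W : Submodule K U, (∀ g, W ≤ W.comap (r g)) → W = ⊥ ∨ W = ⊤)
    (h2 : Module.finrank K U = 2) (g : G) (α : K) (hα : r g * r g = α • r g - d g • 1) :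
    (r g).charpoly = X ^ 2 - C α * X + C (d g) := by
  by_cases hg : NonScalar (r g)
  · exact charpoly_of_nonScalar h2 hg hα
  · simp only [NonScalar, not_forall, not_not] at hg
    obtain ⟨c, hc⟩ := hg
    obtain ⟨h, hh⟩ := exists_nonScalar h2 r hirr
    have hinv : r g⁻¹ * r g = 1 := by rw [← map_mul, inv_mul_cancel, map_one]
    have hc0 : c ≠ 0 := by
      rintro rfl
      rw [hc, zero_smul, mul_zero] at hinv
      exact zero_ne_one hinv
    -- `r (g * h) = c • r h` is not scalar
    have hgh : r (g * h) = c • r h := by rw [map_mul, hc, smul_mul_assoc, one_mul]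
    have hghns : NonScalar (r (g * h)) := by
      intro e he
      apply hh (c⁻¹ * e)
      rw [mul_smul, ← he, hgh, smul_smul, inv_mul_cancel₀ hc0, one_smul]
    have hrel1 := hq.rel (g * h)
    have hrel2 : r (g * h) * r (g * h) = (c * a h) • r (g * h) - (c ^ 2 * d h) • 1 := by
      rw [hgh, smul_mul_smul_comm, hq.rel h]
      module
    obtain ⟨-, hd⟩ := quad_unique hghns hrel1 hrel2
    rw [hq.d_mul] at hd
    -- `d h ≠ 0`
    have hdh : d h ≠ 0 := by
      intro h0
      have hadj := quad_adj (hq.rel h)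
      rw [h0, zero_smul] at hadj
      have hinvh : r h⁻¹ * r h = 1 := by rw [← map_mul, inv_mul_cancel, map_one]
      have : a h • (1 : Module.End K U) - r h = 0 := by
        have := congrArg (fun z => r h⁻¹ * z) hadj
        simpa only [← mul_assoc, hinvh, one_mul, mul_zero] using this
      exact hh (a h) (sub_eq_zero.1 this).symm
    have hdg : d g = c ^ 2 := mul_right_cancel₀ hdh hd
    -- `α = 2 c`
    have hα2 : α = 2 * c := by
      rw [hc, smul_mul_smul_comm, mul_one, hdg, smul_smul] at hα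
      have h' : (c * c) • (1 : Module.End K U) = (α * c - c ^ 2) • 1 := by
        rw [hα, sub_smul]
      have := smul_one_injective (K := K) (U := U) h'
      have h3 : c * (2 * c - α) = 0 := by linear_combination this
      rcases mul_eq_zero.1 h3 with h4 | h4
      · exact absurd h4 hc0
      · linear_combination -h4
    rw [hc, charpoly_smul_one, h2, hdg, hα2, show (2 * c : K) = c + c by ring]
    simp only [map_add, map_pow]
    ring

end Fermat.Agent.S29.H872

end
-- ===== PACK-END S29/H872/Charpoly.lean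

-- ===== PACK-BEGIN S29/H201/PeriodHecke.lean
section



/-!
# S29 / P5-E2 (helper201) — Hecke equivariance of the period map

`periodMap N (T_p f) = heckeHom p (periodMap N f)` for `p ∤ N`.
-/

set_option autoImplicit false

open CongruenceSubgroup Matrix.SpecialLinearGroup UpperHalfPlane ModularCurve ModularCurve.Period
open Filter Topology
open scoped MatrixGroups ModularForm
open P2MW.S_ModularForm_heckeT_slash_eq_self_of_mem_Gamma0.ModularForm.HeckeSlashInvariance

namespace Fermat.Agent.S29.H201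

variable {N : ℕ} {p : ℕ} [Fact p.Prime]

/-- The Hecke transform of a primitive. -/
noncomputable def heckePrim (p : ℕ) [Fact p.Prime] (F : ℍ → ℂ) : ℍ → ℂ :=
  fun τ => ∑ x : OnePoint (ZMod p), F (_root_.P2MW.S_ModularForm_heckeT_slash_eq_self_of_mem_Gamma0.ModularForm.HeckeSlashInvariance.heckeRep p x • τ)

omit [Fact p.Prime] in
theorem det_heckeRep_pos (x : OnePoint (ZMod p)) :
    0 < ((_root_.P2MW.S_ModularForm_heckeT_slash_eq_self_of_mem_Gamma0.ModularForm.HeckeSlashInvariance.heckeRep p x : GL (Fin 2) ℝ) : Matrix (Fin 2) (Fin 2) ℝ).det := by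
  induction x using OnePoint.rec with
  | infty =>
    have := ModularForm.det_heckeDiagMatrix_pos p
    rwa [Matrix.GeneralLinearGroup.val_det_apply] at this
  | coe j =>
    have := ModularForm.det_heckeMatrix_pos p j.val
    rwa [Matrix.GeneralLinearGroup.val_det_apply] at this

/-- Chain rule for the action of `g ∈ GL₂(ℝ)⁺`. -/
theorem hasDerivAt_comp_smul_GL {F f : ℍ → ℂ}
    (hF : ∀ τ : ℍ, HasDerivAt (F ∘ ofComplex) (f τ) ↑τ) (g : GL (Fin 2) ℝ)
    (hpos : 0 < (g : Matrix (Fin 2) (Fin 2) ℝ).det) (τ : ℍ) :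
    HasDerivAt ((fun w : ℍ => F (g • w)) ∘ ofComplex) ((f ∣[(2 : ℤ)] g) τ) ↑τ := by
  have h_smul : HasDerivAt (fun w ↦ ↑(g • ofComplex w) : ℂ → ℂ)
      (((g : Matrix (Fin 2) (Fin 2) ℝ).det : ℂ) / denom g τ ^ 2) ↑τ :=
    (hasStrictDerivAt_smul hpos τ).hasDerivAt
  have h_F : HasDerivAt (F ∘ ofComplex) (f (g • τ)) ↑(g • ofComplex (τ : ℂ)) := by
    rw [ofComplex_apply]
    exact hF (g • τ)
  have hcomp := h_F.comp (τ : ℂ) h_smul
  have heq : ((fun w : ℍ => F (g • w)) ∘ ofComplex)
      = (F ∘ ofComplex) ∘ (fun w ↦ ↑(g • ofComplex w) : ℂ → ℂ) := by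
    funext z
    simp only [Function.comp_apply, ofComplex_apply]
  rw [heq]
  refine hcomp.congr_deriv ?_
  have hdet' : 0 < (g.det : ℝ) := by
    rwa [Matrix.GeneralLinearGroup.val_det_apply]
  rw [ModularForm.slash_apply, UpperHalfPlane.σ, if_pos hdet']
  have hz := denom_ne_zero g τ
  simp only [ContinuousAlgEquiv.refl_apply]
  rw [show (2 : ℤ) - 1 = 1 by norm_num, zpow_one, zpow_neg, abs_of_pos hdet',
    Matrix.GeneralLinearGroup.val_det_apply]
  rw [div_eq_mul_inv, mul_assoc]
  norm_cast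

theorem im_heckeRep_smul (x : OnePoint (ZMod p)) (τ : ℍ) :
    τ.im / p ≤ (_root_.P2MW.S_ModularForm_heckeT_slash_eq_self_of_mem_Gamma0.ModularForm.HeckeSlashInvariance.heckeRep p x • τ).im := by
  have hp : p ≠ 0 := (Fact.out : p.Prime).ne_zero
  have hp1 : (1 : ℝ) ≤ p := by exact_mod_cast (Fact.out : p.Prime).one_le
  have hpos : (0 : ℝ) < p := by linarith
  have him : 0 < τ.im := τ.im_pos
  induction x using OnePoint.rec with
  | infty =>
    have h := ModularForm.coe_heckeDiagMatrix_smul hp τ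
    have h2 : (_root_.P2MW.S_ModularForm_heckeT_slash_eq_self_of_mem_Gamma0.ModularForm.HeckeSlashInvariance.heckeRep p (OnePoint.infty : OnePoint (ZMod p)) • τ).im = p * τ.im := by
      have := congrArg Complex.im h
      simpa using this
    rw [h2]
    calc τ.im / p ≤ τ.im := div_le_self him.le hp1
      _ ≤ p * τ.im := le_mul_of_one_le_left him.le hp1
  | coe j =>
    have h := ModularForm.coe_heckeMatrix_smul hp j.val τ
    have h2 : (_root_.P2MW.S_ModularForm_heckeT_slash_eq_self_of_mem_Gamma0.ModularForm.HeckeSlashInvariance.heckeRep p (j : OnePoint (ZMod p)) • τ).im = τ.im / p := by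
      have := congrArg Complex.im h
      rw [UpperHalfPlane.coe_im] at this
      show (ModularForm.heckeMatrix p j.val • τ).im = _
      rw [this, Complex.div_natCast_im, Complex.add_im, Complex.natCast_im, add_zero,
        UpperHalfPlane.coe_im]
    rw [h2]

theorem tendsto_heckeRep_smul (x : OnePoint (ZMod p)) :
    Tendsto (fun τ : ℍ => _root_.P2MW.S_ModularForm_heckeT_slash_eq_self_of_mem_Gamma0.ModularForm.HeckeSlashInvariance.heckeRep p x • τ) atImInfty atImInfty := by
  have hpos : (0 : ℝ) < p := by exact_mod_cast (Fact.out : p.Prime).pos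
  rw [atImInfty, tendsto_comap_iff]
  refine tendsto_atTop_mono (fun τ => im_heckeRep_smul x τ) ?_
  exact (tendsto_comap.atTop_div_const hpos)

theorem SL_smul_eq_mapGL_smul (γ : SL(2, ℤ)) (τ : ℍ) : γ • τ = (mapGL ℝ γ) • τ := rfl

theorem heckePrim_smul_sub (hpN : ¬ p ∣ N)
    {f : CuspForm (Gamma0 N) 2} {F : ℍ → ℂ} (hF : HasEquivariantPrimitive N f F)
    (γ : Gamma0 N) (τ : ℍ) :
    heckePrim p F ((γ : SL(2, ℤ)) • τ) - heckePrim p F τ
      = ∑ x : OnePoint (ZMod p), hF.2.2.1.period (trf hpN γ x) := by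
  have key : ∀ x : OnePoint (ZMod p), F (_root_.P2MW.S_ModularForm_heckeT_slash_eq_self_of_mem_Gamma0.ModularForm.HeckeSlashInvariance.heckeRep p x • ((γ : SL(2, ℤ)) • τ))
      = F (_root_.P2MW.S_ModularForm_heckeT_slash_eq_self_of_mem_Gamma0.ModularForm.HeckeSlashInvariance.heckeRep p (permOf γ x) • τ) + hF.2.2.1.period (trf hpN γ x) := by
    intro x
    have h1 : _root_.P2MW.S_ModularForm_heckeT_slash_eq_self_of_mem_Gamma0.ModularForm.HeckeSlashInvariance.heckeRep p x • ((γ : SL(2, ℤ)) • τ)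
        = ((trf hpN γ x : Gamma0 N) : SL(2, ℤ)) • (_root_.P2MW.S_ModularForm_heckeT_slash_eq_self_of_mem_Gamma0.ModularForm.HeckeSlashInvariance.heckeRep p (permOf γ x) • τ) := by
      rw [SL_smul_eq_mapGL_smul, SL_smul_eq_mapGL_smul, ← mul_smul, ← mul_smul, trf_spec hpN γ x]
      rfl
    rw [h1, ← hF.2.2.1.sub_eq_period (trf hpN γ x) (_root_.P2MW.S_ModularForm_heckeT_slash_eq_self_of_mem_Gamma0.ModularForm.HeckeSlashInvariance.heckeRep p (permOf γ x) • τ)]
    ring
  unfold heckePrim
  simp only [key, Finset.sum_add_distrib]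
  rw [Equiv.sum_comp (permOf γ) (fun y => F (_root_.P2MW.S_ModularForm_heckeT_slash_eq_self_of_mem_Gamma0.ModularForm.HeckeSlashInvariance.heckeRep p y • τ))]
  ring

theorem hasEquivariantPrimitive_heckePrim (hp : p.Prime) (hpN : ¬ p ∣ N)
    {f : CuspForm (Gamma0 N) 2} {F : ℍ → ℂ} (hF : HasEquivariantPrimitive N f F) :
    HasEquivariantPrimitive N (CuspForm.heckeTLin 2 hp hpN f) (heckePrim p F) := by
  refine ⟨fun τ => ?_, ?_, fun γ => ?_, fun δ => ?_⟩
  · -- derivative
    have hsum : (heckePrim p F ∘ ofComplex)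
        = fun z => ∑ x : OnePoint (ZMod p), ((fun w : ℍ => F (_root_.P2MW.S_ModularForm_heckeT_slash_eq_self_of_mem_Gamma0.ModularForm.HeckeSlashInvariance.heckeRep p x • w)) ∘ ofComplex) z := by
      funext z
      rfl
    rw [hsum, CuspForm.heckeTLin_apply_apply, heckeT_eq_sum_onePoint, Finset.sum_apply]
    exact HasDerivAt.fun_sum fun x _ =>
      hasDerivAt_comp_smul_GL hF.1 (_root_.P2MW.S_ModularForm_heckeT_slash_eq_self_of_mem_Gamma0.ModularForm.HeckeSlashInvariance.heckeRep p x) (det_heckeRep_pos x) τ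
  · -- limit `0` at `i∞`
    have h : Tendsto (fun τ : ℍ => ∑ x : OnePoint (ZMod p), F (_root_.P2MW.S_ModularForm_heckeT_slash_eq_self_of_mem_Gamma0.ModularForm.HeckeSlashInvariance.heckeRep p x • τ)) atImInfty
        (𝓝 (∑ _x : OnePoint (ZMod p), (0 : ℂ))) :=
      tendsto_finsetSum _ fun x _ => hF.2.1.comp (tendsto_heckeRep_smul x)
    rw [Finset.sum_const_zero] at h
    exact h
  · exact ⟨_, fun z => heckePrim_smul_sub hpN hF γ z⟩
  · -- limits at the cusps
    have h1 : ¬ p ∣ 1 := fun h => hp.one_lt.ne' (Nat.dvd_one.mp h)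
    have hx : ∀ x : OnePoint (ZMod p), ∃ L : ℂ,
        Tendsto (fun w : ℍ => F (_root_.P2MW.S_ModularForm_heckeT_slash_eq_self_of_mem_Gamma0.ModularForm.HeckeSlashInvariance.heckeRep p x • (δ • w))) atImInfty (𝓝 L) := by
      intro x
      obtain ⟨g', -, hg'⟩ := heckeRep_mul (N := 1) h1 δ (one_dvd _) x
      obtain ⟨L, hL⟩ := hF.2.2.2 g'
      refine ⟨L, ?_⟩
      have heq : (fun w : ℍ => F (_root_.P2MW.S_ModularForm_heckeT_slash_eq_self_of_mem_Gamma0.ModularForm.HeckeSlashInvariance.heckeRep p x • (δ • w)))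
          = (fun w : ℍ => F (g' • w)) ∘ (fun w : ℍ => _root_.P2MW.S_ModularForm_heckeT_slash_eq_self_of_mem_Gamma0.ModularForm.HeckeSlashInvariance.heckeRep p (redMatrix p δ • x) • w) := by
        funext w
        simp only [Function.comp_apply]
        rw [SL_smul_eq_mapGL_smul, SL_smul_eq_mapGL_smul, ← mul_smul, ← mul_smul, hg']
      rw [heq]
      exact hL.comp (tendsto_heckeRep_smul _)
    choose L hL using hx
    exact ⟨∑ x : OnePoint (ZMod p), L x, tendsto_finsetSum _ fun x _ => hL x⟩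

/-- **E2a**: Hecke equivariance of the period map. -/
theorem periodMap_heckeTLin (hp : p.Prime) (hpN : ¬ p ∣ N) (f : CuspForm (Gamma0 N) 2) :
    periodMap N (CuspForm.heckeTLin 2 hp hpN f) = heckeHom p hpN ℂ (periodMap N f) := by
  haveI : NeZero N := ⟨fun h => hpN (h ▸ dvd_zero p)⟩
  obtain ⟨F, hF⟩ := Fermat.Agent.S21.H381.exists_hasEquivariantPrimitive f
  refine AddMonoidHom.ext fun γ => ?_
  obtain ⟨γ, rfl⟩ : ∃ γ' : Gamma0 N, Additive.ofMul γ' = γ := ⟨Additive.toMul γ, rfl⟩
  rw [Fermat.Agent.S21.H381.periodMap_apply (hasEquivariantPrimitive_heckePrim hp hpN hF) γ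
    UpperHalfPlane.I, heckePrim_smul_sub hpN hF γ UpperHalfPlane.I, heckeHom_apply]
  refine Finset.sum_congr rfl fun x _ => ?_
  rw [Fermat.Agent.S21.H381.periodMap_apply hF (trf hpN γ x) UpperHalfPlane.I,
    hF.2.2.1.sub_eq_period]

end Fermat.Agent.S29.H201

end
-- ===== PACK-END S29/H201/PeriodHecke.lean

-- ===== PACK-BEGIN Lib/RR/Basic.lean
section


/-!
# RR library, layer L1: the spaces `L(D)`

* `L(D) = 0` for `deg D < 0`;
* `L(D + P) ⊆ L(D) + K f₀`;
* `L(D)` is finite-dimensional and `ℓ(D) ≤ deg D + 1` for `deg D ≥ -1`;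
* `L(0) = K`, `ℓ(0) = 1`;
* `ℓ(D + div z) = ℓ(D)`.
-/

set_option autoImplicit false

noncomputable section

open AlgebraicCurve

namespace Fermat.Agent.Lib.RR

variable {K F : Type*} [Field K] [Field F] [Algebra K F]

/-! ### Divisors and degrees -/

theorem degree_eq_sum (D : Divisor K F) :
    Divisor.degree D = ∑ v ∈ D.support, D v * (v.deg : ℤ) := by
  simp [Divisor.degree, Finsupp.liftAddHom_apply, Finsupp.sum]

theorem degree_nonneg {D : Divisor K F} (h : 0 ≤ D) : 0 ≤ Divisor.degree D := by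
  rw [degree_eq_sum]
  refine Finset.sum_nonneg fun v _ => mul_nonneg ?_ (Int.natCast_nonneg _)
  simpa using Finsupp.le_def.mp h v

theorem degree_mono {D D' : Divisor K F} (h : D ≤ D') :
    Divisor.degree D ≤ Divisor.degree D' := by
  have h1 : 0 ≤ D' - D := sub_nonneg.mpr h
  have h2 := degree_nonneg h1
  rw [map_sub] at h2
  linarith

theorem degree_prim (v : Place K F) (hv : v.deg = 1) : Divisor.degree (prim v) = 1 := by
  simp [prim, hv]

@[simp] theorem prim_apply_self (v : Place K F) : prim v v = 1 := by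
  simp [prim]

theorem prim_apply_of_ne {v w : Place K F} (h : w ≠ v) : prim v w = 0 := by
  simp [prim, h.symm]

/-! ### The spaces `L(D)` -/

theorem mem_L_iff {D : Divisor K F} {f : F} :
    f ∈ riemannRochSpace D ↔ ∀ v : Place K F, f = 0 ∨ -D v ≤ v.ord f :=
  mem_riemannRochSpace_iff

theorem L_mono {D D' : Divisor K F} (h : D ≤ D') :
    riemannRochSpace D ≤ riemannRochSpace D' := by
  intro f hf
  rw [mem_L_iff] at hf ⊢
  intro v
  rcases hf v with h0 | h1
  · exact Or.inl h0
  · right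
    have := Finsupp.le_def.mp h v
    omega

/-- A nonzero element of `L(D)` forces `deg D ≥ 0`. -/
theorem degree_nonneg_of_mem_L [HasPrincipalDivisors K F] {D : Divisor K F} {f : F}
    (hf : f ∈ riemannRochSpace D) (hf0 : f ≠ 0) : 0 ≤ Divisor.degree D := by
  obtain ⟨E, hE, hE0⟩ := HasPrincipalDivisors.exists_divisor (K := K) f hf0
  have h1 : 0 ≤ D + E := by
    rw [Finsupp.le_def]
    intro v
    have := (mem_L_iff.mp hf v).resolve_left hf0
    simp only [Finsupp.coe_zero, Pi.zero_apply, Finsupp.coe_add, Pi.add_apply, hE v]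
    omega
  have h2 := degree_nonneg h1
  rw [map_add, hE0, add_zero] at h2
  exact h2

theorem L_eq_bot_of_degree_neg [HasPrincipalDivisors K F] {D : Divisor K F}
    (h : Divisor.degree D < 0) : riemannRochSpace D = ⊥ := by
  rw [eq_bot_iff]
  intro f hf
  rw [Submodule.mem_bot]
  by_contra hf0
  have := degree_nonneg_of_mem_L hf hf0
  omega

/-- One step: `L(D + P) ⊆ L(D) + K f₀` for any `f₀ ∈ L(D + P) \ L(D)`, `P` of degree one. -/
theorem L_add_prim_le (v : Place K F) (hv : v.deg = 1) (D : Divisor K F) {f₀ : F}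
    (hf₀ : f₀ ∈ riemannRochSpace (D + prim v)) (hf₀' : f₀ ∉ riemannRochSpace D) :
    riemannRochSpace (D + prim v) ≤ riemannRochSpace D ⊔ Submodule.span K {f₀} := by
  classical
  have hf₀0 : f₀ ≠ 0 := fun h => hf₀' (h ▸ Submodule.zero_mem _)
  -- the order of `f₀` at `v` is exactly `-(D v + 1)`
  have hord₀ : v.ord f₀ = -(D v + 1) := by
    have h1 := (mem_L_iff.mp hf₀ v).resolve_left hf₀0
    simp only [Finsupp.coe_add, Pi.add_apply, prim_apply_self] at h1
    by_contra hne
    apply hf₀'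
    rw [mem_L_iff]
    intro w
    right
    by_cases hw : w = v
    · subst hw; omega
    · have h2 := (mem_L_iff.mp hf₀ w).resolve_left hf₀0
      simpa [prim_apply_of_ne hw] using h2
  intro f hf
  rcases eq_or_ne f 0 with rfl | hf0
  · exact Submodule.zero_mem _
  have hordf := (mem_L_iff.mp hf v).resolve_left hf0
  simp only [Finsupp.coe_add, Pi.add_apply, prim_apply_self] at hordf
  have hg : 0 ≤ v.ord (f * f₀⁻¹) := by
    rw [v.ord_mul hf0 (inv_ne_zero hf₀0), v.ord_inv, hord₀]; omega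
  obtain ⟨c, hc⟩ := exists_const_sub v hv hg
  have hdecomp : f = (f - c • f₀) + c • f₀ := by ring
  rw [hdecomp]
  refine Submodule.add_mem _ (Submodule.mem_sup_left ?_)
    (Submodule.mem_sup_right (Submodule.smul_mem _ _ (Submodule.mem_span_singleton_self _)))
  have hmem' : f - c • f₀ ∈ riemannRochSpace (D + prim v) :=
    Submodule.sub_mem _ hf (Submodule.smul_mem _ _ hf₀)
  rw [mem_L_iff]
  intro w
  by_cases hw : w = v
  · subst hw
    have hfac : f - c • f₀ = (f * f₀⁻¹ - algebraMap K F c) * f₀ := by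
      rw [Algebra.smul_def]; field_simp
    rcases hc with hc | hc
    · left; rw [hfac, hc, zero_mul]
    · rcases eq_or_ne (f - c • f₀) 0 with h0 | h0
      · exact Or.inl h0
      right
      have hne : f * f₀⁻¹ - algebraMap K F c ≠ 0 := by
        intro h; rw [hfac, h, zero_mul] at h0; exact h0 rfl
      rw [hfac, w.ord_mul hne hf₀0, hord₀]
      omega
  · have h2 := mem_L_iff.mp hmem' w
    simpa [prim_apply_of_ne hw] using h2

/-- One step, dimension form. -/
theorem L_add_prim_finite (v : Place K F) (hv : v.deg = 1) (D : Divisor K F)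
    [Module.Finite K (riemannRochSpace D)] :
    Module.Finite K (riemannRochSpace (D + prim v)) ∧
      ell (D + prim v) ≤ ell D + 1 := by
  classical
  by_cases h : riemannRochSpace (D + prim v) ≤ riemannRochSpace D
  · have hfin : Module.Finite K (riemannRochSpace (D + prim v)) :=
      Submodule.finiteDimensional_of_le h
    exact ⟨hfin, (Submodule.finrank_mono h).trans (Nat.le_succ _)⟩
  · obtain ⟨f₀, hf₀, hf₀'⟩ := SetLike.not_le_iff_exists.mp h
    have hle := L_add_prim_le v hv D hf₀ hf₀'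
    have hfin' : Module.Finite K ↥(riemannRochSpace D ⊔ Submodule.span K {f₀}) := inferInstance
    have hfin : Module.Finite K (riemannRochSpace (D + prim v)) :=
      Submodule.finiteDimensional_of_le hle
    refine ⟨hfin, ?_⟩
    calc ell (D + prim v) ≤ Module.finrank K ↥(riemannRochSpace D ⊔ Submodule.span K {f₀}) :=
          Submodule.finrank_mono hle
      _ ≤ Module.finrank K (riemannRochSpace D) + Module.finrank K (Submodule.span K {f₀}) :=
          Submodule.finrank_add_le_finrank_add_finrank _ _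
      _ ≤ ell D + 1 := by
          have := finrank_span_singleton (K := K) (fun h => hf₀' (h ▸ Submodule.zero_mem _) : f₀ ≠ 0)
          rw [this]; rfl


/-! ### Consequences under the standing hypotheses -/

section FF1

variable [hFF : FF1 K F]

instance (priority := 100) instHasPrincipalDivisors_of_FF1 : HasPrincipalDivisors K F := hFF.hpd

theorem deg_eq_one (v : Place K F) : v.deg = 1 := FF1.deg_eq_one v

@[simp] theorem degree_prim' (v : Place K F) : Divisor.degree (prim v) = 1 :=
  degree_prim v (deg_eq_one v)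

/-- `L(D)` is finite-dimensional, of dimension at most `deg D + 1`. -/
theorem finite_and_ell_le : ∀ (n : ℕ) (D : Divisor K F), Divisor.degree D + 1 ≤ n →
    Module.Finite K (riemannRochSpace D) ∧ ell D ≤ n := by
  intro n
  induction n with
  | zero =>
    intro D hD
    have h : riemannRochSpace D = ⊥ := L_eq_bot_of_degree_neg (by push_cast at hD; omega)
    refine ⟨by rw [h]; infer_instance, ?_⟩
    have h0 : ell D = 0 := by unfold ell; rw [h]; exact finrank_bot K F
    omega
  | succ n ih =>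
    intro D hD
    obtain ⟨v₀⟩ := hFF.nonempty_place
    have hdeg : Divisor.degree (D - prim v₀) + 1 ≤ n := by
      rw [map_sub, degree_prim']; push_cast at hD; omega
    obtain ⟨hfin, hle⟩ := ih (D - prim v₀) hdeg
    have := L_add_prim_finite v₀ (deg_eq_one v₀) (D - prim v₀)
    rw [sub_add_cancel] at this
    exact ⟨this.1, this.2.trans (by omega)⟩

instance finite_L (D : Divisor K F) : Module.Finite K (riemannRochSpace D) :=
  (finite_and_ell_le (Divisor.degree D + 1).toNat D (Int.self_le_toNat _)).1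

theorem ell_le_toNat (D : Divisor K F) : ell D ≤ (Divisor.degree D + 1).toNat :=
  (finite_and_ell_le (Divisor.degree D + 1).toNat D (Int.self_le_toNat _)).2

theorem ell_le_degree_add_one {D : Divisor K F} (h : -1 ≤ Divisor.degree D) :
    (ell D : ℤ) ≤ Divisor.degree D + 1 := by
  have := ell_le_toNat D
  have h2 : ((Divisor.degree D + 1).toNat : ℤ) = Divisor.degree D + 1 :=
    Int.toNat_of_nonneg (by omega)
  omega

theorem ell_eq_zero_of_degree_neg {D : Divisor K F} (h : Divisor.degree D < 0) : ell D = 0 := by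
  unfold ell; rw [L_eq_bot_of_degree_neg h]; exact finrank_bot K F

theorem ell_mono {D D' : Divisor K F} (h : D ≤ D') : ell D ≤ ell D' :=
  Submodule.finrank_mono (L_mono h)

theorem ell_add_prim_le (D : Divisor K F) (v : Place K F) : ell (D + prim v) ≤ ell D + 1 :=
  (L_add_prim_finite v (deg_eq_one v) D).2

/-- Induction principle: from `D` upwards, adding one place at a time. -/
theorem induction_ge {P : Divisor K F → Prop} (D : Divisor K F) (h0 : P D)
    (hstep : ∀ (D' : Divisor K F) (v : Place K F), D ≤ D' → P D' → P (D' + prim v)) :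
    ∀ D', D ≤ D' → P D' := by
  classical
  have key : ∀ (n : ℕ) (D' : Divisor K F), D ≤ D' → Divisor.degree (D' - D) ≤ n → P D' := by
    intro n
    induction n with
    | zero =>
      intro D' hle hdeg
      have hE : 0 ≤ D' - D := sub_nonneg.mpr hle
      have hE0 : D' - D = 0 := by
        by_contra hne
        obtain ⟨v, hv⟩ := Finsupp.support_nonempty_iff.mpr hne
        rw [Finsupp.mem_support_iff] at hv
        have hv0 : 0 ≤ (D' - D) v := by simpa using Finsupp.le_def.mp hE v
        have hge : prim v ≤ D' - D := by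
          rw [Finsupp.le_def]
          intro w
          by_cases hw : w = v
          · subst hw; rw [prim_apply_self]; omega
          · rw [prim_apply_of_ne hw]; simpa using Finsupp.le_def.mp hE w
        have := degree_mono hge
        rw [degree_prim'] at this
        push_cast at hdeg
        omega
      rw [sub_eq_zero] at hE0
      rw [hE0]; exact h0
    | succ n ih =>
      intro D' hle hdeg
      by_cases hE0 : D' - D = 0
      · rw [sub_eq_zero] at hE0
        rw [hE0]; exact h0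
      have hE : 0 ≤ D' - D := sub_nonneg.mpr hle
      obtain ⟨v, hv⟩ := Finsupp.support_nonempty_iff.mpr hE0
      rw [Finsupp.mem_support_iff] at hv
      have hv0 : 0 ≤ (D' - D) v := by simpa using Finsupp.le_def.mp hE v
      have hge : prim v ≤ D' - D := by
        rw [Finsupp.le_def]
        intro w
        by_cases hw : w = v
        · subst hw; rw [prim_apply_self]; omega
        · rw [prim_apply_of_ne hw]; simpa using Finsupp.le_def.mp hE w
      have hle' : D ≤ D' - prim v := by
        have : D + prim v ≤ D' := by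
          have := add_le_add_left hge D
          rwa [sub_add_cancel, add_comm] at this
        exact le_sub_iff_add_le.mpr this
      have hdeg' : Divisor.degree (D' - prim v - D) ≤ n := by
        have : D' - prim v - D = (D' - D) - prim v := by abel
        rw [this, map_sub, degree_prim']
        push_cast at hdeg; omega
      have := hstep (D' - prim v) v hle' (ih (D' - prim v) hle' hdeg')
      rwa [sub_add_cancel] at this
  intro D' hle
  exact key (Divisor.degree (D' - D)).toNat D' hle (Int.self_le_toNat _)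

/-- `deg D - ℓ(D)` is monotone in `D`. -/
theorem degree_sub_ell_mono {D D' : Divisor K F} (h : D ≤ D') :
    Divisor.degree D - ell D ≤ Divisor.degree D' - ell D' := by
  refine induction_ge (P := fun D' => Divisor.degree D - ell D ≤ Divisor.degree D' - ell D')
    D le_rfl ?_ D' h
  intro D'' v _ hP
  have h1 := ell_add_prim_le D'' v
  rw [map_add, degree_prim']
  omega

/-- Functions without poles are constant. -/
theorem L_zero : riemannRochSpace (0 : Divisor K F) = LinearMap.range (Algebra.linearMap K F) := by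
  apply le_antisymm
  · intro f hf
    obtain ⟨v₀⟩ := hFF.nonempty_place
    have hf0 : 0 ≤ v₀.ord f := by
      rcases mem_L_iff.mp hf v₀ with h | h
      · simp [h]
      · simpa using h
    obtain ⟨c, hc⟩ := exists_const_sub v₀ (deg_eq_one v₀) hf0
    have hcL : algebraMap K F c ∈ riemannRochSpace (0 : Divisor K F) := by
      rw [mem_L_iff]; intro v; right; simp [ord_algebraMap]
    have hg : f - algebraMap K F c ∈ riemannRochSpace (0 : Divisor K F) :=
      Submodule.sub_mem _ hf hcL
    have hzero : f - algebraMap K F c = 0 := by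
      by_contra hne
      have hpos := hc.resolve_left hne
      have hmem : f - algebraMap K F c ∈ riemannRochSpace (-prim v₀) := by
        rw [mem_L_iff]
        intro w
        right
        by_cases hw : w = v₀
        · subst hw; simp only [Finsupp.coe_neg, Pi.neg_apply, prim_apply_self, neg_neg]; omega
        · have := (mem_L_iff.mp hg w).resolve_left hne
          simpa [prim_apply_of_ne hw] using this
      have hbot : riemannRochSpace (-prim v₀) = ⊥ :=
        L_eq_bot_of_degree_neg (by rw [map_neg, degree_prim']; omega)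
      rw [hbot, Submodule.mem_bot] at hmem
      exact hne hmem
    exact ⟨c, by rw [Algebra.linearMap_apply]; exact (sub_eq_zero.mp hzero).symm⟩
  · rintro _ ⟨c, rfl⟩
    rw [mem_L_iff]; intro v; right
    simp [ord_algebraMap]

theorem ell_zero : ell (0 : Divisor K F) = 1 := by
  unfold ell
  rw [L_zero]
  have hinj : Function.Injective (Algebra.linearMap K F) := (algebraMap K F).injective
  rw [LinearMap.finrank_range_of_inj hinj]
  exact Module.finrank_self K

/-- The divisor of a nonzero function. -/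
def divOf (z : F) (hz : z ≠ 0) : Divisor K F :=
  (HasPrincipalDivisors.exists_divisor (K := K) z hz).choose

theorem divOf_apply (z : F) (hz : z ≠ 0) (v : Place K F) : divOf z hz v = v.ord z :=
  (HasPrincipalDivisors.exists_divisor (K := K) z hz).choose_spec.1 v

@[simp] theorem degree_divOf (z : F) (hz : z ≠ 0) : Divisor.degree (divOf (K := K) z hz) = 0 :=
  (HasPrincipalDivisors.exists_divisor (K := K) z hz).choose_spec.2

/-- Multiplication by `z` maps `L(D + div z)` isomorphically onto `L(D)`. -/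
theorem ell_add_divOf (D : Divisor K F) (z : F) (hz : z ≠ 0) :
    ell (D + divOf z hz) = ell D := by
  let e : F ≃ₗ[K] F :=
    LinearEquiv.ofLinearMap (LinearMap.mulLeft K z) (LinearMap.mulLeft K z⁻¹)
      (by ext x; simp [hz]) (by ext x; simp [hz])
  have hmap : Submodule.map (e : F →ₗ[K] F) (riemannRochSpace (D + divOf z hz))
      = riemannRochSpace D := by
    ext f
    simp only [Submodule.mem_map, mem_L_iff]
    constructor
    · rintro ⟨g, hg, rfl⟩ v
      rcases hg v with h | h
      · left; simp [e, h]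
      · rcases eq_or_ne g 0 with rfl | hg0
        · left; simp [e]
        right
        show -D v ≤ v.ord (z * g)
        rw [v.ord_mul hz hg0]
        simp only [Finsupp.coe_add, Pi.add_apply, divOf_apply] at h
        omega
    · intro hf
      refine ⟨z⁻¹ * f, fun v => ?_, by simp [e, hz]⟩
      rcases hf v with h | h
      · left; simp [h]
      · rcases eq_or_ne f 0 with rfl | hf0
        · left; simp
        right
        rw [v.ord_mul (inv_ne_zero hz) hf0, v.ord_inv]
        simp only [Finsupp.coe_add, Pi.add_apply, divOf_apply]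
        omega
  unfold ell
  rw [← hmap]
  exact (LinearEquiv.finrank_map_eq e _).symm

end FF1

end Fermat.Agent.Lib.RR

end
end
-- ===== PACK-END Lib/RR/Basic.lean

-- ===== PACK-BEGIN S18/H456/ModBasic.lean
section


/-!
# S18 / MOD assembly (helper456, backup MOD-ASM): basic facts on the concrete objects

Membership lemmas for `Lc`, `Ec`, `Rc`, `Fc` and the "easy" fields of `Alg.GoodModel`
(`charZero`, `R_le`, `R_total`, `E_le_L`, `E_le_F`, `L_algebraic`, `L_algClosed`, `compositum`).
-/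

set_option autoImplicit false

noncomputable section

namespace Fermat.Agent.S18.H456

open ModularCurve AlgebraicCurve HahnSeries Fermat.Agent.S18 Fermat.Agent.S18.Mod

variable (M : ℕ) (A : ValuationSubring Qb) (E : IntermediateField ℚ Qb)

/-- The constant `c ∈ Q̄` as an element of `Ω`. -/
abbrev cst (c : Qb) : Om M := algebraMap Qb (Om M) c

theorem cst_injective : Function.Injective (cst M) := (algebraMap Qb (Om M)).injective

theorem mem_Lc_iff {f : Om M} : f ∈ Lc M ↔ ∃ c : Qb, cst M c = f := Iff.rfl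

theorem cst_mem_Lc (c : Qb) : cst M c ∈ Lc M := ⟨c, rfl⟩

theorem mem_Ec_iff {f : Om M} : f ∈ Ec M E ↔ ∃ c ∈ E, cst M c = f := by
  unfold Ec
  rw [Subfield.mem_map]
  rfl

theorem cst_mem_Ec {c : Qb} (hc : c ∈ E) : cst M c ∈ Ec M E := (mem_Ec_iff M E).2 ⟨c, hc, rfl⟩

theorem cst_mem_Ec_iff {c : Qb} : cst M c ∈ Ec M E ↔ c ∈ E := by
  refine ⟨fun h => ?_, cst_mem_Ec M E⟩
  obtain ⟨c', hc', h⟩ := (mem_Ec_iff M E).1 h
  rwa [← cst_injective M h]

theorem mem_Rc_iff {f : Om M} : f ∈ Rc M A E ↔ ∃ c, c ∈ A ∧ c ∈ E ∧ cst M c = f := by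
  unfold Rc
  rw [Subring.mem_map]
  constructor
  · rintro ⟨c, hc, rfl⟩
    exact ⟨c, hc.1, hc.2, rfl⟩
  · rintro ⟨c, hA, hE, rfl⟩
    exact ⟨c, ⟨hA, hE⟩, rfl⟩

theorem cst_mem_Rc {c : Qb} (hA : c ∈ A) (hE : c ∈ E) : cst M c ∈ Rc M A E :=
  (mem_Rc_iff M A E).2 ⟨c, hA, hE, rfl⟩

theorem cst_mem_Rc_iff {c : Qb} : cst M c ∈ Rc M A E ↔ c ∈ A ∧ c ∈ E := by
  refine ⟨fun h => ?_, fun h => cst_mem_Rc M A E h.1 h.2⟩
  obtain ⟨c', hA, hE, h⟩ := (mem_Rc_iff M A E).1 h
  rw [← cst_injective M h]
  exact ⟨hA, hE⟩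

/-! ### The easy fields -/

theorem field_charZero : CharZero (Om M) :=
  charZero_of_injective_algebraMap (algebraMap Qb (Om M)).injective

theorem field_R_le : (Rc M A E : Set (Om M)) ⊆ Ec M E := by
  intro f hf
  obtain ⟨c, -, hE, rfl⟩ := (mem_Rc_iff M A E).1 hf
  exact cst_mem_Ec M E hE

theorem field_R_total : ∀ e ∈ Ec M E, e ∈ Rc M A E ∨ e⁻¹ ∈ Rc M A E := by
  intro e he
  obtain ⟨c, hE, rfl⟩ := (mem_Ec_iff M E).1 he
  rcases A.mem_or_inv_mem c with h | h
  · exact Or.inl (cst_mem_Rc M A E h hE)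
  · right
    rw [← map_inv₀]
    exact cst_mem_Rc M A E h (inv_mem hE)

theorem field_E_le_L : Ec M E ≤ Lc M := by
  intro f hf
  obtain ⟨c, -, rfl⟩ := (mem_Ec_iff M E).1 hf
  exact cst_mem_Lc M c

theorem field_E_le_F : Ec M E ≤ Fc M E := by
  intro f hf
  exact Subfield.subset_closure (Or.inl hf)

theorem field_L_algebraic : ∀ a ∈ Lc M, IsAlgebraic (Ec M E) a := by
  intro a ha
  obtain ⟨c, rfl⟩ := (mem_Lc_iff M).1 ha
  have hc : IsAlgebraic ℚ c := (AlgebraicClosure.isAlgebraic ℚ).isAlgebraic c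
  obtain ⟨p, hp0, hp⟩ := hc
  -- the ring hom ℚ → Ec
  let φ : ℚ →+* Ec M E := algebraMap ℚ (Ec M E)
  refine ⟨p.map φ, (Polynomial.map_ne_zero_iff φ.injective).2 hp0, ?_⟩
  rw [Polynomial.aeval_def, Polynomial.eval₂_map]
  have hcomp : (algebraMap (Ec M E) (Om M)).comp φ = (algebraMap Qb (Om M)).comp (algebraMap ℚ Qb) :=
    RingHom.ext_rat _ _
  rw [hcomp, ← Polynomial.hom_eval₂]
  rw [Polynomial.aeval_def] at hp
  rw [hp, map_zero]

theorem field_L_algClosed : IsAlgClosed (Lc M) := by
  let e : Qb ≃+* Lc M := RingEquiv.ofBijective (algebraMap Qb (Om M)).rangeRestrictField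
    ⟨(algebraMap Qb (Om M)).rangeRestrictField.injective, fun ⟨y, c, hc⟩ => ⟨c, Subtype.ext hc⟩⟩
  exact IsAlgClosed.of_ringEquiv Qb (Lc M) e

end Fermat.Agent.S18.H456

end
end
-- ===== PACK-END S18/H456/ModBasic.lean

-- ===== PACK-BEGIN S18/H107/T2Branch.lean
section




/-!
# helper107 — S18 / M3-T : `unramified` for the Hauptmodul `t₂` (`j t² = (t + 256)³`)

From the branch data of the `j`-line (`BranchJ107`): for every constant `c ∉ {-64, 0}`, at a place
`O` with `t ≡ c`, `t - c` is a uniformiser.  (`t = -256` lies over `j = 0` with `e(t/j) = 3`,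
`t = 512` over `j = 1728` with `e(t/j) = 2`; only `t = -64`, `0`, `∞` can ramify in `Ω / Lc(t)`.)
-/

set_option autoImplicit false

namespace Fermat.Agent.S18.H107

variable {Ω : Type*} [Field Ω] [CharZero Ω]

theorem unramified_t2_107 (Lc : Subfield Ω) (j t : Ω) (hrel : j * t ^ 2 = (t + 256) ^ 3)
    (hB : BranchJ107 Lc j) (O : ValuationSubring Ω) (hL : ∀ a ∈ Lc, a ∈ O) (c : Ω) (hc : c ∈ Lc)
    (hc64 : c ≠ -64) (hc0 : c ≠ 0) (hz : t - c ∈ O) (hz' : (t - c)⁻¹ ∉ O) :
    ∀ s ∈ O, s⁻¹ ∉ O → s * (t - c)⁻¹ ∈ O := by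
  rw [← OrdLe107.one_iff]
  have hzv : O.valuation (t - c) < 1 := val_lt_one107 O hz hz'
  have hz0 : t - c ≠ 0 := by
    intro h0
    rw [h0, inv_zero] at hz'
    exact hz' O.zero_mem
  have hcv : O.valuation c = 1 := val_const107 O Lc hL hc hc0
  have htv : O.valuation t = 1 := by
    have : t = c + (t - c) := by ring
    rw [this]
    exact val_add_eq_one107 O hcv hzv
  have ht0 : t ≠ 0 := by
    intro h0
    rw [h0, map_zero] at htv
    exact zero_ne_one htv
  have htO : t ∈ O := (O.valuation_le_one_iff _).1 htv.le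
  have hcO : c ∈ O := hL c hc
  have ht2v : O.valuation ((t ^ 2)⁻¹) = 1 := by
    rw [map_inv₀, map_pow, htv, one_pow, inv_one]
  by_cases h256 : c = -256
  · -- over `j = 0`
    subst h256
    have hy : j = (t - -256) ^ 3 * (t ^ 2)⁻¹ := by
      field_simp
      linear_combination hrel
    have hj0 : j ≠ 0 := by
      rw [hy]
      exact mul_ne_zero (pow_ne_zero _ hz0) (inv_ne_zero (pow_ne_zero _ ht0))
    have hjv : O.valuation j < 1 := by
      rw [hy, map_mul, ht2v, mul_one, map_pow]
      exact pow_lt_one₀ zero_le hzv (by norm_num)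
    exact unram_of_factor107 O (k := 3) (by norm_num) hy ht2v hz0
      (hB.zero O hL (mem_of_val_lt_one107 O hjv) (inv_not_mem_of_val_lt_one107 O hj0 hjv))
  by_cases h512 : c = 512
  · -- over `j = 1728`
    subst h512
    have h576 : O.valuation (576 : Ω) = 1 :=
      val_const107 O Lc hL (ofNat_mem Lc 576) (by norm_num)
    have ht64 : O.valuation (t + 64) = 1 := by
      have : t + 64 = 576 + (t - 512) := by ring
      rw [this]
      exact val_add_eq_one107 O h576 hzv
    have hUv : O.valuation ((t + 64) * (t ^ 2)⁻¹) = 1 := by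
      rw [map_mul, ht64, ht2v, mul_one]
    have hy : j - 1728 = (t - 512) ^ 2 * ((t + 64) * (t ^ 2)⁻¹) := by
      field_simp
      linear_combination hrel
    have hU0 : (t + 64) * (t ^ 2)⁻¹ ≠ 0 := by
      intro h0
      rw [h0, map_zero] at hUv
      exact zero_ne_one hUv
    have hy0 : j - 1728 ≠ 0 := by
      rw [hy]
      exact mul_ne_zero (pow_ne_zero _ hz0) hU0
    have hyv : O.valuation (j - 1728) < 1 := by
      rw [hy, map_mul, hUv, mul_one, map_pow]
      exact pow_lt_one₀ zero_le hzv (by norm_num)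
    exact unram_of_factor107 O (k := 2) (by norm_num) hy hUv hz0
      (hB.c1728 O hL (mem_of_val_lt_one107 O hyv) (inv_not_mem_of_val_lt_one107 O hy0 hyv))
  · -- generic point
    have hc256 : c + 256 ≠ 0 := fun h => h256 (by linear_combination h)
    have hc512 : c - 512 ≠ 0 := fun h => h512 (by linear_combination h)
    have hc64' : c + 64 ≠ 0 := fun h => hc64 (by linear_combination h)
    set a : Ω := (c + 256) ^ 3 * (c ^ 2)⁻¹ with ha
    have haL : a ∈ Lc :=
      Lc.mul_mem (Lc.pow_mem (Lc.add_mem hc (ofNat_mem Lc 256)) 3) (Lc.inv_mem (Lc.pow_mem hc 2))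
    have ha0 : a ≠ 0 := mul_ne_zero (pow_ne_zero _ hc256) (inv_ne_zero (pow_ne_zero _ hc0))
    have ha1728 : a ≠ 1728 := by
      intro h
      have h1 : (c - 512) ^ 2 * (c + 64) = 0 := by
        have h2 : (c + 256) ^ 3 = 1728 * c ^ 2 := by
          rw [ha] at h
          field_simp at h
          linear_combination h
        linear_combination h2
      rcases mul_eq_zero.1 h1 with h3 | h3
      · exact hc512 (pow_eq_zero_iff (by norm_num) |>.1 h3)
      · exact hc64' h3
    -- the cofactor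
    set W : Ω := c ^ 2 * t ^ 2 - (196608 * c + 16777216) * t - 16777216 * c with hW
    set W₀ : Ω := c * (c + 256) ^ 2 * (c - 512) with hW₀
    set W₁ : Ω := c ^ 2 * (t + c) - 196608 * c - 16777216 with hW₁
    have hW₀L : W₀ ∈ Lc :=
      Lc.mul_mem (Lc.mul_mem hc (Lc.pow_mem (Lc.add_mem hc (ofNat_mem Lc 256)) 2))
        (Lc.sub_mem hc (ofNat_mem Lc 512))
    have hW₀0 : W₀ ≠ 0 := mul_ne_zero (mul_ne_zero hc0 (pow_ne_zero _ hc256)) hc512
    have hW₁O : W₁ ∈ O :=
      sub_mem (sub_mem (mul_mem (pow_mem hcO 2) (add_mem htO hcO))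
        (mul_mem (ofNat_mem O 196608) hcO)) (ofNat_mem O 16777216)
    have hWv : O.valuation W = 1 := by
      have e : W = W₀ + (t - c) * W₁ := by
        rw [hW, hW₀, hW₁]
        ring
      rw [e]
      refine val_add_eq_one107 O (val_const107 O Lc hL hW₀L hW₀0) ?_
      rw [map_mul]
      calc O.valuation (t - c) * O.valuation W₁ ≤ O.valuation (t - c) * 1 := by
            gcongr
            exact (O.valuation_le_one_iff _).2 hW₁O
        _ = O.valuation (t - c) := mul_one _
        _ < 1 := hzv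
    have hUv : O.valuation (W * (t ^ 2 * c ^ 2)⁻¹) = 1 := by
      rw [map_mul, hWv, one_mul, map_inv₀, map_mul, map_pow, map_pow, htv, hcv, one_pow,
        mul_one, inv_one]
    have hy : j - a = (t - c) ^ 1 * (W * (t ^ 2 * c ^ 2)⁻¹) := by
      rw [ha, hW]
      field_simp
      linear_combination (c ^ 2) * hrel
    have hU0 : W * (t ^ 2 * c ^ 2)⁻¹ ≠ 0 := by
      intro h0
      rw [h0, map_zero] at hUv
      exact zero_ne_one hUv
    have hy0 : j - a ≠ 0 := by
      rw [hy]
      exact mul_ne_zero (pow_ne_zero _ hz0) hU0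
    have hyv : O.valuation (j - a) < 1 := by
      rw [hy, map_mul, hUv, mul_one, pow_one]
      exact hzv
    exact unram_of_factor107 O (k := 1) (by norm_num) hy hUv hz0
      (hB.generic O hL a haL ha0 ha1728 (mem_of_val_lt_one107 O hyv)
        (inv_not_mem_of_val_lt_one107 O hy0 hyv))

end Fermat.Agent.S18.H107

end
-- ===== PACK-END S18/H107/T2Branch.lean

-- ===== PACK-BEGIN S18/H438/Front/Transport.lean
section




/-!
# S18 / ALG-FRONT (helper438), part 4: from `Alg.GoodModel` (sub-objects of `Ω`) to the field `Fc`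

For `G : Alg.GoodModel Lc Ec Fc R V w x S` we define, inside the field `↥Fc`:

* `Rf Fc R : Subring Fc`             (the DVR `R`),
* `Vf G : ValuationSubring Fc`       (the Gauss valuation ring),
* `xf G, wf G : Fc`                  (coordinate, uniformiser),

and prove the hypotheses of `Front/Chart.lean` and `Front/Gauss.lean` for both charts
(`z = xf G` and `z = (xf G)⁻¹`).
-/

set_option autoImplicit false
set_option linter.style.haveILetI false
set_option linter.unusedSectionVars false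

noncomputable section

namespace Fermat.Agent.S18.H438

open Alg Polynomial

variable {Ω : Type*} [Field Ω] {Lc Ec Fc : Subfield Ω} {R V : Subring Ω} {w x : Ω}
  {S : Finset Ω}

/-- `R` as a subring of the field `Fc`. -/
def Rf (Fc : Subfield Ω) (R : Subring Ω) : Subring Fc := R.comap Fc.subtype

theorem mem_Rf {f : Fc} : f ∈ Rf Fc R ↔ (f : Ω) ∈ R := Iff.rfl

namespace GoodModelFront

variable (G : GoodModel Lc Ec Fc R V w x S)

include G in
theorem R_le_Fc {r : Ω} (hr : r ∈ R) : r ∈ Fc := G.E_le_F (G.R_le hr)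

include G in
theorem w_mem_Fc : w ∈ Fc := R_le_Fc G G.w_mem

/-- the coordinate as an element of `Fc` -/
def xf : Fc := ⟨x, G.x_mem⟩

/-- the uniformiser as an element of `Fc` -/
def wf : Fc := ⟨w, w_mem_Fc G⟩

@[simp] theorem coe_xf : ((xf G : Fc) : Ω) = x := rfl
@[simp] theorem coe_wf : ((wf G : Fc) : Ω) = w := rfl

/-- the Gauss valuation ring as a valuation subring of `Fc` -/
def Vf : ValuationSubring Fc :=
  { V.comap Fc.subtype with
    mem_or_inv_mem' := fun f => by
      rcases G.V_total f f.2 with h | h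
      · exact Or.inl h
      · exact Or.inr h }

theorem mem_Vf {f : Fc} : f ∈ Vf G ↔ (f : Ω) ∈ V := Iff.rfl

include G

theorem wf_mem_Rf : wf G ∈ Rf Fc R := G.w_mem

theorem wf_ne_zero : wf G ≠ 0 := fun h => G.w_ne_zero (congrArg Subtype.val h)

theorem wf_inv_not_mem_Rf : (wf G)⁻¹ ∉ Rf Fc R := fun h => G.w_inv_not_mem h

theorem wf_inv_not_mem_Vf : (wf G)⁻¹ ∉ Vf G := fun h => G.w_inv_not_mem_V h

theorem Rf_le_Vf : ∀ r ∈ Rf Fc R, r ∈ Vf G := fun _ hr => G.R_le_V hr

theorem Vf_gen : ∀ f ∈ Vf G, f⁻¹ ∉ Vf G → f * (wf G)⁻¹ ∈ Vf G :=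
  fun f hf hinv => G.V_gen f hf hinv

theorem Rf_disc : ∀ r ∈ Rf Fc R, r ≠ 0 →
    ∃ n : ℕ, r * ((wf G)⁻¹) ^ n ∈ Rf Fc R ∧ (r * ((wf G)⁻¹) ^ n)⁻¹ ∈ Rf Fc R := by
  intro r hr hr0
  have hr0' : (r : Ω) ≠ 0 := fun h => hr0 (Subtype.ext h)
  obtain ⟨n, h1, h2⟩ := G.w_discrete r hr hr0'
  exact ⟨n, h1, h2⟩

/-- **`R` is a discrete valuation ring.** -/
theorem isDiscreteValuationRing_Rf : IsDiscreteValuationRing (Rf Fc R) :=
  isDiscreteValuationRing_of_disc (Rf Fc R) (wf_mem_Rf G) (wf_ne_zero G)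
    (wf_inv_not_mem_Rf G) (Rf_disc G)

theorem irreducible_wf : Irreducible (⟨wf G, wf_mem_Rf G⟩ : Rf Fc R) :=
  irreducible_unif_of_disc (Rf Fc R) (wf_mem_Rf G) (wf_ne_zero G)
    (wf_inv_not_mem_Rf G) (Rf_disc G)

theorem charZero_Fc : CharZero Fc :=
  haveI := G.charZero
  RingHom.charZero Fc.subtype

/-- `x ∈ V` (field `x_mem_V` of the v4 interface). -/
theorem xf_mem_Vf : xf G ∈ Vf G := G.x_mem_V

/-- `x⁻¹ ∈ V` (Gauss). -/
theorem xf_inv_mem_Vf : (xf G)⁻¹ ∈ Vf G := by
  have h := G.gauss (Polynomial.X : Polynomial Ω)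
    (fun i => by
      rw [Polynomial.coeff_X]
      split_ifs
      · exact R.one_mem
      · exact R.zero_mem)
    ⟨1, by simp, by simp [R.one_mem]⟩
  rw [Polynomial.eval_X] at h
  exact h

end GoodModelFront

end Fermat.Agent.S18.H438

end
end
-- ===== PACK-END S18/H438/Front/Transport.lean

-- ===== PACK-BEGIN S18/B12/Spec3.lean
section



/-!
# S18, Route K, b2: the HEART (`B2CoreAbsStatement`) and the two OUTPUT SHAPES
(squad S18/S33, squad-lead helper33) — FROZEN statements, Mathlib-only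

* `B2CoreAbsStatement` : at every closed point `t` of the special fibre `B/wB` over `Λ = P/(w)`:
  `ord_t disc(B/wB) ≤ n - s` with `(B/wB mod t)_red` spanned by `s` elements
  (exactly the hypothesis of "Theorem L", `SFLatticeStatement` / H933 / H636 / H998).
* Output O1 `B2RegularStatement` : `B/wB` a domain ⟹ `RegularAlong w` (shape of
  `Fermat.Agent.S18.H754.RegularAlong`, consumed by the Kummer endgame K').
* Output O2 `B2Statement` (Spec.lean) : idempotents of `Frac(B/wB)` lie in `B/wB` (no domain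
  hypothesis; consumed by "b4 = b2 for the cover").
-/

set_option autoImplicit false

noncomputable section

namespace Fermat.Agent.S18.B12

open Polynomial

universe u v

/-- **A6' (heart of b2).**  Abstract setting of Spec2 (`P` noetherian UFD, `w` prime, `P/(w)` and
`P[1/w]` PIDs, char 0 generic fibre, `B` normal finite torsion-free over `P`, `hsep`, branch primes
`S` pairwise comaximal mod `w`, unramified outside `S`).  Then for every prime `t` of
`Λ = P/(w)` and every `Λ`-basis `bb` of `B/wB`: `disc bb ≠ 0`, and there is a family of `s`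
elements spanning `B/wB` modulo `rad(t)` with `t ^ (n - s + 1) ∤ disc bb`. -/
def B2CoreAbsStatement : Prop :=
  ∀ (P : Type u) [CommRing P] [IsDomain P] [UniqueFactorizationMonoid P] [IsNoetherianRing P]
    (w : P) (_ : Prime w) (_ : IsPrincipalIdealRing (P ⧸ Ideal.span {w}))
    (_ : IsPrincipalIdealRing (Localization.Away w))
    (_ : ∀ m : ℕ, m ≠ 0 → IsUnit (algebraMap P (Localization.Away w) (m : P)))
    (B : Type v) [CommRing B] [IsDomain B] [IsIntegrallyClosed B] [Algebra P B]
    [Module.Finite P B] [Module.IsTorsionFree P B]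
    (_ : ∃ x : Fin (Module.finrank P B) → B, ¬ w ∣ intDiscr P B x)
    (S : Finset P)
    (_ : ∀ s ∈ S, Prime s ∧ ¬ Associated s w ∧ (Ideal.span {w, s}).IsMaximal ∧
      IsPrincipalIdealRing (P ⧸ Ideal.span {s}))
    (_ : ∀ s ∈ S, ∀ s' ∈ S, s ≠ s' → s' ∉ Ideal.span {w, s})
    (_ : ∀ π : P, Prime π → ¬ Associated π w → (∀ s ∈ S, ¬ Associated π s) →
        (Ideal.span {algebraMap P B π}).IsRadical)
    (t : P ⧸ Ideal.span {w}) (_ : Prime t) (n : ℕ)
    (bb : Module.Basis (Fin n) (P ⧸ Ideal.span {w})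
      (B ⧸ (Ideal.span {w}).map (algebraMap P B))),
    Algebra.discr (P ⧸ Ideal.span {w}) bb ≠ 0 ∧
    ∃ (s : ℕ) (y : Fin s → B ⧸ (Ideal.span {w}).map (algebraMap P B)),
      (∀ c : B ⧸ (Ideal.span {w}).map (algebraMap P B), ∃ a : Fin s → P ⧸ Ideal.span {w},
        c - ∑ i, a i • y i ∈ (Ideal.span {algebraMap (P ⧸ Ideal.span {w})
          (B ⧸ (Ideal.span {w}).map (algebraMap P B)) t}).radical) ∧
      ¬ t ^ (n - s + 1) ∣ Algebra.discr (P ⧸ Ideal.span {w}) bb

/-- **A8 (normality from the discriminant bounds).**  `Λ` a PID, `C` a domain, free of rank `n`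
over `Λ`, satisfying the bound of `B2CoreAbsStatement` at every prime `t`.  Then `C` is
integrally closed.  (Apply Theorem L to `C ⊆ C[f]`, `f` integral over `C`.) -/
def IntClosedOfDiscrStatement : Prop :=
  ∀ (Λ : Type u) [CommRing Λ] [IsDomain Λ] [IsPrincipalIdealRing Λ]
    (C : Type v) [CommRing C] [IsDomain C] [Algebra Λ C] (n : ℕ) (b : Module.Basis (Fin n) Λ C),
    Algebra.discr Λ b ≠ 0 →
    (∀ t : Λ, Prime t → ∃ (s : ℕ) (y : Fin s → C),
      (∀ c : C, ∃ a : Fin s → Λ,
        c - ∑ i, a i • y i ∈ (Ideal.span {algebraMap Λ C t}).radical) ∧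
      ¬ t ^ (n - s + 1) ∣ Algebra.discr Λ b) →
    IsIntegrallyClosed C

/-- **A9 (regularity along a Dedekind special fibre).**  If `B/ϖB` is a Dedekind domain then
every maximal ideal `𝔪 ∋ ϖ` of `B` is locally generated by `ϖ` and one more element. -/
def RegularAlongOfDedekindStatement : Prop :=
  ∀ (B : Type u) [CommRing B] (ϖ : B), IsDedekindDomain (B ⧸ Ideal.span {ϖ}) →
    ∀ 𝔪 : Ideal B, 𝔪.IsMaximal → ϖ ∈ 𝔪 →
      ∃ t ∈ 𝔪, ∀ a ∈ 𝔪, ∃ s : B, s ∉ 𝔪 ∧ s * a ∈ Ideal.span {ϖ, t}

/-- **OUTPUT O1 (b2, regular form; concrete).**  As `B2Statement`, plus `hdom`: `w` is prime in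
`B` (the special fibre is a domain; QEP).  Conclusion = `H754.RegularAlong (C w)`, unfolded. -/
def B2RegularStatement : Prop :=
  ∀ (R : Type u) [CommRing R] [IsDomain R] [IsDiscreteValuationRing R] [CharZero R]
    (w : R) (_ : Irreducible w)
    (B : Type v) [CommRing B] [IsDomain B] [IsIntegrallyClosed B] [Algebra R[X] B]
    [Module.Finite R[X] B] [Module.IsTorsionFree R[X] B]
    (_ : Prime (algebraMap R[X] B (C w)))
    (_ : ∃ x : Fin (Module.finrank R[X] B) → B,
        ¬ C w ∣ (Matrix.of fun i j => Algebra.intTrace R[X] B (x i * x j)).det)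
    (S : Finset R) (_ : ∀ c ∈ S, ∀ c' ∈ S, c ≠ c' → IsUnit (c - c'))
    (_ : ∀ π : R[X], Prime π → ¬ Associated π (C w) → (∀ c ∈ S, ¬ Associated π (X - C c)) →
        (Ideal.span {algebraMap R[X] B π}).IsRadical)
    (𝔪 : Ideal B), 𝔪.IsMaximal → algebraMap R[X] B (C w) ∈ 𝔪 →
      ∃ t ∈ 𝔪, ∀ a ∈ 𝔪, ∃ s : B, s ∉ 𝔪 ∧
        s * a ∈ Ideal.span {algebraMap R[X] B (C w), t}

end Fermat.Agent.S18.B12

end
end
-- ===== PACK-END S18/B12/Spec3.lean

-- ===== PACK-BEGIN S18/B12/H93/RegSeqAbs.lean
section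




/-!
# S18 / B12 / A0: `RegSeqAbsStatement` (helper93), adapter over `H393.isIntegral_of_isIntegral_mul'`.
-/

set_option autoImplicit false

namespace Fermat.Agent.S18.B12.H93

attribute [local instance] FractionRing.liftAlgebra FractionRing.isScalarTower_liftAlgebra

universe u v

theorem regSeqAbs : RegSeqAbsStatement.{u, v} := by
  intro P _ _ _ B _ _ _ _ _ _ u w hw hwu b b' hbb'
  classical
  have hw0 : w ≠ 0 := hw.ne_zero
  have hinjPB : Function.Injective (algebraMap P B) := FaithfulSMul.algebraMap_injective P B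
  have hinjBF : Function.Injective (algebraMap B (FractionRing B)) :=
    IsFractionRing.injective B (FractionRing B)
  have hwB : algebraMap P B w ≠ 0 := fun h => hw0 (hinjPB (by rw [map_zero]; exact h))
  have hwF : algebraMap B (FractionRing B) (algebraMap P B w) ≠ 0 :=
    fun h => hwB (hinjBF (by rw [map_zero]; exact h))
  -- the element `f = b / w`
  set f : FractionRing B :=
    algebraMap B (FractionRing B) b * (algebraMap B (FractionRing B) (algebraMap P B w))⁻¹ with hf
  have hPF : ∀ x : P, algebraMap P (FractionRing B) x =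
      algebraMap B (FractionRing B) (algebraMap P B x) :=
    fun x => IsScalarTower.algebraMap_apply P B (FractionRing B) x
  have hwf : algebraMap P (FractionRing B) w * f = algebraMap B (FractionRing B) b := by
    rw [hPF, hf]
    field_simp
  have huf : algebraMap P (FractionRing B) u * f = algebraMap B (FractionRing B) b' := by
    rw [hPF, hf, ← mul_assoc, ← map_mul, hbb', map_mul]
    field_simp
  have hintB : ∀ x : B, IsIntegral P (algebraMap B (FractionRing B) x) :=
    fun x => (Algebra.IsIntegral.isIntegral x).algebraMap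
  have hfint : IsIntegral P f :=
    Fermat.Agent.S18.H393.isIntegral_of_isIntegral_mul' (FractionRing P) hw hwu
      (hwf ▸ hintB b) (huf ▸ hintB b')
  have hfintB : IsIntegral B f := hfint.tower_top
  obtain ⟨b'', hb''⟩ := IsIntegrallyClosed.isIntegral_iff.mp hfintB
  refine ⟨b'', ?_, ?_⟩
  · apply hinjBF
    rw [map_mul, hb'', ← hPF, hwf]
  · apply hinjBF
    rw [map_mul, hb'', ← hPF, huf]

end Fermat.Agent.S18.B12.H93

end
-- ===== PACK-END S18/B12/H93/RegSeqAbs.lean

-- ===== PACK-BEGIN S18/B12/H93/LocalBasis.lean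
section



/-!
# S18 / B12 / A2: `LocalBasisStatement` (helper93).

`𝔪 = (w, p)` maximal, `(p, w)` regular on the finite `P`-module `B`: a lift of a basis of `B/𝔪B`
is a basis of `B` locally at `𝔪` (Nakayama twice).
-/

set_option autoImplicit false

namespace Fermat.Agent.S18.B12.H93

open Pointwise

attribute [local instance] Ideal.Quotient.field

universe u v

theorem localBasis : LocalBasisStatement.{u, v} := by
  intro P _ _ _ B _ _ _ _ w p hmax hreg
  classical
  set 𝔪 : Ideal P := Ideal.span {w, p} with h𝔪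
  have hw𝔪 : w ∈ 𝔪 := Ideal.subset_span (by simp)
  have hp𝔪 : p ∈ 𝔪 := Ideal.subset_span (by simp)
  let N : Submodule P B := 𝔪 • ⊤
  have hfin : Module.Finite (P ⧸ 𝔪) (B ⧸ N) := Module.Finite.of_restrictScalars_finite P _ _
  let β := Module.finBasis (P ⧸ 𝔪) (B ⧸ N)
  have hlift : ∀ i, ∃ x : B, N.mkQ x = β i := fun i => Submodule.mkQ_surjective N _
  choose x hx using hlift
  refine ⟨Module.finrank (P ⧸ 𝔪) (B ⧸ N), x, ?_⟩
  have hmksmul : ∀ (a : P) (y : B ⧸ N), (Ideal.Quotient.mk 𝔪 a) • y = a • y := by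
    intro a y
    rw [← Ideal.Quotient.algebraMap_eq, algebraMap_smul]
  -- reduction of a combination
  have hred : ∀ a : Fin (Module.finrank (P ⧸ 𝔪) (B ⧸ N)) → P,
      N.mkQ (∑ i, a i • x i) = ∑ i, (Ideal.Quotient.mk 𝔪 (a i)) • β i := by
    intro a
    rw [map_sum]
    refine Finset.sum_congr rfl fun i _ => ?_
    rw [map_smul, hx, hmksmul]
  -- spanning modulo `𝔪`
  have hspan : (⊤ : Submodule P B) ≤ Submodule.span P (Set.range x) ⊔ 𝔪 • ⊤ := by
    intro b _
    have hl : ∀ i, ∃ a : P, Ideal.Quotient.mk 𝔪 a = β.repr (N.mkQ b) i :=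
      fun i => Ideal.Quotient.mk_surjective _
    choose a ha using hl
    have h1 : N.mkQ (b - ∑ i, a i • x i) = 0 := by
      rw [map_sub, hred, sub_eq_zero]
      conv_lhs => rw [← β.sum_repr (N.mkQ b)]
      exact Finset.sum_congr rfl fun i _ => by rw [ha]
    have h2 : b - ∑ i, a i • x i ∈ N := by
      rwa [Submodule.mkQ_apply, Submodule.Quotient.mk_eq_zero] at h1
    have h3 : ∑ i, a i • x i ∈ Submodule.span P (Set.range x) :=
      Submodule.sum_mem _ fun i _ => Submodule.smul_mem _ _ (Submodule.subset_span ⟨i, rfl⟩)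
    have : b = ∑ i, a i • x i + (b - ∑ i, a i • x i) := by ring
    rw [this]
    exact Submodule.add_mem_sup h3 h2
  obtain ⟨g, hg1, hgle⟩ := Submodule.exists_sub_one_mem_and_smul_le_of_fg_of_le_sup
    (N := Submodule.span P (Set.range x)) (N' := ⊤) (P := ⊤) (I := 𝔪)
    (Module.finite_def.mp inferInstance) le_rfl hspan
  have hg𝔪 : g ∉ 𝔪 := by
    intro hg
    have : (1 : P) ∈ 𝔪 := by
      have := 𝔪.sub_mem hg hg1
      simpa using this
    exact hmax.ne_top ((Ideal.eq_top_iff_one 𝔪).mpr this)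
  have hgB : ∀ b : B, g • b ∈ Submodule.span P (Set.range x) := fun b =>
    hgle (Submodule.smul_mem_pointwise_smul b g ⊤ Submodule.mem_top)
  refine ⟨?_, g, hg𝔪, hgB⟩
  -- linear independence
  let L : (Fin (Module.finrank (P ⧸ 𝔪) (B ⧸ N)) → P) →ₗ[P] B := Fintype.linearCombination P x
  have hLapp : ∀ a, L a = ∑ i, a i • x i := fun a => Fintype.linearCombination_apply P x a
  set I : Submodule P (Fin (Module.finrank (P ⧸ 𝔪) (B ⧸ N)) → P) := LinearMap.ker L with hI
  have hIfg : I.FG := IsNoetherian.noetherian I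
  -- `g • I ≤ 𝔪 • I`
  have hkey : ∀ a ∈ I, g • a ∈ 𝔪 • I := by
    intro a ha
    have ha0 : ∑ i, a i • x i = 0 := by rw [← hLapp]; exact ha
    -- coefficients lie in `𝔪`
    have hmem : ∀ i, a i ∈ 𝔪 := by
      intro i
      have h1 := hred a
      rw [ha0, map_zero] at h1
      have h2 := (Fintype.linearIndependent_iff.mp β.linearIndependent) _ h1.symm i
      exact Ideal.Quotient.eq_zero_iff_mem.mp h2
    have hdec : ∀ i, ∃ c d : P, c * w + d * p = a i := fun i => Ideal.mem_span_pair.mp (hmem i)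
    choose c d hcd using hdec
    have hrel : algebraMap P B p * (∑ i, d i • x i) = algebraMap P B w * (-∑ i, c i • x i) := by
      have : ∑ i, (c i * w + d i * p) • x i = 0 := by
        rw [← ha0]; exact Finset.sum_congr rfl fun i _ => by rw [hcd]
      rw [← Algebra.smul_def, ← Algebra.smul_def, smul_neg, Finset.smul_sum, Finset.smul_sum,
        eq_neg_iff_add_eq_zero, ← Finset.sum_add_distrib, ← this]
      refine Finset.sum_congr rfl fun i _ => ?_
      rw [smul_smul, smul_smul, ← add_smul]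
      congr 1; ring
    obtain ⟨b'', hb1, hb2⟩ := hreg _ _ hrel
    obtain ⟨e, he⟩ := (Submodule.mem_span_range_iff_exists_fun P).mp (hgB b'')
    -- two relations
    have hr1 : (fun i => g * d i - w * e i) ∈ I := by
      rw [hI, LinearMap.mem_ker, hLapp]
      have : ∑ i, (g * d i - w * e i) • x i = g • ∑ i, d i • x i - w • ∑ i, e i • x i := by
        rw [Finset.smul_sum, Finset.smul_sum, ← Finset.sum_sub_distrib]
        exact Finset.sum_congr rfl fun i _ => by rw [sub_smul, smul_smul, smul_smul]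
      rw [this, hb1, he, ← Algebra.smul_def, smul_comm, sub_self]
    have hr2 : (fun i => g * c i + p * e i) ∈ I := by
      rw [hI, LinearMap.mem_ker, hLapp]
      have : ∑ i, (g * c i + p * e i) • x i = g • ∑ i, c i • x i + p • ∑ i, e i • x i := by
        rw [Finset.smul_sum, Finset.smul_sum, ← Finset.sum_add_distrib]
        exact Finset.sum_congr rfl fun i _ => by rw [add_smul, smul_smul, smul_smul]
      have hc : ∑ i, c i • x i = -(algebraMap P B p * b'') := by rw [← hb2, neg_neg]
      rw [this, hc, he, ← Algebra.smul_def, smul_neg, smul_comm, neg_add_cancel]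
    have hsum : g • a = w • (fun i => g * c i + p * e i) + p • (fun i => g * d i - w * e i) := by
      funext i
      simp only [Pi.smul_apply, Pi.add_apply, smul_eq_mul]
      rw [← hcd i]; ring
    rw [hsum]
    exact Submodule.add_mem _ (Submodule.smul_mem_smul hw𝔪 hr2) (Submodule.smul_mem_smul hp𝔪 hr1)
  have hIle : I ≤ 𝔪 • I := by
    intro a ha
    have h1 : g • a ∈ 𝔪 • I := hkey a ha
    have h2 : (g - 1) • a ∈ 𝔪 • I := Submodule.smul_mem_smul hg1 ha
    have : a = g • a - (g - 1) • a := by rw [sub_smul, one_smul]; abel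
    rw [this]
    exact Submodule.sub_mem _ h1 h2
  obtain ⟨r, hr1, hr0⟩ := Submodule.exists_sub_one_mem_and_smul_eq_zero_of_fg_of_le_smul 𝔪 I
    hIfg hIle
  have hrne : r ≠ 0 := by
    rintro rfl
    have : (1 : P) ∈ 𝔪 := by
      have := 𝔪.neg_mem hr1
      simpa using this
    exact hmax.ne_top ((Ideal.eq_top_iff_one 𝔪).mpr this)
  rw [Fintype.linearIndependent_iff]
  intro a ha i
  have haI : a ∈ I := by rw [hI, LinearMap.mem_ker, hLapp]; exact ha
  have h0 := hr0 a haI
  have h1 := congrFun h0 i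
  rw [Pi.smul_apply, smul_eq_mul, Pi.zero_apply] at h1
  exact (mul_eq_zero.mp h1).resolve_left hrne

end Fermat.Agent.S18.B12.H93

end
-- ===== PACK-END S18/B12/H93/LocalBasis.lean

-- ===== PACK-BEGIN S18/B12/H393/DiscrRed.lean
section



/-!
# S18 / Route K / b2.5, piece A3 (helper393): `DiscrRedStatement`

`discrRed : DiscrRedStatement` (exact frozen shape of `B12/Spec2.lean`).

* `smul_trace_eq_trace_of_quasiBasis` : generic trace lemma.  `M` finite free over `A`,
  `x` a linearly independent family with `g • M ⊆ span x`, `f` an endomorphism with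
  `g • f (x j) = ∑ i, m i j • x i`.  Then `g * tr f = tr m`.
  (Proof: `tr (φ ∘ f ∘ ι) = tr (ι ∘ φ ∘ f)` for `ι : span x → M`, `φ = g • _ : M → span x`.)
* `smul_intTrace_eq` : `g * intTrace P B β = tr m` if `g • (β * x j) = ∑ i, m i j • x i`
  (`x` a local basis of `B` over `P`).
* `mk_intTrace_eq_trace` : `intTrace P B β mod w = Tr_{(B/wB)/(P/w)} (β mod w)`.
-/

set_option autoImplicit false

noncomputable section

namespace Fermat.Agent.S18.B12.H393

open Fermat.Agent.S18.B12

universe u v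

section Generic

variable {A : Type*} [CommRing A] {M : Type*} [AddCommGroup M] [Module A M]

/-- **Generic trace lemma.** -/
theorem smul_trace_eq_trace_of_quasiBasis [Module.Free A M] [Module.Finite A M]
    {n : ℕ} (f : M →ₗ[A] M) (x : Fin n → M) (hli : LinearIndependent A x) (g : A)
    (hspan : ∀ y : M, g • y ∈ Submodule.span A (Set.range x))
    (m : Matrix (Fin n) (Fin n) A) (hm : ∀ j, g • f (x j) = ∑ i, m i j • x i) :
    g * LinearMap.trace A M f = m.trace := by
  classical
  set E : Submodule A M := Submodule.span A (Set.range x) with hE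
  let bE : Module.Basis (Fin n) A E := Module.Basis.span hli
  have hbE : ∀ j, ((bE j : E) : M) = x j := fun j => Module.Basis.coe_span_apply hli j
  have : Module.Free A E := Module.Free.of_basis bE
  have : Module.Finite A E := Module.Finite.of_basis bE
  let φ : M →ₗ[A] E :=
    { toFun := fun y => ⟨g • y, hspan y⟩
      map_add' := fun y z => Subtype.ext (by simp [smul_add])
      map_smul' := fun r y => Subtype.ext (by simp [smul_comm g r]) }
  have h1 : LinearMap.trace A M (E.subtype ∘ₗ (φ ∘ₗ f)) =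
      LinearMap.trace A E ((φ ∘ₗ f) ∘ₗ E.subtype) :=
    LinearMap.trace_comp_comm' (φ ∘ₗ f) E.subtype
  have h2 : E.subtype ∘ₗ (φ ∘ₗ f) = g • f := by
    ext y; simp [φ]
  have h3 : LinearMap.toMatrix bE bE ((φ ∘ₗ f) ∘ₗ E.subtype) = m := by
    ext i j
    rw [LinearMap.toMatrix_apply]
    have : ((φ ∘ₗ f) ∘ₗ E.subtype) (bE j) = ∑ i, m i j • bE i := by
      apply Subtype.ext
      simp only [LinearMap.coe_comp, Function.comp_apply, Submodule.subtype_apply,
        LinearMap.coe_mk, AddHom.coe_mk, φ, hbE]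
      rw [hm j, Submodule.coe_sum]
      refine Finset.sum_congr rfl fun i _ => ?_
      rw [Submodule.coe_smul, hbE]
    rw [this, map_sum]
    simp [Finsupp.single_apply, Finset.sum_apply']
  rw [h2, map_smul, smul_eq_mul] at h1
  rw [h1, LinearMap.trace_eq_matrix_trace A bE, h3]

end Generic

section IntTrace

attribute [local instance] FractionRing.liftAlgebra FractionRing.isScalarTower_liftAlgebra

variable {P : Type u} [CommRing P] [IsDomain P] [IsIntegrallyClosed P]
  {B : Type v} [CommRing B] [IsDomain B] [IsIntegrallyClosed B] [Algebra P B]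
  [Module.Finite P B] [Module.IsTorsionFree P B]

/-- `g * intTrace β = tr m` when `g • (β * x j) = ∑ i, m i j • x i` for a quasi-basis `x`. -/
theorem smul_intTrace_eq {n : ℕ} (x : Fin n → B) (hli : LinearIndependent P x) (g : P)
    (hspan : ∀ b : B, g • b ∈ Submodule.span P (Set.range x)) (β : B)
    (m : Matrix (Fin n) (Fin n) P) (hm : ∀ j, g • (β * x j) = ∑ i, m i j • x i) :
    g * Algebra.intTrace P B β = m.trace := by
  classical
  have : IsIntegralClosure B P (FractionRing B) :=
    IsIntegralClosure.of_isIntegrallyClosed _ _ _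
  have : Algebra.IsAlgebraic (FractionRing P) (FractionRing B) :=
    isAlgebraic_of_isFractionRing P B ..
  have hloc : IsLocalization (Algebra.algebraMapSubmonoid B (nonZeroDivisors P))
      (FractionRing B) :=
    IsIntegralClosure.isLocalization _ (FractionRing P) _ _
  have : FiniteDimensional (FractionRing P) (FractionRing B) :=
    .of_isLocalization P B (nonZeroDivisors P)
  set K := FractionRing P
  set L := FractionRing B
  have hinjBL : Function.Injective (algebraMap B L) := IsFractionRing.injective B L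
  -- linear independence over `K`
  have hliP : LinearIndependent P (fun j => algebraMap B L (x j)) := by
    have := hli.map' (IsScalarTower.toAlgHom P B L).toLinearMap
      (LinearMap.ker_eq_bot.mpr hinjBL)
    exact this
  have hliK : LinearIndependent K (fun j => algebraMap B L (x j)) :=
    (LinearIndependent.iff_fractionRing P K).mp hliP
  -- images of elements of the `P`-span lie in the `K`-span
  have hmemK : ∀ y : B, y ∈ Submodule.span P (Set.range x) →
      algebraMap B L y ∈ Submodule.span K (Set.range fun j => algebraMap B L (x j)) := by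
    intro y hy
    rw [Submodule.mem_span_range_iff_exists_fun] at hy
    obtain ⟨c, rfl⟩ := hy
    rw [map_sum]
    refine Submodule.sum_mem _ fun i _ => ?_
    have : algebraMap B L (c i • x i) = algebraMap P K (c i) • algebraMap B L (x i) := by
      rw [Algebra.smul_def, map_mul, ← IsScalarTower.algebraMap_apply,
        IsScalarTower.algebraMap_apply P K L, ← Algebra.smul_def]
    rw [this]
    exact Submodule.smul_mem _ _ (Submodule.subset_span ⟨i, rfl⟩)
  have hspanK : ∀ ℓ : L, algebraMap P K g • ℓ ∈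
      Submodule.span K (Set.range fun j => algebraMap B L (x j)) := by
    intro ℓ
    obtain ⟨⟨b, s⟩, hs⟩ := IsLocalization.surj (Algebra.algebraMapSubmonoid B (nonZeroDivisors P)) ℓ
    obtain ⟨s₀, hs₀, hs₀'⟩ := s.2
    have hs₀K : algebraMap P K s₀ ≠ 0 := by
      have := (IsFractionRing.injective P K).ne (nonZeroDivisors.ne_zero hs₀)
      simpa using this
    have hℓ : ℓ = (algebraMap P K s₀)⁻¹ • algebraMap B L b := by
      rw [eq_inv_smul_iff₀ hs₀K]
      simp only at hs
      rw [← hs, ← hs₀', Algebra.smul_def, ← IsScalarTower.algebraMap_apply,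
        IsScalarTower.algebraMap_apply P B L, mul_comm]
    have hgb : algebraMap P K g • algebraMap B L b = algebraMap B L (g • b) := by
      rw [Algebra.smul_def (A := B), map_mul, ← IsScalarTower.algebraMap_apply,
        IsScalarTower.algebraMap_apply P K L, ← Algebra.smul_def]
    rw [hℓ, smul_comm, hgb]
    exact Submodule.smul_mem _ _ (hmemK _ (hspan b))
  have hmK : ∀ j, algebraMap P K g • (Algebra.lmul K L (algebraMap B L β)) (algebraMap B L (x j)) =
      ∑ i, (m.map (algebraMap P K)) i j • algebraMap B L (x i) := by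
    intro j
    have h := congrArg (algebraMap B L) (hm j)
    rw [map_sum] at h
    have e1 : algebraMap B L (g • (β * x j)) =
        algebraMap P K g • (Algebra.lmul K L (algebraMap B L β)) (algebraMap B L (x j)) := by
      rw [Algebra.smul_def (A := B), map_mul, ← IsScalarTower.algebraMap_apply,
        IsScalarTower.algebraMap_apply P K L, ← Algebra.smul_def, map_mul]
      rfl
    rw [← e1, h]
    refine Finset.sum_congr rfl fun i _ => ?_
    rw [Matrix.map_apply, Algebra.smul_def (A := B), map_mul, ← IsScalarTower.algebraMap_apply,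
      IsScalarTower.algebraMap_apply P K L, ← Algebra.smul_def]
  have key := smul_trace_eq_trace_of_quasiBasis (A := K) (M := L)
    (Algebra.lmul K L (algebraMap B L β)) (fun j => algebraMap B L (x j)) hliK
    (algebraMap P K g) hspanK (m.map (algebraMap P K)) hmK
  apply IsFractionRing.injective P K
  rw [map_mul, Algebra.algebraMap_intTrace_fractionRing, Algebra.trace_apply, key]
  simp [Matrix.trace, map_sum]

end IntTrace

section Reduction

variable {P : Type u} [CommRing P]
  {B : Type v} [CommRing B] [Algebra P B]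

/-- Membership in `w B` (as the ideal `(span {w}).map (algebraMap P B)`). -/
theorem mem_map_span_singleton_iff (w : P) (b : B) :
    b ∈ (Ideal.span {w}).map (algebraMap P B) ↔ ∃ β : B, b = w • β := by
  rw [Ideal.map_span, Set.image_singleton, Ideal.mem_span_singleton']
  constructor
  · rintro ⟨β, rfl⟩; exact ⟨β, by rw [Algebra.smul_def, mul_comm]⟩
  · rintro ⟨β, rfl⟩; exact ⟨β, by rw [Algebra.smul_def, mul_comm]⟩

theorem mk_sum_smul (w : P) {n : ℕ} (c : Fin n → P) (x : Fin n → B) :
    Ideal.Quotient.mk ((Ideal.span {w}).map (algebraMap P B)) (∑ i, c i • x i) =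
      ∑ i, Ideal.Quotient.mk (Ideal.span {w}) (c i) •
        Ideal.Quotient.mk ((Ideal.span {w}).map (algebraMap P B)) (x i) := by
  rw [map_sum]
  refine Finset.sum_congr rfl fun i _ => ?_
  rw [Ideal.Quotient.mk_smul_mk_quotient_map_quotient, Algebra.smul_def]

/-- The reduction mod `w` of a quasi-basis is linearly independent over `P/(w)`. -/
theorem linearIndependent_mk_of_quasiBasis {w : P} (hw : Prime w) {n : ℕ} (x : Fin n → B)
    (hli : LinearIndependent P x) (g : P) (hg : ¬ w ∣ g)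
    (hspan : ∀ b : B, g • b ∈ Submodule.span P (Set.range x)) :
    LinearIndependent (P ⧸ Ideal.span {w})
      (fun j => Ideal.Quotient.mk ((Ideal.span {w}).map (algebraMap P B)) (x j)) := by
  classical
  rw [Fintype.linearIndependent_iff]
  intro cb hcb i
  choose c hc using fun i => Ideal.Quotient.mk_surjective (cb i)
  have h0 : Ideal.Quotient.mk ((Ideal.span {w}).map (algebraMap P B)) (∑ i, c i • x i) = 0 := by
    rw [mk_sum_smul, ← hcb]
    refine Finset.sum_congr rfl fun i _ => ?_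
    rw [hc i]
  rw [Ideal.Quotient.eq_zero_iff_mem, mem_map_span_singleton_iff] at h0
  obtain ⟨β, hβ⟩ := h0
  have hgβ := hspan β
  rw [Submodule.mem_span_range_iff_exists_fun] at hgβ
  obtain ⟨d, hd⟩ := hgβ
  have hrel : ∑ i, (g * c i - w * d i) • x i = 0 := by
    simp only [sub_smul, Finset.sum_sub_distrib, mul_smul]
    rw [← Finset.smul_sum, ← Finset.smul_sum, hβ, hd, smul_comm, sub_self]
  have := (Fintype.linearIndependent_iff.mp hli) _ hrel i
  have hdvd : w ∣ g * c i := ⟨d i, sub_eq_zero.mp this⟩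
  have hwc : w ∣ c i := (hw.dvd_or_dvd hdvd).resolve_left hg
  rw [← hc i, Ideal.Quotient.eq_zero_iff_mem, Ideal.mem_span_singleton]
  exact hwc

theorem smul_mem_span_mk_of_quasiBasis (w : P) {n : ℕ} (x : Fin n → B) (g : P)
    (hspan : ∀ b : B, g • b ∈ Submodule.span P (Set.range x))
    (q : B ⧸ (Ideal.span {w}).map (algebraMap P B)) :
    Ideal.Quotient.mk (Ideal.span {w}) g • q ∈ Submodule.span (P ⧸ Ideal.span {w})
      (Set.range fun j => Ideal.Quotient.mk ((Ideal.span {w}).map (algebraMap P B)) (x j)) := by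
  obtain ⟨b, rfl⟩ := Ideal.Quotient.mk_surjective q
  have h := hspan b
  rw [Submodule.mem_span_range_iff_exists_fun] at h ⊢
  obtain ⟨c, hc⟩ := h
  refine ⟨fun i => Ideal.Quotient.mk (Ideal.span {w}) (c i), ?_⟩
  rw [← mk_sum_smul, hc, Ideal.Quotient.mk_smul_mk_quotient_map_quotient, Algebra.smul_def]

end Reduction

section Main

variable {P : Type u} [CommRing P] [IsDomain P] [IsIntegrallyClosed P]
  {B : Type v} [CommRing B] [IsDomain B] [IsIntegrallyClosed B] [Algebra P B]
  [Module.Finite P B] [Module.IsTorsionFree P B]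

/-- **Trace reduction.** `intTrace P B β mod w` is the trace of `β mod w` on `B/wB` over `P/(w)`. -/
theorem mk_intTrace_eq_trace {w : P} (hw : Prime w) {n : ℕ} (x : Fin n → B)
    (hli : LinearIndependent P x) (g : P) (hg : ¬ w ∣ g)
    (hspan : ∀ b : B, g • b ∈ Submodule.span P (Set.range x))
    [Module.Free (P ⧸ Ideal.span {w}) (B ⧸ (Ideal.span {w}).map (algebraMap P B))]
    [Module.Finite (P ⧸ Ideal.span {w}) (B ⧸ (Ideal.span {w}).map (algebraMap P B))]
    (β : B) :
    Ideal.Quotient.mk (Ideal.span {w}) (Algebra.intTrace P B β) =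
      Algebra.trace (P ⧸ Ideal.span {w}) (B ⧸ (Ideal.span {w}).map (algebraMap P B))
        (Ideal.Quotient.mk _ β) := by
  classical
  have hIp : (Ideal.span {w}).IsPrime := (Ideal.span_singleton_prime hw.ne_zero).mpr hw
  have hex : ∀ j, ∃ c : Fin n → P, ∑ i, c i • x i = g • (β * x j) := fun j =>
    (Submodule.mem_span_range_iff_exists_fun P).mp (hspan (β * x j))
  choose c hc using hex
  let m : Matrix (Fin n) (Fin n) P := Matrix.of fun i j => c j i
  have hm : ∀ j, g • (β * x j) = ∑ i, m i j • x i := fun j => (hc j).symm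
  have hP := smul_intTrace_eq x hli g hspan β m hm
  have hmΛ : ∀ j, Ideal.Quotient.mk (Ideal.span {w}) g •
      (Algebra.lmul (P ⧸ Ideal.span {w}) (B ⧸ (Ideal.span {w}).map (algebraMap P B))
        (Ideal.Quotient.mk _ β)) (Ideal.Quotient.mk _ (x j)) =
      ∑ i, (m.map (Ideal.Quotient.mk (Ideal.span {w}))) i j •
        Ideal.Quotient.mk ((Ideal.span {w}).map (algebraMap P B)) (x i) := by
    intro j
    have h := congrArg (Ideal.Quotient.mk ((Ideal.span {w}).map (algebraMap P B))) (hm j)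
    rw [mk_sum_smul] at h
    rw [show (∑ i, (m.map (Ideal.Quotient.mk (Ideal.span {w}))) i j •
        Ideal.Quotient.mk ((Ideal.span {w}).map (algebraMap P B)) (x i)) =
        ∑ i, Ideal.Quotient.mk (Ideal.span {w}) (m i j) •
          Ideal.Quotient.mk ((Ideal.span {w}).map (algebraMap P B)) (x i) from rfl, ← h]
    change Ideal.Quotient.mk (Ideal.span {w}) g •
      (Ideal.Quotient.mk ((Ideal.span {w}).map (algebraMap P B)) β *
        Ideal.Quotient.mk ((Ideal.span {w}).map (algebraMap P B)) (x j)) = _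
    rw [← map_mul, Ideal.Quotient.mk_smul_mk_quotient_map_quotient, Algebra.smul_def]
  have hΛ := smul_trace_eq_trace_of_quasiBasis (A := P ⧸ Ideal.span {w})
    (M := B ⧸ (Ideal.span {w}).map (algebraMap P B))
    (Algebra.lmul _ _ (Ideal.Quotient.mk _ β))
    (fun j => Ideal.Quotient.mk _ (x j))
    (linearIndependent_mk_of_quasiBasis hw x hli g hg hspan)
    (Ideal.Quotient.mk _ g)
    (smul_mem_span_mk_of_quasiBasis w x g hspan)
    (m.map (Ideal.Quotient.mk _)) hmΛ
  have hg0 : Ideal.Quotient.mk (Ideal.span {w}) g ≠ 0 := by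
    rw [Ne, Ideal.Quotient.eq_zero_iff_mem, Ideal.mem_span_singleton]; exact hg
  apply mul_left_cancel₀ hg0
  rw [Algebra.trace_apply, hΛ, ← map_mul, hP]
  simp [Matrix.trace, map_sum]

/-- **A3.** `DiscrRedStatement` (exact frozen shape of `B12/Spec2.lean`). -/
theorem discrRed : DiscrRedStatement.{u, v} := by
  intro P _ _ _ B _ _ _ _ _ _ w hw 𝔪 _ hw𝔪 n x hx n' bb
  classical
  obtain ⟨hli, g, hg𝔪, hspan⟩ := hx
  have hgw : ¬ w ∣ g := fun h => hg𝔪 (Ideal.mem_of_dvd 𝔪 h hw𝔪)
  have hIp : (Ideal.span {w}).IsPrime := (Ideal.span_singleton_prime hw.ne_zero).mpr hw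
  have hfree : Module.Free (P ⧸ Ideal.span {w}) (B ⧸ (Ideal.span {w}).map (algebraMap P B)) :=
    Module.Free.of_basis bb
  have hfin : Module.Finite (P ⧸ Ideal.span {w}) (B ⧸ (Ideal.span {w}).map (algebraMap P B)) :=
    Module.Finite.of_basis bb
  have hliΛ := linearIndependent_mk_of_quasiBasis hw x hli g hgw hspan
  have hspanΛ := smul_mem_span_mk_of_quasiBasis w x g hspan
  have hg0 : Ideal.Quotient.mk (Ideal.span {w}) g ≠ 0 := by
    rw [Ne, Ideal.Quotient.eq_zero_iff_mem, Ideal.mem_span_singleton]; exact hgw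
  -- ranks
  have hrank : Module.finrank (P ⧸ Ideal.span {w})
      (B ⧸ (Ideal.span {w}).map (algebraMap P B)) = n' := by
    rw [Module.finrank_eq_card_basis bb, Fintype.card_fin]
  have hn : n' = n := by
    apply le_antisymm
    · -- `B/wB` embeds into `span x̄` by multiplication by `ḡ`
      set E := Submodule.span (P ⧸ Ideal.span {w})
        (Set.range fun j => Ideal.Quotient.mk ((Ideal.span {w}).map (algebraMap P B)) (x j))
      let bE : Module.Basis (Fin n) (P ⧸ Ideal.span {w}) E := Module.Basis.span hliΛ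
      have : Module.Free (P ⧸ Ideal.span {w}) E := Module.Free.of_basis bE
      have : Module.Finite (P ⧸ Ideal.span {w}) E := Module.Finite.of_basis bE
      let φ : (B ⧸ (Ideal.span {w}).map (algebraMap P B)) →ₗ[P ⧸ Ideal.span {w}] E :=
        { toFun := fun y => ⟨Ideal.Quotient.mk (Ideal.span {w}) g • y, hspanΛ y⟩
          map_add' := fun y z => Subtype.ext (by simp [smul_add])
          map_smul' := fun r y => Subtype.ext (by simp [smul_comm (Ideal.Quotient.mk _ g) r]) }
      have hφ : Function.Injective φ := by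
        intro y z hyz
        have h1 : Ideal.Quotient.mk (Ideal.span {w}) g • y =
            Ideal.Quotient.mk (Ideal.span {w}) g • z := congrArg Subtype.val hyz
        have h2 : Ideal.Quotient.mk (Ideal.span {w}) g • (y - z) = 0 := by
          rw [smul_sub, h1, sub_self]
        exact sub_eq_zero.mp ((smul_eq_zero.mp h2).resolve_left hg0)
      have h1 := LinearMap.finrank_le_finrank_of_injective hφ
      rw [hrank, Module.finrank_eq_card_basis bE, Fintype.card_fin] at h1
      exact h1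
    · have h1 := hliΛ.fintype_card_le_finrank
      rw [Fintype.card_fin, hrank] at h1
      exact h1
  subst hn
  refine ⟨rfl, ?_⟩
  -- the matrices
  let Pm : Matrix (Fin n') (Fin n') (P ⧸ Ideal.span {w}) :=
    Matrix.of fun i j => bb.repr (Ideal.Quotient.mk _ (x i)) j
  have hex : ∀ i, ∃ c : Fin n' → (P ⧸ Ideal.span {w}),
      ∑ j, c j • Ideal.Quotient.mk ((Ideal.span {w}).map (algebraMap P B)) (x j) =
        Ideal.Quotient.mk (Ideal.span {w}) g • bb i := fun i =>
    (Submodule.mem_span_range_iff_exists_fun _).mp (hspanΛ (bb i))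
  choose V hV using hex
  let Vm : Matrix (Fin n') (Fin n') (P ⧸ Ideal.span {w}) := Matrix.of V
  have hVP : Vm * Pm = Ideal.Quotient.mk (Ideal.span {w}) g • (1 : Matrix _ _ _) := by
    ext i k
    have h := congrArg (fun y => bb.repr y k) (hV i)
    simp only [map_sum, map_smul, Finsupp.coe_finsetSum, Finsupp.coe_smul, Finset.sum_apply,
      Pi.smul_apply, smul_eq_mul, Module.Basis.repr_self, Finsupp.single_apply] at h
    rw [Matrix.mul_apply, Matrix.smul_apply, Matrix.one_apply]
    simp only [Vm, Pm, Matrix.of_apply, smul_eq_mul]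
    rw [h]
  have hdet : Vm.det * Pm.det = Ideal.Quotient.mk (Ideal.span {w}) g ^ n' := by
    rw [← Matrix.det_mul, hVP, Matrix.det_smul, Matrix.det_one, mul_one, Fintype.card_fin]
  obtain ⟨u, hu⟩ := Ideal.Quotient.mk_surjective Pm.det
  obtain ⟨v, hv⟩ := Ideal.Quotient.mk_surjective Vm.det
  refine ⟨u, ?_, ?_⟩
  · intro hu𝔪
    have h1 : Ideal.Quotient.mk (Ideal.span {w}) (v * u - g ^ n') = 0 := by
      rw [map_sub, map_mul, map_pow, hu, hv, hdet, sub_self]
    rw [Ideal.Quotient.eq_zero_iff_mem, Ideal.mem_span_singleton] at h1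
    have h2 : v * u - g ^ n' ∈ 𝔪 := Ideal.mem_of_dvd 𝔪 h1 hw𝔪
    have h3 : g ^ n' ∈ 𝔪 := by
      have := 𝔪.sub_mem (𝔪.mul_mem_left v hu𝔪) h2
      simpa using this
    exact hg𝔪 (Ideal.IsPrime.mem_of_pow_mem inferInstance n' h3)
  · -- discriminants
    have hxb : (fun i => Ideal.Quotient.mk ((Ideal.span {w}).map (algebraMap P B)) (x i)) =
        (Pm.map (algebraMap (P ⧸ Ideal.span {w})
          (B ⧸ (Ideal.span {w}).map (algebraMap P B)))).mulVec bb := by
      funext i
      simp only [Matrix.mulVec, dotProduct, Matrix.map_apply, Pm, Matrix.of_apply]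
      conv_lhs => rw [← bb.sum_repr (Ideal.Quotient.mk _ (x i))]
      refine Finset.sum_congr rfl fun j _ => ?_
      rw [Algebra.smul_def]
    have hdisc : Algebra.discr (P ⧸ Ideal.span {w})
        (fun i => Ideal.Quotient.mk ((Ideal.span {w}).map (algebraMap P B)) (x i)) =
        Pm.det ^ 2 * Algebra.discr (P ⧸ Ideal.span {w}) bb := by
      rw [hxb, Algebra.discr_of_matrix_mulVec]
    rw [hu, ← hdisc, Algebra.discr_def, intDiscr, RingHom.map_det]
    congr 1
    ext i j
    simp only [RingHom.mapMatrix_apply, Matrix.map_apply, Matrix.of_apply,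
      Algebra.traceMatrix_apply, Algebra.traceForm_apply]
    rw [mk_intTrace_eq_trace hw x hli g hgw hspan, map_mul]

end Main

end Fermat.Agent.S18.B12.H393

end
end
-- ===== PACK-END S18/B12/H393/DiscrRed.lean

-- ===== PACK-BEGIN Lib/HFree/H412/Basic.lean
section




/-!
# Shapiro cocycles for a subgroup `Γ ≤ SL(2,ℤ)` with values in an arbitrary abelian group

`X = SL(2,ℤ) ⧸ Γ`.  For an additive character `c : Γ → A` we construct the induced cocycle
`shap c : SL(2,ℤ) → (X → A)` (values in the permutation module), with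
`shap c γ x₀ = c γ` for `γ ∈ Γ`, and conversely restrict cocycles to characters.
-/

set_option autoImplicit false

open scoped MatrixGroups
open ModularGroup

namespace Fermat.Agent.Lib.HFree.H412

open Fermat.Agent.S20.H270 (Umat IsCocycle)

section PermRep

variable (A : Type*) [AddCommGroup A] {G : Type*} [Group G] {X : Type*} [MulAction G X]

/-- The permutation representation of `G` on `X → A`, by `ℤ`-linear equivalences:
`(g • m) x = m (g⁻¹ • x)`. -/
def permRep : G →* ((X → A) ≃ₗ[ℤ] (X → A)) where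
  toFun g :=
    { toFun := fun m x => m (g⁻¹ • x)
      invFun := fun m x => m (g • x)
      map_add' := fun _ _ => rfl
      map_smul' := fun _ _ => rfl
      left_inv := fun m => by funext x; simp
      right_inv := fun m => by funext x; simp }
  map_one' := by
    ext m x
    simp
  map_mul' g h := by
    ext m x
    simp [mul_smul]

@[simp] theorem permRep_apply (g : G) (m : X → A) (x : X) :
    permRep A g m x = m (g⁻¹ • x) := rfl

variable {A}

theorem permRep_single [DecidableEq X] (g : G) (x : X) (a : A) :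
    permRep A g (Pi.single x a) = Pi.single (g • x) a := by
  funext y
  rw [permRep_apply]
  by_cases h : y = g • x
  · subst h
    simp
  · rw [Pi.single_eq_of_ne h, Pi.single_eq_of_ne]
    intro h'
    apply h
    rw [← h', smul_inv_smul]

theorem sum_permRep [Fintype X] (g : G) (m : X → A) :
    ∑ x, permRep A g m x = ∑ x, m x := by
  simp only [permRep_apply]
  exact Fintype.sum_equiv (MulAction.toPerm g⁻¹) _ _ (fun _ => rfl)

/-- The permutation `x ↦ g⁻¹ • x`. -/
def invPerm (X : Type*) [MulAction G X] (g : G) : Equiv.Perm X := MulAction.toPerm g⁻¹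

@[simp] theorem invPerm_apply (g : G) (x : X) : invPerm X g x = g⁻¹ • x := rfl

theorem invPerm_pow_apply (g : G) (k : ℕ) (x : X) : (invPerm X g ^ k) x = (g ^ k)⁻¹ • x := by
  induction k generalizing x with
  | zero => simp
  | succ k ih =>
    rw [pow_succ, Equiv.Perm.mul_apply, ih, invPerm_apply, ← mul_smul, pow_succ', mul_inv_rev]

theorem invPerm_finOrder [Finite X] (g : G) : ∃ n : ℕ, 0 < n ∧ invPerm X g ^ n = 1 :=
  isOfFinOrder_iff_pow_eq_one.mp (isOfFinOrder_of_finite (invPerm X g))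

end PermRep

section Cocycle

variable {A : Type*} [AddCommGroup A] {Γ : Subgroup SL(2, ℤ)}

/-- Power formula for cocycles with values in a permutation module. -/
theorem cocycle_pow_apply {z : SL(2, ℤ) → ((SL(2, ℤ) ⧸ Γ) → A)}
    (hz : IsCocycle (permRep A) z) (g : SL(2, ℤ)) (j : ℕ) (y : SL(2, ℤ) ⧸ Γ) :
    z (g ^ j) y = orbSum (invPerm (SL(2, ℤ) ⧸ Γ) g) (z g) y j := by
  induction j with
  | zero =>
    rw [pow_zero, hz.map_one]
    simp [orbSum]
  | succ j ih =>
    rw [orbSum_succ, ← ih, pow_succ, hz (g ^ j) g, Pi.add_apply, permRep_apply,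
      invPerm_pow_apply]

/-- A cocycle whose "closed orbit values" `z (g ^ j) y`, `g ^ j • y = y`, vanish is a coboundary
on `g`. -/
theorem exists_eq_coboundary_at [Finite (SL(2, ℤ) ⧸ Γ)]
    {z : SL(2, ℤ) → ((SL(2, ℤ) ⧸ Γ) → A)}
    (hz : IsCocycle (permRep A) z) (g : SL(2, ℤ))
    (h0 : ∀ (y : SL(2, ℤ) ⧸ Γ) (j : ℕ), (g ^ j)⁻¹ • y = y → z (g ^ j) y = 0) :
    ∃ m : (SL(2, ℤ) ⧸ Γ) → A, z g = permRep A g m - m := by
  obtain ⟨m, hm⟩ := exists_coboundary_of_orbSum (invPerm (SL(2, ℤ) ⧸ Γ) g)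
    (invPerm_finOrder g) (z g) (fun y j hj => by
      rw [← cocycle_pow_apply hz]
      exact h0 y j (by rwa [invPerm_pow_apply] at hj))
  refine ⟨m, ?_⟩
  funext y
  rw [hm y]
  rfl

/-- If `z g = g • m - m` then `z (g ^ k) = g ^ k • m - m` for all integers `k`. -/
theorem cocycle_zpow_of_coboundary {z : SL(2, ℤ) → ((SL(2, ℤ) ⧸ Γ) → A)}
    (hz : IsCocycle (permRep A) z) (g : SL(2, ℤ)) (m : (SL(2, ℤ) ⧸ Γ) → A)
    (hg : z g = permRep A g m - m) (k : ℤ) :
    z (g ^ k) = permRep A (g ^ k) m - m := by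
  let H : Subgroup SL(2, ℤ) :=
    { carrier := {h | z h = permRep A h m - m}
      one_mem' := by
        show z 1 = permRep A 1 m - m
        rw [hz.map_one, map_one]
        simp
      mul_mem' := fun {a b} ha hb => by
        show z (a * b) = permRep A (a * b) m - m
        have ha' : z a = permRep A a m - m := ha
        have hb' : z b = permRep A b m - m := hb
        rw [hz a b, ha', hb', map_sub, map_mul]
        simp only [LinearEquiv.mul_apply]
        abel
      inv_mem' := fun {a} ha => by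
        show z a⁻¹ = permRep A a⁻¹ m - m
        have ha' : z a = permRep A a m - m := ha
        rw [hz.map_inv, ha', map_sub, ← LinearEquiv.mul_apply, ← map_mul, inv_mul_cancel,
          map_one]
        simp }
  have hgH : g ∈ H := hg
  exact H.zpow_mem hgH k

end Cocycle

section Shapiro

variable {A : Type*} [AddCommGroup A] {Γ : Subgroup SL(2, ℤ)}

/-- The twisting element `s(x)⁻¹ g s(g⁻¹ x)`. -/
noncomputable def tw (g : SL(2, ℤ)) (x : SL(2, ℤ) ⧸ Γ) : SL(2, ℤ) :=
  (Quotient.out x)⁻¹ * g * Quotient.out (g⁻¹ • x)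

theorem mk_out (x : SL(2, ℤ) ⧸ Γ) : (QuotientGroup.mk (Quotient.out x) : SL(2, ℤ) ⧸ Γ) = x :=
  QuotientGroup.out_eq' x

theorem tw_mem (g : SL(2, ℤ)) (x : SL(2, ℤ) ⧸ Γ) : tw g x ∈ Γ := by
  unfold tw
  rw [mul_assoc, ← QuotientGroup.eq, mk_out]
  have : (QuotientGroup.mk (g * Quotient.out (g⁻¹ • x)) : SL(2, ℤ) ⧸ Γ) =
      g • (QuotientGroup.mk (Quotient.out (g⁻¹ • x)) : SL(2, ℤ) ⧸ Γ) := rfl
  rw [this, mk_out, smul_inv_smul]

theorem tw_mul (g h : SL(2, ℤ)) (x : SL(2, ℤ) ⧸ Γ) :
    tw (g * h) x = tw g x * tw h (g⁻¹ • x) := by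
  unfold tw
  rw [mul_inv_rev, mul_smul]
  group

/-- If `g⁻¹` fixes `x`, the twisting element is a conjugate of `g`. -/
theorem tw_of_fixed {g : SL(2, ℤ)} {x : SL(2, ℤ) ⧸ Γ} (h : g⁻¹ • x = x) :
    tw g x = (Quotient.out x)⁻¹ * g * Quotient.out x := by
  unfold tw
  rw [h]

variable (Γ) in
/-- The base point of `SL(2,ℤ) ⧸ Γ`. -/
def bpt : SL(2, ℤ) ⧸ Γ := QuotientGroup.mk 1

theorem smul_bpt_of_mem {γ : SL(2, ℤ)} (hγ : γ ∈ Γ) : γ • bpt Γ = bpt Γ := by
  show (QuotientGroup.mk (γ * 1) : SL(2, ℤ) ⧸ Γ) = QuotientGroup.mk 1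
  rw [mul_one, QuotientGroup.eq, mul_one]
  exact Γ.inv_mem hγ

theorem inv_smul_bpt_of_mem {γ : SL(2, ℤ)} (hγ : γ ∈ Γ) : γ⁻¹ • bpt Γ = bpt Γ :=
  smul_bpt_of_mem (Γ.inv_mem hγ)

theorem exists_smul_bpt (x : SL(2, ℤ) ⧸ Γ) : ∃ g : SL(2, ℤ), g • bpt Γ = x := by
  refine ⟨Quotient.out x, ?_⟩
  show (QuotientGroup.mk (Quotient.out x * 1) : SL(2, ℤ) ⧸ Γ) = x
  rw [mul_one, mk_out]

theorem out_bpt_mem : Quotient.out (bpt Γ) ∈ Γ := by
  have h : (QuotientGroup.mk (Quotient.out (bpt Γ)) : SL(2, ℤ) ⧸ Γ) = QuotientGroup.mk 1 :=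
    mk_out (bpt Γ)
  rw [QuotientGroup.eq] at h
  have h2 := Γ.inv_mem h
  rwa [mul_one, inv_inv] at h2

theorem neg_one_smul_coset (hneg : (-1 : SL(2, ℤ)) ∈ Γ) (x : SL(2, ℤ) ⧸ Γ) :
    (-1 : SL(2, ℤ)) • x = x := by
  induction x using QuotientGroup.induction_on with
  | H h =>
    show (QuotientGroup.mk (-1 * h) : SL(2, ℤ) ⧸ Γ) = QuotientGroup.mk h
    rw [QuotientGroup.eq]
    have : (-1 * h)⁻¹ * h = -1 := by
      have h1 : (-1 * h) * (-1 : SL(2, ℤ)) = h := by simp
      calc (-1 * h)⁻¹ * h = (-1 * h)⁻¹ * ((-1 * h) * (-1 : SL(2, ℤ))) := by rw [h1]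
        _ = -1 := by rw [inv_mul_cancel_left]
    rw [this]
    exact hneg

theorem permRep_neg_one (A : Type*) [AddCommGroup A] (hneg : (-1 : SL(2, ℤ)) ∈ Γ) :
    permRep A (-1 : SL(2, ℤ)) = (1 : ((SL(2, ℤ) ⧸ Γ) → A) ≃ₗ[ℤ] ((SL(2, ℤ) ⧸ Γ) → A)) := by
  ext m x
  show m ((-1 : SL(2, ℤ))⁻¹ • x) = m x
  have : ((-1 : SL(2, ℤ))⁻¹) = -1 := by decide
  rw [this, neg_one_smul_coset hneg]

/-- Additive characters of `Γ` (as raw functions). -/
def IsAddChar (c : Γ → A) : Prop := ∀ γ γ' : Γ, c (γ * γ') = c γ + c γ'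

namespace IsAddChar

variable {c : Γ → A}

theorem map_one (hc : IsAddChar c) : c 1 = 0 := by
  have h := hc 1 1
  rw [mul_one] at h
  have : c 1 + c 1 = c 1 + 0 := by rw [← h, add_zero]
  exact add_left_cancel this

theorem map_inv (hc : IsAddChar c) (γ : Γ) : c γ⁻¹ = -c γ := by
  have h := hc γ⁻¹ γ
  rw [inv_mul_cancel, hc.map_one] at h
  exact eq_neg_of_add_eq_zero_left h.symm

theorem map_conj (hc : IsAddChar c) (γ δ : Γ) : c (δ⁻¹ * γ * δ) = c γ := by
  rw [hc, hc, hc.map_inv]
  abel

end IsAddChar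

/-- The Shapiro cocycle of a function `c : Γ → A`. -/
noncomputable def shap (c : Γ → A) : SL(2, ℤ) → ((SL(2, ℤ) ⧸ Γ) → A) :=
  fun g x => c ⟨tw g x, tw_mem g x⟩

omit [AddCommGroup A] in
theorem shap_apply (c : Γ → A) (g : SL(2, ℤ)) (x : SL(2, ℤ) ⧸ Γ) :
    shap c g x = c ⟨tw g x, tw_mem g x⟩ := rfl

theorem isCocycle_shap {c : Γ → A} (hc : IsAddChar c) : IsCocycle (permRep A) (shap c) := by
  intro g h
  funext x
  rw [Pi.add_apply, permRep_apply, shap_apply, shap_apply, shap_apply, ← hc]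
  congr 1
  exact Subtype.ext (tw_mul g h x)

theorem shap_bpt {c : Γ → A} (hc : IsAddChar c) (γ : Γ) : shap c (γ : SL(2, ℤ)) (bpt Γ) = c γ := by
  rw [shap_apply]
  have h1 : (⟨tw (γ : SL(2, ℤ)) (bpt Γ), tw_mem _ _⟩ : Γ) =
      (⟨Quotient.out (bpt Γ), out_bpt_mem⟩ : Γ)⁻¹ * γ * ⟨Quotient.out (bpt Γ), out_bpt_mem⟩ := by
    apply Subtype.ext
    exact tw_of_fixed (inv_smul_bpt_of_mem γ.2)
  rw [h1, hc.map_conj]

/-- Restriction of a cocycle to a character of `Γ`. -/
def resChar (z : SL(2, ℤ) → ((SL(2, ℤ) ⧸ Γ) → A)) : Γ → A := fun γ => z (γ : SL(2, ℤ)) (bpt Γ)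

theorem isAddChar_resChar {z : SL(2, ℤ) → ((SL(2, ℤ) ⧸ Γ) → A)}
    (hz : IsCocycle (permRep A) z) : IsAddChar (resChar z) := by
  intro γ γ'
  show z ((γ : SL(2, ℤ)) * γ') (bpt Γ) = z γ (bpt Γ) + z γ' (bpt Γ)
  rw [hz, Pi.add_apply, permRep_apply, inv_smul_bpt_of_mem γ.2]

/-- Value of a cocycle on a conjugate `g h g⁻¹ ∈ Γ`, at the base point. -/
theorem cocycle_conj_bpt {z : SL(2, ℤ) → ((SL(2, ℤ) ⧸ Γ) → A)}
    (hz : IsCocycle (permRep A) z) (g h : SL(2, ℤ)) (hmem : g * h * g⁻¹ ∈ Γ) :
    z (g * h * g⁻¹) (bpt Γ) = z h (g⁻¹ • bpt Γ) := by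
  have e1 : z (g * h * g⁻¹) = z g + permRep A g (z h) - permRep A (g * h * g⁻¹) (z g) := by
    rw [hz (g * h) g⁻¹, hz g h, hz.map_inv, map_neg, ← LinearEquiv.mul_apply, ← map_mul]
    abel
  rw [e1]
  simp only [Pi.add_apply, Pi.sub_apply, permRep_apply]
  rw [inv_smul_bpt_of_mem hmem]
  abel

end Shapiro

end Fermat.Agent.Lib.HFree.H412

end
-- ===== PACK-END Lib/HFree/H412/Basic.lean

-- ===== PACK-BEGIN S21/HodgeInterface.lean
section






/-!
# S21 — interface statements for the Hodge part D'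

`W` Weyl lemma (helper561, `H561/WeylL2.lean`), `Cusp` packaging (helper825, `Cusp.lean`:
`exists_cuspForm_of_energy`), `Per` periods (helper972, `Per.lean`:
`period_eq_zero_of_tendsto`).
-/

set_option autoImplicit false

open ModularCurve ModularCurve.Period UpperHalfPlane CongruenceSubgroup Filter Topology
open MeasureTheory
open scoped MatrixGroups ComplexConjugate ContDiff

namespace Fermat.Agent.S21

/-- **W** (Weyl lemma for `∂̄`). -/
theorem weyl_lemma (g : ℕ → ℂ → ℂ) (hg : ∀ n, ContinuousOn (g n) Uhp)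
    (hcauchy : ∀ K : Set ℂ, IsCompact K → K ⊆ Uhp → ∀ ε > 0, ∃ M, ∀ m ≥ M, ∀ n ≥ M,
        ∫ z in K, ‖g n z - g m z‖ ^ 2 < ε)
    (hweak : ∀ η : ℂ → ℝ, ContDiff ℝ ∞ η → HasCompactSupport η → tsupport η ⊆ Uhp →
        Tendsto (fun n => ∫ z, g n z *
          (((fderiv ℝ η z 1 : ℝ) : ℂ) + Complex.I * ((fderiv ℝ η z Complex.I : ℝ) : ℂ)))
          atTop (𝓝 0)) :
    ∃ f : ℂ → ℂ, DifferentiableOn ℂ f Uhp ∧
      ∀ K : Set ℂ, IsCompact K → K ⊆ Uhp →
        Tendsto (fun n => ∫ z in K, ‖g n z - f z‖ ^ 2) atTop (𝓝 0) :=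
  H561.weyl_lemma_open isOpen_Uhp g hg hcauchy hweak

end Fermat.Agent.S21

end
-- ===== PACK-END S21/HodgeInterface.lean

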