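import Mathlib
import Fermat.Prelude.Def_ModularCurve_HeckeModule
import Fermat.Prelude.Thm_CongruenceSubgroup_one_mem_strictPeriods_Gamma0
import Fermat.Prelude.Thm_ModularForm_sturm_bound_Gamma0
import Fermat.Prelude.Def_FLTPrelim_Modularity
import Mathlib.NumberTheory.ModularForms.Derivative
import Mathlib.Analysis.Complex.LocallyUniformLimit
import Fermat.Prelude.Def_ModularCurve_ReductionModL
import Fermat.Agent.Pack.S44C.G0E0L0
import Fermat.Agent.Pack.S44C.G0E0L3
import Fermat.Agent.Pack.S44C.G0E2L2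
import Fermat.Agent.Pack.S44C.G0E1L3
import Fermat.Agent.Pack.S44C.G0E3L2
import Fermat.Agent.Pack.S44C.G0E3L0
import Fermat.Agent.Pack.S44C.G0E3L3
import Fermat.Agent.Pack.S44C.G0E6L2
import Fermat.Agent.Pack.Fast891

-- ===== PACK-BEGIN S30/H810/QShift.lean
section
/-
S30 / piece ONTO (helper810), part 7: `q_L`-expansions of periodic functions of exponential growth
and the SHIFT lemma (`τ ↦ τ + a` twists the coefficients by `exp(2πi a n / L)`).
-/




set_option autoImplicit false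
set_option linter.unusedSectionVars false

noncomputable section

open UpperHalfPlane HahnSeries Function
open scoped MatrixGroups Manifold Real

namespace Fermat.Agent.S30.H810

open Fermat.Agent.S24 Fermat.Agent.S24.H648 Fermat.Agent.S24.H708

variable {L : ℕ} [NeZero L]

/-- periodicity on `ℍ` gives periodicity of the extension by junk -/
theorem periodic_of_vadd {f : ℍ → ℂ} (hf : ∀ τ : ℍ, f ((L : ℝ) +ᵥ τ) = f τ) :
    Function.Periodic (f ∘ ofComplex) (L : ℝ) := by
  intro w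
  by_cases hw : 0 < Complex.im w
  · have hw' : 0 < Complex.im (w + ((L : ℝ) : ℂ)) := by simpa using hw
    simp only [Function.comp_apply, ofComplex_apply_of_im_pos hw', ofComplex_apply_of_im_pos hw]
    rw [← hf ⟨w, hw⟩]
    congr 1
    apply UpperHalfPlane.ext
    rw [UpperHalfPlane.coe_vadd]
    simp [add_comm]
  · have hw0 : Complex.im w ≤ 0 := not_lt.mp hw
    have hw' : Complex.im (w + ((L : ℝ) : ℂ)) ≤ 0 := by simpa using hw0
    simp only [Function.comp_apply]
    rw [ofComplex_apply_of_im_nonpos hw', ofComplex_apply_of_im_nonpos hw0]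

/-- exponential growth gives a pole of finite order in `q_L` -/
theorem isBounded_mul_qh_pow_of_expGrowth' {f : ℍ → ℂ} (hf : ExpGrowth f) :
    ∃ M : ℕ, IsBoundedAtImInfty (f * qh L ^ M) := by
  obtain ⟨C, m, h⟩ := hf
  refine ⟨L * m, ?_⟩
  rw [UpperHalfPlane.isBoundedAtImInfty_iff]
  refine ⟨C, 1, fun τ hτ => ?_⟩
  have h1 := h τ hτ
  have hL : (L : ℝ) ≠ 0 := Nat.cast_ne_zero.mpr (NeZero.ne L)
  have hq : ‖qh L τ‖ = Real.exp (-2 * π * τ.im / L) := by
    rw [qh_apply, Function.Periodic.norm_qParam]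
    simp
  rw [Pi.mul_apply, Pi.pow_apply, norm_mul, norm_pow, hq, ← Real.exp_nat_mul]
  calc ‖f τ‖ * Real.exp (((L * m : ℕ) : ℝ) * (-2 * π * τ.im / L))
      ≤ C * Real.exp (2 * π * m * τ.im) * Real.exp (((L * m : ℕ) : ℝ) * (-2 * π * τ.im / L)) :=
        mul_le_mul_of_nonneg_right h1 (Real.exp_pos _).le
    _ = C := by
        rw [mul_assoc, ← Real.exp_add]
        have : 2 * π * m * τ.im + ((L * m : ℕ) : ℝ) * (-2 * π * τ.im / L) = 0 := by
          push_cast
          field_simp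
          ring
        rw [this, Real.exp_zero, mul_one]

/-- holomorphic + periodic + exponential growth ⟹ `IsMerInf` -/
theorem isMerInf_of_periodic {f : ℍ → ℂ} (hol : MDiff f)
    (hper : ∀ τ : ℍ, f ((L : ℝ) +ᵥ τ) = f τ) (hg : ExpGrowth f) : IsMerInf L f :=
  ⟨hol, periodic_of_vadd hper, isBounded_mul_qh_pow_of_expGrowth' hg⟩

/-- the twisting unit `exp(2πi a / L)` -/
def shiftUnit (L : ℕ) (a : ℝ) : ℂˣ :=
  Units.mk0 (Complex.exp (2 * π * Complex.I * a / L)) (Complex.exp_ne_zero _)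

theorem qh_vadd (a : ℝ) (τ : ℍ) : qh L (a +ᵥ τ) = (shiftUnit L a : ℂ) * qh L τ := by
  rw [qh_apply, qh_apply, Function.Periodic.qParam, Function.Periodic.qParam, shiftUnit,
    Units.val_mk0, ← Complex.exp_add, UpperHalfPlane.coe_vadd]
  congr 1
  push_cast
  ring

/-- **SHIFT lemma.** -/
theorem hasQExp_vadd {f : ℍ → ℂ} {φ : LaurentSeries ℂ} (hf : HasQExp L f φ) (a : ℝ)
    (hol : MDiff (fun τ : ℍ => f (a +ᵥ τ))) :
    HasQExp L (fun τ : ℍ => f (a +ᵥ τ)) (infTwist (shiftUnit L a) φ) := by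
  refine HasQExp.of_hasSum hol fun τ => ?_
  have h := hf.hasSum (a +ᵥ τ)
  convert h using 1
  funext n
  rw [infTwist_coeff, qh_vadd, mul_zpow, Units.val_zpow_eq_zpow_val]
  ring

/-- If `f (τ + a) = z f τ` then the twisting unit to the order of the expansion is `z`. -/
theorem shiftUnit_zpow_order_eq {f : ℍ → ℂ} {φ : LaurentSeries ℂ} (hf : HasQExp L f φ)
    (hf0 : f ≠ 0) (a : ℝ) (z : ℂ) (hz : ∀ τ : ℍ, f (a +ᵥ τ) = z * f τ) :
    ((shiftUnit L a : ℂˣ) : ℂ) ^ φ.order = z := by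
  have hol : MDiff (fun τ : ℍ => f (a +ᵥ τ)) := by
    have : (fun τ : ℍ => f (a +ᵥ τ)) = (fun _ : ℍ => z) * f := by
      funext τ; exact hz τ
    rw [this]
    exact mdifferentiable_const.mul hf.mdiff
  have h1 := hasQExp_vadd hf a hol
  have h2 : HasQExp L (fun τ : ℍ => f (a +ᵥ τ)) (HahnSeries.C z * φ) := by
    have : (fun τ : ℍ => f (a +ᵥ τ)) = (fun _ : ℍ => z) * f := by
      funext τ; exact hz τ
    rw [this]
    exact (HasQExp.const L z).mul hf
  have h3 := h1.unique h2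
  have hφ : φ ≠ 0 := fun h0 => hf0 ((hf.eq_zero_iff).mp h0)
  have h4 := congrArg HahnSeries.leadingCoeff h3
  rw [infTwist_leadingCoeff, HahnSeries.leadingCoeff_mul] at h4
  have hlc : φ.leadingCoeff ≠ 0 := HahnSeries.leadingCoeff_ne_zero.mpr hφ
  have hz0 : z ≠ 0 := by
    rintro rfl
    apply hφ
    have : infTwist (shiftUnit L a) φ = 0 := by rw [h3]; simp
    exact (infTwist_eq_zero_iff _ _).mp this
  have hCz : (HahnSeries.C z : LaurentSeries ℂ).leadingCoeff = z := by
    rw [HahnSeries.C_apply, HahnSeries.leadingCoeff_of_single]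
  rw [hCz, Units.val_zpow_eq_zpow_val, mul_comm] at h4
  exact mul_right_cancel₀ hlc h4

end Fermat.Agent.S30.H810

end
end
-- ===== PACK-END S30/H810/QShift.lean

-- ===== PACK-BEGIN S21/Partition.lean
section


/-!
# S21 / MS-A — a smooth `SL(2,ℤ)`-partition of unity on the upper half plane

Main results:
* `Fermat.Agent.S21.finite_mob_inter` (G1): proper discontinuity in terms of `mob`.
* `Fermat.Agent.S21.c_eq_zero_of_two_le_im` (G2).
* `Fermat.Agent.S21.exists_partition_SL2Z`.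

All auxiliary lemmas live in the namespace `Fermat.Agent.S21.PartitionAux`
(`mob_mob`, `mob_im`, `mob_eq_div`, `mob_contDiffAt`, `mob_im_le_max`, `psiFn`, `PsiSum`,
`chiOne` and its properties).
-/

set_option autoImplicit false

open UpperHalfPlane Matrix
open scoped MatrixGroups ContDiff

namespace Fermat.Agent.S21.PartitionAux

/-! ### Basic facts about `mob` -/

theorem mob_coe (g : SL(2, ℤ)) (w : ℍ) : mob g (w : ℂ) = ((g • w : ℍ) : ℂ) := by
  simp [mob]

theorem mob_of_mem {z : ℂ} (hz : z ∈ Uhp) (g : SL(2, ℤ)) :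
    mob g z = ((g • (⟨z, hz⟩ : ℍ) : ℍ) : ℂ) := by
  simp [mob, ofComplex_apply_of_im_pos hz]

theorem mob_mem_Uhp (g : SL(2, ℤ)) (z : ℂ) : mob g z ∈ Uhp := coe_mem_Uhp _

theorem mob_mob (g h : SL(2, ℤ)) (z : ℂ) : mob g (mob h z) = mob (g * h) z := by
  simp [mob, mul_smul]

theorem mob_one {z : ℂ} (hz : z ∈ Uhp) : mob 1 z = z := by
  simp [mob_of_mem hz]

theorem mob_im (g : SL(2, ℤ)) {z : ℂ} (hz : z ∈ Uhp) :
    (mob g z).im = z.im / Complex.normSq (cd g z) := by
  rw [mob_of_mem hz]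
  have h := ModularGroup.im_smul_eq_div_normSq g (⟨z, hz⟩ : ℍ)
  rw [ModularGroup.denom_apply] at h
  exact h

theorem mob_eq_div (g : SL(2, ℤ)) {z : ℂ} (hz : z ∈ Uhp) :
    mob g z = (((g 0 0 : ℤ) : ℂ) * z + ((g 0 1 : ℤ) : ℂ)) / cd g z := by
  rw [mob_of_mem hz, coe_specialLinearGroup_apply]
  simp [cd]

theorem cd_ne_zero (g : SL(2, ℤ)) {z : ℂ} (hz : z ∈ Uhp) : cd g z ≠ 0 := by
  have h := UpperHalfPlane.denom_ne_zero g (⟨z, hz⟩ : ℍ)
  rw [ModularGroup.denom_apply] at h
  exact h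

/-! ### Bounds on the imaginary part -/

theorem normSq_cd (g : SL(2, ℤ)) (z : ℂ) :
    Complex.normSq (cd g z) =
      ((g 1 0 : ℤ) * z.re + (g 1 1 : ℤ)) ^ 2 + ((g 1 0 : ℤ) * z.im) ^ 2 := by
  simp [cd, Complex.normSq_apply]
  ring

theorem sq_im_le_normSq_cd (g : SL(2, ℤ)) (z : ℂ) (hc : g 1 0 ≠ 0) :
    z.im ^ 2 ≤ Complex.normSq (cd g z) := by
  rw [normSq_cd]
  have h1 : (1 : ℝ) ≤ ((g 1 0 : ℤ) : ℝ) ^ 2 := by
    have : (1 : ℤ) ≤ (g 1 0) ^ 2 := by
      have := sq_pos_of_ne_zero hc  -- 0 < c^2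
      omega
    exact_mod_cast this
  have h2 : 0 ≤ (((g 1 0 : ℤ) : ℝ) * z.re + ((g 1 1 : ℤ) : ℝ)) ^ 2 := sq_nonneg _
  have h3 : 0 ≤ z.im ^ 2 := sq_nonneg _
  nlinarith

theorem one_le_normSq_cd (g : SL(2, ℤ)) (z : ℂ) (hc : g 1 0 = 0) :
    1 ≤ Complex.normSq (cd g z) := by
  rw [normSq_cd, hc]
  have hd : g 1 1 ≠ 0 := by
    intro hd
    have hdet := g.det_coe
    rw [Matrix.det_fin_two, hc, hd] at hdet
    simp at hdet
  have h1 : (1 : ℝ) ≤ ((g 1 1 : ℤ) : ℝ) ^ 2 := by
    have : (1 : ℤ) ≤ (g 1 1) ^ 2 := by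
      have := sq_pos_of_ne_zero hd
      omega
    exact_mod_cast this
  simpa using h1

theorem mob_im_le_inv (g : SL(2, ℤ)) {z : ℂ} (hz : z ∈ Uhp) (hc : g 1 0 ≠ 0) :
    (mob g z).im ≤ 1 / z.im := by
  have hz' : 0 < z.im := hz
  rw [mob_im g hz]
  have h := sq_im_le_normSq_cd g z hc
  have hpos : 0 < Complex.normSq (cd g z) := lt_of_lt_of_le (by positivity) h
  rw [div_le_div_iff₀ hpos hz']
  nlinarith

theorem mob_im_le_self (g : SL(2, ℤ)) {z : ℂ} (hz : z ∈ Uhp) (hc : g 1 0 = 0) :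
    (mob g z).im ≤ z.im := by
  have hz' : 0 < z.im := hz
  rw [mob_im g hz]
  have h := one_le_normSq_cd g z hc
  exact div_le_self hz'.le h

theorem mob_im_le_max (g : SL(2, ℤ)) {z : ℂ} (hz : z ∈ Uhp) :
    (mob g z).im ≤ max z.im (1 / z.im) := by
  by_cases hc : g 1 0 = 0
  · exact (mob_im_le_self g hz hc).trans (le_max_left _ _)
  · exact (mob_im_le_inv g hz hc).trans (le_max_right _ _)

end Fermat.Agent.S21.PartitionAux

namespace Fermat.Agent.S21

open PartitionAux

/-- (G2) If `Im z ≥ 2` and `Im (g z) > 1/2` then the lower-left entry of `g` vanishes. -/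
theorem c_eq_zero_of_two_le_im (g : SL(2, ℤ)) (z : ℂ) (hz : 2 ≤ z.im)
    (hg : 1 / 2 < (mob g z).im) : g 1 0 = 0 := by
  by_contra hc
  have hzU : z ∈ Uhp := lt_of_lt_of_le (by norm_num) hz
  have h1 := mob_im_le_inv g hzU hc
  have h2 : 1 / z.im ≤ 1 / 2 := by
    apply one_div_le_one_div_of_le (by norm_num) hz
  linarith

/-! ### Proper discontinuity -/

/-- (G1) Proper discontinuity of the action of `SL(2,ℤ)` in terms of `mob`. -/
theorem finite_mob_inter (K : Set ℂ) (hK : IsCompact K) (hKU : K ⊆ Uhp) :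
    {g : SL(2, ℤ) | ∃ z ∈ K, mob g z ∈ K}.Finite := by
  set K' : Set ℍ := (fun w : ℍ => (w : ℂ)) ⁻¹' K with hK'
  have hK'c : IsCompact K' :=
    UpperHalfPlane.isEmbedding_coe.isInducing.isCompact_preimage' hK
      (fun z hz => ⟨⟨z, hKU hz⟩, rfl⟩)
  have hpd := (Subgroup.properlyDiscontinuousSMul_iff (α := ℍ) 𝒮ℒ).mp inferInstance hK'c hK'c
  refine (hpd.preimage (f := SpecialLinearGroup.mapGL ℝ)
    (SpecialLinearGroup.mapGL_injective.injOn)).subset ?_
  rintro g ⟨z, hz, hgz⟩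
  refine ⟨⟨g, rfl⟩, ?_⟩
  refine ⟨g • (⟨z, hKU hz⟩ : ℍ), ⟨⟨z, hKU hz⟩, hz, rfl⟩, ?_⟩
  show ((g • (⟨z, hKU hz⟩ : ℍ) : ℍ) : ℂ) ∈ K
  rw [← mob_of_mem (hKU hz)]
  exact hgz

end Fermat.Agent.S21

namespace Fermat.Agent.S21.PartitionAux

/-! ### The bump function `ψ` -/

/-- A smooth bump in the real direction: `= 1` on `[-1/2, 1/2]`, support in `(-1, 1)`. -/
noncomputable def betaFn (x : ℝ) : ℝ :=
  Real.smoothTransition (2 * (1 - x)) * Real.smoothTransition (2 * (1 + x))

/-- The bump `ψ(z) = β(Re z) θ(Im z)` with `θ(y) = smoothTransition (y - 1/2)`. -/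
noncomputable def psiFn (z : ℂ) : ℝ :=
  betaFn z.re * Real.smoothTransition (z.im - 1 / 2)

theorem betaFn_nonneg (x : ℝ) : 0 ≤ betaFn x :=
  mul_nonneg (Real.smoothTransition.nonneg _) (Real.smoothTransition.nonneg _)

theorem psiFn_nonneg (z : ℂ) : 0 ≤ psiFn z :=
  mul_nonneg (betaFn_nonneg _) (Real.smoothTransition.nonneg _)

theorem betaFn_contDiff : ContDiff ℝ ∞ betaFn := by
  unfold betaFn
  exact (Real.smoothTransition.contDiff.comp (contDiff_const.mul (contDiff_const.sub contDiff_id))).mul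
    (Real.smoothTransition.contDiff.comp (contDiff_const.mul (contDiff_const.add contDiff_id)))

theorem psiFn_contDiff : ContDiff ℝ ∞ psiFn := by
  unfold psiFn
  exact (betaFn_contDiff.comp Complex.reCLM.contDiff).mul
    (Real.smoothTransition.contDiff.comp (Complex.imCLM.contDiff.sub contDiff_const))

theorem psiFn_ne_zero {z : ℂ} (h : psiFn z ≠ 0) : |z.re| < 1 ∧ 1 / 2 < z.im := by
  unfold psiFn betaFn at h
  have h1 : Real.smoothTransition (2 * (1 - z.re)) ≠ 0 := fun h0 => h (by rw [h0]; ring)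
  have h2 : Real.smoothTransition (2 * (1 + z.re)) ≠ 0 := fun h0 => h (by rw [h0]; ring)
  have h3 : Real.smoothTransition (z.im - 1 / 2) ≠ 0 := fun h0 => h (by rw [h0]; ring)
  rw [Ne, Real.smoothTransition.zero_iff_nonpos, not_le] at h1 h2 h3
  refine ⟨abs_lt.mpr ⟨by linarith, by linarith⟩, by linarith⟩

theorem psiFn_pos {z : ℂ} (h1 : |z.re| ≤ 1 / 2) (h2 : 1 / 2 < z.im) : 0 < psiFn z := by
  unfold psiFn betaFn
  have := abs_le.mp h1
  refine mul_pos (mul_pos ?_ ?_) ?_
  · exact Real.smoothTransition.pos_of_pos (by linarith)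
  · exact Real.smoothTransition.pos_of_pos (by linarith)
  · exact Real.smoothTransition.pos_of_pos (by linarith)

/-! ### Local finiteness -/

theorem finite_psi_support (K : Set ℂ) (hK : IsCompact K) (hKU : K ⊆ Uhp) :
    {g : SL(2, ℤ) | ∃ z ∈ K, psiFn (mob g z) ≠ 0}.Finite := by
  rcases K.eq_empty_or_nonempty with rfl | hne
  · simp
  -- bounds for the imaginary part on `K`
  obtain ⟨z₁, hz₁K, hz₁⟩ := hK.exists_isMinOn hne Complex.continuous_im.continuousOn
  obtain ⟨z₂, hz₂K, hz₂⟩ := hK.exists_isMaxOn hne Complex.continuous_im.continuousOn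
  have hm : 0 < z₁.im := hKU hz₁K
  set M : ℝ := max z₂.im (1 / z₁.im) with hM
  set L : Set ℂ := Set.Icc (-1 : ℝ) 1 ×ℂ Set.Icc (1 / 2 : ℝ) M with hL
  have hLc : IsCompact L := isCompact_Icc.reProdIm isCompact_Icc
  have hLU : L ⊆ Uhp := by
    intro w hw
    have : (1 / 2 : ℝ) ≤ w.im := hw.2.1
    exact lt_of_lt_of_le (by norm_num) this
  refine (finite_mob_inter (K ∪ L) (hK.union hLc) (Set.union_subset hKU hLU)).subset ?_
  rintro g ⟨z, hzK, hgz⟩
  refine ⟨z, Or.inl hzK, Or.inr ?_⟩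
  obtain ⟨hre, him⟩ := psiFn_ne_zero hgz
  have hzU : z ∈ Uhp := hKU hzK
  have hzpos : 0 < z.im := hzU
  have hb := mob_im_le_max g hzU
  have h1 : z.im ≤ z₂.im := hz₂ hzK
  have h2 : z₁.im ≤ z.im := hz₁ hzK
  have h3 : 1 / z.im ≤ 1 / z₁.im := one_div_le_one_div_of_le hm h2
  have h4 : (mob g z).im ≤ M := hb.trans (max_le_max h1 h3)
  have := abs_lt.mp hre
  exact ⟨⟨by linarith, by linarith⟩, ⟨him.le, h4⟩⟩

/-! ### The invariant sum `Ψ` -/

/-- `Ψ(z) = ∑_g ψ(g z)`. -/
noncomputable def PsiSum (z : ℂ) : ℝ := ∑ᶠ g : SL(2, ℤ), psiFn (mob g z)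

theorem PsiSum_nonneg (z : ℂ) : 0 ≤ PsiSum z := finsum_nonneg fun _ => psiFn_nonneg _

theorem PsiSum_mob (h : SL(2, ℤ)) (z : ℂ) : PsiSum (mob h z) = PsiSum z := by
  unfold PsiSum
  simp only [mob_mob]
  exact finsum_comp_equiv (Equiv.mulRight h) (f := fun g => psiFn (mob g z))

theorem finite_support_psi {z : ℂ} (hz : z ∈ Uhp) :
    (Function.support fun g : SL(2, ℤ) => psiFn (mob g z)).Finite := by
  refine (finite_psi_support {z} isCompact_singleton (by simpa using hz)).subset ?_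
  intro g hg
  exact ⟨z, rfl, hg⟩

theorem PsiSum_pos {z : ℂ} (hz : z ∈ Uhp) : 0 < PsiSum z := by
  obtain ⟨g, hg⟩ := ModularGroup.exists_smul_mem_fd (⟨z, hz⟩ : ℍ)
  refine finsum_pos (fun _ => psiFn_nonneg _) ⟨g, ?_⟩ (finite_support_psi hz)
  have h3 := ModularGroup.three_le_four_mul_im_sq_of_mem_fd hg
  have hre : |(g • (⟨z, hz⟩ : ℍ)).re| ≤ 1 / 2 := hg.2
  have him : 0 < (g • (⟨z, hz⟩ : ℍ)).im := (g • (⟨z, hz⟩ : ℍ)).im_pos
  rw [mob_of_mem hz]
  refine psiFn_pos hre ?_
  show 1 / 2 < (g • (⟨z, hz⟩ : ℍ)).im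
  nlinarith

/-! ### Smoothness -/

theorem mob_contDiffAt (g : SL(2, ℤ)) {z : ℂ} (hz : z ∈ Uhp) : ContDiffAt ℝ ∞ (mob g) z := by
  have h1 : ContDiffAt ℝ ∞
      (fun w : ℂ => (((g 0 0 : ℤ) : ℂ) * w + ((g 0 1 : ℤ) : ℂ)) / cd g w) z := by
    have hnum : ContDiffAt ℝ ∞ (fun w : ℂ => ((g 0 0 : ℤ) : ℂ) * w + ((g 0 1 : ℤ) : ℂ)) z :=
      (contDiffAt_const.mul contDiffAt_id).add contDiffAt_const
    have hden : ContDiffAt ℝ ∞ (fun w : ℂ => cd g w) z := by
      show ContDiffAt ℝ ∞ (fun w : ℂ => ((g 1 0 : ℤ) : ℂ) * w + ((g 1 1 : ℤ) : ℂ)) z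
      exact (contDiffAt_const.mul contDiffAt_id).add contDiffAt_const
    have hinv : ContDiffAt ℝ ∞ (fun w : ℂ => (cd g w)⁻¹) z := hden.inv (_root_.Fermat.Agent.S21.PartitionAux.cd_ne_zero g hz)
    simpa only [div_eq_mul_inv] using hnum.mul hinv
  refine h1.congr_of_eventuallyEq ?_
  filter_upwards [isOpen_Uhp.mem_nhds hz] with w hw
  exact _root_.Fermat.Agent.S21.PartitionAux.mob_eq_div g hw

theorem mob_contDiffOn (g : SL(2, ℤ)) : ContDiffOn ℝ ∞ (mob g) Uhp :=
  fun _ hz => (mob_contDiffAt g hz).contDiffWithinAt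

theorem PsiSum_contDiffOn : ContDiffOn ℝ ∞ PsiSum Uhp := by
  intro z₀ hz₀
  apply ContDiffAt.contDiffWithinAt
  obtain ⟨K, hKc, hzK, hKU⟩ := exists_compact_subset isOpen_Uhp hz₀
  have hfin := finite_psi_support K hKc hKU
  have h1 : ContDiffAt ℝ ∞ (fun z => ∑ g ∈ hfin.toFinset, psiFn (mob g z)) z₀ := by
    apply ContDiffAt.sum
    intro g _
    exact psiFn_contDiff.contDiffAt.comp z₀ (mob_contDiffAt g hz₀)
  refine h1.congr_of_eventuallyEq ?_
  filter_upwards [mem_interior_iff_mem_nhds.mp hzK] with z hz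
  unfold PsiSum
  apply finsum_eq_sum_of_support_subset
  intro g hg
  rw [Set.Finite.coe_toFinset]
  exact ⟨z, hz, hg⟩

/-! ### The partition of unity -/

/-- The partition function `χ₁ = ψ / Ψ`. -/
noncomputable def chiOne (z : ℂ) : ℝ := psiFn z / PsiSum z

theorem chiOne_contDiffOn : ContDiffOn ℝ ∞ chiOne Uhp :=
  psiFn_contDiff.contDiffOn.div PsiSum_contDiffOn (fun _ hz => (PsiSum_pos hz).ne')

theorem chiOne_nonneg (z : ℂ) : 0 ≤ chiOne z := div_nonneg (psiFn_nonneg z) (PsiSum_nonneg z)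

theorem psiFn_ne_zero_of_chiOne {z : ℂ} (h : chiOne z ≠ 0) : psiFn z ≠ 0 := by
  intro h0
  exact h (by unfold chiOne; rw [h0, zero_div])

theorem chiOne_support {z : ℂ} (h : chiOne z ≠ 0) : |z.re| < 1 ∧ 1 / 2 < z.im :=
  psiFn_ne_zero (psiFn_ne_zero_of_chiOne h)

theorem finite_chiOne_support (K : Set ℂ) (hK : IsCompact K) (hKU : K ⊆ Uhp) :
    {g : SL(2, ℤ) | ∃ z ∈ K, chiOne (mob g z) ≠ 0}.Finite := by
  refine (finite_psi_support K hK hKU).subset ?_
  rintro g ⟨z, hz, h⟩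
  exact ⟨z, hz, psiFn_ne_zero_of_chiOne h⟩

theorem finsum_chiOne {z : ℂ} (hz : z ∈ Uhp) : ∑ᶠ g : SL(2, ℤ), chiOne (mob g z) = 1 := by
  unfold chiOne
  simp only [PsiSum_mob, div_eq_mul_inv]
  rw [← finsum_mul]
  exact mul_inv_cancel₀ (PsiSum_pos hz).ne'

end Fermat.Agent.S21.PartitionAux

namespace Fermat.Agent.S21

open PartitionAux

/-- **MS-A**: a smooth `SL(2,ℤ)`-partition of unity on the upper half plane. -/
theorem exists_partition_SL2Z : ∃ χ₁ : ℂ → ℝ, ContDiffOn ℝ ∞ χ₁ Uhp ∧ (∀ z, 0 ≤ χ₁ z) ∧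
    (∀ z, χ₁ z ≠ 0 → |z.re| ≤ 1 ∧ 1 / 2 < z.im) ∧
    (∀ K : Set ℂ, IsCompact K → K ⊆ Uhp →
      {g : SL(2, ℤ) | ∃ z ∈ K, χ₁ (mob g z) ≠ 0}.Finite) ∧
    (∀ z ∈ Uhp, ∑ᶠ g : SL(2, ℤ), χ₁ (mob g z) = 1) :=
  ⟨chiOne, chiOne_contDiffOn, chiOne_nonneg,
    fun _ h => ⟨(chiOne_support h).1.le, (chiOne_support h).2⟩,
    finite_chiOne_support, fun _ hz => finsum_chiOne hz⟩

end Fermat.Agent.S21

end
-- ===== PACK-END S21/Partition.lean

-- ===== PACK-BEGIN S29/M/Defs.lean
section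
/-
S29 row, LAYER M (the torsion module) -- interface definitions (deputy helper30).
Namespace `Fermat.Agent.S29.M`.  Frozen once adopted by the row-lead (helper269).
-/




set_option autoImplicit false

noncomputable section

namespace Fermat.Agent.S29.M

open ModularCurve AlgebraicCurve CongruenceSubgroup
open scoped TensorProduct MatrixGroups

/-! ## External input: the Eichler-Shimura relation on `JZero N` (rows S37 / S18) -/

/-- What layer M consumes from rows S37/S18: for every prime `ℓ ∤ N p` and every place `A` over `ℓ`,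
inertia at `A` acts trivially on the `p`-power torsion of `JZero N`, and every Frobenius element at
`A` satisfies `σ² - T_ℓ σ + ℓ = 0` there, `T_ℓ` the Prelude operator `heckeOperatorBar N ℓ`.
(No commutativity of the Hecke operators and no `HeckeAlg`-module structure is involved.) -/
def ESStatement : Prop :=
  ∀ (N p : ℕ) [NeZero N] (ℓ : ℕ) (hℓ : ℓ.Prime), ¬ ℓ ∣ N * p →
    ∀ A : VQ, A.LiesOverPrime ℓ →
      (∀ τ ∈ A.inertiaSubgroupIn ℚ, ∀ x : JZero N, (∃ n : ℕ, p ^ n • x = 0) → τ • x = x) ∧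
      (∀ σ : GQ, A.IsFrobeniusAt σ ℓ → ∀ x : JZero N, (∃ n : ℕ, p ^ n • x = 0) →
        σ • σ • x - heckeOperatorBar N ⟨ℓ, hℓ⟩ (σ • x) + ℓ • x = 0)

/-- The "reduction map" form in which row S37 proves its statement (route R1 of
`origin/helper37:coord/S37-route.md`); it implies `ESStatement` formally (`esStatement_of_red`). -/
def RedStatement : Prop :=
  ∀ (N p : ℕ) [NeZero N] (ℓ : ℕ) (hℓ : ℓ.Prime), ¬ ℓ ∣ N * p →
    ∀ A : VQ, A.LiesOverPrime ℓ →
      ∃ (Y : Type) (_ : AddCommGroup Y) (red : JZero N →+ Y),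
        (∀ τ ∈ A.inertiaSubgroupIn ℚ, ∀ x : JZero N, red (τ • x) = red x) ∧
        (∀ x : JZero N, (∃ n : ℕ, p ^ n • x = 0) → red x = 0 → x = 0) ∧
        (∀ σ : GQ, A.IsFrobeniusAt σ ℓ → ∀ x : JZero N,
          red (σ • σ • x - heckeOperatorBar N ⟨ℓ, hℓ⟩ (σ • x) + ℓ • x) = 0)

/-! ## The `p`-torsion of `JZero N` as a `ZMod p`-module with Hecke and Galois operators -/

/-- `J₀(N)[p]`, the `p`-torsion subgroup of the Prelude `JZero N`. -/
abbrev Vp (N p : ℕ) : Type :=
  ↥(Pic0.torsion (AlgebraicClosure ℚ) (modularFunctionFieldBar N) p)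

/-- The Prelude Hecke operator `T_ℓ` preserves `p`-torsion. -/
theorem heckeOperatorBar_mem_torsion (N p : ℕ) [NeZero N] (ℓ : Nat.Primes) {x : JZero N}
    (hx : x ∈ Pic0.torsion (AlgebraicClosure ℚ) (modularFunctionFieldBar N) p) :
    heckeOperatorBar N ℓ x ∈ Pic0.torsion (AlgebraicClosure ℚ) (modularFunctionFieldBar N) p := by
  rw [Pic0.mem_torsion] at hx ⊢
  rw [← map_zsmul, hx, map_zero]

/-- `T_ℓ` on `J₀(N)[p]`, as an additive map. -/
def heckeTorsAdd (N p : ℕ) [NeZero N] (ℓ : Nat.Primes) : Vp N p →+ Vp N p where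
  toFun x := ⟨heckeOperatorBar N ℓ (x : JZero N), heckeOperatorBar_mem_torsion N p ℓ x.2⟩
  map_zero' := Subtype.ext (map_zero (heckeOperatorBar N ℓ))
  map_add' x y := Subtype.ext (map_add (heckeOperatorBar N ℓ) (x : JZero N) (y : JZero N))

/-- `T_ℓ` on `J₀(N)[p]`, as a `ZMod p`-linear map. -/
def heckeTors (N p : ℕ) [NeZero N] (ℓ : Nat.Primes) : Vp N p →ₗ[ZMod p] Vp N p :=
  (heckeTorsAdd N p ℓ).toZModLinearMap p

@[simp] theorem coe_heckeTors_apply (N p : ℕ) [NeZero N] (ℓ : Nat.Primes) (x : Vp N p) :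
    ((heckeTors N p ℓ x : Vp N p) : JZero N) = heckeOperatorBar N ℓ (x : JZero N) := rfl

/-- The Galois action on `J₀(N)[p]` (Prelude `JZero.torsionGaloisRep`). -/
abbrev galTors (N p : ℕ) : GQ →* Module.End (ZMod p) (Vp N p) :=
  JZero.torsionGaloisRep N p

/-! ## The topological side: homomorphisms `Γ₀(N) → ℤ/p` and their Hecke operators -/

/-- Homomorphisms `Γ₀(N) → ℤ/p` vanishing on parabolic elements (`tr² = 4`, this includes `-1`)
and on elements of finite order. -/
def peHoms (N p : ℕ) : Submodule (ZMod p) (Additive (Gamma0 N) →+ ZMod p) where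
  carrier := {χ | (∀ γ : Gamma0 N,
      ((γ : SL(2, ℤ)) : Matrix (Fin 2) (Fin 2) ℤ).trace ^ 2 = 4 → χ (Additive.ofMul γ) = 0) ∧
    (∀ γ : Gamma0 N, IsOfFinOrder γ → χ (Additive.ofMul γ) = 0)}
  zero_mem' := ⟨fun _ _ => rfl, fun _ _ => rfl⟩
  add_mem' := by
    rintro χ χ' ⟨h1, h2⟩ ⟨h1', h2'⟩
    refine ⟨fun γ hγ => ?_, fun γ hγ => ?_⟩
    · show χ (Additive.ofMul γ) + χ' (Additive.ofMul γ) = 0
      rw [h1 γ hγ, h1' γ hγ, add_zero]
    · show χ (Additive.ofMul γ) + χ' (Additive.ofMul γ) = 0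
      rw [h2 γ hγ, h2' γ hγ, add_zero]
  smul_mem' := by
    rintro c χ ⟨h1, h2⟩
    refine ⟨fun γ hγ => ?_, fun γ hγ => ?_⟩
    · show c • χ (Additive.ofMul γ) = 0
      rw [h1 γ hγ, smul_zero]
    · show c • χ (Additive.ofMul γ) = 0
      rw [h2 γ hγ, smul_zero]

/-- The standard representatives of `Γ₀(N) \ Γ₀(N) diag(1,ℓ) Γ₀(N)` (`ℓ ∤ N`):
`(1 b; 0 ℓ)` for `b < ℓ` and `(ℓ 0; 0 1)` for the last index. -/
def heckeRep (ℓ : ℕ) (i : Fin (ℓ + 1)) : Matrix (Fin 2) (Fin 2) ℤ :=
  if (i : ℕ) < ℓ then !![1, (i : ℕ); 0, ℓ] else !![ℓ, 0; 0, 1]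

/-- `χ' = T_ℓ χ` on `Hom(Γ₀(N), A)`: the transfer formula `χ'(γ) = ∑ᵢ χ(δᵢ)` whenever
`αᵢ γ = δᵢ α_{π i}` for the standard representatives `αᵢ = heckeRep ℓ i`. -/
def IsHeckeImage (N ℓ : ℕ) {A : Type*} [AddCommGroup A] (χ χ' : Additive (Gamma0 N) →+ A) : Prop :=
  ∀ (γ : Gamma0 N) (π : Fin (ℓ + 1) → Fin (ℓ + 1)) (δ : Fin (ℓ + 1) → Gamma0 N),
    (∀ i, _root_.Fermat.Agent.S29.M.heckeRep ℓ i * ((γ : SL(2, ℤ)) : Matrix (Fin 2) (Fin 2) ℤ)
        = ((δ i : SL(2, ℤ)) : Matrix (Fin 2) (Fin 2) ℤ) * _root_.Fermat.Agent.S29.M.heckeRep ℓ (π i)) →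
      χ' (Additive.ofMul γ) = ∑ i, χ (Additive.ofMul (δ i))

end Fermat.Agent.S29.M

end

end
-- ===== PACK-END S29/M/Defs.lean

-- ===== PACK-BEGIN S23/Cap/Basic.lean
section




/-!
# S23 / WP0 : closure properties of `IsMF`, `IsCF` and of the q-expansion map `qx`.
-/

set_option autoImplicit false
set_option linter.unusedSectionVars false

namespace Fermat.Agent.S23.Cap

open UpperHalfPlane ModularForm ModularFormClass MatrixGroups CongruenceSubgroup

variable {Γ : Subgroup (GL (Fin 2) ℝ)} {k k₁ k₂ : ℤ} {f g : ℍ → ℂ}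

/-! ### closure properties -/

theorem IsMF.congr_weight (h : k₁ = k₂) (hf : IsMF Γ k₁ f) : IsMF Γ k₂ f := h ▸ hf

theorem IsCF.congr_weight (h : k₁ = k₂) (hf : IsCF Γ k₁ f) : IsCF Γ k₂ f := h ▸ hf

theorem IsCF.isMF (hf : IsCF Γ k f) : IsMF Γ k f := by
  obtain ⟨F, rfl⟩ := hf
  exact ⟨ModularFormClass.modularForm F, rfl⟩

theorem IsMF.zero : IsMF Γ k (0 : ℍ → ℂ) := ⟨0, rfl⟩

theorem IsCF.zero : IsCF Γ k (0 : ℍ → ℂ) := ⟨0, rfl⟩

theorem IsMF.add (hf : IsMF Γ k f) (hg : IsMF Γ k g) : IsMF Γ k (f + g) := by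
  obtain ⟨F, rfl⟩ := hf
  obtain ⟨G, rfl⟩ := hg
  exact ⟨F + G, rfl⟩

theorem IsMF.neg (hf : IsMF Γ k f) : IsMF Γ k (-f) := by
  obtain ⟨F, rfl⟩ := hf
  exact ⟨-F, rfl⟩

theorem IsMF.sub (hf : IsMF Γ k f) (hg : IsMF Γ k g) : IsMF Γ k (f - g) := by
  obtain ⟨F, rfl⟩ := hf
  obtain ⟨G, rfl⟩ := hg
  exact ⟨F - G, rfl⟩

theorem IsMF.smul [Γ.HasDetOne] (c : ℂ) (hf : IsMF Γ k f) : IsMF Γ k (c • f) := by
  obtain ⟨F, rfl⟩ := hf
  exact ⟨c • F, rfl⟩

theorem IsMF.sum {ι : Type*} (s : Finset ι) (F : ι → ℍ → ℂ)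
    (hF : ∀ i ∈ s, IsMF Γ k (F i)) : IsMF Γ k (∑ i ∈ s, F i) := by
  classical
  induction s using Finset.induction_on with
  | empty => simpa using (IsMF.zero : IsMF Γ k 0)
  | insert a s ha ih =>
    rw [Finset.sum_insert ha]
    exact (hF a (Finset.mem_insert_self a s)).add
      (ih fun i hi => hF i (Finset.mem_insert_of_mem hi))

theorem IsMF.const [Γ.HasDetOne] (c : ℂ) : IsMF Γ 0 (fun _ => c) :=
  ⟨ModularForm.const c, rfl⟩

theorem IsMF.one [Γ.HasDetOne] : IsMF Γ 0 (1 : ℍ → ℂ) :=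
  ⟨ModularForm.const 1, rfl⟩

theorem IsMF.mul [Γ.HasDetPlusMinusOne] (hf : IsMF Γ k₁ f) (hg : IsMF Γ k₂ g) :
    IsMF Γ (k₁ + k₂) (f * g) := by
  obtain ⟨F, rfl⟩ := hf
  obtain ⟨G, rfl⟩ := hg
  exact ⟨F.mul G, rfl⟩

theorem IsMF.pow [Γ.HasDetPlusMinusOne] (hf : IsMF Γ k f) (n : ℕ) :
    IsMF Γ (k * n) (f ^ n) := by
  obtain ⟨F, rfl⟩ := hf
  exact ⟨ModularForm.mcast (by ring) (F.pow n), by
    ext z
    simp [ModularForm.coe_pow]⟩

theorem IsCF.add (hf : IsCF Γ k f) (hg : IsCF Γ k g) : IsCF Γ k (f + g) := by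
  obtain ⟨F, rfl⟩ := hf
  obtain ⟨G, rfl⟩ := hg
  exact ⟨F + G, rfl⟩

theorem IsCF.neg (hf : IsCF Γ k f) : IsCF Γ k (-f) := by
  obtain ⟨F, rfl⟩ := hf
  exact ⟨-F, rfl⟩

theorem IsCF.smul [Γ.HasDetOne] (c : ℂ) (hf : IsCF Γ k f) : IsCF Γ k (c • f) := by
  obtain ⟨F, rfl⟩ := hf
  exact ⟨c • F, rfl⟩

theorem IsCF.sum {ι : Type*} (s : Finset ι) (F : ι → ℍ → ℂ)
    (hF : ∀ i ∈ s, IsCF Γ k (F i)) : IsCF Γ k (∑ i ∈ s, F i) := by
  classical
  induction s using Finset.induction_on with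
  | empty => simpa using (IsCF.zero : IsCF Γ k 0)
  | insert a s ha ih =>
    rw [Finset.sum_insert ha]
    exact (hF a (Finset.mem_insert_self a s)).add
      (ih fun i hi => hF i (Finset.mem_insert_of_mem hi))

theorem IsCF.mul_isMF [Γ.HasDetPlusMinusOne] (hf : IsCF Γ k₁ f) (hg : IsMF Γ k₂ g) :
    IsCF Γ (k₁ + k₂) (f * g) := by
  obtain ⟨F, rfl⟩ := hf
  obtain ⟨G, rfl⟩ := hg
  exact ⟨F.mulModularForm G, rfl⟩

theorem G0_le_SLZ (N : ℕ) : G0 N ≤ SLZ := by
  rintro _ ⟨γ, -, rfl⟩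
  exact ⟨γ, rfl⟩

/-- restriction of the level: a level one form is a form of level `Γ₀(N)`. -/
theorem IsMF.of_levelOne (N : ℕ) (hf : IsMF SLZ k f) : IsMF (G0 N) k f := by
  obtain ⟨F, rfl⟩ := hf
  exact ⟨{ toFun := F
           slash_action_eq' := fun γ hγ => F.slash_action_eq' γ (G0_le_SLZ N hγ)
           holo' := F.holo'
           bdd_at_cusps' := fun hc => F.bdd_at_cusps' (hc.mono (G0_le_SLZ N)) }, rfl⟩

theorem IsCF.of_levelOne (N : ℕ) (hf : IsCF SLZ k f) : IsCF (G0 N) k f := by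
  obtain ⟨F, rfl⟩ := hf
  exact ⟨{ toFun := F
           slash_action_eq' := fun γ hγ => F.slash_action_eq' γ (G0_le_SLZ N hγ)
           holo' := F.holo'
           zero_at_cusps' := fun hc => F.zero_at_cusps' (hc.mono (G0_le_SLZ N)) }, rfl⟩

/-- A level one modular form whose constant coefficient vanishes is a cusp form. -/
theorem IsMF.isCF_levelOne_of_coeff_zero (hf : IsMF SLZ k f)
    (h0 : PowerSeries.coeff 0 (qx f) = 0) : IsCF SLZ k f := by
  obtain ⟨F, rfl⟩ := hf
  exact ⟨toCuspForm F h0, rfl⟩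

/-- The constant coefficient of a cusp form (level `Γ₀(N)`) vanishes. -/
theorem IsCF.coeff_zero (N : ℕ) [NeZero N] (hf : IsCF (G0 N) k f) :
    PowerSeries.coeff 0 (qx f) = 0 := by
  obtain ⟨F, rfl⟩ := hf
  exact CuspFormClass.qExpansion_coeff_zero F one_pos (one_mem_strictPeriods_Gamma0 N)

theorem IsCF.coeff_zero_levelOne (hf : IsCF SLZ k f) :
    PowerSeries.coeff 0 (qx f) = 0 := by
  obtain ⟨F, rfl⟩ := hf
  exact CuspFormClass.qExpansion_coeff_zero F one_pos one_mem_strictPeriods_SL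

/-! ### the q-expansion map on forms of level `Γ₀(N)` (period `1`) -/

section qx

variable (N : ℕ) [NeZero N]

theorem qx_zero : qx (0 : ℍ → ℂ) = 0 := qExpansion_zero 1

theorem qx_one : qx (1 : ℍ → ℂ) = 1 := qExpansion_one 1

theorem qx_add (hf : IsMF (G0 N) k₁ f) (hg : IsMF (G0 N) k₂ g) :
    qx (f + g) = qx f + qx g := by
  obtain ⟨F, rfl⟩ := hf
  obtain ⟨G, rfl⟩ := hg
  exact ModularForm.qExpansion_add one_pos (one_mem_strictPeriods_Gamma0 N) F G

theorem qx_neg (hf : IsMF (G0 N) k f) : qx (-f) = - qx f := by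
  obtain ⟨F, rfl⟩ := hf
  exact ModularForm.qExpansion_neg one_pos (one_mem_strictPeriods_Gamma0 N) F

theorem qx_sub (hf : IsMF (G0 N) k₁ f) (hg : IsMF (G0 N) k₂ g) :
    qx (f - g) = qx f - qx g := by
  obtain ⟨F, rfl⟩ := hf
  obtain ⟨G, rfl⟩ := hg
  exact ModularForm.qExpansion_sub one_pos (one_mem_strictPeriods_Gamma0 N) F G

theorem qx_smul (c : ℂ) (hf : IsMF (G0 N) k f) : qx (c • f) = c • qx f := by
  obtain ⟨F, rfl⟩ := hf
  exact ModularForm.qExpansion_smul one_pos (one_mem_strictPeriods_Gamma0 N) c F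

theorem qx_mul (hf : IsMF (G0 N) k₁ f) (hg : IsMF (G0 N) k₂ g) :
    qx (f * g) = qx f * qx g := by
  obtain ⟨F, rfl⟩ := hf
  obtain ⟨G, rfl⟩ := hg
  exact ModularForm.qExpansion_mul_coe one_pos (one_mem_strictPeriods_Gamma0 N) F G

theorem qx_pow (hf : IsMF (G0 N) k f) (n : ℕ) : qx (f ^ n) = qx f ^ n := by
  induction n with
  | zero => simpa using qx_one
  | succ n ih =>
    rw [pow_succ, pow_succ, qx_mul N (hf.pow n) hf, ih]

theorem qx_sum {ι : Type*} (s : Finset ι) (F : ι → ℍ → ℂ) (w : ι → ℤ)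
    (hF : ∀ i ∈ s, IsMF (G0 N) (w i) (F i)) :
    qx (∑ i ∈ s, F i) = ∑ i ∈ s, qx (F i) := by
  classical
  -- work at the level of cusp functions, which avoids any weight bookkeeping
  have han : ∀ i ∈ s, AnalyticAt ℂ (cuspFunction 1 (F i)) 0 := by
    intro i hi
    obtain ⟨G, hG⟩ := hF i hi
    rw [← hG]
    exact ModularFormClass.analyticAt_cuspFunction_zero G one_pos
      (one_mem_strictPeriods_Gamma0 N)
  have key : ∀ s : Finset ι, (∀ i ∈ s, AnalyticAt ℂ (cuspFunction 1 (F i)) 0) →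
      AnalyticAt ℂ (cuspFunction 1 (∑ i ∈ s, F i)) 0 ∧
        qExpansion 1 (∑ i ∈ s, F i) = ∑ i ∈ s, qExpansion 1 (F i) := by
    intro s
    induction s using Finset.induction_on with
    | empty =>
      intro _
      refine ⟨?_, by simpa using qExpansion_zero 1⟩
      simp only [Finset.sum_empty]
      exact ModularFormClass.analyticAt_cuspFunction_zero (0 : ModularForm (G0 N) 0)
        one_pos (one_mem_strictPeriods_Gamma0 N)
    | insert a s ha ih =>
      intro h
      have ha' := h a (Finset.mem_insert_self a s)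
      obtain ⟨hs1, hs2⟩ := ih fun i hi => h i (Finset.mem_insert_of_mem hi)
      rw [Finset.sum_insert ha, Finset.sum_insert ha]
      refine ⟨?_, ?_⟩
      · rw [UpperHalfPlane.cuspFunction_add ha'.continuousAt hs1.continuousAt]
        exact ha'.add hs1
      · rw [UpperHalfPlane.qExpansion_add ha' hs1, hs2]
  exact (key s han).2

/-- injectivity of the q-expansion. -/
theorem eq_zero_of_qx_eq_zero (hf : IsMF (G0 N) k f) (h : qx f = 0) : f = 0 := by
  obtain ⟨F, rfl⟩ := hf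
  have := (ModularForm.qExpansion_eq_zero_iff one_pos (one_mem_strictPeriods_Gamma0 N) F).mp h
  rw [this]
  rfl

theorem eq_of_qx_eq (hf : IsMF (G0 N) k f) (hg : IsMF (G0 N) k g) (h : qx f = qx g) :
    f = g := by
  have h1 : qx (f - g) = 0 := by rw [qx_sub N hf hg, h, sub_self]
  have := eq_zero_of_qx_eq_zero N (hf.sub hg) h1
  exact sub_eq_zero.mp this

/-- Sturm bound (from the Prelude), in the `IsMF` language. -/
theorem sturm (hf : IsMF (G0 N) k f)
    (h : ∀ n : ℕ, n ≤ (k * (Gamma0 N).index).toNat / 12 → PowerSeries.coeff n (qx f) = 0) :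
    f = 0 := by
  obtain ⟨F, rfl⟩ := hf
  have := ModularForm.sturm_bound_Gamma0 N F h
  rw [this]
  rfl

end qx

/-! ### integrality bookkeeping -/

theorem IsIntSeries.isRatSeries {F : PowerSeries ℂ} (hF : IsIntSeries F) : IsRatSeries F :=
  fun n => by obtain ⟨m, hm⟩ := hF n; exact ⟨m, by simp [hm]⟩

/-- A series is integral iff it is the image of an integral power series. -/
theorem isIntSeries_iff {F : PowerSeries ℂ} :
    IsIntSeries F ↔ ∃ P : PowerSeries ℤ, P.map (Int.castRingHom ℂ) = F := by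
  constructor
  · intro h
    choose m hm using h
    refine ⟨PowerSeries.mk m, ?_⟩
    ext n
    simp [hm n]
  · rintro ⟨P, rfl⟩ n
    exact ⟨PowerSeries.coeff n P, by simp⟩

theorem isRatSeries_iff {F : PowerSeries ℂ} :
    IsRatSeries F ↔ ∃ P : PowerSeries ℚ, P.map (algebraMap ℚ ℂ) = F := by
  constructor
  · intro h
    choose m hm using h
    refine ⟨PowerSeries.mk m, ?_⟩
    ext n
    simp [hm n]
  · rintro ⟨P, rfl⟩ n
    exact ⟨PowerSeries.coeff n P, by simp⟩

theorem IsIntSeries.mul {F G : PowerSeries ℂ} (hF : IsIntSeries F) (hG : IsIntSeries G) :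
    IsIntSeries (F * G) := by
  rw [isIntSeries_iff] at hF hG ⊢
  obtain ⟨P, rfl⟩ := hF
  obtain ⟨Q, rfl⟩ := hG
  exact ⟨P * Q, map_mul _ _ _⟩

theorem IsIntSeries.pow {F : PowerSeries ℂ} (hF : IsIntSeries F) (n : ℕ) :
    IsIntSeries (F ^ n) := by
  rw [isIntSeries_iff] at hF ⊢
  obtain ⟨P, rfl⟩ := hF
  exact ⟨P ^ n, map_pow _ _ _⟩

theorem IsIntSeries.add {F G : PowerSeries ℂ} (hF : IsIntSeries F) (hG : IsIntSeries G) :
    IsIntSeries (F + G) := by
  rw [isIntSeries_iff] at hF hG ⊢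
  obtain ⟨P, rfl⟩ := hF
  obtain ⟨Q, rfl⟩ := hG
  exact ⟨P + Q, map_add _ _ _⟩

/-- Integral (even rational) series are fixed by every ring endomorphism of `ℂ`. -/
theorem IsRatSeries.map_eq {F : PowerSeries ℂ} (hF : IsRatSeries F) (σ : ℂ →+* ℂ) :
    F.map σ = F := by
  ext n
  obtain ⟨r, hr⟩ := hF n
  simp [hr]

end Fermat.Agent.S23.Cap

end
-- ===== PACK-END S23/Cap/Basic.lean

-- ===== PACK-BEGIN S23/Cap/AutC.lean
section


/-!
# S23 / Cap : enough ring endomorphisms of `ℂ` (adapter around helper683's `FixedField.lean`).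
-/

set_option autoImplicit false

namespace Fermat.Agent.S23.Cap

/-- For `x ∈ ℂ \ ℚ` there is a ring endomorphism of `ℂ` moving `x`. -/
theorem exists_ringHom_ne (x : ℂ) (hx : x ∉ Set.range (algebraMap ℚ ℂ)) :
    ∃ σ : ℂ →+* ℂ, σ x ≠ x := by
  obtain ⟨σ, hσ⟩ := Fermat.Agent.S23.exists_ringEquiv_ne x hx
  exact ⟨σ.toRingHom, hσ⟩

end Fermat.Agent.S23.Cap

end
-- ===== PACK-END S23/Cap/AutC.lean

-- ===== PACK-BEGIN S49/FormalEigenform.lean
section




set_option autoImplicit false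

namespace Fermat.Agent.S49

open CongruenceSubgroup

/-- If the `q`-coefficients of a weight-2 cusp form on `Γ₀(N)` satisfy the formal Hecke relations
with `e ℓ = ℓ` for `ℓ ∤ N` and `e ℓ = 0` for `ℓ ∣ N`, the form is a normalised eigenform in the
sense of the prelude. -/
theorem isNormalizedEigenform_of_isEigensystem {N : ℕ} (f : CuspForm (Gamma0 N) 2)
    (h : FormalHecke.IsEigensystem (fun ℓ : ℕ => if ℓ ∣ N then (0 : ℂ) else (ℓ : ℂ))
      (fun n => ModularFormClass.qCoeff f n)) :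
    f.IsNormalizedEigenform := by
  obtain ⟨h1, hmul, hpow⟩ := isRecursive_of_isEigensystem h
  refine ⟨h1, hmul, ?_, ?_⟩
  · intro p r hp hpN
    have := hpow p r hp
    simpa [if_neg hpN] using this
  · intro p r hp hpN
    have := hpow p r hp
    simpa [if_pos hpN] using this

end Fermat.Agent.S49

end
-- ===== PACK-END S49/FormalEigenform.lean

-- ===== PACK-BEGIN Ribet/H584/IncAnDeriv.lean
section
/-
RIBET row 38, WALL-p, I3 leaf INC-AN (analytic half), piece DERIV — helper584.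

`q`-expansion of the normalised derivative `D = (2πi)⁻¹ d/dτ`:
if `f` has Laurent `q`-expansion `φ` at `i∞` then `D f` has `q`-expansion `θ φ`, `θ = q d/dq`.
Mathlib + `S24.H708` only.
-/




set_option autoImplicit false

noncomputable section

namespace Fermat.Agent.Ribet.H584

open Complex Function Filter Derivative
open UpperHalfPlane hiding I
open Fermat.Agent.S24.H708
open scoped Manifold Real Topology

/-- `θ = q d/dq` on Laurent series. -/
def thetaL {k : Type*} [Field k] (φ : LaurentSeries k) : LaurentSeries k :=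
  HahnSeries.ofSuppBddBelow (fun n : ℤ => (n : k) * φ.coeff n)
    ⟨φ.order, fun m hm => by
      by_contra hlt
      rw [not_le] at hlt
      exact hm (by
        show (m : k) * φ.coeff m = 0
        rw [HahnSeries.coeff_eq_zero_of_lt_order hlt, mul_zero])⟩

@[simp]
theorem thetaL_coeff {k : Type*} [Field k] (φ : LaurentSeries k) (n : ℤ) :
    (thetaL φ).coeff n = (n : k) * φ.coeff n := rfl

/-- The `n`-th term of the `q`-expansion as an entire function. -/
def qTerm (a : ℂ) (n : ℤ) (w : ℂ) : ℂ := a * Complex.exp (2 * π * I * n * w)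

theorem qh_one_zpow (w : ℍ) (n : ℤ) :
    qh 1 w ^ n = Complex.exp (2 * π * I * n * (w : ℂ)) := by
  rw [qh_apply, Function.Periodic.qParam, ← Complex.exp_int_mul]
  congr 1
  push_cast
  ring

theorem qTerm_eq (a : ℂ) (n : ℤ) (w : ℍ) : qTerm a n (w : ℂ) = a * qh 1 w ^ n := by
  rw [qTerm, qh_one_zpow]

theorem hasDerivAt_qTerm (a : ℂ) (n : ℤ) (w : ℂ) :
    HasDerivAt (qTerm a n) (2 * π * I * n * qTerm a n w) w := by
  have h1 : HasDerivAt (fun w : ℂ => 2 * π * I * n * w) (2 * π * I * n) w := by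
    simpa using (hasDerivAt_id w).const_mul (2 * π * I * n)
  have h2 := (h1.cexp).const_mul a
  have e : 2 * π * I * n * qTerm a n w =
      a * (Complex.exp (2 * π * I * n * w) * (2 * π * I * n)) := by
    unfold qTerm
    ring
  rw [e]
  exact h2

theorem norm_qTerm (a : ℂ) (n : ℤ) (w : ℂ) :
    ‖qTerm a n w‖ = ‖a‖ * Real.exp (-(2 * π * n * w.im)) := by
  rw [qTerm, norm_mul, Complex.norm_exp]
  congr 2
  simp [Complex.mul_re, Complex.mul_im]

theorem norm_qTerm_le (a : ℂ) (n : ℤ) {c C : ℝ} (w : ℂ) (h1 : c ≤ w.im) (h2 : w.im ≤ C) :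
    ‖qTerm a n w‖ ≤ ‖qTerm a n (c * I)‖ + ‖qTerm a n (C * I)‖ := by
  rw [norm_qTerm, norm_qTerm, norm_qTerm]
  have hpi := Real.pi_pos
  simp only [Complex.mul_im, Complex.ofReal_re, Complex.I_im, mul_one, Complex.ofReal_im,
    Complex.I_re, mul_zero, add_zero]
  rcases le_or_gt 0 n with hn | hn
  · have hn' : (0 : ℝ) ≤ n := by exact_mod_cast hn
    have : Real.exp (-(2 * π * n * w.im)) ≤ Real.exp (-(2 * π * n * c)) := by
      apply Real.exp_le_exp.mpr
      have : 2 * π * n * c ≤ 2 * π * n * w.im :=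
        mul_le_mul_of_nonneg_left h1 (by positivity)
      linarith
    have h3 : ‖a‖ * Real.exp (-(2 * π * n * w.im)) ≤ ‖a‖ * Real.exp (-(2 * π * n * c)) :=
      mul_le_mul_of_nonneg_left this (norm_nonneg _)
    have h4 : 0 ≤ ‖a‖ * Real.exp (-(2 * π * n * C)) := by positivity
    linarith
  · have hn' : (n : ℝ) ≤ 0 := by exact_mod_cast hn.le
    have : Real.exp (-(2 * π * n * w.im)) ≤ Real.exp (-(2 * π * n * C)) := by
      apply Real.exp_le_exp.mpr
      have : 2 * π * (-n) * w.im ≤ 2 * π * (-n) * C :=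
        mul_le_mul_of_nonneg_left h2 (by
          have : (0 : ℝ) ≤ -n := by linarith
          positivity)
      linarith
    have h3 : ‖a‖ * Real.exp (-(2 * π * n * w.im)) ≤ ‖a‖ * Real.exp (-(2 * π * n * C)) :=
      mul_le_mul_of_nonneg_left this (norm_nonneg _)
    have h4 : 0 ≤ ‖a‖ * Real.exp (-(2 * π * n * c)) := by positivity
    linarith

/-- **DERIV.**  The `q`-expansion of `D f` is `θ` of the `q`-expansion of `f`. -/
theorem hasQExp_D {f : ℍ → ℂ} {φ : LaurentSeries ℂ} (hf : HasQExp 1 f φ) :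
    HasQExp 1 (D f) (thetaL φ) := by
  refine HasQExp.of_hasSum (normalizedDerivOfComplex_mdifferentiable hf.mdiff) fun τ => ?_
  -- the strip around `τ`
  set c : ℝ := τ.im / 2 with hc
  set C : ℝ := 2 * τ.im with hC
  have hτ := τ.im_pos
  have hc0 : 0 < c := by rw [hc]; positivity
  have hC0 : 0 < C := by rw [hC]; positivity
  set U : Set ℂ := {w | c < w.im ∧ w.im < C} with hU
  have hUo : IsOpen U :=
    (isOpen_lt continuous_const Complex.continuous_im).inter
      (isOpen_lt Complex.continuous_im continuous_const)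
  have hτU : (τ : ℂ) ∈ U := by
    refine ⟨?_, ?_⟩
    · show τ.im / 2 < τ.im
      linarith
    · show τ.im < 2 * τ.im
      linarith
  have hpos : ∀ w ∈ U, 0 < w.im := fun w hw => hc0.trans hw.1
  -- the sum on the strip
  have hsum : ∀ w : ℍ, HasSum (fun n : ℤ => qTerm (φ.coeff n) n (w : ℂ)) (f w) := by
    intro w
    have := hf.hasSum w
    simpa only [qTerm_eq] using this
  have hcI : 0 < (c * I : ℂ).im := by simpa using hc0
  have hCI : 0 < (C * I : ℂ).im := by simpa using hC0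
  have hu : Summable (fun n : ℤ => ‖qTerm (φ.coeff n) n (c * I)‖ +
      ‖qTerm (φ.coeff n) n (C * I)‖) :=
    ((hsum ⟨c * I, hcI⟩).summable.norm).add ((hsum ⟨C * I, hCI⟩).summable.norm)
  have hder := Complex.hasSum_deriv_of_summable_norm (F := fun n : ℤ => qTerm (φ.coeff n) n)
    (U := U) (z := (τ : ℂ)) hu
    (fun n w _ => (hasDerivAt_qTerm _ n w).differentiableAt.differentiableWithinAt) hUo
    (fun n w hw => norm_qTerm_le _ n w hw.1.le hw.2.le) hτU
  have heq : (fun w : ℂ => ∑' n : ℤ, qTerm (φ.coeff n) n w) =ᶠ[𝓝 (τ : ℂ)] (f ∘ ofComplex) := by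
    filter_upwards [hUo.mem_nhds hτU] with w hw
    have := (hsum ⟨w, hpos w hw⟩).tsum_eq
    rw [Function.comp_apply, ofComplex_apply_of_im_pos (hpos w hw)]
    exact this
  rw [heq.deriv_eq] at hder
  have h2 : HasSum (fun n : ℤ => (2 * π * I)⁻¹ * deriv (qTerm (φ.coeff n) n) (τ : ℂ))
      ((2 * π * I)⁻¹ * deriv (f ∘ ofComplex) (τ : ℂ)) := hder.mul_left _
  have h2pi : (2 * π * I : ℂ) ≠ 0 := by
    simp [Real.pi_ne_zero]
  have hD : D f τ = (2 * π * I)⁻¹ * deriv (f ∘ ofComplex) (τ : ℂ) := rfl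
  rw [hD]
  convert h2 using 1
  funext n
  rw [(hasDerivAt_qTerm _ n (τ : ℂ)).deriv, thetaL_coeff, qTerm_eq]
  field_simp

end Fermat.Agent.Ribet.H584

end
end
-- ===== PACK-END Ribet/H584/IncAnDeriv.lean

-- ===== PACK-BEGIN S37/H697/Unique.lean
section



/-!
# S37 (helper697): uniqueness of place reductions from a Riemann bound

`RiemannBound K F` : every divisor class of degree `0` of `F/K` contains a divisor of bounded
`ℓ¹`-norm (a consequence of Riemann's inequality: every class of degree `0` contains `E - g • P₀`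
with `E ≥ 0` of degree `g`).

Under a Riemann bound, an additive map on divisors which kills principal divisors and is bounded
on places vanishes on divisors of degree zero (`eq_zero_of_kills_principal`).  This gives the
uniqueness statement of the Prelude (`IsPlaceReductionAlong.eq_or_const_of_agree`,
`IsPlaceReductionAlong.eq_of_agree`) WITHOUT the divisibility hypothesis `hdiv` on `Pic⁰`.
-/

set_option autoImplicit false

noncomputable section

open HahnSeries IntermediateField AlgebraicCurve ModularCurve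

namespace Fermat.Agent.S37.H697

section General

variable (K F : Type*) [Field K] [Field F] [Algebra K F]

/-- Every divisor of degree `0` is linearly equivalent to a divisor of `ℓ¹`-norm `≤ B`. -/
def RiemannBound : Prop :=
  ∃ B : ℕ, ∀ D : Divisor K F, Divisor.degree D = 0 →
    ∃ E : Divisor K F, l1norm E ≤ B ∧ D - E ∈ Divisor.principal (K := K) (F := F)

variable {K F}

/-- Under a Riemann bound, a bounded additive map on divisors killing principal divisors kills
all divisors of degree zero. -/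
theorem eq_zero_of_kills_principal {Y : Type*} (hR : RiemannBound K F)
    (δ : Divisor K F →+ (Y →₀ ℤ))
    (hprin : ∀ D ∈ Divisor.principal (K := K) (F := F), δ D = 0)
    (C : ℕ) (hC : ∀ P : Place K F, l1norm (δ (Finsupp.single P 1)) ≤ C)
    (D : Divisor K F) (hD : Divisor.degree D = 0) : δ D = 0 := by
  obtain ⟨B, hB⟩ := hR
  refine eq_zero_of_bounded δ (Divisor.principal (K := K) (F := F)) hprin C hC D B ?_
  intro n
  have hn : Divisor.degree (n • D) = 0 := by rw [map_nsmul, hD, smul_zero]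
  exact hB (n • D) hn

end General

section Uniqueness

variable {L : Type*} [Field L] [Algebra ℚ L] {A : ValuationSubring L}
variable {k : Type*} [Field k] {π : A →+* k} {N : ℕ}

/-- Two maps on places which agree (after push-forward) on integral principal divisors agree on
all divisors of degree zero.  No divisibility of `Pic⁰` is needed, only a Riemann bound. -/
theorem mapDomain_eq_of_agree
    {r₁ r₂ : Place L (laurentBaseChange L (modularFunctionFieldFull N)) →
      Place k (modularFunctionFieldFullC k N)}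
    (hgen : PrincipalGeneratedByIntegral A π N)
    (hagree : ∀ D ∈ integralPrincipalDivisors A π N,
      Finsupp.mapDomain r₁ D = Finsupp.mapDomain r₂ D)
    (hR : RiemannBound L (laurentBaseChange L (modularFunctionFieldFull N)))
    (D : Divisor L (laurentBaseChange L (modularFunctionFieldFull N)))
    (hD : Divisor.degree D = 0) :
    Finsupp.mapDomain r₁ D = Finsupp.mapDomain r₂ D := by
  classical
  set δ : Divisor L (laurentBaseChange L (modularFunctionFieldFull N)) →+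
      Divisor k (modularFunctionFieldFullC k N) :=
    Finsupp.mapDomain.addMonoidHom r₁ - Finsupp.mapDomain.addMonoidHom r₂ with hδ
  have hδapp : ∀ D, δ D = Finsupp.mapDomain r₁ D - Finsupp.mapDomain r₂ D := fun D => rfl
  have hδprin : ∀ D ∈ Divisor.principal (K := L)
      (F := laurentBaseChange L (modularFunctionFieldFull N)), δ D = 0 := by
    intro D hD
    have hD' := hgen hD
    clear hD
    induction hD' using AddSubgroup.closure_induction with
    | mem E hE => rw [hδapp, hagree E hE, sub_self]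
    | zero => exact map_zero δ
    | add E E' _ _ hE hE' => rw [map_add, hE, hE', add_zero]
    | neg E _ hE => rw [map_neg, hE, neg_zero]
  have hC : ∀ P : Place L (laurentBaseChange L (modularFunctionFieldFull N)),
      l1norm (δ (Finsupp.single P 1)) ≤ 2 := by
    intro P
    rw [hδapp, Finsupp.mapDomain_single, Finsupp.mapDomain_single]
    refine (l1norm_sub_le _ _).trans ?_
    rw [l1norm_single, l1norm_single]
    simp
  have h0 := eq_zero_of_kills_principal hR δ hδprin 2 hC D hD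
  rw [hδapp, sub_eq_zero] at h0
  exact h0

/-- Variant of the Prelude's `IsPlaceReductionAlong.eq_or_const_of_agree` with a Riemann bound
instead of divisibility of `Pic⁰`. -/
theorem eq_or_const_of_agree
    {r₁ r₂ : Place L (laurentBaseChange L (modularFunctionFieldFull N)) →
      Place k (modularFunctionFieldFullC k N)}
    (hgen : PrincipalGeneratedByIntegral A π N)
    (hagree : ∀ D ∈ integralPrincipalDivisors A π N,
      Finsupp.mapDomain r₁ D = Finsupp.mapDomain r₂ D)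
    (hdeg : ∀ P : Place L (laurentBaseChange L (modularFunctionFieldFull N)), P.deg = 1)
    (hR : RiemannBound L (laurentBaseChange L (modularFunctionFieldFull N))) :
    r₁ = r₂ ∨ ∀ P Q, r₁ P = r₁ Q := by
  classical
  have hconst : ∀ P Q : Place L (laurentBaseChange L (modularFunctionFieldFull N)),
      Finsupp.single (r₁ P) (1 : ℤ) - Finsupp.single (r₂ P) 1 =
        Finsupp.single (r₁ Q) 1 - Finsupp.single (r₂ Q) 1 := by
    intro P Q
    have hPQ : Divisor.degree (Finsupp.single P (1 : ℤ) - Finsupp.single Q 1 :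
        Divisor L (laurentBaseChange L (modularFunctionFieldFull N))) = 0 := by
      rw [map_sub, Divisor.degree_single, Divisor.degree_single, hdeg, hdeg, sub_self]
    have h := mapDomain_eq_of_agree hgen hagree hR _ hPQ
    rw [Finsupp.mapDomain_sub, Finsupp.mapDomain_sub, Finsupp.mapDomain_single,
      Finsupp.mapDomain_single, Finsupp.mapDomain_single, Finsupp.mapDomain_single] at h
    exact sub_eq_sub_iff_sub_eq_sub.mpr h
  rw [or_iff_not_imp_left]
  intro hne
  obtain ⟨P₀, hP₀⟩ : ∃ P₀, r₁ P₀ ≠ r₂ P₀ := by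
    by_contra hall
    push Not at hall
    exact hne (funext hall)
  have hr₁const : ∀ Q, r₁ Q = r₁ P₀ := by
    intro Q
    have h := congrArg (fun E => E (r₁ P₀)) (hconst Q P₀)
    simp only [Finsupp.sub_apply, Finsupp.single_apply, if_neg (Ne.symm hP₀)] at h
    by_contra hQ
    rw [if_neg hQ] at h
    split_ifs at h <;> omega
  exact fun P Q => (hr₁const P).trans (hr₁const Q).symm

/-- Variant of the Prelude's `IsPlaceReductionAlong.eq_of_agree` with a Riemann bound instead of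
divisibility of `Pic⁰`. -/
theorem eq_of_agree
    {r₁ r₂ : Place L (laurentBaseChange L (modularFunctionFieldFull N)) →
      Place k (modularFunctionFieldFullC k N)}
    (hgen : PrincipalGeneratedByIntegral A π N)
    (hagree : ∀ D ∈ integralPrincipalDivisors A π N,
      Finsupp.mapDomain r₁ D = Finsupp.mapDomain r₂ D)
    (hdeg : ∀ P : Place L (laurentBaseChange L (modularFunctionFieldFull N)), P.deg = 1)
    (hprin0 : ∀ D ∈ Divisor.principal (K := L)
      (F := laurentBaseChange L (modularFunctionFieldFull N)), Divisor.degree D = 0)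
    (hR : RiemannBound L (laurentBaseChange L (modularFunctionFieldFull N)))
    (hnc : ∃ D ∈ Divisor.principal (K := L)
      (F := laurentBaseChange L (modularFunctionFieldFull N)), Finsupp.mapDomain r₁ D ≠ 0) :
    r₁ = r₂ := by
  rcases eq_or_const_of_agree hgen hagree hdeg hR with h | hconst
  · exact h
  obtain ⟨D, hDprin, hDne⟩ := hnc
  obtain ⟨P₀⟩ : Nonempty (Place L (laurentBaseChange L (modularFunctionFieldFull N))) := by
    by_contra hempty
    rw [not_nonempty_iff] at hempty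
    exact hDne (by rw [Subsingleton.elim D 0, Finsupp.mapDomain_zero])
  exfalso
  apply hDne
  have hmapconst : ∀ D : Divisor L (laurentBaseChange L (modularFunctionFieldFull N)),
      Finsupp.mapDomain r₁ D = Finsupp.single (r₁ P₀) (Divisor.degree D) := by
    intro D
    induction D using Finsupp.induction with
    | zero => simp
    | single_add P n D _ _ ih =>
      rw [Finsupp.mapDomain_add, ih, Finsupp.mapDomain_single, hconst P P₀, map_add,
        Divisor.degree_single, hdeg, Nat.cast_one, mul_one, ← Finsupp.single_add, add_comm]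
  rw [hmapconst D, hprin0 D hDprin, Finsupp.single_zero]

end Uniqueness

end Fermat.Agent.S37.H697

end
end
-- ===== PACK-END S37/H697/Unique.lean

-- ===== PACK-BEGIN S28/H988/Purity.lean
section
/-
S28 / [L.UP] upper bound, helper988.
Newton-polygon purity for monic polynomials over `k⸨X⸩` (Mathlib only):
* `IsPure G s`: `G` is monic and its Newton polygon is the single segment of slope `s`.
* `IsPure.isCoprime`: pure polynomials of different slopes are coprime.
* `isPure_of_root`: a monic polynomial of degree `p` with coefficients of order divisible by `p`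
  and with a root of order `-1` is pure of slope `-1`.
-/



set_option autoImplicit false

noncomputable section

open Polynomial

namespace Fermat.Agent.S28.H988

variable {k : Type*} [Field k]

/-- A Laurent series of non-negative order is a power series. -/
theorem mem_range_algebraMap_of_orderTop_nonneg (f : LaurentSeries k) (h : 0 ≤ f.orderTop) :
    f ∈ Set.range (algebraMap (PowerSeries k) (LaurentSeries k)) := by
  refine ⟨PowerSeries.mk fun n => f.coeff n, ?_⟩
  rw [LaurentSeries.coe_algebraMap]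
  ext n
  rcases le_or_gt 0 n with hn | hn
  · lift n to ℕ using hn
    rw [HahnSeries.ofPowerSeries_apply_coeff, PowerSeries.coeff_mk]
  · have h1 : ((HahnSeries.ofPowerSeries ℤ k) (PowerSeries.mk fun n => f.coeff n)).coeff n = 0 := by
      rw [HahnSeries.ofPowerSeries_apply]
      apply HahnSeries.embDomain_of_notMem_range
      rintro ⟨m, hm⟩
      have : (0 : ℤ) ≤ n := by rw [← hm]; exact Int.natCast_nonneg m
      omega
    rw [h1]
    symm
    apply HahnSeries.coeff_eq_zero_of_lt_orderTop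
    refine lt_of_lt_of_le ?_ h
    exact_mod_cast hn

/-- `G` is pure of slope `s`: monic, the coefficient of `X ^ i` has order at least
`(deg G - i) * s`, with equality for `i = 0`. -/
structure IsPure (G : Polynomial (LaurentSeries k)) (s : ℤ) : Prop where
  monic : G.Monic
  le_coeff : ∀ i : ℕ, ((((G.natDegree : ℤ) - i) * s : ℤ) : WithTop ℤ) ≤ (G.coeff i).orderTop
  coeff_zero : (G.coeff 0).orderTop = (((G.natDegree : ℤ) * s : ℤ) : WithTop ℤ)

theorem orderTop_single_one (n : ℤ) :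
    (HahnSeries.single n (1 : k)).orderTop = (n : WithTop ℤ) :=
  HahnSeries.orderTop_single one_ne_zero

theorem single_pow_one (n : ℤ) (m : ℕ) :
    (HahnSeries.single n (1 : k)) ^ m = HahnSeries.single ((m : ℤ) * n) (1 : k) := by
  induction m with
  | zero => simp
  | succ m ih =>
    rw [pow_succ, ih, HahnSeries.single_mul_single, mul_one]
    congr 1
    push_cast
    ring_nf

theorem isUnit_single_one (n : ℤ) : IsUnit (HahnSeries.single n (1 : k)) := by
  refine IsUnit.of_mul_eq_one (HahnSeries.single (-n) (1 : k)) ?_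
  rw [HahnSeries.single_mul_single, mul_one, add_neg_cancel]
  rfl

/-- order of the coefficients of the rescaled polynomial -/
theorem orderTop_coeff_scaleRoots (G : Polynomial (LaurentSeries k)) (t : ℤ) (i : ℕ)
    (hi : i ≤ G.natDegree) :
    ((G.scaleRoots (HahnSeries.single t (1 : k))).coeff i).orderTop =
      (G.coeff i).orderTop + ((((G.natDegree : ℤ) - i) * t : ℤ) : WithTop ℤ) := by
  rw [coeff_scaleRoots, HahnSeries.orderTop_mul, single_pow_one, orderTop_single_one]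
  congr 2
  push_cast [Nat.cast_sub hi]
  ring

/-- Pure polynomials of different slopes are coprime (auxiliary ordered version). -/
theorem IsPure.isCoprime_of_lt {G₁ G₂ : Polynomial (LaurentSeries k)} {s₁ s₂ : ℤ}
    (h₁ : IsPure G₁ s₁) (h₂ : IsPure G₂ s₂) (hs : s₁ < s₂) : IsCoprime G₁ G₂ := by
  set u : LaurentSeries k := HahnSeries.single (-s₁) (1 : k) with hu
  set u' : LaurentSeries k := HahnSeries.single s₁ (1 : k) with hu'
  have huu' : u * u' = 1 := by
    rw [hu, hu', HahnSeries.single_mul_single, mul_one, neg_add_cancel]; rfl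
  suffices h : IsCoprime (G₁.scaleRoots u) (G₂.scaleRoots u) by
    have := isCoprime_scaleRoots _ _ u' (isUnit_single_one s₁) h
    rwa [← scaleRoots_mul, ← scaleRoots_mul, huu', scaleRoots_one, scaleRoots_one] at this
  -- orders of the coefficients
  have o1 : ∀ i, (0 : WithTop ℤ) ≤ ((G₁.scaleRoots u).coeff i).orderTop := by
    intro i
    rcases le_or_gt i G₁.natDegree with hi | hi
    · rw [orderTop_coeff_scaleRoots G₁ (-s₁) i hi]
      have := h₁.le_coeff i
      calc (0 : WithTop ℤ) = (((((G₁.natDegree : ℤ) - i) * s₁ : ℤ)) : WithTop ℤ)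
            + ((((G₁.natDegree : ℤ) - i) * (-s₁) : ℤ) : WithTop ℤ) := by
              rw [← WithTop.coe_add]; norm_cast; ring
        _ ≤ _ := by gcongr
    · rw [coeff_eq_zero_of_natDegree_lt (by rwa [natDegree_scaleRoots]), HahnSeries.orderTop_zero]
      exact le_top
  have o1' : ((G₁.scaleRoots u).coeff 0).orderTop = 0 := by
    rw [orderTop_coeff_scaleRoots G₁ (-s₁) 0 (Nat.zero_le _), h₁.coeff_zero, ← WithTop.coe_add]
    have h0 : ((G₁.natDegree : ℤ) * s₁ + ((G₁.natDegree : ℤ) - ((0 : ℕ) : ℤ)) * (-s₁)) = 0 := by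
      push_cast; ring
    rw [h0]
    rfl
  have o2 : ∀ i, i < G₂.natDegree → (0 : WithTop ℤ) < ((G₂.scaleRoots u).coeff i).orderTop := by
    intro i hi
    rw [orderTop_coeff_scaleRoots G₂ (-s₁) i hi.le]
    have := h₂.le_coeff i
    have hpos : (0 : ℤ) < ((G₂.natDegree : ℤ) - i) * s₂ + ((G₂.natDegree : ℤ) - i) * (-s₁) := by
      have h1 : (0 : ℤ) < (G₂.natDegree : ℤ) - i := by
        have : (i : ℤ) < G₂.natDegree := by exact_mod_cast hi
        linarith
      have h2 : (0 : ℤ) < s₂ - s₁ := by linarith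
      nlinarith [mul_pos h1 h2]
    calc (0 : WithTop ℤ) < (((((G₂.natDegree : ℤ) - i) * s₂
            + ((G₂.natDegree : ℤ) - i) * (-s₁) : ℤ)) : WithTop ℤ) := by exact_mod_cast hpos
      _ = (((((G₂.natDegree : ℤ) - i) * s₂ : ℤ)) : WithTop ℤ)
            + ((((G₂.natDegree : ℤ) - i) * (-s₁) : ℤ) : WithTop ℤ) := by
              rw [← WithTop.coe_add]
      _ ≤ _ := by gcongr
  have o2' : ∀ i, (0 : WithTop ℤ) ≤ ((G₂.scaleRoots u).coeff i).orderTop := by
    intro i
    rcases lt_trichotomy i G₂.natDegree with hi | hi | hi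
    · exact (o2 i hi).le
    · have hm : (G₂.scaleRoots u).Monic := (monic_scaleRoots_iff u).mpr h₂.monic
      have : (G₂.scaleRoots u).coeff i = 1 := by
        rw [hi, ← natDegree_scaleRoots G₂ u]; exact hm.coeff_natDegree
      rw [this, HahnSeries.orderTop_one]
    · rw [coeff_eq_zero_of_natDegree_lt (by rwa [natDegree_scaleRoots]), HahnSeries.orderTop_zero]
      exact le_top
  -- lift to power series
  have l1 : G₁.scaleRoots u ∈ lifts (algebraMap (PowerSeries k) (LaurentSeries k)) :=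
    (lifts_iff_coeff_lifts _).mpr fun i => mem_range_algebraMap_of_orderTop_nonneg _ (o1 i)
  have l2 : G₂.scaleRoots u ∈ lifts (algebraMap (PowerSeries k) (LaurentSeries k)) :=
    (lifts_iff_coeff_lifts _).mpr fun i => mem_range_algebraMap_of_orderTop_nonneg _ (o2' i)
  obtain ⟨g₁, hg₁, hd₁, hm₁⟩ :=
    lifts_and_natDegree_eq_and_monic l1 ((monic_scaleRoots_iff u).mpr h₁.monic)
  obtain ⟨g₂, hg₂, hd₂, hm₂⟩ :=
    lifts_and_natDegree_eq_and_monic l2 ((monic_scaleRoots_iff u).mpr h₂.monic)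
  have key : ∀ (g : Polynomial (PowerSeries k)) (i : ℕ),
      PowerSeries.constantCoeff (g.coeff i) =
        ((g.map (algebraMap (PowerSeries k) (LaurentSeries k))).coeff i).coeff 0 := by
    intro g i
    rw [coeff_map, LaurentSeries.coe_algebraMap]
    have := HahnSeries.ofPowerSeries_apply_coeff (Γ := ℤ) (g.coeff i) 0
    rw [Nat.cast_zero] at this
    rw [this, PowerSeries.coeff_zero_eq_constantCoeff]
  rw [← hg₁, ← hg₂]
  refine isCoprime_map_of_reduction g₁ g₂ hm₁ hm₂ ?_ ?_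
  · rw [key, hg₁]
    exact HahnSeries.coeff_orderTop_ne (by rw [o1']; rfl)
  · intro i hi
    rw [key, hg₂]
    apply HahnSeries.coeff_eq_zero_of_lt_orderTop
    have := o2 i (by rwa [hd₂, natDegree_scaleRoots] at hi)
    exact_mod_cast this

/-- Pure polynomials of different slopes are coprime. -/
theorem IsPure.isCoprime {G₁ G₂ : Polynomial (LaurentSeries k)} {s₁ s₂ : ℤ}
    (h₁ : IsPure G₁ s₁) (h₂ : IsPure G₂ s₂) (hs : s₁ ≠ s₂) : IsCoprime G₁ G₂ := by
  rcases lt_or_gt_of_ne hs with h | h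
  · exact h₁.isCoprime_of_lt h₂ h
  · exact (h₂.isCoprime_of_lt h₁ h).symm

/-- order of a nonzero element as an integer -/
theorem exists_orderTop_eq (f : LaurentSeries k) (hf : f ≠ 0) :
    ∃ m : ℤ, f.orderTop = (m : WithTop ℤ) := by
  have : f.orderTop ≠ ⊤ := HahnSeries.orderTop_ne_top.mpr hf
  obtain ⟨m, hm⟩ := WithTop.ne_top_iff_exists.mp this
  exact ⟨m, hm.symm⟩

theorem orderTop_pow_of_eq (y : LaurentSeries k) (a : ℤ) (hy : y.orderTop = (a : WithTop ℤ))
    (i : ℕ) : (y ^ i).orderTop = (((i : ℤ) * a : ℤ) : WithTop ℤ) := by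
  induction i with
  | zero => simp
  | succ i ih =>
    rw [pow_succ, HahnSeries.orderTop_mul, ih, hy, ← WithTop.coe_add]
    congr 1
    push_cast
    ring

/-- **Purity from a root of order `-1`.** A monic polynomial of degree `p` whose coefficients
have order divisible by `p` and which has a root of order `-1` is pure of slope `-1`. -/
theorem isPure_of_root (p : ℕ) (P : Polynomial (LaurentSeries k)) (hmonic : P.Monic)
    (hdeg : P.natDegree = p)
    (hrange : ∀ i, P.coeff i ≠ 0 → ∃ n : ℤ, (P.coeff i).orderTop = (((p : ℤ) * n : ℤ) : WithTop ℤ))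
    (y : LaurentSeries k) (hy : y.orderTop = ((-1 : ℤ) : WithTop ℤ)) (hroot : P.eval y = 0) :
    IsPure P (-1) := by
  classical
  set a : ℕ → LaurentSeries k := fun i => P.coeff i * y ^ i with ha
  have hsum : ∑ i ∈ Finset.range (p + 1), a i = 0 := by
    rw [← hroot, eval_eq_sum_range, hdeg]
  have hypow : ∀ i : ℕ, (y ^ i).orderTop = ((-(i : ℤ) : ℤ) : WithTop ℤ) := by
    intro i
    rw [orderTop_pow_of_eq y (-1) hy i]
    congr 1
    ring
  have hord : ∀ i, (a i).orderTop = (P.coeff i).orderTop + ((-(i : ℤ) : ℤ) : WithTop ℤ) := by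
    intro i
    rw [ha, HahnSeries.orderTop_mul, hypow]
  have hva : ∀ i, a i ≠ 0 → ∃ n : ℤ, (a i).orderTop = (((p : ℤ) * n - i : ℤ) : WithTop ℤ) := by
    intro i hi
    have hc : P.coeff i ≠ 0 := by
      intro h0
      apply hi
      rw [ha]
      simp only [h0, zero_mul]
    obtain ⟨n, hn⟩ := hrange i hc
    refine ⟨n, ?_⟩
    rw [hord, hn, ← WithTop.coe_add]
    congr 1
  have hap : (a p).orderTop = ((-(p : ℤ) : ℤ) : WithTop ℤ) := by
    have h1 : P.coeff p = 1 := by rw [← hdeg]; exact hmonic.coeff_natDegree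
    rw [ha]
    simp only [h1, one_mul]
    exact hypow p
  -- a minimal index
  obtain ⟨i₀, hi₀, hmin⟩ := Finset.exists_min_image (Finset.range (p + 1))
    (fun i => (a i).orderTop) ⟨p, Finset.mem_range.mpr (Nat.lt_succ_self p)⟩
  have hpmem : p ∈ Finset.range (p + 1) := Finset.mem_range.mpr (Nat.lt_succ_self p)
  have hg_le : (a i₀).orderTop ≤ ((-(p : ℤ) : ℤ) : WithTop ℤ) := by
    rw [← hap]; exact hmin p hpmem
  have hg_ne_top : (a i₀).orderTop ≠ ⊤ := by
    intro h
    rw [h] at hg_le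
    exact absurd hg_le (by simp)
  have hai₀ : a i₀ ≠ 0 := HahnSeries.orderTop_ne_top.mp hg_ne_top
  -- a second index with the same order
  have hex : ∃ i₁ ∈ Finset.range (p + 1), i₁ ≠ i₀ ∧ (a i₁).orderTop = (a i₀).orderTop := by
    by_contra hcon
    push Not at hcon
    have hlt : ∀ i ∈ (Finset.range (p + 1)).erase i₀, (a i₀).orderTop < (a i).orderTop := by
      intro i hi
      have hi' := Finset.mem_erase.mp hi
      exact lt_of_le_of_ne (hmin i hi'.2) (fun h => hcon i hi'.2 hi'.1 h.symm)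
    have h1 := (HahnSeries.addVal ℤ k).map_lt_sum hg_ne_top
      (s := (Finset.range (p + 1)).erase i₀) (f := a) (by
        intro i hi
        rw [HahnSeries.addVal_apply]
        exact hlt i hi)
    have h2 : ∑ i ∈ (Finset.range (p + 1)).erase i₀, a i = - a i₀ := by
      have := Finset.add_sum_erase (Finset.range (p + 1)) a hi₀
      rw [hsum] at this
      exact eq_neg_of_add_eq_zero_right this
    rw [h2, HahnSeries.addVal_apply, HahnSeries.orderTop_neg] at h1
    exact lt_irrefl _ h1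
  obtain ⟨i₁, hi₁, hne, heq⟩ := hex
  have hai₁ : a i₁ ≠ 0 := by
    apply HahnSeries.orderTop_ne_top.mp
    rw [heq]; exact hg_ne_top
  obtain ⟨n₀, hn₀⟩ := hva i₀ hai₀
  obtain ⟨n₁, hn₁⟩ := hva i₁ hai₁
  have hi₀le : i₀ ≤ p := Nat.lt_succ_iff.mp (Finset.mem_range.mp hi₀)
  have hi₁le : i₁ ≤ p := Nat.lt_succ_iff.mp (Finset.mem_range.mp hi₁)
  have hrel : (p : ℤ) * n₁ - i₁ = (p : ℤ) * n₀ - i₀ := by
    have := heq
    rw [hn₀, hn₁] at this
    exact_mod_cast this
  have hcases : (i₀ = 0 ∧ i₁ = p) ∨ (i₀ = p ∧ i₁ = 0) := by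
    have hd : (p : ℤ) * (n₁ - n₀) = (i₁ : ℤ) - i₀ := by linarith
    have h0 : (0 : ℤ) ≤ i₀ := Int.natCast_nonneg _
    have h1 : (0 : ℤ) ≤ i₁ := Int.natCast_nonneg _
    have h0' : (i₀ : ℤ) ≤ p := by exact_mod_cast hi₀le
    have h1' : (i₁ : ℤ) ≤ p := by exact_mod_cast hi₁le
    have hne' : (i₁ : ℤ) ≠ i₀ := by exact_mod_cast hne
    have hp0 : (0 : ℤ) ≤ p := Int.natCast_nonneg _
    rcases lt_trichotomy (n₁ - n₀) 0 with hneg | hzero | hpos
    · have : (p : ℤ) * (n₁ - n₀) ≤ -(p : ℤ) := by nlinarith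
      right
      constructor
      · have : (i₀ : ℤ) = p := by linarith
        exact_mod_cast this
      · have : (i₁ : ℤ) = 0 := by linarith
        exact_mod_cast this
    · rw [hzero, mul_zero] at hd
      exact absurd (by linarith) hne'
    · have : (p : ℤ) ≤ (p : ℤ) * (n₁ - n₀) := by nlinarith
      left
      constructor
      · have : (i₀ : ℤ) = 0 := by linarith
        exact_mod_cast this
      · have : (i₁ : ℤ) = p := by linarith
        exact_mod_cast this
  have hg : (a i₀).orderTop = ((-(p : ℤ) : ℤ) : WithTop ℤ) := by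
    rcases hcases with ⟨_, h⟩ | ⟨h, _⟩
    · rw [← heq, h, hap]
    · rw [h, hap]
  have ha0 : (a 0).orderTop = ((-(p : ℤ) : ℤ) : WithTop ℤ) := by
    rcases hcases with ⟨h, _⟩ | ⟨_, h⟩
    · rw [← h, hg]
    · rw [← h, heq, hg]
  refine ⟨hmonic, ?_, ?_⟩
  · intro i
    rcases le_or_gt i p with hi | hi
    · by_cases hc : P.coeff i = 0
      · rw [hc, HahnSeries.orderTop_zero]; exact le_top
      · obtain ⟨m, hm⟩ := exists_orderTop_eq _ hc
        have h1 : (a i₀).orderTop ≤ (a i).orderTop :=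
          hmin i (Finset.mem_range.mpr (Nat.lt_succ_of_le hi))
        rw [hg, hord, hm, ← WithTop.coe_add] at h1
        have h2 : -(p : ℤ) ≤ m + -(i : ℤ) := by exact_mod_cast h1
        rw [hm, hdeg]
        have h3 : ((p : ℤ) - i) * (-1) ≤ m := by linarith
        exact_mod_cast h3
    · rw [coeff_eq_zero_of_natDegree_lt (by rwa [hdeg]), HahnSeries.orderTop_zero]
      exact le_top
  · have h0 : a 0 = P.coeff 0 := by rw [ha]; simp
    rw [← h0, ha0, hdeg]
    congr 1
    ring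

end Fermat.Agent.S28.H988

end

end
-- ===== PACK-END S28/H988/Purity.lean

-- ===== PACK-BEGIN S20/C0_helper980.lean
section
/-
S20 long shot — package C0 of captain helper20's skeleton (basic API of `MF`, `SF`, `ev`),
statements exactly as in `origin/helper20:Fermat/Agent/S20/Skeleton.lean`.  (helper980)
Sorry-free.
-/


set_option autoImplicit false

noncomputable section

namespace Fermat.Agent.S20.C980

open Fermat.Agent.S20
open UpperHalfPlane ModularForm CongruenceSubgroup MatrixGroups Filter Module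
open scoped Manifold Topology Real

local notation "Δ" => ModularForm.discriminant
local notation "Sm" => ModularGroup.S
local notation "Tm" => ModularGroup.T

/-! ## C0.1 : bundled forms versus function-level spaces -/

section bridge

variable (Γ : Subgroup SL(2, ℤ)) [Γ.FiniteIndex]

lemma coe_mem_MF {k : ℤ} (f : ModularForm (Γ : Subgroup (GL (Fin 2) ℝ)) k) :
    (⇑f : ℍ → ℂ) ∈ MF Γ k := by
  refine ⟨ModularFormClass.holo f, fun γ hγ => ?_,
    fun γ => ModularFormClass.bdd_at_infty_slash f γ⟩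
  rw [SL_slash]
  exact SlashInvariantFormClass.slash_action_eq f _ ⟨γ, hγ, rfl⟩

lemma coe_mem_SF {k : ℤ} (f : CuspForm (Γ : Subgroup (GL (Fin 2) ℝ)) k) :
    (⇑f : ℍ → ℂ) ∈ SF Γ k := by
  refine ⟨CuspFormClass.holo f, fun γ hγ => ?_,
    fun γ => CuspFormClass.zero_at_infty_slash f γ⟩
  rw [SL_slash]
  exact SlashInvariantFormClass.slash_action_eq f _ ⟨γ, hγ, rfl⟩

/-- The bundled modular form attached to an element of `MF Γ k`. -/
def ofMF {k : ℤ} {f : ℍ → ℂ} (hf : f ∈ MF Γ k) :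
    ModularForm (Γ : Subgroup (GL (Fin 2) ℝ)) k where
  toFun := f
  slash_action_eq' γ hγ := by
    obtain ⟨γ', hγ', rfl⟩ := hγ
    exact hf.2.1 γ' hγ'
  holo' := hf.1
  bdd_at_cusps' {c} hc := by
    rw [Subgroup.IsArithmetic.isCusp_iff_isCusp_SL2Z] at hc
    rw [OnePoint.isBoundedAt_iff_forall_SL2Z hc]
    intro γ _
    exact hf.2.2 γ

/-- The bundled cusp form attached to an element of `SF Γ k`. -/
def ofSF {k : ℤ} {f : ℍ → ℂ} (hf : f ∈ SF Γ k) :
    CuspForm (Γ : Subgroup (GL (Fin 2) ℝ)) k where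
  toFun := f
  slash_action_eq' γ hγ := by
    obtain ⟨γ', hγ', rfl⟩ := hγ
    exact hf.2.1 γ' hγ'
  holo' := hf.1
  zero_at_cusps' {c} hc := by
    rw [Subgroup.IsArithmetic.isCusp_iff_isCusp_SL2Z] at hc
    rw [OnePoint.isZeroAt_iff_forall_SL2Z hc]
    intro γ _
    exact hf.2.2 γ

@[simp] lemma coe_ofMF {k : ℤ} {f : ℍ → ℂ} (hf : f ∈ MF Γ k) : ⇑(ofMF Γ hf) = f := rfl
@[simp] lemma coe_ofSF {k : ℤ} {f : ℍ → ℂ} (hf : f ∈ SF Γ k) : ⇑(ofSF Γ hf) = f := rfl

/-- C0.1 -/
def MFequiv (k : ℤ) : ModularForm (Γ : Subgroup (GL (Fin 2) ℝ)) k ≃ₗ[ℂ] MF Γ k where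
  toFun f := ⟨⇑f, coe_mem_MF Γ f⟩
  map_add' f g := rfl
  map_smul' c f := rfl
  invFun f := ofMF Γ f.2
  left_inv f := by ext; rfl
  right_inv f := by ext; rfl

/-- C0.1 -/
theorem MFequiv_coe (k : ℤ) (f : ModularForm (Γ : Subgroup (GL (Fin 2) ℝ)) k) :
    ((MFequiv Γ k f : MF Γ k) : ℍ → ℂ) = ⇑f := rfl

/-- C0.1 -/
def SFequiv (k : ℤ) : CuspForm (Γ : Subgroup (GL (Fin 2) ℝ)) k ≃ₗ[ℂ] SF Γ k where
  toFun f := ⟨⇑f, coe_mem_SF Γ f⟩
  map_add' f g := rfl
  map_smul' c f := rfl
  invFun f := ofSF Γ f.2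
  left_inv f := by ext; rfl
  right_inv f := by ext; rfl

/-- C0.1 -/
theorem SFequiv_coe (k : ℤ) (f : CuspForm (Γ : Subgroup (GL (Fin 2) ℝ)) k) :
    ((SFequiv Γ k f : SF Γ k) : ℍ → ℂ) = ⇑f := rfl

end bridge

variable {Γ : Subgroup SL(2, ℤ)}

/-! ## C0.2 : products with level one forms -/

lemma slash_top {a : ℤ} {E : ℍ → ℂ} (hE : E ∈ MF ⊤ a) (γ : SL(2, ℤ)) : E ∣[a] γ = E :=
  hE.2.1 γ (Subgroup.mem_top γ)

/-- C0.2 (no finite index needed) -/
theorem mul_mem_MF {a k : ℤ} {E f : ℍ → ℂ} (hE : E ∈ MF ⊤ a) (hf : f ∈ MF Γ k) :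
    E * f ∈ MF Γ (a + k) := by
  refine ⟨hE.1.mul hf.1, fun γ hγ => ?_, fun γ => ?_⟩
  · rw [mul_slash_SL2, slash_top hE, hf.2.1 γ hγ]
  · rw [mul_slash_SL2, slash_top hE]
    have hb : IsBoundedAtImInfty E := by simpa using hE.2.2 1
    exact hb.mul (hf.2.2 γ)

/-- C0.2 -/
theorem mul_mem_SF {a k : ℤ} {E f : ℍ → ℂ} (hE : E ∈ MF ⊤ a) (hf : f ∈ SF Γ k) :
    E * f ∈ SF Γ (a + k) := by
  refine ⟨hE.1.mul hf.1, fun γ hγ => ?_, fun γ => ?_⟩
  · rw [mul_slash_SL2, slash_top hE, hf.2.1 γ hγ]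
  · rw [mul_slash_SL2, slash_top hE]
    have hb : IsBoundedAtImInfty E := by simpa using hE.2.2 1
    exact hb.mul_zeroAtFilter (hf.2.2 γ)

/-! ## C0.3 : the vector of conjugates -/

/-- C0.3 -/
theorem ev_mk {k : ℤ} {f : ℍ → ℂ} (hf : ∀ γ ∈ Γ, f ∣[k] γ = f) (g : SL(2, ℤ)) (τ : ℍ) :
    ev Γ k τ f (QuotientGroup.mk g) = (f ∣[k] g⁻¹) τ := by
  rw [ev_apply]
  obtain ⟨γ, hγ⟩ : ∃ γ : Γ, (QuotientGroup.mk g : X Γ).out = g * γ :=
    ⟨_, QuotientGroup.mk_out_eq_mul Γ g |>.choose_spec⟩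
  rw [hγ, mul_inv_rev, SlashAction.slash_mul, hf _ (Γ.inv_mem γ.2)]

/-- C0.3 : equivariance of the vector of conjugates. -/
theorem ev_smul {k : ℤ} {f : ℍ → ℂ} (hf : ∀ γ ∈ Γ, f ∣[k] γ = f) (γ : SL(2, ℤ)) (τ : ℍ)
    (x : X Γ) : ev Γ k (γ • τ) f x = denom γ τ ^ k * ev Γ k τ f (γ⁻¹ • x) := by
  induction x using QuotientGroup.induction_on with
  | H g =>
    have h1 : γ⁻¹ • (QuotientGroup.mk g : X Γ) = QuotientGroup.mk (γ⁻¹ * g) := rfl
    rw [h1, ev_mk hf, ev_mk hf, mul_inv_rev, inv_inv, SlashAction.slash_mul]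
    rw [ModularForm.SL_slash_apply (f := f ∣[k] g⁻¹) (k := k) γ τ, mul_comm (denom _ _ ^ k),
      mul_assoc, ← zpow_add₀ (denom_ne_zero _ _)]
    simp

/-- C0.3 : in particular for `T` (`T • τ = τ + 1`). -/
theorem ev_T {k : ℤ} {f : ℍ → ℂ} (hf : ∀ γ ∈ Γ, f ∣[k] γ = f) (τ : ℍ) :
    ev Γ k (Tm • τ) f = shiftT Γ (ev Γ k τ f) := by
  ext x
  rw [ev_smul hf]
  have hd : denom (Tm : SL(2, ℤ)) τ = 1 := by
    rw [ModularGroup.denom_apply]
    simp [ModularGroup.T]
  rw [hd, one_zpow, one_mul]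
  rfl

/-- C0.3 -/
theorem ev_mul {a k : ℤ} {E : ℍ → ℂ} (hE : E ∈ MF ⊤ a) (f : ℍ → ℂ) (τ : ℍ) :
    ev Γ (a + k) τ (E * f) = E τ • ev Γ k τ f := by
  ext x
  simp only [ev_apply, Pi.smul_apply, smul_eq_mul]
  rw [mul_slash_SL2, slash_top hE, Pi.mul_apply]

/-- C0.3 -/
theorem ev_eq_zero_iff {k : ℤ} {f : ℍ → ℂ} (hf : ∀ γ ∈ Γ, f ∣[k] γ = f) (τ : ℍ) :
    ev Γ k τ f = 0 ↔ ∀ γ : SL(2, ℤ), f (γ • τ) = 0 := by
  constructor
  · intro h γ
    have h1 := congrFun h (QuotientGroup.mk γ⁻¹)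
    rw [ev_mk hf, inv_inv, ModularForm.SL_slash_apply, Pi.zero_apply] at h1
    rcases mul_eq_zero.mp h1 with h2 | h2
    · exact h2
    · exact absurd h2 (zpow_ne_zero _ (denom_ne_zero _ _))
  · intro h
    ext x
    rw [ev_apply, ModularForm.SL_slash_apply, h, zero_mul, Pi.zero_apply]

/-! ## C0.4 : small weights -/

section small

variable (Γ) [Γ.FiniteIndex]

/-- C0.4 (Mathlib `ModularForm.isZero_of_neg_weight`) -/
theorem MF_eq_bot_of_neg {k : ℤ} (hk : k < 0) : MF Γ k = ⊥ := by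
  rw [eq_bot_iff]
  intro f hf
  have := ModularForm.isZero_of_neg_weight hk (ofMF Γ hf)
  have h2 : ⇑(ofMF Γ hf) = 0 := by rw [this]; rfl
  simpa using h2

/-- C0.4 (Mathlib `ModularForm.eq_const_of_weight_zero`) -/
theorem MF_zero_eq_const {f : ℍ → ℂ} (hf : f ∈ MF Γ 0) : ∃ c : ℂ, f = fun _ => c := by
  obtain ⟨c, hc⟩ := ModularForm.eq_const_of_weight_zero (ofMF Γ hf)
  exact ⟨c, hc⟩

/-- C0.4 -/
theorem SF_eq_bot_of_nonpos {k : ℤ} (hk : k ≤ 0) : SF Γ k = ⊥ := by
  rw [eq_bot_iff]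
  intro f hf
  rcases hk.lt_or_eq with hk | rfl
  · have : f ∈ MF Γ k := SF_le_MF Γ k hf
    rw [MF_eq_bot_of_neg Γ hk] at this
    exact this
  · obtain ⟨c, rfl⟩ := MF_zero_eq_const Γ (SF_le_MF Γ 0 hf)
    have h0 : IsZeroAtImInfty ((fun _ : ℍ => c) ∣[(0 : ℤ)] (1 : SL(2, ℤ))) := hf.2.2 1
    rw [SlashAction.slash_one] at h0
    have hc : c = 0 := tendsto_nhds_unique tendsto_const_nhds h0
    subst hc
    rfl

set_option linter.unusedSectionVars false in
/-- C0.4 -/
theorem MF_eq_bot_of_odd (hneg : -1 ∈ Γ) {k : ℤ} (hk : Odd k) : MF Γ k = ⊥ := by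
  rw [eq_bot_iff]
  intro f hf
  have h1 := hf.2.1 (-1) hneg
  rw [Submodule.mem_bot]
  funext τ
  have h2 := congrFun h1 τ
  rw [ModularForm.SL_slash_apply] at h2
  have hd : denom ((-1 : SL(2, ℤ)) : GL (Fin 2) ℝ) τ = -1 := by
    simp [denom]
  have hs : (-1 : SL(2, ℤ)) • τ = τ := by
    simp
  rw [hd, hs, zpow_neg, hk.neg_one_zpow] at h2
  have : f τ * (-1)⁻¹ = - f τ := by ring
  rw [this] at h2
  have h3 : 2 * f τ = 0 := by linear_combination -h2
  simpa using h3

end small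

end Fermat.Agent.S20.C980

end

end
-- ===== PACK-END S20/C0_helper980.lean

-- ===== PACK-BEGIN S20/P1_helper225.lean
section


/-!
# S20, piece P1 : linear algebra of permutation operators (helper225)

Pure linear algebra (no modular forms):

* `finrank_invariants_of_sq_eq_one`, `finrank_invariants_of_cube_eq_one` (P1.1, P1.2):
  eigenspace dimensions of the permutation operator of an involution / of a permutation of
  order three, in terms of the number of fixed points;
* `Theta_zero`, `Theta_add` (P1.4) and `det_Theta` (P1.3) for the operator `Theta Γ s` of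
  `Core.lean`.
-/

set_option autoImplicit false

noncomputable section

namespace Fermat.Agent.S20.P1h225

open Module

/-! ## Generic: one idempotent -/

section Idem

variable {V : Type*} [AddCommGroup V] [Module ℂ V] [FiniteDimensional ℂ V]

/-- For an idempotent `P`, `det (1 + (c - 1) • P) = c ^ rank P`. -/
theorem det_one_add_smul_idem (P : V →ₗ[ℂ] V) (hP : IsIdempotentElem P) (c : ℂ) :
    LinearMap.det (1 + (c - 1) • P) = c ^ finrank ℂ (LinearMap.range P) := by
  have h := LinearMap.IsIdempotentElem.isProj_range P hP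
  set e := (LinearMap.range P).prodEquivOfIsCompl (LinearMap.ker P) h.isCompl with he
  have h1 : P = e.conj (LinearMap.prodMap LinearMap.id 0) := h.eq_conj_prodMap
  have h2 : (1 + (c - 1) • P : V →ₗ[ℂ] V) =
      e.conj (LinearMap.prodMap (c • LinearMap.id) LinearMap.id) := by
    have : (LinearMap.prodMap (c • LinearMap.id) LinearMap.id :
        (LinearMap.range P × LinearMap.ker P) →ₗ[ℂ] (LinearMap.range P × LinearMap.ker P)) =
        1 + (c - 1) • LinearMap.prodMap LinearMap.id 0 := by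
      ext x <;> simp [sub_smul]
    rw [this, map_add, map_smul, ← h1]
    congr 1
    ext x
    simp [LinearEquiv.conj_apply]
  rw [h2, LinearEquiv.conj_apply, LinearMap.comp_assoc, LinearMap.det_conj,
    LinearMap.det_prodMap, LinearMap.det_smul, LinearMap.det_id, LinearMap.det_id, mul_one,
    mul_one]

/-- The rank of an idempotent is its trace. -/
theorem finrank_range_idem (P : V →ₗ[ℂ] V) (hP : IsIdempotentElem P) :
    (finrank ℂ (LinearMap.range P) : ℂ) = LinearMap.trace ℂ V P :=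
  ((LinearMap.IsIdempotentElem.isProj_range P hP).trace).symm

/-- Determinant of `1 + ∑ (c i - 1) • P i` for pairwise orthogonal idempotents. -/
theorem det_one_add_sum_smul_idem {ι : Type*} [DecidableEq ι] (s : Finset ι)
    (P : ι → V →ₗ[ℂ] V) (c : ι → ℂ) (hP : ∀ i ∈ s, IsIdempotentElem (P i))
    (hort : ∀ i ∈ s, ∀ j ∈ s, i ≠ j → P i * P j = 0) :
    LinearMap.det (1 + ∑ i ∈ s, (c i - 1) • P i) =
      ∏ i ∈ s, c i ^ finrank ℂ (LinearMap.range (P i)) := by
  induction s using Finset.induction_on with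
  | empty => simp
  | insert j s hj ih =>
    have ih' := ih (fun i hi => hP i (Finset.mem_insert_of_mem hi))
      (fun i hi k hk hik => hort i (Finset.mem_insert_of_mem hi) k
        (Finset.mem_insert_of_mem hk) hik)
    have hmul : (1 + ∑ i ∈ insert j s, (c i - 1) • P i : V →ₗ[ℂ] V) =
        (1 + (c j - 1) • P j) * (1 + ∑ i ∈ s, (c i - 1) • P i) := by
      rw [Finset.sum_insert hj, mul_add, mul_one, add_mul, one_mul, Finset.mul_sum]
      have hz : ∑ i ∈ s, ((c j - 1) • P j) * ((c i - 1) • P i) = 0 := by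
        apply Finset.sum_eq_zero
        intro i hi
        have hji : j ≠ i := fun h => hj (h ▸ hi)
        rw [smul_mul_smul_comm, hort j (Finset.mem_insert_self j s) i
          (Finset.mem_insert_of_mem hi) hji, smul_zero]
      rw [hz, add_zero, add_assoc]
    rw [hmul, map_mul, ih', det_one_add_smul_idem _ (hP j (Finset.mem_insert_self j s)),
      Finset.prod_insert hj]

/-- Determinant of `∑ c i • P i` for a complete system of orthogonal idempotents. -/
theorem det_sum_smul_idem {ι : Type*} [DecidableEq ι] (s : Finset ι)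
    (P : ι → V →ₗ[ℂ] V) (c : ι → ℂ) (hP : ∀ i ∈ s, IsIdempotentElem (P i))
    (hort : ∀ i ∈ s, ∀ j ∈ s, i ≠ j → P i * P j = 0) (hsum : ∑ i ∈ s, P i = 1) :
    LinearMap.det (∑ i ∈ s, c i • P i) =
      ∏ i ∈ s, c i ^ finrank ℂ (LinearMap.range (P i)) := by
  rw [← det_one_add_sum_smul_idem s P c hP hort]
  congr 1
  simp only [sub_smul, one_smul, Finset.sum_sub_distrib, hsum]
  abel

end Idem

/-! ## Generic: spectral projectors of an operator of finite order -/

section Spectral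

variable {V : Type*} [AddCommGroup V] [Module ℂ V]

/-- The spectral projector of `L` (with `L ^ n = 1`) for the eigenvalue `ε` (with `ε ^ n = 1`). -/
def specProj (L : V →ₗ[ℂ] V) (n : ℕ) (ε : ℂ) : V →ₗ[ℂ] V :=
  (n : ℂ)⁻¹ • ∑ i ∈ Finset.range n, (ε⁻¹) ^ i • L ^ i

variable {L : V →ₗ[ℂ] V} {n : ℕ} {ε : ℂ}

lemma pow_apply_of_eigen {v : V} (hv : L v = ε • v) (i : ℕ) : (L ^ i) v = ε ^ i • v := by
  induction i with
  | zero => simp
  | succ i ih =>
    rw [pow_succ, Module.End.mul_apply, hv, map_smul, ih, smul_smul, pow_succ']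

lemma specProj_apply_of_eigen' {ε' : ℂ} {v : V}
    (hv : L v = ε' • v) :
    specProj L n ε v = ((n : ℂ)⁻¹ * ∑ i ∈ Finset.range n, (ε' / ε) ^ i) • v := by
  simp only [specProj, LinearMap.smul_apply, LinearMap.sum_apply, pow_apply_of_eigen hv,
    smul_smul, ← Finset.sum_smul]
  congr 2
  apply Finset.sum_congr rfl
  intro i _
  rw [div_eq_mul_inv, mul_pow, mul_comm]

lemma specProj_apply_of_eigen (hn : n ≠ 0) (hε : ε ≠ 0) {v : V} (hv : L v = ε • v) :
    specProj L n ε v = v := by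
  rw [specProj_apply_of_eigen' hv, div_self hε]
  simp [hn]

lemma specProj_apply_of_eigen_ne (hn : n ≠ 0) (hε : ε ^ n = 1) {ε' : ℂ} (hε' : ε' ^ n = 1)
    (hne : ε' ≠ ε) {v : V} (hv : L v = ε' • v) :
    specProj L n ε v = 0 := by
  rw [specProj_apply_of_eigen' hv]
  have hε0 : ε ≠ 0 := by
    rintro rfl
    rw [zero_pow hn] at hε
    exact zero_ne_one hε
  have h1 : ε' / ε ≠ 1 := by
    intro h
    exact hne ((div_eq_one_iff_eq hε0).mp h)
  rw [geom_sum_eq h1, div_pow, hε, hε', div_one, sub_self, zero_div, mul_zero, zero_smul]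

lemma L_specProj (hn : n ≠ 0) (hL : L ^ n = 1) (hε : ε ^ n = 1) (v : V) :
    L (specProj L n ε v) = ε • specProj L n ε v := by
  have hε0 : ε ≠ 0 := by
    rintro rfl
    rw [zero_pow hn] at hε
    exact zero_ne_one hε
  have key : L * ∑ i ∈ Finset.range n, (ε⁻¹) ^ i • L ^ i =
      ε • ∑ i ∈ Finset.range n, (ε⁻¹) ^ i • L ^ i := by
    have h1 : L * ∑ i ∈ Finset.range n, (ε⁻¹) ^ i • L ^ i =
        ε • ∑ i ∈ Finset.range n, (ε⁻¹) ^ (i + 1) • L ^ (i + 1) := by
      rw [Finset.mul_sum, Finset.smul_sum]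
      apply Finset.sum_congr rfl
      intro i _
      rw [mul_smul_comm, smul_smul, ← pow_succ' L, pow_succ' (ε⁻¹), ← mul_assoc,
        mul_inv_cancel₀ hε0, one_mul]
    rw [h1]
    congr 1
    have h2 := Finset.sum_range_succ' (fun i => (ε⁻¹) ^ i • L ^ i) n
    have h3 := Finset.sum_range_succ (fun i => (ε⁻¹) ^ i • L ^ i) n
    rw [h3] at h2
    simp only [pow_zero, one_smul] at h2
    rw [hL, inv_pow, hε, inv_one, one_smul] at h2
    exact (add_right_cancel h2).symm
  have := congrArg (fun f : V →ₗ[ℂ] V => f v) key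
  simp only [specProj, LinearMap.smul_apply, map_smul]
  rw [smul_comm ε]
  congr 1

lemma specProj_idem (hn : n ≠ 0) (hL : L ^ n = 1) (hε : ε ^ n = 1) :
    IsIdempotentElem (specProj L n ε) := by
  have hε0 : ε ≠ 0 := by
    rintro rfl
    rw [zero_pow hn] at hε
    exact zero_ne_one hε
  ext v
  rw [Module.End.mul_apply]
  exact specProj_apply_of_eigen hn hε0 (L_specProj hn hL hε v)

lemma specProj_ortho (hn : n ≠ 0) (hL : L ^ n = 1) (hε : ε ^ n = 1) {ε' : ℂ}
    (hε' : ε' ^ n = 1) (hne : ε' ≠ ε) :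
    specProj L n ε * specProj L n ε' = 0 := by
  ext v
  rw [Module.End.mul_apply]
  exact specProj_apply_of_eigen_ne hn hε hε' hne (L_specProj hn hL hε' v)

lemma range_specProj (hn : n ≠ 0) (hL : L ^ n = 1) (hε : ε ^ n = 1) :
    LinearMap.range (specProj L n ε) = Module.End.eigenspace L ε := by
  have hε0 : ε ≠ 0 := by
    rintro rfl
    rw [zero_pow hn] at hε
    exact zero_ne_one hε
  ext v
  rw [Module.End.mem_eigenspace_iff]
  constructor
  · rintro ⟨w, rfl⟩
    exact L_specProj hn hL hε w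
  · intro hv
    exact ⟨v, specProj_apply_of_eigen hn hε0 hv⟩

lemma sum_specProj (hn : n ≠ 0) {ζ : ℂ} (hζ : IsPrimitiveRoot ζ n) :
    ∑ a ∈ Finset.range n, specProj L n (ζ ^ a) = 1 := by
  simp only [specProj]
  rw [← Finset.smul_sum, Finset.sum_comm]
  have hinner : ∀ i ∈ Finset.range n,
      ∑ a ∈ Finset.range n, ((ζ ^ a)⁻¹) ^ i • L ^ i =
        (if i = 0 then (n : ℂ) else 0) • L ^ i := by
    intro i hi
    rw [← Finset.sum_smul]
    congr 1
    have hrew : ∀ a : ℕ, ((ζ ^ a)⁻¹) ^ i = ((ζ⁻¹) ^ i) ^ a := by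
      intro a
      rw [← inv_pow, ← pow_mul, ← pow_mul, mul_comm]
    simp only [hrew]
    split_ifs with h0
    · subst h0
      simp
    · have hi' : i < n := Finset.mem_range.mp hi
      have hw1 : (ζ⁻¹) ^ i ≠ 1 :=
        hζ.inv.pow_ne_one_of_pos_of_lt h0 hi'
      have hwn : ((ζ⁻¹) ^ i) ^ n = 1 := by
        rw [← pow_mul, mul_comm, pow_mul, hζ.inv.pow_eq_one, one_pow]
      rw [geom_sum_eq hw1, hwn, sub_self, zero_div]
  rw [Finset.sum_congr rfl hinner, Finset.sum_eq_single 0]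
  · simp [hn]
  · intro i _ hi0
    simp [hi0]
  · intro h0
    exact absurd (Finset.mem_range.mpr (Nat.pos_of_ne_zero hn)) h0

lemma trace_specProj [FiniteDimensional ℂ V] (L : V →ₗ[ℂ] V) (n : ℕ) (ε : ℂ) :
    LinearMap.trace ℂ V (specProj L n ε) =
      (n : ℂ)⁻¹ * ∑ i ∈ Finset.range n, (ε⁻¹) ^ i * LinearMap.trace ℂ V (L ^ i) := by
  simp [specProj]

/-- Dimension of the eigenspace = trace of the spectral projector. -/
lemma finrank_eigenspace_eq [FiniteDimensional ℂ V] (hn : n ≠ 0) (hL : L ^ n = 1)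
    (hε : ε ^ n = 1) :
    (finrank ℂ (Module.End.eigenspace L ε) : ℂ) =
      (n : ℂ)⁻¹ * ∑ i ∈ Finset.range n, (ε⁻¹) ^ i * LinearMap.trace ℂ V (L ^ i) := by
  rw [← range_specProj hn hL hε, finrank_range_idem _ (specProj_idem hn hL hε),
    trace_specProj]

end Spectral

/-! ## Permutation operators -/

section Perm

variable {Y : Type*}

lemma funLeft_pow (f : Y → Y) (i : ℕ) :
    (LinearMap.funLeft ℂ ℂ f) ^ i = LinearMap.funLeft ℂ ℂ (f^[i]) := by
  induction i with
  | zero =>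
    ext v y
    simp [LinearMap.funLeft_apply]
  | succ i ih =>
    rw [pow_succ', ih]
    ext v y
    simp [LinearMap.funLeft_apply]

lemma trace_funLeft [Fintype Y] [DecidableEq Y] (f : Y → Y) :
    LinearMap.trace ℂ (Y → ℂ) (LinearMap.funLeft ℂ ℂ f) =
      ((Finset.univ.filter fun y => f y = y).card : ℂ) := by
  rw [LinearMap.trace_eq_matrix_trace ℂ (Pi.basisFun ℂ Y), Matrix.trace]
  simp [LinearMap.funLeft_apply, Pi.single_apply, Finset.sum_boole]

lemma funLeft_perm_pow (σ : Equiv.Perm Y) (i : ℕ) :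
    (LinearMap.funLeft ℂ ℂ σ) ^ i = LinearMap.funLeft ℂ ℂ ⇑(σ ^ i) := by
  rw [funLeft_pow, Equiv.Perm.iterate_eq_pow]

lemma funLeft_perm_pow_eq_one (σ : Equiv.Perm Y) {n : ℕ} (hσ : σ ^ n = 1) :
    (LinearMap.funLeft ℂ ℂ σ) ^ n = 1 := by
  rw [funLeft_perm_pow, hσ]
  ext v y
  simp [LinearMap.funLeft_apply]

lemma trace_funLeft_perm_pow [Fintype Y] [DecidableEq Y] (σ : Equiv.Perm Y) (i : ℕ) :
    LinearMap.trace ℂ (Y → ℂ) ((LinearMap.funLeft ℂ ℂ σ) ^ i) =
      ((Finset.univ.filter fun y => (σ ^ i) y = y).card : ℂ) := by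
  rw [funLeft_perm_pow, trace_funLeft]

/-- **P1.1** -/
theorem finrank_invariants_of_sq_eq_one {Y : Type} [Fintype Y] [DecidableEq Y]
    (σ : Equiv.Perm Y) (hσ : σ ^ 2 = 1) (ε : ℂ) (hε : ε = 1 ∨ ε = -1) :
    (finrank ℂ (Module.End.eigenspace (LinearMap.funLeft ℂ ℂ σ) ε) : ℂ) =
      ((Fintype.card Y : ℂ) + ε * (Finset.univ.filter fun y => σ y = y).card) / 2 := by
  have hε2 : ε ^ 2 = 1 := by
    rcases hε with rfl | rfl <;> norm_num
  have hεinv : ε⁻¹ = ε := by
    rcases hε with rfl | rfl <;> norm_num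
  rw [finrank_eigenspace_eq (n := 2) two_ne_zero (funLeft_perm_pow_eq_one σ hσ) hε2]
  simp only [Finset.sum_range_succ, Finset.sum_range_zero, zero_add, trace_funLeft_perm_pow,
    pow_zero, pow_one, one_mul, hεinv]
  simp only [Equiv.Perm.coe_one, id_eq, Finset.filter_true_of_mem, Finset.mem_univ,
    implies_true, Finset.card_univ]
  push_cast
  ring

/-- **P1.2** -/
theorem finrank_invariants_of_cube_eq_one {Y : Type} [Fintype Y] [DecidableEq Y]
    (σ : Equiv.Perm Y) (hσ : σ ^ 3 = 1) (ε : ℂ) (hε : ε ^ 3 = 1) :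
    (finrank ℂ (Module.End.eigenspace (LinearMap.funLeft ℂ ℂ σ) ε) : ℂ) =
      ((Fintype.card Y : ℂ) +
        (if ε = 1 then 2 else -1) * (Finset.univ.filter fun y => σ y = y).card) / 3 := by
  have hε0 : ε ≠ 0 := by
    rintro rfl
    norm_num at hε
  have hεinv : ε⁻¹ = ε ^ 2 := by
    field_simp
    rw [← hε]
  have hfix : (Finset.univ.filter fun y => (σ ^ 2) y = y) =
      (Finset.univ.filter fun y => σ y = y) := by
    ext y
    simp only [Finset.mem_filter, Finset.mem_univ, true_and]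
    have h3 : σ (σ (σ y)) = y := by
      have := congrArg (fun τ : Equiv.Perm Y => τ y) hσ
      simpa [pow_succ, Equiv.Perm.mul_apply] using this
    have h2 : (σ ^ 2) y = σ (σ y) := by
      simp [pow_succ, Equiv.Perm.mul_apply]
    rw [h2]
    constructor
    · intro h
      have : σ (σ (σ y)) = σ y := by rw [h]
      rw [h3] at this
      exact this.symm
    · intro h
      rw [h, h]
  have hcoef : ε⁻¹ + (ε⁻¹) ^ 2 = if ε = 1 then 2 else -1 := by
    rw [hεinv]
    split_ifs with h1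
    · subst h1
      norm_num
    · have h0 : (ε - 1) * (ε ^ 2 + ε + 1) = 0 := by
        ring_nf
        rw [hε]
        ring
      have h2 : ε ^ 2 + ε + 1 = 0 := by
        rcases mul_eq_zero.mp h0 with h | h
        · exact absurd (sub_eq_zero.mp h) h1
        · exact h
      have h4 : (ε ^ 2) ^ 2 = ε := by
        have : (ε ^ 2) ^ 2 = ε ^ 3 * ε := by ring
        rw [this, hε, one_mul]
      rw [h4]
      linear_combination h2
  rw [finrank_eigenspace_eq (n := 3) three_ne_zero (funLeft_perm_pow_eq_one σ hσ) hε]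
  simp only [Finset.sum_range_succ, Finset.sum_range_zero, zero_add, trace_funLeft_perm_pow,
    pow_zero, pow_one, one_mul, hfix]
  simp only [Equiv.Perm.coe_one, id_eq, Finset.filter_true_of_mem, Finset.mem_univ,
    implies_true, Finset.card_univ]
  rw [← hcoef]
  push_cast
  ring

end Perm

/-! ## The one-parameter group attached to a permutation of finite order -/

section PermTheta

open Complex

variable {Y : Type} (σ : Equiv.Perm Y) (n : ℕ)

/-- the standard primitive `n`-th root of unity -/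
def zeta (n : ℕ) : ℂ := Complex.exp (2 * Real.pi * Complex.I / n)

lemma zeta_prim {n : ℕ} (hn : n ≠ 0) : IsPrimitiveRoot (zeta n) n :=
  Complex.isPrimitiveRoot_exp n hn

lemma zeta_pow_pow {n : ℕ} (hn : n ≠ 0) (a : ℕ) : (zeta n ^ a) ^ n = 1 := by
  rw [← pow_mul, mul_comm, pow_mul, (zeta_prim hn).pow_eq_one, one_pow]

lemma zeta_pow_inj {n : ℕ} (hn : n ≠ 0) {a b : ℕ} (ha : a < n) (hb : b < n)
    (h : zeta n ^ a = zeta n ^ b) : a = b :=
  (zeta_prim hn).pow_inj ha hb h

lemma conj_zeta (n : ℕ) : (starRingEnd ℂ) (zeta n) = (zeta n)⁻¹ := by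
  rw [zeta, ← Complex.exp_conj, ← Complex.exp_neg]
  congr 1
  simp only [map_div₀, map_mul, Complex.conj_ofReal, Complex.conj_I, map_natCast, map_ofNat]
  ring

/-- the operator `L = funLeft σ` -/
abbrev opL : (Y → ℂ) →ₗ[ℂ] (Y → ℂ) := LinearMap.funLeft ℂ ℂ σ

/-- the projector onto the `ζ^a`-eigenspace -/
def pr (a : ℕ) : (Y → ℂ) →ₗ[ℂ] (Y → ℂ) := specProj (opL σ) n (zeta n ^ a)

/-- `Θ(s) = ∑_{a<n} exp(2πi a s / n) pr a` -/
def theta (s : ℂ) : (Y → ℂ) →ₗ[ℂ] (Y → ℂ) :=
  ∑ a ∈ Finset.range n, Complex.exp (2 * Real.pi * Complex.I * a * s / n) • pr σ n a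

/-- rank of `pr a` -/
def rk (a : ℕ) : ℕ := finrank ℂ (LinearMap.range (pr σ n a))

variable {σ n}

lemma pr_idem (hn : n ≠ 0) (hσ : σ ^ n = 1) (a : ℕ) : IsIdempotentElem (pr σ n a) :=
  specProj_idem hn (funLeft_perm_pow_eq_one σ hσ) (zeta_pow_pow hn a)

lemma pr_ortho (hn : n ≠ 0) (hσ : σ ^ n = 1) {a b : ℕ} (ha : a < n) (hb : b < n)
    (hab : a ≠ b) : pr σ n a * pr σ n b = 0 :=
  specProj_ortho hn (funLeft_perm_pow_eq_one σ hσ) (zeta_pow_pow hn a) (zeta_pow_pow hn b)
    (fun h => hab (zeta_pow_inj hn ha hb h.symm))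

lemma sum_pr (hn : n ≠ 0) : ∑ a ∈ Finset.range n, pr σ n a = 1 :=
  sum_specProj hn (zeta_prim hn)

lemma theta_zero (hn : n ≠ 0) : theta σ n 0 = 1 := by
  simp [theta, sum_pr hn]

lemma theta_add (hn : n ≠ 0) (hσ : σ ^ n = 1) (s t : ℂ) :
    theta σ n (s + t) = theta σ n s * theta σ n t := by
  simp only [theta]
  rw [Finset.sum_mul]
  apply Finset.sum_congr rfl
  intro a ha
  rw [Finset.mul_sum, Finset.sum_eq_single a]
  · rw [smul_mul_smul_comm, (pr_idem hn hσ a).eq, ← Complex.exp_add]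
    congr 2
    ring
  · intro b hb hba
    rw [smul_mul_smul_comm, pr_ortho hn hσ (Finset.mem_range.mp ha) (Finset.mem_range.mp hb)
      (Ne.symm hba), smul_zero]
  · intro h
    exact absurd ha h

lemma det_theta [Finite Y] (hn : n ≠ 0) (hσ : σ ^ n = 1) (s : ℂ) :
    LinearMap.det (theta σ n s) =
      Complex.exp (2 * Real.pi * Complex.I * s / n * ∑ a ∈ Finset.range n, (a : ℂ) * rk σ n a) := by
  rw [theta, det_sum_smul_idem (Finset.range n) (pr σ n) _ (fun a _ => pr_idem hn hσ a)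
    (fun a ha b hb hab => pr_ortho hn hσ (Finset.mem_range.mp ha) (Finset.mem_range.mp hb) hab)
    (sum_pr hn)]
  rw [Finset.mul_sum, Complex.exp_sum]
  apply Finset.prod_congr rfl
  intro a _
  rw [← Complex.exp_nat_mul]
  congr 1
  simp only [rk]
  ring

/-- the number of fixed points of `σ ^ i` -/
def fixCount [Fintype Y] [DecidableEq Y] (σ : Equiv.Perm Y) (i : ℕ) : ℕ :=
  (Finset.univ.filter fun y => (σ ^ i) y = y).card

lemma rk_eq_trace [Fintype Y] [DecidableEq Y] (hn : n ≠ 0) (hσ : σ ^ n = 1) (a : ℕ) :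
    (rk σ n a : ℂ) =
      (n : ℂ)⁻¹ * ∑ i ∈ Finset.range n, ((zeta n ^ a)⁻¹) ^ i * (fixCount σ i : ℂ) := by
  rw [rk, finrank_range_idem _ (pr_idem hn hσ a), pr, trace_specProj]
  simp only [trace_funLeft_perm_pow, fixCount]

lemma inv_eq_of_eq_inv' {x y : ℂ} (h : x * y = 1) : x⁻¹ = y := by
  have hx : x ≠ 0 := by
    rintro rfl
    simp at h
  field_simp
  linear_combination -h

lemma rk_reflect [Fintype Y] [DecidableEq Y] (hn : n ≠ 0) (hσ : σ ^ n = 1) {a : ℕ}
    (ha : a ≤ n) : rk σ n (n - a) = rk σ n a := by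
  have hcast : (rk σ n (n - a) : ℂ) = (rk σ n a : ℂ) := by
    have h1 : (starRingEnd ℂ) (rk σ n a : ℂ) = (rk σ n a : ℂ) := Complex.conj_natCast _
    rw [← h1, rk_eq_trace hn hσ, rk_eq_trace hn hσ]
    simp only [map_mul, map_inv₀, map_sum, map_pow, Complex.conj_natCast, conj_zeta]
    congr 1
    apply Finset.sum_congr rfl
    intro i _
    congr 2
    have hz0 : zeta n ≠ 0 := (zeta_prim hn).ne_zero hn
    have h2 : zeta n ^ (n - a) * zeta n ^ a = 1 := by
      rw [← pow_add, Nat.sub_add_cancel ha, (zeta_prim hn).pow_eq_one]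
    rw [inv_pow, inv_inv]
    exact inv_eq_of_eq_inv' h2
  exact_mod_cast hcast

lemma sum_rk [Fintype Y] (hn : n ≠ 0) (hσ : σ ^ n = 1) :
    ∑ a ∈ Finset.range n, (rk σ n a : ℂ) = Fintype.card Y := by
  have h := congrArg (LinearMap.trace ℂ (Y → ℂ)) (sum_pr (σ := σ) hn)
  rw [map_sum, LinearMap.trace_one, Module.finrank_fintype_fun_eq_card] at h
  rw [← h]
  apply Finset.sum_congr rfl
  intro a _
  rw [rk, finrank_range_idem _ (pr_idem hn hσ a)]

lemma two_mul_sum_mul_rk [Fintype Y] [DecidableEq Y] (hn : n ≠ 0) (hσ : σ ^ n = 1) :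
    2 * ∑ a ∈ Finset.range n, (a : ℂ) * rk σ n a = n * ((Fintype.card Y : ℂ) - rk σ n 0) := by
  obtain ⟨m, rfl⟩ := Nat.exists_eq_succ_of_ne_zero hn
  have hsum := sum_rk (σ := σ) hn hσ
  rw [Finset.sum_range_succ'] at hsum
  rw [Finset.sum_range_succ']
  simp only [Nat.cast_zero, zero_mul, add_zero]
  have hrefl : ∑ j ∈ Finset.range m, ((j + 1 : ℕ) : ℂ) * rk σ (m + 1) (j + 1) =
      ∑ j ∈ Finset.range m, ((m - j : ℕ) : ℂ) * rk σ (m + 1) (j + 1) := by
    rw [← Finset.sum_range_reflect]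
    apply Finset.sum_congr rfl
    intro j hj
    have hj' : j < m := Finset.mem_range.mp hj
    have e1 : m - 1 - j + 1 = m - j := by omega
    have e2 : m - j = (m + 1) - (j + 1) := by omega
    rw [e1]
    congr 1
    rw [e2, rk_reflect hn hσ (by omega)]
  have hadd : 2 * ∑ j ∈ Finset.range m, ((j + 1 : ℕ) : ℂ) * rk σ (m + 1) (j + 1) =
      ∑ j ∈ Finset.range m, ((m + 1 : ℕ) : ℂ) * rk σ (m + 1) (j + 1) := by
    rw [two_mul]
    nth_rewrite 2 [hrefl]
    rw [← Finset.sum_add_distrib]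
    apply Finset.sum_congr rfl
    intro j hj
    have hj' : j < m := Finset.mem_range.mp hj
    rw [← add_mul]
    congr 1
    rw [← Nat.cast_add]
    congr 1
    omega
  rw [hadd, ← Finset.mul_sum, ← hsum]
  ring

/-- determinant of `theta` in closed form -/
lemma det_theta' [Fintype Y] [DecidableEq Y] (hn : n ≠ 0) (hσ : σ ^ n = 1) (s : ℂ) :
    LinearMap.det (theta σ n s) =
      Complex.exp (Real.pi * Complex.I * s * ((Fintype.card Y : ℂ) - rk σ n 0)) := by
  rw [det_theta hn hσ]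
  congr 1
  have h := two_mul_sum_mul_rk (σ := σ) hn hσ
  have hn' : (n : ℂ) ≠ 0 := Nat.cast_ne_zero.mpr hn
  have h2 : ∑ a ∈ Finset.range n, (a : ℂ) * rk σ n a =
      n * ((Fintype.card Y : ℂ) - rk σ n 0) / 2 := by
    rw [← h]
    ring
  rw [h2]
  field_simp

/-- The invariants of a permutation operator: if `r` is an equivalence relation such that
`σ`-invariant functions are exactly the functions constant on `r`-classes, the `1`-eigenspace
has dimension the number of classes. -/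
lemma finrank_eigenspace_one [Finite Y] (r : Setoid Y) (h1 : ∀ y, r (σ y) y)
    (h2 : ∀ v : Y → ℂ, (∀ y, v (σ y) = v y) → ∀ y y', r y y' → v y = v y') :
    finrank ℂ (Module.End.eigenspace (opL σ) 1) = Nat.card (Quotient r) := by
  let _ := Fintype.ofFinite (Quotient r)
  set Φ : (Quotient r → ℂ) →ₗ[ℂ] (Y → ℂ) :=
    LinearMap.funLeft ℂ ℂ (Quotient.mk r) with hΦ
  have hinj : Function.Injective Φ :=
    LinearMap.funLeft_injective_of_surjective ℂ ℂ _ Quotient.mk_surjective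
  have hrange : LinearMap.range Φ = Module.End.eigenspace (opL σ) 1 := by
    ext v
    rw [Module.End.mem_eigenspace_iff, one_smul]
    constructor
    · rintro ⟨w, rfl⟩
      ext y
      simp only [hΦ, LinearMap.funLeft_apply]
      congr 1
      exact Quotient.sound (h1 y)
    · intro hv
      have hv' : ∀ y, v (σ y) = v y := fun y => congrFun hv y
      refine ⟨Quotient.lift v (fun y y' hyy' => h2 v hv' y y' hyy'), ?_⟩
      ext y
      simp [hΦ, LinearMap.funLeft_apply]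
  rw [← hrange, LinearMap.finrank_range_of_inj hinj, Module.finrank_fintype_fun_eq_card,
    Nat.card_eq_fintype_card]

lemma rk_zero [Finite Y] (hn : n ≠ 0) (hσ : σ ^ n = 1) (r : Setoid Y) (h1 : ∀ y, r (σ y) y)
    (h2 : ∀ v : Y → ℂ, (∀ y, v (σ y) = v y) → ∀ y y', r y y' → v y = v y') :
    rk σ n 0 = Nat.card (Quotient r) := by
  rw [rk, pr, pow_zero, range_specProj hn (funLeft_perm_pow_eq_one σ hσ) (one_pow n)]
  exact finrank_eigenspace_one r h1 h2

end PermTheta

/-! ## Specialisation to `Core.lean` -/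

section Core

open UpperHalfPlane ModularForm CongruenceSubgroup MatrixGroups
open scoped Real

variable (Γ : Subgroup SL(2, ℤ))

/-- the permutation `x ↦ T⁻¹ • x` of `X Γ` -/
def sigmaT : Equiv.Perm (X Γ) := (MulAction.toPermHom SL(2, ℤ) (X Γ) ModularGroup.T)⁻¹

lemma sigmaT_apply (x : X Γ) : sigmaT Γ x = (ModularGroup.T)⁻¹ • x := by
  simp [sigmaT]

lemma shiftT_eq : shiftT Γ = opL (sigmaT Γ) := by
  ext v x
  simp [shiftT, LinearMap.funLeft_apply, sigmaT_apply]

lemma sigmaT_pow_per : sigmaT Γ ^ per Γ = 1 := by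
  rw [sigmaT, inv_pow, per, pow_orderOf_eq_one, inv_one]

variable [Γ.FiniteIndex]

lemma per_ne_zero : per Γ ≠ 0 := by
  have : Finite (X Γ) := Subgroup.finite_quotient_of_finiteIndex
  have : 0 < per Γ := orderOf_pos _
  exact this.ne'

lemma proj_eq (a : ℕ) : proj Γ a = pr (sigmaT Γ) (per Γ) a := by
  have hn : (per Γ : ℂ) ≠ 0 := Nat.cast_ne_zero.mpr (per_ne_zero Γ)
  rw [proj, pr, specProj, shiftT_eq]
  congr 1
  apply Finset.sum_congr rfl
  intro i _
  congr 1
  rw [zeta, ← Complex.exp_nat_mul, ← Complex.exp_neg, ← Complex.exp_nat_mul]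
  congr 1
  field_simp

lemma Theta_eq (s : ℂ) : Theta Γ s = theta (sigmaT Γ) (per Γ) s := by
  simp only [Theta, theta, proj_eq]

/-- **P1.4** -/
theorem Theta_zero : Theta Γ 0 = LinearMap.id := by
  rw [Theta_eq, theta_zero (per_ne_zero Γ)]
  rfl

/-- **P1.4** -/
theorem Theta_add (s t : ℂ) : Theta Γ (s + t) = Theta Γ s ∘ₗ Theta Γ t := by
  rw [Theta_eq, Theta_eq, Theta_eq, theta_add (per_ne_zero Γ) (sigmaT_pow_per Γ)]
  rfl

/-- **P1.3** : determinant of `Theta`. -/
theorem det_Theta (s : ℂ) : LinearMap.det (Theta Γ s) =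
    Complex.exp (π * Complex.I * s * ((Nat.card (X Γ) : ℂ) -
      Nat.card (MulAction.orbitRel.Quotient (Subgroup.zpowers ModularGroup.T) (X Γ)))) := by
  classical
  have : Finite (X Γ) := Subgroup.finite_quotient_of_finiteIndex
  let _ : Fintype (X Γ) := Fintype.ofFinite _
  rw [Theta_eq, det_theta' (per_ne_zero Γ) (sigmaT_pow_per Γ), Nat.card_eq_fintype_card]
  congr 4
  rw [rk_zero (per_ne_zero Γ) (sigmaT_pow_per Γ)
    (MulAction.orbitRel (Subgroup.zpowers ModularGroup.T) (X Γ))]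
  · intro y
    rw [sigmaT_apply]
    refine ⟨⟨(ModularGroup.T)⁻¹, Subgroup.inv_mem _ (Subgroup.mem_zpowers _)⟩, rfl⟩
  · intro v hv y y' hyy'
    -- the stabiliser of `v`
    let H : Subgroup SL(2, ℤ) :=
      { carrier := {g | ∀ y, v (g • y) = v y}
        mul_mem' := by
          intro a b ha hb y
          rw [mul_smul, ha, hb]
        one_mem' := by
          intro y
          rw [one_smul]
        inv_mem' := by
          intro a ha y
          have := ha (a⁻¹ • y)
          rw [smul_inv_smul] at this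
          exact this.symm }
    have hT : (ModularGroup.T)⁻¹ ∈ H := by
      intro y
      have := hv y
      rwa [sigmaT_apply] at this
    have hT' : ModularGroup.T ∈ H := by
      have := H.inv_mem hT
      rwa [inv_inv] at this
    have hle : Subgroup.zpowers ModularGroup.T ≤ H := (Subgroup.zpowers_le).mpr hT'
    obtain ⟨⟨g, hg⟩, rfl⟩ := hyy'
    exact hle hg y'

end Core

end Fermat.Agent.S20.P1h225

end
end
-- ===== PACK-END S20/P1_helper225.lean

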