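import Mathlib
import Fermat.Prelude.Def_GaloisRep_Residual
import Mathlib.AlgebraicGeometry.EllipticCurve.Affine.Point
import Mathlib.FieldTheory.IsAlgClosed.Basic
import Fermat.Prelude.Def_FLTPrelim_GaloisRep
import Fermat.Prelude.Def_FLTPrelim_ModularRep
import Fermat.Prelude.Def_ModularCurve_PeriodHomPair
import Fermat.Agent.Pack.S44C.G0E5L1
import Fermat.Agent.Pack.S44C.G0E6L0
import Fermat.Agent.Pack.S44C.G0E0L1
import Fermat.Agent.Pack.S44C.G0E6L1
import Fermat.Agent.Pack.S44C.G0E6L3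
import Fermat.Agent.Pack.S44C.G0E0L2
import Fermat.Agent.Pack.S44C.G0E6L2
import Fermat.Agent.Pack.S44C.G0E0L3
import Fermat.Agent.Pack.S44C.G0E7L1
import Fermat.Agent.Pack.S44C.G0E8L0
import Fermat.Agent.Pack.Fast891

-- ===== PACK-BEGIN S24/Deg/H648JBound.lean
section


/-!
# S24 / M6-AN (helper648): the concrete `j`-function satisfies the hypotheses of
`J_scale_mem_goodRing`
-/

set_option autoImplicit false

noncomputable section

open UpperHalfPlane ModularGroup CongruenceSubgroup Polynomial ModularForm Filter Asymptotics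
open scoped MatrixGroups Manifold Modular Real

namespace Fermat.Agent.S24.H648

/-- A continuous function on `ℍ` which is `O(exp(2π m im τ))` at `i∞` is bounded by a multiple
of `exp(2π m im τ)` on the whole fundamental domain. -/
lemma exists_bound_fd_of_isBigO_exp {f : ℍ → ℂ} (hf : Continuous f) (m : ℝ)
    (hO : f =O[atImInfty] fun τ : ℍ => Real.exp (2 * π * m * τ.im)) :
    ∃ C : ℝ, ∀ τ : ℍ, τ ∈ 𝒟 → ‖f τ‖ ≤ C * Real.exp (2 * π * m * τ.im) := by
  obtain ⟨D, hD, hO'⟩ := hO.exists_pos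
  rw [IsBigOWith, atImInfty, eventually_comap, eventually_atTop] at hO'
  obtain ⟨y, hy⟩ := hO'
  have hfm : ContinuousOn (fun τ : ℍ => ‖f τ‖ / Real.exp (2 * π * m * τ.im))
      (truncatedFundamentalDomain y) := by
    apply Continuous.continuousOn
    refine hf.norm.div ?_ fun τ => (Real.exp_pos _).ne'
    exact Real.continuous_exp.comp (continuous_const.mul UpperHalfPlane.continuous_im)
  obtain ⟨E, hE⟩ : ∃ E, ∀ τ ∈ truncatedFundamentalDomain y,
      ‖f τ‖ / Real.exp (2 * π * m * τ.im) ≤ E := by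
    obtain ⟨E, hE⟩ := (isCompact_truncatedFundamentalDomain y).exists_bound_of_continuousOn hfm
    refine ⟨E, fun τ hτ => ?_⟩
    have := hE τ hτ
    rwa [Real.norm_of_nonneg (by positivity)] at this
  refine ⟨max D E, fun τ hτ => ?_⟩
  rcases le_total y (im τ) with hτ' | hτ'
  · have := hy _ hτ' τ rfl
    rw [Real.norm_of_nonneg (Real.exp_pos _).le] at this
    exact this.trans (mul_le_mul_of_nonneg_right (le_max_left _ _) (Real.exp_pos _).le)
  · rw [← div_le_iff₀ (Real.exp_pos _)]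
    exact (hE τ ⟨hτ, hτ'⟩).trans (le_max_right _ _)

/-- The analytic `j`-function `E₄³/Δ`. -/
def jFun (τ : ℍ) : ℂ := E₄ τ ^ 3 / ModularForm.discriminant τ

lemma jFun_def (τ : ℍ) : jFun τ = E₄ τ ^ 3 / ModularForm.discriminant τ := rfl

lemma mdifferentiable_jFun : MDifferentiable 𝓘(ℂ) 𝓘(ℂ) jFun := by
  have h4 : MDifferentiable 𝓘(ℂ) 𝓘(ℂ) (E₄ : ℍ → ℂ) := ModularFormClass.holo E₄
  have hΔ : MDifferentiable 𝓘(ℂ) 𝓘(ℂ) (ModularForm.discriminant : ℍ → ℂ) :=
    ModularFormClass.holo CuspForm.discriminant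
  rw [UpperHalfPlane.mdifferentiable_iff] at h4 hΔ ⊢
  have : DifferentiableOn ℂ
      (fun z => ((E₄ : ℍ → ℂ) ∘ ofComplex) z ^ 3 / ((ModularForm.discriminant : ℍ → ℂ) ∘ ofComplex) z)
      {z | 0 < z.im} :=
    (h4.pow 3).div hΔ fun z _ => discriminant_ne_zero _
  exact this

lemma jFun_smul (γ : SL(2, ℤ)) (τ : ℍ) : jFun (γ • τ) = jFun τ := by
  have : SlashInvariantFormClass (ModularForm 𝒮ℒ 4) Γ(1) 4 := Gamma_one_coe_eq_SL ▸ inferInstance
  have : SlashInvariantFormClass (CuspForm 𝒮ℒ 12) Γ(1) 12 :=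
    Gamma_one_coe_eq_SL ▸ inferInstance
  have h4 := SlashInvariantForm.slash_action_eqn_SL'' E₄ (mem_Gamma_one γ) τ
  have h12 := SlashInvariantForm.slash_action_eqn_SL'' CuspForm.discriminant (mem_Gamma_one γ) τ
  have hd : denom γ τ ≠ 0 := denom_ne_zero _ τ
  have hΔ : ModularForm.discriminant τ ≠ 0 := discriminant_ne_zero τ
  have h12' : ModularForm.discriminant (γ • τ) = denom γ τ ^ (12 : ℤ) * ModularForm.discriminant τ :=
    h12
  rw [jFun_def, jFun_def, h4, h12']
  have e1 : (denom γ τ ^ (4 : ℤ) * E₄ τ) ^ 3 = denom γ τ ^ (12 : ℤ) * E₄ τ ^ 3 := by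
    rw [mul_pow, ← zpow_natCast, ← zpow_mul]
    norm_num
  rw [e1, mul_div_mul_left _ _ (zpow_ne_zero _ hd)]

lemma continuous_jFun : Continuous jFun := mdifferentiable_jFun.continuous

lemma jFun_isBigO : jFun =O[atImInfty] fun τ : ℍ => Real.exp (2 * π * (1 : ℝ) * τ.im) := by
  have h4 : IsBoundedAtImInfty (E₄ : ℍ → ℂ) := ModularFormClass.bdd_at_infty E₄
  have h4' : (fun τ : ℍ => E₄ τ ^ 3) =O[atImInfty] (fun _ : ℍ => (1 : ℝ)) := by
    have h1 : (E₄ : ℍ → ℂ) =O[atImInfty] (fun _ : ℍ => (1 : ℝ)) := h4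
    simpa using h1.pow 3
  have hΔ := exp_isBigO_discriminant
  -- `1/Δ = O(exp(2π im))`
  have hinv : (fun τ : ℍ => (ModularForm.discriminant τ)⁻¹)
      =O[atImInfty] fun τ : ℍ => (Real.exp (-2 * π * τ.im))⁻¹ := by
    refine hΔ.inv_rev ?_
    exact Eventually.of_forall fun τ h => absurd h (Real.exp_pos _).ne'
  have hmul := h4'.mul hinv
  refine (hmul.congr_left fun τ => by rw [jFun_def, div_eq_mul_inv]).congr_right fun τ => ?_
  rw [one_mul, ← Real.exp_neg]
  congr 1
  ring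

theorem jFun_bound_fd :
    ∃ C : ℝ, ∀ τ : ℍ, τ ∈ 𝒟 → ‖jFun τ‖ ≤ C * Real.exp (2 * π * τ.im) := by
  obtain ⟨C, hC⟩ := exists_bound_fd_of_isBigO_exp continuous_jFun 1 jFun_isBigO
  exact ⟨C, fun τ hτ => by simpa using hC τ hτ⟩

/-- **`τ ↦ j (d τ)` is a good function of level `N` for `d ∣ N`.** -/
theorem jFun_scale_mem_goodRing (N : ℕ) (d : ℕ) (hd : 0 < d) (hdN : d ∣ N) (s : ℍ → ℍ)
    (hs : ∀ τ : ℍ, (s τ : ℂ) = d * τ) : (fun τ => jFun (s τ)) ∈ goodRing N :=
  J_scale_mem_goodRing N mdifferentiable_jFun jFun_smul jFun_bound_fd d hd hdN s hs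

end Fermat.Agent.S24.H648

end
end
-- ===== PACK-END S24/Deg/H648JBound.lean

-- ===== PACK-BEGIN S28/H88/PrimeLevel.lean
section
/-
S28 (Igusa) -- helper88: prime-level step [L2]: `j(q^p) ∉ k(j)` for `(p : k) ≠ 0`.
Inputs (explicit hypotheses): the unit polynomial `UnitPolyData p` and the θ-identity
`(θ j)^6 = Δ j^4 (j - 1728)^3` over `ℤ`.
-/


set_option autoImplicit false

noncomputable section

open ModularCurve HahnSeries

namespace Fermat.Agent.S28

section KeyOrder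

variable (k : Type*) [Field k]

/-- The coefficient of `q^{-deg P}` in `P(j)` is the leading coefficient of `P`. -/
theorem h88_coeff_aeval_jqModC (P : Polynomial k) :
    (Polynomial.aeval (jqModC k) P).coeff (-(P.natDegree : ℤ)) = P.leadingCoeff := by
  rw [Polynomial.aeval_eq_sum_range, HahnSeries.coeff_sum,
    Finset.sum_eq_single_of_mem P.natDegree (Finset.self_mem_range_succ _)]
  · rw [Algebra.smul_def, algebraMap_laurentSeries_eq_single, HahnSeries.coeff_single_zero_mul,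
      coeff_jqModC_pow_self, mul_one]; rfl
  · intro i hi hne
    have hlt : i < P.natDegree :=
      lt_of_le_of_ne (Nat.lt_succ_iff.mp (Finset.mem_range.mp hi)) hne
    rw [Algebra.smul_def, algebraMap_laurentSeries_eq_single, HahnSeries.coeff_single_zero_mul,
      coeff_jqModC_pow_of_lt k (by omega), mul_zero]

theorem h88_aeval_jqModC_injective :
    Function.Injective (Polynomial.aeval (jqModC k) : Polynomial k →ₐ[k] LaurentSeries k) := by
  rw [injective_iff_map_eq_zero]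
  intro P hP
  have h := h88_coeff_aeval_jqModC k P
  rw [hP, HahnSeries.coeff_zero] at h
  exact Polynomial.leadingCoeff_eq_zero.mp h.symm

theorem h88_order_aeval_jqModC_le {P : Polynomial k} (hP : P ≠ 0) :
    (Polynomial.aeval (jqModC k) P).order ≤ 0 := by
  have h : (Polynomial.aeval (jqModC k) P).coeff (-(P.natDegree : ℤ)) ≠ 0 := by
    rw [h88_coeff_aeval_jqModC]
    exact Polynomial.leadingCoeff_ne_zero.mpr hP
  have := HahnSeries.order_le_of_coeff_ne_zero h
  omega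

theorem h88_jqModC_mem_jField : jqModC k ∈ jField k :=
  IntermediateField.subset_adjoin k _ (Set.mem_singleton _)

/-- Chain rule: `θ` maps `k(j)` into `k(j) · θ j`. -/
theorem h88_chain_rule {x : LaurentSeries k} (hx : x ∈ jField k) :
    ∃ c ∈ jField k, thetaL k x = c * thetaL k (jqModC k) := by
  unfold jField at hx
  induction hx using IntermediateField.adjoin_induction with
  | mem x hx =>
    rw [Set.mem_singleton_iff] at hx; subst hx
    exact ⟨1, one_mem _, (one_mul _).symm⟩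
  | algebraMap c =>
    refine ⟨0, zero_mem _, ?_⟩
    rw [zero_mul, algebraMap_laurentSeries_eq_single]
    exact h88_thetaL_single_zero c
  | add x y hx hy ihx ihy =>
    obtain ⟨a, ha, hxa⟩ := ihx
    obtain ⟨b, hb, hyb⟩ := ihy
    exact ⟨a + b, add_mem ha hb, by rw [h88_thetaL_add, hxa, hyb, add_mul]⟩
  | inv x hx ih =>
    obtain ⟨a, ha, hxa⟩ := ih
    refine ⟨-a * x⁻¹ * x⁻¹, mul_mem (mul_mem (neg_mem ha) (inv_mem hx)) (inv_mem hx), ?_⟩
    by_cases hx0 : x = 0
    · subst hx0; simp [h88_thetaL_zero]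
    · have h1 : thetaL k (x * x⁻¹) = 0 := by
        rw [mul_inv_cancel₀ hx0]; exact h88_thetaL_one
      rw [h88_thetaL_mul, hxa] at h1
      have h2 : x * thetaL k x⁻¹ = -(a * thetaL k (jqModC k) * x⁻¹) :=
        eq_neg_of_add_eq_zero_right h1
      have h3 : thetaL k x⁻¹ = x⁻¹ * (x * thetaL k x⁻¹) := by
        rw [← mul_assoc, inv_mul_cancel₀ hx0, one_mul]
      rw [h3, h2]; ring
  | mul x y hx hy ihx ihy =>
    obtain ⟨a, ha, hxa⟩ := ihx
    obtain ⟨b, hb, hyb⟩ := ihy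
    exact ⟨a * y + x * b, add_mem (mul_mem ha hy) (mul_mem hx hb), by
      rw [h88_thetaL_mul, hxa, hyb]; ring⟩

end KeyOrder

section DeltaCoeff

variable (R : Type*) [CommRing R]

theorem h88_deltaL_coeff_of_le {m : ℤ} (hm : m ≤ 0) : (deltaL R).coeff m = 0 := by
  rw [deltaL, HahnSeries.coeff_single_mul, ofPowerSeries_coeff_of_neg _ (by omega), mul_zero]

theorem h88_deltaL_coeff_one : (deltaL R).coeff 1 = 1 := by
  rw [deltaL, HahnSeries.coeff_single_mul, sub_self, one_mul]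
  have h := HahnSeries.ofPowerSeries_apply_coeff (Γ := ℤ)
    (dedekindEtaUnit.map (Int.castRingHom R)) 0
  rw [Nat.cast_zero] at h
  rw [h, PowerSeries.coeff_map, PowerSeries.coeff_zero_eq_constantCoeff,
    constantCoeff_dedekindEtaUnit]
  simp

theorem h88_qExpand_deltaL_coeff_of_lt (p : ℕ) [NeZero p] {n : ℤ} (hn : n < p) :
    (qExpand R p (deltaL R)).coeff n = 0 := by
  by_cases hdvd : (p : ℤ) ∣ n
  · obtain ⟨m, rfl⟩ := hdvd
    rw [qExpand_coeff_mul]
    apply h88_deltaL_coeff_of_le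
    by_contra hm
    rw [not_le] at hm
    have hp : (0 : ℤ) < p := by exact_mod_cast Nat.pos_of_ne_zero (NeZero.ne p)
    nlinarith
  · exact qExpand_coeff_of_not_dvd p _ hdvd

end DeltaCoeff

section Transport

variable (k : Type*) [Field k]

theorem h88_coeffMap_comp_evalAt :
    (coeffMap (Int.castRingHom k)).comp (evalAt (jqModC ℤ)) = evalAt (jqModC k) := by
  apply Polynomial.ringHom_ext
  · intro a
    simp [evalAt]
  · simp [evalAt, coeffMap_jqModC]

/-- The θ-identity over `k`, transported from `ℤ`. -/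
theorem h88_theta_identity_field
    (hθ : (thetaL ℤ (jqModC ℤ)) ^ 6 = deltaL ℤ * (jqModC ℤ) ^ 4 * (jqModC ℤ - 1728) ^ 3) :
    (thetaL k (jqModC k)) ^ 6 = deltaL k * (jqModC k) ^ 4 * (jqModC k - 1728) ^ 3 := by
  have h := congrArg (coeffMap (Int.castRingHom k)) hθ
  simpa only [map_pow, map_mul, map_sub, h88_coeffMap_thetaL, coeffMap_jqModC,
    h88_coeffMap_deltaL, map_ofNat] using h

/-- The unit polynomial relation over `k`, transported from `ℤ`. -/
theorem h88_unitPoly_field (p : ℕ) [NeZero p] (W : UnitPolyData p) :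
    W.W.eval₂ (evalAt (jqModC k)) ((p : LaurentSeries k) ^ 12 * unitL k p) = 0 := by
  have h := congrArg (coeffMap (Int.castRingHom k)) W.eval_unit
  rw [Polynomial.hom_eval₂, map_zero, map_mul, map_pow, map_natCast, h88_coeffMap_unitL,
    h88_coeffMap_comp_evalAt] at h
  exact h

end Transport

section RatFuncEmbedding

variable (k : Type*) [Field k]

/-- The embedding `k(X) → k((q))`, `X ↦ j`. -/
def h88_iota : RatFunc k →ₐ[k] LaurentSeries k :=
  RatFunc.liftAlgHom (Polynomial.aeval (jqModC k))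
    (nonZeroDivisors_le_comap_nonZeroDivisors_of_injective _ (h88_aeval_jqModC_injective k))

theorem h88_iota_injective : Function.Injective (h88_iota k) :=
  RatFunc.liftAlgHom_injective _ (h88_aeval_jqModC_injective k)

theorem h88_iota_algebraMap (P : Polynomial k) :
    h88_iota k (algebraMap (Polynomial k) (RatFunc k) P) = Polynomial.aeval (jqModC k) P := by
  have h := RatFunc.liftAlgHom_apply_div (Polynomial.aeval (jqModC k))
    (nonZeroDivisors_le_comap_nonZeroDivisors_of_injective _ (h88_aeval_jqModC_injective k)) P 1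
  simpa [h88_iota] using h

theorem h88_jField_le_range : jField k ≤ (h88_iota k).fieldRange := by
  unfold jField
  rw [IntermediateField.adjoin_le_iff]
  intro x hx
  rw [Set.mem_singleton_iff] at hx
  subst hx
  exact ⟨algebraMap (Polynomial k) (RatFunc k) Polynomial.X,
    (h88_iota_algebraMap k Polynomial.X).trans (Polynomial.aeval_X _)⟩

/-- An element of `k(j)` which is a root of a monic polynomial with coefficients in the
image of `ℤ[j]` is a polynomial in `j`. -/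
theorem h88_exists_poly_of_integral {w : LaurentSeries k} (hw : w ∈ jField k)
    (W : Polynomial (Polynomial ℤ)) (hW : W.Monic)
    (hroot : W.eval₂ (evalAt (jqModC k)) w = 0) :
    ∃ P : Polynomial k, w = Polynomial.aeval (jqModC k) P := by
  obtain ⟨r, hr⟩ := h88_jField_le_range k hw
  let ψ : Polynomial ℤ →+* Polynomial k := Polynomial.mapRingHom (Int.castRingHom k)
  have hcomp : ((h88_iota k).toRingHom.comp (algebraMap (Polynomial k) (RatFunc k))).comp ψ
      = evalAt (jqModC k) := by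
    apply Polynomial.ringHom_ext
    · intro a
      simp [ψ, evalAt]
    · show h88_iota k (algebraMap (Polynomial k) (RatFunc k)
          (Polynomial.map (Int.castRingHom k) Polynomial.X))
        = Polynomial.aeval (jqModC k) Polynomial.X
      rw [Polynomial.map_X, h88_iota_algebraMap, Polynomial.aeval_X]
      exact (Polynomial.aeval_X (R := ℤ) (jqModC k)).symm
  have hint : IsIntegral (Polynomial k) r := by
    refine ⟨W.map ψ, hW.map ψ, ?_⟩
    apply h88_iota_injective k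
    rw [map_zero, Polynomial.eval₂_map]
    have h2 := Polynomial.hom_eval₂ W ((algebraMap (Polynomial k) (RatFunc k)).comp ψ)
      (h88_iota k).toRingHom r
    rw [← RingHom.comp_assoc, hcomp, hr, hroot] at h2
    exact h2
  obtain ⟨P, hP⟩ := IsIntegrallyClosed.isIntegral_iff.mp hint
  refine ⟨P, ?_⟩
  rw [← h88_iota_algebraMap, hP]
  exact hr.symm

end RatFuncEmbedding

section Main

variable (k : Type*) [Field k]

theorem h88_natCast_mem_jField (n : ℕ) : (n : LaurentSeries k) ∈ jField k :=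
  natCast_mem _ n

theorem h88_natCast_ne_zero {p : ℕ} (hpk : (p : k) ≠ 0) : (p : LaurentSeries k) ≠ 0 := by
  have h : (p : LaurentSeries k) = algebraMap k (LaurentSeries k) (p : k) :=
    (map_natCast _ p).symm
  rw [h]
  exact (map_ne_zero (algebraMap k (LaurentSeries k))).mpr hpk

theorem h88_deltaL_ne_zero : deltaL k ≠ 0 := by
  intro h
  have := h88_deltaL_coeff_one k
  rw [h, HahnSeries.coeff_zero] at this
  exact zero_ne_one this

theorem h88_qExpand_jqModC_coeff (p : ℕ) [NeZero p] :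
    (qExpand k p (jqModC k)).coeff (-(p : ℤ)) = 1 := by
  have h := qExpand_coeff_mul (R := k) p (jqModC k) (-1)
  rw [coeff_jqModC_neg_one] at h
  rw [← h]
  congr 1
  ring

/-- **[L2]** For `(p : k) ≠ 0`, `p > 1`: `j(q^p) ∉ k(j)`. -/
theorem h88_jp_not_mem_jField (p : ℕ) [NeZero p] (hpk : (p : k) ≠ 0) (hp1 : 1 < p)
    (W : UnitPolyData p)
    (hθ : (thetaL ℤ (jqModC ℤ)) ^ 6 = deltaL ℤ * (jqModC ℤ) ^ 4 * (jqModC ℤ - 1728) ^ 3) :
    qExpand k p (jqModC k) ∉ jField k := by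
  intro hmem
  have hθk := h88_theta_identity_field k hθ
  have hjmem := h88_jqModC_mem_jField k
  have hp0 : (p : LaurentSeries k) ≠ 0 := h88_natCast_ne_zero k hpk
  have hpmem : (p : LaurentSeries k) ∈ jField k := h88_natCast_mem_jField k p
  have h1728 : (1728 : LaurentSeries k) ∈ jField k := by
    have := h88_natCast_mem_jField k 1728
    rwa [Nat.cast_ofNat] at this
  have hd := h88_deltaL_mul_deltaInvL k
  obtain ⟨c, hc, hcj⟩ := h88_chain_rule k hmem
  have h1 : thetaL k (qExpand k p (jqModC k))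
      = (p : LaurentSeries k) * qExpand k p (thetaL k (jqModC k)) :=
    h88_thetaL_qExpand p (jqModC k)
  have hVθ : (qExpand k p (thetaL k (jqModC k))) ^ 6
      = qExpand k p (deltaL k) * (qExpand k p (jqModC k)) ^ 4
        * (qExpand k p (jqModC k) - 1728) ^ 3 := by
    have h := congrArg (qExpand k p) hθk
    simpa only [map_pow, map_mul, map_sub, map_ofNat] using h
  have h2 : (p : LaurentSeries k) ^ 6 * (qExpand k p (deltaL k) * (qExpand k p (jqModC k)) ^ 4
        * (qExpand k p (jqModC k) - 1728) ^ 3)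
      = c ^ 6 * (deltaL k * (jqModC k) ^ 4 * (jqModC k - 1728) ^ 3) := by
    rw [← hVθ, ← hθk, ← mul_pow, ← mul_pow, ← h1, hcj]
  have h3 : (p : LaurentSeries k) ^ 6 * unitL k p * ((qExpand k p (jqModC k)) ^ 4
        * (qExpand k p (jqModC k) - 1728) ^ 3)
      = c ^ 6 * ((jqModC k) ^ 4 * (jqModC k - 1728) ^ 3) := by
    have h : (p : LaurentSeries k) ^ 6 * (qExpand k p (deltaL k) * (qExpand k p (jqModC k)) ^ 4
              * (qExpand k p (jqModC k) - 1728) ^ 3) * deltaInvL k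
        = c ^ 6 * (deltaL k * (jqModC k) ^ 4 * (jqModC k - 1728) ^ 3) * deltaInvL k := by
      rw [h2]
    unfold unitL
    calc _ = (p : LaurentSeries k) ^ 6 * (qExpand k p (deltaL k) * (qExpand k p (jqModC k)) ^ 4
              * (qExpand k p (jqModC k) - 1728) ^ 3) * deltaInvL k := by ring
      _ = c ^ 6 * (deltaL k * (jqModC k) ^ 4 * (jqModC k - 1728) ^ 3) * deltaInvL k := h
      _ = c ^ 6 * ((jqModC k) ^ 4 * (jqModC k - 1728) ^ 3) * (deltaL k * deltaInvL k) := by ring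
      _ = _ := by rw [hd, mul_one]
  have hp_neg : (-(p : ℤ)) ≠ 0 := by
    have : (0 : ℤ) < p := by exact_mod_cast Nat.pos_of_ne_zero (NeZero.ne p)
    omega
  have hVj : qExpand k p (jqModC k) ≠ 0 := by
    intro h
    have := h88_qExpand_jqModC_coeff k p
    rw [h, HahnSeries.coeff_zero] at this
    exact zero_ne_one this
  have hVj' : qExpand k p (jqModC k) - 1728 ≠ 0 := by
    intro h
    have h4 := h88_qExpand_jqModC_coeff k p
    have h5 : qExpand k p (jqModC k) = ((1728 : ℕ) : LaurentSeries k) := by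
      rw [Nat.cast_ofNat]; exact sub_eq_zero.mp h
    have h6 : ((1728 : ℕ) : LaurentSeries k) = HahnSeries.single 0 ((1728 : ℕ) : k) := by
      rw [← algebraMap_laurentSeries_eq_single, map_natCast]
    rw [h5, h6, HahnSeries.coeff_single_of_ne hp_neg] at h4
    exact zero_ne_one h4
  have hden : (p : LaurentSeries k) ^ 6 * ((qExpand k p (jqModC k)) ^ 4
        * (qExpand k p (jqModC k) - 1728) ^ 3) ≠ 0 :=
    mul_ne_zero (pow_ne_zero _ hp0) (mul_ne_zero (pow_ne_zero _ hVj) (pow_ne_zero _ hVj'))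
  have hu : unitL k p ∈ jField k := by
    have h : unitL k p = c ^ 6 * ((jqModC k) ^ 4 * (jqModC k - 1728) ^ 3)
        * ((p : LaurentSeries k) ^ 6 * ((qExpand k p (jqModC k)) ^ 4
          * (qExpand k p (jqModC k) - 1728) ^ 3))⁻¹ := by
      rw [eq_mul_inv_iff_mul_eq₀ hden, ← h3]; ring
    rw [h]
    exact mul_mem (mul_mem (pow_mem hc 6)
      (mul_mem (pow_mem hjmem 4) (pow_mem (sub_mem hjmem h1728) 3)))
      (inv_mem (mul_mem (pow_mem hpmem 6)
        (mul_mem (pow_mem hmem 4) (pow_mem (sub_mem hmem h1728) 3))))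
  have hw : (p : LaurentSeries k) ^ 12 * unitL k p ∈ jField k :=
    mul_mem (pow_mem hpmem 12) hu
  obtain ⟨P, hP⟩ := h88_exists_poly_of_integral k hw W.W W.monic (h88_unitPoly_field k p W)
  -- order contradiction
  have hwΔ : Polynomial.aeval (jqModC k) P * deltaL k
      = (p : LaurentSeries k) ^ 12 * qExpand k p (deltaL k) := by
    rw [← hP]
    unfold unitL
    calc _ = (p : LaurentSeries k) ^ 12 * qExpand k p (deltaL k) * (deltaL k * deltaInvL k) := by
          ring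
      _ = _ := by rw [hd, mul_one]
  have hVΔ : qExpand k p (deltaL k) ≠ 0 := fun h =>
    h88_deltaL_ne_zero k (qExpand_injective p (by rw [h, map_zero]))
  have hrhs : (p : LaurentSeries k) ^ 12 * qExpand k p (deltaL k) ≠ 0 :=
    mul_ne_zero (pow_ne_zero _ hp0) hVΔ
  have hP0 : P ≠ 0 := by
    intro h
    rw [h, map_zero, zero_mul] at hwΔ
    exact hrhs hwΔ.symm
  have hPj : Polynomial.aeval (jqModC k) P ≠ 0 := fun h =>
    hP0 (h88_aeval_jqModC_injective k (by rw [h, map_zero]))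
  have hord : (Polynomial.aeval (jqModC k) P * deltaL k).order ≤ 1 := by
    rw [HahnSeries.order_mul hPj (h88_deltaL_ne_zero k)]
    have ha := h88_order_aeval_jqModC_le k hP0
    have hb : (deltaL k).order ≤ 1 := HahnSeries.order_le_of_coeff_ne_zero (by
      rw [h88_deltaL_coeff_one]; exact one_ne_zero)
    omega
  have hne : (Polynomial.aeval (jqModC k) P * deltaL k).coeff
      (Polynomial.aeval (jqModC k) P * deltaL k).order ≠ 0 := by
    rw [Ne, HahnSeries.coeff_order_eq_zero]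
    exact mul_ne_zero hPj (h88_deltaL_ne_zero k)
  have hlt : (Polynomial.aeval (jqModC k) P * deltaL k).order < (p : ℤ) := by
    have : (1 : ℤ) < p := by exact_mod_cast hp1
    omega
  have hzero : ∀ n : ℤ, n < p →
      ((p : LaurentSeries k) ^ 12 * qExpand k p (deltaL k)).coeff n = 0 := by
    intro n hn
    rw [← Nat.cast_pow, ← nsmul_eq_mul, HahnSeries.coeff_smul,
      h88_qExpand_deltaL_coeff_of_lt k p hn, smul_zero]
  rw [hwΔ] at hne hlt
  exact hne (hzero _ hlt)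

end Main

end Fermat.Agent.S28

end

end
-- ===== PACK-END S28/H88/PrimeLevel.lean

-- ===== PACK-BEGIN S28/H325/Glue.lean
section




/-!
# S28, piece [L-glue], part 2: from degree bounds to `CoreData`

Input: integrality of the `j(q^d)` over `ℤ[j]`, an upper bound `n` for the degree of
`F = ℚ(j(q^d) : d ∣ N)` over `ℚ(j)` and `n` elements of `K'(j(q^d) : d ∣ N)` which are linearly
independent over `K'(j)` (for some field `K' ⊇ K`).  Output: `CoreData N K`.
-/

set_option autoImplicit false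

noncomputable section

open ModularCurve HahnSeries Polynomial

namespace Fermat.Agent.S28.H325

/-- reduction of integral `q`-series to a ring `k`. -/
abbrev castL (k : Type*) [CommRing k] : LaurentSeries ℤ →+* LaurentSeries k :=
  coeffMap (Int.castRingHom k)

theorem castL_jqModC (k : Type*) [CommRing k] : castL k (jqModC ℤ) = jqModC k :=
  coeffMap_jqModC _

theorem castL_comp {k k' : Type*} [CommRing k] [CommRing k'] (φ : k →+* k')
    (x : LaurentSeries ℤ) : coeffMap φ (castL k x) = castL k' x := by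
  rw [castL, castL, coeffMap_coeffMap]
  exact coeffMap_congr (RingHom.ext_int _ _) x

theorem castL_image_intDivisorExpansions (k : Type*) [Field k] (N : ℕ) :
    castL k '' intDivisorExpansions N = divisorExpansionsC k N := by
  ext x
  constructor
  · rintro ⟨y, ⟨d, hd, hdN, rfl⟩, rfl⟩
    exact ⟨d, hd, hdN, by rw [castL, coeffMap_qExpand, coeffMap_jqModC]⟩
  · rintro ⟨d, hd, hdN, rfl⟩
    exact ⟨_, ⟨d, hd, hdN, rfl⟩, by rw [castL, coeffMap_qExpand, coeffMap_jqModC]⟩

/-- `jField k` is `k(j)`. -/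
theorem jField_eq (k : Type*) [Field k] : jField k = IntermediateField.adjoin k {jqModC k} := rfl

theorem jqModC_mem_jField (k : Type*) [Field k] : jqModC k ∈ jField k :=
  IntermediateField.subset_adjoin k _ (Set.mem_singleton _)

/-- The transfer theorem: linear independence over `K'(j)` of the reductions implies linear
independence over `K(j)` (for a subfield `K → K'`) and over `ℚ(j)`. -/
theorem linearIndependent_transfer {K K' : Type*} [Field K] [Field K'] (φ : K →+* K') {n : ℕ}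
    (Y : Fin n → LaurentSeries ℤ)
    (h : LinearIndependent (jField K') (fun i => castL K' (Y i))) :
    LinearIndependent (jField K) (fun i => castL K (Y i)) ∧
      LinearIndependent (jField ℚ) (fun i => castL ℚ (Y i)) := by
  have h1 : PolyIndep (jqModC K') (fun i => castL K' (Y i)) :=
    polyIndep_of_linearIndependent (fun P hP => (aeval_jqModC_eq_zero_iff K' P).mp hP) h
  constructor
  · apply linearIndependent_of_polyIndep
    apply PolyIndep.of_injective φ φ.injective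
    rw [coeffMap_jqModC]
    simpa only [castL_comp] using h1
  · have h2 : PolyIndep (jqModC ℤ) Y := by
      apply PolyIndep.int_of_field (k := K')
      rw [coeffMap_jqModC]
      exact h1
    have h3 := PolyIndep.rat_of_int h2
    rw [coeffMap_jqModC] at h3
    exact linearIndependent_of_polyIndep h3

/-! ### Integrality and the monomial spanning set -/

theorem castL_comp_evalAt (k : Type*) [CommRing k] :
    (castL k).comp (evalAt (jqModC ℤ)) = evalAt (jqModC k) := by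
  refine Polynomial.ringHom_ext' (Subsingleton.elim _ _) ?_
  simp [evalAt, castL_jqModC]

/-- `ℤ[X] → k(j)`, `X ↦ j`. -/
def evalJField (k : Type*) [Field k] : Polynomial ℤ →+* jField k :=
  Polynomial.eval₂RingHom (Int.castRingHom (jField k)) ⟨jqModC k, jqModC_mem_jField k⟩

theorem algebraMap_comp_evalJField (k : Type*) [Field k] :
    (algebraMap (jField k) (LaurentSeries k)).comp (evalJField k) = evalAt (jqModC k) := by
  refine Polynomial.ringHom_ext' (Subsingleton.elim _ _) ?_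
  simp [evalAt, evalJField]

theorem isIntegral_jField_of_monic (k : Type*) [Field k] (d : ℕ) [NeZero d]
    (h : ∃ P : Polynomial (Polynomial ℤ), P.Monic ∧
      P.eval₂ (evalAt (jqModC ℤ)) (qExpand ℤ d (jqModC ℤ)) = 0) :
    IsIntegral (jField k) (qExpand k d (jqModC k)) := by
  obtain ⟨P, hmonic, hP⟩ := h
  refine ⟨P.map (evalJField k), hmonic.map _, ?_⟩
  rw [Polynomial.eval₂_map, algebraMap_comp_evalJField, ← castL_comp_evalAt]
  have := congrArg (castL k) hP
  rw [Polynomial.hom_eval₂, map_zero, castL, coeffMap_qExpand, coeffMap_jqModC] at this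
  exact this

/-- Under integrality, `k(j(q^d) : d ∣ N)` is spanned over `k(j)` by the monomials in the
`j(q^d)`. -/
theorem mem_span_monomials_of_mem_full (k : Type*) [Field k] (N : ℕ) [NeZero N]
    (hint : ∀ (d : ℕ) [NeZero d], d ∣ N →
      ∃ P : Polynomial (Polynomial ℤ), P.Monic ∧
        P.eval₂ (evalAt (jqModC ℤ)) (qExpand ℤ d (jqModC ℤ)) = 0)
    {x : LaurentSeries k} (hx : x ∈ modularFunctionFieldFullC k N) :
    x ∈ Submodule.span (jField k)
      ((Submonoid.closure (divisorExpansionsC k N) : Submonoid (LaurentSeries k)) :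
        Set (LaurentSeries k)) := by
  have halg : ∀ y ∈ divisorExpansionsC k N, IsAlgebraic (jField k) y := by
    rintro y ⟨d, hd, hdN, rfl⟩
    exact (isIntegral_jField_of_monic k d (hint d hdN)).isAlgebraic
  have h1 : x ∈ IntermediateField.adjoin (jField k) (divisorExpansionsC k N) := by
    have h2 : modularFunctionFieldFullC k N ≤
        (IntermediateField.adjoin (jField k) (divisorExpansionsC k N)).restrictScalars k := by
      rw [modularFunctionFieldFullC, IntermediateField.adjoin_le_iff]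
      intro y hy
      exact IntermediateField.subset_adjoin (jField k) _ hy
    exact h2 hx
  have h3 := IntermediateField.adjoin_toSubalgebra_of_isAlgebraic halg
  have h4 : x ∈ (IntermediateField.adjoin (jField k) (divisorExpansionsC k N)).toSubalgebra := h1
  rw [h3] at h4
  have h5 := Algebra.adjoin_eq_span (R := jField k) (s := divisorExpansionsC k N)
  have h6 : x ∈ Subalgebra.toSubmodule (Algebra.adjoin (jField k) (divisorExpansionsC k N)) := h4
  rw [h5] at h6
  exact h6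

theorem monomials_subset_full (k : Type*) [Field k] (N : ℕ) :
    ((Submonoid.closure (divisorExpansionsC k N) : Submonoid (LaurentSeries k)) :
        Set (LaurentSeries k)) ⊆ modularFunctionFieldFullC k N := by
  intro x hx
  have : Submonoid.closure (divisorExpansionsC k N) ≤
      (modularFunctionFieldFullC k N).toSubalgebra.toSubmonoid := by
    rw [Submonoid.closure_le]
    intro y hy
    exact IntermediateField.subset_adjoin k _ hy
  exact this hx

theorem castL_image_closure (k : Type*) [Field k] (N : ℕ) :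
    castL k '' ((Submonoid.closure (intDivisorExpansions N) : Submonoid (LaurentSeries ℤ)) :
        Set (LaurentSeries ℤ)) =
      ((Submonoid.closure (divisorExpansionsC k N) : Submonoid (LaurentSeries k)) :
        Set (LaurentSeries k)) := by
  rw [← castL_image_intDivisorExpansions]
  have := MonoidHom.map_mclosure ((castL k : LaurentSeries ℤ →+* LaurentSeries k) :
    LaurentSeries ℤ →* LaurentSeries k) (intDivisorExpansions N)
  have h2 := congrArg (fun S : Submonoid (LaurentSeries k) => (S : Set (LaurentSeries k))) this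
  simp only [Submonoid.coe_map] at h2
  exact h2

/-! ### Extraction of independent monomials -/

open Cardinal in
/-- If `k(j(q^d) : d ∣ N)` contains `n` elements linearly independent over `k(j)`, then there are
`n` integral monomials in the `j(q^d)` whose reductions are linearly independent over `k(j)`. -/
theorem exists_monomials_linearIndependent (k : Type*) [Field k] (N : ℕ) [NeZero N]
    (hint : ∀ (d : ℕ) [NeZero d], d ∣ N →
      ∃ P : Polynomial (Polynomial ℤ), P.Monic ∧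
        P.eval₂ (evalAt (jqModC ℤ)) (qExpand ℤ d (jqModC ℤ)) = 0)
    (n : ℕ)
    (hL : ∃ x : Fin n → LaurentSeries k, (∀ i, x i ∈ modularFunctionFieldFullC k N) ∧
      LinearIndependent (jField k) x) :
    ∃ Y : Fin n → LaurentSeries ℤ,
      (∀ i, Y i ∈ Submonoid.closure (intDivisorExpansions N)) ∧
      LinearIndependent (jField k) (fun i => castL k (Y i)) := by
  classical
  obtain ⟨x, hxF, hxli⟩ := hL
  set T : Set (LaurentSeries k) :=
    ((Submonoid.closure (divisorExpansionsC k N) : Submonoid (LaurentSeries k)) :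
        Set (LaurentSeries k)) with hT
  obtain ⟨b, hbT, hspan, hli⟩ := exists_linearIndependent (jField k) T
  have hxb : ∀ i, x i ∈ Submodule.span (jField k) b := fun i => by
    rw [hspan]
    exact mem_span_monomials_of_mem_full k N hint (hxF i)
  have hli' : LinearIndependent (jField k)
      (fun i => (⟨x i, hxb i⟩ : Submodule.span (jField k) b)) := by
    apply LinearIndependent.of_comp (Submodule.span (jField k) b).subtype
    exact hxli
  have h1 := hli'.cardinal_lift_le_rank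
  have h2 : Module.rank (jField k) (Submodule.span (jField k) b) = #b := rank_span_set hli
  rw [h2] at h1
  obtain ⟨e⟩ := Cardinal.lift_mk_le'.mp h1
  have hmem : ∀ i, ∃ Y : LaurentSeries ℤ,
      Y ∈ Submonoid.closure (intDivisorExpansions N) ∧ castL k Y = (e i : LaurentSeries k) := by
    intro i
    have h3 : (e i : LaurentSeries k) ∈ T := hbT (e i).2
    rw [hT, ← castL_image_closure] at h3
    obtain ⟨Y, hY, hYe⟩ := h3
    exact ⟨Y, hY, hYe⟩
  choose Y hY hYe using hmem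
  refine ⟨Y, hY, ?_⟩
  have h4 : (fun i => castL k (Y i)) = (fun z : b => (z : LaurentSeries k)) ∘ e := by
    funext i
    exact hYe i
  rw [h4]
  exact hli.comp e e.injective

/-! ### Assembly -/

/-- **Glue.** Degree bounds (upper bound `n` over `ℚ`, lower bound `n` over some field `K' ⊇ K`)
together with integrality of the `j(q^d)` produce `CoreData N K`. -/
theorem coreData_of_bounds (N : ℕ) [NeZero N] (K : Type) [Field K] {K' : Type*} [Field K']
    (φ : K →+* K') (n : ℕ)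
    (hint : ∀ (d : ℕ) [NeZero d], d ∣ N →
      ∃ P : Polynomial (Polynomial ℤ), P.Monic ∧
        P.eval₂ (evalAt (jqModC ℤ)) (qExpand ℤ d (jqModC ℤ)) = 0)
    (hU : ∀ (m : ℕ) (x : Fin m → LaurentSeries ℚ), (∀ i, x i ∈ modularFunctionFieldFull N) →
      LinearIndependent (jField ℚ) x → m ≤ n)
    (hL : ∃ x : Fin n → LaurentSeries K', (∀ i, x i ∈ modularFunctionFieldFullC K' N) ∧
      LinearIndependent (jField K') x) :
    CoreData N K := by
  obtain ⟨Y, hY, hYli⟩ := exists_monomials_linearIndependent K' N hint n hL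
  obtain ⟨hK, hQ⟩ := linearIndependent_transfer φ Y hYli
  refine ⟨⟨n, Y, ?_, ?_, hK⟩, fun d _ hd => hint d hd⟩
  · intro i
    have : Submonoid.closure (intDivisorExpansions N) ≤
        (Subring.closure (intDivisorExpansions N)).toSubmonoid := by
      rw [Submonoid.closure_le]
      exact Subring.subset_closure
    exact this (hY i)
  · intro x hx
    by_contra hxs
    have hYF : ∀ i, castL ℚ (Y i) ∈ modularFunctionFieldFull N := by
      intro i
      have h1 : castL ℚ (Y i) ∈ castL ℚ ''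
          ((Submonoid.closure (intDivisorExpansions N) : Submonoid (LaurentSeries ℤ)) :
            Set (LaurentSeries ℤ)) := ⟨Y i, hY i, rfl⟩
      rw [castL_image_closure] at h1
      exact monomials_subset_full ℚ N h1
    have hcons : LinearIndependent (jField ℚ)
        (Fin.cons x (fun i => castL ℚ (Y i)) : Fin (n + 1) → LaurentSeries ℚ) :=
      linearIndependent_finCons.mpr ⟨hQ, hxs⟩
    have := hU (n + 1) _ (fun i => by
      refine Fin.cases ?_ (fun j => ?_) i
      · simpa using hx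
      · simpa using hYF j) hcons
    omega

end Fermat.Agent.S28.H325

end
end
-- ===== PACK-END S28/H325/Glue.lean

-- ===== PACK-BEGIN Ribet/Spec3.lean
section



/-!
# Row RIBET, TARGET S40 (good reduction at `p`): interface statements in `W`-form (helper943)

Frozen S40: `W : WeierstrassCurve ℤ`, `Δ ≠ 0`, `p` odd, `W` good at `p`, `W[p]` irreducible,
`p ‖ M`, `W` residually modular of level `M`  ⊢  `W` residually modular of level `M / p`.

`S40_of_walls : BLR-W → WALL-p (good) → R3S → R3'-W → S40Statement`   (proved below).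

All curve-dependent interfaces are stated for an arbitrary integral Weierstrass curve `W`
(`E = W.map ℤ→ℚ`); the Frey forms of `Spec.lean` are the special case `W = P.freyCurveInt`.
-/

set_option autoImplicit false

open WeierstrassCurve WeierstrassCurve.Affine WeierstrassCurve.Affine.Point
open CuspForm ModularFormClass UpperHalfPlane ModularCurve

namespace Fermat.Agent.Ribet.Spec

/-- `E[p]` for `E = W ⊗ ℚ`. -/
abbrev WTorsion (W : WeierstrassCurve ℤ) (p : ℕ) : Type :=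
  Submodule.torsionBy ℤ ((W.map (Int.castRingHom ℚ))⁄(AlgebraicClosure ℚ)).Point p

/-- The congruence data of `W.IsResiduallyModularOfLevel p N` for a fixed form and ideal. -/
def IsWitnessW (W : WeierstrassCurve ℤ) (p N : ℕ)
    (f : CuspForm (CongruenceSubgroup.Gamma0 N) 2) (𝔪 : Ideal (integralClosure ℤ ℂ)) : Prop :=
  f.IsNormalizedEigenform ∧ 𝔪.IsMaximal ∧ (p : integralClosure ℤ ℂ) ∈ 𝔪 ∧
    ∀ ℓ : ℕ, ℓ.Prime → W.IsGoodPrimeFor ℓ → ¬ ℓ ∣ N → ℓ ≠ p →
      ∃ a : integralClosure ℤ ℂ, (a : ℂ) = ModularFormClass.qCoeff f ℓ ∧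
        a - ((W.apOfModel ℓ : ℤ) : integralClosure ℤ ℂ) ∈ 𝔪

theorem isResiduallyModularOfLevel_iff_exists_witness (W : WeierstrassCurve ℤ) (p N : ℕ) :
    W.IsResiduallyModularOfLevel p N ↔ ∃ f 𝔪, IsWitnessW W p N f 𝔪 :=
  Iff.rfl

/-- A Galois- and Hecke-equivariant embedding of `W[p]` into `J₀(N)`, with `T_ℓ` acting through
`a_ℓ(W)` away from `S`. -/
def WEmbedsIn (W : WeierstrassCurve ℤ) (p N : ℕ) [NeZero N] (S : Finset ℕ) : Prop :=
  ∃ ι : WTorsion W p →+ JZero N, Function.Injective ι ∧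
    (∀ (σ : GQ) (x : WTorsion W p), ι (σ • x) = σ • ι x) ∧
    ∀ ℓ : Nat.Primes, (ℓ : ℕ) ∉ S → ∀ x : WTorsion W p,
      heckeOperatorBar N ℓ (ι x) = W.apOfModel ℓ • ι x

/-- (BLR-W) [row S29, architect helper709]  Boston-Lenstra-Ribet for an arbitrary integral
curve: a congruence witness of level `N` for an irreducible `W[p]`, `p` odd, gives an
equivariant embedding `W[p] ↪ J₀(N)[p]`. -/
def EmbedWStatement : Prop :=
  ∀ (W : WeierstrassCurve ℤ) (p N : ℕ) [NeZero N], W.Δ ≠ 0 → p.Prime → p ≠ 2 →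
    W.ModRepIsIrreducible p →
    ∀ (f : CuspForm (CongruenceSubgroup.Gamma0 N) 2) (𝔪 : Ideal (integralClosure ℤ ℂ)),
      IsWitnessW W p N f 𝔪 → ∃ S : Finset ℕ, WEmbedsIn W p N S

/-- (WALL-p, good reduction)  Mazur-Ribet at `p` in support form: `W` good at `p`, `W[p]`
irreducible and embedded in `J₀(pM')`; then the eigensystem `a_ℓ(W)` occurs in `J₀(M')[p]`. -/
def AtPOccursGoodStatement : Prop :=
  ∀ (W : WeierstrassCurve ℤ) (p M' : ℕ) [NeZero M'] [NeZero (p * M')], W.Δ ≠ 0 → p.Prime →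
    p ≠ 2 → ¬ p ∣ M' → W.IsGoodPrimeFor p → W.ModRepIsIrreducible p →
    ∀ S : Finset ℕ, WEmbedsIn W p (p * M') S →
      ∃ S' : Finset ℕ, S ⊆ S' ∧ OccursIn M' p S' (fun ℓ => W.apOfModel ℓ)

/-- (R3'-W) [frozen S29 + Chebotarev + trace formula]  For an irreducible `W[p]`, a normalised
eigenform congruent to `W` outside a finite set is congruent at every good prime `ℓ ∤ M·p`. -/
def AlmostAllToWitnessWStatement : Prop :=
  ∀ (W : WeierstrassCurve ℤ) (p M : ℕ), W.Δ ≠ 0 → p.Prime → p ≠ 2 → 0 < M →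
    W.ModRepIsIrreducible p →
    ∀ (g : CuspForm (CongruenceSubgroup.Gamma0 M) 2) (𝔪 : Ideal (integralClosure ℤ ℂ))
      (S : Finset ℕ),
      g.IsNormalizedEigenform → 𝔪.IsMaximal → (p : integralClosure ℤ ℂ) ∈ 𝔪 →
      (∀ ℓ : ℕ, ℓ.Prime → ℓ ∉ S →
        ∃ b : integralClosure ℤ ℂ, (b : ℂ) = qCoeff g ℓ ∧
          b - ((W.apOfModel ℓ : ℤ) : integralClosure ℤ ℂ) ∈ 𝔪) →
      IsWitnessW W p M g 𝔪

/-- Frozen S29 as a Prop (consumed by R3'-W). -/
def S29Statement : Prop :=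
  ∀ {N : ℕ} {g : CuspForm (CongruenceSubgroup.Gamma0 N) 2}, g.IsNormalizedEigenform →
    ∀ {p : ℕ}, p.Prime → ∀ {k : Type} [Field k] [CharP k p]
    (φ : integralClosure ℤ ℂ →+* k),
    ∃ ρ : ResidualGaloisRep k, ρ.IsAttachedTo g φ ∧
      ∀ ℓ : ℕ, ℓ.Prime → ¬ ℓ ∣ N * p → ρ.IsUnramifiedAt ℓ

/-- (TF-W)  Trace formula for an integral curve with irreducible `W[p]`. -/
def TraceFormulaWStatement : Prop :=
  ∀ (W : WeierstrassCurve ℤ) (p : ℕ), W.Δ ≠ 0 → p.Prime → p ≠ 2 → W.ModRepIsIrreducible p →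
    ∀ (ℓ : ℕ), ℓ.Prime → ℓ ≠ p → W.IsGoodPrimeFor ℓ →
    ∀ A : ValuationSubring (AlgebraicClosure ℚ), A.LiesOverPrime ℓ →
    ∀ τ : GQ, A.IsFrobeniusAt τ ℓ →
      galoisTrace (S := ℚ) (K := AlgebraicClosure ℚ) (W.map (Int.castRingHom ℚ)) p τ
        = ((W.apOfModel ℓ : ℤ) : ZMod p)

/-- **TARGET S40 from its four inputs.** -/
theorem S40_of_walls (hE : EmbedWStatement) (hWall : AtPOccursGoodStatement)
    (hR3 : EigenformOfOccursAwayStatement) (hR3' : AlmostAllToWitnessWStatement) :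
    S40Statement := by
  intro W hΔ p hp hp2 hgood hirr M hM hpM hp2M hmod
  obtain ⟨M', rfl⟩ := hpM
  have hM'pos : 0 < M' := by
    rcases Nat.eq_zero_or_pos M' with h0 | h0
    · subst h0; simp at hM
    · exact h0
  rw [Nat.mul_div_cancel_left M' hp.pos]
  have hpM' : ¬ p ∣ M' := by
    rintro ⟨k, rfl⟩
    exact hp2M ⟨k, by ring⟩
  haveI : NeZero M' := ⟨hM'pos.ne'⟩
  haveI : NeZero (p * M') := ⟨hM.ne'⟩
  obtain ⟨f, 𝔪, hwit⟩ := hmod
  obtain ⟨S, hemb⟩ := hE W p (p * M') hΔ hp hp2 hirr f 𝔪 hwit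
  obtain ⟨S', -, hocc⟩ := hWall W p M' hΔ hp hp2 hpM' hgood hirr S hemb
  obtain ⟨g, 𝔪', hg, hmax, hpm, hc⟩ := exists_eigenform_of_occursIn hR3 hp hocc
  exact ⟨g, 𝔪', hR3' W p M' hΔ hp hp2 hM'pos hirr g 𝔪' _ hg hmax hpm hc⟩

end Fermat.Agent.Ribet.Spec

end
-- ===== PACK-END Ribet/Spec3.lean

-- ===== PACK-BEGIN S14/H74/Support.lean
section


/-!
# S14/N1 (helper74): the support of `rho` (piece P5a)

On the support of `rho` all the `normAtPlace w x` are comparable with `‖x‖`.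
-/

namespace Fermat.Agent.S14.H74

open NumberField NumberField.mixedEmbedding NumberField.Units
  NumberField.Units.dirichletUnitTheorem NumberField.InfinitePlace Module

open scoped Classical

variable {K : Type*} [Field K] [NumberField K]

theorem normAtPlace_le_norm (w : InfinitePlace K) (x : mixedSpace K) :
    normAtPlace w x ≤ ‖x‖ := by
  classical
  rw [norm_eq_sup'_normAtPlace]
  exact Finset.le_sup' (fun w ↦ normAtPlace w x) (Finset.mem_univ w)

theorem exists_norm_eq_normAtPlace (x : mixedSpace K) : ∃ w, ‖x‖ = normAtPlace w x := by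
  classical
  obtain ⟨w, -, hw⟩ := Finset.exists_mem_eq_sup' Finset.univ_nonempty
    (fun w : InfinitePlace K ↦ normAtPlace w x)
  exact ⟨w, by rw [norm_eq_sup'_normAtPlace, hw]⟩

theorem log_norm_eq_sum {x : mixedSpace K} (hx : mixedEmbedding.norm x ≠ 0) :
    Real.log (mixedEmbedding.norm x) = ∑ w, (mult w : ℝ) * Real.log (normAtPlace w x) := by
  rw [mixedEmbedding.norm_apply, Real.log_prod]
  · exact Finset.sum_congr rfl fun w _ ↦ by rw [Real.log_pow]
  · intro w _
    exact pow_ne_zero _ (mixedEmbedding.norm_ne_zero_iff.mp hx w)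

theorem norm_ne_zero_of_rho_ne_zero {x : mixedSpace K} (h : rho K x ≠ 0) :
    mixedEmbedding.norm x ≠ 0 := by
  intro h0
  exact h (by simp [rho, h0])

theorem rho_eq_prod {x : mixedSpace K} (hx : mixedEmbedding.norm x ≠ 0) :
    rho K x = ∏ j, tent (logCoord K x j) := by
  simp [rho, hx]

theorem rho_nonneg (x : mixedSpace K) : 0 ≤ rho K x := by
  unfold rho
  split_ifs
  · exact le_rfl
  · exact Finset.prod_nonneg fun j _ ↦ tent_nonneg _

theorem rho_le_one (x : mixedSpace K) : rho K x ≤ 1 := by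
  unfold rho
  split_ifs
  · exact zero_le_one
  · exact Finset.prod_le_one (fun j _ ↦ tent_nonneg _) fun j _ ↦ tent_le_one _

theorem abs_logCoord_lt_one_of_rho_ne_zero {x : mixedSpace K} (h : rho K x ≠ 0)
    (j : Fin (rank K)) : |logCoord K x j| < 1 := by
  have hx := norm_ne_zero_of_rho_ne_zero h
  rw [rho_eq_prod hx] at h
  exact abs_lt_one_of_tent_ne_zero fun h0 ↦ h (Finset.prod_eq_zero (Finset.mem_univ j) h0)

theorem logMap_eq_sum_logCoord (x : mixedSpace K) :
    logMap x = ∑ j, logCoord K x j • ((basisUnitLattice K).ofZLatticeBasis ℝ (unitLattice K)) j :=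
  (((basisUnitLattice K).ofZLatticeBasis ℝ (unitLattice K)).sum_repr (logMap x)).symm

/-- A bound for `logMap` on the support of `rho`. -/
theorem exists_logMap_bound : ∃ B : ℝ, 0 ≤ B ∧ ∀ x : mixedSpace K, rho K x ≠ 0 →
    ‖logMap x‖ ≤ B := by
  refine ⟨∑ j, ‖((basisUnitLattice K).ofZLatticeBasis ℝ (unitLattice K)) j‖,
    Finset.sum_nonneg fun j _ ↦ norm_nonneg _, fun x hx ↦ ?_⟩
  rw [logMap_eq_sum_logCoord x]
  refine (norm_sum_le _ _).trans (Finset.sum_le_sum fun j _ ↦ ?_)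
  rw [_root_.norm_smul, Real.norm_eq_abs]
  exact mul_le_of_le_one_left (norm_nonneg _) (abs_logCoord_lt_one_of_rho_ne_zero hx j).le

theorem sum_mult_mul_log_sub {x : mixedSpace K} (hx : mixedEmbedding.norm x ≠ 0) :
    ∑ w : InfinitePlace K, (mult w : ℝ) * (Real.log (normAtPlace w x) -
      Real.log (mixedEmbedding.norm x) * (finrank ℚ K : ℝ)⁻¹) = 0 := by
  have h1 : (∑ w : InfinitePlace K, (mult w : ℝ)) = (finrank ℚ K : ℝ) := by
    rw [← Nat.cast_sum, sum_mult_eq]
  have h2 : (finrank ℚ K : ℝ) ≠ 0 := Nat.cast_ne_zero.mpr finrank_pos.ne'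
  simp_rw [mul_sub]
  rw [Finset.sum_sub_distrib, ← log_norm_eq_sum hx, ← Finset.sum_mul, h1]
  field_simp
  ring

/-- On the support of `rho`, all `log (normAtPlace w x)` are within a bounded distance of
`log (norm x) / n`. -/
theorem exists_log_normAtPlace_bound : ∃ B : ℝ, 0 ≤ B ∧ ∀ x : mixedSpace K, rho K x ≠ 0 →
    ∀ w, |Real.log (normAtPlace w x) -
      Real.log (mixedEmbedding.norm x) * (finrank ℚ K : ℝ)⁻¹| ≤ B := by
  obtain ⟨B, hB0, hB⟩ := exists_logMap_bound (K := K)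
  refine ⟨(Fintype.card (InfinitePlace K) + 1) * B, by positivity, fun x hx w ↦ ?_⟩
  have hN := norm_ne_zero_of_rho_ne_zero hx
  set d : InfinitePlace K → ℝ := fun w ↦ Real.log (normAtPlace w x) -
      Real.log (mixedEmbedding.norm x) * (finrank ℚ K : ℝ)⁻¹ with hd
  have hne : ∀ w : InfinitePlace K, w ≠ w₀ → |(mult w : ℝ) * d w| ≤ B := by
    intro w hw
    have h1 : logMap x ⟨w, hw⟩ = (mult w : ℝ) * d w := by simp [hd]
    rw [← h1]
    exact (norm_le_pi_norm (logMap x) ⟨w, hw⟩).trans (hB x hx)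
  have hall : ∀ w : InfinitePlace K, |(mult w : ℝ) * d w| ≤ Fintype.card (InfinitePlace K) * B := by
    intro w
    by_cases hw : w = w₀
    · have hsum := sum_mult_mul_log_sub hN
      rw [← Finset.add_sum_erase Finset.univ _ (Finset.mem_univ w)] at hsum
      have h2 : (mult w : ℝ) * d w = - ∑ v ∈ Finset.univ.erase w, (mult v : ℝ) * d v := by
        linarith
      rw [h2, abs_neg]
      refine (Finset.abs_sum_le_sum_abs _ _).trans ?_
      calc ∑ v ∈ Finset.univ.erase w, |(mult v : ℝ) * d v|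
          ≤ ∑ v ∈ Finset.univ.erase w, B := by
            refine Finset.sum_le_sum fun v hv ↦ hne v ?_
            rw [← hw]
            exact Finset.ne_of_mem_erase hv
        _ = (Finset.univ.erase w).card * B := by rw [Finset.sum_const, nsmul_eq_mul]
        _ ≤ Fintype.card (InfinitePlace K) * B := by
            gcongr
            exact Finset.card_le_univ _
    · refine (hne w hw).trans ?_
      have : (1 : ℝ) ≤ Fintype.card (InfinitePlace K) := by
        exact_mod_cast Fintype.card_pos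
      nlinarith
  have h1 : |d w| ≤ |(mult w : ℝ) * d w| := by
    rw [abs_mul, abs_of_nonneg (by positivity : (0 : ℝ) ≤ mult w)]
    exact le_mul_of_one_le_left (abs_nonneg _) one_le_mult
  refine h1.trans ((hall w).trans ?_)
  nlinarith

/-- On the support of `rho`, all `normAtPlace w x` are comparable with `‖x‖`. -/
theorem exists_support_bound : ∃ A : ℝ, 1 ≤ A ∧ ∀ x : mixedSpace K, rho K x ≠ 0 →
    ∀ w, ‖x‖ ≤ A * normAtPlace w x := by
  obtain ⟨B, hB0, hB⟩ := exists_log_normAtPlace_bound (K := K)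
  refine ⟨Real.exp (2 * B), Real.one_le_exp (by positivity), fun x hx w ↦ ?_⟩
  have hN := norm_ne_zero_of_rho_ne_zero hx
  have hpos : ∀ v, 0 < normAtPlace v x := fun v ↦
    lt_of_le_of_ne (normAtPlace_nonneg v x) (mixedEmbedding.norm_ne_zero_iff.mp hN v).symm
  obtain ⟨v, hv⟩ := exists_norm_eq_normAtPlace x
  rw [hv]
  have h1 := abs_le.mp (hB x hx v)
  have h2 := abs_le.mp (hB x hx w)
  have h3 : Real.log (normAtPlace v x) ≤ 2 * B + Real.log (normAtPlace w x) := by linarith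
  calc normAtPlace v x = Real.exp (Real.log (normAtPlace v x)) := (Real.exp_log (hpos v)).symm
    _ ≤ Real.exp (2 * B + Real.log (normAtPlace w x)) := Real.exp_le_exp.mpr h3
    _ = Real.exp (2 * B) * normAtPlace w x := by rw [Real.exp_add, Real.exp_log (hpos w)]

end Fermat.Agent.S14.H74

end
-- ===== PACK-END S14/H74/Support.lean

-- ===== PACK-BEGIN Lib/Red/H290/RedCurve.lean
section




/-!
# Reduction of a Weierstrass curve with integral coefficients (S52 piece A1b, part 2)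

`IsRedOf A φ W Wκ`: the coefficients of `W : Affine K` lie in `A` and reduce (under
`rd A φ`) to those of `Wκ : Affine κ`.  We show that the polynomial expressions of the group law
(`negY`, `addX`, `addY`, the equation, the nonsingularity condition) commute with reduction.
-/

set_option autoImplicit false

namespace Fermat.Agent.Lib.Red.H290

open WeierstrassCurve WeierstrassCurve.Affine
open Fermat.Agent.S05.SameRed (IntegralCoeffs InKer)

variable {K : Type*} [Field K] {κ : Type*} [Field κ]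

/-- `Wκ` is the reduction of `W` along `φ : A →+* κ`. -/
structure IsRedOf (A : ValuationSubring K) (φ : A →+* κ) (W : Affine K) (Wκ : Affine κ) :
    Prop where
  m₁ : W.a₁ ∈ A
  m₂ : W.a₂ ∈ A
  m₃ : W.a₃ ∈ A
  m₄ : W.a₄ ∈ A
  m₆ : W.a₆ ∈ A
  a₁ : rd A φ W.a₁ = Wκ.a₁
  a₂ : rd A φ W.a₂ = Wκ.a₂
  a₃ : rd A φ W.a₃ = Wκ.a₃
  a₄ : rd A φ W.a₄ = Wκ.a₄
  a₆ : rd A φ W.a₆ = Wκ.a₆

variable {A : ValuationSubring K} {φ : A →+* κ} {W : Affine K} {Wκ : Affine κ}

lemma IsRedOf.integralCoeffs (h : IsRedOf A φ W Wκ) : IntegralCoeffs W A.valuation :=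
  ⟨val_le_of_mem h.m₁, val_le_of_mem h.m₂, val_le_of_mem h.m₃, val_le_of_mem h.m₄,
    val_le_of_mem h.m₆⟩

/-- The reduction of a curve over `A` itself. -/
lemma isRedOf_map (W₀ : WeierstrassCurve A) :
    IsRedOf A φ (W₀.map (algebraMap A K)).toAffine (W₀.map φ).toAffine where
  m₁ := W₀.a₁.2
  m₂ := W₀.a₂.2
  m₃ := W₀.a₃.2
  m₄ := W₀.a₄.2
  m₆ := W₀.a₆.2
  a₁ := rd_coe W₀.a₁
  a₂ := rd_coe W₀.a₂
  a₃ := rd_coe W₀.a₃
  a₄ := rd_coe W₀.a₄
  a₆ := rd_coe W₀.a₆

/-- Lifting data: the coefficients as elements of `A`. -/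
lemma IsRedOf.exists_lift (h : IsRedOf A φ W Wκ) :
    ∃ c₁ c₂ c₃ c₄ c₆ : A, (c₁ : K) = W.a₁ ∧ (c₂ : K) = W.a₂ ∧ (c₃ : K) = W.a₃ ∧
      (c₄ : K) = W.a₄ ∧ (c₆ : K) = W.a₆ ∧ φ c₁ = Wκ.a₁ ∧ φ c₂ = Wκ.a₂ ∧ φ c₃ = Wκ.a₃ ∧
      φ c₄ = Wκ.a₄ ∧ φ c₆ = Wκ.a₆ :=
  ⟨⟨_, h.m₁⟩, ⟨_, h.m₂⟩, ⟨_, h.m₃⟩, ⟨_, h.m₄⟩, ⟨_, h.m₆⟩, rfl, rfl, rfl, rfl, rfl,
    by rw [← h.a₁, rd_of_mem h.m₁], by rw [← h.a₂, rd_of_mem h.m₂],
    by rw [← h.a₃, rd_of_mem h.m₃], by rw [← h.a₄, rd_of_mem h.m₄],
    by rw [← h.a₆, rd_of_mem h.m₆]⟩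

lemma coe_two : (((2 : A) : K)) = 2 := rfl
lemma coe_three : (((3 : A) : K)) = 3 := rfl

section poly

variable (h : IsRedOf A φ W Wκ)
include h

lemma negY_mem {x y : K} (hx : x ∈ A) (hy : y ∈ A) : W.negY x y ∈ A := by
  simp only [Affine.negY]
  exact A.sub_mem (A.sub_mem (A.neg_mem _ hy) (A.mul_mem _ _ h.m₁ hx)) h.m₃

lemma rd_negY {x y : K} (hx : x ∈ A) (hy : y ∈ A) :
    rd A φ (W.negY x y) = Wκ.negY (rd A φ x) (rd A φ y) := by
  obtain ⟨c₁, c₂, c₃, c₄, c₆, e₁, e₂, e₃, e₄, e₆, f₁, f₂, f₃, f₄, f₆⟩ := h.exists_lift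
  lift x to A using hx
  lift y to A using hy
  simp only [Affine.negY, ← e₁, ← e₃, ← f₁, ← f₃]
  have : (-(y : K) - c₁ * x - c₃) = ((-y - c₁ * x - c₃ : A) : K) := by push_cast; rfl
  rw [this, rd_coe, rd_coe, rd_coe]
  simp only [map_sub, map_neg, map_mul]

lemma addX_mem {x₁ x₂ ℓ : K} (hx₁ : x₁ ∈ A) (hx₂ : x₂ ∈ A) (hℓ : ℓ ∈ A) :
    W.addX x₁ x₂ ℓ ∈ A := by
  simp only [Affine.addX]
  exact A.sub_mem (A.sub_mem (A.sub_mem (A.add_mem _ _ (pow_mem hℓ 2) (A.mul_mem _ _ h.m₁ hℓ))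
    h.m₂) hx₁) hx₂

lemma rd_addX {x₁ x₂ ℓ : K} (hx₁ : x₁ ∈ A) (hx₂ : x₂ ∈ A) (hℓ : ℓ ∈ A) :
    rd A φ (W.addX x₁ x₂ ℓ) = Wκ.addX (rd A φ x₁) (rd A φ x₂) (rd A φ ℓ) := by
  obtain ⟨c₁, c₂, c₃, c₄, c₆, e₁, e₂, e₃, e₄, e₆, f₁, f₂, f₃, f₄, f₆⟩ := h.exists_lift
  lift x₁ to A using hx₁
  lift x₂ to A using hx₂
  lift ℓ to A using hℓ
  simp only [Affine.addX, ← e₁, ← e₂, ← f₁, ← f₂]
  have : ((ℓ : K) ^ 2 + c₁ * ℓ - c₂ - x₁ - x₂) = ((ℓ ^ 2 + c₁ * ℓ - c₂ - x₁ - x₂ : A) : K) := by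
    push_cast; rfl
  rw [this, rd_coe, rd_coe, rd_coe, rd_coe]
  simp only [map_sub, map_add, map_mul, map_pow]

lemma negAddY_mem {x₁ x₂ y₁ ℓ : K} (hx₁ : x₁ ∈ A) (hx₂ : x₂ ∈ A) (hy₁ : y₁ ∈ A) (hℓ : ℓ ∈ A) :
    W.negAddY x₁ x₂ y₁ ℓ ∈ A := by
  simp only [Affine.negAddY]
  exact A.add_mem _ _ (A.mul_mem _ _ hℓ (A.sub_mem (addX_mem h hx₁ hx₂ hℓ) hx₁)) hy₁

lemma rd_negAddY {x₁ x₂ y₁ ℓ : K} (hx₁ : x₁ ∈ A) (hx₂ : x₂ ∈ A) (hy₁ : y₁ ∈ A) (hℓ : ℓ ∈ A) :
    rd A φ (W.negAddY x₁ x₂ y₁ ℓ) =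
      Wκ.negAddY (rd A φ x₁) (rd A φ x₂) (rd A φ y₁) (rd A φ ℓ) := by
  simp only [Affine.negAddY]
  have hX := addX_mem h hx₁ hx₂ hℓ
  rw [rd_add (A.mul_mem _ _ hℓ (A.sub_mem hX hx₁)) hy₁, rd_mul hℓ (A.sub_mem hX hx₁),
    rd_sub hX hx₁, rd_addX h hx₁ hx₂ hℓ]

lemma addY_mem {x₁ x₂ y₁ ℓ : K} (hx₁ : x₁ ∈ A) (hx₂ : x₂ ∈ A) (hy₁ : y₁ ∈ A) (hℓ : ℓ ∈ A) :
    W.addY x₁ x₂ y₁ ℓ ∈ A := by
  simp only [Affine.addY]
  exact negY_mem h (addX_mem h hx₁ hx₂ hℓ) (negAddY_mem h hx₁ hx₂ hy₁ hℓ)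

lemma rd_addY {x₁ x₂ y₁ ℓ : K} (hx₁ : x₁ ∈ A) (hx₂ : x₂ ∈ A) (hy₁ : y₁ ∈ A) (hℓ : ℓ ∈ A) :
    rd A φ (W.addY x₁ x₂ y₁ ℓ) =
      Wκ.addY (rd A φ x₁) (rd A φ x₂) (rd A φ y₁) (rd A φ ℓ) := by
  simp only [Affine.addY]
  rw [rd_negY h (addX_mem h hx₁ hx₂ hℓ) (negAddY_mem h hx₁ hx₂ hy₁ hℓ),
    rd_addX h hx₁ hx₂ hℓ, rd_negAddY h hx₁ hx₂ hy₁ hℓ]

/-- The equation reduces. -/
lemma rd_equation {x y : K} (hx : x ∈ A) (hy : y ∈ A) (hxy : W.Equation x y) :
    Wκ.Equation (rd A φ x) (rd A φ y) := by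
  obtain ⟨c₁, c₂, c₃, c₄, c₆, e₁, e₂, e₃, e₄, e₆, f₁, f₂, f₃, f₄, f₆⟩ := h.exists_lift
  lift x to A using hx
  lift y to A using hy
  rw [Affine.equation_iff] at hxy ⊢
  rw [← e₁, ← e₂, ← e₃, ← e₄, ← e₆] at hxy
  have hA : y ^ 2 + c₁ * x * y + c₃ * y = x ^ 3 + c₂ * x ^ 2 + c₄ * x + c₆ := by
    apply Subtype.ext
    push_cast
    exact hxy
  have := congrArg φ hA
  simp only [map_add, map_mul, map_pow, f₁, f₂, f₃, f₄, f₆] at this
  rw [rd_coe, rd_coe]
  exact this

/-- The numerator of the tangent slope. -/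
lemma rd_slopeNum {x y : K} (hx : x ∈ A) (hy : y ∈ A) :
    3 * x ^ 2 + 2 * W.a₂ * x + W.a₄ - W.a₁ * y ∈ A ∧
    rd A φ (3 * x ^ 2 + 2 * W.a₂ * x + W.a₄ - W.a₁ * y) =
      3 * rd A φ x ^ 2 + 2 * Wκ.a₂ * rd A φ x + Wκ.a₄ - Wκ.a₁ * rd A φ y := by
  obtain ⟨c₁, c₂, c₃, c₄, c₆, e₁, e₂, e₃, e₄, e₆, f₁, f₂, f₃, f₄, f₆⟩ := h.exists_lift
  lift x to A using hx
  lift y to A using hy
  simp only [← e₁, ← e₂, ← e₄, ← f₁, ← f₂, ← f₄]
  have : (3 * (x : K) ^ 2 + 2 * c₂ * x + c₄ - c₁ * y) =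
      ((3 * x ^ 2 + 2 * c₂ * x + c₄ - c₁ * y : A) : K) := by
    push_cast; rw [coe_two, coe_three]
  rw [this, rd_coe, rd_coe, rd_coe]
  refine ⟨Subtype.mem _, ?_⟩
  simp only [map_sub, map_add, map_mul, map_pow, map_ofNat]

end poly

end Fermat.Agent.Lib.Red.H290

end
-- ===== PACK-END Lib/Red/H290/RedCurve.lean

-- ===== PACK-BEGIN S05/C1b.lean
section



/-!
# (C1b): the kernel of reduction `E₁` has no `n`-torsion for `n` a `v`-unit

Adapter exposing `Fermat.Agent.S05.FG` in the shared vocabulary of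
`Fermat.Agent.S05.SameRed` (`IntegralCoeffs`, `InKer`).
-/

set_option autoImplicit false

namespace Fermat.Agent.S05.C1b

open WeierstrassCurve WeierstrassCurve.Affine
open Fermat.Agent.S05

variable {K : Type*} [Field K] [DecidableEq K]
  {Γ₀ : Type*} [LinearOrderedCommGroupWithZero Γ₀]
  {W : Affine K} {v : Valuation K Γ₀}

omit [DecidableEq K] in
lemma isIntegralAt_of_integralCoeffs (hW : SameRed.IntegralCoeffs W v) : FG.IsIntegralAt v W :=
  ⟨hW.a₁, hW.a₂, hW.a₃, hW.a₄, hW.a₆⟩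

/-- **(C1b)** `E₁` has no `n`-torsion when `v n = 1` (no hypothesis on `v 2`, `n` arbitrary). -/
theorem eq_zero_of_inKer_of_nsmul_eq_zero (hW : SameRed.IntegralCoeffs W v) (n : ℕ)
    (hn : v (n : K) = 1) (P : W.Point) (hP : SameRed.InKer W v P) (h : n • P = 0) : P = 0 := by
  rcases P with _ | ⟨x, y, hxy⟩
  · rfl
  · exact absurd (FG.v_x_le_one_of_nsmul_eq_zero (isIntegralAt_of_integralCoeffs hW) hxy hn h)
      (not_le.mpr hP)

/-- Integer-multiple form of (C1b), as consumed by `GoodRed`. -/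
theorem eq_zero_of_inKer_of_zsmul_eq_zero (hW : SameRed.IntegralCoeffs W v) (n : ℕ)
    (hn : v (n : K) = 1) (P : W.Point) (hP : SameRed.InKer W v P) (h : (n : ℤ) • P = 0) :
    P = 0 :=
  eq_zero_of_inKer_of_nsmul_eq_zero hW n hn P hP (by rwa [natCast_zsmul] at h)

/-- A torsion point of order prime to the residue characteristic is integral. -/
theorem val_x_le_one_of_nsmul_eq_zero (hW : SameRed.IntegralCoeffs W v) {n : ℕ}
    (hn : v (n : K) = 1) {x y : K} (hxy : W.Nonsingular x y) (h : n • Point.some x y hxy = 0) :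
    v x ≤ 1 ∧ v y ≤ 1 := by
  have hx := FG.v_x_le_one_of_nsmul_eq_zero (isIntegralAt_of_integralCoeffs hW) hxy hn h
  exact ⟨hx, FG.v_y_le_one_of_v_x_le_one (isIntegralAt_of_integralCoeffs hW) hxy.1 hx⟩

end Fermat.Agent.S05.C1b

end
-- ===== PACK-END S05/C1b.lean

-- ===== PACK-BEGIN S52/H311/Par.lean
section



/-!
# Exact parallelogram law for the degree height (S52, piece A2a)

`F` a field, `W` an elliptic curve over `F`, `K ⊇ F` a field, `j : F[X] →ₐ[F] K` injective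
(e.g. `aeval x₀` with `x₀` transcendental).  A point `P` of `W` over `K` has `x`-coordinate
*represented by* a coprime pair `(a, b)` of polynomials if `(j a : j b)` is projectively equal to
`P.xRep` (so `P = 0 ↔ b = 0`, and otherwise `x(P) = j a / j b`).

If `P`, `Q`, `P + Q`, `P - Q` have represented `x`-coordinates then the degrees satisfy the
**exact** parallelogram law.
-/

set_option autoImplicit false

namespace Fermat.Agent.S52.H311

open Polynomial WeierstrassCurve WeierstrassCurve.Affine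

variable {F : Type*} [Field F] {K : Type*} [Field K] [Algebra F K]

/-- explicit form of `addSubMap`, any commutative ring -/
lemma eval_addSubMap_ring {R : Type*} [CommRing R] (W : WeierstrassCurve R) (v : Fin 3 → R) :
    (fun i => (addSubMap W i).eval v) =
      ![v 0 ^ 2 - W.b₄ * v 0 * v 2 - W.b₆ * v 1 * v 2 - W.b₈ * v 2 ^ 2,
        2 * v 1 * v 0 + W.b₂ * v 0 * v 2 + W.b₄ * v 1 * v 2 + W.b₆ * v 2 ^ 2,
        v 1 ^ 2 - 4 * v 0 * v 2] := by
  funext i
  fin_cases i <;> simp [addSubMap]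

/-- `(a, b)` represents the `x`-coordinate of `P` -/
def IsXRep (j : F[X] →ₐ[F] K) {W : Affine K} (P : W.Point) (a b : F[X]) : Prop :=
  IsCoprime a b ∧ ∃ c : K, c ≠ 0 ∧ ![j a, j b] = c • P.xRep

variable (W : WeierstrassCurve F) (j : F[X] →ₐ[F] K)

/-- naturality: `j` of `asmP` is `addSubMap` over `K` of the `j`-image -/
lemma j_asmP (p : Fin 3 → F[X]) :
    (fun i => j (asmP W p i)) =
      fun i => (addSubMap (W.baseChange K) i).eval (fun k => j (p k)) := by
  have h1 : (fun i => asmP W p i) = fun i => (addSubMap (W.map (C : F →+* F[X])) i).eval p :=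
    funext fun i => asmP_eq_eval W p i
  have h2 := eval_addSubMap_ring (W.map (C : F →+* F[X])) p
  have h3 := eval_addSubMap_ring (W.baseChange K) (fun k => j (p k))
  rw [h3]
  have hC : ∀ a : F, j (C a) = algebraMap F K a := fun a => j.commutes a
  funext i
  have := congrFun (h1.trans h2) i
  rw [this]
  fin_cases i <;>
    simp [WeierstrassCurve.baseChange, map_b₂, map_b₄, map_b₆, map_b₈, hC, map_ofNat]

variable {W j}

lemma sym2x_of_isXRep {W' : Affine K} {P Q : W'.Point} {a₁ b₁ a₂ b₂ : F[X]}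
    (h₁ : IsXRep j P a₁ b₁) (h₂ : IsXRep j Q a₂ b₂) :
    ∃ c : K, c ≠ 0 ∧ (fun k => j (prodTriple a₁ b₁ a₂ b₂ k)) = c • P.sym2x Q := by
  obtain ⟨-, c₁, hc₁, e₁⟩ := h₁
  obtain ⟨-, c₂, hc₂, e₂⟩ := h₂
  refine ⟨c₁ * c₂, mul_ne_zero hc₁ hc₂, ?_⟩
  have e10 : j a₁ = c₁ * P.xRep 0 := by simpa using congrFun e₁ 0
  have e11 : j b₁ = c₁ * P.xRep 1 := by simpa using congrFun e₁ 1
  have e20 : j a₂ = c₂ * Q.xRep 0 := by simpa using congrFun e₂ 0
  have e21 : j b₂ = c₂ * Q.xRep 1 := by simpa using congrFun e₂ 1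
  funext k
  fin_cases k
  · simp [prodTriple, Point.sym2x, e10, e20]; ring
  · simp [prodTriple, Point.sym2x, e10, e11, e20, e21]; ring
  · simp [prodTriple, Point.sym2x, e11, e21]; ring

variable [W.IsElliptic] [DecidableEq K]

/-- **Exact parallelogram law**, in terms of representatives. -/
theorem pairDeg_add_sub (hj : Function.Injective j) {P Q : (W.toAffine⁄K).Point}
    {a₁ b₁ a₂ b₂ a₃ b₃ a₄ b₄ : F[X]}
    (h₁ : IsXRep j P a₁ b₁) (h₂ : IsXRep j Q a₂ b₂)
    (h₃ : IsXRep j (P + Q) a₃ b₃) (h₄ : IsXRep j (P - Q) a₄ b₄) :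
    pairDeg a₃ b₃ + pairDeg a₄ b₄ = 2 * (pairDeg a₁ b₁ + pairDeg a₂ b₂) := by
  set p := asmP W (prodTriple a₁ b₁ a₂ b₂) with hp
  set p' := prodTriple a₃ b₃ a₄ b₄ with hp'
  have prim : IsPrim p := (isPrim_prodTriple h₁.1 h₂.1).asmP W
  have prim' : IsPrim p' := isPrim_prodTriple h₃.1 h₄.1
  obtain ⟨c₁₂, hc₁₂, e₁₂⟩ := sym2x_of_isXRep h₁ h₂
  obtain ⟨c₃₄, hc₃₄, e₃₄⟩ := sym2x_of_isXRep h₃ h₄
  obtain ⟨c, hc, e⟩ := sym2x_add_sub P Q
  -- `j ∘ p = κ • j ∘ p'`
  have hκ : (fun k => j (p k)) = (c₁₂ ^ 2 * c * c₃₄⁻¹) • fun k => j (p' k) := by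
    rw [hp, j_asmP, e₁₂, e₃₄]
    have hE := eval_addSubMap_ring (W.baseChange K) (c₁₂ • P.sym2x Q)
    have hE' := eval_addSubMap_ring (W.baseChange K) (P.sym2x Q)
    rw [hE]
    rw [hE'] at e
    have e0 := congrFun e 0
    have e1 := congrFun e 1
    have e2 := congrFun e 2
    simp only [Matrix.cons_val_zero, Matrix.cons_val_one, Matrix.cons_val, Pi.smul_apply,
      smul_eq_mul] at e0 e1 e2
    have hcancel : c₃₄⁻¹ * c₃₄ = 1 := inv_mul_cancel₀ hc₃₄
    funext k
    fin_cases k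
    · simp only [Fin.zero_eta, Matrix.cons_val_zero, Pi.smul_apply, smul_eq_mul]
      linear_combination c₁₂ ^ 2 * e0 -
        (c₁₂ ^ 2 * c * (P + Q).sym2x (P - Q) 0) * hcancel
    · simp only [Fin.mk_one, Matrix.cons_val_one, Matrix.cons_val_zero, Pi.smul_apply,
        smul_eq_mul]
      linear_combination c₁₂ ^ 2 * e1 -
        (c₁₂ ^ 2 * c * (P + Q).sym2x (P - Q) 1) * hcancel
    · simp only [Fin.reduceFinMk, Matrix.cons_val, Pi.smul_apply, smul_eq_mul]
      linear_combination c₁₂ ^ 2 * e2 -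
        (c₁₂ ^ 2 * c * (P + Q).sym2x (P - Q) 2) * hcancel
  have cross : ∀ i k, p i * p' k = p k * p' i := fun i k => by
    apply hj
    have hi := congrFun hκ i
    have hk := congrFun hκ k
    simp only [Pi.smul_apply, smul_eq_mul] at hi hk
    rw [map_mul, map_mul, hi, hk]
    ring
  have key := maxDeg_eq_of_proportional prim prim' cross
  rw [hp, maxDeg_asmP, maxDeg_prodTriple h₁.1 h₂.1, hp', maxDeg_prodTriple h₃.1 h₄.1] at key
  exact key.symm

end Fermat.Agent.S52.H311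

end
-- ===== PACK-END S52/H311/Par.lean

-- ===== PACK-BEGIN S05/AssembleCore.lean
section
/-
S05 final assembly, core (helper665): the abstract Galois argument.
-/


set_option autoImplicit false

namespace Fermat.Agent.S05.Assemble

open WeierstrassCurve WeierstrassCurve.Affine
open Fermat.Agent.S05.SameRed

set_option linter.unusedSectionVars false
set_option linter.unusedVariables false

variable {K : Type*} [Field K] [DecidableEq K]
  {Γ₀ : Type*} [LinearOrderedCommGroupWithZero Γ₀]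
variable {W : Affine K} {v : Valuation K Γ₀}

/-- The roots of the 2-division cubic `4x³ + b₂x² + 2b₄x + b₆ = 4 (x - r₁)(x - r₂)(x - r₃)`. -/
structure Roots (W : Affine K) (r₁ r₂ r₃ : K) : Prop where
  b₂ : W.b₂ = -4 * (r₁ + r₂ + r₃)
  b₄ : 2 * W.b₄ = 4 * (r₁ * r₂ + r₁ * r₃ + r₂ * r₃)
  b₆ : W.b₆ = -4 * (r₁ * r₂ * r₃)

lemma Roots.swap₁₂ {r₁ r₂ r₃ : K} (h : Roots W r₁ r₂ r₃) : Roots W r₂ r₁ r₃ :=
  ⟨by rw [h.b₂]; ring, by rw [h.b₄]; ring, by rw [h.b₆]; ring⟩

lemma Roots.swap₁₃ {r₁ r₂ r₃ : K} (h : Roots W r₁ r₂ r₃) : Roots W r₃ r₂ r₁ :=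
  ⟨by rw [h.b₂]; ring, by rw [h.b₄]; ring, by rw [h.b₆]; ring⟩

lemma Roots.eta_sq {r₁ r₂ r₃ : K} (hr : Roots W r₁ r₂ r₃) {x y : K} (h : W.Equation x y) :
    (2 * y + W.a₁ * x + W.a₃) ^ 2 = 4 * ((x - r₁) * (x - r₂) * (x - r₃)) := by
  have e := (Affine.equation_iff x y).mp h
  have hb₂ := hr.b₂
  have hb₄ := hr.b₄
  have hb₆ := hr.b₆
  simp only [WeierstrassCurve.b₂, WeierstrassCurve.b₄, WeierstrassCurve.b₆] at hb₂ hb₄ hb₆
  linear_combination 4 * e + x ^ 2 * hb₂ + x * hb₄ + hb₆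

lemma Roots.four_WX {r₁ r₂ r₃ : K} (hr : Roots W r₁ r₂ r₃) (x y : K) :
    4 * (W.a₁ * y - (3 * x ^ 2 + 2 * W.a₂ * x + W.a₄)) =
      2 * W.a₁ * (2 * y + W.a₁ * x + W.a₃) -
        4 * ((x - r₂) * (x - r₃) + (x - r₁) * (x - r₃) + (x - r₁) * (x - r₂)) := by
  have hb₂ := hr.b₂
  have hb₄ := hr.b₄
  simp only [WeierstrassCurve.b₂, WeierstrassCurve.b₄] at hb₂ hb₄
  linear_combination (-2 * x) * hb₂ - hb₄

lemma val_four (h2 : v (2 : K) = 1) : v (4 : K) = 1 := by
  have : (4 : K) = 2 * 2 := by norm_num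
  rw [this, map_mul, h2, one_mul]

lemma val_eq_one_of_sub_lt' {a b : K} (hab : v (a - b) < 1) (hb : v b = 1) : v a = 1 := by
  have : a = b + (a - b) := by ring
  rw [this, v.map_add_eq_of_lt_left (by rw [hb]; exact hab), hb]

/-- If `x ≡ r₁` and `r₁` is a simple root modulo the maximal ideal, then `W_X` is a unit at a
point with `η` in the maximal ideal. -/
lemma Roots.val_WX_eq_one {r₁ r₂ r₃ : K} (hr : Roots W r₁ r₂ r₃) (hW : IntegralCoeffs W v)
    (h2 : v (2 : K) = 1) {x y : K} (hx : v x ≤ 1) (hr₁ : v r₁ ≤ 1) (hr₂ : v r₂ ≤ 1)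
    (hr₃ : v r₃ ≤ 1)
    (hη : v (2 * y + W.a₁ * x + W.a₃) < 1) (h1 : v (x - r₁) < 1) (h12 : v (r₁ - r₂) = 1)
    (h13 : v (r₁ - r₃) = 1) :
    v (W.a₁ * y - (3 * x ^ 2 + 2 * W.a₂ * x + W.a₄)) = 1 := by
  have h4 := val_four (v := v) h2
  have key := hr.four_WX x y
  have hx2 : v (x - r₂) = 1 := by
    apply val_eq_one_of_sub_lt' (b := r₁ - r₂) _ h12
    have : x - r₂ - (r₁ - r₂) = x - r₁ := by ring
    rw [this]; exact h1
  have hx3 : v (x - r₃) = 1 := by
    apply val_eq_one_of_sub_lt' (b := r₁ - r₃) _ h13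
    have : x - r₃ - (r₁ - r₃) = x - r₁ := by ring
    rw [this]; exact h1
  have hmain : v ((x - r₂) * (x - r₃)) = 1 := by rw [map_mul, hx2, hx3, one_mul]
  have hsmall : v ((x - r₁) * (x - r₃) + (x - r₁) * (x - r₂)) < 1 := by
    apply val_add_lt_one
    · exact val_mul_lt_one_left h1 hx3.le
    · exact val_mul_lt_one_left h1 hx2.le
  have hF : v ((x - r₂) * (x - r₃) + (x - r₁) * (x - r₃) + (x - r₁) * (x - r₂)) = 1 := by
    rw [add_assoc, v.map_add_eq_of_lt_left (by rw [hmain]; exact hsmall), hmain]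
  have h4F : v (4 * ((x - r₂) * (x - r₃) + (x - r₁) * (x - r₃) + (x - r₁) * (x - r₂))) = 1 := by
    rw [map_mul, h4, hF, one_mul]
  have hsm2 : v (2 * W.a₁ * (2 * y + W.a₁ * x + W.a₃)) < 1 := by
    apply val_mul_lt_one_right _ hη
    rw [map_mul, h2, one_mul]; exact hW.a₁
  have : v (4 * (W.a₁ * y - (3 * x ^ 2 + 2 * W.a₂ * x + W.a₄))) = 1 := by
    rw [key, sub_eq_add_neg, add_comm,
      v.map_add_eq_of_lt_left (by rw [Valuation.map_neg, h4F]; exact hsm2),
      Valuation.map_neg, h4F]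
  rwa [map_mul, h4, one_mul] at this

/-- If `x` is integral and `(x, y)` is on an integral curve then `y` is integral. -/
lemma val_y_le_one (hW : IntegralCoeffs W v) {x y : K} (h : W.Equation x y) (hx : v x ≤ 1) :
    v y ≤ 1 := by
  by_contra hy
  rw [not_le] at hy
  rw [equation_iff] at h
  have hy2 : y ^ 2 = x ^ 3 + W.a₂ * x ^ 2 + W.a₄ * x + W.a₆ - W.a₁ * x * y - W.a₃ * y := by
    linear_combination h
  have hvy2 : v (y ^ 2) = v y ^ 2 := map_pow v y 2
  have h0 : (0 : Γ₀) < v y := lt_trans zero_lt_one hy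
  have hlt : v y < v y ^ 2 := by
    rw [pow_two]; exact lt_mul_of_one_lt_left h0 hy
  have h1y : (1 : Γ₀) ≤ v y := hy.le
  have hle : v (x ^ 3 + W.a₂ * x ^ 2 + W.a₄ * x + W.a₆ - W.a₁ * x * y - W.a₃ * y) ≤ v y := by
    have hx3 : v (x ^ 3) ≤ 1 := by rw [map_pow]; exact pow_le_one' hx 3
    have hx2' : v (x ^ 2) ≤ 1 := by rw [map_pow]; exact pow_le_one' hx 2
    have hx2 : v (W.a₂ * x ^ 2) ≤ 1 := val_mul_le_one hW.a₂ hx2'
    have hx1 : v (W.a₄ * x) ≤ 1 := val_mul_le_one hW.a₄ hx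
    have hxy : v (W.a₁ * x * y) ≤ v y := by
      rw [map_mul]; exact mul_le_of_le_one_left' (val_mul_le_one hW.a₁ hx)
    have hy1 : v (W.a₃ * y) ≤ v y := by
      rw [map_mul]; exact mul_le_of_le_one_left' hW.a₃
    refine (v.map_sub _ _).trans (max_le ((v.map_sub _ _).trans (max_le ?_ hxy)) hy1)
    refine (v.map_add _ _).trans (max_le ((v.map_add _ _).trans (max_le ?_ (hx1.trans h1y)))
      (hW.a₆.trans h1y))
    exact (v.map_add _ _).trans (max_le (hx3.trans h1y) (hx2.trans h1y))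
  rw [← hy2, hvy2] at hle
  exact absurd hle (not_le.mpr hlt)

lemma val_eta_le_one (hW : IntegralCoeffs W v) (h2 : v (2 : K) = 1) {x y : K}
    (hx : v x ≤ 1) (hy : v y ≤ 1) : v (2 * y + W.a₁ * x + W.a₃) ≤ 1 :=
  val_add_le_one (val_add_le_one (val_mul_le_one h2.le hy) (val_mul_le_one hW.a₁ hx)) hW.a₃

/-- (C1b) in hypothesis form. -/
def KerTorsionFree (W : Affine K) (v : Valuation K Γ₀) (n : ℕ) : Prop :=
  ∀ P : W.Point, InKer W v P → n • P = 0 → P = 0

/-- A torsion point is integral. -/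
lemma val_x_le_one_of_torsion {n : ℕ} (hC1 : KerTorsionFree W v n) {x y : K}
    (h : W.Nonsingular x y) (hP : n • Point.some x y h = 0) : v x ≤ 1 := by
  by_contra hx
  rw [not_le] at hx
  exact Point.some_ne_zero h (hC1 _ hx hP)

/-- For an odd torsion point with nonsingular reduction, `η` is a unit. -/
lemma val_eta_eq_one_of_torsion (hW : IntegralCoeffs W v) (h2 : v (2 : K) = 1) {n : ℕ}
    (hn : Odd n) (hC1 : KerTorsionFree W v n) {x y : K}
    (h : W.Nonsingular x y) (hP : n • Point.some x y h = 0)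
    (hNR : v (2 * y + W.a₁ * x + W.a₃) < 1 →
      v (W.a₁ * y - (3 * x ^ 2 + 2 * W.a₂ * x + W.a₄)) = 1) :
    v (2 * y + W.a₁ * x + W.a₃) = 1 := by
  have hx : v x ≤ 1 := val_x_le_one_of_torsion hC1 h hP
  have hy : v y ≤ 1 := val_y_le_one hW h.1 hx
  have hle := val_eta_le_one hW h2 hx hy
  rcases hle.lt_or_eq with hlt | heq
  swap
  · exact heq
  exfalso
  have hX := hNR hlt
  have hneg : W.Nonsingular x (W.negY x y) := (Affine.nonsingular_neg ..).mpr h
  have hnegY : W.negY x y = -y - W.a₁ * x - W.a₃ := rfl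
  have hyn : v (W.negY x y) ≤ 1 := by
    rw [hnegY]
    exact val_sub_le_one (val_sub_le_one (by rwa [Valuation.map_neg])
      (val_mul_le_one hW.a₁ hx)) hW.a₃
  have hker := inKer_sub_of_same_reduction hW h hneg hx hy hx hyn (by simp)
    (by
      have : y - W.negY x y = 2 * y + W.a₁ * x + W.a₃ := by rw [hnegY]; ring
      rw [this]; exact hlt) (Or.inl hX)
  rw [← Point.neg_some h, sub_neg_eq_add] at hker
  have h2P : n • (Point.some x y h + Point.some x y h) = 0 := by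
    rw [smul_add, hP, add_zero]
  have hzero := hC1 _ hker h2P
  obtain ⟨k, hk⟩ := hn
  have : Point.some x y h = 0 := by
    have h3 : n • Point.some x y h = k • (Point.some x y h + Point.some x y h) +
        Point.some x y h := by
      rw [hk, add_smul, one_smul, mul_comm, mul_smul, two_smul]
    rw [hP, hzero, smul_zero, zero_add] at h3
    exact h3.symm
  exact Point.some_ne_zero h this

/-- The core Galois argument: if `x - e` and `η` are both "`c` times integral", with `c`, `e`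
fixed by `σ` and `η / c` a unit, then the torsion point `(x, y)` is fixed. -/
theorem fixed_of_scaled (hW : IntegralCoeffs W v) (h2 : v (2 : K) = 1)
    (σ : K →+* K) (hres : ∀ z, v z ≤ 1 → v (σ z - z) < 1)
    (hσ₁ : σ W.a₁ = W.a₁) (hσ₃ : σ W.a₃ = W.a₃)
    (τ : W.Point →+ W.Point)
    (hτ : ∀ (x y : K) (h : W.Nonsingular x y),
      ∃ h' : W.Nonsingular (σ x) (σ y), τ (Point.some x y h) = Point.some (σ x) (σ y) h')
    {n : ℕ} (hC1 : KerTorsionFree W v n) {x y : K}
    (h : W.Nonsingular x y) (hP : n • Point.some x y h = 0)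
    {c e : K} (hc : σ c = c) (he : σ e = e)
    (hηc : v (2 * y + W.a₁ * x + W.a₃) = v c) (hxc : v (x - e) ≤ v c) :
    τ (Point.some x y h) = Point.some x y h := by
  have hx : v x ≤ 1 := val_x_le_one_of_torsion hC1 h hP
  have hy : v y ≤ 1 := val_y_le_one hW h.1 hx
  obtain ⟨h', hτP⟩ := hτ x y h
  set η : K := 2 * y + W.a₁ * x + W.a₃ with hη
  have hx' : v (σ x) ≤ 1 := by
    have : σ x = x + (σ x - x) := by ring
    rw [this]; exact val_add_le_one hx (hres x hx).le
  by_cases hc0 : c = 0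
  · -- then `η = 0`, so `P` is 2-torsion; also `x = e` is fixed, and `y` is determined by `x`
    rw [hc0, map_zero] at hηc hxc
    have hη0 : η = 0 := (map_eq_zero v).mp hηc
    have hxe : x = e := sub_eq_zero.mp ((map_eq_zero v).mp (le_antisymm hxc zero_le))
    have h20 : (2 : K) ≠ 0 := by
      intro h0; rw [h0, map_zero] at h2; exact zero_ne_one h2
    have hσx : σ x = x := by rw [hxe, he]
    have hyeq : y = -(W.a₁ * x + W.a₃) / 2 := by
      field_simp
      linear_combination hη0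
    have hσy : σ y = y := by
      have : σ y = -(σ W.a₁ * σ x + σ W.a₃) / σ 2 := by
        conv_lhs => rw [hyeq]
        simp only [map_div₀, map_neg, map_add, map_mul]
      rw [this, hσ₁, hσ₃, hσx, map_ofNat, ← hyeq]
    rw [hτP]
    congr 1
  have hvc : 0 < v c := (Valuation.pos_iff v).mpr hc0
  -- `x = e + c ε`, `η = c θ`
  set ε : K := (x - e) / c with hε
  set θ : K := η / c with hθ
  have hεv : v ε ≤ 1 := by
    rw [hε, map_div₀]; exact (div_le_one₀ hvc).mpr hxc
  have hθv : v θ ≤ 1 := by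
    rw [hθ, map_div₀, hηc, div_self hvc.ne']
  have hxε : x = e + c * ε := by rw [hε]; field_simp; ring
  have hηθ : η = c * θ := by rw [hθ]; field_simp
  have hσxx : σ x - x = c * (σ ε - ε) := by
    conv_lhs => rw [hxε]
    simp only [map_add, map_mul, hc, he]; ring
  have hση : (2 * σ y + W.a₁ * σ x + W.a₃) = σ η := by
    simp only [hη, map_add, map_mul, hσ₁, hσ₃, map_ofNat]
  have hσηη : σ η - η = c * (σ θ - θ) := by
    conv_lhs => rw [hηθ]
    simp only [map_mul, hc]; ring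
  have hlt1 : v (σ x - x) < v η := by
    rw [hσxx, map_mul, hηc]
    exact mul_lt_of_lt_one_right hvc (hres ε hεv)
  have hlt2 : v ((2 * σ y + W.a₁ * σ x + W.a₃) - η) < v η := by
    rw [hση, hσηη, map_mul, hηc]
    exact mul_lt_of_lt_one_right hvc (hres θ hθv)
  have hker := inKer_sub_of_eta hW h2 h h' hx hx' hlt1 hlt2
  have htors : n • (Point.some (σ x) (σ y) h' - Point.some x y h) = 0 := by
    rw [smul_sub, hP, sub_zero, ← hτP, ← map_nsmul, hP, map_zero]
  have := hC1 _ hker htors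
  rw [hτP]
  exact sub_eq_zero.mp this

end Fermat.Agent.S05.Assemble

end
-- ===== PACK-END S05/AssembleCore.lean

-- ===== PACK-BEGIN S13/Comp2Point.lean
section




/-!
# The component homomorphism on the points of a Weierstrass curve with nodal reduction,
valid in every residue characteristic

Model: `a₃ = a₆ = 0`, so that `(0, 0)` is a point of order two reducing to the node, and
`γ₁, γ₂` are the two roots of `t² + a₁ t - a₂` (the tangent directions at the node), which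
are assumed to be distinct in the residue field.
-/

set_option autoImplicit false

namespace Fermat.Agent.S13.Comp2

open WeierstrassCurve WeierstrassCurve.Affine

variable {K : Type*} [Field K] {Γ₀ : Type*} [LinearOrderedCommGroupWithZero Γ₀]

/-- A Weierstrass curve `y² + a₁ x y = x³ + a₂ x² + a₄ x` over a valued field, together with
a factorisation `t² + a₁ t - a₂ = (t - γ₁) (t - γ₂)` with `v (γ₁ - γ₂) = 1`, and `v a₄ < 1`:
the reduction has a node at `(0, 0)` with tangent directions `γ₁ ≠ γ₂`.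
No hypothesis on the residue characteristic. -/
structure NodeModel2 (v : Valuation K Γ₀) (W : Affine K) where
  γ₁ : K
  γ₂ : K
  ha₁ : W.a₁ = -(γ₁ + γ₂)
  ha₂ : W.a₂ = -(γ₁ * γ₂)
  ha₃ : W.a₃ = 0
  ha₆ : W.a₆ = 0
  hδ : v (γ₁ - γ₂) = 1
  ha : v W.a₄ < 1
  ha0 : W.a₄ ≠ 0

namespace NodeModel2

variable {v : Valuation K Γ₀} {W : Affine K}

/-- The same model with the two branches exchanged. -/
def flip (M : NodeModel2 v W) : NodeModel2 v W where
  γ₁ := M.γ₂
  γ₂ := M.γ₁
  ha₁ := by rw [M.ha₁]; ring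
  ha₂ := by rw [M.ha₂]; ring
  ha₃ := M.ha₃
  ha₆ := M.ha₆
  hδ := val_swap_delta M.hδ
  ha := M.ha
  ha0 := M.ha0

lemma key_id (M : NodeModel2 v W) (x y : K) :
    (y - M.γ₁ * x) * (y - M.γ₂ * x) - x * (x ^ 2 + W.a₄) =
      (y ^ 2 + W.a₁ * x * y + W.a₃ * y) - (x ^ 3 + W.a₂ * x ^ 2 + W.a₄ * x + W.a₆) := by
  rw [M.ha₁, M.ha₂, M.ha₃, M.ha₆]
  ring

lemma equation_iff (M : NodeModel2 v W) (x y : K) :
    W.Equation x y ↔ (y - M.γ₁ * x) * (y - M.γ₂ * x) = x * (x ^ 2 + W.a₄) := by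
  rw [Affine.equation_iff, ← sub_eq_zero, ← M.key_id x y, sub_eq_zero]

lemma theta_negY (M : NodeModel2 v W) (x y : K) :
    W.negY x y - M.γ₁ * x = -(y - M.γ₂ * x) := by
  simp only [Affine.negY]
  rw [M.ha₁, M.ha₃]
  ring

/-- The component of a point. -/
noncomputable def comp (M : NodeModel2 v W) : W.Point → CompGroup v W.a₄
  | .zero => 1
  | .some x y _ => comp2XY v W.a₄ M.γ₁ x y

@[simp] lemma comp_zero (M : NodeModel2 v W) : M.comp 0 = 1 := rfl

lemma comp_some (M : NodeModel2 v W) {x y : K} (h : W.Nonsingular x y) :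
    M.comp (.some x y h) = comp2XY v W.a₄ M.γ₁ x y := rfl

lemma comp2XY_negY (M : NodeModel2 v W) {x y : K} (h : W.Equation x y) :
    comp2XY v W.a₄ M.γ₁ x (W.negY x y) = (comp2XY v W.a₄ M.γ₁ x y)⁻¹ := by
  rw [← comp2XY_flip M.hδ M.ha M.ha0 ((M.equation_iff x y).mp h)]
  simp only [comp2XY]
  rw [M.theta_negY, Valuation.map_neg]

lemma comp_neg (M : NodeModel2 v W) (P : W.Point) : M.comp (-P) = (M.comp P)⁻¹ := by
  rcases P with _ | ⟨x, y, h⟩
  · change M.comp 0 = (M.comp 0)⁻¹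
    simp
  · rw [Point.neg_some, comp_some, comp_some]
    exact M.comp2XY_negY h.1

variable [DecidableEq K]

/-- The collinearity data attached to a sum of two affine points. -/
lemma coll_of_add (M : NodeModel2 v W) {x₁ y₁ x₂ y₂ : K} (h₁ : W.Equation x₁ y₁)
    (h₂ : W.Equation x₂ y₂) (hxy : ¬(x₁ = x₂ ∧ y₁ = W.negY x₂ y₂)) :
    Coll2 W.a₄ M.γ₁ M.γ₂ x₁ y₁ x₂ y₂
      (W.addX x₁ x₂ (W.slope x₁ x₂ y₁ y₂))
      (W.negAddY x₁ x₂ y₁ (W.slope x₁ x₂ y₁ y₂))
      (W.slope x₁ x₂ y₁ y₂)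
      (y₁ - W.slope x₁ x₂ y₁ y₂ * x₁) := by
  set ℓ := W.slope x₁ x₂ y₁ y₂ with hℓ
  -- the line passes through the second point
  have hline : y₂ = ℓ * (x₂ - x₁) + y₁ := by
    by_cases hx : x₁ = x₂
    · have hy : y₁ ≠ W.negY x₂ y₂ := fun h => hxy ⟨hx, h⟩
      have := Y_eq_of_Y_ne h₁ h₂ hx hy
      rw [hx, this]; ring
    · rw [hℓ, slope_of_X_ne hx]
      have : x₁ - x₂ ≠ 0 := sub_ne_zero.mpr hx
      field_simp
      ring
  -- Vieta
  have hV := addPolynomial_slope h₁ h₂ hxy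
  rw [addPolynomial_eq, neg_inj, Cubic.prod_X_sub_C_eq, Cubic.toPoly_injective] at hV
  have hVc := congrArg Cubic.c hV
  have hVd := congrArg Cubic.d hV
  simp only at hVc hVd
  rw [← hℓ] at hVc hVd
  have hE3 : W.Equation (W.addX x₁ x₂ ℓ) (W.negAddY x₁ x₂ y₁ ℓ) := equation_negAdd h₁ h₂ hxy
  refine ⟨?_, ?_, ?_, (M.equation_iff _ _).mp h₁, (M.equation_iff _ _).mp h₂,
    (M.equation_iff _ _).mp hE3, ?_, ?_, ?_⟩
  · ring
  · rw [hline]; ring
  · simp only [negAddY]
    ring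
  · simp only [addX]
    rw [M.ha₁, M.ha₂]
    ring
  · rw [← hVc]
    rw [M.ha₁, M.ha₃]
    ring
  · have e : x₁ * x₂ * W.addX x₁ x₂ ℓ = -(-(x₁ * x₂ * W.addX x₁ x₂ ℓ)) := by ring
    rw [e, ← hVd]
    rw [M.ha₃, M.ha₆]
    ring

/-- **The component map is additive.** -/
theorem comp_add (M : NodeModel2 v W) (P Q : W.Point) :
    M.comp (P + Q) = M.comp P * M.comp Q := by
  rcases P with _ | ⟨x₁, y₁, h₁⟩
  · change M.comp (0 + Q) = M.comp 0 * M.comp Q
    rw [zero_add, comp_zero, one_mul]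
  rcases Q with _ | ⟨x₂, y₂, h₂⟩
  · change M.comp (_ + 0) = M.comp _ * M.comp 0
    rw [add_zero, comp_zero, mul_one]
  by_cases hxy : x₁ = x₂ ∧ y₁ = W.negY x₂ y₂
  · rw [Point.add_of_Y_eq hxy.1 hxy.2, comp_zero]
    have : Point.some x₁ y₁ h₁ = -Point.some x₂ y₂ h₂ := by
      rw [Point.neg_some]
      obtain ⟨rfl, rfl⟩ := hxy
      rfl
    rw [this, comp_neg, inv_mul_cancel]
  · rw [Point.add_some hxy, comp_some, comp_some, comp_some]
    have hc := M.coll_of_add h₁.1 h₂.1 hxy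
    have h3 := comp2XY_mul hc M.hδ M.ha M.ha0
    rw [addY, M.comp2XY_negY (equation_negAdd h₁.1 h₂.1 hxy)]
    exact (mul_eq_one_iff_eq_inv.mp h3).symm

/-- The component map as a homomorphism. -/
noncomputable def compHom (M : NodeModel2 v W) : W.Point →+ Additive (CompGroup v W.a₄) where
  toFun P := Additive.ofMul (M.comp P)
  map_zero' := rfl
  map_add' P Q := by
    rw [M.comp_add P Q]; rfl

lemma comp_nsmul (M : NodeModel2 v W) (k : ℕ) (P : W.Point) :
    M.comp (k • P) = M.comp P ^ k := by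
  induction k with
  | zero => simp
  | succ k ih =>
    rw [succ_nsmul, comp_add, ih]
    exact (pow_succ _ _).symm

lemma comp_sub (M : NodeModel2 v W) (P Q : W.Point) :
    M.comp (P - Q) = M.comp P * (M.comp Q)⁻¹ := by
  rw [sub_eq_add_neg, comp_add, comp_neg]

end NodeModel2

end Fermat.Agent.S13.Comp2

end
-- ===== PACK-END S13/Comp2Point.lean

-- ===== PACK-BEGIN S51/FiveGalois.lean
section





/-!
# S51, the `5`-side: Galois-stable lines in `E[5]`
-/

open WeierstrassCurve WeierstrassCurve.Affine WeierstrassCurve.Affine.Point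

namespace Fermat.Agent.S51.Five

section general

variable {K : Type*} [Field K] [DecidableEq K] [CharZero K] {W' : WeierstrassCurve.Affine ℚ}
  [Algebra ℚ K]

lemma xc_galois_smul (σ : K ≃ₐ[ℚ] K) (P : (W'⁄K).Point) : xc (σ • P) = σ (xc P) := by
  cases P with
  | zero => exact (map_zero σ).symm
  | some x y h => rfl

lemma coe_galois_smul (σ : K ≃ₐ[ℚ] K) (P : Submodule.torsionBy ℤ (W'⁄K).Point ((5 : ℕ) : ℤ)) :
    ((σ • P : Submodule.torsionBy ℤ (W'⁄K).Point ((5 : ℕ) : ℤ)) : (W'⁄K).Point) = σ • (P : (W'⁄K).Point) :=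
  rfl

lemma nsmul_eq_zero_of_mem (P : Submodule.torsionBy ℤ (W'⁄K).Point ((5 : ℕ) : ℤ)) :
    5 • (P : (W'⁄K).Point) = 0 := by
  have := P.2
  rw [Submodule.mem_torsionBy_iff] at this
  rw [← this]
  exact (natCast_zsmul _ 5).symm

instance finite_torsion5 : Finite (Submodule.torsionBy ℤ (W'⁄K).Point ((5 : ℕ) : ℤ)) := by
  classical
  let f : Submodule.torsionBy ℤ (W'⁄K).Point 5 → (fiveCandidates (W'⁄K)) :=
    fun P => ⟨P.1, mem_fiveCandidates (nsmul_eq_zero_of_mem P)⟩
  have hf : Function.Injective f := by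
    intro P Q h
    exact Subtype.ext (congrArg (fun x : fiveCandidates (W'⁄K) => (x : (W'⁄K).Point)) h)
  exact Finite.of_injective f hf

lemma card_torsion5_le : Nat.card (Submodule.torsionBy ℤ (W'⁄K).Point ((5 : ℕ) : ℤ)) ≤ 25 := by
  classical
  let f : Submodule.torsionBy ℤ (W'⁄K).Point 5 → (fiveCandidates (W'⁄K)) :=
    fun P => ⟨P.1, mem_fiveCandidates (nsmul_eq_zero_of_mem P)⟩
  have hf : Function.Injective f := by
    intro P Q h
    exact Subtype.ext (congrArg (fun x : fiveCandidates (W'⁄K) => (x : (W'⁄K).Point)) h)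
  calc Nat.card (Submodule.torsionBy ℤ (W'⁄K).Point ((5 : ℕ) : ℤ))
      ≤ Nat.card (fiveCandidates (W'⁄K)) := Nat.card_le_card_of_injective f hf
    _ = (fiveCandidates (W'⁄K)).card := by rw [Nat.card_eq_fintype_card, Fintype.card_coe]
    _ ≤ 25 := card_fiveCandidates_le _

instance fact_prime_five' : Fact (Nat.Prime 5) := ⟨by norm_num⟩

lemma finrank_torsion5_le :
    Module.finrank (ZMod 5) (Submodule.torsionBy ℤ (W'⁄K).Point ((5 : ℕ) : ℤ)) ≤ 2 := by
  have h1 := Module.natCard_eq_pow_finrank (K := ZMod 5)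
    (V := Submodule.torsionBy ℤ (W'⁄K).Point ((5 : ℕ) : ℤ))
  have h2 := card_torsion5_le (K := K) (W' := W')
  rw [h1, Nat.card_zmod] at h2
  by_contra hcon
  replace hcon : 3 ≤ Module.finrank (ZMod 5)
      (Submodule.torsionBy ℤ (W'⁄K).Point ((5 : ℕ) : ℤ)) := by omega
  have : 5 ^ 3 ≤ 5 ^ Module.finrank (ZMod 5) (Submodule.torsionBy ℤ (W'⁄K).Point ((5 : ℕ) : ℤ)) :=
    Nat.pow_le_pow_right (by norm_num) hcon
  omega

/-- a proper nonzero submodule of `E[5]` is a line -/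
lemma exists_generator (N : Submodule (ZMod 5) (Submodule.torsionBy ℤ (W'⁄K).Point ((5 : ℕ) : ℤ)))
    (h0 : N ≠ ⊥) (h1 : N ≠ ⊤) :
    ∃ P : Submodule.torsionBy ℤ (W'⁄K).Point ((5 : ℕ) : ℤ), P ∈ N ∧ P ≠ 0 ∧
      ∀ Q ∈ N, ∃ c : ZMod 5, c • P = Q := by
  have hlt := Submodule.finrank_lt h1
  have hle := finrank_torsion5_le (K := K) (W' := W')
  have hpos : 0 < Module.finrank (ZMod 5) N := by
    rw [Nat.pos_iff_ne_zero]
    intro h
    exact h0 (Submodule.finrank_eq_zero.mp h)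
  have hone : Module.finrank (ZMod 5) N = 1 := by omega
  obtain ⟨v, hv, hspan⟩ := finrank_eq_one_iff'.mp hone
  refine ⟨v.1, v.2, fun h => hv (Subtype.ext h), fun Q hQ => ?_⟩
  obtain ⟨c, hc⟩ := hspan ⟨Q, hQ⟩
  exact ⟨c, congrArg Subtype.val hc⟩

lemma coe_zmod_smul (c : ZMod 5) (P : Submodule.torsionBy ℤ (W'⁄K).Point ((5 : ℕ) : ℤ)) :
    ((c • P : Submodule.torsionBy ℤ (W'⁄K).Point ((5 : ℕ) : ℤ)) : (W'⁄K).Point) =
      c.val • (P : (W'⁄K).Point) := by
  conv_lhs => rw [← ZMod.natCast_zmod_val c]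
  rw [Nat.cast_smul_eq_nsmul]
  rfl

lemma galois_smul_nsmul (σ : K ≃ₐ[ℚ] K) (n : ℕ) (P : (W'⁄K).Point) :
    σ • (n • P) = n • (σ • P) := by
  have := algEquiv_smul_zsmul σ (n : ℤ) P
  simpa only [natCast_zsmul] using this

end general

section sym

variable {K : Type*} [Field K] [DecidableEq K] {E : WeierstrassCurve.Affine K}

/-- the pair `{x(kP), x(2kP)}` does not depend on `k` prime to `5` -/
lemma sym_xc {P : E.Point} (h5 : 5 • P = 0) (k : ℕ) (hk : ¬ 5 ∣ k) :
    (xc (k • P) = xc P ∧ xc ((2 * k) • P) = xc (2 • P)) ∨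
    (xc (k • P) = xc (2 • P) ∧ xc ((2 * k) • P) = xc P) := by
  have hmod : ∀ n : ℕ, n • P = (n % 5) • P := by
    intro n
    conv_lhs => rw [← Nat.div_add_mod n 5]
    rw [add_nsmul, mul_nsmul, h5, smul_zero, zero_add]
  have h4 : 4 • P = -P := by
    rw [eq_neg_iff_add_eq_zero, ← succ_nsmul]; exact h5
  have h3 : (3 • P : E.Point) = -((2 • P : E.Point)) := by
    rw [eq_neg_iff_add_eq_zero, ← add_nsmul]; exact h5
  have hk5 : k % 5 < 5 := Nat.mod_lt _ (by norm_num)
  have hk0 : k % 5 ≠ 0 := fun h => hk (Nat.dvd_of_mod_eq_zero h)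
  rw [hmod k, hmod (2 * k)]
  have h2k : (2 * k) % 5 = (2 * (k % 5)) % 5 := by omega
  rw [h2k]
  generalize k % 5 = r at hk5 hk0
  interval_cases r
  · exact absurd rfl hk0
  · left; exact ⟨by rw [one_nsmul], rfl⟩
  · right
    refine ⟨rfl, ?_⟩
    show xc (4 • P) = xc P
    rw [h4, xc_neg]
  · right
    refine ⟨by rw [h3, xc_neg], ?_⟩
    show xc (1 • P) = xc P
    rw [one_nsmul]
  · left
    refine ⟨by rw [h4, xc_neg], ?_⟩
    show xc (3 • P) = xc (2 • P)
    rw [h3, xc_neg]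

end sym

section main

local notation "Qbar" => AlgebraicClosure ℚ

/-- `ℚ̄/ℚ` is Galois, for the default `ℚ`-algebra structure on `ℚ̄` -/
theorem isGalois_Qbar : IsGalois ℚ (AlgebraicClosure ℚ) := by
  have h : @IsGalois ℚ _ (AlgebraicClosure ℚ) _ (AlgebraicClosure.instAlgebra ℚ) := inferInstance
  have e : (AlgebraicClosure.instAlgebra ℚ : Algebra ℚ (AlgebraicClosure ℚ)) =
      DivisionRing.toRatAlgebra := Subsingleton.elim _ _
  rw [← e]
  exact h

/-- **(T5)**: if the mod-`5` representation is not irreducible, there is a Galois-stable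
`2`-cycle `{x₁, x₂}` of the `x`-duplication map. -/
theorem five_data (W' : WeierstrassCurve.Affine ℚ) (hΔ : W'.Δ ≠ 0)
    (h5 : ¬ GaloisRepIsIrreducible (K := Qbar) ℚ W' 5) :
    ∃ x₁ x₂ : Qbar, x₁ ≠ x₂ ∧
      dD (W'⁄Qbar).b₂ (W'⁄Qbar).b₄ (W'⁄Qbar).b₆ x₁ ≠ 0 ∧
      dD (W'⁄Qbar).b₂ (W'⁄Qbar).b₄ (W'⁄Qbar).b₆ x₂ ≠ 0 ∧
      x₂ * dD (W'⁄Qbar).b₂ (W'⁄Qbar).b₄ (W'⁄Qbar).b₆ x₁
        = dN (W'⁄Qbar).b₄ (W'⁄Qbar).b₆ (W'⁄Qbar).b₈ x₁ ∧
      x₁ * dD (W'⁄Qbar).b₂ (W'⁄Qbar).b₄ (W'⁄Qbar).b₆ x₂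
        = dN (W'⁄Qbar).b₄ (W'⁄Qbar).b₆ (W'⁄Qbar).b₈ x₂ ∧
      (x₁ + x₂) ∈ Set.range (algebraMap ℚ Qbar) ∧
      (x₁ * x₂) ∈ Set.range (algebraMap ℚ Qbar) := by
  haveI := isGalois_Qbar
  haveI : (W'⁄Qbar).IsElliptic := by
    constructor
    rw [isUnit_iff_ne_zero]
    show (W'.map (algebraMap ℚ Qbar)).Δ ≠ 0
    rw [WeierstrassCurve.map_Δ]
    exact (map_ne_zero _).mpr hΔ
  -- nontriviality
  have hnt : Nontrivial (Submodule.torsionBy ℤ (W'⁄Qbar).Point ((5 : ℕ) : ℤ)) := by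
    obtain ⟨P, hP, hP5⟩ := exists_order5 (W'⁄Qbar)
    have hmem : P ∈ Submodule.torsionBy ℤ (W'⁄Qbar).Point ((5 : ℕ) : ℤ) := by
      rw [Submodule.mem_torsionBy_iff, natCast_zsmul]; exact hP5
    exact ⟨⟨⟨P, hmem⟩, 0, fun h => hP (congrArg Subtype.val h)⟩⟩
  unfold GaloisRepIsIrreducible at h5
  rw [not_and_or] at h5
  rcases h5 with h5 | h5
  · exact absurd hnt h5
  rw [not_forall] at h5
  obtain ⟨N, hN⟩ := h5
  rw [Classical.not_imp, not_or] at hN
  obtain ⟨hstab, hN0, hN1⟩ := hN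
  obtain ⟨P, hPN, hP0, hgen⟩ := exists_generator N hN0 hN1
  have hP5 : 5 • (P : (W'⁄Qbar).Point) = 0 := nsmul_eq_zero_of_mem P
  have hP0' : (P : (W'⁄Qbar).Point) ≠ 0 := fun h => hP0 (Subtype.ext h)
  obtain ⟨hD1, hD2, hX1, hX2, huv⟩ := order5_rel hP0' hP5
  refine ⟨xc (P : (W'⁄Qbar).Point), xc (2 • (P : (W'⁄Qbar).Point)), huv, hD1, hD2, hX1, hX2, ?_⟩
  -- Galois invariance
  have hσ : ∀ σ : Qbar ≃ₐ[ℚ] Qbar,
      (σ (xc (P : (W'⁄Qbar).Point)) = xc (P : (W'⁄Qbar).Point) ∧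
        σ (xc (2 • (P : (W'⁄Qbar).Point))) = xc (2 • (P : (W'⁄Qbar).Point))) ∨
      (σ (xc (P : (W'⁄Qbar).Point)) = xc (2 • (P : (W'⁄Qbar).Point)) ∧
        σ (xc (2 • (P : (W'⁄Qbar).Point))) = xc (P : (W'⁄Qbar).Point)) := by
    intro σ
    obtain ⟨c, hc⟩ := hgen (σ • P) (hstab σ P hPN)
    have hc' : c.val • (P : (W'⁄Qbar).Point) = σ • (P : (W'⁄Qbar).Point) := by
      rw [← coe_zmod_smul, hc]; rfl
    have hk : ¬ 5 ∣ c.val := by
      intro hdvd
      have h0 : c.val • (P : (W'⁄Qbar).Point) = 0 :=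
        (nsmul_eq_zero_iff_of_order5 hP0' hP5 _).mpr hdvd
      rw [hc'] at h0
      exact hP0' ((smul_eq_zero_iff_eq σ).mp h0)
    have h2 : (2 * c.val) • (P : (W'⁄Qbar).Point) = σ • (2 • (P : (W'⁄Qbar).Point)) := by
      rw [galois_smul_nsmul, ← hc', mul_nsmul']
    have := sym_xc hP5 c.val hk
    rw [hc', h2, xc_galois_smul, xc_galois_smul] at this
    exact this
  constructor
  · rw [InfiniteGalois.mem_range_algebraMap_iff_fixed]
    intro σ
    rcases hσ σ with ⟨h1, h2⟩ | ⟨h1, h2⟩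
    · rw [map_add, h1, h2]
    · rw [map_add, h1, h2, add_comm]
  · rw [InfiniteGalois.mem_range_algebraMap_iff_fixed]
    intro σ
    rcases hσ σ with ⟨h1, h2⟩ | ⟨h1, h2⟩
    · rw [map_mul, h1, h2]
    · rw [map_mul, h1, h2, mul_comm]

/-- **(I2), `d`-form**: if the mod-`5` representation of `W` is not irreducible, then there is a
nonzero rational `d` (`= (x(P) - x(2P))^2`) with `c₄ d^5 = Δ^2 + 10 Δ d^3 + 5 d^6`. -/
theorem five_side_d (W : WeierstrassCurve ℤ) (hΔ : W.Δ ≠ 0) (h5 : ¬ W.ModRepIsIrreducible 5) :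
    ∃ d : ℚ, d ≠ 0 ∧ (W.c₄ : ℚ) * d ^ 5 = (W.Δ : ℚ) ^ 2 + 10 * (W.Δ : ℚ) * d ^ 3 + 5 * d ^ 6 := by
  set W' : WeierstrassCurve.Affine ℚ := W.map (Int.castRingHom ℚ) with hW'
  have hΔ' : W'.Δ ≠ 0 := by
    rw [hW', WeierstrassCurve.map_Δ]
    simpa using hΔ
  obtain ⟨x₁, x₂, hne, -, -, hX1, hX2, ⟨s, hs⟩, ⟨q, hq⟩⟩ := five_data W' hΔ' h5
  have key := hauptmodul_identity (W'⁄Qbar).b₂ (W'⁄Qbar).b₄ (W'⁄Qbar).b₆ (W'⁄Qbar).b₈ x₁ x₂
    (W'⁄Qbar).b_relation (by simp only [dD, dN] at hX1; rw [← hX1])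
    (by simp only [dD, dN] at hX2; rw [← hX2]) hne
  have hc4 : (W'⁄Qbar).b₂ ^ 2 - 24 * (W'⁄Qbar).b₄ = algebraMap ℚ Qbar (W.c₄ : ℚ) := by
    have h1 : (W'⁄Qbar).c₄ = algebraMap ℚ Qbar W'.c₄ := WeierstrassCurve.map_c₄ _ _
    have h2 : W'.c₄ = (W.c₄ : ℚ) := by
      rw [hW', WeierstrassCurve.map_c₄]; rfl
    rw [← h2, ← h1]; rfl
  have hdisc : -(W'⁄Qbar).b₂ ^ 2 * (W'⁄Qbar).b₈ - 8 * (W'⁄Qbar).b₄ ^ 3 - 27 * (W'⁄Qbar).b₆ ^ 2
      + 9 * (W'⁄Qbar).b₂ * (W'⁄Qbar).b₄ * (W'⁄Qbar).b₆ = algebraMap ℚ Qbar (W.Δ : ℚ) := by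
    have h1 : (W'⁄Qbar).Δ = algebraMap ℚ Qbar W'.Δ := WeierstrassCurve.map_Δ _ _
    have h2 : W'.Δ = (W.Δ : ℚ) := by
      rw [hW', WeierstrassCurve.map_Δ]; rfl
    rw [← h2, ← h1]; rfl
  have hd : (x₁ - x₂) ^ 2 = algebraMap ℚ Qbar (s ^ 2 - 4 * q) := by
    rw [map_sub, map_pow, map_mul, hs, hq, map_ofNat]; ring
  rw [hc4, hdisc, hd] at key
  refine ⟨s ^ 2 - 4 * q, ?_, ?_⟩
  · intro h0
    rw [h0, _root_.map_zero] at hd
    exact hne (sub_eq_zero.mp (pow_eq_zero_iff (by norm_num) |>.mp hd))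
  · apply (algebraMap ℚ Qbar).injective
    simp only [map_mul, map_pow, map_add, map_ofNat]
    exact key

/-- **(I2), `h`-form**: if the mod-`5` representation of `W` is not irreducible, then
`j = (h^2 + 10 h + 5)^3 / h` for some nonzero rational `h`. -/
theorem five_side_h (W : WeierstrassCurve ℤ) (hΔ : W.Δ ≠ 0) (h5 : ¬ W.ModRepIsIrreducible 5) :
    ∃ h : ℚ, h ≠ 0 ∧ (W.c₄ : ℚ) ^ 3 * h = (W.Δ : ℚ) * (h ^ 2 + 10 * h + 5) ^ 3 := by
  obtain ⟨d, hd0, hd⟩ := five_side_d W hΔ h5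
  have hΔ' : (W.Δ : ℚ) ≠ 0 := by exact_mod_cast hΔ
  refine ⟨(W.Δ : ℚ) / d ^ 3, div_ne_zero hΔ' (pow_ne_zero 3 hd0), ?_⟩
  have h1 : ((W.Δ : ℚ) / d ^ 3) ^ 2 + 10 * ((W.Δ : ℚ) / d ^ 3) + 5 = (W.c₄ : ℚ) / d := by
    field_simp
    linear_combination -hd
  rw [h1]
  field_simp

end main

end Fermat.Agent.S51.Five

end
-- ===== PACK-END S51/FiveGalois.lean

-- ===== PACK-BEGIN Ribet/H584/Places.lean
section



/-!
# RIBET, piece PL (helper584): places over `q` and Frobenius elements exist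

`places : Spec.PlacesStatement`, from the landed S54 library (`S54.exists_frobenius`).
-/

set_option autoImplicit false

namespace Fermat.Agent.Ribet.H584

open Fermat.Agent.Ribet

/-- **PL**: for every prime `q` there are a valuation subring of `ℚ̄` over `q` and a Frobenius
element at it. -/
theorem places : Spec.PlacesStatement := by
  intro q hq
  obtain ⟨A, φ, hA, hφ⟩ := Fermat.Agent.S54.exists_frobenius q hq
  exact ⟨A, hA, φ, hφ⟩

end Fermat.Agent.Ribet.H584

end
-- ===== PACK-END Ribet/H584/Places.lean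

-- ===== PACK-BEGIN S21/H381/Parabolic.lean
section




/-!
# S21, piece B: periods of cusp forms are parabolic homomorphisms
-/

set_option autoImplicit false

namespace Fermat.Agent.S21.H381

open CongruenceSubgroup ModularCurve ModularCurve.Period Filter Topology Function Complex
open UpperHalfPlane hiding I
open scoped Manifold MatrixGroups ModularForm

/-- An element of `SL(2, ℤ)` with `trace ^ 2 = 4` is conjugate (as a Möbius transformation)
to a translation `T ^ n`. -/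
theorem exists_conj_T_zpow (γ : SL(2, ℤ))
    (htr : ((γ : Matrix (Fin 2) (Fin 2) ℤ).trace) ^ 2 = 4) :
    ∃ δ : SL(2, ℤ), ∃ n : ℤ, ∀ w : ℍ, γ • (δ • w) = δ • (ModularGroup.T ^ n • w) := by
  have hdet := γ.det_coe
  rw [Matrix.det_fin_two] at hdet
  rw [Matrix.trace_fin_two] at htr
  by_cases hc : γ 1 0 = 0
  · obtain ⟨n, hn⟩ := ModularGroup.exists_eq_T_zpow_of_c_eq_zero hc
    exact ⟨1, n, fun w => by simp [hn]⟩
  · set a := γ 0 0 with ha
    set b := γ 0 1 with hb
    set c := γ 1 0 with hc'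
    set d := γ 1 1 with hd
    set g : ℤ := (Int.gcd (a - d) (2 * c) : ℤ) with hg
    have hg0 : g ≠ 0 := by
      rw [hg]
      intro h
      have h2 : Int.gcd (a - d) (2 * c) = 0 := by exact_mod_cast h
      rw [Int.gcd_eq_zero_iff] at h2
      have : c = 0 := by omega
      exact hc this
    have hga : g ∣ (a - d) := Int.gcd_dvd_left _ _
    have hgc : g ∣ (2 * c) := Int.gcd_dvd_right _ _
    obtain ⟨p, hp⟩ := hga
    obtain ⟨q, hq⟩ := hgc
    have hcop : IsCoprime p q := by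
      have hbez := Int.gcd_eq_gcd_ab (a - d) (2 * c)
      rw [← hg] at hbez
      refine ⟨Int.gcdA (a - d) (2 * c), Int.gcdB (a - d) (2 * c), ?_⟩
      have : g * (Int.gcdA (a - d) (2 * c) * p + Int.gcdB (a - d) (2 * c) * q) = g * 1 := by
        have e1 : g * p = a - d := hp.symm
        have e2 : g * q = 2 * c := hq.symm
        calc g * (Int.gcdA (a - d) (2 * c) * p + Int.gcdB (a - d) (2 * c) * q)
            = (g * p) * Int.gcdA (a - d) (2 * c) + (g * q) * Int.gcdB (a - d) (2 * c) := by ring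
          _ = g := by rw [e1, e2]; exact hbez.symm
          _ = g * 1 := (mul_one g).symm
      exact mul_left_cancel₀ hg0 this
    obtain ⟨δ, hδ0, hδ1⟩ := hcop.exists_SL2_col 0
    have hδdet := δ.det_coe
    rw [Matrix.det_fin_two, hδ0, hδ1] at hδdet
    have hM : (δ⁻¹ * γ * δ) 1 0 = 0 := by
      have hQ : g ^ 2 * (c * p ^ 2 + (d - a) * p * q - b * q ^ 2) = 0 := by
        have e1 : g * p = a - d := hp.symm
        have e2 : g * q = 2 * c := hq.symm
        have : g ^ 2 * (c * p ^ 2 + (d - a) * p * q - b * q ^ 2)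
            = c * (g * p) ^ 2 + (d - a) * (g * p) * (g * q) - b * (g * q) ^ 2 := by ring
        rw [this, e1, e2]
        have h4 : (a + d) ^ 2 = 4 := htr
        have h1 : a * d - b * c = 1 := hdet
        linear_combination (-c) * h4 + (4 * c) * h1
      have hQ' : c * p ^ 2 + (d - a) * p * q - b * q ^ 2 = 0 := by
        rcases mul_eq_zero.mp hQ with h | h
        · exact absurd (pow_eq_zero_iff two_ne_zero |>.mp h) hg0
        · exact h
      simp only [Matrix.SpecialLinearGroup.coe_mul, Matrix.SpecialLinearGroup.coe_inv,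
        Matrix.adjugate_fin_two, Matrix.mul_apply, Fin.sum_univ_two, Matrix.of_apply,
        Matrix.cons_val', Matrix.cons_val_zero, Matrix.cons_val_one, Matrix.empty_val',
        Matrix.cons_val_fin_one, hδ0, hδ1]
      rw [← ha, ← hb, ← hc', ← hd]
      linear_combination hQ'
    obtain ⟨n, hn⟩ := ModularGroup.exists_eq_T_zpow_of_c_eq_zero hM
    refine ⟨δ, n, fun w => ?_⟩
    rw [← hn w, ← mul_smul, ← mul_smul]
    congr 1
    group

/-- Translation by `T ^ n` preserves the filter `atImInfty`. -/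
theorem tendsto_T_zpow_smul_atImInfty (n : ℤ) :
    Tendsto (fun w : ℍ => ModularGroup.T ^ n • w) atImInfty atImInfty := by
  rw [atImInfty, tendsto_comap_iff]
  have : (UpperHalfPlane.im ∘ fun w : ℍ => ModularGroup.T ^ n • w) = UpperHalfPlane.im := by
    funext w
    exact ModularGroup.im_T_zpow_smul w n
  rw [this]
  exact tendsto_comap

variable {N : ℕ} [NeZero N]

/-- **Piece B**: the period homomorphism of a cusp form kills every `γ` with `trace ^ 2 = 4`. -/
theorem periodMap_mem_parabolicHoms (f : CuspForm (Gamma0 N) 2) :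
    periodMap N f ∈ parabolicHoms ℂ (Gamma0 N) ℂ := by
  rw [mem_parabolicHoms_iff]
  intro γ hγ
  obtain ⟨F, hF⟩ := exists_hasEquivariantPrimitive f
  obtain ⟨δ, n, hδ⟩ := exists_conj_T_zpow (γ : SL(2, ℤ)) hγ
  obtain ⟨L, hL⟩ := hF.2.2.2 δ
  have hconst : ∀ w : ℍ, periodMap N f (Additive.ofMul γ)
      = F (δ • (ModularGroup.T ^ n • w)) - F (δ • w) := by
    intro w
    rw [_root_.Fermat.Agent.S21.H381.periodMap_apply hF γ (δ • w), hδ w]
  have h1 : Tendsto (fun w : ℍ => F (δ • (ModularGroup.T ^ n • w)) - F (δ • w)) atImInfty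
      (𝓝 (L - L)) :=
    (hL.comp (tendsto_T_zpow_smul_atImInfty n)).sub hL
  have h2 : Tendsto (fun w : ℍ => F (δ • (ModularGroup.T ^ n • w)) - F (δ • w)) atImInfty
      (𝓝 (periodMap N f (Additive.ofMul γ))) := by
    have : (fun w : ℍ => F (δ • (ModularGroup.T ^ n • w)) - F (δ • w))
        = fun _ => periodMap N f (Additive.ofMul γ) := funext fun w => (hconst w).symm
    rw [this]; exact tendsto_const_nhds
  have := tendsto_nhds_unique h2 h1
  rw [sub_self] at this
  exact this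

/-- **Piece B'**: the range of `periodHomPair` consists of parabolic homomorphisms. -/
theorem range_periodHomPair_le :
    LinearMap.range (periodHomPair N) ≤ parabolicHoms ℂ (Gamma0 N) ℂ := by
  rintro ψ ⟨⟨f, g⟩, rfl⟩
  rw [_root_.Fermat.Agent.S21.H381.periodHomPair_apply]
  have hf := _root_.Fermat.Agent.S21.H381.periodMap_mem_parabolicHoms f
  have hg := _root_.Fermat.Agent.S21.H381.periodMap_mem_parabolicHoms g
  exact Submodule.add_mem _
    (Submodule.add_mem _ hf (charInvolution_mem_parabolicHoms N ℂ ℂ hf))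
    (Submodule.sub_mem _ hg (charInvolution_mem_parabolicHoms N ℂ ℂ hg))

end Fermat.Agent.S21.H381

end
-- ===== PACK-END S21/H381/Parabolic.lean

-- ===== PACK-BEGIN Lib/Cheb/H993/Glue.lean
section



/-!
# Piece `M` of CHEB: the finite-level Frobenius density theorem from `Z`, `B0`, `A`, `D`

`frobFinite : PrimeSumStatement → PrimeCountBoundStatement → CountStatement → FrobStatement →
  FrobFiniteStatement`.
-/

set_option autoImplicit false

namespace Fermat.Agent.Lib.Cheb.H993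

open NumberField
open scoped Pointwise Classical
open Fermat.Agent.Lib.Cheb

noncomputable section

variable (L : Type) [Field L] [NumberField L]

/-- The primes of `𝓞 L` above `p` whose decomposition group is exactly `X`. -/
def primesEq (X : Subgroup (L ≃ₐ[ℚ] L)) (p : ℕ) : Set (Ideal (𝓞 L)) :=
  {P | P.IsPrime ∧ (p : 𝓞 L) ∈ P ∧ Spec.decomp L P = X}

/-- `|D_P|`. -/
def dcard (P : Ideal (𝓞 L)) : ℕ := Nat.card (Spec.decomp L P)

theorem finite_above {p : ℕ} (hp : p ≠ 0) : {P : Ideal (𝓞 L) | (p : 𝓞 L) ∈ P}.Finite := by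
  refine (Ideal.finite_setOfPred_absNorm_le (S := 𝓞 L) (p ^ Module.finrank ℤ (𝓞 L))).subset ?_
  intro P hP
  have hle : Ideal.span {(p : 𝓞 L)} ≤ P := (Ideal.span_singleton_le_iff_mem P).mpr hP
  have hdvd := Ideal.absNorm_dvd_absNorm_of_le hle
  rw [Ideal.absNorm_span_natCast] at hdvd
  exact Nat.le_of_dvd (pow_pos (Nat.pos_of_ne_zero hp) _) hdvd

theorem finite_primesEq (X : Subgroup (L ≃ₐ[ℚ] L)) {p : ℕ} (hp : p ≠ 0) :
    (primesEq L X p).Finite :=
  (finite_above L hp).subset fun _ h => h.2.1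

theorem finite_primesLe (H : Subgroup (L ≃ₐ[ℚ] L)) {p : ℕ} (hp : p ≠ 0) :
    (Spec.primesLe L H p).Finite :=
  (finite_above L hp).subset fun _ h => h.2.1

/-- The weight of the subgroup `X` at `p`. -/
def wt (X : Subgroup (L ≃ₐ[ℚ] L)) (p : ℕ) : ℕ := ∑ᶠ P ∈ primesEq L X p, dcard L P

theorem decompWeight_eq (H : Subgroup (L ≃ₐ[ℚ] L)) (p : ℕ) :
    Spec.decompWeight L H p = ∑ᶠ P ∈ Spec.primesLe L H p, dcard L P := by
  unfold Spec.decompWeight dcard
  exact finsum_set_coe_eq_finsum_mem (s := Spec.primesLe L H p)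
    (f := fun P => Nat.card (Spec.decomp L P))

variable [IsGalois ℚ L]

theorem primesLe_eq_iUnion (H : Subgroup (L ≃ₐ[ℚ] L)) (p : ℕ) :
    Spec.primesLe L H p = ⋃ X ∈ (below H : Set (Subgroup (L ≃ₐ[ℚ] L))), primesEq L X p := by
  ext P
  simp only [Spec.primesLe, primesEq, Set.mem_iUnion, Finset.mem_coe, mem_below,
    Set.mem_ofPred_eq, exists_prop]
  constructor
  · rintro ⟨h1, h2, h3⟩
    exact ⟨_, h3, h1, h2, rfl⟩
  · rintro ⟨X, hX, h1, h2, h3⟩
    exact ⟨h1, h2, h3 ▸ hX⟩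

theorem decompWeight_eq_sum (H : Subgroup (L ≃ₐ[ℚ] L)) {p : ℕ} (hp : p ≠ 0) :
    Spec.decompWeight L H p = ∑ X ∈ below H, wt L X p := by
  rw [decompWeight_eq, primesLe_eq_iUnion, finsum_mem_biUnion]
  · exact finsum_mem_coe_finset (fun X => ∑ᶠ P ∈ primesEq L X p, dcard L P) (below H)
  · intro X _ Y _ hXY
    rw [Function.onFun, Set.disjoint_left]
    intro P hPX hPY
    exact hXY (hPX.2.2.symm.trans hPY.2.2)
  · exact (below H).finite_toSet
  · intro X _
    exact finite_primesEq L X hp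

theorem exists_of_wt_pos {X : Subgroup (L ≃ₐ[ℚ] L)} {p : ℕ} (h : 0 < wt L X p) :
    ∃ P : Ideal (𝓞 L), P.IsPrime ∧ (p : 𝓞 L) ∈ P ∧ Spec.decomp L P = X := by
  by_contra hcon
  have hempty : primesEq L X p = ∅ := by
    ext P
    simp only [primesEq, Set.mem_ofPred_eq, Set.mem_empty_iff_false, iff_false]
    exact fun hP => hcon ⟨P, hP⟩
  unfold wt at h
  rw [hempty] at h
  simp at h

theorem wt_le_decompWeight_top (X : Subgroup (L ≃ₐ[ℚ] L)) {p : ℕ} (hp : p ≠ 0) :
    wt L X p ≤ Spec.decompWeight L ⊤ p := by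
  rw [decompWeight_eq_sum L ⊤ hp]
  exact Finset.single_le_sum (f := fun X => wt L X p) (fun _ _ => Nat.zero_le _)
    (mem_below.mpr le_top)

/-- **Piece M.** -/
theorem frobFinite (hZ : Spec.PrimeSumStatement) (hB0 : Spec.PrimeCountBoundStatement)
    (hA : Spec.CountStatement) (hD : Spec.FrobStatement) : Spec.FrobFiniteStatement := by
  intro L _ _ _ σ S
  haveI : Fintype (Subgroup (L ≃ₐ[ℚ] L)) := Fintype.ofFinite _
  -- bad primes
  choose BA hBA using fun H : Subgroup (L ≃ₐ[ℚ] L) => hA L H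
  obtain ⟨BD, hBD⟩ := hD L
  let Bad : Finset ℕ := Finset.univ.biUnion BA
  have hBad : ∀ (H : Subgroup (L ≃ₐ[ℚ] L)) (p : ℕ), p ∉ Bad → p ∉ BA H := by
    intro H p hp hpH
    exact hp (Finset.mem_biUnion.mpr ⟨H, Finset.mem_univ _, hpH⟩)
  -- weights
  let v : Subgroup (L ≃ₐ[ℚ] L) → ℕ → ℝ := fun X p =>
    if p.Prime ∧ p ∉ Bad then (wt L X p : ℝ) else 0
  let K : ℝ := (Module.finrank ℚ (IntermediateField.fixedField (⊤ : Subgroup (L ≃ₐ[ℚ] L))) : ℝ) *
    (Nat.card (⊤ : Subgroup (L ≃ₐ[ℚ] L)) : ℝ)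
  have hv0 : ∀ X p, 0 ≤ v X p := by
    intro X p
    simp only [v]
    split_ifs
    · exact Nat.cast_nonneg _
    · exact le_rfl
  have hK0 : 0 ≤ K := by positivity
  have hvK : ∀ X p, v X p ≤ K := by
    intro X p
    simp only [v]
    split_ifs with h
    · have h1 := wt_le_decompWeight_top L X h.1.ne_zero
      have h2 := hBA ⊤ p h.1 (hBad ⊤ p h.2)
      have h3 := hB0 (IntermediateField.fixedField (⊤ : Subgroup (L ≃ₐ[ℚ] L))) p
      have h4 : wt L X p ≤ Module.finrank ℚ (IntermediateField.fixedField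
          (⊤ : Subgroup (L ≃ₐ[ℚ] L))) * Nat.card (⊤ : Subgroup (L ≃ₐ[ℚ] L)) := by
        rw [← h2] at h1
        exact h1.trans (Nat.mul_le_mul_right _ h3)
      simp only [K]
      exact_mod_cast h4
    · exact hK0
  -- the hypothesis of the induction
  have hW : ∀ H : Subgroup (L ≃ₐ[ℚ] L),
      LogAsymp (pSum (fun p => ∑ X ∈ below H, v X p)) (Nat.card H) := by
    intro H
    set F := IntermediateField.fixedField H with hF
    obtain ⟨C, hC⟩ := hZ F
    -- full prime sum of `primeCount F`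
    have h1 : LogAsymp (pSum (fun p => (Spec.primeCount F p : ℝ))) 1 := by
      refine ⟨C, fun s hs1 hs2 => ?_⟩
      rw [one_mul]
      exact hC s hs1 hs2
    -- the part supported on the bad primes
    let b : ℕ → ℝ := fun p => if p ∈ Bad then (Spec.primeCount F p : ℝ) else 0
    have hb0 : ∀ p, 0 ≤ b p := fun p => by
      simp only [b]; split_ifs
      · exact Nat.cast_nonneg _
      · exact le_rfl
    have hbK : ∀ p, b p ≤ (Module.finrank ℚ F : ℝ) := fun p => by
      simp only [b]; split_ifs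
      · exact_mod_cast hB0 F p
      · exact Nat.cast_nonneg _
    have h2 : LogAsymp (pSum b) 0 :=
      LogAsymp.zero_of_bounded (K := (Module.finrank ℚ F : ℝ) * Bad.card) fun s hs1 _ =>
        abs_pSum_le_of_support Bad hb0 hbK (fun p hp => by simp [b, hp]) hs1
    have h3 := (h1.sub h2).const_mul (Nat.card H : ℝ)
    rw [sub_zero, mul_one] at h3
    refine h3.congr fun s hs1 _ => ?_
    -- pointwise identity of the coefficients at primes
    have hc0 : ∀ p, 0 ≤ (Spec.primeCount F p : ℝ) := fun p => Nat.cast_nonneg _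
    have hcK : ∀ p, (Spec.primeCount F p : ℝ) ≤ (Module.finrank ℚ F : ℝ) := fun p => by
      exact_mod_cast hB0 F p
    have hs1' := summable_pSum hc0 hcK hs1
    have hs2' := summable_pSum hb0 hbK hs1
    unfold pSum
    rw [← Summable.tsum_sub hs1' hs2', ← tsum_mul_left]
    congr 1
    funext p
    by_cases hp : (p : ℕ) ∈ Bad
    · have hv : ∀ X, v X p = 0 := fun X => by simp [v, hp]
      simp [hv, b, hp]
    · have hv : ∀ X, v X p = (wt L X p : ℝ) := fun X => by simp [v, hp, p.2]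
      have h5 := decompWeight_eq_sum L H p.2.ne_zero
      have h6 := hBA H p p.2 (hBad H p hp)
      simp only [hv, b, hp, if_false, sub_zero]
      rw [← Nat.cast_sum, ← h5, ← h6]
      push_cast
      ring
  -- apply the induction to `X = zpowers σ`
  have hgens : 0 < gens (Subgroup.zpowers σ) := by
    unfold gens
    haveI : Nonempty {x : L ≃ₐ[ℚ] L // Subgroup.zpowers x = Subgroup.zpowers σ} := ⟨⟨σ, rfl⟩⟩
    exact Nat.card_pos
  obtain ⟨p, hp, hpS, hpos⟩ :=
    exists_pos_of_gens_pos v K hv0 hvK hW (Subgroup.zpowers σ) hgens (S ∪ Bad ∪ BD)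
  have hpS' : p ∉ S := fun h => hpS (Finset.mem_union_left _ (Finset.mem_union_left _ h))
  have hpBad : p ∉ Bad := fun h => hpS (Finset.mem_union_left _ (Finset.mem_union_right _ h))
  have hpBD : p ∉ BD := fun h => hpS (Finset.mem_union_right _ h)
  have hwt : 0 < wt L (Subgroup.zpowers σ) p := by
    have : v (Subgroup.zpowers σ) p = (wt L (Subgroup.zpowers σ) p : ℝ) := by
      simp [v, hp, hpBad]
    rw [this] at hpos
    exact_mod_cast hpos
  obtain ⟨P, hP, hpP, hdec⟩ := exists_of_wt_pos L hwt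
  obtain ⟨hin, τ, hτ, hτd⟩ := hBD p hp hpBD P hP hpP
  exact ⟨p, P, τ, hp, hpS', hP, hpP, hin, hτ, hτd.symm.trans hdec⟩

end

end Fermat.Agent.Lib.Cheb.H993

end
-- ===== PACK-END Lib/Cheb/H993/Glue.lean

-- ===== PACK-BEGIN S29/H872/Cyclo.lean
section



/-!
# The mod `p` cyclotomic character at Frobenius elements

For a prime `ℓ ≠ p`, a valuation subring `A` of `ℚ̄` over `ℓ` and a Frobenius element `τ` at `A`
(Prelude: `ValuationSubring.IsFrobeniusAt`), the mod `p` cyclotomic character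
`ExtCitation.cycloChar p` takes the value `ℓ` at `τ`.
-/

set_option autoImplicit false

namespace Fermat.Agent.S29.H872

open ExtCitation Fermat.Agent.S55.Bridge

section frob

variable (A : ValuationSubring (AlgebraicClosure ℚ))

/-- A Frobenius element at `A` raises to the `ℓ`-th power modulo the maximal ideal. -/
theorem frob_val_sub_lt_one {τ : AlgebraicClosure ℚ ≃ₐ[ℚ] AlgebraicClosure ℚ} {ℓ : ℕ}
    (hτ : A.IsFrobeniusAt τ ℓ) (z : AlgebraicClosure ℚ)
    (hz : A.valuation z ≤ 1) : A.valuation (τ z - z ^ ℓ) < 1 := by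
  obtain ⟨hd, hfrob⟩ := hτ
  have hzA : z ∈ A := (A.valuation_le_one_iff z).mp hz
  have h2 := hfrob (IsLocalRing.residue A ⟨z, hzA⟩)
  rw [← IsLocalRing.ResidueField.residue_smul, ← map_pow] at h2
  have h3 : ((⟨τ, hd⟩ : A.decompositionSubgroup ℚ) • (⟨z, hzA⟩ : A)) - (⟨z, hzA⟩ : A) ^ ℓ
      ∈ IsLocalRing.maximalIdeal A := by
    rw [← Ideal.Quotient.eq]
    exact h2
  rw [ValuationSubring.valuation_lt_one_iff] at h3
  exact h3

end frob

variable (p : ℕ) [Fact p.Prime]

/-- A Frobenius element at a place over `ℓ ≠ p` acts on `p`-th roots of unity by `t ↦ t ^ ℓ`. -/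
theorem frob_root_eq_pow {ℓ : ℕ} (hℓ : ℓ.Prime) (hℓp : ℓ ≠ p)
    (A : ValuationSubring (AlgebraicClosure ℚ)) (hA : A.LiesOverPrime ℓ)
    (τ : AlgebraicClosure ℚ ≃ₐ[ℚ] AlgebraicClosure ℚ) (hτ : A.IsFrobeniusAt τ ℓ)
    {t : AlgebraicClosure ℚ} (htp : t ^ p = 1) : τ t = t ^ ℓ := by
  have hp : p.Prime := Fact.out
  by_contra hne
  have hpv := val_prime_eq_one (A := A) hA hℓ hp hℓp
  have hσt : (τ t) ^ p = 1 := by rw [← map_pow, htp, map_one]
  have htl : (t ^ ℓ) ^ p = 1 := by rw [← pow_mul, mul_comm, pow_mul, htp, one_pow]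
  have h1 := val_sub_roots_eq_one (A := A) hp.ne_zero hpv hσt htl hne
  have hvt : A.valuation t ≤ 1 := by
    have h : (A.valuation t) ^ p = 1 := by rw [← map_pow, htp, map_one]
    exact ((pow_eq_one_iff.1 h).resolve_right hp.ne_zero).le
  have h2 := frob_val_sub_lt_one A hτ t hvt
  rw [h1] at h2
  exact lt_irrefl _ h2

/-- **Cyclotomic character at Frobenius.** For `ℓ ≠ p` and a Frobenius element `τ` at a place over
`ℓ`, the mod `p` cyclotomic character of `τ` is `ℓ`. -/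
theorem cycloChar_frobenius {ℓ : ℕ} (hℓ : ℓ.Prime) (hℓp : ℓ ≠ p)
    (A : ValuationSubring (AlgebraicClosure ℚ)) (hA : A.LiesOverPrime ℓ)
    (τ : AlgebraicClosure ℚ ≃ₐ[ℚ] AlgebraicClosure ℚ) (hτ : A.IsFrobeniusAt τ ℓ) :
    ((cycloChar p τ : (ZMod p)ˣ) : ZMod p) = (ℓ : ZMod p) := by
  have hp : p.Prime := Fact.out
  have : NeZero p := ⟨hp.ne_zero⟩
  have : Fact (1 < p) := ⟨hp.one_lt⟩
  have h := modularCyclotomicCharacter.unique (AlgebraicClosure ℚ) (card_rootsOfUnity_eq_self p)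
    (τ : AlgebraicClosure ℚ ≃+* AlgebraicClosure ℚ) (c := (ℓ : ZMod p))
    (fun t ht => by
      have htp : (t : AlgebraicClosure ℚ) ^ p = 1 := by
        have := (mem_rootsOfUnity p t).1 ht
        rw [← Units.val_pow_eq_pow_val, this, Units.val_one]
      have h1 : (τ : AlgebraicClosure ℚ ≃+* AlgebraicClosure ℚ) (t : AlgebraicClosure ℚ)
          = (t : AlgebraicClosure ℚ) ^ ℓ := frob_root_eq_pow p hℓ hℓp A hA τ hτ htp
      rw [h1, ZMod.val_natCast]
      conv_lhs => rw [← Nat.div_add_mod ℓ p, pow_add, pow_mul, htp, one_pow, one_mul])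
  exact h.symm

/-- If `σ` fixes every `p`-th root of unity of `ℚ̄`, then `cycloChar p σ = 1` (root form). -/
theorem cycloChar_eq_one_of_fixes_roots (σ : AlgebraicClosure ℚ ≃ₐ[ℚ] AlgebraicClosure ℚ)
    (hσ : ∀ t : AlgebraicClosure ℚ, t ^ p = 1 → σ t = t) : cycloChar p σ = 1 := by
  apply cycloChar_eq_one_of_fixes
  intro t ht
  apply hσ
  have := (mem_rootsOfUnity p t).1 ht
  rw [← Units.val_pow_eq_pow_val, this, Units.val_one]

end Fermat.Agent.S29.H872

end
-- ===== PACK-END S29/H872/Cyclo.lean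

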