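import Mathlib.RingTheory.DiscreteValuationRing.Basic
import Mathlib
import Fermat.Prelude.Def_ModularCurve_X0
import Fermat.Prelude.Def_ModularCurve_LaurentCoeff
import Fermat.Prelude.Def_ModularCurve_ArithmeticGalois
import Fermat.Agent.Pack.S44C.G0E3L2
import Fermat.Agent.Pack.S44C.G0E3L3
import Fermat.Agent.Pack.S44C.G0E4L1
import Fermat.Agent.Pack.S44C.G0E4L0
import Fermat.Agent.Pack.S44C.G0E4L2
import Fermat.Agent.Pack.S44C.G0E4L3
import Fermat.Agent.Pack.S44C.G0E0L3
import Fermat.Agent.Pack.S44C.G0E5L0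
import Fermat.Agent.Pack.S44C.G0E11L0
import Fermat.Agent.Pack.Fast891

-- ===== PACK-BEGIN S20/H920/CardFund.lean
section



/-!
# S20 long shot — `card J = Nat.card (X Γ)` for a generating family (helper20's `Core` interface)

* `one_mem_MF`, `mul_mem_MF_same`, `pow_mem_MF` : `⊕ₖ MF Γ k` is a graded ring (function level);
* `card_X_le_card_of_gen` : a family generating `⊕ₖ MF Γ k` over the level one forms has at least
  `Nat.card (X Γ)` members, as soon as there is a form with pairwise distinct conjugates (leaf F);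
* `card_le_card_X_of_indep` : a family whose vectors of conjugates are linearly independent at some
  point has at most `Nat.card (X Γ)` members;
* `card_eq_card_X` : both together (this is the field `FundSystem.card_eq`).
-/

set_option autoImplicit false

noncomputable section

namespace Fermat.Agent.S20.H920

open Fermat.Agent.S20
open UpperHalfPlane ModularForm CongruenceSubgroup MatrixGroups Filter
open scoped Manifold Topology Real

variable {Γ : Subgroup SL(2, ℤ)}

lemma one_mem_MF : (1 : ℍ → ℂ) ∈ MF Γ 0 := by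
  refine ⟨mdifferentiable_const, fun γ _ => ModularForm.is_invariant_one γ, fun γ => ?_⟩
  rw [ModularForm.is_invariant_one γ]
  exact Filter.const_boundedAtFilter _ (1 : ℂ)

lemma mul_mem_MF_same {k l : ℤ} {f g : ℍ → ℂ} (hf : f ∈ MF Γ k) (hg : g ∈ MF Γ l) :
    f * g ∈ MF Γ (k + l) := by
  obtain ⟨hf1, hf2, hf3⟩ := hf
  obtain ⟨hg1, hg2, hg3⟩ := hg
  refine ⟨hf1.mul hg1, fun γ hγ => ?_, fun γ => ?_⟩
  · rw [ModularForm.mul_slash_SL2, hf2 γ hγ, hg2 γ hγ]
  · rw [ModularForm.mul_slash_SL2]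
    exact (hf3 γ).mul (hg3 γ)

lemma pow_mem_MF {k : ℤ} {f : ℍ → ℂ} (hf : f ∈ MF Γ k) (b : ℕ) :
    f ^ b ∈ MF Γ ((b : ℤ) * k) := by
  induction b with
  | zero => simpa using (one_mem_MF (Γ := Γ))
  | succ b ih =>
    have h : ((b + 1 : ℕ) : ℤ) * k = (b : ℤ) * k + k := by push_cast; ring
    rw [pow_succ, h]
    exact mul_mem_MF_same ih hf

/-- Lower bound: a generating family has at least `Nat.card (X Γ)` members. -/
theorem card_X_le_card_of_gen [Γ.FiniteIndex] {J : Type*} [Fintype J] (wt : J → ℤ)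
    (F : J → ℍ → ℂ)
    (gen : ∀ (k : ℤ) (f : ℍ → ℂ), f ∈ MF Γ k →
      ∃ c : J → ℍ → ℂ, (∀ j, c j ∈ MF ⊤ (k - wt j)) ∧ f = ∑ j, c j * F j)
    {w₀ : ℤ} (hF : ∃ f₀ ∈ MF Γ w₀, ∃ z₀ : ℍ, Function.Injective (ev Γ w₀ z₀ f₀)) :
    Nat.card (X Γ) ≤ Fintype.card J := by
  obtain ⟨f₀, hf₀, z₀, hinj⟩ := hF
  refine card_quot_le_card_of_gen Γ wt F w₀ f₀ z₀ hinj fun b => ?_
  obtain ⟨c, hc, hfc⟩ := gen _ _ (pow_mem_MF hf₀ b)
  exact ⟨c, fun j g => (hc j).2.1 g (Subgroup.mem_top g), hfc⟩

/-- Upper bound: a pointwise independent family has at most `Nat.card (X Γ)` members. -/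
theorem card_le_card_X_of_indep [Γ.FiniteIndex] {J : Type*} [Fintype J] (wt : J → ℤ)
    (F : J → ℍ → ℂ) {τ : ℍ} (indep : LinearIndependent ℂ fun j => ev Γ (wt j) τ (F j)) :
    Fintype.card J ≤ Nat.card (X Γ) := by
  classical
  haveI : Fintype (X Γ) := Fintype.ofFinite _
  have h := indep.fintype_card_le_finrank
  rw [Module.finrank_fintype_fun_eq_card] at h
  rw [Nat.card_eq_fintype_card]
  exact h

/-- The number of generators of a fundamental system is the index. -/
theorem card_eq_card_X [Γ.FiniteIndex] {J : Type*} [Fintype J] (wt : J → ℤ)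
    (F : J → ℍ → ℂ)
    (gen : ∀ (k : ℤ) (f : ℍ → ℂ), f ∈ MF Γ k →
      ∃ c : J → ℍ → ℂ, (∀ j, c j ∈ MF ⊤ (k - wt j)) ∧ f = ∑ j, c j * F j)
    {τ : ℍ} (indep : LinearIndependent ℂ fun j => ev Γ (wt j) τ (F j))
    {w₀ : ℤ} (hF : ∃ f₀ ∈ MF Γ w₀, ∃ z₀ : ℍ, Function.Injective (ev Γ w₀ z₀ f₀)) :
    Fintype.card J = Nat.card (X Γ) :=
  le_antisymm (card_le_card_X_of_indep wt F indep) (card_X_le_card_of_gen wt F gen hF)

end Fermat.Agent.S20.H920

end
end
-- ===== PACK-END S20/H920/CardFund.lean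

-- ===== PACK-BEGIN S20/F2_helper658.lean
section
/-
S20 / work package F, bridge (helper658): the form `f0 N = Δ ∣[12] diag(N,1)` and a separating
point `z0 N`, restated at FUNCTION level for `SL(2,ℤ)` (no `GL(2,ℝ)` quotient), in shapes that are
definitionally the ones used by the core skeletons:
* `IsMF (Gamma0 N) 12 f` / `f ∈ MF (Gamma0 N) 12`  unfold to the triple in `f0_isMF_raw`;
* `conj Γ k f q τ` / `ev Γ k τ f q`  unfold to `(f ∣[k] (q.out)⁻¹) τ`.
-/


set_option autoImplicit false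

open UpperHalfPlane ModularForm CongruenceSubgroup MatrixGroups
open Matrix.SpecialLinearGroup Filter Topology
open scoped Manifold

noncomputable section

namespace Fermat.Agent.S20.F658

/-- finitely many pairwise distinct holomorphic functions on `ℍ` take pairwise distinct values
at some common point -/
lemma exists_point_injective {ι : Type*} [Finite ι] (F : ι → ℍ → ℂ)
    (hF : ∀ i, MDiff (F i)) (hinj : Function.Injective F) :
    ∃ z₀ : ℍ, Function.Injective (fun i ↦ F i z₀) := by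
  classical
  let _ : Fintype ι := Fintype.ofFinite ι
  let s : Finset (ι × ι) := Finset.univ.filter fun p ↦ p.1 ≠ p.2
  have hne : ∏ p ∈ s, (F p.1 - F p.2) ≠ 0 := by
    intro h0
    rw [UpperHalfPlane.prod_eq_zero_iff (fun p _ ↦ (hF p.1).sub (hF p.2))] at h0
    obtain ⟨p, hp, hp0⟩ := h0
    exact (Finset.mem_filter.mp hp).2 (hinj (sub_eq_zero.mp hp0))
  obtain ⟨z₀, hz₀⟩ := Function.ne_iff.mp hne
  refine ⟨z₀, fun q q' hqq' ↦ ?_⟩
  by_contra hq
  apply hz₀
  rw [Finset.prod_apply, Pi.zero_apply]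
  exact Finset.prod_eq_zero (i := (q, q')) (Finset.mem_filter.mpr ⟨Finset.mem_univ _, hq⟩)
    (by simpa [sub_eq_zero] using hqq')

lemma exists_z0 (N : ℕ) [NeZero N] :
    ∃ z₀ : ℍ, Function.Injective
      (fun q : 𝒮ℒ ⧸ (Gamma0 N : Subgroup (GL (Fin 2) ℝ)).subgroupOf 𝒮ℒ ↦
        SlashInvariantForm.quotientFunc (f0 N) q z₀) :=
  exists_point_injective _
    (Quotient.forall.mpr fun r ↦ (ModularForm.translate (f0 N) r.val⁻¹).holo')
    (quotientFunc_f0_injective N)

/-- a point separating all `SL(2,ℤ)`-conjugates of `f0 N` -/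
def z0 (N : ℕ) [NeZero N] : ℍ := (exists_z0 N).choose

lemma z0_spec (N : ℕ) [NeZero N] :
    Function.Injective
      (fun q : 𝒮ℒ ⧸ (Gamma0 N : Subgroup (GL (Fin 2) ℝ)).subgroupOf 𝒮ℒ ↦
        SlashInvariantForm.quotientFunc (f0 N) q (z0 N)) :=
  (exists_z0 N).choose_spec

/-- `f0 N` is holomorphic -/
lemma f0_mdiff (N : ℕ) [NeZero N] : MDiff (f0 N : ℍ → ℂ) := (f0 N).holo'

/-- `f0 N` is `Γ₀(N)`-invariant (slash action of `SL(2,ℤ)`) -/
lemma f0_slash_eq (N : ℕ) [NeZero N] (γ : SL(2, ℤ)) (hγ : γ ∈ Gamma0 N) :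
    (f0 N : ℍ → ℂ) ∣[(12 : ℤ)] γ = f0 N :=
  (f0 N).slash_action_eq' (mapGL ℝ γ) ⟨γ, hγ, rfl⟩

/-- every `SL(2,ℤ)`-translate of `f0 N` is bounded at `i∞` -/
lemma f0_bdd (N : ℕ) [NeZero N] (g : SL(2, ℤ)) :
    IsBoundedAtImInfty ((f0 N : ℍ → ℂ) ∣[(12 : ℤ)] g) :=
  ModularFormClass.bdd_at_infty_slash (f0 N) g

/-- the raw "is a modular form of weight 12 for `Γ₀(N)`" triple -/
lemma f0_isMF_raw (N : ℕ) [NeZero N] :
    MDiff (f0 N : ℍ → ℂ) ∧ (∀ γ ∈ Gamma0 N, (f0 N : ℍ → ℂ) ∣[(12 : ℤ)] γ = f0 N) ∧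
      ∀ g : SL(2, ℤ), IsBoundedAtImInfty ((f0 N : ℍ → ℂ) ∣[(12 : ℤ)] g) :=
  ⟨f0_mdiff N, f0_slash_eq N, f0_bdd N⟩

/-- the stabiliser of `f0 N` in `SL(2,ℤ)` is exactly `Γ₀(N)` -/
lemma f0_slash_eq_iff (N : ℕ) [NeZero N] (γ : SL(2, ℤ)) :
    (f0 N : ℍ → ℂ) ∣[(12 : ℤ)] γ = f0 N ↔ γ ∈ Gamma0 N :=
  ⟨fun h ↦ mem_Gamma0_of_slash_eq N γ h, f0_slash_eq N γ⟩

/-- **separation, representative-free form**: if two conjugates `f0 ∣ g⁻¹`, `f0 ∣ h⁻¹` agree at
`z0 N` then `g Γ₀(N) = h Γ₀(N)`. -/
theorem f0_separates (N : ℕ) [NeZero N] (g h : SL(2, ℤ))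
    (hgh : ((f0 N : ℍ → ℂ) ∣[(12 : ℤ)] g⁻¹) (z0 N) = ((f0 N : ℍ → ℂ) ∣[(12 : ℤ)] h⁻¹) (z0 N)) :
    g⁻¹ * h ∈ Gamma0 N := by
  have hg : mapGL ℝ g ∈ 𝒮ℒ := ⟨g, rfl⟩
  have hh : mapGL ℝ h ∈ 𝒮ℒ := ⟨h, rfl⟩
  have key := @z0_spec N _ (⟦⟨mapGL ℝ g, hg⟩⟧) (⟦⟨mapGL ℝ h, hh⟩⟧) (by
    simp only [SlashInvariantForm.quotientFunc_mk, ← map_inv]
    exact hgh)
  have h2 := QuotientGroup.leftRel_apply.mp (Quotient.exact key)
  rw [Subgroup.mem_subgroupOf] at h2
  obtain ⟨A, hA, hA'⟩ := h2
  have h3 : mapGL ℝ A = mapGL ℝ (g⁻¹ * h) := by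
    rw [hA', map_mul, map_inv]
    rfl
  rwa [← mapGL_injective h3]

/-- the same in coset form -/
theorem f0_separates_mk (N : ℕ) [NeZero N] (g h : SL(2, ℤ))
    (hgh : ((f0 N : ℍ → ℂ) ∣[(12 : ℤ)] g⁻¹) (z0 N) = ((f0 N : ℍ → ℂ) ∣[(12 : ℤ)] h⁻¹) (z0 N)) :
    (g : SL(2, ℤ) ⧸ Gamma0 N) = h :=
  QuotientGroup.eq.mpr (f0_separates N g h hgh)

/-- **WP F at function level** (shape of `conj` / `ev` in the core skeletons):
the conjugates `q ↦ (f0 ∣[12] (q.out)⁻¹) z0`, `q ∈ SL(2,ℤ) ⧸ Γ₀(N)`, are pairwise distinct. -/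
theorem f0_conj_injective (N : ℕ) [NeZero N] :
    Function.Injective (fun q : SL(2, ℤ) ⧸ Gamma0 N ↦
      ((f0 N : ℍ → ℂ) ∣[(12 : ℤ)] ((q.out : SL(2, ℤ))⁻¹)) (z0 N)) := by
  intro q q' hqq'
  have := f0_separates_mk N q.out q'.out hqq'
  rwa [QuotientGroup.out_eq', QuotientGroup.out_eq'] at this

end Fermat.Agent.S20.F658

namespace Fermat.Agent.S20

open F658 in
/-- **WP F, function-level form.**  There are `f₀ : ℍ → ℂ`, a modular form of weight 12 for
`Γ₀(N)` (holomorphic, invariant, all translates bounded at `i∞`), and `z₀ : ℍ`, such that the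
conjugates `(f₀ ∣[12] (q.out)⁻¹) z₀`, `q ∈ SL(2,ℤ) ⧸ Γ₀(N)`, are pairwise distinct. -/
theorem exists_form_distinct_conj_raw (N : ℕ) [NeZero N] :
    ∃ (f₀ : ℍ → ℂ) (z₀ : ℍ),
      (MDiff f₀ ∧ (∀ γ ∈ Gamma0 N, f₀ ∣[(12 : ℤ)] γ = f₀) ∧
        ∀ g : SL(2, ℤ), IsBoundedAtImInfty (f₀ ∣[(12 : ℤ)] g)) ∧
      (∀ g h : SL(2, ℤ), (f₀ ∣[(12 : ℤ)] g⁻¹) z₀ = (f₀ ∣[(12 : ℤ)] h⁻¹) z₀ →
        (g : SL(2, ℤ) ⧸ Gamma0 N) = h) ∧
      Function.Injective (fun q : SL(2, ℤ) ⧸ Gamma0 N ↦
        (f₀ ∣[(12 : ℤ)] ((q.out : SL(2, ℤ))⁻¹)) z₀) :=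
  ⟨f0 N, z0 N, f0_isMF_raw N, f0_separates_mk N, f0_conj_injective N⟩

end Fermat.Agent.S20

end
end
-- ===== PACK-END S20/F2_helper658.lean

-- ===== PACK-BEGIN A2/H48/TwoExt.lean
section


/-!
# A2 / piece QEP2, part 2 (helper48): no third extension

Mathlib-only.  `K` a field with a rank-one valuation ring `O` with uniformiser `ϖ`; `F / K` a finite
extension of degree `n`; `V₁ ≠ V₂` valuation rings of `F` lying over `O`, both with uniformiser
`ϖ` (`e = 1`); families `b` in `V₁`, `c` in `V₂` whose residues are linearly independent over the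
residue field of `O`, with `f₁ + f₂ = n` members altogether.  Then

* `TwoExt.exists_basis` : `V₁ ∩ V₂` is a free `O`-module on `n` generators which form a
  `K`-basis of `F`;
* `TwoExt.exists_monic_of_mem` : every `u ∈ V₁ ∩ V₂` is integral over `O`
  (so `V₁`, `V₂` are the only extensions of `O`: the fundamental inequality is an equality).
-/

set_option autoImplicit false

namespace Fermat.Agent.A2.H48

open Polynomial

section Closed

variable {F : Type*} [Field F]

/-- A valuation ring is integrally closed (elementwise form, for polynomials over the field). -/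
theorem mem_of_monic_root (V : ValuationSubring F) {p : F[X]} (hp : p.Monic)
    (hc : ∀ i, p.coeff i ∈ V) {g : F} (hg : p.eval g = 0) : g ∈ V := by
  by_contra hgV
  have hv : 1 < V.valuation g := by
    rw [← not_le, V.valuation_le_one_iff]; exact hgV
  have hg0 : g ≠ 0 := by rintro rfl; exact hgV (zero_mem _)
  have hvpos : 0 < V.valuation g := lt_trans zero_lt_one hv
  set d := p.natDegree with hd
  have hsum : p.eval g = g ^ d + ∑ i ∈ Finset.range d, p.coeff i * g ^ i := by
    rw [eval_eq_sum_range, Finset.sum_range_succ, ← hd, hp.coeff_natDegree, one_mul, add_comm]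
  rw [hsum] at hg
  have h1 : g ^ d = -∑ i ∈ Finset.range d, p.coeff i * g ^ i := eq_neg_of_add_eq_zero_left hg
  have h2 : V.valuation (∑ i ∈ Finset.range d, p.coeff i * g ^ i) < V.valuation g ^ d := by
    apply Valuation.map_sum_lt
    · exact pow_ne_zero _ hvpos.ne'
    · intro i hi
      rw [Finset.mem_range] at hi
      rw [map_mul, map_pow]
      calc V.valuation (p.coeff i) * V.valuation g ^ i ≤ 1 * V.valuation g ^ i :=
            mul_le_mul_left ((V.valuation_le_one_iff _).2 (hc i)) _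
        _ = V.valuation g ^ i := one_mul _
        _ < V.valuation g ^ d := pow_lt_pow_right₀ hv hi
  have h3 : V.valuation (g ^ d) = V.valuation g ^ d := map_pow _ _ _
  rw [h1, Valuation.map_neg] at h3
  exact absurd h3 h2.ne

end Closed

section Arch

variable {K F : Type*} [Field K] [Field F] [Algebra K F]

/-- A rank-one condition on `O` propagates to every valuation ring of an algebraic extension
which contains `O`. -/
theorem exists_pow_mul_mem {O : ValuationSubring K} {ϖ : K} (hϖ : ϖ ∈ O)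
    (harch : ∀ a : K, ∃ k : ℕ, ϖ ^ k * a ∈ O)
    (V : ValuationSubring F) (hOV : ∀ a ∈ O, algebraMap K F a ∈ V)
    {f : F} (hf : IsIntegral K f) : ∃ k : ℕ, (algebraMap K F ϖ) ^ k * f ∈ V := by
  classical
  set μ := minpoly K f with hμ
  have hmonic : μ.Monic := minpoly.monic hf
  choose kk hkk using fun i : ℕ => harch (μ.coeff i)
  set k := (∑ i ∈ Finset.range (μ.natDegree + 1), kk i) + 1 with hk
  have hk1 : ∀ i ∈ Finset.range (μ.natDegree + 1), ϖ ^ k * μ.coeff i ∈ O := by
    intro i hi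
    have hle : kk i ≤ k := by
      have := Finset.single_le_sum (f := kk) (fun j _ => Nat.zero_le _) hi
      omega
    obtain ⟨r, hr⟩ := Nat.exists_eq_add_of_le hle
    rw [hr, pow_add, mul_comm (ϖ ^ kk i), mul_assoc]
    exact mul_mem (pow_mem hϖ _) (hkk i)
  refine ⟨k, ?_⟩
  set p := μ.scaleRoots (ϖ ^ k) with hp
  have hpm : p.Monic := (monic_scaleRoots_iff _).2 hmonic
  have hroot : aeval (algebraMap K F (ϖ ^ k) * f) p = 0 :=
    scaleRoots_aeval_eq_zero (minpoly.aeval K f)
  have hcoef : ∀ i, p.coeff i ∈ O := by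
    intro i
    rw [hp, coeff_scaleRoots]
    rcases lt_trichotomy i μ.natDegree with h | h | h
    · obtain ⟨r, hr⟩ := Nat.exists_eq_add_of_lt (Nat.sub_pos_of_lt h)
      have h1 : μ.natDegree - i = r + 1 := by omega
      rw [h1, pow_succ, ← mul_assoc]
      have h2 : ϖ ^ k * μ.coeff i ∈ O := hk1 i (Finset.mem_range.2 (by omega))
      have h3 : μ.coeff i * (ϖ ^ k) ^ r * ϖ ^ k = (ϖ ^ k * μ.coeff i) * (ϖ ^ k) ^ r := by ring
      rw [h3]
      exact mul_mem h2 (pow_mem (pow_mem hϖ _) _)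
    · rw [h, hmonic.coeff_natDegree, Nat.sub_self, pow_zero, mul_one]
      exact one_mem _
    · rw [coeff_eq_zero_of_natDegree_lt h, zero_mul]
      exact zero_mem _
  have hq : (p.map (algebraMap K F)).eval (algebraMap K F (ϖ ^ k) * f) = 0 := by
    rw [eval_map, ← aeval_def]; exact hroot
  have := mem_of_monic_root V (hpm.map (algebraMap K F))
    (fun i => by rw [coeff_map]; exact hOV _ (hcoef i)) hq
  rwa [map_pow] at this

end Arch

section Scale

variable {K : Type*} [Field K]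

/-- Scaling a finite family by its entry of largest valuation. -/
theorem exists_scale_family {ι : Type*} [Fintype ι] (O : ValuationSubring K) (g : ι → K)
    (l : ι) :
    ∃ l₀, O.valuation (g l) ≤ O.valuation (g l₀) ∧
      ∀ l', O.valuation (g l') ≤ O.valuation (g l₀) := by
  obtain ⟨l₀, -, h⟩ := Finset.exists_max_image Finset.univ (fun l => O.valuation (g l))
    ⟨l, Finset.mem_univ l⟩
  exact ⟨l₀, h l (Finset.mem_univ l), fun l' => h l' (Finset.mem_univ l')⟩

theorem mul_inv_mem_of_val_le (O : ValuationSubring K) {x y : K} (hy : y ≠ 0)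
    (h : O.valuation x ≤ O.valuation y) : x * y⁻¹ ∈ O := by
  rw [← O.valuation_le_one_iff, map_mul, map_inv₀,
    mul_inv_le_iff₀ (zero_lt_iff.2 ((Valuation.ne_zero_iff _).2 hy)), one_mul]
  exact h

end Scale

section Main

variable {K F : Type*} [Field K] [Field F] [Algebra K F]

/-- The hypotheses of the "no third extension" theorem. -/
structure TwoExt (O : ValuationSubring K) (V₁ V₂ : ValuationSubring F) (ϖ : K)
    {f₁ f₂ : ℕ} (b : Fin f₁ → F) (c : Fin f₂ → F) : Prop where
  unifO : IsUnif O ϖ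
  unif₁ : IsUnif V₁ (algebraMap K F ϖ)
  unif₂ : IsUnif V₂ (algebraMap K F ϖ)
  le₁ : ∀ a ∈ O, algebraMap K F a ∈ V₁
  le₂ : ∀ a ∈ O, algebraMap K F a ∈ V₂
  ne : V₁ ≠ V₂
  arch : ∀ a : K, ∃ k : ℕ, ϖ ^ k * a ∈ O
  b_mem : ∀ i, b i ∈ V₁
  c_mem : ∀ j, c j ∈ V₂
  b_indep : ∀ a : Fin f₁ → K, (∀ i, a i ∈ O) →
    (∑ i, algebraMap K F (a i) * b i) * (algebraMap K F ϖ)⁻¹ ∈ V₁ → ∀ i, a i * ϖ⁻¹ ∈ O
  c_indep : ∀ a : Fin f₂ → K, (∀ j, a j ∈ O) →
    (∑ j, algebraMap K F (a j) * c j) * (algebraMap K F ϖ)⁻¹ ∈ V₂ → ∀ j, a j * ϖ⁻¹ ∈ O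
  card : f₁ + f₂ = Module.finrank K F

namespace TwoExt

variable {O : ValuationSubring K} {V₁ V₂ : ValuationSubring F} {ϖ : K}
  {f₁ f₂ : ℕ} {b : Fin f₁ → F} {c : Fin f₂ → F}

/-- A good generating family: `m` lies in `V₁ ∩ V₂` and a combination with coefficients in `O`
which is divisible by `ϖ` in both `V₁` and `V₂` has all its coefficients divisible by `ϖ`. -/
def IsGood (O : ValuationSubring K) (V₁ V₂ : ValuationSubring F) (ϖ : K)
    {ι : Type*} [Fintype ι] (m : ι → F) : Prop :=
  (∀ l, m l ∈ V₁) ∧ (∀ l, m l ∈ V₂) ∧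
    ∀ a : ι → K, (∀ l, a l ∈ O) →
      (∑ l, algebraMap K F (a l) * m l) * (algebraMap K F ϖ)⁻¹ ∈ V₁ →
      (∑ l, algebraMap K F (a l) * m l) * (algebraMap K F ϖ)⁻¹ ∈ V₂ → ∀ l, a l * ϖ⁻¹ ∈ O

theorem exists_good [FiniteDimensional K F] (h : TwoExt O V₁ V₂ ϖ b c) :
    ∃ m : Fin f₁ ⊕ Fin f₂ → F, IsGood O V₁ V₂ ϖ m := by
  classical
  set π := algebraMap K F ϖ with hπ
  have hπ0 : π ≠ 0 := h.unif₁.ne_zero
  have hA₁ : ∀ i, ∃ g : F, g ∈ V₁ ∧ (g - b i) * π⁻¹ ∈ V₁ ∧ g * π⁻¹ ∈ V₂ := fun i => by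
    obtain ⟨k, hk⟩ := exists_pow_mul_mem h.unifO.mem h.arch V₂ h.le₂
      (Algebra.IsIntegral.isIntegral (R := K) (b i))
    exact exists_approx h.unif₁ h.unif₂ h.ne (h.b_mem i) hk
  have hA₂ : ∀ j, ∃ g : F, g ∈ V₂ ∧ (g - c j) * π⁻¹ ∈ V₂ ∧ g * π⁻¹ ∈ V₁ := fun j => by
    obtain ⟨k, hk⟩ := exists_pow_mul_mem h.unifO.mem h.arch V₁ h.le₁
      (Algebra.IsIntegral.isIntegral (R := K) (c j))
    exact exists_approx h.unif₂ h.unif₁ (Ne.symm h.ne) (h.c_mem j) hk
  choose g hg1 hg2 hg3 using hA₁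
  choose g' hg'1 hg'2 hg'3 using hA₂
  have hgV₂ : ∀ i, g i ∈ V₂ := fun i => by
    have : g i = g i * π⁻¹ * π := by field_simp
    rw [this]; exact mul_mem (hg3 i) h.unif₂.mem
  have hg'V₁ : ∀ j, g' j ∈ V₁ := fun j => by
    have : g' j = g' j * π⁻¹ * π := by field_simp
    rw [this]; exact mul_mem (hg'3 j) h.unif₁.mem
  refine ⟨Sum.elim g g', ?_, ?_, ?_⟩
  · rintro (i | j)
    · exact hg1 i
    · exact hg'V₁ j
  · rintro (i | j)
    · exact hgV₂ i
    · exact hg'1 j
  · intro a ha hS₁ hS₂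
    have hsplit : (∑ l, algebraMap K F (a l) * Sum.elim g g' l) =
        (∑ i, algebraMap K F (a (Sum.inl i)) * g i) +
          ∑ j, algebraMap K F (a (Sum.inr j)) * g' j := by
      rw [Fintype.sum_sum_type]; simp only [Sum.elim_inl, Sum.elim_inr]
    rw [hsplit] at hS₁ hS₂
    rintro (i | j)
    · refine h.b_indep (fun i => a (Sum.inl i)) (fun i => ha _) ?_ i
      have e1 : (∑ i, algebraMap K F (a (Sum.inl i)) * b i) * π⁻¹ =
          ((∑ i, algebraMap K F (a (Sum.inl i)) * g i) +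
            ∑ j, algebraMap K F (a (Sum.inr j)) * g' j) * π⁻¹
          - ∑ i, algebraMap K F (a (Sum.inl i)) * ((g i - b i) * π⁻¹)
          - ∑ j, algebraMap K F (a (Sum.inr j)) * (g' j * π⁻¹) := by
        have hW : ∑ i, algebraMap K F (a (Sum.inl i)) * ((g i - b i) * π⁻¹) =
            (∑ i, algebraMap K F (a (Sum.inl i)) * g i) * π⁻¹ -
              (∑ i, algebraMap K F (a (Sum.inl i)) * b i) * π⁻¹ := by
          rw [Finset.sum_mul, Finset.sum_mul, ← Finset.sum_sub_distrib]
          exact Finset.sum_congr rfl fun i _ => by ring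
        have hZ : ∑ j, algebraMap K F (a (Sum.inr j)) * (g' j * π⁻¹) =
            (∑ j, algebraMap K F (a (Sum.inr j)) * g' j) * π⁻¹ := by
          rw [Finset.sum_mul]
          exact Finset.sum_congr rfl fun j _ => by ring
        rw [hW, hZ]; ring
      rw [e1]
      refine sub_mem (sub_mem hS₁ (sum_mem fun i _ => mul_mem (h.le₁ _ (ha _)) (hg2 i)))
        (sum_mem fun j _ => mul_mem (h.le₁ _ (ha _)) (hg'3 j))
    · refine h.c_indep (fun j => a (Sum.inr j)) (fun j => ha _) ?_ j
      have e1 : (∑ j, algebraMap K F (a (Sum.inr j)) * c j) * π⁻¹ =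
          ((∑ i, algebraMap K F (a (Sum.inl i)) * g i) +
            ∑ j, algebraMap K F (a (Sum.inr j)) * g' j) * π⁻¹
          - ∑ j, algebraMap K F (a (Sum.inr j)) * ((g' j - c j) * π⁻¹)
          - ∑ i, algebraMap K F (a (Sum.inl i)) * (g i * π⁻¹) := by
        have hW : ∑ j, algebraMap K F (a (Sum.inr j)) * ((g' j - c j) * π⁻¹) =
            (∑ j, algebraMap K F (a (Sum.inr j)) * g' j) * π⁻¹ -
              (∑ j, algebraMap K F (a (Sum.inr j)) * c j) * π⁻¹ := by
          rw [Finset.sum_mul, Finset.sum_mul, ← Finset.sum_sub_distrib]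
          exact Finset.sum_congr rfl fun j _ => by ring
        have hZ : ∑ i, algebraMap K F (a (Sum.inl i)) * (g i * π⁻¹) =
            (∑ i, algebraMap K F (a (Sum.inl i)) * g i) * π⁻¹ := by
          rw [Finset.sum_mul]
          exact Finset.sum_congr rfl fun i _ => by ring
        rw [hW, hZ]; ring
      rw [e1]
      refine sub_mem (sub_mem hS₂ (sum_mem fun j _ => mul_mem (h.le₂ _ (ha _)) (hg'2 j)))
        (sum_mem fun i _ => mul_mem (h.le₂ _ (ha _)) (hg3 i))

namespace IsGood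

variable {ι : Type*} [Fintype ι] {m : ι → F}

theorem linearIndependent (hO : IsUnif O ϖ) (hm : IsGood O V₁ V₂ ϖ m) :
    LinearIndependent K m := by
  classical
  rw [Fintype.linearIndependent_iff]
  intro g hg
  by_contra hne
  rw [not_forall] at hne
  obtain ⟨l, hl⟩ := hne
  obtain ⟨l₀, hl₀, hmax⟩ := exists_scale_family O g l
  have hg0 : g l₀ ≠ 0 := by
    intro h0
    rw [h0, map_zero] at hl₀
    exact (Valuation.ne_zero_iff _).2 hl (le_antisymm hl₀ zero_le)
  have ha : ∀ l', g l' * (g l₀)⁻¹ ∈ O := fun l' => mul_inv_mem_of_val_le O hg0 (hmax l')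
  have hsum : ∑ l', algebraMap K F (g l' * (g l₀)⁻¹) * m l' = 0 := by
    have : ∑ l', algebraMap K F (g l' * (g l₀)⁻¹) * m l' =
        algebraMap K F (g l₀)⁻¹ * ∑ l', g l' • m l' := by
      rw [Finset.mul_sum]
      refine Finset.sum_congr rfl fun l' _ => ?_
      rw [map_mul, Algebra.smul_def]; ring
    rw [this, hg, mul_zero]
  have := hm.2.2 _ ha (by rw [hsum, zero_mul]; exact zero_mem _)
    (by rw [hsum, zero_mul]; exact zero_mem _) l₀
  rw [mul_inv_cancel₀ hg0, one_mul] at this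
  exact hO.inv_not_mem this

/-- The coordinates of an element of `V₁ ∩ V₂` in a good basis lie in `O`. -/
theorem repr_mem (hO : IsUnif O ϖ) (le₁ : ∀ a ∈ O, algebraMap K F a ∈ V₁)
    (le₂ : ∀ a ∈ O, algebraMap K F a ∈ V₂) (hm : IsGood O V₁ V₂ ϖ m)
    (B : Module.Basis ι K F) (hB : ∀ l, B l = m l) {z : F} (hz₁ : z ∈ V₁) (hz₂ : z ∈ V₂)
    (l : ι) : B.repr z l ∈ O := by
  classical
  by_contra hl
  set g : ι → K := fun l => B.repr z l with hg
  obtain ⟨l₀, hl₀, hmax⟩ := exists_scale_family O g l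
  have hv : 1 < O.valuation (g l₀) := by
    refine lt_of_lt_of_le ?_ hl₀
    rw [← not_le, O.valuation_le_one_iff]; exact hl
  have hg0 : g l₀ ≠ 0 := by
    intro h0
    rw [h0, map_zero] at hv
    exact absurd hv (not_lt.2 zero_le)
  have ha : ∀ l', g l' * (g l₀)⁻¹ ∈ O := fun l' => mul_inv_mem_of_val_le O hg0 (hmax l')
  have hz : ∑ l', g l' • m l' = z := by
    have := B.sum_repr z
    simpa only [hB] using this
  have hsum : ∑ l', algebraMap K F (g l' * (g l₀)⁻¹) * m l' = algebraMap K F (g l₀)⁻¹ * z := by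
    rw [← hz, Finset.mul_sum]
    refine Finset.sum_congr rfl fun l' _ => ?_
    rw [map_mul, Algebra.smul_def]; ring
  have hinv : (g l₀)⁻¹ * ϖ⁻¹ ∈ O := by
    rw [hO.mul_inv_mem_iff, map_inv₀]
    exact inv_lt_one_of_one_lt₀ hv
  have hkey : (∑ l', algebraMap K F (g l' * (g l₀)⁻¹) * m l') * (algebraMap K F ϖ)⁻¹ =
      algebraMap K F ((g l₀)⁻¹ * ϖ⁻¹) * z := by
    rw [hsum, map_mul, map_inv₀, map_inv₀]; ring
  have := hm.2.2 _ ha (by rw [hkey]; exact mul_mem (le₁ _ hinv) hz₁)
    (by rw [hkey]; exact mul_mem (le₂ _ hinv) hz₂) l₀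
  rw [mul_inv_cancel₀ hg0, one_mul] at this
  exact hO.inv_not_mem this

/-- Every element of `V₁ ∩ V₂` is integral over `O`. -/
theorem exists_monic (hO : IsUnif O ϖ) (le₁ : ∀ a ∈ O, algebraMap K F a ∈ V₁)
    (le₂ : ∀ a ∈ O, algebraMap K F a ∈ V₂) (hm : IsGood O V₁ V₂ ϖ m)
    (hcard : Fintype.card ι = Module.finrank K F) [FiniteDimensional K F]
    {u : F} (hu₁ : u ∈ V₁) (hu₂ : u ∈ V₂) :
    ∃ p : K[X], p.Monic ∧ (∀ i, p.coeff i ∈ O) ∧ aeval u p = 0 := by
  classical
  have hpos : 0 < Module.finrank K F := Module.finrank_pos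
  have : Nonempty ι := by
    rw [← Fintype.card_pos_iff, hcard]; exact hpos
  set B := basisOfLinearIndependentOfCardEqFinrank (hm.linearIndependent hO) hcard with hBdef
  have hB : ∀ l, B l = m l := fun l => by
    rw [hBdef, coe_basisOfLinearIndependentOfCardEqFinrank]
  let _ : Algebra O F := ((algebraMap K F).comp O.subtype).toAlgebra
  have hsmul : ∀ (r : O) (x : F), r • x = algebraMap K F (r : K) * x := fun r x => rfl
  set N : Submodule O F := Submodule.span O (Set.range m) with hN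
  have hmem : ∀ z : F, z ∈ V₁ → z ∈ V₂ → z ∈ N := by
    intro z hz₁ hz₂
    have hz : z = ∑ l, (⟨B.repr z l, repr_mem hO le₁ le₂ hm B hB hz₁ hz₂ l⟩ : O) • m l := by
      conv_lhs => rw [← B.sum_repr z]
      refine Finset.sum_congr rfl fun l _ => ?_
      rw [hsmul, hB, Algebra.smul_def]
    rw [hz]
    exact Submodule.sum_mem _ fun l _ =>
      Submodule.smul_mem _ _ (Submodule.subset_span (Set.mem_range_self l))
  have hNV : ∀ n ∈ N, n ∈ V₁ ∧ n ∈ V₂ := by
    intro n hn
    induction hn using Submodule.span_induction with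
    | mem x hx =>
        obtain ⟨l, rfl⟩ := hx
        exact ⟨hm.1 l, hm.2.1 l⟩
    | zero => exact ⟨zero_mem _, zero_mem _⟩
    | add x y _ _ hx hy => exact ⟨add_mem hx.1 hy.1, add_mem hx.2 hy.2⟩
    | smul r x _ hx =>
        rw [hsmul]
        exact ⟨mul_mem (le₁ _ r.2) hx.1, mul_mem (le₂ _ r.2) hx.2⟩
  have hstable : ∀ n ∈ N, u • n ∈ N := by
    intro n hn
    obtain ⟨h1, h2⟩ := hNV n hn
    exact hmem _ (mul_mem hu₁ h1) (mul_mem hu₂ h2)
  have hNne : N ≠ ⊥ := by
    obtain ⟨l⟩ := ‹Nonempty ι›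
    intro hbot
    have h1 : m l ∈ N := Submodule.subset_span (Set.mem_range_self l)
    rw [hbot, Submodule.mem_bot] at h1
    exact B.ne_zero l (by rw [hB]; exact h1)
  have hFG : N.FG := Submodule.fg_span (Set.finite_range m)
  have hint : IsIntegral O u := isIntegral_of_smul_mem_submodule N hNne hFG u hstable
  obtain ⟨p, hp, hpu⟩ := hint
  refine ⟨p.map O.subtype, hp.map _, fun i => ?_, ?_⟩
  · rw [coeff_map]; exact (p.coeff i).2
  · rw [aeval_def, eval₂_map]; exact hpu

end IsGood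

/-- **No third extension.**  Under `TwoExt`, every element of `V₁ ∩ V₂` is integral over `O`. -/
theorem exists_monic_of_mem [FiniteDimensional K F] (h : TwoExt O V₁ V₂ ϖ b c)
    {u : F} (hu₁ : u ∈ V₁) (hu₂ : u ∈ V₂) :
    ∃ p : K[X], p.Monic ∧ (∀ i, p.coeff i ∈ O) ∧ aeval u p = 0 := by
  obtain ⟨m, hm⟩ := h.exists_good
  refine hm.exists_monic h.unifO h.le₁ h.le₂ ?_ hu₁ hu₂
  rw [Fintype.card_sum, Fintype.card_fin, Fintype.card_fin, h.card]

end TwoExt

end Main

end Fermat.Agent.A2.H48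

end
-- ===== PACK-END A2/H48/TwoExt.lean

-- ===== PACK-BEGIN A2/Alg/Spec.lean
section


/-!
# WALL A2 / ALG — frozen sub-interfaces (architect helper34), Mathlib-only

Decomposition of `Fermat.Agent.A2.algSS` (statement in `Fermat/Agent/A2/Skel.lean`, row-lead
helper13).  This file contains ONLY definitions (no `sorry`).  The exact theorem statements of the
sub-pieces are in `Fermat/Agent/A2/Alg/Skel.lean`; the board is `coord/A2-ALG.md` (origin/helper34).

Notation: `R` henselian DVR, uniformiser `w`, `E = Frac R`, `F / E` the function field,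
`B ⊆ F` a chart (integral closure of `R[x]` or `R[x⁻¹]`), `c : SSChart w B` its two components
`p₁`, `p₂`; `V_i := B_{p_i}` (a DVR with uniformiser `w`).

Elementwise local conditions (no localisation types, everything is a statement about elements
of `F`):

* `LocUnit B n u`   : `u ∈ (B_n)ˣ`            (`u = a / b`, `a, b ∈ B ∖ n`);
* `LocOne B n I u`  : `u ∈ 1 + I · B_n`       (`u = a / b`, `b ∉ n`, `a - b ∈ I`);
* `OneAt B p u`     : `u ∈ 1 + p B_p`         (`u ≡ 1` on the component `p`);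
* `ConstAt B p u`   : `u ∈ c · (1 + p B_p)` for a unit `c` of `R` (`u` is a unit on the component
                      `p`, with CONSTANT residue);
* `IsSplit B c u`   : `ConstAt` on both components of the chart;
* `LocalFactor B c m u n` : local factorisation of the Kummer problem `Y ^ m = u` at the closed
                      point `n` of the special fibre.
* `ChartCtx`, `TauCtx` : the standing hypotheses of `algSS`, bundled (one chart).
-/

set_option autoImplicit false

namespace Fermat.Agent.A2.Alg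

section Defs

variable {R F : Type*} [CommRing R] [Field F] [Algebra R F]

/-- `u` is a unit of the localisation `B_n`: `u = a / b` with `a, b ∈ B ∖ n`. -/
def LocUnit (B : Subalgebra R F) (n : Ideal B) (u : F) : Prop :=
  ∃ a b : B, a ∉ n ∧ b ∉ n ∧ u * (b : F) = (a : F)

/-- `u ∈ 1 + I · B_n`: `u = a / b` with `b ∉ n` and `a - b ∈ I`. -/
def LocOne (B : Subalgebra R F) (n I : Ideal B) (u : F) : Prop :=
  ∃ a b : B, b ∉ n ∧ a - b ∈ I ∧ u * (b : F) = (a : F)

/-- `u ≡ 1` on the component `p` (`u ∈ 1 + p B_p`). -/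
def OneAt (B : Subalgebra R F) (p : Ideal B) (u : F) : Prop :=
  LocOne B p p u

/-- `u` is a unit on the component `p` with constant residue: `u = a / b`, `b ∉ p`,
`a - c b ∈ p` for a unit `c` of `R`. -/
def ConstAt (B : Subalgebra R F) (p : Ideal B) (u : F) : Prop :=
  ∃ c : R, IsUnit c ∧ ∃ a b : B, b ∉ p ∧ a - algebraMap R B c * b ∈ p ∧ u * (b : F) = (a : F)

/-- `u` has constant (unit) residue on both components of the chart. -/
def IsSplit {w : R} (B : Subalgebra R F) (c : SSChart w B) (u : F) : Prop :=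
  ConstAt B c.p₁ u ∧ ConstAt B c.p₂ u

/-- The two components are incomparable (both are minimal primes over `w`, i.e. both are curves).
`SSChart` only records `p₁ ≠ p₂`, which also allows the degenerate case `p₁ = (w) ⊊ p₂`
(good reduction, `p₂` a closed point). -/
def Incomparable {w : R} {B : Subalgebra R F} (c : SSChart w B) : Prop :=
  ¬ c.p₁ ≤ c.p₂ ∧ ¬ c.p₂ ≤ c.p₁

/-- **Purity datum at a closed point `n`** for `u`: `u · d ^ m` is a unit of `B_n`, and `d` is a
unit on both components. -/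
def PureAt {w : R} (B : Subalgebra R F) (c : SSChart w B) (m : ℕ) (u : F) (n : Ideal B) : Prop :=
  ∃ d : F, d ≠ 0 ∧ LocUnit B n (u * d ^ m) ∧ LocUnit B c.p₁ d ∧ LocUnit B c.p₂ d

/-- **Local factorisation at a closed point `n`** of the special fibre of the chart `B`, for the
Kummer problem `Y ^ m = u`:  there is `h ∈ Fˣ` with `u · h ^ m ∈ 1 + w B_n` and `h ≡ 1` on both
components.
(Then `B_n[Y]/(Y^m - u h^m)` is finite étale over `B_n` with canonically split special fibre, and
the sheet `Y h ≡ 1` is the same on the two branches through `n`.) -/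
def LocalFactor {w : R} (B : Subalgebra R F) (c : SSChart w B) (m : ℕ) (u : F)
    (n : Ideal B) : Prop :=
  ∃ h : F, h ≠ 0 ∧ LocOne B n (Ideal.span {algebraMap R B w}) (u * h ^ m) ∧
    OneAt B c.p₁ h ∧ OneAt B c.p₂ h

/-- Local factorisations at ALL closed points of the special fibre of the chart `B`. -/
def LocallyFactored {w : R} (B : Subalgebra R F) (c : SSChart w B) (m : ℕ) (u : F) : Prop :=
  ∀ n : Ideal B, n.IsMaximal → algebraMap R B w ∈ n → LocalFactor B c m u n

end Defs

section Ctx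

variable {R E F : Type*} [CommRing R] [Field E] [Algebra R E] [Field F] [Algebra E F]
  [Algebra R F]

/-- The standing hypotheses of `algSS` on ONE chart `B` with coordinate `x`
(`(x, B) = (x, Bf)` or `(x⁻¹, Bi)`). -/
structure ChartCtx (E : Type*) [Field E] [Algebra R E] [Algebra E F] (w : R) (x : F)
    (B : Subalgebra R F) : Prop where
  hw : Irreducible w
  hx : Transcendental E x
  hfin : FiniteDimensional (IntermediateField.adjoin E ({x} : Set F)) F
  hconst : ∀ f : F, IsAlgebraic E f → f ∈ (algebraMap E F).range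
  hB : ∀ f : F, f ∈ B ↔ IsIntegral (Algebra.adjoin R ({x} : Set F)) f

/-- The standing hypotheses of `algSS` on the semilinear automorphism `τ`, on one chart. -/
structure TauCtx (w : R) (B : Subalgebra R F) (τ : F ≃+* F) (τE : E ≃+* E) (τR : R ≃+* R) :
    Prop where
  hτE : ∀ e : E, τ (algebraMap E F e) = algebraMap E F (τE e)
  hτR : ∀ r : R, τE (algebraMap R E r) = algebraMap R E (τR r)
  hτB : ∀ b ∈ B, ∃ c ∈ B, τ b - b = algebraMap R F w * c

end Ctx

end Fermat.Agent.A2.Alg

end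
-- ===== PACK-END A2/Alg/Spec.lean

-- ===== PACK-BEGIN A2/H372/Radical.lean
section


/-!
# A2 / MOD M5 (d4) : `p₁ + p₂` is a radical ideal (helper372)

Corollaries of `Fermat.Agent.A2.H372.Transversal` in the exact form of the field
`SSChart.transversal` of `Fermat/Agent/A2/Spec.lean` (row-lead helper13):
`(P₁ ⊔ P₂).IsRadical`.

* `isRadical_of_local` : an ideal `J` such that every maximal ideal `n ⊇ J` is generated by `J`
  locally at `n` (elementwise form) is radical.
* `KronCong.sup_isRadical` : transversality from the (semilinear) Kronecker congruences, `α` onto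
  `B/P₁`, and local generators of the first branch at the crossing points.
* `KronCong.sup_isRadical_of_isDedekindDomain` : the same when the first branch
  `A ⧸ comap α P₁` is a Dedekind domain (= `B_M / w` normal, S18 b2 at level `M`).
-/

set_option autoImplicit false

namespace Fermat.Agent.A2.H372

open Ideal

variable {A B : Type*} [CommRing A] [CommRing B]

/-- An ideal which, locally at every maximal ideal containing it, is equal to that maximal
ideal, is radical. -/
theorem isRadical_of_local {J : Ideal B}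
    (h : ∀ n : Ideal B, n.IsMaximal → J ≤ n → ∀ x ∈ n, ∃ t : B, t ∉ n ∧ t * x ∈ J) :
    J.IsRadical := by
  intro x hx
  -- the conductor `I = (J : x)`
  let I : Ideal B :=
    { carrier := {t | t * x ∈ J}
      add_mem' := fun {a b} ha hb => by
        change (a + b) * x ∈ J
        rw [add_mul]; exact J.add_mem ha hb
      zero_mem' := by simp
      smul_mem' := fun c a ha => by
        change c * a * x ∈ J
        rw [mul_assoc]; exact J.mul_mem_left c ha }
  have hI : ∀ t, t ∈ I ↔ t * x ∈ J := fun t => Iff.rfl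
  by_contra hxJ
  have hne : I ≠ ⊤ := by
    intro htop
    have : (1 : B) ∈ I := by rw [htop]; trivial
    rw [hI, one_mul] at this
    exact hxJ this
  obtain ⟨n, hn, hIn⟩ := Ideal.exists_le_maximal I hne
  have hJI : J ≤ I := fun t ht => (hI t).mpr (J.mul_mem_right x ht)
  have hJn : J ≤ n := hJI.trans hIn
  have hxn : x ∈ n := by
    obtain ⟨k, hk⟩ := hx
    exact hn.isPrime.mem_of_pow_mem k (hJn hk)
  obtain ⟨t, ht, htx⟩ := h n hn hJn x hxn
  exact ht (hIn ((hI t).mpr htx))

/-- **Transversality** (`SSChart.transversal`): `P₁ + P₂` is radical. -/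
theorem KronCong.sup_isRadical {q : ℕ} (hq : 2 ≤ q) {α β : A →+* B} {P₁ P₂ : Ideal B}
    (h : KronCong q α β P₁ P₂) (hα : ∀ b : B, ∃ a : A, b - α a ∈ P₁)
    (huni : ∀ n : Ideal B, n.IsMaximal → P₁ ≤ n → P₂ ≤ n → ∃ a₀ : A, IsBranchUnif α P₁ n a₀) :
    (P₁ ⊔ P₂).IsRadical := by
  refine isRadical_of_local fun n hn hJn x hx => ?_
  have hP₁ : P₁ ≤ n := le_sup_left.trans hJn
  have hP₂ : P₂ ≤ n := le_sup_right.trans hJn
  obtain ⟨a₀, ha₀⟩ := huni n hn hP₁ hP₂
  have := hn.isPrime
  exact h.mem_sup_of_mem hq hP₁ hP₂ hα ha₀ hx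

/-- **Transversality** when the first branch is a Dedekind domain. -/
theorem KronCong.sup_isRadical_of_isDedekindDomain {q : ℕ} (hq : 2 ≤ q) {α β : A →+* B}
    {P₁ P₂ : Ideal B} (h : KronCong q α β P₁ P₂) (hα : ∀ b : B, ∃ a : A, b - α a ∈ P₁)
    [IsDedekindDomain (A ⧸ Ideal.comap α P₁)] :
    (P₁ ⊔ P₂).IsRadical :=
  h.sup_isRadical hq hα fun n hn hP₁ _ =>
    haveI := hn.isPrime
    exists_isBranchUnif_of_isDedekindDomain α P₁ n hP₁

end Fermat.Agent.A2.H372

end
-- ===== PACK-END A2/H372/Radical.lean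

-- ===== PACK-BEGIN A2/Alg/H132/Vert.lean
section



/-!
# A2 / ALG (helper132): the discrete valuation ring of a component of the special fibre

`B` a noetherian integrally closed domain with fraction field `F`, `w ∈ B`, `w ≠ 0`, `p` a prime
of `B` and `q` an ideal with `p ⊓ q = (w)`, `q ⊄ p` (in the application `p`, `q` are the two
components of the special fibre of a semistable chart).  Then `B_p` is a discrete valuation ring
with uniformiser `w`.

* `exists_colon`   : `p = ((w) : c₀)` for some `c₀ ∈ q ∖ p`;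
* `vertVal`        : the valuation subring `B_p ⊆ F`; `isLocDVR_vertVal`;
* `mem_vertVal_iff`, `mul_inv_mem_vertVal` (`𝔪 = w · B_p`), `inv_notMem_vertVal`;
* `exists_zpow_mul_unit` : every `t ≠ 0` in `F` is `w ^ n` times a unit of `B_p`.
-/

set_option autoImplicit false
set_option linter.unusedSectionVars false
set_option linter.style.haveILetI false

namespace Fermat.Agent.A2.Alg.H132

open Fermat.Agent.A2.H849

section Vert

variable {B : Type*} [CommRing B] [IsDomain B] [IsNoetherianRing B] [IsIntegrallyClosed B]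
variable (F : Type*) [Field F] [Algebra B F] [IsFractionRing B F]

/-- The hypotheses on a component `p` of the special fibre `w = 0`, with complementary
ideal `q`. -/
structure VertData (w : B) (p q : Ideal B) : Prop where
  prime : p.IsPrime
  w_ne : w ≠ 0
  not_le : ¬ q ≤ p
  inf_eq : p ⊓ q = Ideal.span {w}

variable {F}
variable {w : B} {p q : Ideal B}

theorem VertData.w_mem (h : VertData w p q) : w ∈ p :=
  (inf_le_left : p ⊓ q ≤ p) (h.inf_eq ▸ Ideal.mem_span_singleton_self w)

theorem VertData.w_mem' (h : VertData w p q) : w ∈ q :=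
  (inf_le_right : p ⊓ q ≤ q) (h.inf_eq ▸ Ideal.mem_span_singleton_self w)

/-- `p` is the colon ideal `(w) : c₀`. -/
theorem VertData.exists_colon (h : VertData w p q) :
    ∃ c₀ : B, c₀ ∈ q ∧ c₀ ∉ p ∧ ∀ r, r ∈ p ↔ w ∣ r * c₀ := by
  have hp := h.prime
  obtain ⟨c₀, hc₀q, hc₀p⟩ := Set.not_subset.1 h.not_le
  refine ⟨c₀, hc₀q, hc₀p, fun r => ⟨fun hr => ?_, fun hr => ?_⟩⟩
  · have hmem : r * c₀ ∈ p ⊓ q := ⟨p.mul_mem_right _ hr, q.mul_mem_left _ hc₀q⟩
    rw [h.inf_eq] at hmem
    exact Ideal.mem_span_singleton.1 hmem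
  · obtain ⟨t, ht⟩ := hr
    have : r * c₀ ∈ p := by rw [ht]; exact p.mul_mem_right _ h.w_mem
    exact (hp.mem_or_mem this).resolve_right hc₀p

theorem VertData.isDiscreteValuationRing_locAt (h : VertData w p q) :
    haveI := h.prime
    IsDiscreteValuationRing (locAt F p) := by
  haveI := h.prime
  obtain ⟨c₀, -, -, hc⟩ := h.exists_colon
  exact isDiscreteValuationRing_locAt_of_colon p w c₀ h.w_ne hc

/-- The valuation subring `B_p` of `F`. -/
noncomputable def vertVal (h : VertData w p q) : ValuationSubring F :=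
  haveI := h.prime
  haveI := h.isDiscreteValuationRing_locAt (F := F)
  locValuationSubring p (inferInstance : ValuationRing (locAt F p))

theorem isLocDVR_vertVal (h : VertData w p q) : IsLocDVR (vertVal (F := F) h) p := by
  haveI := h.prime
  exact isLocDVR_locValuationSubring p (h.isDiscreteValuationRing_locAt (F := F))

theorem mem_vertVal_iff (h : VertData w p q) (t : F) :
    t ∈ vertVal (F := F) h ↔
      ∃ a s : B, s ∉ p ∧ t = algebraMap B F a * (algebraMap B F s)⁻¹ := by
  haveI := h.prime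
  exact mem_locAt_iff p t

theorem algebraMap_mem_vertVal (h : VertData w p q) (b : B) :
    algebraMap B F b ∈ vertVal (F := F) h :=
  (isLocDVR_vertVal h).le b

theorem inv_mem_vertVal (h : VertData w p q) {s : B} (hs : s ∉ p) :
    (algebraMap B F s)⁻¹ ∈ vertVal (F := F) h :=
  (isLocDVR_vertVal h).inv_mem s hs

theorem inv_notMem_vertVal (h : VertData w p q) {r : B} (hr : r ∈ p) (hr0 : r ≠ 0) :
    (algebraMap B F r)⁻¹ ∉ vertVal (F := F) h :=
  (isLocDVR_vertVal h).inv_not_mem r hr hr0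

theorem algebraMap_ne_zero {b : B} (hb : b ≠ 0) : algebraMap B F b ≠ 0 := fun h0 =>
  hb (IsFractionRing.injective B F (by rw [h0, map_zero]))

/-- the contraction of the maximal ideal of `B_p` is `p`. -/
theorem mem_of_inv_notMem_vertVal (h : VertData w p q) {b : B}
    (hb : (algebraMap B F b)⁻¹ ∉ vertVal (F := F) h) : b ∈ p := by
  by_contra hbp
  exact hb (inv_mem_vertVal h hbp)

/-- `w` generates the maximal ideal of `B_p`. -/
theorem mul_inv_mem_vertVal (h : VertData w p q) {t : F} (ht : t ∈ vertVal (F := F) h)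
    (ht' : t⁻¹ ∉ vertVal (F := F) h) : t * (algebraMap B F w)⁻¹ ∈ vertVal (F := F) h := by
  have hp := h.prime
  obtain ⟨c₀, hc₀q, hc₀p, hc⟩ := h.exists_colon
  obtain ⟨a, s, hs, rfl⟩ := (mem_vertVal_iff h t).1 ht
  have hs0 : s ≠ 0 := fun h0 => hs (h0 ▸ p.zero_mem)
  have hsF : algebraMap B F s ≠ 0 := algebraMap_ne_zero hs0
  have hwF : algebraMap B F w ≠ 0 := algebraMap_ne_zero h.w_ne
  have hc₀0 : c₀ ≠ 0 := fun h0 => hc₀p (h0 ▸ p.zero_mem)
  have hc₀F : algebraMap B F c₀ ≠ 0 := algebraMap_ne_zero hc₀0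
  have hap : a ∈ p := by
    by_contra hap
    apply ht'
    rw [mem_vertVal_iff]
    refine ⟨s, a, hap, ?_⟩
    rw [mul_inv, inv_inv, mul_comm]
  obtain ⟨a', ha'⟩ := (hc a).1 hap
  rw [mem_vertVal_iff]
  refine ⟨a', s * c₀, fun hmem => (hp.mem_or_mem hmem).elim hs hc₀p, ?_⟩
  have e : algebraMap B F a * algebraMap B F c₀ = algebraMap B F w * algebraMap B F a' := by
    rw [← map_mul, ← map_mul, ha']
  rw [map_mul]
  field_simp
  linear_combination e

/-- Every nonzero element of `F` is a power of `w` times a unit of `B_p`. -/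
theorem exists_zpow_mul_unit (h : VertData w p q) {t : F} (ht : t ≠ 0) :
    ∃ n : ℤ, t * (algebraMap B F w) ^ n ∈ vertVal (F := F) h ∧
      (t * (algebraMap B F w) ^ n)⁻¹ ∈ vertVal (F := F) h := by
  have hwF : algebraMap B F w ≠ 0 := algebraMap_ne_zero h.w_ne
  set V := vertVal (F := F) h with hV
  haveI hdvr : IsDiscreteValuationRing V := (isLocDVR_vertVal h).dvr
  -- the element `w` of `V`
  let wV : V := ⟨algebraMap B F w, algebraMap_mem_vertVal h w⟩
  have hwV0 : wV ≠ 0 := fun h0 => hwF (congrArg Subtype.val h0)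
  have hwnu : ¬ IsUnit wV := by
    intro hu
    obtain ⟨u, hu⟩ := hu
    have h1 : ((u⁻¹ : Vˣ) : V) * wV = 1 := by rw [← hu]; exact Units.inv_mul u
    have h2 : (((u⁻¹ : Vˣ) : V) : F) * algebraMap B F w = 1 := congrArg Subtype.val h1
    have h3 : (algebraMap B F w)⁻¹ = (((u⁻¹ : Vˣ) : V) : F) :=
      (eq_inv_of_mul_eq_one_left h2).symm
    exact inv_notMem_vertVal h h.w_mem h.w_ne (h3 ▸ ((u⁻¹ : Vˣ) : V).2)
  have hgen : ∀ y : V, ¬ IsUnit y → wV ∣ y := by
    intro y hy
    by_cases hy0 : y = 0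
    · rw [hy0]; exact dvd_zero _
    have hyF : (y : F) ≠ 0 := fun h0 => hy0 (Subtype.ext h0)
    have hinv : (y : F)⁻¹ ∉ V := by
      intro hmem
      apply hy
      refine IsUnit.of_mul_eq_one ⟨(y : F)⁻¹, hmem⟩ ?_
      exact Subtype.ext (mul_inv_cancel₀ hyF)
    refine ⟨⟨(y : F) * (algebraMap B F w)⁻¹, mul_inv_mem_vertVal h y.2 hinv⟩, ?_⟩
    apply Subtype.ext
    show (y : F) = algebraMap B F w * ((y : F) * (algebraMap B F w)⁻¹)
    field_simp
  have hirr : Irreducible wV := by
    refine ⟨hwnu, fun a b hab => ?_⟩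
    by_contra hcon
    rw [not_or] at hcon
    obtain ⟨a', rfl⟩ := hgen a hcon.1
    obtain ⟨b', rfl⟩ := hgen b hcon.2
    have : wV * (1 - wV * (a' * b')) = 0 := by rw [mul_sub, mul_one]; nth_rw 1 [hab]; ring
    rcases mul_eq_zero.1 this with h0 | h0
    · exact hwV0 h0
    · apply hwnu
      refine IsUnit.of_mul_eq_one (a' * b') ?_
      rw [sub_eq_zero] at h0
      exact h0.symm
  -- integral case
  have key : ∀ y : V, y ≠ 0 → ∃ n : ℕ, (y : F) * ((algebraMap B F w) ^ n)⁻¹ ∈ V ∧
      ((y : F) * ((algebraMap B F w) ^ n)⁻¹)⁻¹ ∈ V := by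
    intro y hy
    obtain ⟨n, u, hu⟩ := IsDiscreteValuationRing.eq_unit_mul_pow_irreducible hy hirr
    refine ⟨n, ?_, ?_⟩
    · have e : (y : F) * ((algebraMap B F w) ^ n)⁻¹ = ((u : V) : F) := by
        have := congrArg Subtype.val hu
        simp only [MulMemClass.coe_mul, SubmonoidClass.coe_pow] at this
        rw [this]
        show ((u : V) : F) * (algebraMap B F w) ^ n * ((algebraMap B F w) ^ n)⁻¹ = _
        field_simp
      rw [e]
      exact (u : V).2
    · have e : ((y : F) * ((algebraMap B F w) ^ n)⁻¹)⁻¹ = (((u⁻¹ : Vˣ) : V) : F) := by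
        have := congrArg Subtype.val hu
        simp only [MulMemClass.coe_mul, SubmonoidClass.coe_pow] at this
        rw [this]
        have h1 : ((u : V) : F) * (((u⁻¹ : Vˣ) : V) : F) = 1 :=
          congrArg Subtype.val (Units.mul_inv u)
        have hu0 : ((u : V) : F) ≠ 0 := left_ne_zero_of_mul_eq_one h1
        show (((u : V) : F) * (algebraMap B F w) ^ n * ((algebraMap B F w) ^ n)⁻¹)⁻¹ = _
        field_simp
        linear_combination -h1
      rw [e]
      exact ((u⁻¹ : Vˣ) : V).2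
  rcases V.mem_or_inv_mem t with htV | htV
  · obtain ⟨n, h1, h2⟩ := key ⟨t, htV⟩ (fun h0 => ht (congrArg Subtype.val h0))
    refine ⟨-(n : ℤ), ?_, ?_⟩
    · rw [zpow_neg, zpow_natCast]; exact h1
    · rw [zpow_neg, zpow_natCast]; exact h2
  · obtain ⟨n, h1, h2⟩ := key ⟨t⁻¹, htV⟩
      (fun h0 => inv_ne_zero ht (congrArg Subtype.val h0))
    refine ⟨(n : ℤ), ?_, ?_⟩
    · rw [zpow_natCast]
      have e : t * algebraMap B F w ^ n = (t⁻¹ * ((algebraMap B F w) ^ n)⁻¹)⁻¹ := by
        rw [mul_inv, inv_inv, inv_inv]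
      rw [e]; exact h2
    · rw [zpow_natCast]
      have e : (t * algebraMap B F w ^ n)⁻¹ = t⁻¹ * ((algebraMap B F w) ^ n)⁻¹ := by
        rw [mul_inv]
      rw [e]; exact h1

end Vert

end Fermat.Agent.A2.Alg.H132

end
-- ===== PACK-END A2/Alg/H132/Vert.lean

-- ===== PACK-BEGIN A2/H12/SheetGraph.lean
section



/-!
# Cell A2 — GRAPH-CONN: the sheet graph of a two-chart model is connected (helper12)

Mathlib-only.  Setting (same as S18/b5 `cech_idempotent_trivial`): `A` a ring, `w : A`,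
`B` an `A`-algebra (the "mid" chart), `Bfin Binf : Subalgebra A B` the two charts.
A finite family of *sheets* is given by ideals `P s` of `B` containing `w`
(in the application: `P s = 𝔪_{V_s} ∩ B_mid` for the Gauss-type valuation rings `V_s`).

* `exists_idem_of_partition` : one chart, CRT-type construction of an element which is `≡ 1` on the sheets
  of one class and `≡ 0` on the others, when sheets of different classes are comaximal.
* `sheetGraph_connected` : if every compatible pair of idempotents mod `w` is trivial (the conclusion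
  of `cech_idempotent_trivial`), the fibres are reduced in the three charts, then any two sheets are
  joined by a chain of sheets, consecutive ones being NOT comaximal in one of the two charts.
* `exists_maximal_of_not_comaximal` : "not comaximal" = "pass through a common closed point".
-/

set_option autoImplicit false

namespace Fermat.Agent.A2.H12

open scoped Classical

section OneChart

variable {C : Type*} [CommRing C] {S : Type*} [Fintype S]

/-- CRT-type separation of two classes of pairwise comaximal ideals. -/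
theorem exists_idem_of_partition (Q : S → Ideal C) (col : S → Prop)
    (hcom : ∀ s t, col s → ¬ col t → ∃ a ∈ Q s, ∃ b ∈ Q t, a + b = 1) :
    ∃ e : C, (∀ s, col s → 1 - e ∈ Q s) ∧ (∀ t, ¬ col t → e ∈ Q t) := by
  -- for `s` in the class: `β s ∈ ⋂_{t ∉ class} Q t`, `β s ≡ 1 mod Q s`
  have hβ : ∀ s, col s → ∃ β : C, (∀ t, ¬ col t → β ∈ Q t) ∧ 1 - β ∈ Q s := by
    intro s hs
    choose! a ha b hb hab using fun t (ht : ¬ col t) => hcom s t hs ht
    refine ⟨∏ t ∈ Finset.univ.filter (fun t => ¬ col t), b t, ?_, ?_⟩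
    · intro t ht
      have hmem : t ∈ Finset.univ.filter (fun t => ¬ col t) := by simp [ht]
      rw [← Finset.mul_prod_erase _ _ hmem]
      exact Ideal.mul_mem_right _ _ (hb t ht)
    · -- product of elements `≡ 1` is `≡ 1`
      have key : ∀ T : Finset S, (∀ t ∈ T, ¬ col t) → 1 - ∏ t ∈ T, b t ∈ Q s := by
        intro T
        induction T using Finset.induction_on with
        | empty => intro _; simp
        | insert t T ht ih =>
          intro hT
          rw [Finset.prod_insert ht]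
          have h1 : 1 - b t ∈ Q s := by
            have := hab t (hT t (Finset.mem_insert_self _ _))
            have h2 : 1 - b t = a t := by rw [← this]; ring
            rw [h2]; exact ha t (hT t (Finset.mem_insert_self _ _))
          have h3 := ih (fun t' ht' => hT t' (Finset.mem_insert_of_mem ht'))
          have : 1 - b t * ∏ t ∈ T, b t = (1 - b t) + b t * (1 - ∏ t ∈ T, b t) := by ring
          rw [this]
          exact Ideal.add_mem _ h1 (Ideal.mul_mem_left _ _ h3)
      exact key _ (fun t ht => by simpa using ht)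
  choose! β hβ1 hβ2 using hβ
  refine ⟨1 - ∏ s ∈ Finset.univ.filter (fun s => col s), (1 - β s), ?_, ?_⟩
  · intro s hs
    have hmem : s ∈ Finset.univ.filter (fun s => col s) := by simp [hs]
    have : 1 - (1 - ∏ s ∈ Finset.univ.filter (fun s => col s), (1 - β s))
        = ∏ s ∈ Finset.univ.filter (fun s => col s), (1 - β s) := by ring
    rw [this, ← Finset.mul_prod_erase _ _ hmem]
    exact Ideal.mul_mem_right _ _ (hβ2 s hs)
  · intro t ht
    have key : ∀ T : Finset S, (∀ s ∈ T, col s) → 1 - ∏ s ∈ T, (1 - β s) ∈ Q t := by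
      intro T
      induction T using Finset.induction_on with
      | empty => intro _; simp
      | insert s T hs ih =>
        intro hT
        rw [Finset.prod_insert hs]
        have h1 : β s ∈ Q t := hβ1 s (hT s (Finset.mem_insert_self _ _)) t ht
        have h3 := ih (fun s' hs' => hT s' (Finset.mem_insert_of_mem hs'))
        have : 1 - (1 - β s) * ∏ s ∈ T, (1 - β s)
            = β s * ∏ s ∈ T, (1 - β s) + (1 - ∏ s ∈ T, (1 - β s)) := by ring
        rw [this]
        exact Ideal.add_mem _ (Ideal.mul_mem_right _ _ h1) h3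
    exact key _ (fun s hs => by simpa using hs)

/-- Two ideals that are not comaximal lie in a common maximal ideal. -/
theorem exists_maximal_of_not_comaximal (I J : Ideal C)
    (h : ¬ ∃ a ∈ I, ∃ b ∈ J, a + b = 1) : ∃ 𝔫 : Ideal C, 𝔫.IsMaximal ∧ I ≤ 𝔫 ∧ J ≤ 𝔫 := by
  have hne : I ⊔ J ≠ ⊤ := by
    intro htop
    apply h
    have h1 : (1 : C) ∈ I ⊔ J := by rw [htop]; trivial
    obtain ⟨a, ha, b, hb, hab⟩ := Submodule.mem_sup.1 h1
    exact ⟨a, ha, b, hb, hab⟩
  obtain ⟨𝔫, h𝔫, hle⟩ := Ideal.exists_le_maximal _ hne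
  exact ⟨𝔫, h𝔫, le_trans le_sup_left hle, le_trans le_sup_right hle⟩

end OneChart

section TwoCharts

variable {A B : Type*} [CommRing A] [CommRing B] [Algebra A B]
variable {S : Type*} [Fintype S]

/-- Sheets `s`, `t` are *separated in the chart `C`* if they are comaximal there. -/
def SepIn (C : Subalgebra A B) (P : S → Ideal B) (s t : S) : Prop :=
  ∃ a ∈ C, a ∈ P s ∧ ∃ b ∈ C, b ∈ P t ∧ a + b = 1

/-- Adjacency in the sheet graph: not separated in one of the two charts. -/
def SheetAdj (Bfin Binf : Subalgebra A B) (P : S → Ideal B) (s t : S) : Prop :=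
  ¬ SepIn Bfin P s t ∨ ¬ SepIn Binf P s t

/-- the contraction of a sheet to a chart, as an ideal of the chart -/
def contr (C : Subalgebra A B) (I : Ideal B) : Ideal C := I.comap (algebraMap C B)

theorem mem_contr (C : Subalgebra A B) (I : Ideal B) (c : C) : c ∈ contr C I ↔ (c : B) ∈ I :=
  Iff.rfl

private theorem exists_chart_idem (C : Subalgebra A B) (P : S → Ideal B) (col : S → Prop)
    (hsep : ∀ s t, col s → ¬ col t → SepIn C P s t) :
    ∃ e ∈ C, (∀ s, col s → 1 - e ∈ P s) ∧ (∀ t, ¬ col t → e ∈ P t) := by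
  obtain ⟨e, he1, he2⟩ := exists_idem_of_partition (C := C) (fun s => contr C (P s)) col (by
    intro s t hs ht
    obtain ⟨a, haC, haP, b, hbC, hbP, hab⟩ := hsep s t hs ht
    exact ⟨⟨a, haC⟩, haP, ⟨b, hbC⟩, hbP, Subtype.ext hab⟩)
  refine ⟨e, e.2, ?_, ?_⟩
  · intro s hs
    have := he1 s hs
    rw [mem_contr] at this
    simpa using this
  · intro t ht
    exact he2 t ht

/-- **GRAPH-CONN.**  `hcech` is literally the conclusion of S18/b5 `cech_idempotent_trivial`
(for all compatible pairs of idempotents).  `hred_*` : reducedness of the special fibre in the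
three charts (`⋂ P s = (w)`).  Then the sheet graph is connected. -/
theorem sheetGraph_connected (w : A) (Bfin Binf : Subalgebra A B) (P : S → Ideal B)
    (hP1 : ∀ s, (1 : B) ∉ P s)
    (hwP : ∀ s, algebraMap A B w ∈ P s)
    (hred_mid : ∀ b : B, (∀ s, b ∈ P s) → ∃ t : B, b = algebraMap A B w * t)
    (hred_fin : ∀ b ∈ Bfin, (∀ s, b ∈ P s) → ∃ t ∈ Bfin, b = algebraMap A B w * t)
    (hred_inf : ∀ b ∈ Binf, (∀ s, b ∈ P s) → ∃ t ∈ Binf, b = algebraMap A B w * t)
    (hcech : ∀ e₁ e₂ : B, e₁ ∈ Bfin → e₂ ∈ Binf →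
      (∃ t ∈ Bfin, e₁ ^ 2 - e₁ = algebraMap A B w * t) →
      (∃ t ∈ Binf, e₂ ^ 2 - e₂ = algebraMap A B w * t) →
      (∃ t : B, e₁ - e₂ = algebraMap A B w * t) →
      ((∃ t ∈ Bfin, e₁ = algebraMap A B w * t) ∧ (∃ t ∈ Binf, e₂ = algebraMap A B w * t)) ∨
      ((∃ t ∈ Bfin, 1 - e₁ = algebraMap A B w * t) ∧
        (∃ t ∈ Binf, 1 - e₂ = algebraMap A B w * t)))
    (s₀ t₀ : S) : Relation.ReflTransGen (SheetAdj Bfin Binf P) s₀ t₀ := by
  by_contra hcon
  set col : S → Prop := fun s => Relation.ReflTransGen (SheetAdj Bfin Binf P) s₀ s with hcol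
  have hs₀ : col s₀ := Relation.ReflTransGen.refl
  have ht₀ : ¬ col t₀ := hcon
  have hsep : ∀ s t, col s → ¬ col t → SepIn Bfin P s t ∧ SepIn Binf P s t := by
    intro s t hs ht
    by_contra h
    apply ht
    refine Relation.ReflTransGen.tail hs ?_
    rcases not_and_or.1 h with h | h
    · exact Or.inl h
    · exact Or.inr h
  obtain ⟨e₁, he₁C, he₁a, he₁b⟩ := exists_chart_idem Bfin P col (fun s t hs ht => (hsep s t hs ht).1)
  obtain ⟨e₂, he₂C, he₂a, he₂b⟩ := exists_chart_idem Binf P col (fun s t hs ht => (hsep s t hs ht).2)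
  have hidem : ∀ e : B, (∀ s, col s → 1 - e ∈ P s) → (∀ t, ¬ col t → e ∈ P t) →
      ∀ s, e ^ 2 - e ∈ P s := by
    intro e ha hb s
    have h : e ^ 2 - e = -(e * (1 - e)) := by ring
    rw [h]
    by_cases hs : col s
    · exact (P s).neg_mem (Ideal.mul_mem_left _ _ (ha s hs))
    · exact (P s).neg_mem (Ideal.mul_mem_right _ _ (hb s hs))
  have h1 := hred_fin _ (Bfin.sub_mem (Bfin.pow_mem he₁C 2) he₁C) (hidem e₁ he₁a he₁b)
  have h2 := hred_inf _ (Binf.sub_mem (Binf.pow_mem he₂C 2) he₂C) (hidem e₂ he₂a he₂b)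
  have h12 : ∃ t : B, e₁ - e₂ = algebraMap A B w * t := by
    apply hred_mid
    intro s
    by_cases hs : col s
    · have : e₁ - e₂ = (1 - e₂) - (1 - e₁) := by ring
      rw [this]
      exact (P s).sub_mem (he₂a s hs) (he₁a s hs)
    · exact (P s).sub_mem (he₁b s hs) (he₂b s hs)
  rcases hcech e₁ e₂ he₁C he₂C h1 h2 h12 with ⟨⟨t, _, ht⟩, _⟩ | ⟨⟨t, _, ht⟩, _⟩
  · -- `e₁ ∈ (w)`, but `1 - e₁ ∈ P s₀`
    apply hP1 s₀
    have h3 : e₁ ∈ P s₀ := by rw [ht]; exact Ideal.mul_mem_right _ _ (hwP s₀)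
    have : (1 : B) = (1 - e₁) + e₁ := by ring
    rw [this]
    exact (P s₀).add_mem (he₁a s₀ hs₀) h3
  · apply hP1 t₀
    have h3 : 1 - e₁ ∈ P t₀ := by rw [ht]; exact Ideal.mul_mem_right _ _ (hwP t₀)
    have : (1 : B) = (1 - e₁) + e₁ := by ring
    rw [this]
    exact (P t₀).add_mem h3 (he₁b t₀ ht₀)

end TwoCharts

end Fermat.Agent.A2.H12

end
-- ===== PACK-END A2/H12/SheetGraph.lean

-- ===== PACK-BEGIN A2/H643/BaseAbs.lean
section


/-!
# Cell A2, route G, leaf BASE — abstract part (helper643)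

`B` a noetherian integrally closed domain with fraction field `F`, `w ∈ B`, `w ≠ 0`, and two
primes `p`, `p'` of `B` with `p ⊓ p' = (w)`, `¬ p' ≤ p`.  Then `B_p` is a discrete valuation ring
with uniformiser `w`; we record this elementwise for the valuation subring
`H849.locValuationSubring p` of `F`.
-/

set_option autoImplicit false
set_option linter.unusedSectionVars false

namespace Fermat.Agent.A2.H643

open IsLocalRing Fermat.Agent.A2.H849

section Abs

variable {B : Type*} [CommRing B] [IsDomain B] [IsNoetherianRing B] [IsIntegrallyClosed B]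
variable {F : Type*} [Field F] [Algebra B F] [IsFractionRing B F]

/-- `p` is the colon ideal `(w) : s` for every `s ∈ p' ∖ p`. -/
theorem base_colon {w : B} {p p' : Ideal B} [hp : p.IsPrime]
    (hinf : p ⊓ p' = Ideal.span {w}) {s : B} (hs' : s ∈ p') (hs : s ∉ p) (r : B) :
    r ∈ p ↔ w ∣ r * s := by
  constructor
  · intro hr
    have h : r * s ∈ p ⊓ p' := ⟨p.mul_mem_right s hr, p'.mul_mem_left r hs'⟩
    rw [hinf] at h
    exact Ideal.mem_span_singleton.1 h
  · intro h
    have h1 : r * s ∈ p ⊓ p' := by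
      rw [hinf]
      exact Ideal.mem_span_singleton.2 h
    rcases hp.mem_or_mem h1.1 with h2 | h2
    · exact h2
    · exact absurd h2 hs

theorem base_w_mem {w : B} {p p' : Ideal B} (hinf : p ⊓ p' = Ideal.span {w}) : w ∈ p := by
  have h : w ∈ p ⊓ p' := by
    rw [hinf]
    exact Ideal.mem_span_singleton_self w
  exact h.1

variable (F) in
/-- `B_p` is a discrete valuation ring. -/
theorem base_dvr {w : B} (hw : w ≠ 0) {p p' : Ideal B} [hp : p.IsPrime]
    (hinf : p ⊓ p' = Ideal.span {w}) (hle : ¬ p' ≤ p) :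
    IsDiscreteValuationRing (locAt F p) := by
  obtain ⟨s, hs', hs⟩ := SetLike.not_le_iff_exists.1 hle
  exact isDiscreteValuationRing_locAt_of_colon p w s hw (base_colon hinf hs' hs)

variable (F) in
/-- The valuation subring `B_p` of `F`. -/
noncomputable def baseV {w : B} (hw : w ≠ 0) {p p' : Ideal B} [hp : p.IsPrime]
    (hinf : p ⊓ p' = Ideal.span {w}) (hle : ¬ p' ≤ p) : ValuationSubring F :=
  haveI := base_dvr F hw hinf hle
  locValuationSubring p (inferInstance : ValuationRing (locAt F p))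

theorem mem_baseV_iff {w : B} (hw : w ≠ 0) {p p' : Ideal B} [hp : p.IsPrime]
    (hinf : p ⊓ p' = Ideal.span {w}) (hle : ¬ p' ≤ p) (c : F) :
    c ∈ baseV F hw hinf hle ↔
      ∃ a s : B, s ∉ p ∧ c = algebraMap B F a * (algebraMap B F s)⁻¹ :=
  mem_locAt_iff p c

theorem algebraMap_mem_baseV {w : B} (hw : w ≠ 0) {p p' : Ideal B} [hp : p.IsPrime]
    (hinf : p ⊓ p' = Ideal.span {w}) (hle : ¬ p' ≤ p) (b : B) :
    algebraMap B F b ∈ baseV F hw hinf hle :=
  (mem_baseV_iff hw hinf hle _).2 ⟨b, 1, fun h => hp.ne_top ((Ideal.eq_top_iff_one p).2 h),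
    by rw [map_one, inv_one, mul_one]⟩

theorem inv_mem_baseV {w : B} (hw : w ≠ 0) {p p' : Ideal B} [hp : p.IsPrime]
    (hinf : p ⊓ p' = Ideal.span {w}) (hle : ¬ p' ≤ p) {s : B} (hs : s ∉ p) :
    (algebraMap B F s)⁻¹ ∈ baseV F hw hinf hle :=
  (mem_baseV_iff hw hinf hle _).2 ⟨1, s, hs, by rw [map_one, one_mul]⟩

/-- Elements of `p` are non-units of `B_p`. -/
theorem mem_nonunits_baseV {w : B} (hw : w ≠ 0) {p p' : Ideal B} [hp : p.IsPrime]
    (hinf : p ⊓ p' = Ideal.span {w}) (hle : ¬ p' ≤ p) {r : B} (hr : r ∈ p) :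
    algebraMap B F r ∈ (baseV F hw hinf hle).nonunits := by
  have hinj : Function.Injective (algebraMap B F) := IsFractionRing.injective B F
  rw [ValuationSubring.mem_nonunits_iff_or]
  by_cases hr0 : r = 0
  · left
    rw [hr0, map_zero]
  · right
    exact (isLocDVR_locValuationSubring p (base_dvr F hw hinf hle)).inv_not_mem r hr hr0

/-- The maximal ideal of `B_p` is generated by `w`. -/
theorem base_maximalIdeal {w : B} {p p' : Ideal B} [hp : p.IsPrime]
    (hinf : p ⊓ p' = Ideal.span {w}) (hle : ¬ p' ≤ p) :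
    maximalIdeal (locAt F p) = Ideal.span {algebraMap B (locAt F p) w} := by
  obtain ⟨s, hs', hs⟩ := SetLike.not_le_iff_exists.1 hle
  rw [← IsLocalization.AtPrime.map_eq_maximalIdeal p (locAt F p)]
  apply le_antisymm
  · rw [Ideal.map_le_iff_le_comap]
    intro r hr
    obtain ⟨b, hb⟩ := (base_colon hinf hs' hs r).1 hr
    rw [Ideal.mem_comap, Ideal.mem_span_singleton]
    have hsu : IsUnit (algebraMap B (locAt F p) s) :=
      IsLocalization.map_units (M := p.primeCompl) (locAt F p) ⟨s, hs⟩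
    obtain ⟨t, ht⟩ := hsu.exists_right_inv
    refine ⟨algebraMap B (locAt F p) b * t, ?_⟩
    calc algebraMap B (locAt F p) r
        = algebraMap B (locAt F p) r * (algebraMap B (locAt F p) s * t) := by
          rw [ht, mul_one]
      _ = algebraMap B (locAt F p) (r * s) * t := by rw [map_mul]; ring
      _ = algebraMap B (locAt F p) w * (algebraMap B (locAt F p) b * t) := by
          rw [hb, map_mul]; ring
  · rw [Ideal.span_singleton_le_iff_mem]
    exact Ideal.mem_map_of_mem _ (base_w_mem hinf)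

/-- **Discreteness**: every nonzero element of `F` is `w ^ n` times a unit of `B_p`. -/
theorem base_discrete {w : B} (hw : w ≠ 0) {p p' : Ideal B} [hp : p.IsPrime]
    (hinf : p ⊓ p' = Ideal.span {w}) (hle : ¬ p' ≤ p) (f : F) (hf : f ≠ 0) :
    ∃ (n : ℤ) (u : F), u ∈ baseV F hw hinf hle ∧ u⁻¹ ∈ baseV F hw hinf hle ∧
      f = algebraMap B F w ^ n * u := by
  have := base_dvr F hw hinf hle
  set D := locAt F p with hD
  set wD : D := algebraMap B D w with hwD
  have hirr : Irreducible wD :=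
    (IsDiscreteValuationRing.irreducible_iff_uniformizer wD).2 (base_maximalIdeal hinf hle)
  have hwF : ((wD : D) : F) = algebraMap B F w := rfl
  -- the case `f ∈ B_p`
  have key : ∀ g : F, g ≠ 0 → g ∈ baseV F hw hinf hle →
      ∃ (n : ℕ) (u : F), u ∈ baseV F hw hinf hle ∧ u⁻¹ ∈ baseV F hw hinf hle ∧
        g = algebraMap B F w ^ n * u := by
    intro g hg hgV
    have hgD : g ∈ D := hgV
    have hd0 : (⟨g, hgD⟩ : D) ≠ 0 := fun h => hg (congrArg (fun z : D => (z : F)) h)
    obtain ⟨n, u, hu⟩ := IsDiscreteValuationRing.associated_pow_irreducible hd0 hirr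
    -- `g * u = wD ^ n`
    have h1 : g * ((u : D) : F) = algebraMap B F w ^ n := by
      have h4 := congrArg (fun z : D => (z : F)) hu
      simp only [Subalgebra.coe_mul, Subalgebra.coe_pow] at h4
      rw [hwF] at h4
      exact h4
    have hu0 : ((u : D) : F) ≠ 0 := by
      intro h0
      have : ((u : D)) = 0 := Subtype.ext h0
      exact u.ne_zero this
    have huinv : (((u⁻¹ : Dˣ) : D) : F) = (((u : D) : F))⁻¹ := by
      have h2 : ((u : D) : F) * (((u⁻¹ : Dˣ) : D) : F) = 1 := by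
        have h3 : ((u : D) * ((u⁻¹ : Dˣ) : D) : D) = 1 := u.mul_inv
        exact congrArg (fun z : D => (z : F)) h3
      exact eq_inv_of_mul_eq_one_right h2
    refine ⟨n, (((u : D) : F))⁻¹, ?_, ?_, ?_⟩
    · rw [← huinv]
      exact ((u⁻¹ : Dˣ) : D).2
    · rw [inv_inv]
      exact (u : D).2
    · rw [← h1]
      field_simp
  rcases (baseV F hw hinf hle).mem_or_inv_mem f with h | h
  · obtain ⟨n, u, hu, hu', hfu⟩ := key f hf h
    exact ⟨n, u, hu, hu', by rw [hfu, zpow_natCast]⟩
  · obtain ⟨n, u, hu, hu', hfu⟩ := key f⁻¹ (inv_ne_zero hf) h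
    refine ⟨-n, u⁻¹, hu', by rwa [inv_inv], ?_⟩
    rw [zpow_neg, zpow_natCast, ← mul_inv, ← hfu, inv_inv]

end Abs

end Fermat.Agent.A2.H643

end
-- ===== PACK-END A2/H643/BaseAbs.lean

-- ===== PACK-BEGIN Lib/Haupt/Formal.lean
section



/-!
# Truncations of the Prelude's formal `E₄` and Euler product (helper637)
-/

set_option autoImplicit false

namespace Fermat.Agent.Lib.Haupt

open PowerSeries Filter Topology
open scoped PowerSeries.WithPiTopology

/-- Computable `σ₃`. -/
def sig3 (n : ℕ) : ℤ := ((List.range (n + 1)).map fun d => if d ∣ n then (d : ℤ) ^ 3 else 0).sum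

theorem sig3_eq (n : ℕ) (hn : n ≠ 0) : sig3 n = ∑ d ∈ n.divisors, (d : ℤ) ^ 3 := by
  unfold sig3
  rw [sum_map_range, ← Finset.sum_filter]
  apply Finset.sum_congr _ (fun _ _ => rfl)
  ext d
  simp only [Finset.mem_filter, Finset.mem_range, Nat.mem_divisors]
  constructor
  · rintro ⟨_, h⟩
    exact ⟨h, hn⟩
  · rintro ⟨h, _⟩
    exact ⟨Nat.lt_succ_of_le (Nat.le_of_dvd (Nat.pos_of_ne_zero hn) h), h⟩

/-- Computable coefficients of `E₄`. -/
def e4c (n : ℕ) : ℤ := if n = 0 then 1 else 240 * sig3 n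

theorem coeff_eisenstein4 (n : ℕ) : coeff n ModularCurve.eisenstein4 = e4c n := by
  unfold e4c ModularCurve.eisenstein4
  rw [coeff_mk]
  split_ifs with h
  · rfl
  · rw [sig3_eq n h]

theorem tr_eisenstein4 (M : ℕ) : tr M ModularCurve.eisenstein4 = ofFn M e4c := by
  rw [tr_eq_ofFn]
  exact ofFn_congr fun n _ => coeff_eisenstein4 n

/-- Truncated partial Euler products. -/
def lEuler (M : ℕ) : ℕ → List ℤ
  | 0 => lone M
  | k + 1 => lsub M (lEuler M k) (lshift M (k + 1) (lEuler M k))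

theorem tr_prod_range (M k : ℕ) :
    tr M (∏ n ∈ Finset.range k, (1 - X ^ (n + 1) : PowerSeries ℤ)) = lEuler M k := by
  induction k with
  | zero => rw [Finset.prod_range_zero, tr_one]; rfl
  | succ k ih =>
    rw [Finset.prod_range_succ, mul_sub, mul_one, mul_comm, tr_sub, tr_X_pow_mul, ih]
    rfl

/-- Multiplying by `1 - X ^ (n + 1)` with `n ≥ m` does not change the `m`-th coefficient. -/
theorem coeff_mul_one_sub_X_pow (f : PowerSeries ℤ) {m n : ℕ} (h : m ≤ n) :
    coeff m (f * (1 - X ^ (n + 1))) = coeff m f := by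
  rw [mul_sub, mul_one, map_sub, mul_comm, coeff_X_pow_mul', if_neg (by omega), sub_zero]

theorem coeff_prod_of_range_subset {M : ℕ} (s : Finset ℕ) (hs : Finset.range M ⊆ s) {m : ℕ}
    (hm : m < M) :
    coeff m (∏ n ∈ s, (1 - X ^ (n + 1) : PowerSeries ℤ))
      = coeff m (∏ n ∈ Finset.range M, (1 - X ^ (n + 1) : PowerSeries ℤ)) := by
  induction s using Finset.strongInduction with
  | H s ih =>
    by_cases hsr : s = Finset.range M
    · rw [hsr]
    · obtain ⟨a, has, haM⟩ : ∃ a ∈ s, a ∉ Finset.range M := by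
        by_contra hcon
        push Not at hcon
        exact hsr (Finset.Subset.antisymm hcon hs)
      have hsub : Finset.range M ⊆ s.erase a := by
        intro x hx
        exact Finset.mem_erase.mpr ⟨fun h => haM (h ▸ hx), hs hx⟩
      rw [← Finset.mul_prod_erase s _ has, mul_comm,
        coeff_mul_one_sub_X_pow _ (by rw [Finset.mem_range] at haM; omega)]
      exact ih _ (Finset.erase_ssubset has) hsub

theorem coeff_etaProd {M m : ℕ} (hm : m < M) :
    coeff m ModularCurve.etaProd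
      = coeff m (∏ n ∈ Finset.range M, (1 - X ^ (n + 1) : PowerSeries ℤ)) := by
  have h1 : HasProd (fun n : ℕ => (1 - X ^ (n + 1) : PowerSeries ℤ)) ModularCurve.etaProd :=
    (PowerSeries.WithPiTopology.multipliable_one_sub_X_pow ℤ).hasProd
  have h2 : Tendsto (fun s : Finset ℕ => ∏ n ∈ s, (1 - X ^ (n + 1) : PowerSeries ℤ))
      atTop (𝓝 ModularCurve.etaProd) := h1
  have h3 := (PowerSeries.WithPiTopology.tendsto_iff_coeff_tendsto ℤ _ _ _).1 h2 m
  have h4 : Tendsto (fun s : Finset ℕ => coeff m (∏ n ∈ s, (1 - X ^ (n + 1) : PowerSeries ℤ)))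
      atTop (𝓝 (coeff m (∏ n ∈ Finset.range M, (1 - X ^ (n + 1) : PowerSeries ℤ)))) := by
    apply tendsto_const_nhds.congr'
    filter_upwards [eventually_ge_atTop (Finset.range M)] with s hs
    exact (coeff_prod_of_range_subset s hs hm).symm
  exact tendsto_nhds_unique h3 h4

theorem tr_etaProd (M : ℕ) : tr M ModularCurve.etaProd = lEuler M M := by
  rw [← tr_prod_range, tr_eq_ofFn, tr_eq_ofFn]
  exact ofFn_congr fun n hn => coeff_etaProd hn

end Fermat.Agent.Lib.Haupt

end
-- ===== PACK-END Lib/Haupt/Formal.lean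

-- ===== PACK-BEGIN S28/H86/GaussGen.lean
section




/-!
# The Gauss valuation ring of `O((t))` for a general coefficient DVR `O ⊆ E`

`E` a field, `O : Subring E`, `res : O →+* k` onto-ish a field `k` with kernel `(π)`, such that
every nonzero element of `O` is `π ^ n * y` with `res y ≠ 0` (`UnifData`).

* `inclL O : LaurentSeries O →+* LaurentSeries E`, `redL res : LaurentSeries O →+* LaurentSeries k`
* `gaussRing O res : Subring (LaurentSeries E)` = localisation of `O((t))` at `(π)`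
* `gaussRed : gaussRing O res →+* LaurentSeries k`, kernel `= π · gaussRing`
* `gaussFrac O : Subfield (LaurentSeries E)`, the valuation-ring dichotomy, integral closedness.
-/

set_option autoImplicit false
set_option linter.unusedSectionVars false

noncomputable section

namespace Fermat.Agent.S28.H86

open ModularCurve

/-- Uniformiser data: `ker res = (π)`, `π ≠ 0`, every nonzero element is `π ^ n * (unit mod π)`. -/
structure UnifData {E : Type*} [Field E] (O : Subring E) {k : Type*} [Field k]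
    (res : O →+* k) (π : O) : Prop where
  ker : ∀ x : O, res x = 0 ↔ ∃ y : O, x = π * y
  ne_zero : π ≠ 0
  prim : ∀ x : O, x ≠ 0 → ∃ (n : ℕ) (y : O), x = π ^ n * y ∧ res y ≠ 0

section Basic

variable {E : Type*} [Field E] (O : Subring E) {k : Type*} [Field k] (res : O →+* k) {π : O}

/-- The inclusion `O((t)) → E((t))`. -/
def inclL : LaurentSeries O →+* LaurentSeries E := coeffMap O.subtype

@[simp] theorem inclL_coeff (a : LaurentSeries O) (n : ℤ) :
    (inclL O a).coeff n = (a.coeff n : E) := rfl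

theorem inclL_injective : Function.Injective (inclL O) := by
  intro a b h
  ext n
  have := congrArg (fun x => x.coeff n) h
  simpa using this

theorem inclL_ne_zero {a : LaurentSeries O} (ha : a ≠ 0) : inclL O a ≠ 0 :=
  fun h => ha (inclL_injective O (h.trans (map_zero _).symm))

variable {O} in
/-- Coefficientwise reduction `O((t)) → k((t))`. -/
def redL : LaurentSeries O →+* LaurentSeries k := coeffMap res

@[simp] theorem redL_coeff (a : LaurentSeries O) (n : ℤ) :
    (redL res a).coeff n = res (a.coeff n) := rfl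

variable {O res}

theorem res_pi (h : UnifData O res π) : res π = 0 := (h.ker π).mpr ⟨1, (mul_one π).symm⟩

theorem coe_pi_ne_zero (h : UnifData O res π) : (π : E) ≠ 0 :=
  fun h0 => h.ne_zero (Subtype.ext h0)

/-- Division by `π` on `O` (junk value `0` on non-multiples). -/
def divPi (π : O) : ZeroHom O O where
  toFun x := by
    classical
    exact if h : π ≠ 0 ∧ ∃ y : O, x = π * y then h.2.choose else 0
  map_zero' := by
    classical
    by_cases h : π ≠ 0 ∧ ∃ y : O, (0 : O) = π * y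
    · simp only [dif_pos h]
      have := h.2.choose_spec
      rcases mul_eq_zero.mp this.symm with h' | h'
      · exact absurd h' h.1
      · exact h'
    · simp only [dif_neg h]

theorem pi_mul_divPi (h : UnifData O res π) {x : O} (hx : res x = 0) : π * divPi π x = x := by
  classical
  have h1 : π ≠ 0 ∧ ∃ y : O, x = π * y := ⟨h.ne_zero, (h.ker x).mp hx⟩
  show π * (if h : π ≠ 0 ∧ ∃ y : O, x = π * y then h.2.choose else 0) = x
  rw [dif_pos h1]
  exact h1.2.choose_spec.symm

theorem redL_eq_zero_iff (h : UnifData O res π) (a : LaurentSeries O) :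
    redL res a = 0 ↔ ∃ a' : LaurentSeries O, a = HahnSeries.C π * a' := by
  constructor
  · intro h0
    refine ⟨a.map (divPi π), ?_⟩
    ext n
    rw [HahnSeries.C_mul_eq_smul, HahnSeries.coeff_smul, HahnSeries.map_coeff, smul_eq_mul,
      pi_mul_divPi h]
    have := congrArg (fun x => x.coeff n) h0
    simpa using this
  · rintro ⟨a', rfl⟩
    ext n
    rw [HahnSeries.C_mul_eq_smul, redL_coeff, HahnSeries.coeff_smul, smul_eq_mul, map_mul,
      res_pi h, zero_mul, HahnSeries.coeff_zero]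

theorem redL_C_pi (h : UnifData O res π) : redL res (HahnSeries.C π) = 0 :=
  (redL_eq_zero_iff h _).mpr ⟨1, by rw [mul_one]⟩

variable (O) in
/-- The uniformiser as a constant Laurent series over `E`. -/
def piL (π : O) : LaurentSeries E := HahnSeries.C (π : E)

theorem inclL_C (c : O) : inclL O (HahnSeries.C c) = HahnSeries.C (c : E) := by
  ext n
  by_cases hn : n = 0
  · subst hn; simp [HahnSeries.C_apply]
  · simp [HahnSeries.C_apply, HahnSeries.coeff_single_of_ne hn]

theorem inclL_C_pi : inclL O (HahnSeries.C π) = piL O π := inclL_C π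

theorem piL_ne_zero (h : UnifData O res π) : piL O π ≠ 0 := by
  intro h0
  exact coe_pi_ne_zero h (HahnSeries.C_injective (by rw [← piL, h0, map_zero]))

theorem redL_cross {a b c d : LaurentSeries O}
    (h : inclL O a * inclL O d = inclL O c * inclL O b) :
    redL res a * redL res d = redL res c * redL res b := by
  rw [← map_mul, ← map_mul] at h
  rw [← map_mul, ← map_mul, inclL_injective O h]

end Basic

section Ring

variable {E : Type*} [Field E] (O : Subring E) {k : Type*} [Field k] (res : O →+* k) {π : O}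

/-! ### The Gauss valuation ring -/

/-- The Gauss valuation ring: the localisation of `O((t))` at the prime `(π)`, realised inside
`E((t))`. -/
def gaussRing : Subring (LaurentSeries E) where
  carrier := {x | ∃ a b : LaurentSeries O, redL res b ≠ 0 ∧ x * inclL O b = inclL O a}
  mul_mem' := by
    rintro x y ⟨a, b, hb, hab⟩ ⟨c, d, hd, hcd⟩
    refine ⟨a * c, b * d, ?_, ?_⟩
    · rw [map_mul]; exact mul_ne_zero hb hd
    · rw [map_mul, map_mul, ← hab, ← hcd]; ring
  one_mem' := ⟨1, 1, by simp, by simp⟩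
  add_mem' := by
    rintro x y ⟨a, b, hb, hab⟩ ⟨c, d, hd, hcd⟩
    refine ⟨a * d + c * b, b * d, ?_, ?_⟩
    · rw [map_mul]; exact mul_ne_zero hb hd
    · rw [map_add, map_mul, map_mul, map_mul, ← hab, ← hcd]; ring
  zero_mem' := ⟨0, 1, by simp, by simp⟩
  neg_mem' := by
    rintro x ⟨a, b, hb, hab⟩
    exact ⟨-a, b, hb, by rw [map_neg, ← hab]; ring⟩

variable {O res}

theorem mem_gaussRing_iff {x : LaurentSeries E} :
    x ∈ gaussRing O res ↔ ∃ a b : LaurentSeries O,
      redL res b ≠ 0 ∧ x * inclL O b = inclL O a := Iff.rfl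

variable (res) in
theorem inclL_mem_gaussRing (a : LaurentSeries O) : inclL O a ∈ gaussRing O res :=
  ⟨a, 1, by simp, by simp⟩

/-- A chosen numerator. -/
def gaussNum (x : gaussRing O res) : LaurentSeries O := x.2.choose

/-- A chosen denominator. -/
def gaussDen (x : gaussRing O res) : LaurentSeries O := x.2.choose_spec.choose

theorem redL_gaussDen_ne_zero (x : gaussRing O res) : redL res (gaussDen x) ≠ 0 :=
  x.2.choose_spec.choose_spec.1

theorem gauss_spec (x : gaussRing O res) :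
    (x : LaurentSeries E) * inclL O (gaussDen x) = inclL O (gaussNum x) :=
  x.2.choose_spec.choose_spec.2

/-- The reduction map on the Gauss ring, as a function. -/
def gaussRedFun (x : gaussRing O res) : LaurentSeries k :=
  redL res (gaussNum x) / redL res (gaussDen x)

theorem gaussRedFun_eq (x : gaussRing O res) (a b : LaurentSeries O)
    (hb : redL res b ≠ 0) (h : (x : LaurentSeries E) * inclL O b = inclL O a) :
    gaussRedFun x = redL res a / redL res b := by
  rw [gaussRedFun, div_eq_div_iff (redL_gaussDen_ne_zero x) hb]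
  apply redL_cross
  rw [← gauss_spec, ← h]; ring

variable (O res) in
/-- The reduction map `V → k((t))`. -/
def gaussRed : gaussRing O res →+* LaurentSeries k where
  toFun := gaussRedFun
  map_one' := by
    rw [gaussRedFun_eq 1 1 1 (by simp) (by simp)]
    simp
  map_mul' x y := by
    rw [gaussRedFun_eq (x * y) (gaussNum x * gaussNum y) (gaussDen x * gaussDen y)
      (by rw [map_mul]; exact mul_ne_zero (redL_gaussDen_ne_zero x) (redL_gaussDen_ne_zero y))
      (by rw [map_mul, map_mul, ← gauss_spec, ← gauss_spec, Subring.coe_mul]; ring)]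
    rw [map_mul, map_mul, gaussRedFun, gaussRedFun, div_mul_div_comm]
  map_zero' := by
    rw [gaussRedFun_eq 0 0 1 (by simp) (by simp)]
    simp
  map_add' x y := by
    rw [gaussRedFun_eq (x + y) (gaussNum x * gaussDen y + gaussNum y * gaussDen x)
      (gaussDen x * gaussDen y)
      (by rw [map_mul]; exact mul_ne_zero (redL_gaussDen_ne_zero x) (redL_gaussDen_ne_zero y))
      (by rw [map_add, map_mul, map_mul, map_mul, ← gauss_spec, ← gauss_spec,
            Subring.coe_add]; ring)]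
    rw [map_add, map_mul, map_mul, map_mul, gaussRedFun, gaussRedFun,
      div_add_div _ _ (redL_gaussDen_ne_zero x) (redL_gaussDen_ne_zero y)]
    ring

theorem gaussRed_eq (x : gaussRing O res) (a b : LaurentSeries O)
    (hb : redL res b ≠ 0) (h : (x : LaurentSeries E) * inclL O b = inclL O a) :
    gaussRed O res x = redL res a / redL res b := gaussRedFun_eq x a b hb h

theorem gaussRed_inclL (a : LaurentSeries O) :
    gaussRed O res ⟨inclL O a, inclL_mem_gaussRing res a⟩ = redL res a := by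
  rw [gaussRed_eq _ a 1 (by simp) (by simp)]
  simp

theorem piL_mem_gaussRing : piL O π ∈ gaussRing O res := by
  rw [← inclL_C_pi]; exact inclL_mem_gaussRing res _

theorem gaussRed_piL (h : UnifData O res π) :
    gaussRed O res ⟨piL O π, piL_mem_gaussRing⟩ = 0 := by
  have : (⟨piL O π, piL_mem_gaussRing⟩ : gaussRing O res) =
      ⟨inclL O (HahnSeries.C π), inclL_mem_gaussRing res _⟩ := Subtype.ext inclL_C_pi.symm
  rw [this, gaussRed_inclL, redL_C_pi h]

/-- The kernel of the reduction is generated by `π`. -/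
theorem gaussRed_eq_zero_iff (h : UnifData O res π) (x : gaussRing O res) :
    gaussRed O res x = 0 ↔ ∃ y : gaussRing O res, (x : LaurentSeries E) = piL O π * y := by
  constructor
  · intro h0
    have h1 : redL res (gaussNum x) = 0 := by
      have h2 : redL res (gaussNum x) / redL res (gaussDen x) = 0 := h0
      rcases div_eq_zero_iff.mp h2 with h3 | h3
      · exact h3
      · exact absurd h3 (redL_gaussDen_ne_zero x)
    obtain ⟨a', ha'⟩ := (redL_eq_zero_iff h _).mp h1
    have hspec := gauss_spec x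
    rw [ha', map_mul, inclL_C_pi] at hspec
    have hne := piL_ne_zero h
    have hy : (x : LaurentSeries E) * (piL O π)⁻¹ ∈ gaussRing O res := by
      refine ⟨a', gaussDen x, redL_gaussDen_ne_zero x, ?_⟩
      calc (x : LaurentSeries E) * (piL O π)⁻¹ * inclL O (gaussDen x)
          = ((x : LaurentSeries E) * inclL O (gaussDen x)) * (piL O π)⁻¹ := by ring
        _ = inclL O a' := by rw [hspec]; field_simp
    refine ⟨⟨_, hy⟩, ?_⟩
    show (x : LaurentSeries E) = piL O π * ((x : LaurentSeries E) * (piL O π)⁻¹)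
    field_simp
  · rintro ⟨y, hy⟩
    have : x = ⟨piL O π, piL_mem_gaussRing⟩ * y := Subtype.ext hy
    rw [this, map_mul, gaussRed_piL h, zero_mul]

/-! ### Primitive parts -/

theorem exists_primitive_aux (h : UnifData O res π) (m : ℕ) :
    ∀ (b : LaurentSeries O) (n0 : ℤ) (y : O), b.coeff n0 = π ^ m * y → res y ≠ 0 →
      ∃ (i : ℕ) (b' : LaurentSeries O), b = HahnSeries.C π ^ i * b' ∧ redL res b' ≠ 0 := by
  induction m with
  | zero =>
    intro b n0 y hy hres
    refine ⟨0, b, by simp, ?_⟩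
    intro h0
    have := congrArg (fun x => x.coeff n0) h0
    simp only [redL_coeff, HahnSeries.coeff_zero] at this
    rw [hy, pow_zero, one_mul] at this
    exact hres this
  | succ m ih =>
    intro b n0 y hy hres
    by_cases hb : redL res b = 0
    · obtain ⟨b1, rfl⟩ := (redL_eq_zero_iff h b).mp hb
      rw [HahnSeries.C_mul_eq_smul, HahnSeries.coeff_smul, smul_eq_mul, pow_succ', mul_assoc] at hy
      have h1 : b1.coeff n0 = π ^ m * y := mul_left_cancel₀ h.ne_zero hy
      obtain ⟨i, b', hb', hred⟩ := ih b1 n0 y h1 hres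
      refine ⟨i + 1, b', ?_, hred⟩
      rw [hb', pow_succ']
      ring
    · exact ⟨0, b, by simp, hb⟩

theorem exists_primitive (h : UnifData O res π) (b : LaurentSeries O) (hb : b ≠ 0) :
    ∃ (i : ℕ) (b' : LaurentSeries O), b = HahnSeries.C π ^ i * b' ∧ redL res b' ≠ 0 := by
  obtain ⟨n0, hn0⟩ : ∃ n0, b.coeff n0 ≠ 0 := by
    by_contra h0
    exact hb (HahnSeries.ext (funext fun n => not_not.mp (not_exists.mp h0 n)))
  obtain ⟨m, y, hy, hres⟩ := h.prim _ hn0
  exact exists_primitive_aux h m b n0 y hy hres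

/-! ### The fraction field of `O((t))` inside `E((t))` -/

variable (O) in
/-- The fraction field of `O((t))`, realised inside `E((t))`. -/
def gaussFrac : Subfield (LaurentSeries E) where
  carrier := {x | ∃ a b : LaurentSeries O, b ≠ 0 ∧ x * inclL O b = inclL O a}
  mul_mem' := by
    rintro x y ⟨a, b, hb, hab⟩ ⟨c, d, hd, hcd⟩
    refine ⟨a * c, b * d, mul_ne_zero hb hd, ?_⟩
    rw [map_mul, map_mul, ← hab, ← hcd]; ring
  one_mem' := ⟨1, 1, one_ne_zero, by simp⟩
  add_mem' := by
    rintro x y ⟨a, b, hb, hab⟩ ⟨c, d, hd, hcd⟩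
    refine ⟨a * d + c * b, b * d, mul_ne_zero hb hd, ?_⟩
    rw [map_add, map_mul, map_mul, map_mul, ← hab, ← hcd]; ring
  zero_mem' := ⟨0, 1, one_ne_zero, by simp⟩
  neg_mem' := by
    rintro x ⟨a, b, hb, hab⟩
    exact ⟨-a, b, hb, by rw [map_neg, ← hab]; ring⟩
  inv_mem' := by
    rintro x ⟨a, b, hb, hab⟩
    by_cases hx : x = 0
    · subst hx
      exact ⟨0, 1, one_ne_zero, by simp⟩
    · have hb' : inclL O b ≠ 0 := inclL_ne_zero O hb
      have ha : a ≠ 0 := by
        rintro rfl
        rw [map_zero] at hab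
        rcases mul_eq_zero.mp hab with h | h
        · exact hx h
        · exact hb' h
      refine ⟨b, a, ha, ?_⟩
      rw [← hab, ← mul_assoc, inv_mul_cancel₀ hx, one_mul]

theorem mem_gaussFrac_iff {x : LaurentSeries E} :
    x ∈ gaussFrac O ↔ ∃ a b : LaurentSeries O, b ≠ 0 ∧ x * inclL O b = inclL O a := Iff.rfl

theorem inclL_mem_gaussFrac (a : LaurentSeries O) : inclL O a ∈ gaussFrac O :=
  ⟨a, 1, one_ne_zero, by simp⟩

theorem gaussRing_le_gaussFrac {x : LaurentSeries E} (hx : x ∈ gaussRing O res) :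
    x ∈ gaussFrac O := by
  obtain ⟨a, b, hb, hab⟩ := hx
  exact ⟨a, b, fun h => hb (by rw [h, map_zero]), hab⟩

/-- The valuation-ring dichotomy: an element of the fraction field lies in the Gauss ring, or
it is the inverse of an element of the Gauss ring with vanishing reduction. -/
theorem mem_gaussRing_or_inv (h : UnifData O res π) {x : LaurentSeries E}
    (hx : x ∈ gaussFrac O) :
    x ∈ gaussRing O res ∨
      ∃ y : gaussRing O res, gaussRed O res y = 0 ∧ x * (y : LaurentSeries E) = 1 := by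
  obtain ⟨a, b, hb, hab⟩ := hx
  by_cases ha : a = 0
  · left
    subst ha
    rw [map_zero] at hab
    have hb' : inclL O b ≠ 0 := inclL_ne_zero O hb
    rcases mul_eq_zero.mp hab with h | h
    · rw [h]; exact zero_mem _
    · exact absurd h hb'
  obtain ⟨i, a', rfl, ha'⟩ := exists_primitive h a ha
  obtain ⟨j, b', rfl, hb'⟩ := exists_primitive h b hb
  have hπ := piL_ne_zero h
  have ha'0 : inclL O a' ≠ 0 := by
    intro h0
    apply ha'
    rw [inclL_injective O (h0.trans (map_zero _).symm), map_zero]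
  have hb'0 : inclL O b' ≠ 0 := by
    intro h0
    apply hb'
    rw [inclL_injective O (h0.trans (map_zero _).symm), map_zero]
  rw [map_mul, map_mul, map_pow, map_pow, inclL_C_pi] at hab
  rcases le_or_gt j i with hji | hji
  · left
    refine ⟨HahnSeries.C π ^ (i - j) * a', b', hb', ?_⟩
    rw [map_mul, map_pow, inclL_C_pi]
    have hpow : piL O π ^ i = piL O π ^ j * piL O π ^ (i - j) := by
      rw [← pow_add]; congr 1; omega
    rw [hpow] at hab
    have hk : piL O π ^ j ≠ 0 := pow_ne_zero _ hπ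
    apply mul_left_cancel₀ hk
    linear_combination hab
  · right
    have hy : piL O π ^ (j - i) * inclL O b' * (inclL O a')⁻¹ ∈ gaussRing O res := by
      refine ⟨HahnSeries.C π ^ (j - i) * b', a', ha', ?_⟩
      rw [map_mul, map_pow, inclL_C_pi]
      field_simp
    refine ⟨⟨_, hy⟩, ?_, ?_⟩
    · rw [gaussRed_eq _ (HahnSeries.C π ^ (j - i) * b') a' ha'
        (by rw [map_mul, map_pow, inclL_C_pi]; field_simp)]
      rw [map_mul, map_pow, redL_C_pi h, zero_pow (by omega), zero_mul, zero_div]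
    · show x * (piL O π ^ (j - i) * inclL O b' * (inclL O a')⁻¹) = 1
      have hpow : piL O π ^ j = piL O π ^ i * piL O π ^ (j - i) := by
        rw [← pow_add]; congr 1; omega
      rw [hpow] at hab
      have hi : piL O π ^ i ≠ 0 := pow_ne_zero _ hπ
      have h2 : x * (piL O π ^ (j - i) * inclL O b') = inclL O a' := by
        apply mul_left_cancel₀ hi
        linear_combination hab
      rw [← mul_assoc, ← mul_assoc, mul_assoc x, h2, mul_inv_cancel₀ ha'0]

/-- Elements with nonzero reduction are units of the Gauss ring. -/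
theorem inv_mem_gaussRing_of_gaussRed_ne_zero (x : gaussRing O res)
    (hx : gaussRed O res x ≠ 0) : (x : LaurentSeries E)⁻¹ ∈ gaussRing O res := by
  have hnum : redL res (gaussNum x) ≠ 0 := by
    intro h0
    apply hx
    show redL res (gaussNum x) / redL res (gaussDen x) = 0
    rw [h0, zero_div]
  have hden : inclL O (gaussDen x) ≠ 0 := by
    intro h0
    apply redL_gaussDen_ne_zero x
    rw [inclL_injective O (h0.trans (map_zero _).symm), map_zero]
  have hnum' : inclL O (gaussNum x) ≠ 0 := by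
    intro h0
    apply hnum
    rw [inclL_injective O (h0.trans (map_zero _).symm), map_zero]
  have hx0 : (x : LaurentSeries E) ≠ 0 := by
    intro h0
    have := gauss_spec x
    rw [h0, zero_mul] at this
    exact hnum' this.symm
  refine ⟨gaussDen x, gaussNum x, hnum, ?_⟩
  rw [← gauss_spec x, ← mul_assoc, inv_mul_cancel₀ hx0, one_mul]

/-- `π · V` is a prime ideal of `V` (product form). -/
theorem mem_pi_mul_of_mul_mem (h : UnifData O res π) {x y : LaurentSeries E}
    (hx : x ∈ gaussRing O res) (hy : y ∈ gaussRing O res)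
    (hxy : ∃ w ∈ gaussRing O res, x * y = piL O π * w) :
    (∃ w ∈ gaussRing O res, x = piL O π * w) ∨ (∃ w ∈ gaussRing O res, y = piL O π * w) := by
  obtain ⟨w, hw, hxyw⟩ := hxy
  have h0 : gaussRed O res (⟨x, hx⟩ * ⟨y, hy⟩) = 0 :=
    (gaussRed_eq_zero_iff h _).mpr ⟨⟨w, hw⟩, hxyw⟩
  rw [map_mul] at h0
  rcases mul_eq_zero.mp h0 with h1 | h1
  · left
    obtain ⟨w', hw'⟩ := (gaussRed_eq_zero_iff h _).mp h1
    exact ⟨w', w'.2, hw'⟩
  · right
    obtain ⟨w', hw'⟩ := (gaussRed_eq_zero_iff h _).mp h1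
    exact ⟨w', w'.2, hw'⟩

theorem one_notMem_pi_mul (h : UnifData O res π) :
    ¬ ∃ w ∈ gaussRing O res, (1 : LaurentSeries E) = piL O π * w := by
  rintro ⟨w, hw, h1⟩
  have h0 : gaussRed O res (1 : gaussRing O res) = 0 :=
    (gaussRed_eq_zero_iff h _).mpr ⟨⟨w, hw⟩, h1⟩
  rw [map_one] at h0
  exact one_ne_zero h0

/-- The Gauss ring is integrally closed in the fraction field `gaussFrac`. -/
theorem mem_gaussRing_of_isIntegral (h : UnifData O res π) {x : LaurentSeries E}
    (hxF : x ∈ gaussFrac O) (hx : IsIntegral (gaussRing O res) x) : x ∈ gaussRing O res := by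
  rcases mem_gaussRing_or_inv h hxF with h1 | ⟨y, hy0, hxy⟩
  · exact h1
  exfalso
  have hx0 : x ≠ 0 := by
    rintro rfl
    simp at hxy
  have hyx : (y : LaurentSeries E) = x⁻¹ := by
    apply mul_left_cancel₀ hx0
    rw [hxy, mul_inv_cancel₀ hx0]
  obtain ⟨p, hmonic, hroot⟩ := hx
  let _ : Invertible x := invertibleOfNonzero hx0
  have h1 := Polynomial.eval₂_reverse_mul_pow (algebraMap (gaussRing O res) (LaurentSeries E)) x p
  rw [hroot] at h1
  have h2 : Polynomial.eval₂ (algebraMap (gaussRing O res) (LaurentSeries E)) (⅟x)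
      p.reverse = 0 := by
    rcases mul_eq_zero.mp h1 with h | h
    · exact h
    · exact absurd h (pow_ne_zero _ hx0)
  have h3 : (⅟x : LaurentSeries E) = algebraMap (gaussRing O res) (LaurentSeries E) y := by
    rw [invOf_eq_inv, ← hyx]; rfl
  rw [h3, Polynomial.eval₂_at_apply] at h2
  have h4 : Polynomial.eval y p.reverse = 0 := by
    have hinj : Function.Injective (algebraMap (gaussRing O res) (LaurentSeries E)) :=
      Subtype.val_injective
    exact hinj (by rw [h2, map_zero])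
  have h5 := congrArg (gaussRed O res) h4
  rw [map_zero, ← Polynomial.eval₂_id, Polynomial.hom_eval₂, hy0, Polynomial.eval₂_at_zero,
    RingHom.comp_apply, RingHom.id_apply, Polynomial.coeff_zero_reverse, hmonic.leadingCoeff,
    map_one] at h5
  exact one_ne_zero h5

/-- Integral closedness, for integrality over any ring mapping into the Gauss ring. -/
theorem mem_gaussRing_of_isIntegral' (h : UnifData O res π) {A : Type*} [CommRing A]
    [Algebra A (LaurentSeries E)]
    (hA : ∀ a : A, algebraMap A (LaurentSeries E) a ∈ gaussRing O res)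
    {x : LaurentSeries E} (hxF : x ∈ gaussFrac O) (hx : IsIntegral A x) :
    x ∈ gaussRing O res := by
  apply mem_gaussRing_of_isIntegral h hxF
  let f : A →+* gaussRing O res :=
    (algebraMap A (LaurentSeries E)).codRestrict (gaussRing O res) hA
  exact hx.map_of_comp_eq f (RingHom.id (LaurentSeries E)) (by ext; rfl)

/-! ### Transport along coefficientwise-compatible ring homomorphisms -/

/-- A ring endomorphism `f` of `E((t))` which restricts to `fO` on `O((t))`, where `fO`
preserves nonvanishing of the reduction, preserves the Gauss ring. -/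
theorem map_mem_gaussRing (f : LaurentSeries E →+* LaurentSeries E)
    (fO : LaurentSeries O → LaurentSeries O)
    (hf : ∀ a, f (inclL O a) = inclL O (fO a))
    (hred : ∀ b, redL res b ≠ 0 → redL res (fO b) ≠ 0)
    {x : LaurentSeries E} (hx : x ∈ gaussRing O res) : f x ∈ gaussRing O res := by
  obtain ⟨a, b, hb, hab⟩ := hx
  refine ⟨fO a, fO b, hred b hb, ?_⟩
  rw [← hf, ← hf, ← map_mul, hab]

/-- Same for the fraction field. -/
theorem map_mem_gaussFrac (f : LaurentSeries E →+* LaurentSeries E)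
    (fO : LaurentSeries O → LaurentSeries O)
    (hf : ∀ a, f (inclL O a) = inclL O (fO a))
    {x : LaurentSeries E} (hx : x ∈ gaussFrac O) : f x ∈ gaussFrac O := by
  obtain ⟨a, b, hb, hab⟩ := hx
  have hfb : fO b ≠ 0 := by
    intro h0
    have h1 : f (inclL O b) = 0 := by rw [hf, h0, map_zero]
    exact inclL_ne_zero O hb ((map_eq_zero f).mp h1)
  refine ⟨fO a, fO b, hfb, ?_⟩
  rw [← hf, ← hf, ← map_mul, hab]

/-! ### Twists `t ↦ c t` by units of `O` -/

/-- Coefficientwise twist on `O((t))`: `a_n ↦ c ^ n * a_n` for a unit `c` of `O`. -/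
def twistO (c : Oˣ) (a : LaurentSeries O) : LaurentSeries O where
  coeff n := ((c ^ n : Oˣ) : O) * a.coeff n
  isPWO_support' := a.isPWO_support.mono (by
    intro n hn
    simp only [Function.mem_support, ne_eq] at hn
    simp only [HahnSeries.mem_support, ne_eq]
    intro h0
    exact hn (by rw [h0, mul_zero]))

@[simp] theorem twistO_coeff (c : Oˣ) (a : LaurentSeries O) (n : ℤ) :
    (twistO c a).coeff n = ((c ^ n : Oˣ) : O) * a.coeff n := rfl

theorem redL_twistO_ne_zero (c : Oˣ) {b : LaurentSeries O} (hb : redL res b ≠ 0) :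
    redL res (twistO c b) ≠ 0 := by
  intro h0
  apply hb
  ext n
  have h1 := congrArg (fun x => x.coeff n) h0
  simp only [redL_coeff, twistO_coeff, map_mul, HahnSeries.coeff_zero] at h1 ⊢
  have hu : IsUnit (res ((c ^ n : Oˣ) : O)) := (Units.isUnit _).map res
  exact (hu.mul_right_eq_zero).mp h1

/-- Any ring endomorphism of `E((t))` acting on coefficients by `φ_n ↦ c ^ n φ_n`, for a unit `c`
of `O`, preserves the Gauss ring. -/
theorem twist_mem_gaussRing (c : Oˣ) (f : LaurentSeries E →+* LaurentSeries E)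
    (hf : ∀ (φ : LaurentSeries E) (n : ℤ), (f φ).coeff n = (((c ^ n : Oˣ) : O) : E) * φ.coeff n)
    {x : LaurentSeries E} (hx : x ∈ gaussRing O res) : f x ∈ gaussRing O res := by
  refine map_mem_gaussRing f (twistO c) ?_ (fun b hb => redL_twistO_ne_zero c hb) hx
  intro a
  ext n
  rw [hf]
  simp

theorem twist_mem_gaussFrac (c : Oˣ) (f : LaurentSeries E →+* LaurentSeries E)
    (hf : ∀ (φ : LaurentSeries E) (n : ℤ), (f φ).coeff n = (((c ^ n : Oˣ) : O) : E) * φ.coeff n)
    {x : LaurentSeries E} (hx : x ∈ gaussFrac O) : f x ∈ gaussFrac O := by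
  refine map_mem_gaussFrac f (twistO c) ?_ hx
  intro a
  ext n
  rw [hf]
  simp

/-! ### The Gauss property for polynomials in a series with a pole -/

/-- Evaluation of a polynomial with `O`-coefficients at a Laurent series over `O`. -/
def evO (J : LaurentSeries O) : Polynomial O →+* LaurentSeries O :=
  Polynomial.eval₂RingHom (HahnSeries.C : O →+* LaurentSeries O) J

theorem evO_apply (J : LaurentSeries O) (P : Polynomial O) :
    evO J P = P.eval₂ (HahnSeries.C : O →+* LaurentSeries O) J := rfl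

theorem redL_C (c : O) : redL res (HahnSeries.C c) = HahnSeries.C (res c) := by
  ext n
  by_cases hn : n = 0
  · subst hn; simp [HahnSeries.C_apply]
  · simp [HahnSeries.C_apply, HahnSeries.coeff_single_of_ne hn]

theorem redL_evO (J : LaurentSeries O) (P : Polynomial O) :
    redL res (evO J P) = Polynomial.aeval (redL res J) (P.map res) := by
  rw [evO_apply, Polynomial.hom_eval₂, Polynomial.aeval_def, Polynomial.eval₂_map]
  congr 1
  ext c : 1
  rw [RingHom.comp_apply, RingHom.comp_apply, redL_C, algebraMap_laurentSeries_eq_single]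
  rfl

/-- **Gauss property.** If the reduction of `J` has nonzero order, a polynomial in `J` with
`O`-coefficients whose reduction vanishes is divisible by `π` as a polynomial. -/
theorem exists_eq_C_mul_of_redL_evO_eq_zero (h : UnifData O res π) (J : LaurentSeries O)
    (hJ0 : redL res J ≠ 0) (hJo : (redL res J).order ≠ 0) (P : Polynomial O)
    (hP : redL res (evO J P) = 0) : ∃ P' : Polynomial O, P = Polynomial.C π * P' := by
  rw [redL_evO] at hP
  have h0 : P.map res = 0 := by
    by_contra hne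
    exact aeval_ne_zero_of_order_ne_zero hJ0 hJo hne hP
  have hmem : P ∈ Ideal.map (Polynomial.C : O →+* Polynomial O) (Ideal.span {π}) := by
    rw [Ideal.mem_map_C_iff]
    intro n
    have hn : res (P.coeff n) = 0 := by
      have := congrArg (fun Q => Q.coeff n) h0
      simpa using this
    obtain ⟨y, hy⟩ := (h.ker _).mp hn
    exact Ideal.mem_span_singleton'.mpr ⟨y, by rw [hy, mul_comm]⟩
  rw [Ideal.map_span, Set.image_singleton, Ideal.mem_span_singleton'] at hmem
  obtain ⟨P', hP'⟩ := hmem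
  exact ⟨P', by rw [← hP', mul_comm]⟩

/-- **Gauss property**, in the form used by the abstract core: if `π · w = P(J)` with `w` in
the Gauss ring, then `w = P'(J)` for some polynomial `P'` over `O`. -/
theorem exists_evO_eq_of_pi_mul_eq (h : UnifData O res π) (J : LaurentSeries O)
    (hJ0 : redL res J ≠ 0) (hJo : (redL res J).order ≠ 0) (P : Polynomial O)
    {w : LaurentSeries E} (hw : w ∈ gaussRing O res)
    (heq : piL O π * w = inclL O (evO J P)) : ∃ P' : Polynomial O, w = inclL O (evO J P') := by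
  have hred : redL res (evO J P) = 0 := by
    rw [← gaussRed_inclL (res := res)]
    exact (gaussRed_eq_zero_iff h _).mpr ⟨⟨w, hw⟩, heq.symm⟩
  obtain ⟨P', rfl⟩ := exists_eq_C_mul_of_redL_evO_eq_zero h J hJ0 hJo P hred
  refine ⟨P', ?_⟩
  apply mul_left_cancel₀ (piL_ne_zero h)
  rw [heq, map_mul, map_mul, ← inclL_C_pi]
  congr 2
  rw [evO_apply, Polynomial.eval₂_C]

end Ring

section Transport

variable {E₁ : Type*} [Field E₁] {O₁ : Subring E₁} {k₁ : Type*} [Field k₁] {res₁ : O₁ →+* k₁}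
  {E₂ : Type*} [Field E₂] {O₂ : Subring E₂} {k₂ : Type*} [Field k₂] {res₂ : O₂ →+* k₂}

/-- Transport between two Gauss rings along a ring homomorphism `F : E₁((t)) → E₂((t))` which
restricts to `FO : O₁((t)) → O₂((t))` preserving nonvanishing of the reduction. -/
theorem map_mem_gaussRing₂ (F : LaurentSeries E₁ →+* LaurentSeries E₂)
    (FO : LaurentSeries O₁ → LaurentSeries O₂)
    (hF : ∀ a, F (inclL O₁ a) = inclL O₂ (FO a))
    (hred : ∀ b, redL res₁ b ≠ 0 → redL res₂ (FO b) ≠ 0)
    {x : LaurentSeries E₁} (hx : x ∈ gaussRing O₁ res₁) : F x ∈ gaussRing O₂ res₂ := by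
  obtain ⟨a, b, hb, hab⟩ := hx
  refine ⟨FO a, FO b, hred b hb, ?_⟩
  rw [← hF, ← hF, ← map_mul, hab]

/-- Transport of the fraction fields. -/
theorem map_mem_gaussFrac₂ (F : LaurentSeries E₁ →+* LaurentSeries E₂)
    (FO : LaurentSeries O₁ → LaurentSeries O₂)
    (hF : ∀ a, F (inclL O₁ a) = inclL O₂ (FO a))
    {x : LaurentSeries E₁} (hx : x ∈ gaussFrac O₁) : F x ∈ gaussFrac O₂ := by
  obtain ⟨a, b, hb, hab⟩ := hx
  have hfb : FO b ≠ 0 := by
    intro h0
    have h1 : F (inclL O₁ b) = 0 := by rw [hF, h0, map_zero]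
    exact inclL_ne_zero O₁ hb ((map_eq_zero F).mp h1)
  refine ⟨FO a, FO b, hfb, ?_⟩
  rw [← hF, ← hF, ← map_mul, hab]

/-- Compatibility of the reductions under transport. -/
theorem gaussRed_map₂ (F : LaurentSeries E₁ →+* LaurentSeries E₂)
    (FO : LaurentSeries O₁ → LaurentSeries O₂) (Fk : LaurentSeries k₁ →+* LaurentSeries k₂)
    (hF : ∀ a, F (inclL O₁ a) = inclL O₂ (FO a))
    (hk : ∀ a, redL res₂ (FO a) = Fk (redL res₁ a))
    (x : gaussRing O₁ res₁) (hFx : F x ∈ gaussRing O₂ res₂) :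
    gaussRed O₂ res₂ ⟨F x, hFx⟩ = Fk (gaussRed O₁ res₁ x) := by
  have hb : redL res₂ (FO (gaussDen x)) ≠ 0 := by
    rw [hk]
    exact (map_ne_zero Fk).mpr (redL_gaussDen_ne_zero x)
  rw [gaussRed_eq ⟨F x, hFx⟩ (FO (gaussNum x)) (FO (gaussDen x)) hb
    (by rw [← hF, ← hF, ← map_mul, gauss_spec]), hk, hk]
  show _ = Fk (redL res₁ (gaussNum x) / redL res₁ (gaussDen x))
  rw [map_div₀]

end Transport

end Fermat.Agent.S28.H86

end
end
-- ===== PACK-END S28/H86/GaussGen.lean

-- ===== PACK-BEGIN S36/H756/Desc.lean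
section





/-!
# S36 engine, leaf DESC (owner helper756) — concrete part

`Q̄ = AlgebraicClosure ℚ`, `F₀ ⊆ ℚ((q))`, `K = laurentBaseChange Q̄ F₀ ⊆ Q̄((q))`,
`act τ = arithmeticRingAut F₀ τ` (coefficientwise Galois action).

* `lcK F₀ : K →*₀ K` : the leading coefficient, as a constant of `K`.
* `orbit_finite` : every element of `K` has a finite orbit under `Gal(Q̄/ℚ)`.
* `eq_one_of_pow_eq_one` : an `m`-th root of unity of `K` with leading coefficient `1` is `1`.
* `fixed_of_pow_fixed` (**T3**) : if `h ^ m` is fixed by `τ` and the leading coefficient of `h`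
  is fixed by `τ`, then `h` is fixed by `τ`.
* `exists_fixed_rep` (**T1**) : if `f ≠ 0` and `τ f ∈ Q̄ˣ · Kˣᵐ · f` for all `τ` in a subgroup
  `G`, then `a · b ^ m · f` is `G`-fixed for suitable `a ∈ Q̄ˣ`, `b ∈ Kˣ`.
-/

set_option autoImplicit false

noncomputable section

namespace Fermat.Agent.S36.H756

open ModularCurve HahnSeries IntermediateField

local notation "Q̄" => AlgebraicClosure ℚ

/-! ## 1. Leading coefficients and `coeffMap` -/

section LeadingCoeff

variable {R S : Type*} [CommRing R] [CommRing S]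

theorem orderTop_coeffMap (φ : R →+* S) (hφ : Function.Injective φ) (x : LaurentSeries R) :
    (coeffMap φ x).orderTop = x.orderTop := by
  refine eq_of_forall_le_iff fun i => ?_
  rw [HahnSeries.le_orderTop_iff_forall, HahnSeries.le_orderTop_iff_forall]
  refine forall_congr' fun j => imp_congr_right fun _ => ?_
  rw [coeffMap_coeff, map_eq_zero_iff φ hφ]

theorem leadingCoeff_coeffMap (φ : R →+* S) (hφ : Function.Injective φ) (x : LaurentSeries R) :
    (coeffMap φ x).leadingCoeff = φ x.leadingCoeff := by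
  unfold HahnSeries.leadingCoeff
  rw [orderTop_coeffMap φ hφ]
  cases x.orderTop with
  | top => simp
  | coe n => simp

end LeadingCoeff

/-! ## 2. The leading coefficient on `K = laurentBaseChange Q̄ F₀` -/

section LcK

variable (F₀ : IntermediateField ℚ (LaurentSeries ℚ))

/-- The leading coefficient of an element of `K`, as a constant of `K`. -/
def lcK : laurentBaseChange Q̄ F₀ →*₀ laurentBaseChange Q̄ F₀ where
  toFun x := algebraMap Q̄ (laurentBaseChange Q̄ F₀) (x : LaurentSeries Q̄).leadingCoeff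
  map_zero' := by simp
  map_one' := by
    show algebraMap Q̄ (laurentBaseChange Q̄ F₀) (1 : LaurentSeries Q̄).leadingCoeff = 1
    rw [HahnSeries.leadingCoeff_one, map_one]
  map_mul' x y := by
    show algebraMap Q̄ (laurentBaseChange Q̄ F₀)
        ((x : LaurentSeries Q̄) * (y : LaurentSeries Q̄)).leadingCoeff = _
    rw [HahnSeries.leadingCoeff_mul, map_mul]

variable {F₀}

theorem lcK_apply (x : laurentBaseChange Q̄ F₀) :
    lcK F₀ x = algebraMap Q̄ (laurentBaseChange Q̄ F₀) (x : LaurentSeries Q̄).leadingCoeff :=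
  rfl

theorem coe_algebraMap_K (c : Q̄) :
    ((algebraMap Q̄ (laurentBaseChange Q̄ F₀) c : laurentBaseChange Q̄ F₀) : LaurentSeries Q̄)
      = HahnSeries.single 0 c := by
  rw [← algebraMap_laurentSeries_eq_single]
  rfl

theorem lcK_algebraMap (c : Q̄) :
    lcK F₀ (algebraMap Q̄ (laurentBaseChange Q̄ F₀) c)
      = algebraMap Q̄ (laurentBaseChange Q̄ F₀) c := by
  rw [lcK_apply, coe_algebraMap_K, HahnSeries.leadingCoeff_of_single]

theorem lcK_lcK (x : laurentBaseChange Q̄ F₀) : lcK F₀ (lcK F₀ x) = lcK F₀ x :=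
  lcK_algebraMap _

theorem lcK_ne_zero {x : laurentBaseChange Q̄ F₀} (hx : x ≠ 0) : lcK F₀ x ≠ 0 := by
  rw [lcK_apply]
  have h1 : (x : LaurentSeries Q̄) ≠ 0 := fun h => hx (Subtype.ext h)
  have h2 : (x : LaurentSeries Q̄).leadingCoeff ≠ 0 := HahnSeries.leadingCoeff_ne_zero.2 h1
  simpa using h2

theorem lcK_act (τ : Q̄ ≃ₐ[ℚ] Q̄) (x : laurentBaseChange Q̄ F₀) :
    lcK F₀ (arithmeticRingAut F₀ τ x) = arithmeticRingAut F₀ τ (lcK F₀ x) := by
  rw [lcK_apply, lcK_apply, arithmeticRingAut_algebraMap, coe_arithmeticRingAut_apply,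
    leadingCoeff_coeffMap _ τ.injective]
  rfl

theorem act_mul (σ τ : Q̄ ≃ₐ[ℚ] Q̄) (x : laurentBaseChange Q̄ F₀) :
    arithmeticRingAut F₀ (σ * τ) x = arithmeticRingAut F₀ σ (arithmeticRingAut F₀ τ x) := by
  apply Subtype.ext
  show coeffMap ((σ * τ : Q̄ ≃ₐ[ℚ] Q̄) : Q̄ →+* Q̄) (x : LaurentSeries Q̄)
      = coeffMap (σ : Q̄ →+* Q̄) (coeffMap (τ : Q̄ →+* Q̄) (x : LaurentSeries Q̄))
  rw [coeffMap_coeffMap]
  exact coeffMap_congr (RingHom.ext fun _ => rfl) _

/-- A constant of `K` whose image... : an element of `K` algebraic over `Q̄` is a constant. -/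
theorem mem_range_of_isIntegral {x : laurentBaseChange Q̄ F₀} (hx : IsIntegral Q̄ x) :
    ∃ c : Q̄, algebraMap Q̄ (laurentBaseChange Q̄ F₀) c = x := by
  have h1 : Irreducible (minpoly Q̄ x) := minpoly.irreducible hx
  have h2 := IsAlgClosed.degree_eq_one_of_irreducible Q̄ h1
  obtain ⟨c, hc⟩ := minpoly.mem_range_of_degree_eq_one Q̄ x h2
  exact ⟨c, hc⟩

/-- An `m`-th root of unity of `K` with leading coefficient `1` is `1`. -/
theorem eq_one_of_pow_eq_one {m : ℕ} (hm : 0 < m) (x : laurentBaseChange Q̄ F₀)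
    (hx : x ^ m = 1) (hl : lcK F₀ x = 1) : x = 1 := by
  have hint : IsIntegral Q̄ x := by
    refine ⟨Polynomial.X ^ m - 1, Polynomial.monic_X_pow_sub_C (1 : Q̄) hm.ne', ?_⟩
    simp [hx]
  obtain ⟨c, rfl⟩ := mem_range_of_isIntegral hint
  rw [lcK_algebraMap] at hl
  exact hl

end LcK

/-! ## 3. Finiteness of orbits -/

section Orbit

variable {F₀ : IntermediateField ℚ (LaurentSeries ℚ)}

theorem orbit_finite_series {x : LaurentSeries Q̄} (hx : x ∈ laurentBaseChange Q̄ F₀) :
    (Set.range fun τ : Q̄ ≃ₐ[ℚ] Q̄ => coeffMap (τ : Q̄ →+* Q̄) x).Finite := by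
  obtain ⟨E, hE, y, -, rfl⟩ := Fermat.Agent.S18.H602.exists_finite_descent hx
  have hfin : Finite (E →ₐ[ℚ] Q̄) := inferInstance
  refine (Set.finite_range fun ψ : E →ₐ[ℚ] Q̄ => coeffMap (ψ : E →+* Q̄) y).subset ?_
  rintro _ ⟨τ, rfl⟩
  refine ⟨(τ : Q̄ →ₐ[ℚ] Q̄).comp E.val, ?_⟩
  show coeffMap _ y = coeffMap (τ : Q̄ →+* Q̄) (coeffMap (algebraMap E Q̄) y)
  rw [coeffMap_coeffMap]
  exact coeffMap_congr (RingHom.ext fun _ => rfl) _

theorem orbit_finite (x : laurentBaseChange Q̄ F₀) :
    (Set.range fun τ : Q̄ ≃ₐ[ℚ] Q̄ => arithmeticRingAut F₀ τ x).Finite := by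
  have h := orbit_finite_series x.2
  refine Set.Finite.subset (h.preimage (Subtype.val_injective.injOn)) ?_
  rintro _ ⟨τ, rfl⟩
  exact ⟨τ, rfl⟩

theorem orbit_finite_subgroup (G : Subgroup (Q̄ ≃ₐ[ℚ] Q̄)) (x : laurentBaseChange Q̄ F₀) :
    (Set.range fun τ : G => arithmeticRingAut F₀ (τ : Q̄ ≃ₐ[ℚ] Q̄) x).Finite := by
  refine (orbit_finite x).subset ?_
  rintro _ ⟨τ, rfl⟩
  exact ⟨τ, rfl⟩

end Orbit

/-! ## 4. The descent theorems -/

section Descent

variable {F₀ : IntermediateField ℚ (LaurentSeries ℚ)}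

/-- **T3 (rigidity).** If `h ^ m` (`m > 0`) and the leading coefficient of `h` are fixed by `τ`,
then so is `h`. -/
theorem fixed_of_pow_fixed {m : ℕ} (hm : 0 < m) (τ : Q̄ ≃ₐ[ℚ] Q̄)
    (h : laurentBaseChange Q̄ F₀)
    (hl : arithmeticRingAut F₀ τ (lcK F₀ h) = lcK F₀ h)
    (hp : arithmeticRingAut F₀ τ (h ^ m) = h ^ m) :
    arithmeticRingAut F₀ τ h = h := by
  rcases eq_or_ne h 0 with rfl | h0
  · simp
  have e1 : (arithmeticRingAut F₀ τ h / h) ^ m = 1 := by
    rw [div_pow, ← map_pow, hp, div_self (pow_ne_zero m h0)]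
  have e2 : lcK F₀ (arithmeticRingAut F₀ τ h / h) = 1 := by
    rw [map_div₀, lcK_act, hl, div_self (lcK_ne_zero h0)]
  have e3 := eq_one_of_pow_eq_one hm _ e1 e2
  rwa [div_eq_one_iff_eq h0] at e3

/-- **T1, normalised form.** If `f ≠ 0` and `τ f = h_τ ^ m · f` with `h_τ` of leading
coefficient `1` for all `τ ∈ G`, then `b ^ m · f` is `G`-fixed for some `b ≠ 0`. -/
theorem exists_fixed_rep_normalised (G : Subgroup (Q̄ ≃ₐ[ℚ] Q̄)) (m : ℕ)
    (f : laurentBaseChange Q̄ F₀) (hf : f ≠ 0)
    (hcoc : ∀ τ ∈ G, ∃ h : laurentBaseChange Q̄ F₀,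
      lcK F₀ h = 1 ∧ arithmeticRingAut F₀ τ f = h ^ m * f) :
    ∃ b : laurentBaseChange Q̄ F₀, b ≠ 0 ∧
      ∀ τ ∈ G, arithmeticRingAut F₀ τ (b ^ m * f) = b ^ m * f := by
  obtain ⟨b, hb, hfix⟩ := poincareDescent (G := G)
    (fun τ => arithmeticRingAut F₀ (τ : Q̄ ≃ₐ[ℚ] Q̄))
    (fun σ τ x => act_mul (σ : Q̄ ≃ₐ[ℚ] Q̄) τ x)
    (lcK F₀) (fun σ x => lcK_act (σ : Q̄ ≃ₐ[ℚ] Q̄) x) m
    (fun hm x => eq_one_of_pow_eq_one hm x) f hf (orbit_finite_subgroup G f)
    (fun τ => hcoc τ τ.2)
  exact ⟨b, hb, fun τ hτ => hfix ⟨τ, hτ⟩⟩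

/-- **T1, `lcK` form.** Let `f ≠ 0` in `K` and `G ≤ Gal(Q̄/ℚ)` be such that for every `τ ∈ G`
the function `τ f / f` is a constant times an `m`-th power.  Then `(lcK f)⁻¹ · b ^ m · f` is
fixed by `G` for a suitable `b ≠ 0`. -/
theorem exists_fixed_rep_lcK (G : Subgroup (Q̄ ≃ₐ[ℚ] Q̄)) (m : ℕ)
    (f : laurentBaseChange Q̄ F₀) (hf : f ≠ 0)
    (hcoc : ∀ τ ∈ G, ∃ c : Q̄, c ≠ 0 ∧ ∃ h : laurentBaseChange Q̄ F₀, h ≠ 0 ∧
      arithmeticRingAut F₀ τ f = algebraMap Q̄ (laurentBaseChange Q̄ F₀) c * h ^ m * f) :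
    ∃ b : laurentBaseChange Q̄ F₀, b ≠ 0 ∧
      ∀ τ ∈ G, arithmeticRingAut F₀ τ ((lcK F₀ f)⁻¹ * b ^ m * f)
        = (lcK F₀ f)⁻¹ * b ^ m * f := by
  obtain ⟨b, hb, hfix⟩ := poincareDescent' (G := G)
    (fun τ => arithmeticRingAut F₀ (τ : Q̄ ≃ₐ[ℚ] Q̄))
    (fun σ τ x => act_mul (σ : Q̄ ≃ₐ[ℚ] Q̄) τ x)
    (lcK F₀) (fun σ x => lcK_act (σ : Q̄ ≃ₐ[ℚ] Q̄) x) lcK_lcK (fun x hx => lcK_ne_zero hx) m
    (fun hm x => eq_one_of_pow_eq_one hm x) (fun x => orbit_finite_subgroup G x) f hf
    (fun τ => by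
      obtain ⟨c, -, h, hh, e⟩ := hcoc τ τ.2
      exact ⟨algebraMap Q̄ (laurentBaseChange Q̄ F₀) c, h, lcK_algebraMap c, hh, e⟩)
  exact ⟨b, hb, fun τ hτ => hfix ⟨τ, hτ⟩⟩

/-- **T1.** Let `f ≠ 0` in `K` and `G ≤ Gal(Q̄/ℚ)` be such that for every `τ ∈ G` the function
`τ f / f` is a constant times an `m`-th power.  Then there are a constant `a ≠ 0` and `b ≠ 0`
in `K` such that `a · b ^ m · f` is fixed by `G`. -/
theorem exists_fixed_rep (G : Subgroup (Q̄ ≃ₐ[ℚ] Q̄)) (m : ℕ)
    (f : laurentBaseChange Q̄ F₀) (hf : f ≠ 0)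
    (hcoc : ∀ τ ∈ G, ∃ c : Q̄, c ≠ 0 ∧ ∃ h : laurentBaseChange Q̄ F₀, h ≠ 0 ∧
      arithmeticRingAut F₀ τ f = algebraMap Q̄ (laurentBaseChange Q̄ F₀) c * h ^ m * f) :
    ∃ a : Q̄, a ≠ 0 ∧ ∃ b : laurentBaseChange Q̄ F₀, b ≠ 0 ∧
      ∀ τ ∈ G, arithmeticRingAut F₀ τ (algebraMap Q̄ (laurentBaseChange Q̄ F₀) a * b ^ m * f)
        = algebraMap Q̄ (laurentBaseChange Q̄ F₀) a * b ^ m * f := by
  obtain ⟨b, hb, hfix⟩ := exists_fixed_rep_lcK G m f hf hcoc
  have hlf : (f : LaurentSeries Q̄).leadingCoeff ≠ 0 :=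
    HahnSeries.leadingCoeff_ne_zero.2 fun h => hf (Subtype.ext h)
  refine ⟨((f : LaurentSeries Q̄).leadingCoeff)⁻¹, inv_ne_zero hlf, b, hb, ?_⟩
  have e : algebraMap Q̄ (laurentBaseChange Q̄ F₀) ((f : LaurentSeries Q̄).leadingCoeff)⁻¹
      = (lcK F₀ f)⁻¹ := by
    rw [lcK_apply, map_inv₀]
  rw [e]
  exact hfix

/-- A fixed element has fixed coefficients. -/
theorem coeff_fixed_of_fixed (τ : Q̄ ≃ₐ[ℚ] Q̄) (f : laurentBaseChange Q̄ F₀)
    (h : arithmeticRingAut F₀ τ f = f) (n : ℤ) :
    τ ((f : LaurentSeries Q̄).coeff n) = (f : LaurentSeries Q̄).coeff n := by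
  have := congrArg (fun x : laurentBaseChange Q̄ F₀ => (x : LaurentSeries Q̄).coeff n) h
  simpa using this

end Descent

end Fermat.Agent.S36.H756

end
end
-- ===== PACK-END S36/H756/Desc.lean

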