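import Fermat.Prelude.Def_ModularCurve_GenusNumerics
import Mathlib
import Mathlib.RingTheory.Ideal.AssociatedPrime.Localization
import Mathlib.Data.Int.GCD
import Mathlib.RingTheory.DiscreteValuationRing.Basic
import Mathlib.RingTheory.Valuation.ValuationSubring
import Mathlib.RingTheory.Algebraic.Integral
import Mathlib.RingTheory.Localization.FractionRing
import Mathlib.RingTheory.Polynomial.UniqueFactorization
import Mathlib.Tactic.FieldSimp
import Fermat.Prelude.Def_ModularCurve_ArithmeticGalois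
import Fermat.Prelude.Def_FLTPrelim_Ramification
import Fermat.Prelude.Def_EllipticCurve_FrobeniusTrace
import Mathlib.RingTheory.HopkinsLevitzki
import Mathlib.RingTheory.Ideal.Quotient.Noetherian
import Mathlib.RingTheory.LocalRing.MaximalIdeal.Basic
import Fermat.Agent.Pack.S44C.G0E3L2
import Fermat.Agent.Pack.S44C.G0E3L1
import Fermat.Agent.Pack.S44C.G0E3L3
import Fermat.Agent.Pack.S44C.G0E0L1
import Fermat.Agent.Pack.S44C.G0E4L1
import Fermat.Agent.Pack.S44C.G0E4L2
import Fermat.Agent.Pack.S44C.G0E4L3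
import Fermat.Agent.Pack.S44C.G0E4L0
import Fermat.Agent.Pack.S44C.G0E0L3
import Fermat.Agent.Pack.S44C.G0E5L3
import Fermat.Agent.Pack.S44C.G0E11L1
import Fermat.Agent.Pack.Fast891

-- ===== PACK-BEGIN S20/P5_helper398.lean
section



/-!
# S20, piece P5 (helper398): numerics and assembly

From the consequences P2, P3, P4 of a fundamental system (taken as explicit hypotheses, in the
exact shapes of the skeleton) we derive the abstract dimension formula, and from it the final
statement, given the leaves (combinatorics, `SFequiv`, existence of a fundamental system).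
-/

set_option autoImplicit false

noncomputable section

namespace Fermat.Agent.S20.P5helper398

open Fermat.Agent.S20
open UpperHalfPlane ModularForm CongruenceSubgroup MatrixGroups Filter Module

local notation "Sm" => ModularGroup.S
local notation "Tm" => ModularGroup.T

section Numerics

variable {J : Type} [Fintype J] (wt : J → ℤ)

/-- number of indices of weight `k`. -/
def cnt (k : ℤ) : ℕ := (Finset.univ.filter fun j => wt j = k).card

lemma card_filter_eq_sum (p : J → Prop) [DecidablePred p] :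
    ((Finset.univ.filter p).card : ℤ) = ∑ j, if p j then (1 : ℤ) else 0 := by
  rw [Finset.card_filter]; push_cast; rfl

omit [Fintype J] in
lemma wt_cases (h0 : ∀ j, 0 ≤ wt j ∧ Even (wt j)) (h10 : ∀ j, wt j ≤ 10) (j : J) :
    wt j = 0 ∨ wt j = 2 ∨ wt j = 4 ∨ wt j = 6 ∨ wt j = 8 ∨ wt j = 10 := by
  obtain ⟨h, r, hr⟩ := h0 j
  have := h10 j
  omega

/-- The pure numerics: the six linear relations determine the number of weight `10` generators. -/
theorem cnt_ten (h0 : ∀ j, 0 ≤ wt j ∧ Even (wt j)) (h10 : ∀ j, wt j ≤ 10)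
    (μ e₂ e₃ c : ℕ)
    (h21 : 2 * (Finset.univ.filter fun j => wt j % 4 = 0).card = μ + e₂)
    (h220 : 3 * (Finset.univ.filter fun j => wt j % 6 = 0).card = μ + 2 * e₃)
    (h222 : 3 * (Finset.univ.filter fun j => wt j % 6 = 2).card + e₃ = μ)
    (h224 : 3 * (Finset.univ.filter fun j => wt j % 6 = 4).card + e₃ = μ)
    (h3 : ∑ j, wt j + 6 * (c : ℤ) = 6 * (μ : ℤ))
    (h43 : (Finset.univ.filter fun j => wt j = 0).card = 1) :
    ((Finset.univ.filter fun j => wt j = 10).card : ℚ) =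
      1 + (μ : ℚ) / 12 - (e₂ : ℚ) / 4 - (e₃ : ℚ) / 3 - (c : ℚ) / 2 := by
  have hc := wt_cases wt h0 h10
  -- indicator sums
  have e4 : ((Finset.univ.filter fun j => wt j % 4 = 0).card : ℤ)
      = (cnt wt 0 : ℤ) + cnt wt 4 + cnt wt 8 := by
    simp only [cnt, card_filter_eq_sum, ← Finset.sum_add_distrib]
    refine Finset.sum_congr rfl fun j _ => ?_
    rcases hc j with h | h | h | h | h | h <;> simp [h]
  have e60 : ((Finset.univ.filter fun j => wt j % 6 = 0).card : ℤ)
      = (cnt wt 0 : ℤ) + cnt wt 6 := by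
    simp only [cnt, card_filter_eq_sum, ← Finset.sum_add_distrib]
    refine Finset.sum_congr rfl fun j _ => ?_
    rcases hc j with h | h | h | h | h | h <;> simp [h]
  have e62 : ((Finset.univ.filter fun j => wt j % 6 = 2).card : ℤ)
      = (cnt wt 2 : ℤ) + cnt wt 8 := by
    simp only [cnt, card_filter_eq_sum, ← Finset.sum_add_distrib]
    refine Finset.sum_congr rfl fun j _ => ?_
    rcases hc j with h | h | h | h | h | h <;> simp [h]
  have e64 : ((Finset.univ.filter fun j => wt j % 6 = 4).card : ℤ)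
      = (cnt wt 4 : ℤ) + cnt wt 10 := by
    simp only [cnt, card_filter_eq_sum, ← Finset.sum_add_distrib]
    refine Finset.sum_congr rfl fun j _ => ?_
    rcases hc j with h | h | h | h | h | h <;> simp [h]
  have es : ∑ j, wt j = 2 * (cnt wt 2 : ℤ) + 4 * cnt wt 4 + 6 * cnt wt 6 + 8 * cnt wt 8
      + 10 * cnt wt 10 := by
    simp only [cnt, card_filter_eq_sum, Finset.mul_sum, ← Finset.sum_add_distrib]
    refine Finset.sum_congr rfl fun j _ => ?_
    rcases hc j with h | h | h | h | h | h <;> simp [h]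
  have h43' : (cnt wt 0 : ℤ) = 1 := by simp only [cnt]; exact_mod_cast h43
  have h21' : 2 * ((cnt wt 0 : ℤ) + cnt wt 4 + cnt wt 8) = μ + e₂ := by
    rw [← e4]; exact_mod_cast h21
  have h220' : 3 * ((cnt wt 0 : ℤ) + cnt wt 6) = μ + 2 * e₃ := by
    rw [← e60]; exact_mod_cast h220
  have h222' : 3 * ((cnt wt 2 : ℤ) + cnt wt 8) + e₃ = μ := by
    rw [← e62]; exact_mod_cast h222
  have h224' : 3 * ((cnt wt 4 : ℤ) + cnt wt 10) + e₃ = μ := by
    rw [← e64]; exact_mod_cast h224
  rw [es] at h3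
  have key : 12 * (cnt wt 10 : ℤ) = 12 + μ - 3 * e₂ - 4 * e₃ - 6 * c := by
    linarith
  have keyQ : 12 * (cnt wt 10 : ℚ) = 12 + μ - 3 * e₂ - 4 * e₃ - 6 * c := by
    exact_mod_cast key
  change ((cnt wt 10 : ℕ) : ℚ) = _
  linarith

end Numerics

variable {Γ : Subgroup SL(2, ℤ)}

/-- P5, for a given fundamental system, from the statements P2.0, P2.1, P2.2, P3, P4.1, P4.2,
P4.3 of the skeleton (explicit hypotheses, exact shapes). -/
theorem finrank_SF_two_of_fundSystem (𝔉 : FundSystem Γ)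
    (hP20 : ∀ j : 𝔉.J, 0 ≤ 𝔉.wt j ∧ Even (𝔉.wt j))
    (hP21 : 2 * (Finset.univ.filter fun j => 𝔉.wt j % 4 = 0).card =
      Nat.card (X Γ) + Nat.card {x : X Γ // Sm • x = x})
    (hP22 : 3 * (Finset.univ.filter fun j => 𝔉.wt j % 6 = 0).card =
        Nat.card (X Γ) + 2 * Nat.card {x : X Γ // (Sm * Tm) • x = x} ∧
      3 * (Finset.univ.filter fun j => 𝔉.wt j % 6 = 2).card
        + Nat.card {x : X Γ // (Sm * Tm) • x = x} = Nat.card (X Γ) ∧
      3 * (Finset.univ.filter fun j => 𝔉.wt j % 6 = 4).card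
        + Nat.card {x : X Γ // (Sm * Tm) • x = x} = Nat.card (X Γ))
    (hP3 : ∑ j, 𝔉.wt j
        + 6 * Nat.card (MulAction.orbitRel.Quotient (Subgroup.zpowers Tm) (X Γ)) =
      6 * Nat.card (X Γ))
    (hP41 : ∀ j : 𝔉.J, 𝔉.wt j ≤ 10)
    (hP42 : finrank ℂ (SF Γ 2) = (Finset.univ.filter fun j => 𝔉.wt j = 10).card)
    (hP43 : (Finset.univ.filter fun j => 𝔉.wt j = 0).card = 1) :
    (finrank ℂ (SF Γ 2) : ℚ) = 1 + (Nat.card (X Γ) : ℚ) / 12
      - (Nat.card {x : X Γ // Sm • x = x} : ℚ) / 4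
      - (Nat.card {x : X Γ // (Sm * Tm) • x = x} : ℚ) / 3
      - (Nat.card (MulAction.orbitRel.Quotient (Subgroup.zpowers Tm) (X Γ)) : ℚ) / 2 := by
  rw [hP42]
  exact cnt_ten 𝔉.wt hP20 hP41 _ _ _ _ hP21 hP22.1 hP22.2.1 hP22.2.2 hP3 hP43

/-- P5 in the shape of the skeleton (`Skel.finrank_SF_two`), with `exists_fundSystem` and the
statements P2-P4 as explicit hypotheses. -/
theorem finrank_SF_two_of (hfs : Nonempty (FundSystem Γ))
    (hP20 : ∀ (𝔉 : FundSystem Γ) (j : 𝔉.J), 0 ≤ 𝔉.wt j ∧ Even (𝔉.wt j))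
    (hP21 : ∀ 𝔉 : FundSystem Γ, 2 * (Finset.univ.filter fun j => 𝔉.wt j % 4 = 0).card =
      Nat.card (X Γ) + Nat.card {x : X Γ // Sm • x = x})
    (hP22 : ∀ 𝔉 : FundSystem Γ, 3 * (Finset.univ.filter fun j => 𝔉.wt j % 6 = 0).card =
        Nat.card (X Γ) + 2 * Nat.card {x : X Γ // (Sm * Tm) • x = x} ∧
      3 * (Finset.univ.filter fun j => 𝔉.wt j % 6 = 2).card
        + Nat.card {x : X Γ // (Sm * Tm) • x = x} = Nat.card (X Γ) ∧
      3 * (Finset.univ.filter fun j => 𝔉.wt j % 6 = 4).card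
        + Nat.card {x : X Γ // (Sm * Tm) • x = x} = Nat.card (X Γ))
    (hP3 : ∀ 𝔉 : FundSystem Γ, ∑ j, 𝔉.wt j
        + 6 * Nat.card (MulAction.orbitRel.Quotient (Subgroup.zpowers Tm) (X Γ)) =
      6 * Nat.card (X Γ))
    (hP41 : ∀ (𝔉 : FundSystem Γ) (j : 𝔉.J), 𝔉.wt j ≤ 10)
    (hP42 : ∀ 𝔉 : FundSystem Γ,
      finrank ℂ (SF Γ 2) = (Finset.univ.filter fun j => 𝔉.wt j = 10).card)
    (hP43 : ∀ 𝔉 : FundSystem Γ, (Finset.univ.filter fun j => 𝔉.wt j = 0).card = 1) :
    (finrank ℂ (SF Γ 2) : ℚ) = 1 + (Nat.card (X Γ) : ℚ) / 12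
      - (Nat.card {x : X Γ // Sm • x = x} : ℚ) / 4
      - (Nat.card {x : X Γ // (Sm * Tm) • x = x} : ℚ) / 3
      - (Nat.card (MulAction.orbitRel.Quotient (Subgroup.zpowers Tm) (X Γ)) : ℚ) / 2 := by
  obtain ⟨𝔉⟩ := hfs
  exact finrank_SF_two_of_fundSystem 𝔉 (hP20 𝔉) (hP21 𝔉) (hP22 𝔉) (hP3 𝔉) (hP41 𝔉) (hP42 𝔉)
    (hP43 𝔉)

/-- ASSEMBLY: the statement of S20 from the abstract dimension formula for `Γ₀(N)`, the
identification `CuspForm ≃ SF` and the four combinatorial leaves. -/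
theorem S20_assembled_of (N : ℕ) [NeZero N]
    (e : CuspForm (CongruenceSubgroup.Gamma0 N) 2 ≃ₗ[ℂ] SF (Gamma0 N) 2)
    (hdim : (finrank ℂ (SF (Gamma0 N) 2) : ℚ) = 1 + (Nat.card (X (Gamma0 N)) : ℚ) / 12
      - (Nat.card {x : X (Gamma0 N) // Sm • x = x} : ℚ) / 4
      - (Nat.card {x : X (Gamma0 N) // (Sm * Tm) • x = x} : ℚ) / 3
      - (Nat.card (MulAction.orbitRel.Quotient (Subgroup.zpowers Tm) (X (Gamma0 N))) : ℚ) / 2)
    (hX : Nat.card (X (Gamma0 N)) = ModularCurve.dedekindPsi N)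
    (hS : Nat.card {x : X (Gamma0 N) // Sm • x = x} = ModularCurve.nuTwo N)
    (hST : Nat.card {x : X (Gamma0 N) // (Sm * Tm) • x = x} = ModularCurve.nuThree N)
    (hT : Nat.card (MulAction.orbitRel.Quotient (Subgroup.zpowers Tm) (X (Gamma0 N))) =
      ModularCurve.cuspCount N) :
    (Module.finrank ℂ (CuspForm (CongruenceSubgroup.Gamma0 N) 2) : ℚ)
      = ModularCurve.genusFormula N := by
  rw [e.finrank_eq, hdim, hX, hS, hST, hT]
  rfl

end Fermat.Agent.S20.P5helper398

end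
end
-- ===== PACK-END S20/P5_helper398.lean

-- ===== PACK-BEGIN S20/H800/Basic.lean
section


/-!
# S20 / helper800 : basic API for `MF`, `ev` used by the local independence theorem

Private copies (namespace `Fermat.Agent.S20.H800`) of the small C0 facts, so that this package
depends only on `Core.lean`.
-/

set_option autoImplicit false

noncomputable section

namespace Fermat.Agent.S20.H800

open Fermat.Agent.S20
open UpperHalfPlane ModularForm CongruenceSubgroup MatrixGroups Filter EisensteinSeries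
open scoped Manifold Topology Real

variable {Γ : Subgroup SL(2, ℤ)}

lemma ev_mk {k : ℤ} {f : ℍ → ℂ} (hf : ∀ γ ∈ Γ, f ∣[k] γ = f) (g : SL(2, ℤ)) (τ : ℍ) :
    ev Γ k τ f (QuotientGroup.mk g) = (f ∣[k] g⁻¹) τ := by
  rw [ev_apply]
  obtain ⟨γ, hγ⟩ := QuotientGroup.mk_out_eq_mul Γ g
  have h1 : Quotient.out (QuotientGroup.mk g : SL(2, ℤ) ⧸ Γ) = g * γ := hγ
  rw [h1, mul_inv_rev, SlashAction.slash_mul, hf _ (inv_mem γ.2)]

lemma ev_smul {k : ℤ} {f : ℍ → ℂ} (hf : ∀ γ ∈ Γ, f ∣[k] γ = f) (γ : SL(2, ℤ)) (τ : ℍ)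
    (x : X Γ) : ev Γ k (γ • τ) f x = denom γ τ ^ k * ev Γ k τ f (γ⁻¹ • x) := by
  induction x using QuotientGroup.induction_on with
  | H g =>
    rw [MulAction.Quotient.smul_mk, ev_mk hf, ev_mk hf, smul_eq_mul]
    have h : (f ∣[k] g⁻¹) ∣[k] γ = f ∣[k] (γ⁻¹ * g)⁻¹ := by
      rw [← SlashAction.slash_mul]; simp [mul_inv_rev]
    rw [← h, SL_slash_apply (f := f ∣[k] g⁻¹) γ τ, mul_comm, mul_assoc,
      ← zpow_add₀ (denom_ne_zero γ τ)]
    simp

lemma ev_mul {a k : ℤ} {E : ℍ → ℂ} (hE : ∀ γ : SL(2, ℤ), E ∣[a] γ = E) (f : ℍ → ℂ) (τ : ℍ) :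
    ev Γ (a + k) τ (E * f) = E τ • ev Γ k τ f := by
  ext x
  simp only [ev_apply, Pi.smul_apply, smul_eq_mul]
  rw [mul_slash_SL2, hE]
  rfl

lemma ev_sum {ι : Type*} (s : Finset ι) (k : ℤ) (τ : ℍ) (f : ι → ℍ → ℂ) :
    ev Γ k τ (∑ i ∈ s, f i) = ∑ i ∈ s, ev Γ k τ (f i) := map_sum _ _ _

lemma mem_MF_top_slash {a : ℤ} {E : ℍ → ℂ} (hE : E ∈ MF ⊤ a) (γ : SL(2, ℤ)) : E ∣[a] γ = E :=
  hE.2.1 γ (Subgroup.mem_top γ)

lemma mul_mem_MF {a k : ℤ} {E f : ℍ → ℂ} (hE : E ∈ MF ⊤ a) (hf : f ∈ MF Γ k) :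
    E * f ∈ MF Γ (a + k) := by
  refine ⟨hE.1.mul hf.1, fun γ hγ => ?_, fun γ => ?_⟩
  · rw [mul_slash_SL2, mem_MF_top_slash hE, hf.2.1 γ hγ]
  · rw [mul_slash_SL2, mem_MF_top_slash hE]
    have h1 : IsBoundedAtImInfty E := by
      have := hE.2.2 1
      rwa [SlashAction.slash_one] at this
    exact h1.mul (hf.2.2 γ)

lemma mul_mem_MF' {a k m : ℤ} {E f : ℍ → ℂ} (hE : E ∈ MF ⊤ a) (hf : f ∈ MF Γ k)
    (h : a + k = m) : E * f ∈ MF Γ m := h ▸ mul_mem_MF hE hf

lemma modularForm_mem_MF_top {k : ℤ} (f : ModularForm 𝒮ℒ k) : (⇑f : ℍ → ℂ) ∈ MF ⊤ k := by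
  have hinv : ∀ γ : SL(2, ℤ), (⇑f : ℍ → ℂ) ∣[k] γ = f := fun γ => by
    rw [SL_slash]
    exact f.slash_action_eq' _ ⟨γ, rfl⟩
  refine ⟨f.holo', fun γ _ => hinv γ, fun γ => ?_⟩
  rw [hinv]
  exact ModularFormClass.bdd_at_infty f

lemma E₄_mem : (⇑E₄ : ℍ → ℂ) ∈ MF ⊤ 4 := modularForm_mem_MF_top E₄

lemma E₆_mem : (⇑E₆ : ℍ → ℂ) ∈ MF ⊤ 6 := modularForm_mem_MF_top E₆

lemma one_mem_MF_top : (1 : ℍ → ℂ) ∈ MF ⊤ 0 := by
  refine ⟨mdifferentiable_const, fun γ _ => is_invariant_one γ, fun γ => ?_⟩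
  rw [is_invariant_one]
  exact Filter.const_boundedAtFilter _ (1 : ℂ)

lemma pow_mem_MF_top {a : ℤ} {E : ℍ → ℂ} (hE : E ∈ MF ⊤ a) (n : ℕ) : E ^ n ∈ MF ⊤ (n * a) := by
  induction n with
  | zero => simpa using one_mem_MF_top
  | succ n ih =>
    rw [pow_succ']
    exact mul_mem_MF' hE ih (by push_cast; ring)

end Fermat.Agent.S20.H800

end
end
-- ===== PACK-END S20/H800/Basic.lean

-- ===== PACK-BEGIN S20/JInj.lean
section





/-!
# `j` is injective modulo `SL(2,ℤ)`

Assembly of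
* T1 (`Fermat.Agent.S20.lattice_eq_of_g₂_g₃`, helper544): `g₂, g₃` determine the lattice;
* T2 (`Fermat.Agent.S20.T2h423.G_pairOf`, helper423): `G_k(ℤ + ℤτ) = 2 ζ(k) E_k(τ)`;
* T3 conditional (`Fermat.Agent.S20.JInjective.exists_smul_eq_of_j_eq_of_G`, helper588).
-/

set_option autoImplicit false

open UpperHalfPlane ModularForm MatrixGroups EisensteinSeries

noncomputable section

namespace Fermat.Agent.S20

/-- **T3** (Spec form): `j τ = j τ'` (written without denominators, with `Δ`) implies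
`τ' ∈ SL(2,ℤ) τ`. -/
theorem exists_smul_eq_of_j_eq_h544 (τ τ' : ℍ)
    (h : E₄ τ ^ 3 * discriminant τ' = E₄ τ' ^ 3 * discriminant τ) :
    ∃ γ : SL(2, ℤ), γ • τ = τ' :=
  JInjective.exists_smul_eq_of_j_eq_of_G lattice_eq_of_g₂_g₃
    (fun τ _ hk => T2h423.G_pairOf τ hk) τ τ' h

/-- **A1** (`E₆` form): if `j z = j w` (written without denominators) then `w ∈ SL(2,ℤ) • z`. -/
theorem j_inj (z w : ℍ) (h : E₄ z ^ 3 * E₆ w ^ 2 = E₄ w ^ 3 * E₆ z ^ 2) :
    ∃ γ : SL(2, ℤ), γ • z = w := by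
  refine exists_smul_eq_of_j_eq_h544 z w ?_
  rw [discriminant_eq_E₄_cube_sub_E₆_sq z, discriminant_eq_E₄_cube_sub_E₆_sq w]
  linear_combination (-(1 : ℂ) / 1728) * h

end Fermat.Agent.S20

end
end
-- ===== PACK-END S20/JInj.lean

-- ===== PACK-BEGIN S20/L1/Exports.lean
section


/-!
# Level-one input for S20: exports in the exact shapes used by the skeletons

(helper140) Corollaries of `Ramanujan.lean` stated exactly as in
`Spec.lean` (T4a-c, T5c, T5d-derivative part) and `Bracket.lean` (A2).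
-/

set_option autoImplicit false

open UpperHalfPlane ModularForm EisensteinSeries Derivative Filter Topology
open scoped MatrixGroups Manifold

noncomputable section

namespace Fermat.Agent.S20.L1

local notation "Δ" => ModularForm.discriminant

/-- T4a. -/
theorem ramanujan_E₄' :
    normalizedDerivOfComplex (⇑E₄) = (3 : ℂ)⁻¹ • (E2 * ⇑E₄ - ⇑E₆) := by
  funext z
  simp [ramanujan_E₄ z]

/-- T4b. -/
theorem ramanujan_E₆' :
    normalizedDerivOfComplex (⇑E₆) = (2 : ℂ)⁻¹ • (E2 * ⇑E₆ - ⇑E₄ * ⇑E₄) := by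
  funext z
  simp [ramanujan_E₆ z, pow_two]

/-- T4c. -/
theorem ramanujan_discriminant' :
    normalizedDerivOfComplex discriminant = E2 * discriminant := by
  funext z
  simp [ramanujan_discriminant z]

lemma two_pi_I_ne_zero : (2 * (Real.pi : ℂ) * Complex.I) ≠ 0 := by
  simp [Real.pi_ne_zero]

lemma deriv_eq_two_pi_I_mul_D (F : ℍ → ℂ) (z : ℍ) :
    deriv (F ∘ ofComplex) z = 2 * (Real.pi : ℂ) * Complex.I * D F z := by
  simp only [normalizedDerivOfComplex]
  rw [← mul_assoc, mul_inv_cancel₀ two_pi_I_ne_zero, one_mul]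

lemma deriv_ne_zero_iff_D_ne_zero (F : ℍ → ℂ) (z : ℍ) :
    deriv (F ∘ ofComplex) z ≠ 0 ↔ D F z ≠ 0 := by
  rw [deriv_eq_two_pi_I_mul_D]
  simp [Real.pi_ne_zero]

/-- T5c. Zeros of `E₆` are simple. -/
theorem deriv_E₆_ne_zero (z : ℍ) (hz : E₆ z = 0) : deriv (⇑E₆ ∘ ofComplex) z ≠ 0 :=
  (deriv_ne_zero_iff_D_ne_zero _ z).mpr (D_E₆_ne_zero hz)

/-- T5c. Zeros of `E₄` are simple. -/
theorem deriv_E₄_ne_zero (z : ℍ) (hz : E₄ z = 0) : deriv (⇑E₄ ∘ ofComplex) z ≠ 0 :=
  (deriv_ne_zero_iff_D_ne_zero _ z).mpr (D_E₄_ne_zero hz)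

lemma E₄_ne_zero_of_jDiff_eq_zero {z₀ z : ℍ} (h4 : E₄ z₀ ≠ 0) (hz : jDiff z₀ z = 0) :
    E₄ z ≠ 0 := by
  intro h
  simp only [jDiff, h] at hz
  have : E₄ z₀ ^ 3 * Δ z = 0 := by linear_combination -hz
  rcases mul_eq_zero.mp this with h' | h'
  · exact h4 (pow_eq_zero_iff (by norm_num) |>.mp h')
  · exact discriminant_ne_zero z h'

lemma E₆_ne_zero_of_jDiff_eq_zero {z₀ z : ℍ} (h6 : E₆ z₀ ≠ 0) (hz : jDiff z₀ z = 0) :
    E₆ z ≠ 0 := by
  intro h
  have h1 := E₄_cube_sub_E₆_sq z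
  have h2 := E₄_cube_sub_E₆_sq z₀
  simp only [jDiff] at hz
  rw [h] at h1
  -- E₄ z ^ 3 = 1728 Δ z, so 1728 Δ z Δ z₀ = E₄ z₀ ^ 3 Δ z, so E₄ z₀ ^ 3 = 1728 Δ z₀
  have h3 : Δ z * (1728 * Δ z₀ - E₄ z₀ ^ 3) = 0 := by
    linear_combination hz - Δ z₀ * h1
  rcases mul_eq_zero.mp h3 with h' | h'
  · exact discriminant_ne_zero z h'
  · have : E₆ z₀ ^ 2 = 0 := by linear_combination -h' - h2
    exact h6 (pow_eq_zero_iff (by norm_num) |>.mp this)

/-- Zeros of `jDiff z₀` are simple when `z₀` is not elliptic. -/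
theorem D_jDiff_ne_zero' {z₀ z : ℍ} (h4 : E₄ z₀ ≠ 0) (h6 : E₆ z₀ ≠ 0) (hz : jDiff z₀ z = 0) :
    D (jDiff z₀) z ≠ 0 :=
  D_jDiff_ne_zero hz (E₄_ne_zero_of_jDiff_eq_zero h4 hz) (E₆_ne_zero_of_jDiff_eq_zero h6 hz)

/-- T5d (derivative part). -/
theorem generic_deriv_ne_zero (z₀ z : ℍ) (h4 : E₄ z₀ ≠ 0) (h6 : E₆ z₀ ≠ 0)
    (hz : E₄ z₀ ^ 3 * discriminant z - discriminant z₀ * E₄ z ^ 3 = 0) :
    deriv ((fun w : ℍ => E₄ z₀ ^ 3 * discriminant w - discriminant z₀ * E₄ w ^ 3) ∘ ofComplex) z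
      ≠ 0 := by
  have hfun : (fun w : ℍ => E₄ z₀ ^ 3 * discriminant w - discriminant z₀ * E₄ w ^ 3)
      = (-1 : ℂ) • jDiff z₀ := by
    funext w
    simp only [jDiff, Pi.smul_apply, smul_eq_mul]
    ring
  have hz' : jDiff z₀ z = 0 := by
    simp only [jDiff]
    linear_combination -hz
  rw [hfun, deriv_ne_zero_iff_D_ne_zero, normalizedDerivOfComplex_smul _ _ (mdiff_jDiff z₀)]
  simpa using D_jDiff_ne_zero' h4 h6 hz'

/-- **A2** (`Bracket.lean`): `2 E₄ E₆' - 3 E₄' E₆ = -1728 · 2πi · Δ` has no zero on `ℍ`. -/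
theorem bracket_eq (z : ℍ) :
    2 * E₄ z * deriv (⇑E₆ ∘ ofComplex) z - 3 * deriv (⇑E₄ ∘ ofComplex) z * E₆ z
      = -(2 * (Real.pi : ℂ) * Complex.I) * 1728 * Δ z := by
  rw [deriv_eq_two_pi_I_mul_D, deriv_eq_two_pi_I_mul_D, ramanujan_E₄, ramanujan_E₆]
  have := E₄_cube_sub_E₆_sq z
  linear_combination (-(2 * (Real.pi : ℂ) * Complex.I)) * this

theorem bracket_ne_zero (z : ℍ) :
    2 * E₄ z * deriv (⇑E₆ ∘ ofComplex) z - 3 * deriv (⇑E₄ ∘ ofComplex) z * E₆ z ≠ 0 := by
  rw [bracket_eq]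
  exact mul_ne_zero (mul_ne_zero (neg_ne_zero.mpr two_pi_I_ne_zero) (by norm_num))
    (discriminant_ne_zero z)

/-- `Pform τ₀ := E₄³ E₆(τ₀)² - E₆² E₄(τ₀)³` of helper860's skeleton equals `-1728 • jDiff τ₀`. -/
lemma Pform_eq_jDiff (τ₀ z : ℍ) :
    E₄ z ^ 3 * E₆ τ₀ ^ 2 - E₆ z ^ 2 * E₄ τ₀ ^ 3 = -1728 * jDiff τ₀ z := by
  have h1 := E₄_cube_sub_E₆_sq z
  have h2 := E₄_cube_sub_E₆_sq τ₀
  simp only [jDiff]
  linear_combination (-(E₄ z ^ 3)) * h2 + E₄ τ₀ ^ 3 * h1

/-- `j z = j w` in the denominator-free `E₄, E₆` form of helper860's skeleton. -/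
lemma j_eq_iff_E₄_E₆ (z w : ℍ) :
    E₄ z ^ 3 * E₆ w ^ 2 = E₄ w ^ 3 * E₆ z ^ 2 ↔ E₄ z ^ 3 * Δ w = E₄ w ^ 3 * Δ z := by
  have h1 := E₄_cube_sub_E₆_sq z
  have h2 := E₄_cube_sub_E₆_sq w
  constructor
  · intro h
    have : (1728 : ℂ) * (E₄ z ^ 3 * Δ w) = 1728 * (E₄ w ^ 3 * Δ z) := by
      linear_combination (E₄ w ^ 3) * h1 - (E₄ z ^ 3) * h2 - h
    exact mul_left_cancel₀ (by norm_num) this
  · intro h
    linear_combination (E₄ w ^ 3) * h1 - (E₄ z ^ 3) * h2 - 1728 * h

end Fermat.Agent.S20.L1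

end
end
-- ===== PACK-END S20/L1/Exports.lean

-- ===== PACK-BEGIN A2/Alg/H348/CompDvr.lean
section


/-!
# A2 / ALG / GLUE, `hconst` part, step 1: the local ring of a component is a discrete valuation ring

Mathlib-only (plus `H348.locAt`).  Abstract setting: `A ≤ B` subalgebras of a field `F` over `R`,
`p` a prime of `B` ("a component of the special fibre"), `p'` an ideal of `B` ("the union of the
other components") with `p ⊓ p' = (w)` and `p' ⊄ p`.  If moreover

* `p ∩ A = w A`                      (`contract`),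
* no nonzero element of `A` is divisible by all powers of `w`   (`finite_mult`),
* every nonzero `b ∈ B` divides a nonzero element of `A` in `B`  (`cofactor`),
* `F` is the fraction field of `B`, with denominators in `A`      (`frac`),

then `B_p = locAt B p` is a valuation subring of `F` (`CompData.valuationSubring`), its maximal
ideal is generated by `w` (`CompData.mul_inv_mem`) and it is discrete (`CompData.exists_pow_mul`).
No noetherian hypothesis on `B` is needed.
-/

set_option autoImplicit false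
set_option linter.unusedSectionVars false
set_option linter.style.haveILetI false

namespace Fermat.Agent.A2.Alg.H348

open Fermat.Agent.A2.H348

variable {R F : Type*} [CommRing R] [Field F] [Algebra R F]

/-- `p` is a component of the special fibre `w = 0` of `B`, `p'` the union of the other ones;
`A ≤ B` is a "base" (polynomial ring) over which `B` is integral. -/
structure CompData (A B : Subalgebra R F) (p p' : Ideal B) (w : R) : Prop where
  inf_eq : p ⊓ p' = Ideal.span {algebraMap R B w}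
  not_le : ¬ p' ≤ p
  w_ne : algebraMap R F w ≠ 0
  contract : ∀ a : B, (a : F) ∈ A → a ∈ p → ∃ a' ∈ A, (a : F) = algebraMap R F w * a'
  finite_mult : ∀ a ∈ A, a ≠ 0 → ∃ n : ℕ, ∀ a' ∈ A, a ≠ algebraMap R F w ^ (n + 1) * a'
  cofactor : ∀ b ∈ B, b ≠ 0 → ∃ g ∈ B, b * g ∈ A ∧ b * g ≠ 0
  frac : ∀ f : F, ∃ a ∈ A, a ≠ 0 ∧ a ∈ B ∧ a * f ∈ B

namespace CompData

variable {A B : Subalgebra R F} {p p' : Ideal B} [hp : p.IsPrime] {w : R}

theorem w_mem (D : CompData A B p p' w) : algebraMap R B w ∈ p := by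
  have h : algebraMap R B w ∈ p ⊓ p' := by
    rw [D.inf_eq]; exact Ideal.mem_span_singleton_self _
  exact h.1

theorem exists_notMem (D : CompData A B p p' w) : ∃ t : B, t ∈ p' ∧ t ∉ p :=
  SetLike.not_le_iff_exists.1 D.not_le

theorem w_inv_notMem (D : CompData A B p p' w) : (algebraMap R F w)⁻¹ ∉ locAt B p := by
  rintro ⟨s, hs, hsw⟩
  apply hs
  have h1 : s = algebraMap R B w * ⟨(s : F) * (algebraMap R F w)⁻¹, hsw⟩ := by
    apply Subtype.ext
    have hw := D.w_ne
    show (s : F) = algebraMap R F w * ((s : F) * (algebraMap R F w)⁻¹)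
    field_simp
  rw [h1]
  exact p.mul_mem_right _ D.w_mem

/-- the maximal ideal of `B_p` is generated by `w`. -/
theorem mul_inv_mem (D : CompData A B p p' w) {f : F} (hf : f ∈ locAt B p)
    (hf' : f⁻¹ ∉ locAt B p) : f * (algebraMap R F w)⁻¹ ∈ locAt B p := by
  obtain ⟨s, hs, hsf⟩ := hf
  by_cases hb : (⟨(s : F) * f, hsf⟩ : B) ∈ p
  · obtain ⟨t, ht', ht⟩ := D.exists_notMem
    have hbt : (⟨(s : F) * f, hsf⟩ : B) * t ∈ p ⊓ p' :=
      ⟨p.mul_mem_right _ hb, p'.mul_mem_left _ ht'⟩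
    rw [D.inf_eq, Ideal.mem_span_singleton'] at hbt
    obtain ⟨c, hc⟩ := hbt
    refine ⟨s * t, fun h => (hp.mem_or_mem h).elim hs ht, ?_⟩
    have hc' : (c : F) * algebraMap R F w = (s : F) * f * (t : F) := congrArg Subtype.val hc
    have hw := D.w_ne
    have : ((s * t : B) : F) * (f * (algebraMap R F w)⁻¹) = (c : F) := by
      have h3 : ((s * t : B) : F) * (f * (algebraMap R F w)⁻¹)
          = ((s : F) * f * (t : F)) * (algebraMap R F w)⁻¹ := by
        push_cast; ring
      rw [h3, ← hc', mul_assoc, mul_inv_cancel₀ hw, mul_one]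
    rw [this]
    exact c.2
  · exfalso
    apply hf'
    have hf0 : f ≠ 0 := by
      rintro rfl
      apply hb
      have : (⟨(s : F) * 0, hsf⟩ : B) = 0 := Subtype.ext (mul_zero _)
      rw [this]
      exact p.zero_mem
    refine ⟨⟨(s : F) * f, hsf⟩, hb, ?_⟩
    show (s : F) * f * f⁻¹ ∈ B
    rw [mul_assoc, mul_inv_cancel₀ hf0, mul_one]
    exact s.2

/-- `B ∩ w B_p = p`. -/
theorem mem_of_eq_w_mul (D : CompData A B p p' w) {b : B} {v : F} (hv : v ∈ locAt B p)
    (h : (b : F) = algebraMap R F w * v) : b ∈ p := by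
  obtain ⟨s, hs, hsv⟩ := hv
  have h1 : s * b = algebraMap R B w * ⟨(s : F) * v, hsv⟩ := by
    apply Subtype.ext
    show (s : F) * (b : F) = algebraMap R F w * ((s : F) * v)
    rw [h]; ring
  have h2 : s * b ∈ p := by
    rw [h1]; exact p.mul_mem_right _ D.w_mem
  exact (hp.mem_or_mem h2).resolve_left hs

/-- `A ∩ w ^ k B_p = w ^ k A`. -/
theorem dvd_of_eq_pow_mul (D : CompData A B p p' w) (hAB : A ≤ B) :
    ∀ (k : ℕ) (a : F), a ∈ A → (∃ v ∈ locAt B p, a = algebraMap R F w ^ k * v) →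
      ∃ a' ∈ A, a = algebraMap R F w ^ k * a' := by
  intro k
  induction k with
  | zero =>
    intro a ha _
    exact ⟨a, ha, by simp⟩
  | succ k ih =>
    rintro a ha ⟨v, hv, hav⟩
    have hwv : algebraMap R F w ^ k * v ∈ locAt B p :=
      (locAt B p).mul_mem ((locAt B p).pow_mem ((locAt B p).algebraMap_mem w) k) hv
    have hmem : (⟨a, hAB ha⟩ : B) ∈ p := D.mem_of_eq_w_mul hwv (by
      show a = algebraMap R F w * (algebraMap R F w ^ k * v)
      rw [hav, pow_succ]; ring)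
    obtain ⟨a₁, ha₁, h1⟩ := D.contract ⟨a, hAB ha⟩ ha hmem
    have h1' : a = algebraMap R F w * a₁ := h1
    have h2 : a₁ = algebraMap R F w ^ k * v := by
      have hw := D.w_ne
      have : algebraMap R F w * a₁ = algebraMap R F w * (algebraMap R F w ^ k * v) := by
        rw [← h1', hav, pow_succ]; ring
      exact mul_left_cancel₀ hw this
    obtain ⟨a', ha', h3⟩ := ih a₁ ha₁ ⟨v, hv, h2⟩
    exact ⟨a', ha', by rw [h1', h3, pow_succ]; ring⟩

/-- a nonzero element of `B` is not divisible by all powers of `w` in `B_p`. -/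
theorem exists_bound (D : CompData A B p p' w) (hAB : A ≤ B) {b : F} (hb : b ∈ B)
    (hb0 : b ≠ 0) :
    ∃ n : ℕ, ¬ ∃ v ∈ locAt B p, b = algebraMap R F w ^ (n + 1) * v := by
  obtain ⟨g, hg, hbgA, hbg0⟩ := D.cofactor b hb hb0
  obtain ⟨n, hn⟩ := D.finite_mult _ hbgA hbg0
  refine ⟨n, ?_⟩
  rintro ⟨v, hv, hbv⟩
  obtain ⟨a', ha', h⟩ := D.dvd_of_eq_pow_mul hAB (n + 1) (b * g) hbgA
    ⟨v * g, (locAt B p).mul_mem hv (le_locAt p hg), by rw [hbv]; ring⟩
  exact hn a' ha' h

theorem exists_pow_mul_aux (D : CompData A B p p' w) :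
    ∀ (n : ℕ) (v : F), v ∈ locAt B p →
      (¬ ∃ v' ∈ locAt B p, v = algebraMap R F w ^ (n + 1) * v') →
      ∃ (k : ℕ) (ε : F), ε ∈ locAt B p ∧ ε⁻¹ ∈ locAt B p ∧ v = algebraMap R F w ^ k * ε := by
  have hw := D.w_ne
  intro n
  induction n with
  | zero =>
    intro v hv hn
    by_cases hv' : v⁻¹ ∈ locAt B p
    · exact ⟨0, v, hv, hv', by simp⟩
    · exfalso
      apply hn
      refine ⟨v * (algebraMap R F w)⁻¹, D.mul_inv_mem hv hv', ?_⟩
      rw [zero_add, pow_one]
      field_simp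
  | succ n ih =>
    intro v hv hn
    by_cases hv' : v⁻¹ ∈ locAt B p
    · exact ⟨0, v, hv, hv', by simp⟩
    · have h1 := D.mul_inv_mem hv hv'
      obtain ⟨k, ε, hε, hε', h⟩ := ih (v * (algebraMap R F w)⁻¹) h1 (by
        rintro ⟨v', hv'', h2⟩
        apply hn
        refine ⟨v', hv'', ?_⟩
        have : v = algebraMap R F w * (v * (algebraMap R F w)⁻¹) := by field_simp
        rw [this, h2, pow_succ (algebraMap R F w) (n + 1)]
        ring)
      refine ⟨k + 1, ε, hε, hε', ?_⟩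
      have : v = algebraMap R F w * (v * (algebraMap R F w)⁻¹) := by field_simp
      rw [this, h, pow_succ]
      ring

/-- every nonzero element of `B` is a power of `w` times a unit of `B_p`. -/
theorem exists_pow_mul (D : CompData A B p p' w) (hAB : A ≤ B) {b : F} (hb : b ∈ B)
    (hb0 : b ≠ 0) :
    ∃ (k : ℕ) (ε : F), ε ∈ locAt B p ∧ ε⁻¹ ∈ locAt B p ∧ b = algebraMap R F w ^ k * ε := by
  obtain ⟨n, hn⟩ := D.exists_bound hAB hb hb0
  exact D.exists_pow_mul_aux n b (le_locAt p hb) hn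

/-- every nonzero element of `F` is a power of `w` times a unit of `B_p`. -/
theorem exists_zpow_mul (D : CompData A B p p' w) (hAB : A ≤ B) {f : F} (hf : f ≠ 0) :
    ∃ (k l : ℕ) (ε : F), ε ∈ locAt B p ∧ ε⁻¹ ∈ locAt B p ∧
      f * algebraMap R F w ^ k = algebraMap R F w ^ l * ε := by
  have hw := D.w_ne
  obtain ⟨a, haA, ha0, haB, haf⟩ := D.frac f
  obtain ⟨k, ε, hε, hε', hk⟩ := D.exists_pow_mul hAB haB ha0
  obtain ⟨l, η, hη, hη', hl⟩ := D.exists_pow_mul hAB haf (mul_ne_zero ha0 hf)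
  have hε0 : ε ≠ 0 := by
    rintro rfl
    apply ha0
    rw [hk, mul_zero]
  refine ⟨k, l, η * ε⁻¹, (locAt B p).mul_mem hη hε', ?_, ?_⟩
  · rw [mul_inv, inv_inv]
    exact (locAt B p).mul_mem hη' hε
  · have h1 : f * (algebraMap R F w ^ k * ε) = algebraMap R F w ^ l * η := by
      rw [← hk, mul_comm f a, hl]
    have h2 : f * algebraMap R F w ^ k = f * (algebraMap R F w ^ k * ε) * ε⁻¹ := by
      field_simp
    rw [h2, h1]
    ring

/-- discreteness. -/
theorem exists_mul_pow_mem (D : CompData A B p p' w) (hAB : A ≤ B) (f : F) :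
    ∃ k : ℕ, f * algebraMap R F w ^ k ∈ locAt B p := by
  rcases eq_or_ne f 0 with rfl | hf
  · exact ⟨0, by rw [zero_mul]; exact (locAt B p).zero_mem⟩
  obtain ⟨k, l, ε, hε, -, h⟩ := D.exists_zpow_mul hAB hf
  exact ⟨k, by
    rw [h]
    exact (locAt B p).mul_mem ((locAt B p).pow_mem ((locAt B p).algebraMap_mem w) l) hε⟩

theorem mem_or_inv_mem (D : CompData A B p p' w) (hAB : A ≤ B) (f : F) :
    f ∈ locAt B p ∨ f⁻¹ ∈ locAt B p := by
  have hw := D.w_ne
  rcases eq_or_ne f 0 with rfl | hf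
  · exact Or.inl (locAt B p).zero_mem
  obtain ⟨k, l, ε, hε, hε', h⟩ := D.exists_zpow_mul hAB hf
  have hwmem : ∀ j : ℕ, algebraMap R F w ^ j ∈ locAt B p := fun j =>
    (locAt B p).pow_mem ((locAt B p).algebraMap_mem w) j
  have hε0 : ε ≠ 0 := by
    rintro rfl
    rw [mul_zero] at h
    exact (mul_ne_zero hf (pow_ne_zero _ hw)) h
  rcases le_total k l with hkl | hkl
  · left
    obtain ⟨d, rfl⟩ := Nat.exists_eq_add_of_le hkl
    have : f = algebraMap R F w ^ d * ε := by
      have h2 : f * algebraMap R F w ^ k = (algebraMap R F w ^ d * ε) * algebraMap R F w ^ k := by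
        rw [h, pow_add]; ring
      exact mul_right_cancel₀ (pow_ne_zero _ hw) h2
    rw [this]
    exact (locAt B p).mul_mem (hwmem d) hε
  · right
    obtain ⟨d, rfl⟩ := Nat.exists_eq_add_of_le hkl
    have : f⁻¹ = algebraMap R F w ^ d * ε⁻¹ := by
      have h2 : f * algebraMap R F w ^ d * algebraMap R F w ^ l = ε * algebraMap R F w ^ l := by
        rw [mul_assoc, ← pow_add, add_comm, h]; ring
      have h3 : f * algebraMap R F w ^ d = ε := mul_right_cancel₀ (pow_ne_zero _ hw) h2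
      rw [← h3]
      field_simp
    rw [this]
    exact (locAt B p).mul_mem (hwmem d) hε'

/-- `B_p` as a valuation subring of `F`. -/
def valuationSubring (D : CompData A B p p' w) (hAB : A ≤ B) : ValuationSubring F :=
  { (locAt B p).toSubring with
    mem_or_inv_mem' := D.mem_or_inv_mem hAB }

theorem mem_valuationSubring (D : CompData A B p p' w) (hAB : A ≤ B) {f : F} :
    f ∈ D.valuationSubring hAB ↔ f ∈ locAt B p := Iff.rfl

end CompData

end Fermat.Agent.A2.Alg.H348

end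
-- ===== PACK-END A2/Alg/H348/CompDvr.lean

-- ===== PACK-BEGIN A2/Alg/H132/HorDVR.lean
section



/-!
# A2 / ALG (helper132): horizontal primes and the hypothesis (H1) of node purity

`B` a noetherian integrally closed domain with fraction field `F`.

* `isDiscreteValuationRing_locAt_of_height_one` : a nonzero prime `P` which contains no other
  nonzero prime has a discrete valuation ring `B_P`.
* `exists_isLocDVR_of_height_one` : the corresponding valuation subring of `F`.
* `exists_pow_eq_mul_of_isLocDVR` : if `g = u · h ^ m` with `u` a unit of `B_P` and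
  `u₀ = g · b ^ m ∈ B`, then `f ^ m = u₀ · r` with `f, r ∈ B`, `r ∉ P`
  (the hypothesis (H1) of `H609.exists_unit_mul_pow_of_node`).
-/

set_option autoImplicit false
set_option linter.unusedSectionVars false
set_option linter.style.haveILetI false

namespace Fermat.Agent.A2.Alg.H132

open Fermat.Agent.A2.H849

section Hor

variable {B : Type*} [CommRing B] [IsDomain B] [IsNoetherianRing B] [IsIntegrallyClosed B]
variable (F : Type*) [Field F] [Algebra B F] [IsFractionRing B F]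

/-- A height-one prime of a noetherian integrally closed domain has a discrete valuation ring as
localisation. -/
theorem isDiscreteValuationRing_locAt_of_height_one (P : Ideal B) [hP : P.IsPrime]
    (hP0 : P ≠ ⊥)
    (hht : ∀ Q : Ideal B, Q.IsPrime → Q ≠ ⊥ → Q ≤ P → Q = P) :
    IsDiscreteValuationRing (locAt F P) := by
  obtain ⟨a, haP, ha0⟩ := Submodule.exists_mem_ne_zero_of_ne_bot hP0
  have hmin : P ∈ (Ideal.span {a} : Ideal B).minimalPrimes := by
    refine ⟨⟨hP, (Ideal.span_singleton_le_iff_mem P).2 haP⟩, ?_⟩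
    rintro Q ⟨hQ, hQa⟩ hQP
    have hQ0 : Q ≠ ⊥ := by
      intro h0
      have : a ∈ Q := (Ideal.span_singleton_le_iff_mem Q).1 hQa
      rw [h0, Ideal.mem_bot] at this
      exact ha0 this
    exact (hht Q hQ hQ0 hQP).ge
  have hass : P ∈ associatedPrimes B (B ⧸ Ideal.span {a}) := by
    apply Module.associatedPrimes.minimalPrimes_annihilator_subset_associatedPrimes
    rw [Ideal.annihilator_quotient]
    exact hmin
  obtain ⟨-, y, hy⟩ := (isAssociatedPrime_iff (I := P) (M := B ⧸ Ideal.span {a})).1 hass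
  obtain ⟨c, rfl⟩ := Ideal.Quotient.mk_surjective y
  have hcol : ∀ r, r ∈ P ↔ a ∣ r * c := by
    intro r
    rw [hy, Submodule.mem_colon_singleton, Submodule.mem_bot]
    exact smul_mk_span_eq_zero_iff a r c
  exact isDiscreteValuationRing_locAt_of_colon P a c ha0 hcol

variable {F}

/-- The discrete valuation subring of `F` attached to a height-one prime. -/
theorem exists_isLocDVR_of_height_one (P : Ideal B) [hP : P.IsPrime] (hP0 : P ≠ ⊥)
    (hht : ∀ Q : Ideal B, Q.IsPrime → Q ≠ ⊥ → Q ≤ P → Q = P) :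
    ∃ O : ValuationSubring F, IsLocDVR O P := by
  have hdvr := isDiscreteValuationRing_locAt_of_height_one F P hP0 hht
  exact ⟨_, isLocDVR_locValuationSubring P hdvr⟩

theorem algebraMap_ne_zero' {b : B} (hb : b ≠ 0) : algebraMap B F b ≠ 0 := fun h0 =>
  hb (IsFractionRing.injective B F (by rw [h0, map_zero]))

/-- an element whose power lies in a valuation subring lies in it. -/
theorem mem_of_pow_mem_valuationSubring (O : ValuationSubring F) {z : F} {m : ℕ} (hm : m ≠ 0)
    (hz : z ^ m ∈ O) : z ∈ O := by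
  rw [← O.valuation_le_one_iff] at hz ⊢
  rw [map_pow] at hz
  exact (pow_le_one_iff hm).1 hz

/-- **(H1) from divisibility at a horizontal prime.** -/
theorem exists_pow_eq_mul_of_isLocDVR {O : ValuationSubring F} {P : Ideal B}
    (hO : IsLocDVR O P) {m : ℕ} (hm : m ≠ 0) {g h u : F} {u₀ b : B}
    (hu₀ : algebraMap B F u₀ = g * algebraMap B F b ^ m)
    (huO : u ∈ O) (huO' : u⁻¹ ∈ O) (hu0 : u ≠ 0) (hg : g = u * h ^ m) :
    ∃ f r : B, r ∉ P ∧ f ^ m = u₀ * r := by
  have hP := hO.prime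
  have hinj : Function.Injective (algebraMap B F) := IsFractionRing.injective B F
  -- `z = h b` is integral at `P`
  have hz : (h * algebraMap B F b) ^ m ∈ O := by
    have e : (h * algebraMap B F b) ^ m = algebraMap B F u₀ * u⁻¹ := by
      rw [hu₀, hg, mul_pow]
      field_simp
    rw [e]
    exact mul_mem (hO.le u₀) huO'
  have hzO := mem_of_pow_mem_valuationSubring O hm hz
  obtain ⟨f₁, s₁, hs₁, hz1⟩ := hO.exists_frac _ hzO
  obtain ⟨r₁, r₂, hr₂, hu1⟩ := hO.exists_frac _ huO'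
  have hs₁0 : s₁ ≠ 0 := fun h0 => hs₁ (h0 ▸ P.zero_mem)
  have hr₂0 : r₂ ≠ 0 := fun h0 => hr₂ (h0 ▸ P.zero_mem)
  have hs₁F : algebraMap B F s₁ ≠ 0 := algebraMap_ne_zero' hs₁0
  have hr₂F : algebraMap B F r₂ ≠ 0 := algebraMap_ne_zero' hr₂0
  have hr₁0 : r₁ ≠ 0 := by
    rintro rfl
    rw [map_zero, zero_mul] at hu1
    exact hu0 (inv_eq_zero.1 hu1)
  have hr₁F : algebraMap B F r₁ ≠ 0 := algebraMap_ne_zero' hr₁0
  have hr₁ : r₁ ∉ P := by
    intro hmem
    apply hO.inv_not_mem r₁ hmem hr₁0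
    have e : (algebraMap B F r₁)⁻¹ = u * (algebraMap B F r₂)⁻¹ := by
      have : u = (algebraMap B F r₁ * (algebraMap B F r₂)⁻¹)⁻¹ := by rw [← hu1, inv_inv]
      rw [this]
      field_simp
    rw [e]
    exact mul_mem huO (hO.inv_mem r₂ hr₂)
  obtain ⟨k, rfl⟩ : ∃ k, m = k + 1 := Nat.exists_eq_succ_of_ne_zero hm
  refine ⟨f₁ * r₂, r₁ * s₁ ^ (k + 1) * r₂ ^ k, ?_, ?_⟩
  · intro hmem
    rcases hP.mem_or_mem hmem with h1 | h1
    · rcases hP.mem_or_mem h1 with h2 | h2
      · exact hr₁ h2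
      · exact hs₁ (hP.mem_of_pow_mem _ h2)
    · exact hr₂ (hP.mem_of_pow_mem _ h1)
  · apply hinj
    have e1 : (h * algebraMap B F b) ^ (k + 1) = algebraMap B F u₀ * u⁻¹ := by
      rw [hu₀, hg, mul_pow]
      field_simp
    rw [hz1, hu1] at e1
    simp only [map_mul, map_pow]
    have e2 : (algebraMap B F f₁) ^ (k + 1) * algebraMap B F r₂ =
        algebraMap B F u₀ * algebraMap B F r₁ * (algebraMap B F s₁) ^ (k + 1) := by
      rw [mul_pow, inv_pow] at e1
      field_simp at e1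
      linear_combination e1
    rw [mul_pow, pow_succ (algebraMap B F r₂) k]
    linear_combination (algebraMap B F r₂) ^ k * e2

end Hor

end Fermat.Agent.A2.Alg.H132

end
-- ===== PACK-END A2/Alg/H132/HorDVR.lean

-- ===== PACK-BEGIN Ribet/H552/ASUnram.lean
section



/-!
# RIBET wall-p, leaf W-ALGP / GLUE-p (helper552): wild cyclic covers `y ^ p = 1 + λ ^ p w t` are
unramified

`K ⊆ Ω` fields, `V` a valuation subring of `K` with uniformiser `w` (`w` generates the non-units
of `V` and `K = V[1/w]`), `ζ ∈ K` a primitive `p`-th root of unity (`p` prime, ANY residue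
characteristic, in the application the residue characteristic is `p`), `λ = ζ - 1`,
`Ω = K[z]` with `z ^ p = 1 + λ ^ p w t`, `t ∈ V`.  Let `W` be ANY valuation subring of `Ω`
containing `V` in which `w` is not a unit.  Then

* `z = ζ ^ j (1 + λ w s)` with `s ∈ W`;
* `W = V[s]`, `V[s] = V + w V[s]`;
* hence `𝔪_W = w W` (`e = 1`) and `W = V + w W` (`f = 1`): `as_unramified`.

This is the Artin–Schreier form of `A2.H552.kummer_unramified`: with `z = ζ ^ j (1 + λ Y)` the
equation becomes `Y ^ p - Y ≡ w t` modulo `λ`.  No Galois theory, no étale/Dedekind API, no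
completeness.  `unramified_of_adjoin_decomp` is the common abstract core.
-/

set_option autoImplicit false

namespace Fermat.Agent.Ribet.H552

open Polynomial
open Fermat.Agent.A2.H552 (valuation_lt_one_of_inv_notMem eq_one_of_pow_eq_one₀)

section Abstract

variable {K Ω : Type*} [Field K] [Field Ω] [Algebra K Ω]

/-- **Abstract core.**  `W ⊇ V` valuation subrings, `w` a uniformiser of `V`, `K = V[1/w]`,
`w` a non-unit of `W`; `s ∈ W` with `s ∈ V + w V[s]` and `Ω = K[z]`, `z ∈ V[s]`.  Then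
`W = V[s]` is unramified over `V` with trivial residue extension. -/
theorem unramified_of_adjoin_decomp (V : ValuationSubring K) (W : ValuationSubring Ω)
    (hVW : ∀ a ∈ V, algebraMap K Ω a ∈ W)
    (w : K) (hwV : w ∈ V) (hw0 : w ≠ 0) (hwW : (algebraMap K Ω w)⁻¹ ∉ W)
    (hVgen : ∀ a ∈ V, a⁻¹ ∉ V → a * w⁻¹ ∈ V)
    (hdisc : ∀ c : K, ∃ k : ℕ, w ^ k * c ∈ V)
    (s : Ω) (hsW : s ∈ W)
    (hsdec : ∃ a₀ ∈ V, ∃ a' ∈ Subring.closure (algebraMap K Ω '' (V : Set K) ∪ {s}),
      s = algebraMap K Ω a₀ + algebraMap K Ω w * a')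
    (z : Ω) (hzA : z ∈ Subring.closure (algebraMap K Ω '' (V : Set K) ∪ {s}))
    (hgen : ∀ b : Ω, b ∈ Algebra.adjoin K ({z} : Set Ω)) :
    (∀ b ∈ W, b⁻¹ ∉ W → b * (algebraMap K Ω w)⁻¹ ∈ W) ∧
    (∀ b ∈ W, ∃ a ∈ V, (b - algebraMap K Ω a) * (algebraMap K Ω w)⁻¹ ∈ W) := by
  classical
  set φ := algebraMap K Ω with hφ
  set v := W.valuation with hv
  have hφinj : Function.Injective φ := (algebraMap K Ω).injective
  have hφw0 : φ w ≠ 0 := fun h => hw0 (hφinj (by rw [h, map_zero]))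
  have hvV : ∀ a ∈ V, v (φ a) ≤ 1 := fun a ha => (W.valuation_le_one_iff _).mpr (hVW a ha)
  have hvw : v (φ w) < 1 := valuation_lt_one_of_inv_notMem W hwW
  have hunitV : ∀ a ∈ V, a⁻¹ ∈ V → a ≠ 0 → v (φ a) = 1 := by
    intro a ha hai ha0
    have h1 := hvV a ha
    have h2 := hvV _ hai
    rw [map_inv₀, map_inv₀] at h2
    have hpos : 0 < v (φ a) := by
      rw [pos_iff_ne_zero]
      exact (Valuation.ne_zero_iff _).mpr (fun h => ha0 (hφinj (by rw [h, map_zero])))
    exact le_antisymm h1 ((inv_le_one₀ hpos).mp h2)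
  -- the subring `A = V[s]`
  set A : Subring Ω := Subring.closure (φ '' (V : Set K) ∪ {s}) with hA
  have hVA : ∀ a ∈ V, φ a ∈ A := fun a ha =>
    Subring.subset_closure (Or.inl ⟨a, ha, rfl⟩)
  have hwA : φ w ∈ A := hVA w hwV
  have hAW : ∀ a ∈ A, v a ≤ 1 := by
    intro a ha
    have hle : A ≤ W.toSubring := by
      rw [hA, Subring.closure_le]
      rintro x (⟨a, ha, rfl⟩ | hx)
      · exact hVW a ha
      · rw [Set.mem_singleton_iff] at hx
        rw [hx]
        exact hsW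
    exact (W.valuation_le_one_iff _).mpr (hle ha)
  -- `A = V + w A`
  have hdec : ∀ a ∈ A, ∃ a₀ ∈ V, ∃ a' ∈ A, a = φ a₀ + φ w * a' := by
    intro a ha
    induction ha using Subring.closure_induction with
    | mem x hx =>
      rcases hx with ⟨a₀, ha₀, rfl⟩ | hx
      · exact ⟨a₀, ha₀, 0, A.zero_mem, by simp⟩
      · rw [Set.mem_singleton_iff] at hx
        subst hx
        exact hsdec
    | zero => exact ⟨0, zero_mem V, 0, A.zero_mem, by simp⟩
    | one => exact ⟨1, one_mem V, 0, A.zero_mem, by simp⟩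
    | add x y hx hy ihx ihy =>
      obtain ⟨x₀, hx₀, x', hx', rfl⟩ := ihx
      obtain ⟨y₀, hy₀, y', hy', rfl⟩ := ihy
      exact ⟨x₀ + y₀, add_mem hx₀ hy₀, x' + y', A.add_mem hx' hy', by rw [map_add]; ring⟩
    | neg x hx ihx =>
      obtain ⟨x₀, hx₀, x', hx', rfl⟩ := ihx
      exact ⟨-x₀, neg_mem hx₀, -x', A.neg_mem hx', by rw [map_neg]; ring⟩
    | mul x y hx hy ihx ihy =>
      obtain ⟨x₀, hx₀, x', hx', rfl⟩ := ihx
      obtain ⟨y₀, hy₀, y', hy', rfl⟩ := ihy
      refine ⟨x₀ * y₀, mul_mem hx₀ hy₀, φ x₀ * y' + x' * φ y₀ + φ w * x' * y', ?_, ?_⟩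
      · exact A.add_mem (A.add_mem (A.mul_mem (hVA _ hx₀) hy') (A.mul_mem hx' (hVA _ hy₀)))
          (A.mul_mem (A.mul_mem hwA hx') hy')
      · rw [map_mul]; ring
  -- non-units of `A` are divisible by `w`
  have hdiv : ∀ a ∈ A, v a < 1 → ∃ a' ∈ A, a = φ w * a' := by
    intro a ha hva
    obtain ⟨a₀, ha₀, a', ha', rfl⟩ := hdec a ha
    have h1 : v (φ w * a') < 1 := by
      rw [map_mul]
      calc v (φ w) * v a' ≤ v (φ w) * 1 := by gcongr; exact hAW a' ha'
        _ = v (φ w) := mul_one _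
        _ < 1 := hvw
    have h2 : v (φ a₀) < 1 := by
      have : φ a₀ = (φ a₀ + φ w * a') - φ w * a' := by ring
      rw [this]
      exact Valuation.map_sub_lt _ hva h1
    have h3 : a₀ * w⁻¹ ∈ V := by
      by_cases h0 : a₀ = 0
      · rw [h0, zero_mul]; exact zero_mem V
      refine hVgen a₀ ha₀ fun hinv => ?_
      have := hunitV a₀ ha₀ hinv h0
      rw [this] at h2
      exact lt_irrefl _ h2
    refine ⟨φ (a₀ * w⁻¹) + a', A.add_mem (hVA _ h3) ha', ?_⟩
    rw [mul_add, ← map_mul, mul_comm a₀, ← mul_assoc, mul_inv_cancel₀ hw0, one_mul]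
  -- `Ω = A[1/w]`
  have hloc : ∀ b : Ω, ∃ k : ℕ, φ w ^ k * b ∈ A := by
    intro b
    induction hgen b using Algebra.adjoin_induction with
    | mem x hx =>
      rw [Set.mem_singleton_iff] at hx
      rw [hx]
      refine ⟨0, ?_⟩
      rw [pow_zero, one_mul]
      exact hzA
    | algebraMap c =>
      obtain ⟨k, hk⟩ := hdisc c
      refine ⟨k, ?_⟩
      rw [← hφ, ← map_pow, ← map_mul]
      exact hVA _ hk
    | add x y _ _ ihx ihy =>
      obtain ⟨k₁, h₁⟩ := ihx
      obtain ⟨k₂, h₂⟩ := ihy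
      refine ⟨k₁ + k₂, ?_⟩
      have : φ w ^ (k₁ + k₂) * (x + y) = φ w ^ k₂ * (φ w ^ k₁ * x) + φ w ^ k₁ * (φ w ^ k₂ * y) := by
        rw [pow_add]; ring
      rw [this]
      exact A.add_mem (A.mul_mem (A.pow_mem hwA _) h₁) (A.mul_mem (A.pow_mem hwA _) h₂)
    | mul x y _ _ ihx ihy =>
      obtain ⟨k₁, h₁⟩ := ihx
      obtain ⟨k₂, h₂⟩ := ihy
      refine ⟨k₁ + k₂, ?_⟩
      have : φ w ^ (k₁ + k₂) * (x * y) = (φ w ^ k₁ * x) * (φ w ^ k₂ * y) := by
        rw [pow_add]; ring
      rw [this]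
      exact A.mul_mem h₁ h₂
  -- `W ⊆ A`
  have hWA : ∀ b : Ω, v b ≤ 1 → b ∈ A := by
    intro b hb
    have hex := hloc b
    have hk : Nat.find hex = 0 := by
      by_contra hne
      obtain ⟨k, hk⟩ : ∃ k, Nat.find hex = k + 1 := ⟨Nat.find hex - 1, by omega⟩
      have hmem := Nat.find_spec hex
      rw [hk] at hmem
      have hlt : v (φ w ^ (k + 1) * b) < 1 := by
        rw [map_mul, map_pow, pow_succ]
        calc v (φ w) ^ k * v (φ w) * v b ≤ 1 * v (φ w) * 1 := by
              gcongr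
              exact pow_le_one₀ zero_le hvw.le
          _ = v (φ w) := by rw [one_mul, mul_one]
          _ < 1 := hvw
      obtain ⟨a', ha', h'⟩ := hdiv _ hmem hlt
      have : φ w ^ k * b = a' := by
        have h6 : φ w * (φ w ^ k * b) = φ w * a' := by rw [← h', pow_succ]; ring
        exact mul_left_cancel₀ hφw0 h6
      have hmin := Nat.find_min hex (m := k) (by omega)
      exact hmin (this ▸ ha')
    have := Nat.find_spec hex
    rwa [hk, pow_zero, one_mul] at this
  refine ⟨fun b hbW hbinv => ?_, fun b hbW => ?_⟩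
  · have hb1 : v b < 1 := valuation_lt_one_of_inv_notMem W hbinv
    obtain ⟨a', ha', h'⟩ := hdiv b (hWA b hb1.le) hb1
    rw [h', mul_comm (φ w), mul_assoc, mul_inv_cancel₀ hφw0, mul_one]
    exact (W.valuation_le_one_iff _).mp (hAW a' ha')
  · obtain ⟨a₀, ha₀, a', ha', h'⟩ := hdec b (hWA b ((W.valuation_le_one_iff _).mpr hbW))
    refine ⟨a₀, ha₀, ?_⟩
    rw [h', add_sub_cancel_left, mul_comm (φ w), mul_assoc, mul_inv_cancel₀ hφw0, mul_one]
    exact (W.valuation_le_one_iff _).mp (hAW a' ha')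

end Abstract

section Roots

variable {K : Type*} [Field K]

/-- The geometric sum `1 + ζ + ⋯ + ζ ^ (j - 1) = (ζ ^ j - 1) / (ζ - 1)`. -/
noncomputable def geomU (ζ : K) (j : ℕ) : K := ∑ l ∈ Finset.range j, ζ ^ l

theorem geomU_mul (ζ : K) (j : ℕ) : geomU ζ j * (ζ - 1) = ζ ^ j - 1 := geom_sum_mul ζ j

theorem geomU_mem (V : ValuationSubring K) {ζ : K} (hζV : ζ ∈ V) (j : ℕ) : geomU ζ j ∈ V :=
  sum_mem fun l _ => pow_mem hζV l

/-- Cyclotomic units: `(ζ ^ j - 1) / (ζ - 1)` is invertible, with inverse a geometric sum. -/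
theorem exists_geomU_inv {p : ℕ} (hp : p.Prime) {ζ : K} (hζ : IsPrimitiveRoot ζ p) {j : ℕ}
    (hj0 : 0 < j) (hjp : j < p) : ∃ j' : ℕ, geomU ζ j * geomU (ζ ^ j) j' = 1 := by
  have hcop : Nat.Coprime j p := (Nat.coprime_of_lt_prime hj0.ne' hjp hp).symm
  obtain ⟨j', -, hj'⟩ := Nat.exists_mul_mod_eq_one_of_coprime hcop hp.one_lt
  refine ⟨j', ?_⟩
  have hlam : ζ - 1 ≠ 0 := sub_ne_zero.2 (hζ.ne_one hp.one_lt)
  have h1 := geomU_mul ζ j
  have h2 := geomU_mul (ζ ^ j) j'
  have h3 : (ζ ^ j) ^ j' = ζ := by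
    rw [← pow_mul, pow_eq_pow_mod (j * j') hζ.pow_eq_one, hj', pow_one]
  rw [h3, ← h1] at h2
  apply mul_right_cancel₀ hlam
  rw [one_mul]
  linear_combination h2

/-- `x ^ p - 1 = ∏_{k < p} (x - ζ ^ k)`. -/
theorem prod_range_sub_pow {p : ℕ} (hp : 0 < p) {ζ : K} (hζ : IsPrimitiveRoot ζ p) (x : K) :
    ∏ k ∈ Finset.range p, (x - ζ ^ k) = x ^ p - 1 := by
  classical
  have h := congrArg (eval x) (X_pow_sub_one_eq_prod hp hζ)
  simp only [eval_sub, eval_pow, eval_X, eval_one, eval_prod, eval_C] at h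
  rw [h]
  have : NeZero p := ⟨hp.ne'⟩
  refine Finset.prod_nbij (fun k => ζ ^ k) ?_ ?_ ?_ ?_
  · intro k _
    rw [mem_nthRootsFinset hp, ← pow_mul, mul_comm, pow_mul, hζ.pow_eq_one, one_pow]
  · intro a ha b hb hab
    exact hζ.pow_inj (Finset.mem_range.1 ha) (Finset.mem_range.1 hb) hab
  · intro η hη
    rw [Finset.mem_coe, mem_nthRootsFinset hp] at hη
    obtain ⟨i, hi, rfl⟩ := hζ.eq_pow_of_pow_eq_one hη
    exact ⟨i, Finset.mem_coe.2 (Finset.mem_range.2 hi), rfl⟩
  · intro k _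
    rfl

end Roots

section ASUnram

variable {K Ω : Type*} [Field K] [Field Ω] [Algebra K Ω]

/-- **Wild cyclic covers `z ^ p = 1 + (ζ - 1) ^ p w t` are unramified with trivial residue
extension** at every valuation subring `W` over `V`. -/
theorem as_unramified (V : ValuationSubring K) (W : ValuationSubring Ω)
    (hVW : ∀ a ∈ V, algebraMap K Ω a ∈ W)
    (w : K) (hwV : w ∈ V) (hw0 : w ≠ 0) (hwW : (algebraMap K Ω w)⁻¹ ∉ W)
    (hVgen : ∀ a ∈ V, a⁻¹ ∉ V → a * w⁻¹ ∈ V)
    (hdisc : ∀ c : K, ∃ k : ℕ, w ^ k * c ∈ V)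
    (p : ℕ) (hp : p.Prime)
    (ζ : K) (hζ : IsPrimitiveRoot ζ p)
    (t : K) (ht : t ∈ V) (z : Ω) (hz : z ^ p = algebraMap K Ω (1 + (ζ - 1) ^ p * w * t))
    (hgen : ∀ b : Ω, b ∈ Algebra.adjoin K ({z} : Set Ω)) :
    (∀ b ∈ W, b⁻¹ ∉ W → b * (algebraMap K Ω w)⁻¹ ∈ W) ∧
    (∀ b ∈ W, ∃ a ∈ V, (b - algebraMap K Ω a) * (algebraMap K Ω w)⁻¹ ∈ W) := by
  classical
  have hp0 : 0 < p := hp.pos
  set φ := algebraMap K Ω with hφ
  set v := W.valuation with hv
  have hφinj : Function.Injective φ := (algebraMap K Ω).injective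
  have hφw0 : φ w ≠ 0 := fun h => hw0 (hφinj (by rw [h, map_zero]))
  have hvV : ∀ a ∈ V, v (φ a) ≤ 1 := fun a ha => (W.valuation_le_one_iff _).mpr (hVW a ha)
  have hvw : v (φ w) < 1 := valuation_lt_one_of_inv_notMem W hwW
  have hunitV : ∀ a ∈ V, a⁻¹ ∈ V → a ≠ 0 → v (φ a) = 1 := by
    intro a ha hai ha0
    have h1 := hvV a ha
    have h2 := hvV _ hai
    rw [map_inv₀, map_inv₀] at h2
    have hpos : 0 < v (φ a) := by
      rw [pos_iff_ne_zero]
      exact (Valuation.ne_zero_iff _).mpr (fun h => ha0 (hφinj (by rw [h, map_zero])))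
    exact le_antisymm h1 ((inv_le_one₀ hpos).mp h2)
  -- the root of unity
  have hζp : ζ ^ p = 1 := hζ.pow_eq_one
  have hζV : ζ ∈ V := by
    rcases V.mem_or_inv_mem ζ with h | h
    · exact h
    · have h1 : (ζ⁻¹) ^ p = 1 := by rw [inv_pow, hζp, inv_one]
      have h2 := Fermat.Agent.A2.H552.inv_eq_pow_of_pow_eq_one hp0 h1
      rw [inv_inv] at h2
      rw [h2]
      exact pow_mem h _
  have hζ' : IsPrimitiveRoot (φ ζ) p := hζ.map_of_injective hφinj
  have hvζ : v (φ ζ) = 1 := by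
    have h1 : v (φ ζ) ^ p = 1 := by rw [← map_pow, ← map_pow, hζp, map_one, map_one]
    exact eq_one_of_pow_eq_one₀ hp0.ne' h1
  set lam : K := ζ - 1 with hlam
  have hlam0 : lam ≠ 0 := sub_ne_zero.2 (hζ.ne_one hp.one_lt)
  have hφlam0 : φ lam ≠ 0 := fun h => hlam0 (hφinj (by rw [h, map_zero]))
  have hvlam0 : v (φ lam) ≠ 0 := (Valuation.ne_zero_iff _).mpr hφlam0
  have hvlampos : 0 < v (φ lam) := zero_lt_iff.2 hvlam0
  -- cyclotomic units
  have hu : ∀ j, 0 < j → j < p → v (φ (geomU ζ j)) = 1 := by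
    intro j hj0 hjp
    obtain ⟨j', hj'⟩ := exists_geomU_inv hp hζ hj0 hjp
    refine hunitV _ (geomU_mem V hζV j) ?_ (left_ne_zero_of_mul_eq_one hj')
    rw [inv_eq_of_mul_eq_one_right hj']
    exact geomU_mem V (pow_mem hζV j) j'
  have hugeom : ∀ k, φ (geomU ζ k) * φ lam = φ ζ ^ k - 1 := by
    intro k
    rw [← map_mul, geomU_mul, map_sub, map_pow, map_one]
  have hroot : ∀ j, 0 < j → j < p → v (φ ζ ^ j - 1) = v (φ lam) := by
    intro j hj0 hjp
    rw [← hugeom j, map_mul, hu j hj0 hjp, one_mul]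
  -- the product formula
  have hprod : ∀ x : Ω, ∏ k ∈ Finset.range p, (x - φ ζ ^ k) = x ^ p - 1 :=
    prod_range_sub_pow hp0 hζ'
  have hzp : z ^ p - 1 = φ lam ^ p * φ w * φ t := by
    rw [hz, map_add, map_one, map_mul, map_mul, map_pow]
    ring
  have hvwt : v (φ w) * v (φ t) < 1 :=
    calc v (φ w) * v (φ t) ≤ v (φ w) * 1 := by gcongr; exact hvV t ht
      _ = v (φ w) := mul_one _
      _ < 1 := hvw
  have hvzp : v (z ^ p - 1) < v (φ lam) ^ p := by
    rw [hzp, map_mul, map_mul, map_pow, mul_assoc]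
    calc v (φ lam) ^ p * (v (φ w) * v (φ t)) < v (φ lam) ^ p * 1 :=
          mul_lt_mul_of_pos_left hvwt (pow_pos hvlampos p)
      _ = v (φ lam) ^ p := mul_one _
  -- some root of unity is close to `z`
  obtain ⟨k₀, hk₀, hzk₀⟩ : ∃ k₀ < p, v (z - φ ζ ^ k₀) < v (φ lam) := by
    by_contra hcon
    simp only [not_exists, not_and, not_lt] at hcon
    have h1 : v (φ lam) ^ p ≤ v (z ^ p - 1) := by
      rw [← hprod z, map_prod]
      have := Finset.pow_card_le_prod (Finset.range p) (fun k => v (z - φ ζ ^ k)) (v (φ lam))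
        (fun k hk => hcon k (Finset.mem_range.1 hk))
      rwa [Finset.card_range] at this
    exact absurd hvzp (not_lt.2 h1)
  -- normalise
  set η := φ ζ ^ k₀ with hη
  have hvη : v η = 1 := by rw [hη, map_pow, hvζ, one_pow]
  have hη0 : η ≠ 0 := by
    intro h
    rw [h, map_zero] at hvη
    exact zero_ne_one hvη
  have hηp : η ^ p = 1 := by
    rw [hη, ← pow_mul, mul_comm, pow_mul, hζ'.pow_eq_one, one_pow]
  set z₁ := z * η⁻¹ with hz₁
  have hz₁p : z₁ ^ p - 1 = φ lam ^ p * φ w * φ t := by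
    rw [hz₁, mul_pow, inv_pow, hηp, inv_one, mul_one, hzp]
  have hvz₁ : v (z₁ - 1) < v (φ lam) := by
    have : z₁ - 1 = (z - η) * η⁻¹ := by
      rw [hz₁, sub_mul, mul_inv_cancel₀ hη0]
    rw [this, map_mul, map_inv₀, hvη, inv_one, mul_one]
    exact hzk₀
  have hfac : ∀ k, 0 < k → k < p → v (z₁ - φ ζ ^ k) = v (φ lam) := by
    intro k hk0 hkp
    have : z₁ - φ ζ ^ k = (z₁ - 1) - (φ ζ ^ k - 1) := by ring
    rw [this, Valuation.map_sub_eq_of_lt_right]
    · exact hroot k hk0 hkp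
    · rw [hroot k hk0 hkp]
      exact hvz₁
  -- the generator `s`
  set s := (z₁ - 1) * (φ lam * φ w)⁻¹ with hs
  have hz₁s : z₁ - 1 = φ lam * φ w * s := by
    rw [hs, mul_comm (z₁ - 1), ← mul_assoc, mul_inv_cancel₀ (mul_ne_zero hφlam0 hφw0), one_mul]
  have hfacs : ∀ k, z₁ - φ ζ ^ k = φ lam * (φ w * s - φ (geomU ζ k)) := by
    intro k
    linear_combination hz₁s + hugeom k
  set PP := ∏ k ∈ Finset.Ico 1 p, (φ w * s - φ (geomU ζ k)) with hPP
  have hsplit : z₁ ^ p - 1 = φ lam ^ p * φ w * (s * PP) := by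
    rw [← hprod z₁, Finset.range_eq_Ico, Finset.prod_eq_prod_Ico_succ_bot hp0]
    have h0 : z₁ - φ ζ ^ 0 = φ lam * φ w * s := by rw [pow_zero, hz₁s]
    rw [h0, Finset.prod_congr rfl (fun k _ => hfacs k), Finset.prod_mul_distrib,
      Finset.prod_const, Nat.card_Ico, ← hPP]
    have hpp : p = (p - 1) + 1 := by omega
    have : φ lam ^ p = φ lam ^ (p - 1) * φ lam := by
      conv_lhs => rw [hpp]
      rw [pow_succ]
    rw [this]
    ring
  have hsPP : s * PP = φ t := by
    have h1 : φ lam ^ p * φ w * (s * PP) = φ lam ^ p * φ w * φ t := by rw [← hsplit, hz₁p]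
    exact mul_left_cancel₀ (mul_ne_zero (pow_ne_zero p hφlam0) hφw0) h1
  have hvPP : v PP = 1 := by
    rw [hPP, map_prod]
    refine Finset.prod_eq_one fun k hk => ?_
    rw [Finset.mem_Ico] at hk
    have h1 := hfac k (by omega) hk.2
    rw [hfacs k, map_mul] at h1
    have h2 : v (φ lam) * v (φ w * s - φ (geomU ζ k)) = v (φ lam) * 1 := by rw [h1, mul_one]
    exact mul_left_cancel₀ hvlam0 h2
  have hPP0 : PP ≠ 0 := by
    intro h
    rw [h, map_zero] at hvPP
    exact zero_ne_one hvPP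
  have hsW : s ∈ W := by
    rw [← W.valuation_le_one_iff]
    have : s = φ t * PP⁻¹ := by
      rw [← hsPP, mul_assoc, mul_inv_cancel₀ hPP0, mul_one]
    rw [this, map_mul, map_inv₀, hvPP, inv_one, mul_one]
    exact hvV t ht
  -- the subring `A = V[s]`
  set A : Subring Ω := Subring.closure (φ '' (V : Set K) ∪ {s}) with hA
  have hVA : ∀ a ∈ V, φ a ∈ A := fun a ha =>
    Subring.subset_closure (Or.inl ⟨a, ha, rfl⟩)
  have hsA : s ∈ A := Subring.subset_closure (Or.inr rfl)
  have hwA : φ w ∈ A := hVA w hwV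
  -- `PP ∈ (unit of V) + w A`
  have hPPdec : ∀ S : Finset ℕ, (∀ k ∈ S, 0 < k ∧ k < p) →
      ∃ U ∈ V, U⁻¹ ∈ V ∧ U ≠ 0 ∧ ∃ a ∈ A,
        ∏ k ∈ S, (φ w * s - φ (geomU ζ k)) = φ U + φ w * a := by
    intro S
    induction S using Finset.induction_on with
    | empty =>
      intro _
      exact ⟨1, one_mem V, by rw [inv_one]; exact one_mem V, one_ne_zero, 0, A.zero_mem, by simp⟩
    | insert k S hkS ih =>
      intro hS
      obtain ⟨U, hU, hUi, hU0, a, ha, hprodS⟩ := ih fun k' hk' => hS k' (Finset.mem_insert_of_mem hk')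
      obtain ⟨hk0, hkp⟩ := hS k (Finset.mem_insert_self k S)
      obtain ⟨j', hj'⟩ := exists_geomU_inv hp hζ hk0 hkp
      have hgV : geomU ζ k ∈ V := geomU_mem V hζV k
      have hgi : (geomU ζ k)⁻¹ ∈ V := by
        rw [inv_eq_of_mul_eq_one_right hj']
        exact geomU_mem V (pow_mem hζV k) j'
      have hg0 : geomU ζ k ≠ 0 := left_ne_zero_of_mul_eq_one hj'
      refine ⟨-(geomU ζ k) * U, mul_mem (neg_mem hgV) hU, ?_, mul_ne_zero (neg_ne_zero.2 hg0) hU0,
        s * φ U + (φ w * s - φ (geomU ζ k)) * a, ?_, ?_⟩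
      · rw [mul_inv, inv_neg]
        exact mul_mem (neg_mem hgi) hUi
      · exact A.add_mem (A.mul_mem hsA (hVA U hU))
          (A.mul_mem (A.sub_mem (A.mul_mem hwA hsA) (hVA _ hgV)) ha)
      · rw [Finset.prod_insert hkS, hprodS, map_mul, map_neg]
        ring
  obtain ⟨U, hU, hUi, hU0, a, ha, hPPU⟩ := hPPdec (Finset.Ico 1 p) fun k hk => by
    rw [Finset.mem_Ico] at hk
    exact ⟨by omega, hk.2⟩
  rw [← hPP] at hPPU
  have hφU : φ U * φ U⁻¹ = 1 := by rw [← map_mul, mul_inv_cancel₀ hU0, map_one]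
  have hsdec : ∃ a₀ ∈ V, ∃ a' ∈ A, s = φ a₀ + φ w * a' := by
    refine ⟨U⁻¹ * t, mul_mem hUi ht, -(φ U⁻¹ * s * a), A.neg_mem
      (A.mul_mem (A.mul_mem (hVA _ hUi) hsA) ha), ?_⟩
    have h1 : s * (φ U + φ w * a) = φ t := by rw [← hPPU]; exact hsPP
    rw [map_mul]
    linear_combination (φ U⁻¹) * h1 - s * hφU
  have hzA : z ∈ A := by
    have hzz : z = η * (1 + φ lam * φ w * s) := by
      rw [← hz₁s, hz₁]
      field_simp
      ring
    rw [hzz]
    refine A.mul_mem ?_ (A.add_mem A.one_mem (A.mul_mem (A.mul_mem ?_ hwA) hsA))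
    · rw [hη, ← map_pow]
      exact hVA _ (pow_mem hζV k₀)
    · exact hVA _ (sub_mem hζV (one_mem V))
  exact unramified_of_adjoin_decomp V W hVW w hwV hw0 hwW hVgen hdisc s hsW hsdec z hzA hgen

end ASUnram

end Fermat.Agent.Ribet.H552

end
-- ===== PACK-END Ribet/H552/ASUnram.lean

-- ===== PACK-BEGIN A2/H552/Const.lean
section








/-!
# A2 / ALG (c1), part 2 (helper552): no new constants in an unramified extension

`R` a Henselian discrete valuation ring of characteristic zero with algebraically closed residue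
field, uniformiser `w`.

* `exists_algebraMap_eq_of_isAlgebraic` (ring form): `O ⊇ R` a domain whose non-units are exactly
  the multiples of `w` (a local ring with maximal ideal `w O`: "`e = 1`"; no finiteness, no
  noetherianity, no rank assumption).  Then every element of `O` algebraic over `R` lies in `R`.
* `mem_range_of_isAlgebraic_of_valuationSubring` (field form): `E = Frac R`, `L / E` any field
  extension, `V` a valuation subring of `L` containing `R` in which `w` is a non-unit generating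
  the non-units.  Then every element of `L` algebraic over `E` lies in `E`.

Application (A2, route G, step (c1)): `E` is algebraically closed in the Kummer cover `𝔽` of `F`
as soon as ONE of the two Gauss valuations `V₁` of `F` (uniformiser `w`) has an extension to `𝔽`
with `e = 1` (e.g. when `V₁` splits completely).
-/

set_option autoImplicit false

namespace Fermat.Agent.A2.H552

open Polynomial IsLocalRing

section RingForm

variable {R O : Type*} [CommRing R] [IsDomain R] [IsDiscreteValuationRing R]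
  [CommRing O] [IsDomain O] [Algebra R O]

/-- If `w^n` divides `r` in `O`, it does so in `R`. -/
theorem pow_dvd_of_map_pow_dvd {w : R} (hw : Irreducible w)
    (hwO : ¬ IsUnit (algebraMap R O w)) (hinj : Function.Injective (algebraMap R O))
    (n : ℕ) (r : R) (h : algebraMap R O w ^ n ∣ algebraMap R O r) : w ^ n ∣ r := by
  rcases eq_or_ne r 0 with rfl | hr
  · exact dvd_zero _
  obtain ⟨a, u, rfl⟩ := IsDiscreteValuationRing.eq_unit_mul_pow_irreducible hr hw
  rcases le_or_gt n a with hna | hna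
  · exact Dvd.dvd.mul_left (pow_dvd_pow w hna) _
  exfalso
  obtain ⟨k, rfl⟩ : ∃ k, n = a + (k + 1) := ⟨n - a - 1, by omega⟩
  have hw0 : algebraMap R O w ≠ 0 := by
    intro h0
    exact hw.ne_zero (hinj (by rw [h0, map_zero]))
  rw [map_mul, map_pow, pow_add, mul_comm (algebraMap R O (u : R))] at h
  have h' := (mul_dvd_mul_iff_left (pow_ne_zero a hw0)).mp h
  have h'' : algebraMap R O w ∣ algebraMap R O (u : R) :=
    (dvd_pow_self _ (Nat.succ_ne_zero k)).trans h'
  exact hwO (isUnit_of_dvd_unit h'' (u.isUnit.map (algebraMap R O)))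

variable [IsAlgClosed (ResidueField R)]

/-- The residue field of `O` is that of `R`: every element of `O` algebraic over `R` is
congruent modulo `w` to an element of `R`. -/
theorem exists_sub_dvd_of_isAlgebraic {w : R} (hw : Irreducible w)
    (hnu : ∀ b : O, ¬ IsUnit b → algebraMap R O w ∣ b)
    (hwO : ¬ IsUnit (algebraMap R O w)) (hinj : Function.Injective (algebraMap R O))
    (β : O) (hβ : IsAlgebraic R β) : ∃ b : R, algebraMap R O w ∣ β - algebraMap R O b := by
  obtain ⟨p, hp0, hp⟩ := hβ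
  have hmax : maximalIdeal R = Ideal.span {w} := hw.maximalIdeal_eq
  have hw0 : algebraMap R O w ≠ 0 := by
    intro h0
    exact hw.ne_zero (hinj (by rw [h0, map_zero]))
  have hCw : ¬ IsUnit (C w : R[X]) := by
    rw [Polynomial.isUnit_iff]
    rintro ⟨r, hr, hrw⟩
    rw [C_inj] at hrw
    exact hw.not_isUnit (hrw ▸ hr)
  -- make `p` primitive
  obtain ⟨n, p₀, hndvd, rfl⟩ := WfDvdMonoid.max_power_factor' hp0 hCw
  have hp₀ : aeval β p₀ = 0 := by
    rw [map_mul, map_pow, aeval_C] at hp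
    exact (mul_eq_zero.mp hp).resolve_left (pow_ne_zero n hw0)
  have hbar : p₀.map (residue R) ≠ 0 := by
    intro h
    apply hndvd
    rw [C_dvd_iff_dvd_coeff]
    intro i
    have hi : residue R (p₀.coeff i) = 0 := by
      rw [← coeff_map, h, coeff_zero]
    rw [residue_eq_zero_iff, hmax, Ideal.mem_span_singleton] at hi
    exact hi
  -- split the reduction and lift the factorisation
  set pb := p₀.map (residue R) with hpb
  have hsplit : pb = C pb.leadingCoeff * (pb.roots.map fun x => X - C x).prod :=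
    (IsAlgClosed.splits pb).eq_prod_roots
  have hsurj : Function.Surjective (residue R) := Ideal.Quotient.mk_surjective
  let lift : ResidueField R → R := Function.surjInv hsurj
  have hlift : ∀ x, residue R (lift x) = x := Function.surjInv_eq hsurj
  set ℓ := lift pb.leadingCoeff with hℓ
  have hℓu : IsUnit ℓ := by
    rw [← IsLocalRing.notMem_maximalIdeal, ← residue_eq_zero_iff, hℓ, hlift]
    exact leadingCoeff_ne_zero.mpr hbar
  set P : R[X] := C ℓ * (pb.roots.map fun x => X - C (lift x)).prod with hP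
  have hPbar : P.map (residue R) = pb := by
    rw [hP, Polynomial.map_mul, map_C, hℓ, hlift, Polynomial.map_multiset_prod,
      Multiset.map_map]
    conv_rhs => rw [hsplit]
    congr 2
    refine Multiset.map_congr rfl fun x _ => ?_
    simp [hlift]
  have hdiff : C w ∣ p₀ - P := by
    rw [C_dvd_iff_dvd_coeff]
    intro i
    have hi : residue R ((p₀ - P).coeff i) = 0 := by
      rw [← coeff_map, Polynomial.map_sub, hPbar, ← hpb, sub_self, coeff_zero]
    rw [residue_eq_zero_iff, hmax, Ideal.mem_span_singleton] at hi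
    exact hi
  obtain ⟨Q, hQ⟩ := hdiff
  have heval : aeval β P = - (algebraMap R O w * aeval β Q) := by
    have h1 : aeval β p₀ - aeval β P = algebraMap R O w * aeval β Q := by
      rw [← map_sub, hQ, map_mul, aeval_C]
    rw [hp₀, zero_sub] at h1
    rw [← h1, neg_neg]
  have hPeval : aeval β P = algebraMap R O ℓ *
      (pb.roots.map fun x => β - algebraMap R O (lift x)).prod := by
    rw [hP, map_mul, aeval_C, map_multiset_prod, Multiset.map_map]
    congr 2
    refine Multiset.map_congr rfl fun x _ => ?_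
    simp
  by_contra hcon
  have hunits : ∀ x ∈ pb.roots, IsUnit (β - algebraMap R O (lift x)) := by
    intro x _
    by_contra hx
    exact hcon ⟨lift x, hnu _ hx⟩
  have hprod : IsUnit (pb.roots.map fun x => β - algebraMap R O (lift x)).prod := by
    apply Multiset.prod_induction (p := fun y : O => IsUnit y)
    · intro a b ha hb; exact ha.mul hb
    · exact isUnit_one
    · intro y hy
      obtain ⟨x, hx, rfl⟩ := Multiset.mem_map.mp hy
      exact hunits x hx
  have hPu : IsUnit (aeval β P) := by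
    rw [hPeval]
    exact (hℓu.map (algebraMap R O)).mul hprod
  apply hwO
  refine isUnit_of_dvd_unit ?_ hPu
  rw [heval]
  exact (Dvd.intro _ rfl).neg_right ..

/-- Successive approximation: an element of `O` algebraic over `R` is congruent to an element
of `R` modulo every power of `w`. -/
theorem exists_pow_dvd_sub_of_isAlgebraic {w : R} (hw : Irreducible w)
    (hnu : ∀ b : O, ¬ IsUnit b → algebraMap R O w ∣ b)
    (hwO : ¬ IsUnit (algebraMap R O w)) (hinj : Function.Injective (algebraMap R O))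
    (α : O) (hα : IsAlgebraic R α) (j : ℕ) :
    ∃ s : R, algebraMap R O w ^ j ∣ α - algebraMap R O s := by
  have hw0 : algebraMap R O w ≠ 0 := by
    intro h0
    exact hw.ne_zero (hinj (by rw [h0, map_zero]))
  induction j with
  | zero => exact ⟨0, by simp⟩
  | succ j ih =>
    obtain ⟨s, β, hβ⟩ := ih
    have hβalg : IsAlgebraic R β := by
      refine IsAlgebraic.of_mul (y := algebraMap R O w ^ j)
        (mem_nonZeroDivisors_of_ne_zero (pow_ne_zero j hw0)) ?_ ?_
      · rw [← map_pow]; exact isAlgebraic_algebraMap _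
      · rw [← hβ]; exact hα.sub (isAlgebraic_algebraMap s)
    obtain ⟨b, γ, hγ⟩ := exists_sub_dvd_of_isAlgebraic hw hnu hwO hinj β hβalg
    refine ⟨s + w ^ j * b, γ, ?_⟩
    rw [map_add, map_mul, map_pow, pow_succ]
    linear_combination hβ + algebraMap R O w ^ j * hγ

omit [IsAlgClosed (ResidueField R)] in
/-- A nonzero element of `O` algebraic over `R` has finite `w`-adic valuation. -/
theorem exists_eq_pow_mul_unit_of_isAlgebraic {w : R} (hw : Irreducible w)
    (hnu : ∀ b : O, ¬ IsUnit b → algebraMap R O w ∣ b)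
    (hwO : ¬ IsUnit (algebraMap R O w)) (hinj : Function.Injective (algebraMap R O))
    (γ : O) (hγ0 : γ ≠ 0) (hγ : IsAlgebraic R γ) :
    ∃ (c : ℕ) (η : O), IsUnit η ∧ γ = algebraMap R O w ^ c * η := by
  obtain ⟨r, hr0, hr⟩ := hγ.exists_nonzero_dvd (mem_nonZeroDivisors_of_ne_zero hγ0)
  obtain ⟨a, u, rfl⟩ := IsDiscreteValuationRing.eq_unit_mul_pow_irreducible hr0 hw
  by_contra hcon
  have hall : ∀ c, algebraMap R O w ^ c ∣ γ := by
    intro c
    induction c with
    | zero => simp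
    | succ c ih =>
      obtain ⟨η, hη⟩ := ih
      have hηu : ¬ IsUnit η := fun hu => hcon ⟨c, η, hu, hη⟩
      obtain ⟨η', hη'⟩ := hnu η hηu
      exact ⟨η', by rw [hη, hη', pow_succ, mul_assoc]⟩
  have h1 : algebraMap R O w ^ (a + 1) ∣ algebraMap R O (↑u * w ^ a) := (hall (a + 1)).trans hr
  have h2 := pow_dvd_of_map_pow_dvd hw hwO hinj (a + 1) _ h1
  rw [pow_succ, mul_comm (u : R)] at h2
  have h3 := (mul_dvd_mul_iff_left (pow_ne_zero a hw.ne_zero)).mp h2
  exact hw.not_isUnit (isUnit_of_dvd_unit h3 u.isUnit)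

/-- **No new constants (ring form).**  `R` a Henselian discrete valuation ring of characteristic
zero with algebraically closed residue field and uniformiser `w`; `O ⊇ R` a domain whose
non-units are exactly the multiples of `w`.  Then every element of `O` which is algebraic over
`R` lies in `R`. -/
theorem exists_algebraMap_eq_of_isAlgebraic [HenselianLocalRing R] [CharZero R] {w : R}
    (hw : Irreducible w)
    (hnu : ∀ b : O, ¬ IsUnit b → algebraMap R O w ∣ b)
    (hwO : ¬ IsUnit (algebraMap R O w)) (hinj : Function.Injective (algebraMap R O))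
    (α : O) (hα : IsAlgebraic R α) : ∃ r : R, algebraMap R O r = α := by
  classical
  have hw0 : algebraMap R O w ≠ 0 := by
    intro h0
    exact hw.ne_zero (hinj (by rw [h0, map_zero]))
  -- a nonzero polynomial of minimal degree killing `α`
  have hex : ∃ n, ∃ p : R[X], p ≠ 0 ∧ aeval α p = 0 ∧ p.natDegree = n := by
    obtain ⟨p, hp0, hp⟩ := hα
    exact ⟨_, p, hp0, hp, rfl⟩
  obtain ⟨p, hp0, hp, hpn⟩ := Nat.find_spec hex
  have hmin : ∀ q : R[X], q ≠ 0 → aeval α q = 0 → p.natDegree ≤ q.natDegree := by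
    intro q hq0 hq
    rw [hpn]
    exact Nat.find_min' hex ⟨q, hq0, hq, rfl⟩
  have hdeg : p.natDegree ≠ 0 := by
    intro h
    have hpC := eq_C_of_natDegree_eq_zero h
    rw [hpC, aeval_C] at hp
    have h0 : p.coeff 0 = 0 := hinj (hp.trans (map_zero _).symm)
    rw [h0, C_0] at hpC
    exact hp0 hpC
  have hder0 : derivative p ≠ 0 := fun h => hdeg (derivative_eq_zero.mp h)
  have hderα : aeval α (derivative p) ≠ 0 := fun h =>
    absurd (hmin _ hder0 h) (not_le.mpr (natDegree_derivative_lt hdeg))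
  have hγalg : IsAlgebraic R (aeval α (derivative p)) :=
    Algebra.isAlgebraic_adjoin_singleton_iff.mpr hα _ (aeval_mem_adjoin_singleton R α)
  obtain ⟨c, η, hη, hγ⟩ :=
    exists_eq_pow_mul_unit_of_isAlgebraic hw hnu hwO hinj _ hderα hγalg
  obtain ⟨s, δ, hδ⟩ := exists_pow_dvd_sub_of_isAlgebraic hw hnu hwO hinj α hα (2 * c + 1)
  have hsα : algebraMap R O s - α = -(algebraMap R O w ^ (2 * c + 1) * δ) := by
    rw [← hδ]; ring
  have hdvd : ∀ q : R[X], algebraMap R O s - α ∣ algebraMap R O (q.eval s) - aeval α q := by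
    intro q
    have := sub_dvd_eval_sub (algebraMap R O s) α (q.map (algebraMap R O))
    rwa [eval_map, eval_map, eval₂_at_apply, ← aeval_def] at this
  -- `p(s)` is divisible by `w^(2c+1)`
  have e2 : algebraMap R O w ^ (2 * c + 1) ∣ algebraMap R O (p.eval s) := by
    have e1 := hdvd p
    rw [hp, sub_zero] at e1
    refine Dvd.dvd.trans ?_ e1
    exact ⟨-δ, by rw [hsα]; ring⟩
  obtain ⟨u, hu⟩ := pow_dvd_of_map_pow_dvd hw hwO hinj _ _ e2
  -- `p'(s) = w^c * unit`
  obtain ⟨κ, hκ⟩ := hdvd (derivative p)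
  set η' := η - algebraMap R O w ^ (c + 1) * δ * κ with hη'
  have hη'eq : algebraMap R O ((derivative p).eval s) = algebraMap R O w ^ c * η' := by
    have h5 : algebraMap R O ((derivative p).eval s) =
        aeval α (derivative p) + (algebraMap R O s - α) * κ := by
      rw [← hκ]; ring
    rw [h5, hγ, hsα, hη']
    ring
  have hη'u : IsUnit η' := by
    by_contra h
    obtain ⟨t, ht⟩ := hnu _ h
    have hdvdη : algebraMap R O w ∣ η :=
      ⟨t + algebraMap R O w ^ c * δ * κ, by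
        have : η = η' + algebraMap R O w ^ (c + 1) * δ * κ := by rw [hη']; ring
        rw [this, ht]; ring⟩
    exact hwO (isUnit_of_dvd_unit hdvdη hη)
  obtain ⟨ε, hε⟩ := pow_dvd_of_map_pow_dvd hw hwO hinj c _ (Dvd.intro _ hη'eq.symm)
  have hεu : IsUnit ε := by
    have hφε : algebraMap R O ε = η' := by
      have h6 : algebraMap R O w ^ c * algebraMap R O ε = algebraMap R O w ^ c * η' := by
        rw [← hη'eq, hε, map_mul, map_pow]
      exact mul_left_cancel₀ (pow_ne_zero c hw0) h6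
    by_contra h
    have hmem : ε ∈ maximalIdeal R := by rwa [mem_maximalIdeal, mem_nonunits_iff]
    rw [hw.maximalIdeal_eq, Ideal.mem_span_singleton] at hmem
    obtain ⟨t, rfl⟩ := hmem
    apply hwO
    refine isUnit_of_dvd_unit ?_ hη'u
    rw [← hφε, map_mul]
    exact Dvd.intro _ rfl
  have hwm : w ∈ maximalIdeal R := by
    rw [hw.maximalIdeal_eq]
    exact Ideal.mem_span_singleton_self w
  obtain ⟨a, ha, -⟩ := exists_root_of_approx p s w u ε c hwm hεu hu hε
  -- split off the root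
  have hfac : (X - C a) * (p /ₘ (X - C a)) = p := mul_divByMonic_eq_iff_isRoot.mpr ha
  set p₁ := p /ₘ (X - C a) with hp₁
  have hp₁0 : p₁ ≠ 0 := by
    intro h
    rw [h, mul_zero] at hfac
    exact hp0 hfac.symm
  have hdeg1 : p.natDegree = 1 + p₁.natDegree := by
    conv_lhs => rw [← hfac]
    rw [natDegree_mul (X_sub_C_ne_zero a) hp₁0, natDegree_X_sub_C]
  have hp₁α : aeval α p₁ ≠ 0 := fun h => by
    have := hmin p₁ hp₁0 h
    omega
  refine ⟨a, ?_⟩
  have h7 := congrArg (aeval α) hfac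
  rw [map_mul, hp, map_sub, aeval_X, aeval_C] at h7
  have h8 := (mul_eq_zero.mp h7).resolve_right hp₁α
  exact (sub_eq_zero.mp h8).symm

end RingForm

section FieldForm

variable {R E L : Type*} [CommRing R] [IsDomain R] [IsDiscreteValuationRing R]
  [HenselianLocalRing R] [IsAlgClosed (ResidueField R)]
  [Field E] [CharZero E] [Algebra R E] [IsFractionRing R E]
  [Field L] [Algebra E L] [Algebra R L] [IsScalarTower R E L]

/-- **No new constants (field form).**  `R` a Henselian discrete valuation ring with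
algebraically closed residue field, uniformiser `w`, fraction field `E` of characteristic zero;
`L / E` an arbitrary field extension and `V` a valuation subring of `L` containing `R`, in which
`w` is a non-unit and generates the non-units (i.e. `V` is unramified over `R`).  Then `E` is
algebraically closed in `L`. -/
theorem mem_range_of_isAlgebraic_of_valuationSubring (w : R) (hw : Irreducible w)
    (V : ValuationSubring L) (hRV : ∀ r : R, algebraMap R L r ∈ V)
    (hwV : (algebraMap R L w)⁻¹ ∉ V)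
    (hgen : ∀ b ∈ V, b⁻¹ ∉ V → b * (algebraMap R L w)⁻¹ ∈ V)
    (a : L) (ha : IsAlgebraic E a) : a ∈ (algebraMap E L).range := by
  have hinjRE : Function.Injective (algebraMap R E) := IsFractionRing.injective R E
  have hinjRL : Function.Injective (algebraMap R L) := by
    rw [IsScalarTower.algebraMap_eq R E L]
    exact (algebraMap E L).injective.comp hinjRE
  have : CharZero R := ⟨fun m n h => Nat.cast_injective (R := E) (by
    have := congrArg (algebraMap R E) h
    simpa using this)⟩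
  have hwL : algebraMap R L w ≠ 0 := by
    intro h0
    exact hw.ne_zero (hinjRL (by rw [h0, map_zero]))
  let algV : Algebra R V := ((algebraMap R L).codRestrict V.toSubring hRV).toAlgebra
  have hcoe : ∀ r : R, ((algebraMap R V r : V) : L) = algebraMap R L r := fun _ => rfl
  have hinjV : Function.Injective (algebraMap R V) := by
    intro r r' h
    apply hinjRL
    rw [← hcoe, ← hcoe, h]
  have hnu : ∀ b : V, ¬ IsUnit b → algebraMap R V w ∣ b := by
    intro b hb
    rcases eq_or_ne (b : L) 0 with h0 | h0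
    · have : b = 0 := Subtype.ext h0
      rw [this]
      exact dvd_zero _
    have hbinv : (b : L)⁻¹ ∉ V := by
      intro hmem
      apply hb
      refine IsUnit.of_mul_eq_one (⟨(b : L)⁻¹, hmem⟩ : V) (Subtype.ext ?_)
      change (b : L) * (b : L)⁻¹ = 1
      exact mul_inv_cancel₀ h0
    refine ⟨⟨(b : L) * (algebraMap R L w)⁻¹, hgen _ b.2 hbinv⟩, Subtype.ext ?_⟩
    change (b : L) = algebraMap R L w * ((b : L) * (algebraMap R L w)⁻¹)
    field_simp
  have hwO : ¬ IsUnit (algebraMap R V w) := by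
    intro hu
    obtain ⟨c, hc⟩ := hu.exists_right_inv
    have hcL : algebraMap R L w * (c : L) = 1 := by
      have := congrArg (fun x : V => (x : L)) hc
      rw [← hcoe]
      simpa using this
    have : (algebraMap R L w)⁻¹ = (c : L) := by
      rw [inv_eq_iff_eq_inv]
      exact eq_inv_of_mul_eq_one_left hcL
    exact hwV (this ▸ c.2)
  have core : ∀ x ∈ V, IsAlgebraic E x → x ∈ (algebraMap E L).range := by
    intro x hx hxalg
    have hxR : IsAlgebraic R x := (IsFractionRing.isAlgebraic_iff R E L).mpr hxalg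
    obtain ⟨p, hp0, hp⟩ := hxR
    have hx' : IsAlgebraic R (⟨x, hx⟩ : V) := by
      refine ⟨p, hp0, Subtype.ext ?_⟩
      have h1 : V.subtype (aeval (⟨x, hx⟩ : V) p) =
          eval₂ (V.subtype.comp (algebraMap R V)) (V.subtype ⟨x, hx⟩) p := by
        rw [aeval_def, hom_eval₂]
      have h2 : V.subtype.comp (algebraMap R V) = algebraMap R L := RingHom.ext fun _ => rfl
      rw [h2] at h1
      change V.subtype (aeval (⟨x, hx⟩ : V) p) = 0
      rw [h1]
      change eval₂ (algebraMap R L) x p = 0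
      rw [← aeval_def]
      exact hp
    obtain ⟨r, hr⟩ := exists_algebraMap_eq_of_isAlgebraic hw hnu hwO hinjV _ hx'
    refine ⟨algebraMap R E r, ?_⟩
    rw [← IsScalarTower.algebraMap_apply R E L, ← hcoe, hr]
  rcases V.mem_or_inv_mem a with h | h
  · exact core a h ha
  · obtain ⟨e, he⟩ := core a⁻¹ h (IsAlgebraic.inv_iff.mpr ha)
    refine ⟨e⁻¹, ?_⟩
    rw [map_inv₀, he, inv_inv]

end FieldForm

end Fermat.Agent.A2.H552

end
-- ===== PACK-END A2/H552/Const.lean

-- ===== PACK-BEGIN A2/H373/SplitNorm.lean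
section


/-!
# A2 / route G, obligation C2 (COVER-SPLIT), part 2: normalised Kummer generators  (helper373)

`V` discrete with uniformiser `w`, `m` a unit of `V`, `L = F[y_i]` with `y_i ^ m ∈ F`.
A valuation subring `W` of `L` over `V` is *normalised* for `y` if `y_i ≡ 1 mod 𝔪_W` for all `i`.

* `approx_of_pow_eq`   : a normalised generator is approximable by `V` to any order;
* `eq_of_normalized`   : two valuation subrings over `V` normalised for the same `y` are EQUAL;
* `exists_sub_val_le_of_normalized` : `W = V + wⁿ W` (residue degree `1`);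
* `val_le_w_of_normalized` : `𝔪_W = w W` (ramification index `1`).
-/

set_option autoImplicit false

namespace Fermat.Agent.A2.H373

variable {F L : Type*} [Field F] [Field L] [Algebra F L]

local notation "ι" => algebraMap F L

section Units

variable {W : ValuationSubring L}

theorem val_eq_one_of_sub_one {y : L} (hy : W.valuation (y - 1) < 1) : W.valuation y = 1 := by
  have : y = 1 + (y - 1) := by ring
  rw [this]
  exact Valuation.map_one_add_of_lt _ hy

theorem val_pow_sub_one_lt {y : L} (hy : W.valuation (y - 1) < 1) (k : ℕ) :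
    W.valuation (y ^ k - 1) < 1 := by
  rw [← mul_geom_sum, map_mul]
  have h1 : W.valuation (∑ i ∈ Finset.range k, y ^ i) ≤ 1 := by
    refine Valuation.map_sum_le _ fun i _ => ?_
    rw [map_pow, val_eq_one_of_sub_one hy, one_pow]
  calc W.valuation (y - 1) * W.valuation (∑ i ∈ Finset.range k, y ^ i)
      ≤ W.valuation (y - 1) * 1 := mul_le_mul' le_rfl h1
    _ = W.valuation (y - 1) := mul_one _
    _ < 1 := hy

theorem val_geom_sum_sub_lt {y : L} (hy : W.valuation (y - 1) < 1) (m : ℕ) :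
    W.valuation (∑ i ∈ Finset.range m, y ^ i - (m : L)) < 1 := by
  have : ∑ i ∈ Finset.range m, y ^ i - (m : L) = ∑ i ∈ Finset.range m, (y ^ i - 1) := by
    rw [Finset.sum_sub_distrib]
    simp
  rw [this]
  exact Valuation.map_sum_lt _ one_ne_zero fun i _ => val_pow_sub_one_lt hy i

variable {V : ValuationSubring F}

theorem Over.val_natCast_eq_one (h : Over V W) {m : ℕ} (hm0 : (m : F) ≠ 0)
    (hmV : (m : F)⁻¹ ∈ V) : W.valuation (m : L) = 1 := by
  rw [← map_natCast (algebraMap F L)]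
  exact h.val_eq_one hm0 (natCast_mem V m) hmV

theorem Over.val_geom_sum_eq_one (h : Over V W) {m : ℕ} (hm0 : (m : F) ≠ 0)
    (hmV : (m : F)⁻¹ ∈ V) {y : L} (hy : W.valuation (y - 1) < 1) :
    W.valuation (∑ i ∈ Finset.range m, y ^ i) = 1 := by
  have e : ∑ i ∈ Finset.range m, y ^ i = (m : L) + (∑ i ∈ Finset.range m, y ^ i - (m : L)) := by
    ring
  rw [e, Valuation.map_add_eq_of_lt_left, h.val_natCast_eq_one hm0 hmV]
  rw [h.val_natCast_eq_one hm0 hmV]
  exact val_geom_sum_sub_lt hy m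

/-- an `m`-th root of unity `≡ 1` is `1` (`m` a unit of `V`) -/
theorem Over.eq_one_of_pow_eq_one (h : Over V W) {m : ℕ} (hm0 : (m : F) ≠ 0)
    (hmV : (m : F)⁻¹ ∈ V) {ξ : L} (hξ : ξ ^ m = 1) (hξ1 : W.valuation (ξ - 1) < 1) : ξ = 1 := by
  by_contra hne
  have h1 : (ξ - 1) * ∑ i ∈ Finset.range m, ξ ^ i = 0 := by
    rw [mul_geom_sum, hξ, sub_self]
  have h2 : ∑ i ∈ Finset.range m, ξ ^ i = 0 := by
    rcases mul_eq_zero.1 h1 with h | h
    · exact absurd (sub_eq_zero.1 h) hne
    · exact h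
  have h3 := h.val_geom_sum_eq_one hm0 hmV hξ1
  rw [h2, map_zero] at h3
  exact zero_ne_one h3

end Units

section Normalized

variable {V : ValuationSubring F} {w : F} {𝒲 : Set (ValuationSubring L)}

/-- **A normalised Kummer generator is approximable.** -/
theorem approx_of_pow_eq (h𝒲 : ∀ W ∈ 𝒲, Over V W) (hw : IsUnif V w) (hne : 𝒲.Nonempty)
    {m : ℕ} (hm0 : (m : F) ≠ 0) (hmV : (m : F)⁻¹ ∈ V) {y : L} {h : F} (hy : y ^ m = ι h)
    (hy1 : ∀ W ∈ 𝒲, W.valuation (y - 1) < 1) : Approx V w 𝒲 y := by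
  obtain ⟨W₀, hW₀⟩ := hne
  set S : L := ∑ i ∈ Finset.range m, y ^ i with hS
  have hSu : ∀ W ∈ 𝒲, W.valuation S = 1 := fun W hW =>
    (h𝒲 W hW).val_geom_sum_eq_one hm0 hmV (hy1 W hW)
  have hS0 : S ≠ 0 := by
    intro h0
    have := hSu W₀ hW₀
    rw [h0, map_zero] at this
    exact zero_ne_one this
  have hyS : (y - 1) * S = ι (h - 1) := by
    rw [hS, mul_geom_sum, hy, map_sub, map_one]
  -- `t = h - 1` is a nonunit of `V`
  have ht : W₀.valuation (ι (h - 1)) < 1 := by
    rw [← hyS, map_mul, hSu W₀ hW₀, mul_one]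
    exact hy1 W₀ hW₀
  have htV : h - 1 ∈ V := ((h𝒲 W₀ hW₀).val_le_one_iff _).1 ht.le
  have ht' : (h - 1) * w⁻¹ ∈ V := by
    refine hw.mul_inv_mem htV ?_
    by_cases h0 : h - 1 = 0
    · exact Or.inl h0
    · exact Or.inr fun hinv => absurd ((h𝒲 W₀ hW₀).val_eq_one h0 htV hinv) ht.ne
  set t' : F := (h - 1) * w⁻¹ with ht'def
  have hwt : ι w * ι t' = ι (h - 1) := by
    rw [← map_mul, ht'def, mul_comm w, mul_assoc, inv_mul_cancel₀ hw.ne_zero, mul_one]
  have hyeq : y = 1 + ι w * (ι t' * S⁻¹) := by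
    have : y - 1 = ι w * (ι t' * S⁻¹) := by
      rw [← mul_assoc, hwt, ← hyS, mul_assoc, mul_inv_cancel₀ hS0, mul_one]
    rw [← this]
    ring
  -- induction
  have key : ∀ n : ℕ, ApproxAt V w 𝒲 (n + 1) y := by
    intro n
    induction n with
    | zero =>
      have h0 : ApproxAt V w 𝒲 0 (ι t' * S⁻¹) := by
        refine ⟨0, V.zero_mem, fun W hW => ?_⟩
        rw [map_zero, sub_zero, pow_zero, map_mul, map_inv₀, hSu W hW, inv_one, mul_one]
        exact (h𝒲 W hW).val_le_one ht'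
      have h1 := ApproxAt.w_mul hw h0
      rw [hyeq]
      exact ApproxAt.add (approx_one _) h1
    | succ n ih =>
      have hSn : ApproxAt V w 𝒲 (n + 1) S :=
        ApproxAt.sum _ _ fun i _ => ApproxAt.pow h𝒲 hw ih i
      have hSinv : ApproxAt V w 𝒲 (n + 1) S⁻¹ :=
        ApproxAt.inv h𝒲 hw (by omega) hSn ⟨W₀, hW₀⟩ hSu
      have h2 : ApproxAt V w 𝒲 (n + 1) (ι t' * S⁻¹) :=
        ApproxAt.mul h𝒲 hw (approxAt_algebraMap ht' _) hSinv
      have h3 := ApproxAt.w_mul hw h2
      rw [hyeq]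
      exact ApproxAt.add (approx_one _) h3
  intro n
  exact ApproxAt.mono h𝒲 hw (Nat.le_succ n) (key n)

variable {m : ℕ} {κ : Type*}

/-- **Uniqueness.**  Two valuation subrings of `L = F[y_i]` over `V` which are both normalised
for the Kummer generators `y_i` are equal. -/
theorem eq_of_normalized (hw : IsUnif V w) (hm0 : (m : F) ≠ 0) (hmV : (m : F)⁻¹ ∈ V)
    (y : κ → L) (hpow : ∀ i, ∃ h : F, y i ^ m = ι h)
    (hgen : Algebra.adjoin F (Set.range y) = ⊤)
    {W₁ W₂ : ValuationSubring L} (h₁ : Over V W₁) (h₂ : Over V W₂)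
    (hy₁ : ∀ i, W₁.valuation (y i - 1) < 1) (hy₂ : ∀ i, W₂.valuation (y i - 1) < 1) :
    W₁ = W₂ := by
  set 𝒲 : Set (ValuationSubring L) := {W₁, W₂} with h𝒲def
  have hm₁ : W₁ ∈ 𝒲 := Set.mem_insert _ _
  have hm₂ : W₂ ∈ 𝒲 := Set.mem_insert_of_mem _ (Set.mem_singleton _)
  have h𝒲 : ∀ W ∈ 𝒲, Over V W := by
    intro W hW
    rcases Set.mem_insert_iff.1 hW with rfl | hW
    · exact h₁
    · rw [Set.mem_singleton_iff.1 hW]; exact h₂
  have hy : ∀ i, Approx V w 𝒲 (y i) := by
    intro i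
    obtain ⟨h, hh⟩ := hpow i
    refine approx_of_pow_eq h𝒲 hw ⟨W₁, hm₁⟩ hm0 hmV hh ?_
    intro W hW
    rcases Set.mem_insert_iff.1 hW with rfl | hW
    · exact hy₁ i
    · rw [Set.mem_singleton_iff.1 hW]; exact hy₂ i
  ext b
  rw [mem_iff_approx h𝒲 hw y hy hgen hm₁ b, mem_iff_approx h𝒲 hw y hy hgen hm₂ b]

/-- every element of a normalised `W` is approximable by `V` -/
theorem approx_of_normalized (hw : IsUnif V w) (hm0 : (m : F) ≠ 0) (hmV : (m : F)⁻¹ ∈ V)
    (y : κ → L) (hpow : ∀ i, ∃ h : F, y i ^ m = ι h)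
    (hgen : Algebra.adjoin F (Set.range y) = ⊤)
    {W : ValuationSubring L} (hW : Over V W) (hy : ∀ i, W.valuation (y i - 1) < 1)
    {b : L} (hb : b ∈ W) : Approx V w {W} b := by
  have h𝒲 : ∀ W' ∈ ({W} : Set (ValuationSubring L)), Over V W' := by
    intro W' hW'
    rw [Set.mem_singleton_iff.1 hW']; exact hW
  have hyA : ∀ i, Approx V w {W} (y i) := by
    intro i
    obtain ⟨h, hh⟩ := hpow i
    refine approx_of_pow_eq h𝒲 hw ⟨W, Set.mem_singleton _⟩ hm0 hmV hh ?_
    intro W' hW'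
    rw [Set.mem_singleton_iff.1 hW']; exact hy i
  exact (mem_iff_approx h𝒲 hw y hyA hgen (Set.mem_singleton _) b).1 hb

/-- **Residue degree one** (strong form): `W = V + wⁿ W` for all `n`. -/
theorem exists_sub_val_le_of_normalized (hw : IsUnif V w) (hm0 : (m : F) ≠ 0)
    (hmV : (m : F)⁻¹ ∈ V) (y : κ → L) (hpow : ∀ i, ∃ h : F, y i ^ m = ι h)
    (hgen : Algebra.adjoin F (Set.range y) = ⊤)
    {W : ValuationSubring L} (hW : Over V W) (hy : ∀ i, W.valuation (y i - 1) < 1)
    {b : L} (hb : b ∈ W) (n : ℕ) :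
    ∃ a ∈ V, W.valuation (b - ι a) ≤ W.valuation (ι w) ^ n := by
  obtain ⟨a, ha, h⟩ := approx_of_normalized hw hm0 hmV y hpow hgen hW hy hb n
  exact ⟨a, ha, h W (Set.mem_singleton _)⟩

/-- **Residue degree one**: `W = V + 𝔪_W`. -/
theorem exists_sub_val_lt_of_normalized (hw : IsUnif V w) (hm0 : (m : F) ≠ 0)
    (hmV : (m : F)⁻¹ ∈ V) (y : κ → L) (hpow : ∀ i, ∃ h : F, y i ^ m = ι h)
    (hgen : Algebra.adjoin F (Set.range y) = ⊤)
    {W : ValuationSubring L} (hW : Over V W) (hy : ∀ i, W.valuation (y i - 1) < 1)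
    {b : L} (hb : b ∈ W) : ∃ a ∈ V, W.valuation (b - ι a) < 1 := by
  obtain ⟨a, ha, h⟩ := exists_sub_val_le_of_normalized hw hm0 hmV y hpow hgen hW hy hb 1
  refine ⟨a, ha, h.trans_lt ?_⟩
  rw [pow_one]
  exact hW.val_w_lt_one hw

/-- **Ramification index one**: `𝔪_W = w W`. -/
theorem val_le_w_of_normalized (hw : IsUnif V w) (hm0 : (m : F) ≠ 0)
    (hmV : (m : F)⁻¹ ∈ V) (y : κ → L) (hpow : ∀ i, ∃ h : F, y i ^ m = ι h)
    (hgen : Algebra.adjoin F (Set.range y) = ⊤)
    {W : ValuationSubring L} (hW : Over V W) (hy : ∀ i, W.valuation (y i - 1) < 1)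
    {b : L} (hb : W.valuation b < 1) : W.valuation b ≤ W.valuation (ι w) := by
  have hbW : b ∈ W := (ValuationSubring.valuation_le_one_iff _ _).1 hb.le
  obtain ⟨a, ha, h⟩ := exists_sub_val_le_of_normalized hw hm0 hmV y hpow hgen hW hy hbW 1
  rw [pow_one] at h
  have ha1 : W.valuation (ι a) < 1 := by
    have e : ι a = b + -(b - ι a) := by ring
    rw [e]
    refine Valuation.map_add_lt _ hb ?_
    rw [Valuation.map_neg]
    exact h.trans_lt (hW.val_w_lt_one hw)
  have e : b = (b - ι a) + ι a := by ring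
  rw [e]
  exact Valuation.map_add_le _ h (hW.val_le_w hw ha1)

end Normalized

end Fermat.Agent.A2.H373

end
-- ===== PACK-END A2/H373/SplitNorm.lean

-- ===== PACK-BEGIN A2/T1/H849/Iota.lean
section





/-!
# A2 / T1 (helper849), part 1: the comparison map `ι : F_{N,E} → F̄_N`

`E ⊆ Q̄` an intermediate field, `F₀ ⊆ ℚ((t))` (in the application `modularFunctionFieldFull N`).

* `iota E F₀ : laurentBaseChange E F₀ →+* laurentBaseChange Q̄ F₀` (coefficientwise inclusion),
  injective (`iota_injective`), `iota_algebraMap`.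
* `resAut` : the restriction to `E` of an automorphism `τ` of `Q̄` with `τ E ⊆ E`, `τ⁻¹ E ⊆ E`.
* `iota_arithmeticRingAut` : `ι ∘ (τ|_E) = τ ∘ ι` on function fields.
* `exists_iota_eq` : every `f ∈ laurentBaseChange Q̄ F₀` is `ι y` for some `y` over any
  intermediate field `E` containing a suitable finite set of algebraic numbers.
* `resRE` : the restriction of `τ` in the decomposition group of `P` to `R_E = P ∩ E`.
-/

set_option autoImplicit false

noncomputable section

namespace Fermat.Agent.A2.T1.H849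

open ModularCurve AlgebraicCurve HahnSeries IntermediateField

/-- The field `ℚ̄`. -/
abbrev Qb : Type := AlgebraicClosure ℚ

variable (E : IntermediateField ℚ _root_.Fermat.Agent.A2.T1.H849.Qb) (F₀ : IntermediateField ℚ (LaurentSeries ℚ))

/-- The comparison map `ι : F_E → F̄` (inclusion of coefficients). -/
def iota : laurentBaseChange E F₀ →+* laurentBaseChange _root_.Fermat.Agent.A2.T1.H849.Qb F₀ where
  toFun y := ⟨coeffMap (algebraMap E _root_.Fermat.Agent.A2.T1.H849.Qb) (y : LaurentSeries E),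
    Fermat.Agent.S18.H602.coeffMap_mem_laurentBaseChange F₀ (algebraMap E _root_.Fermat.Agent.A2.T1.H849.Qb) y.2⟩
  map_one' := Subtype.ext (map_one (coeffMap (algebraMap E _root_.Fermat.Agent.A2.T1.H849.Qb)))
  map_mul' _ _ := Subtype.ext (map_mul (coeffMap (algebraMap E _root_.Fermat.Agent.A2.T1.H849.Qb)) _ _)
  map_zero' := Subtype.ext (map_zero (coeffMap (algebraMap E _root_.Fermat.Agent.A2.T1.H849.Qb)))
  map_add' _ _ := Subtype.ext (map_add (coeffMap (algebraMap E _root_.Fermat.Agent.A2.T1.H849.Qb)) _ _)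

@[simp]
theorem coe_iota (y : laurentBaseChange E F₀) :
    ((iota E F₀ y : laurentBaseChange _root_.Fermat.Agent.A2.T1.H849.Qb F₀) : LaurentSeries _root_.Fermat.Agent.A2.T1.H849.Qb) =
      coeffMap (algebraMap E _root_.Fermat.Agent.A2.T1.H849.Qb) (y : LaurentSeries E) := rfl

theorem iota_injective : Function.Injective (iota E F₀) := (iota E F₀).injective

theorem iota_ne_zero {y : laurentBaseChange E F₀} (hy : y ≠ 0) : iota E F₀ y ≠ 0 := by
  intro h
  exact hy (iota_injective E F₀ (h.trans (map_zero _).symm))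

theorem iota_algebraMap (e : E) :
    iota E F₀ (algebraMap E (laurentBaseChange E F₀) e) =
      algebraMap _root_.Fermat.Agent.A2.T1.H849.Qb (laurentBaseChange _root_.Fermat.Agent.A2.T1.H849.Qb F₀) (e : _root_.Fermat.Agent.A2.T1.H849.Qb) := by
  apply Subtype.ext
  show coeffMap (algebraMap E _root_.Fermat.Agent.A2.T1.H849.Qb) (algebraMap E (LaurentSeries E) e) = _
  rw [Fermat.Agent.S18.H602.coeffMap_algebraMap']
  rfl

variable {E}

/-- The restriction to `E` of an automorphism of `ℚ̄` preserving `E`. -/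
def resAut (τ : _root_.Fermat.Agent.A2.T1.H849.Qb ≃ₐ[ℚ] _root_.Fermat.Agent.A2.T1.H849.Qb) (h : ∀ e : _root_.Fermat.Agent.A2.T1.H849.Qb, e ∈ E → τ e ∈ E)
    (h' : ∀ e : _root_.Fermat.Agent.A2.T1.H849.Qb, e ∈ E → τ⁻¹ e ∈ E) : E ≃ₐ[ℚ] E :=
  AlgEquiv.ofBijective
    { toFun := fun e => ⟨τ (e : _root_.Fermat.Agent.A2.T1.H849.Qb), h e e.2⟩
      map_one' := Subtype.ext (map_one τ)
      map_mul' := fun a b => Subtype.ext (map_mul τ (a : _root_.Fermat.Agent.A2.T1.H849.Qb) (b : _root_.Fermat.Agent.A2.T1.H849.Qb))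
      map_zero' := Subtype.ext (map_zero τ)
      map_add' := fun a b => Subtype.ext (map_add τ (a : _root_.Fermat.Agent.A2.T1.H849.Qb) (b : _root_.Fermat.Agent.A2.T1.H849.Qb))
      commutes' := fun r => Subtype.ext (τ.commutes r) }
    ⟨fun _ _ hab => Subtype.ext (τ.injective (congrArg Subtype.val hab)),
      fun b => ⟨⟨τ⁻¹ (b : _root_.Fermat.Agent.A2.T1.H849.Qb), h' b b.2⟩, Subtype.ext (τ.apply_symm_apply (b : _root_.Fermat.Agent.A2.T1.H849.Qb))⟩⟩

@[simp]
theorem coe_resAut (τ : _root_.Fermat.Agent.A2.T1.H849.Qb ≃ₐ[ℚ] _root_.Fermat.Agent.A2.T1.H849.Qb) (h : ∀ e : _root_.Fermat.Agent.A2.T1.H849.Qb, e ∈ E → τ e ∈ E)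
    (h' : ∀ e : _root_.Fermat.Agent.A2.T1.H849.Qb, e ∈ E → τ⁻¹ e ∈ E) (e : E) :
    ((resAut τ h h' e : E) : _root_.Fermat.Agent.A2.T1.H849.Qb) = τ (e : _root_.Fermat.Agent.A2.T1.H849.Qb) := rfl

/-- `ι` intertwines the arithmetic action of `τ_E` on `F_E` with that of `τ` on `F̄`, for any
automorphism `τ_E` of `E` compatible with `τ`. -/
theorem iota_arithmeticRingAut (τ : _root_.Fermat.Agent.A2.T1.H849.Qb ≃ₐ[ℚ] _root_.Fermat.Agent.A2.T1.H849.Qb) (τE : E ≃ₐ[ℚ] E)
    (hτ : ∀ e : E, ((τE e : E) : _root_.Fermat.Agent.A2.T1.H849.Qb) = τ (e : _root_.Fermat.Agent.A2.T1.H849.Qb)) (y : laurentBaseChange E F₀) :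
    iota E F₀ (arithmeticRingAut F₀ τE y) = arithmeticRingAut F₀ τ (iota E F₀ y) := by
  apply Subtype.ext
  show coeffMap (algebraMap E _root_.Fermat.Agent.A2.T1.H849.Qb) (coeffMap (τE : E →+* E) (y : LaurentSeries E)) =
    coeffMap (τ : _root_.Fermat.Agent.A2.T1.H849.Qb →+* _root_.Fermat.Agent.A2.T1.H849.Qb) (coeffMap (algebraMap E _root_.Fermat.Agent.A2.T1.H849.Qb) (y : LaurentSeries E))
  rw [coeffMap_coeffMap, coeffMap_coeffMap]
  exact coeffMap_congr (RingHom.ext fun e => hτ e) _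

variable (E)

/-- Descent: every element of `F̄` comes from `F_E` as soon as `E` contains a suitable finite
set of algebraic numbers. -/
theorem exists_finset_forall_exists_iota_eq (f : laurentBaseChange _root_.Fermat.Agent.A2.T1.H849.Qb F₀) :
    ∃ S : Finset _root_.Fermat.Agent.A2.T1.H849.Qb, ∀ E : IntermediateField ℚ _root_.Fermat.Agent.A2.T1.H849.Qb, (∀ s ∈ S, s ∈ E) →
      ∃ y : laurentBaseChange E F₀, iota E F₀ y = f := by
  obtain ⟨E₀, hfin, hdesc⟩ := Fermat.Agent.S18.H602.exists_finite_descent (F₀ := F₀) f.2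
  have hfg : E₀.FG := IntermediateField.essFiniteType_iff.1 inferInstance
  obtain ⟨S, hS⟩ := hfg
  refine ⟨S, fun E hE => ?_⟩
  have hle : E₀ ≤ E := by
    rw [← hS, IntermediateField.adjoin_le_iff]
    intro s hs
    exact hE s (Finset.mem_coe.1 hs)
  obtain ⟨y, hy, hyf⟩ := hdesc.mono hle
  exact ⟨⟨y, hy⟩, Subtype.ext hyf⟩

end Fermat.Agent.A2.T1.H849

end
end
-- ===== PACK-END A2/T1/H849/Iota.lean

-- ===== PACK-BEGIN S35/G/Spec.lean
section




/-!
# S35, piece (G') — frozen TOP interfaces (architect helper450)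

`(G')` of `origin/helper991:coord/S35-helper991.md`: at a prime `q ‖ N = M * q` the square `s²` of
every Frobenius lift `s` at `q` satisfies a fixed polynomial relation on the `q`-NEW part of the
`m`-torsion of `J₀(N)`, `q ∤ m`.  Form proved here (constant `c = 1`, no hypothesis of
inertia-invariance, at the price of one more factor `s² - 1`):

  `a x = 0`, `b x = 0`, `m x = 0`  ⟹  `(s² - 1)² (s² - q²) x = 0`,

`a = α_*`, `b = β_* : J₀(M q) → J₀(M)` the two degeneracy push-forwards (`degA`, `degB`).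
(The extra factor is harmless for S35: on the rank-2 eigenmodule ANY eigenvector of `s²` with
eigenvalue `1` or `q²` gives `a_q = ± (q + 1)`; see `coord/S35-G-helper450.md`.)

This file: definitions and the statements of the top layer (Prelude language, over `ℚ̄`).
Definitions only (no `sorry`).  Board: `coord/S35-G-helper450.md` on `origin/helper450`.
-/

set_option autoImplicit false
set_option linter.style.haveILetI false

noncomputable section

namespace Fermat.Agent.S35.G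

open ModularCurve AlgebraicCurve

/-- The field `ℚ̄`. -/
abbrev Qb : Type := AlgebraicClosure ℚ

/-! ## The polynomial `(T - 1)² (T - Q)`, multiplicatively and additively -/

/-- `(φ - Q) f`, multiplicatively: `φ f / f ^ Q`. -/
def frobSub {F : Type*} [Field F] (φ : F ≃+* F) (Q : ℕ) (f : F) : F := φ f * (f ^ Q)⁻¹

/-- `(φ - 1)² (φ - Q) f`, multiplicatively. -/
def frobPoly {F : Type*} [Field F] (φ : F ≃+* F) (Q : ℕ) (f : F) : F :=
  frobSub φ Q (frobSub φ 1 (frobSub φ 1 f))

/-- `(t - 1)² (t - Q) x`, additively. -/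
def frobPolyAdd {G X : Type*} [Group G] [AddCommGroup X] [DistribMulAction G X]
    (t : G) (Q : ℕ) (x : X) : X :=
  t • (t • (t • x - x) - (t • x - x)) - Q • (t • (t • x - x) - (t • x - x))

/-! ## Push-forward on `Pic⁰` and the degeneracy maps -/

section Push

variable {K F F' : Type*} [Field K] [Field F] [Field F'] [Algebra K F] [Algebra K F']

/-- Push-forward of degree-zero divisors along `φ : F → F'`. -/
def degZeroPush (φ : F →ₐ[K] F') (hφ : φ.toRingHom.IsIntegral) :
    Divisor.degZero (K := K) (F := F') →+ Divisor.degZero (K := K) (F := F) :=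
  ((Divisor.pushforwardAlong φ hφ).domRestrict (Divisor.degZero (K := K) (F := F'))).codRestrict _
    (fun D => Divisor.pushforwardAlong_mem_degZero φ hφ D.2)

/-- Push-forward `Pic⁰(F') → Pic⁰(F)` along `φ : F → F'` (finite, with the norm formula). -/
def pic0Push (φ : F →ₐ[K] F') (hφ : φ.toRingHom.IsIntegral) (hfin : FiniteAlong K φ)
    (hN : NormFormulaAlong K φ hfin) : Pic0 K F' →+ Pic0 K F :=
  QuotientAddGroup.map _ _ (degZeroPush φ hφ) (by
    rintro ⟨D, hD0⟩ hD
    simp only [AddSubgroup.mem_addSubgroupOf] at hD ⊢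
    exact Divisor.isPrincipal_pushforwardAlong φ hφ hfin hN hD)

theorem pic0Push_mk (φ : F →ₐ[K] F') (hφ : φ.toRingHom.IsIntegral) (hfin : FiniteAlong K φ)
    (hN : NormFormulaAlong K φ hfin) (D : Divisor.degZero (K := K) (F := F')) :
    pic0Push φ hφ hfin hN (Pic0.mk D) = Pic0.mk (degZeroPush φ hφ D) :=
  rfl

/-- The three inputs of `pic0Push`. -/
def PushInputs (φ : F →ₐ[K] F') : Prop :=
  ∃ (_ : φ.toRingHom.IsIntegral) (hfin : FiniteAlong K φ), NormFormulaAlong K φ hfin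

open Classical in
/-- Total form of `pic0Push` (junk value `0` if the inputs fail; they never do for the modular
degeneracy maps: leaf `DEG`). -/
def pic0PushTotal (φ : F →ₐ[K] F') : Pic0 K F' →+ Pic0 K F :=
  if h : PushInputs φ then pic0Push φ h.1 h.2.1 h.2.2 else 0

theorem pic0PushTotal_eq (φ : F →ₐ[K] F') (hφ : φ.toRingHom.IsIntegral) (hfin : FiniteAlong K φ)
    (hN : NormFormulaAlong K φ hfin) : pic0PushTotal φ = pic0Push φ hφ hfin hN := by
  have h : PushInputs φ := ⟨hφ, hfin, hN⟩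
  rw [pic0PushTotal, dif_pos h]

end Push

section Deg

variable (M q : ℕ) [NeZero M] [NeZero q]

/-- `a = α_* : J₀(M q) → J₀(M)`, `α : ℚ̄(X₀(M)) ⊆ ℚ̄(X₀(M q))` the inclusion. -/
def degA : JZero (M * q) →+ JZero M := pic0PushTotal (heckeAlphaBar Qb M q)

/-- `b = β_* : J₀(M q) → J₀(M)`, `β : ℚ̄(X₀(M)) → ℚ̄(X₀(M q))`, `f(t) ↦ f(t^q)`. -/
def degB : JZero (M * q) →+ JZero M := pic0PushTotal (heckeBetaBar Qb M q)

end Deg

/-! ## The statement (G') -/

/-- **(G') at `(M, q, m)`**: `(s² - 1)² (s² - q²)` kills the `q`-new `m`-torsion of `J₀(M q)`. -/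
def NewPartFrobAt (M q m : ℕ) [NeZero M] [NeZero q] : Prop :=
  ∀ A : ValuationSubring Qb, A.LiesOverPrime q →
    ∀ s : Qb ≃ₐ[ℚ] Qb, A.IsFrobeniusAt s q →
      ∀ x : JZero (M * q), m • x = 0 → degA M q x = 0 → degB M q x = 0 →
        frobPolyAdd (s * s) (q ^ 2) x = 0

/-- **(G'), explicit form.** -/
def NewPartFrobExplicit : Prop :=
  ∀ (M q m : ℕ) [NeZero M] [NeZero q], q.Prime → ¬ q ∣ M → 0 < m → ¬ q ∣ m →
    NewPartFrobAt M q m

/-- **(G'), bundled form** (shape asked for by helper991: the degeneracy maps are existentially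
quantified, with the only property the consumer needs, Hecke-equivariance away from `M q p`). -/
def NewPartFrobStatement : Prop :=
  ∀ (M q p : ℕ) [NeZero M] [NeZero q], q.Prime → ¬ q ∣ M → p.Prime → p ≠ q →
    ∃ a b : JZero (M * q) →+ JZero M,
      (∀ ℓ : Nat.Primes, ¬ (ℓ : ℕ) ∣ M * q * p → ∀ x : JZero (M * q),
        a (heckeOperatorBar (M * q) ℓ x) = heckeOperatorBar M ℓ (a x)) ∧
      (∀ ℓ : Nat.Primes, ¬ (ℓ : ℕ) ∣ M * q * p → ∀ x : JZero (M * q),
        b (heckeOperatorBar (M * q) ℓ x) = heckeOperatorBar M ℓ (b x)) ∧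
      ∀ A : ValuationSubring Qb, A.LiesOverPrime q →
        ∀ s : Qb ≃ₐ[ℚ] Qb, A.IsFrobeniusAt s q →
          ∀ x : JZero (M * q), (∃ n : ℕ, p ^ n • x = 0) → a x = 0 → b x = 0 →
            frobPolyAdd (s * s) (q ^ 2) x = 0

/-! ## Leaf DEG: the degeneracy maps -/

/-- **DEG.**  The inputs of `pic0Push` hold for `α`, `β`, and `degA`, `degB` commute with the
Hecke operators `T_ℓ`, `ℓ ∤ M q`.  (Inputs: `S29/H812`, `Lib/HI/H864`, `Lib/FF398`;
commutation: common cover `F_{M q ℓ}`, as `S29/H801 pic0_correspondence_comm`.) -/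
def DegStatement : Prop :=
  ∀ (M q : ℕ) [NeZero M] [NeZero q], q.Prime → ¬ q ∣ M →
    PushInputs (heckeAlphaBar Qb M q) ∧ PushInputs (heckeBetaBar Qb M q) ∧
    (∀ ℓ : Nat.Primes, ¬ (ℓ : ℕ) ∣ M * q → ∀ x : JZero (M * q),
      degA M q (heckeOperatorBar (M * q) ℓ x) = heckeOperatorBar M ℓ (degA M q x)) ∧
    (∀ ℓ : Nat.Primes, ¬ (ℓ : ℕ) ∣ M * q → ∀ x : JZero (M * q),
      degB M q (heckeOperatorBar (M * q) ℓ x) = heckeOperatorBar M ℓ (degB M q x))

/-! ## Kummer form over `ℚ̄` and leaf T0F (Kummer dictionary) -/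

/-- `σ_N(t)`: the automorphism of `F̄_N = ℚ̄(X₀(N))` induced by `t ∈ G_ℚ`. -/
abbrev actBar (N : ℕ) (t : Qb ≃ₐ[ℚ] Qb) :
    modularFunctionFieldBar N ≃+* modularFunctionFieldBar N :=
  arithmeticRingAut (modularFunctionFieldFull N) t

/-- `f` has norm a constant times an `m`-th power along `φ`. -/
def NormPow {K F F' : Type*} [Field K] [Field F] [Field F'] [Algebra K F] [Algebra K F']
    (φ : F →ₐ[K] F') (m : ℕ) (f : F') : Prop :=
  ∃ (c : K) (g : F), S29.H395.normAlong φ f = algebraMap K F c * g ^ m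

/-- **Kummer form of (G') at `(M, q, m)`**: for `f ∈ F̄_{Mq}ˣ` with `m ∣ div f` whose norms along
`α` and `β` are constants times `m`-th powers, `(σ² - 1)² (σ² - q²) f` is a constant times an
`m`-th power. -/
def KummerFrobAt (M q m : ℕ) [NeZero M] [NeZero q] : Prop :=
  ∀ A : ValuationSubring Qb, A.LiesOverPrime q →
    ∀ s : Qb ≃ₐ[ℚ] Qb, A.IsFrobeniusAt s q →
      ∀ f : modularFunctionFieldBar (M * q), f ≠ 0 →
        (∀ v : Place Qb (modularFunctionFieldBar (M * q)), (m : ℤ) ∣ v.ord f) →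
        NormPow (heckeAlphaBar Qb M q) m f → NormPow (heckeBetaBar Qb M q) m f →
        ∃ (c : Qb) (y : modularFunctionFieldBar (M * q)), c ≠ 0 ∧
          frobPoly (actBar (M * q) (s * s)) (q ^ 2) f =
            algebraMap Qb (modularFunctionFieldBar (M * q)) c * y ^ m

/-- **T0F (Kummer dictionary).**  `x = [D]`, `m D = div f`; `a x = 0` gives
`div (N_α f) = m α_* D = m div g`, i.e. `N_α f = c g ^ m` (`S29.H395.pushforwardAlong_apply_eq_ord`,
constants: `S18.H504.const_of_ord_zero`); conclusion as `A2.H129.unipotent_of_kummerTwice`. -/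
def T0FStatement : Prop :=
  ∀ (M q m : ℕ) [NeZero M] [NeZero q], q.Prime → ¬ q ∣ M → 0 < m → ¬ q ∣ m →
    PushInputs (heckeAlphaBar Qb M q) → PushInputs (heckeBetaBar Qb M q) →
    KummerFrobAt M q m → NewPartFrobAt M q m

/-! ## Leaf D2F: auxiliary level (only for `q ∈ {2, 3}`) -/

/-- The level-`M` part of the auxiliary level of `A2.Top.H994.auxLevel`:
`lcm M 2` for `q = 3`, `lcm M 3` for `q = 2`, `M` otherwise. -/
def auxM (M q : ℕ) : ℕ :=
  if q = 3 then Nat.lcm M 2 else if q = 2 then Nat.lcm M 3 else M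

/-- The levels at which the semistable model is available (good reduction at level `M` from
S18 needs the auxiliary prime). -/
def HasAux (M q : ℕ) : Prop := (q = 3 → 2 ∣ M) ∧ (q = 2 → 3 ∣ M)

/-- **D2F (auxiliary-level descent).**  `π : X₀(M' q) → X₀(M q)`, `M' = auxM M q`, has degree a
power of `q`, prime to `m`; `π^*` commutes with the Galois action and intertwines the degeneracy
push-forwards (base change `S37.H818.pullback_pushforward_eq`), `π_* π^* = deg π`. -/
def D2FStatement : Prop :=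
  ∀ (M q m : ℕ) [NeZero M] [NeZero q] [NeZero (auxM M q)], q.Prime → ¬ q ∣ M → 0 < m →
    ¬ q ∣ m → NewPartFrobAt (auxM M q) q m → NewPartFrobAt M q m

end Fermat.Agent.S35.G

end

end
-- ===== PACK-END S35/G/Spec.lean

-- ===== PACK-BEGIN A2/H672/FinLen.lean
section





/-!
# A2 / node purity (helper672): finiteness of lengths

* `length_quotient_ne_top_of_pow_le` : in a noetherian local ring, `𝔪 ^ k ≤ J` implies that `R ⧸ J`
  has finite length.
* `relLen_ne_top_of_pow_mul_le` : if `X ≤ N` are ideals with `𝔪 ^ k * N ≤ X`, then `N / X` has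
  finite length.
-/

set_option autoImplicit false

namespace Fermat.Agent.A2.H672

open IsLocalRing

variable {R : Type*} [CommRing R]

section local_

variable [IsNoetherianRing R] [IsLocalRing R]

theorem length_quotient_ne_top_of_pow_le (J : Ideal R) (k : ℕ) (hJ : maximalIdeal R ^ k ≤ J) :
    Module.length R (R ⧸ J) ≠ ⊤ := by
  have hdim : Ring.KrullDimLE 0 (R ⧸ J) := by
    rw [Ring.krullDimLE_zero_iff]
    intro Q hQ
    have hP : (Q.comap (Ideal.Quotient.mk J)).IsPrime := Ideal.comap_isPrime _ _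
    have hJP : J ≤ Q.comap (Ideal.Quotient.mk J) := by
      intro x hx
      rw [Ideal.mem_comap, Ideal.Quotient.eq_zero_iff_mem.2 hx]
      exact Q.zero_mem
    have hm : maximalIdeal R ≤ Q.comap (Ideal.Quotient.mk J) :=
      hP.le_of_pow_le (hJ.trans hJP)
    have hmax : (Q.comap (Ideal.Quotient.mk J)).IsMaximal := by
      have := (IsLocalRing.maximalIdeal.isMaximal R).eq_of_le hP.ne_top hm
      rw [← this]
      exact IsLocalRing.maximalIdeal.isMaximal R
    have := Ideal.map_eq_top_or_isMaximal_of_surjective (Ideal.Quotient.mk J)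
      Ideal.Quotient.mk_surjective hmax
    rw [Ideal.map_comap_of_surjective _ Ideal.Quotient.mk_surjective] at this
    rcases this with h | h
    · exact absurd h hQ.ne_top
    · exact h
  have : IsArtinianRing (R ⧸ J) := isArtinianRing_iff_krullDimLE_zero.2 hdim
  rw [Module.length_eq_of_surjective (S := R) (R := R ⧸ J) (M := R ⧸ J)
    Ideal.Quotient.mk_surjective]
  exact Module.length_ne_top

theorem relLen_top_ne_top_of_pow_le (J : Ideal R) (k : ℕ) (hJ : maximalIdeal R ^ k ≤ J) :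
    relLen J ⊤ ≠ ⊤ := by
  rw [relLen_top]
  exact length_quotient_ne_top_of_pow_le J k hJ

end local_

/-- One step of the generator filtration. -/
theorem relLen_sup_span_singleton_le (J Y : Ideal R) (f : R) (hJ : ∀ a ∈ J, a * f ∈ Y) :
    relLen Y (Y ⊔ Ideal.span {f}) ≤ relLen J ⊤ := by
  refine relLen_le_of_map (LinearMap.mulRight R f) ?_ ?_ ?_
  · intro b _
    exact Ideal.mem_sup_right (Ideal.mul_mem_left _ _ (Ideal.mem_span_singleton_self f))
  · intro b _ hb
    exact hJ b hb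
  · intro b' hb'
    obtain ⟨y, hy, c, hc, rfl⟩ := Submodule.mem_sup.1 hb'
    obtain ⟨d, rfl⟩ := Ideal.mem_span_singleton'.1 hc
    refine ⟨d, trivial, ?_⟩
    simpa using hy

theorem relLen_sup_span_finset_ne_top (J X : Ideal R) (hJfin : relLen J ⊤ ≠ ⊤) (s : Finset R)
    (hs : ∀ f ∈ s, ∀ a ∈ J, a * f ∈ X) :
    relLen X (X ⊔ Ideal.span (s : Set R)) ≠ ⊤ := by
  classical
  induction s using Finset.induction_on with
  | empty =>
    simp only [Finset.coe_empty, Ideal.span_empty, sup_bot_eq]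
    rw [relLen_self]
    exact ENat.zero_ne_top
  | insert f s hf ih =>
    have ih' := ih fun g hg => hs g (Finset.mem_insert_of_mem hg)
    have hstep : relLen (X ⊔ Ideal.span (s : Set R))
        (X ⊔ Ideal.span (s : Set R) ⊔ Ideal.span {f}) ≤ relLen J ⊤ :=
      relLen_sup_span_singleton_le J _ f fun a ha =>
        Ideal.mem_sup_left (hs f (Finset.mem_insert_self f s) a ha)
    have heq : X ⊔ Ideal.span ((insert f s : Finset R) : Set R)
        = X ⊔ Ideal.span (s : Set R) ⊔ Ideal.span {f} := by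
      rw [Finset.coe_insert, Ideal.span_insert, sup_assoc, sup_comm (Ideal.span {f})]
    rw [heq, relLen_add (le_sup_left : X ≤ X ⊔ Ideal.span (s : Set R)) le_sup_left]
    exact WithTop.add_ne_top.2 ⟨ih', ne_top_of_le_ne_top hJfin hstep⟩

theorem relLen_ne_top_of_mul_le [IsNoetherianRing R] (J X N : Ideal R) (hJfin : relLen J ⊤ ≠ ⊤)
    (hXN : X ≤ N) (hJ : ∀ a ∈ J, ∀ f ∈ N, a * f ∈ X) : relLen X N ≠ ⊤ := by
  classical
  obtain ⟨s, hs⟩ := (isNoetherianRing_iff_ideal_fg R).1 inferInstance N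
  have h := relLen_sup_span_finset_ne_top J X hJfin s fun f hf a ha =>
    hJ a ha f (hs ▸ Ideal.subset_span hf)
  rwa [hs, sup_eq_right.2 hXN] at h

theorem relLen_ne_top_of_pow_mul_le [IsNoetherianRing R] [IsLocalRing R] (X N : Ideal R) (k : ℕ)
    (hXN : X ≤ N) (hk : ∀ a ∈ maximalIdeal R ^ k, ∀ f ∈ N, a * f ∈ X) : relLen X N ≠ ⊤ :=
  relLen_ne_top_of_mul_le _ X N (relLen_top_ne_top_of_pow_le _ k le_rfl) hXN hk

end Fermat.Agent.A2.H672

end
-- ===== PACK-END A2/H672/FinLen.lean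

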