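import Mathlib.RingTheory.Valuation.Basic
import Mathlib.RingTheory.LocalRing.ResidueField.Basic
import Fermat.Prelude.Thm_ModularForm_sturm_bound_Gamma0
import Fermat.Prelude.Thm_CongruenceSubgroup_one_mem_strictPeriods_Gamma0
import Fermat.Agent.Pack.S44C.G0E8L2
import Fermat.Agent.Pack.S44C.G0E8L1
import Fermat.Agent.Pack.S44C.G0E8L0
import Fermat.Agent.Pack.S44C.G0E3L2
import Fermat.Agent.Pack.S44C.G0E8L3
import Fermat.Agent.Pack.S44C.G0E9L3
import Fermat.Agent.Pack.S44C.G0E7L3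
import Fermat.Agent.Pack.S44C.G0E0L2
import Fermat.Agent.Pack.S44C.G0E9L0
import Fermat.Agent.Pack.S44C.G0E4L1
import Fermat.Agent.Pack.S44C.G0E9L2
import Fermat.Agent.Pack.S44C.G0E9L1
import Fermat.Agent.Pack.S44C.G0E4L2
import Fermat.Agent.Pack.Fast891

-- ===== PACK-BEGIN S21/IntB.lean
section



/-!
# S21 — INT-B: `Γ₀(N)`-symmetrization of a test function

`sym N η z = ∑ᶠ γ : Γ₀(N), η (γ z)` is smooth on the upper half plane, `Γ₀(N)`-invariant,
additive and homogeneous in `η`, and has finite energy on a fundamental domain.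
-/

set_option autoImplicit false
set_option linter.unusedSectionVars false
set_option linter.unusedVariables false

open UpperHalfPlane CongruenceSubgroup MeasureTheory
open scoped MatrixGroups ContDiff Topology Pointwise

namespace Fermat.Agent.S21

namespace IntB

theorem mob_mem_Uhp (g : SL(2, ℤ)) (z : ℂ) : mob g z ∈ Uhp := (g • ofComplex z).im_pos

theorem mob_mul (g h : SL(2, ℤ)) (z : ℂ) : mob (g * h) z = mob g (mob h z) := by
  simp [mob, mul_smul, ofComplex_apply]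

theorem mob_one {z : ℂ} (hz : z ∈ Uhp) : mob 1 z = z := by
  have hz' : 0 < z.im := hz
  simp [mob, ofComplex_apply_of_im_pos hz']

theorem mob_inv_mob (g : SL(2, ℤ)) {z : ℂ} (hz : z ∈ Uhp) : mob g⁻¹ (mob g z) = z := by
  rw [← _root_.Fermat.Agent.S21.IntB.mob_mul, inv_mul_cancel, _root_.Fermat.Agent.S21.IntB.mob_one hz]

theorem mob_mob_inv (g : SL(2, ℤ)) {z : ℂ} (hz : z ∈ Uhp) : mob g (mob g⁻¹ z) = z := by
  rw [← _root_.Fermat.Agent.S21.IntB.mob_mul, mul_inv_cancel, _root_.Fermat.Agent.S21.IntB.mob_one hz]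

theorem analyticAt_mob (g : SL(2, ℤ)) {z : ℂ} (hz : z ∈ Uhp) : AnalyticAt ℂ (mob g) z := by
  have hdet : (0 : ℝ) < ((g : GL (Fin 2) ℝ) : Matrix (Fin 2) (Fin 2) ℝ).det := by
    have : ((g : GL (Fin 2) ℝ) : Matrix (Fin 2) (Fin 2) ℝ).det = 1 :=
      (Matrix.SpecialLinearGroup.map (Int.castRingHom ℝ) g).det_coe
    rw [this]; exact one_pos
  exact UpperHalfPlane.analyticAt_smul hdet ⟨z, hz⟩

theorem contDiffAt_mob (g : SL(2, ℤ)) {z : ℂ} (hz : z ∈ Uhp) : ContDiffAt ℝ ∞ (mob g) z :=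
  ((analyticAt_mob g hz).contDiffAt (n := ∞)).restrict_scalars ℝ

theorem continuousAt_mob (g : SL(2, ℤ)) {z : ℂ} (hz : z ∈ Uhp) : ContinuousAt (mob g) z :=
  (analyticAt_mob g hz).continuousAt

theorem continuousOn_mob (g : SL(2, ℤ)) : ContinuousOn (mob g) Uhp :=
  fun _ hz => (continuousAt_mob g hz).continuousWithinAt

/-- Proper discontinuity of the action of `SL(2,ℤ)`, phrased on `ℂ`. -/
theorem finite_mob {K L : Set ℂ} (hK : IsCompact K) (hKU : K ⊆ Uhp) (hL : IsCompact L)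
    (hLU : L ⊆ Uhp) : {g : SL(2, ℤ) | ∃ z ∈ K, mob g z ∈ L}.Finite := by
  have hrange : Set.range (UpperHalfPlane.coe) = Uhp := by
    ext z
    constructor
    · rintro ⟨w, rfl⟩; exact w.im_pos
    · intro hz; exact ⟨⟨z, hz⟩, rfl⟩
  have hK' : IsCompact ((UpperHalfPlane.coe) ⁻¹' K) :=
    (isEmbedding_coe.isInducing.isCompact_preimage_iff (by rw [hrange]; exact hKU)).mpr hK
  have hL' : IsCompact ((UpperHalfPlane.coe) ⁻¹' L) :=
    (isEmbedding_coe.isInducing.isCompact_preimage_iff (by rw [hrange]; exact hLU)).mpr hL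
  have h := (Subgroup.properlyDiscontinuousSMul_iff 𝒮ℒ).mp properlyDiscontinuousSL2ZRange hK' hL'
  have hinj : Function.Injective (Matrix.SpecialLinearGroup.mapGL ℝ : SL(2, ℤ) →* GL (Fin 2) ℝ) :=
    Matrix.SpecialLinearGroup.mapGL_injective
  refine (h.preimage hinj.injOn).subset ?_
  rintro g ⟨z, hz, hgz⟩
  refine ⟨⟨g, rfl⟩, (Matrix.SpecialLinearGroup.mapGL ℝ g) • ofComplex z,
    ⟨ofComplex z, ?_, rfl⟩, ?_⟩
  · show ((ofComplex z : ℍ) : ℂ) ∈ K
    rw [ofComplex_apply_of_im_pos (hKU hz)]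
    exact hz
  · exact hgz

/-- Local finiteness of the symmetrization sum. -/
theorem finite_sym_support (N : ℕ) {η : ℂ → ℝ} (hη : IsTest η) {K : Set ℂ} (hK : IsCompact K)
    (hKU : K ⊆ Uhp) : {γ : Gamma0 N | ∃ z ∈ K, η (mob (γ : SL(2, ℤ)) z) ≠ 0}.Finite := by
  have h := finite_mob hK hKU hη.2.1 hη.2.2
  refine (h.preimage Subtype.val_injective.injOn).subset ?_
  rintro γ ⟨z, hz, hne⟩
  exact ⟨z, hz, subset_tsupport _ hne⟩

theorem sym_eq_sum (N : ℕ) {η : ℂ → ℝ} (hη : IsTest η) {K : Set ℂ} (hK : IsCompact K)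
    (hKU : K ⊆ Uhp) : ∀ z ∈ K, sym N η z
      = ∑ γ ∈ (finite_sym_support N hη hK hKU).toFinset, η (mob (γ : SL(2, ℤ)) z) := by
  intro z hz
  unfold sym
  apply finsum_eq_sum_of_support_subset
  intro γ hγ
  simp only [Set.Finite.coe_toFinset, Set.mem_ofPred_eq]
  exact ⟨z, hz, hγ⟩

theorem finite_support_point (N : ℕ) {η : ℂ → ℝ} (hη : IsTest η) {z : ℂ} (hz : z ∈ Uhp) :
    (Function.support fun γ : Gamma0 N => η (mob (γ : SL(2, ℤ)) z)).Finite :=
  (finite_sym_support N hη isCompact_singleton (Set.singleton_subset_iff.mpr hz)).subset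
    (fun _ hγ => ⟨z, rfl, hγ⟩)

theorem continuousOn_dz {u : ℂ → ℝ} (hu : ContDiffOn ℝ ∞ u Uhp) :
    ContinuousOn (fun z => dz u z) Uhp := by
  have h1 : ContinuousOn (fderiv ℝ u) Uhp :=
    hu.continuousOn_fderiv_of_isOpen isOpen_Uhp (by simp)
  have h2 : ∀ v : ℂ, ContinuousOn (fun z => ((fderiv ℝ u z v : ℝ) : ℂ)) Uhp := fun v =>
    Complex.continuous_ofReal.comp_continuousOn (h1.clm_apply continuousOn_const)
  unfold dz
  exact (h2 1).sub (continuousOn_const.mul (h2 Complex.I))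

/-- Away from the `Γ₀(N)`-orbit of the support of `η` the symmetrization is locally zero. -/
theorem dz_sym_eq_zero (N : ℕ) {η : ℂ → ℝ} (hη : IsTest η) {z : ℂ} (hz : z ∈ Uhp)
    (h : ∀ γ : Gamma0 N, mob (γ : SL(2, ℤ)) z ∉ tsupport η) : dz (sym N η) z = 0 := by
  obtain ⟨K, hK, hzK, hKU⟩ := exists_compact_subset isOpen_Uhp hz
  have hev : sym N η =ᶠ[𝓝 z] fun _ => (0 : ℝ) := by
    have h1 : ∀ γ ∈ (finite_sym_support N hη hK hKU).toFinset,
        ∀ᶠ w in 𝓝 z, η (mob (γ : SL(2, ℤ)) w) = 0 := by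
      intro γ _
      have h0 : η =ᶠ[𝓝 (mob (γ : SL(2, ℤ)) z)] 0 := notMem_tsupport_iff_eventuallyEq.mp (h γ)
      exact (continuousAt_mob (γ : SL(2, ℤ)) hz).eventually h0
    have h2 := (Filter.eventually_all_finset _).mpr h1
    filter_upwards [mem_interior_iff_mem_nhds.mp hzK, h2] with w hw hw2
    rw [sym_eq_sum N hη hK hKU w hw]
    exact Finset.sum_eq_zero hw2
  have hfd : fderiv ℝ (sym N η) z = 0 := by
    rw [hev.fderiv_eq]
    simp
  simp [dz, hfd]

theorem finite_chi_support (N : ℕ) {χ₁ : ℂ → ℝ} (hχ : IsSL2ZPartition χ₁) {K : Set ℂ}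
    (hK : IsCompact K) (hKU : K ⊆ Uhp) :
    {q : SL(2, ℤ) ⧸ Gamma0 N | ∃ z ∈ K, χ₁ (mob (Quotient.out q) z) ≠ 0}.Finite := by
  have h := hχ.locfin K hK hKU
  refine (h.preimage (Quotient.out_injective.injOn)).subset ?_
  rintro q ⟨z, hz, hne⟩
  exact ⟨z, hz, hne⟩

theorem continuousOn_chi_aux (N : ℕ) {χ₁ : ℂ → ℝ} (hχ : IsSL2ZPartition χ₁) :
    ContinuousOn (chi N χ₁) Uhp := by
  intro z₀ hz₀
  obtain ⟨K, hK, hzK, hKU⟩ := exists_compact_subset isOpen_Uhp hz₀
  have hev : chi N χ₁ =ᶠ[𝓝 z₀] fun z =>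
      ∑ q ∈ (finite_chi_support N hχ hK hKU).toFinset, χ₁ (mob (Quotient.out q) z) := by
    filter_upwards [mem_interior_iff_mem_nhds.mp hzK] with z hz
    have hzK' : z ∈ K := hz
    unfold chi
    rw [Set.indicator_of_mem (hKU hzK')]
    apply finsum_eq_sum_of_support_subset
    intro q hq
    simp only [Set.Finite.coe_toFinset, Set.mem_ofPred_eq]
    exact ⟨z, hzK', hq⟩
  have hc : ContinuousAt (fun z =>
      ∑ q ∈ (finite_chi_support N hχ hK hKU).toFinset, χ₁ (mob (Quotient.out q) z)) z₀ := by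
    apply tendsto_finsetSum
    intro q _
    have h1 : ContinuousAt χ₁ (mob (Quotient.out q) z₀) :=
      hχ.smooth.continuousOn.continuousAt (isOpen_Uhp.mem_nhds (_root_.Fermat.Agent.S21.IntB.mob_mem_Uhp _ _))
    exact h1.comp (continuousAt_mob _ hz₀)
  exact (hc.congr hev.symm).continuousWithinAt

theorem exists_of_chi_ne_zero (N : ℕ) {χ₁ : ℂ → ℝ} {z : ℂ} (h : chi N χ₁ z ≠ 0) :
    z ∈ Uhp ∧ ∃ q : SL(2, ℤ) ⧸ Gamma0 N, χ₁ (mob (Quotient.out q) z) ≠ 0 := by
  unfold chi at h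
  have hz : z ∈ Uhp := by
    by_contra hz
    exact h (Set.indicator_of_notMem hz _)
  refine ⟨hz, ?_⟩
  rw [Set.indicator_of_mem hz] at h
  by_contra hne
  push Not at hne
  exact h (finsum_eq_zero_of_forall_eq_zero hne)

end IntB

section INT

variable (N : ℕ) [NeZero N] {χ₁ : ℂ → ℝ}

theorem contDiffOn_sym {η : ℂ → ℝ} (hη : IsTest η) : ContDiffOn ℝ ∞ (sym N η) Uhp := by
  intro z₀ hz₀
  obtain ⟨K, hK, hzK, hKU⟩ := exists_compact_subset isOpen_Uhp hz₀
  have hev : sym N η =ᶠ[𝓝 z₀] fun z =>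
      ∑ γ ∈ (IntB.finite_sym_support N hη hK hKU).toFinset, η (mob (γ : SL(2, ℤ)) z) := by
    filter_upwards [mem_interior_iff_mem_nhds.mp hzK] with z hz
      using IntB.sym_eq_sum N hη hK hKU z hz
  have hsm : ContDiffAt ℝ ∞ (fun z =>
      ∑ γ ∈ (IntB.finite_sym_support N hη hK hKU).toFinset, η (mob (γ : SL(2, ℤ)) z)) z₀ := by
    apply ContDiffAt.sum
    intro γ _
    exact hη.1.contDiffAt.comp z₀ (IntB.contDiffAt_mob (γ : SL(2, ℤ)) hz₀)
  exact (hsm.congr_of_eventuallyEq hev).contDiffWithinAt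

theorem sym_mob {η : ℂ → ℝ} (hη : IsTest η) (γ : Gamma0 N) (z : ℂ) (hz : z ∈ Uhp) :
    sym N η (mob (γ : SL(2, ℤ)) z) = sym N η z := by
  unfold sym
  have h : ∀ γ' : Gamma0 N, η (mob (γ' : SL(2, ℤ)) (mob (γ : SL(2, ℤ)) z))
      = η (mob ((γ' * γ : Gamma0 N) : SL(2, ℤ)) z) := by
    intro γ'
    rw [Subgroup.coe_mul, IntB.mob_mul]
  simp_rw [h]
  exact finsum_comp_equiv (Equiv.mulRight γ)
    (f := fun γ'' : Gamma0 N => η (mob (γ'' : SL(2, ℤ)) z))

theorem sym_add {η₁ η₂ : ℂ → ℝ} (h₁ : IsTest η₁) (h₂ : IsTest η₂) (z : ℂ) (hz : z ∈ Uhp) :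
    sym N (fun w => η₁ w + η₂ w) z = sym N η₁ z + sym N η₂ z := by
  unfold sym
  exact finsum_add_distrib (IntB.finite_support_point N h₁ hz) (IntB.finite_support_point N h₂ hz)

theorem sym_smul {η : ℂ → ℝ} (hη : IsTest η) (c : ℝ) (z : ℂ) (hz : z ∈ Uhp) :
    sym N (fun w => c * η w) z = c * sym N η z := by
  unfold sym
  exact (mul_finsum _ c).symm

/-- finite energy of a symmetrized test function -/
theorem integrable_energy_sym (hχ : IsSL2ZPartition χ₁) {η : ℂ → ℝ} (hη : IsTest η) :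
    Integrable (fun z => ‖dz (sym N η) z‖ ^ 2 * chi N χ₁ z) := by
  classical
  set K : Set ℂ := tsupport η with hKdef
  have hK : IsCompact K := hη.2.1
  have hKU : K ⊆ Uhp := hη.2.2
  have hG := hχ.locfin K hK hKU
  -- the compact set carrying the integrand
  set C : Set ℂ := ⋃ g ∈ hG.toFinset,
    mob ((Quotient.out (QuotientGroup.mk g : SL(2, ℤ) ⧸ Gamma0 N))⁻¹ * g) '' K with hCdef
  have hC : IsCompact C :=
    hG.toFinset.isCompact_biUnion fun g _ =>
      hK.image_of_continuousOn ((IntB.continuousOn_mob _).mono hKU)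
  have hCU : C ⊆ Uhp := by
    intro z hz
    simp only [hCdef, Set.mem_iUnion] at hz
    obtain ⟨g, _, w, _, rfl⟩ := hz
    exact IntB.mob_mem_Uhp _ _
  have hcont : ContinuousOn (fun z => ‖dz (sym N η) z‖ ^ 2 * chi N χ₁ z) Uhp :=
    (((IntB.continuousOn_dz (contDiffOn_sym N hη)).norm).pow 2).mul
      (IntB.continuousOn_chi_aux N hχ)
  have hint : IntegrableOn (fun z => ‖dz (sym N η) z‖ ^ 2 * chi N χ₁ z) C :=
    (hcont.mono hCU).integrableOn_compact hC
  refine hint.integrable_of_forall_notMem_eq_zero ?_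
  intro z hzC
  by_contra hne
  have h1 : dz (sym N η) z ≠ 0 := by
    intro h0
    apply hne
    simp [h0]
  have h2 : chi N χ₁ z ≠ 0 := by
    intro h0
    apply hne
    simp [h0]
  obtain ⟨hzU, q, hq⟩ := IntB.exists_of_chi_ne_zero N h2
  have h3 : ∃ γ : Gamma0 N, mob (γ : SL(2, ℤ)) z ∈ tsupport η := by
    by_contra hcon
    push Not at hcon
    exact h1 (IntB.dz_sym_eq_zero N hη hzU hcon)
  obtain ⟨γ, hγ⟩ := h3
  apply hzC
  set g : SL(2, ℤ) := Quotient.out q * (γ : SL(2, ℤ))⁻¹ with hgdef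
  have hgz : mob g (mob (γ : SL(2, ℤ)) z) = mob (Quotient.out q) z := by
    rw [hgdef, IntB.mob_mul, IntB.mob_inv_mob _ hzU]
  have hgG : g ∈ hG.toFinset := by
    simp only [Set.Finite.mem_toFinset, Set.mem_ofPred_eq]
    exact ⟨mob (γ : SL(2, ℤ)) z, hγ, by rw [hgz]; exact hq⟩
  have hmk : (QuotientGroup.mk g : SL(2, ℤ) ⧸ Gamma0 N) = q := by
    rw [hgdef, QuotientGroup.mk_mul_of_mem _ (Subgroup.inv_mem _ γ.2)]
    exact QuotientGroup.out_eq' q
  have hh : (Quotient.out (QuotientGroup.mk g : SL(2, ℤ) ⧸ Gamma0 N))⁻¹ * g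
      = (γ : SL(2, ℤ))⁻¹ := by
    rw [hmk, hgdef, ← mul_assoc, inv_mul_cancel, one_mul]
  simp only [hCdef, Set.mem_iUnion]
  refine ⟨g, hgG, mob (γ : SL(2, ℤ)) z, hγ, ?_⟩
  rw [hh, IntB.mob_inv_mob _ hzU]

end INT

end Fermat.Agent.S21

end
-- ===== PACK-END S21/IntB.lean

-- ===== PACK-BEGIN S23/Cap/Symm.lean
section



/-!
# S23 / WP3 : symmetric functions of the conjugates `f ∣ γ`, `γ ∈ Γ₀(N) \ SL₂(ℤ)`.

Adapters (captain's interface) around `Fermat.Agent.S23.H503` (`H503/Lagrange.lean`).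
With `𝒬 = SL₂(ℤ) ⧸ Γ₀(N)`, `f_q = quotientFunc f q`, `μ = card 𝒬`:

* (A1) `∏_q (X - f_q) = X^μ + Σ_{i<μ} c_i X^{μ-1-i}`, `c_i = (-1)^{i+1} e_{i+1}(f_q)` is a level one
  cusp form of weight `k (i+1)`, and `f = f_1` is a root.
* (A2) Lagrange interpolation: `Σ_q f_q ∏_{q' ≠ q} (X - t_{q'}) = Σ_j a_j X^j` has level one
  coefficients `a_j` of weight `k + w (μ-1-j)`; at `X = t = t_1` it equals
  `f ∏_{q' ≠ 1} (t - t_{q'})`.  The same with `f = 1` gives `b_j`.
  `∏_{q' ≠ 1}(t - t_{q'}) ≠ 0` because every factor is a nonzero holomorphic function on `ℍ`.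
-/

set_option autoImplicit false

namespace Fermat.Agent.S23.Cap

open UpperHalfPlane ModularForm ModularFormClass MatrixGroups CongruenceSubgroup

/-- **WP3 (A1).** A cusp form on `Γ₀(N)` is a root of a monic polynomial whose coefficients are
level one cusp forms. -/
theorem exists_monic_relation (N : ℕ) [NeZero N] (k : ℤ) (f : ℍ → ℂ) (hf : IsCF (G0 N) k f) :
    ∃ (μ : ℕ) (c : ℕ → ℍ → ℂ), 0 < μ ∧ (∀ i < μ, IsCF SLZ (k * (i + 1)) (c i)) ∧
      f ^ μ + ∑ i ∈ Finset.range μ, c i * f ^ (μ - 1 - i) = 0 := by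
  obtain ⟨F, rfl⟩ := hf
  obtain ⟨n, b, hn, h⟩ := H503.exists_monic_cusp (𝒢 := G0 N) F
  refine ⟨n, fun i ↦ b (i + 1), hn,
    fun i _ ↦ ⟨CuspForm.mcast (by push_cast; ring) (b (i + 1)), rfl⟩, ?_⟩
  ext τ
  have h1 := h τ
  rw [← Finset.Ico_add_one_right_eq_Icc, Finset.sum_Ico_eq_sum_range, Nat.add_sub_cancel] at h1
  simp only [Pi.add_apply, Pi.pow_apply, Finset.sum_apply, Pi.mul_apply, Pi.zero_apply]
  rw [← h1]
  congr 1
  refine Finset.sum_congr rfl fun i _ ↦ ?_
  rw [show 1 + i = i + 1 from add_comm _ _, show n - (i + 1) = n - 1 - i by omega]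

/-- **WP3 (A2).** Lagrange interpolation. -/
theorem exists_lagrange (N : ℕ) [NeZero N] (k w : ℤ) (f t : ℍ → ℂ)
    (hf : IsMF (G0 N) k f) (ht : IsMF (G0 N) w t)
    (hdist : ∀ γ : GL (Fin 2) ℝ, γ ∈ SLZ → γ ∉ G0 N → t ∣[w] γ ≠ t) :
    ∃ (μ : ℕ) (a b : ℕ → ℍ → ℂ), 0 < μ ∧
      (∀ j < μ, IsMF SLZ (k + w * ((μ : ℤ) - 1 - j)) (a j)) ∧
      (∀ j < μ, IsMF SLZ (w * ((μ : ℤ) - 1 - j)) (b j)) ∧
      (∑ j ∈ Finset.range μ, b j * t ^ j) ≠ 0 ∧
      (∑ j ∈ Finset.range μ, b j * t ^ j) * f = ∑ j ∈ Finset.range μ, a j * t ^ j := by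
  obtain ⟨F, rfl⟩ := hf
  obtain ⟨T, rfl⟩ := ht
  have hdist' : ∀ q : SLZ ⧸ (G0 N).subgroupOf SLZ, q ≠ ((1 : SLZ) : SLZ ⧸ (G0 N).subgroupOf SLZ) →
      SlashInvariantForm.quotientFunc T q ≠ (T : ℍ → ℂ) := by
    intro q hq
    induction q using Quotient.inductionOn with
    | h r =>
      rw [SlashInvariantForm.quotientFunc_mk]
      refine hdist _ (inv_mem r.2) fun hmem ↦ hq ?_
      have h1 : r ∈ (G0 N).subgroupOf SLZ := by
        rw [Subgroup.mem_subgroupOf]
        simpa using inv_mem hmem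
      exact QuotientGroup.eq.mpr (by simpa using inv_mem h1)
  obtain ⟨n, a, c, hn, ⟨τ₀, hτ₀⟩, h⟩ := H503.exists_lagrange (𝒢 := G0 N) F T hdist'
  have hcast : ∀ j < n, (((n - 1 - j : ℕ) : ℤ)) = (n : ℤ) - 1 - j := by
    intro j hj
    omega
  have hsum : ∀ (g : ℕ → ℍ → ℂ) (τ : ℍ),
      ∑ j ∈ Finset.range n, g (n - 1 - j) τ * (T : ℍ → ℂ) τ ^ j =
        ∑ m ∈ Finset.range n, g m τ * (T : ℍ → ℂ) τ ^ (n - 1 - m) := by
    intro g τ
    rw [← Finset.sum_range_reflect]
    refine Finset.sum_congr rfl fun j hj ↦ ?_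
    have hj' := Finset.mem_range.mp hj
    congr 2
    omega
  refine ⟨n, fun j ↦ a (n - 1 - j), fun j ↦ c (n - 1 - j), hn, ?_, ?_, ?_, ?_⟩
  · intro j hj
    exact ⟨ModularForm.mcast (by rw [hcast j hj]) (a (n - 1 - j)), rfl⟩
  · intro j hj
    exact ⟨ModularForm.mcast (by rw [hcast j hj]) (c (n - 1 - j)), rfl⟩
  · intro h0
    apply hτ₀
    have := congrFun h0 τ₀
    simp only [Finset.sum_apply, Pi.mul_apply, Pi.pow_apply, Pi.zero_apply] at this
    rw [← this]
    exact (hsum (fun m ↦ (c m : ℍ → ℂ)) τ₀).symm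
  · ext τ
    simp only [Finset.sum_apply, Pi.mul_apply, Pi.pow_apply]
    rw [hsum (fun m ↦ (c m : ℍ → ℂ)) τ, hsum (fun m ↦ (a m : ℍ → ℂ)) τ, mul_comm]
    exact h τ

end Fermat.Agent.S23.Cap

end
-- ===== PACK-END S23/Cap/Symm.lean

-- ===== PACK-BEGIN Lib/RR/H80/Res/Symbol.lean
section


/-!
# Tate's residue symbol, abstract part 2: the symbol `tsym p f g = Tr [p f, g]`

`p` is a projector onto a subspace `A ⊆ V`, `f`, `g` are commuting endomorphisms with
`f A ≲ A`, `g A ≲ A`.  `tsym p f g` is Tate's `res^V_A (f dg)`.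

* `tsym_congr`      : independence of the projector and of `A` up to commensurability;
* `tsym_add_left`, `tsym_smul_left`, `tsym_add_right`, `tsym_smul_right` : bilinearity;
* `tsym_leibniz`    : `res (f d(gh)) = res (fg dh) + res (fh dg)`;
* `tsym_eq_zero_of_map_le` : `res (f dg) = 0` if `f A ⊆ A` and `g A ⊆ A`;
* `tsym_unif`       : `res (h g⁻¹ dg) = c` if `g A ⊆ A`, `A = g A ⊕ K a₀` and `h ≡ c` on `A / g A`;
* `tsym_eq_zero_of_cocompact` : the abstract residue theorem.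
-/

set_option autoImplicit false

noncomputable section

namespace Fermat.Agent.Lib.RR.H80

open LinearMap Module

variable {K V : Type*} [Field K] [AddCommGroup V] [Module K V]

variable {A A' : Submodule K V}

/-! ### Commensurable subspaces -/

theorem EE.of_almost (h1 : AlmostLE A A') (h2 : AlmostLE A' A) {θ : Module.End K V}
    (h : EE A θ) : EE A' θ :=
  ((AlmostLE.map h2 θ).trans h).trans h1

theorem E1.of_almost (h1 : AlmostLE A A') {θ : Module.End K V} (h : E1 A θ) : E1 A' θ :=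
  AlmostLE.trans h h1

theorem E2.of_almost (h2 : AlmostLE A' A) {θ : Module.End K V} (h : E2 A θ) : E2 A' θ :=
  (AlmostLE.map h2 θ).trans h

theorem E0.of_almost (h1 : AlmostLE A A') (h2 : AlmostLE A' A) {θ : Module.End K V}
    (h : E0 A θ) : E0 A' θ :=
  ⟨h.1.of_almost h1, h.2.of_almost h2⟩

/-! ### Projectors -/

theorem isProj_E1 {p : Module.End K V} (hp : LinearMap.IsProj A p) : E1 A p :=
  AlmostLE.of_le (by rintro _ ⟨x, rfl⟩; exact hp.map_mem x)

/-- If `θ X ≲ A` then `(θ - p θ) X` is finite-dimensional. -/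
theorem almostLE_map_sub_proj {p : Module.End K V} (hp : LinearMap.IsProj A p)
    {X : Submodule K V} {θ : Module.End K V} (h : AlmostLE (X.map θ) A) :
    AlmostLE (X.map (θ - p * θ)) ⊥ := by
  obtain ⟨W, hW, h⟩ := h
  refine ⟨W ⊔ W.map p, inferInstance, ?_⟩
  rw [bot_sup_eq]
  rintro _ ⟨x, hx, rfl⟩
  obtain ⟨a, ha, w, hw, e⟩ := Submodule.mem_sup.mp (h ⟨x, hx, rfl⟩)
  have : (θ - p * θ) x = w - p w := by
    rw [LinearMap.sub_apply, Module.End.mul_apply, ← e, map_add, hp.map_id a ha]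
    abel
  rw [this]
  exact Submodule.sub_mem _ (Submodule.mem_sup_left hw) (Submodule.mem_sup_right ⟨w, hw, rfl⟩)

theorem isProj_sub_mul_E2 {p f : Module.End K V} (hp : LinearMap.IsProj A p) (hf : EE A f) :
    E2 A (f - p * f) :=
  almostLE_map_sub_proj hp hf

theorem isProj_mul_E1 {p : Module.End K V} (hp : LinearMap.IsProj A p) (f : Module.End K V) :
    E1 A (p * f) :=
  (isProj_E1 hp).mul_right f

/-- `f p - p f ∈ E₀` for `f ∈ EE`. -/
theorem isProj_commutator_E0 {p f : Module.End K V} (hp : LinearMap.IsProj A p)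
    (hf : EE A f) : E0 A (f * p - p * f) := by
  refine ⟨((isProj_E1 hp).mul_left hf).sub (isProj_mul_E1 hp f), ?_⟩
  have h := isProj_sub_mul_E2 hp hf
  unfold E2 at *
  refine h.mono_left ?_
  rintro _ ⟨a, ha, rfl⟩
  refine ⟨a, ha, ?_⟩
  simp only [LinearMap.sub_apply, Module.End.mul_apply, hp.map_id a ha]

/-- `p - p' ∈ E₀(A)` for projectors onto commensurable subspaces. -/
theorem isProj_sub_E0 {p p' : Module.End K V} (hp : LinearMap.IsProj A p)
    (hp' : LinearMap.IsProj A' p') (h1 : AlmostLE A A') (h2 : AlmostLE A' A) :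
    E0 A (p - p') := by
  refine ⟨(isProj_E1 hp).sub ((isProj_E1 hp').of_almost h2), ?_⟩
  have h : AlmostLE (A.map (1 : Module.End K V)) A' := by
    rw [show A.map (1 : Module.End K V) = A from Submodule.map_id A]; exact h1
  have h3 := almostLE_map_sub_proj hp' h
  unfold E2
  refine h3.mono_left ?_
  rintro _ ⟨a, ha, rfl⟩
  refine ⟨a, ha, ?_⟩
  simp only [LinearMap.sub_apply, Module.End.mul_apply, Module.End.one_apply, hp.map_id a ha]

/-! ### The symbol -/

/-- Tate's symbol `res^V_A (f dg) = Tr [p f, g]`, `p` a projector onto `A`. -/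
def tsym (p f g : Module.End K V) : K := fpTr (p * f * g - g * (p * f))

theorem commutator_E0 {p f g : Module.End K V} (hp : LinearMap.IsProj A p) (hf : EE A f)
    (hg : EE A g) (hc : f * g = g * f) : E0 A (p * f * g - g * (p * f)) := by
  refine ⟨((isProj_mul_E1 hp f).mul_right g).sub ((isProj_mul_E1 hp f).mul_left hg), ?_⟩
  have e : p * f * g - g * (p * f) = -((f - p * f) * g - g * (f - p * f)) := by
    have : f * g - g * f = 0 := sub_eq_zero.mpr hc
    calc p * f * g - g * (p * f)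
        = -((f - p * f) * g - g * (f - p * f)) + (f * g - g * f) := by noncomm_ring
      _ = _ := by rw [this, add_zero]
  rw [e]
  have h := isProj_sub_mul_E2 hp hf
  exact ((h.mul_right hg).sub (h.mul_left g)).neg

/-- Independence of the projector and of the subspace up to commensurability. -/
theorem tsym_congr {p p' f g : Module.End K V} (hp : LinearMap.IsProj A p)
    (hp' : LinearMap.IsProj A' p') (h1 : AlmostLE A A') (h2 : AlmostLE A' A)
    (hf : EE A f) (hg : EE A g) (hc : f * g = g * f) :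
    tsym p f g = tsym p' f g := by
  unfold tsym
  refine fpTr_commutator_congr (A := A) ?_ hg ?_
  · have : p * f - p' * f = (p - p') * f := by noncomm_ring
    rw [this]
    exact (isProj_sub_E0 hp hp' h1 h2).mul_right hf
  · exact (commutator_E0 hp' (hf.of_almost h1 h2) (hg.of_almost h1 h2) hc).of_almost h2 h1

theorem tsym_add_left {p f f' g : Module.End K V} (hp : LinearMap.IsProj A p)
    (hf : EE A f) (hf' : EE A f') (hg : EE A g) (hc : f * g = g * f) (hc' : f' * g = g * f') :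
    tsym p (f + f') g = tsym p f g + tsym p f' g := by
  unfold tsym
  rw [← fpTr_add_of_E0 (commutator_E0 hp hf hg hc) (commutator_E0 hp hf' hg hc')]
  congr 1
  noncomm_ring

theorem tsym_smul_left (p f g : Module.End K V) (c : K) :
    tsym p (c • f) g = c * tsym p f g := by
  unfold tsym
  rw [← fpTr_smul]
  congr 1
  simp only [mul_smul_comm, smul_mul_assoc, smul_sub]

theorem tsym_add_right {p f g g' : Module.End K V} (hp : LinearMap.IsProj A p)
    (hf : EE A f) (hg : EE A g) (hg' : EE A g') (hc : f * g = g * f) (hc' : f * g' = g' * f) :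
    tsym p f (g + g') = tsym p f g + tsym p f g' := by
  unfold tsym
  rw [← fpTr_add_of_E0 (commutator_E0 hp hf hg hc) (commutator_E0 hp hf hg' hc')]
  congr 1
  noncomm_ring

theorem tsym_smul_right (p f g : Module.End K V) (c : K) :
    tsym p f (c • g) = c * tsym p f g := by
  unfold tsym
  rw [← fpTr_smul]
  congr 1
  simp only [mul_smul_comm, smul_mul_assoc, smul_sub]

/-- **Leibniz rule**: `res (f d(gh)) = res (fg dh) + res (fh dg)`. -/
theorem tsym_leibniz {p f g h : Module.End K V} (hp : LinearMap.IsProj A p)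
    (hf : EE A f) (hg : EE A g) (hh : EE A h) (hfg : f * g = g * f) (hfh : f * h = h * f)
    (hgh : g * h = h * g) :
    tsym p f (g * h) = tsym p (f * g) h + tsym p (f * h) g := by
  have hfgh : (f * g) * h = h * (f * g) := by
    rw [mul_assoc, hgh, ← mul_assoc, hfh, mul_assoc]
  have hfhg : (f * h) * g = g * (f * h) := by
    rw [mul_assoc, ← hgh, ← mul_assoc, hfg, mul_assoc]
  have e0 : E0 A (p * (f * g) * h - h * (p * (f * g))) :=
    commutator_E0 hp (hf.mul hg) hh hfgh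
  have e1 : E0 A (p * (f * h) * g - g * (p * (f * h))) :=
    commutator_E0 hp (hf.mul hh) hg hfhg
  -- the second term, with the lift `h p f` of `h f`
  have hδ : E0 A (h * (p * f) - p * (f * h)) := by
    have : h * (p * f) - p * (f * h) = (h * p - p * h) * f := by
      rw [hfh]; noncomm_ring
    rw [this]
    exact (isProj_commutator_E0 hp hh).mul_right hf
  have e2 := fpTr_commutator_congr (A := A) hδ hg e1
  unfold tsym
  rw [← e2, ← fpTr_add_of_E0 e0 ?_]
  · congr 1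
    noncomm_ring
  · -- `[h p f, g] ∈ E₀`
    have : h * (p * f) * g - g * (h * (p * f))
        = (p * (f * h) * g - g * (p * (f * h)))
          + ((h * (p * f) - p * (f * h)) * g - g * (h * (p * f) - p * (f * h))) := by
      noncomm_ring
    rw [this]
    exact e1.add ((hδ.mul_right hg).sub (hδ.mul_left hg))

/-- `res (f dg) = 0` if `f` and `g` preserve `A`. -/
theorem tsym_eq_zero_of_map_le {p f g : Module.End K V} (hp : LinearMap.IsProj A p)
    (hf : A.map f ≤ A) (hg : A.map g ≤ A) (hc : f * g = g * f) :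
    tsym p f g = 0 := by
  unfold tsym
  apply fpTr_eq_zero_of_pow_eq_zero _ 2
  have hrange : ∀ x, (p * f * g - g * (p * f)) x ∈ A := by
    intro x
    simp only [LinearMap.sub_apply, Module.End.mul_apply]
    exact Submodule.sub_mem _ (hp.map_mem _) (hg ⟨_, hp.map_mem _, rfl⟩)
  have hzero : ∀ a ∈ A, (p * f * g - g * (p * f)) a = 0 := by
    intro a ha
    have hga : g a ∈ A := hg ⟨a, ha, rfl⟩
    have hfa : f a ∈ A := hf ⟨a, ha, rfl⟩
    have hfga : f (g a) ∈ A := hf ⟨_, hga, rfl⟩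
    simp only [LinearMap.sub_apply, Module.End.mul_apply]
    rw [hp.map_id _ hfga, hp.map_id _ hfa]
    have := congrArg (fun θ : Module.End K V => θ a) hc
    simp only [Module.End.mul_apply] at this
    rw [this, sub_self]
  ext x
  rw [pow_two, Module.End.mul_apply, hzero _ (hrange x)]
  rfl

end Fermat.Agent.Lib.RR.H80

end
end
-- ===== PACK-END Lib/RR/H80/Res/Symbol.lean

-- ===== PACK-BEGIN S19/H495/Saturated.lean
section
/-
A3 / S19 — WP-W6alg (helper495): saturated sublattices over a valuation ring, in the language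
"field `K` with a valuation `v`; integral means `v x ≤ 1`".

* `chart B p = B * B[p, ·]⁻¹`: the affine Grassmannian chart of the column space of `B` at the
  rows `p`; its entries are the ratios of maximal minors (affine Plücker coordinates)
  `det B[p with a ↦ i] / det B[p]`  (`chart_apply`).
* `exists_integral_chart`: choosing the maximal minor of largest valuation gives a chart with
  integral entries (the "unit pivot").
* `exists_integral_basis_matrix`: every subspace `W ⊆ Kⁿ` of dimension `d` is the column space of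
  an integral `n × d` matrix containing the identity block; hence `W ∩ Oⁿ` is the free
  `O`-module on its columns (`integral_iff_of_submatrix_eq_one`) — a saturated sublattice, and a
  direct summand of `Oⁿ`.
* `exists_constRankAt_of_rank_eq_residue_rank`: over a local ring `O ⊆ K`, a matrix whose generic
  rank equals its residual rank has constant rank at a unit pivot.
-/




set_option linter.unusedSectionVars false
set_option linter.unusedSimpArgs false
set_option linter.style.longLine false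
set_option linter.style.haveILetI false

namespace Fermat.Agent.S19.H495

open Matrix Module

variable {K : Type*} [Field K]
variable {m n ι : Type*} [Fintype m] [Fintype n] [Fintype ι] [DecidableEq m] [DecidableEq n]
  [DecidableEq ι]

/-- The affine chart of the column space of `B` at the rows `p`: the matrix `B * B[p, ·]⁻¹`,
which has the same column space as `B` and the identity block at the rows `p` (when
`det B[p, ·] ≠ 0`). -/
noncomputable def chart (B : Matrix n ι K) (p : ι → n) : Matrix n ι K :=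
  B * (B.submatrix p id)⁻¹

theorem chart_eq_coechelon (B : Matrix n ι K) (p : ι → n) : chart B p = coechelon B p id := rfl

theorem chart_submatrix (B : Matrix n ι K) (p : ι → n) (h : (B.submatrix p id).det ≠ 0) :
    (chart B p).submatrix p id = 1 :=
  coechelon_submatrix (A := B) (p := p) (q := id) h.isUnit

theorem chart_mul_submatrix (B : Matrix n ι K) (p : ι → n) (h : (B.submatrix p id).det ≠ 0) :
    chart B p * B.submatrix p id = B := by
  rw [chart, Matrix.mul_assoc, nonsing_inv_mul _ h.isUnit, Matrix.mul_one]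

theorem submatrix_update_eq_updateRow (B : Matrix n ι K) (p : ι → n) (a : ι) (i : n) :
    B.submatrix (Function.update p a i) id = (B.submatrix p id).updateRow a (B i) := by
  ext b c
  by_cases hb : b = a
  · subst hb; simp
  · simp [Matrix.updateRow_ne hb, Function.update_of_ne hb]

/-- **Cramer's rule for charts**: the entries of the chart are ratios of maximal minors. -/
theorem det_mul_chart_apply (B : Matrix n ι K) (p : ι → n) (h : (B.submatrix p id).det ≠ 0)
    (i : n) (a : ι) :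
    (B.submatrix p id).det * chart B p i a = (B.submatrix (Function.update p a i) id).det := by
  have h1 := congrFun (Matrix.det_smul_inv_vecMul_eq_cramer_transpose (B.submatrix p id) (B i)
    h.isUnit) a
  rw [Matrix.cramer_transpose_apply, ← submatrix_update_eq_updateRow] at h1
  rw [← h1]
  simp only [Pi.smul_apply, smul_eq_mul, chart, Matrix.mul_apply, Matrix.vecMul, dotProduct]

theorem chart_apply (B : Matrix n ι K) (p : ι → n) (h : (B.submatrix p id).det ≠ 0)
    (i : n) (a : ι) :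
    chart B p i a = (B.submatrix (Function.update p a i) id).det / (B.submatrix p id).det := by
  rw [← det_mul_chart_apply B p h, mul_div_cancel_left₀ _ h]

/-- The column space of a chart is the column space of the matrix. -/
theorem range_chart (B : Matrix n ι K) (p : ι → n) (h : (B.submatrix p id).det ≠ 0) :
    LinearMap.range (chart B p).mulVecLin = LinearMap.range B.mulVecLin := by
  apply le_antisymm
  · rintro _ ⟨c, rfl⟩
    refine ⟨(B.submatrix p id)⁻¹ *ᵥ c, ?_⟩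
    simp only [Matrix.mulVecLin_apply, Matrix.mulVec_mulVec, chart]
  · rintro _ ⟨c, rfl⟩
    refine ⟨B.submatrix p id *ᵥ c, ?_⟩
    simp only [Matrix.mulVecLin_apply, Matrix.mulVec_mulVec, chart_mul_submatrix B p h]

section Valuation

variable {Γ₀ : Type*} [LinearOrderedCommGroupWithZero Γ₀] (v : Valuation K Γ₀)

/-- **Unit pivot.**  If some maximal minor of `B` is nonzero, the maximal minor of largest
valuation gives a chart all of whose entries are integral. -/
theorem exists_integral_chart (B : Matrix n ι K) (h : ∃ p : ι → n, (B.submatrix p id).det ≠ 0) :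
    ∃ p : ι → n, (B.submatrix p id).det ≠ 0 ∧ ∀ i a, v (chart B p i a) ≤ 1 := by
  obtain ⟨p₀, hp₀⟩ := h
  haveI : Nonempty (ι → n) := ⟨p₀⟩
  obtain ⟨p, hp⟩ := Finite.exists_max (fun p : ι → n => v (B.submatrix p id).det)
  have hpne : (B.submatrix p id).det ≠ 0 := by
    intro h0
    have := hp p₀
    simp only [h0, map_zero] at this
    exact hp₀ ((map_eq_zero v).mp (le_antisymm this zero_le))
  refine ⟨p, hpne, fun i a => ?_⟩
  rw [chart_apply B p hpne, map_div₀]
  have hv : v (B.submatrix p id).det ≠ 0 := (Valuation.ne_zero_iff v).mpr hpne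
  rw [div_le_iff₀ (zero_lt_iff.mpr hv), one_mul]
  exact hp _

/-- Integral combinations of integral vectors are integral. -/
theorem integral_mulVec {k : Type*} [Fintype k] (B : Matrix n k K) (hB : ∀ i a, v (B i a) ≤ 1)
    (c : k → K) (hc : ∀ a, v (c a) ≤ 1) (i : n) : v ((B *ᵥ c) i) ≤ 1 := by
  simp only [Matrix.mulVec, dotProduct]
  apply Valuation.map_sum_le
  intro a _
  rw [map_mul]
  exact mul_le_one' (hB i a) (hc a)

/-- **Saturation.**  If `B` contains the identity block at the rows `p`, then a combination of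
the columns of `B` is integral iff its coefficients are; the coefficients are the coordinates at
the rows `p`. -/
theorem coeff_eq_of_submatrix_eq_one (B : Matrix n ι K) (p : ι → n)
    (hB : B.submatrix p id = 1) (c : ι → K) (a : ι) : c a = (B *ᵥ c) (p a) := by
  have : (B *ᵥ c) (p a) = (B.submatrix p id *ᵥ c) a := rfl
  rw [this, hB, Matrix.one_mulVec]

theorem integral_iff_of_submatrix_eq_one (B : Matrix n ι K) (p : ι → n)
    (hint : ∀ i a, v (B i a) ≤ 1) (hB : B.submatrix p id = 1) (c : ι → K) :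
    (∀ i, v ((B *ᵥ c) i) ≤ 1) ↔ ∀ a, v (c a) ≤ 1 := by
  constructor
  · intro h a
    rw [coeff_eq_of_submatrix_eq_one B p hB c a]
    exact h _
  · intro h i
    exact integral_mulVec v B hint c h i

/-- **Saturated sublattices over a valuation ring are free direct summands with a unit pivot.**
Every subspace `W ⊆ Kⁿ` is the column space of an integral matrix `B` containing an identity
block; consequently `W ∩ Oⁿ = B · O^d` (see `integral_iff_of_submatrix_eq_one`). -/
theorem exists_integral_basis_matrix (W : Submodule K (n → K)) :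
    ∃ (B : Matrix n (Fin (finrank K W)) K) (p : Fin (finrank K W) → n),
      (∀ i a, v (B i a) ≤ 1) ∧ B.submatrix p id = 1 ∧ LinearMap.range B.mulVecLin = W := by
  let b : Basis (Fin (finrank K W)) K W := Module.finBasis K W
  let B₀ : Matrix n (Fin (finrank K W)) K := Matrix.of fun i a => (b a : n → K) i
  have hcol : B₀.col = fun a => (b a : n → K) := rfl
  have hli : LinearIndependent K (fun a => B₀.col (id a)) := by
    show LinearIndependent K B₀.col
    rw [hcol]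
    exact b.linearIndependent.map' W.subtype (Submodule.ker_subtype W)
  obtain ⟨p₀, hp₀⟩ := exists_rows_of_linearIndependent_cols B₀ id hli
  obtain ⟨p, hp, hint⟩ := exists_integral_chart v B₀ ⟨p₀, hp₀⟩
  refine ⟨chart B₀ p, p, hint, chart_submatrix B₀ p hp, ?_⟩
  rw [range_chart B₀ p hp, Matrix.range_mulVecLin, hcol]
  have : Set.range (fun a => (b a : n → K)) = W.subtype '' Set.range b := by
    rw [← Set.range_comp]; rfl
  rw [this, Submodule.span_image, b.span_eq, Submodule.map_top, Submodule.range_subtype]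

end Valuation

/-! ### Local rings: generic rank = residual rank ⇒ constant rank at a unit pivot -/

section Local

variable {O : Type*} [CommRing O] [IsLocalRing O]

/-- Let `O` be a local ring mapping injectively to the field `K`.  If a matrix over `O` has the
same rank `r` over `K` and over the residue field of `O`, then it has constant rank at some
`r × r` pivot: a unit minor exists and all larger minors vanish.  Consequently (see
`ConstRankAt.kerEquiv`, `ConstRankAt.rangeEquiv`, `ConstRankAt.map`) the kernel and image over `O`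
are free direct summands commuting with every base change. -/
theorem exists_constRankAt_of_rank_eq_residue_rank (f : O →+* K) (hf : Function.Injective f)
    (A : Matrix m n O) (r : ℕ) (hK : (A.map f).rank ≤ r)
    (hk : (A.map (IsLocalRing.residue O)).rank = r) :
    ∃ (p : Fin r → m) (q : Fin r → n), ConstRankAt A p q := by
  subst hk
  obtain ⟨p, q, hpq⟩ := exists_det_submatrix_ne_zero (A.map (IsLocalRing.residue O))
  refine ⟨p, q, constRankAt_of_rank_map_le f hf A p q (by simpa using hK) ?_⟩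
  rw [det_submatrix_map] at hpq
  exact (IsLocalRing.residue_ne_zero_iff_isUnit _).mp hpq

/-- Converse: constant rank at a pivot forces generic rank = residual rank = size of the pivot. -/
theorem ConstRankAt.rank_map_eq {R S : Type*} [CommRing R] [CommRing S] [Nontrivial S]
    (g : R →+* S) {A : Matrix m n R} {p : ι → m} {q : ι → n} (h : ConstRankAt A p q) :
    (A.map g).rank = Fintype.card ι :=
  (h.map g).rank_eq

end Local

end Fermat.Agent.S19.H495

end
-- ===== PACK-END S19/H495/Saturated.lean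

-- ===== PACK-BEGIN S20/L0_helper980.lean
section
/-
S20 long shot — package L0 of captain helper20's skeleton (level one toolkit),
statements exactly as in `origin/helper20:Fermat/Agent/S20/Skeleton.lean`.  (helper980)
Sorry-free.
-/


set_option autoImplicit false

noncomputable section

namespace Fermat.Agent.S20.C980

open Fermat.Agent.S20
open UpperHalfPlane ModularForm CongruenceSubgroup MatrixGroups Filter Module
open scoped Manifold Topology Real

local notation "Δ" => ModularForm.discriminant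

/-! ## Bridge between `ModularForm 𝒮ℒ k` and `MF ⊤ k` -/

lemma coe_mem_MF_top {k : ℤ} (f : ModularForm 𝒮ℒ k) : (⇑f : ℍ → ℂ) ∈ MF ⊤ k := by
  refine ⟨ModularFormClass.holo f, fun γ _ => ?_,
    fun γ => ModularFormClass.bdd_at_infty_slash f γ⟩
  rw [SL_slash]
  exact SlashInvariantFormClass.slash_action_eq f _ ⟨γ, rfl⟩

lemma coe_mem_SF_top {k : ℤ} (f : CuspForm 𝒮ℒ k) : (⇑f : ℍ → ℂ) ∈ SF ⊤ k := by
  refine ⟨CuspFormClass.holo f, fun γ _ => ?_,
    fun γ => CuspFormClass.zero_at_infty_slash f γ⟩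
  rw [SL_slash]
  exact SlashInvariantFormClass.slash_action_eq f _ ⟨γ, rfl⟩

/-- The bundled level one modular form attached to an element of `MF ⊤ k`. -/
def ofMFtop {k : ℤ} {f : ℍ → ℂ} (hf : f ∈ MF ⊤ k) : ModularForm 𝒮ℒ k where
  toFun := f
  slash_action_eq' γ hγ := by
    obtain ⟨γ', rfl⟩ := hγ
    exact hf.2.1 γ' (Subgroup.mem_top _)
  holo' := hf.1
  bdd_at_cusps' {c} hc := by
    rw [Subgroup.IsArithmetic.isCusp_iff_isCusp_SL2Z] at hc
    rw [OnePoint.isBoundedAt_iff_forall_SL2Z hc]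
    intro γ _
    exact hf.2.2 γ

/-- The bundled level one cusp form attached to an element of `SF ⊤ k`. -/
def ofSFtop {k : ℤ} {f : ℍ → ℂ} (hf : f ∈ SF ⊤ k) : CuspForm 𝒮ℒ k where
  toFun := f
  slash_action_eq' γ hγ := by
    obtain ⟨γ', rfl⟩ := hγ
    exact hf.2.1 γ' (Subgroup.mem_top _)
  holo' := hf.1
  zero_at_cusps' {c} hc := by
    rw [Subgroup.IsArithmetic.isCusp_iff_isCusp_SL2Z] at hc
    rw [OnePoint.isZeroAt_iff_forall_SL2Z hc]
    intro γ _
    exact hf.2.2 γ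

@[simp] lemma coe_ofMFtop {k : ℤ} {f : ℍ → ℂ} (hf : f ∈ MF ⊤ k) : ⇑(ofMFtop hf) = f := rfl
@[simp] lemma coe_ofSFtop {k : ℤ} {f : ℍ → ℂ} (hf : f ∈ SF ⊤ k) : ⇑(ofSFtop hf) = f := rfl

/-- Level one forms, bundled versus function level. -/
def MFtopEquiv (k : ℤ) : ModularForm 𝒮ℒ k ≃ₗ[ℂ] MF ⊤ k where
  toFun f := ⟨⇑f, coe_mem_MF_top f⟩
  map_add' f g := rfl
  map_smul' c f := rfl
  invFun f := ofMFtop f.2
  left_inv f := by ext; rfl
  right_inv f := by ext; rfl

/-! ## L0 : level one toolkit -/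

/-- L0.1 -/
theorem E₄_mem : (⇑E₄ : ℍ → ℂ) ∈ MF ⊤ 4 := coe_mem_MF_top E₄
/-- L0.1 -/
theorem E₆_mem : (⇑E₆ : ℍ → ℂ) ∈ MF ⊤ 6 := coe_mem_MF_top E₆
/-- L0.1 -/
theorem discriminant_mem : (Δ : ℍ → ℂ) ∈ SF ⊤ 12 := coe_mem_SF_top CuspForm.discriminant

/-- L0.2 : dimension of level one forms (Mathlib `dimension_level_one`). -/
theorem finrank_MF_top (k : ℤ) : finrank ℂ (MF (⊤ : Subgroup SL(2, ℤ)) k) =
    if 0 ≤ k ∧ Even k then (if k % 12 = 2 then k.toNat / 12 else k.toNat / 12 + 1) else 0 := by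
  rw [← (MFtopEquiv k).finrank_eq]
  rcases lt_or_ge k 0 with hk | hk
  · rw [if_neg (by omega)]
    exact Module.finrank_eq_zero_of_rank_eq_zero
      (ModularForm.levelOne_neg_weight_rank_zero hk)
  rcases Int.even_or_odd k with he | ho
  · rw [if_pos ⟨hk, he⟩]
    lift k to ℕ using hk
    have hr := dimension_level_one k (mod_cast he)
    have h12 : ((k : ℤ) % 12 = 2) ↔ k ≡ 2 [MOD 12] := by
      rw [Nat.ModEq]; omega
    simp only [Int.toNat_natCast]
    apply Module.finrank_eq_of_rank_eq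
    rw [hr]
    by_cases h : k ≡ 2 [MOD 12]
    · rw [if_pos h, if_pos (h12.mpr h)]
    · rw [if_neg h, if_neg (fun h' => h (h12.mp h'))]
  · rw [if_neg (fun h => (Int.not_even_iff_odd.mpr ho) h.2)]
    exact Module.finrank_eq_zero_of_rank_eq_zero
      (ModularForm.levelOne_odd_weight_rank_zero ho)

/-- L0.3 : level one cusp forms are multiples of `Δ` (Mathlib `CuspForm.discriminantEquiv`). -/
theorem exists_eq_discriminant_mul_top {k : ℤ} {f : ℍ → ℂ} (hf : f ∈ SF ⊤ k) :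
    ∃ g ∈ MF ⊤ (k - 12), f = Δ * g := by
  refine ⟨⇑(CuspForm.discriminantEquiv (ofSFtop hf)), coe_mem_MF_top _, ?_⟩
  exact (ModularForm.discriminant_mul_discriminantEquiv (ofSFtop hf)).symm

end Fermat.Agent.S20.C980

end

end
-- ===== PACK-END S20/L0_helper980.lean

-- ===== PACK-BEGIN S20/P5Asm_helper398.lean
section




/-!
# S20, piece P5 (helper398): assembly with the landed combinatorial leaves

`S20_of_core`: the frozen statement S20 from the core pieces of the frame route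
(`SFequiv`, existence of a fundamental system for `Γ₀(N)`, and P2, P3, P4), with the four
combinatorial leaves (index, fixed points of `S` and `S * T`, `T`-orbits) discharged by the
landed files `H872/Index`, `H872/Coset`, `CuspCount360`.
-/

set_option autoImplicit false

noncomputable section

namespace Fermat.Agent.S20.P5helper398

open Fermat.Agent.S20
open UpperHalfPlane ModularForm CongruenceSubgroup MatrixGroups Filter Module

local notation "Sm" => ModularGroup.S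
local notation "Tm" => ModularGroup.T

/-- The frozen statement from the identification `CuspForm ≃ SF` and the abstract dimension
formula for `Γ₀(N)`. -/
theorem S20_of_dim (N : ℕ) [NeZero N]
    (e : CuspForm (CongruenceSubgroup.Gamma0 N) 2 ≃ₗ[ℂ] SF (Gamma0 N) 2)
    (hdim : (finrank ℂ (SF (Gamma0 N) 2) : ℚ) = 1 + (Nat.card (X (Gamma0 N)) : ℚ) / 12
      - (Nat.card {x : X (Gamma0 N) // Sm • x = x} : ℚ) / 4
      - (Nat.card {x : X (Gamma0 N) // (Sm * Tm) • x = x} : ℚ) / 3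
      - (Nat.card (MulAction.orbitRel.Quotient (Subgroup.zpowers Tm) (X (Gamma0 N))) : ℚ) / 2) :
    (Module.finrank ℂ (CuspForm (CongruenceSubgroup.Gamma0 N) 2) : ℚ)
      = ModularCurve.genusFormula N :=
  S20_assembled_of N e hdim (H872.card_quot_Gamma0 N) (H872.card_fixed_S N)
    (H872.card_fixed_ST N) (CuspCount360.card_orbits_T N)

/-- The frozen statement from the core pieces of the frame route. -/
theorem S20_of_core (N : ℕ) [NeZero N]
    (e : CuspForm (CongruenceSubgroup.Gamma0 N) 2 ≃ₗ[ℂ] SF (Gamma0 N) 2)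
    (𝔉 : FundSystem (Gamma0 N))
    (hP20 : ∀ j : 𝔉.J, 0 ≤ 𝔉.wt j ∧ Even (𝔉.wt j))
    (hP21 : 2 * (Finset.univ.filter fun j => 𝔉.wt j % 4 = 0).card =
      Nat.card (X (Gamma0 N)) + Nat.card {x : X (Gamma0 N) // Sm • x = x})
    (hP22 : 3 * (Finset.univ.filter fun j => 𝔉.wt j % 6 = 0).card =
        Nat.card (X (Gamma0 N)) + 2 * Nat.card {x : X (Gamma0 N) // (Sm * Tm) • x = x} ∧
      3 * (Finset.univ.filter fun j => 𝔉.wt j % 6 = 2).card
        + Nat.card {x : X (Gamma0 N) // (Sm * Tm) • x = x} = Nat.card (X (Gamma0 N)) ∧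
      3 * (Finset.univ.filter fun j => 𝔉.wt j % 6 = 4).card
        + Nat.card {x : X (Gamma0 N) // (Sm * Tm) • x = x} = Nat.card (X (Gamma0 N)))
    (hP3 : ∑ j, 𝔉.wt j
        + 6 * Nat.card (MulAction.orbitRel.Quotient (Subgroup.zpowers Tm) (X (Gamma0 N))) =
      6 * Nat.card (X (Gamma0 N)))
    (hP41 : ∀ j : 𝔉.J, 𝔉.wt j ≤ 10)
    (hP42 : finrank ℂ (SF (Gamma0 N) 2) = (Finset.univ.filter fun j => 𝔉.wt j = 10).card)
    (hP43 : (Finset.univ.filter fun j => 𝔉.wt j = 0).card = 1) :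
    (Module.finrank ℂ (CuspForm (CongruenceSubgroup.Gamma0 N) 2) : ℚ)
      = ModularCurve.genusFormula N :=
  S20_of_dim N e (finrank_SF_two_of_fundSystem 𝔉 hP20 hP21 hP22 hP3 hP41 hP42 hP43)

end Fermat.Agent.S20.P5helper398

end
end
-- ===== PACK-END S20/P5Asm_helper398.lean

-- ===== PACK-BEGIN S20/L1/Divisors.lean
section




/-!
# S20 — level one divisors (Skeleton L0.1 + L1.1-L1.3, helper140)

* `coe_mem_MF_top`, `coe_mem_SF_top` : bundled level one forms are in `MF ⊤ k` / `SF ⊤ k`;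
* `E₄_mem`, `E₆_mem`, `discriminant_mem` (Skeleton L0.1);
* `levelOne_smul_eq` : `f (γ • z) = denom γ z ^ k * f z`;
* `E₆_I`, `E₄_rhoPt` : values at the elliptic points;
* `E₆_eq_zero_iff`, `E₄_eq_zero_iff`, `jDiff_eq_zero_iff`, `Pform_eq_zero_iff` : zero sets;
* `levelOneDivisor_E₆`, `levelOneDivisor_E₄`, `levelOneDivisor_generic` (Skeleton L1.1-L1.3).
-/

set_option autoImplicit false

noncomputable section

namespace Fermat.Agent.S20.L1

open UpperHalfPlane ModularForm EisensteinSeries MatrixGroups Filter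
open scoped Manifold Topology Real

local notation "Δ" => ModularForm.discriminant

/-! ## Membership in the function-level spaces -/

/-- Bundled level one modular forms lie in the function-level space `MF ⊤ k`. -/
theorem coe_mem_MF_top {k : ℤ} (f : ModularForm 𝒮ℒ k) : (⇑f : ℍ → ℂ) ∈ MF ⊤ k := by
  refine ⟨ModularFormClass.holo f, fun γ _ => levelOne_slash_eq f γ, fun γ => ?_⟩
  rw [levelOne_slash_eq f γ]
  exact levelOne_isBoundedAtImInfty f

/-- Bundled level one cusp forms lie in the function-level space `SF ⊤ k`. -/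
theorem coe_mem_SF_top {k : ℤ} (f : CuspForm 𝒮ℒ k) : (⇑f : ℍ → ℂ) ∈ SF ⊤ k := by
  have hs : ∀ γ : SL(2, ℤ), (f : ℍ → ℂ) ∣[k] γ = f := fun γ =>
    SlashInvariantFormClass.slash_action_eq f _ ⟨γ, rfl⟩
  refine ⟨CuspFormClass.holo f, fun γ _ => hs γ, fun γ => ?_⟩
  rw [hs γ]
  exact CuspFormClass.zero_at_infty f

/-- L0.1 -/
theorem E₄_mem : (⇑E₄ : ℍ → ℂ) ∈ MF ⊤ 4 := coe_mem_MF_top E₄

/-- L0.1 -/
theorem E₆_mem : (⇑E₆ : ℍ → ℂ) ∈ MF ⊤ 6 := coe_mem_MF_top E₆

/-- L0.1 -/
theorem discriminant_mem : (Δ : ℍ → ℂ) ∈ SF ⊤ 12 := coe_mem_SF_top CuspForm.discriminant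

/-- Products of level one forms (function level). -/
theorem mul_mem_MF_top {a b : ℤ} {f g : ℍ → ℂ} (hf : f ∈ MF ⊤ a) (hg : g ∈ MF ⊤ b) :
    f * g ∈ MF ⊤ (a + b) := by
  obtain ⟨hf1, hf2, hf3⟩ := hf
  obtain ⟨hg1, hg2, hg3⟩ := hg
  have hs : ∀ γ : SL(2, ℤ), (f * g) ∣[a + b] γ = f * g := fun γ => by
    rw [ModularForm.mul_slash_SL2, hf2 γ (Subgroup.mem_top γ), hg2 γ (Subgroup.mem_top γ)]
  refine ⟨hf1.mul hg1, fun γ _ => hs γ, fun γ => ?_⟩
  rw [hs γ]
  have h1 := hf3 1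
  have h2 := hg3 1
  rw [SlashAction.slash_one] at h1 h2
  exact h1.mul h2

/-- `E₄ ^ 3` as a function-level form of weight `12`. -/
theorem E₄_cube_mem : (fun z : ℍ => E₄ z ^ 3) ∈ MF ⊤ 12 := by
  have h := mul_mem_MF_top E₄_mem (mul_mem_MF_top E₄_mem E₄_mem)
  have he : (fun z : ℍ => E₄ z ^ 3) = (⇑E₄ : ℍ → ℂ) * (⇑E₄ * ⇑E₄) := by
    funext z
    simp only [Pi.mul_apply]
    ring
  rw [he]
  exact h

/-- `jDiff z₀ = Δ(z₀) E₄³ - E₄(z₀)³ Δ` is a level one form of weight `12`. -/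
theorem jDiff_mem (z₀ : ℍ) : jDiff z₀ ∈ MF ⊤ 12 := by
  have he : jDiff z₀ = Δ z₀ • (fun z : ℍ => E₄ z ^ 3) - (E₄ z₀ ^ 3) • (Δ : ℍ → ℂ) := by
    funext z
    simp only [jDiff, Pi.sub_apply, Pi.smul_apply, smul_eq_mul]
    ring
  rw [he]
  exact Submodule.sub_mem _ (Submodule.smul_mem _ _ E₄_cube_mem)
    (Submodule.smul_mem _ _ (SF_le_MF _ _ discriminant_mem))

/-! ## The transformation rule in multiplicative form -/

/-- `f (γ • z) = (c z + d) ^ k f z` for level one forms. -/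
lemma levelOne_smul_eq {k : ℤ} (f : ModularForm 𝒮ℒ k) (γ : SL(2, ℤ)) (z : ℍ) :
    f (γ • z) = denom γ z ^ k * f z := by
  have h := congrFun (levelOne_slash_eq f γ) z
  rw [SL_slash_apply] at h
  have hd : denom γ z ^ k ≠ 0 := zpow_ne_zero _ (denom_ne_zero _ _)
  rw [zpow_neg] at h
  field_simp at h
  rw [h]

/-- The same for `Δ`. -/
lemma discriminant_smul_eq (γ : SL(2, ℤ)) (z : ℍ) :
    Δ (γ • z) = denom γ z ^ (12 : ℤ) * Δ z := by
  have h := congrFun (discriminant_mem.2.1 γ (Subgroup.mem_top γ)) z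
  rw [SL_slash_apply] at h
  have hd : denom γ z ^ (12 : ℤ) ≠ 0 := zpow_ne_zero _ (denom_ne_zero _ _)
  rw [zpow_neg] at h
  field_simp at h
  exact_mod_cast h

lemma levelOne_smul_eq_zero_iff {k : ℤ} (f : ModularForm 𝒮ℒ k) (γ : SL(2, ℤ)) (z : ℍ) :
    f (γ • z) = 0 ↔ f z = 0 := by
  rw [levelOne_smul_eq, mul_eq_zero]
  exact or_iff_right (zpow_ne_zero _ (denom_ne_zero _ _))

/-! ## Values at the elliptic points -/

lemma S_smul_I : ModularGroup.S • UpperHalfPlane.I = UpperHalfPlane.I := by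
  rw [UpperHalfPlane.modular_S_smul]
  ext
  simp

/-- `E₆ (i) = 0`. -/
theorem E₆_I : E₆ UpperHalfPlane.I = 0 := by
  have h := levelOne_smul_eq E₆ ModularGroup.S UpperHalfPlane.I
  rw [S_smul_I, ModularGroup.denom_S] at h
  have h6 : ((UpperHalfPlane.I : ℍ) : ℂ) ^ (6 : ℤ) = -1 := by
    have : ((UpperHalfPlane.I : ℍ) : ℂ) = Complex.I := rfl
    rw [this]
    norm_cast
    rw [show (6 : ℕ) = 2 * 3 by norm_num, pow_mul, Complex.I_sq]
    norm_num
  rw [h6] at h
  have : (2 : ℂ) * E₆ UpperHalfPlane.I = 0 := by linear_combination h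
  simpa using this

/-- `ρ = e^{2πi/3}` (same body as `rho` of the skeletons). -/
def rhoPt : ℍ := ⟨⟨-1 / 2, Real.sqrt 3 / 2⟩, by simp⟩

lemma coe_rhoPt : ((rhoPt : ℍ) : ℂ) = ⟨-1 / 2, Real.sqrt 3 / 2⟩ := rfl

lemma rhoPt_sq_add : ((rhoPt : ℍ) : ℂ) ^ 2 + (rhoPt : ℂ) + 1 = 0 := by
  rw [coe_rhoPt]
  apply Complex.ext
  · simp [pow_two]
    have h3 : Real.sqrt 3 * Real.sqrt 3 = 3 := Real.mul_self_sqrt (by norm_num)
    nlinarith
  · simp [pow_two]
    ring

lemma ST_smul_rhoPt : (ModularGroup.S * ModularGroup.T) • rhoPt = rhoPt := by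
  rw [mul_smul, UpperHalfPlane.modular_S_smul]
  ext
  show (-((ModularGroup.T • rhoPt : ℍ) : ℂ))⁻¹ = (rhoPt : ℂ)
  have hT : ((ModularGroup.T • rhoPt : ℍ) : ℂ) = (rhoPt : ℂ) + 1 := by
    have := UpperHalfPlane.modular_T_smul rhoPt
    rw [this]
    simp [add_comm]
  rw [hT]
  apply inv_eq_of_mul_eq_one_left
  linear_combination -rhoPt_sq_add

lemma denom_ST (z : ℍ) :
    denom ((ModularGroup.S * ModularGroup.T : SL(2, ℤ)) : GL (Fin 2) ℝ) z = (z : ℂ) + 1 := by
  rw [ModularGroup.denom_apply]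
  simp [ModularGroup.coe_S, ModularGroup.coe_T, Matrix.mul_apply, Fin.sum_univ_two]

/-- `E₄ (ρ) = 0`. -/
theorem E₄_rhoPt : E₄ rhoPt = 0 := by
  have h := levelOne_smul_eq E₄ (ModularGroup.S * ModularGroup.T) rhoPt
  rw [ST_smul_rhoPt, denom_ST] at h
  have hr := rhoPt_sq_add
  have h4 : (((rhoPt : ℍ) : ℂ) + 1) ^ (4 : ℤ) = -(rhoPt : ℂ) - 1 := by
    norm_cast
    linear_combination ((rhoPt : ℂ) ^ 2 + 3 * (rhoPt : ℂ) + 2) * hr
  rw [h4] at h
  have h2 : ((rhoPt : ℂ) + 2) * E₄ rhoPt = 0 := by linear_combination h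
  rcases mul_eq_zero.mp h2 with h0 | h0
  · exfalso
    have : ((rhoPt : ℍ) : ℂ) = -2 := by linear_combination h0
    rw [this] at hr
    norm_num at hr
  · exact h0

/-! ## Zero sets -/

/-- The zeros of `E₆` are exactly the orbit of `i`. -/
theorem E₆_eq_zero_iff (z : ℍ) : E₆ z = 0 ↔ ∃ γ : SL(2, ℤ), γ • UpperHalfPlane.I = z := by
  constructor
  · intro hz
    refine j_inj UpperHalfPlane.I z ?_
    rw [hz, E₆_I]
    ring
  · rintro ⟨γ, rfl⟩
    rw [levelOne_smul_eq_zero_iff]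
    exact E₆_I

/-- The zeros of `E₄` are exactly the orbit of `ρ`. -/
theorem E₄_eq_zero_iff (z : ℍ) : E₄ z = 0 ↔ ∃ γ : SL(2, ℤ), γ • rhoPt = z := by
  constructor
  · intro hz
    refine j_inj rhoPt z ?_
    rw [hz, E₄_rhoPt]
    ring
  · rintro ⟨γ, rfl⟩
    rw [levelOne_smul_eq_zero_iff]
    exact E₄_rhoPt

/-- The zeros of `jDiff z₀` are exactly the orbit of `z₀` (no hypothesis on `z₀`). -/
theorem jDiff_eq_zero_iff (z₀ z : ℍ) : jDiff z₀ z = 0 ↔ ∃ γ : SL(2, ℤ), γ • z₀ = z := by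
  constructor
  · intro hz
    refine exists_smul_eq_of_j_eq_h544 z₀ z ?_
    simp only [jDiff] at hz
    linear_combination -hz
  · rintro ⟨γ, rfl⟩
    simp only [jDiff]
    rw [levelOne_smul_eq E₄ γ z₀, discriminant_smul_eq γ z₀]
    have : (denom γ z₀ ^ (4 : ℤ)) ^ 3 = denom γ z₀ ^ (12 : ℤ) := by
      rw [← zpow_natCast, ← zpow_mul]
      norm_num
    rw [mul_pow, this]
    ring

/-- Zero set of `Pform τ₀ = E₄³ E₆(τ₀)² - E₆² E₄(τ₀)³` (shape of helper860's `Division.lean`). -/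
theorem Pform_eq_zero_iff (τ₀ z : ℍ) :
    E₄ z ^ 3 * E₆ τ₀ ^ 2 - E₆ z ^ 2 * E₄ τ₀ ^ 3 = 0 ↔ ∃ g : SL(2, ℤ), g • τ₀ = z := by
  rw [Pform_eq_jDiff, mul_eq_zero, or_iff_right (by norm_num : (-1728 : ℂ) ≠ 0)]
  exact jDiff_eq_zero_iff τ₀ z

/-! ## Behaviour at `i∞` -/

lemma not_isZeroAtImInfty_of_tendsto {f : ℍ → ℂ} {c : ℂ} (h : Tendsto f atImInfty (𝓝 c))
    (hc : c ≠ 0) : ¬ IsZeroAtImInfty f := fun h0 =>
  hc (tendsto_nhds_unique h h0)

lemma tendsto_discriminant : Tendsto (Δ : ℍ → ℂ) atImInfty (𝓝 0) :=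
  (discriminant_mem.2.2 1).congr' (by rw [SlashAction.slash_one])

lemma tendsto_jDiff (z₀ : ℍ) : Tendsto (jDiff z₀) atImInfty (𝓝 (Δ z₀)) := by
  have h := ((tendsto_E₄.pow 3).mul_const (Δ z₀)).sub (tendsto_discriminant.const_mul (E₄ z₀ ^ 3))
  show Tendsto (fun z : ℍ => E₄ z ^ 3 * Δ z₀ - E₄ z₀ ^ 3 * Δ z) atImInfty (𝓝 (Δ z₀))
  simpa using h

/-! ## The three level one divisors -/

/-- L1.1 -/
theorem levelOneDivisor_E₆ : LevelOneDivisor UpperHalfPlane.I 6 ⇑E₆ where
  mem := E₆_mem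
  zero_iff := E₆_eq_zero_iff
  simple := deriv_E₆_ne_zero
  not_zero_at_infty := not_isZeroAtImInfty_of_tendsto tendsto_E₆ one_ne_zero

/-- L1.2 -/
theorem levelOneDivisor_E₄ : LevelOneDivisor rhoPt 4 ⇑E₄ where
  mem := E₄_mem
  zero_iff := E₄_eq_zero_iff
  simple := deriv_E₄_ne_zero
  not_zero_at_infty := not_isZeroAtImInfty_of_tendsto tendsto_E₄ one_ne_zero

/-- L1.3 (with the function written as `jDiff z₀`). -/
theorem levelOneDivisor_jDiff (z₀ : ℍ) (h4 : E₄ z₀ ≠ 0) (h6 : E₆ z₀ ≠ 0) :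
    LevelOneDivisor z₀ 12 (jDiff z₀) where
  mem := jDiff_mem z₀
  zero_iff := jDiff_eq_zero_iff z₀
  simple := fun _ hz => (deriv_ne_zero_iff_D_ne_zero _ _).mpr (D_jDiff_ne_zero' h4 h6 hz)
  not_zero_at_infty := not_isZeroAtImInfty_of_tendsto (tendsto_jDiff z₀) (discriminant_ne_zero z₀)

/-- L1.3 (verbatim Skeleton shape). -/
theorem levelOneDivisor_generic (z₀ : ℍ) (h4 : E₄ z₀ ≠ 0) (h6 : E₆ z₀ ≠ 0) :
    LevelOneDivisor z₀ 12 (fun z => E₄ z ^ 3 * Δ z₀ - E₄ z₀ ^ 3 * Δ z) :=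
  levelOneDivisor_jDiff z₀ h4 h6

/-- Every point of `ℍ` carries a level one divisor (of weight `4`, `6` or `12`). -/
theorem exists_levelOneDivisor (z₀ : ℍ) : ∃ (w : ℤ) (P : ℍ → ℂ), 0 < w ∧ LevelOneDivisor z₀ w P := by
  by_cases h4 : E₄ z₀ = 0
  · obtain ⟨γ, hγ⟩ := (E₄_eq_zero_iff z₀).mp h4
    refine ⟨4, ⇑E₄, by norm_num, ⟨E₄_mem, fun z => ?_, deriv_E₄_ne_zero,
      not_isZeroAtImInfty_of_tendsto tendsto_E₄ one_ne_zero⟩⟩
    rw [E₄_eq_zero_iff z]
    constructor
    · rintro ⟨g, rfl⟩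
      exact ⟨g * γ⁻¹, by rw [← hγ, mul_smul, inv_smul_smul]⟩
    · rintro ⟨g, rfl⟩
      exact ⟨g * γ, by rw [mul_smul, hγ]⟩
  by_cases h6 : E₆ z₀ = 0
  · obtain ⟨γ, hγ⟩ := (E₆_eq_zero_iff z₀).mp h6
    refine ⟨6, ⇑E₆, by norm_num, ⟨E₆_mem, fun z => ?_, deriv_E₆_ne_zero,
      not_isZeroAtImInfty_of_tendsto tendsto_E₆ one_ne_zero⟩⟩
    rw [E₆_eq_zero_iff z]
    constructor
    · rintro ⟨g, rfl⟩
      exact ⟨g * γ⁻¹, by rw [← hγ, mul_smul, inv_smul_smul]⟩
    · rintro ⟨g, rfl⟩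
      exact ⟨g * γ, by rw [mul_smul, hγ]⟩
  · exact ⟨12, jDiff z₀, by norm_num, levelOneDivisor_jDiff z₀ h4 h6⟩

end Fermat.Agent.S20.L1

end
end
-- ===== PACK-END S20/L1/Divisors.lean

-- ===== PACK-BEGIN S20/H428/HomBasis.lean
section





set_option autoImplicit false

open UpperHalfPlane ModularForm CongruenceSubgroup Matrix.SpecialLinearGroup EisensteinSeries
open Filter Topology
open scoped MatrixGroups ModularForm Manifold

noncomputable section

namespace Fermat.Agent.S20.H428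

/-! ### Closure properties of `IsMF` -/

lemma IsMF.congr_weight {Γ : Subgroup SL(2, ℤ)} {k k' : ℤ} {f : ℍ → ℂ} (hf : IsMF Γ k f)
    (h : k = k') : IsMF Γ k' f := h ▸ hf

lemma isMF_zero (Γ : Subgroup SL(2, ℤ)) (k : ℤ) : IsMF Γ k 0 := by
  refine ⟨mdifferentiable_const, fun γ _ => SlashAction.zero_slash _ _, fun γ => ?_⟩
  rw [SlashAction.zero_slash]
  exact (boundedAtImInftySubalgebra ℂ).zero_mem

lemma IsMF.add {Γ : Subgroup SL(2, ℤ)} {k : ℤ} {f g : ℍ → ℂ} (hf : IsMF Γ k f)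
    (hg : IsMF Γ k g) : IsMF Γ k (f + g) := by
  obtain ⟨hf1, hf2, hf3⟩ := hf
  obtain ⟨hg1, hg2, hg3⟩ := hg
  refine ⟨hf1.add hg1, fun γ hγ => ?_, fun γ => ?_⟩
  · rw [SlashAction.add_slash, hf2 γ hγ, hg2 γ hγ]
  · rw [SlashAction.add_slash]
    exact (boundedAtImInftySubalgebra ℂ).add_mem (hf3 γ) (hg3 γ)

lemma IsMF.smul {Γ : Subgroup SL(2, ℤ)} {k : ℤ} {f : ℍ → ℂ} (c : ℂ) (hf : IsMF Γ k f) :
    IsMF Γ k (c • f) := by
  obtain ⟨hf1, hf2, hf3⟩ := hf
  refine ⟨hf1.const_smul c, fun γ hγ => ?_, fun γ => ?_⟩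
  · rw [ModularForm.SL_smul_slash, hf2 γ hγ]
  · rw [ModularForm.SL_smul_slash]
    exact (boundedAtImInftySubalgebra ℂ).smul_mem (hf3 γ) c

/-- Modular forms of weight `k` for `Γ`, as a submodule of `ℍ → ℂ`. -/
def MFsub (Γ : Subgroup SL(2, ℤ)) (k : ℤ) : Submodule ℂ (ℍ → ℂ) where
  carrier := {f | IsMF Γ k f}
  add_mem' := fun hf hg => IsMF.add hf hg
  zero_mem' := isMF_zero Γ k
  smul_mem' := fun c _ hf => IsMF.smul c hf

@[simp] lemma mem_MFsub {Γ : Subgroup SL(2, ℤ)} {k : ℤ} {f : ℍ → ℂ} :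
    f ∈ MFsub Γ k ↔ IsMF Γ k f := Iff.rfl

lemma IsMF.mul_top {Γ : Subgroup SL(2, ℤ)} {w k : ℤ} {a f : ℍ → ℂ} (ha : IsMF ⊤ w a)
    (hf : IsMF Γ k f) : IsMF Γ (w + k) (a * f) := by
  obtain ⟨ha1, ha2, ha3⟩ := ha
  obtain ⟨hf1, hf2, hf3⟩ := hf
  refine ⟨ha1.mul hf1, fun γ hγ => ?_, fun γ => ?_⟩
  · rw [mul_slash_SL2, ha2 γ (Subgroup.mem_top γ), hf2 γ hγ]
  · rw [mul_slash_SL2]
    exact (ha3 γ).mul (hf3 γ)

lemma IsMF.of_top {Γ : Subgroup SL(2, ℤ)} {k : ℤ} {a : ℍ → ℂ} (ha : IsMF ⊤ k a) : IsMF Γ k a :=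
  ⟨ha.1, fun γ _ => ha.2.1 γ (Subgroup.mem_top γ), ha.2.2⟩

lemma isMF_coe_levelOne {k : ℤ} (g : ModularForm 𝒮ℒ k) : IsMF ⊤ k ⇑g :=
  (isMF_top_iff k _).mpr ⟨g, rfl⟩

lemma isMF_E4 : IsMF ⊤ 4 ⇑E₄ := isMF_coe_levelOne E₄

lemma isMF_E6 : IsMF ⊤ 6 ⇑E₆ := isMF_coe_levelOne E₆

lemma isMF_one : IsMF ⊤ 0 (1 : ℍ → ℂ) := isMF_coe_levelOne (1 : ModularForm 𝒮ℒ 0)

lemma isMF_const (c : ℂ) : IsMF ⊤ 0 (fun _ => c : ℍ → ℂ) := by
  have h := IsMF.smul c isMF_one
  have : (c • (1 : ℍ → ℂ)) = fun _ => c := by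
    ext z; simp
  rwa [this] at h

/-! ### `E₄` and `E₆` have no common zero; `E₄ → 1` at `i∞` -/

lemma E4_cube_sub_E6_sq_ne_zero (z : ℍ) : E₄ z ^ 3 - E₆ z ^ 2 ≠ 0 := by
  have h := discriminant_eq_E₄_cube_sub_E₆_sq z
  have hne := discriminant_ne_zero z
  intro h0
  rw [h0, zero_div] at h
  exact hne h

lemma tendsto_levelOne_atImInfty {k : ℤ} (g : ModularForm 𝒮ℒ k) :
    Tendsto (⇑g) atImInfty (𝓝 ((qExpansion 1 g).coeff 0)) := by
  have hanal := ModularFormClass.analyticAt_cuspFunction_zero g one_pos one_mem_strictPeriods_SL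
  have hper := SlashInvariantFormClass.periodic_comp_ofComplex g one_mem_strictPeriods_SL
  rw [qExpansion_coeff_zero one_pos hanal hper, ← cuspFunction_apply_zero one_pos hanal hper]
  exact (hanal.continuousAt.tendsto.comp (qParam_tendsto_atImInfty one_pos)).congr
    (fun τ ↦ SlashInvariantFormClass.eq_cuspFunction g τ one_mem_strictPeriods_SL one_ne_zero)

lemma tendsto_E4 : Tendsto (⇑E₄) atImInfty (𝓝 1) := by
  have h := tendsto_levelOne_atImInfty E₄
  rwa [E_qExpansion_coeff_zero (k := 4) (by norm_num) ⟨2, rfl⟩] at h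


/-! ### The regular sequence property of `(E₄, E₆)` on `M_*(Γ)` -/

/-- `E₄³ - E₆²` as a function. -/
def Dfun : ℍ → ℂ := ⇑E₄ * ⇑E₄ * ⇑E₄ - ⇑E₆ * ⇑E₆

lemma Dfun_apply (z : ℍ) : Dfun z = E₄ z ^ 3 - E₆ z ^ 2 := by
  simp only [Dfun, Pi.sub_apply, Pi.mul_apply]
  ring

lemma Dfun_ne_zero (z : ℍ) : Dfun z ≠ 0 := by
  rw [Dfun_apply]
  exact E4_cube_sub_E6_sq_ne_zero z

lemma IsMF.neg {Γ : Subgroup SL(2, ℤ)} {k : ℤ} {f : ℍ → ℂ} (hf : IsMF Γ k f) :
    IsMF Γ k (-f) := by
  have := IsMF.smul (-1 : ℂ) hf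
  rwa [neg_one_smul] at this

lemma IsMF.sub {Γ : Subgroup SL(2, ℤ)} {k : ℤ} {f g : ℍ → ℂ} (hf : IsMF Γ k f)
    (hg : IsMF Γ k g) : IsMF Γ k (f - g) := by
  rw [sub_eq_add_neg]
  exact IsMF.add hf (IsMF.neg hg)

lemma isMF_Dfun : IsMF ⊤ 12 Dfun := by
  have h1 : IsMF ⊤ 12 (⇑E₄ * ⇑E₄ * ⇑E₄) := by
    have := IsMF.mul_top (IsMF.mul_top isMF_E4 isMF_E4) isMF_E4
    exact IsMF.congr_weight this (by norm_num)
  have h2 : IsMF ⊤ 12 (⇑E₆ * ⇑E₆) := by
    have := IsMF.mul_top isMF_E6 isMF_E6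
    exact IsMF.congr_weight this (by norm_num)
  exact IsMF.sub h1 h2

theorem regular_E4_E6 {Γ : Subgroup SL(2, ℤ)} {w : ℤ} {x y : ℍ → ℂ}
    (hx : IsMF Γ (w - 4) x) (hy : IsMF Γ (w - 6) y) (h : ⇑E₄ * x = ⇑E₆ * y) :
    ∃ z : ℍ → ℂ, IsMF Γ (w - 10) z ∧ x = ⇑E₆ * z ∧ y = ⇑E₄ * z := by
  -- the numerator
  have hnum : IsMF Γ (w + 2) (⇑E₄ * ⇑E₄ * y - ⇑E₆ * x) := by
    have h1 : IsMF Γ (w + 2) (⇑E₄ * ⇑E₄ * y) :=
      IsMF.congr_weight (IsMF.mul_top (IsMF.mul_top isMF_E4 isMF_E4) hy) (by ring)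
    have h2 : IsMF Γ (w + 2) (⇑E₆ * x) :=
      IsMF.congr_weight (IsMF.mul_top isMF_E6 hx) (by ring)
    exact IsMF.sub h1 h2
  set num : ℍ → ℂ := ⇑E₄ * ⇑E₄ * y - ⇑E₆ * x with hnumdef
  set z : ℍ → ℂ := num / Dfun with hz
  have hpt : ∀ τ, E₄ τ * x τ = E₆ τ * y τ := fun τ => congrFun h τ
  have hE4z : y = ⇑E₄ * z := by
    ext τ
    have hD := Dfun_ne_zero τ
    simp only [hz, hnumdef, Pi.mul_apply, Pi.div_apply, Pi.sub_apply]
    rw [Dfun_apply] at hD ⊢
    field_simp
    linear_combination (E₆ τ) * hpt τ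
  have hE6z : x = ⇑E₆ * z := by
    ext τ
    have hD := Dfun_ne_zero τ
    simp only [hz, hnumdef, Pi.mul_apply, Pi.div_apply, Pi.sub_apply]
    rw [Dfun_apply] at hD ⊢
    field_simp
    linear_combination ((E₄ τ) ^ 2) * hpt τ
  refine ⟨z, ⟨?_, ?_, ?_⟩, hE6z, hE4z⟩
  · exact hnum.1.div isMF_Dfun.1 Dfun_ne_zero
  · intro γ hγ
    have : (num / Dfun) ∣[(w + 2) - 12] γ = num ∣[w + 2] γ / Dfun ∣[(12 : ℤ)] γ :=
      div_slash_SL2 _ _ _ _ _
    rw [show w - 10 = (w + 2) - 12 by ring, hz, this, hnum.2.1 γ hγ,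
      isMF_Dfun.2.1 γ (Subgroup.mem_top γ)]
  · intro g
    -- `E₄ * (z ∣ g) = y ∣ g`
    have h1 : ⇑E₄ * (z ∣[w - 10] g) = y ∣[w - 6] g := by
      have := mul_slash_SL2 4 (w - 10) g ⇑E₄ z
      rw [isMF_E4.2.1 g (Subgroup.mem_top g), ← hE4z] at this
      rw [← this]
      congr 1
      ring
    have hb := hy.2.2 g
    have hinv : Tendsto (fun τ => (E₄ τ)⁻¹) atImInfty (𝓝 1) := by
      simpa using tendsto_E4.inv₀ one_ne_zero
    have hinvb : IsBoundedAtImInfty (fun τ => (E₄ τ)⁻¹) := hinv.isBigO_one ℝ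
    have hprod : IsBoundedAtImInfty ((y ∣[w - 6] g) * fun τ => (E₄ τ)⁻¹) := hb.mul hinvb
    have hne : ∀ᶠ τ in atImInfty, E₄ τ ≠ 0 :=
      tendsto_E4.eventually_ne one_ne_zero
    refine hprod.congr' ?_ Filter.EventuallyEq.rfl
    filter_upwards [hne] with τ hτ
    have := congrFun h1 τ
    simp only [Pi.mul_apply] at this ⊢
    rw [← this]
    field_simp


/-! ### Structure of level one forms: `A_w = E₄ A_{w-4} + E₆ A_{w-6}` for `w ≠ 0` -/

lemma levelOne_neg {w : ℤ} (hw : w < 0) {a : ℍ → ℂ} (ha : IsMF ⊤ w a) : a = 0 := by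
  obtain ⟨g, rfl⟩ := (isMF_top_iff w a).mp ha
  have : g = 0 := rank_zero_iff_forall_zero.mp (levelOne_neg_weight_rank_zero hw) g
  rw [this]
  rfl

lemma levelOne_zero {a : ℍ → ℂ} (ha : IsMF ⊤ 0 a) : ∃ c : ℂ, a = fun _ => c := by
  obtain ⟨g, rfl⟩ := (isMF_top_iff 0 a).mp ha
  obtain ⟨c, hc⟩ := ModularFormClass.levelOne_weight_zero_const g
  exact ⟨c, hc⟩

/-- For even `k = 2n ≥ 4` there is a level one form with constant term `1` lying in
`E₄ A_{k-4} + E₆ A_{k-6}`. -/
lemma exists_G (n : ℕ) (hn : 2 ≤ n) :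
    ∃ G : ModularForm 𝒮ℒ (2 * (n : ℤ)), (qExpansion 1 G).coeff 0 = 1 ∧
      ∃ c₄ c₆ : ℍ → ℂ, IsMF ⊤ (2 * (n : ℤ) - 4) c₄ ∧ IsMF ⊤ (2 * (n : ℤ) - 6) c₆ ∧
        ⇑G = ⇑E₄ * c₄ + ⇑E₆ * c₆ := by
  induction n using Nat.strong_induction_on with
  | _ n ih =>
    rcases Nat.lt_or_ge n 4 with h4 | h4
    · interval_cases n
      · refine ⟨ModularForm.mcast (by norm_num) E₄,
          E_qExpansion_coeff_zero (k := 4) (by norm_num) ⟨2, rfl⟩, 1, 0,
          IsMF.congr_weight isMF_one (by norm_num), isMF_zero _ _, ?_⟩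
        ext z
        simp
      · refine ⟨ModularForm.mcast (by norm_num) E₆,
          E_qExpansion_coeff_zero (k := 6) (by norm_num) ⟨3, rfl⟩, 0, 1,
          isMF_zero _ _, IsMF.congr_weight isMF_one (by norm_num), ?_⟩
        ext z
        simp
    · obtain ⟨G, hG0, -⟩ := ih (n - 2) (by omega) (by omega)
      have hw : (4 : ℤ) + 2 * ((n - 2 : ℕ) : ℤ) = 2 * (n : ℤ) := by
        push_cast [Nat.cast_sub (show 2 ≤ n by omega)]; ring
      refine ⟨ModularForm.mcast hw (E₄.mul G), ?_, ⇑G, 0,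
        IsMF.congr_weight (isMF_coe_levelOne G) (by omega), isMF_zero _ _, ?_⟩
      · have : qExpansion 1 (ModularForm.mcast hw (E₄.mul G)) = qExpansion 1 E₄ * qExpansion 1 G :=
          ModularForm.qExpansion_mul one_pos one_mem_strictPeriods_SL E₄ G
        rw [this]
        simp only [PowerSeries.coeff_zero_eq_constantCoeff, map_mul] at hG0 ⊢
        rw [hG0, mul_one]
        simpa using E_qExpansion_coeff_zero (k := 4) (by norm_num) ⟨2, rfl⟩
      · ext z
        simp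

lemma levelOne_decomp {w : ℤ} (hw : w ≠ 0) {a : ℍ → ℂ} (ha : IsMF ⊤ w a) :
    ∃ b b' : ℍ → ℂ, IsMF ⊤ (w - 4) b ∧ IsMF ⊤ (w - 6) b' ∧ a = ⇑E₄ * b + ⇑E₆ * b' := by
  have hzero : a = 0 → ∃ b b' : ℍ → ℂ, IsMF ⊤ (w - 4) b ∧ IsMF ⊤ (w - 6) b' ∧
      a = ⇑E₄ * b + ⇑E₆ * b' := by
    rintro rfl
    exact ⟨0, 0, isMF_zero _ _, isMF_zero _ _, by simp⟩
  rcases lt_or_ge w 0 with hneg | hnn
  · exact hzero (levelOne_neg hneg ha)
  obtain ⟨g, rfl⟩ := (isMF_top_iff w a).mp ha
  rcases Int.even_or_odd w with he | ho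
  · obtain ⟨j, hj⟩ := he
    lift j to ℕ using (by omega) with n
    have hk2 : w = 2 * (n : ℤ) := by omega
    rcases Nat.lt_or_ge n 2 with hn | hn
    · interval_cases n
      · omega
      · have hk0 : w = 2 := by omega
        subst hk0
        have : g = 0 := rank_zero_iff_forall_zero.mp levelOne_weight_two_rank_zero g
        exact hzero (by rw [this]; rfl)
    · subst hk2
      obtain ⟨G, hG0, c₄, c₆, hc₄, hc₆, hG⟩ := exists_G n hn
      set c := (qExpansion 1 g).coeff 0 with hc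
      set g' : ModularForm 𝒮ℒ (2 * (n : ℤ)) := g - c • G with hg'
      have hcusp : (qExpansion 1 g').coeff 0 = 0 := by
        rw [hg', FunLike.coe_sub, ModularForm.qExpansion_sub one_pos one_mem_strictPeriods_SL,
          FunLike.coe_smul, ModularForm.qExpansion_smul one_pos one_mem_strictPeriods_SL, map_sub,
          PowerSeries.coeff_smul, hG0, smul_eq_mul, mul_one, sub_self]
      set h := CuspForm.discriminantEquiv (toCuspForm g' hcusp) with hh
      have hhMF : IsMF ⊤ (2 * (n : ℤ) - 12) ⇑h := isMF_coe_levelOne h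
      refine ⟨c • c₄ + (1 / 1728 : ℂ) • (⇑E₄ * ⇑E₄ * ⇑h),
        c • c₆ - (1 / 1728 : ℂ) • (⇑E₆ * ⇑h), ?_, ?_, ?_⟩
      · refine IsMF.add (IsMF.smul c hc₄) (IsMF.smul _ ?_)
        exact IsMF.congr_weight (IsMF.mul_top (IsMF.mul_top isMF_E4 isMF_E4) hhMF) (by ring)
      · refine IsMF.sub (IsMF.smul c hc₆) (IsMF.smul _ ?_)
        exact IsMF.congr_weight (IsMF.mul_top isMF_E6 hhMF) (by ring)
      · ext z
        have h1 := discriminant_mul_discriminantEquiv_apply (toCuspForm g' hcusp) z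
        rw [toCuspForm_apply, ← hh, hg', discriminant_eq_E₄_cube_sub_E₆_sq z] at h1
        have hGz := congrFun hG z
        simp only [sub_apply, smul_apply, smul_eq_mul, Pi.add_apply, Pi.mul_apply,
          Pi.sub_apply, Pi.smul_apply] at h1 hGz ⊢
        rw [hGz] at h1
        linear_combination -h1
  · have : g = 0 := levelOne_odd_weight_eq_zero ho g
    exact hzero (by rw [this]; rfl)


/-! ### Dimension bounds -/

/-- Coercion to functions, as a linear map. -/
def coeLin (Γ : Subgroup (GL (Fin 2) ℝ)) [Γ.HasDetOne] (k : ℤ) :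
    ModularForm Γ k →ₗ[ℂ] (ℍ → ℂ) where
  toFun f := ⇑f
  map_add' _ _ := rfl
  map_smul' _ _ := rfl

lemma coeLin_injective (Γ : Subgroup (GL (Fin 2) ℝ)) [Γ.HasDetOne] (k : ℤ) :
    Function.Injective (coeLin Γ k) := fun _ _ h => DFunLike.coe_injective h

lemma range_coeLin_Gamma0 (N : ℕ) [NeZero N] (k : ℤ) :
    LinearMap.range (coeLin (Gamma0 N : Subgroup (GL (Fin 2) ℝ)) k) = MFsub (Gamma0 N) k := by
  ext f
  rw [mem_MFsub, isMF_iff]
  rfl

lemma range_coeLin_top (k : ℤ) : LinearMap.range (coeLin 𝒮ℒ k) = MFsub ⊤ k := by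
  ext f
  rw [mem_MFsub, isMF_top_iff]
  rfl

/-- The first `B + 1` `q`-expansion coefficients, as a linear map. -/
def qmap (N : ℕ) [NeZero N] (k : ℤ) (B : ℕ) :
    ModularForm (Gamma0 N : Subgroup (GL (Fin 2) ℝ)) k →ₗ[ℂ] (Fin (B + 1) → ℂ) where
  toFun f := fun n => (qExpansion 1 f).coeff (n : ℕ)
  map_add' f g := by
    ext n
    rw [FunLike.coe_add, ModularForm.qExpansion_add one_pos (one_mem_strictPeriods_Gamma0 N),
      map_add]
    rfl
  map_smul' c f := by
    ext n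
    rw [FunLike.coe_smul, ModularForm.qExpansion_smul one_pos (one_mem_strictPeriods_Gamma0 N),
      PowerSeries.coeff_smul]
    rfl

lemma qmap_injective (N : ℕ) [NeZero N] (k : ℤ) :
    Function.Injective (qmap N k ((k * (Gamma0 N).index).toNat / 12)) := by
  rw [← LinearMap.ker_eq_bot, LinearMap.ker_eq_bot']
  intro f hf
  refine ModularForm.sturm_bound_Gamma0 N f fun n hn => ?_
  have := congrFun hf ⟨n, by omega⟩
  exact this

instance finite_modularForm_Gamma0 (N : ℕ) [NeZero N] (k : ℤ) :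
    Module.Finite ℂ (ModularForm (Gamma0 N : Subgroup (GL (Fin 2) ℝ)) k) :=
  Module.Finite.of_injective (qmap N k _) (qmap_injective N k)

lemma finrank_modularForm_Gamma0_le (N : ℕ) [NeZero N] (k : ℤ) :
    Module.finrank ℂ (ModularForm (Gamma0 N : Subgroup (GL (Fin 2) ℝ)) k) ≤
      (k * (Gamma0 N).index).toNat / 12 + 1 := by
  have := LinearMap.finrank_le_finrank_of_injective (qmap_injective N k)
  simpa using this

/-- `MFsub (Gamma0 N) k` is linearly equivalent to the bundled space of modular forms. -/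
def equivMFsub (N : ℕ) [NeZero N] (k : ℤ) :
    ModularForm (Gamma0 N : Subgroup (GL (Fin 2) ℝ)) k ≃ₗ[ℂ] MFsub (Gamma0 N) k :=
  (LinearEquiv.ofInjective _ (coeLin_injective _ k)).trans
    (LinearEquiv.ofEq _ _ (range_coeLin_Gamma0 N k))

lemma finite_MFsub (N : ℕ) [NeZero N] (k : ℤ) : Module.Finite ℂ (MFsub (Gamma0 N) k) :=
  Module.Finite.equiv (equivMFsub N k)

lemma finrank_MFsub_le (N : ℕ) [NeZero N] (w : ℕ) :
    Module.finrank ℂ (MFsub (Gamma0 N) (w : ℤ)) ≤ (Gamma0 N).index * w + 1 := by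
  rw [← (equivMFsub N w).finrank_eq]
  refine (finrank_modularForm_Gamma0_le N w).trans ?_
  have h1 : ((w : ℤ) * ((Gamma0 N).index : ℤ)).toNat = w * (Gamma0 N).index := by
    rw [← Nat.cast_mul, Int.toNat_natCast]
  rw [h1, mul_comm]
  have := Nat.div_le_self ((Gamma0 N).index * w) 12
  omega

lemma isMF_odd (N : ℕ) [NeZero N] (n : ℕ) (hn : Odd n) (f : ℍ → ℂ)
    (hf : IsMF (Gamma0 N) (n : ℤ) f) : f = 0 := by
  obtain ⟨g, rfl⟩ := (isMF_iff N n f).mp hf
  have hmem : (-1 : GL (Fin 2) ℝ) ∈ (Gamma0 N : Subgroup (GL (Fin 2) ℝ)) := by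
    refine ⟨-1, ?_, by ext; simp⟩
    simp [Gamma0_mem]
  have : g = 0 := ModularForm.eq_zero_of_neg_one_mem hmem (by exact_mod_cast hn) g
  rw [this]
  rfl

lemma exists_linearIndependent_levelOne (t : ℕ) (m : ℤ) (hm : Even m) (h12 : 12 * (t : ℤ) ≤ m) :
    ∃ u : Fin t → (ℍ → ℂ), (∀ s, u s ∈ MFsub ⊤ m) ∧ LinearIndependent ℂ u := by
  lift m to ℕ using (by omega) with k
  have hk : Even k := by exact_mod_cast hm
  have hrank : (t : Cardinal) ≤ Module.rank ℂ (ModularForm 𝒮ℒ (k : ℤ)) := by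
    rw [dimension_level_one k hk]
    have ht : t ≤ k / 12 := by omega
    split_ifs
    · exact_mod_cast ht
    · exact_mod_cast ht.trans (Nat.le_succ _)
  obtain ⟨v, hv⟩ := exists_linearIndependent_of_le_rank hrank
  refine ⟨fun s => ⇑(v s), fun s => isMF_coe_levelOne (v s), ?_⟩
  exact hv.map' (coeLin 𝒮ℒ k) (LinearMap.ker_eq_bot.mpr (coeLin_injective _ _))

/-! ### The graded data of `Γ₀(N)` and the main theorem -/

/-- The graded data attached to `Γ₀(N)`. -/
def grData (N : ℕ) [NeZero N] : GrData ℂ (ℍ → ℂ) where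
  A := MFsub ⊤
  M := MFsub (Gamma0 N)
  e4 := ⇑E₄
  e6 := ⇑E₆
  A_neg := fun w hw a ha => levelOne_neg hw ha
  A_zero := fun a ha => by
    obtain ⟨c, rfl⟩ := levelOne_zero ha
    exact ⟨c, rfl⟩
  A_const := fun c => isMF_const c
  A_decomp := fun w hw a ha => by
    obtain ⟨b, b', hb, hb', h⟩ := levelOne_decomp hw ha
    exact ⟨b, hb, b', hb', h⟩
  e4_mem := isMF_E4
  e6_mem := isMF_E6
  A_mul := fun w k a ha b hb => IsMF.mul_top ha hb
  AM_mul := fun w k a ha f hf => IsMF.mul_top ha hf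
  M_neg := fun w hw f hf => isMF_neg N hw hf
  regular := fun w x hx y hy h => by
    obtain ⟨z, hz, h1, h2⟩ := regular_E4_E6 hx hy h
    exact ⟨z, hz, h1, h2⟩
  finite := fun w => finite_MFsub N w

/-- **Package B**: `⨁_w M_w(Γ₀(N))` is a free graded module of finite rank over
`⨁_w M_w(SL(2,ℤ)) = ℂ[E₄, E₆]`, with a homogeneous basis. -/
theorem exists_homBasis (N : ℕ) [NeZero N] :
    ∃ (ι : Type) (_ : Fintype ι) (k : ι → ℤ) (F : ι → ℍ → ℂ), IsHomBasis N k F := by
  obtain ⟨ι, hι, k, F, hmem, hspan, hindep⟩ :=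
    (grData N).exists_finite_homBasis (fun n hn f hf => isMF_odd N n hn f hf)
      (fun t m hm h12 => exists_linearIndependent_levelOne t m hm h12)
      (Gamma0 N).index (fun w => finrank_MFsub_le N w)
  exact ⟨ι, hι, k, F, ⟨hmem, hspan, hindep⟩⟩

end Fermat.Agent.S20.H428

end
end
-- ===== PACK-END S20/H428/HomBasis.lean

-- ===== PACK-BEGIN Ribet/H495/AlgPSpec.lean
section


/-!
# RIBET row 38 / S33, WALL-p, piece **W-ALGP** (= I5, second half of (S2)): frozen interface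
(sub-architect helper495)

`(S2)`: a NEW class `x ∈ J₀(pM')[p]` in the split part has `σ x = χ(σ) x` for `σ` in inertia at `p`.
W-NC (norm contraction, owners helper232 / helper400 / helper279) turns "new + constant reductions"
into "the Kummer function is a `p`-th power in the completions at `V₁`, `V₂`".  THIS piece is the
rest: the `m = p` analogue of A2's ALG (route S), Mathlib + `A2/Spec` + `A2/Alg/Spec` only.

## Setting (= `A2.AlgSSStatement`, with `q = m = p`)
`R` henselian DVR, uniformiser `w`, residue field algebraically closed of characteristic `p`,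
`E = Frac R`, `F / E` function field with coordinate `x`, charts `Bf`, `Bi` (integral closures of
`R[x]`, `R[x⁻¹]`), semistable (`SSChart`: components `p₁`, `p₂`, `V_i = B_{p_i}`),
`τ` semilinear, `τ ≡ id mod w` on both charts.  NEW: `ζ ∈ R` a primitive `p`-th root of unity,
`λ := ζ - 1` (`λ ^ (p-1) = p · unit`, `λ ∈ (w)`), and `τ ζ = ζ ^ c`.

## Statement `AlgPStatement`
`u ≠ 0`, `p ∣ div u` (`DivisibleDiv`), `u ∈ 1 + λ^p w V_i` for `i = 1, 2` (`DeepOne`, on both charts)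
`⟹ ∃ h ≠ 0, τ u = h ^ p * u ^ c`.
(`DeepOne` is the NORMALISED output of W-NC: a class `f ∈ c_i · F̂_{V_i}^p` becomes, after adjoining
`p`-th roots of the constants to the level and multiplying by a `p`-th power (weak approximation
for `V₁, V₂`), a `u ∈ 1 + λ^p w (V₁ ∩ V₂)`; depth `λ^p w` is the Hensel bound `p e/(p-1) + 1`.)

## Route S-p (all checked on paper; see `origin/helper495:coord/RIBET-ALGP-helper495.md`)
* **WPS / WPN** (wild purity at a smooth point / at a node of the special fibre) `⟹ PureAtP`: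
  `∃ d, u · d^p ∈ 1 + λ^p B_n` and `d ∈ μ_p · (1 + λ V_i)` on both components.
  (Then `Z := ((u d^p)^{1/p} - 1)/λ` satisfies an Artin–Schreier equation `Z^p - Z ≡ t mod w`,
  étale over `B_n`.)  Proof: A2 purity (`H754`/`H609`, valid for every exponent) gives a unit
  `ε = u d₀^p ∈ B_nˣ`; successive approximation of the `p`-th root of `ε` below the Hensel bound
  (`B_n/p_i` normal, `p`-th roots unique in characteristic `p`, glue the two branches at a node);
  at a smooth point adjust `d` on the other component by an element of `1 + λ B_n`.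
  The node case in node-ring form is `H704.I6.WildPurityStatement`.
* **LF-p** (PROVED in `AlgPAsm.lean`): `PureAtP u n ⟹ LocalFactorP (τ u / u ^ c) n`, with
  `h := τ d / d ^ c`:  `τ (1 + λ^p t) ≡ 1 + c λ^p t ≡ (1 + λ^p t)^c mod λ^p w B_n`, and
  `h ∈ 1 + λ w V_i` because `τ (ζ^j) = (ζ^j)^c`: the sheet labels `j` cancel.
* **GLUE-p**: `v` with local factorisations `v h^p ∈ 1 + λ^p w B_n`, `h ∈ 1 + λ w V_i (i = 1, 2)`,
  at every closed point of the special fibre of both charts `⟹ v = y ^ p`.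
  (A2 `H348` pattern with the Artin–Schreier coordinate `Z = (Y h - 1)/λ`: the sheet `Z ≡ 0 mod w`
  is a global idempotent of the normalisation; `R` henselian.)
* **Assembly** (PROVED in `AlgPAsm.lean`): `algP_of_leaves`.
-/

set_option autoImplicit false

namespace Fermat.Agent.Ribet.H495.AlgP

open Fermat.Agent.A2 Fermat.Agent.A2.Alg

section Defs

variable {R F : Type*} [CommRing R] [Field F] [Algebra R F]

/-- `u ∈ 1 + r · B_n` for a scalar `r ∈ R` (`A2.Alg.LocOne` for the principal ideal `(r)`). -/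
def LocOneR (B : Subalgebra R F) (n : Ideal B) (r : R) (u : F) : Prop :=
  LocOne B n (Ideal.span {algebraMap R B r}) u

/-- `u ∈ 1 + λ^p w V₁` and `u ∈ 1 + λ^p w V₂` (`V_i = B_{p_i}`): the normalised form of
"`u` is a `p`-th power in both completions". -/
def DeepOne {w : R} (B : Subalgebra R F) (c : SSChart w B) (p : ℕ) (lam : R) (u : F) : Prop :=
  LocOneR B c.p₁ (lam ^ p * w) u ∧ LocOneR B c.p₂ (lam ^ p * w) u

/-- **Wild purity datum at a closed point `n`**: `u · d ^ p ∈ 1 + λ^p B_n`, and on each component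
`d` is a `p`-th root of unity times an element of `1 + λ V_i`. -/
def PureAtP {w : R} (B : Subalgebra R F) (c : SSChart w B) (p : ℕ) (ζ : R) (u : F)
    (n : Ideal B) : Prop :=
  ∃ d : F, d ≠ 0 ∧ LocOneR B n ((ζ - 1) ^ p) (u * d ^ p) ∧
    (∃ j : ℕ, LocOneR B c.p₁ (ζ - 1) (algebraMap R F (ζ ^ j) * d)) ∧
    (∃ j : ℕ, LocOneR B c.p₂ (ζ - 1) (algebraMap R F (ζ ^ j) * d))

/-- **Local factorisation at a closed point `n`** for the Kummer problem `Y ^ p = v`:
`v · h ^ p ∈ 1 + λ^p w B_n` and `h ∈ 1 + λ w V_i` on both components. -/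
def LocalFactorP {w : R} (B : Subalgebra R F) (c : SSChart w B) (p : ℕ) (lam : R) (v : F)
    (n : Ideal B) : Prop :=
  ∃ h : F, h ≠ 0 ∧ LocOneR B n (lam ^ p * w) (v * h ^ p) ∧
    LocOneR B c.p₁ (lam * w) h ∧ LocOneR B c.p₂ (lam * w) h

/-- Local factorisations at all closed points of the special fibre of the chart. -/
def LocallyFactoredP {w : R} (B : Subalgebra R F) (c : SSChart w B) (p : ℕ) (lam : R)
    (v : F) : Prop :=
  ∀ n : Ideal B, n.IsMaximal → algebraMap R B w ∈ n → LocalFactorP B c p lam v n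

end Defs

/-! ## The leaves -/

/-- **Leaf WPS** (wild purity at a closed point lying on ONE component). -/
def WPSmoothLeaf : Prop :=
  ∀ {R E F : Type} [CommRing R] [IsDomain R] [IsDiscreteValuationRing R]
    [HenselianLocalRing R] [IsAlgClosed (IsLocalRing.ResidueField R)]
    [Field E] [CharZero E] [Algebra R E] [IsFractionRing R E]
    [Field F] [Algebra E F] [Algebra R F] [IsScalarTower R E F]
    (p : ℕ) (_ : p.Prime) (_ : p ≠ 2) (_ : (p : R) ∈ IsLocalRing.maximalIdeal R)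
    (ζ : R) (_ : IsPrimitiveRoot ζ p)
    (w : R) (x : F) (B : Subalgebra R F) (_ : ChartCtx E w x B)
    (c : SSChart w B) (_ : Incomparable c)
    (u : F) (_ : u ≠ 0) (_ : DivisibleDiv E p u) (_ : DeepOne B c p (ζ - 1) u)
    (n : Ideal B) (_ : n.IsMaximal) (_ : algebraMap R B w ∈ n)
    (_ : ¬ (c.p₁ ≤ n ∧ c.p₂ ≤ n)), PureAtP B c p ζ u n

/-- **Leaf WPN** (wild purity at a crossing point). -/
def WPNodeLeaf : Prop :=
  ∀ {R E F : Type} [CommRing R] [IsDomain R] [IsDiscreteValuationRing R]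
    [HenselianLocalRing R] [IsAlgClosed (IsLocalRing.ResidueField R)]
    [Field E] [CharZero E] [Algebra R E] [IsFractionRing R E]
    [Field F] [Algebra E F] [Algebra R F] [IsScalarTower R E F]
    (p : ℕ) (_ : p.Prime) (_ : p ≠ 2) (_ : (p : R) ∈ IsLocalRing.maximalIdeal R)
    (ζ : R) (_ : IsPrimitiveRoot ζ p)
    (w : R) (x : F) (B : Subalgebra R F) (_ : ChartCtx E w x B)
    (c : SSChart w B) (_ : Incomparable c)
    (u : F) (_ : u ≠ 0) (_ : DivisibleDiv E p u) (_ : DeepOne B c p (ζ - 1) u)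
    (n : Ideal B) (_ : n.IsMaximal) (_ : algebraMap R B w ∈ n)
    (_ : c.p₁ ≤ n) (_ : c.p₂ ≤ n), PureAtP B c p ζ u n

/-- **Leaf GLUE-p** (a Kummer class of order `p` which is locally factored, at depth `λ^p w`, at
every closed point of the special fibre of both charts is trivial). -/
def GluePLeaf : Prop :=
  ∀ {R E F : Type} [CommRing R] [IsDomain R] [IsDiscreteValuationRing R]
    [HenselianLocalRing R] [IsAlgClosed (IsLocalRing.ResidueField R)]
    [Field E] [CharZero E] [Algebra R E] [IsFractionRing R E]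
    [Field F] [Algebra E F] [Algebra R F] [IsScalarTower R E F]
    (p : ℕ) (_ : p.Prime) (_ : p ≠ 2) (_ : (p : R) ∈ IsLocalRing.maximalIdeal R)
    (ζ : R) (_ : IsPrimitiveRoot ζ p)
    (w : R) (x : F) (Bf Bi : Subalgebra R F)
    (_ : ChartCtx E w x Bf) (_ : ChartCtx E w x⁻¹ Bi)
    (cf : SSChart w Bf) (ci : SSChart w Bi) (_ : Incomparable cf) (_ : Incomparable ci)
    (v : F) (_ : v ≠ 0) (_ : DivisibleDiv E p v)
    (_ : LocallyFactoredP Bf cf p (ζ - 1) v) (_ : LocallyFactoredP Bi ci p (ζ - 1) v),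
    ∃ y : F, y ≠ 0 ∧ v = y ^ p

/-! ## The interface statement -/

/-- The conclusion of ALG-p: `τ` acts on the deeply split Kummer classes of order `p` through the
cyclotomic exponent `c`. -/
def AlgPConclusion {R F : Type*} [CommRing R] [Field F] [Algebra R F] (E : Type*) [Field E]
    [Algebra E F] {w : R} (Bf Bi : Subalgebra R F) (cf : SSChart w Bf) (ci : SSChart w Bi)
    (p : ℕ) (lam : R) (c : ℕ) (τ : F ≃+* F) : Prop :=
  ∀ u : F, u ≠ 0 → DivisibleDiv E p u → DeepOne Bf cf p lam u → DeepOne Bi ci p lam u →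
    ∃ h : F, h ≠ 0 ∧ τ u = h ^ p * u ^ c

/-- **ALG-p (interface statement).**  Setting of `A2.AlgSSStatement` with `q = m = p` (no
separating coordinate, no finite order needed), `ζ ∈ R` a primitive `p`-th root of unity with
`τ ζ = ζ ^ c`. -/
def AlgPStatement : Prop :=
  ∀ {R E F : Type} [CommRing R] [IsDomain R] [IsDiscreteValuationRing R] [HenselianLocalRing R]
    [IsAlgClosed (IsLocalRing.ResidueField R)]
    [Field E] [CharZero E] [Algebra R E] [IsFractionRing R E]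
    [Field F] [Algebra E F] [Algebra R F] [IsScalarTower R E F]
    (w : R) (_ : Irreducible w) (p : ℕ) (_ : p.Prime) (_ : p ≠ 2)
    (_ : (p : R) ∈ IsLocalRing.maximalIdeal R)
    (ζ : R) (_ : IsPrimitiveRoot ζ p)
    (x : F) (_ : Transcendental E x)
    (_ : FiniteDimensional (IntermediateField.adjoin E ({x} : Set F)) F)
    (_ : ∀ f : F, IsAlgebraic E f → f ∈ (algebraMap E F).range)
    (Bf Bi : Subalgebra R F)
    (_ : ∀ f : F, f ∈ Bf ↔ IsIntegral (Algebra.adjoin R ({x} : Set F)) f)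
    (_ : ∀ f : F, f ∈ Bi ↔ IsIntegral (Algebra.adjoin R ({x⁻¹} : Set F)) f)
    (cf : SSChart w Bf) (ci : SSChart w Bi)
    (τ : F ≃+* F) (τE : E ≃+* E) (τR : R ≃+* R)
    (_ : ∀ e : E, τ (algebraMap E F e) = algebraMap E F (τE e))
    (_ : ∀ r : R, τE (algebraMap R E r) = algebraMap R E (τR r))
    (_ : ∀ b ∈ Bf, ∃ c ∈ Bf, τ b - b = algebraMap R F w * c)
    (_ : ∀ b ∈ Bi, ∃ c ∈ Bi, τ b - b = algebraMap R F w * c)
    (c : ℕ) (_ : τR ζ = ζ ^ c),
    AlgPConclusion E Bf Bi cf ci p (ζ - 1) c τ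

end Fermat.Agent.Ribet.H495.AlgP

end
-- ===== PACK-END Ribet/H495/AlgPSpec.lean

-- ===== PACK-BEGIN S18/H754/KummerLocal.lean
section




/-!
# S18 / Route K / étale Kummer cover: the LOCAL lifting theorem

`R` a Noetherian local domain with `𝔪 = (ϖ, t)`, `ϖ` prime (so `R` is a UFD), `u ∈ Frac R` with
`u ≡ 1 mod ϖ` which is locally a unit times a `p`-th power at every prime element.
Then `u = w (d/c)^p` with `w ∈ Rˣ`, `ϖ ∤ c, d` and `c ≡ σ d mod ϖ` for a unit `σ`, and the Kummer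
idempotents lift to elements integral over `R`.
-/

set_option autoImplicit false

noncomputable section

namespace Fermat.Agent.S18.H754

open Polynomial IsLocalRing

section Local

variable {R : Type*} [CommRing R] [IsDomain R] [IsNoetherianRing R] [IsLocalRing R]
  {F : Type*} [Field F] [Algebra R F] [IsFractionRing R F]

/-- Normal form of a locally-`p`-th-power `u ≡ 1 mod ϖ` over a regular local ring of the shape
`𝔪 = (ϖ, t)`. -/
theorem exists_kummer_normal_form (ϖ t : R) (hϖ : Prime ϖ)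
    (hm : maximalIdeal R = Ideal.span {ϖ, t})
    (p : ℕ) (hp : 0 < p) (u : F) (h1 : OneModPi ϖ u)
    (hdiv : ∀ π : R, Prime π → LocallyPow R p u π) :
    ∃ (c d : R) (w σ : Rˣ), ¬ ϖ ∣ c ∧ ¬ ϖ ∣ d ∧
      u * algebraMap R F c ^ p = algebraMap R F w * algebraMap R F d ^ p ∧
      ϖ ∣ c - σ * d := by
  classical
  haveI : UniqueFactorizationMonoid R := ufd_of_regular_pair ϖ t hϖ hm
  have hinj : Function.Injective (algebraMap R F) := IsFractionRing.injective R F
  obtain ⟨a, s, hs, has, hu⟩ := h1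
  rw [Ideal.mem_span_singleton] at hs has
  have ha : ¬ ϖ ∣ a := by
    intro h
    apply hs
    have := dvd_sub h has
    rwa [sub_sub_cancel] at this
  have ha0 : a ≠ 0 := fun h => ha (h ▸ dvd_zero _)
  have hs0 : s ≠ 0 := fun h => hs (h ▸ dvd_zero _)
  have hsF : algebraMap R F s ≠ 0 := fun h => hs0 (hinj (by rw [h, map_zero]))
  have haF : algebraMap R F a ≠ 0 := fun h => ha0 (hinj (by rw [h, map_zero]))
  have hu0 : u ≠ 0 := by
    rintro rfl
    rw [zero_mul] at hu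
    exact haF hu.symm
  obtain ⟨s₀, hs₀, w, hw⟩ := exists_unit_mul_pow (R := R) p hp u hu0 hdiv
  obtain ⟨c, ⟨d, hd⟩, hrel, hcd⟩ := IsFractionRing.exists_reduced_fraction R (K := F) s₀
  have hd0 : d ≠ 0 := nonZeroDivisors.ne_zero hd
  have hdF : algebraMap R F d ≠ 0 := fun h => hd0 (hinj (by rw [h, map_zero]))
  rw [IsFractionRing.mk'_eq_div] at hcd
  simp only at hcd hrel
  -- the key equation in `R`
  have key : a * c ^ p = w * s * d ^ p := by
    apply hinj
    simp only [map_mul, map_pow]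
    rw [← hu, ← hw, ← hcd, div_pow]
    field_simp
  have hc : ¬ ϖ ∣ c := by
    intro h
    have h2 : ϖ ∣ (w : R) * s * d ^ p := by
      rw [← key]
      exact Dvd.dvd.mul_left (dvd_pow h hp.ne') a
    rcases hϖ.dvd_or_dvd h2 with h3 | h3
    · rcases hϖ.dvd_or_dvd h3 with h4 | h4
      · exact hϖ.not_unit (isUnit_of_dvd_unit h4 w.isUnit)
      · exact hs h4
    · exact hϖ.not_unit (hrel h (hϖ.dvd_of_dvd_pow h3))
  have hd' : ¬ ϖ ∣ d := by
    intro h
    have h2 : ϖ ∣ a * c ^ p := by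
      rw [key]
      exact Dvd.dvd.mul_left (dvd_pow h hp.ne') _
    rcases hϖ.dvd_or_dvd h2 with h3 | h3
    · exact ha h3
    · exact hc (hϖ.dvd_of_dvd_pow h3)
  -- pass to the quotient `R/ϖ`, a local principal ideal domain
  haveI hprime : (Ideal.span {ϖ}).IsPrime := (Ideal.span_singleton_prime hϖ.ne_zero).mpr hϖ
  haveI hpid : IsPrincipalIdealRing (R ⧸ Ideal.span {ϖ}) :=
    isPrincipalIdealRing_quotient_of_regular_pair ϖ t hϖ hm
  haveI : Nontrivial (R ⧸ Ideal.span {ϖ}) := Ideal.Quotient.nontrivial_iff.mpr hprime.ne_top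
  haveI : IsLocalRing (R ⧸ Ideal.span {ϖ}) :=
    IsLocalRing.of_surjective' (Ideal.Quotient.mk _) Ideal.Quotient.mk_surjective
  haveI : IsDomain (R ⧸ Ideal.span {ϖ}) := Ideal.Quotient.isDomain _
  haveI : ValuationRing (R ⧸ Ideal.span {ϖ}) :=
    ValuationRing.iff_local_bezout_domain.mpr ⟨inferInstance, inferInstance⟩
  set mk := Ideal.Quotient.mk (Ideal.span {ϖ}) with hmk
  have hmk0 : ∀ x : R, mk x = 0 ↔ ϖ ∣ x := fun x => by
    rw [hmk, Ideal.Quotient.eq_zero_iff_mem, Ideal.mem_span_singleton]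
  have hmc : mk c ≠ 0 := fun h => hc ((hmk0 c).1 h)
  have hmd : mk d ≠ 0 := fun h => hd' ((hmk0 d).1 h)
  have hms : mk s ≠ 0 := fun h => hs ((hmk0 s).1 h)
  have hmas : mk a = mk s := by
    rw [← sub_eq_zero, ← map_sub]
    exact (hmk0 _).2 has
  have hmw : IsUnit (mk (w : R)) := w.isUnit.map mk
  have key' : mk c ^ p = mk (w : R) * mk d ^ p := by
    have := congrArg mk key
    simp only [map_mul, map_pow] at this
    rw [hmas] at this
    have h3 : mk s * mk c ^ p = mk s * (mk (w : R) * mk d ^ p) := by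
      rw [this]; ring
    exact mul_left_cancel₀ hms h3
  have hx : ∃ x : R ⧸ Ideal.span {ϖ}, IsUnit x ∧ mk c = x * mk d := by
    rcases ValuationRing.dvd_total (mk c) (mk d) with ⟨y, hy⟩ | ⟨y, hy⟩
    · -- `mk d = mk c * y`
      have h4 : mk c ^ p * 1 = mk c ^ p * (mk (w : R) * y ^ p) := by
        rw [mul_one]
        conv_lhs => rw [key', hy, mul_pow]
        ring
      have h5 : 1 = mk (w : R) * y ^ p := mul_left_cancel₀ (pow_ne_zero p hmc) h4
      have h6 : IsUnit (y ^ p) := IsUnit.of_mul_eq_one_right _ h5.symm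
      have h7 : IsUnit y := (isUnit_pow_iff hp.ne').1 h6
      obtain ⟨y', rfl⟩ := h7
      refine ⟨((y'⁻¹ : (R ⧸ Ideal.span {ϖ})ˣ) : R ⧸ Ideal.span {ϖ}), Units.isUnit _, ?_⟩
      rw [hy]
      rw [mul_comm (mk c), ← mul_assoc, Units.inv_mul, one_mul]
    · -- `mk c = mk d * y`
      have h4 : mk d ^ p * y ^ p = mk d ^ p * mk (w : R) := by
        rw [← mul_pow, ← hy, key']
        ring
      have h5 : y ^ p = mk (w : R) := mul_left_cancel₀ (pow_ne_zero p hmd) h4
      have h7 : IsUnit y := (isUnit_pow_iff hp.ne').1 (h5 ▸ hmw)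
      exact ⟨y, h7, by rw [hy, mul_comm]⟩
  obtain ⟨x, hxu, hxc⟩ := hx
  obtain ⟨σ', rfl⟩ := Ideal.Quotient.mk_surjective x
  have hσ' : IsUnit σ' := by
    rw [← IsLocalRing.notMem_maximalIdeal]
    intro hmem
    obtain ⟨y, hy⟩ := hxu.exists_right_inv
    obtain ⟨y', rfl⟩ := Ideal.Quotient.mk_surjective y
    have h8 : ϖ ∣ σ' * y' - 1 := by
      rw [← hmk0, map_sub, map_mul, map_one, sub_eq_zero]
      exact hy
    have h9 : ϖ ∈ maximalIdeal R := by
      rw [hm]
      exact Ideal.subset_span (Set.mem_insert _ _)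
    have h10 : σ' * y' - 1 ∈ maximalIdeal R := Ideal.mem_of_dvd _ h8 h9
    have h11 : σ' * y' ∈ maximalIdeal R := Ideal.mul_mem_right _ _ hmem
    have h12 : (1 : R) ∈ maximalIdeal R := by
      have := Ideal.sub_mem _ h11 h10
      rwa [sub_sub_cancel] at this
    exact (Ideal.ne_top_iff_one _).1 (IsLocalRing.maximalIdeal.isMaximal R).ne_top h12
  obtain ⟨σ, rfl⟩ := hσ'
  refine ⟨c, d, w, σ, hc, hd', ?_, ?_⟩
  · rw [← hw, ← hcd, div_pow]
    field_simp
  · rw [← hmk0, map_sub, map_mul, sub_eq_zero]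
    exact hxc

section Lift

variable {F' : Type*} [Field F'] [Algebra F F'] [Algebra R F'] [IsScalarTower R F F']

omit [IsNoetherianRing R] [IsLocalRing R] in
lemma faithfulSMul_of_tower (R F F' : Type*) [CommRing R] [IsDomain R] [Field F] [Algebra R F]
    [IsFractionRing R F] [Field F'] [Algebra F F'] [Algebra R F'] [IsScalarTower R F F'] :
    FaithfulSMul R F' := by
  rw [faithfulSMul_iff_algebraMap_injective]
  rw [IsScalarTower.algebraMap_eq R F F']
  exact (algebraMap F F').injective.comp (IsFractionRing.injective R F)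

/-- **Local lifting theorem** for the Kummer idempotents. -/
theorem kummer_lift_local (ϖ t : R) (hϖ : Prime ϖ)
    (hm : maximalIdeal R = Ideal.span {ϖ, t})
    (p : ℕ) (hp : 0 < p) (hpu : IsUnit (p : R))
    (u : F) (z : F') (hz : z ^ p = algebraMap F F' u) (h1 : OneModPi ϖ u)
    (hdiv : ∀ π : R, Prime π → LocallyPow R p u π) (η : R) :
    ∃ b : F', IsIntegral R b ∧ InPiO ϖ (b - kummerIdem p η z) := by
  classical
  haveI : FaithfulSMul R F' := faithfulSMul_of_tower R F F'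
  have hinj' : Function.Injective (algebraMap R F') := FaithfulSMul.algebraMap_injective R F'
  obtain ⟨c, d, w, σ, hc, hd, hcd, hσ⟩ := exists_kummer_normal_form ϖ t hϖ hm p hp u h1 hdiv
  have hc0 : c ≠ 0 := fun h => hc (h ▸ dvd_zero _)
  have hd0 : d ≠ 0 := fun h => hd (h ▸ dvd_zero _)
  have hcF : algebraMap R F' c ≠ 0 := fun h => hc0 (hinj' (by rw [h, map_zero]))
  have hdF : algebraMap R F' d ≠ 0 := fun h => hd0 (hinj' (by rw [h, map_zero]))
  have hcd' : algebraMap F F' u * algebraMap R F' c ^ p =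
      algebraMap R F' w * algebraMap R F' d ^ p := by
    have := congrArg (algebraMap F F') hcd
    simpa only [map_mul, map_pow, ← IsScalarTower.algebraMap_apply] using this
  -- `θ = z c / d`, `θ ^ p = w`
  set θ : F' := z * algebraMap R F' c / algebraMap R F' d with hθ
  have hθp : θ ^ p = algebraMap R F' w := by
    rw [hθ, div_pow, mul_pow, hz, hcd']
    field_simp
  have hθi : IsIntegral R θ := by
    refine IsIntegral.of_pow hp ?_
    rw [hθp]
    exact isIntegral_algebraMap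
  -- `z c = θ d`
  have hzc : algebraMap R F' c * z = θ * algebraMap R F' d := by
    rw [hθ]
    field_simp
  set τ : R := ((σ⁻¹ : Rˣ) : R) with hτ
  set y : F' := θ * algebraMap R F' τ with hy
  have hyi : IsIntegral R y := hθi.mul isIntegral_algebraMap
  have hyO : y ∈ Oloc (F' := F') ϖ hϖ := mem_Oloc_of_isIntegral hϖ hyi
  have hcs : c ∉ Ideal.span {ϖ} := by
    rw [Ideal.mem_span_singleton]
    exact hc
  have hzO : z ∈ Oloc (F' := F') ϖ hϖ := by
    refine ⟨c, hcs, ?_⟩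
    rw [hzc]
    exact hθi.mul isIntegral_algebraMap
  -- `y ≡ z mod ϖ O'`
  obtain ⟨r, hr⟩ := hσ
  have hr' : τ * c - d = ϖ * (τ * r) := by
    have h2 : τ * (c - σ * d) = τ * c - d := by
      rw [mul_sub, ← mul_assoc, hτ, Units.inv_mul, one_mul]
    rw [← h2, hr]
    ring
  have hyz : InPiO ϖ (y - z) := by
    refine ⟨c, hcs, θ * algebraMap R F' (τ * r), hθi.mul isIntegral_algebraMap, ?_⟩
    have h3 : algebraMap R F' c * (y - z) = θ * algebraMap R F' (τ * c - d) := by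
      rw [mul_sub, hzc, hy, map_sub, map_mul]
      ring
    rw [h3, hr', map_mul]
    ring
  -- the lift
  have hpinv : ((p : F'))⁻¹ = algebraMap R F' ((hpu.unit⁻¹ : Rˣ) : R) := by
    have h4 : algebraMap R F' ((hpu.unit⁻¹ : Rˣ) : R) * (p : F') = 1 := by
      rw [← map_natCast (algebraMap R F') p, ← map_mul]
      rw [IsUnit.val_inv_mul hpu, map_one]
    exact (eq_inv_of_mul_eq_one_left h4).symm
  refine ⟨(p : F')⁻¹ * ∑ a ∈ Finset.range p, algebraMap R F' (η ^ a) * y ^ a, ?_, ?_⟩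
  · rw [hpinv]
    refine isIntegral_algebraMap.mul ?_
    refine IsIntegral.sum _ fun a _ => ?_
    exact isIntegral_algebraMap.mul (hyi.pow a)
  · have h5 : (p : F')⁻¹ * ∑ a ∈ Finset.range p, algebraMap R F' (η ^ a) * y ^ a -
        kummerIdem p η z =
        (p : F')⁻¹ * ∑ a ∈ Finset.range p, algebraMap R F' (η ^ a) * (y ^ a - z ^ a) := by
      rw [kummerIdem, ← mul_sub, ← Finset.sum_sub_distrib]
      congr 1
      refine Finset.sum_congr rfl fun a _ => ?_
      ring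
    rw [h5, hpinv]
    refine InPiO.mul_left hϖ (algebraMap_mem_Oloc hϖ _) ?_
    refine InPiO.sum hϖ _ _ fun a _ => ?_
    refine InPiO.mul_left hϖ (algebraMap_mem_Oloc hϖ _) ?_
    exact InPiO.pow_sub_pow hϖ hyO hzO hyz a

end Lift

end Local

end Fermat.Agent.S18.H754

end

end
-- ===== PACK-END S18/H754/KummerLocal.lean

-- ===== PACK-BEGIN A2/T1/H669/T2.lean
section



/-!
# WALL A2, piece T2 (helper669): divisibility of the divisor descends from `F̄` to `F_E`

`E ⊆ ℚ̄` an intermediate field, `F_E = laurentBaseChange E F₀`, `F̄ = laurentBaseChange ℚ̄ F₀`,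
`iota : F_E → F̄`.  If `y ∈ F_E` and `m ∣ ord_v (iota y)` for every `Place` `v` of `F̄ / ℚ̄`, then
for every discrete valuation subring `V` of `F_E` containing `E` we have `y = u · h ^ m` with `u` a
unit of `V`, i.e. `Spec.DivisibleDiv E m y` (definition unfolded in the statement).

Proof: `S18.H845.exists_dvr_extension` (constant field extensions are unramified) extends `V` to a
discrete valuation subring `B` of `F̄` with the same uniformiser; `B` is a `Place`.
-/

set_option autoImplicit false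
set_option synthInstance.maxHeartbeats 400000
set_option maxHeartbeats 1600000

noncomputable section

namespace Fermat.Agent.A2.T1.H669

open ModularCurve AlgebraicCurve

variable (E : IntermediateField ℚ _root_.Fermat.Agent.A2.T1.H669.Qb) (F₀ : IntermediateField ℚ (LaurentSeries ℚ))

/-- `F̄` as an algebra over `F_E` (via `iota`). -/
@[reducible] def algFEFbar : Algebra ↥(laurentBaseChange E F₀) ↥(laurentBaseChange _root_.Fermat.Agent.A2.T1.H669.Qb F₀) :=
  (iota E F₀).toAlgebra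

theorem towerEFEFbar :
    letI := algFEFbar E F₀
    IsScalarTower E ↥(laurentBaseChange E F₀) ↥(laurentBaseChange _root_.Fermat.Agent.A2.T1.H669.Qb F₀) := by
  letI := algFEFbar E F₀
  exact IsScalarTower.of_algebraMap_eq fun e => (iota_algebraMap E F₀ e).symm

theorem isAlgebraic_const (a : _root_.Fermat.Agent.A2.T1.H669.Qb) :
    IsAlgebraic E (algebraMap _root_.Fermat.Agent.A2.T1.H669.Qb ↥(laurentBaseChange _root_.Fermat.Agent.A2.T1.H669.Qb F₀) a) := by
  have hQ : Algebra.IsAlgebraic ℚ _root_.Fermat.Agent.A2.T1.H669.Qb := AlgebraicClosure.isAlgebraic ℚ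
  have ha : IsAlgebraic E a := (hQ.isAlgebraic a).tower_top E
  exact ha.algebraMap

/-- `F̄` is generated over `F_E` by algebraic constants. -/
theorem adjoin_algebraic_eq_top :
    letI := algFEFbar E F₀
    IntermediateField.adjoin ↥(laurentBaseChange E F₀)
      {α : ↥(laurentBaseChange _root_.Fermat.Agent.A2.T1.H669.Qb F₀) | IsAlgebraic E α} = ⊤ := by
  letI := algFEFbar E F₀
  rw [eq_top_iff]
  rintro ⟨z, hz⟩ -
  have key : ∃ w : ↥(laurentBaseChange _root_.Fermat.Agent.A2.T1.H669.Qb F₀),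
      w ∈ IntermediateField.adjoin ↥(laurentBaseChange E F₀)
        {α : ↥(laurentBaseChange _root_.Fermat.Agent.A2.T1.H669.Qb F₀) | IsAlgebraic E α} ∧
      (w : LaurentSeries _root_.Fermat.Agent.A2.T1.H669.Qb) = z := by
    have hz2 := hz
    rw [mem_laurentBaseChange_iff] at hz2
    induction hz2 using Subfield.closure_induction with
    | mem y hy =>
        rcases hy with ⟨a, rfl⟩ | ⟨z₀, hz₀, rfl⟩
        · exact ⟨algebraMap _root_.Fermat.Agent.A2.T1.H669.Qb ↥(laurentBaseChange _root_.Fermat.Agent.A2.T1.H669.Qb F₀) a,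
            IntermediateField.subset_adjoin _ _ (isAlgebraic_const E F₀ a), rfl⟩
        · refine ⟨algebraMap ↥(laurentBaseChange E F₀) ↥(laurentBaseChange _root_.Fermat.Agent.A2.T1.H669.Qb F₀)
                ⟨coeffEmb E z₀, coeffEmb_mem_laurentBaseChange E hz₀⟩,
            IntermediateField.algebraMap_mem _ _, ?_⟩
          exact Fermat.Agent.S18.H602.coeffMap_coeffEmb' (algebraMap E _root_.Fermat.Agent.A2.T1.H669.Qb) z₀
    | one => exact ⟨1, one_mem _, rfl⟩
    | add x y hx' hy' hx hy =>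
        obtain ⟨w₁, hw₁, rfl⟩ := hx ((mem_laurentBaseChange_iff).2 hx')
        obtain ⟨w₂, hw₂, rfl⟩ := hy ((mem_laurentBaseChange_iff).2 hy')
        exact ⟨w₁ + w₂, add_mem hw₁ hw₂, rfl⟩
    | neg x hx' hx =>
        obtain ⟨w₁, hw₁, rfl⟩ := hx ((mem_laurentBaseChange_iff).2 hx')
        exact ⟨-w₁, neg_mem hw₁, rfl⟩
    | inv x hx' hx =>
        obtain ⟨w₁, hw₁, rfl⟩ := hx ((mem_laurentBaseChange_iff).2 hx')
        exact ⟨w₁⁻¹, inv_mem hw₁, IntermediateField.coe_inv _ _⟩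
    | mul x y hx' hy' hx hy =>
        obtain ⟨w₁, hw₁, rfl⟩ := hx ((mem_laurentBaseChange_iff).2 hx')
        obtain ⟨w₂, hw₂, rfl⟩ := hy ((mem_laurentBaseChange_iff).2 hy')
        exact ⟨w₁ * w₂, mul_mem hw₁ hw₂, rfl⟩
  obtain ⟨w, hw, hwz⟩ := key
  have hwz' : w = ⟨z, hz⟩ := Subtype.ext hwz
  rw [← hwz']
  exact hw

/-- **T2.**  `m ∣ div (iota y)` on `F̄ / ℚ̄` implies `Spec.DivisibleDiv E m y` (unfolded). -/
theorem divisibleDiv_of_ord (m : ℕ) (y : ↥(laurentBaseChange E F₀)) (hy : y ≠ 0)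
    (hdiv : ∀ v : Place _root_.Fermat.Agent.A2.T1.H669.Qb ↥(laurentBaseChange _root_.Fermat.Agent.A2.T1.H669.Qb F₀), (m : ℤ) ∣ v.ord (iota E F₀ y)) :
    ∀ V : ValuationSubring ↥(laurentBaseChange E F₀), IsDiscreteValuationRing V →
      (∀ e : E, algebraMap E ↥(laurentBaseChange E F₀) e ∈ V) →
      ∃ h u : ↥(laurentBaseChange E F₀), h ≠ 0 ∧ u ∈ V ∧ u⁻¹ ∈ V ∧ y = u * h ^ m := by
  intro V hV hEV
  letI := algFEFbar E F₀
  haveI := towerEFEFbar E F₀
  obtain ⟨B, hcomap, hBdvr, hBalg, hBunif, -⟩ :=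
    Fermat.Agent.S18.H845.exists_dvr_extension (E := E) (K := ↥(laurentBaseChange E F₀))
      (L := ↥(laurentBaseChange _root_.Fermat.Agent.A2.T1.H669.Qb F₀)) V hEV (adjoin_algebraic_eq_top E F₀)
  obtain ⟨π, hπ⟩ := IsDiscreteValuationRing.exists_irreducible V
  obtain ⟨hπB, hπirr⟩ := hBunif π hπ
  have hmemV : ∀ x : ↥(laurentBaseChange E F₀), x ∈ V ↔ iota E F₀ x ∈ B := by
    intro x
    rw [← hcomap]
    exact Iff.rfl
  have hπ0 : (π : ↥(laurentBaseChange E F₀)) ≠ 0 := fun h => hπ.ne_zero (Subtype.ext h)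
  -- `B` is a place of `F̄ / ℚ̄`
  have hne : B ≠ ⊤ := by
    intro htop
    apply hπirr.not_isUnit
    have hinv : (iota E F₀ (π : ↥(laurentBaseChange E F₀)))⁻¹ ∈ B := by
      rw [htop]; exact ValuationSubring.mem_top _
    refine IsUnit.of_mul_eq_one (⟨_, hinv⟩ : B) (Subtype.ext ?_)
    exact mul_inv_cancel₀ (iota_ne_zero E F₀ hπ0)
  let v : Place _root_.Fermat.Agent.A2.T1.H669.Qb ↥(laurentBaseChange _root_.Fermat.Agent.A2.T1.H669.Qb F₀) :=
    { toValuationSubring := B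
      algebraMap_mem' := fun a => hBalg _ (isAlgebraic_const E F₀ a)
      ne_top' := hne
      isPrincipalIdealRing' := inferInstance }
  obtain ⟨k, hk⟩ := hdiv v
  obtain ⟨u, hu⟩ := v.exists_unit_mul_zpow (iota_ne_zero E F₀ hy)
    (π := (⟨iota E F₀ (π : ↥(laurentBaseChange E F₀)), hπB⟩ : B)) hπirr
  rw [hk] at hu
  have hu' : iota E F₀ y =
      ((u : B) : ↥(laurentBaseChange _root_.Fermat.Agent.A2.T1.H669.Qb F₀)) *
        (iota E F₀ (π : ↥(laurentBaseChange E F₀))) ^ ((m : ℤ) * k) := hu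
  -- the unit over `E`
  set uK : ↥(laurentBaseChange E F₀) :=
    y * ((π : ↥(laurentBaseChange E F₀)) ^ ((m : ℤ) * k))⁻¹ with huK
  have hιuK : iota E F₀ uK = ((u : B) : ↥(laurentBaseChange _root_.Fermat.Agent.A2.T1.H669.Qb F₀)) := by
    rw [huK, map_mul, map_inv₀, map_zpow₀, hu', mul_assoc,
      mul_inv_cancel₀ (zpow_ne_zero _ (iota_ne_zero E F₀ hπ0)), mul_one]
  refine ⟨(π : ↥(laurentBaseChange E F₀)) ^ k, uK, zpow_ne_zero _ hπ0, ?_, ?_, ?_⟩
  · rw [hmemV, hιuK]; exact (u : B).2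
  · rw [hmemV, map_inv₀, hιuK]
    have h1 : ((u⁻¹ : Bˣ) : B) * (u : B) = 1 := by
      rw [← Units.val_mul, inv_mul_cancel, Units.val_one]
    have h2 : (((u⁻¹ : Bˣ) : B) : ↥(laurentBaseChange _root_.Fermat.Agent.A2.T1.H669.Qb F₀)) *
        ((u : B) : ↥(laurentBaseChange _root_.Fermat.Agent.A2.T1.H669.Qb F₀)) = 1 := congrArg Subtype.val h1
    have h3 : (((u : B) : ↥(laurentBaseChange _root_.Fermat.Agent.A2.T1.H669.Qb F₀)))⁻¹ =
        (((u⁻¹ : Bˣ) : B) : ↥(laurentBaseChange _root_.Fermat.Agent.A2.T1.H669.Qb F₀)) :=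
      (eq_inv_of_mul_eq_one_left h2).symm
    rw [h3]; exact ((u⁻¹ : Bˣ) : B).2
  · rw [huK, ← zpow_natCast ((π : ↥(laurentBaseChange E F₀)) ^ k) m, ← zpow_mul,
      mul_comm k (m : ℤ), mul_assoc,
      inv_mul_cancel₀ (zpow_ne_zero _ hπ0), mul_one]

end Fermat.Agent.A2.T1.H669

end
end
-- ===== PACK-END A2/T1/H669/T2.lean

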