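import Mathlib
import Fermat.Prelude.Def_ModularCurve_JqCoeff
import Fermat.Prelude.Def_AlgebraicCurve_BaseChangeGalois
import Fermat.Prelude.Def_ModularCurve_ArithmeticGalois
import Fermat.Agent.Pack.S44C.G0E10L0
import Fermat.Agent.Pack.S44C.G0E10L1
import Fermat.Agent.Pack.S44C.G0E0L1
import Fermat.Agent.Pack.S44C.G0E0L2
import Fermat.Agent.Pack.S44C.G0E10L2
import Fermat.Agent.Pack.S44C.G0E9L0
import Fermat.Agent.Pack.S44C.G0E9L2
import Fermat.Agent.Pack.S44C.G0E5L2
import Fermat.Agent.Pack.Fast891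

-- ===== PACK-BEGIN S24/Inf/Subst.lean
section


/-!
# S24 / MOD-INF — substitution `τ ↦ (aτ + b)/d` in convergent Laurent expansions
-/

set_option autoImplicit false

noncomputable section

open HahnSeries ModularCurve UpperHalfPlane Complex
open scoped Real

namespace Fermat.Agent.S24

/-- The map `τ ↦ (aτ + b)/d` of `ℍ` (the identity if `a = 0` or `d = 0`). -/
def infAff (a : ℕ) (b : ℤ) (d : ℕ) (τ : ℍ) : ℍ :=
  if h : 0 < a ∧ 0 < d then
    ⟨((a : ℂ) * τ + b) / d, by
      have ha : (0 : ℝ) < a := by exact_mod_cast h.1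
      have hd : (0 : ℝ) < d := by exact_mod_cast h.2
      have e : (((a : ℂ) * τ + b) / d).im = a * τ.im / d := by
        have : ((a : ℂ) * τ + b) / d = (((a : ℝ) : ℂ) * τ + ((b : ℝ) : ℂ)) / ((d : ℝ) : ℂ) := by
          push_cast; rfl
        rw [this, Complex.div_ofReal_im]
        simp
      rw [e]
      have := τ.im_pos
      positivity⟩
  else τ

theorem infAff_coe {a d : ℕ} (ha : 0 < a) (hd : 0 < d) (b : ℤ) (τ : ℍ) :
    (infAff a b d τ : ℂ) = ((a : ℂ) * τ + b) / d := by
  rw [infAff, dif_pos ⟨ha, hd⟩]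

@[simp]
theorem infAff_one_zero_one (τ : ℍ) : infAff 1 0 1 τ = τ := by
  apply UpperHalfPlane.ext
  rw [infAff_coe one_pos one_pos]
  simp

/-- The unit `exp (2πi b/n)` of `ℂ`. -/
def infRoot (b : ℤ) (n : ℕ) : ℂˣ :=
  Units.mk0 (Complex.exp (2 * π * Complex.I * b / n)) (Complex.exp_ne_zero _)

@[simp]
theorem infRoot_coe (b : ℤ) (n : ℕ) :
    ((infRoot b n : ℂˣ) : ℂ) = Complex.exp (2 * π * Complex.I * b / n) := rfl

theorem infRoot_zpow_coe (b : ℤ) (n : ℕ) (k : ℤ) :
    (((infRoot b n) ^ k : ℂˣ) : ℂ) = Complex.exp (2 * π * Complex.I * b / n) ^ k := by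
  rw [Units.val_zpow_eq_zpow_val, infRoot_coe]

theorem infRoot_zero (n : ℕ) : infRoot 0 n = 1 := by
  apply Units.ext
  simp

/-- Key computation: `z_M((aτ+b)/d) = exp(2πi b/(dM)) · z_N(τ)^e` when `e·d·M = a·N`. -/
theorem infZ_infAff {M N a d e : ℕ} (b : ℤ) (ha : 0 < a) (hd : 0 < d) (hM : 0 < M)
    (hN : 0 < N) (he : e * (d * M) = a * N) (τ : ℍ) :
    infZ M (infAff a b d τ) = (infRoot b (d * M) : ℂ) * infZ N τ ^ e := by
  rw [infZ_def, infZ_def, infAff_coe ha hd, infRoot_coe, ← Complex.exp_nat_mul, ← Complex.exp_add]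
  congr 1
  have hd' : (d : ℂ) ≠ 0 := by exact_mod_cast hd.ne'
  have hM' : (M : ℂ) ≠ 0 := by exact_mod_cast hM.ne'
  have hN' : (N : ℂ) ≠ 0 := by exact_mod_cast hN.ne'
  have he' : (e : ℂ) * ((d : ℂ) * M) = a * N := by exact_mod_cast congrArg (Nat.cast : ℕ → ℂ) he
  push_cast
  field_simp
  linear_combination (-(τ : ℂ)) * he'

/-- **Substitution (general form).** If `z_M(u τ) = c · z_N(τ)^k` then `f ∘ u` has the
expansion `φ(c · z^k)` in `z_N`. -/
theorem InfExp.subst {M N : ℕ} {f : ℍ → ℂ} {φ : LaurentSeries ℂ} (hf : InfExp M f φ)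
    (u : ℍ → ℍ) (c : ℂˣ) (k : ℕ) [NeZero k]
    (hu : ∀ τ : ℍ, infZ M (u τ) = (c : ℂ) * infZ N τ ^ k) :
    InfExp N (fun τ => f (u τ)) (qExpand ℂ k (infTwist c φ)) := by
  intro τ
  have h := hf (u τ)
  rw [hu τ] at h
  have he0 : (k : ℤ) ≠ 0 := by exact_mod_cast NeZero.ne k
  have hinj : Function.Injective (fun n : ℤ => (k : ℤ) * n) :=
    mul_right_injective₀ he0
  have hrange : ∀ m : ℤ, m ∉ Set.range (fun n : ℤ => (k : ℤ) * n) →
      (qExpand ℂ k (infTwist c φ)).coeff m * infZ N τ ^ m = 0 := by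
    intro m hm
    rw [qExpand_coeff_of_not_dvd k _ (fun ⟨j, hj⟩ => hm ⟨j, hj.symm⟩), zero_mul]
  rw [← hinj.hasSum_iff hrange]
  convert h using 1
  funext n
  simp only [Function.comp_apply, qExpand_coeff_mul, infTwist_coeff]
  rw [mul_zpow, ← zpow_natCast (infZ N τ) k, ← zpow_mul, Units.val_zpow_eq_zpow_val]
  ring

/-- **Substitution.** If `φ` converges to `f` in `z_M`, then `f ∘ (τ ↦ (aτ+b)/d)` has the
expansion `φ(u · z_N^e)` in `z_N`, `u = exp(2πi b/(dM))`, `e = aN/(dM)`. -/
theorem InfExp.comp_infAff {M N a d e : ℕ} [NeZero e] (b : ℤ) (ha : 0 < a) (hd : 0 < d)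
    (hM : 0 < M) (hN : 0 < N) (he : e * (d * M) = a * N) {f : ℍ → ℂ} {φ : LaurentSeries ℂ}
    (hf : InfExp M f φ) :
    InfExp N (fun τ => f (infAff a b d τ)) (qExpand ℂ e (infTwist (infRoot b (d * M)) φ)) :=
  hf.subst (infAff a b d) (infRoot b (d * M)) e (infZ_infAff b ha hd hM hN he)

/-- Translation `τ ↦ τ + 1`: the expansion in `z_N` is twisted by `ζ_N = exp(2πi/N)`. -/
theorem InfExp.comp_translate {N : ℕ} [NeZero N] {f : ℍ → ℂ} {φ : LaurentSeries ℂ}
    (hf : InfExp N f φ) (b : ℤ) :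
    InfExp N (fun τ => f (infAff 1 b 1 τ)) (infTwist (infRoot b N) φ) := by
  have hN : 0 < N := Nat.pos_of_ne_zero (NeZero.ne N)
  have h := hf.comp_infAff (e := 1) b one_pos one_pos hN hN (by ring)
  rw [qExpand_one_apply, one_mul] at h
  exact h

end Fermat.Agent.S24

end
end
-- ===== PACK-END S24/Inf/Subst.lean

-- ===== PACK-BEGIN S24/Deg/H457_Main.lean
section


/-!
# S24 / DEG-ALG (helper457), part 4: the degree bound for `FF N / Kbar(jF N)`

`finiteDimensional_and_finrank_le`: from the interface hypothesis `Hyp ℂ N n` (relations over `ℂ`)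
we get `FiniteDimensional Kbar⟮jF N⟯ (FF N)` and `finrank ≤ n`.
-/

set_option autoImplicit false

noncomputable section

open Polynomial ModularCurve IntermediateField

namespace Fermat.Agent.S24.Deg457

/-- Lemma X: a bivariate relation gives integrality + degree bound over an intermediate field. -/
theorem isIntegral_and_natDegree_le_of_relation {K M E : Type*} [Field K] [Field M] [Field E]
    [Algebra K M] [Algebra M E] [Algebra K E] [IsScalarTower K M E] (j : M)
    (hj : ∀ t : K[X], t ≠ 0 → aeval j t ≠ 0) (x : E) (Q : K[X][X]) (hQ0 : Q ≠ 0) (n : ℕ)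
    (hQn : Q.natDegree ≤ n)
    (hQ : Q.eval₂ ((aeval (algebraMap M E j) : K[X] →ₐ[K] E).toRingHom) x = 0) :
    IsIntegral M x ∧ (minpoly M x).natDegree ≤ n := by
  set φ : K[X] →+* M := (aeval j : K[X] →ₐ[K] M).toRingHom with hφ
  have hφinj : Function.Injective φ := by
    rw [injective_iff_map_eq_zero]
    intro t ht
    by_contra h0
    exact hj t h0 ht
  have hp0 : Q.map φ ≠ 0 := by
    rw [Ne, Polynomial.map_eq_zero_iff hφinj]
    exact hQ0
  have hcomp : (algebraMap M E).comp φ = (aeval (algebraMap M E j) : K[X] →ₐ[K] E).toRingHom := by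
    refine Polynomial.ringHom_ext ?_ ?_
    · intro c
      simp [hφ, ← IsScalarTower.algebraMap_apply]
    · simp [hφ]
  have hroot : aeval x (Q.map φ) = 0 := by
    rw [aeval_def, eval₂_map, hcomp]
    exact hQ
  have hint : IsIntegral M x := (IsAlgebraic.isIntegral ⟨Q.map φ, hp0, hroot⟩)
  refine ⟨hint, ?_⟩
  have h1 := minpoly.degree_le_of_ne_zero M x hp0 hroot
  have h2 := natDegree_le_natDegree h1
  exact h2.trans ((natDegree_map_le).trans hQn)

/-- an embedding `ℚ̄ → ℂ` -/
def iotaC : Kbar →+* ℂ := by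
  haveI : Algebra.IsAlgebraic ℚ (AlgebraicClosure ℚ) := AlgebraicClosure.isAlgebraic ℚ
  exact ((IsAlgClosed.lift : AlgebraicClosure ℚ →ₐ[ℚ] ℂ) : AlgebraicClosure ℚ →+* ℂ)

variable (N : ℕ) [NeZero N]

theorem coe_jF : ((jF N : FF N) : LaurentSeries Kbar) = JK Kbar := rfl

/-- **Degree bound** (DEG-ALG): from the analytic interface hypothesis over `ℂ`. -/
theorem finiteDimensional_and_finrank_le (n : ℕ) (hyp : Hyp ℂ N n) :
    FiniteDimensional ↥(IntermediateField.adjoin Kbar {jF N}) (FF N) ∧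
      Module.finrank ↥(IntermediateField.adjoin Kbar {jF N}) (FF N) ≤ n := by
  refine finiteDimensional_and_finrank_le_of_forall_natDegree_minpoly_le n fun x => ?_
  obtain ⟨Q, hQ0, hQn, hQ⟩ := algDeg_of_mem_field iotaC hyp x.2
  have hinc : Function.Injective (algebraMap (FF N) (LaurentSeries Kbar)) :=
    (algebraMap (FF N) (LaurentSeries Kbar)).injective
  refine isIntegral_and_natDegree_le_of_relation (K := Kbar)
    (AdjoinSimple.gen Kbar (jF N)) ?_ x Q hQ0 n hQn ?_
  · intro t ht h0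
    apply aeval_JK_ne_zero Kbar ht
    have h1 := congrArg (algebraMap ↥(IntermediateField.adjoin Kbar {jF N}) (FF N)) h0
    rw [← aeval_algebraMap_apply, map_zero, AdjoinSimple.algebraMap_gen] at h1
    have h2 := congrArg (algebraMap (FF N) (LaurentSeries Kbar)) h1
    rw [← aeval_algebraMap_apply, map_zero] at h2
    exact h2
  · apply hinc
    rw [map_zero, Polynomial.hom_eval₂, AdjoinSimple.algebraMap_gen]
    have hcomp : (algebraMap (FF N) (LaurentSeries Kbar)).comp
        ((aeval (jF N) : Kbar[X] →ₐ[Kbar] FF N).toRingHom) = evJ (JK Kbar) := by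
      refine Polynomial.ringHom_ext ?_ ?_
      · intro c
        simp [evJ, ← IsScalarTower.algebraMap_apply]
      · simp [evJ]
        rfl
    rw [hcomp]
    exact hQ

end Fermat.Agent.S24.Deg457

end
end
-- ===== PACK-END S24/Deg/H457_Main.lean

-- ===== PACK-BEGIN S24/H864/FF3c.lean
section


/-!
# S24 / ALG / FF1+FF3 (part c): the fundamental identity, abstract form

`R ⊆ S` Dedekind domains, `S` finite over `R`, `F = Frac S`, `p = (τ)` a maximal ideal of `R`
with residue field `K` (algebraically closed).  Then the places `v` of `F/K` with `0 < v(τ)`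
(assumed to contain `R` in their valuation ring) correspond to the primes of `S` over `p`, and
`∑_v v(τ) = rank_R S`.
-/

set_option autoImplicit false

noncomputable section

open AlgebraicCurve IsDedekindDomain

namespace Fermat.Agent.S24.H864

/-- universe-polymorphic version of `IsAlgClosed.of_ringEquiv` -/
theorem isAlgClosed_of_ringEquiv {k : Type*} {k' : Type*} [Field k] [Field k'] [IsAlgClosed k]
    (e : k ≃+* k') : IsAlgClosed k' := by
  apply IsAlgClosed.of_exists_root
  intro p hmp hp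
  have hpe : (p.map e.symm.toRingHom).degree ≠ 0 := by
    rw [Polynomial.degree_map]
    exact ne_of_gt (Polynomial.degree_pos_of_irreducible hp)
  rcases IsAlgClosed.exists_root (k := k) (p.map e.symm.toRingHom) hpe with ⟨x, hx⟩
  use e x
  rw [Polynomial.IsRoot] at hx
  apply e.symm.injective
  rw [map_zero, ← hx]
  clear hx hpe hp hmp
  induction p using Polynomial.induction_on <;> simp_all

section Rel

variable {K F : Type*} [Field K] [Field F] [Algebra K F]
variable {S : Type*} [CommRing S] [IsDedekindDomain S] [Algebra S F] [IsFractionRing S F]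
  [Algebra K S] [IsScalarTower K S F]
variable {R : Type*} [CommRing R] [IsDomain R] [Algebra R S] [Algebra R F] [IsScalarTower R S F]
  [Module.Finite R S]

omit [IsDedekindDomain S] [IsFractionRing S F] [Algebra K S] [IsScalarTower K S F] [IsDomain R] in
/-- valuation rings are integrally closed: `S ⊆ O_v` as soon as `R ⊆ O_v`. -/
theorem algebraMap_mem_of_base (v : Place K F)
    (hR : ∀ r : R, algebraMap R F r ∈ v.toValuationSubring) (s : S) :
    algebraMap S F s ∈ v.toValuationSubring := by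
  have hint : IsIntegral R s := Algebra.IsIntegral.isIntegral s
  obtain ⟨P, hP, hPs⟩ := hint
  set φ : R →+* v.toValuationSubring :=
    (algebraMap R F).codRestrict v.toValuationSubring.toSubring hR with hφ
  have hcomp : (algebraMap v.toValuationSubring F).comp φ = algebraMap R F := by
    ext r; rfl
  have h1 : IsIntegral v.toValuationSubring (algebraMap S F s) := by
    refine ⟨P.map φ, hP.map φ, ?_⟩
    rw [Polynomial.eval₂_map, hcomp]
    have h2 := congrArg (algebraMap S F) hPs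
    rw [map_zero, Polynomial.hom_eval₂, ← IsScalarTower.algebraMap_eq] at h2
    exact h2
  obtain ⟨y, hy⟩ := IsIntegrallyClosed.isIntegral_iff.mp h1
  rw [← hy]
  exact y.2

variable (p : Ideal R) [hpmax : p.IsMaximal] (τ : R)

omit [IsFractionRing S F] [Algebra K S] [IsScalarTower K S F] [Algebra R F] [IsScalarTower R S F]
  [Module.Finite R S] [IsDedekindDomain S] [IsDomain R] hpmax in
theorem algebraMap_mem_of_primesOver (hp : p = Ideal.span {τ}) (q : p.primesOver S) :
    algebraMap R S τ ∈ q.1 := by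
  have h1 : τ ∈ p := by rw [hp]; exact Ideal.mem_span_singleton_self τ
  have h2 := q.1.over_def p
  rw [h2] at h1
  exact h1

omit [IsFractionRing S F] [Algebra K S] [IsScalarTower K S F] [Algebra R F] [IsScalarTower R S F]
  [Module.Finite R S] [IsDedekindDomain S] [IsDomain R] hpmax in
theorem primesOver_ne_bot (hp : p = Ideal.span {τ}) (hτ : τ ≠ 0)
    (hinj : Function.Injective (algebraMap R S)) (q : p.primesOver S) : q.1 ≠ ⊥ := by
  intro h
  have h1 := algebraMap_mem_of_primesOver p τ hp q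
  rw [h, Ideal.mem_bot] at h1
  exact hτ (hinj (by rw [h1, map_zero]))

/-- the height one prime attached to a prime over `p` -/
def wOf (hp : p = Ideal.span {τ}) (hτ : τ ≠ 0)
    (hinj : Function.Injective (algebraMap R S)) (q : p.primesOver S) : HeightOneSpectrum S :=
  ⟨q.1, q.2.1, primesOver_ne_bot p τ hp hτ hinj q⟩

omit hpmax [Module.Finite R S] in
theorem ord_wOf (hp : p = Ideal.span {τ}) (hτ : τ ≠ 0)
    (hinj : Function.Injective (algebraMap R S)) (q : p.primesOver S) :
    (Place.ofHeightOneSpectrum (K := K) (F := F) (wOf p τ hp hτ hinj q)).ord (algebraMap R F τ)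
      = (q.1.ramificationIdx R : ℤ) := by
  have hτ' : algebraMap R S τ ≠ 0 := fun h => hτ (hinj (by rw [h, map_zero]))
  rw [IsScalarTower.algebraMap_apply R S F, ord_ofHeightOneSpectrum_algebraMap _ hτ']
  have hmap : p.map (algebraMap R S) = Ideal.span {algebraMap R S τ} := by
    rw [hp, Ideal.map_span, Set.image_singleton]
  have hne : p.map (algebraMap R S) ≠ ⊥ := by
    rw [hmap, Ne, Ideal.span_singleton_eq_bot]
    exact hτ'
  rw [Ideal.IsDedekindDomain.ramificationIdx_eq_multiplicity p q.1 hne, hmap]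
  rfl

section Inertia

variable [IsAlgClosed K] [Algebra K R] [IsScalarTower K R S]

omit [IsFractionRing S F] [Algebra K S] [IsScalarTower K S F] [Algebra R F] [IsScalarTower R S F]
  [IsDedekindDomain S] [IsDomain R] [Algebra K F] [IsScalarTower K R S] in
/-- residue field `K` algebraically closed ⟹ all inertia degrees are `1`. -/
theorem inertiaDeg_eq_one (hres : ∀ r : R, ∃ c : K, r - algebraMap K R c ∈ p)
    (q : p.primesOver S) : q.1.inertiaDeg R = 1 := by
  haveI : q.1.IsMaximal := Ideal.primesOver.isMaximal q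
  rw [Ideal.inertiaDeg_eq_of_isMaximal p q.1]
  letI : Field (R ⧸ p) := Ideal.Quotient.field p
  letI : Field (S ⧸ q.1) := Ideal.Quotient.field q.1
  -- `K ≃ R ⧸ p`
  let f : K →+* R ⧸ p := (Ideal.Quotient.mk p).comp (algebraMap K R)
  have hf : Function.Bijective f := by
    refine ⟨f.injective, fun y => ?_⟩
    obtain ⟨r, rfl⟩ := Ideal.Quotient.mk_surjective y
    obtain ⟨c, hc⟩ := hres r
    refine ⟨c, ?_⟩
    show Ideal.Quotient.mk p (algebraMap K R c) = Ideal.Quotient.mk p r
    rw [eq_comm, Ideal.Quotient.eq]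
    exact hc
  haveI : IsAlgClosed (R ⧸ p) := isAlgClosed_of_ringEquiv (RingEquiv.ofBijective f hf)
  haveI : Algebra.IsIntegral (R ⧸ p) (S ⧸ q.1) := inferInstance
  have hbij : Function.Bijective (algebraMap (R ⧸ p) (S ⧸ q.1)) :=
    IsAlgClosed.algebraMap_bijective_of_isIntegral
  have htop : (⊥ : Subalgebra (R ⧸ p) (S ⧸ q.1)) = ⊤ :=
    (Algebra.surjective_algebraMap_iff.mp hbij.2).symm
  exact Subalgebra.bot_eq_top_iff_finrank_eq_one.mp htop

end Inertia

section Main

variable [IsAlgClosed K] [Algebra K R] [IsScalarTower K R S] [Module.Flat R S]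

/-- **Fundamental identity, abstract form.** -/
theorem fundamental_identity_abstract
    (hp : p = Ideal.span {τ}) (hτ : τ ≠ 0) (hinj : Function.Injective (algebraMap R S))
    (hres : ∀ r : R, ∃ c : K, r - algebraMap K R c ∈ p)
    (hR : ∀ v : Place K F, 0 < v.ord (algebraMap R F τ) →
      ∀ r : R, algebraMap R F r ∈ v.toValuationSubring)
    (s : Finset (Place K F)) (hs : ∀ v, v ∈ s ↔ 0 < v.ord (algebraMap R F τ)) :
    ∑ v ∈ s, v.ord (algebraMap R F τ) = (Module.finrank R S : ℤ) := by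
  classical
  haveI : Fintype (p.primesOver S) := (Algebra.QuasiFinite.finite_primesOver p).fintype
  have hsum := Ideal.sum_ramification_inertia_eq_finrank p S
  have hτ' : algebraMap R S τ ≠ 0 := fun h => hτ (hinj (by rw [h, map_zero]))
  set g : p.primesOver S → Place K F :=
    fun q => Place.ofHeightOneSpectrum (K := K) (wOf p τ hp hτ hinj q) with hg
  have hg_inj : Function.Injective g := by
    intro q q' h
    have h1 : wOf p τ hp hτ hinj q = wOf p τ hp hτ hinj q' :=
      ofHeightOneSpectrum_injective (K := K) (F := F) h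
    exact Subtype.ext (congrArg HeightOneSpectrum.asIdeal h1)
  have hg_ord : ∀ q, (g q).ord (algebraMap R F τ) = (q.1.ramificationIdx R : ℤ) :=
    fun q => ord_wOf p τ hp hτ hinj q
  have himg : Finset.univ.image g = s := by
    ext v
    rw [Finset.mem_image, hs]
    constructor
    · rintro ⟨q, -, rfl⟩
      rw [hg_ord]
      exact_mod_cast Ideal.ramificationIdx_pos q.1 R
    · intro hv
      have hS := algebraMap_mem_of_base (S := S) v (hR v hv)
      have hv' : 0 < v.ord (algebraMap S F (algebraMap R S τ)) := by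
        rwa [← IsScalarTower.algebraMap_apply R S F]
      obtain ⟨w, hw, hwq⟩ := exists_heightOneSpectrum_of_place v hS hτ' hv'
      have hle : p ≤ w.asIdeal.under R := by
        rw [hp, Ideal.span_singleton_le_iff_mem, Ideal.under_def, Ideal.mem_comap, hwq]
        exact (mem_primeOfPlace v hS hτ').mpr hv'
      have hne : w.asIdeal.under R ≠ ⊤ := (Ideal.IsPrime.under R w.asIdeal).ne_top
      have hq : w.asIdeal ∈ p.primesOver S := ⟨w.isPrime, ⟨hpmax.eq_of_le hne hle⟩⟩
      refine ⟨⟨w.asIdeal, hq⟩, Finset.mem_univ _, ?_⟩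
      rw [← hw]
      show Place.ofHeightOneSpectrum (K := K) (wOf p τ hp hτ hinj ⟨w.asIdeal, hq⟩) = _
      congr 1
  rw [← himg, Finset.sum_image (fun a _ b _ h => hg_inj h)]
  simp_rw [hg_ord]
  rw [← hsum]
  push_cast
  refine Finset.sum_congr rfl fun q _ => ?_
  rw [inertiaDeg_eq_one p hres q, Nat.cast_one, mul_one]

end Main

end Rel

end Fermat.Agent.S24.H864

end
end
-- ===== PACK-END S24/H864/FF3c.lean

-- ===== PACK-BEGIN S28/H807/Points.lean
section
/-
S28 / helper807 — the points `(τ+b)/p` and `pτ` of the upper half plane, the nome `q(τ)`,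
and `q`-expansions of functions on `ℍ`.
-/



set_option autoImplicit false
set_option maxHeartbeats 400000

noncomputable section

open ModularCurve Polynomial Matrix UpperHalfPlane Complex

namespace Fermat.Agent.S28.H807

/-- The nome `q(τ) = exp(2πiτ)`. -/
def nome (τ : ℍ) : ℂ := Complex.exp (2 * Real.pi * Complex.I * (τ : ℂ))

theorem nome_ne_zero (τ : ℍ) : nome τ ≠ 0 := Complex.exp_ne_zero _

theorem nome_eq_qParam (τ : ℍ) : nome τ = Function.Periodic.qParam 1 (τ : ℂ) := by
  simp [nome, Function.Periodic.qParam]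

/-- `f` has the (everywhere convergent) `q`-expansion `c`. -/
def HasQExp (c : LaurentSeries ℂ) (F : ℍ → ℂ) : Prop :=
  ∀ τ : ℍ, HasLSum c (nome τ) (F τ)

theorem hasQExp_iff (c : LaurentSeries ℂ) (F : ℍ → ℂ) :
    HasQExp c F ↔ ∀ τ : ℍ, HasSum (fun n : ℤ => c.coeff n *
      (Function.Periodic.qParam 1 (τ : ℂ)) ^ n) (F τ) := by
  unfold HasQExp HasLSum
  simp only [nome_eq_qParam]

/-- The point `(τ + b)/p`. -/
def divShift (p : ℕ) [NeZero p] (b : ℤ) (τ : ℍ) : ℍ :=
  ⟨((τ : ℂ) + (b : ℂ)) / (p : ℂ), by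
    have hp : (0 : ℝ) < (p : ℝ) := by exact_mod_cast Nat.pos_of_ne_zero (NeZero.ne p)
    have h1 : (((τ : ℂ) + (b : ℂ)) / (p : ℂ)).im = (τ : ℂ).im / (p : ℝ) := by
      rw [show ((p : ℂ)) = ((p : ℝ) : ℂ) by push_cast; rfl, Complex.div_ofReal_im]
      simp
    rw [h1]
    exact div_pos τ.im_pos hp⟩

/-- The point `pτ`. -/
def mulNat (p : ℕ) [NeZero p] (τ : ℍ) : ℍ :=
  ⟨(p : ℂ) * (τ : ℂ), by
    have hp : (0 : ℝ) < (p : ℝ) := by exact_mod_cast Nat.pos_of_ne_zero (NeZero.ne p)
    have h1 : ((p : ℂ) * (τ : ℂ)).im = (p : ℝ) * (τ : ℂ).im := by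
      rw [show ((p : ℂ)) = ((p : ℝ) : ℂ) by push_cast; rfl, Complex.im_ofReal_mul]
    rw [h1]
    exact mul_pos hp τ.im_pos⟩

@[simp] theorem coe_divShift (p : ℕ) [NeZero p] (b : ℤ) (τ : ℍ) :
    ((divShift p b τ : ℍ) : ℂ) = ((τ : ℂ) + (b : ℂ)) / (p : ℂ) := rfl

@[simp] theorem coe_mulNat (p : ℕ) [NeZero p] (τ : ℍ) :
    ((mulNat p τ : ℍ) : ℂ) = (p : ℂ) * (τ : ℂ) := rfl

theorem nome_mulNat (p : ℕ) [NeZero p] (τ : ℍ) : nome (mulNat p τ) = nome τ ^ p := by
  unfold nome
  rw [← Complex.exp_nat_mul, coe_mulNat]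
  congr 1; ring

theorem nome_divShift_pow (p : ℕ) [NeZero p] (b : ℤ) (τ : ℍ) :
    nome (divShift p b τ) ^ p = nome τ := by
  have hp : (p : ℂ) ≠ 0 := by exact_mod_cast NeZero.ne p
  unfold nome
  rw [← Complex.exp_nat_mul, coe_divShift]
  have : (p : ℂ) * (2 * Real.pi * Complex.I * (((τ : ℂ) + (b : ℂ)) / (p : ℂ)))
      = 2 * Real.pi * Complex.I * (τ : ℂ) + (b : ℂ) * (2 * Real.pi * Complex.I) := by
    field_simp
  rw [this, Complex.exp_add, Complex.exp_int_mul_two_pi_mul_I, mul_one]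

theorem nome_divShift_injective (p : ℕ) [NeZero p] (τ : ℍ) :
    Function.Injective (fun b : Fin p => nome (divShift p ((b : ℕ) : ℤ) τ)) := by
  have hp : (p : ℂ) ≠ 0 := by exact_mod_cast NeZero.ne p
  intro b b' h
  simp only [nome] at h
  rw [Complex.exp_eq_exp_iff_exists_int] at h
  obtain ⟨n, hn⟩ := h
  simp only [coe_divShift] at hn
  have hpi : (2 * Real.pi * Complex.I : ℂ) ≠ 0 := by
    simp [Real.pi_ne_zero]
  have h1 : ((τ : ℂ) + ((b : ℕ) : ℤ)) / (p : ℂ) = ((τ : ℂ) + ((b' : ℕ) : ℤ)) / (p : ℂ) + n := by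
    have := hn
    have h2 : 2 * Real.pi * Complex.I * (((τ : ℂ) + ((b : ℕ) : ℤ)) / (p : ℂ))
        = 2 * Real.pi * Complex.I * (((τ : ℂ) + ((b' : ℕ) : ℤ)) / (p : ℂ) + n) := by
      rw [this]; ring
    exact mul_left_cancel₀ hpi h2
  have h3 : (((b : ℕ) : ℤ) : ℂ) = (((b' : ℕ) : ℤ) : ℂ) + (n : ℂ) * (p : ℂ) := by
    field_simp at h1
    linear_combination h1
  have h4 : ((b : ℕ) : ℤ) = ((b' : ℕ) : ℤ) + n * (p : ℤ) := by exact_mod_cast h3
  have hb := b.2
  have hb' := b'.2
  have hn0 : n = 0 := by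
    by_contra hne
    rcases lt_or_gt_of_ne hne with hlt | hgt
    · have : n ≤ -1 := by omega
      have : n * (p : ℤ) ≤ -1 * (p : ℤ) := by
        apply mul_le_mul_of_nonneg_right this; positivity
      omega
    · have : 1 ≤ n := by omega
      have : 1 * (p : ℤ) ≤ n * (p : ℤ) := by
        apply mul_le_mul_of_nonneg_right this; positivity
      omega
  rw [hn0] at h4
  apply Fin.ext
  omega

/-- **Generic analytic theorem**: the coefficients of `(X - e)·charpoly(secMat p g)` have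
convergent `q`-expansions, with values the coefficients of
`(X - E(τ)) ∏_b (X - G((τ+b)/p))`. -/
theorem hasQExp_coeff_mul_charpoly (p : ℕ) [NeZero p] (g e : LaurentSeries ℂ) (G E : ℍ → ℂ)
    (hG : HasQExp g G) (hE : HasQExp e E) (k : ℕ) :
    HasQExp (((X - C e) * (secMat p g).charpoly).coeff k)
      (fun τ => ((X - C (E τ)) *
        ∏ b : Fin p, (X - C (G (divShift p ((b : ℕ) : ℤ) τ)))).coeff k) := by
  intro τ
  exact hasLSum_coeff_mul_charpoly g e (nome τ)
    (fun b : Fin p => nome (divShift p ((b : ℕ) : ℤ) τ))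
    (fun b => nome_ne_zero _) (fun b => nome_divShift_pow p _ τ)
    (nome_divShift_injective p τ)
    (fun b => G (divShift p ((b : ℕ) : ℤ) τ)) (fun b => hG _) (E τ) (hE τ) k

/-- `q`-expansion of `τ ↦ F(pτ)`. -/
theorem HasQExp.mulNat {c : LaurentSeries ℂ} {F : ℍ → ℂ} (h : HasQExp c F) (p : ℕ) [NeZero p] :
    HasQExp (ModularCurve.qExpand ℂ p c) (fun τ => F (mulNat p τ)) := by
  intro τ
  apply HasLSum.expand
  rw [← nome_mulNat]
  exact h _

theorem HasQExp.mul {c d : LaurentSeries ℂ} {F G : ℍ → ℂ} (h1 : HasQExp c F)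
    (h2 : HasQExp d G) : HasQExp (c * d) (fun τ => F τ * G τ) :=
  fun τ => (h1 τ).mul (nome_ne_zero τ) (h2 τ)

theorem HasQExp.add {c d : LaurentSeries ℂ} {F G : ℍ → ℂ} (h1 : HasQExp c F)
    (h2 : HasQExp d G) : HasQExp (c + d) (fun τ => F τ + G τ) :=
  fun τ => (h1 τ).add (h2 τ)

theorem hasQExp_C (a : ℂ) : HasQExp (HahnSeries.C a) (fun _ => a) :=
  fun _ => hasLSum_C _ a

theorem HasQExp.unique {c : LaurentSeries ℂ} {F G : ℍ → ℂ} (h1 : HasQExp c F)
    (h2 : HasQExp c G) : F = G :=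
  funext fun τ => (h1 τ).unique (h2 τ)

end Fermat.Agent.S28.H807

end

end
-- ===== PACK-END S28/H807/Points.lean

-- ===== PACK-BEGIN S28/H25/ThetaLaurent.lean
section




/-!
# The `θ`-identity for `j` in `ℤ((q))` (helper25, S28 piece [A-θ])

`(θ j)⁶ = Δ · j⁴ · (j - 1728)³` for `j = jqModC ℤ`, `Δ = q ∏ (1 - qⁿ)²⁴`, `θ = q d/dq`,
under the bridge hypothesis `DeltaBridge`.
-/

set_option autoImplicit false

open ModularCurve HahnSeries

noncomputable section

namespace Fermat.Agent.S28.H25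

/-- `θ = q d/dq` on Laurent series: multiplies the coefficient of `qⁿ` by `n`.
(Same definition as `thetaL` in helper28's skeleton.) -/
def thetaLaurent (R : Type*) [CommRing R] (f : LaurentSeries R) : LaurentSeries R where
  coeff n := (n : R) * f.coeff n
  isPWO_support' := f.isPWO_support.mono fun n hn => by
    simp only [Function.mem_support, ne_eq] at hn ⊢
    intro h
    exact hn (by rw [h, mul_zero])

@[simp] theorem thetaLaurent_coeff (R : Type*) [CommRing R] (f : LaurentSeries R) (n : ℤ) :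
    (thetaLaurent R f).coeff n = (n : R) * f.coeff n := rfl

theorem thetaLaurent_single_neg_one_mul {R : Type*} [CommRing R] (u : PowerSeries R) :
    thetaLaurent R (single (-1 : ℤ) 1 * ofPowerSeries ℤ R u) =
      single (-1 : ℤ) 1 * ofPowerSeries ℤ R (thetaP u - u) := by
  ext n
  rw [thetaLaurent_coeff, coeff_single_mul, coeff_single_mul, one_mul, one_mul, sub_neg_eq_add]
  rcases le_or_gt 0 (n + 1) with hn | hn
  · obtain ⟨m, hm⟩ := Int.eq_ofNat_of_zero_le hn
    rw [hm, ofPowerSeries_apply_coeff, ofPowerSeries_apply_coeff, map_sub, coeff_thetaP]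
    have hn' : (n : R) = (m : R) - 1 := by
      have : n = (m : ℤ) - 1 := by omega
      rw [this]
      push_cast
      ring
    rw [hn']
    ring
  · rw [ofPowerSeries_coeff_of_neg _ hn, ofPowerSeries_coeff_of_neg _ hn, mul_zero]

theorem jNum_map_int : jNum.map (Int.castRingHom ℤ) = jNum := by
  ext n
  simp

theorem jqModC_int_eq : jqModC ℤ = single (-1 : ℤ) 1 * ofPowerSeries ℤ ℤ jNum := by
  rw [jqModC, jNum_map_int]

/-- The formal discriminant `Δ = q ∏ (1 - qⁿ)²⁴` in `ℤ((q))`. -/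
def deltaLaurentInt : LaurentSeries ℤ :=
  single (1 : ℤ) 1 * ofPowerSeries ℤ ℤ dedekindEtaUnit

/-- **θ-identity**: `(θ j)⁶ = Δ · j⁴ · (j - 1728)³` in `ℤ((q))`. -/
theorem theta_identity_laurent (hΔ : DeltaBridge) :
    (thetaLaurent ℤ (jqModC ℤ)) ^ 6 =
      deltaLaurentInt * (jqModC ℤ) ^ 4 * (jqModC ℤ - 1728) ^ 3 := by
  have hP := theta_identity_powerSeries hΔ
  have hst : (single (-1 : ℤ) (1 : ℤ) : LaurentSeries ℤ) * single (1 : ℤ) (1 : ℤ) = 1 := by
    rw [single_mul_single]
    simp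
  have hj' : jqModC ℤ - 1728 =
      single (-1 : ℤ) 1 * ofPowerSeries ℤ ℤ (jNum - 1728 * PowerSeries.X) := by
    rw [jqModC_int_eq, map_sub, map_mul, ofPowerSeries_X, map_ofNat (ofPowerSeries ℤ ℤ) 1728]
    linear_combination (1728 : LaurentSeries ℤ) * hst
  have hP' : (ofPowerSeries ℤ ℤ (thetaP jNum - jNum)) ^ 6 =
      ofPowerSeries ℤ ℤ dedekindEtaUnit * (ofPowerSeries ℤ ℤ jNum) ^ 4 *
        (ofPowerSeries ℤ ℤ (jNum - 1728 * PowerSeries.X)) ^ 3 := by
    rw [← map_pow, hP]
    simp only [map_mul, map_pow]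
  rw [hj', jqModC_int_eq, thetaLaurent_single_neg_one_mul, deltaLaurentInt]
  linear_combination (single (-1 : ℤ) (1 : ℤ) : LaurentSeries ℤ) ^ 6 * hP' -
    (single (-1 : ℤ) (1 : ℤ) : LaurentSeries ℤ) ^ 6 * ofPowerSeries ℤ ℤ dedekindEtaUnit *
      (ofPowerSeries ℤ ℤ jNum) ^ 4 * (ofPowerSeries ℤ ℤ (jNum - 1728 * PowerSeries.X)) ^ 3 * hst

end Fermat.Agent.S28.H25

end
end
-- ===== PACK-END S28/H25/ThetaLaurent.lean

-- ===== PACK-BEGIN Lib/Red/H290/RedKer.lean
section




/-!
# The kernel of reduction is a subgroup (S52 piece A1b, part 4)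

For any valuation `v` on `K` and any Weierstrass curve `W` over `K` with `v`-integral
coefficients (no hypothesis on the discriminant, no hypothesis on the residue characteristic),
`E₁ = {O} ∪ {(x, y) : 1 < v x}` (`Fermat.Agent.S05.SameRed.InKer`) is closed under negation and
addition.
-/

set_option autoImplicit false

namespace Fermat.Agent.Lib.Red.H290

open WeierstrassCurve WeierstrassCurve.Affine
open Fermat.Agent.S05.SameRed
open Fermat.Agent.S05 (XId.add_sub_some XId.add_self_some)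

variable {K : Type*} [Field K] {Γ₀ : Type*} [LinearOrderedCommGroupWithZero Γ₀]
  {v : Valuation K Γ₀}

/-- Roots of `z² - σ z + π` with `σ, π` in the maximal ideal lie in the maximal ideal. -/
lemma val_lt_one_of_sum_prod {z w : K} (hs : v (z + w) < 1) (hp : v (z * w) < 1) : v z < 1 := by
  by_contra hz
  have hz1 : 1 ≤ v z := not_lt.mp hz
  have hz0 : 0 < v z := lt_of_lt_of_le zero_lt_one hz1
  have e : z ^ 2 = (z + w) * z + -(z * w) := by ring
  have h1 : v ((z + w) * z) < v z := by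
    rw [map_mul]
    calc v (z + w) * v z < 1 * v z := mul_lt_mul_of_pos_right hs hz0
      _ = v z := one_mul _
  have h2 : v (-(z * w)) < v z := by
    rw [Valuation.map_neg]; exact lt_of_lt_of_le hp hz1
  have h3 : v (z ^ 2) < v z := by
    rw [e]; exact v.map_add_lt h1 h2
  have h4 : v z ≤ v (z ^ 2) := by
    rw [map_pow, pow_two]
    exact le_mul_of_one_le_right' hz1
  exact absurd (lt_of_le_of_lt h4 h3) (lt_irrefl _)

lemma val_inv_lt_one {x : K} (hx : 1 < v x) : v x⁻¹ < 1 := by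
  rw [map_inv₀]; exact inv_lt_one_of_one_lt₀ hx

lemma ne_zero_of_one_lt_val {x : K} (hx : 1 < v x) : x ≠ 0 := by
  rintro rfl
  rw [map_zero] at hx
  exact not_lt_zero hx

lemma one_lt_val_of_inv_lt_one {x : K} (hx0 : x ≠ 0) (hx : v x⁻¹ < 1) : 1 < v x := by
  rw [map_inv₀] at hx
  have hpos : 0 < v x := (Valuation.pos_iff v).mpr hx0
  exact (inv_lt_one₀ hpos).mp hx

variable [DecidableEq K] {W : Affine K}

omit [DecidableEq K] in
lemma inKer_neg {P : W.Point} (hP : InKer W v P) : InKer W v (-P) := by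
  rcases P with _ | ⟨x, y, hxy⟩
  · exact hP
  · exact hP

omit [DecidableEq K] in
private lemma v_b (hW : IntegralCoeffs W v) :
    v W.b₂ ≤ 1 ∧ v W.b₄ ≤ 1 ∧ v W.b₆ ≤ 1 ∧ v W.b₈ ≤ 1 :=
  have h := Fermat.Agent.S05.C1b.isIntegralAt_of_integralCoeffs hW
  ⟨Fermat.Agent.S05.FG.v_b₂ h, Fermat.Agent.S05.FG.v_b₄ h, Fermat.Agent.S05.FG.v_b₆ h,
    Fermat.Agent.S05.FG.v_b₈ h⟩

/-- Chord case of the subgroup property. -/
lemma one_lt_val_of_sum_prod (hW : IntegralCoeffs W v) {x₁ x₂ x₃ x₄ : K} (hx₁ : 1 < v x₁)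
    (hx₂ : 1 < v x₂)
    (hsum : (x₁ - x₂) ^ 2 * (x₃ + x₄) = Fermat.Agent.S05.XId.sumNum W x₁ x₂)
    (hprod : (x₁ - x₂) ^ 2 * (x₃ * x₄) = Fermat.Agent.S05.XId.prodNum W x₁ x₂) :
    1 < v x₃ := by
  obtain ⟨hb2, hb4, hb6, hb8⟩ := v_b hW
  have h10 := ne_zero_of_one_lt_val hx₁
  have h20 := ne_zero_of_one_lt_val hx₂
  have hsv : v x₁⁻¹ < 1 := val_inv_lt_one hx₁
  have htv : v x₂⁻¹ < 1 := val_inv_lt_one hx₂
  obtain ⟨s, hs0, rfl⟩ : ∃ s : K, s ≠ 0 ∧ x₁ = s⁻¹ := ⟨x₁⁻¹, inv_ne_zero h10, (inv_inv _).symm⟩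
  obtain ⟨t, ht0, rfl⟩ : ∃ t : K, t ≠ 0 ∧ x₂ = t⁻¹ := ⟨x₂⁻¹, inv_ne_zero h20, (inv_inv _).symm⟩
  rw [inv_inv] at hsv htv
  have h2 : v (2 : K) ≤ 1 := by
    have := val_natCast_le_one (v := v) 2
    simpa using this
  have hst : v (s * t) < 1 := val_mul_lt_one_left hsv htv.le
  have hspt : v (s + t) < 1 := val_add_lt_one hsv htv
  set V : K := 1 - W.b₄ * (s * t) - W.b₆ * ((s * t) * (s + t)) - W.b₈ * (s * t) ^ 2 with hV
  set U : K := 2 * (s + t) + W.b₂ * (s * t) + W.b₄ * ((s * t) * (s + t)) + W.b₆ * (s * t) ^ 2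
    with hU
  have hUv : v U < 1 := by
    refine val_add_lt_one (val_add_lt_one (val_add_lt_one ?_ ?_) ?_) ?_
    · exact val_mul_lt_one_right h2 hspt
    · exact val_mul_lt_one_right hb2 hst
    · exact val_mul_lt_one_right hb4 (val_mul_lt_one_left hst hspt.le)
    · exact val_mul_lt_one_right hb6 (by rw [pow_two]; exact val_mul_lt_one_left hst hst.le)
  have hVv : v V = 1 := by
    have hrest : v (V - 1) < 1 := by
      have : V - 1 = -(W.b₄ * (s * t)) + -(W.b₆ * ((s * t) * (s + t))) +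
          -(W.b₈ * (s * t) ^ 2) := by
        simp only [hV]; ring
      rw [this]
      refine val_add_lt_one (val_add_lt_one ?_ ?_) ?_
      · rw [Valuation.map_neg]; exact val_mul_lt_one_right hb4 hst
      · rw [Valuation.map_neg]
        exact val_mul_lt_one_right hb6 (val_mul_lt_one_left hst hspt.le)
      · rw [Valuation.map_neg]
        exact val_mul_lt_one_right hb8 (by rw [pow_two]; exact val_mul_lt_one_left hst hst.le)
    have : V = 1 + (V - 1) := by ring
    rw [this, v.map_add_eq_of_lt_left (by rwa [map_one]), map_one]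
  have hV0 : V ≠ 0 := by
    intro h0; rw [h0, map_zero] at hVv; exact zero_ne_one hVv
  -- the two identities in terms of `s`, `t`
  have hD : (s⁻¹ - t⁻¹) ^ 2 * (s * t) ^ 2 = (t - s) ^ 2 := by
    field_simp
  have hU' : Fermat.Agent.S05.XId.sumNum W s⁻¹ t⁻¹ * (s * t) ^ 2 = U := by
    simp only [Fermat.Agent.S05.XId.sumNum, hU]
    field_simp
    ring
  have hV' : Fermat.Agent.S05.XId.prodNum W s⁻¹ t⁻¹ * (s * t) ^ 2 = V := by
    simp only [Fermat.Agent.S05.XId.prodNum, hV]
    field_simp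
    ring
  have e1 : (t - s) ^ 2 * (x₃ + x₄) = U := by
    linear_combination (s * t) ^ 2 * hsum - (x₃ + x₄) * hD + hU'
  have e2 : (t - s) ^ 2 * (x₃ * x₄) = V := by
    linear_combination (s * t) ^ 2 * hprod - (x₃ * x₄) * hD + hV'
  have hts : v (t - s) < 1 := by
    have : t - s = t + -s := by ring
    rw [this]; exact val_add_lt_one htv (by rwa [Valuation.map_neg])
  have h34 : x₃ * x₄ ≠ 0 := by
    intro h0; rw [h0, mul_zero] at e2; exact hV0 e2.symm
  have h30 : x₃ ≠ 0 := left_ne_zero_of_mul h34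
  have h40 : x₄ ≠ 0 := right_ne_zero_of_mul h34
  have hts0 : (t - s) ^ 2 ≠ 0 := by
    intro h0; rw [h0, zero_mul] at e2; exact hV0 e2.symm
  -- `z = 1/x₃`, `w = 1/x₄`
  have hzw : x₃⁻¹ * x₄⁻¹ = (t - s) ^ 2 / V := by
    rw [eq_div_iff hV0, ← e2]; field_simp
  have hzpw : x₃⁻¹ + x₄⁻¹ = U / V := by
    rw [eq_div_iff hV0, ← e1, ← e2]; field_simp; ring
  have hp : v (x₃⁻¹ * x₄⁻¹) < 1 := by
    rw [hzw, map_div₀, hVv, div_one, map_pow, pow_two]
    exact lt_of_le_of_lt (mul_le_of_le_one_right' hts.le) hts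
  have hsm : v (x₃⁻¹ + x₄⁻¹) < 1 := by
    rw [hzpw, map_div₀, hVv, div_one]; exact hUv
  exact one_lt_val_of_inv_lt_one h30 (val_lt_one_of_sum_prod hsm hp)

/-- Tangent case of the subgroup property. -/
lemma one_lt_val_of_dbl (hW : IntegralCoeffs W v) {x x' : K} (hx : 1 < v x)
    (hdbl : x' * Fermat.Agent.S05.XId.dblDen W x = Fermat.Agent.S05.XId.dblNum W x) :
    1 < v x' := by
  obtain ⟨hb2, hb4, hb6, hb8⟩ := v_b hW
  have h0 := ne_zero_of_one_lt_val hx
  have hsv : v x⁻¹ < 1 := val_inv_lt_one hx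
  obtain ⟨s, hs0, rfl⟩ : ∃ s : K, s ≠ 0 ∧ x = s⁻¹ := ⟨x⁻¹, inv_ne_zero h0, (inv_inv _).symm⟩
  rw [inv_inv] at hsv
  have h2 : v (2 : K) ≤ 1 := by
    have := val_natCast_le_one (v := v) 2
    simpa using this
  have h4 : v (4 : K) ≤ 1 := by
    have := val_natCast_le_one (v := v) 4
    simpa using this
  have hsn : ∀ n : ℕ, 0 < n → v (s ^ n) < 1 := by
    intro n hn
    rw [map_pow]
    exact pow_lt_one₀ zero_le hsv hn.ne'
  set V : K := 1 - W.b₄ * s ^ 2 - 2 * W.b₆ * s ^ 3 - W.b₈ * s ^ 4 with hV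
  set U : K := 4 * s + W.b₂ * s ^ 2 + 2 * W.b₄ * s ^ 3 + W.b₆ * s ^ 4 with hU
  have hUv : v U < 1 := by
    refine val_add_lt_one (val_add_lt_one (val_add_lt_one ?_ ?_) ?_) ?_
    · exact val_mul_lt_one_right h4 hsv
    · exact val_mul_lt_one_right hb2 (hsn 2 (by norm_num))
    · exact val_mul_lt_one_right (val_mul_le_one h2 hb4) (hsn 3 (by norm_num))
    · exact val_mul_lt_one_right hb6 (hsn 4 (by norm_num))
  have hVv : v V = 1 := by
    have hrest : v (V - 1) < 1 := by
      have : V - 1 = -(W.b₄ * s ^ 2) + -(2 * W.b₆ * s ^ 3) + -(W.b₈ * s ^ 4) := by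
        simp only [hV]; ring
      rw [this]
      refine val_add_lt_one (val_add_lt_one ?_ ?_) ?_
      · rw [Valuation.map_neg]; exact val_mul_lt_one_right hb4 (hsn 2 (by norm_num))
      · rw [Valuation.map_neg]
        exact val_mul_lt_one_right (val_mul_le_one h2 hb6) (hsn 3 (by norm_num))
      · rw [Valuation.map_neg]; exact val_mul_lt_one_right hb8 (hsn 4 (by norm_num))
    have : V = 1 + (V - 1) := by ring
    rw [this, v.map_add_eq_of_lt_left (by rwa [map_one]), map_one]
  have hV0 : V ≠ 0 := by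
    intro h0; rw [h0, map_zero] at hVv; exact zero_ne_one hVv
  have e : x' * U = V := by
    have e2 : Fermat.Agent.S05.XId.dblDen W s⁻¹ * s ^ 4 = U := by
      simp only [Fermat.Agent.S05.XId.dblDen, hU]; field_simp
    have e3 : Fermat.Agent.S05.XId.dblNum W s⁻¹ * s ^ 4 = V := by
      simp only [Fermat.Agent.S05.XId.dblNum, hV]; field_simp
    rw [← e2, ← e3, ← hdbl]; ring
  have hx'0 : x' ≠ 0 := by
    intro h0; rw [h0, zero_mul] at e; exact hV0 e.symm
  have hU0 : U ≠ 0 := by
    intro h0; rw [h0, mul_zero] at e; exact hV0 e.symm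
  apply one_lt_val_of_inv_lt_one hx'0
  have : x'⁻¹ = U / V := by
    rw [eq_div_iff hV0, ← e]; field_simp
  rw [this, map_div₀, hVv, div_one]
  exact hUv

/-- **`E₁` is closed under addition** (any valuation, any characteristic). -/
theorem inKer_add (hW : IntegralCoeffs W v) {P Q : W.Point} (hP : InKer W v P)
    (hQ : InKer W v Q) : InKer W v (P + Q) := by
  rcases P with _ | ⟨x₁, y₁, h₁⟩
  · have : (Point.zero : W.Point) + Q = Q := zero_add Q
    rw [this]; exact hQ
  rcases Q with _ | ⟨x₂, y₂, h₂⟩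
  · have : Point.some x₁ y₁ h₁ + (Point.zero : W.Point) = Point.some x₁ y₁ h₁ := add_zero _
    rw [this]; exact hP
  have hx₁ : 1 < v x₁ := hP
  have hx₂ : 1 < v x₂ := hQ
  by_cases hxx : x₁ = x₂
  · by_cases hyy : y₁ = W.negY x₂ y₂
    · rw [Point.add_of_Y_eq hxx hyy]; exact inKer_zero
    · have hy12 : y₁ = y₂ := Affine.Y_eq_of_Y_ne h₁.1 h₂.1 hxx hyy
      subst hxx; subst hy12
      obtain ⟨x', y', h', hadd, hdbl, -⟩ := XId.add_self_some h₁ hyy
      rw [hadd]
      exact one_lt_val_of_dbl hW hx₁ hdbl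
  · obtain ⟨x₃, y₃, x₄, y₄, h₃, h₄, hadd, -, hsum, hprod⟩ := XId.add_sub_some h₁ h₂ hxx
    rw [hadd]
    exact one_lt_val_of_sum_prod hW hx₁ hx₂ hsum hprod

theorem inKer_sub (hW : IntegralCoeffs W v) {P Q : W.Point} (hP : InKer W v P)
    (hQ : InKer W v Q) : InKer W v (P - Q) := by
  rw [sub_eq_add_neg]; exact inKer_add hW hP (inKer_neg hQ)

end Fermat.Agent.Lib.Red.H290

end
-- ===== PACK-END Lib/Red/H290/RedKer.lean

-- ===== PACK-BEGIN A2/H489/TwoExtC.lean
section


/-!
# A2 / M1-abs, part C (helper489): residues and the counting argument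
-/

set_option autoImplicit false

namespace Fermat.Agent.A2.H489

open IsDedekindDomain IsLocalRing

section Residue

variable (K : Type*) {A L : Type*} [CommRing A] [IsDomain A] [IsDiscreteValuationRing A]
  [Field K] [Algebra A K] [IsFractionRing A K]
  [Field L] [Algebra K L] [Algebra A L] [IsScalarTower A K L]
  [FiniteDimensional K L] [Algebra.IsSeparable K L]

theorem mul_mem_nonunits {V : ValuationSubring L} {x y : L} (hx : x ∈ V) (hy : y ∈ V.nonunits) :
    x * y ∈ V.nonunits := by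
  rw [ValuationSubring.mem_nonunits_iff] at hy ⊢
  rw [map_mul]
  exact Right.mul_lt_one_of_le_of_lt ((ValuationSubring.valuation_le_one_iff V x).mpr hx) hy

include K in
/-- every element of `V` is congruent modulo the maximal ideal to an element of the integral
closure of `A`. -/
theorem IsOver.exists_sub_mem_nonunits {V : ValuationSubring L} (hV : IsOver A V)
    {x : L} (hx : x ∈ V) :
    ∃ s : integralClosure A L, x - algebraMap (integralClosure A L) L s ∈ V.nonunits := by
  have : IsDedekindDomain (integralClosure A L) := integralClosure.isDedekindDomain A K L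
  have : IsFractionRing (integralClosure A L) L :=
    integralClosure.isFractionRing_of_finite_extension K L
  have hne : V ≠ ⊤ := hV.ne_top K
  set v := centerSpec V hV.mem_integralClosure hne with hvdef
  have hVv : V = (v.valuation L).valuationSubring :=
    eq_valuationSubring_centerSpec V hV.mem_integralClosure hne
  have hx' : v.valuation L x ≤ 1 := by
    rw [hVv] at hx
    exact hx
  obtain ⟨n, d, hnd⟩ := v.exists_primeCompl_mul_eq_of_integer x hx'
  have hd : (d : integralClosure A L) ∉ v.asIdeal := d.2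
  obtain ⟨d', i, hi, hdi⟩ := v.isMaximal.exists_inv hd
  refine ⟨n * d', ?_⟩
  have hi' : algebraMap (integralClosure A L) L i ∈ V.nonunits :=
    (mem_center_iff V hV.mem_integralClosure i).mp hi
  have key : x - algebraMap (integralClosure A L) L (n * d')
      = x * algebraMap (integralClosure A L) L i := by
    have h1 : algebraMap (integralClosure A L) L (d' * (d : integralClosure A L) + i) = 1 := by
      rw [hdi, map_one]
    rw [map_add, map_mul] at h1
    rw [map_mul]
    linear_combination (algebraMap (integralClosure A L) L d') * hnd - x * h1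
  rw [key]
  exact mul_mem_nonunits hx hi'

/-- Lifts `s i` of elements `u i ∈ V` with independent residues have independent residues in the
quotient of the integral closure by the centre. -/
theorem IsOver.linearIndependent_mk {V : ValuationSubring L} (hV : IsOver A V)
    [hlo : (center V hV.mem_integralClosure).LiesOver (maximalIdeal A)] {f : ℕ}
    (u : Fin f → L) (s : Fin f → integralClosure A L)
    (hs : ∀ i, u i - algebraMap (integralClosure A L) L (s i) ∈ V.nonunits)
    (hind : ∀ a : Fin f → A, (∑ i, algebraMap A L (a i) * u i) ∈ V.nonunits →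
      ∀ i, a i ∈ maximalIdeal A) :
    LinearIndependent (A ⧸ maximalIdeal A)
      (fun i => Ideal.Quotient.mk (center V hV.mem_integralClosure) (s i)) := by
  rw [Fintype.linearIndependent_iff]
  intro c hc i
  choose a ha using fun i => Ideal.Quotient.mk_surjective (c i)
  have h1 : ∀ i, c i • Ideal.Quotient.mk (center V hV.mem_integralClosure) (s i)
      = Ideal.Quotient.mk (center V hV.mem_integralClosure)
          (algebraMap A (integralClosure A L) (a i) * s i) := by
    intro i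
    rw [Algebra.smul_def, ← ha i, Ideal.Quotient.algebraMap_mk_of_liesOver, map_mul]
  simp only [h1] at hc
  rw [← map_sum, Ideal.Quotient.eq_zero_iff_mem, mem_center_iff] at hc
  have h2 : (∑ i, algebraMap A L (a i) * u i)
      = algebraMap (integralClosure A L) L
          (∑ i, algebraMap A (integralClosure A L) (a i) * s i)
        + ∑ i, algebraMap A L (a i) * (u i - algebraMap (integralClosure A L) L (s i)) := by
    rw [map_sum, ← Finset.sum_add_distrib]
    refine Finset.sum_congr rfl fun i _ => ?_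
    rw [map_mul, ← IsScalarTower.algebraMap_apply]
    ring
  have h3 : (∑ i, algebraMap A L (a i) * u i) ∈ V.nonunits := by
    rw [h2]
    refine add_mem hc (sum_mem fun i _ => ?_)
    exact mul_mem_nonunits (hV.mem _) (hs i)
  have h4 := hind a h3 i
  rw [← ha i]
  exact Ideal.Quotient.eq_zero_iff_mem.mpr h4

include K in
/-- A family of `f` elements of `V` whose residues are independent over the residue field of
`A` bounds the inertia degree of the centre from below. -/
theorem IsOver.le_inertiaDeg {V : ValuationSubring L} (hV : IsOver A V) {f : ℕ}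
    (u : Fin f → L) (hu : ∀ i, u i ∈ V)
    (hind : ∀ a : Fin f → A, (∑ i, algebraMap A L (a i) * u i) ∈ V.nonunits →
      ∀ i, a i ∈ maximalIdeal A) :
    f ≤ Ideal.inertiaDeg' (maximalIdeal A) (center V hV.mem_integralClosure) := by
  have hlo := hV.center_liesOver
  have hfin : Module.Finite A (integralClosure A L) := IsIntegralClosure.finite A K L _
  rw [Ideal.inertiaDeg'_algebraMap]
  choose s hs using fun i => hV.exists_sub_mem_nonunits K (hu i)
  have hli := hV.linearIndependent_mk u s hs hind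
  have h5 := hli.fintype_card_le_finrank
  simpa using h5

end Residue

section Count

variable (K : Type*) {A L : Type*} [CommRing A] [IsDomain A] [IsDiscreteValuationRing A]
  [Field K] [Algebra A K] [IsFractionRing A K]
  [Field L] [Algebra K L] [Algebra A L] [IsScalarTower A K L]
  [FiniteDimensional K L] [Algebra.IsSeparable K L]

include K in
/-- **Counting core.**  Two distinct valuation subrings over `A` whose inertia degrees add up to
at least `[L : K]` are the only ones, are unramified, and the bounds are equalities. -/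
theorem twoExt_core {V₁ V₂ : ValuationSubring L} (h₁ : IsOver A V₁) (h₂ : IsOver A V₂)
    (hne : V₁ ≠ V₂) {f₁ f₂ : ℕ} (hf : Module.finrank K L ≤ f₁ + f₂)
    (hf₁ : f₁ ≤ Ideal.inertiaDeg' (maximalIdeal A) (center V₁ h₁.mem_integralClosure))
    (hf₂ : f₂ ≤ Ideal.inertiaDeg' (maximalIdeal A) (center V₂ h₂.mem_integralClosure)) :
    (∀ P : Ideal (integralClosure A L), P.IsPrime → P.LiesOver (maximalIdeal A) →
        P = center V₁ h₁.mem_integralClosure ∨ P = center V₂ h₂.mem_integralClosure) ∧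
      Ideal.ramificationIdx' (maximalIdeal A) (center V₁ h₁.mem_integralClosure) = 1 ∧
      Ideal.ramificationIdx' (maximalIdeal A) (center V₂ h₂.mem_integralClosure) = 1 ∧
      Ideal.inertiaDeg' (maximalIdeal A) (center V₁ h₁.mem_integralClosure) = f₁ ∧
      Ideal.inertiaDeg' (maximalIdeal A) (center V₂ h₂.mem_integralClosure) = f₂ := by
  have hD : IsDedekindDomain (integralClosure A L) := integralClosure.isDedekindDomain A K L
  have hFr : IsFractionRing (integralClosure A L) L :=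
    integralClosure.isFractionRing_of_finite_extension K L
  have hfin : Module.Finite A (integralClosure A L) := IsIntegralClosure.finite A K L _
  have hTF : Module.IsTorsionFree A (integralClosure A L) := by
    rw [Module.isTorsionFree_iff_algebraMap_injective]
    intro a b hab
    apply algebraMap_injective_AL A K L
    have := congrArg (algebraMap (integralClosure A L) L) hab
    rwa [← IsScalarTower.algebraMap_apply, ← IsScalarTower.algebraMap_apply] at this
  have hlo₁ := h₁.center_liesOver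
  have hlo₂ := h₂.center_liesOver
  have hp0 : maximalIdeal A ≠ ⊥ := IsDiscreteValuationRing.not_a_field A
  set P₁ := center V₁ h₁.mem_integralClosure with hP₁
  set P₂ := center V₂ h₂.mem_integralClosure with hP₂
  have hP₁₂ : P₁ ≠ P₂ := fun h =>
    hne (eq_of_center_eq V₁ V₂ h₁.mem_integralClosure h₂.mem_integralClosure
      (h₁.ne_top K) (h₂.ne_top K) h)
  have hmem₁ : P₁ ∈ IsDedekindDomain.primesOverFinset (maximalIdeal A) (integralClosure A L) :=
    (IsDedekindDomain.mem_primesOverFinset_iff hp0 _).mpr ⟨inferInstance, hlo₁⟩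
  have hmem₂ : P₂ ∈ IsDedekindDomain.primesOverFinset (maximalIdeal A) (integralClosure A L) :=
    (IsDedekindDomain.mem_primesOverFinset_iff hp0 _).mpr ⟨inferInstance, hlo₂⟩
  have hsum := by
    set_option linter.deprecated false in
    exact Ideal.sum_ramification_inertia (integralClosure A L) K L hp0
  have hpos : ∀ P ∈ IsDedekindDomain.primesOverFinset (maximalIdeal A) (integralClosure A L),
      1 ≤ Ideal.ramificationIdx' (maximalIdeal A) P ∧
      1 ≤ Ideal.inertiaDeg' (maximalIdeal A) P := by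
    intro P hP
    obtain ⟨hPp, hPl⟩ := (IsDedekindDomain.mem_primesOverFinset_iff hp0 _).mp hP
    exact ⟨Nat.one_le_iff_ne_zero.mpr
        (Ideal.IsDedekindDomain.ramificationIdx'_ne_zero_of_liesOver P hp0),
      Nat.one_le_iff_ne_zero.mpr (Ideal.inertiaDeg'_ne_zero (maximalIdeal A) P)⟩
  rw [← Finset.add_sum_erase _ _ hmem₁] at hsum
  have hmem₂' : P₂ ∈ (IsDedekindDomain.primesOverFinset (maximalIdeal A) (integralClosure A L)).erase P₁ :=
    Finset.mem_erase.mpr ⟨hP₁₂.symm, hmem₂⟩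
  rw [← Finset.add_sum_erase _ _ hmem₂'] at hsum
  set T := ((IsDedekindDomain.primesOverFinset (maximalIdeal A) (integralClosure A L)).erase P₁).erase P₂ with hT
  have hrest : T.card ≤ ∑ P ∈ T, Ideal.ramificationIdx' (maximalIdeal A) P *
      Ideal.inertiaDeg' (maximalIdeal A) P := by
    rw [Finset.card_eq_sum_ones]
    refine Finset.sum_le_sum fun P hP => ?_
    have hP' : P ∈ IsDedekindDomain.primesOverFinset (maximalIdeal A) (integralClosure A L) :=
      Finset.mem_of_mem_erase (Finset.mem_of_mem_erase hP)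
    exact Right.one_le_mul (hpos P hP').1 (hpos P hP').2
  obtain ⟨he₁, hi₁⟩ := hpos P₁ hmem₁
  obtain ⟨he₂, hi₂⟩ := hpos P₂ hmem₂
  have hm₁ : Ideal.inertiaDeg' (maximalIdeal A) P₁ ≤
      Ideal.ramificationIdx' (maximalIdeal A) P₁ * Ideal.inertiaDeg' (maximalIdeal A) P₁ :=
    Nat.le_mul_of_pos_left _ he₁
  have hm₂ : Ideal.inertiaDeg' (maximalIdeal A) P₂ ≤
      Ideal.ramificationIdx' (maximalIdeal A) P₂ * Ideal.inertiaDeg' (maximalIdeal A) P₂ :=
    Nat.le_mul_of_pos_left _ he₂
  have hT0 : T.card = 0 := by omega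
  have hi₁' : Ideal.inertiaDeg' (maximalIdeal A) P₁ = f₁ := by omega
  have hi₂' : Ideal.inertiaDeg' (maximalIdeal A) P₂ = f₂ := by omega
  have hem₁ : Ideal.ramificationIdx' (maximalIdeal A) P₁ *
      Ideal.inertiaDeg' (maximalIdeal A) P₁ = Ideal.inertiaDeg' (maximalIdeal A) P₁ := by omega
  have hem₂ : Ideal.ramificationIdx' (maximalIdeal A) P₂ *
      Ideal.inertiaDeg' (maximalIdeal A) P₂ = Ideal.inertiaDeg' (maximalIdeal A) P₂ := by omega
  refine ⟨?_, ?_, ?_, hi₁', hi₂'⟩
  · intro P hPp hPl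
    have hP : P ∈ IsDedekindDomain.primesOverFinset (maximalIdeal A) (integralClosure A L) :=
      (IsDedekindDomain.mem_primesOverFinset_iff hp0 _).mpr ⟨hPp, hPl⟩
    by_contra hcon
    rw [not_or] at hcon
    have : P ∈ T := Finset.mem_erase.mpr ⟨hcon.2, Finset.mem_erase.mpr ⟨hcon.1, hP⟩⟩
    rw [Finset.card_eq_zero] at hT0
    rw [hT0] at this
    exact absurd this (Finset.notMem_empty _)
  · exact Nat.eq_of_mul_eq_mul_right (by omega : 0 < Ideal.inertiaDeg' (maximalIdeal A) P₁)
      (by rw [hem₁, one_mul])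
  · exact Nat.eq_of_mul_eq_mul_right (by omega : 0 < Ideal.inertiaDeg' (maximalIdeal A) P₂)
      (by rw [hem₂, one_mul])

end Count

end Fermat.Agent.A2.H489

end
-- ===== PACK-END A2/H489/TwoExtC.lean

-- ===== PACK-BEGIN A2/Mod/H732/SepTwoVal.lean
section



/-!
# A2 / MOD, piece S4 (SepCoord producer), part 2 (helper732): unit discriminant for two
unramified extensions with separable residue fields

Mathlib + `A2/H48` (`TwoVal`, `TwoExt`).  `K` a field with a valuation ring `O` with uniformiser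
`ϖ`, `F / K` finite, `V₁ ≠ V₂` valuation rings of `F` over `O`, both with uniformiser `ϖ`,
`m` a *good* family (`H48.TwoExt.IsGood`: an `O`-basis of `V₁ ∩ V₂`) with `[F : K]` members.
If both residue extensions are separable (liftable elementwise form), then the discriminant of
`m` is a unit of `O`.

* `valIdeal`, `mem_valIdeal`, `valIdeal_isPrime` : the prime `𝒪 ∩ 𝔪_V` of `𝒪 = V₁ ∩ V₂`;
* `discr_unit_of_isGood` : the theorem.
-/

set_option autoImplicit false
set_option linter.style.haveILetI false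
set_option linter.unusedSectionVars false

noncomputable section

namespace Fermat.Agent.A2.Mod.H732

open Polynomial Fermat.Agent.A2.H48

section Ring

variable {K F : Type*} [Field K] [Field F] [Algebra K F]

/-- `𝒪 = V₁ ∩ V₂` as a subring of `F`. -/
def twoRing (V₁ V₂ : ValuationSubring F) : Subring F := V₁.toSubring ⊓ V₂.toSubring

theorem mem_twoRing {V₁ V₂ : ValuationSubring F} {z : F} :
    z ∈ twoRing V₁ V₂ ↔ z ∈ V₁ ∧ z ∈ V₂ := Iff.rfl

/-- The structure map `O → V₁ ∩ V₂`. -/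
def twoRingHom {O : ValuationSubring K} {V₁ V₂ : ValuationSubring F}
    (le₁ : ∀ a ∈ O, algebraMap K F a ∈ V₁) (le₂ : ∀ a ∈ O, algebraMap K F a ∈ V₂) :
    O →+* twoRing V₁ V₂ where
  toFun a := ⟨algebraMap K F (a : K), le₁ a a.2, le₂ a a.2⟩
  map_one' := Subtype.ext (map_one (algebraMap K F))
  map_mul' a b := Subtype.ext (map_mul (algebraMap K F) (a : K) (b : K))
  map_zero' := Subtype.ext (map_zero (algebraMap K F))
  map_add' a b := Subtype.ext (map_add (algebraMap K F) (a : K) (b : K))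

/-- The ideal `T ∩ 𝔪_V` of a subring `T ⊆ V`. -/
def valIdeal (T : Subring F) (V : ValuationSubring F) (hTV : ∀ z ∈ T, z ∈ V) : Ideal T where
  carrier := {s | V.valuation (s : F) < 1}
  add_mem' := fun {a b} ha hb => by
    show V.valuation ((a : F) + (b : F)) < 1
    exact Valuation.map_add_lt _ ha hb
  zero_mem' := by
    show V.valuation ((0 : T) : F) < 1
    rw [ZeroMemClass.coe_zero, map_zero]
    exact zero_lt_one
  smul_mem' := fun c a ha => by
    show V.valuation ((c : F) * (a : F)) < 1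
    rw [map_mul]
    calc V.valuation (c : F) * V.valuation (a : F) ≤ 1 * V.valuation (a : F) :=
          mul_le_mul_left ((V.valuation_le_one_iff _).2 (hTV c c.2)) _
      _ < 1 := by rw [one_mul]; exact ha

theorem mem_valIdeal {T : Subring F} {V : ValuationSubring F} {hTV : ∀ z ∈ T, z ∈ V} {s : T} :
    s ∈ valIdeal T V hTV ↔ V.valuation (s : F) < 1 := Iff.rfl

theorem valIdeal_isPrime (T : Subring F) (V : ValuationSubring F) (hTV : ∀ z ∈ T, z ∈ V) :
    (valIdeal T V hTV).IsPrime := by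
  refine ⟨?_, ?_⟩
  · intro h
    have h1 : (1 : T) ∈ valIdeal T V hTV := by rw [h]; trivial
    rw [mem_valIdeal, OneMemClass.coe_one, map_one] at h1
    exact lt_irrefl _ h1
  · intro a b hab
    rw [mem_valIdeal, Subring.coe_mul, map_mul] at hab
    by_contra hcon
    rw [not_or, mem_valIdeal, mem_valIdeal, not_lt, not_lt] at hcon
    have h1 : (1 : _) ≤ V.valuation (a : F) * V.valuation (b : F) := by
      calc (1 : _) = 1 * 1 := (one_mul 1).symm
        _ ≤ V.valuation (a : F) * V.valuation (b : F) := mul_le_mul' hcon.1 hcon.2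
    exact absurd hab (not_lt.2 h1)

end Ring

section Main

variable {K F : Type*} [Field K] [Field F] [Algebra K F]
variable {O : ValuationSubring K} {V₁ V₂ : ValuationSubring F} {ϖ : K}

/-- `V ∩ K = O` on non-units: for `r ∈ O`, `r` is a non-unit of `O` iff it is one of `V`. -/
theorem val_algebraMap_lt_one_iff (hO : IsUnif O ϖ) (hu : IsUnif V₁ (algebraMap K F ϖ))
    (le₁ : ∀ a ∈ O, algebraMap K F a ∈ V₁) {r : K} (hr : r ∈ O) :
    V₁.valuation (algebraMap K F r) < 1 ↔ O.valuation r < 1 := by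
  constructor
  · intro h
    by_contra hcon
    have h1 : O.valuation r = 1 :=
      le_antisymm ((O.valuation_le_one_iff r).2 hr) (not_lt.1 hcon)
    have hr0 : r ≠ 0 := by
      rintro rfl
      rw [map_zero] at h1
      exact zero_ne_one h1
    have h2 : r⁻¹ ∈ O := by
      rw [← O.valuation_le_one_iff, map_inv₀, h1, inv_one]
    have h3 : V₁.valuation (algebraMap K F r⁻¹) ≤ 1 := (V₁.valuation_le_one_iff _).2 (le₁ _ h2)
    have h4 : V₁.valuation (algebraMap K F r) * V₁.valuation (algebraMap K F r⁻¹) = 1 := by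
      rw [← map_mul, ← map_mul, mul_inv_cancel₀ hr0, map_one, map_one]
    have h5 : V₁.valuation (algebraMap K F r) * V₁.valuation (algebraMap K F r⁻¹) < 1 := by
      calc V₁.valuation (algebraMap K F r) * V₁.valuation (algebraMap K F r⁻¹)
          ≤ V₁.valuation (algebraMap K F r) * 1 := mul_le_mul_right h3 _
        _ < 1 := by rw [mul_one]; exact h
    rw [h4] at h5
    exact lt_irrefl _ h5
  · intro h
    have h1 : r * ϖ⁻¹ ∈ O := hO.mul_inv_mem_iff.2 h
    have h2 : algebraMap K F r = algebraMap K F (r * ϖ⁻¹) * algebraMap K F ϖ := by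
      rw [← map_mul, mul_assoc, inv_mul_cancel₀ hO.ne_zero, mul_one]
    rw [h2, map_mul]
    calc V₁.valuation (algebraMap K F (r * ϖ⁻¹)) * V₁.valuation (algebraMap K F ϖ)
        ≤ 1 * V₁.valuation (algebraMap K F ϖ) :=
          mul_le_mul_left ((V₁.valuation_le_one_iff _).2 (le₁ _ h1)) _
      _ < 1 := by rw [one_mul]; exact hu.val_lt_one

/-- **Unit discriminant.**  In the situation of `H48.TwoExt` (two unramified extensions `V₁ ≠ V₂`
of `O` exhausting the degree), if both residue extensions are separable, then the discriminant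
of every good family `m` is a unit of `O`. -/
theorem discr_unit_of_isGood [FiniteDimensional K F]
    {ι : Type*} [Fintype ι] [DecidableEq ι] {m : ι → F}
    (hO : IsUnif O ϖ) (hu₁ : IsUnif V₁ (algebraMap K F ϖ)) (hu₂ : IsUnif V₂ (algebraMap K F ϖ))
    (le₁ : ∀ a ∈ O, algebraMap K F a ∈ V₁) (le₂ : ∀ a ∈ O, algebraMap K F a ∈ V₂)
    (hne : V₁ ≠ V₂)
    (hm : TwoExt.IsGood O V₁ V₂ ϖ m) (hcard : Fintype.card ι = Module.finrank K F)
    (hs₁ : ∀ f : F, f ∈ V₁ → f ∈ V₂ → ∃ Q : Polynomial O,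
        V₁.valuation (Q.eval₂ ((algebraMap K F).comp O.subtype) f) < 1 ∧
        V₁.valuation ((derivative Q).eval₂ ((algebraMap K F).comp O.subtype) f) = 1)
    (hs₂ : ∀ f : F, f ∈ V₁ → f ∈ V₂ → ∃ Q : Polynomial O,
        V₂.valuation (Q.eval₂ ((algebraMap K F).comp O.subtype) f) < 1 ∧
        V₂.valuation ((derivative Q).eval₂ ((algebraMap K F).comp O.subtype) f) = 1) :
    O.valuation (Algebra.discr K m) = 1 := by
  classical
  set π := algebraMap K F ϖ with hπ
  have hπ0 : π ≠ 0 := hu₁.ne_zero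
  -- the basis of `F / K`
  have hpos : 0 < Module.finrank K F := Module.finrank_pos
  haveI : Nonempty ι := by
    rw [← Fintype.card_pos_iff, hcard]; exact hpos
  set B := basisOfLinearIndependentOfCardEqFinrank (hm.linearIndependent hO) hcard with hBdef
  have hB : ∀ l, B l = m l := fun l => by
    rw [hBdef, coe_basisOfLinearIndependentOfCardEqFinrank]
  -- the ring `S = V₁ ∩ V₂` as an `O`-algebra
  letI algS : Algebra O (twoRing V₁ V₂) := (twoRingHom le₁ le₂).toAlgebra
  have hcoe_alg : ∀ r : O, ((algebraMap O (twoRing V₁ V₂) r : twoRing V₁ V₂) : F) =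
      algebraMap K F (r : K) := fun _ => rfl
  have hsmul : ∀ (r : O) (s : twoRing V₁ V₂), ((r • s : twoRing V₁ V₂) : F) =
      (r : K) • (s : F) := by
    intro r s
    rw [Algebra.smul_def, Subring.coe_mul, hcoe_alg, Algebra.smul_def]
  -- the coordinate map
  let φ : twoRing V₁ V₂ →ₗ[O] (ι → O) :=
    { toFun := fun s l => ⟨B.repr (s : F) l,
        TwoExt.IsGood.repr_mem hO le₁ le₂ hm B hB s.2.1 s.2.2 l⟩
      map_add' := fun s t => by
        funext l
        apply Subtype.ext
        simp only [Subring.coe_add, map_add, Finsupp.coe_add, Pi.add_apply]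
        rfl
      map_smul' := fun r s => by
        funext l
        apply Subtype.ext
        simp only [hsmul, map_smul, Finsupp.coe_smul, Pi.smul_apply, RingHom.id_apply]
        rfl }
  have hφ : ∀ (s : twoRing V₁ V₂) (l : ι), ((φ s l : O) : K) = B.repr (s : F) l := fun _ _ => rfl
  have hφinj : Function.Injective φ := by
    intro s t hst
    apply Subtype.ext
    apply B.repr.injective
    ext l
    rw [← hφ, ← hφ, hst]
  have hmS : ∀ l, m l ∈ twoRing V₁ V₂ := fun l => ⟨hm.1 l, hm.2.1 l⟩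
  have hφm : ∀ l, φ ⟨m l, hmS l⟩ = Pi.single l 1 := by
    intro l
    funext l'
    apply Subtype.ext
    rw [hφ]
    show B.repr (m l) l' = (((Pi.single l (1 : O) : ι → O) l' : O) : K)
    rw [← hB, B.repr_self, Finsupp.single_apply, Pi.single_apply]
    by_cases h : l = l'
    · subst h; simp
    · rw [if_neg h, if_neg (fun h' => h h'.symm)]; rfl
  have hφsurj : Function.Surjective φ := by
    intro f
    refine ⟨∑ l, f l • (⟨m l, hmS l⟩ : twoRing V₁ V₂), ?_⟩
    rw [map_sum]
    simp only [map_smul, hφm]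
    funext l'
    rw [Finset.sum_apply]
    simp only [Pi.smul_apply, Pi.single_apply, smul_eq_mul, mul_ite, mul_one, mul_zero]
    rw [Finset.sum_eq_single l']
    · simp
    · intro l _ hl
      rw [if_neg (fun h => hl h.symm)]
    · intro h
      exact absurd (Finset.mem_univ l') h
  let bS : Module.Basis ι O (twoRing V₁ V₂) :=
    Module.Basis.ofEquivFun (LinearEquiv.ofBijective φ ⟨hφinj, hφsurj⟩)
  have hbS : ∀ l, bS l = ⟨m l, hmS l⟩ := by
    intro l
    show (Module.Basis.ofEquivFun (LinearEquiv.ofBijective φ ⟨hφinj, hφsurj⟩)) l = _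
    rw [Module.Basis.coe_ofEquivFun]
    rw [LinearEquiv.symm_apply_eq]
    exact (hφm l).symm
  have hbSrepr : ∀ (s : twoRing V₁ V₂) (l : ι), ((bS.repr s l : O) : K) = B.repr (s : F) l := by
    intro s l
    show (((Module.Basis.ofEquivFun (LinearEquiv.ofBijective φ ⟨hφinj, hφsurj⟩)).repr s l : O)
      : K) = _
    rw [Module.Basis.ofEquivFun_repr_apply]
    rfl
  haveI : Module.Free O (twoRing V₁ V₂) := Module.Free.of_basis bS
  haveI : Module.Finite O (twoRing V₁ V₂) := Module.Finite.of_basis bS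
  haveI : Algebra.IsIntegral O (twoRing V₁ V₂) := Algebra.IsIntegral.of_finite _ _
  -- the two primes
  set P₁ : Ideal (twoRing V₁ V₂) := valIdeal (twoRing V₁ V₂) V₁ (fun z hz => hz.1) with hP₁
  set P₂ : Ideal (twoRing V₁ V₂) := valIdeal (twoRing V₁ V₂) V₂ (fun z hz => hz.2) with hP₂
  have hP₁prime : P₁.IsPrime := valIdeal_isPrime _ _ _
  have hP₂prime : P₂.IsPrime := valIdeal_isPrime _ _ _
  have hϖmem : (⟨ϖ, hO.mem⟩ : O) ∈ IsLocalRing.maximalIdeal O :=
    (ValuationSubring.valuation_lt_one_iff O _).2 hO.val_lt_one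
  have hmap₁ : Ideal.map (algebraMap O (twoRing V₁ V₂)) (IsLocalRing.maximalIdeal O) ≤ P₁ := by
    rw [Ideal.map_le_iff_le_comap]
    intro r hr
    rw [Ideal.mem_comap, hP₁, mem_valIdeal, hcoe_alg]
    exact (val_algebraMap_lt_one_iff hO hu₁ le₁ r.2).2
      ((ValuationSubring.valuation_lt_one_iff O r).1 hr)
  have hmap₂ : Ideal.map (algebraMap O (twoRing V₁ V₂)) (IsLocalRing.maximalIdeal O) ≤ P₂ := by
    rw [Ideal.map_le_iff_le_comap]
    intro r hr
    rw [Ideal.mem_comap, hP₂, mem_valIdeal, hcoe_alg]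
    exact (val_algebraMap_lt_one_iff hO hu₂ le₂ r.2).2
      ((ValuationSubring.valuation_lt_one_iff O r).1 hr)
  have hinf : P₁ ⊓ P₂ = Ideal.map (algebraMap O (twoRing V₁ V₂)) (IsLocalRing.maximalIdeal O) := by
    refine le_antisymm ?_ (le_inf hmap₁ hmap₂)
    rintro s ⟨hs1, hs2⟩
    have h1 : (s : F) * π⁻¹ ∈ V₁ := hu₁.mul_inv_mem_iff.2 hs1
    have h2 : (s : F) * π⁻¹ ∈ V₂ := hu₂.mul_inv_mem_iff.2 hs2
    have hs : s = algebraMap O (twoRing V₁ V₂) ⟨ϖ, hO.mem⟩ *
        (⟨(s : F) * π⁻¹, h1, h2⟩ : twoRing V₁ V₂) := by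
      apply Subtype.ext
      rw [Subring.coe_mul, hcoe_alg]
      show (s : F) = π * ((s : F) * π⁻¹)
      field_simp
    rw [hs]
    exact Ideal.mul_mem_right _ _ (Ideal.mem_map_of_mem _ hϖmem)
  have hcomap : ∀ P : Ideal (twoRing V₁ V₂), P.IsPrime →
      Ideal.map (algebraMap O (twoRing V₁ V₂)) (IsLocalRing.maximalIdeal O) ≤ P → P.IsMaximal := by
    intro P hP hle
    haveI := hP
    apply Ideal.isMaximal_of_isIntegral_of_isMaximal_comap (R := O) P
    have : Ideal.comap (algebraMap O (twoRing V₁ V₂)) P = IsLocalRing.maximalIdeal O :=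
      ((IsLocalRing.maximalIdeal.isMaximal O).eq_of_le (Ideal.comap_ne_top _ hP.ne_top)
        (Ideal.map_le_iff_le_comap.1 hle)).symm
    rw [this]
    exact IsLocalRing.maximalIdeal.isMaximal O
  have hP₁max : P₁.IsMaximal := hcomap P₁ hP₁prime hmap₁
  have hP₂max : P₂.IsMaximal := hcomap P₂ hP₂prime hmap₂
  have hPne : P₁ ≠ P₂ := by
    obtain ⟨g, hg1, hg2, hg3⟩ := exists_approx hu₁ hu₂ hne (f := 1) (k := 0) (one_mem _)
      (by rw [pow_zero, one_mul]; exact one_mem _)
    have hgV₂ : g ∈ V₂ := by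
      have : g = g * π⁻¹ * π := by field_simp
      rw [this]
      exact mul_mem hg3 hu₂.mem
    intro hP
    have hgP₂ : (⟨g, hg1, hgV₂⟩ : twoRing V₁ V₂) ∈ P₂ := by
      rw [hP₂, mem_valIdeal]
      exact hu₂.mul_inv_mem_iff.1 hg3
    rw [← hP, hP₁, mem_valIdeal] at hgP₂
    have h1 : V₁.valuation (g - 1) < 1 := hu₁.mul_inv_mem_iff.1 hg2
    have h2 : V₁.valuation (1 : F) < 1 := by
      have : (1 : F) = g - (g - 1) := by ring
      rw [this]
      exact Valuation.map_sub_lt _ hgP₂ h1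
    rw [map_one] at h2
    exact lt_irrefl _ h2
  -- evaluation of polynomials
  have hev : ∀ (Q : Polynomial O) (s : twoRing V₁ V₂),
      ((aeval s Q : twoRing V₁ V₂) : F) = Q.eval₂ ((algebraMap K F).comp O.subtype) (s : F) := by
    intro Q s
    have h := Polynomial.hom_eval₂ Q (algebraMap O (twoRing V₁ V₂)) (twoRing V₁ V₂).subtype s
    rw [aeval_def]
    exact h
  have hsepS₁ : ∀ s : twoRing V₁ V₂, ∃ Q : Polynomial O,
      aeval s Q ∈ P₁ ∧ aeval s (derivative Q) ∉ P₁ := by
    intro s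
    obtain ⟨Q, hQ1, hQ2⟩ := hs₁ s s.2.1 s.2.2
    refine ⟨Q, ?_, ?_⟩
    · rw [hP₁, mem_valIdeal, hev]; exact hQ1
    · rw [hP₁, mem_valIdeal, hev, hQ2]; exact lt_irrefl _
  have hsepS₂ : ∀ s : twoRing V₁ V₂, ∃ Q : Polynomial O,
      aeval s Q ∈ P₂ ∧ aeval s (derivative Q) ∉ P₂ := by
    intro s
    obtain ⟨Q, hQ1, hQ2⟩ := hs₂ s s.2.1 s.2.2
    refine ⟨Q, ?_, ?_⟩
    · rw [hP₂, mem_valIdeal, hev]; exact hQ1
    · rw [hP₂, mem_valIdeal, hev, hQ2]; exact lt_irrefl _
  have hunit : IsUnit (Algebra.discr O bS) :=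
    isUnit_discr_of_two_maximal bS P₁ P₂ hP₁max hP₂max hPne hinf hsepS₁ hsepS₂
  -- comparison of traces and discriminants
  have htr : ∀ s : twoRing V₁ V₂, ((Algebra.trace O (twoRing V₁ V₂) s : O) : K) =
      Algebra.trace K F (s : F) := by
    intro s
    rw [Algebra.trace_eq_matrix_trace bS, Algebra.trace_eq_matrix_trace B, Matrix.trace,
      Matrix.trace]
    rw [← ValuationSubring.algebraMap_apply, map_sum]
    refine Finset.sum_congr rfl fun i _ => ?_
    rw [Matrix.diag_apply, Matrix.diag_apply, Algebra.leftMulMatrix_eq_repr_mul,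
      Algebra.leftMulMatrix_eq_repr_mul, ValuationSubring.algebraMap_apply, hbSrepr,
      Subring.coe_mul, hbS, hB]
  have hdiscr : ((Algebra.discr O bS : O) : K) = Algebra.discr K m := by
    rw [Algebra.discr_def, Algebra.discr_def, ← ValuationSubring.algebraMap_apply,
      RingHom.map_det]
    congr 1
    ext i j
    rw [RingHom.mapMatrix_apply, Matrix.map_apply, Algebra.traceMatrix_apply,
      Algebra.traceMatrix_apply, Algebra.traceForm_apply, Algebra.traceForm_apply,
      ValuationSubring.algebraMap_apply, htr, Subring.coe_mul, hbS, hbS]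
  obtain ⟨u, hu⟩ := hunit
  rw [← hdiscr, ← hu]
  exact ValuationSubring.valuation_unit O u

end Main

end Fermat.Agent.A2.Mod.H732

end
end
-- ===== PACK-END A2/Mod/H732/SepTwoVal.lean

-- ===== PACK-BEGIN S36/H756/DescPic.lean
section





/-!
# S36 engine, leaf DESC (owner helper756) — Picard form

* `exists_kummer_data` : an `m`-torsion class `x ∈ Pic0 K F` is `[D]` with `m D = div f`.
* `kummer_cocycle_of_fixed` : if moreover `g • x = x` for a semilinear automorphism `g` (and
  functions without zeros and poles are constant), then `g f = c · h ^ m · f`.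
* `exists_fixed_kummer_rep` (**T2**) : for `F = laurentBaseChange Q̄ F₀`, an `m`-torsion class
  fixed by a subgroup `G ≤ Gal(Q̄/ℚ)` is `[D]` with `m D = div f` and `f` fixed by `G`.
* `JZero.exists_fixed_kummer_rep` : the same for `JZero N`.
-/

set_option autoImplicit false

noncomputable section

namespace Fermat.Agent.S36.H756

open AlgebraicCurve ModularCurve

local notation "Q̄" => AlgebraicClosure ℚ

section Generic

variable {K F : Type*} [Field K] [Field F] [Algebra K F]

variable (K F) in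
/-- A function without zeros and poles is a constant. -/
def ConstOfOrdZero : Prop :=
  ∀ u : F, u ≠ 0 → (∀ v : Place K F, v.ord u = 0) → ∃ c : K, algebraMap K F c = u

theorem ord_const_eq_zero (v : Place K F) (c : K) : v.ord (algebraMap K F c) = 0 := by
  rcases eq_or_ne c 0 with rfl | hc
  · simp
  have h1 : algebraMap K F c ∈ v.toValuationSubring := v.algebraMap_mem' c
  have h2 : algebraMap K F c⁻¹ ∈ v.toValuationSubring := v.algebraMap_mem' c⁻¹
  have hu : IsUnit (⟨algebraMap K F c, h1⟩ : v.toValuationSubring) := by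
    refine IsUnit.of_mul_eq_one (⟨algebraMap K F c⁻¹, h2⟩ : v.toValuationSubring) ?_
    ext
    show algebraMap K F c * algebraMap K F c⁻¹ = 1
    rw [← map_mul, mul_inv_cancel₀ hc, map_one]
  exact v.ord_coe_unit hu.unit

theorem ord_toRingAut (g : SemilinearAut K F) (w : Place K F) (f : F) :
    w.ord (SemilinearAut.toRingAut g f) = (g⁻¹ • w).ord f := by
  have h := SemilinearAut.ord_smul g (g⁻¹ • w) f
  rw [smul_inv_smul] at h
  exact h

theorem ord_npow (v : Place K F) (y : F) (m : ℕ) : v.ord (y ^ m) = m * v.ord y := by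
  have := v.ord_zpow y (m : ℤ)
  simpa using this

/-- An `m`-torsion class is the class of a divisor `D` with `m D = div f`. -/
theorem exists_kummer_data (m : ℕ) (x : Pic0 K F) (hx : m • x = 0) :
    ∃ (D : Divisor.degZero (K := K) (F := F)) (f : F), f ≠ 0 ∧ Pic0.mk D = x ∧
      ∀ v : Place K F, v.ord f = (m : ℤ) * (D : Divisor K F) v := by
  obtain ⟨D, rfl⟩ := Pic0.mk_surjective x
  have hprin : ((m • D : Divisor.degZero (K := K) (F := F)) : Divisor K F) ∈
      Divisor.principal (K := K) (F := F) := by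
    have h0 : Pic0.mk (m • D) = 0 := hx
    have := (QuotientAddGroup.eq_zero_iff (m • D)).1 h0
    simpa [AddSubgroup.mem_addSubgroupOf] using this
  obtain ⟨f, hf, hfD⟩ := hprin
  refine ⟨D, f, hf, rfl, fun v => ?_⟩
  rw [← hfD v]
  simp [Finsupp.smul_apply]

/-- The Kummer cocycle of a fixed class: `g f = c · h ^ m · f`. -/
theorem kummer_cocycle_of_fixed (hconst : ConstOfOrdZero K F) (m : ℕ)
    (D : Divisor.degZero (K := K) (F := F)) (f : F) (hf : f ≠ 0)
    (hfD : ∀ v : Place K F, v.ord f = (m : ℤ) * (D : Divisor K F) v)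
    (g : SemilinearAut K F) (hg : g • Pic0.mk D = Pic0.mk D) :
    ∃ c : K, c ≠ 0 ∧ ∃ h : F, h ≠ 0 ∧
      SemilinearAut.toRingAut g f = algebraMap K F c * h ^ m * f := by
  -- `g D - D = div h`
  have h0 : Pic0.mk (SemilinearAut.degZeroSMulHom g D - D) = 0 := by
    rw [SemilinearAut.pic0_smul_mk] at hg
    have : Pic0.mk (SemilinearAut.degZeroSMulHom g D - D)
        = Pic0.mk (SemilinearAut.degZeroSMulHom g D) - Pic0.mk D := rfl
    rw [this, hg, sub_self]
  have hprin := (QuotientAddGroup.eq_zero_iff (SemilinearAut.degZeroSMulHom g D - D)).1 h0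
  rw [AddSubgroup.mem_addSubgroupOf] at hprin
  obtain ⟨h, hh, hhD⟩ := hprin
  have hhD' : ∀ w : Place K F,
      w.ord h = (D : Divisor K F) (g⁻¹ • w) - (D : Divisor K F) w := by
    intro w
    rw [← hhD w]
    simp only [AddSubgroupClass.coe_sub, SemilinearAut.coe_degZeroSMulHom,
      Finsupp.sub_apply, SemilinearAut.divisor_smul_apply]
  have hgf : SemilinearAut.toRingAut g f ≠ 0 := by simpa using hf
  have hden : h ^ m * f ≠ 0 := mul_ne_zero (pow_ne_zero m hh) hf
  -- the quotient has trivial divisor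
  have hu0 : SemilinearAut.toRingAut g f * (h ^ m * f)⁻¹ ≠ 0 :=
    mul_ne_zero hgf (inv_ne_zero hden)
  have hord : ∀ w : Place K F, w.ord (SemilinearAut.toRingAut g f * (h ^ m * f)⁻¹) = 0 := by
    intro w
    rw [w.ord_mul hgf (inv_ne_zero hden), w.ord_inv, w.ord_mul (pow_ne_zero m hh) hf,
      ord_npow, ord_toRingAut, hfD, hfD, hhD']
    ring
  obtain ⟨c, hc⟩ := hconst _ hu0 hord
  have hc0 : c ≠ 0 := by
    rintro rfl
    rw [map_zero] at hc
    exact hu0 hc.symm
  refine ⟨c, hc0, h, hh, ?_⟩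
  rw [mul_assoc, hc, mul_assoc, inv_mul_cancel₀ hden, mul_one]

end Generic

section Modular

variable {F₀ : IntermediateField ℚ (LaurentSeries ℚ)}

/-- **T2.** An `m`-torsion class of `Pic0` of `laurentBaseChange Q̄ F₀` which is fixed by a
subgroup `G` of `Gal(Q̄/ℚ)` is the class of a divisor `D` with `m D = div f` for a function
`f` fixed by `G`. -/
theorem exists_fixed_kummer_rep
    [HasPrincipalDivisors Q̄ (laurentBaseChange Q̄ F₀)]
    (hconst : ConstOfOrdZero Q̄ (laurentBaseChange Q̄ F₀))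
    (G : Subgroup (Q̄ ≃ₐ[ℚ] Q̄)) (m : ℕ)
    (x : Pic0 Q̄ (laurentBaseChange Q̄ F₀)) (hx : m • x = 0)
    (hG : ∀ τ ∈ G, τ • x = x) :
    ∃ (D : Divisor.degZero (K := Q̄) (F := laurentBaseChange Q̄ F₀))
      (f : laurentBaseChange Q̄ F₀), f ≠ 0 ∧ Pic0.mk D = x ∧
      (∀ v : Place Q̄ (laurentBaseChange Q̄ F₀),
        v.ord f = (m : ℤ) * (D : Divisor Q̄ (laurentBaseChange Q̄ F₀)) v) ∧
      ∀ τ ∈ G, arithmeticRingAut F₀ τ f = f := by
  obtain ⟨D, f, hf, rfl, hfD⟩ := exists_kummer_data m x hx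
  have hcoc : ∀ τ ∈ G, ∃ c : Q̄, c ≠ 0 ∧ ∃ h : laurentBaseChange Q̄ F₀, h ≠ 0 ∧
      arithmeticRingAut F₀ τ f = algebraMap Q̄ (laurentBaseChange Q̄ F₀) c * h ^ m * f := by
    intro τ hτ
    exact kummer_cocycle_of_fixed hconst m D f hf hfD (arithmeticGalois F₀ τ) (hG τ hτ)
  obtain ⟨a, ha, b, hb, hfix⟩ := exists_fixed_rep G m f hf hcoc
  -- the divisor of `b`
  obtain ⟨B, hB, hB0⟩ := HasPrincipalDivisors.exists_divisor (K := Q̄) b hb
  let B' : Divisor.degZero (K := Q̄) (F := laurentBaseChange Q̄ F₀) := ⟨B, hB0⟩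
  have haK : algebraMap Q̄ (laurentBaseChange Q̄ F₀) a ≠ 0 := by simpa using ha
  refine ⟨D + B', algebraMap Q̄ (laurentBaseChange Q̄ F₀) a * b ^ m * f,
    mul_ne_zero (mul_ne_zero haK (pow_ne_zero m hb)) hf, ?_, fun v => ?_, hfix⟩
  · rw [Pic0.mk_add]
    have : Pic0.mk B' = 0 := by
      refine (QuotientAddGroup.eq_zero_iff B').2 ?_
      rw [AddSubgroup.mem_addSubgroupOf]
      exact ⟨b, hb, hB⟩
    rw [this, add_zero]
  · rw [v.ord_mul (mul_ne_zero haK (pow_ne_zero m hb)) hf, v.ord_mul haK (pow_ne_zero m hb),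
      ord_const_eq_zero, zero_add, ord_npow, hfD]
    show _ = (m : ℤ) * ((D : Divisor Q̄ (laurentBaseChange Q̄ F₀)) v + B v)
    rw [hB v]
    ring

end Modular

end Fermat.Agent.S36.H756

end
end
-- ===== PACK-END S36/H756/DescPic.lean

-- ===== PACK-BEGIN Ribet/H600/EtaleNode.lean
section
/-
# RIBET row 38, WALL-p, package I6, leaf ETNODE (helper600)

`theorem etaleNode : H704.I6.EtaleNodeStatement` — a local-étale extension (trivial residue
extension) of a normal noetherian node ring is a normal noetherian node ring with the same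
uniformisers.  Mathlib only.

Proof.  `S = R[Y]` is free over `R` on `1, Y, …` (power basis of the minimal polynomial, `R`
integrally closed), `R' = M⁻¹ S`.  Ideals of `R` extended to `R'` are controlled by coordinates
in `S` (`coordIdeal`).  `𝔪_{R'} = 𝔪_R R'` by Taylor expansion of `P` at a residue of `Y`.
`R' ⧸ 𝔭₁ R'` is noetherian local with principal maximal ideal `(x)`, `x` not nilpotent: Krull's
intersection theorem.  Normality: Euler's formula for the trace dual of `R[Y]`
(`traceForm_dualSubmodule_adjoin`).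
-/


set_option autoImplicit false
set_option linter.unusedSectionVars false
set_option linter.style.haveILetI false

namespace Fermat.Agent.Ribet.H600

open Polynomial IsLocalRing Fermat.Agent.Ribet.H704.I6

/-! ## Coordinates with respect to a basis -/

section Coord

variable {R S : Type*} [CommRing R] [CommRing S] [Algebra R S] {ι : Type*} [Fintype ι]

/-- The ideal of the elements of `S` all of whose coordinates lie in `I`. -/
def coordIdeal (b : Module.Basis ι R S) (I : Ideal R) : Ideal S where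
  carrier := {a | ∀ i, b.repr a i ∈ I}
  add_mem' := by
    intro a a' ha ha' i
    simp only [map_add, Finsupp.coe_add, Pi.add_apply]
    exact I.add_mem (ha i) (ha' i)
  zero_mem' := by intro i; simp
  smul_mem' := by
    intro t a ha i
    have h : t • a = ∑ k, (b.repr a k) • (t * b k) := by
      conv_lhs => rw [← b.sum_repr a]
      rw [smul_eq_mul, Finset.mul_sum]
      refine Finset.sum_congr rfl fun k _ => ?_
      rw [mul_smul_comm]
    rw [h, map_sum, Finsupp.coe_finsetSum, Finset.sum_apply]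
    refine I.sum_mem fun k _ => ?_
    rw [map_smul, Finsupp.smul_apply, smul_eq_mul]
    exact I.mul_mem_right _ (ha k)

theorem mem_coordIdeal {b : Module.Basis ι R S} {I : Ideal R} {a : S} :
    a ∈ coordIdeal b I ↔ ∀ i, b.repr a i ∈ I := Iff.rfl

theorem algebraMap_mem_coordIdeal (b : Module.Basis ι R S) {I : Ideal R} {p : R} (hp : p ∈ I) :
    algebraMap R S p ∈ coordIdeal b I := by
  intro i
  rw [Algebra.algebraMap_eq_smul_one, map_smul, Finsupp.smul_apply, smul_eq_mul]
  exact I.mul_mem_right _ hp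

theorem coordIdeal_inf (b : Module.Basis ι R S) (I J : Ideal R) :
    coordIdeal b I ⊓ coordIdeal b J = coordIdeal b (I ⊓ J) := by
  ext a
  simp only [Ideal.mem_inf, mem_coordIdeal]
  exact ⟨fun h i => ⟨h.1 i, h.2 i⟩, fun h => ⟨fun i => (h i).1, fun i => (h i).2⟩⟩

theorem exists_mul_of_mem_coordIdeal_span (b : Module.Basis ι R S) (π : R) {a : S}
    (ha : a ∈ coordIdeal b (Ideal.span {π})) : ∃ c : S, a = algebraMap R S π * c := by
  choose r hr using fun i => Ideal.mem_span_singleton'.1 (ha i)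
  refine ⟨∑ i, r i • b i, ?_⟩
  conv_lhs => rw [← b.sum_repr a]
  rw [Finset.mul_sum]
  refine Finset.sum_congr rfl fun i _ => ?_
  rw [← hr i, mul_comm (r i) π, mul_smul, Algebra.smul_def π]

theorem mem_coordIdeal_of_prime (b : Module.Basis ι R S) {I : Ideal R} (hI : I.IsPrime) {c : R}
    (hc : c ∉ I) {s : S} (h : algebraMap R S c * s ∈ coordIdeal b I) : s ∈ coordIdeal b I := by
  intro i
  have := h i
  rw [← Algebra.smul_def, map_smul, Finsupp.smul_apply, smul_eq_mul] at this
  exact (hI.mem_or_mem this).resolve_left hc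

theorem algebraMap_mem_map_of_mem_coordIdeal {T : Type*} [CommRing T] [Algebra R T] [Algebra S T]
    [IsScalarTower R S T] (b : Module.Basis ι R S) {I : Ideal R} {a : S}
    (ha : a ∈ coordIdeal b I) : algebraMap S T a ∈ I.map (algebraMap R T) := by
  rw [← b.sum_repr a, map_sum]
  refine Ideal.sum_mem _ fun i _ => ?_
  rw [Algebra.smul_def, map_mul, ← IsScalarTower.algebraMap_apply]
  exact Ideal.mul_mem_right _ _ (Ideal.mem_map_of_mem _ (ha i))

end Coord

/-! ## The maximal ideal -/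

section Max

variable {R R' : Type} [CommRing R] [IsLocalRing R] [CommRing R'] [IsLocalRing R'] [Algebra R R']

theorem map_maximalIdeal_le' [IsLocalHom (algebraMap R R')] :
    (maximalIdeal R).map (algebraMap R R') ≤ maximalIdeal R' := by
  rw [Ideal.map_le_iff_le_comap]
  intro p hp
  rw [Ideal.mem_comap, mem_maximalIdeal, mem_nonunits_iff]
  intro hu
  exact (mem_nonunits_iff.1 ((mem_maximalIdeal _).1 hp)) (isUnit_of_map_unit (algebraMap R R') p hu)

theorem mem_maximalIdeal_of_algebraMap_mem {c : R}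
    (h : algebraMap R R' c ∈ maximalIdeal R') : c ∈ maximalIdeal R := by
  rw [mem_maximalIdeal, mem_nonunits_iff]
  intro hu
  exact (mem_nonunits_iff.1 ((mem_maximalIdeal _).1 h)) (hu.map (algebraMap R R'))

/-- `Y - r ∈ 𝔪_R R'` when `Y` is a root of `P`, `P'(Y)` a unit and `Y ≡ r`. -/
theorem sub_mem_map_maximalIdeal (Y : R') (P : R[X]) (hPY : aeval Y P = 0)
    (hP' : IsUnit (aeval Y (derivative P))) (r : R)
    (hr : Y - algebraMap R R' r ∈ maximalIdeal R') :
    Y - algebraMap R R' r ∈ (maximalIdeal R).map (algebraMap R R') := by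
  set a := algebraMap R R' r with ha
  set t := Y - a with ht
  obtain ⟨k, hk⟩ := (P.map (algebraMap R R')).binomExpansion a t
  have e1 : (P.map (algebraMap R R')).eval (a + t) = 0 := by
    rw [ht, add_sub_cancel, eval_map, ← aeval_def, hPY]
  have e2 : (P.map (algebraMap R R')).eval a = algebraMap R R' (P.eval r) := by
    rw [eval_map, ha, eval₂_at_apply]
  have e3 : (derivative (P.map (algebraMap R R'))).eval a
      = algebraMap R R' ((derivative P).eval r) := by
    rw [derivative_map, eval_map, ha, eval₂_at_apply]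
  rw [e1, e2, e3] at hk
  -- `P'(r)` is a unit of `R'`
  obtain ⟨z, hz⟩ := ((derivative P).map (algebraMap R R')).evalSubFactor Y a
  rw [eval_map, ← aeval_def, eval_map, ha, eval₂_at_apply, ← ha, ← ht] at hz
  have hu1 : IsUnit (algebraMap R R' ((derivative P).eval r)) := by
    by_contra hnu
    have h1 : algebraMap R R' ((derivative P).eval r) ∈ maximalIdeal R' :=
      (mem_maximalIdeal _).2 hnu
    have h2 : aeval Y (derivative P) ∈ maximalIdeal R' := by
      have : aeval Y (derivative P) = algebraMap R R' ((derivative P).eval r) + z * t := by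
        rw [← hz]; ring
      rw [this]
      exact Ideal.add_mem _ h1 (Ideal.mul_mem_left _ _ hr)
    exact (mem_nonunits_iff.1 ((mem_maximalIdeal _).1 h2)) hP'
  have hu2 : IsUnit (algebraMap R R' ((derivative P).eval r) + k * t) := by
    by_contra hnu
    have h1 : algebraMap R R' ((derivative P).eval r) + k * t ∈ maximalIdeal R' :=
      (mem_maximalIdeal _).2 hnu
    have h2 : algebraMap R R' ((derivative P).eval r) ∈ maximalIdeal R' := by
      have : algebraMap R R' ((derivative P).eval r)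
          = (algebraMap R R' ((derivative P).eval r) + k * t) - k * t := by ring
      rw [this]
      exact Ideal.sub_mem _ h1 (Ideal.mul_mem_left _ _ hr)
    exact (mem_nonunits_iff.1 ((mem_maximalIdeal _).1 h2)) hu1
  have hPr : algebraMap R R' (P.eval r) ∈ maximalIdeal R' := by
    have : algebraMap R R' (P.eval r)
        = -(t * (algebraMap R R' ((derivative P).eval r) + k * t)) := by
      linear_combination -hk
    rw [this]
    exact Ideal.neg_mem_iff _ |>.2 (Ideal.mul_mem_right _ _ hr)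
  have hPr' : P.eval r ∈ maximalIdeal R := mem_maximalIdeal_of_algebraMap_mem hPr
  obtain ⟨w, hw⟩ := hu2
  have : t = -(algebraMap R R' (P.eval r)) * (↑w⁻¹ : R') := by
    have h3 : t * (w : R') = -(algebraMap R R' (P.eval r)) := by
      rw [hw]; linear_combination -hk
    rw [← h3, mul_assoc, Units.mul_inv, mul_one]
  rw [this]
  exact Ideal.mul_mem_right _ _ (Ideal.neg_mem_iff _ |>.2 (Ideal.mem_map_of_mem _ hPr'))

/-- The extension is unramified at the closed point: `𝔪_{R'} = 𝔪_R R'`. -/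
theorem maximalIdeal_le_map (Y : R') (P : R[X]) (hPY : aeval Y P = 0)
    (hP' : IsUnit (aeval Y (derivative P)))
    (hfrac : ∀ z : R', ∃ (a : R') (s : R'), a ∈ Algebra.adjoin R ({Y} : Set R') ∧
      s ∈ Algebra.adjoin R ({Y} : Set R') ∧ IsUnit s ∧ z * s = a)
    (hres : ∀ z : R', ∃ r : R, z - algebraMap R R' r ∈ maximalIdeal R') :
    maximalIdeal R' ≤ (maximalIdeal R).map (algebraMap R R') := by
  obtain ⟨r, hr⟩ := hres Y
  have ht := sub_mem_map_maximalIdeal Y P hPY hP' r hr
  -- elements of `R[Y]`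
  have key : ∀ a ∈ Algebra.adjoin R ({Y} : Set R'), a ∈ maximalIdeal R' →
      a ∈ (maximalIdeal R).map (algebraMap R R') := by
    intro a ha ham
    rw [Algebra.adjoin_singleton_eq_range_aeval] at ha
    obtain ⟨A, rfl⟩ := ha
    obtain ⟨z, hz⟩ := (A.map (algebraMap R R')).evalSubFactor Y (algebraMap R R' r)
    rw [eval_map, ← aeval_def, eval_map, eval₂_at_apply] at hz
    have h1 : algebraMap R R' (A.eval r) ∈ maximalIdeal R' := by
      have : algebraMap R R' (A.eval r) = aeval Y A - z * (Y - algebraMap R R' r) := by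
        rw [← hz]; ring
      rw [this]
      exact Ideal.sub_mem _ ham (Ideal.mul_mem_left _ _ hr)
    have h2 : aeval Y A = algebraMap R R' (A.eval r) + z * (Y - algebraMap R R' r) := by
      rw [← hz]; ring
    change aeval Y A ∈ _
    rw [h2]
    exact Ideal.add_mem _ (Ideal.mem_map_of_mem _ (mem_maximalIdeal_of_algebraMap_mem h1))
      (Ideal.mul_mem_left _ _ ht)
  intro z hz
  obtain ⟨a, s, ha, -, hs, hzs⟩ := hfrac z
  obtain ⟨u, rfl⟩ := hs
  have ham : a ∈ maximalIdeal R' := by rw [← hzs]; exact Ideal.mul_mem_right _ _ hz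
  have : z = a * (↑u⁻¹ : R') := by rw [← hzs, mul_assoc, Units.mul_inv, mul_one]
  rw [this]
  exact Ideal.mul_mem_right _ _ (key a ha ham)

end Max

/-! ## `R[Y]` and its coordinates -/

section Adjoin

variable {R R' : Type} [CommRing R] [IsDomain R] [IsIntegrallyClosed R] [IsLocalRing R]
  [CommRing R'] [IsDomain R'] [IsLocalRing R'] [Algebra R R'] [IsLocalHom (algebraMap R R')]
  [Module.IsTorsionFree R R']

/-- The power basis `1, Y, …, Y^(d-1)` of `R[Y]`. -/
noncomputable def pbY (Y : R') (hY : IsIntegral R Y) :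
    PowerBasis R (Algebra.adjoin R ({Y} : Set R')) :=
  Algebra.adjoin.powerBasis' hY

/-- Elements of an extended ideal have, up to a unit denominator, coordinates in the ideal. -/
theorem exists_unit_mul_mem_coordIdeal (Y : R') (hY : IsIntegral R Y)
    (hfrac : ∀ z : R', ∃ (a : R') (s : R'), a ∈ Algebra.adjoin R ({Y} : Set R') ∧
      s ∈ Algebra.adjoin R ({Y} : Set R') ∧ IsUnit s ∧ z * s = a)
    (I : Ideal R) {z : R'} (hz : z ∈ I.map (algebraMap R R')) :
    ∃ s a : Algebra.adjoin R ({Y} : Set R'), IsUnit (s : R') ∧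
      a ∈ coordIdeal (pbY Y hY).basis I ∧ z * (s : R') = (a : R') := by
  unfold Ideal.map at hz
  induction hz using Submodule.span_induction with
  | mem z hz =>
    obtain ⟨p, hp, rfl⟩ := hz
    exact ⟨1, algebraMap R _ p, by simp, algebraMap_mem_coordIdeal _ hp, by simp⟩
  | zero => exact ⟨1, 0, by simp, Ideal.zero_mem _, by simp⟩
  | add z₁ z₂ _ _ h₁ h₂ =>
    obtain ⟨s₁, a₁, hs₁, ha₁, e₁⟩ := h₁
    obtain ⟨s₂, a₂, hs₂, ha₂, e₂⟩ := h₂
    refine ⟨s₁ * s₂, a₁ * s₂ + a₂ * s₁, ?_, ?_, ?_⟩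
    · simpa using hs₁.mul hs₂
    · exact Ideal.add_mem _ (Ideal.mul_mem_right _ _ ha₁) (Ideal.mul_mem_right _ _ ha₂)
    · push_cast
      rw [← e₁, ← e₂]; ring
  | smul w z _ h =>
    obtain ⟨s, a, hs, ha, e⟩ := h
    obtain ⟨c, t, hc, ht, htu, hwt⟩ := hfrac w
    refine ⟨⟨t, ht⟩ * s, ⟨c, hc⟩ * a, ?_, Ideal.mul_mem_left _ _ ha, ?_⟩
    · simpa using htu.mul hs
    · push_cast
      rw [← e, ← hwt, smul_eq_mul]; ring

/-- Extended prime ideals contract to themselves. -/
theorem mem_of_algebraMap_mem_map (Y : R') (hY : IsIntegral R Y)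
    (hfrac : ∀ z : R', ∃ (a : R') (s : R'), a ∈ Algebra.adjoin R ({Y} : Set R') ∧
      s ∈ Algebra.adjoin R ({Y} : Set R') ∧ IsUnit s ∧ z * s = a)
    {I : Ideal R} (hI : I.IsPrime) {c : R} (hc : algebraMap R R' c ∈ I.map (algebraMap R R')) :
    c ∈ I := by
  by_contra hcI
  obtain ⟨s, a, hs, ha, e⟩ := exists_unit_mul_mem_coordIdeal Y hY hfrac I hc
  have e' : algebraMap R (Algebra.adjoin R ({Y} : Set R')) c * s = a := by
    apply Subtype.ext
    push_cast
    exact e
  rw [← e'] at ha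
  have hsI := mem_coordIdeal_of_prime _ hI hcI ha
  have h1 : (s : R') ∈ I.map (algebraMap R R') :=
    algebraMap_mem_map_of_mem_coordIdeal (T := R') _ hsI
  have h2 : (s : R') ∈ maximalIdeal R' :=
    map_maximalIdeal_le' (Ideal.map_mono (le_maximalIdeal hI.ne_top) h1)
  exact (mem_nonunits_iff.1 ((mem_maximalIdeal _).1 h2)) hs

/-- Extension of ideals commutes with the intersection `𝔭₁ ⊓ 𝔭₂ = (π)`. -/
theorem map_inf_map_le_span (Y : R') (hY : IsIntegral R Y)
    (hfrac : ∀ z : R', ∃ (a : R') (s : R'), a ∈ Algebra.adjoin R ({Y} : Set R') ∧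
      s ∈ Algebra.adjoin R ({Y} : Set R') ∧ IsUnit s ∧ z * s = a)
    {𝔭₁ 𝔭₂ : Ideal R} {π : R} (h : 𝔭₁ ⊓ 𝔭₂ = Ideal.span {π}) :
    𝔭₁.map (algebraMap R R') ⊓ 𝔭₂.map (algebraMap R R') ≤ Ideal.span {algebraMap R R' π} := by
  intro z hz
  obtain ⟨s₁, a₁, hs₁, ha₁, e₁⟩ := exists_unit_mul_mem_coordIdeal Y hY hfrac 𝔭₁ hz.1
  obtain ⟨s₂, a₂, hs₂, ha₂, e₂⟩ := exists_unit_mul_mem_coordIdeal Y hY hfrac 𝔭₂ hz.2
  have e : a₁ * s₂ = a₂ * s₁ := by
    apply Subtype.ext
    push_cast
    rw [← e₁, ← e₂]; ring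
  have hmem : a₁ * s₂ ∈ coordIdeal (pbY Y hY).basis (Ideal.span {π}) := by
    rw [← h, ← coordIdeal_inf]
    exact ⟨Ideal.mul_mem_right _ _ ha₁, e ▸ Ideal.mul_mem_right _ _ ha₂⟩
  obtain ⟨c, hc⟩ := exists_mul_of_mem_coordIdeal_span _ π hmem
  obtain ⟨u₁, hu₁⟩ := hs₁
  obtain ⟨u₂, hu₂⟩ := hs₂
  have hc' : z * (u₁ : R') * (u₂ : R') = algebraMap R R' π * (c : R') := by
    have := congrArg (Subtype.val) hc
    push_cast at this
    rw [hu₁, hu₂, e₁]
    exact this
  have : z = algebraMap R R' π * ((c : R') * (↑u₁⁻¹ : R') * (↑u₂⁻¹ : R')) := by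
    calc z = z * (u₁ : R') * (u₂ : R') * ((↑u₁⁻¹ : R') * (↑u₂⁻¹ : R')) := by
          have h1 : (u₁ : R') * (↑u₁⁻¹ : R') = 1 := Units.mul_inv u₁
          have h2 : (u₂ : R') * (↑u₂⁻¹ : R') = 1 := Units.mul_inv u₂
          linear_combination (-z * ((u₂ : R') * (↑u₂⁻¹ : R'))) * h1 - z * h2
      _ = _ := by rw [hc']; ring
  rw [this]
  exact Ideal.mul_mem_right _ _ (Ideal.mem_span_singleton_self _)

end Adjoin

/-! ## A branch: noetherian local with principal maximal ideal -/

section Branch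

/-- In a node ring, `𝔪 = 𝔭 + (x)` on each branch. -/
theorem maximalIdeal_le_sup_span {R : Type*} [CommRing R] [IsLocalRing R] {𝔭 : Ideal R} {x : R}
    (h𝔭 : 𝔭 ≠ ⊤) (unif : ∀ a : R, a ∉ 𝔭 → ∃ s : ℕ, OrdOn 𝔭 x a s) :
    maximalIdeal R ≤ 𝔭 ⊔ Ideal.span {x} := by
  intro a ha
  by_cases hap : a ∈ 𝔭
  · exact Ideal.mem_sup_left hap
  obtain ⟨s, u, hu⟩ := unif a hap
  obtain ⟨w, hw⟩ := Ideal.Quotient.mk_surjective (I := 𝔭) (↑u⁻¹ : R ⧸ 𝔭)
  have hu' : Ideal.Quotient.mk 𝔭 a = (Ideal.Quotient.mk 𝔭 x) ^ s * (↑u⁻¹ : R ⧸ 𝔭) := by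
    rw [← hu, mul_assoc, Units.mul_inv, mul_one]
  rcases Nat.eq_zero_or_pos s with hs | hs
  · exfalso
    subst hs
    rw [pow_zero, one_mul, ← hw] at hu'
    obtain ⟨v, hv⟩ := Ideal.Quotient.mk_surjective (I := 𝔭) (↑u : R ⧸ 𝔭)
    have h1 : Ideal.Quotient.mk 𝔭 (a * v - 1) = 0 := by
      rw [map_sub, map_mul, map_one, hv, hu', hw, Units.inv_mul, sub_self]
    have h2 : a * v - 1 ∈ maximalIdeal R :=
      le_maximalIdeal h𝔭 (Ideal.Quotient.eq_zero_iff_mem.1 h1)
    have h3 : (1 : R) ∈ maximalIdeal R := by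
      have : (1 : R) = a * v - (a * v - 1) := by ring
      rw [this]
      exact Ideal.sub_mem _ (Ideal.mul_mem_right _ _ ha) h2
    exact (Ideal.ne_top_iff_one _).1 (maximalIdeal.isMaximal R).ne_top h3
  · obtain ⟨n, rfl⟩ : ∃ n, s = n + 1 := ⟨s - 1, by omega⟩
    have h1 : Ideal.Quotient.mk 𝔭 (a - x * (x ^ n * w)) = 0 := by
      rw [map_sub, map_mul, map_mul, map_pow, hw, hu']; ring
    have h2 : a - x * (x ^ n * w) ∈ 𝔭 := Ideal.Quotient.eq_zero_iff_mem.1 h1
    have : a = (a - x * (x ^ n * w)) + x * (x ^ n * w) := by ring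
    rw [this]
    exact Ideal.add_mem _ (Ideal.mem_sup_left h2)
      (Ideal.mem_sup_right (Ideal.mul_mem_right _ _ (Ideal.mem_span_singleton_self x)))

/-- A noetherian local ring `A` and a proper ideal `𝔮` such that `𝔪 ≤ 𝔮 + (x)` and no power of
`x` lies in `𝔮`: then `𝔮` is prime and `A ⧸ 𝔮` is a discrete valuation ring with uniformiser
`x`. -/
theorem branch_of_principal {A : Type*} [CommRing A] [IsLocalRing A] [IsNoetherianRing A]
    {𝔮 : Ideal A} {x : A} (h𝔮 : 𝔮 ≤ maximalIdeal A) (hxm : x ∈ maximalIdeal A)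
    (hm : maximalIdeal A ≤ 𝔮 ⊔ Ideal.span {x}) (hpow : ∀ n : ℕ, x ^ n ∉ 𝔮) :
    𝔮.IsPrime ∧ (∀ a : A, a ∉ 𝔮 → ∃ s : ℕ, OrdOn 𝔮 x a s) ∧
      ¬ IsUnit (Ideal.Quotient.mk 𝔮 x) := by
  have h𝔮top : 𝔮 ≠ ⊤ := fun h => by
    have := h ▸ h𝔮
    exact (maximalIdeal.isMaximal A).ne_top (top_le_iff.1 this)
  have : Nontrivial (A ⧸ 𝔮) := Ideal.Quotient.nontrivial_iff.2 h𝔮top
  have : IsLocalRing (A ⧸ 𝔮) :=
    IsLocalRing.of_surjective' (Ideal.Quotient.mk 𝔮) Ideal.Quotient.mk_surjective
  set X : A ⧸ 𝔮 := Ideal.Quotient.mk 𝔮 x with hX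
  -- non-units of the quotient are multiples of `X`
  have hnonunit : ∀ c : A ⧸ 𝔮, ¬ IsUnit c → c ∈ Ideal.span {X} := by
    intro c hc
    obtain ⟨z, rfl⟩ := Ideal.Quotient.mk_surjective c
    have hz : z ∈ maximalIdeal A := by
      rw [mem_maximalIdeal, mem_nonunits_iff]
      exact fun hu => hc (hu.map _)
    obtain ⟨p, hp, q, hq, rfl⟩ := Submodule.mem_sup.1 (hm hz)
    obtain ⟨w, rfl⟩ := Ideal.mem_span_singleton'.1 hq
    rw [map_add, Ideal.Quotient.eq_zero_iff_mem.2 hp, zero_add, map_mul]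
    exact Ideal.mul_mem_left _ _ (Ideal.mem_span_singleton_self _)
  have hXnu : ¬ IsUnit X := by
    intro hu
    obtain ⟨u, hu⟩ := hu
    obtain ⟨w, hw⟩ := Ideal.Quotient.mk_surjective (I := 𝔮) (↑u⁻¹ : A ⧸ 𝔮)
    have h1 : Ideal.Quotient.mk 𝔮 (x * w - 1) = 0 := by
      rw [map_sub, map_mul, map_one, hw, ← hX, ← hu, Units.mul_inv, sub_self]
    have h2 : x * w - 1 ∈ maximalIdeal A := h𝔮 (Ideal.Quotient.eq_zero_iff_mem.1 h1)
    have h3 : (1 : A) ∈ maximalIdeal A := by
      have : (1 : A) = x * w - (x * w - 1) := by ring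
      rw [this]
      exact Ideal.sub_mem _ (Ideal.mul_mem_right _ _ hxm) h2
    exact (Ideal.ne_top_iff_one _).1 (maximalIdeal.isMaximal A).ne_top h3
  have hJtop : Ideal.span {X} ≠ ⊤ := by
    rw [Ne, Ideal.span_singleton_eq_top]
    exact hXnu
  have hkrull := Ideal.iInf_pow_eq_bot_of_isLocalRing (Ideal.span {X}) hJtop
  have hunif : ∀ a : A, a ∉ 𝔮 → ∃ s : ℕ, OrdOn 𝔮 x a s := by
    intro a ha
    have hb : Ideal.Quotient.mk 𝔮 a ≠ 0 := fun h => ha (Ideal.Quotient.eq_zero_iff_mem.1 h)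
    have hex : ∃ n : ℕ, Ideal.Quotient.mk 𝔮 a ∉ Ideal.span {X} ^ n := by
      by_contra hcon
      simp only [not_exists, not_not] at hcon
      have : Ideal.Quotient.mk 𝔮 a ∈ ⨅ i, Ideal.span {X} ^ i := (Ideal.mem_iInf).2 hcon
      rw [hkrull] at this
      exact hb ((Ideal.mem_bot).1 this)
    classical
    have hn := Nat.find_spec hex
    have hn0 : Nat.find hex ≠ 0 := by
      intro h0
      rw [h0, pow_zero, Ideal.one_eq_top] at hn
      exact hn trivial
    obtain ⟨s, hs⟩ : ∃ s, Nat.find hex = s + 1 := ⟨Nat.find hex - 1, by omega⟩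
    have hmem : Ideal.Quotient.mk 𝔮 a ∈ Ideal.span {X} ^ s := by
      by_contra hcon
      exact Nat.find_min hex (by omega : s < Nat.find hex) hcon
    rw [Ideal.span_singleton_pow, Ideal.mem_span_singleton'] at hmem
    obtain ⟨c, hc⟩ := hmem
    have hcu : IsUnit c := by
      by_contra hcnu
      have h1 := hnonunit c hcnu
      obtain ⟨d, hd⟩ := Ideal.mem_span_singleton'.1 h1
      apply hn
      rw [hs, Ideal.span_singleton_pow, Ideal.mem_span_singleton']
      exact ⟨d, by rw [← hc, ← hd, pow_succ]; ring⟩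
    obtain ⟨u, rfl⟩ := hcu
    refine ⟨s, u⁻¹, ?_⟩
    rw [← hc]
    calc (u : A ⧸ 𝔮) * X ^ s * (↑u⁻¹ : A ⧸ 𝔮)
        = X ^ s * ((u : A ⧸ 𝔮) * (↑u⁻¹ : A ⧸ 𝔮)) := by ring
      _ = X ^ s := by rw [Units.mul_inv, mul_one]
  refine ⟨?_, hunif, hXnu⟩
  rw [Ideal.isPrime_iff]
  refine ⟨h𝔮top, ?_⟩
  intro a b hab
  by_contra hcon
  rw [not_or] at hcon
  obtain ⟨s, u, hu⟩ := hunif a hcon.1
  obtain ⟨t, v, hv⟩ := hunif b hcon.2
  have h1 : Ideal.Quotient.mk 𝔮 (x ^ (s + t)) = 0 := by
    rw [map_pow, pow_add, ← hu, ← hv]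
    have : Ideal.Quotient.mk 𝔮 a * Ideal.Quotient.mk 𝔮 b = 0 := by
      rw [← map_mul]; exact Ideal.Quotient.eq_zero_iff_mem.2 hab
    calc Ideal.Quotient.mk 𝔮 a * ↑u * (Ideal.Quotient.mk 𝔮 b * ↑v)
        = (Ideal.Quotient.mk 𝔮 a * Ideal.Quotient.mk 𝔮 b) * (↑u * ↑v) := by ring
      _ = 0 := by rw [this, zero_mul]
  exact hpow _ (Ideal.Quotient.eq_zero_iff_mem.1 h1)

end Branch

/-! ## `R'` is a localisation of `R[Y]`; noetherianity -/

section Loc

variable {R R' : Type} [CommRing R] [CommRing R'] [Algebra R R']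

/-- The elements of `R[Y]` which are units of `R'`. -/
def unitSub (R : Type) {R' : Type} [CommRing R] [CommRing R'] [Algebra R R'] (Y : R') :
    Submonoid (Algebra.adjoin R ({Y} : Set R')) :=
  (IsUnit.submonoid R').comap (algebraMap (Algebra.adjoin R ({Y} : Set R')) R')

theorem mem_unitSub {Y : R'} {s : Algebra.adjoin R ({Y} : Set R')} :
    s ∈ unitSub R Y ↔ IsUnit (s : R') := Iff.rfl

theorem isLocalization_unitSub (Y : R')
    (hfrac : ∀ z : R', ∃ (a : R') (s : R'), a ∈ Algebra.adjoin R ({Y} : Set R') ∧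
      s ∈ Algebra.adjoin R ({Y} : Set R') ∧ IsUnit s ∧ z * s = a) :
    IsLocalization (unitSub R Y) R' := by
  rw [isLocalization_iff]
  refine ⟨fun y => y.2, fun z => ?_, fun {x y} h => ⟨1, ?_⟩⟩
  · obtain ⟨a, s, ha, hs, hsu, e⟩ := hfrac z
    exact ⟨(⟨a, ha⟩, ⟨⟨s, hs⟩, hsu⟩), e⟩
  · have : x = y := Subtype.ext h
    rw [this]

theorem isNoetherianRing_of_frac [IsNoetherianRing R] (Y : R') (hY : IsIntegral R Y)
    (hfrac : ∀ z : R', ∃ (a : R') (s : R'), a ∈ Algebra.adjoin R ({Y} : Set R') ∧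
      s ∈ Algebra.adjoin R ({Y} : Set R') ∧ IsUnit s ∧ z * s = a) :
    IsNoetherianRing R' := by
  have hfin : Module.Finite R (Algebra.adjoin R ({Y} : Set R')) :=
    Module.Finite.iff_fg.2 hY.fg_adjoin_singleton
  have h1 : IsNoetherian R (Algebra.adjoin R ({Y} : Set R')) := inferInstance
  have h2 : IsNoetherianRing (Algebra.adjoin R ({Y} : Set R')) := isNoetherian_of_tower R h1
  have := isLocalization_unitSub Y hfrac
  exact IsLocalization.isNoetherianRing (unitSub R Y) R' h2

end Loc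

/-! ## Normality -/

section Normal

variable {R R' : Type} [CommRing R] [IsDomain R] [IsIntegrallyClosed R]
  [CommRing R'] [IsDomain R'] [Algebra R R'] [Module.IsTorsionFree R R']

open IntermediateField in
/-- The fraction field of `R'` is generated by `Y` over the fraction field of `R`. -/
theorem adjoin_eq_top_of_frac (Y : R') (_hY : IsIntegral R Y)
    (hfrac : ∀ z : R', ∃ (a : R') (s : R'), a ∈ Algebra.adjoin R ({Y} : Set R') ∧
      s ∈ Algebra.adjoin R ({Y} : Set R') ∧ IsUnit s ∧ z * s = a) :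
    letI : Algebra (FractionRing R) (FractionRing R') :=
      FractionRing.liftAlgebra R (FractionRing R')
    (FractionRing R)⟮algebraMap R' (FractionRing R') Y⟯ = ⊤ := by
  letI : Algebra (FractionRing R) (FractionRing R') :=
    FractionRing.liftAlgebra R (FractionRing R')
  haveI : IsScalarTower R (FractionRing R) (FractionRing R') :=
    FractionRing.isScalarTower_liftAlgebra R (FractionRing R')
  set K := FractionRing R
  set L := FractionRing R'
  set y : L := algebraMap R' L Y with hy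
  have hinj : Function.Injective (algebraMap R' L) := IsFractionRing.injective R' L
  have h1 : ∀ c ∈ Algebra.adjoin R ({Y} : Set R'), algebraMap R' L c ∈ K⟮y⟯ := by
    intro c hc
    rw [Algebra.adjoin_singleton_eq_range_aeval] at hc
    obtain ⟨A, rfl⟩ := hc
    have e : algebraMap R' L (aeval Y A) = aeval y (A.map (algebraMap R K)) := by
      rw [aeval_map_algebraMap, hy, aeval_algebraMap_apply]
    change algebraMap R' L (aeval Y A) ∈ _
    rw [e]
    exact algebra_adjoin_le_adjoin K {y} (aeval_mem_adjoin_singleton K y)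
  have h2 : ∀ c : R', algebraMap R' L c ∈ K⟮y⟯ := by
    intro c
    obtain ⟨a, s, ha, hs, hsu, e⟩ := hfrac c
    have hs0 : algebraMap R' L s ≠ 0 := by
      intro h0
      have : s = 0 := hinj (by rw [h0, map_zero])
      rw [this] at hsu
      exact not_isUnit_zero hsu
    have : algebraMap R' L c = algebraMap R' L a / algebraMap R' L s := by
      rw [eq_div_iff hs0, ← map_mul, e]
    rw [this]
    exact div_mem (h1 a ha) (h1 s hs)
  rw [eq_top_iff]
  intro z _
  obtain ⟨a, b, -, rfl⟩ := IsFractionRing.div_surjective R' z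
  exact div_mem (h2 a) (h2 b)

open IntermediateField in
/-- A localisation `R'` of `R[Y]`, `R` integrally closed, at which the derivative of a monic
equation of `Y` is a unit, is integrally closed. -/
theorem isIntegrallyClosed_of_etale (Y : R') (P : R[X]) (hP : P.Monic) (hPY : aeval Y P = 0)
    (hP' : IsUnit (aeval Y (derivative P)))
    (hfrac : ∀ z : R', ∃ (a : R') (s : R'), a ∈ Algebra.adjoin R ({Y} : Set R') ∧
      s ∈ Algebra.adjoin R ({Y} : Set R') ∧ IsUnit s ∧ z * s = a) :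
    IsIntegrallyClosed R' := by
  classical
  have hY : IsIntegral R Y := ⟨P, hP, by rwa [← aeval_def]⟩
  obtain ⟨Q, hQ⟩ := minpoly.isIntegrallyClosed_dvd hY hPY
  have hmu : IsUnit (aeval Y (derivative (minpoly R Y))) := by
    have : aeval Y (derivative P) = aeval Y (derivative (minpoly R Y)) * aeval Y Q := by
      rw [hQ, derivative_mul, map_add, map_mul, map_mul, minpoly.aeval, zero_mul, add_zero]
    rw [this] at hP'
    exact isUnit_of_mul_isUnit_left hP'
  letI : Algebra (FractionRing R) (FractionRing R') :=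
    FractionRing.liftAlgebra R (FractionRing R')
  haveI : IsScalarTower R (FractionRing R) (FractionRing R') :=
    FractionRing.isScalarTower_liftAlgebra R (FractionRing R')
  have hKtop := adjoin_eq_top_of_frac Y hY hfrac
  set K := FractionRing R
  set L := FractionRing R'
  set y : L := algebraMap R' L Y with hy
  have hinj : Function.Injective (algebraMap R' L) := IsFractionRing.injective R' L
  have hyR : IsIntegral R y := hY.map (IsScalarTower.toAlgHom R R' L)
  have hyK : IsIntegral K y := hyR.tower_top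
  have htop : Algebra.adjoin K {y} = ⊤ := by
    rw [← IntermediateField.adjoin_simple_toSubalgebra_of_isAlgebraic hyK.isAlgebraic, hKtop,
      IntermediateField.top_toSubalgebra]
  haveI : FiniteDimensional K L := by
    have h := hyK.fg_adjoin_singleton
    rw [htop, Algebra.top_toSubmodule] at h
    exact ⟨h⟩
  -- the derivative of the minimal polynomial
  have hder : aeval y (derivative (minpoly K y))
      = algebraMap R' L (aeval Y (derivative (minpoly R Y))) := by
    rw [minpoly.isIntegrallyClosed_eq_field_fractions' K hyR, derivative_map,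
      aeval_map_algebraMap, hy, minpoly.algebraMap_eq hinj, aeval_algebraMap_apply]
  have hder0 : aeval y (derivative (minpoly K y)) ≠ 0 := by
    rw [hder]
    intro h0
    have : aeval Y (derivative (minpoly R Y)) = 0 := hinj (by rw [h0, map_zero])
    rw [this] at hmu
    exact not_isUnit_zero hmu
  have hsep : IsSeparable K y := by
    rw [IsSeparable, separable_iff_derivative_ne_zero (minpoly.irreducible hyK)]
    intro h0
    rw [h0, map_zero] at hder0
    exact hder0 rfl
  haveI : Algebra.IsSeparable K L := by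
    haveI : Algebra.IsSeparable K K⟮y⟯ :=
      (IntermediateField.isSeparable_adjoin_simple_iff_isSeparable K L).2 hsep
    refine ⟨fun z => ?_⟩
    exact IntermediateField.isSeparable_of_mem_isSeparable K L (L := K⟮y⟯)
      (by rw [hKtop]; trivial)
  -- the main argument
  rw [isIntegrallyClosed_iff L]
  intro z hz
  haveI := isLocalization_unitSub Y hfrac
  haveI : Algebra.IsIntegral R (Algebra.adjoin R ({Y} : Set R')) :=
    Algebra.IsIntegral.adjoin (by simpa using hY)
  obtain ⟨m, hm⟩ := IsIntegral.exists_multiple_integral_of_isLocalization (unitSub R Y) z hz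
  have hmR : IsIntegral R (m • z) := isIntegral_trans (R := R) _ hm
  have hmz : m • z = algebraMap R' L (m : R') * z := by
    rw [Submonoid.smul_def, Algebra.smul_def]
    rfl
  rw [hmz] at hmR
  have hdual : algebraMap R' L (m : R') * z ∈
      (Algebra.traceForm K L).dualSubmodule (Subalgebra.toSubmodule (Algebra.adjoin R {y})) := by
    rw [LinearMap.BilinForm.mem_dualSubmodule]
    intro a ha
    rw [Algebra.traceForm_apply, Submodule.mem_one]
    have haR : IsIntegral R a := by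
      have : Algebra.IsIntegral R (Algebra.adjoin R ({y} : Set L)) :=
        Algebra.IsIntegral.adjoin (by simpa using hyR)
      exact (Algebra.IsIntegral.isIntegral (R := R) (⟨a, ha⟩ : Algebra.adjoin R ({y} : Set L))).map
        (Algebra.adjoin R ({y} : Set L)).val
    exact IsIntegrallyClosed.isIntegral_iff.1 (Algebra.isIntegral_trace (hmR.mul haR))
  rw [traceForm_dualSubmodule_adjoin R K htop hyR,
    Submodule.mem_smul_pointwise_iff_exists] at hdual
  obtain ⟨b, hb, e⟩ := hdual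
  have hb' : b ∈ Subalgebra.map (IsScalarTower.toAlgHom R R' L) (Algebra.adjoin R {Y}) := by
    rw [AlgHom.map_adjoin_singleton]
    exact hb
  obtain ⟨b', -, rfl⟩ := hb'
  obtain ⟨d, hd⟩ := hmu
  obtain ⟨u, hu⟩ : IsUnit (m : R') := m.2
  refine ⟨b' * (↑d⁻¹ : R') * (↑u⁻¹ : R'), ?_⟩
  have hd0 : algebraMap R' L (d : R') ≠ 0 := by rw [hd, ← hder]; exact hder0
  have hu0 : algebraMap R' L (u : R') ≠ 0 := by
    intro h0
    have : (u : R') = 0 := hinj (by rw [h0, map_zero])
    exact u.ne_zero this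
  have e2 : (aeval y (derivative (minpoly K y)))⁻¹ * algebraMap R' L b'
      = algebraMap R' L (m : R') * z := e
  have e' : algebraMap R' L b' = algebraMap R' L (d : R') * (algebraMap R' L (u : R') * z) := by
    rw [hd, ← hder, hu, ← e2, mul_inv_cancel_left₀ hder0]
  have h1 : algebraMap R' L (↑d⁻¹ : R') * algebraMap R' L (d : R') = 1 := by
    rw [← map_mul, Units.inv_mul, map_one]
  have h2 : algebraMap R' L (↑u⁻¹ : R') * algebraMap R' L (u : R') = 1 := by
    rw [← map_mul, Units.inv_mul, map_one]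
  rw [map_mul, map_mul, e']
  linear_combination (algebraMap R' L (↑u⁻¹ : R') * algebraMap R' L (u : R') * z) * h1 + z * h2

end Normal

/-! ## The leaf -/

/-- **ETNODE.**  A local-étale extension of Artin–Schreier type of a node ring is a node ring. -/
theorem etaleNode : EtaleNodeStatement := by
  intro R R' _ _ _ _ _ _ _ _ _ _ 𝔭₁ 𝔭₂ π x y hnode hinj Y P hP hPY hP' hfrac hres
  haveI : Module.IsTorsionFree R R' := Module.isTorsionFree_iff_algebraMap_injective.2 hinj
  have hY : IsIntegral R Y := ⟨P, hP, by rwa [← aeval_def]⟩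
  have hN : IsNoetherianRing R' := isNoetherianRing_of_frac Y hY hfrac
  have hIC : IsIntegrallyClosed R' := isIntegrallyClosed_of_etale Y P hP hPY hP' hfrac
  have hmax : maximalIdeal R' ≤ (maximalIdeal R).map (algebraMap R R') :=
    maximalIdeal_le_map Y P hPY hP' hfrac hres
  refine ⟨hIC, hN, ?_⟩
  have h𝔭₁le : 𝔭₁ ≤ maximalIdeal R := hnode.sup_eq ▸ le_sup_left
  have h𝔭₂le : 𝔭₂ ≤ maximalIdeal R := hnode.sup_eq ▸ le_sup_right
  have hm₁ := maximalIdeal_le_sup_span hnode.prime₁.ne_top hnode.unif₁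
  have hm₂ := maximalIdeal_le_sup_span hnode.prime₂.ne_top hnode.unif₂
  have key : ∀ (𝔭 : Ideal R) (x : R), 𝔭.IsPrime → x ∉ 𝔭 → x ∈ maximalIdeal R →
      maximalIdeal R ≤ 𝔭 ⊔ Ideal.span {x} →
      (𝔭.map (algebraMap R R')).IsPrime ∧
        (∀ a : R', a ∉ 𝔭.map (algebraMap R R') →
          ∃ s : ℕ, OrdOn (𝔭.map (algebraMap R R')) (algebraMap R R' x) a s) ∧
        ¬ IsUnit (Ideal.Quotient.mk (𝔭.map (algebraMap R R')) (algebraMap R R' x)) ∧
        algebraMap R R' x ∉ 𝔭.map (algebraMap R R') := by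
    intro 𝔭 x h𝔭 hx hxm hm
    have h1 : 𝔭.map (algebraMap R R') ≤ maximalIdeal R' :=
      (Ideal.map_mono (le_maximalIdeal h𝔭.ne_top)).trans map_maximalIdeal_le'
    have h2 : algebraMap R R' x ∈ maximalIdeal R' :=
      map_maximalIdeal_le' (Ideal.mem_map_of_mem _ hxm)
    have h3 : maximalIdeal R' ≤ 𝔭.map (algebraMap R R') ⊔ Ideal.span {algebraMap R R' x} := by
      refine hmax.trans ((Ideal.map_mono hm).trans ?_)
      rw [Ideal.map_sup, Ideal.map_span, Set.image_singleton]
    have h4 : ∀ n : ℕ, (algebraMap R R' x) ^ n ∉ 𝔭.map (algebraMap R R') := by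
      intro n hn
      rw [← map_pow] at hn
      exact hx (h𝔭.mem_of_pow_mem n (mem_of_algebraMap_mem_map Y hY hfrac h𝔭 hn))
    obtain ⟨hp, hu, hnu⟩ := branch_of_principal h1 h2 h3 h4
    exact ⟨hp, hu, hnu, by simpa using h4 1⟩
  obtain ⟨hp₁, hu₁, hnu₁, hx₁⟩ := key 𝔭₁ x hnode.prime₁ hnode.hx₁ (h𝔭₂le hnode.hx) hm₁
  obtain ⟨hp₂, hu₂, hnu₂, hy₂⟩ := key 𝔭₂ y hnode.prime₂ hnode.hy₂ (h𝔭₁le hnode.hy) hm₂
  have hπ : π ∈ 𝔭₁ ⊓ 𝔭₂ := by rw [hnode.inf_eq]; exact Ideal.mem_span_singleton_self π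
  exact
    { prime₁ := hp₁
      prime₂ := hp₂
      inf_eq := le_antisymm (map_inf_map_le_span Y hY hfrac hnode.inf_eq)
        ((Ideal.span_singleton_le_iff_mem _).2
          ⟨Ideal.mem_map_of_mem _ hπ.1, Ideal.mem_map_of_mem _ hπ.2⟩)
      sup_eq := by
        rw [← Ideal.map_sup, hnode.sup_eq]
        exact le_antisymm map_maximalIdeal_le' hmax
      hx := Ideal.mem_map_of_mem _ hnode.hx
      hy := Ideal.mem_map_of_mem _ hnode.hy
      unif₁ := hu₁
      unif₂ := hu₂
      hx₁ := hx₁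
      hy₂ := hy₂
      nonunit₁ := hnu₁
      nonunit₂ := hnu₂ }

end Fermat.Agent.Ribet.H600

end
-- ===== PACK-END Ribet/H600/EtaleNode.lean

-- ===== PACK-BEGIN Ribet/H819/PerCover.lean
section


/-!
# Row 38, WALL-p, crux (I6), leaf INST-D: the cover field `F₁(h)` and its deck group (helper819)

`c : PerCtx K` (`PerField.lean`).  The function field of the cover as a Mathlib Kummer extension:

* `c.FcI = F₁⟮h⟯ : IntermediateField F₁ K((t))`, with underlying subfield `c.Fc`;
* `c.tauA : FcI ≃ₐ[F₁] FcI`, `tauA h = ζ h`; it is the restriction of `c.tau` (`coe_tau_eq_tauA`);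
* `finrank_FcI : [F₁(h) : F₁] = p`, `minpoly_h`, `irreducible_h`;
* `exists_pow_eq_tauA` : every `F₁`-automorphism of `F₁(h)` is a power of `tauA`
  (so `tauA` generates the deck group: SHEETS for one generator gives SHEETS for `tauA`);
* `tauA_pow : tauA ^ p = 1`.
-/

set_option autoImplicit false
set_option linter.unusedSectionVars false
set_option linter.style.haveILetI false
set_option maxHeartbeats 400000

noncomputable section

namespace Fermat.Agent.Ribet.H819

open ModularCurve Polynomial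

namespace PerCtx

variable {K : Type} [Field K] (c : PerCtx K)

/-- The function field of the cover, as an intermediate field over `F₁`. -/
def FcI : IntermediateField ↥c.F₁ (LaurentSeries K) :=
  IntermediateField.adjoin ↥c.F₁ ({c.h} : Set (LaurentSeries K))

theorem FcI_toSubfield : c.FcI.toSubfield = c.Fc := by
  rw [FcI, IntermediateField.adjoin_toSubfield, Fc]
  congr 2
  ext y
  constructor
  · rintro ⟨b, rfl⟩
    exact b.2
  · intro hy
    exact ⟨⟨y, hy⟩, rfl⟩

theorem mem_FcI_iff (z : LaurentSeries K) : z ∈ c.FcI ↔ z ∈ c.Fc := by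
  rw [← c.FcI_toSubfield]
  rfl

theorem h_mem_FcI : c.h ∈ c.FcI := IntermediateField.mem_adjoin_simple_self _ _

/-- `h` as an element of the cover field. -/
def hI : ↥c.FcI := IntermediateField.AdjoinSimple.gen ↥c.F₁ c.h

@[simp]
theorem coe_hI : ((c.hI : ↥c.FcI) : LaurentSeries K) = c.h := rfl

/-- `h ^ p` as an element of `F₁`. -/
def aF : ↥c.F₁ := ⟨c.h ^ c.p, c.hhp⟩

theorem h_ne_zero : c.h ≠ 0 := fun h0 => c.hhF (h0 ▸ c.F₁.zero_mem)

theorem irreducible_h : Irreducible (X ^ c.p - C c.aF : Polynomial ↥c.F₁) := by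
  apply X_pow_sub_C_irreducible_of_prime c.hp
  intro b hb
  have hb' : (b : LaurentSeries K) ^ c.p = c.h ^ c.p := by
    have := congrArg (fun z : ↥c.F₁ => (z : LaurentSeries K)) hb
    simpa [aF] using this
  have hb0 : (b : LaurentSeries K) ≠ 0 := by
    intro h0
    rw [h0, zero_pow c.hp.ne_zero] at hb'
    exact pow_ne_zero c.p c.h_ne_zero hb'.symm
  have h1 : (c.h / (b : LaurentSeries K)) ^ c.p = 1 := by
    rw [div_pow, hb', div_self (pow_ne_zero c.p c.h_ne_zero)]
  haveI : NeZero c.p := ⟨c.hp.ne_zero⟩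
  obtain ⟨i, -, hi⟩ := c.zC_isPrimitiveRoot.eq_pow_of_pow_eq_one h1
  apply c.hhF
  have : c.h = c.zC ^ i * (b : LaurentSeries K) := by
    rw [hi]
    field_simp
  rw [this]
  exact c.F₁.mul_mem (c.F₁.pow_mem c.zC_mem_F₁ i) b.2

theorem aeval_h : aeval c.h (X ^ c.p - C c.aF : Polynomial ↥c.F₁) = 0 := by
  rw [map_sub, map_pow, aeval_X, aeval_C]
  exact sub_self (c.h ^ c.p)

theorem isIntegral_h : IsIntegral ↥c.F₁ c.h :=
  ⟨X ^ c.p - C c.aF, monic_X_pow_sub_C _ c.hp.ne_zero, c.aeval_h⟩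

theorem minpoly_h : minpoly ↥c.F₁ c.h = X ^ c.p - C c.aF :=
  (minpoly.eq_of_irreducible_of_monic c.irreducible_h c.aeval_h
    (monic_X_pow_sub_C _ c.hp.ne_zero)).symm

theorem finrank_FcI : Module.finrank ↥c.F₁ ↥c.FcI = c.p := by
  rw [FcI, IntermediateField.adjoin.finrank c.isIntegral_h, c.minpoly_h,
    natDegree_X_pow_sub_C]

instance finiteDimensional_FcI : FiniteDimensional ↥c.F₁ ↥c.FcI :=
  IntermediateField.adjoin.finiteDimensional c.isIntegral_h

/-- **The deck transformation** of the cover field `F₁(h)` over `F₁`. -/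
def tauA : ↥c.FcI ≃ₐ[↥c.F₁] ↥c.FcI :=
  (exists_deck_h819 c.F₁ c.hp c.zC_isPrimitiveRoot c.zC_mem_F₁ c.hhp c.hhF).choose

theorem coe_tauA_hI : ((c.tauA c.hI : ↥c.FcI) : LaurentSeries K) = c.zC * c.h :=
  (exists_deck_h819 c.F₁ c.hp c.zC_isPrimitiveRoot c.zC_mem_F₁ c.hhp c.hhF).choose_spec

/-- `ζ` as an element of the cover field. -/
def zI : ↥c.FcI := algebraMap ↥c.F₁ ↥c.FcI ⟨c.zC, c.zC_mem_F₁⟩

@[simp]
theorem coe_zI : ((c.zI : ↥c.FcI) : LaurentSeries K) = c.zC := rfl

theorem tauA_hI : c.tauA c.hI = c.zI * c.hI := Subtype.ext c.coe_tauA_hI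

theorem tauA_zI : c.tauA c.zI = c.zI := c.tauA.commutes _

/-- Two `F₁`-algebra homomorphisms on the cover field which agree at `h` are equal. -/
theorem algHom_ext_FcI {A : Type*} [Ring A] [Algebra ↥c.F₁ A] (f g : ↥c.FcI →ₐ[↥c.F₁] A)
    (hh : f c.hI = g c.hI) : f = g :=
  (IntermediateField.adjoin.powerBasis c.isIntegral_h).algHom_ext hh

theorem tauA_pow_hI (j : ℕ) : (c.tauA ^ j) c.hI = c.zI ^ j * c.hI := by
  induction j with
  | zero => simp
  | succ j ih =>
    rw [pow_succ', AlgEquiv.mul_apply, ih, map_mul, map_pow, c.tauA_zI, c.tauA_hI]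
    ring

theorem zI_pow : c.zI ^ c.p = 1 := Subtype.ext (by
  show c.zC ^ c.p = 1
  exact c.zC_isPrimitiveRoot.pow_eq_one)

theorem tauA_pow : c.tauA ^ c.p = 1 := by
  have key : (c.tauA ^ c.p).toAlgHom = AlgHom.id ↥c.F₁ ↥c.FcI := by
    apply c.algHom_ext_FcI
    show (c.tauA ^ c.p) c.hI = c.hI
    rw [c.tauA_pow_hI, c.zI_pow, one_mul]
  exact AlgEquiv.ext fun z => congrArg (fun f : ↥c.FcI →ₐ[↥c.F₁] ↥c.FcI => f z) key

/-- **`tauA` generates the deck group.** -/
theorem exists_pow_eq_tauA (g : ↥c.FcI ≃ₐ[↥c.F₁] ↥c.FcI) :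
    ∃ j : ℕ, j < c.p ∧ g = c.tauA ^ j := by
  have hgp : (g c.hI) ^ c.p = c.hI ^ c.p := by
    have h1 : c.hI ^ c.p = algebraMap ↥c.F₁ ↥c.FcI c.aF := Subtype.ext rfl
    rw [← map_pow, h1, g.commutes]
  have hI0 : c.hI ≠ 0 := by
    intro h0
    exact c.h_ne_zero (congrArg Subtype.val h0)
  have h1 : (((g c.hI : ↥c.FcI) : LaurentSeries K) / c.h) ^ c.p = 1 := by
    have := congrArg (fun z : ↥c.FcI => (z : LaurentSeries K)) hgp
    simp only [IntermediateField.coe_pow, coe_hI] at this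
    rw [div_pow, this, div_self (pow_ne_zero c.p c.h_ne_zero)]
  haveI : NeZero c.p := ⟨c.hp.ne_zero⟩
  obtain ⟨j, hj, hi⟩ := c.zC_isPrimitiveRoot.eq_pow_of_pow_eq_one h1
  refine ⟨j, hj, ?_⟩
  have key : g.toAlgHom = (c.tauA ^ j).toAlgHom := by
    apply c.algHom_ext_FcI
    show g c.hI = (c.tauA ^ j) c.hI
    rw [c.tauA_pow_hI]
    apply Subtype.ext
    show ((g c.hI : ↥c.FcI) : LaurentSeries K) = c.zC ^ j * c.h
    rw [hi]
    field_simp [c.h_ne_zero]
  exact AlgEquiv.ext fun z => congrArg (fun f : ↥c.FcI →ₐ[↥c.F₁] ↥c.FcI => f z) key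

/-! ### Compatibility with the deck transformation `c.tau` of `L` -/

theorem mem_L_of_mem_FcI {z : LaurentSeries K} (hz : z ∈ c.FcI) : z ∈ c.L :=
  c.mem_L_of_mem_Fc ((c.mem_FcI_iff z).mp hz)

/-- **`c.tau` restricted to the cover field is `c.tauA`.** -/
theorem coe_tau_eq_tauA (z : LaurentSeries K) (hz : z ∈ c.FcI) :
    ((c.tau ⟨z, c.mem_L_of_mem_FcI hz⟩ : ↥c.L) : LaurentSeries K) =
      ((c.tauA ⟨z, hz⟩ : ↥c.FcI) : LaurentSeries K) := by
  induction hz using IntermediateField.adjoin_induction with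
  | mem x hx =>
    rw [Set.mem_singleton_iff] at hx
    subst hx
    exact c.coe_tau_hL.trans c.coe_tauA_hI.symm
  | algebraMap x =>
    have h1 : c.tau ⟨algebraMap ↥c.F₁ (LaurentSeries K) x,
        c.mem_L_of_mem_FcI (c.FcI.algebraMap_mem x)⟩ =
        ⟨algebraMap ↥c.F₁ (LaurentSeries K) x, c.mem_L_of_mem_FcI (c.FcI.algebraMap_mem x)⟩ :=
      c.tau_of_mem_F₁ _ x.2
    have h2 : c.tauA ⟨algebraMap ↥c.F₁ (LaurentSeries K) x, c.FcI.algebraMap_mem x⟩ =
        ⟨algebraMap ↥c.F₁ (LaurentSeries K) x, c.FcI.algebraMap_mem x⟩ :=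
      c.tauA.commutes x
    rw [h1, h2]
  | add x y hx hy ihx ihy =>
    have e1 : (⟨x + y, c.mem_L_of_mem_FcI (add_mem hx hy)⟩ : ↥c.L) =
        ⟨x, c.mem_L_of_mem_FcI hx⟩ + ⟨y, c.mem_L_of_mem_FcI hy⟩ := Subtype.ext rfl
    have e2 : (⟨x + y, add_mem hx hy⟩ : ↥c.FcI) = ⟨x, hx⟩ + ⟨y, hy⟩ := Subtype.ext rfl
    rw [e1, e2, map_add, map_add]
    show ((c.tau ⟨x, _⟩ : ↥c.L) : LaurentSeries K) + ((c.tau ⟨y, _⟩ : ↥c.L) : LaurentSeries K) =
      ((c.tauA ⟨x, hx⟩ : ↥c.FcI) : LaurentSeries K) + ((c.tauA ⟨y, hy⟩ : ↥c.FcI) : LaurentSeries K)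
    rw [ihx, ihy]
  | inv x hx ihx =>
    have e1 : (⟨x⁻¹, c.mem_L_of_mem_FcI (inv_mem hx)⟩ : ↥c.L) =
        (⟨x, c.mem_L_of_mem_FcI hx⟩ : ↥c.L)⁻¹ := Subtype.ext rfl
    have e2 : (⟨x⁻¹, inv_mem hx⟩ : ↥c.FcI) = (⟨x, hx⟩ : ↥c.FcI)⁻¹ := Subtype.ext rfl
    rw [e1, e2, map_inv₀, map_inv₀]
    show ((c.tau ⟨x, _⟩ : ↥c.L) : LaurentSeries K)⁻¹ =
      ((c.tauA ⟨x, hx⟩ : ↥c.FcI) : LaurentSeries K)⁻¹
    rw [ihx]
  | mul x y hx hy ihx ihy =>
    have e1 : (⟨x * y, c.mem_L_of_mem_FcI (mul_mem hx hy)⟩ : ↥c.L) =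
        ⟨x, c.mem_L_of_mem_FcI hx⟩ * ⟨y, c.mem_L_of_mem_FcI hy⟩ := Subtype.ext rfl
    have e2 : (⟨x * y, mul_mem hx hy⟩ : ↥c.FcI) = ⟨x, hx⟩ * ⟨y, hy⟩ := Subtype.ext rfl
    rw [e1, e2, map_mul, map_mul]
    show ((c.tau ⟨x, _⟩ : ↥c.L) : LaurentSeries K) * ((c.tau ⟨y, _⟩ : ↥c.L) : LaurentSeries K) =
      ((c.tauA ⟨x, hx⟩ : ↥c.FcI) : LaurentSeries K) * ((c.tauA ⟨y, hy⟩ : ↥c.FcI) : LaurentSeries K)
    rw [ihx, ihy]

end PerCtx

end Fermat.Agent.Ribet.H819

end

end
-- ===== PACK-END Ribet/H819/PerCover.lean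

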