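import Mathlib
import Fermat.Prelude.Def_AlgebraicCurve_Correspondence
import Fermat.Prelude.Def_AlgebraicCurve_Repartitions
import Fermat.Prelude.Def_ModularCurve_JqCoeff
import Fermat.Agent.Pack.S44C.G0E10L3
import Fermat.Agent.Pack.S44C.G0E5L2
import Fermat.Agent.Pack.S44C.G0E10L2
import Fermat.Agent.Pack.S44C.G0E10L1
import Fermat.Agent.Pack.S44C.G0E9L2
import Fermat.Agent.Pack.S44C.G0E7L1
import Fermat.Agent.Pack.S44C.G0E7L3
import Fermat.Agent.Pack.S44C.G0E9L1
import Fermat.Agent.Pack.S44C.G0E11L2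
import Fermat.Agent.Pack.Fast891

-- ===== PACK-BEGIN S29/H801/M1Abstract.lean
section
/-
S29 / M1 (helper801), part 2: two correspondences `T₁ = a₁_* b₁^*`, `T₂ = a₂_* b₂^*` on a function
field `F` commute, on divisors and on `Pic0`, as soon as there is a common cover `F₁₂`

            a₁,b₁                 A₂,B₂
      F  =========>  F₁      F₁ =========> F₁₂
            a₂,b₂                 A₁,B₁
      F  =========>  F₂      F₂ =========> F₁₂

with `A₂ ∘ a₁ = A₁ ∘ a₂`, `B₂ ∘ b₁ = B₁ ∘ b₂`, `B₁ ∘ a₂ = A₂ ∘ b₁`, `B₂ ∘ a₁ = A₁ ∘ b₂`, and the two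
mixed squares satisfy base change (helper818's `pullback_pushforward_eq`).
Then `T₁ T₂ = (A₂ a₁)_* (B₁ b₂)^* = (A₁ a₂)_* (B₂ b₁)^* = T₂ T₁`.
-/





set_option autoImplicit false
set_option linter.style.haveILetI false

noncomputable section

namespace Fermat.Agent.S29.H801

open AlgebraicCurve Fermat.Agent.S37.H818

variable {K F F₁ F₂ F₁₂ : Type*} [Field K] [Field F] [Field F₁] [Field F₂] [Field F₁₂]
  [Algebra K F] [Algebra K F₁] [Algebra K F₂] [Algebra K F₁₂]

theorem pushforwardAlong_congr {G G' : Type*} [Field G] [Field G'] [Algebra K G] [Algebra K G']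
    {φ φ' : G →ₐ[K] G'} (h : φ = φ')
    (hφ : φ.toRingHom.IsIntegral) (hφ' : φ'.toRingHom.IsIntegral) (D : Divisor K G') :
    Divisor.pushforwardAlong φ hφ D = Divisor.pushforwardAlong φ' hφ' D := by
  subst h
  rfl

section

variable (a₁ b₁ : F →ₐ[K] F₁) (a₂ b₂ : F →ₐ[K] F₂)
  (A₂ B₂ : F₁ →ₐ[K] F₁₂) (A₁ B₁ : F₂ →ₐ[K] F₁₂)
  (ha₁ : a₁.toRingHom.IsIntegral) (hb₁ : b₁.toRingHom.IsIntegral)
  (ha₂ : a₂.toRingHom.IsIntegral) (hb₂ : b₂.toRingHom.IsIntegral)
  (hA₂ : A₂.toRingHom.IsIntegral) (hB₂ : B₂.toRingHom.IsIntegral)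
  (hA₁ : A₁.toRingHom.IsIntegral) (hB₁ : B₁.toRingHom.IsIntegral)
  (hAA : A₂.comp a₁ = A₁.comp a₂) (hBB : B₂.comp b₁ = B₁.comp b₂)
  (hsq₁ : B₁.comp a₂ = A₂.comp b₁) (hsq₂ : B₂.comp a₁ = A₁.comp b₂)

variable [HasPrincipalDivisors K F₁] [HasPrincipalDivisors K F₂] [HasPrincipalDivisors K F₁₂]

include hsq₁ hB₁ hA₂ in
/-- `T₁ T₂ = (A₂ a₁)_* (B₁ b₂)^*`. -/
theorem correspondence_correspondence_eq
    (hfin₂ : FiniteAlong K a₂) (hN₂ : NormFormulaAlong K a₂ hfin₂)
    (hfinA₂ : FiniteAlong K A₂) (hNA₂ : NormFormulaAlong K A₂ hfinA₂)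
    (hnorm₁ : NormCompat a₂ b₁ A₂ B₁) (hLG₂ : HasLocalGenerators a₂ ha₂)
    (hAa : (A₂.comp a₁).toRingHom.IsIntegral) (hBb : (B₁.comp b₂).toRingHom.IsIntegral)
    (D : Divisor K F) :
    Divisor.correspondence b₁ a₁ hb₁ ha₁ (Divisor.correspondence b₂ a₂ hb₂ ha₂ D) =
      Divisor.pushforwardAlong (A₂.comp a₁) hAa (Divisor.pullbackAlong (B₁.comp b₂) hBb D) := by
  rw [Divisor.correspondence_apply, Divisor.correspondence_apply,
    pullback_pushforward_eq a₂ b₁ A₂ B₁ ha₂ hb₁ hA₂ hB₁ hsq₁ hfin₂ hN₂ hfinA₂ hNA₂ hnorm₁ hLG₂,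
    ← pushforwardAlong_comp a₁ A₂ ha₁ hA₂ hAa, ← pullbackAlong_comp b₂ B₁ hb₂ hB₁ hBb]

include hAA hBB hsq₁ hsq₂ hA₁ hA₂ hB₁ hB₂ in
/-- **Commutation of two correspondences on divisors.** -/
theorem correspondence_comm
    (hfin₁ : FiniteAlong K a₁) (hN₁ : NormFormulaAlong K a₁ hfin₁)
    (hfin₂ : FiniteAlong K a₂) (hN₂ : NormFormulaAlong K a₂ hfin₂)
    (hfinA₁ : FiniteAlong K A₁) (hNA₁ : NormFormulaAlong K A₁ hfinA₁)
    (hfinA₂ : FiniteAlong K A₂) (hNA₂ : NormFormulaAlong K A₂ hfinA₂)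
    (hnorm₁ : NormCompat a₂ b₁ A₂ B₁) (hnorm₂ : NormCompat a₁ b₂ A₁ B₂)
    (hLG₁ : HasLocalGenerators a₁ ha₁) (hLG₂ : HasLocalGenerators a₂ ha₂)
    (D : Divisor K F) :
    Divisor.correspondence b₁ a₁ hb₁ ha₁ (Divisor.correspondence b₂ a₂ hb₂ ha₂ D) =
      Divisor.correspondence b₂ a₂ hb₂ ha₂ (Divisor.correspondence b₁ a₁ hb₁ ha₁ D) := by
  have hAa : (A₂.comp a₁).toRingHom.IsIntegral := RingHom.IsIntegral.trans _ _ ha₁ hA₂
  have hAa' : (A₁.comp a₂).toRingHom.IsIntegral := RingHom.IsIntegral.trans _ _ ha₂ hA₁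
  have hBb : (B₁.comp b₂).toRingHom.IsIntegral := RingHom.IsIntegral.trans _ _ hb₂ hB₁
  have hBb' : (B₂.comp b₁).toRingHom.IsIntegral := RingHom.IsIntegral.trans _ _ hb₁ hB₂
  rw [correspondence_correspondence_eq a₁ b₁ a₂ b₂ A₂ B₁ ha₁ hb₁ ha₂ hb₂ hA₂ hB₁ hsq₁
      hfin₂ hN₂ hfinA₂ hNA₂ hnorm₁ hLG₂ hAa hBb D,
    correspondence_correspondence_eq a₂ b₂ a₁ b₁ A₁ B₂ ha₂ hb₂ ha₁ hb₁ hA₁ hB₂ hsq₂
      hfin₁ hN₁ hfinA₁ hNA₁ hnorm₂ hLG₁ hAa' hBb' D,
    pushforwardAlong_congr hAA hAa hAa', pullbackAlong_congr hBB.symm hBb hBb']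

include hAA hBB hsq₁ hsq₂ hA₁ hA₂ hB₁ hB₂ in
/-- **Commutation of two correspondences on `Pic0`.** -/
theorem pic0_correspondence_comm
    (hFI₁ : FundamentalIdentityAlong K b₁ hb₁) (hFI₂ : FundamentalIdentityAlong K b₂ hb₂)
    (hfin₁ : FiniteAlong K a₁) (hN₁ : NormFormulaAlong K a₁ hfin₁)
    (hfin₂ : FiniteAlong K a₂) (hN₂ : NormFormulaAlong K a₂ hfin₂)
    (hfinA₁ : FiniteAlong K A₁) (hNA₁ : NormFormulaAlong K A₁ hfinA₁)
    (hfinA₂ : FiniteAlong K A₂) (hNA₂ : NormFormulaAlong K A₂ hfinA₂)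
    (hnorm₁ : NormCompat a₂ b₁ A₂ B₁) (hnorm₂ : NormCompat a₁ b₂ A₁ B₂)
    (hLG₁ : HasLocalGenerators a₁ ha₁) (hLG₂ : HasLocalGenerators a₂ ha₂)
    (x : Pic0 K F) :
    Pic0.correspondence b₁ a₁ hb₁ ha₁ hFI₁ hfin₁ hN₁
        (Pic0.correspondence b₂ a₂ hb₂ ha₂ hFI₂ hfin₂ hN₂ x) =
      Pic0.correspondence b₂ a₂ hb₂ ha₂ hFI₂ hfin₂ hN₂
        (Pic0.correspondence b₁ a₁ hb₁ ha₁ hFI₁ hfin₁ hN₁ x) := by
  obtain ⟨D, rfl⟩ := Pic0.mk_surjective x
  rw [Pic0.correspondence_mk, Pic0.correspondence_mk, Pic0.correspondence_mk,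
    Pic0.correspondence_mk]
  congr 1
  apply Subtype.ext
  simp only [Pic0.coe_degZeroCorrespondence]
  exact correspondence_comm a₁ b₁ a₂ b₂ A₂ B₂ A₁ B₁ ha₁ hb₁ ha₂ hb₂ hA₂ hB₂ hA₁ hB₁ hAA hBB
    hsq₁ hsq₂ hfin₁ hN₁ hfin₂ hN₂ hfinA₁ hNA₁ hfinA₂ hNA₂ hnorm₁ hnorm₂ hLG₁ hLG₂ D

end

end Fermat.Agent.S29.H801

end

end
-- ===== PACK-END S29/H801/M1Abstract.lean

-- ===== PACK-BEGIN S24/Deg/H648D5.lean
section


/-!
# S24 / M6-AN (helper648): the polynomiality principle (D5) in `ExpGrowth` form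

A holomorphic `SL₂(ℤ)`-invariant function on `ℍ` of at most exponential growth at `i∞` is a
polynomial in `j = E₄³/Δ`.  (The function-level induction follows helper505's
`levelOne_structure`, re-proved here from Mathlib only.)
-/

set_option autoImplicit false

noncomputable section

open UpperHalfPlane ModularGroup CongruenceSubgroup ModularForm Filter Asymptotics
  SlashInvariantForm SlashInvariantFormClass ModularFormClass CuspFormClass
open scoped MatrixGroups Manifold Modular Real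

namespace Fermat.Agent.S24.H648

/-- `E₄ ^ n` as a modular form of weight `k = 4 n`. -/
def E4pow (n : ℕ) (k : ℤ) (hk : (n : ℤ) * 4 = k) : ModularForm 𝒮ℒ k :=
  ModularForm.mcast hk (E₄.pow n)

theorem E4pow_apply (n : ℕ) (k : ℤ) (hk : (n : ℤ) * 4 = k) (z : ℍ) :
    E4pow n k hk z = E₄ z ^ n := by
  simp [E4pow]

theorem qExpansion_E4pow_coeff_zero (n : ℕ) (k : ℤ) (hk : (n : ℤ) * 4 = k) :
    (qExpansion 1 (E4pow n k hk)).coeff 0 = 1 := by
  have h4 : (qExpansion 1 E₄).coeff 0 = 1 := EisensteinSeries.E_qExpansion_coeff_zero (by norm_num) (by decide)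
  rw [E4pow, ModularForm.qExpansion_mcast,
    ModularForm.qExpansion_pow one_pos one_mem_strictPeriods_SL,
    PowerSeries.coeff_zero_eq_constantCoeff, map_pow, ← PowerSeries.coeff_zero_eq_constantCoeff,
    h4, one_pow]

/-- Level one structure theorem, function level: a modular form of weight `12 m` is
`Δ^m · P(j)` with `deg P ≤ m`. -/
theorem levelOne_poly (m : ℕ) : ∀ (k : ℤ) (_ : k = 12 * m) (F : ModularForm 𝒮ℒ k),
    ∃ P : Polynomial ℂ, P.natDegree ≤ m ∧
      ∀ z : ℍ, F z = ModularForm.discriminant z ^ m * P.eval (jFun z) := by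
  induction m with
  | zero =>
    intro k hk F
    simp only [Nat.cast_zero, mul_zero] at hk
    subst hk
    obtain ⟨c, hc⟩ := levelOne_weight_zero_const F
    exact ⟨Polynomial.C c, by simp, fun z => by simp [hc]⟩
  | succ m ih =>
    intro k hk F
    set c₀ : ℂ := (qExpansion 1 F).coeff 0 with hc₀
    have hk4 : ((3 * (m + 1) : ℕ) : ℤ) * 4 = k := by rw [hk]; push_cast; ring
    set G : ModularForm 𝒮ℒ k := F - c₀ • E4pow (3 * (m + 1)) k hk4 with hG
    have hGq : qExpansion 1 G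
        = qExpansion 1 F - c₀ • qExpansion 1 (E4pow (3 * (m + 1)) k hk4) := by
      have h1 : (G : ℍ → ℂ) = ⇑F - ⇑(c₀ • E4pow (3 * (m + 1)) k hk4) := rfl
      rw [h1, ModularForm.qExpansion_sub one_pos one_mem_strictPeriods_SL]
      have h2 : (⇑(c₀ • E4pow (3 * (m + 1)) k hk4) : ℍ → ℂ)
          = c₀ • ⇑(E4pow (3 * (m + 1)) k hk4) := rfl
      rw [h2, ModularForm.qExpansion_smul one_pos one_mem_strictPeriods_SL]
    have hG0 : (qExpansion 1 G).coeff 0 = 0 := by
      rw [hGq, map_sub, PowerSeries.coeff_smul, qExpansion_E4pow_coeff_zero]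
      simp [hc₀]
    set H : ModularForm 𝒮ℒ (k - 12) := CuspForm.discriminantEquiv (G.toCuspForm hG0) with hH
    obtain ⟨P, hPdeg, hPval⟩ := ih (k - 12) (by rw [hk]; push_cast; ring) H
    have hGH : ∀ z, G z = ModularForm.discriminant z * H z := fun z => by
      rw [hH, discriminant_mul_discriminantEquiv_apply]; rfl
    have hFG : ∀ z, F z = c₀ * E₄ z ^ (3 * (m + 1)) + G z := fun z => by
      have : G z = F z - c₀ * E4pow (3 * (m + 1)) k hk4 z := rfl
      rw [this, E4pow_apply]; ring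
    refine ⟨Polynomial.C c₀ * Polynomial.X ^ (m + 1) + P, ?_, ?_⟩
    · refine (Polynomial.natDegree_add_le _ _).trans (max_le ?_ (hPdeg.trans (Nat.le_succ m)))
      exact Polynomial.natDegree_C_mul_X_pow_le _ _
    · intro z
      rw [hFG, hGH, hPval, Polynomial.eval_add, Polynomial.eval_mul, Polynomial.eval_C,
        Polynomial.eval_pow, Polynomial.eval_X, jFun_def]
      have hΔ := discriminant_ne_zero z
      have hJ : ModularForm.discriminant z * (E₄ z ^ 3 / ModularForm.discriminant z) = E₄ z ^ 3 :=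
        mul_div_cancel₀ _ hΔ
      have : ModularForm.discriminant z ^ (m + 1) *
          (c₀ * (E₄ z ^ 3 / ModularForm.discriminant z) ^ (m + 1) +
            Polynomial.eval (E₄ z ^ 3 / ModularForm.discriminant z) P) =
          c₀ * (ModularForm.discriminant z * (E₄ z ^ 3 / ModularForm.discriminant z)) ^ (m + 1) +
          ModularForm.discriminant z * (ModularForm.discriminant z ^ m *
            Polynomial.eval (E₄ z ^ 3 / ModularForm.discriminant z) P) := by ring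
      rw [this, hJ, pow_mul]


lemma discriminant_smul (γ : SL(2, ℤ)) (τ : ℍ) :
    ModularForm.discriminant (γ • τ) = denom γ τ ^ (12 : ℤ) * ModularForm.discriminant τ := by
  have : SlashInvariantFormClass (CuspForm 𝒮ℒ 12) Γ(1) 12 :=
    Gamma_one_coe_eq_SL ▸ inferInstance
  exact SlashInvariantForm.slash_action_eqn_SL'' CuspForm.discriminant (mem_Gamma_one γ) τ

lemma discriminant_pow_mul_slash (m : ℕ) (F : ℍ → ℂ)
    (inv : ∀ (γ : SL(2, ℤ)) (τ : ℍ), F (γ • τ) = F τ) (γ : SL(2, ℤ)) :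
    (fun z => ModularForm.discriminant z ^ m * F z) ∣[(12 * m : ℤ)] γ
      = fun z => ModularForm.discriminant z ^ m * F z := by
  funext z
  rw [ModularForm.SL_slash_apply]
  rw [inv, discriminant_smul, mul_pow, ← zpow_natCast (denom γ z ^ (12 : ℤ)) m, ← zpow_mul]
  have hd : denom γ z ≠ 0 := denom_ne_zero _ z
  have : denom γ z ^ ((12 : ℤ) * m) * ModularForm.discriminant z ^ m * F z
      * denom γ z ^ (-(12 * (m : ℤ)))
      = (denom γ z ^ ((12 : ℤ) * m) * denom γ z ^ (-(12 * (m : ℤ))))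
        * (ModularForm.discriminant z ^ m * F z) := by ring
  rw [this, ← zpow_add₀ hd]
  simp

/-- `Δ^m · F` as a modular form of weight `12 m`. -/
def mfOfInvariant (m : ℕ) (F : ℍ → ℂ) (hol : MDifferentiable 𝓘(ℂ) 𝓘(ℂ) F)
    (inv : ∀ (γ : SL(2, ℤ)) (τ : ℍ), F (γ • τ) = F τ)
    (bdd : IsBoundedAtImInfty (fun z => ModularForm.discriminant z ^ m * F z)) :
    ModularForm 𝒮ℒ (12 * m) where
  toFun := fun z => ModularForm.discriminant z ^ m * F z
  slash_action_eq' := fun _ ⟨γ, hγ⟩ => hγ ▸ discriminant_pow_mul_slash m F inv γ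
  holo' := by
    have hΔ : MDifferentiable 𝓘(ℂ) 𝓘(ℂ) (ModularForm.discriminant : ℍ → ℂ) :=
      ModularFormClass.holo CuspForm.discriminant
    exact (hΔ.pow m).mul hol
  bdd_at_cusps' {c} hc := by
    rw [Subgroup.IsArithmetic.isCusp_iff_isCusp_SL2Z] at hc
    rw [OnePoint.isBoundedAt_iff_forall_SL2Z hc]
    intro γ _
    rw [discriminant_pow_mul_slash m F inv γ]
    exact bdd

lemma mfOfInvariant_apply (m : ℕ) (F : ℍ → ℂ) (hol : MDifferentiable 𝓘(ℂ) 𝓘(ℂ) F)
    (inv : ∀ (γ : SL(2, ℤ)) (τ : ℍ), F (γ • τ) = F τ)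
    (bdd : IsBoundedAtImInfty (fun z => ModularForm.discriminant z ^ m * F z)) (z : ℍ) :
    mfOfInvariant m F hol inv bdd z = ModularForm.discriminant z ^ m * F z := rfl

/-- Polynomiality principle, `IsBoundedAtImInfty` form. -/
theorem exists_polynomial_of_isBoundedAtImInfty (m : ℕ) (F : ℍ → ℂ)
    (hol : MDifferentiable 𝓘(ℂ) 𝓘(ℂ) F)
    (inv : ∀ (γ : SL(2, ℤ)) (τ : ℍ), F (γ • τ) = F τ)
    (bdd : IsBoundedAtImInfty (fun z => ModularForm.discriminant z ^ m * F z)) :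
    ∃ p : Polynomial ℂ, p.natDegree ≤ m ∧ ∀ τ, F τ = p.eval (jFun τ) := by
  obtain ⟨P, hdeg, hP⟩ := levelOne_poly m (12 * m) rfl (mfOfInvariant m F hol inv bdd)
  refine ⟨P, hdeg, fun τ => ?_⟩
  have h := hP τ
  rw [mfOfInvariant_apply] at h
  exact mul_left_cancel₀ (pow_ne_zero m (discriminant_ne_zero τ)) h

lemma ExpGrowth.isBigO {F : ℍ → ℂ} {C : ℝ} {m : ℕ}
    (h : ∀ τ : ℍ, 1 ≤ τ.im → ‖F τ‖ ≤ C * Real.exp (2 * π * m * τ.im)) :
    F =O[atImInfty] fun τ : ℍ => Real.exp (2 * π * m * τ.im) := by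
  refine IsBigO.of_bound C ?_
  rw [atImInfty, eventually_comap, eventually_atTop]
  refine ⟨1, fun y hy τ hτ => ?_⟩
  rw [Real.norm_of_nonneg (Real.exp_pos _).le]
  exact h τ (hτ ▸ hy)

/-- **Polynomiality principle (D5), `ExpGrowth` form.** -/
theorem exists_polynomial_of_expGrowth (F : ℍ → ℂ)
    (hol : MDifferentiable 𝓘(ℂ) 𝓘(ℂ) F)
    (inv : ∀ (γ : SL(2, ℤ)) (τ : ℍ), F (γ • τ) = F τ) (gr : ExpGrowth F) :
    ∃ p : Polynomial ℂ, ∀ τ, F τ = p.eval (jFun τ) := by
  obtain ⟨C, m, h⟩ := gr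
  have hF := ExpGrowth.isBigO h
  have hΔ : (ModularForm.discriminant : ℍ → ℂ)
      =O[atImInfty] fun τ : ℍ => Real.exp (-2 * π * τ.im / 1) :=
    CuspFormClass.exp_decay_atImInfty CuspForm.discriminant one_pos one_mem_strictPeriods_SL
  have hprod := (hΔ.pow m).mul hF
  have bdd : IsBoundedAtImInfty (fun z => ModularForm.discriminant z ^ m * F z) := by
    refine hprod.congr_right fun τ => ?_
    rw [← Real.exp_nat_mul, ← Real.exp_add]
    have : (m : ℝ) * (-2 * π * τ.im / 1) + 2 * π * m * τ.im = 0 := by ring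
    rw [this, Real.exp_zero]
    rfl
  obtain ⟨p, -, hp⟩ := exists_polynomial_of_isBoundedAtImInfty m F hol inv bdd
  exact ⟨p, hp⟩

section final

variable {N : ℕ} [Fintype (SL(2, ℤ) ⧸ Gamma0 N)]

/-- **M6-AN, unconditional.**  For every good function `f` of level `N` the conjugate product
`∏ₓ (Y - f ∘ gₓ⁻¹)` has coefficients in `ℂ[j]`. -/
theorem exists_charPoly_jFun {f : ℍ → ℂ} (hf : f ∈ goodRing N) :
    ∃ P : Polynomial (Polynomial ℂ), P.Monic ∧
      P.natDegree = Fintype.card (SL(2, ℤ) ⧸ Gamma0 N) ∧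
      ∀ τ : ℍ, P.map (Polynomial.evalRingHom (jFun τ)) = charPolyAt N f τ :=
  exists_charPoly jFun exists_polynomial_of_expGrowth hf

/-- **Function-level `HYP(n)`, unconditional.** -/
theorem exists_charPoly_jFun_eval_eq_zero {f : ℍ → ℂ} (hf : f ∈ goodRing N) :
    ∃ P : Polynomial (Polynomial ℂ), P.Monic ∧
      P.natDegree = Fintype.card (SL(2, ℤ) ⧸ Gamma0 N) ∧
      ∀ τ : ℍ, (P.map (Polynomial.evalRingHom (jFun τ))).eval (f τ) = 0 :=
  exists_charPoly_eval_eq_zero jFun exists_polynomial_of_expGrowth hf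

end final

end Fermat.Agent.S24.H648

end
end
-- ===== PACK-END S24/Deg/H648D5.lean

-- ===== PACK-BEGIN Lib/RR/H623/WeakApprox.lean
section




/-!
# Shared library RR (helper623): the weak approximation theorem for places

Prelude language (`AlgebraicCurve.Place`).  For finitely many places `v ∈ s`, targets `x v : F`
and orders `r v : ℤ` there is `z : F` with `ord_v (z - x v) = r v` for all `v ∈ s`
(Stichtenoth, Thm. 1.3.1).  No hypothesis on `K`, `F`.

* `Big v r f` : `f = 0 ∨ r ≤ ord_v f` with its calculus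
* `exists_near_one`, `exists_approx`, `weak_approximation`, `weak_approximation_ge`
-/

set_option autoImplicit false

noncomputable section

namespace Fermat.Agent.Lib.RR.H623

open AlgebraicCurve Fermat.Agent.S24.H117

variable {K F : Type*} [Field K] [Field F] [Algebra K F]

/-- `f = 0` or `r ≤ ord_v f`. -/
def Big (v : Place K F) (r : ℤ) (f : F) : Prop := f = 0 ∨ r ≤ v.ord f

namespace Big

variable {v : Place K F} {r s : ℤ} {f g : F}

theorem zero (v : Place K F) (r : ℤ) : Big v r (0 : F) := Or.inl rfl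

theorem of_le (hf : r ≤ v.ord f) : Big v r f := Or.inr hf

theorem le_ord (h : Big v r f) (hf : f ≠ 0) : r ≤ v.ord f := h.resolve_left hf

theorem mono (h : Big v r f) (hsr : s ≤ r) : Big v s f := by
  rcases h with h | h
  · exact Or.inl h
  · exact Or.inr (hsr.trans h)

theorem neg (h : Big v r f) : Big v r (-f) := by
  rcases h with h | h
  · exact Or.inl (by rw [h, neg_zero])
  · exact Or.inr (by rwa [_root_.Fermat.Agent.S24.H117.ord_neg])

theorem add (hf : Big v r f) (hg : Big v r g) : Big v r (f + g) := by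
  rcases eq_or_ne (f + g) 0 with h0 | h0
  · exact Or.inl h0
  rcases hf with rfl | hf
  · rwa [zero_add]
  rcases hg with rfl | hg
  · rw [add_zero]; exact Or.inr hf
  exact Or.inr ((le_min hf hg).trans (ord_add_ge v h0))

theorem sub (hf : Big v r f) (hg : Big v r g) : Big v r (f - g) := by
  rw [sub_eq_add_neg]; exact hf.add hg.neg

theorem mul (hf : Big v r f) (hg : Big v s g) : Big v (r + s) (f * g) := by
  rcases hf with rfl | hf
  · exact Or.inl (zero_mul _)
  rcases hg with rfl | hg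
  · exact Or.inl (mul_zero _)
  rcases eq_or_ne f 0 with rfl | hf0
  · exact Or.inl (zero_mul _)
  rcases eq_or_ne g 0 with rfl | hg0
  · exact Or.inl (mul_zero _)
  refine Or.inr ?_
  rw [v.ord_mul hf0 hg0]
  omega

theorem sum {ι : Type*} (t : Finset ι) (φ : ι → F) (h : ∀ i ∈ t, Big v r (φ i)) :
    Big v r (∑ i ∈ t, φ i) := by
  classical
  induction t using Finset.induction_on with
  | empty => simp [zero]
  | insert a t ha ih =>
    rw [Finset.sum_insert ha]
    exact (h a (Finset.mem_insert_self _ _)).add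
      (ih fun i hi => h i (Finset.mem_insert_of_mem hi))

theorem self (v : Place K F) (f : F) : Big v (v.ord f) f := Or.inr le_rfl

end Big

theorem big_iff_adicValuation_le {v : Place K F} {r : ℤ} {f : F} :
    Big v r f ↔ v.adicValuation f ≤ WithZero.exp (-r) := by
  rw [Place.adicValuation_le_exp_iff, neg_neg]
  rfl

/-- **Step 2**: an element close to `1` at `v` and close to `0` at the places of `s`. -/
theorem exists_near_one (v : Place K F) (s : Finset (Place K F)) (hv : v ∉ s) (r : ℤ) :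
    ∃ w : F, Big v r (w - 1) ∧ ∀ w' ∈ s, Big w' r w := by
  obtain ⟨u, hu1, hu2⟩ := exists_ord_pos_forall_neg v s hv
  obtain ⟨n, hn1, hnr⟩ : ∃ n : ℕ, 1 ≤ n ∧ r ≤ (n : ℤ) :=
    ⟨r.toNat + 1, by omega, by have := Int.self_le_toNat r; push_cast; omega⟩
  have hn1' : (1 : ℤ) ≤ n := by exact_mod_cast hn1
  have hu0 : u ≠ 0 := _root_.Fermat.Agent.S24.H117.ne_zero_of_ord_ne_zero v hu1.ne'
  set t : F := u ^ n with ht
  have ht0 : t ≠ 0 := pow_ne_zero _ hu0
  have hvt : (n : ℤ) ≤ v.ord t := by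
    rw [ht, _root_.Fermat.Agent.S24.H117.ord_pow]
    nlinarith
  have h1t : v.ord (1 + t) = 0 := by
    have := _root_.Fermat.Agent.S24.H117.ord_add_eq_of_lt v (f := (1 : F)) (g := t) (by rw [v.ord_one]; omega) one_ne_zero
    rw [this, v.ord_one]
  have hne : (1 : F) + t ≠ 0 := by
    intro h0
    have ht1 : t = -1 := eq_neg_of_add_eq_zero_right h0
    have : v.ord t = 0 := by rw [ht1, _root_.Fermat.Agent.S24.H117.ord_neg, v.ord_one]
    omega
  refine ⟨(1 + t)⁻¹, ?_, ?_⟩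
  · have hw : (1 + t)⁻¹ - 1 = -(t / (1 + t)) := by
      field_simp
      ring
    rw [hw]
    apply Big.neg
    apply Big.of_le
    rw [ord_div v ht0 hne, h1t]
    omega
  · intro w' hw'
    have hw't : w'.ord t ≤ -(n : ℤ) := by
      rw [ht, _root_.Fermat.Agent.S24.H117.ord_pow]
      have := hu2 w' hw'
      nlinarith
    have h1 : w'.ord (t + 1) = w'.ord t :=
      _root_.Fermat.Agent.S24.H117.ord_add_eq_of_lt w' (by rw [w'.ord_one]; omega) ht0
    apply Big.of_le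
    rw [w'.ord_inv, add_comm, h1]
    omega

/-- **Step 3**: simultaneous approximation of arbitrary targets to arbitrary precision. -/
theorem exists_approx (s : Finset (Place K F)) (y : Place K F → F) (r : ℤ) :
    ∃ z : F, ∀ v ∈ s, Big v r (z - y v) := by
  classical
  -- a uniform lower bound for the orders of the targets
  set M : ℤ := ∑ v ∈ s, ∑ v' ∈ s, |v.ord (y v')| with hM
  have hMbound : ∀ v ∈ s, ∀ v' ∈ s, Big v (-M) (y v') := by
    intro v hv v' hv'
    apply Big.of_le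
    have h1 : |v.ord (y v')| ≤ ∑ v'' ∈ s, |v.ord (y v'')| :=
      Finset.single_le_sum (f := fun v'' => |v.ord (y v'')|) (fun _ _ => abs_nonneg _) hv'
    have h2 : ∑ v'' ∈ s, |v.ord (y v'')| ≤ M :=
      Finset.single_le_sum (f := fun v₀ : Place K F => ∑ v'' ∈ s, |v₀.ord (y v'')|)
        (fun _ _ => Finset.sum_nonneg fun _ _ => abs_nonneg _) hv
    have h3 := neg_abs_le (v.ord (y v'))
    omega
  have hex : ∀ v : Place K F, ∃ w : F, Big v (r + M) (w - 1) ∧
      ∀ w' ∈ s.erase v, Big w' (r + M) w :=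
    fun v => exists_near_one v (s.erase v) (Finset.notMem_erase v s) (r + M)
  choose w hw1 hw2 using hex
  refine ⟨∑ v' ∈ s, y v' * w v', fun v hv => ?_⟩
  have hsplit : ∑ v' ∈ s, y v' * w v' - y v =
      y v * (w v - 1) + ∑ v' ∈ s.erase v, y v' * w v' := by
    rw [← Finset.add_sum_erase s _ hv]
    ring
  rw [hsplit]
  refine Big.add ?_ (Big.sum _ _ fun v' hv' => ?_)
  · have := (hMbound v hv v hv).mul (hw1 v)
    exact this.mono (by omega)
  · have hv's : v' ∈ s := Finset.mem_of_mem_erase hv'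
    have hvv' : v ∈ s.erase v' :=
      Finset.mem_erase.mpr ⟨(Finset.ne_of_mem_erase hv').symm, hv⟩
    have := (hMbound v hv v' hv's).mul (hw2 v' v hvv')
    exact this.mono (by omega)

theorem exists_ord_eq' (v : Place K F) (n : ℤ) : ∃ c : F, c ≠ 0 ∧ v.ord c = n := by
  obtain ⟨π, hπ0, hπ1⟩ := _root_.Fermat.Agent.S24.H117.exists_ord_eq_one v
  refine ⟨π ^ n, zpow_ne_zero _ hπ0, ?_⟩
  rw [v.ord_zpow, hπ1, mul_one]

/-- **Weak approximation theorem**, exact orders. -/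
theorem weak_approximation (s : Finset (Place K F)) (x : Place K F → F) (r : Place K F → ℤ) :
    ∃ z : F, ∀ v ∈ s, z - x v ≠ 0 ∧ v.ord (z - x v) = r v := by
  classical
  choose c hc0 hc using fun v : Place K F => exists_ord_eq' v (r v)
  set R : ℤ := ∑ v ∈ s, |r v| + 1 with hR
  have hRbound : ∀ v ∈ s, r v < R := by
    intro v hv
    have h1 : |r v| ≤ ∑ v' ∈ s, |r v'| :=
      Finset.single_le_sum (f := fun v' => |r v'|) (fun _ _ => abs_nonneg _) hv
    have h2 := le_abs_self (r v)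
    omega
  obtain ⟨z, hz⟩ := exists_approx s (fun v => x v + c v) R
  refine ⟨z, fun v hv => ?_⟩
  have hdecomp : z - x v = c v + (z - (x v + c v)) := by ring
  have hlt : ∀ e : F, Big v R e → v.ord (c v + e) = v.ord (c v) := by
    intro e he
    rcases eq_or_ne e 0 with rfl | he0
    · rw [add_zero]
    · exact _root_.Fermat.Agent.S24.H117.ord_add_eq_of_lt v (by have := he.le_ord he0; have := hRbound v hv; rw [hc v]; omega)
        (hc0 v)
  have hord : v.ord (z - x v) = r v := by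
    rw [hdecomp, hlt _ (hz v hv), hc v]
  refine ⟨?_, hord⟩
  intro h0
  rcases hz v hv with h | h
  · have : z - x v = c v := by rw [hdecomp, h, add_zero]
    exact hc0 v (this ▸ h0)
  · have h1 : z - (x v + c v) = -(c v) := by
      have : z - (x v + c v) = (z - x v) - c v := by ring
      rw [this, h0, zero_sub]
    rw [h1, _root_.Fermat.Agent.S24.H117.ord_neg, hc v] at h
    have := hRbound v hv
    omega

/-- **Weak approximation theorem**, `≥` form. -/
theorem weak_approximation_ge (s : Finset (Place K F)) (x : Place K F → F)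
    (r : Place K F → ℤ) : ∃ z : F, ∀ v ∈ s, Big v (r v) (z - x v) := by
  obtain ⟨z, hz⟩ := weak_approximation s x r
  exact ⟨z, fun v hv => Big.of_le (hz v hv).2.ge⟩

end Fermat.Agent.Lib.RR.H623

end
end
-- ===== PACK-END Lib/RR/H623/WeakApprox.lean

-- ===== PACK-BEGIN S28/H685/JFun.lean
section





/-!
# S28 helper (helper685): the analytic `j`-function and its formal `q`-expansion

* `jFun τ = E₄ τ ^ 3 / Δ τ`, holomorphic on `ℍ`, invariant under `SL(2, ℤ)`.
* `hasQLaurent_jFun` : `jFun` is the sum of the Prelude's formal series `ModularCurve.jqModC ℂ`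
  (the image of `ModularCurve.jq` in `ℂ((q))`).
* `exists_polynomial_of_S_invariant` : **the `j`-polynomial principle**.
* `exists_polynomial_of_S_invariant_of_mem` : integrality of the polynomial.
-/

set_option autoImplicit false

namespace Fermat.Agent.S28.H685

open UpperHalfPlane Function Complex Filter HahnSeries ModularForm SlashInvariantForm
  ModularFormClass EisensteinSeries
open scoped Topology Manifold MatrixGroups

noncomputable section

local notation "𝕢" => Periodic.qParam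

/-- The analytic `j`-function (normalised as `q⁻¹ + 744 + ⋯`). -/
def jFun (τ : ℍ) : ℂ := E₄ τ ^ 3 / ModularForm.discriminant τ

/-- The formal `q`-expansion of `E₄`, with complex coefficients. -/
def eisenstein4C : PowerSeries ℂ := ModularCurve.eisenstein4.map (Int.castRingHom ℂ)

theorem qExpansion_E4_eq : qExpansion 1 E₄ = eisenstein4C := by
  ext m
  rw [E_qExpansion_coeff _ ⟨2, rfl⟩]
  simp only [eisenstein4C, ModularCurve.eisenstein4, PowerSeries.coeff_map, PowerSeries.coeff_mk]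
  split_ifs with h
  · simp
  · rw [show bernoulli 4 = -1 / 30 by decide +kernel, ArithmeticFunction.sigma_apply]
    simp only [eq_intCast]
    push_cast
    norm_num

theorem hasQExp_E4 : HasQExp 1 E₄ eisenstein4C := by
  intro τ
  have := ModularForm.hasSum_qExpansion E₄ one_pos one_mem_strictPeriods_SL τ
  rwa [qExpansion_E4_eq] at this

theorem discriminant_eq_etaC (τ : ℍ) :
    ModularForm.discriminant τ = 𝕢 1 τ * etaC (𝕢 1 τ) ^ 24 := by
  rw [discriminant_eq_q_prod]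
  congr 1
  have hq : ‖𝕢 1 (τ : ℂ)‖ < 1 := Periodic.norm_qParam_lt_one one_pos τ.im_pos
  rw [etaC, ← (multipliable_one_sub_pow hq).tprod_pow]

theorem etaC_qParam_ne_zero (τ : ℍ) : etaC (𝕢 1 τ) ≠ 0 := by
  intro h0
  have := discriminant_ne_zero τ
  rw [discriminant_eq_etaC, h0] at this
  simp at this

/-- The formal series `η^24 / q`, with complex coefficients. -/
def dedekindEtaUnitC : PowerSeries ℂ := ModularCurve.dedekindEtaUnit.map (Int.castRingHom ℂ)

theorem dedekindEtaUnitC_eq : dedekindEtaUnitC = etaProdC ^ 24 := by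
  rw [dedekindEtaUnitC, ModularCurve.dedekindEtaUnit, map_pow, etaProdC]

theorem hasQExp_dedekindEtaUnitC : HasQExp 1 (fun τ => etaC (𝕢 1 τ) ^ 24) dedekindEtaUnitC := by
  rw [dedekindEtaUnitC_eq]
  exact hasQExp_etaC.pow 24

theorem dedekindEtaUnitC_inv :
    dedekindEtaUnitC⁻¹ = ModularCurve.dedekindEtaUnitInv.map (Int.castRingHom ℂ) := by
  have h0 : PowerSeries.constantCoeff dedekindEtaUnitC ≠ 0 := by
    rw [dedekindEtaUnitC, ← PowerSeries.coeff_zero_eq_constantCoeff, PowerSeries.coeff_map,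
      PowerSeries.coeff_zero_eq_constantCoeff, ModularCurve.constantCoeff_dedekindEtaUnit]
    simp
  symm
  rw [PowerSeries.eq_inv_iff_mul_eq_one h0, dedekindEtaUnitC, ← map_mul, mul_comm,
    ModularCurve.dedekindEtaUnit_mul_inv, map_one]

/-- The formal numerator of `j`, with complex coefficients. -/
def jNumC : PowerSeries ℂ := ModularCurve.jNum.map (Int.castRingHom ℂ)

theorem jNumC_eq : jNumC = eisenstein4C ^ 3 * dedekindEtaUnitC⁻¹ := by
  rw [jNumC, ModularCurve.jNum, map_mul, map_pow, dedekindEtaUnitC_inv, eisenstein4C]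

theorem constantCoeff_jNumC : PowerSeries.constantCoeff jNumC = 1 := by
  rw [jNumC, ← PowerSeries.coeff_zero_eq_constantCoeff, PowerSeries.coeff_map,
    PowerSeries.coeff_zero_eq_constantCoeff, ModularCurve.constantCoeff_jNum]
  simp

theorem hasQExp_jNumC : HasQExp 1 (fun τ => E₄ τ ^ 3 * (etaC (𝕢 1 τ) ^ 24)⁻¹) jNumC := by
  rw [jNumC_eq]
  refine (hasQExp_E4.pow 3).mul (hasQExp_dedekindEtaUnitC.inv one_pos
    (fun τ => pow_ne_zero _ (etaC_qParam_ne_zero τ)) ?_)
  rw [dedekindEtaUnitC, PowerSeries.coeff_map, PowerSeries.coeff_zero_eq_constantCoeff,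
    ModularCurve.constantCoeff_dedekindEtaUnit]
  simp

theorem jqModC_eq : ModularCurve.jqModC ℂ =
    HahnSeries.single (-1 : ℤ) (1 : ℂ) * HahnSeries.ofPowerSeries ℤ ℂ jNumC := rfl

/-- **Bridge**: the analytic `j`-function is the sum of the Prelude's formal series `jq`. -/
theorem hasQLaurent_jFun : HasQLaurent 1 jFun (ModularCurve.jqModC ℂ) := by
  rw [jqModC_eq, hasQLaurent_single_mul_iff]
  refine hasQExp_jNumC.congr_fun fun τ => ?_
  have hq : 𝕢 1 (τ : ℂ) ≠ 0 := Periodic.qParam_ne_zero _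
  have hη := etaC_qParam_ne_zero τ
  rw [jFun, discriminant_eq_etaC]
  simp only [neg_neg, zpow_one]
  field_simp

/-- `jFun` in the explicit `HasSum` form, in terms of `ModularCurve.jq`. -/
theorem hasSum_jq (τ : ℍ) :
    HasSum (fun n : ℤ => ((ModularCurve.jq.coeff n : ℚ) : ℂ) * 𝕢 1 τ ^ n) (jFun τ) := by
  have := hasQLaurent_jFun τ
  have hc : ∀ n : ℤ, (ModularCurve.jqModC ℂ).coeff n = ((ModularCurve.jq.coeff n : ℚ) : ℂ) := by
    intro n
    rw [← ModularCurve.jqModC_rat, ← ModularCurve.map_jqModC (algebraMap ℚ ℂ),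
      HahnSeries.map_coeff]
    rfl
  simpa only [hc] using this

theorem jFun_S (τ : ℍ) : jFun (ModularGroup.S • τ) = jFun τ := by
  have hS : ((ModularGroup.S : SL(2, ℤ)) : GL (Fin 2) ℝ) ∈ 𝒮ℒ := ⟨ModularGroup.S, rfl⟩
  have h1 : E₄ (ModularGroup.S • τ) = _ := slash_action_eqn'' E₄ hS τ
  have h2 : CuspForm.discriminant (ModularGroup.S • τ) = _ :=
    slash_action_eqn'' CuspForm.discriminant hS τ
  have hd : denom ((ModularGroup.S : SL(2, ℤ)) : GL (Fin 2) ℝ) τ ≠ 0 := denom_ne_zero _ _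
  have hΔ := discriminant_ne_zero τ
  rw [CuspForm.coe_discriminant] at h2
  rw [jFun, jFun]
  rw [h1, h2]
  rw [div_eq_div_iff (mul_ne_zero (zpow_ne_zero _ hd) hΔ) hΔ]
  rw [mul_pow, ← zpow_natCast, ← zpow_mul]
  norm_num
  ring

theorem jFun_T (τ : ℍ) : jFun (ModularGroup.T • τ) = jFun τ :=
  hasQLaurent_jFun.T_invariant τ

theorem mdifferentiable_jFun : MDiff jFun :=
  hasQLaurent_jFun.mdifferentiable one_pos

/-- **The `j`-polynomial principle.**  A function on `ℍ` which is the sum of a convergent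
Laurent series `φ` in `q = exp (2 π i τ)` with exponents `≥ -m` and which is invariant under
`τ ↦ -1/τ` is a polynomial of degree `≤ m` in `j`; the same identity holds formally. -/
theorem exists_polynomial_of_S_invariant (m : ℕ) (F : ℍ → ℂ) (φ : LaurentSeries ℂ)
    (hφ : ∀ n : ℤ, n < -(m : ℤ) → φ.coeff n = 0) (hF : HasQLaurent 1 F φ)
    (hS : ∀ τ, F (ModularGroup.S • τ) = F τ) :
    ∃ P : Polynomial ℂ, P.natDegree ≤ m ∧ φ = Polynomial.aeval (ModularCurve.jqModC ℂ) P ∧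
      ∀ τ, F τ = P.eval (jFun τ) :=
  exists_polynomial_of_S_invariant_aux jFun jNumC constantCoeff_jNumC hasQLaurent_jFun jFun_S
    m F φ hφ hF hS

/-- Version without an a priori bound on the pole order. -/
theorem exists_polynomial_of_S_invariant' (F : ℍ → ℂ) (φ : LaurentSeries ℂ)
    (hF : HasQLaurent 1 F φ) (hS : ∀ τ, F (ModularGroup.S • τ) = F τ) :
    ∃ P : Polynomial ℂ, φ = Polynomial.aeval (ModularCurve.jqModC ℂ) P ∧
      ∀ τ, F τ = P.eval (jFun τ) := by
  obtain ⟨P, -, h1, h2⟩ := exists_polynomial_of_S_invariant (-φ.order).toNat F φ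
    (fun n hn => HahnSeries.coeff_eq_zero_of_lt_order (by omega)) hF hS
  exact ⟨P, h1, h2⟩

end

end Fermat.Agent.S28.H685

end
-- ===== PACK-END S28/H685/JFun.lean

-- ===== PACK-BEGIN S14/H74/UnitSum.lean
section


/-!
# S14/N1 (helper74): `rho` is a partition of unity for the action of the units (piece P2)
-/

namespace Fermat.Agent.S14.H74

open NumberField NumberField.mixedEmbedding NumberField.Units
  NumberField.Units.dirichletUnitTheorem NumberField.InfinitePlace Module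

open scoped Classical

variable (K : Type*) [Field K] [NumberField K]

/-- The decomposition of the units as torsion times the free part. -/
noncomputable def unitsEquiv : torsion K × (Fin (rank K) → ℤ) ≃ (𝓞 K)ˣ :=
  Equiv.ofBijective (fun p ↦ (p.1 : (𝓞 K)ˣ) * ∏ i, (fundSystem K i) ^ (p.2 i)) (by
    constructor
    · intro p q h
      obtain ⟨c, -, hc⟩ := exist_unique_eq_mul_prod K
        ((p.1 : (𝓞 K)ˣ) * ∏ i, (fundSystem K i) ^ (p.2 i))
      rw [hc p rfl, hc q h]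
    · intro x
      obtain ⟨c, hc, -⟩ := exist_unique_eq_mul_prod K x
      exact ⟨c, hc.symm⟩)

theorem unitsEquiv_apply (p : torsion K × (Fin (rank K) → ℤ)) :
    unitsEquiv K p = (p.1 : (𝓞 K)ˣ) * ∏ i, (fundSystem K i) ^ (p.2 i) := rfl

theorem logEmbedding_unitsEquiv (p : torsion K × (Fin (rank K) → ℤ)) :
    logEmbedding K (Additive.ofMul (unitsEquiv K p)) =
      ∑ i, ((p.2 i : ℤ) : ℝ) • ((basisUnitLattice K).ofZLatticeBasis ℝ (unitLattice K)) i := by
  rw [unitsEquiv_apply, ofMul_mul, map_add, ofMul_prod, map_sum]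
  have h1 : logEmbedding K (Additive.ofMul (p.1 : (𝓞 K)ˣ)) = 0 := by
    rw [logEmbedding_eq_zero_iff]
    exact p.1.2
  rw [h1, zero_add]
  refine Finset.sum_congr rfl fun i _ ↦ ?_
  rw [ofMul_zpow, map_zsmul, logEmbedding_fundSystem, Basis.ofZLatticeBasis_apply,
    Int.cast_smul_eq_zsmul]

variable {K}

theorem logCoord_unitsEquiv_smul (p : torsion K × (Fin (rank K) → ℤ)) {x : mixedSpace K}
    (hx : mixedEmbedding.norm x ≠ 0) (j : Fin (rank K)) :
    logCoord K (unitsEquiv K p • x) j = logCoord K x j + p.2 j := by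
  unfold logCoord
  rw [logMap_unit_smul _ hx, map_add, Finsupp.add_apply, logEmbedding_unitsEquiv,
    Basis.repr_sum_self, add_comm]

theorem rho_unitsEquiv_smul (p : torsion K × (Fin (rank K) → ℤ)) {x : mixedSpace K}
    (hx : mixedEmbedding.norm x ≠ 0) :
    rho K (unitsEquiv K p • x) = ∏ j, tent (logCoord K x j + p.2 j) := by
  have h : mixedEmbedding.norm (unitsEquiv K p • x) ≠ 0 := by rwa [norm_unit_smul]
  rw [rho_eq_prod h]
  exact Finset.prod_congr rfl fun j _ ↦ by rw [logCoord_unitsEquiv_smul p hx]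

/-- **P2**: the translates of `rho` by the units sum to the number of roots of unity. -/
theorem hasSum_rho_unit_smul {x : mixedSpace K} (hx : mixedEmbedding.norm x ≠ 0) :
    HasSum (fun u : (𝓞 K)ˣ ↦ rho K (u • x)) (torsionOrder K) := by
  rw [← (unitsEquiv K).hasSum_iff]
  have hfun : ((fun u : (𝓞 K)ˣ ↦ rho K (u • x)) ∘ unitsEquiv K) =
      fun p : torsion K × (Fin (rank K) → ℤ) ↦ ∏ j, tent (logCoord K x j + p.2 j) := by
    funext p
    exact rho_unitsEquiv_smul p hx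
  rw [hfun]
  have h1 := tent_prod_hasSum (fun j ↦ logCoord K x j)
  have hnn : (0 : torsion K × (Fin (rank K) → ℤ) → ℝ) ≤
      fun p ↦ ∏ j, tent (logCoord K x j + p.2 j) :=
    fun p ↦ Finset.prod_nonneg fun j _ ↦ tent_nonneg _
  have : Fintype (torsion K) := Fintype.ofFinite _
  have hsum : Summable fun p : torsion K × (Fin (rank K) → ℤ) ↦
      ∏ j, tent (logCoord K x j + p.2 j) := by
    rw [summable_prod_of_nonneg hnn]
    exact ⟨fun _ ↦ h1.summable, Summable.of_finite⟩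
  have h2 := hsum.tsum_prod' (fun _ ↦ h1.summable)
  simp only [h1.tsum_eq, tsum_fintype, Finset.sum_const, Finset.card_univ, nsmul_eq_mul,
    mul_one] at h2
  have h3 : (Fintype.card (torsion K) : ℝ) = torsionOrder K := by
    rw [torsionOrder, Nat.card_eq_fintype_card]
  rw [← h3, ← h2]
  exact hsum.hasSum

end Fermat.Agent.S14.H74

end
-- ===== PACK-END S14/H74/UnitSum.lean

-- ===== PACK-BEGIN Ribet/H232/NormContraction.lean
section


/-!
# RIBET / WALL-p, leaf W-NC = I4 (norm contraction): abstract core  (helper232)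

Mathlib + `A2/H48` (Mathlib-only) only.  NO completions, NO Hensel.

## Setting `NLSetting O V₁ V₂ ϖ p θ g`
`K ⊆ F` fields, `[F : K] = p + 1`; `O` a rank-one valuation ring of `K` with uniformiser `ϖ`,
residue characteristic `p`; `V₁ ≠ V₂` valuation rings of `F` over `O`, both with uniformiser `ϖ`;
`θ ∈ V₁ ∩ V₂` with `1, θ, …, θ^(p-1)` residually independent over `O` at `V₂` and
`θ^p ≡ g mod ϖ V₂`, `g ∈ O`.  (So `V₁` has residue degree one and `V₂` a purely inseparable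
residue extension of degree `p`: the situation of `α, β : X₀(pM') → X₀(M')` at the two Gauss
valuations, by Kronecker's congruence.)

## Results
* `NLSetting.trace_dv`        : `η ∈ V₂`, `η ∈ π V₁` ⟹ `Tr η ∈ ϖ O`;
* `NLSetting.norm_sub_one_dv` : `u ∈ 1 + π^(s+1) V₁`, `u ∈ 1 + π^s V₂`, `s ≥ 1`
  ⟹ `N u ∈ 1 + ϖ^(s+1) O`  (**contraction** at the inseparable place);
* `NLSetting.norm_locconst_dv`: `r ≡ ρ₁` at `V₁`, `r ≡ ρ₂` at `V₂` mod `π^m` multiplicatively
  ⟹ `N r ≡ ρ₁ ρ₂^p` mod `ϖ^m`;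
* `NLSetting.norm_loc`        : **NORM-LOC** `u ≡ v` at `V₁` mod `π^(s+1)`, `u ≡ c` at `V₂` mod
  `π^s` (`v, c ∈ Kˣ`, multiplicatively) ⟹ `N u ≡ v c^p` mod `ϖ^(s+1)`;
* `NLSetting.exists_approx_mul`: multiplicative approximation at `V₁` by elements of `Kˣ`;
* `Side`, `NLSetting.side`, `Depth`, `IsPthNorm`, `Side.step`;
* `pingpong_inf`, `pingpong_zero` : **PING-PONG**.  For two embeddings `α, β : K → L` with the
  roles of the two places exchanged: if `N_α u, N_β u ∈ C · (Kˣ)^p` (`u` is "new") and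
  `u ∈ C · (Lˣ)^p · (1 + π V)` at ONE of the two places, then `u ∈ C · (Lˣ)^p · (1 + π^s V)` for
  EVERY `s` at BOTH places.
-/

set_option autoImplicit false

namespace Fermat.Agent.Ribet.H232

/-! ## Part 1: NormLocBasic -/

section Part1

open Fermat.Agent.A2.H48

section Dv

variable {F : Type*} [Field F]

/-- `x ∈ c · A` (elementwise divisibility in a valuation subring). -/
def Dv (A : ValuationSubring F) (c x : F) : Prop := ∃ y ∈ A, x = c * y

namespace Dv

variable {A : ValuationSubring F} {c d x y : F}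

theorem zero : Dv A c 0 := ⟨0, zero_mem _, by simp⟩

theorem self : Dv A c c := ⟨1, one_mem _, by simp⟩

theorem add (hx : Dv A c x) (hy : Dv A c y) : Dv A c (x + y) := by
  obtain ⟨a, ha, rfl⟩ := hx
  obtain ⟨b, hb, rfl⟩ := hy
  exact ⟨a + b, add_mem ha hb, by ring⟩

theorem neg (hx : Dv A c x) : Dv A c (-x) := by
  obtain ⟨a, ha, rfl⟩ := hx
  exact ⟨-a, neg_mem ha, by ring⟩

theorem sub (hx : Dv A c x) (hy : Dv A c y) : Dv A c (x - y) := by
  obtain ⟨a, ha, rfl⟩ := hx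
  obtain ⟨b, hb, rfl⟩ := hy
  exact ⟨a - b, sub_mem ha hb, by ring⟩

theorem mul (hx : Dv A c x) (hy : Dv A d y) : Dv A (c * d) (x * y) := by
  obtain ⟨a, ha, rfl⟩ := hx
  obtain ⟨b, hb, rfl⟩ := hy
  exact ⟨a * b, mul_mem ha hb, by ring⟩

theorem mul_left {a : F} (ha : a ∈ A) (hx : Dv A c x) : Dv A c (a * x) := by
  obtain ⟨b, hb, rfl⟩ := hx
  exact ⟨a * b, mul_mem ha hb, by ring⟩

theorem mul_right {a : F} (ha : a ∈ A) (hx : Dv A c x) : Dv A c (x * a) := by
  obtain ⟨b, hb, rfl⟩ := hx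
  exact ⟨b * a, mul_mem hb ha, by ring⟩

theorem pow (hx : Dv A c x) (n : ℕ) : Dv A (c ^ n) (x ^ n) := by
  obtain ⟨a, ha, rfl⟩ := hx
  exact ⟨a ^ n, pow_mem ha n, by ring⟩

theorem of_mem (hx : x ∈ A) : Dv A 1 x := ⟨x, hx, by simp⟩

theorem mem_of (hc : c ∈ A) (hx : Dv A c x) : x ∈ A := by
  obtain ⟨a, ha, rfl⟩ := hx
  exact mul_mem hc ha

theorem one_iff : Dv A 1 x ↔ x ∈ A :=
  ⟨fun h => mem_of (one_mem _) h, of_mem⟩

theorem of_mul (hd : d ∈ A) (hx : Dv A (c * d) x) : Dv A c x := by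
  obtain ⟨a, ha, rfl⟩ := hx
  exact ⟨d * a, mul_mem hd ha, by ring⟩

theorem pow_mono {π : F} (hπ : π ∈ A) {m n : ℕ} (hmn : m ≤ n) (hx : Dv A (π ^ n) x) :
    Dv A (π ^ m) x := by
  obtain ⟨k, rfl⟩ := Nat.exists_eq_add_of_le hmn
  rw [pow_add] at hx
  exact of_mul (pow_mem hπ k) hx

theorem of_pow {π : F} (hπ : π ∈ A) {n : ℕ} (hn : 1 ≤ n) (hx : Dv A (π ^ n) x) :
    Dv A π x := by
  have := pow_mono hπ hn hx
  rwa [pow_one] at this

theorem sum {ι : Type*} (s : Finset ι) (f : ι → F) (h : ∀ i ∈ s, Dv A c (f i)) :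
    Dv A c (∑ i ∈ s, f i) := by
  classical
  induction s using Finset.induction_on with
  | empty => simpa using zero
  | insert i s hi ih =>
    rw [Finset.sum_insert hi]
    exact add (h i (Finset.mem_insert_self i s))
      (ih fun j hj => h j (Finset.mem_insert_of_mem hj))

theorem iff_mul_inv (hc : c ≠ 0) : Dv A c x ↔ x * c⁻¹ ∈ A := by
  constructor
  · rintro ⟨a, ha, rfl⟩
    have : c * a * c⁻¹ = a := by field_simp
    rw [this]; exact ha
  · intro h
    exact ⟨x * c⁻¹, h, by field_simp⟩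

theorem smul_iff (hd : d ≠ 0) : Dv A (d * c) (d * x) ↔ Dv A c x := by
  constructor
  · rintro ⟨a, ha, h⟩
    refine ⟨a, ha, ?_⟩
    have : d * x = d * (c * a) := by rw [h]; ring
    exact mul_left_cancel₀ hd this
  · rintro ⟨a, ha, rfl⟩
    exact ⟨a, ha, by ring⟩

end Dv

end Dv

section Unif

variable {F : Type*} [Field F] {V : ValuationSubring F} {π : F}

/-- A unit of `V` is not divisible by the uniformiser. -/
theorem not_dv_one (h : IsUnif V π) : ¬ Dv V π 1 := by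
  rintro ⟨a, ha, h1⟩
  apply h.inv_not_mem
  have hπ := h.ne_zero
  have : π⁻¹ = a := by
    field_simp
    exact h1
  rw [this]; exact ha

/-- `1 + π x` is a unit of `V`. -/
theorem inv_mem_of_dv_sub_one (h : IsUnif V π) {u : F} (hu : Dv V π (u - 1)) : u⁻¹ ∈ V := by
  have huV : u ∈ V := by
    have := Dv.mem_of h.mem hu
    have h2 : u = (u - 1) + 1 := by ring
    rw [h2]; exact add_mem this (one_mem _)
  by_contra hinv
  have := h.gen u huV hinv
  have h1 : Dv V π u := (Dv.iff_mul_inv h.ne_zero).2 this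
  apply not_dv_one h
  have h2 : (1 : F) = u - (u - 1) := by ring
  rw [h2]; exact h1.sub hu

theorem ne_zero_of_dv_sub_one (h : IsUnif V π) {u : F} (hu : Dv V π (u - 1)) : u ≠ 0 := by
  rintro rfl
  apply not_dv_one h
  have : (1 : F) = -(0 - 1) := by ring
  rw [this]; exact hu.neg

/-- `(1 + π^n x)⁻¹ ∈ 1 + π^n V` for `n ≥ 1`. -/
theorem dv_inv_sub_one (h : IsUnif V π) {n : ℕ} (hn : 1 ≤ n) {u : F}
    (hu : Dv V (π ^ n) (u - 1)) : Dv V (π ^ n) (u⁻¹ - 1) := by
  have hu1 : Dv V π (u - 1) := Dv.of_pow h.mem hn hu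
  have hinv := inv_mem_of_dv_sub_one h hu1
  have hu0 := ne_zero_of_dv_sub_one h hu1
  have : u⁻¹ - 1 = u⁻¹ * (-(u - 1)) := by field_simp; ring
  rw [this]
  exact Dv.mul_left hinv hu.neg

/-- `1 + π^n V` is closed under multiplication. -/
theorem dv_mul_sub_one (h : IsUnif V π) {n : ℕ} {u v : F}
    (hu : Dv V (π ^ n) (u - 1)) (hv : Dv V (π ^ n) (v - 1)) : Dv V (π ^ n) (u * v - 1) := by
  have hvV : v ∈ V := by
    have := Dv.mem_of (pow_mem h.mem n) hv
    have h2 : v = (v - 1) + 1 := by ring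
    rw [h2]; exact add_mem this (one_mem _)
  have : u * v - 1 = (u - 1) * v + (v - 1) := by ring
  rw [this]
  exact (Dv.mul_right hvV hu).add hv

end Unif

section Idem

variable {F : Type*} [Field F] {V₁ V₂ : ValuationSubring F} {π : F}

/-- Approximate idempotents of any order: `e ≡ 1 mod π^T V₁`, `e ≡ 0 mod π^T V₂`. -/
theorem exists_idem (h₁ : IsUnif V₁ π) (h₂ : IsUnif V₂ π) (hne : V₁ ≠ V₂) (T : ℕ) :
    ∃ e : F, e ∈ V₁ ∧ e ∈ V₂ ∧ Dv V₁ (π ^ T) (e - 1) ∧ Dv V₂ (π ^ T) e := by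
  have hπ := h₁.ne_zero
  obtain ⟨x, hx1, hx2, hx3⟩ := exists_approx (k := 0) h₁ h₂ hne (one_mem V₁)
    (by simp)
  have hxa : Dv V₁ π (x - 1) := (Dv.iff_mul_inv hπ).2 hx2
  have hxb : Dv V₂ π x := (Dv.iff_mul_inv hπ).2 hx3
  have hx2' : x ∈ V₂ := Dv.mem_of h₂.mem hxb
  refine ⟨1 - (1 - x ^ T) ^ T, ?_, ?_, ?_, ?_⟩
  · exact sub_mem (one_mem _) (pow_mem (sub_mem (one_mem _) (pow_mem hx1 _)) _)
  · exact sub_mem (one_mem _) (pow_mem (sub_mem (one_mem _) (pow_mem hx2' _)) _)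
  · -- at V₁
    have e1 : 1 - x ^ T = (1 - x) * ∑ i ∈ Finset.range T, x ^ i := (mul_neg_geom_sum x T).symm
    have h1 : Dv V₁ π (1 - x ^ T) := by
      rw [e1]
      have : Dv V₁ π (1 - x) := by
        have := hxa.neg
        rwa [neg_sub] at this
      exact Dv.mul_right (sum_mem fun i _ => pow_mem hx1 i) this
    have h2 := h1.pow T
    have : 1 - (1 - x ^ T) ^ T - 1 = -((1 - x ^ T) ^ T) := by ring
    rw [this]; exact h2.neg
  · -- at V₂
    have e2 : 1 - (1 - x ^ T) ^ T = (1 - (1 - x ^ T)) * ∑ i ∈ Finset.range T, (1 - x ^ T) ^ i :=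
      (mul_neg_geom_sum (1 - x ^ T) T).symm
    rw [e2]
    have : 1 - (1 - x ^ T) = x ^ T := by ring
    rw [this]
    exact Dv.mul_right (sum_mem fun i _ =>
      pow_mem (sub_mem (one_mem _) (pow_mem hx2' _)) i) (hxb.pow T)

end Idem

end Part1

/-! ## Part 2: NormLocBasis -/

section Part2

open Fermat.Agent.A2.H48

variable {K F : Type*} [Field K] [Field F] [Algebra K F]

/-- The setting of the local norm congruence. -/
structure NLSetting (O : ValuationSubring K) (V₁ V₂ : ValuationSubring F) (ϖ : K) (p : ℕ)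
    (θ : F) (g : K) : Prop where
  unifO : IsUnif O ϖ
  unif₁ : IsUnif V₁ (algebraMap K F ϖ)
  unif₂ : IsUnif V₂ (algebraMap K F ϖ)
  le₁ : ∀ a ∈ O, algebraMap K F a ∈ V₁
  le₂ : ∀ a ∈ O, algebraMap K F a ∈ V₂
  ne : V₁ ≠ V₂
  arch : ∀ a : K, ∃ k : ℕ, ϖ ^ k * a ∈ O
  char_p : Dv O ϖ (p : K)
  θ_mem₁ : θ ∈ V₁
  θ_mem₂ : θ ∈ V₂
  g_mem : g ∈ O
  θ_pow : Dv V₂ (algebraMap K F ϖ) (θ ^ p - algebraMap K F g)
  θ_indep : ∀ a : Fin p → K, (∀ i, a i ∈ O) →
    Dv V₂ (algebraMap K F ϖ) (∑ i, algebraMap K F (a i) * θ ^ (i : ℕ)) → ∀ i, Dv O ϖ (a i)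
  card : Module.finrank K F = p + 1

section Comap

variable {O : ValuationSubring K} {V : ValuationSubring F} {ϖ : K}

/-- `V ∩ K = O` for a valuation ring `V` of `F` over `O` with the same uniformiser. -/
theorem mem_of_map_mem (hO : IsUnif O ϖ) (hV : IsUnif V (algebraMap K F ϖ))
    (le : ∀ a ∈ O, algebraMap K F a ∈ V) {a : K} (ha : algebraMap K F a ∈ V) : a ∈ O := by
  by_contra hmem
  have ha0 : a ≠ 0 := by rintro rfl; exact hmem (zero_mem _)
  have hinv : a⁻¹ ∈ O := (O.mem_or_inv_mem a).resolve_left hmem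
  have h1 : a⁻¹ * ϖ⁻¹ ∈ O := hO.gen a⁻¹ hinv (by rwa [inv_inv])
  have h2 := le _ h1
  apply hV.inv_not_mem
  have : (algebraMap K F ϖ)⁻¹ = algebraMap K F a * algebraMap K F (a⁻¹ * ϖ⁻¹) := by
    rw [← map_mul, ← map_inv₀]
    congr 1
    field_simp
  rw [this]
  exact mul_mem ha h2

theorem dv_of_map_dv (hO : IsUnif O ϖ) (hV : IsUnif V (algebraMap K F ϖ))
    (le : ∀ a ∈ O, algebraMap K F a ∈ V) {a : K} {n : ℕ}
    (ha : Dv V (algebraMap K F ϖ ^ n) (algebraMap K F a)) : Dv O (ϖ ^ n) a := by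
  have hϖ := hO.ne_zero
  rw [Dv.iff_mul_inv (pow_ne_zero _ hV.ne_zero)] at ha
  rw [Dv.iff_mul_inv (pow_ne_zero _ hϖ)]
  apply mem_of_map_mem hO hV le
  rw [map_mul, map_inv₀, map_pow]
  exact ha

theorem map_dv (le : ∀ a ∈ O, algebraMap K F a ∈ V) {a c : K}
    (ha : Dv O c a) : Dv V (algebraMap K F c) (algebraMap K F a) := by
  obtain ⟨b, hb, rfl⟩ := ha
  exact ⟨algebraMap K F b, le b hb, by rw [map_mul]⟩

end Comap

/-- The adapted family `e, (1 - e) θ ^ i` (`i < p`). -/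
def fam (p : ℕ) (e θ : F) : Fin (p + 1) → F :=
  Fin.cons e (fun i : Fin p => (1 - e) * θ ^ (i : ℕ))

@[simp] theorem fam_zero (p : ℕ) (e θ : F) : fam p e θ 0 = e := rfl

@[simp] theorem fam_succ (p : ℕ) (e θ : F) (i : Fin p) :
    fam p e θ i.succ = (1 - e) * θ ^ (i : ℕ) := by
  simp [fam]

namespace NLSetting

variable {O : ValuationSubring K} {V₁ V₂ : ValuationSubring F} {ϖ : K} {p : ℕ} {θ : F} {g : K}

theorem pi_ne_zero (h : NLSetting O V₁ V₂ ϖ p θ g) : algebraMap K F ϖ ≠ 0 := h.unif₁.ne_zero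

/-- An approximate idempotent of order `T`. -/
structure IsIdem (V₁ V₂ : ValuationSubring F) (π : F) (T : ℕ) (e : F) : Prop where
  mem₁ : e ∈ V₁
  mem₂ : e ∈ V₂
  dv₁ : Dv V₁ (π ^ T) (e - 1)
  dv₂ : Dv V₂ (π ^ T) e

theorem exists_isIdem (h : NLSetting O V₁ V₂ ϖ p θ g) (T : ℕ) :
    ∃ e : F, IsIdem V₁ V₂ (algebraMap K F ϖ) T e := by
  obtain ⟨e, h1, h2, h3, h4⟩ := exists_idem h.unif₁ h.unif₂ h.ne T
  exact ⟨e, h1, h2, h3, h4⟩

section Fam

variable (h : NLSetting O V₁ V₂ ϖ p θ g) {T : ℕ} {e : F}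
  (he : IsIdem V₁ V₂ (algebraMap K F ϖ) T e)

include h he

theorem fam_mem₁ (l : Fin (p + 1)) : fam p e θ l ∈ V₁ := by
  refine Fin.cases ?_ (fun i => ?_) l
  · exact he.mem₁
  · rw [fam_succ]
    exact mul_mem (sub_mem (one_mem _) he.mem₁) (pow_mem h.θ_mem₁ _)

theorem fam_mem₂ (l : Fin (p + 1)) : fam p e θ l ∈ V₂ := by
  refine Fin.cases ?_ (fun i => ?_) l
  · exact he.mem₂
  · rw [fam_succ]
    exact mul_mem (sub_mem (one_mem _) he.mem₂) (pow_mem h.θ_mem₂ _)

set_option linter.unusedSectionVars false in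
/-- `(1 - e) ∈ π^T V₁`. -/
theorem one_sub_dv₁ : Dv V₁ (algebraMap K F ϖ ^ T) (1 - e) := by
  have := he.dv₁.neg
  rwa [neg_sub] at this

/-- the members `(1-e) θ^i` are `≡ 0 mod π^T V₁`. -/
theorem fam_succ_dv₁ (i : Fin p) : Dv V₁ (algebraMap K F ϖ ^ T) (fam p e θ i.succ) := by
  rw [fam_succ]
  exact Dv.mul_right (pow_mem h.θ_mem₁ _) (one_sub_dv₁ h he)

/-- the members `(1-e) θ^i` are `≡ θ^i mod π^T V₂`. -/
theorem fam_succ_dv₂ (i : Fin p) :
    Dv V₂ (algebraMap K F ϖ ^ T) (fam p e θ i.succ - θ ^ (i : ℕ)) := by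
  rw [fam_succ]
  have : (1 - e) * θ ^ (i : ℕ) - θ ^ (i : ℕ) = -(e * θ ^ (i : ℕ)) := by ring
  rw [this]
  exact (Dv.mul_right (pow_mem h.θ_mem₂ _) he.dv₂).neg

/-- A combination of the adapted family, read at `V₁`: it is `≡ a 0`. -/
theorem sum_fam_dv₁ (a : Fin (p + 1) → K) (ha : ∀ l, a l ∈ O) :
    Dv V₁ (algebraMap K F ϖ ^ T)
      ((∑ l, algebraMap K F (a l) * fam p e θ l) - algebraMap K F (a 0)) := by
  rw [Fin.sum_univ_succ, fam_zero]
  have : algebraMap K F (a 0) * e + ∑ i : Fin p, algebraMap K F (a i.succ) * fam p e θ i.succ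
      - algebraMap K F (a 0) =
      algebraMap K F (a 0) * (e - 1) +
        ∑ i : Fin p, algebraMap K F (a i.succ) * fam p e θ i.succ := by ring
  rw [this]
  refine (Dv.mul_left (h.le₁ _ (ha 0)) he.dv₁).add (Dv.sum _ _ fun i _ => ?_)
  exact Dv.mul_left (h.le₁ _ (ha _)) (fam_succ_dv₁ h he i)

/-- A combination of the adapted family, read at `V₂`: it is `≡ ∑ a (i+1) θ^i`. -/
theorem sum_fam_dv₂ (a : Fin (p + 1) → K) (ha : ∀ l, a l ∈ O) :
    Dv V₂ (algebraMap K F ϖ ^ T)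
      ((∑ l, algebraMap K F (a l) * fam p e θ l) -
        ∑ i : Fin p, algebraMap K F (a i.succ) * θ ^ (i : ℕ)) := by
  rw [Fin.sum_univ_succ, fam_zero, add_sub_assoc, ← Finset.sum_sub_distrib]
  refine (Dv.mul_left (h.le₂ _ (ha 0)) he.dv₂).add (Dv.sum _ _ fun i _ => ?_)
  rw [← mul_sub]
  exact Dv.mul_left (h.le₂ _ (ha _)) (fam_succ_dv₂ h he i)

/-- The adapted family is good in the sense of `A2/H48`. -/
theorem fam_isGood (hT : 1 ≤ T) : TwoExt.IsGood O V₁ V₂ ϖ (fam p e θ) := by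
  have hπ := h.pi_ne_zero
  refine ⟨fam_mem₁ h he, fam_mem₂ h he, ?_⟩
  intro a ha hS₁ hS₂
  rw [← Dv.iff_mul_inv hπ] at hS₁ hS₂
  have h0 : Dv O ϖ (a 0) := by
    have h1 := Dv.of_pow h.unif₁.mem hT (sum_fam_dv₁ h he a ha)
    have h2 := hS₁.sub h1
    rw [sub_sub_cancel] at h2
    have h3 : Dv V₁ (algebraMap K F ϖ ^ 1) (algebraMap K F (a 0)) := by rwa [pow_one]
    have := dv_of_map_dv h.unifO h.unif₁ h.le₁ h3
    rwa [pow_one] at this
  have hs : ∀ i : Fin p, Dv O ϖ (a i.succ) := by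
    apply h.θ_indep (fun i => a i.succ) (fun i => ha _)
    have h1 := Dv.of_pow h.unif₂.mem hT (sum_fam_dv₂ h he a ha)
    have h2 := hS₂.sub h1
    rwa [sub_sub_cancel] at h2
  intro l
  rw [← Dv.iff_mul_inv h.unifO.ne_zero]
  refine Fin.cases h0 hs l

theorem fam_linearIndependent (hT : 1 ≤ T) : LinearIndependent K (fam p e θ) :=
  (fam_isGood h he hT).linearIndependent h.unifO

end Fam

/-- The adapted basis. -/
noncomputable def basis (h : NLSetting O V₁ V₂ ϖ p θ g) {T : ℕ} {e : F}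
    (he : IsIdem V₁ V₂ (algebraMap K F ϖ) T e) (hT : 1 ≤ T) :
    Module.Basis (Fin (p + 1)) K F :=
  basisOfLinearIndependentOfCardEqFinrank (fam_linearIndependent h he hT)
    (by rw [Fintype.card_fin, h.card])

section Basis

variable (h : NLSetting O V₁ V₂ ϖ p θ g) {T : ℕ} {e : F}
  (he : IsIdem V₁ V₂ (algebraMap K F ϖ) T e) (hT : 1 ≤ T)

theorem basis_apply (l : Fin (p + 1)) : h.basis he hT l = fam p e θ l := by
  simp [basis]

theorem basis_zero : h.basis he hT 0 = e := by rw [basis_apply, fam_zero]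

theorem basis_succ (i : Fin p) : h.basis he hT i.succ = (1 - e) * θ ^ (i : ℕ) := by
  rw [basis_apply, fam_succ]

/-- Coordinates of elements of `V₁ ∩ V₂` are integral. -/
theorem repr_mem {z : F} (hz₁ : z ∈ V₁) (hz₂ : z ∈ V₂) (l : Fin (p + 1)) :
    (h.basis he hT).repr z l ∈ O :=
  (fam_isGood h he hT).repr_mem h.unifO h.le₁ h.le₂ (h.basis he hT)
    (basis_apply h he hT) hz₁ hz₂ l

/-- Coordinates of elements of `π^n (V₁ ∩ V₂)` are in `ϖ^n O`. -/
theorem repr_dv {z : F} {n : ℕ} (hz₁ : Dv V₁ (algebraMap K F ϖ ^ n) z)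
    (hz₂ : Dv V₂ (algebraMap K F ϖ ^ n) z) (l : Fin (p + 1)) :
    Dv O (ϖ ^ n) ((h.basis he hT).repr z l) := by
  have hπ := h.pi_ne_zero
  obtain ⟨y, hy, rfl⟩ := hz₁
  have hy₂ : y ∈ V₂ := by
    obtain ⟨y', hy', hyy⟩ := hz₂
    have : y = y' := mul_left_cancel₀ (pow_ne_zero n hπ) hyy
    rw [this]; exact hy'
  refine ⟨(h.basis he hT).repr y l, repr_mem h he hT hy hy₂ l, ?_⟩
  have : algebraMap K F ϖ ^ n * y = (ϖ ^ n) • y := by
    rw [Algebra.smul_def, map_pow]
  rw [this, map_smul, Finsupp.smul_apply, smul_eq_mul]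

/-- The `0`-th coordinate of `z ∈ V₁ ∩ V₂` is `≡ z mod π V₁`. -/
theorem repr_zero_dv {z : F} (hz₁ : z ∈ V₁) (hz₂ : z ∈ V₂) :
    Dv V₁ (algebraMap K F ϖ) (z - algebraMap K F ((h.basis he hT).repr z 0)) := by
  set a : Fin (p + 1) → K := fun l => (h.basis he hT).repr z l with ha
  have haO : ∀ l, a l ∈ O := fun l => repr_mem h he hT hz₁ hz₂ l
  have hz : z = ∑ l, algebraMap K F (a l) * fam p e θ l := by
    conv_lhs => rw [← (h.basis he hT).sum_repr z]
    refine Finset.sum_congr rfl fun l _ => ?_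
    rw [Algebra.smul_def, basis_apply]
  have := Dv.of_pow h.unif₁.mem hT (sum_fam_dv₁ h he a haO)
  rw [← hz] at this
  exact this

/-- If `z ∈ V₁ ∩ V₂` is `≡ 0 mod π V₁` then its `0`-th coordinate is divisible by `ϖ`. -/
theorem repr_zero_dv_of_dv {z : F} (hz₁ : Dv V₁ (algebraMap K F ϖ) z) (hz₂ : z ∈ V₂) :
    Dv O ϖ ((h.basis he hT).repr z 0) := by
  have h1 := repr_zero_dv h he hT (Dv.mem_of h.unif₁.mem hz₁) hz₂
  have h2 := hz₁.sub h1
  rw [sub_sub_cancel] at h2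
  have h3 : Dv V₁ (algebraMap K F ϖ ^ 1) (algebraMap K F ((h.basis he hT).repr z 0)) := by
    rwa [pow_one]
  have := dv_of_map_dv h.unifO h.unif₁ h.le₁ h3
  rwa [pow_one] at this

end Basis

end NLSetting

end Part2

/-! ## Part 3: NormLocDet -/

section Part3

open Fermat.Agent.A2.H48 Matrix

variable {K : Type*} [Field K] {ι : Type*} [Fintype ι] [DecidableEq ι]

/-- `det (1 + c • X) = 1 + tr X · c + y · c²` with `y` integral, for `c` and `X` integral. -/
theorem det_one_add_smul_mem (O : ValuationSubring K) {c : K} (hc : c ∈ O)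
    (X : Matrix ι ι K) (hX : ∀ i j, X i j ∈ O) :
    ∃ y ∈ O, Matrix.det (1 + c • X) = 1 + X.trace * c + y * c ^ 2 := by
  set X' : Matrix ι ι O := fun i j => ⟨X i j, hX i j⟩ with hX'
  set c' : O := ⟨c, hc⟩ with hc'
  have key := Matrix.det_one_add_smul c' X'
  set y' : O := (Polynomial.eval c'
    (Matrix.det (1 + (Polynomial.X : Polynomial O) • X'.map Polynomial.C)).divX.divX) with hy'
  have hmap : (O.subtype).mapMatrix (1 + c' • X') = 1 + c • X := by
    ext i j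
    simp only [RingHom.mapMatrix_apply, Matrix.map_apply, Matrix.add_apply, Matrix.smul_apply,
      Matrix.one_apply, map_add]
    congr 1
    split_ifs <;> simp
  have htr : (O.subtype) (X'.trace) = X.trace := by
    simp only [Matrix.trace, map_sum, Matrix.diag_apply]
    rfl
  refine ⟨(y' : K), y'.2, ?_⟩
  have h2 := congrArg (O.subtype) key
  rw [RingHom.map_det, hmap] at h2
  rw [h2, map_add, map_add, map_mul, map_mul, map_pow, map_one, htr]
  rfl

/-- `det (1 + c • X) ∈ 1 + c O`. -/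
theorem det_one_add_smul_dv (O : ValuationSubring K) {c : K} (hc : c ∈ O)
    (X : Matrix ι ι K) (hX : ∀ i j, X i j ∈ O) :
    Dv O c (Matrix.det (1 + c • X) - 1) := by
  obtain ⟨y, hy, h⟩ := det_one_add_smul_mem O hc X hX
  have htr : X.trace ∈ O := sum_mem fun i _ => hX i i
  refine ⟨X.trace + y * c, add_mem htr (mul_mem hy hc), ?_⟩
  rw [h]; ring

/-- `det (1 + ϖ^s • X) ∈ 1 + ϖ^(s+1) O` if `tr X ∈ ϖ O` and `s ≥ 1`. -/
theorem det_one_add_smul_dv_succ (O : ValuationSubring K) {ϖ : K} (hϖ : ϖ ∈ O) {s : ℕ}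
    (hs : 1 ≤ s) (X : Matrix ι ι K) (hX : ∀ i j, X i j ∈ O) (htr : Dv O ϖ X.trace) :
    Dv O (ϖ ^ (s + 1)) (Matrix.det (1 + ϖ ^ s • X) - 1) := by
  obtain ⟨y, hy, h⟩ := det_one_add_smul_mem O (pow_mem hϖ s) X hX
  obtain ⟨t, ht, htt⟩ := htr
  obtain ⟨k, rfl⟩ := Nat.exists_eq_add_of_le hs
  refine ⟨t + y * ϖ ^ k, add_mem ht (mul_mem hy (pow_mem hϖ _)), ?_⟩
  rw [h, htt]; ring

end Part3

/-! ## Part 4: NormLocTrace -/

section Part4

open Fermat.Agent.A2.H48 Matrix

variable {K F : Type*} [Field K] [Field F] [Algebra K F]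
variable {O : ValuationSubring K} {V₁ V₂ : ValuationSubring F} {ϖ : K} {p : ℕ} {θ : F} {g : K}

namespace NLSetting

section

variable (h : NLSetting O V₁ V₂ ϖ p θ g) {T : ℕ} {e : F}
  (he : IsIdem V₁ V₂ (algebraMap K F ϖ) T e) (hT : 1 ≤ T)

include h he hT

theorem basis_mem₁ (l : Fin (p + 1)) : h.basis he hT l ∈ V₁ := by
  rw [basis_apply]; exact fam_mem₁ h he l

theorem basis_mem₂ (l : Fin (p + 1)) : h.basis he hT l ∈ V₂ := by
  rw [basis_apply]; exact fam_mem₂ h he l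

/-- Entries of the multiplication matrix of an integral element are integral. -/
theorem leftMulMatrix_mem {z : F} (hz₁ : z ∈ V₁) (hz₂ : z ∈ V₂) (i j : Fin (p + 1)) :
    Algebra.leftMulMatrix (h.basis he hT) z i j ∈ O := by
  rw [Algebra.leftMulMatrix_eq_repr_mul]
  exact repr_mem h he hT (mul_mem hz₁ (basis_mem₁ h he hT j))
    (mul_mem hz₂ (basis_mem₂ h he hT j)) i

/-- `1 - e ∈ π V₁`. -/
theorem one_sub_dv_pi : Dv V₁ (algebraMap K F ϖ) (1 - e) :=
  Dv.of_pow h.unif₁.mem hT (one_sub_dv₁ h he)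

/-- `e ∈ π V₂`. -/
theorem e_dv_pi : Dv V₂ (algebraMap K F ϖ) e :=
  Dv.of_pow h.unif₂.mem hT he.dv₂

/-- Coordinates of an element of `π (V₁ ∩ V₂)`. -/
theorem repr_dv_one {z : F} (hz₁ : Dv V₁ (algebraMap K F ϖ) z)
    (hz₂ : Dv V₂ (algebraMap K F ϖ) z) (l : Fin (p + 1)) :
    Dv O ϖ ((h.basis he hT).repr z l) := by
  have h1 : Dv V₁ (algebraMap K F ϖ ^ 1) z := by rwa [pow_one]
  have h2 : Dv V₂ (algebraMap K F ϖ ^ 1) z := by rwa [pow_one]
  have := repr_dv h he hT h1 h2 l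
  rwa [pow_one] at this

/-- Products of the `V₂`-part of the basis, case `i + k < p`. -/
theorem mul_basis_lt (i k : Fin p) (hn : (i : ℕ) + (k : ℕ) < p) (l : Fin (p + 1)) :
    Dv O ϖ ((h.basis he hT).repr (h.basis he hT i.succ * h.basis he hT k.succ) l -
      (h.basis he hT).repr (h.basis he hT (Fin.succ ⟨(i : ℕ) + (k : ℕ), hn⟩)) l) := by
  rw [← Finsupp.sub_apply, ← map_sub]
  have hid : h.basis he hT i.succ * h.basis he hT k.succ -
      h.basis he hT (Fin.succ ⟨(i : ℕ) + (k : ℕ), hn⟩) =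
      -(e * ((1 - e) * θ ^ ((i : ℕ) + (k : ℕ)))) := by
    rw [basis_succ, basis_succ, basis_succ]
    simp only
    ring
  rw [hid]
  apply repr_dv_one h he hT
  · refine Dv.neg (Dv.mul_left he.mem₁ ?_)
    exact Dv.mul_right (pow_mem h.θ_mem₁ _) (one_sub_dv_pi h he hT)
  · refine Dv.neg ?_
    exact Dv.mul_right (mul_mem (sub_mem (one_mem _) he.mem₂) (pow_mem h.θ_mem₂ _))
      (e_dv_pi h he hT)

/-- Products of the `V₂`-part of the basis, case `i + k = p + m`. -/
theorem mul_basis_ge (i k m : Fin p) (hn : (i : ℕ) + (k : ℕ) = p + (m : ℕ))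
    (l : Fin (p + 1)) :
    Dv O ϖ ((h.basis he hT).repr (h.basis he hT i.succ * h.basis he hT k.succ) l -
      g * (h.basis he hT).repr (h.basis he hT m.succ) l) := by
  have hg : g * (h.basis he hT).repr (h.basis he hT m.succ) l =
      (h.basis he hT).repr (algebraMap K F g * h.basis he hT m.succ) l := by
    rw [← Algebra.smul_def, map_smul, Finsupp.smul_apply, smul_eq_mul]
  rw [hg, ← Finsupp.sub_apply, ← map_sub]
  have hpow : θ ^ (i : ℕ) * θ ^ (k : ℕ) = θ ^ p * θ ^ (m : ℕ) := by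
    rw [← pow_add, ← pow_add, hn]
  have hid : h.basis he hT i.succ * h.basis he hT k.succ -
      algebraMap K F g * h.basis he hT m.succ =
      (1 - e) * θ ^ (m : ℕ) * ((θ ^ p - algebraMap K F g) - e * θ ^ p) := by
    rw [basis_succ, basis_succ, basis_succ]
    linear_combination (1 - e) ^ 2 * hpow
  rw [hid]
  apply repr_dv_one h he hT
  · refine Dv.mul_right ?_ (Dv.mul_right (pow_mem h.θ_mem₁ _) (one_sub_dv_pi h he hT))
    exact sub_mem (sub_mem (pow_mem h.θ_mem₁ _) (h.le₁ _ h.g_mem))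
      (mul_mem he.mem₁ (pow_mem h.θ_mem₁ _))
  · refine Dv.mul_left (mul_mem (sub_mem (one_mem _) he.mem₂) (pow_mem h.θ_mem₂ _)) ?_
    exact h.θ_pow.sub (Dv.mul_right (pow_mem h.θ_mem₂ _) (e_dv_pi h he hT))

/-- Diagonal entries of the multiplication matrix of `(1 - e) θ^i` on the `V₂`-block. -/
theorem diag_basis_succ (i k : Fin p) :
    Dv O ϖ (Algebra.leftMulMatrix (h.basis he hT) (h.basis he hT i.succ) k.succ k.succ -
      (if (i : ℕ) = 0 then 1 else 0)) := by
  rw [Algebra.leftMulMatrix_eq_repr_mul]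
  by_cases hn : (i : ℕ) + (k : ℕ) < p
  · have h1 := mul_basis_lt h he hT i k hn k.succ
    rw [Module.Basis.repr_self, Finsupp.single_apply] at h1
    have hiff : (Fin.succ ⟨(i : ℕ) + (k : ℕ), hn⟩ = k.succ) ↔ (i : ℕ) = 0 := by
      rw [Fin.succ_inj, Fin.ext_iff]
      simp
    by_cases hi : (i : ℕ) = 0
    · rw [if_pos (hiff.2 hi)] at h1
      rw [if_pos hi]; exact h1
    · rw [if_neg (fun hh => hi (hiff.1 hh))] at h1
      rw [if_neg hi]; exact h1
  · have hi0 : (i : ℕ) ≠ 0 := by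
      intro hi
      have := k.2
      omega
    have hm : (i : ℕ) + (k : ℕ) - p < p := by
      have := i.2
      have := k.2
      omega
    have h1 := mul_basis_ge h he hT i k ⟨(i : ℕ) + (k : ℕ) - p, hm⟩ (by simp only; omega) k.succ
    rw [Module.Basis.repr_self, Finsupp.single_apply] at h1
    have hne : ¬ (Fin.succ ⟨(i : ℕ) + (k : ℕ) - p, hm⟩ = k.succ) := by
      rw [Fin.succ_inj, Fin.ext_iff]
      simp only
      have := i.2
      omega
    rw [if_neg hne, mul_zero] at h1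
    rw [if_neg hi0]; exact h1

/-- `Tr ((1 - e) θ^i) ∈ ϖ O`. -/
theorem trace_basis_succ_dv (i : Fin p) :
    Dv O ϖ (Algebra.leftMulMatrix (h.basis he hT) (h.basis he hT i.succ)).trace := by
  rw [Matrix.trace, Fin.sum_univ_succ]
  simp only [Matrix.diag_apply]
  refine Dv.add ?_ ?_
  · rw [Algebra.leftMulMatrix_eq_repr_mul]
    apply repr_dv_one h he hT
    · rw [basis_succ, basis_zero]
      exact Dv.mul_right he.mem₁
        (Dv.mul_right (pow_mem h.θ_mem₁ _) (one_sub_dv_pi h he hT))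
    · rw [basis_succ, basis_zero]
      exact Dv.mul_left (mul_mem (sub_mem (one_mem _) he.mem₂) (pow_mem h.θ_mem₂ _))
        (e_dv_pi h he hT)
  · have hsplit : ∑ k : Fin p,
        Algebra.leftMulMatrix (h.basis he hT) (h.basis he hT i.succ) k.succ k.succ =
        (∑ k : Fin p,
          (Algebra.leftMulMatrix (h.basis he hT) (h.basis he hT i.succ) k.succ k.succ -
            (if (i : ℕ) = 0 then 1 else 0))) + (p : K) * (if (i : ℕ) = 0 then 1 else 0) := by
      rw [Finset.sum_sub_distrib, Finset.sum_const, Finset.card_univ, Fintype.card_fin,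
        nsmul_eq_mul]
      ring
    rw [hsplit]
    refine Dv.add (Dv.sum _ _ fun k _ => diag_basis_succ h he hT i k) ?_
    refine Dv.mul_right ?_ h.char_p
    split_ifs
    · exact one_mem _
    · exact zero_mem _

/-- **Trace lemma.**  `η ∈ V₂`, `η ∈ π V₁`  ⟹  the trace of the multiplication matrix of `η` is
divisible by `ϖ`. -/
theorem trace_dv {η : F} (hη₁ : Dv V₁ (algebraMap K F ϖ) η) (hη₂ : η ∈ V₂) :
    Dv O ϖ (Algebra.leftMulMatrix (h.basis he hT) η).trace := by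
  have hη₁' : η ∈ V₁ := Dv.mem_of h.unif₁.mem hη₁
  have hη : η = ∑ l, (h.basis he hT).repr η l • h.basis he hT l :=
    ((h.basis he hT).sum_repr η).symm
  have hX : Algebra.leftMulMatrix (h.basis he hT) η =
      ∑ l, (h.basis he hT).repr η l • Algebra.leftMulMatrix (h.basis he hT) (h.basis he hT l) := by
    conv_lhs => rw [hη]
    rw [map_sum]
    refine Finset.sum_congr rfl fun l _ => ?_
    rw [map_smul]
  rw [hX, Matrix.trace_sum]
  refine Dv.sum _ _ fun l _ => ?_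
  rw [Matrix.trace_smul, smul_eq_mul]
  refine Fin.cases ?_ (fun i => ?_) l
  · -- l = 0
    refine Dv.mul_right ?_ (repr_zero_dv_of_dv h he hT hη₁ hη₂)
    exact sum_mem fun j _ => leftMulMatrix_mem h he hT (basis_mem₁ h he hT 0)
      (basis_mem₂ h he hT 0) j j
  · exact Dv.mul_left (repr_mem h he hT hη₁' hη₂ _) (trace_basis_succ_dv h he hT i)

end

end NLSetting

end Part4

/-! ## Part 5: NormLoc -/

section Part5

open Fermat.Agent.A2.H48 Matrix

variable {K F : Type*} [Field K] [Field F] [Algebra K F]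
variable {O : ValuationSubring K} {V₁ V₂ : ValuationSubring F} {ϖ : K} {p : ℕ} {θ : F} {g : K}

namespace NLSetting

/-- **Contraction.**  `u ∈ 1 + π^(s+1) V₁`, `u ∈ 1 + π^s V₂`, `s ≥ 1` ⟹ `N(u) ∈ 1 + ϖ^(s+1) O`. -/
theorem norm_sub_one_dv (h : NLSetting O V₁ V₂ ϖ p θ g) {s : ℕ} (hs : 1 ≤ s) {u : F}
    (hu₁ : Dv V₁ (algebraMap K F ϖ ^ (s + 1)) (u - 1))
    (hu₂ : Dv V₂ (algebraMap K F ϖ ^ s) (u - 1)) :
    Dv O (ϖ ^ (s + 1)) (Algebra.norm K u - 1) := by
  obtain ⟨e, he⟩ := h.exists_isIdem 1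
  have hT : 1 ≤ 1 := le_rfl
  obtain ⟨η, hη₂, hη⟩ := hu₂
  obtain ⟨η₁, hη₁, hη'⟩ := hu₁
  have hπ := h.pi_ne_zero
  have hηη : η = algebraMap K F ϖ * η₁ := by
    have : algebraMap K F ϖ ^ s * η = algebraMap K F ϖ ^ s * (algebraMap K F ϖ * η₁) := by
      rw [← hη, hη', pow_succ]; ring
    exact mul_left_cancel₀ (pow_ne_zero s hπ) this
  have hdv : Dv V₁ (algebraMap K F ϖ) η := ⟨η₁, hη₁, hηη⟩
  have hu : u = 1 + (ϖ ^ s) • η := by
    rw [Algebra.smul_def, map_pow, ← hη]; ring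
  rw [Algebra.norm_eq_matrix_det (h.basis he hT), hu, map_add, map_one, map_smul]
  exact det_one_add_smul_dv_succ O h.unifO.mem hs _
    (fun i j => leftMulMatrix_mem h he hT (Dv.mem_of h.unif₁.mem hdv) hη₂ i j)
    (trace_dv h he hT hdv hη₂)

/-- Auxiliary: if `x ≡ 1 mod π^m V` and `ϖ^n · t ∈ O` then `π^n (t x - 1) ∈ V`. -/
theorem aux_scale {V : ValuationSubring F} (hV : IsUnif V (algebraMap K F ϖ))
    (le : ∀ a ∈ O, algebraMap K F a ∈ V) {m n : ℕ} {x : F} {t : K}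
    (hx : Dv V (algebraMap K F ϖ ^ m) (x - 1)) (ht : ϖ ^ n * t ∈ O) :
    algebraMap K F ϖ ^ n * (algebraMap K F t * x - 1) ∈ V := by
  have hxV : x ∈ V := by
    have := Dv.mem_of (pow_mem hV.mem m) hx
    have h2 : x = (x - 1) + 1 := by ring
    rw [h2]; exact add_mem this (one_mem _)
  have h1 : algebraMap K F ϖ ^ n * algebraMap K F t ∈ V := by
    have := le _ ht
    rwa [map_mul, map_pow] at this
  have : algebraMap K F ϖ ^ n * (algebraMap K F t * x - 1) =
      algebraMap K F ϖ ^ n * algebraMap K F t * x - algebraMap K F ϖ ^ n := by ring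
  rw [this]
  exact sub_mem (mul_mem h1 hxV) (pow_mem hV.mem n)

/-- **Locally constant elements.**  `r/ρ₁ ∈ 1 + π^m V₁`, `r/ρ₂ ∈ 1 + π^m V₂`
⟹ `N(r)/(ρ₁ ρ₂^p) ∈ 1 + ϖ^m O`. -/
theorem norm_locconst_dv (h : NLSetting O V₁ V₂ ϖ p θ g) {m : ℕ} {r : F} {ρ₁ ρ₂ : K}
    (hρ₁ : ρ₁ ≠ 0) (hρ₂ : ρ₂ ≠ 0)
    (hr₁ : Dv V₁ (algebraMap K F ϖ ^ m) (r * (algebraMap K F ρ₁)⁻¹ - 1))
    (hr₂ : Dv V₂ (algebraMap K F ϖ ^ m) (r * (algebraMap K F ρ₂)⁻¹ - 1)) :
    Dv O (ϖ ^ m) (Algebra.norm K r * (ρ₁ * ρ₂ ^ p)⁻¹ - 1) := by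
  classical
  have hπ := h.pi_ne_zero
  have hϖ := h.unifO.ne_zero
  obtain ⟨n₁, hn₁⟩ := h.arch (ρ₂ * ρ₁⁻¹)
  obtain ⟨n₂, hn₂⟩ := h.arch (ρ₁ * ρ₂⁻¹)
  set T := m + n₁ + n₂ + 1 with hTdef
  have hT : 1 ≤ T := by omega
  obtain ⟨e, he⟩ := h.exists_isIdem T
  set B := h.basis he hT with hB
  set π := algebraMap K F ϖ with hπdef
  have hR₁ : algebraMap K F ρ₁ ≠ 0 := by
    rw [Ne, map_eq_zero]; exact hρ₁
  have hR₂ : algebraMap K F ρ₂ ≠ 0 := by
    rw [Ne, map_eq_zero]; exact hρ₂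
  -- the scaling vector
  set d : Fin (p + 1) → K := Fin.cons ρ₁ (fun _ => ρ₂) with hd
  have hd0 : d 0 = ρ₁ := rfl
  have hds : ∀ i : Fin p, d i.succ = ρ₂ := fun i => by simp [d]
  have hdne : ∀ j, d j ≠ 0 := by
    intro j
    refine Fin.cases ?_ (fun i => ?_) j
    · rw [hd0]; exact hρ₁
    · rw [hds]; exact hρ₂
  -- the integral elements
  set z : Fin (p + 1) → F := fun j => (r * (algebraMap K F (d j))⁻¹ - 1) * B j * (π ^ m)⁻¹
    with hz
  have hz₁ : ∀ j, z j ∈ V₁ := by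
    intro j
    refine Fin.cases ?_ (fun i => ?_) j
    · -- j = 0
      obtain ⟨y, hy, hyy⟩ := hr₁
      have : z 0 = y * e := by
        simp only [hz, hd0, hB, basis_zero]
        rw [hyy]; field_simp
      rw [this]; exact mul_mem hy he.mem₁
    · -- j = i.succ: use the idempotent
      obtain ⟨e'', he'', hee⟩ := one_sub_dv₁ h he
      have hx : r * (algebraMap K F ρ₂)⁻¹ =
          algebraMap K F (ρ₁ * ρ₂⁻¹) * (r * (algebraMap K F ρ₁)⁻¹) := by
        rw [map_mul, map_inv₀]; field_simp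
      have h1 := aux_scale (n := n₂) h.unif₁ h.le₁ hr₁ hn₂
      rw [← hx] at h1
      have : z i.succ = (π ^ n₂ * (r * (algebraMap K F ρ₂)⁻¹ - 1)) *
          (π ^ (n₁ + 1) * (e'' * θ ^ (i : ℕ))) := by
        simp only [hz, hds, hB, basis_succ]
        rw [hee, hTdef]
        field_simp
        ring
      rw [this]
      exact mul_mem h1 (mul_mem (pow_mem h.unif₁.mem _) (mul_mem he'' (pow_mem h.θ_mem₁ _)))
  have hz₂ : ∀ j, z j ∈ V₂ := by
    intro j
    refine Fin.cases ?_ (fun i => ?_) j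
    · obtain ⟨e', he', hee⟩ := he.dv₂
      have hx : r * (algebraMap K F ρ₁)⁻¹ =
          algebraMap K F (ρ₂ * ρ₁⁻¹) * (r * (algebraMap K F ρ₂)⁻¹) := by
        rw [map_mul, map_inv₀]; field_simp
      have h1 := aux_scale (n := n₁) h.unif₂ h.le₂ hr₂ hn₁
      rw [← hx] at h1
      have : z 0 = (π ^ n₁ * (r * (algebraMap K F ρ₁)⁻¹ - 1)) * (π ^ (n₂ + 1) * e') := by
        simp only [hz, hd0, hB, basis_zero]
        rw [hee, hTdef]
        field_simp
        ring
      rw [this]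
      exact mul_mem h1 (mul_mem (pow_mem h.unif₂.mem _) he')
    · obtain ⟨y, hy, hyy⟩ := hr₂
      have : z i.succ = y * ((1 - e) * θ ^ (i : ℕ)) := by
        simp only [hz, hds, hB, basis_succ]
        rw [hyy]; field_simp
      rw [this]
      exact mul_mem hy (mul_mem (sub_mem (one_mem _) he.mem₂) (pow_mem h.θ_mem₂ _))
  -- the matrix identity
  set X : Matrix (Fin (p + 1)) (Fin (p + 1)) K := fun i j => B.repr (z j) i with hX
  have hXmem : ∀ i j, X i j ∈ O := fun i j => repr_mem h he hT (hz₁ j) (hz₂ j) i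
  have hmat : Algebra.leftMulMatrix B r = (1 + ϖ ^ m • X) * Matrix.diagonal d := by
    ext i j
    rw [Algebra.leftMulMatrix_eq_repr_mul, Matrix.mul_diagonal, Matrix.add_apply,
      Matrix.smul_apply, smul_eq_mul]
    have hrB : r * B j = (d j) • B j + (d j * ϖ ^ m) • z j := by
      simp only [hz, Algebra.smul_def, map_mul, map_pow]
      have := hdne j
      have hdj : algebraMap K F (d j) ≠ 0 := by rw [Ne, map_eq_zero]; exact this
      field_simp
      ring
    rw [hrB, map_add, map_smul, map_smul, Module.Basis.repr_self, Finsupp.add_apply,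
      Finsupp.smul_apply, Finsupp.smul_apply, Finsupp.single_apply, Matrix.one_apply,
      smul_eq_mul, smul_eq_mul]
    by_cases hij : i = j
    · subst hij; simp only [if_true]; ring
    · rw [if_neg hij, if_neg (fun hh => hij hh.symm)]; ring
  have hprod : ∏ j, d j = ρ₁ * ρ₂ ^ p := by
    rw [Fin.prod_univ_succ, hd0]
    simp only [hds, Finset.prod_const, Finset.card_univ, Fintype.card_fin]
  have hne : ρ₁ * ρ₂ ^ p ≠ 0 := mul_ne_zero hρ₁ (pow_ne_zero _ hρ₂)
  rw [Algebra.norm_eq_matrix_det B, hmat, Matrix.det_mul, Matrix.det_diagonal, hprod,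
    mul_assoc, mul_inv_cancel₀ hne, mul_one]
  exact det_one_add_smul_dv O (pow_mem h.unifO.mem m) X hXmem

/-- **NORM-LOC.**  `u/v ∈ 1 + π^(s+1) V₁`, `u/c ∈ 1 + π^s V₂`, `s ≥ 1`, `v, c ∈ Kˣ`
⟹ `N(u)/(v c^p) ∈ 1 + ϖ^(s+1) O`. -/
theorem norm_loc (h : NLSetting O V₁ V₂ ϖ p θ g) {s : ℕ} (hs : 1 ≤ s) {u : F} {c v : K}
    (hc : c ≠ 0) (hv : v ≠ 0)
    (hu₁ : Dv V₁ (algebraMap K F ϖ ^ (s + 1)) (u * (algebraMap K F v)⁻¹ - 1))
    (hu₂ : Dv V₂ (algebraMap K F ϖ ^ s) (u * (algebraMap K F c)⁻¹ - 1)) :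
    Dv O (ϖ ^ (s + 1)) (Algebra.norm K u * (v * c ^ p)⁻¹ - 1) := by
  have hπ := h.pi_ne_zero
  obtain ⟨n, hn⟩ := h.arch (c * v⁻¹)
  obtain ⟨n', hn'⟩ := h.arch (v * c⁻¹)
  set T := s + 1 + n + n' with hTdef
  obtain ⟨e, he⟩ := h.exists_isIdem T
  set π := algebraMap K F ϖ with hπdef
  have hC : algebraMap K F c ≠ 0 := by rw [Ne, map_eq_zero]; exact hc
  have hV : algebraMap K F v ≠ 0 := by rw [Ne, map_eq_zero]; exact hv
  set r : F := algebraMap K F v * e + algebraMap K F c * (1 - e) with hr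
  -- r ≈ (v, c) to order s + 1
  have hr₁ : Dv V₁ (π ^ (s + 1)) (r * (algebraMap K F v)⁻¹ - 1) := by
    obtain ⟨e'', he'', hee⟩ := one_sub_dv₁ h he
    have h1 : π ^ n * (algebraMap K F (c * v⁻¹) * 1 - 1) ∈ V₁ :=
      aux_scale (m := 0) (x := 1) h.unif₁ h.le₁ (by simpa using Dv.zero) hn
    refine ⟨(π ^ n * (algebraMap K F (c * v⁻¹) * 1 - 1)) * (π ^ n' * e''),
      mul_mem h1 (mul_mem (pow_mem h.unif₁.mem _) he''), ?_⟩
    have : r * (algebraMap K F v)⁻¹ - 1 = (1 - e) * (algebraMap K F (c * v⁻¹) * 1 - 1) := by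
      rw [hr, map_mul, map_inv₀]; field_simp; ring
    rw [this, hee, hTdef]
    ring
  have hr₂ : Dv V₂ (π ^ (s + 1)) (r * (algebraMap K F c)⁻¹ - 1) := by
    obtain ⟨e', he', hee⟩ := he.dv₂
    have h1 : π ^ n' * (algebraMap K F (v * c⁻¹) * 1 - 1) ∈ V₂ :=
      aux_scale (m := 0) (x := 1) h.unif₂ h.le₂ (by simpa using Dv.zero) hn'
    refine ⟨(π ^ n' * (algebraMap K F (v * c⁻¹) * 1 - 1)) * (π ^ n * e'),
      mul_mem h1 (mul_mem (pow_mem h.unif₂.mem _) he'), ?_⟩
    have : r * (algebraMap K F c)⁻¹ - 1 = e * (algebraMap K F (v * c⁻¹) * 1 - 1) := by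
      rw [hr, map_mul, map_inv₀]; field_simp; ring
    rw [this, hee, hTdef]
    ring
  have hN := norm_locconst_dv h hv hc hr₁ hr₂
  -- r ≠ 0
  have hr0 : r ≠ 0 := by
    have h1 : Dv V₁ π (r * (algebraMap K F v)⁻¹ - 1) :=
      Dv.of_pow h.unif₁.mem (by omega) hr₁
    have := ne_zero_of_dv_sub_one h.unif₁ h1
    exact left_ne_zero_of_mul this
  -- u' = u / r
  have hu'₁ : Dv V₁ (π ^ (s + 1)) (u * r⁻¹ - 1) := by
    have h1 := dv_inv_sub_one h.unif₁ (n := s + 1) (by omega) hr₁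
    have h2 := dv_mul_sub_one h.unif₁ hu₁ h1
    have : u * (algebraMap K F v)⁻¹ * (r * (algebraMap K F v)⁻¹)⁻¹ = u * r⁻¹ := by
      field_simp
    rwa [this] at h2
  have hu'₂ : Dv V₂ (π ^ s) (u * r⁻¹ - 1) := by
    have h1 := dv_inv_sub_one h.unif₂ (n := s + 1) (by omega) hr₂
    have h1' := Dv.pow_mono h.unif₂.mem (Nat.le_succ s) h1
    have h2 := dv_mul_sub_one h.unif₂ hu₂ h1'
    have : u * (algebraMap K F c)⁻¹ * (r * (algebraMap K F c)⁻¹)⁻¹ = u * r⁻¹ := by
      field_simp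
    rwa [this] at h2
  have hN' := norm_sub_one_dv h hs hu'₁ hu'₂
  have hmul := dv_mul_sub_one h.unifO hN' hN
  have hu : u = u * r⁻¹ * r := by field_simp
  have : Algebra.norm K (u * r⁻¹) * (Algebra.norm K r * (v * c ^ p)⁻¹) =
      Algebra.norm K u * (v * c ^ p)⁻¹ := by
    rw [← mul_assoc, ← map_mul, ← hu]
  rwa [this] at hmul

end NLSetting

end Part5

/-! ## Part 6: NormLocApprox -/

section Part6

open Fermat.Agent.A2.H48

variable {K F : Type*} [Field K] [Field F] [Algebra K F]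
variable {O : ValuationSubring K} {V₁ V₂ : ValuationSubring F} {ϖ : K} {p : ℕ} {θ : F} {g : K}

namespace NLSetting

theorem finiteDimensional (h : NLSetting O V₁ V₂ ϖ p θ g) : FiniteDimensional K F :=
  Module.finite_of_finrank_pos (by rw [h.card]; omega)

/-- Residue degree one at `V₁`. -/
theorem exists_res (h : NLSetting O V₁ V₂ ϖ p θ g) {f : F} (hf : f ∈ V₁) :
    ∃ a ∈ O, Dv V₁ (algebraMap K F ϖ) (f - algebraMap K F a) := by
  have := h.finiteDimensional
  have hπ := h.pi_ne_zero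
  obtain ⟨e, he⟩ := h.exists_isIdem 1
  have hT : 1 ≤ 1 := le_rfl
  obtain ⟨k, hk⟩ := exists_pow_mul_mem h.unifO.mem h.arch V₂ h.le₂
    (Algebra.IsIntegral.isIntegral (R := K) f)
  obtain ⟨f', hf'1, hf'2, hf'3⟩ := exists_approx h.unif₁ h.unif₂ h.ne hf hk
  have hf'V₂ : f' ∈ V₂ := Dv.mem_of h.unif₂.mem ((Dv.iff_mul_inv hπ).2 hf'3)
  refine ⟨(h.basis he hT).repr f' 0, repr_mem h he hT hf'1 hf'V₂ 0, ?_⟩
  have h1 := repr_zero_dv h he hT hf'1 hf'V₂
  have h2 : Dv V₁ (algebraMap K F ϖ) (f' - f) := (Dv.iff_mul_inv hπ).2 hf'2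
  have : f - algebraMap K F ((h.basis he hT).repr f' 0) =
      (f' - algebraMap K F ((h.basis he hT).repr f' 0)) - (f' - f) := by ring
  rw [this]
  exact h1.sub h2

/-- Additive approximation to any order at `V₁`. -/
theorem exists_approx_add (h : NLSetting O V₁ V₂ ϖ p θ g) (s : ℕ) {f : F} (hf : f ∈ V₁) :
    ∃ a ∈ O, Dv V₁ (algebraMap K F ϖ ^ s) (f - algebraMap K F a) := by
  induction s with
  | zero =>
    refine ⟨0, zero_mem _, ?_⟩
    rw [pow_zero, map_zero, sub_zero]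
    exact Dv.of_mem hf
  | succ s ih =>
    obtain ⟨a, ha, y, hy, hya⟩ := ih
    obtain ⟨b, hb, z, hz, hzb⟩ := h.exists_res hy
    refine ⟨a + ϖ ^ s * b, add_mem ha (mul_mem (pow_mem h.unifO.mem _) hb), z, hz, ?_⟩
    rw [map_add, map_mul, map_pow, pow_succ]
    have : f - (algebraMap K F a + algebraMap K F ϖ ^ s * algebraMap K F b) =
        (f - algebraMap K F a) - algebraMap K F ϖ ^ s * algebraMap K F b := by ring
    rw [this, hya]
    have hy' : y = algebraMap K F b + algebraMap K F ϖ * z := by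
      rw [← hzb]; ring
    rw [hy']; ring

/-- Every nonzero element of `V₁` is a power of the uniformiser times a unit. -/
theorem exists_pow_unit (h : NLSetting O V₁ V₂ ϖ p θ g) {u : F} (hu : u ≠ 0) (huV : u ∈ V₁) :
    ∃ (k : ℕ) (w : F), w ∈ V₁ ∧ w⁻¹ ∈ V₁ ∧ u = algebraMap K F ϖ ^ k * w := by
  classical
  have := h.finiteDimensional
  have hπ := h.pi_ne_zero
  have hex : ∃ k : ℕ, algebraMap K F ϖ ^ k * u⁻¹ ∈ V₁ :=
    exists_pow_mul_mem h.unifO.mem h.arch V₁ h.le₁ (Algebra.IsIntegral.isIntegral (R := K) u⁻¹)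
  set k := Nat.find hex with hk
  have hk1 : algebraMap K F ϖ ^ k * u⁻¹ ∈ V₁ := Nat.find_spec hex
  refine ⟨k, (algebraMap K F ϖ ^ k * u⁻¹)⁻¹, ?_, ?_, ?_⟩
  · -- the inverse is integral: else `π^k u⁻¹ ∈ π V₁`
    by_contra hcon
    have h2 := h.unif₁.gen _ hk1 hcon
    rcases Nat.eq_zero_or_pos k with h0 | hpos
    · -- k = 0: u⁻¹ ∈ V₁ and u ∈ V₁
      apply hcon
      rw [h0, pow_zero, one_mul, inv_inv]
      exact huV
    · have hlt : k - 1 < k := by omega
      apply Nat.find_min hex hlt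
      have : algebraMap K F ϖ ^ (k - 1) * u⁻¹ =
          algebraMap K F ϖ ^ k * u⁻¹ * (algebraMap K F ϖ)⁻¹ := by
        obtain ⟨j, hj⟩ : ∃ j, k = j + 1 := ⟨k - 1, by omega⟩
        rw [hj, Nat.add_sub_cancel, pow_succ]
        field_simp
      rw [this]
      exact h2
  · rw [inv_inv]; exact hk1
  · field_simp

/-- Multiplicative approximation to any order at `V₁` by elements of `Kˣ`. -/
theorem exists_approx_mul (h : NLSetting O V₁ V₂ ϖ p θ g) (s : ℕ) {u : F} (hu : u ≠ 0) :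
    ∃ v : K, v ≠ 0 ∧ Dv V₁ (algebraMap K F ϖ ^ s) (u * (algebraMap K F v)⁻¹ - 1) := by
  have hπ := h.pi_ne_zero
  have hϖ := h.unifO.ne_zero
  -- the case of a unit
  have hunit : ∀ w : F, w ∈ V₁ → w⁻¹ ∈ V₁ → w ≠ 0 →
      ∃ a : K, a ≠ 0 ∧ Dv V₁ (algebraMap K F ϖ ^ (s + 1)) (w * (algebraMap K F a)⁻¹ - 1) := by
    intro w hw hwinv hw0
    obtain ⟨a, ha, y, hy, hya⟩ := h.exists_approx_add (s + 1) hw
    have hay : algebraMap K F a = w * (1 - algebraMap K F ϖ ^ (s + 1) * (y * w⁻¹)) := by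
      field_simp
      rw [← hya]; ring
    have hdv : Dv V₁ (algebraMap K F ϖ ^ (s + 1))
        ((1 - algebraMap K F ϖ ^ (s + 1) * (y * w⁻¹)) - 1) :=
      ⟨-(y * w⁻¹), neg_mem (mul_mem hy hwinv), by ring⟩
    have hne : (1 - algebraMap K F ϖ ^ (s + 1) * (y * w⁻¹)) ≠ 0 :=
      ne_zero_of_dv_sub_one h.unif₁ (Dv.of_pow h.unif₁.mem (by omega) hdv)
    have ha0 : a ≠ 0 := by
      intro h0
      rw [h0, map_zero] at hay
      rcases mul_eq_zero.1 hay.symm with h1 | h1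
      · exact hw0 h1
      · exact hne h1
    refine ⟨a, ha0, ?_⟩
    have := dv_inv_sub_one h.unif₁ (n := s + 1) (by omega) hdv
    have e1 : w * (algebraMap K F a)⁻¹ =
        (1 - algebraMap K F ϖ ^ (s + 1) * (y * w⁻¹))⁻¹ := by
      rw [hay]; field_simp
    rw [e1]; exact this
  -- integral case
  have hint : ∀ u : F, u ≠ 0 → u ∈ V₁ →
      ∃ v : K, v ≠ 0 ∧ Dv V₁ (algebraMap K F ϖ ^ (s + 1)) (u * (algebraMap K F v)⁻¹ - 1) := by
    intro u hu huV
    obtain ⟨k, w, hw, hwinv, huw⟩ := h.exists_pow_unit hu huV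
    have hw0 : w ≠ 0 := by
      rintro rfl
      rw [mul_zero] at huw
      exact hu huw
    obtain ⟨a, ha0, hdv⟩ := hunit w hw hwinv hw0
    refine ⟨ϖ ^ k * a, mul_ne_zero (pow_ne_zero _ hϖ) ha0, ?_⟩
    have hA : algebraMap K F a ≠ 0 := by rw [Ne, map_eq_zero]; exact ha0
    have : u * (algebraMap K F (ϖ ^ k * a))⁻¹ = w * (algebraMap K F a)⁻¹ := by
      rw [huw, map_mul, map_pow]; field_simp
    rw [this]; exact hdv
  rcases V₁.mem_or_inv_mem u with huV | huV
  · obtain ⟨v, hv, hdv⟩ := hint u hu huV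
    exact ⟨v, hv, Dv.pow_mono h.unif₁.mem (Nat.le_succ s) hdv⟩
  · obtain ⟨v, hv, hdv⟩ := hint u⁻¹ (inv_ne_zero hu) huV
    refine ⟨v⁻¹, inv_ne_zero hv, ?_⟩
    have h1 := dv_inv_sub_one h.unif₁ (n := s + 1) (by omega) hdv
    have hV : algebraMap K F v ≠ 0 := by rw [Ne, map_eq_zero]; exact hv
    have : (u⁻¹ * (algebraMap K F v)⁻¹)⁻¹ = u * (algebraMap K F v⁻¹)⁻¹ := by
      rw [map_inv₀]; field_simp
    rw [this] at h1
    exact Dv.pow_mono h.unif₁.mem (Nat.le_succ s) h1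

end NLSetting

end Part6

/-! ## Part 7: NormPingPong -/

section Part7

open Fermat.Agent.A2.H48

variable {K L : Type*} [Field K] [Field L]

/-- One side of the ping-pong. -/
structure Side (O : ValuationSubring K) (Vd Vi : ValuationSubring L) (ϖ : K) (p : ℕ)
    (φ : K →+* L) (N : L →* K) : Prop where
  unifO : IsUnif O ϖ
  unif_d : IsUnif Vd (φ ϖ)
  unif_i : IsUnif Vi (φ ϖ)
  le_d : ∀ a ∈ O, φ a ∈ Vd
  norm_base : ∀ a : K, N (φ a) = a ^ (p + 1)
  approx : ∀ (s : ℕ) (u : L), u ≠ 0 → ∃ v : K, v ≠ 0 ∧ Dv Vd (φ ϖ ^ s) (u * (φ v)⁻¹ - 1)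
  loc : ∀ (s : ℕ), 1 ≤ s → ∀ (u : L) (c v : K), c ≠ 0 → v ≠ 0 →
    Dv Vd (φ ϖ ^ (s + 1)) (u * (φ v)⁻¹ - 1) → Dv Vi (φ ϖ ^ s) (u * (φ c)⁻¹ - 1) →
    Dv O (ϖ ^ (s + 1)) (N u * (v * c ^ p)⁻¹ - 1)

/-- The setting `NLSetting` gives a side (degree-one place `V₁`, inseparable place `V₂`). -/
theorem NLSetting.side {K F : Type*} [Field K] [Field F] [Algebra K F]
    {O : ValuationSubring K} {V₁ V₂ : ValuationSubring F} {ϖ : K} {p : ℕ} {θ : F} {g : K}
    (h : NLSetting O V₁ V₂ ϖ p θ g) :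
    Side O V₁ V₂ ϖ p (algebraMap K F) (Algebra.norm K) where
  unifO := h.unifO
  unif_d := h.unif₁
  unif_i := h.unif₂
  le_d := h.le₁
  norm_base := fun a => by
    have := h.finiteDimensional
    rw [Algebra.norm_algebraMap, h.card]
  approx := fun s _ hu => h.exists_approx_mul s hu
  loc := fun _ hs _ _ _ hc hv h1 h2 => h.norm_loc hs hc hv h1 h2

/-- `u ∈ ι(C) · (Lˣ)^p · (1 + π^s V)`. -/
def Depth (V : ValuationSubring L) (π : L) (p : ℕ) (ι : K →+* L) (C : Set K) (s : ℕ)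
    (u : L) : Prop :=
  ∃ c ∈ C, ∃ g : L, g ≠ 0 ∧ Dv V (π ^ s) (u * (ι c * g ^ p)⁻¹ - 1)

/-- `N u ∈ C · (Kˣ)^p`. -/
def IsPthNorm (N : L →* K) (p : ℕ) (C : Set K) (u : L) : Prop :=
  ∃ c ∈ C, ∃ h : K, h ≠ 0 ∧ N u = c * h ^ p

/-- A multiplicatively closed set of nonzero constants. -/
structure IsConstSet (C : Set K) : Prop where
  ne_zero : ∀ c ∈ C, c ≠ 0
  mul_mem : ∀ c ∈ C, ∀ d ∈ C, c * d ∈ C
  inv_mem : ∀ c ∈ C, c⁻¹ ∈ C

theorem Depth.mono {V : ValuationSubring L} {π : L} {p : ℕ} {ι : K →+* L} {C : Set K}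
    (hπ : π ∈ V) {s t : ℕ} (hst : s ≤ t) {u : L} (h : Depth V π p ι C t u) :
    Depth V π p ι C s u := by
  obtain ⟨c, hc, g, hg, hdv⟩ := h
  exact ⟨c, hc, g, hg, Dv.pow_mono hπ hst hdv⟩

section MonoidHom

theorem norm_ne_zero_of_ne_zero (N : L →* K) {x : L} (hx : x ≠ 0) : N x ≠ 0 := by
  intro h0
  have h1 : N (x * x⁻¹) = 1 := by rw [mul_inv_cancel₀ hx, map_one]
  rw [map_mul, h0, zero_mul] at h1
  exact zero_ne_one h1

theorem norm_inv_of_ne_zero (N : L →* K) {x : L} (hx : x ≠ 0) : N x⁻¹ = (N x)⁻¹ := by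
  have h1 : N (x * x⁻¹) = 1 := by rw [mul_inv_cancel₀ hx, map_one]
  rw [map_mul] at h1
  exact eq_inv_of_mul_eq_one_right h1

end MonoidHom

theorem ringHom_dv {O : ValuationSubring K} {V : ValuationSubring L} (φ : K →+* L)
    (le : ∀ a ∈ O, φ a ∈ V) {a c : K} (ha : Dv O c a) : Dv V (φ c) (φ a) := by
  obtain ⟨b, hb, rfl⟩ := ha
  exact ⟨φ b, le b hb, by rw [map_mul]⟩

/-- **One step of the ping-pong.** -/
theorem Side.step {O : ValuationSubring K} {Vd Vi : ValuationSubring L} {ϖ : K} {p : ℕ}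
    {φ : K →+* L} {N : L →* K} (hS : Side O Vd Vi ϖ p φ N)
    {ι : K →+* L} {C : Set K} (hC : IsConstSet C) (hφι : ∀ c ∈ C, φ c = ι c)
    {s : ℕ} (hs : 1 ≤ s) {u : L} (hN : IsPthNorm N p C u)
    (hd : Depth Vi (φ ϖ) p ι C s u) : Depth Vd (φ ϖ) p ι C (s + 1) u := by
  obtain ⟨c, hc, g, hg, hdv⟩ := hd
  obtain ⟨c₁, hc₁, h₁, hh₁, hNu⟩ := hN
  have hc0 := hC.ne_zero c hc
  have hc₁0 := hC.ne_zero c₁ hc₁
  have hιc : ι c ≠ 0 := by rw [← hφι c hc, Ne, map_eq_zero]; exact hc0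
  have hx0 : ι c * g ^ p ≠ 0 := mul_ne_zero hιc (pow_ne_zero _ hg)
  set u' : L := u * (ι c * g ^ p)⁻¹ with hu'
  have hu'0 : u' ≠ 0 :=
    ne_zero_of_dv_sub_one hS.unif_i (Dv.of_pow hS.unif_i.mem hs hdv)
  -- the norm of u'
  have hNg : N g ≠ 0 := norm_ne_zero_of_ne_zero N hg
  have hNu' : N u' = (c₁ * c⁻¹) * (h₁ * (c * N g)⁻¹) ^ p := by
    rw [hu', map_mul, norm_inv_of_ne_zero N hx0, map_mul, map_pow, ← hφι c hc, hS.norm_base,
      hNu, pow_succ, mul_pow, inv_pow, mul_pow]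
    field_simp
  set c₂ : K := c₁ * c⁻¹ with hc₂
  set h₂ : K := h₁ * (c * N g)⁻¹ with hh₂
  have hc₂C : c₂ ∈ C := hC.mul_mem _ hc₁ _ (hC.inv_mem _ hc)
  have hc₂0 : c₂ ≠ 0 := hC.ne_zero _ hc₂C
  have hh₂0 : h₂ ≠ 0 := mul_ne_zero hh₁ (inv_ne_zero (mul_ne_zero hc0 hNg))
  -- approximation at the degree-one place
  obtain ⟨v, hv0, hv⟩ := hS.approx (s + 1) u' hu'0
  have hloc := hS.loc s hs u' 1 v one_ne_zero hv0 hv (by simpa using hdv)
  rw [one_pow, mul_one, hNu'] at hloc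
  have hmap := ringHom_dv φ hS.le_d hloc
  rw [map_sub, map_one, map_mul, map_mul, map_pow, map_inv₀, map_pow] at hmap
  have hφv : φ v ≠ 0 := by rw [Ne, map_eq_zero]; exact hv0
  have hφc₂ : φ c₂ ≠ 0 := by rw [Ne, map_eq_zero]; exact hc₂0
  have hφh₂ : φ h₂ ≠ 0 := by rw [Ne, map_eq_zero]; exact hh₂0
  have hinv := dv_inv_sub_one hS.unif_d (n := s + 1) (by omega) hmap
  have hprod := dv_mul_sub_one hS.unif_d hv hinv
  have e1 : u' * (φ v)⁻¹ * (φ c₂ * φ h₂ ^ p * (φ v)⁻¹)⁻¹ = u' * (φ c₂ * φ h₂ ^ p)⁻¹ := by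
    field_simp
  rw [e1] at hprod
  refine ⟨c * c₂, hC.mul_mem _ hc _ hc₂C, g * φ h₂, mul_ne_zero hg hφh₂, ?_⟩
  have e2 : u * (ι (c * c₂) * (g * φ h₂) ^ p)⁻¹ = u' * (φ c₂ * φ h₂ ^ p)⁻¹ := by
    rw [hu', map_mul, ← hφι c₂ hc₂C, mul_pow]
    field_simp
  rw [e2]
  exact hprod

/-- **Ping-pong (norm contraction).**  Two sides: `α` with degree-one place `V∞` and inseparable
place `V₀`; `β` with the roles exchanged.  If `N_α u` and `N_β u` are constants times `p`-th
powers and `u` has depth `≥ 1` at `V∞`, then `u` has every depth at `V∞` and at `V₀`. -/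
theorem pingpong_inf {O : ValuationSubring K} {Vinf V0 : ValuationSubring L} {ϖ : K} {p : ℕ}
    {α β : K →+* L} {Nα Nβ : L →* K}
    (hα : Side O Vinf V0 ϖ p α Nα) (hβ : Side O V0 Vinf ϖ p β Nβ)
    {C : Set K} (hC : IsConstSet C) (hαβ : ∀ c ∈ C, β c = α c) (hϖ : β ϖ = α ϖ)
    {u : L} (hNα : IsPthNorm Nα p C u) (hNβ : IsPthNorm Nβ p C u)
    (h1 : Depth Vinf (α ϖ) p α C 1 u) :
    ∀ s : ℕ, Depth Vinf (α ϖ) p α C s u ∧ Depth V0 (α ϖ) p α C s u := by
  have stepα : ∀ s, 1 ≤ s → Depth V0 (α ϖ) p α C s u → Depth Vinf (α ϖ) p α C (s + 1) u :=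
    fun s hs hd => hα.step hC (fun _ _ => rfl) hs hNα hd
  have stepβ : ∀ s, 1 ≤ s → Depth Vinf (α ϖ) p α C s u → Depth V0 (α ϖ) p α C (s + 1) u := by
    intro s hs hd
    have := hβ.step hC hαβ hs hNβ (by rw [hϖ]; exact hd)
    rwa [hϖ] at this
  have hπinf : α ϖ ∈ Vinf := hα.unif_d.mem
  have hπ0 : α ϖ ∈ V0 := hα.unif_i.mem
  have key : ∀ s : ℕ, Depth Vinf (α ϖ) p α C (s + 1) u ∧ Depth V0 (α ϖ) p α C (s + 1) u := by
    intro s
    induction s with
    | zero =>
      exact ⟨h1, Depth.mono hπ0 (Nat.le_succ 1) (stepβ 1 le_rfl h1)⟩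
    | succ s ih =>
      exact ⟨stepα (s + 1) (by omega) ih.2, stepβ (s + 1) (by omega) ih.1⟩
  intro s
  exact ⟨Depth.mono hπinf (Nat.le_succ s) (key s).1, Depth.mono hπ0 (Nat.le_succ s) (key s).2⟩

/-- The same, starting from depth `≥ 1` at `V₀`. -/
theorem pingpong_zero {O : ValuationSubring K} {Vinf V0 : ValuationSubring L} {ϖ : K} {p : ℕ}
    {α β : K →+* L} {Nα Nβ : L →* K}
    (hα : Side O Vinf V0 ϖ p α Nα) (hβ : Side O V0 Vinf ϖ p β Nβ)
    {C : Set K} (hC : IsConstSet C) (hαβ : ∀ c ∈ C, β c = α c) (hϖ : β ϖ = α ϖ)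
    {u : L} (hNα : IsPthNorm Nα p C u) (hNβ : IsPthNorm Nβ p C u)
    (h1 : Depth V0 (α ϖ) p α C 1 u) :
    ∀ s : ℕ, Depth Vinf (α ϖ) p α C s u ∧ Depth V0 (α ϖ) p α C s u := by
  have h2 : Depth Vinf (α ϖ) p α C 1 u :=
    Depth.mono hα.unif_d.mem (Nat.le_succ 1) (hα.step hC (fun _ _ => rfl) le_rfl hNα h1)
  exact pingpong_inf hα hβ hC hαβ hϖ hNα hNβ h2

end Part7

end Fermat.Agent.Ribet.H232

end
-- ===== PACK-END Ribet/H232/NormContraction.lean

-- ===== PACK-BEGIN S18/H576/Skel.lean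
section


/-!
# S18 / MOD-ASM (helper576): `node_mod` from field lemmas about the concrete objects

Skeleton: each `field_*` lemma below is one field (or group of fields) of
`Alg.GoodModel (Lc M) (Ec M E) (Fc M E) (Rc M A E) V w x S` for the concrete objects of
`Mod/Defs.lean`.  `goodModelStatement_of_fields` assembles them into `Mod.GoodModelStatement`.
-/

set_option autoImplicit false

noncomputable section

namespace Fermat.Agent.S18.H576

open ModularCurve AlgebraicCurve HahnSeries Fermat.Agent.S18 Fermat.Agent.S18.Mod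

/-- The part of `GoodModel` that does not mention `V`, `w`, `x`, `S`. -/
structure FieldFacts (M : ℕ) (A : ValuationSubring Qb) (E : IntermediateField ℚ Qb) : Prop where
  R_le : (Rc M A E : Set (Om M)) ⊆ Ec M E
  R_total : ∀ e ∈ Ec M E, e ∈ Rc M A E ∨ e⁻¹ ∈ Rc M A E
  E_le_L : Ec M E ≤ Lc M
  E_le_F : Ec M E ≤ Fc M E
  L_algebraic : ∀ a ∈ Lc M, IsAlgebraic (Ec M E) a
  L_algClosed : IsAlgClosed (Lc M)
  E_closed_in_F : ∀ f ∈ Fc M E, IsAlgebraic (Ec M E) f → f ∈ Ec M E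
  compositum : Subfield.closure ((Fc M E : Set (Om M)) ∪ Lc M) = ⊤

/-- The uniformiser facts. -/
structure UnifFacts (M : ℕ) (A : ValuationSubring Qb) (E : IntermediateField ℚ Qb)
    (w : Om M) : Prop where
  w_mem : w ∈ Rc M A E
  w_ne_zero : w ≠ 0
  w_inv_not_mem : w⁻¹ ∉ Rc M A E
  w_gen : ∀ r ∈ Rc M A E, r⁻¹ ∉ Rc M A E → r * w⁻¹ ∈ Rc M A E
  w_discrete : ∀ r ∈ Rc M A E, r ≠ 0 →
    ∃ n : ℕ, r * (w⁻¹) ^ n ∈ Rc M A E ∧ (r * (w⁻¹) ^ n)⁻¹ ∈ Rc M A E
  residue_perfect : ∃ p : ℕ, p.Prime ∧ (p : Om M) * w⁻¹ ∈ Rc M A E ∧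
    ∀ r ∈ Rc M A E, ∃ s ∈ Rc M A E, (r - s ^ p) * w⁻¹ ∈ Rc M A E

/-- The coordinate facts. -/
structure CoordFacts (M : ℕ) (E : IntermediateField ℚ Qb) (x : Om M) : Prop where
  x_mem : x ∈ Fc M E
  x_transcendental : Transcendental (Lc M) x
  finite : ∃ s : Finset (Om M), (s : Set (Om M)) ⊆ Fc M E ∧
    ∀ f ∈ Fc M E, f ∈ Submodule.span (Alg.ratField (Ec M E) x) (s : Set (Om M))

/-- The Gauss valuation ring facts. -/
structure ValFacts (M : ℕ) (A : ValuationSubring Qb) (E : IntermediateField ℚ Qb)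
    (V : Subring (Om M)) (w x : Om M) : Prop where
  V_le : (V : Set (Om M)) ⊆ Fc M E
  x_mem_V : x ∈ V
  V_total : ∀ f ∈ Fc M E, f ∈ V ∨ f⁻¹ ∈ V
  R_le_V : Rc M A E ≤ V
  w_inv_not_mem_V : w⁻¹ ∉ V
  V_gen : ∀ f ∈ V, f⁻¹ ∉ V → f * w⁻¹ ∈ V
  gauss : ∀ P : Polynomial (Om M), (∀ i, P.coeff i ∈ Rc M A E) →
    (∃ i, P.coeff i ≠ 0 ∧ (P.coeff i)⁻¹ ∈ Rc M A E) → (P.eval x)⁻¹ ∈ V
  separable : ∀ f ∈ V, ∃ P : Polynomial (Om M),
    (∀ i, P.coeff i ∈ Alg.polyRing (Rc M A E) x) ∧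
    P.eval f * w⁻¹ ∈ V ∧ (Polynomial.derivative P).eval f ≠ 0 ∧
    ((Polynomial.derivative P).eval f)⁻¹ ∈ V

/-- The `q`-expansion principle on both charts. -/
structure QepFacts (M : ℕ) (A : ValuationSubring Qb) (E : IntermediateField ℚ Qb)
    (V : Subring (Om M)) (w x : Om M) : Prop where
  qep_fin : ∀ b ∈ Alg.chart (Fc M E) (Rc M A E) x, b * w⁻¹ ∈ V →
    b * w⁻¹ ∈ Alg.chart (Fc M E) (Rc M A E) x
  qep_inf : ∀ b ∈ Alg.chart (Fc M E) (Rc M A E) x⁻¹, b * w⁻¹ ∈ V →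
    b * w⁻¹ ∈ Alg.chart (Fc M E) (Rc M A E) x⁻¹

/-- The branch facts. -/
structure BranchFacts (M : ℕ) (A : ValuationSubring Qb) (E : IntermediateField ℚ Qb)
    (x : Om M) (S : Finset (Om M)) : Prop where
  S_mem : ∀ s ∈ S, s ∈ Rc M A E
  S_distinct : ∀ s ∈ S, ∀ t ∈ S, s ≠ t → (s - t)⁻¹ ∈ Rc M A E
  S_unit : ∀ s ∈ S, s ≠ 0 → s⁻¹ ∈ Rc M A E
  unramified : ∀ O : ValuationSubring (Om M), (∀ a ∈ Lc M, a ∈ O) → ∀ c ∈ Lc M, c ∉ S →
    x - c ∈ O → (x - c)⁻¹ ∉ O → ∀ t ∈ O, t⁻¹ ∉ O → t * (x - c)⁻¹ ∈ O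

/-- Assembly of one `GoodModel` from the six groups of facts. -/
theorem goodModel_of_facts {M : ℕ} {A : ValuationSubring Qb} {E : IntermediateField ℚ Qb}
    {V : Subring (Om M)} {w x : Om M} {S : Finset (Om M)}
    (hcz : CharZero (Om M))
    (hF : FieldFacts M A E) (hU : UnifFacts M A E w) (hC : CoordFacts M E x)
    (hV : ValFacts M A E V w x) (hQ : QepFacts M A E V w x) (hB : BranchFacts M A E x S) :
    Alg.GoodModel (Lc M) (Ec M E) (Fc M E) (Rc M A E) V w x S where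
  charZero := hcz
  R_le := hF.R_le
  R_total := hF.R_total
  w_mem := hU.w_mem
  w_ne_zero := hU.w_ne_zero
  w_inv_not_mem := hU.w_inv_not_mem
  w_gen := hU.w_gen
  w_discrete := hU.w_discrete
  residue_perfect := hU.residue_perfect
  E_le_L := hF.E_le_L
  E_le_F := hF.E_le_F
  L_algebraic := hF.L_algebraic
  L_algClosed := hF.L_algClosed
  E_closed_in_F := hF.E_closed_in_F
  compositum := hF.compositum
  x_mem := hC.x_mem
  x_transcendental := hC.x_transcendental
  finite := hC.finite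
  V_le := hV.V_le
  x_mem_V := hV.x_mem_V
  V_total := hV.V_total
  R_le_V := hV.R_le_V
  w_inv_not_mem_V := hV.w_inv_not_mem_V
  V_gen := hV.V_gen
  gauss := hV.gauss
  qep_fin := hQ.qep_fin
  qep_inf := hQ.qep_inf
  separable := hV.separable
  S_mem := hB.S_mem
  S_distinct := hB.S_distinct
  S_unit := hB.S_unit
  unramified := hB.unramified

end Fermat.Agent.S18.H576

end
end
-- ===== PACK-END S18/H576/Skel.lean

-- ===== PACK-BEGIN S18/H438/Front/PolyAlg.lean
section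


/-!
# S18 / ALG-FRONT (helper438), part 7: the chart as an `R[X]`-algebra

`B = chartRing R z` (integral closure of `R[z]` in `F`) is an `R[X]`-algebra via `X ↦ z`:

* `chartPolyHom R z : R[X] →+* chartRing R z`, `chartPolyAlgebra R z` (a `def`, use with `letI`);
* `chartPolyHom_C_eq_chartUnif` : `C w ↦ ϖ`;
* `chartPolyHom_injective`, `chartPoly_finite`, `chartPoly_isTorsionFree`
  (the instance hypotheses of `B12.B2RegularStatement` and of `H425.hsep_poly`).
-/

set_option autoImplicit false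
set_option linter.style.haveILetI false
set_option linter.unusedSectionVars false

noncomputable section

namespace Fermat.Agent.S18.H438

open Polynomial

variable {F : Type*} [Field F] (R : Subring F) (z : F)

/-- `R[X] → R[z]`, `X ↦ z`. -/
def basePolyHom : R[X] →+* baseRing R z :=
  (Polynomial.aeval (⟨z, self_mem_baseRing R z⟩ : baseRing R z)).toRingHom

theorem coe_basePolyHom (P : R[X]) :
    ((basePolyHom R z P : baseRing R z) : F) = Polynomial.aeval z P := by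
  have : ((basePolyHom R z P : baseRing R z) : F) =
      (baseRing R z).val (Polynomial.aeval (⟨z, self_mem_baseRing R z⟩ : baseRing R z) P) := rfl
  rw [this, ← Polynomial.aeval_algHom_apply]
  rfl

theorem basePolyHom_surjective : Function.Surjective (basePolyHom R z) := by
  rintro ⟨a, ha⟩
  obtain ⟨P, hP⟩ := exists_aeval_eq_of_mem_baseRing R z ha
  exact ⟨P, Subtype.ext (by rw [coe_basePolyHom, hP])⟩

/-- `R[X] → B`, `X ↦ z`. -/
def chartPolyHom : R[X] →+* chartRing R z :=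
  (algebraMap (baseRing R z) (chartRing R z)).comp (basePolyHom R z)

theorem coe_chartPolyHom (P : R[X]) :
    ((chartPolyHom R z P : chartRing R z) : F) = Polynomial.aeval z P :=
  coe_basePolyHom R z P

theorem chartPolyHom_C_eq_chartUnif {w : F} (hwR : w ∈ R) :
    chartPolyHom R z (C (⟨w, hwR⟩ : R)) = chartUnif (z := z) hwR := by
  apply Subtype.ext
  rw [coe_chartPolyHom, Polynomial.aeval_C]
  rfl

theorem chartPolyHom_injective (hz : Transcendental R z) :
    Function.Injective (chartPolyHom R z) := by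
  intro P Q hPQ
  have h := congrArg (fun b : chartRing R z => (b : F)) hPQ
  simp only [coe_chartPolyHom] at h
  exact (transcendental_iff_injective.1 hz) h

/-- The `R[X]`-algebra structure on the chart (`X ↦ z`). -/
@[reducible] def chartPolyAlgebra : Algebra R[X] (chartRing R z) := (chartPolyHom R z).toAlgebra

theorem chartPoly_isTorsionFree (hz : Transcendental R z) :
    letI := chartPolyAlgebra R z
    Module.IsTorsionFree R[X] (chartRing R z) := by
  letI := chartPolyAlgebra R z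
  refine Module.IsTorsionFree.of_smul_eq_zero (R := R[X]) (M := chartRing R z) fun r m h => ?_
  rw [Algebra.smul_def] at h
  rcases mul_eq_zero.1 h with h | h
  · left
    exact chartPolyHom_injective R z hz (by rw [map_zero]; exact h)
  · exact Or.inr h

section Instances

attribute [local instance] FractionRing.liftAlgebra

variable [CharZero F] [hfin : FiniteDimensional (FractionRing (baseRing R z)) F]
  [IsDiscreteValuationRing R]

theorem chartPoly_finite (hz : Transcendental R z) :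
    letI := chartPolyAlgebra R z
    Module.Finite R[X] (chartRing R z) := by
  letI a1 : Algebra R[X] (baseRing R z) := (basePolyHom R z).toAlgebra
  letI := chartPolyAlgebra R z
  haveI : IsScalarTower R[X] (baseRing R z) (chartRing R z) :=
    IsScalarTower.of_algebraMap_eq (fun _ => rfl)
  haveI : Module.Finite R[X] (baseRing R z) :=
    Module.Finite.of_surjective (Algebra.linearMap R[X] (baseRing R z))
      (basePolyHom_surjective R z)
  haveI := chartRing_finite R z hz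
  exact Module.Finite.trans (baseRing R z) (chartRing R z)

end Instances

end Fermat.Agent.S18.H438

end
end
-- ===== PACK-END S18/H438/Front/PolyAlg.lean

-- ===== PACK-BEGIN Lib/ValConj/Conj.lean
section
/-
Shared library **ValConj** (helper168), part 3.  Mathlib only.

**Conjugacy theorem.**  `L` a field, `G` a finite group acting on `L` by ring automorphisms,
`V V' : ValuationSubring L` with the same `G`-fixed elements.  Then `g • V = V'` for some `g : G`.

  `exists_smul_eq_of_fixed_mem_iff`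

Corollaries: `smul_eq_of_unique` (if `V ∩ L^H` has a unique extension to `L^B`-level, …) are left
to the clients; the decomposition-group formulation is `exists_mul_mem_stabilizer`
(`𝒢 = B · D` when the restrictions to `L^B` of all `𝒢`-conjugates of `V` coincide).
-/


set_option autoImplicit false
set_option linter.style.haveILetI false
set_option linter.unusedSectionVars false

open scoped Pointwise

namespace Fermat.Agent.Lib.ValConj

variable {L : Type*} [Field L] {G : Type*} [Group G] [MulSemiringAction G L]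

theorem fixedPart_eq_of_iff {V V' : ValuationSubring L}
    (h : ∀ x : L, (∀ g : G, g • x = x) → (x ∈ V ↔ x ∈ V')) : fixedPart G V = fixedPart G V' := by
  ext x
  rw [mem_fixedPart, mem_fixedPart]
  constructor
  · rintro ⟨hx, hg⟩
    exact ⟨(h x hg).1 hx, hg⟩
  · rintro ⟨hx, hg⟩
    exact ⟨(h x hg).2 hx, hg⟩

theorem intClosure_eq_of_fixedPart_eq {V V' : ValuationSubring L}
    (h : fixedPart G V = fixedPart G V') : intClosure G V = intClosure G V' := by
  ext x
  rw [mem_intClosure_iff_forall, mem_intClosure_iff_forall, h]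

/-- For `c ∈ C`: `v c = 1` or `v c < 1`. -/
theorem valuation_le_one_of_mem_intClosure {V : ValuationSubring L} {c : L}
    (hc : c ∈ intClosure G V) : V.valuation c ≤ 1 :=
  (V.valuation_le_one_iff c).2 (intClosure_le V hc)

/-- The centre of `V` on `C`, as a set: `{c ∈ C : v c < 1}`; it is `G`-equivariantly attached to
`V`.  Elementwise criterion for membership in `V` of a quotient. -/
theorem mem_of_mul_mem {V : ValuationSubring L} {x y : L} (hy : V.valuation y = 1)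
    (hxy : x * y ∈ V) : x ∈ V := by
  rw [← V.valuation_le_one_iff] at hxy ⊢
  rwa [map_mul, hy, mul_one] at hxy

section main

variable [Finite G]

/-- Nonunits of `V` among the `G`-fixed elements are determined by the `G`-fixed part. -/
theorem valuation_lt_one_iff_of_fixed {V V' : ValuationSubring L}
    (h : ∀ x : L, (∀ g : G, g • x = x) → (x ∈ V ↔ x ∈ V')) {a : L} (ha : ∀ g : G, g • a = a) :
    V.valuation a < 1 ↔ V'.valuation a < 1 := by
  by_cases ha0 : a = 0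
  · subst ha0
    simp
  have hinv : ∀ g : G, g • a⁻¹ = a⁻¹ := fun g => by rw [smul_inv'', ha g]
  have key : ∀ U : ValuationSubring L, U.valuation a < 1 ↔ (a ∈ U ∧ a⁻¹ ∉ U) := by
    intro U
    rw [← U.valuation_le_one_iff, ← U.valuation_le_one_iff, map_inv₀]
    have hpos : U.valuation a ≠ 0 := (Valuation.ne_zero_iff _).2 ha0
    constructor
    · intro hlt
      refine ⟨hlt.le, fun hle => ?_⟩
      have h1 : (1 : _) ≤ U.valuation a := by
        have := mul_le_mul_right hle (U.valuation a)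
        rwa [mul_inv_cancel₀ hpos, mul_one] at this
      exact absurd hlt (not_lt.2 h1)
    · rintro ⟨hle, hn⟩
      refine lt_of_le_of_ne hle fun h1 => hn ?_
      rw [h1, inv_one]
  rw [key V, key V', h a ha, h a⁻¹ hinv]

/-- **Conjugacy of valuation subrings with the same fixed part.** -/
theorem exists_smul_eq_of_fixed_mem_iff (V V' : ValuationSubring L)
    (h : ∀ x : L, (∀ g : G, g • x = x) → (x ∈ V ↔ x ∈ V')) : ∃ g : G, g • V = V' := by
  classical
  have hW : fixedPart G V = fixedPart G V' := fixedPart_eq_of_iff h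
  have hC : intClosure G V = intClosure G V' := intClosure_eq_of_fixedPart_eq hW
  -- the rings
  let A : Subring L := fixedPart G V
  let B : Subring L := intClosure G V
  letI algAB : Algebra A B := (Subring.inclusion (fixedPart_le_intClosure (G := G) V)).toAlgebra
  letI actB : MulSemiringAction G B := IsInvariantSubring.toMulSemiringAction G B
  have hsmulB : ∀ (g : G) (b : B), ((g • b : B) : L) = g • (b : L) := fun _ _ => rfl
  have halg : ∀ a : A, ((algebraMap A B a : B) : L) = (a : L) := fun _ => rfl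
  haveI : SMulCommClass G A B := ⟨fun g a b => by
    apply Subtype.ext
    rw [hsmulB, Algebra.smul_def, Algebra.smul_def]
    show g • ((algebraMap A B a : B) * b : B).1 = ((algebraMap A B a : B) * (g • b : B) : B).1
    show g • (((algebraMap A B a : B) : L) * (b : L)) = ((algebraMap A B a : B) : L) * (g • (b : L))
    rw [smul_mul', halg, smul_eq_of_mem_fixedPart a.2 g]⟩
  haveI : Algebra.IsInvariant A B G := ⟨fun b hb => by
    have hbfix : ∀ g : G, g • (b : L) = (b : L) := fun g => by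
      rw [← hsmulB, hb g]
    have hbV : (b : L) ∈ V := intClosure_le V b.2
    exact ⟨⟨(b : L), mem_fixedPart.2 ⟨hbV, hbfix⟩⟩, Subtype.ext rfl⟩⟩
  -- the centres
  let ι : B →+* V := Subring.inclusion (intClosure_le (G := G) V)
  have hBV' : B ≤ V'.toSubring := le_trans hC.le (intClosure_le (G := G) V')
  let ι' : B →+* V' := Subring.inclusion hBV'
  let P : Ideal B := (IsLocalRing.maximalIdeal V).comap ι
  let P' : Ideal B := (IsLocalRing.maximalIdeal V').comap ι'
  haveI hPprime : P.IsPrime := Ideal.comap_isPrime ι _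
  haveI hP'prime : P'.IsPrime := Ideal.comap_isPrime ι' _
  have hmemP : ∀ b : B, b ∈ P ↔ V.valuation (b : L) < 1 := fun b => by
    show ι b ∈ IsLocalRing.maximalIdeal V ↔ _
    rw [V.valuation_lt_one_iff]
    rfl
  have hmemP' : ∀ b : B, b ∈ P' ↔ V'.valuation (b : L) < 1 := fun b => by
    show ι' b ∈ IsLocalRing.maximalIdeal V' ↔ _
    rw [V'.valuation_lt_one_iff]
    rfl
  have hunder : P.under A = P'.under A := by
    ext a
    have h1 : a ∈ P.under A ↔ V.valuation (a : L) < 1 := hmemP (algebraMap A B a)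
    have h2 : a ∈ P'.under A ↔ V'.valuation (a : L) < 1 := hmemP' (algebraMap A B a)
    rw [h1, h2]
    exact valuation_lt_one_iff_of_fixed h (fun g => smul_eq_of_mem_fixedPart a.2 g)
  obtain ⟨g, hg⟩ := Algebra.IsInvariant.exists_smul_of_under_eq A B G P P' hunder
  have hmemgP : ∀ b : B, b ∈ P' ↔ V.valuation (g⁻¹ • (b : L)) < 1 := fun b => by
    rw [hg, Ideal.mem_pointwise_smul_iff_inv_smul_mem, hmemP, hsmulB]
  refine ⟨g, ?_⟩
  ext x
  rw [ValuationSubring.mem_pointwise_smul_iff_inv_smul_mem]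
  constructor
  · -- `g⁻¹ x ∈ V ⟹ x ∈ V'`
    intro hx
    obtain ⟨y, hyC, hxyC, hvy⟩ := exists_mul_mem_intClosure (G := G) hx
    -- `g • y ∉ P'`, so `g • y` is a unit of `V'`
    have hgyC : g • y ∈ intClosure G V := smul_mem_intClosure g hyC
    have hgy : V'.valuation (g • y) = 1 := by
      have h1 : V'.valuation (g • y) ≤ 1 :=
        valuation_le_one_of_mem_intClosure (V := V') (hC.le hgyC)
      refine le_antisymm h1 (not_lt.1 fun hlt => ?_)
      have h2 := (hmemgP ⟨g • y, hgyC⟩).1 ((hmemP' ⟨g • y, hgyC⟩).2 hlt)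
      rw [inv_smul_smul, hvy] at h2
      exact lt_irrefl _ h2
    have hprod : x * (g • y) ∈ V' := by
      have h3 : g • (g⁻¹ • x * y) ∈ intClosure G V := smul_mem_intClosure g hxyC
      rw [smul_mul', smul_inv_smul] at h3
      exact intClosure_le V' (hC.le h3)
    exact mem_of_mul_mem hgy hprod
  · -- `x ∈ V' ⟹ g⁻¹ x ∈ V`
    intro hx
    obtain ⟨y, hyC', hxyC', hvy⟩ := exists_mul_mem_intClosure (G := G) hx
    have hyC : y ∈ intClosure G V := hC.ge hyC'
    have hxyC : x * y ∈ intClosure G V := hC.ge hxyC'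
    have hgyC : g⁻¹ • y ∈ intClosure G V := smul_mem_intClosure g⁻¹ hyC
    have hgy : V.valuation (g⁻¹ • y) = 1 := by
      have h1 : V.valuation (g⁻¹ • y) ≤ 1 := valuation_le_one_of_mem_intClosure hgyC
      refine le_antisymm h1 (not_lt.1 fun hlt => ?_)
      have h2 := (hmemP' ⟨y, hyC⟩).1 ((hmemgP ⟨y, hyC⟩).2 hlt)
      rw [hvy] at h2
      exact lt_irrefl _ h2
    have hprod : g⁻¹ • x * g⁻¹ • y ∈ V := by
      have h3 : g⁻¹ • (x * y) ∈ intClosure G V := smul_mem_intClosure g⁻¹ hxyC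
      rw [smul_mul'] at h3
      exact intClosure_le V h3
    exact mem_of_mul_mem hgy hprod

end main

end Fermat.Agent.Lib.ValConj

namespace Fermat.Agent.Lib.ValConj

variable {L : Type*} [Field L] {G : Type*} [Group G] [MulSemiringAction G L] [Finite G]

/-- **Decomposition-group form (`𝒢 = B · D`).**  Let `B ≤ G` be a subgroup such that every
`G`-conjugate of `V` has the same `B`-fixed elements as `V` (e.g. because `V ∩ L^B` has a unique
extension of the relevant kind).  Then every `g : G` is `b * d` with `b ∈ B` and `d • V = V`. -/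
theorem exists_mul_mem_stabilizer (V : ValuationSubring L) (B : Subgroup G)
    (h : ∀ (g : G) (x : L), (∀ b ∈ B, b • x = x) → (x ∈ V ↔ x ∈ g • V)) (g : G) :
    ∃ b ∈ B, ∃ d : G, d • V = V ∧ g = b * d := by
  have h' : ∀ x : L, (∀ b : B, b • x = x) → (x ∈ V ↔ x ∈ g • V) := fun x hx =>
    h g x (fun b hb => hx ⟨b, hb⟩)
  obtain ⟨b, hb⟩ := exists_smul_eq_of_fixed_mem_iff (G := B) V (g • V) h'
  refine ⟨b, b.2, (b : G)⁻¹ * g, ?_, by group⟩
  have hb' : (b : G) • V = g • V := hb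
  rw [mul_smul, ← hb', inv_smul_smul]

/-- Conjugates of elements of `B` stabilising `V`: if `u ∈ B`, `u • V = V` and `B` is such that
`G = B · D`, then for every `g : G` there is `d` in the stabiliser `D` with
`g * u * g⁻¹ = b * (d * u' * d⁻¹) * b⁻¹`; in particular if `U ≤ B ∩ D` is normal in `B`, the
stabiliser contains the conjugates `d⁻¹ U d`.  Elementwise statement used by IGUSA1 (c):
for `g = b * d`, `g⁻¹ * u * g` stabilises `V` as soon as `b⁻¹ * u * b` does. -/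
theorem conj_smul_eq (V : ValuationSubring L) {b d u : G} (hd : d • V = V)
    (hu : (b⁻¹ * u * b) • V = V) : ((b * d)⁻¹ * u * (b * d)) • V = V := by
  have hd' : d⁻¹ • V = V := by
    conv_lhs => rw [← hd]
    rw [inv_smul_smul]
  have : (b * d)⁻¹ * u * (b * d) = d⁻¹ * (b⁻¹ * u * b) * d := by group
  rw [this, mul_smul, mul_smul, hd, hu, hd']

end Fermat.Agent.Lib.ValConj

end
-- ===== PACK-END Lib/ValConj/Conj.lean

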