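import Mathlib.FieldTheory.IsAlgClosed.Basic
import Mathlib
import Fermat.Prelude.Def_FLTPrelim_GaloisRep
import Fermat.Agent.Pack.S44C.G0E10L1
import Fermat.Agent.Pack.S44C.G0E10L2
import Fermat.Agent.Pack.S44C.G0E6L1
import Fermat.Agent.Pack.S44C.G0E0L2
import Fermat.Agent.Pack.S44C.G0E1L2
import Fermat.Agent.Pack.S44C.G0E11L3
import Fermat.Agent.Pack.S44C.G0E11L2
import Fermat.Agent.Pack.S44C.G0E11L0
import Fermat.Agent.Pack.S44C.G0E7L0
import Fermat.Agent.Pack.S44C.G0E2L3
import Fermat.Agent.Pack.S44C.G0E11L1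
import Fermat.Agent.Pack.S44C.G0E12L2
import Fermat.Agent.Pack.S44C.G0E8L0
import Fermat.Agent.Pack.S44C.G0E3L1
import Fermat.Agent.Pack.S44C.G0E8L2
import Fermat.Agent.Pack.S44C.G0E12L0
import Fermat.Agent.Pack.Fast891

-- ===== PACK-BEGIN S05/CompTorsion.lean
section



/-!
# Torsion points near the node: the crux (C3c)

For an odd `n` and an `n`-torsion point `P = (x, y)` reducing to the node `x ≡ e₁`,
the valuation of `x - e₁` lies strictly between `v α` and `1`, and `v (x - e₁) ^ n` is an even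
power of `v α`.
-/

set_option autoImplicit false

namespace Fermat.Agent.S05.Comp

open WeierstrassCurve WeierstrassCurve.Affine

variable {K : Type*} [Field K] {Γ₀ : Type*} [LinearOrderedCommGroupWithZero Γ₀]
  {v : Valuation K Γ₀}

lemma cls_eq_one_iff (α : K) (g : Γ₀) :
    cls v α g = 1 ↔ ∃ k : ℤ, (toU (v α) ^ 2) ^ k = toU g := by
  rw [cls, QuotientGroup.eq_one_iff, Subgroup.mem_zpowers_iff]

/-- If `cls g = 1` with `g ≠ 0` then `g` is an even (integral) power of `v α`. -/
lemma exists_zpow_of_cls_eq_one {α : K} (hα0 : α ≠ 0) {g : Γ₀} (hg : g ≠ 0)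
    (h : cls v α g = 1) : ∃ k : ℤ, g = (v α ^ 2) ^ k := by
  have h0 : v α ≠ 0 := (Valuation.ne_zero_iff v).mpr hα0
  obtain ⟨k, hk⟩ := (cls_eq_one_iff α g).mp h
  refine ⟨k, ?_⟩
  have := congrArg (fun u : Γ₀ˣ => (u : Γ₀)) hk
  simp only [Units.val_zpow_eq_zpow_val, Units.val_pow_eq_pow_val, toU_coe h0, toU_coe hg] at this
  exact this.symm

/-- An element `g < 1` which is an integral power of `m < 1` is a natural power. -/
lemma exists_pow_of_zpow {m g : Γ₀} (hm0 : m ≠ 0) (hm : m < 1) (hg : g < 1) {k : ℤ}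
    (h : g = m ^ k) : ∃ j : ℕ, g = m ^ j := by
  rcases le_or_gt 0 k with hk | hk
  · refine ⟨k.toNat, ?_⟩
    rw [h]
    conv_lhs => rw [← Int.toNat_of_nonneg hk]
    exact zpow_natCast m k.toNat
  · exfalso
    have h1 : 1 ≤ m ^ k := by
      have : m ^ k = (m ^ (-k).toNat)⁻¹ := by
        rw [← zpow_natCast, Int.toNat_of_nonneg (by omega), zpow_neg, inv_inv]
      rw [this]
      apply (one_le_inv₀ (pow_pos (zero_lt_iff.mpr hm0) _)).mpr
      exact pow_le_one₀ zero_le hm.le
    rw [← h] at h1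
    exact absurd h1 (not_le.mpr hg)

lemma cls_alpha_ne_one {α : K} (hα0 : α ≠ 0) (hα : v α < 1) : cls v α (v α) ≠ 1 := by
  have h0 : v α ≠ 0 := (Valuation.ne_zero_iff v).mpr hα0
  have hpos : 0 < v α := zero_lt_iff.mpr h0
  intro h
  obtain ⟨k, hk⟩ := exists_zpow_of_cls_eq_one hα0 h0 h
  have hsq0 : v α ^ 2 ≠ 0 := pow_ne_zero 2 h0
  have hsq1 : v α ^ 2 < 1 := pow_lt_one₀ zero_le hα (by norm_num)
  obtain ⟨j, hj⟩ := exists_pow_of_zpow hsq0 hsq1 hα hk
  rw [← pow_mul] at hj
  rcases Nat.eq_zero_or_pos j with h0j | hjpos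
  · rw [h0j, mul_zero, pow_zero] at hj
    exact absurd hj hα.ne
  · have : v α ^ (2 * j) < v α := by
      calc v α ^ (2 * j) ≤ v α ^ 2 := pow_le_pow_of_le_one zero_le hα.le (by omega)
        _ = v α * v α := pow_two _
        _ < v α * 1 := mul_lt_mul_of_pos_left hα hpos
        _ = v α := mul_one _
    exact absurd hj.symm this.ne

namespace NodalModel

variable {W : Affine K} [DecidableEq K]

/-- **(C3c)**, model form. -/
theorem torsion_near_node (M : NodalModel v W) {n : ℕ} (hn : Odd n) {x y : K}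
    (h : W.Nonsingular x y) (hP : n • Point.some x y h = 0) (hx : v (x - M.e) < 1) :
    v M.α < v (x - M.e) ∧ ∃ j : ℕ, v (x - M.e) ^ n = v M.α ^ (2 * j) := by
  have h0 : v M.α ≠ 0 := (Valuation.ne_zero_iff v).mpr M.hα0
  have hμ : 0 < v M.α := zero_lt_iff.mpr h0
  have hc : M.comp (Point.some x y h) ^ n = 1 := by
    rw [← M.comp_nsmul, hP, comp_zero]
  rw [comp_some] at hc
  have hE := (M.equation_iff x y).mp h.1
  have hxi : M.xi x = x - M.e := rfl
  have hsq0 : v M.α ^ 2 ≠ 0 := pow_ne_zero 2 h0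
  have hsq1 : v M.α ^ 2 < 1 := pow_lt_one₀ zero_le M.hα (by norm_num)
  have hnpos : 0 < n := hn.pos
  -- the main computation for a middle-range point
  have main : v M.α < v (x - M.e) → cls v M.α (v (x - M.e)) ^ n = 1 →
      ∃ j : ℕ, v (x - M.e) ^ n = v M.α ^ (2 * j) := by
    intro hlo hcls
    have hr0 : v (x - M.e) ≠ 0 := (hμ.trans hlo).ne'
    have hrn0 : v (x - M.e) ^ n ≠ 0 := pow_ne_zero n hr0
    have hcls' : cls v M.α (v (x - M.e) ^ n) = 1 := by
      rw [← hcls, cls, cls, toU_pow hr0]; rfl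
    obtain ⟨k, hk⟩ := exists_zpow_of_cls_eq_one M.hα0 hrn0 hcls'
    have hlt : v (x - M.e) ^ n < 1 := pow_lt_one₀ zero_le hx hnpos.ne'
    obtain ⟨j, hj⟩ := exists_pow_of_zpow hsq0 hsq1 hlt hk
    exact ⟨j, by rw [hj, ← pow_mul]⟩
  rcases compXY_cases M.h2 M.hα M.hβ M.hγ hE with ⟨hZ, -⟩ | ⟨hM, e⟩ | ⟨hlo, hhi, -, e⟩ |
    ⟨hlo, hhi, -, e⟩
  · rw [hxi] at hZ
    exact absurd hZ (not_le.mpr hx)
  · exfalso
    rw [e] at hc
    obtain ⟨m, rfl⟩ := hn
    have hsq : cls v M.α (v M.α) ^ 2 = 1 :=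
      (pow_two _).trans (cls_alpha_mul_self v M.α M.hα0)
    rw [pow_succ, pow_mul, hsq, one_pow, one_mul] at hc
    exact cls_alpha_ne_one M.hα0 M.hα hc
  · rw [hxi] at hlo
    rw [e, hxi] at hc
    exact ⟨hlo, main hlo hc⟩
  · rw [hxi] at hlo
    rw [e, hxi, inv_pow, inv_eq_one] at hc
    exact ⟨hlo, main hlo hc⟩

end NodalModel

/-- **(C3c)** in the integrator's interface (#944), with the extra datum of a square root `γ`
of `-β` (available in an algebraically closed field). No integrality of the coefficients is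
needed. -/
theorem c3c_of_sqrt {W : Affine K} [DecidableEq K] (h2 : v (2 : K) = 1) (e₁ α β γ : K)
    (hγ : γ ^ 2 = -β)
    (hb2 : W.b₂ = -4 * (3 * e₁ + α + β))
    (hb4 : 2 * W.b₄ = 4 * (e₁ * (e₁ + α) + e₁ * (e₁ + β) + (e₁ + α) * (e₁ + β)))
    (hb6 : W.b₆ = -4 * (e₁ * (e₁ + α) * (e₁ + β)))
    (hα0 : α ≠ 0) (hα : v α < 1) (hβ : v β = 1) (n : ℕ) (hn : Odd n)
    (x y : K) (h : W.Nonsingular x y) (hP : n • Point.some x y h = 0)
    (hx : v (x - e₁) < 1) :
    v α < v (x - e₁) ∧ ∃ j : ℕ, v (x - e₁) ^ n = v α ^ (2 * j) := by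
  have h20 : (2 : K) ≠ 0 := by
    intro h0; rw [h0, map_zero] at h2; exact zero_ne_one h2
  have h40 : (4 : K) ≠ 0 := by
    have : (4 : K) = 2 * 2 := by norm_num
    rw [this]; exact mul_ne_zero h20 h20
  let M : NodalModel v W :=
    { e := e₁, α := α, β := β, γ := γ, h2 := h2, hα := hα, hα0 := hα0, hβ := hβ, hγ := hγ
      hb2 := by
        have := hb2
        rw [WeierstrassCurve.b₂] at this
        field_simp
        linear_combination this
      hb4 := by
        have := hb4
        rw [WeierstrassCurve.b₄] at this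
        have this' : 2 * W.a₄ + W.a₁ * W.a₃ =
            2 * (e₁ * (e₁ + α) + e₁ * (e₁ + β) + (e₁ + α) * (e₁ + β)) :=
          mul_left_cancel₀ h20 (by linear_combination this)
        field_simp
        linear_combination this'
      hb6 := by
        have := hb6
        rw [WeierstrassCurve.b₆] at this
        field_simp
        linear_combination this }
  exact M.torsion_near_node hn h hP hx

/-- **(C3c)** over an algebraically closed field, exactly in the integrator's interface. -/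
theorem c3c [IsAlgClosed K] {W : Affine K} [DecidableEq K] (h2 : v (2 : K) = 1) (e₁ α β : K)
    (hb2 : W.b₂ = -4 * (3 * e₁ + α + β))
    (hb4 : 2 * W.b₄ = 4 * (e₁ * (e₁ + α) + e₁ * (e₁ + β) + (e₁ + α) * (e₁ + β)))
    (hb6 : W.b₆ = -4 * (e₁ * (e₁ + α) * (e₁ + β)))
    (hα0 : α ≠ 0) (hα : v α < 1) (hβ : v β = 1) (n : ℕ) (hn : Odd n)
    (x y : K) (h : W.Nonsingular x y) (hP : n • Point.some x y h = 0)
    (hx : v (x - e₁) < 1) :
    v α < v (x - e₁) ∧ ∃ j : ℕ, v (x - e₁) ^ n = v α ^ (2 * j) := by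
  obtain ⟨γ, hγ⟩ := IsAlgClosed.exists_pow_nat_eq (-β) (n := 2) (by norm_num)
  exact c3c_of_sqrt h2 e₁ α β γ hγ hb2 hb4 hb6 hα0 hα hβ n hn x y h hP hx

end Fermat.Agent.S05.Comp

end
-- ===== PACK-END S05/CompTorsion.lean

-- ===== PACK-BEGIN S13/H129/AtTwo.lean
section




/-!
# S13, piece T4 (abstract form): inertia acts unipotently on odd torsion at a node in residue
characteristic 2

Setting: `K` a field, `v : Valuation K Γ₀`, `W : y² + a₁xy = x³ + a₂x² + a₄x` (`a₃ = a₆ = 0`)
with `v`-integral coefficients, `v a₁ = 1`, `v a₄ < 1`, `v 2 < 1`.  The reduction has a node at the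
origin.  For a torsion point `P` of odd order `n` (so `v n = 1`) and `σ` acting trivially on the
residue field and preserving `v`, we prove `σ (σ P - P) = σ P - P`.
-/

set_option autoImplicit false
set_option linter.unusedSectionVars false
set_option linter.unusedVariables false

namespace Fermat.Agent.S13.H129

open WeierstrassCurve WeierstrassCurve.Affine
open Fermat.Agent.S05 Fermat.Agent.S05.SameRed

section identities

variable {F : Type*} [Field F] [DecidableEq F] (W : Affine F)

/-- For a curve through the origin with `a₃ = a₆ = 0`, the `x`-coordinate of `P₁ - P₂` satisfies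
`x₁ x₂ (x₁ - x₂)² x(P₁ - P₂) = (y₁ x₂ + y₂ x₁ + a₁ x₁ x₂)²`. -/
lemma addX_sub_formula (h3 : W.a₃ = 0) (h6 : W.a₆ = 0) {x₁ x₂ y₁ y₂ : F}
    (h₁ : W.Equation x₁ y₁) (h₂ : W.Equation x₂ y₂) (hx : x₁ ≠ x₂) :
    x₁ * x₂ * ((x₁ - x₂) ^ 2 * W.addX x₁ x₂ (W.slope x₁ x₂ y₁ (W.negY x₂ y₂))) =
      (y₁ * x₂ + y₂ * x₁ + W.a₁ * x₁ * x₂) ^ 2 := by
  rw [Affine.equation_iff] at h₁ h₂
  rw [h3, h6] at h₁ h₂
  have hd : x₁ - x₂ ≠ 0 := sub_ne_zero.mpr hx
  rw [slope_of_X_ne hx, XId.addX_div W _ _ _ _ hd]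
  simp only [negY, h3]
  linear_combination (x₁ * x₂ - x₂ ^ 2) * h₁ + (x₁ * x₂ - x₁ ^ 2) * h₂

/-- For a curve through the origin with `a₃ = a₆ = 0`, the `x`-coordinate of `P₁ + P₂` satisfies
`x₁ x₂ (x₁ - x₂)² x(P₁ + P₂) = (y₁ x₂ - y₂ x₁)²`. -/
lemma addX_add_formula (h3 : W.a₃ = 0) (h6 : W.a₆ = 0) {x₁ x₂ y₁ y₂ : F}
    (h₁ : W.Equation x₁ y₁) (h₂ : W.Equation x₂ y₂) (hx : x₁ ≠ x₂) :
    x₁ * x₂ * ((x₁ - x₂) ^ 2 * W.addX x₁ x₂ (W.slope x₁ x₂ y₁ y₂)) =
      (y₁ * x₂ - y₂ * x₁) ^ 2 := by
  rw [Affine.equation_iff] at h₁ h₂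
  rw [h3, h6] at h₁ h₂
  have hd : x₁ - x₂ ≠ 0 := sub_ne_zero.mpr hx
  rw [slope_of_X_ne hx, XId.addX_div W _ _ _ _ hd]
  linear_combination (x₁ * x₂ - x₂ ^ 2) * h₁ + (x₁ * x₂ - x₁ ^ 2) * h₂

lemma dblNum_eq (h3 : W.a₃ = 0) (h6 : W.a₆ = 0) (x : F) :
    XId.dblNum W x = (x ^ 2 - W.a₄) ^ 2 := by
  simp only [XId.dblNum, WeierstrassCurve.b₄, WeierstrassCurve.b₆, WeierstrassCurve.b₈, h3, h6]
  ring

lemma dblDen_eq (h3 : W.a₃ = 0) (h6 : W.a₆ = 0) (x : F) :
    XId.dblDen W x = x * (4 * x ^ 2 + W.b₂ * x + 4 * W.a₄) := by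
  simp only [XId.dblDen, WeierstrassCurve.b₂, WeierstrassCurve.b₄, WeierstrassCurve.b₆, h3, h6]
  ring

end identities

section valuation

variable {K : Type*} [Field K] [DecidableEq K]
  {Γ₀ : Type*} [LinearOrderedCommGroupWithZero Γ₀]
  {W : Affine K} {v : Valuation K Γ₀}

/-- Hypotheses: integral model `y² + a₁xy = x³ + a₂x² + a₄x` with a node at the origin in
residue characteristic two. -/
structure NodeTwo (W : Affine K) (v : Valuation K Γ₀) : Prop where
  int : IntegralCoeffs W v
  a₃ : W.a₃ = 0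
  a₆ : W.a₆ = 0
  a₄ : v W.a₄ < 1
  a₄_ne : W.a₄ ≠ 0
  a₁ : v W.a₁ = 1
  two : v 2 < 1

lemma mul_le_mul_l {b c : Γ₀} (h : b ≤ c) (a : Γ₀) : a * b ≤ a * c := by gcongr

lemma mul_le_mul_r {a b : Γ₀} (h : a ≤ b) (c : Γ₀) : a * c ≤ b * c := by gcongr

lemma sq_lt_sq_of_lt {a b : Γ₀} (h : a < b) : a * a < b * b := by
  have hb : 0 < b := lt_of_le_of_lt zero_le h
  calc a * a ≤ a * b := mul_le_mul_l h.le a
    _ < b * b := mul_lt_mul_of_pos_right h hb

lemma eq_of_sq_eq {a b : Γ₀} (h : a * a = b * b) : a = b := by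
  rcases lt_trichotomy a b with hlt | heq | hgt
  · exact absurd h (ne_of_lt (sq_lt_sq_of_lt hlt))
  · exact heq
  · exact absurd h.symm (ne_of_lt (sq_lt_sq_of_lt hgt))

lemma val_four_lt_one (h2 : v (2 : K) < 1) : v (4 : K) < 1 := by
  have : (4 : K) = 2 * 2 := by norm_num
  rw [this]
  exact val_mul_lt_one_left h2 h2.le

namespace NodeTwo

variable (hN : NodeTwo W v)
include hN

lemma val_b₂ : v W.b₂ = 1 := by
  have h1 : v (W.a₁ ^ 2) = 1 := by rw [map_pow, hN.a₁, one_pow]
  have h2 : v (4 * W.a₂) < 1 := val_mul_lt_one_left (val_four_lt_one hN.two) hN.int.a₂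
  simp only [WeierstrassCurve.b₂]
  rw [v.map_add_eq_of_lt_left (by rw [h1]; exact h2), h1]

/-- the inner factor `4x² + b₂x + 4a₄` of `ψ₂²` has the valuation of `x` in the zone
`v a₄ ≤ v x < 1`. -/
lemma val_inner {x : K} (hx0 : x ≠ 0) (hx1 : v x < 1) (hx4 : v W.a₄ ≤ v x) :
    v (4 * x ^ 2 + W.b₂ * x + 4 * W.a₄) = v x := by
  have hvx : 0 < v x := (Valuation.pos_iff v).mpr hx0
  have h4 := val_four_lt_one hN.two
  have e1 : v (W.b₂ * x) = v x := by rw [map_mul, hN.val_b₂, one_mul]
  have e2 : v (4 * x ^ 2) < v x := by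
    have : (4 : K) * x ^ 2 = (4 * x) * x := by ring
    rw [this, map_mul]
    calc v (4 * x) * v x < 1 * v x :=
          mul_lt_mul_of_pos_right (val_mul_lt_one_left h4 hx1.le) hvx
      _ = v x := one_mul _
  have e3 : v (4 * W.a₄) < v x := by
    rw [map_mul]
    calc v 4 * v W.a₄ ≤ v 4 * v x := mul_le_mul_l hx4 _
      _ < 1 * v x := mul_lt_mul_of_pos_right h4 hvx
      _ = v x := one_mul _
  have e4 : v (4 * x ^ 2 + W.b₂ * x) = v x := by
    rw [v.map_add_eq_of_lt_right (by rw [e1]; exact e2), e1]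
  rw [v.map_add_eq_of_lt_left (by rw [e4]; exact e3), e4]

/-- **class C, lower bound**: if `P = (x, y)` and `2P = (x', _)` are both integral and `P` reduces
to the node, then `v a₄ ≤ v x`. -/
lemma val_a₄_le {x x' : K} (hdbl : x' * XId.dblDen W x = XId.dblNum W x)
    (hden : XId.dblDen W x ≠ 0) (hx' : v x' ≤ 1) : v W.a₄ ≤ v x := by
  by_contra hlt
  rw [not_le] at hlt
  have ha4 : 0 < v W.a₄ := lt_of_le_of_lt zero_le hlt
  have h4 := val_four_lt_one hN.two
  have hx1 : v x < 1 := hlt.trans hN.a₄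
  -- numerator
  have hxx : v (x ^ 2) < v W.a₄ := by
    rw [pow_two, map_mul]
    calc v x * v x ≤ v x * 1 := mul_le_mul_l hx1.le _
      _ = v x := mul_one _
      _ < v W.a₄ := hlt
  have hnum : v (XId.dblNum W x) = v W.a₄ * v W.a₄ := by
    rw [dblNum_eq W hN.a₃ hN.a₆, pow_two, map_mul, sub_eq_add_neg,
      v.map_add_eq_of_lt_right (by rw [Valuation.map_neg]; exact hxx), Valuation.map_neg]
  -- denominator
  have hinner : v (4 * x ^ 2 + W.b₂ * x + 4 * W.a₄) ≤ v W.a₄ := by
    refine (v.map_add _ _).trans (max_le ((v.map_add _ _).trans (max_le ?_ ?_)) ?_)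
    · rw [map_mul]
      calc v 4 * v (x ^ 2) ≤ 1 * v (x ^ 2) := mul_le_mul_r h4.le _
        _ = v (x ^ 2) := one_mul _
        _ ≤ v W.a₄ := hxx.le
    · rw [map_mul, hN.val_b₂, one_mul]; exact hlt.le
    · rw [map_mul]
      calc v 4 * v W.a₄ ≤ 1 * v W.a₄ := mul_le_mul_r h4.le _
        _ = v W.a₄ := one_mul _
  have hdenv : v (XId.dblDen W x) < v W.a₄ * v W.a₄ := by
    rw [dblDen_eq W hN.a₃ hN.a₆, map_mul]
    calc v x * v (4 * x ^ 2 + W.b₂ * x + 4 * W.a₄) ≤ v x * v W.a₄ := mul_le_mul_l hinner _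
      _ < v W.a₄ * v W.a₄ := mul_lt_mul_of_pos_right hlt ha4
  have := congrArg v hdbl
  rw [map_mul, hnum] at this
  have h5 : v x' * v (XId.dblDen W x) ≤ v (XId.dblDen W x) := by
    calc v x' * v (XId.dblDen W x) ≤ 1 * v (XId.dblDen W x) := mul_le_mul_r hx' _
      _ = _ := one_mul _
  rw [this] at h5
  exact absurd hdenv (not_lt.mpr h5)

/-- In the zone `v a₄ ≤ v x < 1`, `η = 2y + a₁x` has the valuation of `x`. -/
lemma val_eta {x y : K} (h : W.Equation x y) (hx0 : x ≠ 0) (hx1 : v x < 1)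
    (hx4 : v W.a₄ ≤ v x) : v (2 * y + W.a₁ * x) = v x := by
  have e := XId.sub_negY_sq W h
  rw [dblDen_eq W hN.a₃ hN.a₆] at e
  have e' : (2 * y + W.a₁ * x) ^ 2 = x * (4 * x ^ 2 + W.b₂ * x + 4 * W.a₄) := by
    rw [← e]; simp only [negY, hN.a₃]; ring
  have := congrArg v e'
  rw [pow_two, map_mul, map_mul, hN.val_inner hx0 hx1 hx4] at this
  exact eq_of_sq_eq this

/-- In the zone `v a₄ ≤ v x ≤ 1`, `y / x` is integral: `v y ≤ v x`. -/
lemma val_y_le_val_x {x y : K} (h : W.Equation x y) (hx1 : v x ≤ 1)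
    (hx4 : v W.a₄ ≤ v x) : v y ≤ v x := by
  by_contra hlt
  rw [not_le] at hlt
  have e := (Affine.equation_iff x y).mp h
  rw [hN.a₃, hN.a₆] at e
  have e' : y * (y + W.a₁ * x) = x * (x ^ 2 + W.a₂ * x + W.a₄) := by linear_combination e
  have h1 : v (y + W.a₁ * x) = v y := by
    apply v.map_add_eq_of_lt_left
    rw [map_mul, hN.a₁, one_mul]; exact hlt
  have h2 : v (x ^ 2 + W.a₂ * x + W.a₄) ≤ v x := by
    refine (v.map_add _ _).trans (max_le ((v.map_add _ _).trans (max_le ?_ ?_)) hx4)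
    · rw [pow_two, map_mul]
      calc v x * v x ≤ v x * 1 := mul_le_mul_l hx1 _
        _ = v x := mul_one _
    · rw [map_mul]
      calc v W.a₂ * v x ≤ 1 * v x := mul_le_mul_r hN.int.a₂ _
        _ = v x := one_mul _
  have := congrArg v e'
  rw [map_mul, map_mul, h1] at this
  have h3 : v y * v y ≤ v x * v x := by
    rw [this]; exact mul_le_mul_l h2 _
  exact absurd (sq_lt_sq_of_lt hlt) (not_lt.mpr h3)

end NodeTwo

end valuation

section galois

variable {R S K : Type*} [CommRing R] [CommRing S] [Field K] [DecidableEq K]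
  [Algebra R S] [Algebra R K] [Algebra S K] [IsScalarTower R S K]
  {Γ₀ : Type*} [LinearOrderedCommGroupWithZero Γ₀]
  {W' : Affine R} {v : Valuation K Γ₀}

/-- a `v`-unit natural number is odd in residue characteristic two. -/
lemma odd_of_val_eq_one (h2 : v (2 : K) < 1) {n : ℕ} (hn : v (n : K) = 1) : Odd n := by
  rcases Nat.even_or_odd n with he | ho
  · exfalso
    obtain ⟨k, rfl⟩ := he
    have : ((k + k : ℕ) : K) = 2 * (k : K) := by push_cast; ring
    rw [this] at hn
    exact absurd hn (ne_of_lt (val_mul_lt_one_left h2 (val_natCast_le_one k)))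
  · exact ho

/-- odd torsion points are not killed by `2`. -/
lemma add_self_ne_zero_of_odd {G : Type*} [AddCommGroup G] {n : ℕ} (hodd : Odd n) {P : G}
    (hP : n • P = 0) (hP0 : P ≠ 0) : P + P ≠ 0 := by
  intro h
  obtain ⟨k, rfl⟩ := hodd
  apply hP0
  have : (2 * k + 1) • P = k • (P + P) + P := by
    rw [add_smul, one_smul, mul_comm, mul_smul, two_smul]
  rw [this, h, smul_zero, zero_add] at hP
  exact hP

lemma nsmul_algEquiv_smul (σ : K ≃ₐ[S] K) (n : ℕ) (P : (W'⁄K).Point) :
    n • (σ • P) = σ • (n • P) := by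
  have := Point.algEquiv_smul_zsmul σ (n : ℤ) P
  rw [natCast_zsmul, natCast_zsmul] at this
  exact this.symm

/-- **Unit case**: in residue characteristic two, with `v a₁ = 1` and `a₃ = 0`, a torsion point
with unit `x`-coordinate has nonsingular reduction, hence is fixed by inertia. -/
theorem smul_eq_self_of_val_x_eq_one (hN : NodeTwo (W'⁄K) v)
    (σ : K ≃ₐ[S] K) (hσ : ∀ t : K, v t ≤ 1 → v (σ t - t) < 1) {n : ℕ} (hn : v (n : K) = 1)
    {x y : K} (h : (W'⁄K).Nonsingular x y) (hx : v x = 1)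
    (hP : n • Point.some x y h = 0) :
    σ • Point.some x y h = Point.some x y h := by
  have hy : v y ≤ 1 := GoodRed.val_y_le_one hN.int h.1 hx.le
  refine GoodRed.smul_eq_self_of_nonsingular_reduction hN.int σ hσ (n : ℤ)
    (fun Q hQ hnQ => C1b.eq_zero_of_inKer_of_zsmul_eq_zero hN.int n hn Q hQ hnQ) h hx.le
    (Or.inr ?_) (by rwa [natCast_zsmul])
  rw [hN.a₃, add_zero]
  have h1 : v ((W'⁄K).a₁ * x) = 1 := by rw [map_mul, hN.a₁, hx, one_mul]
  have h2 : v (2 * y) < 1 := val_mul_lt_one_left hN.two hy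
  rw [v.map_add_eq_of_lt_right (by rw [h1]; exact h2), h1]

/-- **T4, abstract form.** At a node at the origin in residue characteristic two, an
automorphism `σ` acting trivially on the residue field and preserving the valuation satisfies
`σ (σ P - P) = σ P - P` for every torsion point `P` of `v`-unit order. -/
theorem smul_sub_fixed (hN : NodeTwo (W'⁄K) v)
    (σ : K ≃ₐ[S] K) (hσ : ∀ t : K, v t ≤ 1 → v (σ t - t) < 1) (hσv : ∀ t : K, v (σ t) = v t)
    {n : ℕ} (hn : v (n : K) = 1) (P : (W'⁄K).Point) (hP : n • P = 0) :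
    σ • (σ • P - P) = σ • P - P := by
  have hodd : Odd n := odd_of_val_eq_one hN.two hn
  rcases P with _ | ⟨x, y, h⟩
  · have h0 : σ • (0 : (W'⁄K).Point) = 0 := smul_zero σ
    change σ • (σ • (0 : (W'⁄K).Point) - 0) = σ • (0 : (W'⁄K).Point) - 0
    rw [h0, sub_zero, h0]
  have hxy := C1b.val_x_le_one_of_nsmul_eq_zero hN.int hn h hP
  -- `Q = σ P - P` is `n`-torsion
  have hQ : n • (σ • Point.some x y h - Point.some x y h) = 0 := by
    rw [smul_sub, nsmul_algEquiv_smul, hP, smul_zero, sub_zero]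
  -- it suffices to show `Q = 0` or `Q` has unit `x`-coordinate
  suffices hsuff : σ • Point.some x y h - Point.some x y h = 0 ∨
      ∃ (xq yq : K) (hq : (W'⁄K).Nonsingular xq yq),
        σ • Point.some x y h - Point.some x y h = Point.some xq yq hq ∧ v xq = 1 by
    rcases hsuff with h0 | ⟨xq, yq, hq, hQe, hxq⟩
    · rw [h0]; exact smul_zero σ
    · rw [hQe] at hQ ⊢
      exact smul_eq_self_of_val_x_eq_one hN σ hσ hn hq hxq hQ
  rcases lt_or_eq_of_le hxy.1 with hx1 | hx1
  swap
  · left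
    rw [smul_eq_self_of_val_x_eq_one hN σ hσ hn h hx1 hP, sub_self]
  -- now `v x < 1`: the point reduces to the node
  -- `2P ≠ 0`
  have h2P : Point.some x y h + Point.some x y h ≠ 0 :=
    add_self_ne_zero_of_odd hodd hP (Point.some_ne_zero h)
  have hyne : y ≠ (W'⁄K).negY x y := by
    intro hy
    exact h2P (Point.add_self_of_Y_eq hy)
  obtain ⟨x', y', h', hdbl, hdblx, hden⟩ := XId.add_self_some h hyne
  have h2Pn : n • Point.some x' y' h' = 0 := by
    rw [← hdbl, smul_add, hP, add_zero]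
  have hx' := (C1b.val_x_le_one_of_nsmul_eq_zero hN.int hn h' h2Pn).1
  have hx4 : v (W'⁄K).a₄ ≤ v x := hN.val_a₄_le hdblx hden hx'
  have hx0 : x ≠ 0 := by
    intro hx0
    rw [hx0, map_zero] at hx4
    exact hN.a₄_ne ((Valuation.zero_iff v).mp (le_antisymm hx4 zero_le))
  have hvx : 0 < v x := (Valuation.pos_iff v).mpr hx0
  have heta : v (2 * y + (W'⁄K).a₁ * x) = v x := hN.val_eta h.1 hx0 hx1 hx4
  have hyx : v y ≤ v x := hN.val_y_le_val_x h.1 hx1.le hx4
  -- `g = y / x` is integral
  have hg : v (y / x) ≤ 1 := by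
    rw [map_div₀]; exact (div_le_one₀ hvx).mpr hyx
  have hσg := hσ (y / x) hg
  have hσx0 : σ x ≠ 0 := by
    intro h0
    exact hx0 (by simpa using h0)
  have h2g : v (2 * (y / x) + (W'⁄K).a₁) = 1 := by
    have : 2 * (y / x) + (W'⁄K).a₁ = (2 * y + (W'⁄K).a₁ * x) / x := by
      field_simp
    rw [this, map_div₀, heta, div_self (ne_of_gt hvx)]
  -- the image point
  have hσns : (W'⁄K).Nonsingular (σ x) (σ y) :=
    (W'.baseChange_nonsingular σ.toAlgHom.injective x y).mpr h
  have hσP : σ • Point.some x y h = Point.some (σ x) (σ y) hσns := GoodRed.smul_some σ h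
  by_cases hxe : σ x = x
  · -- same `x`-coordinate
    rcases Affine.Y_eq_of_X_eq hσns.1 h.1 hxe with hye | hye
    · left
      rw [hσP, sub_eq_zero]
      simp only [Point.some.injEq]
      exact ⟨hxe, hye⟩
    · exfalso
      have hneg : σ y = -y - (W'⁄K).a₁ * x := by
        rw [hye]; simp only [negY, hN.a₃]; ring
      have : σ (y / x) - y / x = -(2 * (y / x) + (W'⁄K).a₁) := by
        rw [map_div₀, hxe, hneg]
        field_simp
        ring
      rw [this, Valuation.map_neg, h2g] at hσg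
      exact lt_irrefl _ hσg
  · -- different `x`-coordinates
    right
    have hns' : (W'⁄K).Nonsingular x ((W'⁄K).negY x y) := (nonsingular_neg ..).mpr h
    refine ⟨_, _, nonsingular_add hσns hns' fun hxy => hxe hxy.left, ?_, ?_⟩
    · rw [hσP, sub_eq_add_neg, Point.neg_some, Point.add_of_X_ne hxe]
    · set xq := (W'⁄K).addX (σ x) x ((W'⁄K).slope (σ x) x (σ y) ((W'⁄K).negY x y)) with hxq
      have hform := addX_sub_formula (W'⁄K) hN.a₃ hN.a₆ hσns.1 h.1 hxe
      rw [← hxq] at hform
      -- `Q` is integral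
      have hQ' : n • Point.some xq _ (nonsingular_add hσns hns' fun hxy => hxe hxy.left) = 0 := by
        rw [← hQ, hσP, sub_eq_add_neg, Point.neg_some, Point.add_of_X_ne hxe]
      have hxq1 := (C1b.val_x_le_one_of_nsmul_eq_zero hN.int hn _ hQ').1
      refine le_antisymm hxq1 ?_
      -- the right-hand side
      have hrhs : σ y * x + y * σ x + (W'⁄K).a₁ * σ x * x =
          σ x * x * ((σ (y / x) - y / x) + (2 * (y / x) + (W'⁄K).a₁)) := by
        rw [map_div₀]
        field_simp
        ring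
      have hsum : v ((σ (y / x) - y / x) + (2 * (y / x) + (W'⁄K).a₁)) = 1 := by
        rw [v.map_add_eq_of_lt_right (by rw [h2g]; exact hσg), h2g]
      rw [hrhs] at hform
      have hval := congrArg v hform
      simp only [map_mul, map_pow] at hval
      rw [hsum, hσv x, mul_one] at hval
      -- `v (σ x - x) ≤ v x`
      have hd : v (σ x - x) ≤ v x := by
        refine (v.map_sub _ _).trans (max_le ?_ le_rfl)
        rw [hσv x]
      have hvxx : 0 < v x * v x := mul_pos hvx hvx
      have hle : (v x * v x) * (v x * v x) * 1 ≤ (v x * v x) * (v x * v x) * v xq := by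
        calc (v x * v x) * (v x * v x) * 1 = (v x * v x) ^ 2 := by rw [mul_one, pow_two]
          _ = v x * v x * (v (σ x - x) ^ 2 * v xq) := hval.symm
          _ ≤ v x * v x * (v x ^ 2 * v xq) := by
              have h1 : v (σ x - x) ^ 2 ≤ v x ^ 2 := pow_le_pow_left₀ zero_le hd 2
              exact mul_le_mul_l (mul_le_mul_r h1 _) _
          _ = (v x * v x) * (v x * v x) * v xq := by rw [pow_two]; simp only [mul_assoc]
      exact le_of_mul_le_mul_left hle (mul_pos hvxx hvxx)

end galois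

end Fermat.Agent.S13.H129

end
-- ===== PACK-END S13/H129/AtTwo.lean

-- ===== PACK-BEGIN S13/H11/NoTorsion.lean
section




/-!
# S13 / T7 (helper11): the `E₀` part of "no rational point of order `p`"

Abstract form over `ℚ`: `W` a Weierstrass curve over `ℚ` with `a₁ = 1`, `a₃ = 0` and
`w`-integral coefficients for a valuation `w` with `w 2 < 1` (so the residue field is `𝔽₂` and
the reduction `y² + xy = x³ + ā₂x² + ā₄ x + ā₆` has at most the affine points with `x̄ = 1`
outside `x̄ = 0`).  If no point of order `p` has `w x < 1`, then there is no point of order `p`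
at all (`p ≥ 5` prime).
-/

set_option autoImplicit false

namespace Fermat.Agent.S13.H11

open WeierstrassCurve WeierstrassCurve.Affine
open Fermat.Agent.S05

variable {Γ₀ : Type*} [LinearOrderedCommGroupWithZero Γ₀]

section group

variable {G : Type*} [AddCommGroup G]

lemma eq_zero_of_coprime_nsmul {k p : ℕ} (hkp : Nat.Coprime k p) {Q : G} (hk : k • Q = 0)
    (hp : p • Q = 0) : Q = 0 := by
  have h1 : addOrderOf Q ∣ k := addOrderOf_dvd_of_nsmul_eq_zero hk
  have h2 : addOrderOf Q ∣ p := addOrderOf_dvd_of_nsmul_eq_zero hp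
  have h3 : addOrderOf Q ∣ Nat.gcd k p := Nat.dvd_gcd h1 h2
  rw [hkp.gcd_eq_one, Nat.dvd_one] at h3
  exact AddMonoid.addOrderOf_eq_one_iff.mp h3

end group

variable [DecidableEq ℚ] {W : Affine ℚ} {w : Valuation ℚ Γ₀}

/-- A nonzero point of order `p` outside the node region has unit `x` and integral `y`. -/
lemma unit_coords (hW : SameRed.IntegralCoeffs W w) {p : ℕ} (hwp : w (p : ℚ) = 1)
    (hnode : ∀ (x y : ℚ) (h : W.Nonsingular x y), p • Point.some x y h = 0 → ¬ w x < 1)
    {R : W.Point} (hR0 : R ≠ 0) (hR : p • R = 0) :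
    ∃ (x y : ℚ) (h : W.Nonsingular x y), R = Point.some x y h ∧ w x = 1 ∧ w y ≤ 1 := by
  rcases R with _ | ⟨x, y, h⟩
  · exact absurd rfl hR0
  · obtain ⟨hx, hy⟩ := C1b.val_x_le_one_of_nsmul_eq_zero hW hwp h hR
    refine ⟨x, y, h, rfl, le_antisymm hx ?_, hy⟩
    exact not_lt.mp (hnode x y h hR)

/-- **`E₀` part of T7.** -/
theorem eq_zero_of_no_node_torsion (hW : SameRed.IntegralCoeffs W w) (h2 : w (2 : ℚ) < 1)
    (ha₁ : W.a₁ = 1) (ha₃ : W.a₃ = 0) {p : ℕ} (hp : p.Prime) (hp5 : 5 ≤ p)
    (hnode : ∀ (x y : ℚ) (h : W.Nonsingular x y), p • Point.some x y h = 0 → ¬ w x < 1)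
    (Q : W.Point) (hQ : p • Q = 0) : Q = 0 := by
  by_contra hQ0
  have hodd : Odd p := hp.odd_of_ne_two (by omega)
  have hwp : w (p : ℚ) = 1 := by
    have := val_odd_eq_one h2 (n := (p : ℤ)) (by exact_mod_cast hodd)
    exact_mod_cast this
  have hc2 : Nat.Coprime 2 p := by
    rw [Nat.coprime_comm]
    exact (Nat.coprime_primes hp Nat.prime_two).mpr (by omega)
  have hc3 : Nat.Coprime 3 p := by
    rw [Nat.coprime_comm]
    exact (Nat.coprime_primes hp Nat.prime_three).mpr (by omega)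
  -- the point `Q`
  obtain ⟨x₁, y₁, h₁, rfl, hx₁, hy₁⟩ := unit_coords hW hwp hnode hQ0 hQ
  -- the point `2 Q`
  have h2Q0 : (2 : ℕ) • Point.some x₁ y₁ h₁ ≠ 0 := fun h => hQ0 (eq_zero_of_coprime_nsmul hc2 h hQ)
  have h2Q : p • ((2 : ℕ) • Point.some x₁ y₁ h₁) = 0 := by
    rw [smul_comm, hQ, nsmul_zero]
  obtain ⟨x₂, y₂, h₂, e₂, hx₂, hy₂⟩ := unit_coords hW hwp hnode h2Q0 h2Q
  have hx : w (x₁ - x₂) < 1 := val_sub_lt_one_of_val_eq_one h2 hx₁ hx₂
  have hns : w (W.a₁ * y₁ - (3 * x₁ ^ 2 + 2 * W.a₂ * x₁ + W.a₄)) = 1 ∨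
      w (2 * y₁ + W.a₁ * x₁ + W.a₃) = 1 := by
    right
    rw [ha₁, ha₃, add_zero, one_mul]
    have h2y : w (2 * y₁) < 1 := by
      rw [map_mul]
      exact (mul_le_of_le_one_right' hy₁).trans_lt h2
    rw [w.map_add_eq_of_lt_right (by rwa [hx₁]), hx₁]
  -- the two cases for the reductions of `y₁`, `y₂`
  by_cases hy : w (y₁ - y₂) < 1
  · -- same reduction: `Q - 2Q ∈ E₁`
    have hker := SameRed.inKer_sub_of_same_reduction hW h₁ h₂ hx₁.le hy₁ hx₂.le hy₂ hx hy hns
    have hp' : p • (Point.some x₁ y₁ h₁ - Point.some x₂ y₂ h₂) = 0 := by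
      rw [nsmul_sub, hQ, ← e₂, h2Q, sub_zero]
    have h0 := C1b.eq_zero_of_inKer_of_nsmul_eq_zero hW p hwp _ hker hp'
    rw [← e₂] at h0
    apply hQ0
    have : Point.some x₁ y₁ h₁ - (2 : ℕ) • Point.some x₁ y₁ h₁ = -Point.some x₁ y₁ h₁ := by
      rw [two_nsmul]; abel
    rw [this, neg_eq_zero] at h0
    exact h0
  · -- opposite reductions: `Q + 2Q ∈ E₁`
    have hy' : w (y₁ - W.negY x₂ y₂) < 1 := by
      have e : y₁ - W.negY x₂ y₂ = (y₁ - y₂ - 1) + 2 * y₂ + (x₂ - 1) + 2 := by
        simp only [Affine.negY, ha₁, ha₃]; ring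
      have hx₂' : w (x₂ - 1) < 1 :=
        (val_lt_one_or_sub_one h2 hx₂.le).resolve_left hx₂.not_lt
      have hy12 : w (y₁ - y₂) ≤ 1 := (w.map_sub _ _).trans (max_le hy₁ hy₂)
      have hy12' : w (y₁ - y₂ - 1) < 1 := (val_lt_one_or_sub_one h2 hy12).resolve_left hy
      have h2y : w (2 * y₂) < 1 := by
        rw [map_mul]
        exact (mul_le_of_le_one_right' hy₂).trans_lt h2
      rw [e]
      exact (w.map_add _ _).trans_lt (max_lt ((w.map_add _ _).trans_lt (max_lt
        ((w.map_add _ _).trans_lt (max_lt hy12' h2y)) hx₂')) h2)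
    have hneg : -Point.some x₂ y₂ h₂ = Point.some x₂ (W.negY x₂ y₂) ((nonsingular_neg ..).mpr h₂) :=
      rfl
    have hny : w (W.negY x₂ y₂) ≤ 1 := by
      have e : W.negY x₂ y₂ = -y₂ - x₂ := by simp only [Affine.negY, ha₁, ha₃]; ring
      rw [e]
      exact (w.map_sub _ _).trans (max_le (by rwa [Valuation.map_neg]) hx₂.le)
    have hker := SameRed.inKer_sub_of_same_reduction hW h₁ ((nonsingular_neg ..).mpr h₂)
      hx₁.le hy₁ hx₂.le hny hx hy' hns
    rw [← hneg, ← e₂, sub_neg_eq_add] at hker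
    have e3 : Point.some x₁ y₁ h₁ + (2 : ℕ) • Point.some x₁ y₁ h₁ =
        (3 : ℕ) • Point.some x₁ y₁ h₁ := by
      rw [two_nsmul, succ_nsmul, two_nsmul]; abel
    rw [e3] at hker
    have hp' : p • ((3 : ℕ) • Point.some x₁ y₁ h₁) = 0 := by
      rw [smul_comm, hQ, nsmul_zero]
    have h0 := C1b.eq_zero_of_inKer_of_nsmul_eq_zero hW p hwp _ hker hp'
    exact hQ0 (eq_zero_of_coprime_nsmul hc3 h0 hQ)

end Fermat.Agent.S13.H11

end
-- ===== PACK-END S13/H11/NoTorsion.lean

-- ===== PACK-BEGIN S13/Comp2Torsion.lean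
section



/-!
# Kernel of the component map, torsion points near the node, and Galois invariance
(any residue characteristic)
-/

set_option autoImplicit false

namespace Fermat.Agent.S13.Comp2

open WeierstrassCurve WeierstrassCurve.Affine

variable {K : Type*} [Field K] {Γ₀ : Type*} [LinearOrderedCommGroupWithZero Γ₀]
  {v : Valuation K Γ₀}

lemma cls_eq_one_iff (a : K) (g : Γ₀) :
    cls v a g = 1 ↔ ∃ k : ℤ, (toU (v a) ^ 2) ^ k = toU g := by
  rw [cls, QuotientGroup.eq_one_iff, Subgroup.mem_zpowers_iff]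

/-- If `cls g = 1` with `g ≠ 0` then `g` is an integral power of `v a ^ 2`. -/
lemma exists_zpow_of_cls_eq_one {a : K} (ha0 : a ≠ 0) {g : Γ₀} (hg : g ≠ 0)
    (h : cls v a g = 1) : ∃ k : ℤ, g = (v a ^ 2) ^ k := by
  have h0 : v a ≠ 0 := (Valuation.ne_zero_iff v).mpr ha0
  obtain ⟨k, hk⟩ := (cls_eq_one_iff a g).mp h
  refine ⟨k, ?_⟩
  have := congrArg (fun u : Γ₀ˣ => (u : Γ₀)) hk
  simp only [Units.val_zpow_eq_zpow_val, Units.val_pow_eq_pow_val, toU_coe h0, toU_coe hg] at this
  exact this.symm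

/-- An element `g < 1` which is an integral power of `m < 1` is a natural power. -/
lemma exists_pow_of_zpow {m g : Γ₀} (hm0 : m ≠ 0) (hm : m < 1) (hg : g < 1) {k : ℤ}
    (h : g = m ^ k) : ∃ j : ℕ, g = m ^ j := by
  rcases le_or_gt 0 k with hk | hk
  · refine ⟨k.toNat, ?_⟩
    rw [h]
    conv_lhs => rw [← Int.toNat_of_nonneg hk]
    exact zpow_natCast m k.toNat
  · exfalso
    have h1 : 1 ≤ m ^ k := by
      have : m ^ k = (m ^ (-k).toNat)⁻¹ := by
        rw [← zpow_natCast, Int.toNat_of_nonneg (by omega), zpow_neg, inv_inv]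
      rw [this]
      apply (one_le_inv₀ (pow_pos (zero_lt_iff.mpr hm0) _)).mpr
      exact pow_le_one₀ zero_le hm.le
    rw [← h] at h1
    exact absurd h1 (not_le.mpr hg)

/-- An element `g` with `v a ≤ g < 1` is not in the subgroup generated by `v a ^ 2`. -/
lemma cls_ne_one_of_le_of_lt {a : K} (ha0 : a ≠ 0) (ha : v a < 1) {g : Γ₀}
    (hlo : v a ≤ g) (hhi : g < 1) : cls v a g ≠ 1 := by
  have h0 : v a ≠ 0 := (Valuation.ne_zero_iff v).mpr ha0
  have hpos : 0 < v a := zero_lt_iff.mpr h0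
  have hg0 : g ≠ 0 := (hpos.trans_le hlo).ne'
  intro h
  obtain ⟨k, hk⟩ := exists_zpow_of_cls_eq_one ha0 hg0 h
  have hsq0 : v a ^ 2 ≠ 0 := pow_ne_zero 2 h0
  have hsq1 : v a ^ 2 < 1 := pow_lt_one₀ zero_le ha (by norm_num)
  obtain ⟨j, hj⟩ := exists_pow_of_zpow hsq0 hsq1 hhi hk
  rw [← pow_mul] at hj
  rcases Nat.eq_zero_or_pos j with h0j | hjpos
  · rw [h0j, mul_zero, pow_zero] at hj
    exact absurd hj hhi.ne
  · have : v a ^ (2 * j) < v a := by
      calc v a ^ (2 * j) ≤ v a ^ 2 := pow_le_pow_of_le_one zero_le ha.le (by omega)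
        _ = v a * v a := pow_two _
        _ < v a * 1 := mul_lt_mul_of_pos_left ha hpos
        _ = v a := mul_one _
    rw [← hj] at this
    exact absurd hlo (not_le.mpr this)

lemma cls_a_ne_one {a : K} (ha0 : a ≠ 0) (ha : v a < 1) : cls v a (v a) ≠ 1 :=
  cls_ne_one_of_le_of_lt ha0 ha le_rfl ha

/-- The component of a point on the cubic is trivial iff the point is away from the node. -/
theorem comp2XY_eq_one_iff {a γ₁ γ₂ x y : K} (hδ : v (γ₁ - γ₂) = 1) (ha : v a < 1)
    (ha0 : a ≠ 0) (hE : (y - γ₁ * x) * (y - γ₂ * x) = x * (x ^ 2 + a)) :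
    comp2XY v a γ₁ x y = 1 ↔ 1 ≤ v x := by
  constructor
  · intro h
    rcases comp2XY_cases hδ ha hE with ⟨hZ, -⟩ | ⟨-, e⟩ | ⟨hlo, hhi, -, e⟩ | ⟨hlo, hhi, -, e⟩
    · exact hZ
    · rw [e] at h
      exact absurd h (cls_a_ne_one ha0 ha)
    · rw [e] at h
      exact absurd h (cls_ne_one_of_le_of_lt ha0 ha hlo.le hhi)
    · rw [e, inv_eq_one] at h
      exact absurd h (cls_ne_one_of_le_of_lt ha0 ha hlo.le hhi)
  · exact comp2XY_of_Z

/-- The component is invariant under valuation-preserving ring endomorphisms fixing the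
branch `γ₁`. -/
lemma comp2XY_map {a γ₁ x y : K} (σ : K →+* K) (hv : ∀ t, v (σ t) = v t)
    (hγ : σ γ₁ = γ₁) : comp2XY v a γ₁ (σ x) (σ y) = comp2XY v a γ₁ x y := by
  have e : σ y - γ₁ * σ x = σ (y - γ₁ * x) := by
    rw [map_sub, map_mul, hγ]
  simp only [comp2XY]
  rw [e, hv, hv]

namespace NodeModel2

variable {W : Affine K}

lemma gamma₁_root (M : NodeModel2 v W) : M.γ₁ ^ 2 + W.a₁ * M.γ₁ - W.a₂ = 0 := by
  rw [M.ha₁, M.ha₂]; ring

/-- The branches are `v`-integral when `a₁` and `a₂` are. -/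
lemma val_gamma₁_le_one (M : NodeModel2 v W) (h1 : v W.a₁ ≤ 1) (h2 : v W.a₂ ≤ 1) :
    v M.γ₁ ≤ 1 := by
  by_contra hcon
  rw [not_le] at hcon
  have hpos : 0 < v M.γ₁ := zero_lt_one.trans hcon
  have e : M.γ₁ ^ 2 = -(W.a₁ * M.γ₁) + W.a₂ := by
    linear_combination M.gamma₁_root
  have h3 : v (M.γ₁ ^ 2) ≤ v M.γ₁ := by
    rw [e]
    apply Valuation.map_add_le
    · rw [Valuation.map_neg, map_mul]
      calc v W.a₁ * v M.γ₁ ≤ 1 * v M.γ₁ := mul_le_mul' h1 le_rfl
        _ = v M.γ₁ := one_mul _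
    · exact h2.trans hcon.le
  rw [map_pow, pow_two] at h3
  have h4 : v M.γ₁ < v M.γ₁ * v M.γ₁ := by
    calc v M.γ₁ = 1 * v M.γ₁ := (one_mul _).symm
      _ < v M.γ₁ * v M.γ₁ := mul_lt_mul_of_pos_right hcon hpos
  exact absurd h3 (not_le.mpr h4)

/-- A ring endomorphism fixing `a₁`, `a₂` and acting trivially on the residue field fixes
the branch `γ₁`. -/
lemma map_gamma₁_eq (M : NodeModel2 v W) (σ : K →+* K) (h1 : σ W.a₁ = W.a₁)
    (h2 : σ W.a₂ = W.a₂) (hσ : v (σ M.γ₁ - M.γ₁) < 1) : σ M.γ₁ = M.γ₁ := by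
  have hroot : σ M.γ₁ ^ 2 + W.a₁ * σ M.γ₁ - W.a₂ = 0 := by
    have := congrArg σ M.gamma₁_root
    rw [map_sub, map_add, map_pow, map_mul, h1, h2, map_zero] at this
    exact this
  have hprod : (σ M.γ₁ - M.γ₁) * (σ M.γ₁ - M.γ₂) = 0 := by
    have e : (σ M.γ₁ - M.γ₁) * (σ M.γ₁ - M.γ₂) = σ M.γ₁ ^ 2 + W.a₁ * σ M.γ₁ - W.a₂ := by
      rw [M.ha₁, M.ha₂]; ring
    rw [e, hroot]
  rcases mul_eq_zero.mp hprod with h | h
  · exact sub_eq_zero.mp h
  · exfalso
    have e : σ M.γ₁ - M.γ₁ = M.γ₂ - M.γ₁ := by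
      rw [sub_eq_zero.mp h]
    rw [e, val_swap_delta M.hδ] at hσ
    exact lt_irrefl _ hσ

/-- The component of a point is trivial iff the point is `0` or has `1 ≤ v x`. -/
theorem comp_some_eq_one_iff (M : NodeModel2 v W) {x y : K} (h : W.Nonsingular x y) :
    M.comp (.some x y h) = 1 ↔ 1 ≤ v x := by
  rw [comp_some]
  exact comp2XY_eq_one_iff M.hδ M.ha M.ha0 ((M.equation_iff x y).mp h.1)

variable [DecidableEq K]

/-- The subgroup `E₀` of points with nonsingular reduction. -/
noncomputable def E0 (M : NodeModel2 v W) : AddSubgroup W.Point := M.compHom.ker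

lemma mem_E0_iff (M : NodeModel2 v W) (P : W.Point) : P ∈ M.E0 ↔ M.comp P = 1 := by
  rw [E0, AddMonoidHom.mem_ker]
  exact Iff.rfl

lemma zero_mem_E0 (M : NodeModel2 v W) : (0 : W.Point) ∈ M.E0 := M.E0.zero_mem

lemma some_mem_E0_iff (M : NodeModel2 v W) {x y : K} (h : W.Nonsingular x y) :
    Point.some x y h ∈ M.E0 ↔ 1 ≤ v x := by
  rw [mem_E0_iff, comp_some_eq_one_iff]

/-- Twice a point in the `M`-range has nonsingular reduction. -/
theorem two_nsmul_mem_E0 (M : NodeModel2 v W) {x y : K} (h : W.Nonsingular x y)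
    (hx : v x ≤ v W.a₄) : 2 • Point.some x y h ∈ M.E0 := by
  rw [mem_E0_iff, comp_nsmul, comp_some, comp2XY_of_M M.ha hx, pow_two]
  exact cls_a_mul_self v W.a₄ M.ha0

/-- Torsion points in the middle range: `v x ^ n` is an even power of `v a₄`. -/
theorem torsion_mid (M : NodeModel2 v W) {n : ℕ} {x y : K}
    (h : W.Nonsingular x y) (hP : n • Point.some x y h = 0)
    (hlo : v W.a₄ < v x) (hhi : v x < 1) :
    ∃ j : ℕ, v x ^ n = v W.a₄ ^ (2 * j) := by
  have h0 : v W.a₄ ≠ 0 := (Valuation.ne_zero_iff v).mpr M.ha0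
  have hμ : 0 < v W.a₄ := zero_lt_iff.mpr h0
  rcases Nat.eq_zero_or_pos n with hn0 | hnpos
  · exact ⟨0, by rw [hn0, pow_zero, mul_zero, pow_zero]⟩
  have hc : M.comp (Point.some x y h) ^ n = 1 := by
    rw [← M.comp_nsmul, hP, comp_zero]
  rw [comp_some] at hc
  have hE := (M.equation_iff x y).mp h.1
  have hsq0 : v W.a₄ ^ 2 ≠ 0 := pow_ne_zero 2 h0
  have hsq1 : v W.a₄ ^ 2 < 1 := pow_lt_one₀ zero_le M.ha (by norm_num)
  have hr0 : v x ≠ 0 := (hμ.trans hlo).ne'
  have hrn0 : v x ^ n ≠ 0 := pow_ne_zero n hr0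
  have hcls : cls v W.a₄ (v x) ^ n = 1 := by
    rcases sign_exists hE hlo hhi with hP' | hN'
    · rwa [comp2XY_of_P hlo hhi hP'] at hc
    · rwa [comp2XY_of_N M.hδ hlo hhi hN', inv_pow, inv_eq_one] at hc
  have hcls' : cls v W.a₄ (v x ^ n) = 1 := by
    rw [cls_pow v W.a₄ hr0, hcls]
  obtain ⟨k, hk⟩ := exists_zpow_of_cls_eq_one M.ha0 hrn0 hcls'
  have hlt : v x ^ n < 1 := pow_lt_one₀ zero_le hhi hnpos.ne'
  obtain ⟨j, hj⟩ := exists_pow_of_zpow hsq0 hsq1 hlt hk
  exact ⟨j, by rw [hj, ← pow_mul]⟩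

/-- **Odd torsion near the node**: if `n` is odd, `n • P = 0` and `P` reduces to the node, then
`v a₄ < v x < 1` and `v x ^ n` is an even power of `v a₄`. -/
theorem torsion_near_node (M : NodeModel2 v W) {n : ℕ} (hn : Odd n) {x y : K}
    (h : W.Nonsingular x y) (hP : n • Point.some x y h = 0) (hx : v x < 1) :
    v W.a₄ < v x ∧ ∃ j : ℕ, v x ^ n = v W.a₄ ^ (2 * j) := by
  have hlo : v W.a₄ < v x := by
    by_contra hcon
    rw [not_lt] at hcon
    have hc : M.comp (Point.some x y h) ^ n = 1 := by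
      rw [← M.comp_nsmul, hP, comp_zero]
    rw [comp_some, comp2XY_of_M M.ha hcon] at hc
    obtain ⟨m, rfl⟩ := hn
    have hsq : cls v W.a₄ (v W.a₄) ^ 2 = 1 :=
      (pow_two _).trans (cls_a_mul_self v W.a₄ M.ha0)
    rw [pow_succ, pow_mul, hsq, one_pow, one_mul] at hc
    exact cls_a_ne_one M.ha0 M.ha hc
  exact ⟨hlo, M.torsion_mid h hP hlo hx⟩

end NodeModel2

/-- Over an algebraically closed field, every curve `y² + a₁ x y = x³ + a₂ x² + a₄ x` with
`v b₂ = 1` and `0 < v a₄ < 1` carries a nodal model. -/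
theorem exists_nodeModel2 [IsAlgClosed K] (W : Affine K) (h3 : W.a₃ = 0) (h6 : W.a₆ = 0)
    (hb2 : v W.b₂ = 1) (ha : v W.a₄ < 1) (ha0 : W.a₄ ≠ 0) : Nonempty (NodeModel2 v W) := by
  obtain ⟨g, hg⟩ := IsAlgClosed.exists_root
    (Polynomial.X ^ 2 + Polynomial.C W.a₁ * Polynomial.X - Polynomial.C W.a₂ : Polynomial K)
    (by
      have : (Polynomial.X ^ 2 + Polynomial.C W.a₁ * Polynomial.X - Polynomial.C W.a₂ :
          Polynomial K).degree = 2 := by
        compute_degree!
      rw [this]; norm_num)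
  simp only [Polynomial.IsRoot, Polynomial.eval_sub, Polynomial.eval_add, Polynomial.eval_pow,
    Polynomial.eval_X, Polynomial.eval_mul, Polynomial.eval_C] at hg
  refine ⟨⟨g, -W.a₁ - g, by ring, ?_, h3, h6, ?_, ha, ha0⟩⟩
  · linear_combination -hg
  · have e : (g - (-W.a₁ - g)) ^ 2 = W.b₂ := by
      rw [WeierstrassCurve.b₂]
      linear_combination 4 * hg
    have : v (g - (-W.a₁ - g)) ^ 2 = 1 := by rw [← map_pow, e, hb2]
    exact (pow_eq_one_iff_of_nonneg zero_le (by norm_num)).mp this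

section galois

variable {R S : Type*} [CommRing R] [CommRing S] [DecidableEq K]
  [Algebra R S] [Algebra R K] [Algebra S K] [IsScalarTower R S K]
  {W' : Affine R}

lemma smul_some' (σ : K ≃ₐ[S] K) {x y : K} (h : (W'⁄K).Nonsingular x y) :
    σ • Point.some x y h = Point.some (σ x) (σ y)
      ((W'.baseChange_nonsingular σ.toAlgHom.injective x y).mpr h) :=
  rfl

omit [DecidableEq K] in
lemma algEquiv_map_coeff (σ : K ≃ₐ[S] K) (r : R) :
    σ (algebraMap R K r) = algebraMap R K r := by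
  rw [IsScalarTower.algebraMap_apply R S K, σ.commutes]

/-- **Galois invariance of the component**: an automorphism preserving the valuation and
acting trivially on the residue field preserves the component of every point. -/
theorem NodeModel2.comp_smul (M : NodeModel2 v (W'⁄K)) (σ : K ≃ₐ[S] K)
    (hv : ∀ t : K, v (σ t) = v t) (hσ : ∀ t : K, v t ≤ 1 → v (σ t - t) < 1)
    (h1 : v (W'⁄K).a₁ ≤ 1) (h2 : v (W'⁄K).a₂ ≤ 1) (P : (W'⁄K).Point) :
    M.comp (σ • P) = M.comp P := by
  have hγ : σ M.γ₁ = M.γ₁ := by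
    refine M.map_gamma₁_eq (σ : K →+* K) ?_ ?_ (hσ _ (M.val_gamma₁_le_one h1 h2))
    · exact algEquiv_map_coeff σ W'.a₁
    · exact algEquiv_map_coeff σ W'.a₂
  rcases P with _ | ⟨x, y, h⟩
  · rfl
  · rw [smul_some', NodeModel2.comp_some, NodeModel2.comp_some]
    exact comp2XY_map (σ : K →+* K) hv hγ

/-- **Inertia moves points inside their component**: `σ • P - P` has nonsingular reduction. -/
theorem NodeModel2.smul_sub_mem_E0 (M : NodeModel2 v (W'⁄K)) (σ : K ≃ₐ[S] K)
    (hv : ∀ t : K, v (σ t) = v t) (hσ : ∀ t : K, v t ≤ 1 → v (σ t - t) < 1)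
    (h1 : v (W'⁄K).a₁ ≤ 1) (h2 : v (W'⁄K).a₂ ≤ 1) (P : (W'⁄K).Point) :
    σ • P - P ∈ M.E0 := by
  rw [NodeModel2.mem_E0_iff, NodeModel2.comp_sub, M.comp_smul σ hv hσ h1 h2 P]
  exact mul_inv_cancel _

end galois

end Fermat.Agent.S13.Comp2

end
-- ===== PACK-END S13/Comp2Torsion.lean

-- ===== PACK-BEGIN S29/H872/Assembly.lean
section



/-!
# Abstract assembly: from a nonzero module with quadratic relations to a two-dimensional
representation with prescribed characteristic polynomials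
-/

set_option autoImplicit false

namespace Fermat.Agent.S29.H872

open Module Polynomial

section diag

variable {F : Type*} [Field F] {G : Type*} [Group G]

/-- The diagonal representation `χ ⊕ θ` on `F × F`. -/
noncomputable def diagRep (χ θ : G →* F) : G →* Module.End F (F × F) where
  toFun g := LinearMap.prodMap (χ g • (1 : Module.End F F)) (θ g • (1 : Module.End F F))
  map_one' := by
    ext <;> simp
  map_mul' g h := by
    ext <;> simp [mul_comm]

theorem diagRep_apply (χ θ : G →* F) (g : G) :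
    diagRep χ θ g = LinearMap.prodMap (χ g • (1 : Module.End F F)) (θ g • (1 : Module.End F F)) :=
  rfl

theorem charpoly_diagRep (χ θ : G →* F) (g : G) :
    (diagRep χ θ g).charpoly = X ^ 2 - C (χ g + θ g) * X + C (χ g * θ g) := by
  rw [diagRep_apply, LinearMap.charpoly_prodMap, charpoly_smul_one, charpoly_smul_one,
    Module.finrank_self, pow_one, pow_one, C_add, C_mul]
  ring

theorem diagRep_eq_one (χ θ : G →* F) {g : G} (h1 : χ g = 1) (h2 : θ g = 1) :
    diagRep χ θ g = 1 := by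
  rw [diagRep_apply, h1, h2]
  ext <;> simp

theorem finrank_prod_self : Module.finrank F (F × F) = 2 := by
  rw [Module.finrank_prod, Module.finrank_self]

end diag

section dim1

variable {F : Type*} [Field F] {U : Type*} [AddCommGroup U] [Module F U]
variable {G : Type*} [Group G]

/-- The character by which `G` acts on a line. -/
noncomputable def lineChar (h1 : Module.finrank F U = 1) (r : G →* Module.End F U) : G →* F where
  toFun g := (LinearEquiv.smul_id_of_finrank_eq_one h1).symm (r g)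
  map_one' := by
    rw [LinearEquiv.symm_apply_eq]
    simp
    rfl
  map_mul' g h := by
    rw [LinearEquiv.symm_apply_eq]
    have e1 := (LinearEquiv.smul_id_of_finrank_eq_one h1).apply_symm_apply (r g)
    have e2 := (LinearEquiv.smul_id_of_finrank_eq_one h1).apply_symm_apply (r h)
    simp only [LinearEquiv.smul_id_of_finrank_eq_one_apply] at e1 e2 ⊢
    rw [map_mul]
    conv_lhs => rw [← e1, ← e2]
    ext x
    simp [mul_smul, smul_comm ((LinearEquiv.smul_id_of_finrank_eq_one h1).symm (r h))]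

theorem lineChar_spec (h1 : Module.finrank F U = 1) (r : G →* Module.End F U) (g : G) :
    r g = lineChar h1 r g • (1 : Module.End F U) := by
  have e1 := (LinearEquiv.smul_id_of_finrank_eq_one h1).apply_symm_apply (r g)
  simp only [LinearEquiv.smul_id_of_finrank_eq_one_apply] at e1
  exact e1.symm

end dim1

section assembly

variable {F M : Type} [Field F] [AddCommGroup M] [Module F M]
variable {G : Type*} [Group G]

/-- The twist `d · χ⁻¹` of the inverse of a character. -/
noncomputable def twistInv (d χ : G →* F) : G →* F :=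
  d * ((invMonoidWithZeroHom (G₀ := F)).toMonoidHom.comp χ)

theorem twistInv_apply (d χ : G →* F) (g : G) : twistInv d χ g = d g * (χ g)⁻¹ := rfl

theorem char_ne_zero (χ : G →* F) (g : G) : χ g ≠ 0 := by
  intro h
  have : χ g * χ g⁻¹ = 1 := by rw [← map_mul, mul_inv_cancel, map_one]
  rw [h, zero_mul] at this
  exact zero_ne_one this

/-- **Abstract assembly.** A nonzero finite dimensional representation over an algebraically
closed field in which every group element satisfies a quadratic relation with multiplicative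
constant term `d` gives rise to a two-dimensional representation `ρ` with
`charpoly (ρ g) = X² - α X + d g` for every `α` such that `g² = α g - d g` holds on `M`;
moreover `ρ g = 1` as soon as `g` acts trivially on `M` and `d g = 1`. -/
theorem exists_two_dim [IsAlgClosed F] [FiniteDimensional F M] [Nontrivial M]
    (r : G →* Module.End F M) (d : G →* F) (a : G → F)
    (hrel : ∀ g, r g * r g = a g • r g - d g • 1) :
    ∃ (V : Type) (_ : AddCommGroup V) (_ : Module F V) (_ : Module.Finite F V)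
      (ρ : G →* Module.End F V),
      Module.finrank F V = 2 ∧ (∀ g, r g = 1 → d g = 1 → ρ g = 1) ∧
      ∀ g α, r g * r g = α • r g - d g • 1 →
        LinearMap.charpoly (ρ g) = X ^ 2 - C α * X + C (d g) := by
  obtain ⟨U, hU0, hUs, hUmin⟩ := exists_minimal_stable r
  have hq : QuadRel r a d := ⟨fun g h => map_mul d g h, hrel⟩
  have hqU := hq.restrict U hUs
  have hirr := restrictRep_irreducible r U hUs hUmin
  have : Nontrivial U := Submodule.nontrivial_iff_ne_bot.mpr hU0
  have hle := finrank_le_two hqU hirr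
  have hpos : 0 < finrank F U := Module.finrank_pos
  rcases (show finrank F U = 1 ∨ finrank F U = 2 by omega) with h1 | h2
  · -- the line case
    have hχ := lineChar_spec h1 (restrictRep r U hUs)
    set χ := lineChar h1 (restrictRep r U hUs) with hχdef
    refine ⟨F × F, inferInstance, inferInstance, inferInstance, diagRep χ (twistInv d χ),
      finrank_prod_self,
      fun g hg hd => ?_, fun g α hα => ?_⟩
    · have e : χ g = 1 := by
        have h := hχ g
        rw [restrictRep_eq_one r U hUs hg] at h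
        have h' : (1 : F) • (1 : Module.End F U) = χ g • 1 := by rw [one_smul]; exact h
        exact (smul_one_injective h').symm
      exact diagRep_eq_one _ _ e (by rw [twistInv_apply, hd, e, inv_one, mul_one])
    · have hne := char_ne_zero χ g
      have hα' := restrictRep_rel r U hUs hα
      rw [hχ g] at hα'
      have e : χ g * χ g = α * χ g - d g := by
        rw [smul_mul_smul_comm, mul_one, smul_smul, ← sub_smul] at hα'
        exact smul_one_injective hα'
      have eθ : χ g + twistInv d χ g = α := by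
        rw [twistInv_apply]
        field_simp
        linear_combination e
      have eθ' : χ g * twistInv d χ g = d g := by
        rw [twistInv_apply]
        field_simp
      rw [charpoly_diagRep, eθ, eθ']
  · -- the plane case
    refine ⟨U, inferInstance, inferInstance, inferInstance, restrictRep r U hUs, h2,
      fun g hg _ => restrictRep_eq_one r U hUs hg, fun g α hα => ?_⟩
    exact charpoly_eq_of_quadRel hqU hirr h2 g α (restrictRep_rel r U hUs hα)

end assembly

end Fermat.Agent.S29.H872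

end
-- ===== PACK-END S29/H872/Assembly.lean

-- ===== PACK-BEGIN S24/Alg/LocSurj.lean
section





/-!
# S24 / ALG-LOC, part 2 (LOC2): every place over `t = 0` is induced by an embedding

For local data `L : LocalData K F C X t` with `[F : F₀] = |X|` (`F₀ ⊆ K(t)`), every place `v` of
`F/K` with `ord_v t > 0` is the place cut out by one of the embeddings `L.σ x`.
-/

set_option autoImplicit false

noncomputable section

open AlgebraicCurve Polynomial IntermediateField

namespace Fermat.Agent.S24.H144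

variable {K F : Type*} [Field K] [Field F] [Algebra K F]
variable {C : Type*} [Field C] {X : Type*} {t : F}

theorem loc_order_const (L : LocalData K F C X t) (x : X) (c : K) :
    (L.σ x (algebraMap K F c)).order = 0 := by
  rw [L.σ_const]; exact HahnSeries.order_C

theorem loc_order_t_pos (L : LocalData K F C X t) (x : X) : 0 < (L.σ x t).order := by
  rw [L.σ_t_order]; exact_mod_cast L.m_pos

theorem loc_isTVal (L : LocalData K F C X t) (x : X) :
    IsTVal K t (fun f => (L.σ x f).order) :=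
  isTVal_order (L.σ x) (loc_order_const L x) (loc_order_t_pos L x)

/-- The place of `F` cut out by the embedding `L.σ x`. -/
def locPlace (L : LocalData K F C X t) (x : X) : Place K F :=
  placeOfEmb (L.σ x) (fun c => (loc_order_const L x c).ge)
    ⟨t⁻¹, by rw [loc_order_map_inv]; have := loc_order_t_pos L x; omega⟩

theorem loc_induces_locPlace (L : LocalData K F C X t) (x : X) :
    Induces (L.σ x) (locPlace L x) :=
  induces_placeOfEmb _ _ _

theorem loc_mem_locPlace (L : LocalData K F C X t) (x : X) (f : F) :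
    f ∈ (locPlace L x).toValuationSubring ↔ 0 ≤ (L.σ x f).order :=
  loc_induces_locPlace L x f

/-- All the embeddings `L.σ x` agree on `K(t)`. -/
theorem loc_agree (L : LocalData K F C X t) (x y : X) {c : F} (hc : c ∈ K⟮t⟯) :
    L.σ x c = L.σ y c := by
  induction hc using IntermediateField.adjoin_induction with
  | mem c hc =>
    rw [Set.mem_singleton_iff] at hc
    rw [hc]; exact L.σ_t_eq x y
  | algebraMap c => rw [L.σ_const, L.σ_const]
  | add a b _ _ iha ihb => rw [map_add, map_add, iha, ihb]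
  | inv a _ iha => rw [map_inv₀, map_inv₀, iha]
  | mul a b _ _ iha ihb => rw [map_mul, map_mul, iha, ihb]

/-- The subring of Laurent series of non-negative order. -/
def locPowerSubring (C : Type*) [Field C] : Subring (LaurentSeries C) :=
  (locValSubring (RingHom.id (LaurentSeries C))).toSubring

theorem mem_locPowerSubring {s : LaurentSeries C} : s ∈ locPowerSubring C ↔ 0 ≤ s.order :=
  Iff.rfl

/-- **Integrality criterion.** If all conjugates `L.σ x u` have non-negative order, then `u` lies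
in the valuation ring of every place `v` at which `t` vanishes. -/
theorem loc_mem_of_forall_order_nonneg [CharZero K] [Finite X] (L : LocalData K F C X t)
    (F₀ : IntermediateField K F) (hF₀ : F₀ ≤ K⟮t⟯) [FiniteDimensional F₀ F]
    (hrank : Module.finrank F₀ F = Nat.card X)
    (v : Place K F) (hv : 0 < v.ord t) (u : F) (hu : ∀ x, 0 ≤ (L.σ x u).order) :
    u ∈ v.toValuationSubring := by
  classical
  -- `X` is nonempty
  have hX : Nonempty X := by
    have hpos : 0 < Module.finrank F₀ F := Module.finrank_pos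
    rw [hrank] at hpos
    exact (Nat.card_pos_iff.mp hpos).1
  obtain ⟨x₀⟩ := hX
  have hagree : ∀ (x y : X) (c : F₀), L.σ x (algebraMap F₀ F c) = L.σ y (algebraMap F₀ F c) :=
    fun x y c => loc_agree L x y (hF₀ c.2)
  -- coefficients of the minimal polynomial have non-negative order
  have hcoeff : ∀ i, (algebraMap F₀ F ((minpoly F₀ u).coeff i)) ∈ v.toValuationSubring := by
    intro i
    have h1 := loc_minpoly_coeff_mem (F₀ := F₀) L.σ L.σ_inj hagree hrank (locPowerSubring C) u
      (fun x => mem_locPowerSubring.mpr (hu x)) x₀ i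
    rw [mem_locPowerSubring] at h1
    apply loc_mem_of_ord_nonneg
    exact loc_tval_nonneg (K := K) t (hF₀ ((minpoly F₀ u).coeff i).2) (loc_isTVal L x₀)
      (isTVal_ord v hv) h1
  -- hence `u` is integral over the valuation ring
  have hint : IsIntegral F₀ u := Algebra.IsIntegral.isIntegral u
  have hmonic : ((minpoly F₀ u).map (algebraMap F₀ F)).Monic := (minpoly.monic hint).map _
  have hlift : (minpoly F₀ u).map (algebraMap F₀ F)
      ∈ Polynomial.lifts (algebraMap v.toValuationSubring F) := by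
    rw [lifts_iff_coeff_lifts]
    intro i
    rw [coeff_map]
    exact ⟨⟨_, hcoeff i⟩, rfl⟩
  obtain ⟨q, hq, _, hqm⟩ := lifts_and_degree_eq_and_monic hlift hmonic
  have hroot : eval₂ (algebraMap v.toValuationSubring F) u q = 0 := by
    rw [← eval_map, hq, eval_map, ← aeval_def]
    exact minpoly.aeval F₀ u
  have hintv : IsIntegral v.toValuationSubring u := ⟨q, hqm, hroot⟩
  obtain ⟨y, hy⟩ := IsIntegrallyClosed.isIntegral_iff.mp hintv
  rw [← hy]; exact y.2

/-- **LOC2.** Every place at which `t` vanishes is induced by one of the embeddings. -/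
theorem loc_exists_emb [CharZero K] [Finite X] (L : LocalData K F C X t)
    (F₀ : IntermediateField K F) (hF₀ : F₀ ≤ K⟮t⟯) [FiniteDimensional F₀ F]
    (hrank : Module.finrank F₀ F = Nat.card X)
    (v : Place K F) (hv : 0 < v.ord t) : ∃ x, Induces (L.σ x) v := by
  classical
  by_contra hno
  have hne : ∀ x, v ≠ locPlace L x := by
    intro x hx
    exact hno ⟨x, hx ▸ loc_induces_locPlace L x⟩
  have : Fintype X := Fintype.ofFinite X
  have hvS : v ∉ Finset.univ.image (locPlace L) := by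
    intro h
    obtain ⟨x, _, hx⟩ := Finset.mem_image.mp h
    exact hne x hx.symm
  obtain ⟨u, huv, huS⟩ := loc_exists_pole_zeros v _ hvS
  have hu : ∀ x, 0 ≤ (L.σ x u).order := by
    intro x
    have h1 := huS (locPlace L x) (Finset.mem_image_of_mem _ (Finset.mem_univ x))
    exact (loc_mem_locPlace L x u).mp (loc_mem_of_ord_nonneg _ h1.le)
  have := loc_ord_nonneg_of_mem v (loc_mem_of_forall_order_nonneg L F₀ hF₀ hrank v hv u hu)
  omega

end Fermat.Agent.S24.H144

end
end
-- ===== PACK-END S24/Alg/LocSurj.lean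

-- ===== PACK-BEGIN S28/H326/Polys.lean
section
/-
S28 / helper326: from the Hecke input to the polynomials
`W = ∏ (X - w i)` and `Φ = ∏ (X - y i)` with coefficients in `ℤ[j(t^p)]`.
-/




set_option autoImplicit false
set_option linter.unusedSectionVars false

noncomputable section

namespace Fermat.Agent.S28.H326

open ModularCurve HahnSeries

/-! ### Series without negative part -/

/-- Laurent series over `ℂ` without terms of negative degree. -/
def NonNeg : Subring (LaurentSeries ℂ) where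
  carrier := {x | ∀ n : ℤ, n < 0 → x.coeff n = 0}
  mul_mem' {x y} hx hy n hn := by
    rw [HahnSeries.coeff_mul]
    refine Finset.sum_eq_zero fun ij hij => ?_
    rw [Finset.mem_antidiagonal] at hij
    rcases lt_or_ge ij.1 0 with h1 | h1
    · rw [hx _ h1, zero_mul]
    · have h2 : ij.2 < 0 := by
        have := hij.2.2
        omega
      rw [hy _ h2, mul_zero]
  one_mem' n hn := by
    rw [HahnSeries.coeff_one, if_neg hn.ne]
  add_mem' {x y} hx hy n hn := by
    rw [HahnSeries.coeff_add, hx n hn, hy n hn, add_zero]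
  zero_mem' n _ := HahnSeries.coeff_zero
  neg_mem' {x} hx n hn := by
    rw [HahnSeries.coeff_neg, hx n hn, neg_zero]

theorem C_mem_NonNeg (c : ℂ) : HahnSeries.C c ∈ NonNeg := fun n hn => by
  show (HahnSeries.single 0 c).coeff n = 0
  exact HahnSeries.coeff_single_of_ne hn.ne

variable (p : ℕ) [NeZero p]

theorem qExpand_mem_NonNeg {x : LaurentSeries ℂ} (hx : x ∈ NonNeg) :
    qExpand ℂ p x ∈ NonNeg := fun n hn => by
  by_cases h : (p : ℤ) ∣ n
  · obtain ⟨m, rfl⟩ := h
    rw [qExpand_coeff_mul]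
    refine hx m ?_
    have hp : (0 : ℤ) < p := by exact_mod_cast Nat.pos_of_ne_zero (NeZero.ne p)
    by_contra hm
    rw [not_lt] at hm
    have := mul_nonneg hp.le hm
    omega
  · exact qExpand_coeff_of_not_dvd p _ h

theorem ofPS_mem_NonNeg (g : PowerSeries ℂ) : ofPS g ∈ NonNeg := fun _ hn => ofPS_coeff_neg g hn

theorem conj_mem_NonNeg (i : Option (Fin p)) (g : PowerSeries ℂ) : conj p i g ∈ NonNeg := by
  cases i with
  | none => exact qExpand_mem_NonNeg p (qExpand_mem_NonNeg p (ofPS_mem_NonNeg g))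
  | some b => exact ofPS_mem_NonNeg _

theorem cBase_mem_NonNeg (g : PowerSeries ℂ) : cBase p g ∈ NonNeg :=
  qExpand_mem_NonNeg p (ofPS_mem_NonNeg g)

/-- An element of `ℚ[j(t^p)]` without negative part is a constant. -/
theorem exists_const_of_mem_Bsub_of_mem_NonNeg {x : LaurentSeries ℂ} (hB : x ∈ Bsub p)
    (hN : x ∈ NonNeg) : ∃ c : ℚ, x = algebraMap ℚ (LaurentSeries ℂ) c := by
  obtain ⟨Q, rfl⟩ := hB
  rcases Nat.eq_zero_or_pos Q.natDegree with h0 | hpos
  · refine ⟨Q.coeff 0, ?_⟩
    rw [Polynomial.eq_C_of_natDegree_eq_zero h0]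
    simp
  · exfalso
    have h1 := aeval_jP_coeff p Q le_rfl
    have hneg : -((p : ℤ) * (Q.natDegree : ℤ)) < 0 := by
      have hp : (0 : ℤ) < p := by exact_mod_cast Nat.pos_of_ne_zero (NeZero.ne p)
      have hd : (0 : ℤ) < Q.natDegree := by exact_mod_cast hpos
      have := mul_pos hp hd
      omega
    have h2 : (Polynomial.aeval (jP p) Q).coeff (-((p : ℤ) * (Q.natDegree : ℤ))) = 0 :=
      hN _ hneg
    rw [h1] at h2
    have h3 : Q.coeff Q.natDegree = 0 := by exact_mod_cast h2
    have h4 : Q = 0 := Polynomial.leadingCoeff_eq_zero.mp h3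
    rw [h4] at hpos
    simp at hpos

/-! ### The unit part of the `w i` -/

/-- the unit `∏ (1 - qⁿ)²⁴` over `ℂ` -/
def UC : PowerSeries ℂ := toC dedekindEtaUnit
/-- its inverse -/
def UinvC : PowerSeries ℂ := toC dedekindEtaUnitInv

theorem DC_eq : DC = PowerSeries.X * UC := by
  rw [DC, DZ, map_mul, PowerSeries.map_X, UC]

theorem UC_mul_UinvC : UC * UinvC = 1 := by
  rw [UC, UinvC, ← map_mul, dedekindEtaUnit_mul_inv, map_one]

theorem delInv_eq : delInv p = HahnSeries.single (-(p : ℤ)) 1 * cBase p UinvC := by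
  rw [delInv, deltaInvZ, map_mul, map_mul, coeffMap_single, qExpand_single, kap_ofPS, cBase,
    RingHom.comp_apply, UinvC, map_one, mul_neg, mul_one]

/-- exponent of the monomial part of `w i` -/
def wExp : Option (Fin p) → ℤ
  | none => (p : ℤ) * p - p
  | some _ => 1 - p

/-- leading constant of `conj i X` -/
def wConst : Option (Fin p) → ℂ
  | none => 1
  | some b => zeta p ^ (b : ℕ)

/-- degree of `conj i X` -/
def xExp : Option (Fin p) → ℤ
  | none => (p : ℤ) * p
  | some _ => 1

theorem conj_X (i : Option (Fin p)) :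
    conj p i PowerSeries.X = HahnSeries.C (wConst p i) * HahnSeries.single (xExp p i) 1 := by
  cases i with
  | none =>
    simp only [conj, cInf, cBase, RingHom.comp_apply, wConst, xExp, map_one, one_mul]
    rw [HahnSeries.ofPowerSeries_X, qExpand_single, qExpand_single, mul_one]
  | some b =>
    simp only [conj, cB, RingHom.comp_apply, wConst, xExp]
    rw [PowerSeries.rescale_X, map_mul, HahnSeries.ofPowerSeries_C, HahnSeries.ofPowerSeries_X]

theorem wExp_eq (i : Option (Fin p)) : wExp p i = xExp p i - p := by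
  cases i <;> simp [wExp, xExp]

/-- the power series part of `w i` -/
def wUnit (i : Option (Fin p)) : LaurentSeries ℂ :=
  scal p i * HahnSeries.C (wConst p i) * conj p i UC * cBase p UinvC

theorem w_eq (i : Option (Fin p)) : w p i = HahnSeries.single (wExp p i) 1 * wUnit p i := by
  have h : HahnSeries.single (wExp p i) (1 : ℂ) =
      HahnSeries.single (xExp p i) 1 * HahnSeries.single (-(p : ℤ)) 1 := by
    rw [HahnSeries.single_mul_single, wExp_eq, mul_one, sub_eq_add_neg]
  rw [w, wUnit, DC_eq, map_mul, conj_X, delInv_eq, h]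
  ring

theorem scal_mem_NonNeg (i : Option (Fin p)) : scal p i ∈ NonNeg := by
  cases i with
  | none => exact Subring.pow_mem _ (natCast_mem _ p) 12
  | some b => exact Subring.one_mem _

theorem wUnit_mem_NonNeg (i : Option (Fin p)) : wUnit p i ∈ NonNeg :=
  Subring.mul_mem _ (Subring.mul_mem _ (Subring.mul_mem _ (scal_mem_NonNeg p i)
    (C_mem_NonNeg _)) (conj_mem_NonNeg p i UC)) (cBase_mem_NonNeg p UinvC)

theorem prod_single {ι : Type*} (s : Finset ι) (e : ι → ℤ) :
    ∏ i ∈ s, HahnSeries.single (e i) (1 : ℂ) = HahnSeries.single (∑ i ∈ s, e i) 1 := by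
  classical
  induction s using Finset.induction_on with
  | empty => simp
  | insert a s ha ih =>
    rw [Finset.prod_insert ha, Finset.sum_insert ha, ih, HahnSeries.single_mul_single, mul_one]

theorem sum_wExp : ∑ i, wExp p i = 0 := by
  rw [Fintype.sum_option]
  simp only [wExp, Finset.sum_const, Finset.card_univ, Fintype.card_fin, nsmul_eq_mul]
  ring

theorem prod_w_mem_NonNeg : ∏ i, w p i ∈ NonNeg := by
  simp only [w_eq]
  rw [Finset.prod_mul_distrib, prod_single, sum_wExp]
  have : HahnSeries.single (0 : ℤ) (1 : ℂ) = 1 := rfl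
  rw [this, one_mul]
  exact Subring.prod_mem _ fun i _ => wUnit_mem_NonNeg p i

/-! ### Nonvanishing -/

theorem toC_injective : Function.Injective toC := by
  intro x y h
  ext n
  have := congrArg (fun z => PowerSeries.coeff n z) h
  simpa using this

theorem conj_injective (i : Option (Fin p)) : Function.Injective (conj p i) := by
  cases i with
  | none =>
    exact (qExpand_injective p).comp ((qExpand_injective p).comp
      HahnSeries.ofPowerSeries_injective)
  | some b =>
    exact HahnSeries.ofPowerSeries_injective.comp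
      (PowerSeries.rescale_injective (pow_ne_zero _ (zeta_ne_zero p)))

theorem DZ_ne_zero : DZ ≠ 0 := by
  intro h
  have h1 : DZ.coeff 1 = 1 := by
    rw [DZ, show (1 : ℕ) = 0 + 1 from rfl, PowerSeries.coeff_succ_X_mul,
      PowerSeries.coeff_zero_eq_constantCoeff, constantCoeff_dedekindEtaUnit]
  rw [h] at h1
  simp at h1

theorem DC_ne_zero : DC ≠ 0 := fun h => DZ_ne_zero (toC_injective (by rw [← DC, h, map_zero]))

theorem delInv_ne_zero : delInv p ≠ 0 := fun h => by
  have := del_mul_delInv p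
  rw [h, mul_zero] at this
  exact zero_ne_one this

theorem scal_ne_zero (i : Option (Fin p)) : scal p i ≠ 0 := by
  cases i with
  | none =>
    refine pow_ne_zero _ fun h => ?_
    have h1 := natCast_mul_coeff p 1 0
    rw [mul_one, h, HahnSeries.coeff_zero, HahnSeries.coeff_one, if_pos rfl, mul_one] at h1
    exact NeZero.ne p (by exact_mod_cast h1.symm)
  | some b => exact one_ne_zero

theorem w_ne_zero (i : Option (Fin p)) : w p i ≠ 0 := by
  rw [w]
  refine mul_ne_zero (mul_ne_zero (scal_ne_zero p i) ?_) (delInv_ne_zero p)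
  rw [Ne, map_eq_zero_iff _ (conj_injective p i)]
  exact DC_ne_zero

/-! ### The polynomial `W` -/

/-- `W = ∏ (X - w i)` over `ℂ((t))` -/
def WPoly : Polynomial (LaurentSeries ℂ) := ∏ i, (Polynomial.X - Polynomial.C (w p i))

theorem WPoly_monic : (WPoly p).Monic :=
  Polynomial.monic_prod_of_monic _ _ fun _ _ => Polynomial.monic_X_sub_C _

theorem WPoly_natDegree : (WPoly p).natDegree = p + 1 := by
  rw [WPoly, Polynomial.natDegree_prod_of_monic _ _ fun i _ => Polynomial.monic_X_sub_C _]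
  simp

theorem WPoly_coeff_mem (h : HeckeInput p) (n : ℕ) : (WPoly p).coeff n ∈ Bsub p :=
  prod_X_sub_C_mem_of_psum_mem (Bsub p) (w p) (fun m _ => sum_w_pow_mem p h m) n

theorem WPoly_eval (i : Option (Fin p)) : (WPoly p).eval (w p i) = 0 := by
  rw [WPoly, Polynomial.eval_prod]
  exact Finset.prod_eq_zero (Finset.mem_univ i) (by simp)

theorem WPoly_coeff_zero : (WPoly p).coeff 0 = ∏ i, (-(w p i)) := by
  rw [Polynomial.coeff_zero_eq_eval_zero, WPoly, Polynomial.eval_prod]
  simp

theorem exists_WPoly_coeff_zero (h : HeckeInput p) :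
    ∃ c : ℚ, c ≠ 0 ∧ (WPoly p).coeff 0 = algebraMap ℚ (LaurentSeries ℂ) c := by
  have hN : (WPoly p).coeff 0 ∈ NonNeg := by
    rw [WPoly_coeff_zero]
    have : ∏ i, (-(w p i)) = (∏ _i : Option (Fin p), (-1 : LaurentSeries ℂ)) * ∏ i, w p i := by
      rw [← Finset.prod_mul_distrib]
      refine Finset.prod_congr rfl fun i _ => ?_
      ring
    rw [this]
    exact Subring.mul_mem _ (Subring.prod_mem _ fun _ _ => Subring.neg_mem _ (Subring.one_mem _))
      (prod_w_mem_NonNeg p)
  obtain ⟨c, hc⟩ := exists_const_of_mem_Bsub_of_mem_NonNeg p (WPoly_coeff_mem p h 0) hN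
  refine ⟨c, ?_, hc⟩
  rintro rfl
  rw [map_zero, WPoly_coeff_zero] at hc
  rw [Finset.prod_eq_zero_iff] at hc
  obtain ⟨i, -, hi⟩ := hc
  exact w_ne_zero p i (neg_eq_zero.mp hi)

end Fermat.Agent.S28.H326

end
end
-- ===== PACK-END S28/H326/Polys.lean

-- ===== PACK-BEGIN S18/H456/ModFields.lean
section


/-!
# S18 / MOD assembly (helper456): the fields `compositum`, `E_closed_in_F`, `x_mem`,
`x_transcendental` of `Alg.GoodModel` for the concrete objects
-/

set_option autoImplicit false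

noncomputable section

namespace Fermat.Agent.S18.H456

open ModularCurve AlgebraicCurve HahnSeries Fermat.Agent.S18 Fermat.Agent.S18.Mod

/-! ### Algebraic Laurent series are constant -/

section LaurentConst

variable {K : Type*} [Field K]

/-- A Laurent series over a field `K` which is algebraic over `K` is constant. -/
theorem laurent_const_of_isAlgebraic (f : LaurentSeries K) (hf : IsAlgebraic K f) :
    ∃ c : K, f = algebraMap K (LaurentSeries K) c := by
  have key : ∀ g : LaurentSeries K, IsAlgebraic K g →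
      ∃ y : PowerSeries K, algebraMap (PowerSeries K) (LaurentSeries K) y = g := by
    intro g hg
    obtain ⟨p, hpm, hp⟩ := hg.isIntegral
    have h2 : IsIntegral (PowerSeries K) g := by
      refine ⟨p.map (PowerSeries.C (R := K)), hpm.map _, ?_⟩
      rw [Polynomial.eval₂_map]
      exact hp
    exact IsIntegrallyClosed.isIntegral_iff.mp h2
  obtain ⟨y, hy⟩ := key f hf
  set c₀ := PowerSeries.constantCoeff y with hc₀
  by_cases hg : y - PowerSeries.C c₀ = 0
  · refine ⟨c₀, ?_⟩
    rw [← hy, sub_eq_zero.mp hg]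
    rfl
  · exfalso
    have hg' : algebraMap (PowerSeries K) (LaurentSeries K) (y - PowerSeries.C c₀) ≠ 0 := by
      intro h
      exact hg ((injective_iff_map_eq_zero _).1
        (IsFractionRing.injective (PowerSeries K) (LaurentSeries K)) _ h)
    have halg : IsAlgebraic K (algebraMap (PowerSeries K) (LaurentSeries K)
        (y - PowerSeries.C c₀)) := by
      rw [map_sub, hy]
      refine hf.sub ?_
      have : algebraMap (PowerSeries K) (LaurentSeries K) (PowerSeries.C c₀) =
          algebraMap K (LaurentSeries K) c₀ := rfl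
      rw [this]
      exact isAlgebraic_algebraMap c₀
    obtain ⟨z, hz⟩ := key _ halg.inv
    have h1 : algebraMap (PowerSeries K) (LaurentSeries K) ((y - PowerSeries.C c₀) * z) =
        algebraMap (PowerSeries K) (LaurentSeries K) 1 := by
      rw [map_mul, hz, map_one, mul_inv_cancel₀ hg']
    have h2 := IsFractionRing.injective (PowerSeries K) (LaurentSeries K) h1
    have h3 := congrArg (PowerSeries.constantCoeff (R := K)) h2
    rw [map_mul, map_sub, PowerSeries.constantCoeff_C, ← hc₀, sub_self, zero_mul, map_one] at h3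
    exact zero_ne_one h3

end LaurentConst

variable (M : ℕ) (A : ValuationSubring Qb) (E : IntermediateField ℚ Qb)

/-! ### Coefficients of elements of `Fc` lie in `E` -/

/-- The subfield of `Q̄((q))` of series with coefficients in `E`. -/
def coeffField : Subfield (LaurentSeries Qb) :=
  (coeffMap (algebraMap E Qb)).fieldRange

theorem mem_coeffField_iff {g : LaurentSeries Qb} :
    g ∈ coeffField E ↔ ∃ h : LaurentSeries E, coeffMap (algebraMap E Qb) h = g := Iff.rfl

theorem coeff_mem_of_mem_coeffField {g : LaurentSeries Qb} (hg : g ∈ coeffField E) (n : ℤ) :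
    g.coeff n ∈ E := by
  obtain ⟨h, rfl⟩ := hg
  rw [coeffMap_coeff]
  exact (h.coeff n).2

theorem val_cst (c : Qb) : ((cst M c : Om M) : LaurentSeries Qb) =
    HahnSeries.single 0 c := by
  show algebraMap Qb (LaurentSeries Qb) c = _
  exact algebraMap_laurentSeries_eq_single Qb c

theorem coeffEmb_mem_coeffField (z : LaurentSeries ℚ) : coeffEmb Qb z ∈ coeffField E := by
  refine ⟨coeffMap (algebraMap ℚ E) z, ?_⟩
  rw [coeffMap_coeffMap, coeffEmb]
  exact coeffMap_congr (RingHom.ext_rat _ _) z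

theorem val_mem_coeffField {f : Om M} (hf : f ∈ Fc M E) :
    (f : LaurentSeries Qb) ∈ coeffField E := by
  unfold Fc at hf
  induction hf using Subfield.closure_induction with
  | mem y hy =>
      rcases hy with hy | hy
      · obtain ⟨c, hc, rfl⟩ := (mem_Ec_iff M E).1 hy
        rw [val_cst]
        exact ⟨HahnSeries.single 0 ⟨c, hc⟩, by rw [coeffMap_single]; rfl⟩
      · obtain ⟨d, hd, hdM, rfl⟩ := hy
        exact coeffEmb_mem_coeffField E _
  | one => exact one_mem _
  | add x y _ _ hx hy => exact add_mem hx hy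
  | neg x _ hx => exact neg_mem hx
  | inv x _ hx =>
      show ((x⁻¹ : Om M) : LaurentSeries Qb) ∈ _
      rw [show ((x⁻¹ : Om M) : LaurentSeries Qb) = (x : LaurentSeries Qb)⁻¹ from rfl]
      exact inv_mem hx
  | mul x y _ _ hx hy => exact mul_mem hx hy

theorem coeff_mem_of_mem_Fc {f : Om M} (hf : f ∈ Fc M E) (n : ℤ) :
    (f : LaurentSeries Qb).coeff n ∈ E :=
  coeff_mem_of_mem_coeffField E (val_mem_coeffField M E hf) n

/-! ### Elements of `ℚ(j_d)` lie in `Fc` -/

theorem ratCast_mem_Fc (c : ℚ) : cst M (algebraMap ℚ Qb c) ∈ Fc M E :=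
  field_E_le_F M E (cst_mem_Ec M E (E.algebraMap_mem c))

/-- The image of `z ∈ ℚ(j_d : d ∣ M)` in `Ω`. -/
def ofFull [NeZero M] (z : LaurentSeries ℚ) (hz : z ∈ modularFunctionFieldFull M) : Om M :=
  ⟨coeffEmb Qb z, coeffEmb_mem_laurentBaseChange Qb hz⟩

theorem ofFull_mem_Fc [NeZero M] (z : LaurentSeries ℚ) (hz : z ∈ modularFunctionFieldFull M) :
    ofFull M z hz ∈ Fc M E := by
  have hz' := hz
  unfold modularFunctionFieldFull at hz'
  -- induction over the adjoin, keeping track of membership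
  have key : ∀ y (hy : y ∈ IntermediateField.adjoin ℚ (divisorExpansions M)),
      ∃ h : y ∈ modularFunctionFieldFull M, ofFull M y h ∈ Fc M E := by
    intro y hy
    induction hy using IntermediateField.adjoin_induction with
    | mem y hy =>
        obtain ⟨d, hd, hdM, rfl⟩ := hy
        refine ⟨jqd_mem_full M hdM, ?_⟩
        exact Subfield.subset_closure (Or.inr ⟨d, hd, hdM, rfl⟩)
    | algebraMap c =>
        refine ⟨(modularFunctionFieldFull M).algebraMap_mem c, ?_⟩
        have : ofFull M (algebraMap ℚ (LaurentSeries ℚ) c)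
            ((modularFunctionFieldFull M).algebraMap_mem c) = cst M (algebraMap ℚ Qb c) := by
          apply Subtype.ext
          show coeffEmb Qb (algebraMap ℚ (LaurentSeries ℚ) c) = _
          rw [val_cst, coeffEmb, algebraMap_laurentSeries_eq_single, coeffMap_single]
        rw [this]
        exact ratCast_mem_Fc M E c
    | add x y _ _ hx hy =>
        obtain ⟨hx1, hx2⟩ := hx
        obtain ⟨hy1, hy2⟩ := hy
        refine ⟨add_mem hx1 hy1, ?_⟩
        have : ofFull M (x + y) (add_mem hx1 hy1) = ofFull M x hx1 + ofFull M y hy1 :=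
          Subtype.ext (map_add (coeffEmb Qb) x y)
        rw [this]
        exact add_mem hx2 hy2
    | inv x _ hx =>
        obtain ⟨hx1, hx2⟩ := hx
        refine ⟨inv_mem hx1, ?_⟩
        have : ofFull M x⁻¹ (inv_mem hx1) = (ofFull M x hx1)⁻¹ :=
          Subtype.ext (map_inv₀ (coeffEmb Qb) x)
        rw [this]
        exact inv_mem hx2
    | mul x y _ _ hx hy =>
        obtain ⟨hx1, hx2⟩ := hx
        obtain ⟨hy1, hy2⟩ := hy
        refine ⟨mul_mem hx1 hy1, ?_⟩
        have : ofFull M (x * y) (mul_mem hx1 hy1) = ofFull M x hx1 * ofFull M y hy1 :=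
          Subtype.ext (map_mul (coeffEmb Qb) x y)
        rw [this]
        exact mul_mem hx2 hy2
  obtain ⟨_, h⟩ := key z hz'
  exact h

/-! ### `compositum` -/

theorem field_compositum [NeZero M] :
    Subfield.closure ((Fc M E : Set (Om M)) ∪ Lc M) = ⊤ := by
  rw [eq_top_iff]
  rintro ⟨f, hf⟩ -
  set T : Subfield (Om M) := Subfield.closure ((Fc M E : Set (Om M)) ∪ Lc M) with hT
  let val : Om M →+* LaurentSeries Qb := (modularFunctionFieldBar M).val.toRingHom
  have hle : Subfield.closure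
        (Set.range (algebraMap Qb (LaurentSeries Qb)) ∪
          (⇑(coeffEmb Qb) '' (modularFunctionFieldFull M : Set (LaurentSeries ℚ)))) ≤
      T.map val := by
    rw [Subfield.closure_le]
    rintro y (⟨c, rfl⟩ | ⟨z, hz, rfl⟩)
    · exact ⟨cst M c, Subfield.subset_closure (Or.inr (cst_mem_Lc M c)), rfl⟩
    · exact ⟨ofFull M z hz, Subfield.subset_closure (Or.inl (ofFull_mem_Fc M E z hz)), rfl⟩
  obtain ⟨t, ht, htf⟩ := hle (mem_laurentBaseChange_iff.1 hf)
  have : t = ⟨f, hf⟩ := Subtype.ext htf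
  rw [← this]
  exact ht

end Fermat.Agent.S18.H456

end
end
-- ===== PACK-END S18/H456/ModFields.lean

-- ===== PACK-BEGIN S18/H438/Front/Transport2.lean
section


/-!
# S18 / ALG-FRONT (helper438), part 5: transport of charts and of the `q`-expansion principle

* `mem_baseRing_iff`  : `a ∈ R[z] ⊆ Fc`  ↔  `(a : Ω) ∈ Alg.polyRing R z`;
* `mem_chartRing_iff` : `b ∈ chartRing (Rf Fc R) z`  ↔  `(b : Ω) ∈ Alg.chart Fc R z`;
* `transcendental_xf`, `transcendental_xf_inv`;
* `qep_fin`, `qep_inf` in the form used by `Front/Gauss.lean`.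
-/

set_option autoImplicit false
set_option linter.style.haveILetI false
set_option linter.unusedSectionVars false

noncomputable section

namespace Fermat.Agent.S18.H438

open Alg Polynomial

variable {Ω : Type*} [Field Ω] {Lc Ec Fc : Subfield Ω} {R V : Subring Ω} {w x : Ω}
  {S : Finset Ω}

section Generic

variable (Fc R) (z : Fc)

/-- `R[z] ⊆ Fc` maps into `polyRing R z ⊆ Ω`. -/
theorem coe_mem_polyRing_of_mem_baseRing {a : Fc} (ha : a ∈ baseRing (Rf Fc R) z) :
    (a : Ω) ∈ polyRing R (z : Ω) := by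
  unfold baseRing at ha
  induction ha using Algebra.adjoin_induction with
  | mem y hy =>
    rw [Set.mem_singleton_iff] at hy
    subst hy
    exact Subring.subset_closure (Or.inr rfl)
  | algebraMap r => exact Subring.subset_closure (Or.inl r.2)
  | add y y' _ _ hy hy' => exact (polyRing R (z : Ω)).add_mem hy hy'
  | mul y y' _ _ hy hy' => exact (polyRing R (z : Ω)).mul_mem hy hy'

/-- `polyRing R z ⊆ Ω` comes from `R[z] ⊆ Fc`, provided `R ⊆ Fc`. -/
theorem exists_mem_baseRing_of_mem_polyRing (hR : ∀ r ∈ R, r ∈ Fc) {c : Ω}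
    (hc : c ∈ polyRing R (z : Ω)) : ∃ a ∈ baseRing (Rf Fc R) z, (a : Ω) = c := by
  have hle : polyRing R (z : Ω) ≤ (baseRing (Rf Fc R) z).toSubring.map Fc.subtype := by
    unfold polyRing
    rw [Subring.closure_le]
    rintro y (hy | hy)
    · refine ⟨⟨y, hR y hy⟩, ?_, rfl⟩
      exact (baseRing (Rf Fc R) z).algebraMap_mem (⟨⟨y, hR y hy⟩, hy⟩ : Rf Fc R)
    · rw [Set.mem_singleton_iff] at hy
      subst hy
      exact ⟨z, self_mem_baseRing (Rf Fc R) z, rfl⟩
  obtain ⟨a, ha, rfl⟩ := hle hc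
  exact ⟨a, ha, rfl⟩

theorem mem_baseRing_iff (hR : ∀ r ∈ R, r ∈ Fc) {a : Fc} :
    a ∈ baseRing (Rf Fc R) z ↔ (a : Ω) ∈ polyRing R (z : Ω) := by
  refine ⟨coe_mem_polyRing_of_mem_baseRing Fc R z, fun h => ?_⟩
  obtain ⟨a', ha', h'⟩ := exists_mem_baseRing_of_mem_polyRing Fc R z hR h
  rwa [← Subtype.ext h']

/-- the comparison map `R[z] → polyRing R z` -/
def baseToPoly : baseRing (Rf Fc R) z →+* polyRing R (z : Ω) :=
  (Fc.subtype.comp (baseRing (Rf Fc R) z).toSubring.subtype).codRestrict (polyRing R (z : Ω))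
    (fun a => coe_mem_polyRing_of_mem_baseRing Fc R z a.2)

theorem coe_baseToPoly (a : baseRing (Rf Fc R) z) :
    ((baseToPoly Fc R z a : polyRing R (z : Ω)) : Ω) = ((a : Fc) : Ω) := rfl

theorem algebraMap_comp_baseToPoly :
    (algebraMap (polyRing R (z : Ω)) Ω).comp (baseToPoly Fc R z) =
      Fc.subtype.comp (algebraMap (baseRing (Rf Fc R) z) Fc) := rfl

theorem baseToPoly_surjective (hR : ∀ r ∈ R, r ∈ Fc) :
    Function.Surjective (baseToPoly Fc R z) := by
  rintro ⟨c, hc⟩
  obtain ⟨a, ha, h⟩ := exists_mem_baseRing_of_mem_polyRing Fc R z hR hc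
  exact ⟨⟨a, ha⟩, Subtype.ext h⟩

/-- integrality over `R[z]` (inside `Fc`) is integrality over `polyRing R z` (inside `Ω`) -/
theorem isIntegral_baseRing_iff (hR : ∀ r ∈ R, r ∈ Fc) {b : Fc} :
    IsIntegral (baseRing (Rf Fc R) z) b ↔ IsIntegral (polyRing R (z : Ω)) (b : Ω) := by
  constructor
  · intro h
    exact IsIntegral.map_of_comp_eq (baseToPoly Fc R z) Fc.subtype
      (algebraMap_comp_baseToPoly Fc R z) h
  · rintro ⟨q, hq, hqb⟩
    -- lift the monic polynomial along the surjection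
    obtain ⟨p, hpq, hpdeg, hpmonic⟩ :=
      Polynomial.lifts_and_degree_eq_and_monic
        ((Polynomial.mem_lifts q).2 (by
          have hsurj := Polynomial.map_surjective (baseToPoly Fc R z)
            (baseToPoly_surjective Fc R z hR)
          exact hsurj q)) hq
    refine ⟨p, hpmonic, ?_⟩
    have h1 : Fc.subtype (Polynomial.eval₂ (algebraMap (baseRing (Rf Fc R) z) Fc) b p) = 0 := by
      rw [Polynomial.hom_eval₂, ← algebraMap_comp_baseToPoly, ← Polynomial.eval₂_map, hpq]
      exact hqb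
    exact Fc.subtype_injective (by rw [h1, map_zero])

theorem mem_chartRing_iff (hR : ∀ r ∈ R, r ∈ Fc) {b : Fc} :
    b ∈ chartRing (Rf Fc R) z ↔ (b : Ω) ∈ chart Fc R (z : Ω) := by
  show IsIntegral (baseRing (Rf Fc R) z) b ↔ _
  rw [isIntegral_baseRing_iff Fc R z hR]
  exact ⟨fun h => ⟨b.2, h⟩, fun h => h.2⟩

end Generic

namespace GoodModelFront

variable (G : GoodModel Lc Ec Fc R V w x S)

include G

/-- `x` is transcendental over `R`. -/
theorem transcendental_xf : Transcendental (Rf Fc R) (xf G) := by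
  rintro ⟨p, hp0, hp⟩
  let i : Rf Fc R →+* Lc :=
    (Fc.subtype.comp (Rf Fc R).subtype).codRestrict Lc.toSubring
      (fun r => G.E_le_L (G.R_le r.2))
  have hi : Function.Injective i := by
    intro a b hab
    apply Subtype.ext
    apply Subtype.ext
    exact congrArg (fun t : Lc => (t : Ω)) hab
  have hcomp : (algebraMap Lc Ω).comp i = Fc.subtype.comp (algebraMap (Rf Fc R) Fc) := rfl
  apply G.x_transcendental
  refine ⟨p.map i, (Polynomial.map_ne_zero_iff hi).2 hp0, ?_⟩
  rw [Polynomial.aeval_def, Polynomial.eval₂_map, hcomp]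
  have h1 := Polynomial.hom_eval₂ p (algebraMap (Rf Fc R) Fc) Fc.subtype (xf G)
  rw [Polynomial.aeval_def] at hp
  rw [hp, map_zero] at h1
  exact h1.symm

theorem transcendental_xf_inv : Transcendental (Rf Fc R) (xf G)⁻¹ :=
  fun h => transcendental_xf G (IsAlgebraic.inv_iff.1 h)

/-- `qep` on the finite chart, in `Fc`. -/
theorem qep_fin' : ∀ b ∈ chartRing (Rf Fc R) (xf G), b * (wf G)⁻¹ ∈ Vf G →
    b * (wf G)⁻¹ ∈ chartRing (Rf Fc R) (xf G) := by
  intro b hb hbV
  rw [mem_chartRing_iff Fc R _ (fun r hr => R_le_Fc G hr)] at hb ⊢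
  exact G.qep_fin _ hb hbV

/-- `qep` on the chart at infinity, in `Fc`. -/
theorem qep_inf' : ∀ b ∈ chartRing (Rf Fc R) (xf G)⁻¹, b * (wf G)⁻¹ ∈ Vf G →
    b * (wf G)⁻¹ ∈ chartRing (Rf Fc R) (xf G)⁻¹ := by
  intro b hb hbV
  rw [mem_chartRing_iff Fc R _ (fun r hr => R_le_Fc G hr)] at hb ⊢
  exact G.qep_inf _ hb hbV

end GoodModelFront

end Fermat.Agent.S18.H438

end
end
-- ===== PACK-END S18/H438/Front/Transport2.lean

-- ===== PACK-BEGIN S18/B12/H33/CoreAux.lean
section



/-!
# S18 b2.5 (helper33): auxiliary lemmas for the assembly of `B2CoreAbsStatement`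
-/

set_option autoImplicit false

noncomputable section

namespace Fermat.Agent.S18.B12.H33

open Polynomial

universe u v

section Quot

variable {P : Type u} [CommRing P] (w : P)

/-- `a ∈ (w, p)` iff `mk p ∣ mk a` in `P/(w)`. -/
theorem mem_span_pair_iff_mk_dvd (p a : P) :
    a ∈ Ideal.span {w, p} ↔
      Ideal.Quotient.mk (Ideal.span {w}) p ∣ Ideal.Quotient.mk (Ideal.span {w}) a := by
  constructor
  · intro h
    rw [Ideal.mem_span_pair] at h
    obtain ⟨c, d, rfl⟩ := h
    refine ⟨Ideal.Quotient.mk _ d, ?_⟩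
    have hw0 : Ideal.Quotient.mk (Ideal.span {w}) w = 0 :=
      Ideal.Quotient.eq_zero_iff_mem.mpr (Ideal.mem_span_singleton_self w)
    simp [map_add, map_mul, hw0, mul_comm]
  · rintro ⟨c, hc⟩
    obtain ⟨d, rfl⟩ := Ideal.Quotient.mk_surjective c
    rw [← map_mul, Ideal.Quotient.eq, Ideal.mem_span_singleton] at hc
    obtain ⟨e, he⟩ := hc
    rw [Ideal.mem_span_pair]
    refine ⟨e, d, ?_⟩
    have : a = w * e + p * d := by linear_combination he
    rw [this]; ring

theorem span_pair_eq_comap (p : P) :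
    Ideal.span {w, p} = Ideal.comap (Ideal.Quotient.mk (Ideal.span {w}))
      (Ideal.span {Ideal.Quotient.mk (Ideal.span {w}) p}) := by
  ext a
  rw [mem_span_pair_iff_mk_dvd, Ideal.mem_comap, Ideal.mem_span_singleton]

end Quot

end Fermat.Agent.S18.B12.H33

end
end
-- ===== PACK-END S18/B12/H33/CoreAux.lean

-- ===== PACK-BEGIN S18/B12/H278/SF.lean
section


/-!
# b2-SF and b2-SF' (helper278): proofs of the frozen statements `SFIdemStatement` and
`SFLatticeStatement` of `Fermat/Agent/S18/B12/Spec.lean`.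

Both are instances of `exists_smul_mem_range_of_isIntegral` (`Transfer.lean`), which is the
localisation at `(t)` of the DVR normality criterion `mem_range_of_isIntegral`
(`Fermat/Agent/S37/H278/Normal.lean`).
-/

set_option autoImplicit false
set_option linter.style.haveILetI false
set_option linter.unusedSectionVars false

namespace Fermat.Agent.S18.B12.H278

open Module Polynomial Fermat.Agent.S37.H278

universe u v

/-- An idempotent is integral. -/
theorem isIntegral_of_mul_self_eq {Λ : Type*} [CommRing Λ] [Nontrivial Λ] {L : Type*} [CommRing L] [Algebra Λ L]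
    {ε : L} (hε : ε * ε = ε) : IsIntegral Λ ε := by
  refine ⟨X ^ 2 - X, ?_, ?_⟩
  · apply monic_X_pow_sub
    rw [degree_X]
    norm_num
  · simp [pow_two, hε]

/-- **b2-SF'** (= frozen statement `SFIdemStatement` of `B12/Spec.lean`, unfolded). -/
theorem sfIdem :
  ∀ (Λ : Type u) [CommRing Λ] [IsDomain Λ] [IsPrincipalIdealRing Λ] (t : Λ) (_ : Prime t)
    (L : Type v) [CommRing L] [Algebra Λ L] [Module.IsTorsionFree Λ L] (C : Subalgebra Λ L)
    (n : ℕ) (b : Module.Basis (Fin n) Λ C)
    (s : ℕ) (y : Fin s → C)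
    (_ : ∀ x : C, ∃ a : Fin s → Λ,
        x - ∑ i, a i • y i ∈ (Ideal.span {algebraMap Λ C t}).radical),
    Algebra.discr Λ b ≠ 0 → ¬ t ^ (n - s + 1) ∣ Algebra.discr Λ b →
    ∀ ε : L, ε * ε = ε → (∃ g₀ : Λ, g₀ ≠ 0 ∧ g₀ • ε ∈ C) → ∃ g : Λ, ¬ t ∣ g ∧ g • ε ∈ C := by
  intro Λ _ _ _ t ht L _ _ _ C n b s y hy _ hd ε hε hε0
  have hL : ∀ (g : Λ) (l : L), g ≠ 0 → g • l = 0 → l = 0 := by
    intro g l hg h
    have hreg : IsSMulRegular L g := Module.IsTorsionFree.isSMulRegular (IsRegular.of_ne_zero hg)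
    exact hreg (by simpa using h)
  have hx0 : ∃ g₀ : Λ, g₀ ≠ 0 ∧ g₀ • ε ∈ (C.val : C →ₐ[Λ] L).range := by
    obtain ⟨g₀, h0, h1⟩ := hε0
    exact ⟨g₀, h0, ⟨⟨_, h1⟩, rfl⟩⟩
  obtain ⟨g, hg, c, hc⟩ := exists_smul_mem_range_of_isIntegral ht hL C.val
    Subtype.val_injective b s y hy (by simpa using hd) ε (isIntegral_of_mul_self_eq hε) hx0
  refine ⟨g, hg, ?_⟩
  have hc' : (c : L) = g • ε := hc
  rw [← hc']
  exact c.2

/-- An injective linear map between free modules of the same finite rank over a domain has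
torsion cokernel: `d • N ⊆ range f` for some `d ≠ 0` (`d` = determinant). -/
theorem exists_smul_mem_range_of_injective {Λ : Type*} [CommRing Λ] [IsDomain Λ]
    {M N : Type*} [AddCommGroup M] [AddCommGroup N] [Module Λ M] [Module Λ N]
    {ι : Type*} [Fintype ι] [DecidableEq ι] (b : Basis ι Λ M) (bt : Basis ι Λ N)
    (f : M →ₗ[Λ] N) (hf : Function.Injective f) :
    ∃ d : Λ, d ≠ 0 ∧ ∀ z : N, d • z ∈ LinearMap.range f := by
  classical
  set A := LinearMap.toMatrix b bt f with hA
  have hdet : A.det ≠ 0 := by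
    intro h0
    obtain ⟨v, hv, hAv⟩ := Matrix.exists_mulVec_eq_zero_iff.mpr h0
    have h1 : f (b.equivFun.symm v) = 0 := by
      apply bt.equivFun.injective
      rw [map_zero]
      have := LinearMap.toMatrix_mulVec_repr b bt f (b.equivFun.symm v)
      rw [← hA] at this
      have hv' : ⇑(b.repr (b.equivFun.symm v)) = v := by
        rw [← Basis.equivFun_apply, LinearEquiv.apply_symm_apply]
      rw [hv', hAv] at this
      funext i
      have := congrFun this i
      simpa using this.symm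
    have h2 : b.equivFun.symm v = 0 := hf (by rw [h1, map_zero])
    apply hv
    have := congrArg b.equivFun h2
    rw [LinearEquiv.apply_symm_apply, map_zero] at this
    exact this
  refine ⟨A.det, hdet, fun z => ⟨Matrix.toLin bt b A.adjugate z, ?_⟩⟩
  have h3 : f ∘ₗ Matrix.toLin bt b A.adjugate = A.det • LinearMap.id := by
    conv_lhs => rw [← Matrix.toLin_toMatrix b bt f, ← hA]
    rw [← Matrix.toLin_mul, Matrix.mul_adjugate, map_smul, Matrix.toLin_one]
  have := LinearMap.congr_fun h3 z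
  simpa using this

/-- **b2-SF** (= frozen statement `SFLatticeStatement` of `B12/Spec.lean`, unfolded). -/
theorem sfLattice :
  ∀ (Λ : Type u) [CommRing Λ] [IsDomain Λ] [IsPrincipalIdealRing Λ] (t : Λ) (_ : Prime t)
    (L : Type v) [CommRing L] [Algebra Λ L] (C Ct : Subalgebra Λ L) (_ : C ≤ Ct)
    (n : ℕ) (b : Module.Basis (Fin n) Λ C) (_ : Module.Basis (Fin n) Λ Ct)
    (s : ℕ) (y : Fin s → C)
    (_ : ∀ x : C, ∃ a : Fin s → Λ,
        x - ∑ i, a i • y i ∈ (Ideal.span {algebraMap Λ C t}).radical),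
    Algebra.discr Λ b ≠ 0 → ¬ t ^ (n - s + 1) ∣ Algebra.discr Λ b →
    ∀ x ∈ Ct, ∃ g : Λ, ¬ t ∣ g ∧ g • x ∈ C := by
  intro Λ _ _ _ t ht L _ _ C Ct hle n b bt s y hy _ hd x hx
  haveI : Module.Free Λ Ct := Module.Free.of_basis bt
  have hL : ∀ (g : Λ) (l : Ct), g ≠ 0 → g • l = 0 → l = 0 := by
    intro g l hg h
    exact smul_eq_zero_imp hg h
  have hf : Function.Injective (Subalgebra.inclusion hle) := Subalgebra.inclusion_injective hle
  haveI : Module.Finite Λ Ct := Module.Finite.of_basis bt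
  have hxint : IsIntegral Λ (⟨x, hx⟩ : Ct) := Algebra.IsIntegral.isIntegral _
  obtain ⟨d, hd0, hdr⟩ := exists_smul_mem_range_of_injective b bt
    (Subalgebra.inclusion hle).toLinearMap hf
  have hx0 : ∃ g₀ : Λ, g₀ ≠ 0 ∧ g₀ • (⟨x, hx⟩ : Ct) ∈ (Subalgebra.inclusion hle).range := by
    obtain ⟨c, hc⟩ := hdr ⟨x, hx⟩
    exact ⟨d, hd0, c, hc⟩
  obtain ⟨g, hg, c, hc⟩ := exists_smul_mem_range_of_isIntegral ht hL (Subalgebra.inclusion hle)
    hf b s y hy (by simpa using hd) ⟨x, hx⟩ hxint hx0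
  refine ⟨g, hg, ?_⟩
  have hc' : ((Subalgebra.inclusion hle c : Ct) : L) = g • x := congrArg Subtype.val hc
  rw [← hc']
  exact c.2

end Fermat.Agent.S18.B12.H278

end
-- ===== PACK-END S18/B12/H278/SF.lean

-- ===== PACK-BEGIN Lib/HFree/H412/Trans.lean
section


/-!
# The augmentation kernel of the permutation module is `(S⁻¹ - 1) M + (T - 1) M`

`X = SL(2,ℤ) ⧸ Γ` finite, `M = (X → ℤ)`.  Since `S, T` generate `SL(2,ℤ)`, which acts
transitively on `X`, every `e : X → ℤ` with `∑ e = 0` is of the form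
`(S⁻¹ • n - n) + (T • k - k)`.
-/

set_option autoImplicit false

open scoped MatrixGroups
open ModularGroup

namespace Fermat.Agent.Lib.HFree.H412

variable {Γ : Subgroup SL(2, ℤ)}

/-- The subgroup `(S⁻¹ - 1) M + (T - 1) M` of `M = (X → ℤ)`. -/
def augGen (Γ : Subgroup SL(2, ℤ)) : AddSubgroup ((SL(2, ℤ) ⧸ Γ) → ℤ) where
  carrier := {e | ∃ n k : (SL(2, ℤ) ⧸ Γ) → ℤ,
    e = (permRep ℤ (S⁻¹ : SL(2, ℤ)) n - n) + (permRep ℤ (T : SL(2, ℤ)) k - k)}
  zero_mem' := ⟨0, 0, by simp⟩
  add_mem' := by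
    rintro _ _ ⟨n, k, rfl⟩ ⟨n', k', rfl⟩
    refine ⟨n + n', k + k', ?_⟩
    rw [map_add, map_add]
    abel
  neg_mem' := by
    rintro _ ⟨n, k, rfl⟩
    refine ⟨-n, -k, ?_⟩
    rw [map_neg, map_neg]
    abel

theorem mem_augGen {e : (SL(2, ℤ) ⧸ Γ) → ℤ} :
    e ∈ augGen Γ ↔ ∃ n k : (SL(2, ℤ) ⧸ Γ) → ℤ,
      e = (permRep ℤ (S⁻¹ : SL(2, ℤ)) n - n) + (permRep ℤ (T : SL(2, ℤ)) k - k) := Iff.rfl

open Classical in
theorem single_smul_sub_single_mem (h : SL(2, ℤ)) (x : SL(2, ℤ) ⧸ Γ) :
    (Pi.single (h • x) (1 : ℤ) - Pi.single x 1 : (SL(2, ℤ) ⧸ Γ) → ℤ) ∈ augGen Γ := by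
  let H : Subgroup SL(2, ℤ) :=
    { carrier := {h | ∀ x : SL(2, ℤ) ⧸ Γ,
        (Pi.single (h • x) (1 : ℤ) - Pi.single x 1 : (SL(2, ℤ) ⧸ Γ) → ℤ) ∈ augGen Γ}
      one_mem' := fun x => by
        rw [one_smul, sub_self]
        exact (augGen Γ).zero_mem
      mul_mem' := fun {a b} ha hb x => by
        have h1 := ha (b • x)
        have h2 := hb x
        have := (augGen Γ).add_mem h1 h2
        rw [sub_add_sub_cancel, ← mul_smul] at this
        exact this
      inv_mem' := fun {a} ha x => by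
        have h1 := (augGen Γ).neg_mem (ha (a⁻¹ • x))
        rw [smul_inv_smul, neg_sub] at h1
        exact h1 }
  have hS : (S : SL(2, ℤ)) ∈ H := by
    have hS' : (S⁻¹ : SL(2, ℤ)) ∈ H := fun x => by
      refine ⟨Pi.single x 1, 0, ?_⟩
      rw [permRep_single]
      simp
    have := H.inv_mem hS'
    rwa [inv_inv] at this
  have hT : (T : SL(2, ℤ)) ∈ H := fun x => by
    refine ⟨0, Pi.single x 1, ?_⟩
    rw [permRep_single]
    simp
  have htop : H = ⊤ := by
    rw [eq_top_iff, ← SpecialLinearGroup.SL2Z_generators, Subgroup.closure_le]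
    rintro g (rfl | hg)
    · exact hS
    · rw [Set.mem_singleton_iff] at hg
      subst hg
      exact hT
  have : h ∈ H := by rw [htop]; trivial
  exact this x

open Classical in
/-- **Transitivity lemma.** -/
theorem mem_augGen_of_sum_eq_zero [Fintype (SL(2, ℤ) ⧸ Γ)] (e : (SL(2, ℤ) ⧸ Γ) → ℤ)
    (he : ∑ x, e x = 0) : e ∈ augGen Γ := by
  have h1 : e = ∑ x, e x • (Pi.single x (1 : ℤ) - Pi.single (bpt Γ) 1 :
      (SL(2, ℤ) ⧸ Γ) → ℤ) := by
    simp only [smul_sub, Finset.sum_sub_distrib, ← Finset.sum_smul, he, zero_smul, sub_zero]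
    funext y
    rw [Finset.sum_apply]
    simp [Pi.single_apply]
  rw [h1]
  refine (augGen Γ).sum_mem fun x _ => (augGen Γ).zsmul_mem ?_ _
  obtain ⟨g, hg⟩ := exists_smul_bpt x
  rw [← hg]
  exact single_smul_sub_single_mem g (bpt Γ)

end Fermat.Agent.Lib.HFree.H412

end
-- ===== PACK-END Lib/HFree/H412/Trans.lean

-- ===== PACK-BEGIN S21/H81/U0Final.lean
section




/-!
# S21 — piece MS-C, exact interface statement

`Fermat.Agent.S21.H81.exists_u0` is verbatim the statement `exists_u0` of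
`Fermat/Agent/S21/MSInterface.lean` (helper201), obtained from `exists_u0_of` by plugging in
MS-A (`exists_partition_SL2Z`, helper896), G2 (`c_eq_zero_of_two_le_im`, helper896) and
MS-B (`exists_section`, helper944).
-/

set_option autoImplicit false

open UpperHalfPlane CongruenceSubgroup
open scoped MatrixGroups ContDiff

namespace Fermat.Agent.S21.H81

/-- **MS-C** (strong form): the initial function `u₀` with periods `φ`, constant high in every
cusp. -/
theorem exists_u0_const (N : ℕ) [NeZero N] (φ : Additive (Gamma0 N) →+ ℝ)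
    (hφ : ModularCurve.Period.IsParabolicHom (Gamma0 N) φ) :
    ∃ (u₀ : ℂ → ℝ) (c : SL(2, ℤ) → ℝ), ContDiffOn ℝ ∞ u₀ Uhp ∧
      (∀ (γ : Gamma0 N) (z : ℍ),
        u₀ ↑((γ : SL(2, ℤ)) • z) = u₀ ↑z + φ (Additive.ofMul γ)) ∧
      (∀ (δ : SL(2, ℤ)) (z : ℂ), 2 ≤ z.im → u₀ (mob δ z) = c δ) ∧
      (∀ (δ : SL(2, ℤ)) (z : ℂ), 2 < z.im → dz u₀ (mob δ z) = 0) :=
  exists_u0_of N φ exists_partition_SL2Z c_eq_zero_of_two_le_im (exists_section N φ hφ)

/-- **MS-C**: the initial function `u₀` with periods `φ`, locally constant high in every cusp.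
(Verbatim the statement `exists_u0` of `MSInterface.lean`.) -/
theorem exists_u0 (N : ℕ) [NeZero N] (φ : Additive (Gamma0 N) →+ ℝ)
    (hφ : ModularCurve.Period.IsParabolicHom (Gamma0 N) φ) :
    ∃ u₀ : ℂ → ℝ, ContDiffOn ℝ ∞ u₀ Uhp ∧
      (∀ (γ : Gamma0 N) (z : ℍ), u₀ ↑((γ : SL(2, ℤ)) • z) = u₀ ↑z + φ (Additive.ofMul γ)) ∧
      (∀ (δ : SL(2, ℤ)) (z : ℂ), 2 < z.im → dz u₀ (mob δ z) = 0) := by
  obtain ⟨u₀, -, h1, h2, -, h4⟩ := exists_u0_const N φ hφ
  exact ⟨u₀, h1, h2, h4⟩

end Fermat.Agent.S21.H81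

end
-- ===== PACK-END S21/H81/U0Final.lean

-- ===== PACK-BEGIN S21/H544/IntCDens.lean
section


/-!
# S21 INT-C (helper544): the Dirichlet density and its behaviour under symmetrization
-/

set_option autoImplicit false

open UpperHalfPlane CongruenceSubgroup Filter Topology MeasureTheory
open scoped MatrixGroups ComplexConjugate ContDiff

namespace Fermat.Agent.S21.H544

open Fermat.Agent.S21

/-- The Dirichlet form density `u_x η_x + u_y η_y`. -/
noncomputable def dens (u η : ℂ → ℝ) (w : ℂ) : ℝ :=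
  fderiv ℝ u w 1 * fderiv ℝ η w 1 + fderiv ℝ u w Complex.I * fderiv ℝ η w Complex.I

theorem dens_eq_re (u η : ℂ → ℝ) (w : ℂ) : dens u η w = (conj (dz u w) * dz η w).re := by
  unfold dens dz
  simp

theorem dens_eq_zero_of_notMem_tsupport {u η : ℂ → ℝ} {w : ℂ} (hw : w ∉ tsupport η) :
    dens u η w = 0 := by
  have h : fderiv ℝ η w = 0 := by
    have h0 : η =ᶠ[𝓝 w] fun _ => (0 : ℝ) := notMem_tsupport_iff_eventuallyEq.mp hw
    rw [h0.fderiv_eq]
    simp
  simp [dens, h]

/-- Behaviour of the density under composition with a Möbius transformation. -/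
theorem dens_comp_mob (u η : ℂ → ℝ) (g : SL(2, ℤ)) {z : ℂ} (hz : z ∈ Uhp)
    (hη : DifferentiableAt ℝ η (mob g z))
    (hinv : dz u (mob g z) = (cd g z) ^ 2 * dz u z) :
    dens u (fun w => η (mob g w)) z = dens u η (mob g z) / ‖cd g z‖ ^ 4 := by
  rw [dens_eq_re, dens_eq_re, dz_comp_mob η g z hz hη, hinv]
  have hc : cd g z ≠ 0 := SmallAux.cd_ne_zero g hz
  set c := cd g z with hcdef
  set a := dz u z
  set b := dz η (mob g z)
  have hc4 : ((‖c‖ ^ 4 : ℝ) : ℂ) = c ^ 2 * (conj c) ^ 2 := by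
    rw [← mul_pow, Complex.mul_conj, Complex.normSq_eq_norm_sq]
    push_cast
    ring
  have hcc : conj c ≠ 0 := by simpa using hc
  have key : conj a * (b / c ^ 2) = (conj (c ^ 2 * a) * b) / ((‖c‖ ^ 4 : ℝ) : ℂ) := by
    rw [hc4]
    simp only [map_mul, map_pow]
    field_simp
  rw [key, Complex.div_ofReal_re]

end Fermat.Agent.S21.H544

end
-- ===== PACK-END S21/H544/IntCDens.lean

-- ===== PACK-BEGIN Ribet/H751/LogHolCore.lean
section



/-!
# RIBET row 38, WALL-p, I3 leaf LOGHOL (helper751), part 3: the abstract core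

`K` a perfect field of characteristic `p`, `F / K` a field extension, `v` a place of degree one of
`F / K`, `t` a uniformiser at `v` such that `F` is algebraic over `K(t)`, `h ∈ F^×` with
`p ∣ ord_v h`.  Let `j : F →ₐ[K] L` be an embedding into a field with a `K`-derivation `D`.  Then

  `D (j h) = j u · j h · D (j t)`  for some `u ∈ O_v`

(`exists_integral_logDer`): the logarithmic differential `dh / h = u dt` is regular at `v`.

Proof: the local expansion `ι : F → K((X))` at `v` (part 2) and `d/dX` show that `h` is separable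
over `K(t)` (helper602's `exists_sep_poly_of_derivation`); for a separable relation `P(t, h) = 0`
the chain rule gives `D (j h) = j w · D (j t)` and `d/dX (ι h) = ι w` with
`w = - P_X(t,h) / P_Y(t,h) ∈ F`.  Finally `ι h = X ^ (p m) · (unit of K⟦X⟧)` shows
`ι (w / h) ∈ K⟦X⟧`, i.e. `w / h ∈ O_v`.
-/

set_option autoImplicit false

noncomputable section

open AlgebraicCurve Polynomial IntermediateField

namespace Fermat.Agent.Ribet.H751

open Fermat.Agent.Lib.RR

section Chain

variable {K : Type*} [Field K]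

/-- coefficientwise derivative of a bivariate polynomial (`∂P/∂X` for `P ∈ K[X][Y]`) -/
def derivX (P : K[X][X]) : K[X][X] := P.sum fun n c => monomial n (derivative c)

theorem derivX_add (P Q : K[X][X]) : derivX (P + Q) = derivX P + derivX Q := by
  unfold derivX
  exact Polynomial.sum_add_index P Q _ (by simp) (by simp)

theorem derivX_monomial (n : ℕ) (c : K[X]) :
    derivX (monomial n c) = monomial n (derivative c) := by
  unfold derivX
  exact Polynomial.sum_monomial_index c _ (by simp)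

variable {B : Type*} [CommRing B] [Algebra K B]

/-- evaluation of a bivariate polynomial at `(x, y)` -/
def ev2 (x y : B) (P : K[X][X]) : B := eval₂ (aeval x : K[X] →ₐ[K] B).toRingHom y P

theorem ev2_add (x y : B) (P Q : K[X][X]) : ev2 x y (P + Q) = ev2 x y P + ev2 x y Q := by
  simp [ev2, eval₂_add]

theorem ev2_monomial (x y : B) (n : ℕ) (c : K[X]) :
    ev2 x y (monomial n c) = aeval x c * y ^ n := by
  simp [ev2, eval₂_monomial]

/-- **Chain rule** for a derivation and a bivariate polynomial. -/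
theorem derivation_ev2 (Δ : Derivation K B B) (x y : B) (P : K[X][X]) :
    Δ (ev2 x y P) = ev2 x y (derivX P) * Δ x + ev2 x y (derivative P) * Δ y := by
  induction P using Polynomial.induction_on' with
  | add P Q hP hQ =>
    rw [ev2_add, map_add, hP, hQ, derivX_add, ev2_add, derivative_add, ev2_add]
    ring
  | monomial n c =>
    rw [ev2_monomial, derivX_monomial, ev2_monomial, derivative_monomial, ev2_monomial,
      Derivation.leibniz, Derivation.leibniz_pow, Derivation.map_aeval]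
    simp only [smul_eq_mul, nsmul_eq_mul, map_mul, map_natCast]
    ring

/-- evaluation commutes with algebra homomorphisms -/
theorem map_ev2 {B' : Type*} [CommRing B'] [Algebra K B'] (φ : B →ₐ[K] B') (x y : B)
    (P : K[X][X]) : φ (ev2 x y P) = ev2 (φ x) (φ y) P := by
  unfold ev2
  have h := Polynomial.hom_eval₂ P (aeval x : K[X] →ₐ[K] B).toRingHom φ.toRingHom y
  have h2 : φ.toRingHom.comp (aeval x : K[X] →ₐ[K] B).toRingHom =
      (aeval (φ x) : K[X] →ₐ[K] B').toRingHom := by
    rw [Polynomial.aeval_algHom]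
    rfl
  rw [h2] at h
  exact h

end Chain

section Transfer

/-- Integrality over a simple extension is transported by algebra homomorphisms. -/
theorem isIntegral_adjoin_simple_map {K A B : Type*} [Field K] [Field A] [Field B]
    [Algebra K A] [Algebra K B] (ψ : A →ₐ[K] B) {x u : A}
    (h : IsIntegral (IntermediateField.adjoin K {x}) u) :
    IsIntegral (IntermediateField.adjoin K {ψ x}) (ψ u) := by
  have hmem : ∀ y : IntermediateField.adjoin K {x},
      ψ (y : A) ∈ IntermediateField.adjoin K {ψ x} := by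
    intro y
    have h1 : ψ (y : A) ∈ (IntermediateField.adjoin K {x}).map ψ := ⟨y, y.2, rfl⟩
    rwa [IntermediateField.adjoin_map, Set.image_singleton] at h1
  let φ' : IntermediateField.adjoin K {x} →+* IntermediateField.adjoin K {ψ x} :=
    { toFun := fun y => ⟨ψ (y : A), hmem y⟩
      map_one' := Subtype.ext (by simp)
      map_mul' := fun a b => Subtype.ext (by simp)
      map_zero' := Subtype.ext (by simp)
      map_add' := fun a b => Subtype.ext (by simp) }
  exact IsIntegral.map_of_comp_eq φ' ψ.toRingHom (by ext; rfl) h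

end Transfer

section Laurent

variable {K : Type*} [Field K]

open Fermat.Agent.S18.H602

theorem dq_single_one : dq (HahnSeries.single (1 : ℤ) (1 : K)) = 1 := by
  ext n
  rw [dq_coeff, HahnSeries.coeff_single, HahnSeries.coeff_one]
  by_cases hn : n = 0
  · subst hn
    simp
  · have : n + 1 ≠ 1 := by omega
    simp [hn, this]

end Laurent

section Main

open Fermat.Agent.S18.H602

variable {K F : Type*} [Field K] [Field F] [Algebra K F]

/-- For a separable relation `P(t, h) = 0` every derivation satisfies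
`Δ h = w Δ t`, `w = - P_X / P_Y`. -/
theorem derivation_eq_of_sep {B : Type*} [Field B] [Algebra K B] (φ : F →ₐ[K] B)
    (Δ : Derivation K B B) {t h w : F} {P : K[X][X]} (hP0 : ev2 t h P = 0)
    (hP1 : ev2 t h (derivative P) ≠ 0)
    (hw : w * ev2 t h (derivative P) = -(ev2 t h (derivX P))) :
    Δ (φ h) = φ w * Δ (φ t) := by
  have h1 := derivation_ev2 Δ (φ t) (φ h) P
  rw [← map_ev2, ← map_ev2, ← map_ev2, hP0, map_zero, map_zero] at h1
  have h2 : φ (ev2 t h (derivative P)) ≠ 0 := fun h => hP1 ((map_eq_zero φ).1 h)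
  have h3 : φ w * φ (ev2 t h (derivative P)) = -φ (ev2 t h (derivX P)) := by
    rw [← map_mul, hw, map_neg]
  have h4 : φ (ev2 t h (derivative P)) * (Δ (φ h) - φ w * Δ (φ t)) = 0 := by
    linear_combination h1.symm - Δ (φ t) * h3
  rcases mul_eq_zero.1 h4 with h5 | h5
  · exact absurd h5 h2
  · exact sub_eq_zero.1 h5

/-- In characteristic `p`, `p`-th powers are constants of every derivation. -/
theorem derivation_mul_pow_char {B : Type*} [Field B] [Algebra K B] (p : ℕ) [CharP B p]
    (Δ : Derivation K B B) (a x : B) : Δ (a * x ^ p) = x ^ p * Δ a := by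
  rw [Derivation.leibniz, Derivation.leibniz_pow, nsmul_eq_mul, CharP.cast_eq_zero, zero_mul,
    smul_zero, zero_add, smul_eq_mul]

/-- **LOGHOL, abstract core.**  The logarithmic differential of a function whose order at a place
`v` (of degree one) is divisible by the characteristic is regular at `v`. -/
theorem exists_integral_logDer [PerfectField K] (p : ℕ) [hp : Fact p.Prime] [CharP K p]
    {L : Type*} [Field L] [Algebra K L] (j : F →ₐ[K] L) (D : Derivation K L L)
    (v : Place K F) (hv : v.deg = 1) {t : F} (ht : v.ord t = 1)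
    (halg : ∀ f : F, IsIntegral (IntermediateField.adjoin K {t}) f)
    {h : F} (h0 : h ≠ 0) (hdiv : (p : ℤ) ∣ v.ord h) :
    ∃ u ∈ v.toValuationSubring, D (j h) = j u * j h * D (j t) := by
  classical
  have ht0 : t ≠ 0 := unif_ne_zero v ht
  set ι := placeLaurent v hv ht with hι
  have hιinj : Function.Injective ι := placeLaurent_injective v hv ht
  have hT : ι t = HahnSeries.single 1 1 := placeLaurent_unif v hv ht
  let d : FieldDerivation K (LaurentSeries K) := dqDerAlg K
  have hdT : d (ι t) = 1 := by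
    rw [hT]
    exact dq_single_one
  have hdT0 : d (ι t) ≠ 0 := by
    rw [hdT]
    exact one_ne_zero
  -- a separable relation
  have hint : IsIntegral (IntermediateField.adjoin K {ι t}) (ι h) :=
    isIntegral_adjoin_simple_map ι (halg h)
  obtain ⟨P, hP0, hP1⟩ := exists_sep_poly_of_derivation d (ι t) hdT0 (ι h) hint
  have hP0' : ev2 t h P = 0 := by
    apply hιinj
    rw [map_ev2, map_zero]
    exact hP0
  have hP1' : ev2 t h (derivative P) ≠ 0 := by
    intro h1
    apply hP1
    have := congrArg ι h1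
    rw [map_ev2, map_zero] at this
    exact this
  -- the derivative `w = dh/dt`
  set w : F := -(ev2 t h (derivX P)) / ev2 t h (derivative P) with hw
  have hwmul : w * ev2 t h (derivative P) = -(ev2 t h (derivX P)) := by
    rw [hw]
    field_simp
  refine ⟨w / h, ?_, ?_⟩
  swap
  · rw [derivation_eq_of_sep j D hP0' hP1' hwmul, ← map_mul, div_mul_cancel₀ _ h0]
  -- integrality
  have hkey2 : d (ι h) = ι w := by
    have := derivation_eq_of_sep ι d hP0' hP1' hwmul
    rw [hdT, mul_one] at this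
    exact this
  -- `h = w₀ t ^ (p m)`
  obtain ⟨m, hm⟩ := hdiv
  set w₀ : F := h * (t ^ (v.ord h))⁻¹ with hw₀
  have hw₀0 : w₀ ≠ 0 := mul_ne_zero h0 (inv_ne_zero (zpow_ne_zero _ ht0))
  have hw₀ord : v.ord w₀ = 0 := by
    rw [hw₀, v.ord_mul h0 (inv_ne_zero (zpow_ne_zero _ ht0)), v.ord_inv, v.ord_zpow, ht]
    ring
  have hh : h = w₀ * (t ^ m) ^ p := by
    rw [hw₀, ← zpow_natCast, ← zpow_mul, mul_comm m, ← hm]
    field_simp
  have hcharL : CharP (LaurentSeries K) p :=
    charP_of_injective_algebraMap (algebraMap K (LaurentSeries K)).injective p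
  have hdh : d (ι h) = (ι (t ^ m)) ^ p * d (ι w₀) := by
    rw [hh, map_mul, map_pow]
    exact derivation_mul_pow_char p d (ι w₀) (ι (t ^ m))
  -- the unit part
  have hw₀mem : w₀ ∈ v.toValuationSubring := mem_of_ord_nonneg v hw₀ord.ge
  have hunit := isUnit_placePower v hv ht (a := ⟨w₀, hw₀mem⟩) hw₀0 hw₀ord
  obtain ⟨r', hr'⟩ := hunit.exists_right_inv
  set r := placePower v hv ht ⟨w₀, hw₀mem⟩ with hr
  have hιw₀ : ι w₀ = HahnSeries.ofPowerSeries ℤ K r := placeLaurent_coe v hv ht ⟨w₀, hw₀mem⟩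
  have hdw₀ : d (ι w₀) = HahnSeries.ofPowerSeries ℤ K (PowerSeries.derivative K r) := by
    rw [hιw₀]
    exact dq_ofPowerSeries r
  have hιtm : ι (t ^ m) ≠ 0 := by
    rw [Ne, map_eq_zero]
    exact zpow_ne_zero _ ht0
  have hιw₀0 : ι w₀ ≠ 0 := by
    rw [Ne, map_eq_zero]
    exact hw₀0
  have hfinal : ι (w / h) =
      HahnSeries.ofPowerSeries ℤ K (PowerSeries.derivative K r * r') := by
    have h1 : ι w₀ * HahnSeries.ofPowerSeries ℤ K r' = 1 := by
      rw [hιw₀, ← map_mul, hr', map_one]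
    rw [map_div₀, ← hkey2, hdh, hdw₀, map_mul]
    have h2 : ι h = ι w₀ * (ι (t ^ m)) ^ p := by
      conv_lhs => rw [hh]
      rw [map_mul, map_pow]
    rw [h2]
    rw [div_eq_iff (mul_ne_zero hιw₀0 (pow_ne_zero _ hιtm))]
    linear_combination (-(ι (t ^ m)) ^ p *
      HahnSeries.ofPowerSeries ℤ K (PowerSeries.derivative K r)) * h1
  exact mem_of_placeLaurent_eq_ofPowerSeries v hv ht hfinal

end Main

end Fermat.Agent.Ribet.H751

end
end
-- ===== PACK-END Ribet/H751/LogHolCore.lean

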