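import Mathlib.Analysis.Complex.UpperHalfPlane.MoebiusAction
import Mathlib.NumberTheory.ModularForms.CongruenceSubgroups
import Fermat.Prelude.Def_ModularCurve_X0ModL
import Fermat.Prelude.Def_CuspForm_IntegralStructure
import Fermat.Prelude.Def_CuspForm_HeckeAlgebra
import Mathlib
import Fermat.Agent.Pack.S44C.G0E13L2
import Fermat.Agent.Pack.S44C.G0E13L1
import Fermat.Agent.Pack.S44C.G0E0L3
import Fermat.Agent.Pack.S44C.G0E0L2
import Fermat.Agent.Pack.S44C.G0E10L1
import Fermat.Agent.Pack.S44C.G0E6L1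
import Fermat.Agent.Pack.S44C.G0E0L1
import Fermat.Agent.Pack.S44C.G0E6L3
import Fermat.Agent.Pack.S44C.G0E10L3
import Fermat.Agent.Pack.S44C.G0E13L3
import Fermat.Agent.Pack.S44C.G0E10L2
import Fermat.Agent.Pack.S44C.G0E14L0
import Fermat.Agent.Pack.S44C.G0E1L0
import Fermat.Agent.Pack.S44C.G0E14L1
import Fermat.Agent.Pack.S44C.G0E1L1
import Fermat.Agent.Pack.S44C.G0E14L3
import Fermat.Agent.Pack.S44C.G0E11L1
import Fermat.Agent.Pack.S44C.G0E14L2
import Fermat.Agent.Pack.S44C.G0E7L2
import Fermat.Agent.Pack.S44C.G0E2L3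
import Fermat.Agent.Pack.S44C.G0E11L0
import Fermat.Agent.Pack.S44C.G0E11L3
import Fermat.Agent.Pack.S44C.G0E2L2
import Fermat.Agent.Pack.S44C.G0E15L1
import Fermat.Agent.Pack.Fast891

-- ===== PACK-BEGIN S24/Mod/H997Core.lean
section


/-!
# S24 / MOD — the analytic interface `AnalyticCore N` and the assembly of the modular package

`AnalyticCore N` is the complete list of analytic facts needed (besides the degree bound
`[FF N : ℚ̄(j)] ≤ |SL₂(ℤ)/Γ₀(N)|`) to produce all the `LocalData` of helper984's interface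
`ModularPackage N`.
-/

set_option autoImplicit false

noncomputable section

open ModularCurve HahnSeries UpperHalfPlane
open scoped MatrixGroups

namespace Fermat.Agent.S24.H997

variable {N : ℕ} [NeZero N]

/-- Local data at a point of `ℍ` lying over `a = J(τ₀)`: an expansion (Taylor expansion at `τ₀`),
rotation data for the stabilising element `ε`, and the order of vanishing of `J - a`. -/
structure PointData (B : HolBase N) (a : ℂ) (ε : SL(2, ℤ)) where
  X : Expansion B
  R : RotData B X ε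
  order_J : (X.E (B.JH 1 (one_dvd N) - B.constH a)).order = (R.m : ℤ)

/-- **The analytic interface.** -/
structure AnalyticCore (N : ℕ) [NeZero N] extends HolBase N where
  /-- generic points: `J - a` has a simple zero at some `τ₀` -/
  generic : ∀ a : ℂ, a ≠ 0 → a ≠ 1728 → PointData toHolBase a 1

  /-- the point `i` over `1728`, rotation by `S` -/
  at1728 : PointData toHolBase 1728 ModularGroup.S
  /-- the point `ρ` over `0`, rotation by `S * T` -/
  at0 : PointData toHolBase 0 (ModularGroup.S * ModularGroup.T)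
  /-- the cusp `∞`: `qexp (h ∘ T)` is `qexp h` with `z` replaced by `ζ z` -/
  infζ : ℂ
  inf_hζ : IsPrimitiveRoot infζ N
  inf_shift : ∀ (h : Hol) (n : ℤ),
    (qexp (toHolBase.compH ModularGroup.T h)).coeff n = infζ ^ n * (qexp h).coeff n

namespace HolBase

variable (B : HolBase N)

/-- the expansion at `∞` -/
def qexpExpansion : Expansion B := ⟨B.qexp, B.qexp_injective, B.qexp_const⟩

theorem qexp_J_one_coeff (k : ℤ) :
    (B.qexp (B.JH 1 (one_dvd N))).coeff k
      = if (N : ℤ) ∣ k then ((jq.coeff (k / (N : ℤ)) : ℚ) : ℂ) else 0 := by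
  have := B.qexp_J 1 (one_dvd N) k
  simpa [JH] using this

theorem qexp_J_one_ne_zero : B.qexp (B.JH 1 (one_dvd N)) ≠ 0 := by
  apply ne_zero_of_coeff_ne_zero (g := -(N : ℤ))
  rw [qexp_J_one_coeff, if_pos (dvd_neg.mpr dvd_rfl)]
  have hN : (N : ℤ) ≠ 0 := by exact_mod_cast NeZero.ne N
  rw [Int.neg_ediv_of_dvd dvd_rfl, Int.ediv_self hN, coeff_jq_neg_one]
  simp

theorem order_qexp_J_one : (B.qexp (B.JH 1 (one_dvd N))).order = -(N : ℤ) := by
  have hN : (N : ℤ) ≠ 0 := by exact_mod_cast NeZero.ne N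
  have hNpos : (0 : ℤ) < N := by exact_mod_cast Nat.pos_of_ne_zero (NeZero.ne N)
  apply le_antisymm
  · apply order_le_of_coeff_ne_zero
    rw [qexp_J_one_coeff, if_pos (dvd_neg.mpr dvd_rfl)]
    rw [Int.neg_ediv_of_dvd dvd_rfl, Int.ediv_self hN, coeff_jq_neg_one]
    simp
  · by_contra hlt
    replace hlt := lt_of_not_ge hlt
    have h0 := coeff_order_eq_zero.not.mpr B.qexp_J_one_ne_zero
    apply h0
    rw [qexp_J_one_coeff]
    split_ifs with hdvd
    · obtain ⟨m, hm⟩ := hdvd
      rw [hm, Int.mul_ediv_cancel_left _ hN]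
      have : m < -1 := by
        rw [hm] at hlt
        by_contra hge
        replace hge := le_of_not_gt hge
        have : (N : ℤ) * m ≥ N * (-1) := mul_le_mul_of_nonneg_left hge hNpos.le
        linarith
      rw [coeff_jq_of_lt this]
      simp
    · rfl

end HolBase

/-- Rotation data from a coefficientwise statement `coeff_n (E (h ∘ ε)) = ζ^n coeff_n (E h)`. -/
def RotData.ofCoeff (B : HolBase N) (X : Expansion B) (ε : SL(2, ℤ)) (m : ℕ) (m_pos : 0 < m)
    (ζ : ℂ) (hζ : IsPrimitiveRoot ζ m)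
    (h : ∀ (f : B.Hol) (n : ℤ), (X.E (B.compH ε f)).coeff n = ζ ^ n * (X.E f).coeff n) :
    RotData B X ε where
  m := m
  m_pos := m_pos
  ζ := ζ
  hζ := hζ
  rot f := by
    have hζ0 : ζ ≠ 0 := hζ.ne_zero m_pos.ne'
    by_cases hf : X.E f = 0
    · have : X.E (B.compH ε f) = 0 := by
        ext n; rw [h, hf]; simp
      rw [hf, this]; exact RotRel.zero
    · have hf' : X.E (B.compH ε f) ≠ 0 := by
        intro h0
        apply hf
        ext n
        have := congrArg (fun s => s.coeff n) h0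
        simp only [h, coeff_zero, mul_eq_zero, zpow_ne_zero n hζ0, false_or] at this
        simpa using this
      have hord : (X.E (B.compH ε f)).order = (X.E f).order := by
        apply le_antisymm
        · apply order_le_of_coeff_ne_zero
          rw [h]
          exact mul_ne_zero (zpow_ne_zero _ hζ0) (coeff_order_eq_zero.not.mpr hf)
        · apply order_le_of_coeff_ne_zero
          have := coeff_order_eq_zero.not.mpr hf'
          rw [h] at this
          exact right_ne_zero_of_mul this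
      refine ⟨hord, ?_⟩
      rw [leadingCoeff_eq, leadingCoeff_eq, hord, h]

theorem numOrbits_inv {X : Type*} (π : Equiv.Perm X) : numOrbits π⁻¹ = numOrbits π := by
  unfold numOrbits
  rw [Subgroup.zpowers_inv]

theorem permOf_inv (N : ℕ) [NeZero N] (g : SL(2, ℤ)) : permOf N g⁻¹ = (permOf N g)⁻¹ := by
  ext x
  simp [permOf]

theorem permOf_one (N : ℕ) [NeZero N] : permOf N 1 = 1 := by
  ext x
  simp [permOf]

namespace AnalyticCore

variable (A : AnalyticCore N)

/-- rotation data at the cusp -/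
def infRot : RotData A.toHolBase A.toHolBase.qexpExpansion ModularGroup.T :=
  RotData.ofCoeff A.toHolBase A.toHolBase.qexpExpansion ModularGroup.T N
    (Nat.pos_of_ne_zero (NeZero.ne N)) A.infζ A.inf_hζ A.inf_shift

/-- the local data at `∞` -/
def dataInf : LocalData Kbar (FF N) ℂ (XX N) (jF N)⁻¹ :=
  A.toHolBase.mkLocalData A.toHolBase.qexpExpansion ModularGroup.T A.infRot (jF N)⁻¹
    (A.qexp (A.toHolBase.JH 1 (one_dvd N)))⁻¹
    (fun g => by rw [map_inv₀, HolBase.sigmaG_jF]; rfl)
    (by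
      rw [RotRel.order_inv' A.toHolBase.qexp_J_one_ne_zero, A.toHolBase.order_qexp_J_one, neg_neg]
      rfl)

theorem sigmaG_sub {a : Kbar} {ε : SL(2, ℤ)} (P : PointData A.toHolBase (ιK a) ε)
    (g : SL(2, ℤ)) :
    A.toHolBase.sigmaG P.X g (jF N - algebraMap Kbar (FF N) a)
      = P.X.E (A.toHolBase.JH 1 (one_dvd N) - A.toHolBase.constH (ιK a)) := by
  rw [map_sub, HolBase.sigmaG_jF, HolBase.sigmaG_algebraMap, map_sub, P.X.const]

/-- the local data attached to point data over `a` -/
def dataOfPoint {a : Kbar} {ε : SL(2, ℤ)} (P : PointData A.toHolBase (ιK a) ε) :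
    LocalData Kbar (FF N) ℂ (XX N) (jF N - algebraMap Kbar (FF N) a) :=
  A.toHolBase.mkLocalData P.X ε P.R _ _ (fun g => A.sigmaG_sub P g) P.order_J

/-- all the embeddings `σ_x` agree on `ℚ̄(j)` -/
theorem sigmaX_eq_on_adjoin (X : Expansion A.toHolBase) (x y : XX N) {f : FF N}
    (hf : f ∈ IntermediateField.adjoin Kbar {jF N}) :
    A.toHolBase.sigmaX X x f = A.toHolBase.sigmaX X y f := by
  induction hf using IntermediateField.adjoin_induction with
  | mem z hz =>
      rw [Set.mem_singleton_iff] at hz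
      subst hz
      show A.toHolBase.sigmaG X _ (jF N) = A.toHolBase.sigmaG X _ (jF N)
      rw [HolBase.sigmaG_jF, HolBase.sigmaG_jF]
  | algebraMap c =>
      show A.toHolBase.sigmaG X _ _ = A.toHolBase.sigmaG X _ _
      rw [HolBase.sigmaG_algebraMap, HolBase.sigmaG_algebraMap]
  | add z w _ _ hz hw => rw [map_add, map_add, hz, hw]
  | inv z _ hz => rw [map_inv₀, map_inv₀, hz]
  | mul z w _ _ hz hw => rw [map_mul, map_mul, hz, hw]

/-- lower bound for the degree: `|SL₂(ℤ)/Γ₀(N)| ≤ [FF N : ℚ̄(j)]`. -/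
theorem card_le_finrank (A : AnalyticCore N)
    [FiniteDimensional ↥(IntermediateField.adjoin Kbar {jF N}) (FF N)] :
    Nat.card (XX N) ≤ Module.finrank ↥(IntermediateField.adjoin Kbar {jF N}) (FF N) := by
  classical
  set E := IntermediateField.adjoin Kbar {jF N} with hE
  let X := A.toHolBase.qexpExpansion
  let x0 : XX N := ((1 : SL(2, ℤ)) : XX N)
  let ψ : ↥E →+* LaurentSeries ℂ := (A.toHolBase.sigmaX X x0).comp (algebraMap ↥E (FF N))
  letI : Algebra ↥E (LaurentSeries ℂ) := ψ.toAlgebra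
  let a : XX N → (FF N →ₐ[↥E] LaurentSeries ℂ) := fun x =>
    { A.toHolBase.sigmaX X x with
      commutes' := fun y => A.sigmaX_eq_on_adjoin X x x0 y.2 }
  have ha : Function.Injective a := by
    intro x y hxy
    apply A.toHolBase.sigmaX_injective X
    refine RingHom.ext fun f => ?_
    exact congrArg (fun φ : FF N →ₐ[↥E] LaurentSeries ℂ => φ f) hxy
  haveI : Module.Free ↥E (FF N) := Module.Free.of_divisionRing ↥E (FF N)
  haveI : Module.Finite ↥E (FF N) := ‹FiniteDimensional ↥E (FF N)›
  haveI : Finite (FF N →ₐ[↥E] LaurentSeries ℂ) := Finite.algHom ↥E (FF N) (LaurentSeries ℂ)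
  calc Nat.card (XX N) ≤ Nat.card (FF N →ₐ[↥E] LaurentSeries ℂ) :=
        Nat.card_le_card_of_injective a ha
    _ ≤ Module.finrank ↥E (FF N) := card_algHom_le_finrank ↥E (FF N) (LaurentSeries ℂ)

/-- the local data over a finite point `a : ℚ̄` -/
def dataFin (a : Kbar) : LocalData Kbar (FF N) ℂ (XX N) (jF N - algebraMap Kbar (FF N) a) :=
  letI := Classical.propDecidable
  if h0 : a = 0 then
    A.dataOfPoint (a := a) (ε := ModularGroup.S * ModularGroup.T)
      (by rw [h0, map_zero]; exact A.at0)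
  else if h1 : a = 1728 then
    A.dataOfPoint (a := a) (ε := ModularGroup.S)
      (by
        have : ιK a = 1728 := by rw [h1]; exact map_ofNat ιK 1728
        rw [this]; exact A.at1728)
  else
    A.dataOfPoint (a := a) (ε := 1)
      (A.generic (ιK a)
        (fun h => h0 (ιK_injective (by rw [h, map_zero])))
        (fun h => h1 (ιK_injective (by rw [h]; exact (map_ofNat ιK 1728).symm))))

theorem dataFin_perm_generic (a : Kbar) (h0 : a ≠ 0) (h1 : a ≠ 1728) :
    (A.dataFin a).perm = 1 := by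
  unfold dataFin
  rw [dif_neg h0, dif_neg h1]
  show permOf N 1⁻¹ = 1
  rw [inv_one, permOf_one]

theorem dataFin_zero_perm :
    numOrbits (A.dataFin 0).perm = numOrbits (permOf N (ModularGroup.S * ModularGroup.T)) := by
  unfold dataFin
  rw [dif_pos rfl]
  show numOrbits (permOf N (ModularGroup.S * ModularGroup.T)⁻¹) = _
  rw [permOf_inv, numOrbits_inv]

theorem dataFin_1728_perm :
    numOrbits (A.dataFin 1728).perm = numOrbits (permOf N ModularGroup.S) := by
  have h0 : (1728 : Kbar) ≠ 0 := by norm_num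
  unfold dataFin
  rw [dif_neg h0, dif_pos rfl]
  show numOrbits (permOf N ModularGroup.S⁻¹) = _
  rw [permOf_inv, numOrbits_inv]

theorem dataInf_perm :
    numOrbits A.dataInf.perm = numOrbits (permOf N ModularGroup.T) := by
  show numOrbits (permOf N ModularGroup.T⁻¹) = _
  rw [permOf_inv, numOrbits_inv]

/-- **Assembly.**  All fields of helper984's `ModularPackage N` from the analytic core and the
degree bound. -/
theorem modularPackage_fields (A : AnalyticCore N)
    (hfd : FiniteDimensional ↥(IntermediateField.adjoin Kbar {jF N}) (FF N))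
    (hle : Module.finrank ↥(IntermediateField.adjoin Kbar {jF N}) (FF N) ≤ Nat.card (XX N)) :
    ∃ (dataFin : ∀ a : Kbar, LocalData Kbar (FF N) ℂ (XX N) (jF N - algebraMap Kbar (FF N) a))
      (dataInf : LocalData Kbar (FF N) ℂ (XX N) (jF N)⁻¹),
      Module.finrank ↥(IntermediateField.adjoin Kbar {jF N}) (FF N) = Nat.card (XX N) ∧
      (∀ a : Kbar, a ≠ 0 → a ≠ 1728 → (dataFin a).perm = 1) ∧
      numOrbits (dataFin 0).perm = numOrbits (permOf N (ModularGroup.S * ModularGroup.T)) ∧
      numOrbits (dataFin 1728).perm = numOrbits (permOf N ModularGroup.S) ∧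
      numOrbits dataInf.perm = numOrbits (permOf N ModularGroup.T) :=
  ⟨A.dataFin, A.dataInf, le_antisymm hle A.card_le_finrank, A.dataFin_perm_generic,
    A.dataFin_zero_perm, A.dataFin_1728_perm, A.dataInf_perm⟩

end AnalyticCore

end Fermat.Agent.S24.H997

end
end
-- ===== PACK-END S24/Mod/H997Core.lean

-- ===== PACK-BEGIN S24/Inf/HNF.lean
section




/-!
# S24 / MOD-INF — Hermite normal form of `diag(d,1)·γ` and its action on `ℍ`
-/

set_option autoImplicit false

noncomputable section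

open UpperHalfPlane Complex Matrix
open scoped MatrixGroups

namespace Fermat.Agent.S24

theorem inf_sl_det (γ : SL(2, ℤ)) : γ 0 0 * γ 1 1 - γ 0 1 * γ 1 0 = 1 := by
  have := γ.det_coe
  rw [Matrix.det_fin_two] at this
  exact this

/-- **Hermite normal form.** For `γ ∈ SL₂(ℤ)` and `d > 0` there are `γ' ∈ SL₂(ℤ)` and an upper
triangular matrix `[[a,b],[0,d']]`, `a d' = d`, with `diag(d,1)·γ = γ'·[[a,b],[0,d']]`
(written entrywise). -/
theorem inf_exists_hnf (d : ℕ) (hd : 0 < d) (γ : SL(2, ℤ)) :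
    ∃ (γ' : SL(2, ℤ)) (a d' : ℕ) (b : ℤ), 0 < a ∧ 0 < d' ∧ a * d' = d ∧
      (d : ℤ) * γ 0 0 = γ' 0 0 * a ∧ (d : ℤ) * γ 0 1 = γ' 0 0 * b + γ' 0 1 * d' ∧
      γ 1 0 = γ' 1 0 * a ∧ γ 1 1 = γ' 1 0 * b + γ' 1 1 * d' := by
  have hdet := inf_sl_det γ
  generalize γ 0 0 = p at hdet ⊢
  generalize γ 0 1 = q at hdet ⊢
  generalize γ 1 0 = r at hdet ⊢
  generalize γ 1 1 = s at hdet ⊢
  have hgpos : 0 < Int.gcd (d : ℤ) r := Int.gcd_pos_of_ne_zero_left _ (by exact_mod_cast hd.ne')
  obtain ⟨d₁, r₁, hcop, hd₁, hr₁⟩ := Int.exists_gcd_one hgpos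
  generalize Int.gcd (d : ℤ) r = a at hgpos hd₁ hr₁
  have ha0 : (0 : ℤ) < a := by exact_mod_cast hgpos
  have hd0 : (0 : ℤ) < d := by exact_mod_cast hd
  have hd₁pos : 0 < d₁ := by
    by_contra h
    rw [not_lt] at h
    have : d₁ * (a : ℤ) ≤ 0 := mul_nonpos_of_nonpos_of_nonneg h ha0.le
    omega
  -- coprimality of the first column
  have hc1 : IsCoprime d₁ r₁ := Int.isCoprime_iff_gcd_eq_one.mpr hcop
  have hc2 : IsCoprime p r₁ := by
    refine ⟨s, -(q * a), ?_⟩
    rw [hr₁] at hdet
    linear_combination hdet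
  have hc3 : IsCoprime (d₁ * p) r₁ := hc1.mul_left hc2
  obtain ⟨v, u', hbez⟩ := hc3
  -- `v * (d₁ p) + u' * r₁ = 1`; the new matrix is `[[d₁ p, -u'], [r₁, v]]`
  refine ⟨⟨!![d₁ * p, -u'; r₁, v], by rw [Matrix.det_fin_two_of]; linear_combination hbez⟩,
    a, d₁.toNat, v * (d : ℤ) * q + u' * s, hgpos, by omega, ?_, ?_, ?_, ?_, ?_⟩
  · have : ((a * d₁.toNat : ℕ) : ℤ) = (d : ℤ) := by
      push_cast
      rw [Int.toNat_of_nonneg hd₁pos.le, hd₁]
      ring
    exact_mod_cast this
  · simp only [Matrix.of_apply, Matrix.cons_val', Matrix.cons_val_zero, Matrix.cons_val_fin_one]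
    rw [hd₁]; ring
  · simp only [Matrix.of_apply, Matrix.cons_val', Matrix.cons_val_zero, Matrix.cons_val_one,
      Matrix.cons_val_fin_one, Int.toNat_of_nonneg hd₁pos.le]
    rw [hr₁] at hdet
    rw [hd₁]
    linear_combination (-(a * d₁ * q) : ℤ) * hbez + (-(d₁ * u') : ℤ) * hdet
  · simp only [Matrix.of_apply, Matrix.cons_val', Matrix.cons_val_zero, Matrix.cons_val_one,
      Matrix.cons_val_fin_one]
    exact hr₁
  · simp only [Matrix.of_apply, Matrix.cons_val', Matrix.cons_val_zero, Matrix.cons_val_one,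
      Matrix.cons_val_fin_one, Int.toNat_of_nonneg hd₁pos.le]
    rw [hr₁] at hdet
    rw [hd₁]
    linear_combination (-s : ℤ) * hbez + (v * d₁ : ℤ) * hdet

theorem inf_sl_denom_ne_zero (γ : SL(2, ℤ)) (τ : ℍ) :
    ((γ 1 0 : ℤ) : ℂ) * τ + ((γ 1 1 : ℤ) : ℂ) ≠ 0 := by
  have h := UpperHalfPlane.denom_ne_zero (γ : GL (Fin 2) ℝ) τ
  simpa [UpperHalfPlane.denom] using h

theorem inf_sl_smul_coe (γ : SL(2, ℤ)) (τ : ℍ) :
    ((γ • τ : ℍ) : ℂ) = (((γ 0 0 : ℤ) : ℂ) * τ + ((γ 0 1 : ℤ) : ℂ)) /
      (((γ 1 0 : ℤ) : ℂ) * τ + ((γ 1 1 : ℤ) : ℂ)) := by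
  rw [UpperHalfPlane.coe_specialLinearGroup_apply]
  simp

/-- The matrix identity `diag(d,1)·γ = γ'·[[a,b],[0,d']]` on the level of `ℍ`. -/
theorem inf_aff_smul_eq {d a d' : ℕ} {b : ℤ} (hd : 0 < d) (ha : 0 < a) (hd' : 0 < d')
    (γ γ' : SL(2, ℤ))
    (h00 : (d : ℤ) * γ 0 0 = γ' 0 0 * a) (h01 : (d : ℤ) * γ 0 1 = γ' 0 0 * b + γ' 0 1 * d')
    (h10 : γ 1 0 = γ' 1 0 * a) (h11 : γ 1 1 = γ' 1 0 * b + γ' 1 1 * d') (τ : ℍ) :
    infAff d 0 1 (γ • τ) = γ' • infAff a b d' τ := by
  apply UpperHalfPlane.ext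
  rw [infAff_coe hd one_pos, inf_sl_smul_coe γ' (infAff a b d' τ), infAff_coe ha hd',
    inf_sl_smul_coe γ τ]
  have hden := inf_sl_denom_ne_zero γ τ
  have hden' := inf_sl_denom_ne_zero γ' (infAff a b d' τ)
  rw [infAff_coe ha hd'] at hden'
  have hd'0 : (d' : ℂ) ≠ 0 := by exact_mod_cast hd'.ne'
  have e00 : (d : ℂ) * ((γ 0 0 : ℤ) : ℂ) = ((γ' 0 0 : ℤ) : ℂ) * a := by exact_mod_cast h00
  have e01 : (d : ℂ) * ((γ 0 1 : ℤ) : ℂ) = ((γ' 0 0 : ℤ) : ℂ) * b + ((γ' 0 1 : ℤ) : ℂ) * d' := by
    exact_mod_cast h01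
  have e10 : ((γ 1 0 : ℤ) : ℂ) = ((γ' 1 0 : ℤ) : ℂ) * a := by exact_mod_cast h10
  have e11 : ((γ 1 1 : ℤ) : ℂ) = ((γ' 1 0 : ℤ) : ℂ) * b + ((γ' 1 1 : ℤ) : ℂ) * d' := by
    exact_mod_cast h11
  have hden'' : ((γ' 1 0 : ℤ) : ℂ) * (((a : ℂ) * τ + b) / d') + ((γ' 1 1 : ℤ) : ℂ) =
      (((γ 1 0 : ℤ) : ℂ) * τ + ((γ 1 1 : ℤ) : ℂ)) / d' := by
    rw [e10, e11]
    field_simp
    ring
  have hnum : ((γ' 0 0 : ℤ) : ℂ) * (((a : ℂ) * τ + b) / d') + ((γ' 0 1 : ℤ) : ℂ) =
      ((d : ℂ) * (((γ 0 0 : ℤ) : ℂ) * τ + ((γ 0 1 : ℤ) : ℂ))) / d' := by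
    rw [mul_add, ← mul_assoc, e00, e01]
    field_simp
    ring
  rw [hnum, hden'']
  field_simp
  simp

end Fermat.Agent.S24

end
end
-- ===== PACK-END S24/Inf/HNF.lean

-- ===== PACK-BEGIN S24/Count/H324Interface.lean
section




/-!
# S24 — COUNT interface, exact frozen shapes (helper324)

The four COUNT interface theorems of `Fermat/Agent/S24/Count.lean` (skeleton of helper984),
proved in the exact shapes `numOrbits (permOf N g)`, assembled from

* `Fermat.Agent.S20.Comb694` (helper694): index of `Γ₀(N)`, fixed points and orbit counts of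
  `S` and `S * T`;
* `Fermat.Agent.S20.CuspCount360` (helper360): orbits of `T`.

The only new ingredient is the bridge between orbits of the cyclic group generated by the
permutation `MulAction.toPerm g` and orbits of the cyclic group generated by `g`.
-/

set_option autoImplicit false

noncomputable section

open ModularCurve MulAction Subgroup
open scoped MatrixGroups

namespace Fermat.Agent.S24.H324

section Bridge

variable {G X : Type*} [Group G] [MulAction G X]

/-- The orbit relation of `⟨toPerm g⟩ ≤ Perm X` is the orbit relation of `⟨g⟩ ≤ G`. -/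
theorem orbitRel_zpowers_toPerm (g : G) :
    orbitRel (zpowers (MulAction.toPerm g : Equiv.Perm X)) X = orbitRel (zpowers g) X := by
  ext x y
  simp only [orbitRel_apply]
  constructor
  · rintro ⟨⟨π, hπ⟩, rfl⟩
    obtain ⟨k, rfl⟩ := Subgroup.mem_zpowers_iff.mp hπ
    refine ⟨⟨g ^ k, zpow_mem_zpowers g k⟩, ?_⟩
    have h : (MulAction.toPerm g : Equiv.Perm X) ^ k = MulAction.toPerm (g ^ k) :=
      (map_zpow (MulAction.toPermHom G X) g k).symm
    change g ^ k • y = ((MulAction.toPerm g : Equiv.Perm X) ^ k) y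
    rw [h]
    rfl
  · rintro ⟨⟨h, hh⟩, rfl⟩
    obtain ⟨k, rfl⟩ := Subgroup.mem_zpowers_iff.mp hh
    refine ⟨⟨(MulAction.toPerm g : Equiv.Perm X) ^ k, zpow_mem_zpowers _ k⟩, ?_⟩
    have h : (MulAction.toPerm g : Equiv.Perm X) ^ k = MulAction.toPerm (g ^ k) :=
      (map_zpow (MulAction.toPermHom G X) g k).symm
    change ((MulAction.toPerm g : Equiv.Perm X) ^ k) y = g ^ k • y
    rw [h]
    rfl

/-- `numOrbits (toPerm g)` is the number of orbits of the cyclic group generated by `g`. -/
theorem numOrbits_toPerm (g : G) :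
    numOrbits (MulAction.toPerm g : Equiv.Perm X)
      = Nat.card (orbitRel.Quotient (zpowers g) X) := by
  unfold numOrbits
  refine Nat.card_congr (Quotient.congr (Equiv.refl X) ?_)
  intro x y
  have h := orbitRel_zpowers_toPerm (X := X) g
  exact iff_of_eq (congrArg (fun s : Setoid X => s x y) h)

/-- `numOrbits` only depends on the cyclic group generated by the permutation. -/
theorem numOrbits_congr_zpowers {π π' : Equiv.Perm X} (h : zpowers π = zpowers π') :
    numOrbits π = numOrbits π' := by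
  unfold numOrbits
  rw [h]

/-- A permutation and its inverse have the same number of orbits. -/
theorem numOrbits_inv (π : Equiv.Perm X) : numOrbits π⁻¹ = numOrbits π :=
  numOrbits_congr_zpowers zpowers_inv

/-- `g⁻¹` and `g` have the same number of orbits. -/
theorem numOrbits_toPerm_inv (g : G) :
    numOrbits (MulAction.toPerm g⁻¹ : Equiv.Perm X)
      = numOrbits (MulAction.toPerm g : Equiv.Perm X) := by
  have h : (MulAction.toPerm g⁻¹ : Equiv.Perm X) = (MulAction.toPerm g : Equiv.Perm X)⁻¹ :=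
    map_inv (MulAction.toPermHom G X) g
  rw [h, numOrbits_inv]

/-- Conjugate elements have the same number of orbits. -/
theorem numOrbits_toPerm_conj (g h : G) :
    numOrbits (MulAction.toPerm (h * g * h⁻¹) : Equiv.Perm X)
      = numOrbits (MulAction.toPerm g : Equiv.Perm X) := by
  rw [numOrbits_toPerm, numOrbits_toPerm]
  refine Nat.card_congr (Quotient.congr (MulAction.toPerm h⁻¹) ?_)
  intro x y
  change x ∈ MulAction.orbit (zpowers (h * g * h⁻¹)) y ↔
    (h⁻¹ • x) ∈ MulAction.orbit (zpowers g) (h⁻¹ • y)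
  constructor
  · rintro ⟨⟨u, hu⟩, rfl⟩
    obtain ⟨k, rfl⟩ := Subgroup.mem_zpowers_iff.mp hu
    refine ⟨⟨g ^ k, zpow_mem_zpowers g k⟩, ?_⟩
    change g ^ k • h⁻¹ • y = h⁻¹ • ((h * g * h⁻¹) ^ k • y)
    have : (h * g * h⁻¹) ^ k = h * g ^ k * h⁻¹ := by
      rw [← conj_zpow]
    rw [this, smul_smul, smul_smul]
    congr 1
    group
  · rintro ⟨⟨u, hu⟩, hxy⟩
    obtain ⟨k, rfl⟩ := Subgroup.mem_zpowers_iff.mp hu
    refine ⟨⟨(h * g * h⁻¹) ^ k, zpow_mem_zpowers _ k⟩, ?_⟩
    change (h * g * h⁻¹) ^ k • y = x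
    have hxy' : g ^ k • h⁻¹ • y = h⁻¹ • x := hxy
    have : (h * g * h⁻¹) ^ k = h * g ^ k * h⁻¹ := by
      rw [← conj_zpow]
    rw [this, mul_smul, mul_smul, hxy', smul_inv_smul]

end Bridge

variable (N : ℕ)

theorem numOrbits_permOf (g : SL(2, ℤ)) :
    numOrbits (permOf N g)
      = Nat.card (orbitRel.Quotient (zpowers g) (SL(2, ℤ) ⧸ CongruenceSubgroup.Gamma0 N)) :=
  numOrbits_toPerm g

theorem card_XX : Nat.card (XX N) = dedekindPsi N :=
  Fermat.Agent.S20.Comb694.card_quotient_Gamma0 N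

theorem numOrbits_permOf_inv (g : SL(2, ℤ)) :
    numOrbits (permOf N g⁻¹) = numOrbits (permOf N g) :=
  numOrbits_toPerm_inv g

theorem numOrbits_permOf_conj (g h : SL(2, ℤ)) :
    numOrbits (permOf N (h * g * h⁻¹)) = numOrbits (permOf N g) :=
  numOrbits_toPerm_conj g h

variable [NeZero N]

theorem two_mul_numOrbits_S :
    2 * numOrbits (permOf N ModularGroup.S) = dedekindPsi N + nuTwo N := by
  rw [numOrbits_permOf]
  exact Fermat.Agent.S20.Comb694.two_mul_card_orbits_S N

theorem three_mul_numOrbits_ST :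
    3 * numOrbits (permOf N (ModularGroup.S * ModularGroup.T))
      = dedekindPsi N + 2 * nuThree N := by
  rw [numOrbits_permOf]
  exact Fermat.Agent.S20.Comb694.three_mul_card_orbits_ST N

theorem numOrbits_T : numOrbits (permOf N ModularGroup.T) = cuspCount N := by
  rw [numOrbits_permOf]
  exact Fermat.Agent.S20.CuspCount360.card_orbits_T N

end Fermat.Agent.S24.H324

end
end
-- ===== PACK-END S24/Count/H324Interface.lean

-- ===== PACK-BEGIN Lib/HI/H864/RelAbstract.lean
section



/-!
# Lib / HI (helper864): places over a principal maximal ideal, abstract form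

`R ⊆ S` Dedekind domains (`R` any domain for the first part), `S` finite over `R`, `F = Frac S`,
`p = (τ)` a maximal ideal of `R`.  The places `v` of `F / K` whose valuation ring contains `R` and
with `0 < v(τ)` are exactly the places `placeOf q` attached to the primes `q` of `S` over `p`.
Consequences: sums over these places are sums over `p.primesOver S`.
-/

set_option autoImplicit false
set_option linter.unusedSectionVars false
set_option linter.style.haveILetI false
set_option linter.unusedVariables false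

noncomputable section

open AlgebraicCurve IsDedekindDomain

namespace Fermat.Agent.Lib.HI.H864

open Fermat.Agent.S24 Fermat.Agent.S24.H864

section Rel

variable {K F : Type*} [Field K] [Field F] [Algebra K F]
variable {S : Type*} [CommRing S] [IsDedekindDomain S] [Algebra S F] [IsFractionRing S F]
  [Algebra K S] [IsScalarTower K S F]
variable {R : Type*} [CommRing R] [IsDomain R] [Algebra R S] [Algebra R F] [IsScalarTower R S F]
  [Module.Finite R S]
variable (p : Ideal R) [hpmax : p.IsMaximal] (τ : R)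

/-- the place of `F` attached to a prime of `S` over `p` -/
def placeOf (hp : p = Ideal.span {τ}) (hτ : τ ≠ 0)
    (hinj : Function.Injective (algebraMap R S)) (q : p.primesOver S) : Place K F :=
  Place.ofHeightOneSpectrum (K := K) (wOf p τ hp hτ hinj q)

omit hpmax [Module.Finite R S] in
theorem placeOf_injective (hp : p = Ideal.span {τ}) (hτ : τ ≠ 0)
    (hinj : Function.Injective (algebraMap R S)) :
    Function.Injective (placeOf (K := K) (F := F) p τ hp hτ hinj) := by
  intro q q' h
  have h1 : wOf p τ hp hτ hinj q = wOf p τ hp hτ hinj q' :=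
    ofHeightOneSpectrum_injective (K := K) (F := F) h
  exact Subtype.ext (congrArg HeightOneSpectrum.asIdeal h1)

omit hpmax [Module.Finite R S] in
theorem ord_placeOf_tau (hp : p = Ideal.span {τ}) (hτ : τ ≠ 0)
    (hinj : Function.Injective (algebraMap R S)) (q : p.primesOver S) :
    (placeOf (K := K) (F := F) p τ hp hτ hinj q).ord (algebraMap R F τ)
      = (q.1.ramificationIdx R : ℤ) :=
  ord_wOf p τ hp hτ hinj q

omit hpmax [Module.Finite R S] in
theorem ord_placeOf_algebraMap (hp : p = Ideal.span {τ}) (hτ : τ ≠ 0)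
    (hinj : Function.Injective (algebraMap R S)) (q : p.primesOver S) {a : S} (ha : a ≠ 0) :
    (placeOf (K := K) (F := F) p τ hp hτ hinj q).ord (algebraMap S F a)
      = (multiplicity q.1 (Ideal.span {a}) : ℤ) :=
  ord_ofHeightOneSpectrum_algebraMap (K := K) (F := F) (wOf p τ hp hτ hinj q) ha

omit hpmax [Module.Finite R S] in
theorem algebraMap_mem_placeOf (hp : p = Ideal.span {τ}) (hτ : τ ≠ 0)
    (hinj : Function.Injective (algebraMap R S)) (q : p.primesOver S) (a : S) :
    algebraMap S F a ∈ (placeOf (K := K) (F := F) p τ hp hτ hinj q).toValuationSubring := by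
  rw [placeOf, Place.ofHeightOneSpectrum_toValuationSubring, Valuation.mem_valuationSubring_iff]
  exact HeightOneSpectrum.valuation_le_one _ a

theorem exists_placeOf_eq (hp : p = Ideal.span {τ}) (hτ : τ ≠ 0)
    (hinj : Function.Injective (algebraMap R S)) (v : Place K F)
    (hv : 0 < v.ord (algebraMap R F τ))
    (hR : ∀ r : R, algebraMap R F r ∈ v.toValuationSubring) :
    ∃ q : p.primesOver S, placeOf (K := K) (F := F) p τ hp hτ hinj q = v := by
  have hτ' : algebraMap R S τ ≠ 0 := fun h => hτ (hinj (by rw [h, map_zero]))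
  have hS := algebraMap_mem_of_base (S := S) v hR
  have hv' : 0 < v.ord (algebraMap S F (algebraMap R S τ)) := by
    rwa [← IsScalarTower.algebraMap_apply R S F]
  obtain ⟨w, hw, hwq⟩ := exists_heightOneSpectrum_of_place v hS hτ' hv'
  have hle : p ≤ w.asIdeal.under R := by
    rw [hp, Ideal.span_singleton_le_iff_mem, Ideal.under_def, Ideal.mem_comap, hwq]
    exact (mem_primeOfPlace v hS hτ').mpr hv'
  have hne : w.asIdeal.under R ≠ ⊤ := (Ideal.IsPrime.under R w.asIdeal).ne_top
  have hq : w.asIdeal ∈ p.primesOver S := ⟨w.isPrime, ⟨hpmax.eq_of_le hne hle⟩⟩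
  refine ⟨⟨w.asIdeal, hq⟩, ?_⟩
  rw [← hw]
  show Place.ofHeightOneSpectrum (K := K) (wOf p τ hp hτ hinj ⟨w.asIdeal, hq⟩) = _
  congr 1

/-- The places over `p` are the image of `placeOf`. -/
theorem image_placeOf [Fintype (p.primesOver S)] [DecidableEq (Place K F)]
    (hp : p = Ideal.span {τ}) (hτ : τ ≠ 0)
    (hinj : Function.Injective (algebraMap R S))
    (s : Finset (Place K F))
    (hs : ∀ v, v ∈ s ↔ (0 < v.ord (algebraMap R F τ) ∧
      ∀ r : R, algebraMap R F r ∈ v.toValuationSubring)) :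
    Finset.univ.image (placeOf (K := K) (F := F) p τ hp hτ hinj) = s := by
  ext v
  rw [Finset.mem_image, hs]
  constructor
  · rintro ⟨q, -, rfl⟩
    refine ⟨?_, fun r => ?_⟩
    · rw [ord_placeOf_tau]
      exact_mod_cast Ideal.ramificationIdx_pos q.1 R
    · rw [IsScalarTower.algebraMap_apply R S F]
      exact algebraMap_mem_placeOf p τ hp hτ hinj q _
  · rintro ⟨hv, hR⟩
    obtain ⟨q, hq⟩ := exists_placeOf_eq p τ hp hτ hinj v hv hR
    exact ⟨q, Finset.mem_univ _, hq⟩

/-- Sums over the places over `p` are sums over `p.primesOver S`. -/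
theorem sum_places_eq_sum_primesOver [Fintype (p.primesOver S)]
    (hp : p = Ideal.span {τ}) (hτ : τ ≠ 0)
    (hinj : Function.Injective (algebraMap R S))
    (s : Finset (Place K F))
    (hs : ∀ v, v ∈ s ↔ (0 < v.ord (algebraMap R F τ) ∧
      ∀ r : R, algebraMap R F r ∈ v.toValuationSubring))
    (h : Place K F → ℤ) :
    ∑ v ∈ s, h v = ∑ q : p.primesOver S, h (placeOf (K := K) (F := F) p τ hp hτ hinj q) := by
  classical
  rw [← image_placeOf p τ hp hτ hinj s hs,
    Finset.sum_image (fun a _ b _ hab => placeOf_injective p τ hp hτ hinj hab)]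

section Main

variable [IsAlgClosed K] [Algebra K R] [IsScalarTower K R S] [Module.Flat R S]

/-- **Relative fundamental identity, abstract form.** -/
theorem sum_ord_tau_eq_finrank
    (hp : p = Ideal.span {τ}) (hτ : τ ≠ 0) (hinj : Function.Injective (algebraMap R S))
    (hres : ∀ r : R, ∃ c : K, r - algebraMap K R c ∈ p)
    (s : Finset (Place K F))
    (hs : ∀ v, v ∈ s ↔ (0 < v.ord (algebraMap R F τ) ∧
      ∀ r : R, algebraMap R F r ∈ v.toValuationSubring)) :
    ∑ v ∈ s, v.ord (algebraMap R F τ) = (Module.finrank R S : ℤ) := by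
  classical
  haveI : Fintype (p.primesOver S) := (Algebra.QuasiFinite.finite_primesOver p).fintype
  have hsum := Ideal.sum_ramification_inertia_eq_finrank p S
  rw [sum_places_eq_sum_primesOver p τ hp hτ hinj s hs, ← hsum]
  push_cast
  refine Finset.sum_congr rfl fun q _ => ?_
  rw [ord_placeOf_tau, inertiaDeg_eq_one p hres q, Nat.cast_one, mul_one]

end Main

end Rel

section Norm

variable {K F : Type*} [Field K] [Field F] [Algebra K F]
variable {S : Type*} [CommRing S] [IsDedekindDomain S] [Algebra S F] [IsFractionRing S F]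
  [Algebra K S] [IsScalarTower K S F]
variable {R : Type*} [CommRing R] [IsDedekindDomain R] [Algebra R S] [Algebra R F]
  [IsScalarTower R S F] [Module.Finite R S] [Module.IsTorsionFree R S]
  [PerfectField (FractionRing R)]
variable [IsAlgClosed K] [Algebra K R] [IsScalarTower K R S]
variable (p : Ideal R) [hpmax : p.IsMaximal] (τ : R)

/-- **Norm formula, abstract form**: the sum of the orders of `a ∈ S` at the places over `p`
is the multiplicity of `p` in the ideal generated by the norm of `a`. -/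
theorem sum_ord_eq_multiplicity_intNorm
    (hp : p = Ideal.span {τ}) (hτ : τ ≠ 0) (hinj : Function.Injective (algebraMap R S))
    (hres : ∀ r : R, ∃ c : K, r - algebraMap K R c ∈ p)
    (s : Finset (Place K F))
    (hs : ∀ v, v ∈ s ↔ (0 < v.ord (algebraMap R F τ) ∧
      ∀ r : R, algebraMap R F r ∈ v.toValuationSubring))
    {a : S} (ha : a ≠ 0) :
    ∑ v ∈ s, v.ord (algebraMap S F a)
      = (multiplicity p (Ideal.span {Algebra.intNorm R S a}) : ℤ) := by
  classical
  haveI : Fintype (p.primesOver S) := (Algebra.QuasiFinite.finite_primesOver p).fintype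
  have hp0 : p ≠ ⊥ := by
    rw [hp, Ne, Ideal.span_singleton_eq_bot]
    exact hτ
  have hI : Ideal.span {a} ≠ (⊥ : Ideal S) := by
    rw [Ne, Ideal.span_singleton_eq_bot]
    exact ha
  rw [sum_places_eq_sum_primesOver p τ hp hτ hinj s hs, ← Ideal.relNorm_singleton,
    multiplicity_relNorm_eq_sum p hp0 _ hI]
  push_cast
  refine Finset.sum_congr rfl fun q _ => ?_
  rw [ord_placeOf_algebraMap p τ hp hτ hinj q ha, inertiaDeg_eq_one p hres q, Nat.cast_one,
    one_mul]

end Norm

end Fermat.Agent.Lib.HI.H864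

end
end
-- ===== PACK-END Lib/HI/H864/RelAbstract.lean

-- ===== PACK-BEGIN S24/H864/FF3d.lean
section



/-!
# S24 / ALG / FF1+FF3 (part d): the fundamental identity `∑_{v(t)>0} v(t) = [F : K(t)]`
-/

set_option autoImplicit false

noncomputable section

open AlgebraicCurve IntermediateField IsDedekindDomain
open scoped IntermediateField.algebraAdjoinAdjoin

namespace Fermat.Agent.S24.H864

variable {K F : Type*} [Field K] [Field F] [Algebra K F]

section Inst

variable (K) (t : F)

theorem polyRing_isPrincipalIdealRing (ht : Transcendental K t) :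
    IsPrincipalIdealRing (polyRing K t) :=
  IsPrincipalIdealRing.of_surjective (polyEquiv K t ht).toAlgHom.toRingHom
    (polyEquiv K t ht).surjective

theorem tR_ne_zero (ht : Transcendental K t) : tR K t ≠ 0 := by
  intro h
  have h1 : t = 0 := congrArg Subtype.val h
  rw [h1] at ht
  exact ht (isAlgebraic_zero)

theorem tR_prime (ht : Transcendental K t) : Prime (tR K t) := by
  rw [← polyEquiv_X K t ht]
  exact (MulEquiv.prime_iff (polyEquiv K t ht).toMulEquiv).mpr Polynomial.prime_X

theorem exists_sub_mem_span_tR (ht : Transcendental K t) (r : polyRing K t) :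
    ∃ c : K, r - algebraMap K (polyRing K t) c ∈ Ideal.span {tR K t} := by
  obtain ⟨P, rfl⟩ := (polyEquiv K t ht).surjective r
  refine ⟨P.coeff 0, ?_⟩
  rw [Ideal.mem_span_singleton']
  refine ⟨polyEquiv K t ht P.divX, ?_⟩
  rw [← polyEquiv_X K t ht, ← map_mul, ← AlgEquiv.commutes (polyEquiv K t ht), ← map_sub]
  congr 1
  conv_rhs => rw [← Polynomial.divX_mul_X_add P]
  simp [Polynomial.algebraMap_eq]

theorem coe_mem_valuationSubring_of_ord_nonneg (v : Place K F) (hv : 0 ≤ v.ord t)
    (r : polyRing K t) : (r : F) ∈ v.toValuationSubring := by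
  obtain ⟨r, hr⟩ := r
  show r ∈ v.toValuationSubring
  induction hr using Algebra.adjoin_induction with
  | mem x hx =>
      rw [Set.mem_singleton_iff] at hx
      rw [hx]
      exact (FF.mem_iff_ord_nonneg v).mpr hv
  | algebraMap c => exact v.algebraMap_mem' c
  | add x y _ _ hx hy => exact add_mem hx hy
  | mul x y _ _ hx hy => exact mul_mem hx hy

end Inst

section Main

variable [IsAlgClosed K] [CharZero K]

/-- **Fundamental identity (FF1).**  For `t` transcendental over `K` with `F / K(t)` finite,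
the zeros of `t`, counted with multiplicity, are `[F : K(t)]` in number. -/
theorem fundamental_identity (t : F) (ht : Transcendental K t)
    [FiniteDimensional ↥(IntermediateField.adjoin K {t}) F]
    (s : Finset (Place K F)) (hs : ∀ v : Place K F, v ∈ s ↔ 0 < v.ord t) :
    ∑ v ∈ s, v.ord t = (Module.finrank ↥(IntermediateField.adjoin K {t}) F : ℤ) := by
  haveI : IsPrincipalIdealRing (polyRing K t) := polyRing_isPrincipalIdealRing K t ht
  haveI : IsScalarTower (polyRing K t) (integralClosure (polyRing K t) F) F :=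
    Subalgebra.isScalarTower_mid _
  haveI : IsFractionRing (integralClosure (polyRing K t) F) F :=
    integralClosure.isFractionRing_of_finite_extension K⟮t⟯ F
  haveI : IsDedekindDomain (integralClosure (polyRing K t) F) :=
    IsIntegralClosure.isDedekindDomain (polyRing K t) K⟮t⟯ F (integralClosure (polyRing K t) F)
  haveI : Module.Finite (polyRing K t) (integralClosure (polyRing K t) F) :=
    IsIntegralClosure.finite (polyRing K t) K⟮t⟯ F (integralClosure (polyRing K t) F)
  have hfin : Module.finrank K⟮t⟯ F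
      = Module.finrank (polyRing K t) (integralClosure (polyRing K t) F) :=
    IsFractionRing.finrank_eq (polyRing K t) K⟮t⟯ (integralClosure (polyRing K t) F) F
  have hprime : (Ideal.span {tR K t}).IsPrime :=
    (Ideal.span_singleton_prime (tR_ne_zero K t ht)).mpr (tR_prime K t ht)
  have hne : Ideal.span {tR K t} ≠ ⊥ := by
    rw [Ne, Ideal.span_singleton_eq_bot]
    exact tR_ne_zero K t ht
  haveI hmax : (Ideal.span {tR K t}).IsMaximal := hprime.isMaximal hne
  have hinj : Function.Injective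
      (algebraMap (polyRing K t) (integralClosure (polyRing K t) F)) := by
    intro a b hab
    have := congrArg (algebraMap (integralClosure (polyRing K t) F) F) hab
    rw [← IsScalarTower.algebraMap_apply, ← IsScalarTower.algebraMap_apply] at this
    exact Subtype.ext this
  rw [hfin]
  exact fundamental_identity_abstract (K := K) (F := F)
    (S := integralClosure (polyRing K t) F) (R := polyRing K t)
    (Ideal.span {tR K t}) (tR K t) rfl (tR_ne_zero K t ht) hinj
    (exists_sub_mem_span_tR K t ht)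
    (fun v hv r => coe_mem_valuationSubring_of_ord_nonneg K t v hv.le r) s hs

end Main

end Fermat.Agent.S24.H864

end
end
-- ===== PACK-END S24/H864/FF3d.lean

-- ===== PACK-BEGIN Ribet/H764/I3Spec.lean
section





/-!
# Row 38, WALL-p, leaf I3 = W-R3P ("forms from holomorphic differentials mod `p`")
  (sub-architect helper764; frozen interface, Props + proved glue)

Situation ((S3) of `H944.Wall.AtPFiltrationStatement`): `x ∈ 𝓕 ∖ 𝒮` is a new Hecke eigenclass of
`J₀(pM')[p]`, `x ↔ f` with `div f = p·D`.  On a component `C ≅ X₀(M')_k` of the special fibre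
(`k` = residue field at `A`, characteristic `p`, `p ∤ M'`) the reduction `h = red_V f` lies in
`F_k = modularFunctionFieldFullC k M' ⊆ k((q))` (reduction of `q`-expansions), has
`p ∣ ord_Q h` at EVERY place `Q` of `F_k` (slopes zero) and is not a constant times a `p`-th power
(`x ∉ 𝒮`), i.e. `θh ≠ 0` (`θ = q d/dq`).  So `g := θh / h ∈ k⟦q⟧` is the `q`-expansion of the
nonzero HOLOMORPHIC differential `dh/h = g·dq/q` of `X₀(M')_k`, and it is a `T_ℓ`-eigenvector with
eigenvalue `a_ℓ` (trace of `dlog` = `dlog` of the norm).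

**I3 (`R3PStatement`)**: then `a` is the eigensystem of a normalised eigenform of level `M'`
modulo a prime over `p` (`H944.Wall.Lowered`, branch `EigenAway`; R3S is NOT used).

Everything is stated on `q`-series, independent of the model language:

* `IsDlog h g`            : `g·h = θh` in `k((q))`;
* `IsEigenSeries M S a g` : `c_{nℓ}(g) + ℓ·c_{n/ℓ}(g) = a_ℓ·c_n(g)` for primes `ℓ ∤ M`, `ℓ ∉ S`
                            (weight-2 `T_ℓ` on `q`-expansions, `ModularForm.coeffHeckeT`);
* `redForms k M`          : the `k`-span in `k⟦q⟧` of the reductions of the `q`-expansions of the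
                            cusp forms of level `M` with integral `q`-expansion
                            (= mod-`p` cusp forms à la Serre);
* `FormsModP M p S a`     : FORMS interface in lattice terms: `f ∈ L ∖ pL`,
                            `T_ℓ f - a_ℓ f ∈ pL` off `S`  (`L = CuspForm.intLattice M 2`).

## Leaves
* `LiftStatement`  (L1, algebra, Deligne-Serre `Lib/Ribet/H584`): `FormsModP ⇒ EigenAway`.
* `DescStatement`  (L2, linear algebra, descent `k → 𝔽_p`): an eigen-series in `redForms k M`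
                   gives `FormsModP`.
* `LogDiffFormsStatement` (GEO, the geometric heart): `dlog h ∈ redForms k M`.  It splits into
  - `IncStatement`   (INC): reductions of integral forms are holomorphic differentials of `F_k`
                     (`q`-expansion principle; needs the good reduction of `X₀(M)` at `p`, Tower A);
  - `DimStatement`   (DIMK): holomorphic differentials of `F_k` have dimension `≤ dim S₂(Γ₀(M))`
                     (Riemann-Roch over `k` + `genus(F_k) ≤ genus(F_ℚ̄)` + S20/S24);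
  - `RankStatement`  (RANK): `dim_k redForms k M = dim_ℂ S₂(Γ₀(M))` (S23 + saturation);
  - `LogHolStatement`(LOGHOL): `dh/h` is holomorphic when `p ∣ div h` (local computation).
* PROVED here: `r3p_of : Lift → Desc → LogDiffForms → R3PStatement`.
  (`logDiffForms_of : Inc → Dim → Rank → LogHol → LogDiffForms` is in `I3Glue.lean`.)
-/

set_option autoImplicit false

open CuspForm ModularFormClass ModularCurve AlgebraicCurve

namespace Fermat.Agent.Ribet.H764.I3

open Fermat.Agent.Ribet.H944.Wall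

/-! ## Vocabulary -/

/-- `h' = θ h`, `θ = q d/dq` on `k((q))`. -/
def IsTheta {k : Type} [Field k] (h h' : LaurentSeries k) : Prop :=
  ∀ n : ℤ, h'.coeff n = (n : k) * h.coeff n

/-- `g = θh / h`: `g·dq/q` is the logarithmic differential `dh/h`. -/
def IsDlog {k : Type} [Field k] (h : LaurentSeries k) (g : PowerSeries k) : Prop :=
  IsTheta h (HahnSeries.ofPowerSeries ℤ k g * h)

/-- The weight-2 Hecke eigen-relations `T_ℓ g = a_ℓ g` on a `q`-series, for the primes `ℓ ∤ M`,
`ℓ ∉ S`. -/
def IsEigenSeries {k : Type} [Field k] (M : ℕ) (S : Finset ℕ) (a : ℕ → ℤ)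
    (g : PowerSeries k) : Prop :=
  ∀ ℓ : ℕ, ℓ.Prime → ¬ ℓ ∣ M → ℓ ∉ S → ∀ n : ℕ,
    PowerSeries.coeff (n * ℓ) g + (if ℓ ∣ n then (ℓ : k) * PowerSeries.coeff (n / ℓ) g else 0) =
      (a ℓ : k) * PowerSeries.coeff n g

/-- `g ∈ k⟦q⟧` is the reduction of the `q`-expansion of a cusp form of weight 2 and level `M` with
integral `q`-expansion. -/
def IsRedOfForm (k : Type) [Field k] (M : ℕ) (g : PowerSeries k) : Prop :=
  ∃ (f : CuspForm (CongruenceSubgroup.Gamma0 M) 2) (c : ℕ → ℤ),
    (∀ n, qCoeff f n = (c n : ℂ)) ∧ ∀ n, PowerSeries.coeff n g = (c n : k)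

/-- Mod-`p` cusp forms of weight 2 and level `M` with coefficients in `k`. -/
def redForms (k : Type) [Field k] (M : ℕ) : Submodule k (PowerSeries k) :=
  Submodule.span k {g | IsRedOfForm k M g}

/-- **FORMS interface.**  The eigensystem `a` (off `S`) is realised on a nonzero element of
`L / pL`, `L = intLattice M 2`. -/
def FormsModP (M p : ℕ) [NeZero M] (S : Finset ℕ) (a : ℕ → ℤ) : Prop :=
  ∃ f ∈ intLattice M 2, (∀ f' ∈ intLattice M 2, f ≠ p • f') ∧
    ∀ (ℓ : ℕ) (hℓ : ℓ.Prime) (hℓM : ¬ ℓ ∣ M), ℓ ∉ S →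
      ∃ f' ∈ intLattice M 2, heckeTLin 2 hℓ hℓM f - a ℓ • f = p • f'

/-- `g·dq/q` is a holomorphic differential of `F = modularFunctionFieldFullC k M`: for every place
`Q` and every uniformiser `t` at `Q`, `g = u·θt` with `u ∈ F` regular at `Q`
(i.e. `g·dq/q = u·dt`). -/
def IsHoloSeries (k : Type) [Field k] (M : ℕ) [NeZero M] (g : PowerSeries k) : Prop :=
  ∀ (Q : Place k (modularFunctionFieldFullC k M)) (t : modularFunctionFieldFullC k M),
    Q.ord t = 1 →
      ∃ (u : modularFunctionFieldFullC k M) (t' : LaurentSeries k),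
        IsTheta (t : LaurentSeries k) t' ∧ u ∈ Q.toValuationSubring ∧
        HahnSeries.ofPowerSeries ℤ k g = (u : LaurentSeries k) * t'

/-! ## The statements -/

/-- **I3 = W-R3P.**  A nonzero logarithmic holomorphic eigen-differential `dh/h` on `X₀(M)_k`
(`p ∣ div h`) gives the eigensystem at level `M`. -/
def R3PStatement : Prop :=
  ∀ (p M : ℕ) [NeZero M], p.Prime → ¬ p ∣ M →
    ∀ (k : Type) [Field k] [IsAlgClosed k] [CharP k p] (S : Finset ℕ) (a : ℕ → ℤ)
      (h : modularFunctionFieldFullC k M), h ≠ 0 →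
      (∀ Q : Place k (modularFunctionFieldFullC k M), (p : ℤ) ∣ Q.ord h) →
      ∀ g : PowerSeries k, IsDlog (h : LaurentSeries k) g → g ≠ 0 → IsEigenSeries M S a g →
        Lowered M p S a

/-- (L1) **LIFT**: Deligne-Serre lifting on the integral lattice. -/
def LiftStatement : Prop :=
  ∀ (p M : ℕ) [NeZero M], p.Prime → ∀ (S : Finset ℕ) (a : ℕ → ℤ),
    FormsModP M p S a → ∃ S' : Finset ℕ, S ⊆ S' ∧ EigenAway M p S' a

/-- (L2) **DESC**: a nonzero eigen-series in `redForms k M` (`char k = p`) gives an eigenvector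
in `L / pL`. -/
def DescStatement : Prop :=
  ∀ (p M : ℕ) [NeZero M], p.Prime → ∀ (k : Type) [Field k] [CharP k p] (S : Finset ℕ)
    (a : ℕ → ℤ) (g : PowerSeries k), g ∈ redForms k M → g ≠ 0 → IsEigenSeries M S a g →
      FormsModP M p S a

/-- (GEO) **the geometric heart**: logarithmic differentials with `p ∣ div h` on `X₀(M)_k`,
`p ∤ M`, are mod-`p` cusp forms. -/
def LogDiffFormsStatement : Prop :=
  ∀ (p M : ℕ) [NeZero M], p.Prime → ¬ p ∣ M →
    ∀ (k : Type) [Field k] [IsAlgClosed k] [CharP k p]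
      (h : modularFunctionFieldFullC k M), h ≠ 0 →
      (∀ Q : Place k (modularFunctionFieldFullC k M), (p : ℤ) ∣ Q.ord h) →
      ∀ g : PowerSeries k, IsDlog (h : LaurentSeries k) g → g ∈ redForms k M

/-- (INC) reductions of integral cusp forms are holomorphic differentials of `X₀(M)_k`. -/
def IncStatement : Prop :=
  ∀ (p M : ℕ) [NeZero M], p.Prime → ¬ p ∣ M →
    ∀ (k : Type) [Field k] [IsAlgClosed k] [CharP k p] (g : PowerSeries k),
      IsRedOfForm k M g → IsHoloSeries k M g

/-- (DIMK) a finite-dimensional space of holomorphic differentials of `X₀(M)_k` has dimension at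
most `dim S₂(Γ₀(M))`. -/
def DimStatement : Prop :=
  ∀ (p M : ℕ) [NeZero M], p.Prime → ¬ p ∣ M →
    ∀ (k : Type) [Field k] [IsAlgClosed k] [CharP k p] (W : Submodule k (PowerSeries k)),
      Module.Finite k W → (∀ g ∈ W, IsHoloSeries k M g) →
        Module.finrank k W ≤ Module.finrank ℂ (CuspForm (CongruenceSubgroup.Gamma0 M) 2)

/-- (RANK) `redForms k M` is finite-dimensional of dimension `dim S₂(Γ₀(M))`. -/
def RankStatement : Prop :=
  ∀ (p M : ℕ) [NeZero M], p.Prime →
    ∀ (k : Type) [Field k] [CharP k p],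
      Module.Finite k (redForms k M) ∧
        Module.finrank k (redForms k M) =
          Module.finrank ℂ (CuspForm (CongruenceSubgroup.Gamma0 M) 2)

/-- (LOGHOL) `dh/h` is holomorphic when `p ∣ div h`. -/
def LogHolStatement : Prop :=
  ∀ (p M : ℕ) [NeZero M], p.Prime → ¬ p ∣ M →
    ∀ (k : Type) [Field k] [IsAlgClosed k] [CharP k p]
      (h : modularFunctionFieldFullC k M), h ≠ 0 →
      (∀ Q : Place k (modularFunctionFieldFullC k M), (p : ℤ) ∣ Q.ord h) →
      ∀ g : PowerSeries k, IsDlog (h : LaurentSeries k) g → IsHoloSeries k M g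

/-! ## Glue -/

/-- **I3 from its leaves.** -/
theorem r3p_of (hL : LiftStatement) (hD : DescStatement) (hG : LogDiffFormsStatement) :
    R3PStatement := by
  intro p M _ hp hpM k _ _ _ S a h h0 hdiv g hg hg0 heig
  obtain ⟨S', hS', hE⟩ :=
    hL p M hp S a (hD p M hp k S a g (hG p M hp hpM k h h0 hdiv g hg) hg0 heig)
  exact ⟨S', hS', Or.inr hE⟩

end Fermat.Agent.Ribet.H764.I3

end
-- ===== PACK-END Ribet/H764/I3Spec.lean

-- ===== PACK-BEGIN Lib/Cheb/H221/Cyc.lean
section











/-!
# CYC (helper221): `PrimeSum + Count + Frob + FrobFinite + DirichletLimit ⇒ CycStatement`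
-/

set_option autoImplicit false

open NumberField IsDedekindDomain Filter Topology

namespace Fermat.Agent.Lib.Cheb.H221

set_option linter.unusedSectionVars false

section logsum

variable {P : Type*} {N : P → ℝ} (hN : ∀ r, 2 ≤ N r)
  (hsum : ∀ s : ℝ, 1 < s → Summable (xs N s)) {c : P → ℂ} (hc : ∀ r, ‖c r‖ ≤ 1)

include hN in
lemma xs_sq_le {s : ℝ} (hs : 1 ≤ s) (r : P) : xs N s r ^ 2 ≤ xs N 2 r := by
  unfold xs
  have hpos : (0 : ℝ) < N r := by linarith [hN r]
  rw [← Real.rpow_natCast, ← Real.rpow_mul hpos.le]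
  apply Real.rpow_le_rpow_of_exponent_le (by linarith [hN r])
  push_cast
  linarith

include hN hsum hc in
lemma norm_logEuler_sub_le {s : ℝ} (hs : 1 < s) :
    ‖logEuler N c s - ∑' r, c r * (xs N s r : ℂ)‖ ≤ ∑' r, xs N 2 r := by
  have h1 : Summable (fun r => c r * (xs N s r : ℂ)) :=
    Summable.of_norm_bounded (hsum s hs) (fun r => norm_z_le hN hc s r)
  unfold logEuler
  rw [← (summable_logFactor hN hsum hc hs).tsum_sub h1]
  refine tsum_of_norm_bounded (hsum 2 (by norm_num)).hasSum (fun r => ?_)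
  exact (norm_logFactor_sub_le hN hc hs.le r).trans (xs_sq_le hN hs.le r)

end logsum

section glue

lemma rpow_neg_le_one (p : Nat.Primes) {s : ℝ} (hs : 0 ≤ s) : (((p : ℕ) : ℝ)) ^ (-s) ≤ 1 :=
  Real.rpow_le_one_of_one_le_of_nonpos (by exact_mod_cast p.2.one_le) (by linarith)

/-- the glue: CYC from its pieces -/
theorem cyc_of_pieces (hEP : EulerProductStatement) (hDEG : TwistedPrimeSumStatement)
    (hABS : AbstractDirichletStatement) (hALG : CycAlgStatement)
    (hZ : Spec.PrimeSumStatement) (hA : Spec.CountStatement) (hD : Spec.FrobStatement)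
    (hM : Spec.FrobFiniteStatement) (hAN : Spec.DirichletLimitStatement) :
    Spec.CycStatement := by
  intro L _ _ _ m ζ hm hζ g hg S
  classical
  have : NeZero m := ⟨hm.ne'⟩
  obtain ⟨hord, B, hSUPP, hSPLIT, hNT, hFIN⟩ := hALG hA hD hM L m ζ hζ g hg
  set a := hζ.autToPow ℚ g with ha
  set c : Nat.Primes → ℝ := fun p => (Spec.primeCount (fixM L g) p : ℝ) with hc
  have hc0 : ∀ p, 0 ≤ c p := fun p => Nat.cast_nonneg _
  have hsumc : ∀ s : ℝ, 1 < s → s ≤ 2 →
      Summable (fun p : Nat.Primes => c p * (p : ℝ) ^ (-s)) :=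
    fun s h1 _ => summable_primeCount (fixM L g) h1
  have hcne : ∀ p : Nat.Primes, c p ≠ 0 → Spec.primeCount (fixM L g) p ≠ 0 := by
    intro p hcp h
    apply hcp
    simp [hc, h]
  have hsupp : ∃ B : Finset ℕ, ∀ p : Nat.Primes, (p : ℕ) ∉ B → c p ≠ 0 →
      ∃ u ∈ Subgroup.zpowers a, ((u : (ZMod m)ˣ) : ZMod m) = ((p : ℕ) : ZMod m) :=
    ⟨B, fun p hpB hcp => hSUPP p p.2 hpB (hcne p hcp)⟩
  have htot : ∃ C : ℝ, ∀ s : ℝ, 1 < s → s ≤ 2 →
      |(∑' p : Nat.Primes, c p * (p : ℝ) ^ (-s)) - Real.log (1 / (s - 1))| ≤ C :=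
    hZ (fixM L g)
  have hone : ∃ C : ℝ, ∀ s : ℝ, 1 < s → s ≤ 2 →
      (Nat.card (Subgroup.zpowers a) : ℝ)⁻¹ * Real.log (1 / (s - 1)) - C ≤
        ∑' p : Nat.Primes, if ((p : ℕ) : ZMod m) = 1 then c p * (p : ℝ) ^ (-s) else 0 := by
    obtain ⟨C', hC'⟩ := hZ (fixBot L)
    set CE : ℝ := ∑ p ∈ primesIn B, (Spec.primeCount (fixBot L) p : ℝ) with hCE
    have hn : (0 : ℝ) < Nat.card (Subgroup.zpowers a) := by exact_mod_cast Nat.card_pos
    refine ⟨(C' + CE) / Nat.card (Subgroup.zpowers a), fun s h1 h2 => ?_⟩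
    set u : Nat.Primes → ℝ :=
      fun p => (Spec.primeCount (fixBot L) p : ℝ) * ((p : ℕ) : ℝ) ^ (-s) with hu
    set v : Nat.Primes → ℝ :=
      fun p => if ((p : ℕ) : ZMod m) = 1 then c p * ((p : ℕ) : ℝ) ^ (-s) else 0 with hv
    have hpw : ∀ p : Nat.Primes, 0 ≤ (((p : ℕ) : ℝ)) ^ (-s) :=
      fun p => Real.rpow_nonneg (Nat.cast_nonneg _) _
    have hv0 : ∀ p, 0 ≤ v p := by
      intro p
      simp only [hv]
      split_ifs
      · exact mul_nonneg (hc0 p) (hpw p)
      · exact le_rfl
    have husum : Summable u := summable_primeCount (fixBot L) h1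
    have hvsum : Summable v := by
      refine Summable.of_nonneg_of_le hv0 (fun p => ?_) (hsumc s h1 h2)
      simp only [hv]
      split_ifs
      · exact le_rfl
      · exact mul_nonneg (hc0 p) (hpw p)
    have hdiff : ∀ p : Nat.Primes, p ∉ primesIn B →
        u p - (Nat.card (Subgroup.zpowers a) : ℝ) * v p = 0 := by
      intro p hp
      rw [mem_primesIn] at hp
      have h3 := hSPLIT p p.2 hp
      simp only [hu, hv, h3, hord, hc]
      split_ifs
      · push_cast
        ring
      · simp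
    have h3 : (∑' p, u p) - (Nat.card (Subgroup.zpowers a) : ℝ) * ∑' p, v p =
        ∑ p ∈ primesIn B, (u p - (Nat.card (Subgroup.zpowers a) : ℝ) * v p) := by
      rw [← tsum_mul_left, ← husum.tsum_sub (hvsum.mul_left _)]
      exact tsum_eq_sum hdiff
    have h4 : ∑ p ∈ primesIn B, (u p - (Nat.card (Subgroup.zpowers a) : ℝ) * v p) ≤ CE := by
      refine Finset.sum_le_sum fun p _ => ?_
      have h5 : u p ≤ (Spec.primeCount (fixBot L) p : ℝ) :=
        mul_le_of_le_one_right (Nat.cast_nonneg _) (rpow_neg_le_one p (by linarith))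
      have h6 : 0 ≤ (Nat.card (Subgroup.zpowers a) : ℝ) * v p := mul_nonneg hn.le (hv0 p)
      linarith
    have h5 := hC' s h1 h2
    rw [abs_le] at h5
    have h6 : Real.log (1 / (s - 1)) - (C' + CE) ≤
        (Nat.card (Subgroup.zpowers a) : ℝ) * ∑' p, v p := by
      have : (∑' p : Nat.Primes, (Spec.primeCount (fixBot L) p : ℝ) * (p : ℝ) ^ (-s)) =
          ∑' p, u p := rfl
      linarith [h5.1]
    have h7 : (Nat.card (Subgroup.zpowers a) : ℝ)⁻¹ * Real.log (1 / (s - 1)) -
        (C' + CE) / Nat.card (Subgroup.zpowers a) =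
        (Real.log (1 / (s - 1)) - (C' + CE)) / Nat.card (Subgroup.zpowers a) := by
      field_simp
    rw [h7, div_le_iff₀ hn, mul_comm]
    exact h6
  have hχ : ∀ χ : DirichletCharacter ℂ m,
      (∃ u ∈ Subgroup.zpowers a, χ ((u : (ZMod m)ˣ) : ZMod m) ≠ 1) →
      ∃ (Λ : ℝ → ℂ) (ℓ : ℂ) (C : ℝ), ContinuousOn Λ (Set.Ioi 1) ∧
        Tendsto (fun s => Complex.exp (Λ s)) (𝓝[>] 1) (𝓝 ℓ) ∧
        ∀ s : ℝ, 1 < s → s ≤ 2 →
          ‖Λ s - ∑' p : Nat.Primes, χ ((p : ℕ) : ZMod m) *
            ((c p * (p : ℝ) ^ (-s) : ℝ) : ℂ)‖ ≤ C := by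
    rintro χ ⟨u, hu, hχu⟩
    have hχa : χ ((a : (ZMod m)ˣ) : ZMod m) ≠ 1 := by
      intro h1
      apply hχu
      obtain ⟨k, rfl⟩ := Subgroup.mem_zpowers_iff.mp hu
      have h2 : χ.toUnitHom a = 1 := by
        ext
        rw [MulChar.coe_toUnitHom]
        simpa using h1
      have h3 : χ.toUnitHom (a ^ k) = 1 := by rw [map_zpow, h2, one_zpow]
      have h4 := congrArg Units.val h3
      rwa [MulChar.coe_toUnitHom] at h4
    obtain ⟨I, hI0, hI1⟩ := hNT χ hχa
    obtain ⟨ℓ, hℓ⟩ := hAN (fixM L g) m χ ⟨I, hI0, hI1⟩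
    obtain ⟨CD, hCD⟩ := hDEG hZ (fixM L g) m χ
    set Nn : HeightOneSpectrum (𝓞 (fixM L g)) → ℝ :=
      fun 𝔭 => (Ideal.absNorm 𝔭.asIdeal : ℝ) with hNn
    set cχ : HeightOneSpectrum (𝓞 (fixM L g)) → ℂ :=
      fun 𝔭 => χ (Ideal.absNorm 𝔭.asIdeal : ZMod m) with hcχdef
    have hN : ∀ 𝔭, 2 ≤ Nn 𝔭 := fun 𝔭 => by
      simp only [hNn]
      exact_mod_cast H761.two_le_absNorm (fixM L g) 𝔭
    have hsumN : ∀ s : ℝ, 1 < s → Summable (xs Nn s) :=
      fun s hs => H761.summable_primeSum (fixM L g) hs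
    have hcχ : ∀ 𝔭, ‖cχ 𝔭‖ ≤ 1 := fun 𝔭 => DirichletCharacter.norm_le_one χ _
    refine ⟨logEuler Nn cχ, ℓ, (∑' r, xs Nn 2 r) + CD,
      continuousOn_logEuler hN hsumN hcχ, ?_, ?_⟩
    · refine hℓ.congr' ?_
      filter_upwards [self_mem_nhdsWithin] with s hs
      exact (exp_logEuler_eq hN hsumN hcχ hs (hEP (fixM L g) m χ s hs)).symm
    · intro s h1 h2
      have e1 := norm_logEuler_sub_le hN hsumN hcχ h1
      have e2 := (hCD s h1 h2).2
      exact (norm_sub_le_norm_sub_add_norm_sub _ _ _).trans (add_le_add e1 e2)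
  obtain ⟨p, hpS, hpa, hcp⟩ := hABS m c hc0 hsumc (Subgroup.zpowers a) hsupp htot hone hχ a
    (Subgroup.mem_zpowers a) (S ∪ B)
  have hpS' : (p : ℕ) ∉ S := fun h => hpS (Finset.mem_union_left _ h)
  have hpB : (p : ℕ) ∉ B := fun h => hpS (Finset.mem_union_right _ h)
  obtain ⟨P, hP, hpP, hI, hF⟩ := hFIN p p.2 hpB (hcne p hcp) hpa
  exact ⟨p, P, p.2, hpS', hP, hpP, hI, hF⟩

/-- **CYC** from the other interface statements. -/
theorem cyc (hZ : Spec.PrimeSumStatement) (hA : Spec.CountStatement) (hD : Spec.FrobStatement)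
    (hM : Spec.FrobFiniteStatement) (hAN : Spec.DirichletLimitStatement) :
    Spec.CycStatement :=
  cyc_of_pieces eulerProduct twistedPrimeSum abstractDirichlet cycAlg hZ hA hD hM hAN

end glue

end Fermat.Agent.Lib.Cheb.H221

end
-- ===== PACK-END Lib/Cheb/H221/Cyc.lean

-- ===== PACK-BEGIN S29/H642/EigenChar.lean
section





/-!
# S29 / E2 (helper642): the eigensystem of a normalised eigenform occurs in
`Hom_par(Γ₀(N), F)` for every field `F` of characteristic `p` receiving `ℤ̄`

Main results: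
* `isIntegral_qCoeff`        : `a_ℓ(g)` is an algebraic integer (`ℓ ∤ N` prime);
* `exists_eigenChar`         : a nonzero parabolic `χ : Γ₀(N) → F` with
  `T_ℓ χ = ψ(a_ℓ) χ` for every prime `ℓ ∤ N`, where `T_ℓ` is the Hecke transfer.
No Hecke commutativity, no surjectivity of the Eichler–Shimura map is used.
-/

set_option autoImplicit false

namespace Fermat.Agent.S29.H642

open CongruenceSubgroup ModularCurve ModularCurve.Period ModularFormClass
open scoped MatrixGroups

/-! ### Finite generation of `Γ₀(N)` -/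

theorem groupFG_SL2Z : Group.FG SL(2, ℤ) :=
  Group.fg_iff.mpr ⟨{ModularGroup.S, ModularGroup.T},
    SpecialLinearGroup.SL2Z_generators, by simp⟩

theorem groupFG_Gamma0 (N : ℕ) [NeZero N] : Group.FG (Gamma0 N) := by
  haveI := groupFG_SL2Z
  infer_instance

/-! ### The stabiliser algebra of a lattice in `ℂ` -/

/-- The elements of `ℤ̄` stabilising an additive subgroup `L ⊆ ℂ`. -/
def stabAlg (L : AddSubgroup ℂ) : Subalgebra ℤ (integralClosure ℤ ℂ) where
  carrier := {a | ∀ x ∈ L, ((a : integralClosure ℤ ℂ) : ℂ) * x ∈ L}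
  mul_mem' := by
    intro a b ha hb x hx
    have := ha _ (hb x hx)
    simpa [mul_assoc] using this
  one_mem' := by
    intro x hx
    simpa using hx
  add_mem' := by
    intro a b ha hb x hx
    have := L.add_mem (ha x hx) (hb x hx)
    simpa [add_mul] using this
  zero_mem' := by
    intro x _
    simp
  algebraMap_mem' := by
    intro n x hx
    have := L.zsmul_mem hx n
    simpa using this

theorem mem_stabAlg {L : AddSubgroup ℂ} {a : integralClosure ℤ ℂ} :
    a ∈ stabAlg L ↔ ∀ x ∈ L, ((a : integralClosure ℤ ℂ) : ℂ) * x ∈ L := Iff.rfl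

noncomputable instance stabModule (L : AddSubgroup ℂ) : Module (stabAlg L) L where
  smul a x := ⟨(((a : stabAlg L) : integralClosure ℤ ℂ) : ℂ) * (x : ℂ), a.2 x x.2⟩
  one_smul x := Subtype.ext (by
    show (((1 : stabAlg L) : integralClosure ℤ ℂ) : ℂ) * (x : ℂ) = x
    simp)
  mul_smul a b x := Subtype.ext (by
    show (((a * b : stabAlg L) : integralClosure ℤ ℂ) : ℂ) * (x : ℂ)
      = ((a : integralClosure ℤ ℂ) : ℂ) * (((b : integralClosure ℤ ℂ) : ℂ) * (x : ℂ))
    simp [mul_assoc])
  smul_zero a := Subtype.ext (by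
    show (((a : stabAlg L) : integralClosure ℤ ℂ) : ℂ) * ((0 : L) : ℂ) = ((0 : L) : ℂ)
    simp)
  smul_add a x y := Subtype.ext (by
    show (((a : stabAlg L) : integralClosure ℤ ℂ) : ℂ) * ((x + y : L) : ℂ)
      = ((a : integralClosure ℤ ℂ) : ℂ) * (x : ℂ) + ((a : integralClosure ℤ ℂ) : ℂ) * (y : ℂ)
    simp [mul_add])
  add_smul a b x := Subtype.ext (by
    show (((a + b : stabAlg L) : integralClosure ℤ ℂ) : ℂ) * (x : ℂ)
      = ((a : integralClosure ℤ ℂ) : ℂ) * (x : ℂ) + ((b : integralClosure ℤ ℂ) : ℂ) * (x : ℂ)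
    simp [add_mul])
  zero_smul x := Subtype.ext (by
    show (((0 : stabAlg L) : integralClosure ℤ ℂ) : ℂ) * (x : ℂ) = ((0 : L) : ℂ)
    simp)

theorem coe_stab_smul {L : AddSubgroup ℂ} (a : stabAlg L) (x : L) :
    ((a • x : L) : ℂ) = (((a : stabAlg L) : integralClosure ℤ ℂ) : ℂ) * (x : ℂ) := rfl

theorem stabModule_finite (L : AddSubgroup ℂ) [hL : AddGroup.FG L] :
    Module.Finite (stabAlg L) L := by
  obtain ⟨s, hs⟩ := hL.out
  refine ⟨⟨s, ?_⟩⟩
  rw [eq_top_iff]
  intro x _
  have hx : x ∈ AddSubgroup.closure (s : Set L) := by rw [hs]; trivial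
  have hle : AddSubgroup.closure (s : Set L)
      ≤ (Submodule.span (stabAlg L) (s : Set L)).toAddSubgroup :=
    (AddSubgroup.closure_le _).mpr Submodule.subset_span
  exact hle hx

/-- The kernel of a ring hom from a `ℤ`-integral ring to a field of characteristic `p` is maximal. -/
theorem ker_isMaximal_of_integral {O : Type*} [CommRing O] [Algebra.IsIntegral ℤ O]
    {F : Type*} [Field F] {p : ℕ} (hp : p.Prime) [CharP F p] (θ : O →+* F) :
    (RingHom.ker θ).IsMaximal := by
  haveI : (RingHom.ker θ).IsPrime := RingHom.ker_isPrime θ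
  apply Ideal.isMaximal_of_isIntegral_of_isMaximal_comap (R := ℤ)
  have hprime : (Ideal.comap (algebraMap ℤ O) (RingHom.ker θ)).IsPrime :=
    Ideal.comap_isPrime _ _
  refine hprime.isMaximal ?_
  intro hbot
  have hpmem : (p : ℤ) ∈ Ideal.comap (algebraMap ℤ O) (RingHom.ker θ) := by
    rw [Ideal.mem_comap, RingHom.mem_ker]
    simp
  rw [hbot, Ideal.mem_bot] at hpmem
  exact hp.ne_zero (by exact_mod_cast hpmem)

theorem stabAlg_isIntegral (L : AddSubgroup ℂ) : Algebra.IsIntegral ℤ (stabAlg L) := by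
  refine ⟨fun a => ?_⟩
  have h1 : IsIntegral ℤ (((a : stabAlg L) : integralClosure ℤ ℂ) : ℂ) :=
    (a : integralClosure ℤ ℂ).2
  have h2 : IsIntegral ℤ ((a : stabAlg L) : integralClosure ℤ ℂ) :=
    (isIntegral_algHom_iff (integralClosure ℤ ℂ).val Subtype.val_injective).mp h1
  exact (isIntegral_algHom_iff (stabAlg L).val Subtype.val_injective).mp h2

/-! ### The period lattice of an eigenform -/

section Lattice

variable {N : ℕ} [NeZero N]

/-- The period lattice `P_g(Γ₀(N)) ⊆ ℂ`. -/
noncomputable def perLattice (g : CuspForm (Gamma0 N) 2) : AddSubgroup ℂ :=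
  (periodMap N g).range

theorem perLattice_fg (g : CuspForm (Gamma0 N) 2) : AddGroup.FG (perLattice g) := by
  haveI := groupFG_Gamma0 N
  exact AddGroup.fg_range (periodMap N g)

theorem periodMap_mem_perLattice (g : CuspForm (Gamma0 N) 2) (γ : Additive (Gamma0 N)) :
    periodMap N g γ ∈ perLattice g := ⟨γ, rfl⟩

/-- `a_ℓ · L_g ⊆ L_g` for a normalised eigenform `g` and a prime `ℓ ∤ N`. -/
theorem qCoeff_mul_mem_perLattice {g : CuspForm (Gamma0 N) 2} (hg : g.IsNormalizedEigenform)
    {ℓ : ℕ} (hℓ : ℓ.Prime) (hℓN : ¬ ℓ ∣ N) {x : ℂ} (hx : x ∈ perLattice g) :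
    qCoeff ⇑g ℓ * x ∈ perLattice g := by
  haveI : Fact ℓ.Prime := ⟨hℓ⟩
  obtain ⟨γ, rfl⟩ := hx
  have h1 := periodMap_heckeTLin hℓ hℓN g
  rw [heckeTLin_eq_smul hg hℓ hℓN, Fermat.Agent.S21.H381.periodMap_smul] at h1
  have h2 := congrArg (fun φ : Additive (Gamma0 N) →+ ℂ => φ γ) h1
  simp only [AddMonoidHom.smul_apply, smul_eq_mul] at h2
  rw [h2]
  obtain ⟨γ', rfl⟩ : ∃ γ' : Gamma0 N, Additive.ofMul γ' = γ := ⟨Additive.toMul γ, rfl⟩
  rw [heckeTransfer_apply]
  exact (perLattice g).sum_mem fun y _ => periodMap_mem_perLattice g _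

theorem perLattice_ne_bot {g : CuspForm (Gamma0 N) 2} (hg : g ≠ 0) :
    ∃ x ∈ perLattice g, x ≠ 0 := by
  by_contra hcon
  push_neg at hcon
  apply periodMap_ne_zero hg
  refine AddMonoidHom.ext fun γ => ?_
  exact hcon _ (periodMap_mem_perLattice g γ)

/-- **Integrality** of the Hecke eigenvalues `a_ℓ`, `ℓ ∤ N` prime. -/
theorem isIntegral_qCoeff {g : CuspForm (Gamma0 N) 2} (hg : g.IsNormalizedEigenform)
    {ℓ : ℕ} (hℓ : ℓ.Prime) (hℓN : ¬ ℓ ∣ N) : IsIntegral ℤ (qCoeff ⇑g ℓ) := by
  haveI := perLattice_fg g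
  obtain ⟨x, hx, hx0⟩ := perLattice_ne_bot (ne_zero_of_isNormalizedEigenform hg)
  refine isIntegral_of_smul_mem_submodule (M := ℂ) (AddSubgroup.toIntSubmodule (perLattice g))
    ?_ ?_ (qCoeff ⇑g ℓ) ?_
  · intro hbot
    have : x ∈ AddSubgroup.toIntSubmodule (perLattice g) := hx
    rw [hbot] at this
    exact hx0 ((Submodule.mem_bot ℤ).mp this)
  · have h := (AddGroup.fg_iff_addSubgroup_fg (perLattice g)).mp (perLattice_fg g)
    exact (Submodule.fg_iff_addSubgroup_fg _).mpr (by simpa using h)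
  · intro n hn
    exact qCoeff_mul_mem_perLattice hg hℓ hℓN hn

/-- **E2 (EigenChar)**: the mod-`p` eigensystem of a normalised eigenform occurs in the parabolic
characters of `Γ₀(N)` with values in `F`: there is a nonzero parabolic additive character
`χ : Γ₀(N) → F` such that for every prime `ℓ ∤ N` and every `a ∈ ℤ̄` with `a = a_ℓ(g)`,
`T_ℓ χ = ψ(a) · χ` (Hecke transfer). -/
theorem exists_eigenChar {g : CuspForm (Gamma0 N) 2} (hg : g.IsNormalizedEigenform)
    {p : ℕ} (hp : p.Prime) {F : Type*} [Field F] [CharP F p]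
    (ψ : integralClosure ℤ ℂ →+* F) :
    ∃ χ : Additive (Gamma0 N) →+ F, χ ≠ 0 ∧ IsParabolicHom (Gamma0 N) χ ∧
      ∀ (ℓ : ℕ) [Fact ℓ.Prime] (hℓN : ¬ ℓ ∣ N) (a : integralClosure ℤ ℂ),
        (a : ℂ) = qCoeff ⇑g ℓ → ∀ γ : Additive (Gamma0 N),
          heckeTransfer hℓN χ γ = ψ a * χ γ := by
  classical
  set L : AddSubgroup ℂ := perLattice g with hL
  haveI : AddGroup.FG L := perLattice_fg g
  haveI : Module.Finite (stabAlg L) L := stabModule_finite L
  haveI : Algebra.IsIntegral ℤ (stabAlg L) := stabAlg_isIntegral L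
  let θ : stabAlg L →+* F := ψ.comp (stabAlg L).val.toRingHom
  have hmax : (RingHom.ker θ).IsMaximal := ker_isMaximal_of_integral hp θ
  obtain ⟨x₀, hx₀, hx₀0⟩ := perLattice_ne_bot (ne_zero_of_isNormalizedEigenform hg)
  have hfaith : ∀ r : stabAlg L, (∀ x : L, r • x = 0) → θ r = 0 := by
    intro r hr
    have h1 := congrArg (fun y : L => (y : ℂ)) (hr ⟨x₀, hx₀⟩)
    simp only [coe_stab_smul, ZeroMemClass.coe_zero] at h1
    have h2 : (((r : stabAlg L) : integralClosure ℤ ℂ) : ℂ) = 0 :=
      (mul_eq_zero.mp h1).resolve_right hx₀0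
    have h3 : r = 0 := Subtype.ext (Subtype.ext h2)
    rw [h3, map_zero]
  obtain ⟨π, hπ0, hπ⟩ := exists_eigenfunctional θ hmax hfaith
  -- the period map, with values in `L`
  let P : Additive (Gamma0 N) →+ L := (periodMap N g).rangeRestrict
  have hPsurj : Function.Surjective P := (periodMap N g).rangeRestrict_surjective
  have hPcoe : ∀ γ, ((P γ : L) : ℂ) = periodMap N g γ := fun γ => rfl
  refine ⟨π.comp P, ?_, ?_, ?_⟩
  · intro h0
    apply hπ0
    refine AddMonoidHom.ext fun y => ?_
    obtain ⟨γ, rfl⟩ := hPsurj y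
    exact congrArg (fun φ : Additive (Gamma0 N) →+ F => φ γ) h0
  · intro γ hγ
    have hpar := (mem_parabolicHoms_iff (R := ℂ)).mp
      (Fermat.Agent.S21.H381.periodMap_mem_parabolicHoms g) γ hγ
    have hP0 : P (Additive.ofMul γ) = 0 := Subtype.ext (by rw [hPcoe, hpar]; rfl)
    rw [AddMonoidHom.comp_apply, hP0, map_zero]
  · intro ℓ hℓ hℓN a ha γ
    have haL : a ∈ stabAlg L := by
      intro x hx
      rw [ha]
      exact qCoeff_mul_mem_perLattice hg hℓ.out hℓN hx
    -- the transfer of `P` is `a • P`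
    have hTP : heckeTransfer hℓN P γ = (⟨a, haL⟩ : stabAlg L) • P γ := by
      apply Subtype.ext
      rw [coe_stab_smul, hPcoe]
      have h1 := periodMap_heckeTLin hℓ.out hℓN g
      rw [heckeTLin_eq_smul hg hℓ.out hℓN, Fermat.Agent.S21.H381.periodMap_smul] at h1
      have h2 := congrArg (fun φ : Additive (Gamma0 N) →+ ℂ => φ γ) h1
      simp only [AddMonoidHom.smul_apply, smul_eq_mul] at h2
      show ((heckeTransfer hℓN P γ : L) : ℂ) = (a : ℂ) * periodMap N g γ
      rw [ha, h2]
      have h3 : (periodMap N g) = (L.subtype).comp P := rfl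
      rw [h3, heckeTransfer_comp]
      rfl
    rw [heckeTransfer_comp, AddMonoidHom.comp_apply, hTP, hπ, AddMonoidHom.comp_apply]
    rfl

end Lattice

end Fermat.Agent.S29.H642

end
-- ===== PACK-END S29/H642/EigenChar.lean

-- ===== PACK-BEGIN S29/H872/Glue.lean
section




/-!
# From a Galois module with Eichler–Shimura relations to a residual Galois representation

Input: an algebraically closed field `F` of characteristic `p`, a nonzero finite dimensional
`F[G_ℚ]`-module `M` of finite level, unramified outside a finite set `S ∋ p`, such that every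
Frobenius element at a prime `ℓ ∉ S` satisfies `σ² - c(ℓ) σ + ℓ = 0` on `M`; plus the weak
qualitative Chebotarev property `WeakCheb` (every element of `G_ℚ` agrees, on any finite subset
of `ℚ̄`, with a power of a Frobenius element at a prime outside any finite set).

Output: a `ResidualGaloisRep F`, unramified outside `S`, with
`charpoly (ρ Frob_ℓ) = X² - c(ℓ) X + ℓ` for all `ℓ ∉ S`.
-/

set_option autoImplicit false

namespace Fermat.Agent.S29.H872

open Polynomial ExtCitation

/-- **Weak qualitative Chebotarev** (hypothesis shape): on every finite subset `s` of `ℚ̄`, every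
`σ ∈ G_ℚ` agrees with a power of a Frobenius element at some prime outside `S`. -/
def WeakCheb : Prop :=
  ∀ (s : Finset (AlgebraicClosure ℚ)) (σ : AlgebraicClosure ℚ ≃ₐ[ℚ] AlgebraicClosure ℚ)
    (S : Finset ℕ),
    ∃ (q : ℕ) (A : ValuationSubring (AlgebraicClosure ℚ))
      (τ : AlgebraicClosure ℚ ≃ₐ[ℚ] AlgebraicClosure ℚ) (j : ℕ),
      q.Prime ∧ q ∉ S ∧ A.LiesOverPrime q ∧ A.IsFrobeniusAt τ q ∧ ∀ x ∈ s, (τ ^ j) x = σ x

/-- Agreement of two automorphisms on a finite dimensional subfield is detected on a finite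
set. -/
theorem exists_finset_level (L : IntermediateField ℚ (AlgebraicClosure ℚ))
    [FiniteDimensional ℚ L] :
    ∃ s : Finset (AlgebraicClosure ℚ),
      ∀ σ τ : AlgebraicClosure ℚ ≃ₐ[ℚ] AlgebraicClosure ℚ,
        (∀ x ∈ s, σ x = τ x) → ∀ x ∈ L, σ x = τ x := by
  classical
  let b := Module.finBasis ℚ L
  refine ⟨Finset.univ.image (fun i => ((b i : L) : AlgebraicClosure ℚ)), fun σ τ h x hx => ?_⟩
  have e : (σ.toAlgHom.comp L.val).toLinearMap = (τ.toAlgHom.comp L.val).toLinearMap := by
    apply b.ext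
    intro i
    exact h _ (Finset.mem_image_of_mem _ (Finset.mem_univ i))
  exact congrArg (fun f : L →ₗ[ℚ] AlgebraicClosure ℚ => f ⟨x, hx⟩) e

section cyclo

variable (p : ℕ) [Fact p.Prime] (F : Type*) [Field F] [CharP F p]

/-- The mod `p` cyclotomic character with values in a field of characteristic `p`. -/
noncomputable def cycloF : (AlgebraicClosure ℚ ≃ₐ[ℚ] AlgebraicClosure ℚ) →* F :=
  ((ZMod.castHom (dvd_refl p) F).toMonoidHom.comp (Units.coeHom (ZMod p))).comp (cycloChar p)

theorem cycloF_apply (σ : AlgebraicClosure ℚ ≃ₐ[ℚ] AlgebraicClosure ℚ) :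
    cycloF p F σ = ZMod.castHom (dvd_refl p) F ((cycloChar p σ : (ZMod p)ˣ) : ZMod p) := rfl

theorem cycloF_eq_one_of_fixes_roots (σ : AlgebraicClosure ℚ ≃ₐ[ℚ] AlgebraicClosure ℚ)
    (hσ : ∀ t : AlgebraicClosure ℚ, t ^ p = 1 → σ t = t) : cycloF p F σ = 1 := by
  rw [cycloF_apply, cycloChar_eq_one_of_fixes_roots p σ hσ, Units.val_one, map_one]

theorem cycloF_eq_one_of_mem_inertia {q : ℕ} (hq : q.Prime) (hqp : q ≠ p)
    (A : ValuationSubring (AlgebraicClosure ℚ)) (hA : A.LiesOverPrime q)
    (σ : AlgebraicClosure ℚ ≃ₐ[ℚ] AlgebraicClosure ℚ) (hσ : σ ∈ A.inertiaSubgroupIn ℚ) :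
    cycloF p F σ = 1 := by
  rw [cycloF_apply, Fermat.Agent.S55.Bridge.cycloChar_eq_one_of_mem_inertia p hq hqp A hA σ hσ,
    Units.val_one, map_one]

theorem cycloF_frobenius {ℓ : ℕ} (hℓ : ℓ.Prime) (hℓp : ℓ ≠ p)
    (A : ValuationSubring (AlgebraicClosure ℚ)) (hA : A.LiesOverPrime ℓ)
    (τ : AlgebraicClosure ℚ ≃ₐ[ℚ] AlgebraicClosure ℚ) (hτ : A.IsFrobeniusAt τ ℓ) :
    cycloF p F τ = (ℓ : F) := by
  rw [cycloF_apply, cycloChar_frobenius p hℓ hℓp A hA τ hτ, map_natCast]

end cyclo

/-- **Glue.** See the module docstring. -/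
theorem exists_residualGaloisRep_of_module (p : ℕ) [Fact p.Prime]
    {F : Type} [Field F] [IsAlgClosed F] [CharP F p]
    {M : Type} [AddCommGroup M] [Module F M] [FiniteDimensional F M] [Nontrivial M]
    (r : (AlgebraicClosure ℚ ≃ₐ[ℚ] AlgebraicClosure ℚ) →* Module.End F M)
    (hfin : GaloisFactorsThroughFiniteLevel r)
    (S : Finset ℕ) (hpS : p ∈ S) (c : ℕ → F)
    (hunr : ∀ ℓ : ℕ, ℓ.Prime → ℓ ∉ S → ∀ A : ValuationSubring (AlgebraicClosure ℚ),
      A.LiesOverPrime ℓ → ∀ σ ∈ A.inertiaSubgroupIn ℚ, r σ = 1)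
    (hES : ∀ ℓ : ℕ, ℓ.Prime → ℓ ∉ S → ∀ A : ValuationSubring (AlgebraicClosure ℚ),
      A.LiesOverPrime ℓ → ∀ σ : AlgebraicClosure ℚ ≃ₐ[ℚ] AlgebraicClosure ℚ,
        A.IsFrobeniusAt σ ℓ → r σ * r σ = c ℓ • r σ - (ℓ : F) • 1)
    (hCheb : WeakCheb) :
    ∃ ρ : ResidualGaloisRep F,
      (∀ ℓ : ℕ, ℓ.Prime → ℓ ∉ S → ρ.IsUnramifiedAt ℓ) ∧
      ∀ ℓ : ℕ, ℓ.Prime → ℓ ∉ S → ∀ A : ValuationSubring (AlgebraicClosure ℚ),
        A.LiesOverPrime ℓ → ∀ σ : AlgebraicClosure ℚ ≃ₐ[ℚ] AlgebraicClosure ℚ,
          A.IsFrobeniusAt σ ℓ →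
            LinearMap.charpoly (ρ.ρ σ) = X ^ 2 - C (c ℓ) * X + C ((ℓ : F)) := by
  classical
  have hp : p.Prime := Fact.out
  obtain ⟨L₀, hL₀fd, hL₀⟩ := hfin
  have := hL₀fd
  obtain ⟨s₀, hs₀⟩ := exists_finset_level L₀
  let s₁ : Finset (AlgebraicClosure ℚ) := Polynomial.nthRootsFinset p (1 : AlgebraicClosure ℚ)
  have hs₁ : ∀ t : AlgebraicClosure ℚ, t ^ p = 1 → t ∈ s₁ := fun t ht =>
    (Polynomial.mem_nthRootsFinset hp.pos 1).2 ht
  -- the quadratic relation for every element of the Galois group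
  have hall : ∀ σ : AlgebraicClosure ℚ ≃ₐ[ℚ] AlgebraicClosure ℚ,
      ∃ a' : F, r σ * r σ = a' • r σ - cycloF p F σ • 1 := by
    intro σ
    obtain ⟨q, A, τ, j, hq, hqS, hA, hτ, hagree⟩ := hCheb (s₀ ∪ s₁) σ S
    have hqp : q ≠ p := fun h => hqS (h ▸ hpS)
    have h0 : ∀ x ∈ L₀, (τ ^ j) x = σ x :=
      hs₀ _ _ (fun x hx => hagree x (Finset.mem_union_left _ hx))
    have hfix : ∀ x : AlgebraicClosure ℚ, (τ ^ j) x = σ x → (σ⁻¹ * τ ^ j) x = x := by
      intro x hx
      rw [AlgEquiv.mul_apply, hx]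
      exact σ.symm_apply_apply x
    have hr : r σ = r τ ^ j := by
      have h1 : r (σ⁻¹ * τ ^ j) = 1 := hL₀ _ (fun x hx => hfix x (h0 x hx))
      have h2 : r σ * r (σ⁻¹ * τ ^ j) = r τ ^ j := by
        rw [← map_mul, mul_inv_cancel_left, map_pow]
      rw [h1, mul_one] at h2
      exact h2
    have hd : cycloF p F σ = cycloF p F τ ^ j := by
      have h1 : cycloF p F (σ⁻¹ * τ ^ j) = 1 :=
        cycloF_eq_one_of_fixes_roots p F _
          (fun t ht => hfix t (hagree t (Finset.mem_union_right _ (hs₁ t ht))))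
      have h2 : cycloF p F σ * cycloF p F (σ⁻¹ * τ ^ j) = cycloF p F τ ^ j := by
        rw [← map_mul, mul_inv_cancel_left, map_pow]
      rw [h1, mul_one] at h2
      exact h2
    have hτrel := hES q hq hqS A hA τ hτ
    have hdτ : cycloF p F τ = (q : F) := cycloF_frobenius p F hq hqp A hA τ hτ
    obtain ⟨a', ha'⟩ := exists_pow_rel hτrel j
    exact ⟨a', by rw [hr, hd, hdτ]; exact ha'⟩
  choose a ha using hall
  obtain ⟨V, iA, iM, iFin, ρ, hfr, htriv, hchar⟩ := exists_two_dim r (cycloF p F) a ha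
  -- the level of `ρ`
  have hint : ∀ x ∈ (s₁ : Set (AlgebraicClosure ℚ)), IsIntegral ℚ x := fun x _ =>
    (AlgebraicClosure.isAlgebraic ℚ).isIntegral.isIntegral x
  have : FiniteDimensional ℚ (IntermediateField.adjoin ℚ (s₁ : Set (AlgebraicClosure ℚ))) :=
    IntermediateField.finiteDimensional_adjoin hint
  have hlevel : GaloisFactorsThroughFiniteLevel ρ := by
    refine ⟨L₀ ⊔ IntermediateField.adjoin ℚ (s₁ : Set (AlgebraicClosure ℚ)), inferInstance,
      fun σ hσ => htriv σ (hL₀ σ fun x hx => hσ x ?_) (cycloF_eq_one_of_fixes_roots p F σ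
        fun t ht => hσ t ?_)⟩
    · exact (le_sup_left : L₀ ≤ _) hx
    · exact (le_sup_right : IntermediateField.adjoin ℚ (s₁ : Set (AlgebraicClosure ℚ)) ≤ _)
        (IntermediateField.subset_adjoin ℚ _ (hs₁ t ht))
  refine ⟨@ResidualGaloisRep.mk F _ V iA iM hfr ρ hlevel, ?_, ?_⟩
  · intro ℓ hℓ hℓS A hA σ hσ
    have hℓp : ℓ ≠ p := fun h => hℓS (h ▸ hpS)
    exact htriv σ (hunr ℓ hℓ hℓS A hA σ hσ) (cycloF_eq_one_of_mem_inertia p F hℓ hℓp A hA σ hσ)
  · intro ℓ hℓ hℓS A hA σ hσ
    have hℓp : ℓ ≠ p := fun h => hℓS (h ▸ hpS)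
    have hdσ : cycloF p F σ = (ℓ : F) := cycloF_frobenius p F hℓ hℓp A hA σ hσ
    have h := hchar σ (c ℓ) (by rw [hdσ]; exact hES ℓ hℓ hℓS A hA σ hσ)
    rw [hdσ] at h
    exact h

end Fermat.Agent.S29.H872

end
-- ===== PACK-END S29/H872/Glue.lean

-- ===== PACK-BEGIN S29/H222/ESKInt.lean
section
/-
S29 / helper222 — piece ESK, part 1: integral series (`S18.IsInt`) and the action of the
decomposition group of `A` on them.
-/


set_option autoImplicit false
set_option linter.style.haveILetI false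

noncomputable section

namespace Fermat.Agent.S29.H222

open ModularCurve AlgebraicCurve HahnSeries IsLocalRing
open Fermat.Agent.S18 (Qb IsInt toF CoreStatement)

variable {A : ValuationSubring Qb} {N : ℕ}

/-! ### Basic algebra of integral series -/

theorem esk_coeffMap_subtype_injective :
    Function.Injective (coeffMap A.subtype : LaurentSeries A → LaurentSeries Qb) := by
  intro x y hxy
  ext k
  have := congrArg (fun z => z.coeff k) hxy
  simpa using this

theorem isInt_one : IsInt A N (1 : LaurentSeries A) :=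
  ⟨by rw [map_one]; exact one_mem _, by rw [map_one]; exact one_mem _,
    by rw [map_one]; exact one_ne_zero⟩

theorem isInt_mul {U V : LaurentSeries A} (hU : IsInt A N U) (hV : IsInt A N V) :
    IsInt A N (U * V) :=
  ⟨by rw [map_mul]; exact mul_mem hU.1 hV.1, by rw [map_mul]; exact mul_mem hU.2.1 hV.2.1,
    by rw [map_mul]; exact mul_ne_zero hU.2.2 hV.2.2⟩

theorem isInt_pow {U : LaurentSeries A} (hU : IsInt A N U) (n : ℕ) : IsInt A N (U ^ n) :=
  ⟨by rw [map_pow]; exact pow_mem hU.1 n, by rw [map_pow]; exact pow_mem hU.2.1 n,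
    by rw [map_pow]; exact pow_ne_zero n hU.2.2⟩

theorem toF_ne_zero {U : LaurentSeries A} (hU : IsInt A N U) : toF hU ≠ 0 := by
  intro h0
  have h1 : coeffMap A.subtype U = 0 := congrArg Subtype.val h0
  have h2 : U = 0 := esk_coeffMap_subtype_injective (by rw [h1, map_zero])
  exact hU.2.2 (by rw [h2, map_zero])

@[simp] theorem coe_toF {U : LaurentSeries A} (hU : IsInt A N U) :
    ((toF hU : modularFunctionFieldBar N) : LaurentSeries Qb) = coeffMap A.subtype U := rfl

theorem toF_mul {U V : LaurentSeries A} (hU : IsInt A N U) (hV : IsInt A N V) :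
    toF (isInt_mul hU hV) = toF hU * toF hV :=
  Subtype.ext (map_mul _ _ _)

theorem toF_pow {U : LaurentSeries A} (hU : IsInt A N U) (n : ℕ) :
    toF (isInt_pow hU n) = toF hU ^ n :=
  Subtype.ext (map_pow _ _ _)

theorem toF_congr {U V : LaurentSeries A} (hU : IsInt A N U) (hV : IsInt A N V) (h : U = V) :
    toF hU = toF hV := by
  subst h; rfl

/-! ### Coefficientwise ring homomorphisms preserve the function field in characteristic `ℓ` -/

theorem coeffMap_mem_fullC {k : Type*} [Field k] (φ : k →+* k) {x : LaurentSeries k}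
    (hx : x ∈ modularFunctionFieldFullC k N) :
    coeffMap φ x ∈ modularFunctionFieldFullC k N := by
  unfold modularFunctionFieldFullC at hx
  induction hx using IntermediateField.adjoin_induction with
  | mem y hy =>
      obtain ⟨d, hne, hd, rfl⟩ := hy
      haveI := hne
      rw [coeffMap_qExpand, coeffMap_jqModC]
      exact jqModCd_mem_full k N hd
  | algebraMap c =>
      rw [coeffMap_algebraMap]
      exact (modularFunctionFieldFullC k N).algebraMap_mem _
  | add y z _ _ hy hz => rw [map_add]; exact add_mem hy hz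
  | inv y _ hy => rw [map_inv₀]; exact inv_mem hy
  | mul y z _ _ hy hz => rw [map_mul]; exact mul_mem hy hz

theorem coeffMap_ne_zero_of_injective {R S : Type*} [CommRing R] [CommRing S] (φ : R →+* S)
    (hφ : Function.Injective φ) {x : LaurentSeries R} (hx : x ≠ 0) : coeffMap φ x ≠ 0 := by
  intro h
  apply hx
  ext n
  have hn := congrArg (fun y : LaurentSeries S => y.coeff n) h
  simp only [coeffMap_coeff, HahnSeries.coeff_zero] at hn ⊢
  exact hφ (by rw [hn, map_zero])

/-! ### The decomposition group acts on integral series -/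

/-- The ring endomorphism of `A` induced by an element of the decomposition group. -/
def decA (g : A.decompositionSubgroup ℚ) : A →+* A :=
  MulSemiringAction.toRingHom (A.decompositionSubgroup ℚ) A g

@[simp] theorem coe_decA (g : A.decompositionSubgroup ℚ) (a : A) :
    ((decA g a : A) : Qb) = (g : Qb ≃ₐ[ℚ] Qb) (a : Qb) := rfl

/-- The ring endomorphism of the residue field induced by an element of the decomposition
group. -/
def decK (g : A.decompositionSubgroup ℚ) : ResidueField A →+* ResidueField A :=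
  MulSemiringAction.toRingHom (A.decompositionSubgroup ℚ) (ResidueField A) g

theorem decK_residue (g : A.decompositionSubgroup ℚ) (a : A) :
    decK g (residue A a) = residue A (decA g a) := rfl

theorem decK_injective (g : A.decompositionSubgroup ℚ) : Function.Injective (decK g) :=
  (decK g).injective

/-- The coefficientwise action of the decomposition group on `A((q))`. -/
def galA (g : A.decompositionSubgroup ℚ) : LaurentSeries A →+* LaurentSeries A :=
  coeffMap (decA g)

theorem coeffMap_subtype_galA (g : A.decompositionSubgroup ℚ) (U : LaurentSeries A) :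
    coeffMap A.subtype (galA g U)
      = coeffMap (((g : Qb ≃ₐ[ℚ] Qb)) : Qb →+* Qb) (coeffMap A.subtype U) := by
  rw [galA, coeffMap_coeffMap, coeffMap_coeffMap]
  exact coeffMap_congr (RingHom.ext fun a => rfl) U

theorem coeffMap_residue_galA (g : A.decompositionSubgroup ℚ) (U : LaurentSeries A) :
    coeffMap (residue A) (galA g U) = coeffMap (decK g) (coeffMap (residue A) U) := by
  rw [galA, coeffMap_coeffMap, coeffMap_coeffMap]
  exact coeffMap_congr (RingHom.ext fun a => rfl) U

theorem isInt_galA (g : A.decompositionSubgroup ℚ) {U : LaurentSeries A} (hU : IsInt A N U) :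
    IsInt A N (galA g U) := by
  refine ⟨?_, ?_, ?_⟩
  · rw [coeffMap_subtype_galA]
    exact coeffMap_mem_laurentBaseChange (g : Qb ≃ₐ[ℚ] Qb) hU.1
  · rw [coeffMap_residue_galA]
    exact coeffMap_mem_fullC _ hU.2.1
  · rw [coeffMap_residue_galA]
    exact coeffMap_ne_zero_of_injective _ (decK_injective g) hU.2.2

theorem toF_galA (g : A.decompositionSubgroup ℚ) {U : LaurentSeries A} (hU : IsInt A N U) :
    toF (isInt_galA g hU)
      = arithmeticGalois (modularFunctionFieldFull N) (g : Qb ≃ₐ[ℚ] Qb) • toF hU := by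
  apply Subtype.ext
  rw [coe_arithmeticGalois_smul]
  exact coeffMap_subtype_galA g U

end Fermat.Agent.S29.H222

end
end
-- ===== PACK-END S29/H222/ESKInt.lean

-- ===== PACK-BEGIN S28/H326/Conj.lean
section
/-
S28 / helper326: the conjugates `y i` of `j(t^(p²))`; power sums; lifting to `ℤ[Y][X]`.
-/



set_option autoImplicit false
set_option linter.unusedSectionVars false

noncomputable section

namespace Fermat.Agent.S28.H326

open ModularCurve HahnSeries

variable (p : ℕ) [NeZero p]

/-! ### The conjugates of `j` -/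

/-- `j(t^(p²))` and `j(ζ^b t)` -/
def y : Option (Fin p) → LaurentSeries ℂ
  | none => qExpand ℂ p (jP p)
  | some b => HahnSeries.C ((zeta p ^ (b : ℕ))⁻¹) * HahnSeries.single (-1 : ℤ) 1 *
      cB p b (toC jNum)

theorem jC_mul_ofPS_DC : jqModC ℂ * ofPS DC = ofPS EC := by
  have := congrArg kap jq_mul_deltaZ
  rwa [map_mul, coeffMap_jqModC, deltaZ, kap_ofPS, kap_ofPS] at this

theorem y_mul_conj (i : Option (Fin p)) : y p i * conj p i DC = conj p i EC := by
  cases i with
  | none =>
    simp only [y, conj, cInf, cBase, RingHom.comp_apply, jP]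
    rw [← map_mul, ← map_mul, jC_mul_ofPS_DC]
  | some b =>
    simp only [y, conj]
    have hE : EC = toC jNum * UC := by
      rw [EC, UC, ← map_mul, jNum_mul_unit]
    rw [DC_eq, hE, map_mul, map_mul]
    have hX : cB p b PowerSeries.X =
        HahnSeries.C (zeta p ^ (b : ℕ)) * HahnSeries.single (1 : ℤ) 1 := by
      rw [cB, RingHom.comp_apply, PowerSeries.rescale_X, map_mul, HahnSeries.ofPowerSeries_C,
        HahnSeries.ofPowerSeries_X]
    rw [hX]
    have h1 : HahnSeries.C ((zeta p ^ (b : ℕ))⁻¹) * HahnSeries.C (zeta p ^ (b : ℕ)) =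
        (1 : LaurentSeries ℂ) := by
      rw [← map_mul, inv_mul_cancel₀ (pow_ne_zero _ (zeta_ne_zero p)), map_one]
    have h2 : HahnSeries.single (-1 : ℤ) (1 : ℂ) * HahnSeries.single (1 : ℤ) 1 = 1 := by
      rw [HahnSeries.single_mul_single]
      simp
    calc HahnSeries.C ((zeta p ^ (b : ℕ))⁻¹) * HahnSeries.single (-1 : ℤ) 1 *
          cB p b (toC jNum) * (HahnSeries.C (zeta p ^ (b : ℕ)) * HahnSeries.single (1 : ℤ) 1 *
            cB p b UC)
        = (HahnSeries.C ((zeta p ^ (b : ℕ))⁻¹) * HahnSeries.C (zeta p ^ (b : ℕ))) *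
            (HahnSeries.single (-1 : ℤ) (1 : ℂ) * HahnSeries.single (1 : ℤ) 1) *
            (cB p b (toC jNum) * cB p b UC) := by ring
      _ = _ := by rw [h1, h2, one_mul, one_mul]

theorem y_mul_w (i : Option (Fin p)) : y p i * w p i = Y p i := by
  rw [w, Y, ← y_mul_conj p i]
  ring

/-! ### Power sums of the `y i` -/

/-- polynomials over `ℂ((t))` with coefficients in `ℚ[j(t^p)]` -/
abbrev BPoly : Subsemiring (Polynomial (LaurentSeries ℂ)) :=
  Polynomial.lifts ((Bsub p).val : (Bsub p) →+* LaurentSeries ℂ)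

theorem mem_BPoly_iff (F : Polynomial (LaurentSeries ℂ)) :
    F ∈ BPoly p ↔ ∀ n, F.coeff n ∈ Bsub p := by
  rw [Polynomial.lifts_iff_coeff_lifts]
  constructor
  · intro h n
    obtain ⟨x, hx⟩ := h n
    rw [← hx]
    exact x.2
  · intro h n
    exact ⟨⟨F.coeff n, h n⟩, rfl⟩

theorem sum_Y_pow_mul_eval_mem (h : HeckeInput p) (a : ℕ) {F : Polynomial (LaurentSeries ℂ)}
    (hF : F ∈ BPoly p) : ∑ i, Y p i ^ a * F.eval (w p i) ∈ Bsub p := by
  have h1 : ∀ i, Y p i ^ a * F.eval (w p i) =
      ∑ r ∈ Finset.range (F.natDegree + 1), F.coeff r * (Y p i ^ a * w p i ^ r) := by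
    intro i
    rw [Polynomial.eval_eq_sum_range, Finset.mul_sum]
    exact Finset.sum_congr rfl fun r _ => by ring
  simp only [h1]
  rw [Finset.sum_comm]
  refine Subalgebra.sum_mem _ fun r _ => ?_
  rw [← Finset.mul_sum]
  obtain ⟨P, hP⟩ := sum_Y_pow_mul_w_pow p h a r
  rw [hP]
  exact Subalgebra.mul_mem _ ((mem_BPoly_iff p F).mp hF r) (theta_mem_Bsub p P)

/-- the polynomial `G` with `w i * G(w i) = 1` -/
theorem exists_inv_poly (h : HeckeInput p) :
    ∃ G : Polynomial (LaurentSeries ℂ), G ∈ BPoly p ∧ ∀ i, w p i * G.eval (w p i) = 1 := by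
  obtain ⟨c, hc0, hc⟩ := exists_WPoly_coeff_zero p h
  refine ⟨Polynomial.C (algebraMap ℚ (LaurentSeries ℂ) (-c⁻¹)) * (WPoly p).divX, ?_, ?_⟩
  · rw [mem_BPoly_iff]
    intro n
    rw [Polynomial.coeff_C_mul, Polynomial.coeff_divX]
    exact Subalgebra.mul_mem _ (Subalgebra.algebraMap_mem _ _) (WPoly_coeff_mem p h _)
  · intro i
    have h1 := WPoly_eval p i
    rw [← Polynomial.divX_mul_X_add (WPoly p), Polynomial.eval_add, Polynomial.eval_mul,
      Polynomial.eval_X, Polynomial.eval_C, hc] at h1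
    rw [Polynomial.eval_mul, Polynomial.eval_C]
    have h2 : (WPoly p).divX.eval (w p i) * w p i = -algebraMap ℚ (LaurentSeries ℂ) c :=
      eq_neg_of_add_eq_zero_left h1
    calc w p i * (algebraMap ℚ (LaurentSeries ℂ) (-c⁻¹) * (WPoly p).divX.eval (w p i))
        = algebraMap ℚ (LaurentSeries ℂ) (-c⁻¹) * ((WPoly p).divX.eval (w p i) * w p i) := by ring
      _ = algebraMap ℚ (LaurentSeries ℂ) (-c⁻¹) * (-algebraMap ℚ (LaurentSeries ℂ) c) := by rw [h2]
      _ = algebraMap ℚ (LaurentSeries ℂ) (-c⁻¹ * -c) := by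
        rw [map_mul, map_neg (algebraMap ℚ (LaurentSeries ℂ)) c]
      _ = 1 := by
        rw [neg_mul_neg, inv_mul_cancel₀ hc0, map_one]

theorem sum_y_pow_mem (h : HeckeInput p) (m : ℕ) : ∑ i, y p i ^ m ∈ Bsub p := by
  obtain ⟨G, hG, hGw⟩ := exists_inv_poly p h
  have h1 : ∀ i, y p i ^ m = Y p i ^ m * (G ^ m).eval (w p i) := by
    intro i
    rw [Polynomial.eval_pow, ← mul_pow, ← y_mul_w, mul_assoc, hGw, mul_one]
  simp only [h1]
  exact sum_Y_pow_mul_eval_mem p h m (Subsemiring.pow_mem _ hG m)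

/-! ### The polynomial `Φ` -/

/-- `Φ = ∏ (X - y i)` over `ℂ((t))` -/
def PhiPoly : Polynomial (LaurentSeries ℂ) := ∏ i, (Polynomial.X - Polynomial.C (y p i))

theorem PhiPoly_monic : (PhiPoly p).Monic :=
  Polynomial.monic_prod_of_monic _ _ fun _ _ => Polynomial.monic_X_sub_C _

theorem PhiPoly_natDegree : (PhiPoly p).natDegree = p + 1 := by
  rw [PhiPoly, Polynomial.natDegree_prod_of_monic _ _ fun i _ => Polynomial.monic_X_sub_C _]
  simp

theorem PhiPoly_coeff_mem (h : HeckeInput p) (n : ℕ) : (PhiPoly p).coeff n ∈ Bsub p :=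
  prod_X_sub_C_mem_of_psum_mem (Bsub p) (y p) (fun m _ => sum_y_pow_mem p h m) n

theorem PhiPoly_eval (i : Option (Fin p)) : (PhiPoly p).eval (y p i) = 0 := by
  rw [PhiPoly, Polynomial.eval_prod]
  exact Finset.prod_eq_zero (Finset.mem_univ i) (by simp)

/-! ### Integrality -/

theorem prod_X_sub_C_coeff_mem_subring (S : Subring (LaurentSeries ℂ)) {ι : Type*} [Fintype ι]
    (z : ι → LaurentSeries ℂ) (hz : ∀ i, z i ∈ S) (n : ℕ) :
    (∏ i, (Polynomial.X - Polynomial.C (z i))).coeff n ∈ S := by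
  have : (∏ i, (Polynomial.X - Polynomial.C (z i))) =
      (∏ i, (Polynomial.X - Polynomial.C (⟨z i, hz i⟩ : S))).map S.subtype := by
    rw [Polynomial.map_prod]
    refine Finset.prod_congr rfl fun i _ => ?_
    simp
  rw [this, Polynomial.coeff_map]
  exact Subtype.property _

theorem C_mem_IntCoeff {c : ℂ} (hc : IsIntegral ℤ c) : HahnSeries.C c ∈ IntCoeff := fun n => by
  show IsIntegral ℤ ((HahnSeries.single 0 c).coeff n)
  rcases eq_or_ne n 0 with rfl | hn
  · rw [HahnSeries.coeff_single_same]; exact hc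
  · rw [HahnSeries.coeff_single_of_ne hn]; exact isIntegral_zero

theorem single_one_mem_IntCoeff (e : ℤ) : HahnSeries.single e (1 : ℂ) ∈ IntCoeff := fun n => by
  rcases eq_or_ne n e with rfl | hn
  · rw [HahnSeries.coeff_single_same]; exact isIntegral_one
  · rw [HahnSeries.coeff_single_of_ne hn]; exact isIntegral_zero

theorem conj_mem_IntCoeff (i : Option (Fin p)) (g : PowerSeries ℤ) :
    conj p i (toC g) ∈ IntCoeff := by
  cases i with
  | none =>
    simp only [conj, cInf, cBase, RingHom.comp_apply]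
    rw [← kap_ofPS]
    exact qExpand_mem_IntCoeff p (qExpand_mem_IntCoeff p (kap_mem_IntCoeff _))
  | some b => exact cB_mem_IntCoeff p b g

theorem scal_mem_IntCoeff (i : Option (Fin p)) : scal p i ∈ IntCoeff := by
  cases i with
  | none => exact Subring.pow_mem _ (natCast_mem _ p) 12
  | some b => exact Subring.one_mem _

theorem w_mem_IntCoeff (i : Option (Fin p)) : w p i ∈ IntCoeff :=
  Subring.mul_mem _ (Subring.mul_mem _ (scal_mem_IntCoeff p i) (conj_mem_IntCoeff p i DZ))
    (delInv_mem_IntCoeff p)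

theorem zeta_pow_inv_isIntegral (b : ℕ) : IsIntegral ℤ ((zeta p ^ b)⁻¹) := by
  have h0 : zeta p ^ (p - 1) * zeta p = 1 := by
    rw [← pow_succ, Nat.sub_add_cancel (Nat.pos_of_ne_zero (NeZero.ne p)), zeta_pow_self]
  have h : (zeta p ^ b)⁻¹ = (zeta p ^ (p - 1)) ^ b := by
    rw [← inv_pow]
    congr 1
    exact (eq_inv_of_mul_eq_one_left h0).symm
  rw [h]
  exact ((zeta_isIntegral p).pow _).pow _

theorem y_mem_IntCoeff (i : Option (Fin p)) : y p i ∈ IntCoeff := by
  cases i with
  | none =>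
    simp only [y]
    have := jP_pow_mem_IntCoeff p 1
    rw [pow_one] at this
    exact qExpand_mem_IntCoeff p this
  | some b =>
    simp only [y]
    exact Subring.mul_mem _ (Subring.mul_mem _ (C_mem_IntCoeff (zeta_pow_inv_isIntegral p b))
      (single_one_mem_IntCoeff _)) (cB_mem_IntCoeff p b jNum)

/-! ### Lifting to `ℤ[Y][X]` -/

theorem exists_lift (F : Polynomial (LaurentSeries ℂ)) (hmonic : F.Monic)
    (hB : ∀ n, F.coeff n ∈ Bsub p) (hI : ∀ n, F.coeff n ∈ IntCoeff) :
    ∃ Φ : Polynomial (Polynomial ℤ), Φ.Monic ∧ Φ.natDegree = F.natDegree ∧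
      Φ.map (theta p) = F := by
  have hl : F ∈ Polynomial.lifts (theta p) := by
    rw [Polynomial.lifts_iff_coeff_lifts]
    intro n
    obtain ⟨Q, hQ⟩ := hB n
    have hQ' : Polynomial.aeval (jP p) Q = F.coeff n := hQ
    obtain ⟨Q', hQ''⟩ := exists_int_poly_of_integral p Q (hQ' ▸ hI n)
    exact ⟨Q', by rw [theta_eq_aeval, hQ'', hQ']⟩
  obtain ⟨Φ, h1, h2, h3⟩ := Polynomial.lifts_and_natDegree_eq_and_monic hl hmonic
  exact ⟨Φ, h3, h2, h1⟩

/-- **The unit polynomial over `ℤ[j]`**. -/
theorem exists_W (h : HeckeInput p) :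
    ∃ W : Polynomial (Polynomial ℤ), W.Monic ∧ W.natDegree = p + 1 ∧
      W.map (theta p) = WPoly p := by
  obtain ⟨W, h1, h2, h3⟩ := exists_lift p (WPoly p) (WPoly_monic p) (WPoly_coeff_mem p h)
    (fun n => prod_X_sub_C_coeff_mem_subring IntCoeff _ (w_mem_IntCoeff p) n)
  exact ⟨W, h1, h2.trans (WPoly_natDegree p), h3⟩

/-- **The modular polynomial over `ℤ[j]`**. -/
theorem exists_Phi (h : HeckeInput p) :
    ∃ Φ : Polynomial (Polynomial ℤ), Φ.Monic ∧ Φ.natDegree = p + 1 ∧
      Φ.map (theta p) = PhiPoly p := by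
  obtain ⟨Φ, h1, h2, h3⟩ := exists_lift p (PhiPoly p) (PhiPoly_monic p) (PhiPoly_coeff_mem p h)
    (fun n => prod_X_sub_C_coeff_mem_subring IntCoeff _ (y_mem_IntCoeff p) n)
  exact ⟨Φ, h1, h2.trans (PhiPoly_natDegree p), h3⟩

end Fermat.Agent.S28.H326

end
end
-- ===== PACK-END S28/H326/Conj.lean

-- ===== PACK-BEGIN Lib/RR/H443/LSpace.lean
section


/-!
# RR bridge (helper443), part 2: the spaces `L(D)` without `HasPrincipalDivisors`

Characteristic-free.  Under the hypotheses `Hyp K F` (all places have degree one, `F` is finite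
over `K(x)` for every transcendental `x`, `K` is algebraically closed in `F`) we prove
`L(0) = K`, finite-dimensionality of `L(D)` and `ℓ(D) ≤ deg D + 1` for `D ≥ 0`, *without*
assuming that principal divisors have degree zero.
-/

set_option autoImplicit false

noncomputable section

open AlgebraicCurve Polynomial IntermediateField
open Fermat.Agent.Lib.RR

namespace Fermat.Agent.Lib.RR.H443

variable {K F : Type*} [Field K] [Field F] [Algebra K F]

variable (K F) in
/-- Hypotheses of the bridge: a function field of one variable with constant field `K`, all of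
whose places have degree one. -/
structure Hyp : Prop where
  deg_eq_one : ∀ v : Place K F, v.deg = 1
  finite : ∀ x : F, Transcendental K x → FiniteDimensional K⟮x⟯ F
  const : ∀ f : F, IsAlgebraic K f → f ∈ (algebraMap K F).range

/-- Functions without poles are constant (no `HasPrincipalDivisors` needed). -/
theorem L_zero_eq (h : Hyp K F) :
    riemannRochSpace (0 : Divisor K F) = LinearMap.range (Algebra.linearMap K F) := by
  apply le_antisymm
  · intro f hf
    by_contra hcon
    have htr : Transcendental K f := fun halg => hcon (by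
      obtain ⟨c, hc⟩ := h.const f halg
      exact ⟨c, hc⟩)
    obtain ⟨v, hv⟩ := exists_place_ord_neg h.finite htr
    rcases mem_L_iff.mp hf v with h0 | h0
    · rw [h0, v.ord_zero] at hv
      exact lt_irrefl _ hv
    · simp only [Finsupp.coe_zero, Pi.zero_apply, neg_zero] at h0
      omega
  · rintro _ ⟨c, rfl⟩
    rw [mem_L_iff]
    intro v
    right
    simp [ord_algebraMap]

theorem finite_L_zero (h : Hyp K F) : Module.Finite K (riemannRochSpace (0 : Divisor K F)) := by
  rw [L_zero_eq h]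
  infer_instance

theorem ell_zero_eq (h : Hyp K F) : ell (0 : Divisor K F) = 1 := by
  unfold ell
  rw [L_zero_eq h]
  have hinj : Function.Injective (Algebra.linearMap K F) := (algebraMap K F).injective
  rw [LinearMap.finrank_range_of_inj hinj]
  exact Module.finrank_self K

theorem prim_le_of_pos {D : Divisor K F} (hD : 0 ≤ D) {v : Place K F} (hv : D v ≠ 0) :
    prim v ≤ D := by
  rw [Finsupp.le_def]
  intro w
  have hw0 : 0 ≤ D w := by simpa using Finsupp.le_def.mp hD w
  by_cases hw : w = v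
  · subst hw
    rw [prim_apply_self]
    omega
  · rw [prim_apply_of_ne hw]
    exact hw0

/-- `L(D)` is finite-dimensional of dimension `≤ deg D + 1` for effective `D`. -/
theorem finite_and_ell_le_of_nonneg (h : Hyp K F) :
    ∀ (n : ℕ) (D : Divisor K F), 0 ≤ D → Divisor.degree D ≤ n →
      Module.Finite K (riemannRochSpace D) ∧ (ell D : ℤ) ≤ Divisor.degree D + 1 := by
  intro n
  induction n with
  | zero =>
    intro D hD hdeg
    have hD0 : D = 0 := by
      by_contra hne
      obtain ⟨v, hv⟩ := Finsupp.support_nonempty_iff.mpr hne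
      rw [Finsupp.mem_support_iff] at hv
      have := degree_mono (prim_le_of_pos hD hv)
      rw [degree_prim v (h.deg_eq_one v)] at this
      push_cast at hdeg
      omega
    subst hD0
    refine ⟨finite_L_zero h, ?_⟩
    rw [ell_zero_eq h, map_zero]
    norm_num
  | succ n ih =>
    intro D hD hdeg
    by_cases hD0 : D = 0
    · subst hD0
      refine ⟨finite_L_zero h, ?_⟩
      rw [ell_zero_eq h, map_zero]
      norm_num
    obtain ⟨v, hv⟩ := Finsupp.support_nonempty_iff.mpr hD0
    rw [Finsupp.mem_support_iff] at hv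
    have hle := prim_le_of_pos hD hv
    have hD' : 0 ≤ D - prim v := sub_nonneg.mpr hle
    have hdeg' : Divisor.degree (D - prim v) ≤ n := by
      rw [map_sub, degree_prim v (h.deg_eq_one v)]
      push_cast at hdeg
      omega
    obtain ⟨hfin, hell⟩ := ih (D - prim v) hD' hdeg'
    have := L_add_prim_finite v (h.deg_eq_one v) (D - prim v)
    rw [sub_add_cancel] at this
    refine ⟨this.1, ?_⟩
    have h2 := this.2
    rw [map_sub, degree_prim v (h.deg_eq_one v)] at hell
    have h3 : (ell D : ℤ) ≤ (ell (D - prim v) : ℤ) + 1 := by exact_mod_cast h2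
    omega

theorem finite_L_of_nonneg (h : Hyp K F) {D : Divisor K F} (hD : 0 ≤ D) :
    Module.Finite K (riemannRochSpace D) :=
  (finite_and_ell_le_of_nonneg h (Divisor.degree D).toNat D hD (Int.self_le_toNat _)).1

theorem ell_le_of_nonneg (h : Hyp K F) {D : Divisor K F} (hD : 0 ≤ D) :
    (ell D : ℤ) ≤ Divisor.degree D + 1 :=
  (finite_and_ell_le_of_nonneg h (Divisor.degree D).toNat D hD (Int.self_le_toNat _)).2

/-- `L(D)` is finite-dimensional for every divisor `D`. -/
theorem finite_L (h : Hyp K F) (D : Divisor K F) : Module.Finite K (riemannRochSpace D) := by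
  have hle : D ≤ D ⊔ 0 := le_sup_left
  have hfin := finite_L_of_nonneg h (D := D ⊔ 0) le_sup_right
  exact Submodule.finiteDimensional_of_le (L_mono hle)

end Fermat.Agent.Lib.RR.H443

end
end
-- ===== PACK-END Lib/RR/H443/LSpace.lean

-- ===== PACK-BEGIN S18/Mod/H216/Eval.lean
section



/-!
# S18 / MOD (helper216): polynomials in `j` over `A ∩ E` — the evaluation dictionary

`S0 A E = A ∩ E ⊆ Q̄`,  `eRc : S0 ≃+* Rc M A E`,  `resS : S0 →+* κ`,
`Uev : (S0)[X] →+* intE M A E`, `X ↦ j`, with

* `toOm_Uev` : `toOm (Uev p) = evR (Rc M A E) (jOm M) (p.map eRc)`   (value in `Ω`),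
* `redE_Uev` : `redE (Uev p) = evJ (p.map resS)`                      (reduction),
* `redE_Uev_ne_zero_iff` : `redE (Uev p) ≠ 0 ↔ p.map resS ≠ 0`.
-/

set_option autoImplicit false
set_option linter.unusedSectionVars false

noncomputable section

namespace Fermat.Agent.S18.Mod.H216

open ModularCurve AlgebraicCurve HahnSeries Polynomial Fermat.Agent.S18 Fermat.Agent.S18.Mod

variable (M : ℕ) (A : ValuationSubring Qb) (E : IntermediateField ℚ Qb)

/-- `A ∩ E` as a subring of `Q̄`. -/
abbrev S0 : Subring Qb := A.toSubring ⊓ E.toSubfield.toSubring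

theorem Rc_eq_map : Rc M A E = (S0 A E).map (algebraMap Qb (Om M)) := rfl

/-- `A ∩ E ≃ Rc`. -/
def eRc : ↥(S0 A E) ≃+* ↥(Rc M A E) :=
  Subring.equivMapOfInjective (S0 A E) (algebraMap Qb (Om M)) (algebraMap Qb (Om M)).injective

@[simp] theorem coe_eRc (c : ↥(S0 A E)) :
    ((eRc M A E c : ↥(Rc M A E)) : Om M) = algebraMap Qb (Om M) (c : Qb) := rfl

/-- `A ∩ E → A`. -/
def s0ToA : ↥(S0 A E) →+* ↥A := Subring.inclusion (inf_le_left : S0 A E ≤ A.toSubring)

@[simp] theorem coe_s0ToA (c : ↥(S0 A E)) : ((s0ToA A E c : ↥A) : Qb) = (c : Qb) := rfl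

/-- The residue map on `A ∩ E`. -/
def resS : ↥(S0 A E) →+* IsLocalRing.ResidueField ↥A :=
  (IsLocalRing.residue ↥A).comp (s0ToA A E)

/-- Constant series. -/
def cS : ↥(S0 A E) →+* ↥(intE M A E) where
  toFun c := cInt M A E c.2.1 c.2.2
  map_one' := Subtype.ext (by simp [cInt]; rfl)
  map_mul' a b := Subtype.ext (by
    show HahnSeries.C (⟨(a : Qb) * (b : Qb), _⟩ : ↥A) = HahnSeries.C _ * HahnSeries.C _
    rw [← map_mul]
    rfl)
  map_zero' := Subtype.ext (by simp [cInt]; rfl)
  map_add' a b := Subtype.ext (by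
    show HahnSeries.C (⟨(a : Qb) + (b : Qb), _⟩ : ↥A) = HahnSeries.C _ + HahnSeries.C _
    rw [← map_add]
    rfl)

theorem toOm_cS (c : ↥(S0 A E)) : toOm M A E (cS M A E c) = algebraMap Qb (Om M) (c : Qb) :=
  toOm_cInt M A E c.2.1 c.2.2

theorem redE_cS (c : ↥(S0 A E)) : redE M A E (cS M A E c) = HahnSeries.C (resS A E c) :=
  redE_cInt M A E c.2.1 c.2.2

/-- Evaluation at `j` of polynomials over `A ∩ E`, as integral series. -/
def Uev : (↥(S0 A E))[X] →+* ↥(intE M A E) := Polynomial.eval₂RingHom (cS M A E) (jInt M A E)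

theorem toOm_Uev (p : (↥(S0 A E))[X]) :
    toOm M A E (Uev M A E p) =
      evR (Rc M A E) (jOm M) (p.map (eRc M A E : ↥(S0 A E) →+* ↥(Rc M A E))) := by
  have h : (toOm M A E).comp (Uev M A E) =
      (evR (Rc M A E) (jOm M)).comp
        (Polynomial.mapRingHom (eRc M A E : ↥(S0 A E) →+* ↥(Rc M A E))) := by
    apply Polynomial.ringHom_ext
    · intro c
      simp only [RingHom.comp_apply, Uev, Polynomial.coe_eval₂RingHom, Polynomial.eval₂_C,
        Polynomial.coe_mapRingHom, Polynomial.map_C, evR_C]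
      rw [toOm_cS]
      rfl
    · simp only [RingHom.comp_apply, Uev, Polynomial.coe_eval₂RingHom, Polynomial.eval₂_X,
        Polynomial.coe_mapRingHom, Polynomial.map_X, evR_X]
      exact toOm_jInt M A E
  exact RingHom.congr_fun h p

theorem redE_Uev (p : (↥(S0 A E))[X]) :
    redE M A E (Uev M A E p) = H516.evJ (p.map (resS A E)) := by
  have h : (redE M A E).comp (Uev M A E) =
      (Polynomial.eval₂RingHom (HahnSeries.C (Γ := ℤ) (R := IsLocalRing.ResidueField ↥A))
        (jqModC (IsLocalRing.ResidueField ↥A))).comp (Polynomial.mapRingHom (resS A E)) := by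
    apply Polynomial.ringHom_ext
    · intro c
      simp only [RingHom.comp_apply, Uev, Polynomial.coe_eval₂RingHom, Polynomial.eval₂_C,
        Polynomial.coe_mapRingHom, Polynomial.map_C]
      exact redE_cS M A E c
    · simp only [RingHom.comp_apply, Uev, Polynomial.coe_eval₂RingHom, Polynomial.eval₂_X,
        Polynomial.coe_mapRingHom, Polynomial.map_X]
      exact redE_jInt M A E
  exact RingHom.congr_fun h p

theorem redE_Uev_eq_zero_iff (p : (↥(S0 A E))[X]) :
    redE M A E (Uev M A E p) = 0 ↔ p.map (resS A E) = 0 := by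
  rw [redE_Uev, H516.evJ_eq_zero_iff]

/-- Every polynomial over `Rc` comes from a polynomial over `A ∩ E`. -/
theorem evR_eq_toOm_Uev (p : (↥(Rc M A E))[X]) :
    evR (Rc M A E) (jOm M) p =
      toOm M A E (Uev M A E (p.map ((eRc M A E).symm : ↥(Rc M A E) →+* ↥(S0 A E)))) := by
  rw [toOm_Uev, Polynomial.map_map]
  have : ((eRc M A E : ↥(S0 A E) →+* ↥(Rc M A E)).comp
      ((eRc M A E).symm : ↥(Rc M A E) →+* ↥(S0 A E))) = RingHom.id _ := by
    ext c
    simp
  rw [this, Polynomial.map_id]

end Fermat.Agent.S18.Mod.H216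

end
end
-- ===== PACK-END S18/Mod/H216/Eval.lean

-- ===== PACK-BEGIN S18/H394/ChartInst.lean
section



/-!
# S18, Route K (helper394): instances for the charts `H138.chart R {x}`

For `R` noetherian with `R[X]` integrally closed, `F` of characteristic `0`, `x ∈ F` transcendental
over `R` and `F` finite over `baseField R x`: the chart `B = chart R {x}` (integral closure of
`R[x]` in `F`), as a type, is a noetherian integrally closed domain with fraction field `F`.
-/

set_option autoImplicit false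
set_option linter.style.haveILetI false

namespace Fermat.Agent.S18.H394

open Polynomial
open Fermat.Agent.S18.H138 (chart baseField)

section ChartInst

variable {R : Type*} [CommRing R] {F : Type*} [Field F] [Algebra R F]
variable [IsNoetherianRing R] [IsIntegrallyClosed R[X]] [CharZero F]

theorem chart_instances {x : F} (hx : Transcendental R x)
    [FiniteDimensional (baseField R x) F] :
    IsNoetherianRing (chart R ({x} : Set F)) ∧ IsIntegrallyClosed (chart R ({x} : Set F)) ∧
      IsFractionRing (chart R ({x} : Set F)) F := by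
  classical
  set A : Subalgebra R F := Algebra.adjoin R ({x} : Set F) with hA
  set K : Subfield F := baseField R x with hK
  haveI := H138.isIntegrallyClosed_adjoin_singleton (R := R) hx
  haveI := H138.isNoetherianRing_adjoin_singleton (R := R) hx
  let φ : A →+* K :=
    { toFun := fun a => ⟨a, H138.adjoin_le_baseField x a.2⟩
      map_one' := rfl
      map_mul' := fun _ _ => rfl
      map_zero' := rfl
      map_add' := fun _ _ => rfl }
  letI : Algebra A K := φ.toAlgebra
  haveI : IsScalarTower A K F := IsScalarTower.of_algebraMap_eq (fun _ => rfl)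
  have hinj : Function.Injective (algebraMap A K) := by
    intro a b hab
    have : (a : F) = b := congrArg (fun t : K => (t : F)) hab
    exact Subtype.ext this
  haveI : FaithfulSMul A K := (faithfulSMul_iff_algebraMap_injective A K).2 hinj
  haveI : IsFractionRing A K := by
    refine IsFractionRing.of_field A K (fun z => ?_)
    obtain ⟨a, ha, b, hb, h⟩ := H138.exists_div_of_mem_baseField (R := R) x z.2
    exact ⟨⟨a, ha⟩, ⟨b, hb⟩, Subtype.ext h⟩
  haveI : CharZero K := (algebraMap K F).charZero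
  have h1 : IsNoetherianRing (integralClosure A F) := integralClosure.isNoetherianRing (K := K) F
  have h2 : IsIntegrallyClosed (integralClosure A F) :=
    integralClosure.isIntegrallyClosedOfFiniteExtension K
  have h3 : IsFractionRing (integralClosure A F) F :=
    integralClosure.isFractionRing_of_finite_extension K F
  exact ⟨h1, h2, h3⟩

end ChartInst

end Fermat.Agent.S18.H394

end
-- ===== PACK-END S18/H394/ChartInst.lean

-- ===== PACK-BEGIN S18/B12/H203/RedBasisAbs.lean
section






/-!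
# S18 / b2.5, piece A5': reduced basis at a prime `s` with `P/(s)` a PID (`RedBasisAbsStatement`)

Adapter: `H693.exists_redBasis` applied to `B/sB` over `P/(s)`, which is finite and torsion-free
(`H203.isTorsionFree_quotient`, `H203.finite_quotient`).
-/

set_option autoImplicit false

noncomputable section

namespace Fermat.Agent.S18.B12.H203

open Fermat.Agent.S18.H203

universe u v

/-- Nilpotency in `B/sB` is membership in `rad (sB)`. -/
theorem isNilpotent_redB_iff {P : Type*} {B : Type*} [CommRing P] [CommRing B] [Algebra P B]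
    (s : P) (b : B) :
    IsNilpotent (redB (S := P) s b) ↔ b ∈ (Ideal.span {algebraMap P B s}).radical := by
  rw [← map_span_singleton_eq]
  constructor
  · rintro ⟨k, hk⟩
    rw [← map_pow, Ideal.Quotient.eq_zero_iff_mem] at hk
    exact ⟨k, hk⟩
  · rintro ⟨k, hk⟩
    refine ⟨k, ?_⟩
    rw [← map_pow, Ideal.Quotient.eq_zero_iff_mem]
    exact hk

/-- **A5' (reduced basis at a prime `s` with `P/(s)` a PID).** -/
theorem redBasisAbs.{u₁, v₁} : RedBasisAbsStatement.{u₁, v₁} := by
  intro P _ _ _ B _ _ _ _ _ _ s hs hpid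
  let _ : Algebra (FractionRing P) (FractionRing B) := FractionRing.liftAlgebra P _
  have : IsScalarTower P (FractionRing P) (FractionRing B) :=
    FractionRing.isScalarTower_liftAlgebra P (FractionRing B)
  have : IsIntegralClosure B P (FractionRing B) :=
    IsIntegralClosure.of_isIntegrallyClosed _ _ _
  have hprime : (Ideal.span {s}).IsPrime := (Ideal.span_singleton_prime hs.ne_zero).mpr hs
  have hdom : IsDomain (P ⧸ Ideal.span {s}) := Ideal.Quotient.isDomain _
  have htf : Module.IsTorsionFree (P ⧸ Ideal.span {s})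
      (B ⧸ (Ideal.span {s}).map (algebraMap P B)) :=
    isTorsionFree_quotient (B := B) (FractionRing P) (FractionRing B) hs
  have hfin : Module.Finite (P ⧸ Ideal.span {s})
      (B ⧸ (Ideal.span {s}).map (algebraMap P B)) := finite_quotient (B := B) (Ideal.span {s})
  obtain ⟨r, yb, h1, h2⟩ := Fermat.Agent.S18.B12.H693.exists_redBasis (P ⧸ Ideal.span {s})
    (B ⧸ (Ideal.span {s}).map (algebraMap P B))
  choose y hy using fun i => Ideal.Quotient.mk_surjective (yb i)
  have hsum : ∀ a : Fin r → P,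
      redB (S := P) s (∑ i, a i • y i) = ∑ i, redS s (a i) • yb i := by
    intro a
    rw [map_sum]
    refine Finset.sum_congr rfl fun i _ => ?_
    rw [redB_smul, ← hy i]
  refine ⟨r, y, ?_, ?_⟩
  · intro a ha i
    have h3 : IsNilpotent (∑ i, redS s (a i) • yb i) := by
      rw [← hsum]
      exact (isNilpotent_redB_iff s _).mpr ha
    have h4 := congrFun (h1 _ h3) i
    exact (redS_eq_zero_iff s (a i)).mp h4
  · intro b
    obtain ⟨ab, hab⟩ := h2 (redB (S := P) s b)
    choose a ha using fun i => Ideal.Quotient.mk_surjective (ab i)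
    refine ⟨a, ?_⟩
    rw [← isNilpotent_redB_iff, map_sub, hsum]
    have : (fun i => redS s (a i)) = ab := funext ha
    simp only [this] at *
    have hfun : (∑ i, redS s (a i) • yb i) = ∑ i, ab i • yb i :=
      Finset.sum_congr rfl fun i _ => by rw [← ha i]
    rw [hfun]
    exact hab

end Fermat.Agent.S18.B12.H203

end
end
-- ===== PACK-END S18/B12/H203/RedBasisAbs.lean

-- ===== PACK-BEGIN S18/B12/H84/Stmt.lean
section





/-!
# S18 / b2.5 / A8 + A9 (helper84): the `Spec3`-typed statements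

* `a9 : RegularAlongOfDedekindStatement`
* `a8_of_sfLattice : SFLatticeStatement → IntClosedOfDiscrStatement`
* `a8 : IntClosedOfDiscrStatement` (unconditional, with Theorem L = `H278.sfLattice` on main)
-/

set_option autoImplicit false

namespace Fermat.Agent.S18.B12.H84

universe u v

/-- **A9**, exact frozen shape. -/
theorem a9 : B12.RegularAlongOfDedekindStatement.{u} :=
  fun B _ ϖ hD 𝔪 h𝔪 hϖ => regularAlongOfDedekind B ϖ hD 𝔪 h𝔪 hϖ

/-- **A8** from Theorem L, exact frozen shapes. -/
theorem a8_of_sfLattice (hSF : B12.SFLatticeStatement.{u, v}) :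
    B12.IntClosedOfDiscrStatement.{u, v} :=
  fun Λ _ _ _ C _ _ _ n b hdisc hbound =>
    intClosedOfDiscr_of_sfLattice hSF Λ C n b hdisc hbound

/-- **A8**, exact frozen shape, unconditional (Theorem L from `H278.sfLattice`). -/
theorem a8 : B12.IntClosedOfDiscrStatement.{u, v} :=
  a8_of_sfLattice H278.sfLattice.{u, v}

end Fermat.Agent.S18.B12.H84

end
-- ===== PACK-END S18/B12/H84/Stmt.lean

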