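import Mathlib
import Fermat.Prelude.Def_AlgebraicCurve_Correspondence
import Fermat.Prelude.Def_FLTPrelim_FreyPackage
import Fermat.Prelude.Def_FLTPrelim_GaloisRep
import Fermat.Agent.Pack.S44C.G0E10L3
import Fermat.Agent.Pack.S44C.G0E13L0
import Fermat.Agent.Pack.S44C.G0E0L0
import Fermat.Agent.Pack.S44C.G0E13L1
import Fermat.Agent.Pack.S44C.G0E5L1
import Fermat.Agent.Pack.S44C.G0E10L1
import Fermat.Agent.Pack.S44C.G0E13L2
import Fermat.Agent.Pack.S44C.G0E0L1
import Fermat.Agent.Pack.S44C.G0E14L3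
import Fermat.Agent.Pack.S44C.G0E0L3
import Fermat.Agent.Pack.S44C.G0E6L3
import Fermat.Agent.Pack.S44C.G0E1L2
import Fermat.Agent.Pack.S44C.G0E11L2
import Fermat.Agent.Pack.S44C.G0E14L1
import Fermat.Agent.Pack.S44C.G0E2L3
import Fermat.Agent.Pack.S44C.G0E14L2
import Fermat.Agent.Pack.S44C.G0E14L0
import Fermat.Agent.Pack.S44C.G0E11L3
import Fermat.Agent.Pack.S44C.G0E3L1
import Fermat.Agent.Pack.S44C.G0E8L1
import Fermat.Agent.Pack.S44C.G0E12L1
import Fermat.Agent.Pack.S44C.G0E15L0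
import Fermat.Agent.Pack.Fast891

-- ===== PACK-BEGIN Ribet/H801/PushPic0.lean
section
/-
RIBET / W-DEG (helper801), part 1 (generic, Prelude language):
the push-forward `a_* : Pic0 K F₁ →+ Pic0 K F` along an integral map `a : F →ₐ[K] F₁` of function
fields with norm formula, its equivariance under semilinear automorphisms, and its commutation
with correspondences:

      a_* ∘ (ψ₁_* φ₁^*) = (ψ_* φ^*) ∘ a_*

for a commutative diagram `a' ∘ φ = φ₁ ∘ a`, `a' ∘ ψ = ψ₁ ∘ a` whose `φ`-square satisfies base change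
(helper818's `pullback_pushforward_eq`).
-/






set_option autoImplicit false
set_option linter.style.haveILetI false

noncomputable section

namespace Fermat.Agent.Ribet.H801

open AlgebraicCurve Fermat.Agent.S37.H818 Fermat.Agent.S29.H801

variable {K F F₁ G G₁ : Type*} [Field K] [Field F] [Field F₁] [Field G] [Field G₁]
  [Algebra K F] [Algebra K F₁] [Algebra K G] [Algebra K G₁]

section Def

variable (a : F →ₐ[K] F₁) (ha : a.toRingHom.IsIntegral)

/-- Push-forward of degree-zero divisors along `a`. -/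
def pushDegZero :
    Divisor.degZero (K := K) (F := F₁) →+ Divisor.degZero (K := K) (F := F) :=
  ((Divisor.pushforwardAlong a ha).domRestrict
    (Divisor.degZero (K := K) (F := F₁))).codRestrict _
    (fun D => Divisor.pushforwardAlong_mem_degZero a ha D.2)

@[simp]
theorem coe_pushDegZero (D : Divisor.degZero (K := K) (F := F₁)) :
    (pushDegZero a ha D : Divisor K F) = Divisor.pushforwardAlong a ha (D : Divisor K F₁) :=
  rfl

variable (hfin : FiniteAlong K a) (hN : NormFormulaAlong K a hfin)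

/-- **Push-forward on `Pic0`** along `a`. -/
def pushPic0 : Pic0 K F₁ →+ Pic0 K F :=
  QuotientAddGroup.map _ _ (pushDegZero a ha) (by
    rintro ⟨D, hD0⟩ hD
    simp only [AddSubgroup.mem_addSubgroupOf] at hD ⊢
    exact Divisor.isPrincipal_pushforwardAlong a ha hfin hN hD)

theorem pushPic0_mk (D : Divisor.degZero (K := K) (F := F₁)) :
    pushPic0 a ha hfin hN (Pic0.mk D) = Pic0.mk (pushDegZero a ha D) :=
  rfl

end Def

section Smul

variable (a : F →ₐ[K] F₁) (ha : a.toRingHom.IsIntegral)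
  (hfin : FiniteAlong K a) (hN : NormFormulaAlong K a hfin)
  {g : SemilinearAut K F} {g' : SemilinearAut K F₁}

/-- The push-forward on `Pic0` commutes with intertwined semilinear automorphisms. -/
theorem pushPic0_smul (h : SemilinearAut.IntertwinesAlong (a : F →+* F₁) g g')
    (x : Pic0 K F₁) :
    pushPic0 a ha hfin hN (g' • x) = g • pushPic0 a ha hfin hN x := by
  obtain ⟨D, rfl⟩ := Pic0.mk_surjective x
  rw [SemilinearAut.pic0_smul_mk, pushPic0_mk, pushPic0_mk, SemilinearAut.pic0_smul_mk]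
  refine congrArg Pic0.mk (Subtype.ext ?_)
  rw [coe_pushDegZero, SemilinearAut.coe_degZeroSMulHom, SemilinearAut.coe_degZeroSMulHom,
    coe_pushDegZero]
  exact Fermat.Agent.S29.H571.pushforwardAlong_smul a ha h (D : Divisor K F₁)

end Smul

section Correspondence

variable (a : F →ₐ[K] F₁) (φ ψ : F →ₐ[K] G) (φ₁ ψ₁ : F₁ →ₐ[K] G₁) (a' : G →ₐ[K] G₁)
  (ha : a.toRingHom.IsIntegral) (hφ : φ.toRingHom.IsIntegral) (hψ : ψ.toRingHom.IsIntegral)
  (hφ₁ : φ₁.toRingHom.IsIntegral) (hψ₁ : ψ₁.toRingHom.IsIntegral)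
  (ha' : a'.toRingHom.IsIntegral)
  (hsqφ : φ₁.comp a = a'.comp φ) (hsqψ : ψ₁.comp a = a'.comp ψ)

variable [HasPrincipalDivisors K G] [HasPrincipalDivisors K G₁] [HasPrincipalDivisors K F₁]

include hsqφ hsqψ ha' in
/-- `a_* ∘ (ψ₁_* φ₁^*) = (ψ_* φ^*) ∘ a_*` on divisors. -/
theorem pushforwardAlong_correspondence
    (hfin : FiniteAlong K a) (hN : NormFormulaAlong K a hfin)
    (hfin' : FiniteAlong K a') (hN' : NormFormulaAlong K a' hfin')
    (hnorm : NormCompat a φ a' φ₁) (hLG : HasLocalGenerators a ha) (D : Divisor K F₁) :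
    Divisor.pushforwardAlong a ha (Divisor.correspondence φ₁ ψ₁ hφ₁ hψ₁ D) =
      Divisor.correspondence φ ψ hφ hψ (Divisor.pushforwardAlong a ha D) := by
  have h1 : (ψ₁.comp a).toRingHom.IsIntegral := RingHom.IsIntegral.trans _ _ ha hψ₁
  have h2 : (a'.comp ψ).toRingHom.IsIntegral := RingHom.IsIntegral.trans _ _ hψ ha'
  rw [Divisor.correspondence_apply, Divisor.correspondence_apply,
    pullback_pushforward_eq a φ a' φ₁ ha hφ ha' hφ₁ hsqφ hfin hN hfin' hN' hnorm hLG,
    ← pushforwardAlong_comp a ψ₁ ha hψ₁ h1, ← pushforwardAlong_comp ψ a' hψ ha' h2]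
  exact pushforwardAlong_congr hsqψ h1 h2 _

include hsqφ hsqψ ha' in
/-- **`a_*` intertwines the correspondences on `Pic0`.** -/
theorem pushPic0_correspondence
    (hFI : FundamentalIdentityAlong K φ hφ) (hFI₁ : FundamentalIdentityAlong K φ₁ hφ₁)
    (hfinψ : FiniteAlong K ψ) (hNψ : NormFormulaAlong K ψ hfinψ)
    (hfinψ₁ : FiniteAlong K ψ₁) (hNψ₁ : NormFormulaAlong K ψ₁ hfinψ₁)
    (hfin : FiniteAlong K a) (hN : NormFormulaAlong K a hfin)
    (hfin' : FiniteAlong K a') (hN' : NormFormulaAlong K a' hfin')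
    (hnorm : NormCompat a φ a' φ₁) (hLG : HasLocalGenerators a ha) (x : Pic0 K F₁) :
    pushPic0 a ha hfin hN (Pic0.correspondence φ₁ ψ₁ hφ₁ hψ₁ hFI₁ hfinψ₁ hNψ₁ x) =
      Pic0.correspondence φ ψ hφ hψ hFI hfinψ hNψ (pushPic0 a ha hfin hN x) := by
  obtain ⟨D, rfl⟩ := Pic0.mk_surjective x
  rw [Pic0.correspondence_mk, pushPic0_mk, pushPic0_mk, Pic0.correspondence_mk]
  congr 1
  apply Subtype.ext
  simp only [Pic0.coe_degZeroCorrespondence, coe_pushDegZero]
  exact pushforwardAlong_correspondence a φ ψ φ₁ ψ₁ a' ha hφ hψ hφ₁ hψ₁ ha' hsqφ hsqψ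
    hfin hN hfin' hN' hnorm hLG D

end Correspondence

end Fermat.Agent.Ribet.H801

end

end
-- ===== PACK-END Ribet/H801/PushPic0.lean

-- ===== PACK-BEGIN S24/Deg/H457_Bridge.lean
section





/-!
# S24 / DEG (helper457), bridge: the formal interface hypothesis `Hyp ℂ N n` from function level

Inputs: helper648 (conjugate product, `exists_charPoly_eval_eq_zero`), helper708 (`HasQExp`),
helper264 (`hasSum_jFun`).  Remaining explicit hypotheses: the polynomiality principle `D5` for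
`jFun` and the growth bound of `jFun` on the fundamental domain.
-/

set_option autoImplicit false

noncomputable section

open UpperHalfPlane ModularGroup CongruenceSubgroup Polynomial ModularCurve
open scoped MatrixGroups Manifold Modular Real

namespace Fermat.Agent.S24.Deg457

open Fermat.Agent.S24.H648 Fermat.Agent.S24.H708 Fermat.Agent.S24.JFun

/-- `τ ↦ d τ` on the upper half plane -/
def scaleH (d : ℕ) [NeZero d] (τ : ℍ) : ℍ :=
  UpperHalfPlane.mk ((d : ℂ) * τ) (by
    have hd : (0 : ℝ) < d := by exact_mod_cast Nat.pos_of_ne_zero (NeZero.ne d)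
    have : ((d : ℂ) * (τ : ℂ)).im = d * τ.im := by simp
    rw [this]
    exact mul_pos hd τ.im_pos)

theorem coe_scaleH (d : ℕ) [NeZero d] (τ : ℍ) : ((scaleH d τ : ℍ) : ℂ) = (d : ℂ) * τ := rfl

theorem coeff_JK_complex (n : ℤ) : (jqModC ℂ).coeff n = algebraMap ℚ ℂ (jq.coeff n) := by
  rw [← JK_eq, JK, coeffEmb_coeff]

/-- the `q`-expansion of `τ ↦ j(dτ)` is `j(q^d)`. -/
theorem hasQExp_jFun_scale (d : ℕ) [NeZero d] :
    HasQExp 1 (fun τ => _root_.Fermat.Agent.S24.JFun.jFun (scaleH d τ)) (coeffEmb ℂ (qExpand ℚ d jq)) := by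
  have hd : 0 < d := Nat.pos_of_ne_zero (NeZero.ne d)
  refine HasQExp.of_hasSum
    (mdifferentiable_J_scale jFun_mdifferentiable d hd (scaleH d) (coe_scaleH d)) ?_
  intro τ
  have h := hasSum_jFun (scaleH d τ)
  have hinj : Function.Injective (fun n : ℤ => (d : ℤ) * n) := by
    intro a b hab
    have hd' : (d : ℤ) ≠ 0 := by exact_mod_cast hd.ne'
    exact mul_left_cancel₀ hd' hab
  have hsupp : ∀ m : ℤ, m ∉ Set.range (fun n : ℤ => (d : ℤ) * n) →
      (coeffEmb ℂ (qExpand ℚ d jq)).coeff m * qh 1 τ ^ m = 0 := by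
    intro m hm
    have hndvd : ¬ (d : ℤ) ∣ m := by
      rintro ⟨k, rfl⟩
      exact hm ⟨k, rfl⟩
    rw [coeffEmb_coeff, qExpand_coeff_of_not_dvd d jq hndvd, map_zero, zero_mul]
  rw [← hinj.hasSum_iff hsupp]
  have hq : Function.Periodic.qParam 1 ((scaleH d τ : ℍ) : ℂ) = qh 1 τ ^ d := by
    rw [qh_apply, coe_scaleH]
    simp only [Function.Periodic.qParam, Nat.cast_one, Complex.ofReal_one, div_one]
    rw [← Complex.exp_nat_mul]
    congr 1
    ring
  have hfun : ((fun m : ℤ => (coeffEmb ℂ (qExpand ℚ d jq)).coeff m * qh 1 τ ^ m) ∘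
      fun n : ℤ => (d : ℤ) * n)
      = fun n : ℤ => (jqModC ℂ).coeff n *
          Function.Periodic.qParam 1 ((scaleH d τ : ℍ) : ℂ) ^ n := by
    funext n
    simp only [Function.comp_apply]
    rw [coeffEmb_coeff, qExpand_coeff_mul, coeff_JK_complex, hq, ← zpow_natCast, ← zpow_mul]
  rw [hfun]
  exact h

variable (N : ℕ) [NeZero N]

/-- every element of `A_ℂ` is the `q`-expansion of a good function. -/
theorem exists_goodRing_hasQExp
    (hJfd : ∃ C : ℝ, ∀ τ : ℍ, τ ∈ 𝒟 → ‖_root_.Fermat.Agent.S24.JFun.jFun τ‖ ≤ C * Real.exp (2 * π * τ.im))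
    {b : LaurentSeries ℂ} (hb : b ∈ AK ℂ N) :
    ∃ f : ℍ → ℂ, f ∈ goodRing N ∧ HasQExp 1 f b := by
  unfold AK at hb
  induction hb using Algebra.adjoin_induction with
  | mem x hx =>
    obtain ⟨y, ⟨d, hd, hdN, rfl⟩, rfl⟩ := hx
    haveI := hd
    refine ⟨fun τ => _root_.Fermat.Agent.S24.JFun.jFun (scaleH d τ), ?_, hasQExp_jFun_scale d⟩
    exact J_scale_mem_goodRing N jFun_mdifferentiable _root_.Fermat.Agent.S24.JFun.jFun_smul hJfd d
      (Nat.pos_of_ne_zero (NeZero.ne d)) hdN (scaleH d) (coe_scaleH d)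
  | algebraMap c =>
    refine ⟨fun _ => c, (goodRing N).algebraMap_mem c, ?_⟩
    have : algebraMap ℂ (LaurentSeries ℂ) c = HahnSeries.C c := by
      rw [algebraMap_laurentSeries_eq_single]; rfl
    rw [this]
    exact HasQExp.const 1 c
  | add x y _ _ hx hy =>
    obtain ⟨f, hf, hfx⟩ := hx
    obtain ⟨g, hg, hgy⟩ := hy
    exact ⟨f + g, (goodRing N).add_mem hf hg, hfx.add hgy⟩
  | mul x y _ _ hx hy =>
    obtain ⟨f, hf, hfx⟩ := hx
    obtain ⟨g, hg, hgy⟩ := hy
    exact ⟨f * g, (goodRing N).mul_mem hf hg, hfx.mul hgy⟩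

theorem hasQExp_jFun : HasQExp 1 _root_.Fermat.Agent.S24.JFun.jFun (JK ℂ) := by
  have h := hasQExp_jFun_scale 1
  rw [qExpand_one_apply] at h
  have hfun : (fun τ => _root_.Fermat.Agent.S24.JFun.jFun (scaleH 1 τ)) = _root_.Fermat.Agent.S24.JFun.jFun := by
    funext τ
    congr 1
    apply UpperHalfPlane.ext
    rw [coe_scaleH]
    simp
  rw [hfun] at h
  exact h

/-- transfer of univariate polynomial expressions in `j` -/
theorem hasQExp_aeval (p : ℂ[X]) :
    HasQExp 1 (fun τ => p.eval (_root_.Fermat.Agent.S24.JFun.jFun τ)) (aeval (JK ℂ) p) := by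
  induction p using Polynomial.induction_on' with
  | add p q hp hq =>
    have := hp.add hq
    rw [map_add]
    convert this using 1
    funext τ
    simp
  | monomial n c =>
    have h1 := (HasQExp.const 1 c).mul (hasQExp_jFun.pow n)
    rw [aeval_monomial]
    have : algebraMap ℂ (LaurentSeries ℂ) c = HahnSeries.C c := by
      rw [algebraMap_laurentSeries_eq_single]; rfl
    rw [this]
    convert h1 using 1
    funext τ
    simp

/-- transfer of bivariate polynomial expressions -/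
theorem hasQExp_eval₂ (P : ℂ[X][X]) {f : ℍ → ℂ} {b : LaurentSeries ℂ} (hf : HasQExp 1 f b) :
    HasQExp 1 (fun τ => (P.map (Polynomial.evalRingHom (_root_.Fermat.Agent.S24.JFun.jFun τ))).eval (f τ))
      (P.eval₂ (evJ (JK ℂ)) b) := by
  induction P using Polynomial.induction_on' with
  | add p q hp hq =>
    have := hp.add hq
    rw [eval₂_add]
    convert this using 1
    funext τ
    simp
  | monomial n p =>
    have h1 := (hasQExp_aeval p).mul (hf.pow n)
    rw [eval₂_monomial, evJ_apply]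
    convert h1 using 1
    funext τ
    simp

/-- **The interface hypothesis over `ℂ`**, from D5 and the growth bound of `j`. -/
theorem hyp_complex
    (hD5 : ∀ F : ℍ → ℂ, MDifferentiable 𝓘(ℂ) 𝓘(ℂ) F →
      (∀ (γ : SL(2, ℤ)) (τ : ℍ), F (γ • τ) = F τ) → ExpGrowth F →
      ∃ p : ℂ[X], ∀ τ, F τ = p.eval (_root_.Fermat.Agent.S24.JFun.jFun τ))
    (hJfd : ∃ C : ℝ, ∀ τ : ℍ, τ ∈ 𝒟 → ‖_root_.Fermat.Agent.S24.JFun.jFun τ‖ ≤ C * Real.exp (2 * π * τ.im)) :
    Hyp ℂ N (Nat.card (XX N)) := by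
  intro b hb
  obtain ⟨f, hf, hfb⟩ := exists_goodRing_hasQExp N hJfd hb
  haveI : Finite (SL(2, ℤ) ⧸ Gamma0 N) := inferInstanceAs (Finite (XX N))
  letI : Fintype (SL(2, ℤ) ⧸ Gamma0 N) := Fintype.ofFinite _
  obtain ⟨P, hPm, hPn, hP⟩ := exists_charPoly_eval_eq_zero (N := N) _root_.Fermat.Agent.S24.JFun.jFun hD5 hf
  refine ⟨P, hPm, ?_, ?_⟩
  · rw [hPn, Nat.card_eq_fintype_card]
  · have h1 := hasQExp_eval₂ P hfb
    rw [h1.eq_zero_iff]
    funext τ
    exact hP τ

end Fermat.Agent.S24.Deg457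

end
end
-- ===== PACK-END S24/Deg/H457_Bridge.lean

-- ===== PACK-BEGIN S29/H801/M1LG.lean
section
/-
S29 / M1 (helper801), part 6: local generators along any integral map of function fields,
from the weak approximation theorem of the shared library RR (helper623).
-/




set_option autoImplicit false
set_option linter.style.haveILetI false

noncomputable section

namespace Fermat.Agent.S29.H801

open AlgebraicCurve Fermat.Agent.S37.H818

variable {K F F₁ : Type*} [Field K] [Field F] [Field F₁] [Algebra K F] [Algebra K F₁]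

/-- **Local generators** exist along every integral map (fibres are finite as soon as the
target has principal divisors): weak approximation on the fibre. -/
theorem hasLocalGenerators_of_hasPrincipalDivisors [HasPrincipalDivisors K F₁]
    (a : F →ₐ[K] F₁) (ha : a.toRingHom.IsIntegral) : HasLocalGenerators a ha := by
  classical
  intro w
  obtain ⟨z, hz⟩ := Fermat.Agent.Lib.RR.H623.weak_approximation
    (Place.fiberAlong a ha (w.restrictAlong a ha)) (fun _ => (0 : F₁))
    (fun v => if v = w then 1 else 0)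
  have hw : w ∈ Place.fiberAlong a ha (w.restrictAlong a ha) := Place.mem_fiberAlong.mpr rfl
  refine ⟨z, ?_, ?_, ?_⟩
  · have := (hz w hw).1
    simpa using this
  · have := (hz w hw).2
    simp only [sub_zero, if_true] at this
    rw [this]
    exact one_ne_zero
  · intro w' hne hres
    have := (hz w' (Place.mem_fiberAlong.mpr hres)).2
    simpa [hne] using this

end Fermat.Agent.S29.H801

end

end
-- ===== PACK-END S29/H801/M1LG.lean

-- ===== PACK-BEGIN S28/H807/SAction.lean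
section
/-
S28 / helper807 — the action of `S : τ ↦ -1/τ` on the `p+1` conjugates
`{E(τ)} ∪ {G((τ+b)/p) : b < p}`: abstract permutation lemma + the point identities in `ℍ`.
-/



set_option autoImplicit false
set_option maxHeartbeats 400000

noncomputable section

open ModularCurve Polynomial Matrix UpperHalfPlane Complex
open scoped MatrixGroups

namespace Fermat.Agent.S28.H807

section Perm

variable (p : ℕ) [Fact p.Prime]

/-- `b ↦ -1/b` on nonzero residues, on representatives in `Fin p`. -/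
def negInvFin (b : Fin p) : Fin p :=
  ⟨(-((b : ℕ) : ZMod p)⁻¹).val, ZMod.val_lt _⟩

theorem negInvFin_cast (b : Fin p) :
    (((negInvFin p b : Fin p) : ℕ) : ZMod p) = -((b : ℕ) : ZMod p)⁻¹ := by
  simp [negInvFin]

theorem cast_ne_zero_of_ne_zero {b : Fin p} (hb : (b : ℕ) ≠ 0) : (((b : ℕ) : ZMod p)) ≠ 0 := by
  intro h
  rw [ZMod.natCast_eq_zero_iff] at h
  have := Nat.le_of_dvd (Nat.pos_of_ne_zero hb) h
  exact absurd b.2 (not_lt.mpr this)

theorem negInvFin_ne_zero {b : Fin p} (hb : (b : ℕ) ≠ 0) : ((negInvFin p b : Fin p) : ℕ) ≠ 0 := by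
  intro h
  have h1 := negInvFin_cast p b
  rw [h] at h1
  simp only [Nat.cast_zero] at h1
  have h2 : (((b : ℕ) : ZMod p))⁻¹ = 0 := by
    have := h1.symm
    rwa [neg_eq_zero] at this
  rw [inv_eq_zero] at h2
  exact cast_ne_zero_of_ne_zero p hb h2

theorem negInvFin_negInvFin {b : Fin p} (_hb : (b : ℕ) ≠ 0) :
    negInvFin p (negInvFin p b) = b := by
  apply Fin.ext
  show (-(((negInvFin p b : Fin p) : ℕ) : ZMod p)⁻¹).val = (b : ℕ)
  rw [negInvFin_cast, inv_neg, neg_neg, inv_inv, ZMod.val_natCast_of_lt b.2]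

theorem dvd_mul_negInvFin_add_one {b : Fin p} (hb : (b : ℕ) ≠ 0) :
    (p : ℤ) ∣ ((b : ℕ) : ℤ) * (((negInvFin p b : Fin p) : ℕ) : ℤ) + 1 := by
  have h1 : ((((b : ℕ) : ℤ) * (((negInvFin p b : Fin p) : ℕ) : ℤ) + 1 : ℤ) : ZMod p) = 0 := by
    push_cast
    rw [negInvFin_cast, mul_neg, mul_inv_cancel₀ (cast_ne_zero_of_ne_zero p hb)]
    ring
  exact (ZMod.intCast_zmod_eq_zero_iff_dvd _ p).mp h1

/-- The permutation of `P¹(𝔽_p) = Option (Fin p)` induced by `S`. -/
def sPermFun : Option (Fin p) → Option (Fin p)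
  | none => some ⟨0, (Fact.out : p.Prime).pos⟩
  | some b => if (b : ℕ) = 0 then none else some (negInvFin p b)

theorem sPermFun_involutive : Function.Involutive (sPermFun p) := by
  intro i
  cases i with
  | none => simp [sPermFun]
  | some b =>
    by_cases hb : (b : ℕ) = 0
    · simp only [sPermFun, hb, if_true]
      congr 1
      exact Fin.ext hb.symm
    · simp only [sPermFun, hb, if_false, negInvFin_ne_zero p hb]
      rw [negInvFin_negInvFin p hb]

/-- **Abstract `S`-invariance**: if the conjugates at `τ'` are obtained from those at `τ` by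
the permutation `sPermFun`, the two products agree. -/
theorem prod_conj_eq_of_perm (E E' : ℂ) (G G' : Fin p → ℂ)
    (ha : E' = G ⟨0, (Fact.out : p.Prime).pos⟩)
    (hb : G' ⟨0, (Fact.out : p.Prime).pos⟩ = E)
    (hc : ∀ b : Fin p, (b : ℕ) ≠ 0 → G' b = G (negInvFin p b)) :
    (X - C E') * ∏ b : Fin p, (X - C (G' b)) = (X - C E) * ∏ b : Fin p, (X - C (G b)) := by
  set f : Option (Fin p) → ℂ := fun i => Option.elim i E G with hf
  set f' : Option (Fin p) → ℂ := fun i => Option.elim i E' G' with hf'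
  have h1 : (X - C E) * ∏ b : Fin p, (X - C (G b)) = ∏ i : Option (Fin p), (X - C (f i)) := by
    rw [Fintype.prod_option]; rfl
  have h2 : (X - C E') * ∏ b : Fin p, (X - C (G' b)) = ∏ i : Option (Fin p), (X - C (f' i)) := by
    rw [Fintype.prod_option]; rfl
  have h3 : ∀ i, f' i = f (sPermFun p i) := by
    intro i
    cases i with
    | none => simp [hf, hf', sPermFun, ha]
    | some b =>
      by_cases hb0 : (b : ℕ) = 0
      · have hb1 : b = ⟨0, (Fact.out : p.Prime).pos⟩ := Fin.ext hb0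
        subst hb1
        show G' ⟨0, (Fact.out : p.Prime).pos⟩ = f (sPermFun p (some ⟨0, (Fact.out : p.Prime).pos⟩))
        rw [hb]
        simp [hf, sPermFun]
      · simp [hf, hf', sPermFun, hb0, hc b hb0]
  rw [h1, h2]
  rw [← Equiv.prod_comp ((sPermFun_involutive p).toPerm _) (fun i => (X - C (f i)))]
  apply Finset.prod_congr rfl
  intro i _
  rw [h3 i]
  rfl

end Perm

section PointIdentities

variable (p : ℕ) [NeZero p]

theorem mulNat_S_smul (τ : ℍ) :
    mulNat p (ModularGroup.S • τ) = ModularGroup.S • divShift p 0 τ := by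
  have hp : (p : ℂ) ≠ 0 := by exact_mod_cast NeZero.ne p
  have hτ : (τ : ℂ) ≠ 0 := ne_zero τ
  apply UpperHalfPlane.ext
  rw [modular_S_smul, modular_S_smul]
  simp only [coe_mulNat, coe_divShift, Int.cast_zero, add_zero]
  field_simp

theorem divShift_zero_S_smul (τ : ℍ) :
    divShift p 0 (ModularGroup.S • τ) = ModularGroup.S • mulNat p τ := by
  have hp : (p : ℂ) ≠ 0 := by exact_mod_cast NeZero.ne p
  have hτ : (τ : ℂ) ≠ 0 := ne_zero τ
  apply UpperHalfPlane.ext
  rw [modular_S_smul, modular_S_smul]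
  simp only [coe_mulNat, coe_divShift, Int.cast_zero, add_zero]
  field_simp

theorem mulNat_divShift (b : ℤ) (τ : ℍ) :
    mulNat p (divShift p b τ) = ModularGroup.T ^ b • τ := by
  have hp : (p : ℂ) ≠ 0 := by exact_mod_cast NeZero.ne p
  apply UpperHalfPlane.ext
  rw [modular_T_zpow_smul]
  simp only [coe_mulNat, coe_divShift, UpperHalfPlane.coe_vadd]
  field_simp
  push_cast
  ring

/-- The matrix `[[B, -k], [p, -B']]` with `B B' + 1 = p k`. -/
def conjMat (B B' k : ℤ) (h : B * B' + 1 = (p : ℤ) * k) : SL(2, ℤ) :=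
  ⟨!![B, -k; (p : ℤ), -B'], by
    rw [Matrix.det_fin_two_of]
    linarith⟩

theorem conjMat_smul (B B' k : ℤ) (h : B * B' + 1 = (p : ℤ) * k) (τ : ℍ) :
    conjMat p B B' k h • divShift p B' τ = divShift p B (ModularGroup.S • τ) := by
  have hp : (p : ℂ) ≠ 0 := by exact_mod_cast NeZero.ne p
  have hτ : (τ : ℂ) ≠ 0 := ne_zero τ
  have hk : (B : ℂ) * (B' : ℂ) + 1 = (p : ℂ) * (k : ℂ) := by exact_mod_cast h
  apply UpperHalfPlane.ext
  rw [coe_specialLinearGroup_apply, modular_S_smul]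
  simp only [coe_divShift, conjMat]
  simp only [Matrix.of_apply, Matrix.cons_val',
    Matrix.cons_val_zero, Matrix.cons_val_one, Matrix.cons_val_fin_one, algebraMap_int_eq,
    eq_intCast, Int.cast_neg, Int.cast_natCast, Complex.ofReal_intCast, Complex.ofReal_neg,
    Complex.ofReal_natCast]
  have hden : (p : ℂ) * (((τ : ℂ) + (B' : ℂ)) / (p : ℂ)) + -(B' : ℂ) = (τ : ℂ) := by
    field_simp; ring
  rw [hden]
  field_simp
  linear_combination hk

theorem denom_conjMat (B B' k : ℤ) (h : B * B' + 1 = (p : ℤ) * k) (τ : ℍ) :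
    denom (conjMat p B B' k h) (divShift p B' τ) = (τ : ℂ) := by
  have hp : (p : ℂ) ≠ 0 := by exact_mod_cast NeZero.ne p
  rw [ModularGroup.denom_apply]
  simp only [coe_divShift, conjMat]
  simp only [Matrix.of_apply, Matrix.cons_val',
    Matrix.cons_val_zero, Matrix.cons_val_one, Matrix.cons_val_fin_one]
  push_cast
  field_simp
  ring

end PointIdentities

end Fermat.Agent.S28.H807

end

end
-- ===== PACK-END S28/H807/SAction.lean

-- ===== PACK-BEGIN S14/H74/Lattice.lean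
section


/-!
# S14/N1 (helper74): lattice sums of `fS` (piece P6)
-/

namespace Fermat.Agent.S14.H74

open NumberField NumberField.mixedEmbedding NumberField.Units
  NumberField.Units.dirichletUnitTheorem NumberField.InfinitePlace Module

open scoped Classical

variable (K : Type*) [Field K] [NumberField K]

/-- The summand on the ring of integers. -/
noncomputable def FS (s : ℝ) (x : 𝓞 K) : ℝ := fS K s (mixedEmbedding K (x : K))

/-- The norm of the image in the mixed space. -/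
noncomputable def mnorm (x : 𝓞 K) : ℝ := ‖mixedEmbedding K (x : K)‖

variable {K}

theorem mnorm_nonneg (x : 𝓞 K) : 0 ≤ mnorm K x := norm_nonneg _

theorem mnorm_eq_zero_iff {x : 𝓞 K} : mnorm K x = 0 ↔ x = 0 := by
  unfold mnorm
  rw [norm_eq_zero, map_eq_zero, RingOfIntegers.coe_eq_zero_iff]

theorem mnorm_add_le (x y : 𝓞 K) : mnorm K (x + y) ≤ mnorm K x + mnorm K y := by
  unfold mnorm
  have : mixedEmbedding K ((x + y : 𝓞 K) : K) =
      mixedEmbedding K (x : K) + mixedEmbedding K (y : K) := by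
    rw [← map_add]
    rfl
  rw [this]
  exact norm_add_le _ _

theorem mixedEmbedding_norm_coe (x : 𝓞 K) :
    mixedEmbedding.norm (mixedEmbedding K (x : K)) = |(Algebra.norm ℤ x : ℝ)| := by
  rw [mixedEmbedding.norm_eq_norm, ← Algebra.coe_norm_int]
  simp

theorem one_le_mixedEmbedding_norm {x : 𝓞 K} (hx : x ≠ 0) :
    1 ≤ mixedEmbedding.norm (mixedEmbedding K (x : K)) := by
  rw [mixedEmbedding_norm_coe]
  have h : Algebra.norm ℤ x ≠ 0 := by
    rwa [Ne, Algebra.norm_eq_zero_iff]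
  have : (1 : ℤ) ≤ |Algebra.norm ℤ x| := Int.one_le_abs h
  exact_mod_cast this

theorem FS_zero (s : ℝ) : FS K s 0 = 0 := by
  simp [FS, fS, rho]

theorem FS_nonneg (s : ℝ) (x : 𝓞 K) : 0 ≤ FS K s x :=
  mul_nonneg (rho_nonneg _) (Real.rpow_nonneg (mixedEmbedding.norm_nonneg _) _)

theorem FS_le_one {s : ℝ} (hs : 0 ≤ s) (x : 𝓞 K) : FS K s x ≤ 1 := by
  by_cases hx : x = 0
  · rw [hx, FS_zero]
    exact zero_le_one
  · have h1 := one_le_mixedEmbedding_norm hx
    have h2 : (mixedEmbedding.norm (mixedEmbedding K (x : K))) ^ (-s) ≤ 1 :=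
      Real.rpow_le_one_of_one_le_of_nonpos h1 (by linarith)
    calc FS K s x = rho K _ * _ := rfl
      _ ≤ 1 * 1 := mul_le_mul (rho_le_one _) h2 (Real.rpow_nonneg (by linarith) _) zero_le_one
      _ = 1 := one_mul 1

theorem abs_FS_le_one {s : ℝ} (hs : 0 ≤ s) (x : 𝓞 K) : |FS K s x| ≤ 1 := by
  rw [abs_of_nonneg (FS_nonneg s x)]
  exact FS_le_one hs x

variable (K) in
/-- The ring of integers as the integer lattice. -/
noncomputable def toLattice : 𝓞 K ≃ mixedEmbedding.integerLattice K :=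
  Equiv.ofBijective (fun x ↦ ⟨mixedEmbedding K (x : K), ⟨x, rfl⟩⟩) (by
    constructor
    · intro x y h
      have h1 : mixedEmbedding K (x : K) = mixedEmbedding K (y : K) := congrArg Subtype.val h
      exact RingOfIntegers.ext ((mixedEmbedding_injective K) h1)
    · rintro ⟨_, ⟨x, rfl⟩⟩
      exact ⟨x, rfl⟩)

theorem summable_mnorm_rpow {r : ℝ} (hr : r < -(finrank ℚ K : ℝ)) :
    Summable fun x : 𝓞 K ↦ mnorm K x ^ r := by
  have h1 : finrank ℤ (mixedEmbedding.integerLattice K) = finrank ℚ K := by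
    rw [ZLattice.rank ℝ, mixedEmbedding.finrank]
  have h2 := ZLattice.summable_norm_rpow (mixedEmbedding.integerLattice K) r (by rwa [h1])
  exact ((toLattice K).summable_iff (f := fun z : mixedEmbedding.integerLattice K ↦ ‖z‖ ^ r)).mpr h2

theorem exists_FS_le_mnorm_rpow : ∃ A : ℝ, 1 ≤ A ∧ ∀ s : ℝ, 0 ≤ s → ∀ x : 𝓞 K,
    FS K s x ≤ A ^ ((finrank ℚ K : ℝ) * s) * mnorm K x ^ (-((finrank ℚ K : ℝ) * s)) := by
  obtain ⟨A, hA1, hA⟩ := exists_support_bound (K := K)
  have hA0 : 0 < A := by linarith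
  refine ⟨A, hA1, fun s hs x ↦ ?_⟩
  by_cases hρ : rho K (mixedEmbedding K (x : K)) = 0
  · have : FS K s x = 0 := fS_eq_zero_of_rho_eq_zero hρ
    rw [this]
    exact mul_nonneg (Real.rpow_nonneg hA0.le _) (Real.rpow_nonneg (mnorm_nonneg x) _)
  · have hN := norm_ne_zero_of_rho_ne_zero hρ
    have hx : x ≠ 0 := by
      rintro rfl
      simp at hN
    have hm : 0 < mnorm K x := lt_of_le_of_ne (mnorm_nonneg x) (Ne.symm (by
      rwa [Ne, mnorm_eq_zero_iff]))
    have h1 := pow_le_norm_of_support hA1 (hA _ hρ)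
    have h2 : 0 < (mnorm K x / A) ^ (finrank ℚ K) := by positivity
    have h3 : (mixedEmbedding.norm (mixedEmbedding K (x : K))) ^ (-s) ≤
        ((mnorm K x / A) ^ (finrank ℚ K)) ^ (-s) :=
      Real.rpow_le_rpow_of_nonpos h2 h1 (by linarith)
    have h4 : ((mnorm K x / A) ^ (finrank ℚ K)) ^ (-s) =
        A ^ ((finrank ℚ K : ℝ) * s) * mnorm K x ^ (-((finrank ℚ K : ℝ) * s)) := by
      rw [← Real.rpow_natCast, ← Real.rpow_mul (by positivity), Real.div_rpow hm.le hA0.le,
        mul_neg, Real.rpow_neg hA0.le, div_eq_mul_inv, inv_inv, mul_comm]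
    calc FS K s x = rho K _ * (mixedEmbedding.norm (mixedEmbedding K (x : K))) ^ (-s) := rfl
      _ ≤ 1 * ((mnorm K x / A) ^ (finrank ℚ K)) ^ (-s) :=
          mul_le_mul (rho_le_one _) h3 (Real.rpow_nonneg (mixedEmbedding.norm_nonneg _) _)
            zero_le_one
      _ = _ := by rw [one_mul, h4]

theorem summable_FS {s : ℝ} (hs : 1 < s) : Summable (FS K s) := by
  obtain ⟨A, -, hA⟩ := exists_FS_le_mnorm_rpow (K := K)
  have hn : (0 : ℝ) < finrank ℚ K := Nat.cast_pos.mpr finrank_pos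
  refine Summable.of_nonneg_of_le (FS_nonneg s) (hA s (by linarith)) ?_
  refine Summable.mul_left _ (summable_mnorm_rpow ?_)
  rw [neg_lt_neg_iff]
  nlinarith

/-- Domination of the differences `FS (y + t) - FS y`, uniformly in `s ∈ [1, 2]`. -/
theorem exists_dominating (t : 𝓞 K) : ∃ g : 𝓞 K → ℝ, Summable g ∧ (∀ y, 0 ≤ g y) ∧
    ∀ s : ℝ, 1 ≤ s → s ≤ 2 → ∀ y : 𝓞 K, |FS K s (y + t) - FS K s y| ≤ g y := by
  obtain ⟨R, C, hR, hC, h⟩ := exists_fS_lipschitz (K := K) (mnorm_nonneg t)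
  set n : ℕ := finrank ℚ K with hn
  have hsum : Summable fun y : 𝓞 K ↦ mnorm K y ^ (-((n : ℝ) + 1)) :=
    summable_mnorm_rpow (by rw [neg_lt_neg_iff]; linarith)
  refine ⟨fun y ↦ (C + R ^ (n + 1)) * mnorm K y ^ (-((n : ℝ) + 1)) + if y = 0 then 1 else 0,
    (hsum.mul_left _).add (hasSum_ite_eq 0 (1 : ℝ)).summable, fun y ↦ ?_,
    fun s hs1 hs2 y ↦ ?_⟩
  · have : 0 ≤ mnorm K y ^ (-((n : ℝ) + 1)) := Real.rpow_nonneg (mnorm_nonneg y) _
    have : (0 : ℝ) ≤ if y = 0 then 1 else 0 := by split_ifs <;> norm_num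
    show 0 ≤ (C + R ^ (n + 1)) * mnorm K y ^ (-((n : ℝ) + 1)) + if y = 0 then 1 else 0
    positivity
  · have hs0 : (0 : ℝ) ≤ s := by linarith
    show |FS K s (y + t) - FS K s y| ≤
      (C + R ^ (n + 1)) * mnorm K y ^ (-((n : ℝ) + 1)) + if y = 0 then 1 else 0
    by_cases hy : y = 0
    · subst hy
      rw [zero_add, FS_zero, sub_zero, if_pos rfl]
      have : 0 ≤ mnorm K (0 : 𝓞 K) ^ (-((n : ℝ) + 1)) := Real.rpow_nonneg (mnorm_nonneg _) _
      have := abs_FS_le_one hs0 t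
      have : 0 ≤ (C + R ^ (n + 1)) * mnorm K (0 : 𝓞 K) ^ (-((n : ℝ) + 1)) := by positivity
      linarith
    · rw [if_neg hy, add_zero]
      have hm : 0 < mnorm K y := lt_of_le_of_ne (mnorm_nonneg y) (Ne.symm (by
        rwa [Ne, mnorm_eq_zero_iff]))
      have e : mnorm K y ^ (-((n : ℝ) + 1)) = 1 / mnorm K y ^ (n + 1) := by
        rw [Real.rpow_neg hm.le, one_div]
        congr 1
        exact_mod_cast Real.rpow_natCast (mnorm K y) (n + 1)
      rw [e, mul_one_div]
      by_cases hyR : R ≤ mnorm K y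
      · have h1 := h s hs1 hs2 (mixedEmbedding K (y : K)) (mixedEmbedding K (t : K)) le_rfl hyR
        have h2 : FS K s (y + t) = fS K s (mixedEmbedding K (y : K) + mixedEmbedding K (t : K)) := by
          unfold FS
          rw [← map_add]
          rfl
        rw [h2]
        refine h1.trans ?_
        apply div_le_div_of_nonneg_right _ (by positivity)
        have : 0 ≤ R ^ (n + 1) := by positivity
        linarith
      · have h1 : |FS K s (y + t) - FS K s y| ≤ 1 := by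
          have a1 := FS_nonneg s (y + t)
          have a2 := FS_le_one hs0 (y + t)
          have a3 := FS_nonneg s y
          have a4 := FS_le_one hs0 y
          exact abs_le.mpr ⟨by linarith, by linarith⟩
        refine h1.trans ?_
        rw [le_div_iff₀ (by positivity), one_mul]
        have h3 : mnorm K y ^ (n + 1) ≤ R ^ (n + 1) :=
          pow_le_pow_left₀ hm.le (not_le.mp hyR).le _
        linarith

/-- Coset decomposition of `𝓞 K` along an ideal. -/
noncomputable def cosetEquiv (J : Ideal (𝓞 K)) : (𝓞 K ⧸ J) × J ≃ 𝓞 K where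
  toFun p := Quotient.out p.1 + (p.2 : 𝓞 K)
  invFun x := (Ideal.Quotient.mk J x, ⟨x - Quotient.out (Ideal.Quotient.mk J x), by
    rw [← Ideal.Quotient.eq, Ideal.Quotient.mk_out]⟩)
  left_inv := by
    rintro ⟨q, y⟩
    have h1 : Ideal.Quotient.mk J (Quotient.out q + (y : 𝓞 K)) = q := by
      rw [map_add, Ideal.Quotient.mk_out, Ideal.Quotient.eq_zero_iff_mem.mpr y.2, add_zero]
    ext
    · exact h1
    · simp only
      rw [h1, add_sub_cancel_left]
  right_inv := by
    intro x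
    simp

theorem cosetEquiv_apply (J : Ideal (𝓞 K)) (q : 𝓞 K ⧸ J) (y : J) :
    cosetEquiv J (q, y) = Quotient.out q + (y : 𝓞 K) := rfl

/-- **P6**: comparison of the smoothed sums over `𝓞 K` and over an ideal `J`. -/
theorem exists_compare_bound (J : Ideal (𝓞 K)) (hJ : J ≠ ⊥) : ∃ B : ℝ, ∀ s : ℝ, 1 < s → s ≤ 2 →
    |∑' x : 𝓞 K, FS K s x - (Ideal.absNorm J : ℝ) * ∑' y : J, FS K s (y : 𝓞 K)| ≤ B := by
  have : Finite (𝓞 K ⧸ J) := Ideal.finiteQuotientOfFreeOfNeBot J hJ
  let _ : Fintype (𝓞 K ⧸ J) := Fintype.ofFinite _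
  have hcard : (Ideal.absNorm J : ℝ) = Fintype.card (𝓞 K ⧸ J) := by
    rw [Ideal.absNorm_apply, Submodule.cardQuot_apply, Nat.card_eq_fintype_card]
  choose g hg hg0 hgb using fun t : 𝓞 K ↦ exists_dominating (K := K) t
  refine ⟨∑ q : 𝓞 K ⧸ J, ∑' y : J, g (Quotient.out q) (y : 𝓞 K), fun s hs1 hs2 ↦ ?_⟩
  have hsumF := summable_FS (K := K) hs1
  have hsumJ : Summable fun y : J ↦ FS K s (y : 𝓞 K) :=
    hsumF.comp_injective Subtype.val_injective
  have hsumq : ∀ q : 𝓞 K ⧸ J, Summable fun y : J ↦ FS K s (Quotient.out q + (y : 𝓞 K)) := by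
    intro q
    refine hsumF.comp_injective (f := FS K s) (i := fun y : J ↦ Quotient.out q + (y : 𝓞 K)) ?_
    intro y y' h
    exact Subtype.ext (add_left_cancel h)
  have h1 : ∑' x : 𝓞 K, FS K s x = ∑ q : 𝓞 K ⧸ J, ∑' y : J,
      FS K s (Quotient.out q + (y : 𝓞 K)) := by
    have hs' : Summable (FS K s ∘ cosetEquiv J) :=
      ((cosetEquiv J).summable_iff (f := FS K s)).mpr hsumF
    have e1 : ∑' x : 𝓞 K, FS K s x = ∑' p : (𝓞 K ⧸ J) × J, (FS K s ∘ cosetEquiv J) p :=
      ((cosetEquiv J).tsum_eq (FS K s)).symm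
    have hsumq' : ∀ q : 𝓞 K ⧸ J, Summable fun y : J ↦ (FS K s ∘ cosetEquiv J) (q, y) := by
      intro q
      simp only [Function.comp_apply, cosetEquiv_apply]
      exact hsumq q
    rw [e1, hs'.tsum_prod' hsumq', tsum_fintype]
    simp only [Function.comp_apply, cosetEquiv_apply]
  have h2 : (Ideal.absNorm J : ℝ) * ∑' y : J, FS K s (y : 𝓞 K) =
      ∑ _q : 𝓞 K ⧸ J, ∑' y : J, FS K s (y : 𝓞 K) := by
    rw [Finset.sum_const, Finset.card_univ, nsmul_eq_mul, hcard]
  rw [h1, h2, ← Finset.sum_sub_distrib]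
  refine (Finset.abs_sum_le_sum_abs _ _).trans (Finset.sum_le_sum fun q _ ↦ ?_)
  rw [← (hsumq q).tsum_sub hsumJ, ← Real.norm_eq_abs]
  have hgJ : Summable fun y : J ↦ g (Quotient.out q) (y : 𝓞 K) :=
    (hg (Quotient.out q)).comp_injective Subtype.val_injective
  refine tsum_of_norm_bounded hgJ.hasSum fun y ↦ ?_
  rw [Real.norm_eq_abs, add_comm (Quotient.out q) (y : 𝓞 K)]
  exact hgb (Quotient.out q) s hs1.le hs2 y

end Fermat.Agent.S14.H74

end
-- ===== PACK-END S14/H74/Lattice.lean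

-- ===== PACK-BEGIN Lib/Red/H290/RedHom.lean
section



/-!
# The reduction homomorphism for good reduction (row S52, piece GR = A1b; part 5)

`A : ValuationSubring K`, `φ : A →+* κ` with kernel the maximal ideal, `W` a Weierstrass curve
over `K` with coefficients in `A` reducing to `Wκ` with `Wκ.Δ ≠ 0`.  Then

* `red : W.Point → Wκ.Point`, `(x, y) ↦ (φ x, φ y)` on integral points, `↦ 0` on `E₁`;
* `red_add` : `red` is additive; `redHom` is the bundled `AddMonoidHom`;
* `red_eq_zero_iff` : the kernel of `red` is `E₁` (`InKer`);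
* `red_injOn_torsion` : `red` is injective on points killed by an integer `n` that is a unit
  of `A`.
-/

set_option autoImplicit false

namespace Fermat.Agent.Lib.Red.H290

open WeierstrassCurve WeierstrassCurve.Affine
open Fermat.Agent.S05.SameRed (IntegralCoeffs InKer inKer_zero inKer_some
  inKer_sub_of_same_reduction)

variable {K : Type*} [Field K] [DecidableEq K] {κ : Type*} [Field κ] [DecidableEq κ]
variable {A : ValuationSubring K} {φ : A →+* κ} {W : Affine K} {Wκ : Affine κ}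

omit [DecidableEq κ] in
/-- With good reduction, the reduction of an integral point is a nonsingular point. -/
lemma rd_nonsingular (h : IsRedOf A φ W Wκ) (hΔ : Wκ.Δ ≠ 0) {x y : K} (hx : x ∈ A)
    (hxy : W.Equation x y) : Wκ.Nonsingular (rd A φ x) (rd A φ y) :=
  (Affine.equation_iff_nonsingular_of_Δ_ne_zero hΔ).mp
    (rd_equation h hx (y_mem_of_x_mem h hxy hx) hxy)

/-- The reduction map on points. -/
noncomputable def red (h : IsRedOf A φ W Wκ) (hΔ : Wκ.Δ ≠ 0) : W.Point → Wκ.Point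
  | .zero => 0
  | .some x y hxy =>
    open Classical in
    if hx : x ∈ A then Point.some (rd A φ x) (rd A φ y) (rd_nonsingular h hΔ hx hxy.1) else 0

section

variable (h : IsRedOf A φ W Wκ) (hΔ : Wκ.Δ ≠ 0)

omit [DecidableEq κ] in
@[simp] lemma red_zero : red h hΔ 0 = 0 := rfl

omit [DecidableEq κ] in
lemma red_some_of_mem {x y : K} (hxy : W.Nonsingular x y) (hx : x ∈ A) :
    red h hΔ (Point.some x y hxy) =
      Point.some (rd A φ x) (rd A φ y) (rd_nonsingular h hΔ hx hxy.1) := by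
  simp only [red, hx, dite_true]

omit [DecidableEq κ] in
lemma red_some_of_not_mem {x y : K} (hxy : W.Nonsingular x y) (hx : x ∉ A) :
    red h hΔ (Point.some x y hxy) = 0 := by
  simp only [red, hx, dite_false]

omit [DecidableEq K] [DecidableEq κ] in
lemma not_mem_iff_one_lt {x : K} : x ∉ A ↔ 1 < A.valuation x := by
  rw [← A.valuation_le_one_iff, not_le]

omit [DecidableEq κ] in
/-- The kernel of reduction is `E₁`. -/
theorem red_eq_zero_iff (P : W.Point) : red h hΔ P = 0 ↔ InKer W A.valuation P := by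
  rcases P with _ | ⟨x, y, hxy⟩
  · exact ⟨fun _ => trivial, fun _ => rfl⟩
  · by_cases hx : x ∈ A
    · rw [red_some_of_mem h hΔ hxy hx]
      constructor
      · intro h0; exact absurd h0 (Point.some_ne_zero _)
      · intro hk
        exact absurd hx (not_mem_iff_one_lt.mpr hk)
    · rw [red_some_of_not_mem h hΔ hxy hx]
      exact ⟨fun _ => not_mem_iff_one_lt.mp hx, fun _ => rfl⟩

theorem red_neg (P : W.Point) : red h hΔ (-P) = -red h hΔ P := by
  rcases P with _ | ⟨x, y, hxy⟩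
  · rfl
  · rw [Point.neg_some]
    by_cases hx : x ∈ A
    · rw [red_some_of_mem h hΔ _ hx, red_some_of_mem h hΔ hxy hx, Point.neg_some]
      have hy := y_mem_of_x_mem h hxy.1 hx
      congr 1
      exact rd_negY h hx hy
    · rw [red_some_of_not_mem h hΔ _ hx, red_some_of_not_mem h hΔ hxy hx, neg_zero]

end

section add

variable (h : IsRedOf A φ W Wκ) (hφ : KerMax A φ) (hΔ : Wκ.Δ ≠ 0)
include hφ

/-- Additivity on integral points. -/
theorem red_add_of_mem {x₁ y₁ x₂ y₂ : K} (h₁ : W.Nonsingular x₁ y₁) (h₂ : W.Nonsingular x₂ y₂)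
    (hx₁ : x₁ ∈ A) (hx₂ : x₂ ∈ A) :
    red h hΔ (Point.some x₁ y₁ h₁ + Point.some x₂ y₂ h₂) =
      red h hΔ (Point.some x₁ y₁ h₁) + red h hΔ (Point.some x₂ y₂ h₂) := by
  have hy₁ : y₁ ∈ A := y_mem_of_x_mem h h₁.1 hx₁
  have hy₂ : y₂ ∈ A := y_mem_of_x_mem h h₂.1 hx₂
  rw [red_some_of_mem h hΔ h₁ hx₁, red_some_of_mem h hΔ h₂ hx₂]
  by_cases hb : rd A φ x₁ = rd A φ x₂ ∧ rd A φ y₁ = Wκ.negY (rd A φ x₂) (rd A φ y₂)
  · -- the reductions are opposite: the sum lies in `E₁`
    rw [Point.add_of_Y_eq hb.1 hb.2, red_eq_zero_iff]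
    have h₂' : W.Nonsingular x₂ (W.negY x₂ y₂) := (Affine.nonsingular_neg ..).mpr h₂
    have hn₂ : W.negY x₂ y₂ ∈ A := negY_mem h hx₂ hy₂
    have hx : A.valuation (x₁ - x₂) < 1 := (rd_eq_iff hφ hx₁ hx₂).mp hb.1
    have hy : A.valuation (y₁ - W.negY x₂ y₂) < 1 := by
      rw [← rd_eq_iff hφ hy₁ hn₂, rd_negY h hx₂ hy₂]; exact hb.2
    have hns : A.valuation (W.a₁ * y₁ - (3 * x₁ ^ 2 + 2 * W.a₂ * x₁ + W.a₄)) = 1 ∨
        A.valuation (2 * y₁ + W.a₁ * x₁ + W.a₃) = 1 := by
      have hN := rd_nonsingular h hΔ hx₁ h₁.1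
      rw [Affine.nonsingular_iff'] at hN
      rcases hN.2 with hN | hN
      · left
        obtain ⟨hgA, hgrd⟩ := rd_slopeNum h hx₁ hy₁
        have hm : W.a₁ * y₁ - (3 * x₁ ^ 2 + 2 * W.a₂ * x₁ + W.a₄) ∈ A := by
          have : W.a₁ * y₁ - (3 * x₁ ^ 2 + 2 * W.a₂ * x₁ + W.a₄) =
              -(3 * x₁ ^ 2 + 2 * W.a₂ * x₁ + W.a₄ - W.a₁ * y₁) := by ring
          rw [this]; exact A.neg_mem _ hgA
        refine (rd_ne_zero_iff hφ hm).mp ?_
        have : W.a₁ * y₁ - (3 * x₁ ^ 2 + 2 * W.a₂ * x₁ + W.a₄) =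
            -(3 * x₁ ^ 2 + 2 * W.a₂ * x₁ + W.a₄ - W.a₁ * y₁) := by ring
        rw [this, rd_neg hgA, hgrd]
        intro h0
        apply hN
        linear_combination h0
      · right
        have hm : 2 * y₁ + W.a₁ * x₁ + W.a₃ ∈ A := by
          have : 2 * y₁ + W.a₁ * x₁ + W.a₃ = y₁ - W.negY x₁ y₁ := by
            simp only [Affine.negY]; ring
          rw [this]; exact A.sub_mem hy₁ (negY_mem h hx₁ hy₁)
        refine (rd_ne_zero_iff hφ hm).mp ?_
        have : 2 * y₁ + W.a₁ * x₁ + W.a₃ = y₁ - W.negY x₁ y₁ := by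
          simp only [Affine.negY]; ring
        rw [this, rd_sub hy₁ (negY_mem h hx₁ hy₁), rd_negY h hx₁ hy₁]
        intro h0
        apply hN
        simp only [Affine.negY] at h0
        linear_combination h0
    have key := inKer_sub_of_same_reduction h.integralCoeffs h₁ h₂' (val_le_of_mem hx₁)
      (val_le_of_mem hy₁) (val_le_of_mem hx₂) (val_le_of_mem hn₂) hx hy hns
    have e : Point.some x₁ y₁ h₁ - Point.some x₂ (W.negY x₂ y₂) h₂' =
        Point.some x₁ y₁ h₁ + Point.some x₂ y₂ h₂ := by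
      rw [sub_eq_add_neg, Point.neg_some]
      congr 2
      exact Affine.negY_negY ..
    rwa [e] at key
  · -- generic case: the slope reduces
    have hK : ¬(x₁ = x₂ ∧ y₁ = W.negY x₂ y₂) := by
      rintro ⟨rfl, rfl⟩
      exact hb ⟨rfl, rd_negY h hx₂ hy₂⟩
    obtain ⟨hℓA, hℓrd⟩ := slope_mem_and_rd h hφ hx₁ hx₂ h₁.1 h₂.1 hb
    rw [Point.add_some hK, Point.add_some hb,
      red_some_of_mem h hΔ _ (addX_mem h hx₁ hx₂ hℓA)]
    congr 1
    · rw [rd_addX h hx₁ hx₂ hℓA, hℓrd]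
    · rw [rd_addY h hx₁ hx₂ hy₁ hℓA, hℓrd]

/-- Additivity when the first point lies in `E₁` and the second is integral. -/
theorem red_add_of_inKer_of_mem {P : W.Point} (hP : InKer W A.valuation P) {x₂ y₂ : K}
    (h₂ : W.Nonsingular x₂ y₂) (hx₂ : x₂ ∈ A) :
    red h hΔ (P + Point.some x₂ y₂ h₂) = red h hΔ (Point.some x₂ y₂ h₂) := by
  have hQ : ¬ InKer W A.valuation (Point.some x₂ y₂ h₂) := fun hk =>
    absurd hx₂ (not_mem_iff_one_lt.mpr hk)
  -- `R = P + Q` is not in `E₁`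
  have hR : ¬ InKer W A.valuation (P + Point.some x₂ y₂ h₂) := by
    intro hk
    apply hQ
    have := inKer_sub h.integralCoeffs hk hP
    rwa [add_sub_cancel_left] at this
  rcases hPQ : P + Point.some x₂ y₂ h₂ with _ | ⟨x₃, y₃, h₃⟩
  · rw [hPQ] at hR; exact absurd trivial hR
  · rw [hPQ] at hR
    have hx₃ : x₃ ∈ A := by
      by_contra hx; exact hR (not_mem_iff_one_lt.mp hx)
    -- `red (R - Q) = red R - red Q` and `R - Q = P ∈ E₁`
    have h₂' : W.Nonsingular x₂ (W.negY x₂ y₂) := (Affine.nonsingular_neg ..).mpr h₂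
    have hadd := red_add_of_mem h hφ hΔ h₃ h₂' hx₃ hx₂
    have e : Point.some x₃ y₃ h₃ + Point.some x₂ (W.negY x₂ y₂) h₂' = P := by
      rw [← hPQ, ← Point.neg_some h₂, add_neg_cancel_right]
    rw [e, (red_eq_zero_iff h hΔ P).mpr hP, ← Point.neg_some h₂, red_neg] at hadd
    exact (add_neg_eq_zero.mp hadd.symm)

/-- **The reduction map is additive.** -/
theorem red_add (P Q : W.Point) : red h hΔ (P + Q) = red h hΔ P + red h hΔ Q := by
  rcases hP : P with _ | ⟨x₁, y₁, h₁⟩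
  · have : (Point.zero : W.Point) + Q = Q := zero_add Q
    rw [this]
    exact (zero_add _).symm
  rcases hQ : Q with _ | ⟨x₂, y₂, h₂⟩
  · have : Point.some x₁ y₁ h₁ + (Point.zero : W.Point) = Point.some x₁ y₁ h₁ := add_zero _
    rw [this]
    exact (add_zero _).symm
  by_cases hx₁ : x₁ ∈ A
  · by_cases hx₂ : x₂ ∈ A
    · exact red_add_of_mem h hφ hΔ h₁ h₂ hx₁ hx₂
    · have hk : InKer W A.valuation (Point.some x₂ y₂ h₂) := not_mem_iff_one_lt.mp hx₂
      rw [add_comm, red_add_of_inKer_of_mem h hφ hΔ hk h₁ hx₁,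
        (red_eq_zero_iff h hΔ _).mpr hk, add_zero]
  · have hk₁ : InKer W A.valuation (Point.some x₁ y₁ h₁) := not_mem_iff_one_lt.mp hx₁
    by_cases hx₂ : x₂ ∈ A
    · rw [red_add_of_inKer_of_mem h hφ hΔ hk₁ h₂ hx₂,
        (red_eq_zero_iff h hΔ _).mpr hk₁, zero_add]
    · have hk₂ : InKer W A.valuation (Point.some x₂ y₂ h₂) := not_mem_iff_one_lt.mp hx₂
      rw [(red_eq_zero_iff h hΔ _).mpr hk₁, (red_eq_zero_iff h hΔ _).mpr hk₂,
        (red_eq_zero_iff h hΔ _).mpr (inKer_add h.integralCoeffs hk₁ hk₂), add_zero]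

/-- The reduction homomorphism. -/
noncomputable def redHom : W.Point →+ Wκ.Point where
  toFun := red h hΔ
  map_zero' := rfl
  map_add' := red_add h hφ hΔ

@[simp] lemma redHom_apply (P : W.Point) : redHom h hφ hΔ P = red h hΔ P := rfl

omit [DecidableEq κ] hφ in
/-- The reduction map is injective on `n`-torsion for `n` a unit of `A`. -/
theorem eq_zero_of_red_eq_zero_of_nsmul (n : ℕ) (hn : A.valuation (n : K) = 1) (P : W.Point)
    (hP : n • P = 0) (hr : red h hΔ P = 0) : P = 0 :=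
  Fermat.Agent.S05.C1b.eq_zero_of_inKer_of_nsmul_eq_zero h.integralCoeffs n hn P
    ((red_eq_zero_iff h hΔ P).mp hr) hP

theorem eq_of_red_eq_of_nsmul (n : ℕ) (hn : A.valuation (n : K) = 1) (P Q : W.Point)
    (hP : n • P = 0) (hQ : n • Q = 0) (hr : red h hΔ P = red h hΔ Q) : P = Q := by
  have h1 : red h hΔ (P - Q) = 0 := by
    have := (redHom h hφ hΔ).map_sub P Q
    simp only [redHom_apply] at this
    rw [this, hr, sub_self]
  have h2 : n • (P - Q) = 0 := by rw [smul_sub, hP, hQ, sub_zero]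
  exact sub_eq_zero.mp (eq_zero_of_red_eq_zero_of_nsmul h hΔ n hn _ h2 h1)

end add

end Fermat.Agent.Lib.Red.H290

end
-- ===== PACK-END Lib/Red/H290/RedHom.lean

-- ===== PACK-BEGIN S59/H127/FibPoly.lean
section



/-!
# E-side foundation, part 1: fibres of multiplication by `n` on the `x`-line

For a Weierstrass curve `E` over a field `K`, the landed `x`-ladder (`S13/H891`) gives polynomials
`N_n, D_n` with `x(nQ) = N_n(x(Q)) / D_n(x(Q))`.  Here we study the *fibre polynomial*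
`fibPoly E n c = N_n - c D_n`:

* it is monic of degree `n^2` (`fibPoly_monic`, `natDegree_fibPoly`);
* for `Q ≠ 0`, `x(Q)` is a root iff `nQ ≠ 0` and `x(nQ) = c` (`fibPoly_root_iff`);
* over an algebraically closed field of characteristic `0`, multiplication by `n ≥ 1` is
  surjective on `E(K)` (`exists_nsmul_eq`).
-/

open WeierstrassCurve WeierstrassCurve.Affine Polynomial
open Fermat.Agent.S51.Five (xc dD dN xc_add_self add_self_ne_zero_of_dD_ne_zero
  eq_or_eq_neg_of_xc_eq xc_neg xc_some exists_equation)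
open Fermat.Agent.S13.H891

namespace Fermat.Agent.S59.H127

variable {K : Type*} [Field K]

/-- the fibre polynomial `N_n - c D_n`; its roots are the `x(Q)` with `x(nQ) = c` -/
noncomputable def fibPoly (E : WeierstrassCurve.Affine K) (n : ℕ) (c : K) : K[X] :=
  polyN E.b₂ E.b₄ E.b₆ E.b₈ n - C c * polyD E.b₂ E.b₄ E.b₆ E.b₈ n

section degree

variable (E : WeierstrassCurve.Affine K)

lemma dc_fibPoly (n : ℕ) (hn : 1 ≤ n) (c : K) : DC (fibPoly E n c) (n ^ 2) 1 := by
  obtain ⟨hN, hD⟩ := dc_poly E.b₂ E.b₄ E.b₆ E.b₈ n hn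
  have h1 : 1 ≤ n ^ 2 := Nat.one_le_pow _ _ hn
  have hD' : DC (C c * polyD E.b₂ E.b₄ E.b₆ E.b₈ n) (n ^ 2) 0 :=
    DC.of_lt ((natDegree_C_mul_le c _).trans hD.1) (by omega)
  have := hN.sub hD'
  rw [sub_zero] at this
  exact this

lemma natDegree_fibPoly (n : ℕ) (hn : 1 ≤ n) (c : K) : (fibPoly E n c).natDegree = n ^ 2 := by
  obtain ⟨h1, h2⟩ := dc_fibPoly E n hn c
  exact natDegree_eq_of_le_of_coeff_ne_zero h1 (by rw [h2]; exact one_ne_zero)

lemma fibPoly_monic (n : ℕ) (hn : 1 ≤ n) (c : K) : (fibPoly E n c).Monic := by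
  rw [Monic, leadingCoeff, natDegree_fibPoly E n hn c]
  exact (dc_fibPoly E n hn c).2

lemma fibPoly_ne_zero (n : ℕ) (hn : 1 ≤ n) (c : K) : fibPoly E n c ≠ 0 :=
  (fibPoly_monic E n hn c).ne_zero

lemma eval_fibPoly (n : ℕ) (c x : K) :
    (fibPoly E n c).eval x
      = ladN E.b₂ E.b₄ E.b₆ E.b₈ x n - c * ladD E.b₂ E.b₄ E.b₆ E.b₈ x n := by
  simp only [fibPoly, eval_sub, eval_mul, eval_C, eval_polyN, eval_polyD]

end degree

variable [DecidableEq K] {E : WeierstrassCurve.Affine K}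

/-- for `Q ≠ 0`: `x(Q)` is a root of `N_n - c D_n` iff `nQ ≠ 0` and `x(nQ) = c` -/
theorem fibPoly_root_iff {Q : E.Point} (hQ : Q ≠ 0) (n : ℕ) (c : K) :
    (fibPoly E n c).eval (xc Q) = 0 ↔ n • Q ≠ 0 ∧ xc (n • Q) = c := by
  rw [eval_fibPoly]
  rcases rep_lad hQ n with ⟨h0, hd, hN⟩ | ⟨h0, hd, hx⟩
  · rw [hd, mul_zero, sub_zero]
    exact ⟨fun h => absurd h hN, fun h => absurd h0 h.1⟩
  · rw [← hx, ← sub_mul]
    constructor
    · intro h
      exact ⟨h0, sub_eq_zero.mp ((mul_eq_zero.mp h).resolve_right hd)⟩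
    · rintro ⟨-, h⟩
      rw [h, sub_self, zero_mul]

/-- `N_n` and `D_n` have no common zero -/
theorem ladN_ne_zero_of_ladD_eq_zero {Q : E.Point} (hQ : Q ≠ 0) (n : ℕ)
    (hD : ladD E.b₂ E.b₄ E.b₆ E.b₈ (xc Q) n = 0) :
    ladN E.b₂ E.b₄ E.b₆ E.b₈ (xc Q) n ≠ 0 := by
  rcases rep_lad hQ n with ⟨-, -, hN⟩ | ⟨-, hd, -⟩
  · exact hN
  · exact absurd hD hd

section algClosed

variable [IsAlgClosed K] [CharZero K] [E.IsElliptic]

/-- every `x ∈ K` is the `x`-coordinate of a point -/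
lemma exists_point_xc (E : WeierstrassCurve.Affine K) [E.IsElliptic] (x : K) :
    ∃ Q : E.Point, Q ≠ 0 ∧ xc Q = x := by
  obtain ⟨y, hy⟩ := exists_equation E x
  have hns : E.Nonsingular x y := Affine.equation_iff_nonsingular.mp hy
  exact ⟨Point.some x y hns, Point.some_ne_zero _, rfl⟩

/-- the points over the roots of the fibre polynomial: for a root `x` of `N_n - x(P) D_n` there
is `Q` with `x(Q) = x` and `nQ = P` -/
lemma exists_nsmul_eq_of_root {P : E.Point} (hP : P ≠ 0) (n : ℕ) {x : K}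
    (hx : (fibPoly E n (xc P)).eval x = 0) : ∃ Q : E.Point, xc Q = x ∧ n • Q = P := by
  obtain ⟨Q, hQ, rfl⟩ := exists_point_xc E x
  obtain ⟨h0, h1⟩ := (fibPoly_root_iff hQ n (xc P)).mp hx
  rcases eq_or_eq_neg_of_xc_eq h0 hP h1 with h | h
  · exact ⟨Q, rfl, h⟩
  · exact ⟨-Q, xc_neg Q, by rw [smul_neg, h, neg_neg]⟩

/-- multiplication by `n ≥ 1` is surjective on `E(K)`, `K` algebraically closed of
characteristic `0` -/
theorem exists_nsmul_eq (n : ℕ) (hn : 1 ≤ n) (P : E.Point) : ∃ Q : E.Point, n • Q = P := by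
  by_cases hP : P = 0
  · exact ⟨0, by rw [hP, smul_zero]⟩
  have hdeg : (fibPoly E n (xc P)).degree ≠ 0 := by
    rw [degree_eq_natDegree (fibPoly_ne_zero E n hn _), natDegree_fibPoly E n hn]
    have : 0 < n ^ 2 := by positivity
    exact_mod_cast this.ne'
  obtain ⟨x, hx⟩ := IsAlgClosed.exists_root _ hdeg
  obtain ⟨Q, -, hQ⟩ := exists_nsmul_eq_of_root hP n hx
  exact ⟨Q, hQ⟩

end algClosed

end Fermat.Agent.S59.H127

end
-- ===== PACK-END S59/H127/FibPoly.lean

-- ===== PACK-BEGIN S13/H891/Frey.lean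
section





/-!
# S13 / T1 for the Frey curve

`T1_frey`: for a Frey package `P`, `V = E[p](ℚ̄)` is nontrivial, finite, of cardinality `≤ p^2`.
`exists_integral_poly`: the division polynomial with coefficients in a subring.
-/

open WeierstrassCurve WeierstrassCurve.Affine Polynomial
open Fermat.Agent.S51.Five (xc)

namespace Fermat.Agent.S13.H891

/-- the division polynomial `W_m` has coefficients in any ring `R` containing the `b`-invariants,
leading coefficient `2m+1`, and vanishes at the `x`-coordinates of the nonzero `(2m+1)`-torsion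
points -/
theorem exists_integral_poly {K : Type*} [Field K] [DecidableEq K]
    (E : WeierstrassCurve.Affine K) {R : Type*} [CommRing R] (φ : R →+* K)
    (c₂ c₄ c₆ c₈ : R) (h₂ : φ c₂ = E.b₂) (h₄ : φ c₄ = E.b₄) (h₆ : φ c₆ = E.b₆)
    (h₈ : φ c₈ = E.b₈) (m : ℕ) (hm : 1 ≤ m) :
    ∃ Q : R[X], Q.natDegree ≤ 2*m^2 + 2*m ∧ Q.coeff (2*m^2 + 2*m) = ((2*m+1 : ℕ) : R) ∧
      ∀ P : E.Point, P ≠ 0 → ((2*m+1) • P = 0 ↔ (Q.map φ).eval (xc P) = 0) := by
  refine ⟨polyW c₂ c₄ c₆ c₈ m, (dc_polyW c₂ c₄ c₆ c₈ m hm).1, (dc_polyW c₂ c₄ c₆ c₈ m hm).2, ?_⟩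
  intro P hP
  rw [map_polyW, h₂, h₄, h₆, h₈]
  exact torsion_iff_root hP m

local notation "Qbar" => AlgebraicClosure ℚ

lemma freyCurve_Δ (P : FreyPackage) :
    P.freyCurve.Δ = ((P.a : ℚ) * P.b * P.c) ^ (2 * P.p) / 2 ^ 8 := by
  have h : ((P.c : ℚ)) ^ P.p = (P.a : ℚ) ^ P.p + (P.b : ℚ) ^ P.p := by
    exact_mod_cast P.hFLT.symm
  simp only [WeierstrassCurve.Δ, WeierstrassCurve.b₂, WeierstrassCurve.b₄, WeierstrassCurve.b₆,
    WeierstrassCurve.b₈, FreyPackage.freyCurve]
  rw [mul_pow, mul_pow, pow_mul', pow_mul', pow_mul', h]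
  ring

lemma freyCurve_Δ_ne_zero (P : FreyPackage) : P.freyCurve.Δ ≠ 0 := by
  rw [freyCurve_Δ]
  have : ((P.a : ℚ) * P.b * P.c) ≠ 0 := by exact_mod_cast P.habc0
  exact div_ne_zero (pow_ne_zero _ this) (by norm_num)

/-- **T1 for the Frey curve**: `E[p](ℚ̄)` is nontrivial, finite, of cardinality at most `p^2`. -/
theorem T1_frey (P : FreyPackage) :
    Nontrivial (Submodule.torsionBy ℤ (P.freyCurve⁄Qbar).Point ((P.p : ℕ) : ℤ)) ∧
    Finite (Submodule.torsionBy ℤ (P.freyCurve⁄Qbar).Point ((P.p : ℕ) : ℤ)) ∧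
    Nat.card (Submodule.torsionBy ℤ (P.freyCurve⁄Qbar).Point ((P.p : ℕ) : ℤ)) ≤ P.p ^ 2 := by
  haveI : (P.freyCurve⁄Qbar).IsElliptic := by
    constructor
    rw [isUnit_iff_ne_zero]
    show (P.freyCurve.map (algebraMap ℚ Qbar)).Δ ≠ 0
    rw [WeierstrassCurve.map_Δ]
    exact (_root_.map_ne_zero _).mpr (freyCurve_Δ_ne_zero P)
  exact T1_odd (P.freyCurve⁄Qbar) P.p (by have := P.hp5; omega) P.hp_odd

end Fermat.Agent.S13.H891

end
-- ===== PACK-END S13/H891/Frey.lean

-- ===== PACK-BEGIN Ribet/H375/ELOCOrdSpec.lean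
section



/-!
# Row 38, WALL-p, leaf ELOC-ord (good reduction at `p`): frozen decomposition + proved glue
(sub-architect helper375; wall architect helper944, row-lead helper943)

Target: `ELOCOrdGoodIrrStatement` = `H944.Wall.ELOCOrdGoodStatement` with the (available)
hypothesis `W.ModRepIsIrreducible p` added; `ordCaseGood_of_irr` below is the wall glue for it.

## The elementary proof (no function fields, no formal groups, no finite flat group schemes)
`E₁` = kernel of reduction at `A` (points with `x ∉ A`), `I` = inertia at `A`,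
`I₁ = {τ ∈ I : τ ζ_p = ζ_p}`, `K = ℚ̄^{I₁}`.
* (ss)   `E[p] ⊆ E₁` ⇒ `¬ OrdinaryInertiaAt`  (helper187 / helper515).
* (LINE) otherwise `E₁[p]` is `0` or a line `⟨t⟩`; `σ x - x ∈ E₁[p]` for `σ ∈ I` (reduction is a
  homomorphism, `Lib/Red`; inertia is trivial on residues); `σ t = χ(σ) t` (`det = χ`, `H403`).
* (PEU)  `x ∈ E[p] ∖ E₁`, `τ x = x + c(τ) t` for `τ ∈ I₁`.  Put `γ_j = X(x + j t)`, so
  `τ γ_j = γ_{j + c(τ)}`, and the Lagrange resolvents `α_i = ∑_j ζ^{-ij} γ_j`, `τ α_i = ζ^{i c(τ)} α_i`,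
  `p (γ₁ - γ₀) = ∑_{i ≠ 0} (ζ^i - 1) α_i`.
  (F) FIRST ORDER: `X(x + t) - X(x) = (2y + a₁x + a₃)(x) · z(t) · (1 + O(z(t)))`, `z = -X/Y`, and
  (U) `2y + a₁x + a₃` is a unit at `x` (the reduction of `x` has odd order `p`).
  So `p (γ₁ - γ₀) = b · unit` with `b = p z(t) ∈ K`.  Ultrametric inequality: either one term
  `(ζ^i - 1) α_i` has the valuation of `b`, or two terms have the same valuation; in both cases
  (K) there is a UNIT `y` with `τ y = ζ^{m c(τ)} y`, `m ≢ 0`; a power of it has `m = 1`.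
  `y ^ p ∈ K`, so a `σ` with `PeuFixes` fixes `y`, i.e. `p ∣ c(σ)`, i.e. `σ x = x`.
-/

set_option autoImplicit false
set_option linter.style.haveILetI false

open WeierstrassCurve WeierstrassCurve.Affine WeierstrassCurve.Affine.Point

namespace Fermat.Agent.Ribet.H375

open Fermat.Agent.Ribet.Spec Fermat.Agent.Ribet.H944.Wall
open Fermat.Agent.S05.SameRed (InKer IntegralCoeffs)

/-- `x ∈ E[p]` lies in the kernel of reduction at `A` (for the given Weierstrass equation):
`x = 0` or the `x`-coordinate is not in `A`. -/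
def InE1 (E : WeierstrassCurve ℚ) (p : ℕ) (A : ValuationSubring (AlgebraicClosure ℚ))
    (x : ETorsion E p) : Prop :=
  InKer (E⁄(AlgebraicClosure ℚ)) A.valuation (x : (E⁄(AlgebraicClosure ℚ)).Point)

/-! ## Level 1: `ELOC-ord-good = ss + LINE + PEU` -/

/-- (ELOC-ord, good reduction, irreducible form) = `H944.Wall.ELOCOrdGoodStatement` with the
hypothesis `W.ModRepIsIrreducible p` (available in the wall glue) added. -/
def ELOCOrdGoodIrrStatement : Prop :=
  ∀ (W : WeierstrassCurve ℤ) (p : ℕ), W.Δ ≠ 0 → p.Prime → p ≠ 2 → W.IsGoodPrimeFor p →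
    W.ModRepIsIrreducible p →
    ∀ A : ValuationSubring (AlgebraicClosure ℚ), A.LiesOverPrime p →
    OrdinaryInertiaAt (W.map (Int.castRingHom ℚ)) p A →
    ELOCOrdAt (W.map (Int.castRingHom ℚ)) p A

/-- (ELOC-ss)  supersingular: if all of `E[p]` is in the kernel of reduction, inertia is not
"ordinary".  Owners: helper187, helper515. -/
def ELOCssStatement : Prop :=
  ∀ (W : WeierstrassCurve ℤ) (p : ℕ), W.Δ ≠ 0 → p.Prime → p ≠ 2 → W.IsGoodPrimeFor p →
    ∀ A : ValuationSubring (AlgebraicClosure ℚ), A.LiesOverPrime p →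
    (∀ x : ETorsion (W.map (Int.castRingHom ℚ)) p, InE1 (W.map (Int.castRingHom ℚ)) p A x) →
    ¬ OrdinaryInertiaAt (W.map (Int.castRingHom ℚ)) p A

/-- The data of the line: `t` in the kernel of reduction, inertia acts on `t` through `χ` and
trivially on `E[p]/⟨t⟩`, and `E₁[p] ⊆ ⟨t⟩`. -/
def IsRedLine (E : WeierstrassCurve ℚ) (p : ℕ) (A : ValuationSubring (AlgebraicClosure ℚ))
    (t : ETorsion E p) : Prop :=
  InE1 E p A t ∧
  (∀ σ ∈ A.inertiaSubgroupIn ℚ, ∀ c : ℕ, CycloAt p σ c → σ • t = c • t) ∧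
  (∀ x : ETorsion E p, ∀ σ ∈ A.inertiaSubgroupIn ℚ, ∃ n : ℕ, σ • x = x + n • t) ∧
  (∀ x : ETorsion E p, InE1 E p A x → ∃ n : ℕ, x = n • t)

/-- (LINE)  good reduction, `E[p] ⊄ E₁`, `E[p]` irreducible ⇒ the line exists. -/
def ELOCLineStatement : Prop :=
  ∀ (W : WeierstrassCurve ℤ) (p : ℕ), W.Δ ≠ 0 → p.Prime → p ≠ 2 → W.IsGoodPrimeFor p →
    W.ModRepIsIrreducible p →
    ∀ A : ValuationSubring (AlgebraicClosure ℚ), A.LiesOverPrime p →
    (∃ x : ETorsion (W.map (Int.castRingHom ℚ)) p, ¬ InE1 (W.map (Int.castRingHom ℚ)) p A x) →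
    ∃ t : ETorsion (W.map (Int.castRingHom ℚ)) p, IsRedLine (W.map (Int.castRingHom ℚ)) p A t

/-- (PEU)  good reduction: a point of `E[p]` outside the kernel of reduction is fixed by the
peu ramifiée subgroup of inertia. -/
def ELOCPeuStatement : Prop :=
  ∀ (W : WeierstrassCurve ℤ) (p : ℕ), W.Δ ≠ 0 → p.Prime → p ≠ 2 → W.IsGoodPrimeFor p →
    ∀ A : ValuationSubring (AlgebraicClosure ℚ), A.LiesOverPrime p →
    ∀ t : ETorsion (W.map (Int.castRingHom ℚ)) p, IsRedLine (W.map (Int.castRingHom ℚ)) p A t →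
    ∀ x : ETorsion (W.map (Int.castRingHom ℚ)) p, ¬ InE1 (W.map (Int.castRingHom ℚ)) p A x →
    ∀ σ : GQ, PeuFixes A p σ → σ • x = x

/-- `PeuFixes` elements fix the `p`-th roots of unity. -/
theorem cycloAt_one_of_peuFixes {A : ValuationSubring (AlgebraicClosure ℚ)} {p : ℕ} (hp : 0 < p)
    {σ : GQ} (hσ : PeuFixes A p σ) : CycloAt p σ 1 := by
  intro ζ hζ
  rw [pow_one]
  have hζ0 : ζ ≠ 0 := by
    rintro rfl
    rw [zero_pow hp.ne'] at hζ
    exact zero_ne_one hζ
  have hζA : ζ ∈ A := by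
    have h1 : A.valuation ζ ^ p = 1 := by rw [← map_pow, hζ, map_one]
    have h2 : A.valuation ζ = 1 := (pow_eq_one_iff.mp h1).resolve_right hp.ne'
    exact (A.valuation_le_one_iff ζ).mp h2.le
  have hζA' : ζ⁻¹ ∈ A := by
    have h1 : A.valuation ζ⁻¹ ^ p = 1 := by rw [← map_pow, inv_pow, hζ, inv_one, map_one]
    have h2 : A.valuation ζ⁻¹ = 1 := (pow_eq_one_iff.mp h1).resolve_right hp.ne'
    exact (A.valuation_le_one_iff ζ⁻¹).mp h2.le
  refine hσ.2 ζ hζA hζA' (fun τ _ _ => ?_)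
  rw [hζ, map_one]

/-- **Level 1 glue.** -/
theorem elocOrdGoodIrr_of (hss : ELOCssStatement) (hline : ELOCLineStatement)
    (hpeu : ELOCPeuStatement) : ELOCOrdGoodIrrStatement := by
  intro W p hΔ hp hp2 hgood hirr A hA hord
  by_cases hE1 : ∀ x : ETorsion (W.map (Int.castRingHom ℚ)) p,
      InE1 (W.map (Int.castRingHom ℚ)) p A x
  · exact absurd hord (hss W p hΔ hp hp2 hgood A hA hE1)
  · have hex : ∃ x : ETorsion (W.map (Int.castRingHom ℚ)) p,
        ¬ InE1 (W.map (Int.castRingHom ℚ)) p A x := by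
      by_contra h
      exact hE1 (fun x => by
        by_contra hx
        exact h ⟨x, hx⟩)
    obtain ⟨t, ht⟩ := hline W p hΔ hp hp2 hgood hirr A hA hex
    refine ⟨t, ht.2.1, ht.2.2.1, ?_⟩
    intro x σ hσ
    by_cases hx : InE1 (W.map (Int.castRingHom ℚ)) p A x
    · obtain ⟨n, rfl⟩ := ht.2.2.2 x hx
      have h1 := ht.2.1 σ hσ.1 1 (cycloAt_one_of_peuFixes hp.pos hσ)
      rw [one_smul] at h1
      rw [smul_comm, h1]
    · exact hpeu W p hΔ hp hp2 hgood A hA t ht x hx σ hσ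

/-- **Wall glue with the irreducible form** (same proof as `H944.Wall.ordCaseGood_of`). -/
theorem ordCaseGood_of_irr (hF : AtPFiltrationStatement) (hEL : ELOCOrdGoodIrrStatement)
    (hNMT : NotMultTypeWStatement) (hNE : NonEisWStatement) : OrdCaseGoodStatement := by
  intro W p M' _ _ hΔ hp hp2 hpM' hgood hirr A hA hH S hemb
  obtain ⟨S₀, α, β, hdeg, hA'⟩ := hF p M' hp hp2 hpM'
  obtain ⟨𝓕, 𝒮, -, h2, h3, h4⟩ := hA' A hA
  exact lowered_of_filtration hdeg h2 h3 h4 (hEL W p hΔ hp hp2 hgood hirr A hA hH)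
    (hNMT W p hΔ hp hp2 hirr A hA) (hNE W p hΔ hp hp2 hirr) hemb

/-! ## Level 2: leaves of (PEU)

`PEU ⇐ (K) + (F) + (U)` + the inertia lemmas on main (`Lib/Cheb/H476/FrobConj`,
`S05/AssembleFrey.inertia_res`).  The glue is `Ribet/H375/PeuGlue.lean` (helper375). -/

/-- **(K)** abstract Kummer-unit lemma (Mathlib only).  A group `G` acts on a field `L` preserving
a valuation ring `A` and fixing a primitive `p`-th root of unity `ζ`; `γ : ℤ/p → L` is permuted
through `c : G → ℤ/p`; `γ 1 - γ 0` has the valuation of a `G`-fixed element `b`.  Then there is a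
unit `y` of `A` with `τ y = ζ ^ c(τ) · y` for all `τ`.
[Lagrange resolvents `α_i = ∑_j ζ^{-ij} γ_j`; `p (γ 1 - γ 0) = ∑_{i ≠ 0} (ζ^i - 1) α_i`; ultrametric
inequality: one term has the valuation of `p b`, or two terms have equal valuation.] -/
def KummerUnitStatement : Prop :=
  ∀ (L : Type) [Field L] (A : ValuationSubring L) (G : Type) [Group G] [MulSemiringAction G L]
    (p : ℕ), p.Prime → (p : L) ≠ 0 →
    (∀ (τ : G) (a : L), a ∈ A → τ • a ∈ A) →
    ∀ ζ : L, IsPrimitiveRoot ζ p → (∀ τ : G, τ • ζ = ζ) →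
    ∀ (c : G → ZMod p) (γ : ZMod p → L), (∀ (τ : G) (j : ZMod p), τ • γ j = γ (j + c τ)) →
    ∀ b : L, (∀ τ : G, τ • b = b) → b ≠ 0 → A.valuation ((γ 1 - γ 0) / b) = 1 →
    ∃ y : L, y ∈ A ∧ y⁻¹ ∈ A ∧ ∀ τ : G, τ • y = ζ ^ (c τ).val * y

/-- **(F)** first-order expansion of the addition law at the origin.  `W` with integral
coefficients, `P = (x, y)` integral with `2y + a₁x + a₃` a unit, `T = (X, Y)` in the kernel of
reduction.  Then `P + T = (x₃, y₃)` is integral and `(x₃ - x) / z(T)` is a unit, `z(T) = -X / Y`.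
[Exact identity `(x₃ - x)(X - x)² = -Y(2y + a₁x + a₃) + X(3x² + 2a₂x + a₄ - a₁y) + (…)`.] -/
def FirstOrderStatement : Prop :=
  ∀ (K : Type) [Field K] [DecidableEq K] (A : ValuationSubring K) (W : Affine K),
    IntegralCoeffs W A.valuation →
    ∀ (x y X Y : K) (h : W.Nonsingular x y) (hT : W.Nonsingular X Y), x ∈ A → X ∉ A →
    A.valuation (2 * y + W.a₁ * x + W.a₃) = 1 →
    ∃ (x₃ y₃ : K) (h₃ : W.Nonsingular x₃ y₃),
      Point.some x y h + Point.some X Y hT = Point.some x₃ y₃ h₃ ∧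
      x₃ ∈ A ∧ A.valuation ((x₃ - x) * Y / X) = 1

/-- **(U)** good reduction at the odd prime `p`: at a point of order `p` outside the kernel of
reduction, `2y + a₁x + a₃` is a unit (its reduction has odd order, so it is not `2`-torsion).
[`Lib/Red`: the reduction homomorphism.] -/
def TwoUnitStatement : Prop :=
  ∀ (W : WeierstrassCurve ℤ) (p : ℕ), W.Δ ≠ 0 → p.Prime → p ≠ 2 → W.IsGoodPrimeFor p →
    ∀ A : ValuationSubring (AlgebraicClosure ℚ), A.LiesOverPrime p →
    ∀ (x y : AlgebraicClosure ℚ)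
      (h : ((W.map (Int.castRingHom ℚ))⁄(AlgebraicClosure ℚ)).Nonsingular x y),
      p • (Point.some x y h) = 0 → x ∈ A →
      A.valuation (2 * y + ((W.map (Int.castRingHom ℚ))⁄(AlgebraicClosure ℚ)).a₁ * x +
        ((W.map (Int.castRingHom ℚ))⁄(AlgebraicClosure ℚ)).a₃) = 1

/-- The glue `(K) + (F) + (U) ⇒ (PEU)`, as a statement (proved in `PeuGlue.lean`). -/
def PeuGlueStatement : Prop :=
  KummerUnitStatement → FirstOrderStatement → TwoUnitStatement → ELOCPeuStatement

end Fermat.Agent.Ribet.H375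

end
-- ===== PACK-END Ribet/H375/ELOCOrdSpec.lean

-- ===== PACK-BEGIN S52/H545/Final.lean
section





/-!
# S52 Part A (helper545): the generic point is sent to a constant point by `Φ² − aΦ + q`

Assembly of the exact-height argument (Manin): on `MM ⊂ W₀(κ(W₀))` the height `hgt` satisfies
the exact parallelogram law (`Gen.lean`), `hgt (Φ P) = q · hgt P` and
`hgt (Φ P − P) = N · hgt P` (`Frob.lean`), hence `hgt ((Φ² − (q + 1 − N) Φ + q) P) = 0`
(helper127), and points of `MM` of height `0` are constant.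
-/

set_option autoImplicit false

namespace Fermat.Agent.S52.H545

open WeierstrassCurve WeierstrassCurve.Affine Polynomial
open Fermat.Agent.Lib.FrobRel

section Transc

variable {k : Type*} [Field k] (W : WeierstrassCurve.Affine k)

/-- The function `x` is transcendental over the base field. -/
theorem xF_transcendental : Transcendental k (xF W) := by
  rw [transcendental_iff_injective]
  intro p q hpq
  apply ιP_injective W
  have h : ∀ r : k[X], aeval (xF W) r = ιP W r := by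
    intro r
    rw [xF, aeval_algebraMap_apply, aeval_X_left_apply]
    rfl
  rw [← h, ← h, hpq]

end Transc

section Const

variable {F : Type*} [Field F] [Fintype F] (W₀ : WeierstrassCurve F)
variable (κ : Type*) [Field κ] [Algebra F κ]

omit [Fintype F] in
/-- Points of `MM` of height `0` are constant. -/
theorem isConstPt_of_hgt_eq_zero (hs : Sep (Wκ W₀ κ)) (halg : ∀ c : κ, IsAlgebraic F c)
    {P : EK W₀ κ} (hP : P ∈ MM W₀ κ) (h0 : hgt W₀ κ P = 0) : H230.IsConstPt W₀ P := by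
  rcases P with _ | ⟨X, Y, h⟩
  · exact Or.inl rfl
  · right
    refine ⟨X, Y, h, rfl, ?_⟩
    obtain ⟨r, hr⟩ := exists_ιK_eq_of_mem W₀ κ hs hP
    rw [hgt, xvec_some W₀ κ r hr, maxDeg_fin2] at h0
    simp only [Fin.isValue, Matrix.cons_val_zero, Matrix.cons_val_one] at h0
    have hn : r.num.natDegree = 0 := by
      have := le_max_left r.num.natDegree r.denom.natDegree
      omega
    have hd : r.denom.natDegree = 0 := by
      have := le_max_right r.num.natDegree r.denom.natDegree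
      omega
    have hX : X = algebraMap κ (KK W₀ κ) (r.num.coeff 0 / r.denom.coeff 0) := by
      rw [← hr, ιK_apply, eq_C_of_natDegree_eq_zero hn, eq_C_of_natDegree_eq_zero hd, ιP_C, ιP_C,
        map_div₀]
      simp
    rw [hX]
    exact (halg _).algebraMap

end Const

section Main

variable {F : Type*} [Field F] [Fintype F] (W₀ : WeierstrassCurve F)
variable (κ : Type*) [Field κ] [Algebra F κ]

/-- Frobenius restricted to `MM`. -/
noncomputable def PhiM : MM W₀ κ →+ MM W₀ κ :=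
  ((PhiP W₀ κ).comp (MM W₀ κ).subtype).codRestrict (MM W₀ κ) (fun P => PhiP_mem W₀ κ P.2)

lemma coe_PhiM (Q : MM W₀ κ) : ((PhiM W₀ κ Q : MM W₀ κ) : EK W₀ κ) = PhiP W₀ κ Q := rfl

variable [W₀.IsElliptic]

/-- **Exact-height argument.**  For `P ∈ MM`, the point `(Φ² − (q + 1 − N) Φ + q) P` is
constant, where `N` is the degree of the rational function `x(Φ P − P)` of `x(P)`. -/
theorem isConstPt_psi_of_pair (hs : Sep (Wκ W₀ κ)) (halg : ∀ c : κ, IsAlgebraic F c)
    {U V : Polynomial F} (MP : ManinPair W₀ κ U V) {N : ℕ} (D : RedData U V N)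
    {P : EK W₀ κ} (hP : P ∈ MM W₀ κ) :
    H230.IsConstPt W₀ (PhiP W₀ κ (PhiP W₀ κ P) - ((Fintype.card F : ℤ) + 1 - N) • PhiP W₀ κ P
      + (Fintype.card F : ℤ) • P) := by
  have hpar : H127.IsParNat (fun Q : MM W₀ κ => hgt W₀ κ (Q : EK W₀ κ)) := by
    intro Q R
    exact hgt_parallelogram W₀ κ hs Q.2 R.2
  have key := hpar.frobenius_relation (PhiM W₀ κ) (Fintype.card F) N
    (fun Q => hgt_PhiP W₀ κ hs Q.2) (fun Q => hgt_PhiP_sub_of_pair W₀ κ hs MP D Q.2) ⟨P, hP⟩
  set Rm : MM W₀ κ := PhiM W₀ κ (PhiM W₀ κ ⟨P, hP⟩)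
    - ((Fintype.card F : ℤ) + 1 - N) • PhiM W₀ κ ⟨P, hP⟩ + Fintype.card F • ⟨P, hP⟩ with hRm
  have hR : (Rm : EK W₀ κ) = PhiP W₀ κ (PhiP W₀ κ P)
      - ((Fintype.card F : ℤ) + 1 - N) • PhiP W₀ κ P + (Fintype.card F : ℤ) • P := by
    rw [hRm, AddSubgroup.coe_add, AddSubgroup.coe_sub, AddSubgroup.coe_zsmul,
      AddSubgroup.coe_nsmul, coe_PhiM, coe_PhiM, natCast_zsmul]
  rw [← hR]
  exact isConstPt_of_hgt_eq_zero W₀ κ hs halg Rm.2 key

/-- The exact-height argument in odd characteristic. -/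
theorem isConstPt_psi (h2 : (2 : κ) ≠ 0) (halg : ∀ c : κ, IsAlgebraic F c) {N : ℕ}
    (D : ManinData W₀ N) {P : EK W₀ κ} (hP : P ∈ MM W₀ κ) :
    H230.IsConstPt W₀ (PhiP W₀ κ (PhiP W₀ κ P) - ((Fintype.card F : ℤ) + 1 - N) • PhiP W₀ κ P
      + (Fintype.card F : ℤ) • P) :=
  isConstPt_psi_of_pair W₀ κ (sep_of_two_ne_zero _ h2) halg (maninPair_odd W₀ κ h2) D.toRedData hP

end Main

end Fermat.Agent.S52.H545

end
-- ===== PACK-END S52/H545/Final.lean

-- ===== PACK-BEGIN S24/H117/LocalThm.lean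
section




/-!
# S24 / H117 — the local theorem (LT2, LT3)

For `L : LocalData K F C X t` with `[F : E] = #X` (`E ⊆ K(t)`):

* `exists_placeOf_eq` (LT2): every place `v` of `F/K` with `0 < v.ord t` is induced by one of
  the embeddings `L.σ x`;
* `localThm` (LT3): if moreover `#X ≤ ∑_{v | t} v.ord t`, then the places over `t = 0`
  correspond bijectively to the cycles of `L.perm`, and `v.ord t` is the length of the cycle.
-/

set_option autoImplicit false
set_option linter.style.haveILetI false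

noncomputable section

open AlgebraicCurve IntermediateField

namespace Fermat.Agent.S24.H117

variable {K F : Type*} [Field K] [Field F] [Algebra K F] [CharZero K]
variable {C : Type*} [Field C] {X : Type*} [Finite X]
variable {t : F} (L : LocalData K F C X t)

omit [CharZero K] [Finite X] in
theorem order_leadingCoeff_iterate (x : X) (f : F) (i : ℕ) :
    (L.σ ((L.perm ^ i) x) f).order = (L.σ x f).order ∧
      (L.σ ((L.perm ^ i) x) f).leadingCoeff
        = (L.ζ ^ (L.σ x f).order) ^ i * (L.σ x f).leadingCoeff := by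
  induction i with
  | zero => simp
  | succ n ih =>
    rw [pow_succ', Equiv.Perm.mul_apply]
    refine ⟨by rw [L.σ_perm_order, ih.1], ?_⟩
    rw [L.σ_perm_leadingCoeff, ih.1, ih.2, pow_succ]
    ring

omit [CharZero K] [Finite X] in
/-- The ramification index `e = ord_v t` divides every period of `x` under `perm`. -/
theorem ord_t_dvd_of_pow_apply_eq (x : X) (i : ℕ) (hi : (L.perm ^ i) x = x) :
    (placeOf L x).ord t ∣ (i : ℤ) := by
  obtain ⟨π, hπ0, hπ⟩ := exists_ord_eq_one (placeOf L x)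
  have hord : (L.σ x π).order = mult L x := by rw [order_eq, hπ, mul_one]
  have hlc : (L.σ x π).leadingCoeff ≠ 0 :=
    HahnSeries.leadingCoeff_ne_zero.mpr ((map_ne_zero (L.σ x)).mpr hπ0)
  have h := (order_leadingCoeff_iterate L x π i).2
  rw [hi, hord, zpow_natCast] at h
  have h1 : (L.ζ ^ mult L x) ^ i = 1 := by
    have : (L.ζ ^ mult L x) ^ i * (L.σ x π).leadingCoeff = 1 * (L.σ x π).leadingCoeff := by
      rw [one_mul]; exact h.symm
    exact mul_right_cancel₀ hlc this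
  rw [← pow_mul] at h1
  have h2 : L.m ∣ mult L x * i := (L.hζ.pow_eq_one_iff_dvd _).mp h1
  have h3 : ((mult L x : ℤ) * (placeOf L x).ord t) ∣ (mult L x : ℤ) * i := by
    rw [mult_mul_ord_t]
    exact_mod_cast h2
  have hk : (mult L x : ℤ) ≠ 0 := by exact_mod_cast (mult_pos L x).ne'
  exact (mul_dvd_mul_iff_left hk).mp h3

variable (E : IntermediateField K F) (hE : E ≤ K⟮t⟯) [FiniteDimensional E F]
  (hrank : Module.finrank E F = Nat.card X)

include hE hrank in
/-- **LT2.** Every place over `t = 0` is induced by one of the embeddings. -/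
theorem exists_placeOf_eq (v : Place K F) (hv : 0 < v.ord t) : ∃ x, placeOf L x = v := by
  classical
  by_contra hcon
  push Not at hcon
  haveI : Fintype X := Fintype.ofFinite X
  have hvs : v ∉ Finset.univ.image (placeOf L) := by
    intro h
    obtain ⟨x, -, hx⟩ := Finset.mem_image.mp h
    exact hcon x hx
  obtain ⟨f, hf1, hf2⟩ := exists_ord_neg_forall_pos v _ hvs
  have hf3 : ∀ x, 0 ≤ ((L.σ x) f).order := fun x =>
    (ord_placeOf_nonneg_iff L x f).mp
      (hf2 _ (Finset.mem_image_of_mem _ (Finset.mem_univ x))).le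
  have := ord_nonneg_of_forall_order_nonneg L E hE hrank f hf3 v hv
  omega

include hE hrank in
theorem mem_image_placeOf_iff [Fintype X] [DecidableEq (Place K F)] (v : Place K F) :
    v ∈ Finset.univ.image (placeOf L) ↔ 0 < v.ord t := by
  constructor
  · intro h
    obtain ⟨x, -, rfl⟩ := Finset.mem_image.mp h
    exact ord_t_pos L x
  · intro h
    obtain ⟨x, rfl⟩ := exists_placeOf_eq L E hE hrank v h
    exact Finset.mem_image_of_mem _ (Finset.mem_univ x)

include L hE hrank in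
/-- The set of places over `t = 0` is finite. -/
theorem finite_places_over : {v : Place K F | 0 < v.ord t}.Finite := by
  classical
  haveI : Fintype X := Fintype.ofFinite X
  refine (Finset.univ.image (placeOf L)).finite_toSet.subset ?_
  intro v hv
  exact (mem_image_placeOf_iff L E hE hrank v).mpr hv

include hE hrank in
/-- **LT3 (local theorem).**  Assume the fundamental inequality `#X ≤ ∑_{v | t} ord_v t`.
Then the places over `t = 0` are in bijection with the cycles of `perm`, the ramification index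
of the place induced by `x` is the length of the cycle through `x`, and
`∑_{v | t} ord_v t = #X`. -/
theorem localThm (s : Finset (Place K F)) (hs : ∀ v, v ∈ s ↔ 0 < v.ord t)
    (hsum : (Nat.card X : ℤ) ≤ ∑ v ∈ s, v.ord t) :
    s.card = numOrbits L.perm ∧
      (∀ x, (Nat.card (MulAction.orbit (Subgroup.zpowers L.perm) x) : ℤ) = (placeOf L x).ord t) ∧
      (∑ v ∈ s, v.ord t = Nat.card X) := by
  classical
  haveI : Fintype X := Fintype.ofFinite X
  have hs' : s = Finset.univ.image (placeOf L) := by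
    ext v
    rw [hs, mem_image_placeOf_iff L E hE hrank]
  subst hs'
  have hcast : ∀ v ∈ Finset.univ.image (placeOf L), (((v.ord t).toNat : ℕ) : ℤ) = v.ord t := by
    intro v hv
    exact Int.toNat_of_nonneg ((hs v).mp hv).le
  have hsumNat : Fintype.card X ≤ ∑ v ∈ Finset.univ.image (placeOf L), (v.ord t).toNat := by
    have : (Nat.card X : ℤ) ≤ ((∑ v ∈ Finset.univ.image (placeOf L), (v.ord t).toNat : ℕ) : ℤ) := by
      rw [Nat.cast_sum, Finset.sum_congr rfl hcast]
      exact hsum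
    rw [Nat.card_eq_fintype_card] at this
    exact_mod_cast this
  obtain ⟨h1, h2, h3⟩ := orbit_count_squeeze L.perm (placeOf L) (fun v => (v.ord t).toNat)
    (placeOf_perm L)
    (fun x i hi => by
      have := ord_t_dvd_of_pow_apply_eq L x i hi
      have hpos := ord_t_pos L x
      exact Int.natCast_dvd_natCast.mp (by rwa [Int.toNat_of_nonneg hpos.le]))
    hsumNat
  refine ⟨by rw [numOrbits, h1], fun x => ?_, ?_⟩
  · rw [h2 x]
    exact Int.toNat_of_nonneg (ord_t_pos L x).le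
  · have : ((∑ v ∈ Finset.univ.image (placeOf L), (v.ord t).toNat : ℕ) : ℤ) = Fintype.card X := by
      exact_mod_cast h3
    rw [Nat.cast_sum, Finset.sum_congr rfl hcast] at this
    rw [this, Nat.card_eq_fintype_card]

end Fermat.Agent.S24.H117

end
end
-- ===== PACK-END S24/H117/LocalThm.lean

-- ===== PACK-BEGIN S24/Alg/LocFund.lean
section



/-!
# S24 / ALG-LOC: the fundamental inequality from local data (no Dedekind theory)

For `L : LocalData K F C X t`: at most `ord_v t` of the embeddings `L.σ x` induce a given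
place `v` (with residue field `K`).  Hence `|X| ≤ ∑_{v | t} ord_v t`.
-/

set_option autoImplicit false

noncomputable section

open AlgebraicCurve Polynomial

namespace Fermat.Agent.S24.H144

variable {K F : Type*} [Field K] [Field F] [Algebra K F]
variable {C : Type*} [Field C] {X : Type*} {t : F}

theorem loc_coeff_zero_C (c : C) : (HahnSeries.C c : LaurentSeries C).coeff 0 = c := by
  simp [HahnSeries.C, HahnSeries.coeff_single_same]

/-- The place induced by `L.σ x` lies over `t = 0`. -/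
theorem loc_ord_t_pos_of_induces (L : LocalData K F C X t) {x : X} {v : Place K F}
    (hx : Induces (L.σ x) v) : 0 < v.ord t := by
  obtain ⟨g, hg, hord⟩ := loc_exists_mult v (L.σ x) hx
  have h1 := hord t
  have h2 := loc_order_t_pos L x
  rw [h1] at h2
  have hg' : (0 : ℤ) < g := Int.natCast_pos.mpr hg
  exact (mul_pos_iff_of_pos_left hg').mp h2

/-- **Fibre bound.** At most `ord_v t` of the embeddings induce the place `v`. -/
theorem loc_fibre_card_le [CharZero C] (L : LocalData K F C X t) (v : Place K F)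
    (hv : 0 < v.ord t) (hres : ResidueTrivial v) (T : Finset X)
    (hT : ∀ x ∈ T, Induces (L.σ x) v) : (T.card : ℤ) ≤ v.ord t := by
  classical
  obtain ⟨π, hπ⟩ := loc_exists_ord_eq_one v
  have hπ0 : π ≠ 0 := by rintro rfl; simp at hπ
  have ht0 : t ≠ 0 := by rintro rfl; simp at hv
  obtain ⟨k, hk⟩ : ∃ k : ℕ, v.ord t = (k : ℤ) + 1 := ⟨(v.ord t - 1).toNat, by omega⟩
  -- the unit part of `t`
  set u : F := t * (π ^ (k + 1))⁻¹ with hu
  have hpk : π ^ (k + 1) ≠ 0 := pow_ne_zero _ hπ0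
  have hu0 : u ≠ 0 := mul_ne_zero ht0 (inv_ne_zero hpk)
  have hut : t = u * π ^ (k + 1) := by rw [hu]; field_simp
  have hordu : v.ord u = 0 := by
    rw [hu, v.ord_mul ht0 (inv_ne_zero hpk), v.ord_inv, loc_ord_pow, hπ, hk]
    push_cast; ring
  have humem : u ∈ v.toValuationSubring := loc_mem_of_ord_nonneg v hordu.ge
  -- the residue of `u`
  obtain ⟨c, hc⟩ := hres u humem
  have hucoeff : ∀ x ∈ T, (L.σ x u).coeff 0 = L.ι c := by
    intro x hx
    rcases hc with hc | hc
    · rw [hc, L.σ_const, loc_coeff_zero_C]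
    · obtain ⟨g, hg, hord⟩ := loc_exists_mult v (L.σ x) (hT x hx)
      have h1 : 0 < (L.σ x (u - algebraMap K F c)).order := by
        rw [hord]
        exact mul_pos (Int.natCast_pos.mpr hg) hc
      have h2 : (L.σ x (u - algebraMap K F c)).coeff 0 = 0 :=
        HahnSeries.coeff_eq_zero_of_lt_order h1
      rw [map_sub, HahnSeries.coeff_sub, L.σ_const, loc_coeff_zero_C, sub_eq_zero] at h2
      exact h2
  -- the key relation
  have hrel : ∀ x ∈ T, L.ι c * ((L.σ x π).leadingCoeff) ^ (k + 1) = (L.σ x t).leadingCoeff := by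
    intro x hx
    obtain ⟨g, hg, hord⟩ := loc_exists_mult v (L.σ x) (hT x hx)
    have hou : LocBig 0 (L.σ x u) := LocBig.of_le_order (by rw [hord, hordu, mul_zero])
    have hoπ : (L.σ x π).order = g := by rw [hord, hπ, mul_one]
    have hbπ : LocBig (g : ℤ) (L.σ x π) := LocBig.of_le_order hoπ.ge
    have hot : (L.σ x t).order = ((k + 1 : ℕ) : ℤ) * g := by
      rw [hord, hk]; push_cast; ring
    have h1 := hou.coeff_mul (hbπ.pow (k + 1))
    rw [hbπ.coeff_pow, zero_add, ← map_pow, ← map_mul, ← hut, hucoeff x hx] at h1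
    have e1 : (L.σ x π).leadingCoeff = (L.σ x π).coeff g := by
      rw [HahnSeries.leadingCoeff_eq, hoπ]
    have e2 : (L.σ x t).leadingCoeff = (L.σ x t).coeff (((k + 1 : ℕ) : ℤ) * g) := by
      rw [HahnSeries.leadingCoeff_eq, hot]
    rw [e1, e2, h1]
  have hιc : ∀ x ∈ T, L.ι c ≠ 0 := by
    intro x hx
    rw [← hucoeff x hx]
    obtain ⟨g, hg, hord⟩ := loc_exists_mult v (L.σ x) (hT x hx)
    have ho : (L.σ x u).order = 0 := by rw [hord, hordu, mul_zero]
    rw [← ho]
    exact HahnSeries.coeff_order_eq_zero.not.mpr ((map_ne_zero (L.σ x)).mpr hu0)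
  rcases T.eq_empty_or_nonempty with rfl | ⟨x₀, hx₀⟩
  · simp only [Finset.card_empty, Nat.cast_zero]; exact hv.le
  -- all leading coefficients are `(k+1)`-th roots of the same element
  set A : C := (L.σ x₀ t).leadingCoeff * (L.ι c)⁻¹ with hA
  have hroot : ∀ x ∈ T, (L.σ x π).leadingCoeff ∈ (nthRoots (k + 1) A).toFinset := by
    intro x hx
    rw [Multiset.mem_toFinset, mem_nthRoots (Nat.succ_pos k), hA, L.σ_t_eq x₀ x, ← hrel x hx]
    field_simp [hιc x hx]
  have hinj : Set.InjOn (fun x => (L.σ x π).leadingCoeff) (T : Set X) := by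
    intro x hx y hy hxy
    apply L.σ_inj
    exact loc_emb_eq_of_leadingCoeff_eq hres hv hπ L.ι (L.σ x) (L.σ y) (L.σ_const x)
      (L.σ_const y) (hT x hx) (hT y hy) (L.σ_t_eq x y) hxy
  have h1 : T.card ≤ (nthRoots (k + 1) A).toFinset.card :=
    Finset.card_le_card_of_injOn _ hroot hinj
  have h2 : (nthRoots (k + 1) A).toFinset.card ≤ k + 1 :=
    (Multiset.toFinset_card_le _).trans (card_nthRoots _ _)
  rw [hk]
  have : T.card ≤ k + 1 := h1.trans h2
  exact_mod_cast this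

/-- **Fundamental inequality** `|X| ≤ ∑_{v | t} ord_v t`, hypothesis-explicit version. -/
theorem loc_card_le_sum_of_residueTrivial [CharZero C] [Finite X] (L : LocalData K F C X t)
    (hres : ∀ v : Place K F, 0 < v.ord t → ResidueTrivial v)
    (s : Finset (Place K F)) (hs : ∀ v, v ∈ s ↔ 0 < v.ord t) :
    (Nat.card X : ℤ) ≤ ∑ v ∈ s, v.ord t := by
  classical
  have : Fintype X := Fintype.ofFinite X
  rw [Nat.card_eq_fintype_card, ← Finset.card_univ,
    Finset.card_eq_sum_card_image (locPlace L) Finset.univ]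
  push_cast
  have himg : Finset.univ.image (locPlace L) ⊆ s := by
    intro v hv
    obtain ⟨x, _, rfl⟩ := Finset.mem_image.mp hv
    exact (hs _).mpr (loc_ord_t_pos_of_induces L (loc_induces_locPlace L x))
  refine le_trans (Finset.sum_le_sum fun v hv => ?_)
    (Finset.sum_le_sum_of_subset_of_nonneg himg fun v hv _ => ((hs v).mp hv).le)
  have hvpos : 0 < v.ord t := (hs v).mp (himg hv)
  apply loc_fibre_card_le L v hvpos (hres v hvpos)
  intro x hx
  rw [Finset.mem_filter] at hx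
  rw [← hx.2]
  exact loc_induces_locPlace L x

end Fermat.Agent.S24.H144

end
end
-- ===== PACK-END S24/Alg/LocFund.lean

-- ===== PACK-BEGIN S18/H107/T2Model.lean
section






/-!
# helper107 — S18 / M3-T : the good model for the coordinate `t₂` (case `ℓ = 3`)

`goodModel_t2_107` : from the `j`-model WITHOUT branch-set fields (`BaseModel107 … j`, true for
every `ℓ ∤ M`), the branch data of the `j`-line in characteristic `0` (`BranchJ107`), the identity
`j t² = (t + 256)³`, `2⁻¹ ∈ R`, `t ∈ Fc ∩ V` and the Gauss property of `t`, we get the frozen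
`Alg.GoodModel Lc Ec Fc R V w t S` with `S = {0, -64}`.
-/

set_option autoImplicit false

namespace Fermat.Agent.S18.H107

open Polynomial Fermat.Agent.S18.Alg

variable {Ω : Type*} [Field Ω]

theorem ne_zero_of_transcendental107 {Lc : Subfield Ω} {j : Ω} (h : Transcendental Lc j) :
    j ≠ 0 := by
  rintro rfl
  exact h isAlgebraic_zero

/-- `gauss` applied to `X + C a`. -/
theorem gauss_X_add_C107 {R V : Subring Ω} {t : Ω}
    (hgauss : ∀ P : Polynomial Ω, (∀ i, P.coeff i ∈ R) →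
      (∃ i, P.coeff i ≠ 0 ∧ (P.coeff i)⁻¹ ∈ R) → (P.eval t)⁻¹ ∈ V)
    {a : Ω} (ha : a ∈ R) : (t + a)⁻¹ ∈ V := by
  have := hgauss (X + C a) (fun i => ?_) ⟨1, ?_, ?_⟩
  · simpa using this
  · rw [coeff_add, coeff_X, coeff_C]
    split_ifs
    · exact R.add_mem R.one_mem ha
    · exact R.add_mem R.one_mem R.zero_mem
    · exact R.add_mem R.zero_mem ha
    · exact R.add_mem R.zero_mem R.zero_mem
  · simp [coeff_X]
  · simp [coeff_X, R.one_mem]

theorem gauss_X107 {R V : Subring Ω} {t : Ω}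
    (hgauss : ∀ P : Polynomial Ω, (∀ i, P.coeff i ∈ R) →
      (∃ i, P.coeff i ≠ 0 ∧ (P.coeff i)⁻¹ ∈ R) → (P.eval t)⁻¹ ∈ V) : t⁻¹ ∈ V := by
  have := gauss_X_add_C107 hgauss R.zero_mem
  rwa [add_zero] at this

theorem goodModel_t2_107 {Lc Ec Fc : Subfield Ω} {R V : Subring Ω} {w j t : Ω} {S : Finset Ω}
    (hb : BaseModel107 Lc Ec Fc R V w j) (hB : BranchJ107 Lc j)
    (hrel : j * t ^ 2 = (t + 256) ^ 3) (htF : t ∈ Fc) (htV : t ∈ V) (h2 : (2 : Ω)⁻¹ ∈ R)
    (hgauss : ∀ P : Polynomial Ω, (∀ i, P.coeff i ∈ R) →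
      (∃ i, P.coeff i ≠ 0 ∧ (P.coeff i)⁻¹ ∈ R) → (P.eval t)⁻¹ ∈ V)
    (hS : ∀ s, s ∈ S ↔ s = 0 ∨ s = -64) :
    GoodModel Lc Ec Fc R V w t S := by
  have := hb.charZero
  have hj0 : j ≠ 0 := ne_zero_of_transcendental107 hb.x_transcendental
  have hH : HauptT2107 Fc R V j t :=
    { rel := hrel
      two_inv := h2
      two_ne := two_ne_zero
      j_ne := hj0
      t_mem_Fc := htF
      t_mem_V := htV
      t256_inv_mem_V := gauss_X_add_C107 hgauss (ofNat_mem R 256) }
  have ht0 : t ≠ 0 := hH.t_ne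
  have hwF : w ∈ Fc := hb.E_le_F (hb.R_le hb.w_mem)
  have htinvV : t⁻¹ ∈ V := gauss_X107 hgauss
  have h64 : (64 : Ω)⁻¹ ∈ R := by
    have := R.pow_mem h2 6
    have e : ((2 : Ω)⁻¹) ^ 6 = (64 : Ω)⁻¹ := by norm_num
    rwa [e] at this
  -- `j ∈ Ec(t)`
  have hjrat : j ∈ ratField Ec t := by
    have e : j = (t + 256) ^ 3 * (t ^ 2)⁻¹ := by
      field_simp
      linear_combination hrel
    rw [e]
    have ht := self_mem_ratField107 Ec t
    exact mul_mem (pow_mem (add_mem ht (ofNat_mem _ 256)) 3) (inv_mem (pow_mem ht 2))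
  -- transcendence of `t`
  have htr : Transcendental Lc t := by
    intro halg
    apply hb.x_transcendental
    have e : j = (t + 256) ^ 3 * (t ^ 2)⁻¹ := by
      field_simp
      linear_combination hrel
    rw [e]
    have h256 : IsAlgebraic Lc (256 : Ω) := by
      have : (256 : Ω) = algebraMap Lc Ω (256 : Lc) := by
        rw [map_ofNat]
      rw [this]
      exact isAlgebraic_algebraMap _
    exact ((halg.add h256).pow 3).mul (halg.pow 2).inv
  refine (show BaseModel107 Lc Ec Fc R V w t from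
    { charZero := hb.charZero
      R_le := hb.R_le
      R_total := hb.R_total
      w_mem := hb.w_mem
      w_ne_zero := hb.w_ne_zero
      w_inv_not_mem := hb.w_inv_not_mem
      w_gen := hb.w_gen
      w_discrete := hb.w_discrete
      residue_perfect := hb.residue_perfect
      E_le_L := hb.E_le_L
      E_le_F := hb.E_le_F
      L_algebraic := hb.L_algebraic
      L_algClosed := hb.L_algClosed
      E_closed_in_F := hb.E_closed_in_F
      compositum := hb.compositum
      x_mem := htF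
      x_transcendental := htr
      finite := finite_transfer107 hjrat hb.finite
      V_le := hb.V_le
      V_total := hb.V_total
      R_le_V := hb.R_le_V
      w_inv_not_mem_V := hb.w_inv_not_mem_V
      V_gen := hb.V_gen
      x_mem_V := htV
      gauss := hgauss
      qep_fin := hH.qep_fin hwF hb.qep_fin hb.qep_inf
      qep_inf := hH.qep_inf hwF hb.qep_fin hb.qep_inf
      separable := separable_transfer107 (e := t ^ 2)
        (Subring.pow_mem _ (self_mem_polyRing107 R t) 2)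
        (by
          rw [hrel]
          exact Subring.pow_mem _
            (Subring.add_mem _ (self_mem_polyRing107 R t) (ofNat_mem _ 256)) 3)
        (V.pow_mem htV 2) (by rw [← inv_pow]; exact V.pow_mem htinvV 2) (pow_ne_zero _ ht0)
        hb.separable }).toGoodModel S ?_ ?_ ?_ ?_
  · intro s hs
    rcases (hS s).1 hs with rfl | rfl
    · exact R.zero_mem
    · exact R.neg_mem (ofNat_mem R 64)
  · intro s hs s' hs' hne
    rcases (hS s).1 hs with rfl | rfl <;> rcases (hS s').1 hs' with rfl | rfl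
    · exact absurd rfl hne
    · have e : ((0 : Ω) - -64)⁻¹ = (64 : Ω)⁻¹ := by norm_num
      rw [e]
      exact h64
    · have e : ((-64 : Ω) - 0)⁻¹ = -(64 : Ω)⁻¹ := by
        rw [sub_zero, inv_neg]
      rw [e]
      exact R.neg_mem h64
    · exact absurd rfl hne
  · intro s hs hs0
    rcases (hS s).1 hs with rfl | rfl
    · exact absurd rfl hs0
    · rw [inv_neg]
      exact R.neg_mem h64
  · intro O hL c hc hcS hz hz'
    have hc0 : c ≠ 0 := fun h => hcS ((hS c).2 (Or.inl h))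
    have hc64 : c ≠ -64 := fun h => hcS ((hS c).2 (Or.inr h))
    exact unramified_t2_107 Lc j t hrel hB O hL c hc hc64 hc0 hz hz'

end Fermat.Agent.S18.H107

end
-- ===== PACK-END S18/H107/T2Model.lean

-- ===== PACK-BEGIN Lib/HFree/H412/Lift.lean
section


/-!
# Lifting parabolic characters modulo `m` to `ℤ`

`Γ ≤ SL(2,ℤ)` of finite index with `-1 ∈ Γ`.  Every additive character `c : Γ → ℤ/m` which kills
the elements of finite order and the elements of trace `2` is the reduction modulo `m` of an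
additive character `c' : Γ → ℤ` killing all elements of trace `±2`.

Equivalently: `H = Γ^ab / ⟨parabolic, elliptic⟩` (`= H₁` of the compactified modular curve) is
torsion-free.
-/

set_option autoImplicit false

open scoped MatrixGroups
open ModularGroup

namespace Fermat.Agent.Lib.HFree.H412

open Fermat.Agent.S20.H270 (Umat IsCocycle exists_cocycle S_sq_eq_neg_one Umat_cube_eq_neg_one
  T_eq_S_inv_mul_Umat rho_S_S rho_U_U_U exists_conj_T_zpow_of_trace_sq)

variable {Γ : Subgroup SL(2, ℤ)}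

theorem S_pow_four : (S : SL(2, ℤ)) ^ 4 = 1 := by decide

theorem Umat_pow_six : Umat ^ 6 = 1 := by decide

section Closed

variable {A : Type*} [AddCommGroup A]

theorem shap_pow_fixed_of_finOrder {c : Γ → A}
    (hfin : ∀ (γ : Γ) (n : ℕ), 0 < n → γ ^ n = 1 → c γ = 0) (g : SL(2, ℤ)) (N : ℕ) (hN : 0 < N)
    (hg : g ^ N = 1) (y : SL(2, ℤ) ⧸ Γ) (j : ℕ) (hj : (g ^ j)⁻¹ • y = y) :
    shap c (g ^ j) y = 0 := by
  rw [shap_apply]
  refine hfin _ N hN (Subtype.ext ?_)
  show (tw (g ^ j) y) ^ N = 1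
  rw [tw_of_fixed hj]
  have h1 : ((Quotient.out y)⁻¹ * g ^ j * Quotient.out y) ^ N =
      (Quotient.out y)⁻¹ * (g ^ j) ^ N * Quotient.out y := by
    have := conj_pow (a := (Quotient.out y)⁻¹) (b := g ^ j) (i := N)
    rwa [inv_inv] at this
  rw [h1, ← pow_mul, mul_comm j N, pow_mul, hg, one_pow, mul_one, inv_mul_cancel]

theorem trace_conj_T_pow (δ : SL(2, ℤ)) (j : ℕ) :
    ((δ⁻¹ * T ^ j * δ : SL(2, ℤ)) : Matrix (Fin 2) (Fin 2) ℤ).trace = 2 := by
  have h1 : ((δ⁻¹ * T ^ j * δ : SL(2, ℤ)) : Matrix (Fin 2) (Fin 2) ℤ).trace =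
      ((δ * (δ⁻¹ * T ^ j) : SL(2, ℤ)) : Matrix (Fin 2) (Fin 2) ℤ).trace := by
    rw [Matrix.SpecialLinearGroup.coe_mul, Matrix.SpecialLinearGroup.coe_mul (δ)
      (δ⁻¹ * T ^ j), Matrix.trace_mul_comm]
  rw [h1, mul_inv_cancel_left, ← zpow_natCast, coe_T_zpow, Matrix.trace_fin_two]
  simp

theorem shap_T_pow_fixed {c : Γ → A}
    (hpar : ∀ γ : Γ, ((γ : SL(2, ℤ)) : Matrix (Fin 2) (Fin 2) ℤ).trace = 2 → c γ = 0)
    (y : SL(2, ℤ) ⧸ Γ) (j : ℕ) (hj : ((T : SL(2, ℤ)) ^ j)⁻¹ • y = y) :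
    shap c ((T : SL(2, ℤ)) ^ j) y = 0 := by
  rw [shap_apply]
  refine hpar _ ?_
  show ((tw (T ^ j) y : SL(2, ℤ)) : Matrix (Fin 2) (Fin 2) ℤ).trace = 2
  rw [tw_of_fixed hj]
  exact trace_conj_T_pow _ j

end Closed

section Red

variable (m : ℕ)

/-- Reduction modulo `m` of integer valued functions. -/
def red {X : Type*} (n : X → ℤ) : X → ZMod m := fun x => ((n x : ℤ) : ZMod m)

theorem red_apply {X : Type*} (n : X → ℤ) (x : X) : red m n x = ((n x : ℤ) : ZMod m) := rfl

theorem red_permRep {G X : Type*} [Group G] [MulAction G X] (g : G) (n : X → ℤ) :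
    red m (permRep ℤ g n) = permRep (ZMod m) g (red m n) := rfl

theorem red_add {X : Type*} (n n' : X → ℤ) : red m (n + n') = red m n + red m n' := by
  funext x
  simp [red_apply]

theorem red_sub {X : Type*} (n n' : X → ℤ) : red m (n - n') = red m n - red m n' := by
  funext x
  simp [red_apply]

/-- A lift of a `ZMod m`-valued function. -/
def liftFun [NeZero m] {X : Type*} (f : X → ZMod m) : X → ℤ := fun x => ((f x).val : ℤ)

theorem red_liftFun [NeZero m] {X : Type*} (f : X → ZMod m) : red m (liftFun m f) = f := by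
  funext x
  simp [red_apply, liftFun]

theorem isCocycle_red {z : SL(2, ℤ) → ((SL(2, ℤ) ⧸ Γ) → ℤ)} (hz : IsCocycle (permRep ℤ) z) :
    IsCocycle (permRep (ZMod m)) (fun g => red m (z g)) := by
  intro g h
  show red m (z (g * h)) = red m (z g) + permRep (ZMod m) g (red m (z h))
  rw [hz g h, red_add, red_permRep]

end Red

theorem isCocycle_sub {A : Type*} [AddCommGroup A] {z z' : SL(2, ℤ) → ((SL(2, ℤ) ⧸ Γ) → A)}
    (hz : IsCocycle (permRep A) z) (hz' : IsCocycle (permRep A) z') :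
    IsCocycle (permRep A) (fun g => z g - z' g) := by
  intro g h
  show z (g * h) - z' (g * h) = z g - z' g + permRep A g (z h - z' h)
  rw [hz g h, hz' g h, map_sub]
  abel

/-- Two cocycles agreeing at `S` and `U = S T` are equal. -/
theorem cocycle_ext {A : Type*} [AddCommGroup A] {z z' : SL(2, ℤ) → ((SL(2, ℤ) ⧸ Γ) → A)}
    (hz : IsCocycle (permRep A) z) (hz' : IsCocycle (permRep A) z')
    (hS : z S = z' S) (hU : z Umat = z' Umat) (g : SL(2, ℤ)) : z g = z' g := by
  have := (isCocycle_sub hz hz').eq_zero_of_S_U (sub_eq_zero.mpr hS) (sub_eq_zero.mpr hU) g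
  exact sub_eq_zero.mp this

theorem coboundary_S_add {A : Type*} [AddCommGroup A] (hneg : (-1 : SL(2, ℤ)) ∈ Γ)
    (n : (SL(2, ℤ) ⧸ Γ) → A) :
    (permRep A (S : SL(2, ℤ)) n - n) + permRep A (S : SL(2, ℤ)) (permRep A (S : SL(2, ℤ)) n - n)
      = 0 := by
  rw [map_sub, rho_S_S _ (permRep_neg_one A hneg)]
  abel

theorem coboundary_U_add {A : Type*} [AddCommGroup A] (hneg : (-1 : SL(2, ℤ)) ∈ Γ)
    (n : (SL(2, ℤ) ⧸ Γ) → A) :
    (permRep A Umat n - n) + permRep A Umat (permRep A Umat n - n)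
      + permRep A Umat (permRep A Umat (permRep A Umat n - n)) = 0 := by
  simp only [map_sub]
  rw [rho_U_U_U _ (permRep_neg_one A hneg)]
  abel

theorem sum_coboundary {A : Type*} [AddCommGroup A] [Fintype (SL(2, ℤ) ⧸ Γ)] (g : SL(2, ℤ))
    (n : (SL(2, ℤ) ⧸ Γ) → A) : ∑ x, (permRep A g n - n) x = 0 := by
  simp only [Pi.sub_apply, Finset.sum_sub_distrib]
  rw [sum_permRep, sub_self]

/-- The compatibility defect of a triple of potentials. -/
def defect {A : Type*} [AddCommGroup A] (n₁ n₂ n₃ : (SL(2, ℤ) ⧸ Γ) → A) : (SL(2, ℤ) ⧸ Γ) → A :=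
  permRep A (S⁻¹ : SL(2, ℤ)) ((permRep A Umat n₂ - n₂) - (permRep A (S : SL(2, ℤ)) n₁ - n₁))
    - (permRep A (T : SL(2, ℤ)) n₃ - n₃)

theorem defect_apply {A : Type*} [AddCommGroup A] (n₁ n₂ n₃ : (SL(2, ℤ) ⧸ Γ) → A)
    (x : SL(2, ℤ) ⧸ Γ) :
    defect n₁ n₂ n₃ x = (n₂ ((T⁻¹ : SL(2, ℤ)) • x) - n₂ ((S : SL(2, ℤ)) • x)
      - (n₁ x - n₁ ((S : SL(2, ℤ)) • x))) - (n₃ ((T⁻¹ : SL(2, ℤ)) • x) - n₃ x) := by
  have hUS : (Umat⁻¹ : SL(2, ℤ)) • ((S : SL(2, ℤ)) • x) = (T⁻¹ : SL(2, ℤ)) • x := by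
    rw [← mul_smul]
    congr 1
    rw [T_eq_S_inv_mul_Umat]
    group
  have hSS : (S⁻¹ : SL(2, ℤ)) • ((S : SL(2, ℤ)) • x) = x := inv_smul_smul _ _
  simp only [defect, Pi.sub_apply, permRep_apply, inv_inv, hUS, hSS]

theorem red_defect (m : ℕ) (n₁ n₂ n₃ : (SL(2, ℤ) ⧸ Γ) → ℤ) :
    red m (defect n₁ n₂ n₃) = defect (red m n₁) (red m n₂) (red m n₃) := by
  funext x
  rw [red_apply, defect_apply, defect_apply]
  simp [red_apply]

theorem sum_defect {A : Type*} [AddCommGroup A] [Fintype (SL(2, ℤ) ⧸ Γ)]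
    (n₁ n₂ n₃ : (SL(2, ℤ) ⧸ Γ) → A) : ∑ x, defect n₁ n₂ n₃ x = 0 := by
  have h1 : ∑ x, defect n₁ n₂ n₃ x =
      ∑ x, permRep A (S⁻¹ : SL(2, ℤ))
        ((permRep A Umat n₂ - n₂) - (permRep A (S : SL(2, ℤ)) n₁ - n₁)) x
        - ∑ x, (permRep A (T : SL(2, ℤ)) n₃ - n₃) x := by
    rw [← Finset.sum_sub_distrib]
    rfl
  rw [h1, sum_coboundary, sub_zero, sum_permRep]
  have h2 : ∑ x, ((permRep A Umat n₂ - n₂) - (permRep A (S : SL(2, ℤ)) n₁ - n₁)) x =
      ∑ x, (permRep A Umat n₂ - n₂) x - ∑ x, (permRep A (S : SL(2, ℤ)) n₁ - n₁) x := by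
    rw [← Finset.sum_sub_distrib]
    rfl
  rw [h2, sum_coboundary, sum_coboundary, sub_zero]

/-- Potentials modulo `m` with vanishing defect lift to integral potentials with vanishing
defect. -/
theorem exists_lift_potentials [Γ.FiniteIndex] (m : ℕ) [NeZero m]
    (m₁ m₂ m₃ : (SL(2, ℤ) ⧸ Γ) → ZMod m) (h : defect m₁ m₂ m₃ = 0) :
    ∃ n₁ n₂ n₃ : (SL(2, ℤ) ⧸ Γ) → ℤ, red m n₁ = m₁ ∧ red m n₂ = m₂ ∧ red m n₃ = m₃ ∧
      defect n₁ n₂ n₃ = 0 := by
  classical
  have : Finite (SL(2, ℤ) ⧸ Γ) := Subgroup.finite_quotient_of_finiteIndex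
  letI : Fintype (SL(2, ℤ) ⧸ Γ) := Fintype.ofFinite _
  have hm0 : (m : ℤ) ≠ 0 := by exact_mod_cast NeZero.ne m
  have hdred : red m (defect (liftFun m m₁) (liftFun m m₂) (liftFun m m₃)) = 0 := by
    rw [red_defect, red_liftFun, red_liftFun, red_liftFun, h]
  have hddvd : ∀ x, ∃ e : ℤ, defect (liftFun m m₁) (liftFun m m₂) (liftFun m m₃) x = m * e := by
    intro x
    have h1 : ((defect (liftFun m m₁) (liftFun m m₂) (liftFun m m₃) x : ℤ) : ZMod m) = 0 :=
      congrFun hdred x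
    exact (ZMod.intCast_zmod_eq_zero_iff_dvd _ m).mp h1
  choose e he using hddvd
  have hesum : ∑ x, e x = 0 := by
    have h1 : (m : ℤ) * ∑ x, e x = 0 := by
      rw [Finset.mul_sum, ← sum_defect (liftFun m m₁) (liftFun m m₂) (liftFun m m₃)]
      exact Finset.sum_congr rfl fun x _ => (he x).symm
    exact (mul_eq_zero.mp h1).resolve_left hm0
  obtain ⟨n'', k'', hek⟩ := mem_augGen.mp (mem_augGen_of_sum_eq_zero e hesum)
  refine ⟨fun x => liftFun m m₁ x - m * n'' x, liftFun m m₂, fun x => liftFun m m₃ x + m * k'' x,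
    ?_, red_liftFun m m₂, ?_, ?_⟩
  · funext x
    have : red m (liftFun m m₁) x = m₁ x := congrFun (red_liftFun m m₁) x
    simp only [red_apply] at this
    simp [red_apply, this]
  · funext x
    have : red m (liftFun m m₃) x = m₃ x := congrFun (red_liftFun m m₃) x
    simp only [red_apply] at this
    simp [red_apply, this]
  · funext x
    have hdx := he x
    have hex := congrFun hek x
    rw [defect_apply] at hdx
    rw [defect_apply]
    simp only [Pi.sub_apply, Pi.add_apply, permRep_apply, inv_inv, Pi.zero_apply] at hex ⊢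
    rw [hex] at hdx
    linear_combination hdx

/-- **Main lifting theorem**, abstract form. -/
theorem exists_lift_addChar [Γ.FiniteIndex] (hneg : (-1 : SL(2, ℤ)) ∈ Γ) (m : ℕ) [NeZero m]
    (c : Γ → ZMod m) (hc : IsAddChar c)
    (hfin : ∀ (γ : Γ) (n : ℕ), 0 < n → γ ^ n = 1 → c γ = 0)
    (hpar : ∀ γ : Γ, ((γ : SL(2, ℤ)) : Matrix (Fin 2) (Fin 2) ℤ).trace = 2 → c γ = 0) :
    ∃ c' : Γ → ℤ, IsAddChar c' ∧
      (∀ γ : Γ, ((γ : SL(2, ℤ)) : Matrix (Fin 2) (Fin 2) ℤ).trace = 2 ∨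
        ((γ : SL(2, ℤ)) : Matrix (Fin 2) (Fin 2) ℤ).trace = -2 → c' γ = 0) ∧
      ∀ γ : Γ, ((c' γ : ℤ) : ZMod m) = c γ := by
  classical
  have : Finite (SL(2, ℤ) ⧸ Γ) := Subgroup.finite_quotient_of_finiteIndex
  -- the Shapiro cocycle
  have hz : IsCocycle (permRep (ZMod m)) (shap c) := isCocycle_shap hc
  -- it is a coboundary on `S`, `U`, `T`
  obtain ⟨m₁, hm₁⟩ := exists_eq_coboundary_at hz S
    (fun y j hj => shap_pow_fixed_of_finOrder hfin S 4 (by norm_num) S_pow_four y j hj)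
  obtain ⟨m₂, hm₂⟩ := exists_eq_coboundary_at hz Umat
    (fun y j hj => shap_pow_fixed_of_finOrder hfin Umat 6 (by norm_num) Umat_pow_six y j hj)
  obtain ⟨m₃, hm₃⟩ := exists_eq_coboundary_at hz T (fun y j hj => shap_T_pow_fixed hpar y j hj)
  have hdef : defect m₁ m₂ m₃ = 0 := by
    unfold defect
    rw [← hm₁, ← hm₂, ← hm₃, hz.map_T]
    exact sub_self _
  obtain ⟨n₁, n₂, n₃, hred₁, hred₂, -, hdefZ⟩ := exists_lift_potentials m m₁ m₂ m₃ hdef
  have hnegZ := permRep_neg_one (Γ := Γ) ℤ hneg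
  obtain ⟨z', hz', hz'S, hz'U⟩ := exists_cocycle (permRep ℤ) hnegZ
    (permRep ℤ (S : SL(2, ℤ)) n₁ - n₁) (permRep ℤ Umat n₂ - n₂)
    (coboundary_S_add hneg n₁) (coboundary_U_add hneg n₂)
  -- value at `T`
  have hz'T : z' T = permRep ℤ (T : SL(2, ℤ)) n₃ - n₃ := by
    rw [hz'.map_T, hz'S, hz'U]
    exact sub_eq_zero.mp hdefZ
  -- the lifted character
  refine ⟨resChar z', isAddChar_resChar hz', ?_, ?_⟩
  · -- parabolic
    have hchar := isAddChar_resChar hz'
    have hkey : ∀ (g : SL(2, ℤ)) (k : ℤ) (hmem : g * T ^ k * g⁻¹ ∈ Γ),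
        z' (g * T ^ k * g⁻¹) (bpt Γ) = 0 := by
      intro g k hmem
      rw [cocycle_conj_bpt hz' g (T ^ k) hmem, cocycle_zpow_of_coboundary hz' T n₃ hz'T k,
        Pi.sub_apply, permRep_apply, sub_eq_zero]
      congr 1
      have h1 : (g * T ^ k * g⁻¹)⁻¹ • bpt Γ = bpt Γ := inv_smul_bpt_of_mem hmem
      calc ((T : SL(2, ℤ)) ^ k)⁻¹ • g⁻¹ • bpt Γ
          = g⁻¹ • ((g * T ^ k * g⁻¹)⁻¹ • bpt Γ) := by
            rw [← mul_smul, ← mul_smul]
            congr 1
            group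
        _ = g⁻¹ • bpt Γ := by rw [h1]
    have hnegone : resChar z' ⟨-1, hneg⟩ = 0 := by
      have h1 : (⟨-1, hneg⟩ : Γ) * ⟨-1, hneg⟩ = 1 := by
        apply Subtype.ext
        show (-1 : SL(2, ℤ)) * -1 = 1
        simp
      have h2 := hchar ⟨-1, hneg⟩ ⟨-1, hneg⟩
      rw [h1, hchar.map_one] at h2
      omega
    intro γ hγ
    have htr : ((γ : SL(2, ℤ)) : Matrix (Fin 2) (Fin 2) ℤ).trace ^ 2 = 4 := by
      rcases hγ with h | h <;> rw [h] <;> norm_num
    obtain ⟨g, k, hk | hk⟩ := exists_conj_T_zpow_of_trace_sq (γ : SL(2, ℤ)) htr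
    · have hmem : g * T ^ k * g⁻¹ ∈ Γ := hk ▸ γ.2
      show z' (γ : SL(2, ℤ)) (bpt Γ) = 0
      rw [hk]
      exact hkey g k hmem
    · have hmem : g * T ^ k * g⁻¹ ∈ Γ := by
        have h1 : g * T ^ k * g⁻¹ = -1 * (γ : SL(2, ℤ)) := by
          rw [hk]
          simp
        rw [h1]
        exact Γ.mul_mem hneg γ.2
      have h2 : γ = ⟨-1, hneg⟩ * ⟨g * T ^ k * g⁻¹, hmem⟩ := by
        apply Subtype.ext
        show (γ : SL(2, ℤ)) = -1 * (g * T ^ k * g⁻¹)
        rw [hk]
        simp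
      rw [h2, hchar, hnegone, zero_add]
      exact hkey g k hmem
  · -- reduction
    intro γ
    have hzr := isCocycle_red m hz'
    have h1 : (fun g => red m (z' g)) (γ : SL(2, ℤ)) = shap c (γ : SL(2, ℤ)) := by
      refine cocycle_ext hzr hz ?_ ?_ _
      · show red m (z' S) = shap c S
        rw [hz'S, red_sub, red_permRep, hred₁, hm₁]
      · show red m (z' Umat) = shap c Umat
        rw [hz'U, red_sub, red_permRep, hred₂, hm₂]
    have h2 := congrFun h1 (bpt Γ)
    rw [shap_bpt hc] at h2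
    exact h2

end Fermat.Agent.Lib.HFree.H412

end
-- ===== PACK-END Lib/HFree/H412/Lift.lean

-- ===== PACK-BEGIN S21/H544/IntCSym.lean
section


/-!
# S21 INT-C (helper544): derivative of the symmetrization `sym N η`
-/

set_option autoImplicit false

open UpperHalfPlane CongruenceSubgroup Filter Topology MeasureTheory
open scoped MatrixGroups ComplexConjugate ContDiff

namespace Fermat.Agent.S21.H544

open Fermat.Agent.S21

variable (N : ℕ) {χ₁ : ℂ → ℝ}

/-- Local finiteness of the `Γ₀(N)`-translates of the support of a test function. -/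
theorem exists_finset_eventually (hχ : IsSL2ZPartition χ₁) {η : ℂ → ℝ} (hη : IsTest η)
    {z₀ : ℂ} (hz₀ : z₀ ∈ Uhp) :
    ∃ S : Finset (Gamma0 N), ∀ᶠ z in 𝓝 z₀,
      z ∈ Uhp ∧ ∀ γ : Gamma0 N, γ ∉ S → mob (γ : SL(2, ℤ)) z ∉ tsupport η := by
  obtain ⟨r, hr, hball⟩ := Metric.isOpen_iff.mp isOpen_Uhp z₀ hz₀
  have hV : IsCompact (Metric.closedBall z₀ (r / 2)) := isCompact_closedBall _ _
  have hVU : Metric.closedBall z₀ (r / 2) ⊆ Uhp :=
    (Metric.closedBall_subset_ball (by linarith)).trans hball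
  have hG := finite_mob_mem hχ _ _ hV hVU hη.2.1 hη.2.2
  have hS : {γ : Gamma0 N | (γ : SL(2, ℤ)) ∈
      {g : SL(2, ℤ) | ∃ z ∈ Metric.closedBall z₀ (r / 2), mob g z ∈ tsupport η}}.Finite :=
    hG.preimage (Subtype.val_injective.injOn)
  refine ⟨hS.toFinset, ?_⟩
  filter_upwards [Metric.closedBall_mem_nhds z₀ (by linarith : 0 < r / 2)] with z hz
  refine ⟨hVU hz, fun γ hγ hmem => hγ ?_⟩
  rw [Set.Finite.mem_toFinset]
  exact ⟨z, hz, hmem⟩

/-- The derivative of `sym N η` is a locally finite sum. -/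
theorem fderiv_sym (hχ : IsSL2ZPartition χ₁) {η : ℂ → ℝ} (hη : IsTest η)
    {z₀ : ℂ} (hz₀ : z₀ ∈ Uhp) :
    ∃ S : Finset (Gamma0 N), (∀ γ : Gamma0 N, γ ∉ S → mob (γ : SL(2, ℤ)) z₀ ∉ tsupport η) ∧
      fderiv ℝ (sym N η) z₀ = ∑ γ ∈ S, fderiv ℝ (fun z => η (mob (γ : SL(2, ℤ)) z)) z₀ := by
  obtain ⟨S, hS⟩ := exists_finset_eventually N hχ hη hz₀
  refine ⟨S, fun γ hγ => (hS.self_of_nhds).2 γ hγ, ?_⟩
  have heq : sym N η =ᶠ[𝓝 z₀] fun z => ∑ γ ∈ S, η (mob (γ : SL(2, ℤ)) z) := by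
    filter_upwards [hS] with z hz
    unfold sym
    refine finsum_eq_sum_of_support_subset _ ?_
    intro γ hγ
    by_contra hγS
    exact hz.2 γ hγS (subset_tsupport _ hγ)
  rw [heq.fderiv_eq]
  have hdiff : ∀ γ ∈ S, DifferentiableAt ℝ (fun z => η (mob ((γ : Gamma0 N) : SL(2, ℤ)) z)) z₀ :=
    fun γ _ => ((hη.1.differentiable (by simp)).differentiableAt).comp z₀
      (differentiableAt_mob _ hz₀)
  exact fderiv_fun_sum hdiff

/-- The density of `u` against `sym N η` as a locally finite sum. -/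
theorem dens_sym (hχ : IsSL2ZPartition χ₁) (u : ℂ → ℝ)
    (hinv : ∀ γ : Gamma0 N, ∀ z ∈ Uhp,
      dz u (mob (γ : SL(2, ℤ)) z) = (cd (γ : SL(2, ℤ)) z) ^ 2 * dz u z)
    {η : ℂ → ℝ} (hη : IsTest η) {z : ℂ} (hz : z ∈ Uhp) :
    ∃ S : Finset (Gamma0 N), (∀ γ : Gamma0 N, γ ∉ S → mob (γ : SL(2, ℤ)) z ∉ tsupport η) ∧
      dens u (sym N η) z
        = ∑ γ ∈ S, dens u η (mob (γ : SL(2, ℤ)) z) / ‖cd (γ : SL(2, ℤ)) z‖ ^ 4 := by
  obtain ⟨S, hS, hfd⟩ := fderiv_sym N hχ hη hz
  refine ⟨S, hS, ?_⟩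
  have h1 : dens u (sym N η) z
      = ∑ γ ∈ S, dens u (fun w => η (mob ((γ : Gamma0 N) : SL(2, ℤ)) w)) z := by
    unfold dens
    rw [hfd]
    simp only [FunLike.coe_sum, Finset.sum_apply, Finset.mul_sum]
    rw [← Finset.sum_add_distrib]
  rw [h1]
  refine Finset.sum_congr rfl fun γ _ => ?_
  exact dens_comp_mob u η _ hz ((hη.1.differentiable (by simp)).differentiableAt)
    (hinv γ z hz)

end Fermat.Agent.S21.H544

end
-- ===== PACK-END S21/H544/IntCSym.lean

-- ===== PACK-BEGIN S23/Cap/Galois.lean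
section





/-!
# S23 / WP8 : the q-expansions of `S_k(Γ₀(N))` are stable under ring endomorphisms of `ℂ`.
-/

set_option autoImplicit false

namespace Fermat.Agent.S23.Cap

open UpperHalfPlane ModularForm ModularFormClass MatrixGroups CongruenceSubgroup

/-- `σ`-conjugate of a level one modular form. -/
theorem levelOne_conj (σ : ℂ →+* ℂ) (k : ℤ) (f : ℍ → ℂ) (hf : IsMF SLZ k f) :
    ∃ f' : ℍ → ℂ, IsMF SLZ k f' ∧ qx f' = (qx f).map σ := by
  obtain ⟨F, rfl⟩ := hf
  obtain ⟨g, hg⟩ := Fermat.Agent.S23.LevelOne.levelOne_transport_ringHom σ k F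
  exact ⟨g, ⟨g, rfl⟩, hg⟩

/-- `σ`-conjugate of a level one cusp form. -/
theorem levelOne_conj_cusp (σ : ℂ →+* ℂ) (k : ℤ) (f : ℍ → ℂ) (hf : IsCF SLZ k f) :
    ∃ f' : ℍ → ℂ, IsCF SLZ k f' ∧ qx f' = (qx f).map σ := by
  obtain ⟨F, rfl⟩ := hf
  obtain ⟨g, hg⟩ := Fermat.Agent.S23.LevelOne.levelOne_transport_cusp_ringHom σ k F
  exact ⟨g, ⟨g, rfl⟩, hg⟩

/-- q-expansion of `Σ_j b_j t^j` for level one `b_j` and a level `Γ₀(N)` form `t`. -/
theorem qx_sum_mul_pow (N : ℕ) [NeZero N] (w : ℤ) (t : ℍ → ℂ) (ht : IsMF (G0 N) w t)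
    (ν : ℕ) (b : ℕ → ℍ → ℂ) (wt : ℕ → ℤ) (hb : ∀ j < ν, IsMF SLZ (wt j) (b j)) :
    qx (∑ j ∈ Finset.range ν, b j * t ^ j) = ∑ j ∈ Finset.range ν, qx (b j) * qx t ^ j := by
  rw [qx_sum N (Finset.range ν) (fun j => b j * t ^ j) (fun j => wt j + w * j)
    (fun j hj => ((hb j (Finset.mem_range.mp hj)).of_levelOne N).mul (ht.pow j))]
  refine Finset.sum_congr rfl fun j hj => ?_
  rw [qx_mul N ((hb j (Finset.mem_range.mp hj)).of_levelOne N) (ht.pow j), qx_pow N ht]

/-- **WP8 main statement.** -/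
theorem galois_stable (N : ℕ) [NeZero N] (k : ℤ) (σ : ℂ →+* ℂ) (f : ℍ → ℂ)
    (hf : IsCF (G0 N) k f) :
    ∃ g : ℍ → ℂ, IsCF (G0 N) k g ∧ qx g = (qx f).map σ := by
  obtain ⟨w, t, ht, htint, hdist⟩ := exists_tForm N
  obtain ⟨μ, c, hμ, hc, hrel⟩ := exists_monic_relation N k f hf
  obtain ⟨ν, a, b, hν, ha, hb, hU0, hUV⟩ := exists_lagrange N k w f t hf.isMF ht hdist
  have hfM : IsMF (G0 N) k f := hf.isMF
  -- the `σ`-conjugates of the level one coefficients
  choose! c' hc' hc'q using fun i (hi : i < μ) => levelOne_conj_cusp σ _ (c i) (hc i hi)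
  choose! a' ha' ha'q using fun j (hj : j < ν) => levelOne_conj σ _ (a j) (ha j hj)
  choose! b' hb' hb'q using fun j (hj : j < ν) => levelOne_conj σ _ (b j) (hb j hj)
  have htσ : (qx t).map σ = qx t := htint.isRatSeries.map_eq σ
  -- the conjugate numerator and denominator
  have hU : IsMF (G0 N) (w * ((ν : ℤ) - 1)) (∑ j ∈ Finset.range ν, b' j * t ^ j) :=
    IsMF.sum _ _ fun j hj =>
      (((hb' j (Finset.mem_range.mp hj)).of_levelOne N).mul (ht.pow j)).congr_weight (by ring)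
  have hV : IsMF (G0 N) (w * ((ν : ℤ) - 1) + k) (∑ j ∈ Finset.range ν, a' j * t ^ j) :=
    IsMF.sum _ _ fun j hj =>
      (((ha' j (Finset.mem_range.mp hj)).of_levelOne N).mul (ht.pow j)).congr_weight (by ring)
  have hU₀ : IsMF (G0 N) (w * ((ν : ℤ) - 1)) (∑ j ∈ Finset.range ν, b j * t ^ j) :=
    IsMF.sum _ _ fun j hj =>
      (((hb j (Finset.mem_range.mp hj)).of_levelOne N).mul (ht.pow j)).congr_weight (by ring)
  have hqU : qx (∑ j ∈ Finset.range ν, b' j * t ^ j)
      = (qx (∑ j ∈ Finset.range ν, b j * t ^ j)).map σ := by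
    rw [qx_sum_mul_pow N w t ht ν b' _ hb', qx_sum_mul_pow N w t ht ν b _ hb, map_sum]
    refine Finset.sum_congr rfl fun j hj => ?_
    rw [map_mul, map_pow, htσ, hb'q j (Finset.mem_range.mp hj)]
  have hqV : qx (∑ j ∈ Finset.range ν, a' j * t ^ j)
      = (qx (∑ j ∈ Finset.range ν, a j * t ^ j)).map σ := by
    rw [qx_sum_mul_pow N w t ht ν a' _ ha', qx_sum_mul_pow N w t ht ν a _ ha, map_sum]
    refine Finset.sum_congr rfl fun j hj => ?_
    rw [map_mul, map_pow, htσ, ha'q j (Finset.mem_range.mp hj)]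
  have hσinj : Function.Injective (PowerSeries.map σ) := by
    intro P Q h
    ext n
    have := congrArg (PowerSeries.coeff n) h
    simpa using σ.injective this
  have hU0' : (∑ j ∈ Finset.range ν, b' j * t ^ j) ≠ 0 := by
    intro h
    rw [h, qx_zero] at hqU
    have h0 : qx (∑ j ∈ Finset.range ν, b j * t ^ j) = 0 :=
      hσinj (by rw [← hqU, map_zero])
    exact hU0 (eq_zero_of_qx_eq_zero N hU₀ h0)
  have h1 : qx (∑ j ∈ Finset.range ν, b' j * t ^ j) * (qx f).map σ
      = qx (∑ j ∈ Finset.range ν, a' j * t ^ j) := by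
    rw [hqU, hqV, ← map_mul, ← qx_mul N hU₀ hfM, hUV]
  have h2 : ((qx f).map σ) ^ μ
      + ∑ i ∈ Finset.range μ, qx (c' i) * ((qx f).map σ) ^ (μ - 1 - i) = 0 := by
    have h := congrArg qx hrel
    have hterm : ∀ i ∈ Finset.range μ,
        IsMF (G0 N) (k * (i + 1) + k * ((μ - 1 - i : ℕ) : ℤ)) (c i * f ^ (μ - 1 - i)) :=
      fun i hi => (((hc i (Finset.mem_range.mp hi)).isMF).of_levelOne N).mul (hfM.pow _)
    rw [qx_zero, qx_add N (hfM.pow μ) (IsMF.sum (k := k * μ) _ _ fun i hi =>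
        (hterm i hi).congr_weight (by
          have : i < μ := Finset.mem_range.mp hi
          push_cast [Nat.sub_sub, Nat.cast_sub (show 1 + i ≤ μ by omega)]
          ring)),
      qx_pow N hfM, qx_sum N _ _ _ hterm] at h
    have h' := congrArg (PowerSeries.map σ) h
    rw [map_zero, map_add, map_pow, map_sum] at h'
    rw [← h']
    congr 1
    refine Finset.sum_congr rfl fun i hi => ?_
    rw [qx_mul N (((hc i (Finset.mem_range.mp hi)).isMF).of_levelOne N) (hfM.pow _),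
      qx_pow N hfM, map_mul, map_pow, hc'q i (Finset.mem_range.mp hi)]
  exact exists_cuspForm_of_relations N k _ _ _ hU hV hU0' μ hμ c' hc' _ h1 h2

end Fermat.Agent.S23.Cap

end
-- ===== PACK-END S23/Cap/Galois.lean

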