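import Mathlib
import Fermat.Prelude.Def_ModularCurve_HeckeOperator
import Fermat.Prelude.Def_FLTPrelim_Ramification
import Mathlib.RingTheory.Ideal.KrullsHeightTheorem
import Mathlib.RingTheory.Ideal.MinimalPrime.Noetherian
import Mathlib.RingTheory.Ideal.BigOperators
import Mathlib.FieldTheory.Galois.Basic
import Mathlib.RingTheory.Ideal.Operations
import Fermat.Prelude.Def_ModularCurve_ArithmeticGalois
import Fermat.Agent.Pack.S44C.G0E3L1
import Fermat.Agent.Pack.S44C.G0E12L0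
import Fermat.Agent.Pack.S44C.G0E12L1
import Fermat.Agent.Pack.S44C.G0E5L1
import Fermat.Agent.Pack.S44C.G0E12L2
import Fermat.Agent.Pack.S44C.G0E0L1
import Fermat.Agent.Pack.S44C.G0E12L3
import Fermat.Agent.Pack.S44C.G0E13L0
import Fermat.Agent.Pack.S44C.G0E13L2
import Fermat.Agent.Pack.Fast891

-- ===== PACK-BEGIN S37/H159/MRoots.lean
section




/-!
# Theorem M, part 7: Gauss root count for an arbitrary residue map; `redRank ≤ n`
(row S37, piece R-b; seat helper159)
-/

set_option autoImplicit false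
set_option linter.unusedSectionVars false
set_option linter.style.haveILetI false

namespace Fermat.Agent.S37.H159

open Polynomial

section Roots

variable {K : Type*} [Field K] [IsAlgClosed K] (A : ValuationSubring K)
  {k : Type*} [Field k] (π : A →+* k) (hπ : Function.Surjective π)

include hπ in
theorem isLocalHom_of_surjective : IsLocalHom π := by
  refine ⟨fun a ha => ?_⟩
  by_contra hna
  have hmax : (RingHom.ker π).IsMaximal := RingHom.ker_isMaximal_of_surjective π hπ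
  have hker := IsLocalRing.eq_maximalIdeal hmax
  have h1 : a ∈ IsLocalRing.maximalIdeal A := (IsLocalRing.mem_maximalIdeal a).mpr hna
  rw [← hker, RingHom.mem_ker] at h1
  rw [h1] at ha
  exact not_isUnit_zero ha

include hπ in
/-- Gauss root count, general residue map. -/
theorem rootMultiplicity_map_eq_card_filter (D : A[X]) (hD : D.map π ≠ 0) (c : A) :
    (D.map π).rootMultiplicity (π c) =
      (open Classical in ((D.map (algebraMap A K)).roots.filter
        (fun c' => ∃ h : c' ∈ A, π ⟨c', h⟩ = π c)).card) := by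
  classical
  haveI := isLocalHom_of_surjective A π hπ
  let φ : IsLocalRing.ResidueField A →+* k := IsLocalRing.ResidueField.lift π
  have hφ : ∀ a : A, φ (IsLocalRing.residue A a) = π a := fun a => rfl
  have hmap : (D.map (IsLocalRing.residue A)).map φ = D.map π := by
    rw [Polynomial.map_map]
    rfl
  have hN : D.map (IsLocalRing.residue A) ≠ 0 := by
    intro h0
    apply hD
    rw [← hmap, h0, Polynomial.map_zero]
  have h1 : (D.map π).rootMultiplicity (π c) =
      (D.map (IsLocalRing.residue A)).rootMultiplicity (IsLocalRing.residue A c) := by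
    rw [← hmap, ← hφ c]
    exact (Polynomial.eq_rootMultiplicity_map φ.injective _).symm
  rw [h1, H217.rootMultiplicity_map_residue_eq_card_filter A D hN]
  congr 1
  refine Multiset.filter_congr fun c' _ => ?_
  constructor
  · rintro ⟨h, hc'⟩
    exact ⟨h, by rw [← hφ, hc', hφ]⟩
  · rintro ⟨h, hc'⟩
    exact ⟨h, φ.injective (by rw [hφ, hφ, hc'])⟩

include hπ in
/-- A root of the reduction lifts to a root in `A`. -/
theorem exists_root_of_isRoot_map (D : A[X]) (hD : D.map π ≠ 0) (cbar : k)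
    (h : (D.map π).IsRoot cbar) :
    ∃ c : A, π c = cbar ∧ (D.map (algebraMap A K)).IsRoot (c : K) := by
  classical
  obtain ⟨c₀, rfl⟩ := hπ cbar
  have h1 : 0 < (D.map π).rootMultiplicity (π c₀) := (Polynomial.rootMultiplicity_pos hD).mpr h
  rw [rootMultiplicity_map_eq_card_filter A π hπ D hD c₀, Multiset.card_pos_iff_exists_mem] at h1
  obtain ⟨c', hc'⟩ := h1
  rw [Multiset.mem_filter] at hc'
  obtain ⟨hroot, hA, hπc⟩ := hc'
  exact ⟨⟨c', hA⟩, hπc, Polynomial.isRoot_of_mem_roots hroot⟩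

include hπ in
/-- Gauss + uniqueness of the root in the residue disc. -/
theorem rootMultiplicity_map_le (D : A[X]) (hD : D.map π ≠ 0) (c : A)
    (huniq : ∀ c' : A, (D.map (algebraMap A K)).IsRoot (c' : K) → π c' = π c → c' = c) :
    (D.map π).rootMultiplicity (π c) ≤ (D.map (algebraMap A K)).rootMultiplicity (c : K) := by
  classical
  rw [rootMultiplicity_map_eq_card_filter A π hπ D hD c]
  set s := (D.map (algebraMap A K)).roots.filter (fun c' => ∃ h : c' ∈ A, π ⟨c', h⟩ = π c)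
    with hs
  have hall : ∀ c' ∈ s, c' = (c : K) := by
    intro c' hc'
    rw [hs, Multiset.mem_filter] at hc'
    obtain ⟨hroot, hA, hπc⟩ := hc'
    have := huniq ⟨c', hA⟩ (Polynomial.isRoot_of_mem_roots hroot) hπc
    exact congrArg Subtype.val this
  have h1 : s = Multiset.replicate (Multiset.card s) (c : K) :=
    Multiset.eq_replicate.mpr ⟨rfl, hall⟩
  have h2 : Multiset.count (c : K) s = Multiset.card s := by
    conv_lhs => rw [h1]
    rw [Multiset.count_replicate_self]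
  rw [← h2, ← Polynomial.count_roots]
  exact Multiset.count_le_of_le _ (Multiset.filter_le _ _)

end Roots

section RedRank

variable {k : Type*} [Field k] {T : Type*} [CommRing T] [Algebra k[X] T] [Algebra k T]
  [IsScalarTower k k[X] T] {ι : Type*} [Fintype ι] [DecidableEq ι] (b : Module.Basis ι k[X] T)

include b in
theorem redRank_le_card (c : k) : H939.redRank T c ≤ Fintype.card ι := by
  let Rad : Ideal T := (H939.fibreIdeal T c).radical
  let Ψ : (ι → k) →ₗ[k] T ⧸ Rad := (Ideal.Quotient.mkₐ k Rad).toLinearMap ∘ₗ H939.lift b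
  have hΨsurj : Function.Surjective Ψ := by
    intro q
    obtain ⟨z, rfl⟩ := Ideal.Quotient.mk_surjective q
    refine ⟨H939.coord b c z, ?_⟩
    show Ideal.Quotient.mk Rad (H939.lift b (H939.coord b c z)) = Ideal.Quotient.mk Rad z
    rw [eq_comm, Ideal.Quotient.eq]
    exact Ideal.le_radical (H939.sub_lift_coord_mem b c z)
  have := LinearMap.finrank_le_finrank_of_surjective hΨsurj
  rw [Module.finrank_pi] at this
  exact this

end RedRank

end Fermat.Agent.S37.H159

end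
-- ===== PACK-END S37/H159/MRoots.lean

-- ===== PACK-BEGIN Lib/RR/H80/Res/Symbol2.lean
section


/-!
# Tate's residue symbol, abstract part 3

* `tsym_unif` : `res (h g⁻¹ dg) = c` if `g A ⊆ A`, `A = g A ⊕ K a₀` and `h ≡ c` on `A / g A`;
* `exists_isProj` : every subspace is the image of a projector;
* `tsym_eq_zero_of_cocompact` : the abstract residue theorem: if `f`, `g` preserve a subspace `B`
  with `A ∩ B` finite-dimensional and `A + B` of finite codimension, then `res^V_A (f dg) = 0`.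
-/

set_option autoImplicit false

noncomputable section

namespace Fermat.Agent.Lib.RR.H80

open LinearMap Module

variable {K V : Type*} [Field K] [AddCommGroup V] [Module K V]

variable {A B : Submodule K V}

theorem isProj_projection {p q : Submodule K V} (h : IsCompl p q) :
    LinearMap.IsProj p (p.projection q h) :=
  ⟨fun x => Submodule.projection_apply_mem h x,
    fun _ hx => Submodule.projection_apply_of_mem_left h hx⟩

theorem exists_isProj (A : Submodule K V) : ∃ p : Module.End K V, LinearMap.IsProj A p := by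
  obtain ⟨q, hq⟩ := Submodule.exists_isCompl A
  exact ⟨A.projection q hq, isProj_projection hq⟩

theorem isProj_one_sub {p q : Submodule K V} (h : IsCompl p q) :
    LinearMap.IsProj q ((1 : Module.End K V) - p.projection q h) := by
  have key : (1 : Module.End K V) - p.projection q h = q.projection p h.symm := by
    have := Submodule.projection_add_projection_eq_id h
    exact (eq_sub_of_add_eq' this).symm
  rw [key]
  exact isProj_projection h.symm

/-- `res (h g⁻¹ dg) = c`. -/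
theorem tsym_unif {p g gi h : Module.End K V} (hp : LinearMap.IsProj A p)
    (hg2 : gi * g = 1) (hgh : h * gi = gi * h)
    (hgA : A.map g ≤ A) (hhA : A.map h ≤ A) (c : K)
    (hc : ∀ a ∈ A, h a - c • a ∈ A.map g)
    (a₀ : V) (ha₀ : a₀ ∈ A) (ha₀' : a₀ ∉ A.map g)
    (hspan : ∀ a ∈ A, ∃ k : K, a - k • a₀ ∈ A.map g) :
    tsym p (h * gi) g = c := by
  unfold tsym
  set q : Module.End K V := g * p * gi with hq
  have e : p * (h * gi) * g - g * (p * (h * gi)) = (p - q) * h := by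
    have e1 : p * (h * gi) * g = p * h := by
      rw [mul_assoc, mul_assoc, hg2, mul_one]
    have e2 : g * (p * (h * gi)) = q * h := by
      rw [hq, hgh]; noncomm_ring
    rw [e1, e2, sub_mul]
  rw [e]
  set θ : Module.End K V := (p - q) * h with hθ
  -- basic facts on `q`
  have hq_mem : ∀ x, q x ∈ A.map g := fun x => ⟨p (gi x), hp.map_mem _, rfl⟩
  have hq_id : ∀ y ∈ A.map g, q y = y := by
    rintro _ ⟨a, ha, rfl⟩
    simp only [hq, Module.End.mul_apply]
    have : gi (g a) = a := by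
      have := congrArg (fun φ : Module.End K V => φ a) hg2
      simpa using this
    rw [this, hp.map_id a ha]
  set c₀ : V := a₀ - q a₀ with hc₀
  have hc₀A : c₀ ∈ A := Submodule.sub_mem _ ha₀ (hgA (hq_mem a₀))
  have hc₀ne : c₀ ≠ 0 := by
    intro h0
    apply ha₀'
    have : a₀ = q a₀ := sub_eq_zero.mp h0
    rw [this]
    exact hq_mem a₀
  have hqc₀ : q c₀ = 0 := by
    rw [hc₀, map_sub, hq_id _ (hq_mem a₀), sub_self]
  -- `(1 - q) a ∈ K c₀` for `a ∈ A`
  have hline : ∀ a ∈ A, ∃ k : K, a - q a = k • c₀ := by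
    intro a ha
    obtain ⟨k, hk⟩ := hspan a ha
    refine ⟨k, ?_⟩
    have h1 : q (a - k • a₀) = a - k • a₀ := hq_id _ hk
    rw [map_sub, map_smul] at h1
    rw [hc₀, smul_sub]
    have : a - q a = k • a₀ - k • q a₀ + ((a - k • a₀) - (q a - k • q a₀)) := by abel
    rw [this, h1, sub_self, add_zero]
  have hθA : ∀ a ∈ A, ∃ k : K, θ a = k • c₀ := by
    intro a ha
    have hha : h a ∈ A := hhA ⟨a, ha, rfl⟩
    obtain ⟨k, hk⟩ := hline (h a) hha
    refine ⟨k, ?_⟩
    rw [hθ, Module.End.mul_apply, LinearMap.sub_apply, hp.map_id _ hha, hk]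
  have hθmem : ∀ x, θ x ∈ A := by
    intro x
    rw [hθ, Module.End.mul_apply, LinearMap.sub_apply]
    exact Submodule.sub_mem _ (hp.map_mem _) (hgA (hq_mem _))
  have hθc₀ : θ c₀ = c • c₀ := by
    have hh : h c₀ ∈ A := hhA ⟨c₀, hc₀A, rfl⟩
    rw [hθ, Module.End.mul_apply, LinearMap.sub_apply, hp.map_id _ hh]
    have h1 := hq_id _ (hc c₀ hc₀A)
    rw [map_sub, map_smul, hqc₀, smul_zero, sub_zero] at h1
    rw [h1]
    abel
  -- the line `C = K c₀`
  set C : Submodule K V := K ∙ c₀ with hC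
  have hCst : ∀ x ∈ C, θ x ∈ C := by
    intro x hx
    obtain ⟨k, rfl⟩ := Submodule.mem_span_singleton.mp hx
    rw [map_smul, hθc₀]
    exact Submodule.smul_mem _ _ (Submodule.smul_mem _ _ (Submodule.mem_span_singleton_self c₀))
  have hpow : LinearMap.range (θ ^ 2) ≤ C := by
    rintro _ ⟨x, rfl⟩
    rw [pow_two, Module.End.mul_apply]
    obtain ⟨k, hk⟩ := hθA (θ x) (hθmem x)
    rw [hk]
    exact Submodule.smul_mem _ _ (Submodule.mem_span_singleton_self c₀)
  rw [fpTr_eq_trace_restrict θ C hCst 2 hpow]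
  have hres : θ.restrict hCst = c • (1 : Module.End K C) := by
    ext ⟨x, hx⟩
    obtain ⟨k, rfl⟩ := Submodule.mem_span_singleton.mp hx
    show θ (k • c₀) = c • (k • c₀)
    rw [map_smul, hθc₀, smul_comm]
  rw [hres, map_smul, LinearMap.trace_one, hC, finrank_span_singleton hc₀ne]
  simp

/-- Complementary projectors give opposite symbols. -/
theorem tsym_one_sub {p f g : Module.End K V} (hc : f * g = g * f) :
    tsym (1 - p) f g = -tsym p f g := by
  unfold tsym
  rw [← fpTr_neg]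
  congr 1
  have : f * g - g * f = 0 := sub_eq_zero.mpr hc
  calc (1 - p) * f * g - g * ((1 - p) * f)
      = -(p * f * g - g * (p * f)) + (f * g - g * f) := by noncomm_ring
    _ = _ := by rw [this, add_zero]

/-- **The abstract residue theorem.** -/
theorem tsym_eq_zero_of_cocompact {p f g : Module.End K V} (hp : LinearMap.IsProj A p)
    (hf : EE A f) (hg : EE A g) (hc : f * g = g * f)
    (hfB : B.map f ≤ B) (hgB : B.map g ≤ B)
    (hinf : FiniteDimensional K ↥(A ⊓ B))
    (hsup : ∃ C : Submodule K V, FiniteDimensional K C ∧ A ⊔ B ⊔ C = ⊤) :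
    tsym p f g = 0 := by
  obtain ⟨C, hCfin, hC⟩ := hsup
  -- `A' ⊆ A` with `A' ∩ B = 0`, `A = A' + (A ∩ B)`
  obtain ⟨D, hD⟩ := Submodule.exists_isCompl (A ⊓ B)
  set A' : Submodule K V := A ⊓ D with hA'
  have hA'le : A' ≤ A := inf_le_left
  have hA'B : A' ⊓ B = ⊥ := by
    rw [hA', inf_right_comm]
    exact hD.inf_eq_bot
  have hAle : A ≤ A' ⊔ (A ⊓ B) := by
    intro a ha
    have htop : a ∈ (A ⊓ B) ⊔ D := by rw [hD.sup_eq_top]; trivial
    obtain ⟨x, hx, d, hd, rfl⟩ := Submodule.mem_sup.mp htop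
    have hdA : d ∈ A := by
      have := Submodule.sub_mem _ ha hx.1
      simpa using this
    exact Submodule.add_mem _ (Submodule.mem_sup_right hx) (Submodule.mem_sup_left ⟨hdA, hd⟩)
  have hAA' : AlmostLE A A' := ⟨A ⊓ B, hinf, hAle⟩
  have hA'A : AlmostLE A' A := AlmostLE.of_le hA'le
  -- `M = A' + B = A + B`
  set M : Submodule K V := A' ⊔ B with hM
  have hMC : M ⊔ C = ⊤ := by
    rw [eq_top_iff, ← hC]
    refine sup_le (sup_le (hAle.trans ?_) (le_sup_of_le_left le_sup_right)) le_sup_right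
    exact le_sup_of_le_left (sup_le le_sup_left (inf_le_right.trans le_sup_right))
  -- `C' ⊆ C` with `M ∩ C' = 0`, `M + C' = V`
  obtain ⟨D', hD'⟩ := Submodule.exists_isCompl (M ⊓ C)
  set C' : Submodule K V := C ⊓ D' with hC'
  have hC'fin : FiniteDimensional K C' := Submodule.finiteDimensional_of_le inf_le_left
  have hMC' : M ⊓ C' = ⊥ := by
    rw [hC', ← inf_assoc]
    exact hD'.inf_eq_bot
  have hCle : C ≤ M ⊔ C' := by
    intro x hx
    have htop : x ∈ (M ⊓ C) ⊔ D' := by rw [hD'.sup_eq_top]; trivial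
    obtain ⟨y, hy, d, hd, rfl⟩ := Submodule.mem_sup.mp htop
    have hdC : d ∈ C := by
      have := Submodule.sub_mem _ hx hy.2
      simpa using this
    exact Submodule.add_mem _ (Submodule.mem_sup_left hy.1) (Submodule.mem_sup_right ⟨hdC, hd⟩)
  set B' : Submodule K V := B ⊔ C' with hB'
  have hcompl : IsCompl A' B' := by
    constructor
    · rw [disjoint_iff, eq_bot_iff]
      rintro x ⟨hxA, hxB⟩
      obtain ⟨b, hb, c', hc', rfl⟩ := Submodule.mem_sup.mp hxB
      have h1 : c' ∈ M ⊓ C' := by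
        refine ⟨?_, hc'⟩
        have : c' = (b + c') - b := by abel
        rw [this]
        exact Submodule.sub_mem _ (Submodule.mem_sup_left hxA) (Submodule.mem_sup_right hb)
      rw [hMC', Submodule.mem_bot] at h1
      subst h1
      rw [add_zero] at hxA ⊢
      have h2 : b ∈ A' ⊓ B := ⟨hxA, hb⟩
      rw [hA'B] at h2
      exact h2
    · rw [codisjoint_iff, eq_top_iff, ← hMC]
      refine sup_le ?_ (hCle.trans ?_)
      · exact sup_le le_sup_left (le_sup_of_le_right le_sup_left)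
      · exact sup_le (sup_le le_sup_left (le_sup_of_le_right le_sup_left))
          (le_sup_of_le_right le_sup_right)
  have hBB' : AlmostLE B B' := AlmostLE.of_le le_sup_left
  have hB'B : AlmostLE B' B := ⟨C', hC'fin, le_rfl⟩
  obtain ⟨pB, hpB⟩ := exists_isProj B
  have hfB' : EE B f := EE.of_map_le hfB
  have hgB' : EE B g := EE.of_map_le hgB
  -- chain of equalities
  have s1 : tsym p f g = tsym (A'.projection B' hcompl) f g :=
    tsym_congr hp (isProj_projection hcompl) hAA' hA'A hf hg hc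
  have s2 : tsym (1 - A'.projection B' hcompl) f g = -tsym (A'.projection B' hcompl) f g :=
    tsym_one_sub hc
  have s3 : tsym (1 - A'.projection B' hcompl) f g = tsym pB f g :=
    tsym_congr (isProj_one_sub hcompl) hpB hB'B hBB' (hfB'.of_almost hBB' hB'B)
      (hgB'.of_almost hBB' hB'B) hc
  have s4 : tsym pB f g = 0 := tsym_eq_zero_of_map_le hpB hfB hgB hc
  rw [s1, ← neg_neg (tsym (A'.projection B' hcompl) f g), ← s2, s3, s4, neg_zero]

end Fermat.Agent.Lib.RR.H80

end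
end
-- ===== PACK-END Lib/RR/H80/Res/Symbol2.lean

-- ===== PACK-BEGIN A2/Mod/Spec.lean
section






/-!
# WALL A2 / MOD — frozen CONCRETE leaves (architect: deputy helper994)

Level `N = M * q`, `q` prime, `q ∤ M`.  `P` a valuation subring of `Q̄` over `q`, `E ⊆ Q̄` an
intermediate field such that `R = R_E = P ∩ E` is a discrete valuation ring with uniformiser `w`
(number field, or a finite extension of the inertia field).  `k = R / w` (automatically perfect).

* `F_N = FE E N = E(j_d : d ∣ N) ⊆ E((t))`, `j_d = j(t^d)`;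
* `α = heckeAlphaBar E M q : F_M → F_N` (inclusion), `β = heckeBetaBar E M q` (`t ↦ t^q`, `j_d ↦ j_{dq}`);
* `V∞` = Gauss valuation ring of the `t`-expansion (`H708.gaussInf`, here via the predicate `IsVinf`);
* `W` = Fricke involution of `F_N` over `E` (`j_d ↦ j_{N/d}`), `V₀ := V∞.comap W`;
* **coordinate `x := j · j_q`** (NOT `j`, NOT `j + j_q`):  `j, j_q` are integral over `ℤ[x]` and
  `1/j, 1/j_q` are integral over `ℤ[1/x]` (leaf `ChartCompat`), hence BOTH `α` and `β` map the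
  level-`M` charts for the coordinate `j` (finite chart AND chart at infinity) into the level-`N`
  charts for the coordinate `x`; `x̄ = j̄^(q+1)` on `C∞`, `x̄ = j̄_q^(q+1)` on `C₀`: separable (tame)
  on both components;  `[F_N : E(x)] = 2 ψ(N) = 2 (q+1) ψ(M)`, residue degrees `ψ(N)` and `ψ(N)`.

Every `def …Statement : Prop` below is ONE leaf: prove `theorem foo : FooStatement` in
`Fermat/Agent/A2/Mod/H<seat>/*.lean` (namespace `Fermat.Agent.A2.Mod.H<seat>`), importing this file.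
The abstract pieces on main (H48 QEP2, H492 M4, H372 T-ALG, H168/H132 nodes, H296/H373/H969 normal)
turn the leaves + `GoodRedAt` (level `M`, = output of S18 b2) into helper13's `SSChart`s (MODASM).
-/

set_option autoImplicit false
set_option synthInstance.maxHeartbeats 400000
set_option maxHeartbeats 1600000

noncomputable section

namespace Fermat.Agent.A2.Mod

open ModularCurve HahnSeries Polynomial

/-- The field `ℚ̄`. -/
abbrev Qb : Type := AlgebraicClosure ℚ

/-! ## Objects -/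

section Defs

variable (P : ValuationSubring _root_.Fermat.Agent.A2.Mod.Qb) (E : IntermediateField ℚ _root_.Fermat.Agent.A2.Mod.Qb) (N : ℕ)

/-- `R_E = P ∩ E`. -/
abbrev RE : ValuationSubring E := P.comap (algebraMap E _root_.Fermat.Agent.A2.Mod.Qb)

/-- `F_{N,E} = E(j(t^d) : d ∣ N) ⊆ E((t))`. -/
abbrev FE : IntermediateField E (LaurentSeries E) :=
  laurentBaseChange E (modularFunctionFieldFull N)

/-- The constant `r ∈ R_E` as an element of `F_{N,E}`. -/
def cE (r : _root_.Fermat.Agent.A2.Mod.RE P E) : _root_.Fermat.Agent.A2.Mod.FE E N := algebraMap E (_root_.Fermat.Agent.A2.Mod.FE E N) (r : E)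

/-- The generator `j_d = j(t^d)` of `F_{N,E}`, `d ∣ N`. -/
def jE (d : ℕ) [NeZero d] (hd : d ∣ N) : _root_.Fermat.Agent.A2.Mod.FE E N :=
  ⟨coeffEmb E (qExpand ℚ d jq), coeffEmb_mem_laurentBaseChange E (jqd_mem_full N hd)⟩

/-- Evaluation of a polynomial over `R_E` at an element of `F_{N,E}`. -/
def ev (x : _root_.Fermat.Agent.A2.Mod.FE E N) (a : Polynomial (_root_.Fermat.Agent.A2.Mod.RE P E)) : _root_.Fermat.Agent.A2.Mod.FE E N :=
  a.eval₂ ((algebraMap E (_root_.Fermat.Agent.A2.Mod.FE E N)).comp (_root_.Fermat.Agent.A2.Mod.RE P E).subtype) x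

/-- `V` is the Gauss valuation ring `V∞` of `F_{N,E}` with respect to `R_E`
(`= H708.gaussInf (RE P E) (modularFunctionFieldFull N) _ _`). -/
def IsVinf (V : ValuationSubring (_root_.Fermat.Agent.A2.Mod.FE E N)) : Prop :=
  ∀ f : _root_.Fermat.Agent.A2.Mod.FE E N, f ∈ V ↔
    H708.IsGaussInt (_root_.Fermat.Agent.A2.Mod.RE P E) (modularFunctionFieldFull N) (f : LaurentSeries E)

/-- `W` is the Fricke involution of `F_{N,E}` over `E`: `j_d ↦ j_{N/d}`. -/
def IsFricke (W : _root_.Fermat.Agent.A2.Mod.FE E N ≃ₐ[E] _root_.Fermat.Agent.A2.Mod.FE E N) : Prop :=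
  (∀ (d d' : ℕ) [NeZero d] [NeZero d'] (hd : d ∣ N) (hd' : d' ∣ N), d * d' = N →
    W (jE E N d hd) = jE E N d' hd') ∧ ∀ f, W (W f) = f

/-- `f ∈ w · V`. -/
def InW (V : ValuationSubring (_root_.Fermat.Agent.A2.Mod.FE E N)) (w : _root_.Fermat.Agent.A2.Mod.RE P E) (f : _root_.Fermat.Agent.A2.Mod.FE E N) : Prop :=
  f * (cE P E N w)⁻¹ ∈ V

/-- Residues of the family `b` are linearly independent over `k[x̄]`, in the elementwise form used
by `H48.GaussPair`: `∑ aᵢ(x) bᵢ ∈ w V ⟹ w ∣ aᵢ` for all `i`. -/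
def IndepMod (V : ValuationSubring (_root_.Fermat.Agent.A2.Mod.FE E N)) (w : _root_.Fermat.Agent.A2.Mod.RE P E) (x : _root_.Fermat.Agent.A2.Mod.FE E N) {n : ℕ}
    (b : Fin n → _root_.Fermat.Agent.A2.Mod.FE E N) : Prop :=
  ∀ a : Fin n → Polynomial (_root_.Fermat.Agent.A2.Mod.RE P E),
    InW P E N V w (∑ i, ev P E N x (a i) * b i) → ∀ i, Polynomial.C w ∣ a i

/-- The chart: elements of `F_{N,E}` integral over `R_E[x]` (as a set; `R_E[x]` = image of `ev`). -/
def chart (x : _root_.Fermat.Agent.A2.Mod.FE E N) : Set (_root_.Fermat.Agent.A2.Mod.FE E N) :=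
  {f | ∃ p : Polynomial (Polynomial (_root_.Fermat.Agent.A2.Mod.RE P E)), p.Monic ∧
    p.eval₂ (Polynomial.eval₂RingHom ((algebraMap E (_root_.Fermat.Agent.A2.Mod.FE E N)).comp (_root_.Fermat.Agent.A2.Mod.RE P E).subtype) x) f = 0}

end Defs

/-! ## Standing hypotheses of all leaves -/

/-- The standing hypotheses: `q` prime, `q ∤ M`, `P` over `q`, `R_E` a DVR with uniformiser `w`. -/
structure Setting (P : ValuationSubring _root_.Fermat.Agent.A2.Mod.Qb) (E : IntermediateField ℚ _root_.Fermat.Agent.A2.Mod.Qb) (M q : ℕ)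
    (w : _root_.Fermat.Agent.A2.Mod.RE P E) : Prop where
  q_prime : q.Prime
  q_not_dvd : ¬ q ∣ M
  M_ne_zero : M ≠ 0
  lies_over : P.LiesOverPrime q
  dvr : IsDiscreteValuationRing (_root_.Fermat.Agent.A2.Mod.RE P E)
  unif : Irreducible w

section Leaves

variable (P : ValuationSubring _root_.Fermat.Agent.A2.Mod.Qb) (E : IntermediateField ℚ _root_.Fermat.Agent.A2.Mod.Qb) (M q : ℕ) [NeZero M] [NeZero q]
  (w : _root_.Fermat.Agent.A2.Mod.RE P E)

/-- The coordinate `x = j · j_q` of level `M * q`. -/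
def xE : _root_.Fermat.Agent.A2.Mod.FE E (M * q) :=
  jE E (M * q) 1 (one_dvd _) * jE E (M * q) q (dvd_mul_left q M)

/-- `α : F_M → F_{Mq}`, the inclusion. -/
abbrev αE : _root_.Fermat.Agent.A2.Mod.FE E M →ₐ[E] _root_.Fermat.Agent.A2.Mod.FE E (M * q) := heckeAlphaBar E M q

/-- `β : F_M → F_{Mq}`, `t ↦ t^q`. -/
abbrev βE : _root_.Fermat.Agent.A2.Mod.FE E M →ₐ[E] _root_.Fermat.Agent.A2.Mod.FE E (M * q) := heckeBetaBar E M q

/-! ### L1  VINF: the Gauss valuation exists at every level (owner: helper708 / helper553) -/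

/-- **L1.** The Gauss valuation ring exists (any level `N`):
`H708.gaussInf` + `H708.IntGen (modularFunctionFieldFull N)` + `attainsMax_of_isNoetherianRing`. -/
def VinfExistsStatement : Prop :=
  ∀ N : ℕ, N ≠ 0 → IsDiscreteValuationRing (_root_.Fermat.Agent.A2.Mod.RE P E) →
    ∃ V : ValuationSubring (_root_.Fermat.Agent.A2.Mod.FE E N), IsVinf P E N V

/-- **L2.** `w` is a uniformiser of `V∞`, `V∞ ∩ E = R_E`, and the generators `j_d` are units. -/
def VinfBasicStatement : Prop :=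
  ∀ N : ℕ, N ≠ 0 → IsDiscreteValuationRing (_root_.Fermat.Agent.A2.Mod.RE P E) → Irreducible w →
    ∀ V : ValuationSubring (_root_.Fermat.Agent.A2.Mod.FE E N), IsVinf P E N V →
      H48.IsUnif V (cE P E N w) ∧
      (∀ e : E, algebraMap E (_root_.Fermat.Agent.A2.Mod.FE E N) e ∈ V ↔ e ∈ _root_.Fermat.Agent.A2.Mod.RE P E) ∧
      ∀ (d : ℕ) [NeZero d] (hd : d ∣ N), jE E N d hd ∈ V ∧ (jE E N d hd)⁻¹ ∈ V

/-- **L3.** Gauss property for every "polar" element: if `u ∈ F_N` is the image of an `R`-integral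
series `t^{-a}(c + …)`, `a > 0`, `c` a unit of `R`, then every `p ∈ R[X]` not divisible by `w`
gives a unit `p(u)` of `V∞`.  (Applied to `u = x`, `W x`, and with `V∞ ∋ u⁻¹`.) -/
def VinfGaussStatement : Prop :=
  ∀ N : ℕ, N ≠ 0 → IsDiscreteValuationRing (_root_.Fermat.Agent.A2.Mod.RE P E) → Irreducible w →
    ∀ V : ValuationSubring (_root_.Fermat.Agent.A2.Mod.FE E N), IsVinf P E N V →
    ∀ (u : _root_.Fermat.Agent.A2.Mod.FE E N) (U : LaurentSeries (_root_.Fermat.Agent.A2.Mod.RE P E)) (a : ℕ), 0 < a →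
      (u : LaurentSeries E) = H708.incl (_root_.Fermat.Agent.A2.Mod.RE P E) U →
      (∀ n : ℤ, n < -(a : ℤ) → U.coeff n = 0) → IsUnit (U.coeff (-(a : ℤ))) →
      ∀ p : Polynomial (_root_.Fermat.Agent.A2.Mod.RE P E), ¬ Polynomial.C w ∣ p →
        ev P E N u p ∈ V ∧ (ev P E N u p)⁻¹ ∈ V

/-! ### L4  W: the Fricke involution at level `E` (from H528 `wF`, `wF_rat` over `Q̄`) -/

/-- **L4.** The Fricke involution exists over `E` (restrict `H528.wF` to `E(j_d : d ∣ N)`). -/
def FrickeExistsStatement : Prop :=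
  ∀ N : ℕ, N ≠ 0 → ∃ W : _root_.Fermat.Agent.A2.Mod.FE E N ≃ₐ[E] _root_.Fermat.Agent.A2.Mod.FE E N, IsFricke E N W

/-- **L5.** Compatibility of Fricke involutions of levels `M` and `Mq` with `α`, `β`:
`W_N ∘ α = β ∘ W_M` and `W_N ∘ β = α ∘ W_M`. -/
def FrickeCompatStatement : Prop :=
  ∀ (WM : _root_.Fermat.Agent.A2.Mod.FE E M ≃ₐ[E] _root_.Fermat.Agent.A2.Mod.FE E M) (WN : _root_.Fermat.Agent.A2.Mod.FE E (M * q) ≃ₐ[E] _root_.Fermat.Agent.A2.Mod.FE E (M * q)),
    IsFricke E M WM → IsFricke E (M * q) WN →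
    ∀ f : _root_.Fermat.Agent.A2.Mod.FE E M, WN (αE E M q f) = βE E M q (WM f) ∧ WN (βE E M q f) = αE E M q (WM f)

/-- **L6.** `V₀ := V∞ ∘ W ≠ V∞` at level `Mq` (level-`E` form of `H528.comapW_ne`). -/
def VzeroNeStatement : Prop :=
  Setting P E M q w →
    ∀ (V : ValuationSubring (_root_.Fermat.Agent.A2.Mod.FE E (M * q))) (W : _root_.Fermat.Agent.A2.Mod.FE E (M * q) ≃ₐ[E] _root_.Fermat.Agent.A2.Mod.FE E (M * q)),
      IsVinf P E (M * q) V → IsFricke E (M * q) W →
      V.comap (W : _root_.Fermat.Agent.A2.Mod.FE E (M * q) →+* _root_.Fermat.Agent.A2.Mod.FE E (M * q)) ≠ V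

/-- **L7.** At level `M` (good reduction) the Fricke involution preserves `V∞`
(uniqueness of the extension of the Gauss valuation of `E(j)`: residue degree `ψ(M)` = degree). -/
def FrickeStableStatement : Prop :=
  Setting P E M q w →
    ∀ (V : ValuationSubring (_root_.Fermat.Agent.A2.Mod.FE E M)) (W : _root_.Fermat.Agent.A2.Mod.FE E M ≃ₐ[E] _root_.Fermat.Agent.A2.Mod.FE E M),
      IsVinf P E M V → IsFricke E M W → ∀ f ∈ V, W f ∈ V

/-! ### L8–L10  degrees and residue independence (from `S28.CoreData M k`, on main) -/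

/-- **L8.** `[F_{Mq} : E(x)] = 2 (q+1) ψ(M)`, `x` transcendental over `E`,
and `E` is algebraically closed in `F_{Mq}`. -/
def DegStatement : Prop :=
  q.Prime → ¬ q ∣ M →
    Transcendental E (xE E M q) ∧
    Module.finrank (IntermediateField.adjoin E ({xE E M q} : Set (_root_.Fermat.Agent.A2.Mod.FE E (M * q))))
      (_root_.Fermat.Agent.A2.Mod.FE E (M * q)) = 2 * ((q + 1) * dedekindPsi M) ∧
    ∀ f : _root_.Fermat.Agent.A2.Mod.FE E (M * q), IsAlgebraic E f → f ∈ (algebraMap E (_root_.Fermat.Agent.A2.Mod.FE E (M * q))).range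

/-- **L9.** Residue independence on `C∞`: there are `(q+1) ψ(M)` elements of `α(V∞_M)·j^a`
(`bᵢ = α(yᵢ) j^a`, `yᵢ` the `ψ(M)` monomials of `S28.CoreData M k`, `0 ≤ a ≤ q`) in `V∞`
whose residues are independent over `k[x̄]`, `x̄ = j̄^(q+1)`. -/
def IndInfStatement : Prop :=
  Setting P E M q w →
    ∀ V : ValuationSubring (_root_.Fermat.Agent.A2.Mod.FE E (M * q)), IsVinf P E (M * q) V →
      ∃ b : Fin ((q + 1) * dedekindPsi M) → _root_.Fermat.Agent.A2.Mod.FE E (M * q),
        (∀ i, b i ∈ V) ∧ IndepMod P E (M * q) V w (xE E M q) b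

/-- **L10.** Residue independence on `C₀`: the same for `V₀ = V∞ ∘ W`
(`cᵢ = β(yᵢ') j_q^a`; apply `W` and use L7 at level `M`). -/
def IndZeroStatement : Prop :=
  Setting P E M q w →
    ∀ (V : ValuationSubring (_root_.Fermat.Agent.A2.Mod.FE E (M * q))) (W : _root_.Fermat.Agent.A2.Mod.FE E (M * q) ≃ₐ[E] _root_.Fermat.Agent.A2.Mod.FE E (M * q)),
      IsVinf P E (M * q) V → IsFricke E (M * q) W →
      ∃ c : Fin ((q + 1) * dedekindPsi M) → _root_.Fermat.Agent.A2.Mod.FE E (M * q),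
        (∀ i, W (c i) ∈ V) ∧
        IndepMod P E (M * q) (V.comap (W : _root_.Fermat.Agent.A2.Mod.FE E (M * q) →+* _root_.Fermat.Agent.A2.Mod.FE E (M * q))) w (xE E M q) c

/-! ### L11–L12  residue fields and Kronecker (semilinear form, `k` perfect) -/

/-- **L11.** Residue degree one over level `M` on `C∞`: every element of `V∞` (level `Mq`) is
congruent modulo `w V∞` to `α g`, `g ∈ V∞_M`. -/
def ResInfStatement : Prop :=
  Setting P E M q w →
    ∀ (VM : ValuationSubring (_root_.Fermat.Agent.A2.Mod.FE E M)) (V : ValuationSubring (_root_.Fermat.Agent.A2.Mod.FE E (M * q))),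
      IsVinf P E M VM → IsVinf P E (M * q) V →
      ∀ f ∈ V, ∃ g ∈ VM, InW P E (M * q) V w (f - αE E M q g)

/-- **L12.** Kronecker congruence, semilinear form: for `a ∈ V∞_M` there is `a' ∈ V∞_M`
(`ā' = ā` with coefficients twisted by the inverse Frobenius of `k`) with
`β a ≡ (α a')^q mod w V∞`.  (On `C₀` the swapped congruence follows from L5 and L7.) -/
def KronStatement : Prop :=
  Setting P E M q w →
    ∀ (VM : ValuationSubring (_root_.Fermat.Agent.A2.Mod.FE E M)) (V : ValuationSubring (_root_.Fermat.Agent.A2.Mod.FE E (M * q))),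
      IsVinf P E M VM → IsVinf P E (M * q) V →
      ∀ a ∈ VM, ∃ a' ∈ VM, InW P E (M * q) V w (βE E M q a - (αE E M q a') ^ q)

/-! ### L13  chart compatibility (from `S28.ModPolyData q`, on main) -/

/-- **L13.** `j, j_q` are integral over `ℤ[x]` and `1/j, 1/j_q` are integral over `ℤ[1/x]`,
`x = j j_q` (monicity of `Φ_q` in each variable suffices). -/
def ChartCompatStatement : Prop :=
  q.Prime →
    (jE E (M * q) 1 (one_dvd _) ∈ chart P E (M * q) (xE E M q)) ∧
    (jE E (M * q) q (dvd_mul_left q M) ∈ chart P E (M * q) (xE E M q)) ∧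
    ((jE E (M * q) 1 (one_dvd _))⁻¹ ∈ chart P E (M * q) (xE E M q)⁻¹) ∧
    ((jE E (M * q) q (dvd_mul_left q M))⁻¹ ∈ chart P E (M * q) (xE E M q)⁻¹)

/-! ### L14  inertia acts trivially on both residue fields -/

/-- The restriction to `E` of an automorphism of `Q̄` stabilising `E`. -/
def resE (τ : _root_.Fermat.Agent.A2.Mod.Qb ≃ₐ[ℚ] _root_.Fermat.Agent.A2.Mod.Qb) (hτ : ∀ e : _root_.Fermat.Agent.A2.Mod.Qb, e ∈ E → τ e ∈ E ∧ τ.symm e ∈ E) : E ≃ₐ[ℚ] E :=
  AlgEquiv.ofBijective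
    { toFun := fun e => ⟨τ (e : _root_.Fermat.Agent.A2.Mod.Qb), (hτ e e.2).1⟩
      map_one' := Subtype.ext (map_one τ)
      map_mul' := fun a b => Subtype.ext (map_mul τ (a : _root_.Fermat.Agent.A2.Mod.Qb) (b : _root_.Fermat.Agent.A2.Mod.Qb))
      map_zero' := Subtype.ext (map_zero τ)
      map_add' := fun a b => Subtype.ext (map_add τ (a : _root_.Fermat.Agent.A2.Mod.Qb) (b : _root_.Fermat.Agent.A2.Mod.Qb))
      commutes' := fun r => Subtype.ext (τ.commutes r) }
    ⟨fun a b hab => Subtype.ext (τ.injective (congrArg Subtype.val hab)),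
      fun b => ⟨⟨τ.symm (b : _root_.Fermat.Agent.A2.Mod.Qb), (hτ b b.2).2⟩, Subtype.ext (τ.apply_symm_apply (b : _root_.Fermat.Agent.A2.Mod.Qb))⟩⟩

/-- **L14.** For `τ` in the inertia group of `P` stabilising `E`: `τ` stabilises `V∞` and `V₀`,
acts trivially on both residue fields, and commutes with `W`. -/
def InertiaStatement : Prop :=
  ∀ N : ℕ, N ≠ 0 → IsDiscreteValuationRing (_root_.Fermat.Agent.A2.Mod.RE P E) → Irreducible w →
    ∀ (V : ValuationSubring (_root_.Fermat.Agent.A2.Mod.FE E N)) (W : _root_.Fermat.Agent.A2.Mod.FE E N ≃ₐ[E] _root_.Fermat.Agent.A2.Mod.FE E N),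
      IsVinf P E N V → IsFricke E N W →
      ∀ (τ : _root_.Fermat.Agent.A2.Mod.Qb ≃ₐ[ℚ] _root_.Fermat.Agent.A2.Mod.Qb) (hτ : ∀ e : _root_.Fermat.Agent.A2.Mod.Qb, e ∈ E → τ e ∈ E ∧ τ.symm e ∈ E),
        τ ∈ P.inertiaSubgroupIn ℚ →
        (∀ f : _root_.Fermat.Agent.A2.Mod.FE E N, arithmeticRingAut (modularFunctionFieldFull N) (resE E τ hτ) (W f) =
          W (arithmeticRingAut (modularFunctionFieldFull N) (resE E τ hτ) f)) ∧
        ∀ f ∈ V, InW P E N V w
          (arithmeticRingAut (modularFunctionFieldFull N) (resE E τ hτ) f - f)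

/-! ### HYPOTHESIS at level `M` (output of S18 b2 — NOT a leaf of MOD) -/

/-- **Good reduction at level `M`** in the chart of the coordinate `y` (`y = j` and `y = j⁻¹`),
elementwise: (qep) `B_M ∩ w V∞ = w B_M`; (normal) the image of `B_M` in the residue field of `V∞`
is integrally closed in it, i.e. `B_M / w B_M` is a normal domain with fraction field `κ(V∞)`. -/
structure GoodRedAt (VM : ValuationSubring (_root_.Fermat.Agent.A2.Mod.FE E M)) (y : _root_.Fermat.Agent.A2.Mod.FE E M) : Prop where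
  qep : ∀ b ∈ chart P E M y, InW P E M VM w b → b * (cE P E M w)⁻¹ ∈ chart P E M y
  normal : ∀ f ∈ VM,
    (∃ (n : ℕ) (c : Fin n → _root_.Fermat.Agent.A2.Mod.FE E M), (∀ i, c i ∈ chart P E M y) ∧
      InW P E M VM w (f ^ n + ∑ i : Fin n, c i * f ^ (i : ℕ))) →
    ∃ b ∈ chart P E M y, InW P E M VM w (f - b)

end Leaves

end Fermat.Agent.A2.Mod

end

end
-- ===== PACK-END A2/Mod/Spec.lean

-- ===== PACK-BEGIN Ribet/H495/AlgPLoc.lean
section


/-!
# W-ALGP: the local calculus (helper495)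

* `locSub B n` : the localisation `B_n ⊆ F` as a subalgebra (`n` prime);
* `locOneR_iff` : `LocOneR B n r u ↔ u ∈ 1 + r · B_n`;
* `TauLoc` : what is needed from `τ` on a subalgebra `S` (`τ ≡ id mod w`, `1 + w S ⊆ Sˣ`);
* `tau_one_add` (**key computation**): `τ (1 + Λ^k t) = (1 + Λ^k t)^c · (1 + Λ^k w s)`.
-/

set_option autoImplicit false

namespace Fermat.Agent.Ribet.H495.AlgP

open Fermat.Agent.A2 Fermat.Agent.A2.Alg

section Loc

variable {R F : Type*} [CommRing R] [Field F] [Algebra R F]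

/-- The localisation `B_n ⊆ F`. -/
def locSub (B : Subalgebra R F) (n : Ideal B) (hn : n.IsPrime) : Subalgebra R F where
  carrier := {f | ∃ a b : B, b ∉ n ∧ f * (b : F) = (a : F)}
  mul_mem' := by
    rintro f g ⟨a, b, hb, hab⟩ ⟨a', b', hb', hab'⟩
    refine ⟨a * a', b * b', fun h => ?_, ?_⟩
    · rcases hn.mem_or_mem h with h | h
      · exact hb h
      · exact hb' h
    · push_cast
      rw [← hab, ← hab']
      ring
  add_mem' := by
    rintro f g ⟨a, b, hb, hab⟩ ⟨a', b', hb', hab'⟩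
    refine ⟨a * b' + a' * b, b * b', fun h => ?_, ?_⟩
    · rcases hn.mem_or_mem h with h | h
      · exact hb h
      · exact hb' h
    · push_cast
      rw [← hab, ← hab']
      ring
  algebraMap_mem' r :=
    ⟨algebraMap R B r, 1, fun h => hn.ne_top ((Ideal.eq_top_iff_one n).2 h), by simp⟩

theorem mem_locSub {B : Subalgebra R F} {n : Ideal B} {hn : n.IsPrime} {f : F} :
    f ∈ locSub B n hn ↔ ∃ a b : B, b ∉ n ∧ f * (b : F) = (a : F) := Iff.rfl

theorem coe_ne_zero_of_notMem495 {B : Subalgebra R F} {n : Ideal B} {b : B} (hb : b ∉ n) :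
    (b : F) ≠ 0 := by
  intro h
  apply hb
  have : b = 0 := Subtype.ext h
  rw [this]
  exact n.zero_mem

/-- `LocOneR B n r u ↔ u ∈ 1 + r · B_n`. -/
theorem locOneR_iff {B : Subalgebra R F} {n : Ideal B} (hn : n.IsPrime) {r : R} {u : F} :
    LocOneR B n r u ↔ ∃ t ∈ locSub B n hn, u = 1 + algebraMap R F r * t := by
  constructor
  · rintro ⟨a, b, hb, hab, e⟩
    obtain ⟨c, hc⟩ := Ideal.mem_span_singleton'.1 hab
    have hb0 : (b : F) ≠ 0 := coe_ne_zero_of_notMem495 hb
    have hcF : (c : F) * algebraMap R F r = (a : F) - (b : F) := by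
      have := congrArg (fun z : B => (z : F)) hc
      simpa using this
    refine ⟨(c : F) * (b : F)⁻¹, ⟨c, b, hb, by field_simp⟩, ?_⟩
    have hu : u = (a : F) * (b : F)⁻¹ := by
      field_simp
      exact e
    rw [hu]
    field_simp
    linear_combination -hcF
  · rintro ⟨t, ⟨a, b, hb, hab⟩, rfl⟩
    refine ⟨b + algebraMap R B r * a, b, hb, ?_, ?_⟩
    · rw [add_sub_cancel_left]
      exact Ideal.mul_mem_right _ _ (Ideal.mem_span_singleton_self _)
    · push_cast
      rw [add_mul, one_mul, mul_assoc, hab]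

end Loc

section Tau

variable {R F : Type*} [CommRing R] [Field F] [Algebra R F]

/-- The properties of a subalgebra `S ⊆ F` (a localisation of a chart at a prime containing `w`)
with respect to `τ` used in the computations. -/
structure TauLoc (w : R) (S : Subalgebra R F) (τ : F ≃+* F) : Prop where
  /-- `1 + w S ⊆ Sˣ` -/
  inv_mem : ∀ s ∈ S, (1 + algebraMap R F w * s) ≠ 0 ∧ (1 + algebraMap R F w * s)⁻¹ ∈ S
  /-- `τ ≡ id mod w` on `S` -/
  tau : ∀ s ∈ S, ∃ s' ∈ S, τ s = s + algebraMap R F w * s'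

/-- `τ ≡ id mod w` on the chart passes to the localisation at a prime containing `w`. -/
theorem tauLoc_locSub (w : R) (B : Subalgebra R F) (τ : F ≃+* F)
    (hτB : ∀ b ∈ B, ∃ c ∈ B, τ b - b = algebraMap R F w * c)
    (n : Ideal B) (hn : n.IsPrime) (hwn : algebraMap R B w ∈ n) :
    TauLoc w (locSub B n hn) τ := by
  constructor
  · rintro s ⟨a, b, hb, hab⟩
    have hb0 : (b : F) ≠ 0 := coe_ne_zero_of_notMem495 hb
    have hbn : b + algebraMap R B w * a ∉ n := by
      intro h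
      apply hb
      have h2 : b = (b + algebraMap R B w * a) - algebraMap R B w * a := by ring
      rw [h2]
      exact n.sub_mem h (n.mul_mem_right _ hwn)
    have hne : ((b + algebraMap R B w * a : B) : F) ≠ 0 := coe_ne_zero_of_notMem495 hbn
    have hs : s = (a : F) * (b : F)⁻¹ := by
      field_simp
      exact hab
    have hcast : ((b + algebraMap R B w * a : B) : F) = (b : F) + algebraMap R F w * (a : F) := by
      push_cast
      rfl
    have key : 1 + algebraMap R F w * s = ((b : F) + algebraMap R F w * (a : F)) * (b : F)⁻¹ := by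
      rw [hs]
      field_simp
    rw [hcast] at hne
    refine ⟨?_, ?_⟩
    · rw [key]
      exact mul_ne_zero hne (inv_ne_zero hb0)
    · refine ⟨b, b + algebraMap R B w * a, hbn, ?_⟩
      rw [key, hcast]
      field_simp
  · rintro s ⟨a, b, hb, hab⟩
    obtain ⟨ca, hca, ea⟩ := hτB a a.2
    obtain ⟨cb, hcb, eb⟩ := hτB b b.2
    have hb0 : (b : F) ≠ 0 := coe_ne_zero_of_notMem495 hb
    have hτb : τ (b : F) = (b : F) + algebraMap R F w * cb := by linear_combination eb
    have hτa : τ (a : F) = (a : F) + algebraMap R F w * ca := by linear_combination ea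
    have hb'n : (⟨(b : F) + algebraMap R F w * cb,
        B.add_mem b.2 (B.mul_mem (B.algebraMap_mem w) hcb)⟩ : B) ∉ n := by
      intro h
      apply hb
      have h2 : b = (⟨(b : F) + algebraMap R F w * cb,
          B.add_mem b.2 (B.mul_mem (B.algebraMap_mem w) hcb)⟩ : B) -
          algebraMap R B w * ⟨cb, hcb⟩ := by
        apply Subtype.ext
        push_cast
        ring
      rw [h2]
      exact n.sub_mem h (n.mul_mem_right _ hwn)
    have hτb0 : (b : F) + algebraMap R F w * cb ≠ 0 := by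
      have := coe_ne_zero_of_notMem495 (F := F) hb'n
      simpa using this
    have hs : s = (a : F) * (b : F)⁻¹ := by
      field_simp
      exact hab
    have hτs : τ s = ((a : F) + algebraMap R F w * ca) * ((b : F) + algebraMap R F w * cb)⁻¹ := by
      rw [hs, map_mul, map_inv₀, hτa, hτb]
    refine ⟨(ca * (b : F) - (a : F) * cb) * ((b : F) * ((b : F) + algebraMap R F w * cb))⁻¹,
      ⟨⟨ca, hca⟩ * b - a * ⟨cb, hcb⟩,
        b * ⟨(b : F) + algebraMap R F w * cb,
          B.add_mem b.2 (B.mul_mem (B.algebraMap_mem w) hcb)⟩, ?_, ?_⟩, ?_⟩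
    · intro h
      rcases hn.mem_or_mem h with h | h
      · exact hb h
      · exact hb'n h
    · push_cast
      rw [mul_assoc, inv_mul_cancel₀ (mul_ne_zero hb0 hτb0), mul_one]
    · rw [hτs, hs]
      field_simp
      ring

end Tau

end Fermat.Agent.Ribet.H495.AlgP

end
-- ===== PACK-END Ribet/H495/AlgPLoc.lean

-- ===== PACK-BEGIN S18/H754/KummerTransfer.lean
section


/-!
# S18 / Route K / étale Kummer cover: transfer between `B` and its localisation `R = B_𝔪`
-/

set_option autoImplicit false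

noncomputable section

namespace Fermat.Agent.S18.H754

open Polynomial IsLocalRing

section Transfer

variable {B : Type*} [CommRing B] [IsDomain B]
  (𝔪 : Ideal B) [h𝔪 : 𝔪.IsPrime]
  (R : Type*) [CommRing R] [Algebra B R] [IsLocalization.AtPrime R 𝔪]

include h𝔪 in
lemma algebraMap_loc_injective : Function.Injective (algebraMap B R) :=
  IsLocalization.injective R 𝔪.primeCompl_le_nonZeroDivisors

lemma disjoint_primeCompl_span {ϖ : B} (hϖ𝔪 : ϖ ∈ 𝔪) :
    Disjoint (𝔪.primeCompl : Set B) (Ideal.span {ϖ} : Ideal B) := by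
  rw [Set.disjoint_left]
  intro x hx hx'
  apply hx
  have h : Ideal.span {ϖ} ≤ 𝔪 := (Ideal.span_singleton_le_iff_mem _).2 hϖ𝔪
  exact h hx'

lemma span_map_singleton (ϖ : B) :
    Ideal.span {algebraMap B R ϖ} = Ideal.map (algebraMap B R) (Ideal.span {ϖ}) := by
  rw [Ideal.map_span, Set.image_singleton]

lemma prime_algebraMap_loc {ϖ : B} (hϖ : Prime ϖ) (hϖ𝔪 : ϖ ∈ 𝔪) :
    Prime (algebraMap B R ϖ) := by
  have h0 : algebraMap B R ϖ ≠ 0 := by
    intro h
    exact hϖ.ne_zero (algebraMap_loc_injective 𝔪 R (by rw [h, map_zero]))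
  rw [← Ideal.span_singleton_prime h0, span_map_singleton]
  exact IsLocalization.isPrime_of_isPrime_disjoint 𝔪.primeCompl R _
    ((Ideal.span_singleton_prime hϖ.ne_zero).2 hϖ) (disjoint_primeCompl_span 𝔪 hϖ𝔪)

lemma not_dvd_algebraMap_loc {ϖ : B} (hϖ : Prime ϖ) (hϖ𝔪 : ϖ ∈ 𝔪) {x : B}
    (hx : x ∉ Ideal.span {ϖ}) : algebraMap B R x ∉ Ideal.span {algebraMap B R ϖ} := by
  intro h
  apply hx
  rw [span_map_singleton] at h
  have := IsLocalization.comap_map_of_isPrime_disjoint 𝔪.primeCompl R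
    ((Ideal.span_singleton_prime hϖ.ne_zero).2 hϖ) (disjoint_primeCompl_span 𝔪 hϖ𝔪)
  rw [← this]
  exact h

lemma maximalIdeal_loc_eq_span_pair [IsLocalRing R] {ϖ t : B} (hϖ𝔪 : ϖ ∈ 𝔪) (ht𝔪 : t ∈ 𝔪)
    (h : ∀ a ∈ 𝔪, ∃ s : B, s ∉ 𝔪 ∧ s * a ∈ Ideal.span {ϖ, t}) :
    maximalIdeal R = Ideal.span {algebraMap B R ϖ, algebraMap B R t} := by
  rw [← IsLocalization.AtPrime.map_eq_maximalIdeal 𝔪 R]
  have hspan : Ideal.span {algebraMap B R ϖ, algebraMap B R t} =
      Ideal.map (algebraMap B R) (Ideal.span {ϖ, t}) := by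
    rw [Ideal.map_span, Set.image_pair]
  apply le_antisymm
  · rw [Ideal.map_le_iff_le_comap]
    intro a ha
    obtain ⟨s, hs, hsa⟩ := h a ha
    rw [Ideal.mem_comap, hspan]
    have h1 : algebraMap B R (s * a) ∈ Ideal.map (algebraMap B R) (Ideal.span {ϖ, t}) :=
      Ideal.mem_map_of_mem _ hsa
    rw [map_mul] at h1
    have hu : IsUnit (algebraMap B R s) := IsLocalization.map_units R (⟨s, hs⟩ : 𝔪.primeCompl)
    exact (Ideal.unit_mul_mem_iff_mem _ hu).1 h1
  · rw [Ideal.span_le]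
    intro x hx
    rcases hx with rfl | hx
    · exact Ideal.mem_map_of_mem _ hϖ𝔪
    · rw [Set.mem_singleton_iff] at hx
      subst hx
      exact Ideal.mem_map_of_mem _ ht𝔪

section Field

variable {F : Type*} [Field F] [Algebra B F] [Algebra R F] [IsScalarTower B R F]

lemma oneModPi_loc {ϖ : B} (hϖ : Prime ϖ) (hϖ𝔪 : ϖ ∈ 𝔪) {u : F} (h : OneModPi ϖ u) :
    OneModPi (algebraMap B R ϖ) u := by
  obtain ⟨a, s, hs, has, hu⟩ := h
  refine ⟨algebraMap B R a, algebraMap B R s, not_dvd_algebraMap_loc 𝔪 R hϖ hϖ𝔪 hs, ?_, ?_⟩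
  · rw [← map_sub, span_map_singleton]
    exact Ideal.mem_map_of_mem _ has
  · rw [← IsScalarTower.algebraMap_apply, ← IsScalarTower.algebraMap_apply]
    exact hu

include 𝔪 in
lemma locallyPow_of_divisibleDivisor [IsDomain R] [IsNoetherianRing R] {p : ℕ} {u : F}
    (h : DivisibleDivisor B p u) (π : R) (hπ : Prime π) : LocallyPow R p u π := by
  haveI hP : (Ideal.span {π}).IsPrime := (Ideal.span_singleton_prime hπ.ne_zero).2 hπ
  have hht : (Ideal.span {π} : Ideal R).height = 1 := by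
    apply le_antisymm
    · refine Ideal.height_le_one_of_isPrincipal_of_mem_minimalPrimes (Ideal.span {π}) _ ?_
      rw [Ideal.minimalPrimes_eq_subsingleton_self]
      exact Set.mem_singleton _
    · rw [Order.one_le_iff_pos, pos_iff_ne_zero]
      intro h0
      rw [Ideal.height_eq_zero_iff, IsDomain.minimalPrimes_eq_singleton_bot] at h0
      rw [Set.mem_singleton_iff, Ideal.span_singleton_eq_bot] at h0
      exact hπ.ne_zero h0
  have hht' : ((Ideal.span {π} : Ideal R).under B).height = 1 := by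
    rw [IsLocalization.height_comap 𝔪.primeCompl, hht]
  obtain ⟨t, a, s, ha, hs, hu⟩ := h ((Ideal.span {π} : Ideal R).under B) inferInstance hht'
  refine ⟨t, algebraMap B R a, algebraMap B R s, ?_, ?_, ?_⟩
  · intro hd
    apply ha
    rw [Ideal.under_def, Ideal.mem_comap, Ideal.mem_span_singleton]
    exact hd
  · intro hd
    apply hs
    rw [Ideal.under_def, Ideal.mem_comap, Ideal.mem_span_singleton]
    exact hd
  · rw [← IsScalarTower.algebraMap_apply, ← IsScalarTower.algebraMap_apply]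
    exact hu

end Field

section Int

variable {F' : Type*} [Field F'] [Algebra B F'] [Algebra R F'] [IsScalarTower B R F']

/-- an element integral over `R = B_𝔪` has a multiple by some `m ∉ 𝔪` integral over `B`. -/
lemma exists_notMem_isIntegral_mul {c : F'} (hc : IsIntegral R c) :
    ∃ m : B, m ∉ 𝔪 ∧ IsIntegral B (algebraMap B F' m * c) := by
  obtain ⟨⟨m, hm⟩, h⟩ := IsIntegral.exists_multiple_integral_of_isLocalization 𝔪.primeCompl c hc
  refine ⟨m, hm, ?_⟩
  rw [← Algebra.smul_def]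
  exact h

/-- `ϖ O'`-membership over `R = B_𝔪` gives `ϖ O'`-membership over `B` (same `O'`). -/
lemma inPiO_of_loc {ϖ : B} (hϖ : Prime ϖ) (hϖ𝔪 : ϖ ∈ 𝔪) {y : F'}
    (h : InPiO (algebraMap B R ϖ) y) : InPiO ϖ y := by
  obtain ⟨s', hs', c, hc, hsc⟩ := h
  obtain ⟨m, hm, hmc⟩ := exists_notMem_isIntegral_mul 𝔪 R hc
  obtain ⟨s₁, ⟨s₂, hs₂⟩, hs⟩ := IsLocalization.exists_mk'_eq 𝔪.primeCompl s'
  have hs12 : s' * algebraMap B R s₂ = algebraMap B R s₁ := by
    rw [← hs]
    exact IsLocalization.mk'_spec R s₁ ⟨s₂, hs₂⟩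
  have hπ' := prime_algebraMap_loc 𝔪 R hϖ hϖ𝔪
  have hs₁ : s₁ ∉ Ideal.span {ϖ} := by
    intro h1
    have h2 : algebraMap B R s₁ ∈ Ideal.span {algebraMap B R ϖ} := by
      rw [span_map_singleton]
      exact Ideal.mem_map_of_mem _ h1
    rw [← hs12, Ideal.mem_span_singleton] at h2
    rw [Ideal.mem_span_singleton] at hs'
    rcases hπ'.dvd_or_dvd h2 with h3 | h3
    · exact hs' h3
    · have hu : IsUnit (algebraMap B R s₂) :=
        IsLocalization.map_units R (⟨s₂, hs₂⟩ : 𝔪.primeCompl)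
      exact hπ'.not_unit (isUnit_of_dvd_unit h3 hu)
  have hm' : m ∉ Ideal.span {ϖ} := by
    intro h1
    apply hm
    have h : Ideal.span {ϖ} ≤ 𝔪 := (Ideal.span_singleton_le_iff_mem _).2 hϖ𝔪
    exact h h1
  refine ⟨s₁ * m, ?_, algebraMap B F' s₂ * (algebraMap B F' m * c),
    isIntegral_algebraMap.mul hmc, ?_⟩
  · intro h1
    rw [Ideal.mem_span_singleton] at h1 hs₁ hm'
    rcases hϖ.dvd_or_dvd h1 with h2 | h2
    · exact hs₁ h2
    · exact hm' h2
  · have e1 : algebraMap B F' s₁ = algebraMap R F' s' * algebraMap B F' s₂ := by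
      rw [IsScalarTower.algebraMap_apply B R F' s₁, ← hs12, map_mul,
        ← IsScalarTower.algebraMap_apply]
    have e2 : algebraMap R F' (algebraMap B R ϖ) = algebraMap B F' ϖ :=
      (IsScalarTower.algebraMap_apply B R F' ϖ).symm
    rw [e2] at hsc
    rw [map_mul, e1]
    calc algebraMap R F' s' * algebraMap B F' s₂ * algebraMap B F' m * y
        = algebraMap B F' s₂ * algebraMap B F' m * (algebraMap R F' s' * y) := by ring
      _ = algebraMap B F' s₂ * algebraMap B F' m * (algebraMap B F' ϖ * c) := by rw [hsc]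
      _ = algebraMap B F' ϖ * (algebraMap B F' s₂ * (algebraMap B F' m * c)) := by ring

/-- `ϖ O'`-membership over `B` gives `ϖ O'`-membership over `R = B_𝔪`. -/
lemma inPiO_to_loc {ϖ : B} (hϖ : Prime ϖ) (hϖ𝔪 : ϖ ∈ 𝔪) {y : F'}
    (h : InPiO ϖ y) : InPiO (algebraMap B R ϖ) y := by
  obtain ⟨s, hs, c, hc, hsc⟩ := h
  refine ⟨algebraMap B R s, not_dvd_algebraMap_loc 𝔪 R hϖ hϖ𝔪 hs, c, hc.tower_top, ?_⟩
  rw [← IsScalarTower.algebraMap_apply, ← IsScalarTower.algebraMap_apply]
  exact hsc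

end Int

end Transfer

end Fermat.Agent.S18.H754

end

end
-- ===== PACK-END S18/H754/KummerTransfer.lean

-- ===== PACK-BEGIN A2/H609/Generator.lean
section





/-!
# Node purity, part 5: a simultaneous local generator of the root ideal

`R` noetherian local integrally closed domain, `u ≠ 0`, `π ∈ 𝔪`, `V(u, π) = {𝔪}`.
If `m ∣ ord_𝔓 (u)` at every prime `𝔓 ∋ u`, `𝔓 ∌ π` (hypothesis `H1`), then there are `t r : R` with
`t ^ m = u * r` and `π ^ k ∈ (u, r)`.  Mathlib only.
-/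

set_option autoImplicit false

namespace Fermat.Agent.A2.H609

open Ideal

variable {R : Type*} [CommRing R] [IsDomain R] [IsIntegrallyClosed R]

/-- `S_𝔓 = {f | f ^ m ∈ (u) * 𝔓}`: the elements of the root ideal that do not generate it
at `𝔓`. -/
def nonGenIdeal (u : R) (m : ℕ) (hm : m ≠ 0) (𝔓 : Ideal R) [𝔓.IsPrime] : Ideal R where
  carrier := {f | f ^ m ∈ Ideal.span {u} * 𝔓}
  add_mem' := by
    intro f g hf hg
    show (f + g) ^ m ∈ Ideal.span {u} * 𝔓
    have hf' : f ^ m ∈ Ideal.span {u} * 𝔓 := hf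
    have hg' : g ^ m ∈ Ideal.span {u} * 𝔓 := hg
    obtain ⟨x, hx, hfx⟩ := Ideal.mem_span_singleton_mul.mp hf'
    obtain ⟨y, hy, hgy⟩ := Ideal.mem_span_singleton_mul.mp hg'
    by_cases hu0 : u = 0
    · subst hu0
      have h0 : f ^ m = 0 := by rw [← hfx, zero_mul]
      have h1 : g ^ m = 0 := by rw [← hgy, zero_mul]
      have hf0 : f = 0 := pow_eq_zero_iff hm |>.mp h0
      have hg0 : g = 0 := pow_eq_zero_iff hm |>.mp h1
      rw [hf0, hg0, add_zero, zero_pow hm]
      exact Ideal.zero_mem _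
    rw [add_pow]
    refine Ideal.sum_mem _ fun i hi => ?_
    have hi' : i ≤ m := Nat.lt_succ_iff.mp (Finset.mem_range.mp hi)
    refine Ideal.mul_mem_right _ _ ?_
    -- `f^i g^(m-i) = u z` with `z ∈ 𝔓`
    obtain ⟨z, hz⟩ : u ∣ f ^ i * g ^ (m - i) :=
      dvd_pow_mul_pow hm (Dvd.intro x hfx) (Dvd.intro y hgy) hi'
    have hzm : z ^ m = x ^ i * y ^ (m - i) := by
      have h1 : (u * z) ^ m = u ^ m * (x ^ i * y ^ (m - i)) := by
        rw [← hz]
        have : (f ^ i * g ^ (m - i)) ^ m = (f ^ m) ^ i * (g ^ m) ^ (m - i) := by ring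
        rw [this, ← hfx, ← hgy, mul_pow, mul_pow]
        have hum : u ^ m = u ^ i * u ^ (m - i) := by
          rw [← pow_add, Nat.add_sub_cancel' hi']
        rw [hum]; ring
      rw [mul_pow] at h1
      exact mul_left_cancel₀ (pow_ne_zero m hu0) h1
    have hzP : z ∈ 𝔓 := by
      apply Ideal.IsPrime.mem_of_pow_mem (inferInstance : 𝔓.IsPrime) m
      rw [hzm]
      by_cases hi0 : i = 0
      · subst hi0
        rw [pow_zero, one_mul, Nat.sub_zero]
        exact Ideal.pow_mem_of_mem _ hy m (Nat.pos_of_ne_zero hm)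
      · exact Ideal.mul_mem_right _ _ (Ideal.pow_mem_of_mem _ hx i (Nat.pos_of_ne_zero hi0))
    rw [hz]
    exact Ideal.mul_mem_mul (Ideal.mem_span_singleton_self u) hzP
  zero_mem' := by
    show (0 : R) ^ m ∈ Ideal.span {u} * 𝔓
    rw [zero_pow hm]
    exact Ideal.zero_mem _
  smul_mem' := by
    intro c f hf
    show (c • f) ^ m ∈ Ideal.span {u} * 𝔓
    rw [smul_eq_mul, mul_pow]
    exact Ideal.mul_mem_left _ _ hf

theorem mem_nonGenIdeal {u : R} {m : ℕ} {hm : m ≠ 0} {𝔓 : Ideal R} [𝔓.IsPrime] {f : R} :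
    f ∈ nonGenIdeal u m hm 𝔓 ↔ f ^ m ∈ Ideal.span {u} * 𝔓 := Iff.rfl

/-- If `f ^ m = u * r` then `f ∈ S_𝔓 ↔ r ∈ 𝔓`. -/
theorem mem_nonGenIdeal_iff_of_eq {u : R} (hu0 : u ≠ 0) {m : ℕ} {hm : m ≠ 0} {𝔓 : Ideal R}
    [𝔓.IsPrime] {f r : R} (hf : f ^ m = u * r) : f ∈ nonGenIdeal u m hm 𝔓 ↔ r ∈ 𝔓 := by
  rw [mem_nonGenIdeal, Ideal.mem_span_singleton_mul]
  constructor
  · rintro ⟨z, hz, hzf⟩
    rw [hf] at hzf
    rwa [← mul_left_cancel₀ hu0 hzf]
  · intro hr
    exact ⟨r, hr, hf.symm⟩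

variable [IsNoetherianRing R] [IsLocalRing R]

omit [IsIntegrallyClosed R] in
/-- Dimension argument: in a local ring in which `𝔪` is the only prime containing `u` and `π`,
there is no chain `u ∈ 𝔓 < 𝔔` of primes with `π ∉ 𝔔`. -/
theorem not_lt_of_mem_of_not_mem {u π : R} (hu0 : u ≠ 0)
    (hπ : π ∈ IsLocalRing.maximalIdeal R)
    (huπ : ∀ 𝔮 : Ideal R, 𝔮.IsPrime → u ∈ 𝔮 → π ∈ 𝔮 → 𝔮 = IsLocalRing.maximalIdeal R)
    {𝔓 𝔔 : Ideal R} [h𝔓 : 𝔓.IsPrime] [h𝔔 : 𝔔.IsPrime] (hu : u ∈ 𝔓) (hπ𝔔 : π ∉ 𝔔) (hlt : 𝔓 < 𝔔) :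
    False := by
  classical
  have hbot : (⊥ : Ideal R) < 𝔓 := by
    rw [bot_lt_iff_ne_bot]
    intro h
    rw [h, Ideal.mem_bot] at hu
    exact hu0 hu
  have h𝔔𝔪 : 𝔔 < IsLocalRing.maximalIdeal R := by
    refine lt_of_le_of_ne (IsLocalRing.le_maximalIdeal h𝔔.ne_top) ?_
    intro h
    rw [h] at hπ𝔔
    exact hπ𝔔 hπ
  have hmin : IsLocalRing.maximalIdeal R ∈ (Ideal.span (({u, π} : Finset R) : Set R)).minimalPrimes := by
    refine ⟨⟨inferInstance, ?_⟩, ?_⟩
    · rw [Ideal.span_le]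
      intro x hx
      simp only [Finset.coe_insert, Finset.coe_singleton, Set.mem_insert_iff,
        Set.mem_singleton_iff] at hx
      rcases hx with rfl | rfl
      · exact (IsLocalRing.le_maximalIdeal h𝔓.ne_top) hu
      · exact hπ
    · rintro 𝔮 ⟨h𝔮, h𝔮le⟩ _
      have h1 : u ∈ 𝔮 := h𝔮le (Ideal.subset_span (by simp))
      have h2 : π ∈ 𝔮 := h𝔮le (Ideal.subset_span (by simp))
      exact (huπ 𝔮 h𝔮 h1 h2).ge
  have hle : (IsLocalRing.maximalIdeal R).height ≤ (({u, π} : Finset R)).card :=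
    Ideal.height_le_card_of_mem_minimalPrimes_span_finset hmin
  have hcard : ((({u, π} : Finset R)).card : ℕ∞) ≤ 2 := by
    exact_mod_cast Finset.card_le_two
  have h1 : (⊥ : Ideal R).height + 1 ≤ 𝔓.height :=
    Ideal.height_add_one_le_of_lt_of_isPrime hbot
  have h2 : 𝔓.height + 1 ≤ 𝔔.height := Ideal.height_add_one_le_of_lt_of_isPrime hlt
  have h3 : 𝔔.height + 1 ≤ (IsLocalRing.maximalIdeal R).height :=
    Ideal.height_add_one_le_of_lt_of_isPrime h𝔔𝔪
  have h4 : (3 : ℕ∞) ≤ (IsLocalRing.maximalIdeal R).height := by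
    calc (3 : ℕ∞) = 0 + 1 + 1 + 1 := by norm_num
      _ ≤ (⊥ : Ideal R).height + 1 + 1 + 1 := by gcongr; exact zero_le
      _ ≤ 𝔓.height + 1 + 1 := by gcongr
      _ ≤ 𝔔.height + 1 := by gcongr
      _ ≤ _ := h3
  have h5 : (3 : ℕ∞) ≤ 2 := h4.trans (hle.trans hcard)
  exact absurd h5 (by norm_num)

/-- Existence of a simultaneous local generator. -/
theorem exists_generator {u π : R} {m : ℕ} (hm : m ≠ 0) (hu0 : u ≠ 0)
    (hπ : π ∈ IsLocalRing.maximalIdeal R)
    (huπ : ∀ 𝔮 : Ideal R, 𝔮.IsPrime → u ∈ 𝔮 → π ∈ 𝔮 → 𝔮 = IsLocalRing.maximalIdeal R)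
    (H1 : ∀ 𝔓 : Ideal R, 𝔓.IsPrime → u ∈ 𝔓 → π ∉ 𝔓 → ∃ f r : R, r ∉ 𝔓 ∧ f ^ m = u * r) :
    ∃ t r : R, ∃ k : ℕ, t ^ m = u * r ∧ π ^ k ∈ Ideal.span {u, r} := by
  classical
  have hfinite : (Ideal.span {u}).minimalPrimes.Finite :=
    Ideal.finite_minimalPrimes_of_isNoetherianRing R _
  set s : Finset (Ideal R) := hfinite.toFinset.filter (fun 𝔓 => π ∉ 𝔓) with hs
  have hs_mem : ∀ 𝔓, 𝔓 ∈ s ↔ 𝔓 ∈ (Ideal.span {u}).minimalPrimes ∧ π ∉ 𝔓 := by
    intro 𝔓
    rw [hs, Finset.mem_filter, Set.Finite.mem_toFinset]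
  have hs_prime : ∀ 𝔓 ∈ s, 𝔓.IsPrime := fun 𝔓 h𝔓 => ((hs_mem 𝔓).mp h𝔓).1.1.1
  have hs_u : ∀ 𝔓 ∈ s, u ∈ 𝔓 := fun 𝔓 h𝔓 =>
    ((hs_mem 𝔓).mp h𝔓).1.1.2 (Ideal.mem_span_singleton_self u)
  -- local generators
  have hex : ∀ 𝔓 : Ideal R, ∃ f r : R, 𝔓 ∈ s → (r ∉ 𝔓 ∧ f ^ m = u * r) := by
    intro 𝔓
    by_cases h𝔓 : 𝔓 ∈ s
    · obtain ⟨f, r, hr, hf⟩ := H1 𝔓 (hs_prime 𝔓 h𝔓) (hs_u 𝔓 h𝔓) ((hs_mem 𝔓).mp h𝔓).2
      exact ⟨f, r, fun _ => ⟨hr, hf⟩⟩
    · exact ⟨0, 0, fun h => absurd h h𝔓⟩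
  choose f r hfr using hex
  -- separating elements
  have hexe : ∀ 𝔓 : Ideal R, ∃ e : R, 𝔓 ∈ s → (e ∉ 𝔓 ∧ ∀ 𝔔 ∈ s, 𝔔 ≠ 𝔓 → e ∈ 𝔔) := by
    intro 𝔓
    by_cases h𝔓 : 𝔓 ∈ s
    · have := hs_prime 𝔓 h𝔓
      have hnle : ¬ (∏ 𝔔 ∈ s.erase 𝔓, 𝔔) ≤ 𝔓 := by
        intro hle
        obtain ⟨𝔔, h𝔔, h𝔔le⟩ := (Ideal.IsPrime.prod_le (hs_prime 𝔓 h𝔓)).mp hle
        have h𝔔s : 𝔔 ∈ s := Finset.mem_of_mem_erase h𝔔
        have h𝔔ne : 𝔔 ≠ 𝔓 := Finset.ne_of_mem_erase h𝔔
        have hmin𝔓 := ((hs_mem 𝔓).mp h𝔓).1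
        have hmin𝔔 := ((hs_mem 𝔔).mp h𝔔s).1
        exact h𝔔ne (le_antisymm h𝔔le (hmin𝔓.2 hmin𝔔.1 h𝔔le))
      obtain ⟨e, he, he'⟩ := SetLike.not_le_iff_exists.mp hnle
      refine ⟨e, fun _ => ⟨he', fun 𝔔 h𝔔 hne => ?_⟩⟩
      have : (∏ 𝔔' ∈ s.erase 𝔓, 𝔔') ≤ 𝔔 :=
        Ideal.prod_le_inf.trans (Finset.inf_le (Finset.mem_erase.mpr ⟨hne, h𝔔⟩))
      exact this he
    · exact ⟨0, fun h => absurd h h𝔓⟩
  choose e he using hexe
  set t : R := ∑ 𝔓 ∈ s, e 𝔓 * f 𝔓 with ht
  -- `t ∈ I_1`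
  have hterm : ∀ 𝔓 ∈ s, e 𝔓 * f 𝔓 ∈ rootIdeal u m hm 1 := by
    intro 𝔓 h𝔓
    refine Ideal.mul_mem_left _ _ ?_
    rw [mem_rootIdeal, pow_one, (hfr 𝔓 h𝔓).2]
    exact Dvd.intro _ rfl
  have htI : t ∈ rootIdeal u m hm 1 := Ideal.sum_mem _ hterm
  obtain ⟨r₀, hr₀⟩ : u ∣ t ^ m := by
    have := htI
    rwa [mem_rootIdeal, pow_one] at this
  -- `r₀ ∉ 𝔓` for `𝔓 ∈ s`
  have hr₀s : ∀ 𝔓 ∈ s, r₀ ∉ 𝔓 := by
    intro 𝔓 h𝔓 hr𝔓
    have := hs_prime 𝔓 h𝔓
    have h1 : t ∈ nonGenIdeal u m hm 𝔓 := (mem_nonGenIdeal_iff_of_eq hu0 hr₀).mpr hr𝔓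
    have h2 : ∀ 𝔔 ∈ s.erase 𝔓, e 𝔔 * f 𝔔 ∈ nonGenIdeal u m hm 𝔓 := by
      intro 𝔔 h𝔔
      have h𝔔s : 𝔔 ∈ s := Finset.mem_of_mem_erase h𝔔
      have h𝔔ne : 𝔔 ≠ 𝔓 := Finset.ne_of_mem_erase h𝔔
      have hmem : e 𝔔 ∈ 𝔓 := (he 𝔔 h𝔔s).2 𝔓 h𝔓 (Ne.symm h𝔔ne)
      have hpow : (e 𝔔 * f 𝔔) ^ m = u * (e 𝔔 ^ m * r 𝔔) := by
        rw [mul_pow, (hfr 𝔔 h𝔔s).2]; ring
      exact (mem_nonGenIdeal_iff_of_eq hu0 hpow).mpr
        (Ideal.mul_mem_right _ _ (Ideal.pow_mem_of_mem _ hmem m (Nat.pos_of_ne_zero hm)))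
    have h3 : e 𝔓 * f 𝔓 ∈ nonGenIdeal u m hm 𝔓 := by
      have hsum : t = e 𝔓 * f 𝔓 + ∑ 𝔔 ∈ s.erase 𝔓, e 𝔔 * f 𝔔 := by
        rw [ht, ← Finset.add_sum_erase s _ h𝔓]
      have : e 𝔓 * f 𝔓 = t - ∑ 𝔔 ∈ s.erase 𝔓, e 𝔔 * f 𝔔 := by rw [hsum]; ring
      rw [this]
      exact Ideal.sub_mem _ h1 (Ideal.sum_mem _ h2)
    have hpow : (e 𝔓 * f 𝔓) ^ m = u * (e 𝔓 ^ m * r 𝔓) := by
      rw [mul_pow, (hfr 𝔓 h𝔓).2]; ring
    have h4 : e 𝔓 ^ m * r 𝔓 ∈ 𝔓 := (mem_nonGenIdeal_iff_of_eq hu0 hpow).mp h3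
    rcases Ideal.IsPrime.mem_or_mem (hs_prime 𝔓 h𝔓) h4 with h | h
    · exact (he 𝔓 h𝔓).1 (Ideal.IsPrime.mem_of_pow_mem (hs_prime 𝔓 h𝔓) m h)
    · exact (hfr 𝔓 h𝔓).1 h
  -- `π ∈ √(u, r₀)`
  have hrad : π ∈ (Ideal.span {u, r₀}).radical := by
    rw [Ideal.radical_eq_sInf, Ideal.mem_sInf]
    rintro 𝔔 ⟨h𝔔le, h𝔔⟩
    by_contra hπ𝔔
    have hu𝔔 : u ∈ 𝔔 := h𝔔le (Ideal.subset_span (by simp))
    have hr𝔔 : r₀ ∈ 𝔔 := h𝔔le (Ideal.subset_span (by simp))
    have hle : Ideal.span {u} ≤ 𝔔 := by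
      rw [Ideal.span_le, Set.singleton_subset_iff]
      exact hu𝔔
    obtain ⟨𝔓, h𝔓min, h𝔓le⟩ := Ideal.exists_minimalPrimes_le hle
    have hπ𝔓 : π ∉ 𝔓 := fun h => hπ𝔔 (h𝔓le h)
    have h𝔓s : 𝔓 ∈ s := (hs_mem 𝔓).mpr ⟨h𝔓min, hπ𝔓⟩
    have := hs_prime 𝔓 h𝔓s
    have hne : 𝔓 ≠ 𝔔 := by
      intro h
      rw [← h] at hr𝔔
      exact hr₀s 𝔓 h𝔓s hr𝔔
    exact not_lt_of_mem_of_not_mem hu0 hπ huπ (hs_u 𝔓 h𝔓s) hπ𝔔 (lt_of_le_of_ne h𝔓le hne)
  obtain ⟨k, hk⟩ := hrad
  exact ⟨t, r₀, k, hr₀, hk⟩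

end Fermat.Agent.A2.H609

end
-- ===== PACK-END A2/H609/Generator.lean

-- ===== PACK-BEGIN A2/T1/H669/T1Core.lean
section


/-!
# WALL A2, piece T1, core (helper669): from finite levels to `F̄`

`kummerTarget_of_levels` : the Kummer form of the wall (`Spec.KummerTarget`, unfolded) follows from
the corresponding statement at ONE suitable level `E ⊆ ℚ̄` for each finite set of constants:

  for every finite `S ⊆ ℚ̄` there are an intermediate field `E ⊇ S`, an automorphism `τE` of `E`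
  which is the restriction of `τ`, such that for every `y ∈ F_E^×` with `DivisibleDiv E m y`
  (unfolded: `y = u · h^m` at every discrete valuation subring of `F_E` containing `E`) the
  element `(τE - 1)² y` is an `m`-th power in `F_E`.

This file imports only files which are on main (Prelude, `S18.H602`, `S18.H845`); the
instantiation from ALG / MOD / IF of `origin/helper13:Fermat/Agent/A2/Skel.lean` is `T1.lean`.
-/

set_option autoImplicit false
set_option synthInstance.maxHeartbeats 400000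
set_option maxHeartbeats 1600000

noncomputable section

namespace Fermat.Agent.A2.T1.H669

open ModularCurve AlgebraicCurve

/-- A finite-dimensional intermediate field is contained in every intermediate field containing
a suitable finite set. -/
theorem exists_finset_le (E₀ : IntermediateField ℚ _root_.Fermat.Agent.A2.T1.H669.Qb) [FiniteDimensional ℚ E₀] :
    ∃ S : Finset _root_.Fermat.Agent.A2.T1.H669.Qb, ∀ E : IntermediateField ℚ _root_.Fermat.Agent.A2.T1.H669.Qb, (∀ s ∈ S, s ∈ E) → E₀ ≤ E := by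
  classical
  let b := Module.finBasis ℚ E₀
  refine ⟨Finset.univ.image fun i => ((b i : E₀) : _root_.Fermat.Agent.A2.T1.H669.Qb), fun E hE x hx => ?_⟩
  have hx' : (⟨x, hx⟩ : E₀) = ∑ i, (b.repr ⟨x, hx⟩ i) • b i := (b.sum_repr ⟨x, hx⟩).symm
  have hcoe : x = ((∑ i, (b.repr ⟨x, hx⟩ i) • b i : E₀) : _root_.Fermat.Agent.A2.T1.H669.Qb) :=
    congrArg (fun z : E₀ => (z : _root_.Fermat.Agent.A2.T1.H669.Qb)) hx'
  rw [hcoe, IntermediateField.coe_sum]
  refine sum_mem fun i _ => ?_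
  have hi : ((b i : E₀) : _root_.Fermat.Agent.A2.T1.H669.Qb) ∈ E := hE _ (Finset.mem_image.2 ⟨i, Finset.mem_univ i, rfl⟩)
  rw [IntermediateField.coe_smul, Algebra.smul_def]
  exact mul_mem (E.algebraMap_mem _) hi

/-- Every element of `F̄` comes from `F_E` for every intermediate field `E` containing a suitable
finite set of constants. -/
theorem exists_finset_descent (F₀ : IntermediateField ℚ (LaurentSeries ℚ))
    (f : ↥(laurentBaseChange _root_.Fermat.Agent.A2.T1.H669.Qb F₀)) :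
    ∃ S : Finset _root_.Fermat.Agent.A2.T1.H669.Qb, ∀ E : IntermediateField ℚ _root_.Fermat.Agent.A2.T1.H669.Qb, (∀ s ∈ S, s ∈ E) →
      ∃ y : ↥(laurentBaseChange E F₀), iota E F₀ y = f := by
  obtain ⟨E₀, hE₀fin, y₀, hy₀mem, hy₀⟩ :=
    Fermat.Agent.S18.H602.exists_finite_descent (F₀ := F₀) f.2
  haveI := hE₀fin
  obtain ⟨S, hS⟩ := exists_finset_le E₀
  refine ⟨S, fun E hSE => ?_⟩
  obtain ⟨y₁, hy₁mem, hy₁⟩ :=
    Fermat.Agent.S18.H602.DescendsTo.mono (hS E hSE)
      (⟨y₀, hy₀mem, hy₀⟩ : Fermat.Agent.S18.H602.DescendsTo F₀ E₀ (f : LaurentSeries _root_.Fermat.Agent.A2.T1.H669.Qb))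
  exact ⟨⟨y₁, hy₁mem⟩, Subtype.ext hy₁⟩

/-- **T1, core.**  One `τ`: the Kummer statement on `F̄` from the Kummer statement at suitable
finite levels. -/
theorem kummer_of_levels (F₀ : IntermediateField ℚ (LaurentSeries ℚ)) (m : ℕ)
    (τ : _root_.Fermat.Agent.A2.T1.H669.Qb ≃ₐ[ℚ] _root_.Fermat.Agent.A2.T1.H669.Qb)
    (hlevel : ∀ S : Finset _root_.Fermat.Agent.A2.T1.H669.Qb, ∃ E : IntermediateField ℚ _root_.Fermat.Agent.A2.T1.H669.Qb, (∀ s ∈ S, s ∈ E) ∧
      ∃ τE : E ≃ₐ[ℚ] E, (∀ e : E, ((τE e : E) : _root_.Fermat.Agent.A2.T1.H669.Qb) = τ (e : _root_.Fermat.Agent.A2.T1.H669.Qb)) ∧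
        ∀ y : ↥(laurentBaseChange E F₀), y ≠ 0 →
          (∀ V : ValuationSubring ↥(laurentBaseChange E F₀), IsDiscreteValuationRing V →
            (∀ e : E, algebraMap E ↥(laurentBaseChange E F₀) e ∈ V) →
            ∃ h u : ↥(laurentBaseChange E F₀), h ≠ 0 ∧ u ∈ V ∧ u⁻¹ ∈ V ∧ y = u * h ^ m) →
          ∃ h : ↥(laurentBaseChange E F₀), h ≠ 0 ∧
            arithmeticRingAut F₀ τE (arithmeticRingAut F₀ τE y) * y =
              h ^ m * (arithmeticRingAut F₀ τE y) ^ 2)
    (f : ↥(laurentBaseChange _root_.Fermat.Agent.A2.T1.H669.Qb F₀)) (hf : f ≠ 0)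
    (hdiv : ∀ v : Place _root_.Fermat.Agent.A2.T1.H669.Qb ↥(laurentBaseChange _root_.Fermat.Agent.A2.T1.H669.Qb F₀), (m : ℤ) ∣ v.ord f) :
    ∃ h : ↥(laurentBaseChange _root_.Fermat.Agent.A2.T1.H669.Qb F₀), h ≠ 0 ∧
      arithmeticRingAut F₀ τ (arithmeticRingAut F₀ τ f) * f =
        h ^ m * (arithmeticRingAut F₀ τ f) ^ 2 := by
  obtain ⟨S, hS⟩ := exists_finset_descent F₀ f
  obtain ⟨E, hSE, τE, hτE, hE⟩ := hlevel S
  obtain ⟨y, hιy⟩ := hS E hSE
  have hy0 : y ≠ 0 := by
    rintro h0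
    apply hf
    rw [← hιy, h0, map_zero]
  obtain ⟨h, hh0, hh⟩ := hE y hy0
    (divisibleDiv_of_ord E F₀ m y hy0 (fun v => by rw [hιy]; exact hdiv v))
  refine ⟨iota E F₀ h, iota_ne_zero E _ hh0, ?_⟩
  have := congrArg (iota E F₀) hh
  rw [map_mul, map_mul, map_pow, map_pow,
    iota_arithmeticRingAut E F₀ τ τE hτE,
    iota_arithmeticRingAut E F₀ τ τE hτE, hιy] at this
  exact this

end Fermat.Agent.A2.T1.H669

end
end
-- ===== PACK-END A2/T1/H669/T1Core.lean

-- ===== PACK-BEGIN Ribet/H883/SplitW.lean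
section




/-!
# RIBET / S2 / W-ALGP, leaf SHEETS-W: the abstract wild Kummer splitting   (helper883)

Mathlib + `A2/H373/Split*` only.  Wild analogue of `A2.H373.KummerSplit` for a PRIME exponent `p`
which need NOT be a unit of `V`.  Setting (`KummerSplitW V w p ζ y g c`):

* `F ⊆ L` fields, `V` a discrete valuation subring of `F` with uniformiser `w`;
* `p` prime, `ζ ∈ F` a primitive `p`-th root of unity, `λ = ζ - 1`;
* `L = F[y_i]`, `y_i ^ p = g_i ∈ Vˣ`, and `g_i ≡ c_i ^ p mod λ^p 𝔪_V`.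

Results, for every valuation subring `W` of `L` with `W ∩ F = V`:
`exists_type`, `eq_of_type`, `finite`, `residue`, `residue_pow`, `val_le_w`, `unramified`,
`free`, `triv` (as in the tame case) and `trans` (for `L / F` finite Galois any two `W` over `V`
are conjugate).
-/

set_option autoImplicit false
set_option linter.style.haveILetI false

namespace Fermat.Agent.Ribet.H883

open Fermat.Agent.A2.H373

section Roots

variable {K : Type*} [Field K] {Γ₀ : Type*} [LinearOrderedCommGroupWithZero Γ₀]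
  (v : Valuation K Γ₀)

theorem val_root_eq_one {n : ℕ} (hn : n ≠ 0) {ξ : K} (hξ : ξ ^ n = 1) : v ξ = 1 := by
  have h1 : v (ξ ^ n) = 1 := by rw [hξ, map_one]
  rw [map_pow] at h1
  exact (pow_eq_one_iff_of_nonneg zero_le hn).1 h1

theorem val_geom_sum_le_one {n : ℕ} (hn : n ≠ 0) {ξ : K} (hξ : ξ ^ n = 1) (j : ℕ) :
    v (∑ k ∈ Finset.range j, ξ ^ k) ≤ 1 := by
  refine Valuation.map_sum_le _ fun k _ => ?_
  rw [map_pow, val_root_eq_one v hn hξ, one_pow]

/-- `v (ζ^j - 1) = v (ζ - 1)` for a primitive `p`-th root of unity and `p ∤ j`. -/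
theorem val_pow_sub_one_eq {p : ℕ} (hp : p.Prime) {ζ : K} (hζ : IsPrimitiveRoot ζ p) {j : ℕ}
    (hj : ¬ p ∣ j) : v (ζ ^ j - 1) = v (ζ - 1) := by
  have hp0 : p ≠ 0 := hp.ne_zero
  refine le_antisymm ?_ ?_
  · rw [← mul_geom_sum, map_mul]
    calc v (ζ - 1) * v (∑ i ∈ Finset.range j, ζ ^ i) ≤ v (ζ - 1) * 1 :=
          mul_le_mul' le_rfl (val_geom_sum_le_one v hp0 hζ.pow_eq_one j)
      _ = v (ζ - 1) := mul_one _
  · have hcop : Nat.Coprime j p := ((Nat.Prime.coprime_iff_not_dvd hp).2 hj).symm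
    obtain ⟨m, -, hm⟩ := Nat.exists_mul_mod_eq_one_of_coprime hcop hp.one_lt
    have e : ζ - 1 = (ζ ^ j - 1) * ∑ i ∈ Finset.range m, (ζ ^ j) ^ i := by
      rw [mul_geom_sum, ← pow_mul, ← pow_mod_orderOf, ← hζ.eq_orderOf, hm, pow_one]
    have hζj : (ζ ^ j) ^ p = 1 := by rw [← pow_mul, mul_comm, pow_mul, hζ.pow_eq_one, one_pow]
    rw [e, map_mul]
    calc v (ζ ^ j - 1) * v (∑ i ∈ Finset.range m, (ζ ^ j) ^ i) ≤ v (ζ ^ j - 1) * 1 :=
          mul_le_mul' le_rfl (val_geom_sum_le_one v hp0 hζj m)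
      _ = v (ζ ^ j - 1) := mul_one _

theorem val_sub_one_ne_zero {p : ℕ} (hp : p.Prime) {ζ : K} (hζ : IsPrimitiveRoot ζ p) :
    v (ζ - 1) ≠ 0 := by
  rw [Valuation.ne_zero_iff]
  exact sub_ne_zero.2 (hζ.ne_one hp.one_lt)

/-- the geometric sums `e_j = (ζ^j - 1)/(ζ - 1)` are units for `p ∤ j` -/
theorem val_geom_sum_eq_one {p : ℕ} (hp : p.Prime) {ζ : K} (hζ : IsPrimitiveRoot ζ p) {j : ℕ}
    (hj : ¬ p ∣ j) : v (∑ k ∈ Finset.range j, ζ ^ k) = 1 := by
  have h := val_pow_sub_one_eq v hp hζ hj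
  rw [← mul_geom_sum, map_mul] at h
  have h0 := val_sub_one_ne_zero v hp hζ
  exact mul_left_cancel₀ h0 (h.trans (mul_one _).symm)

theorem val_sub_one_le_one {p : ℕ} (hp : p.Prime) {ζ : K} (hζ : IsPrimitiveRoot ζ p) :
    v (ζ - 1) ≤ 1 := by
  refine (Valuation.map_sub _ _ _).trans ?_
  rw [val_root_eq_one v hp.ne_zero hζ.pow_eq_one, map_one, max_self]

/-- a `p`-th root of unity `≡ 1 mod (ζ - 1) 𝔪` is `1` -/
theorem eq_one_of_pow_eq_one_wild {p : ℕ} (hp : p.Prime) {ζ : K} (hζ : IsPrimitiveRoot ζ p)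
    {ξ : K} (hξ : ξ ^ p = 1) (hξ1 : v (ξ - 1) < v (ζ - 1)) : ξ = 1 := by
  haveI : NeZero p := ⟨hp.ne_zero⟩
  obtain ⟨a, ha, rfl⟩ := hζ.eq_pow_of_pow_eq_one hξ
  by_cases hpa : p ∣ a
  · obtain ⟨b, rfl⟩ := hpa
    rw [pow_mul, hζ.pow_eq_one, one_pow]
  · rw [val_pow_sub_one_eq v hp hζ hpa] at hξ1
    exact absurd hξ1 (lt_irrefl _)

/-- `∏_{j < p} (u - ζ^j) = u^p - 1` -/
theorem prod_range_sub_pow {n : ℕ} (hn : 0 < n) {ζ : K} (hζ : IsPrimitiveRoot ζ n) (u : K) :
    ∏ j ∈ Finset.range n, (u - ζ ^ j) = u ^ n - 1 := by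
  classical
  have h1 := IsPrimitiveRoot.pow_sub_pow_eq_prod_sub_mul u 1 hn hζ
  rw [one_pow] at h1
  rw [h1]
  have h2 : Polynomial.nthRootsFinset n (1 : K) = (Finset.range n).image (fun j => ζ ^ j) := by
    apply Finset.eq_of_subset_of_card_le
    · intro ξ hξ
      rw [Polynomial.mem_nthRootsFinset hn] at hξ
      haveI : NeZero n := ⟨hn.ne'⟩
      obtain ⟨a, ha, rfl⟩ := hζ.eq_pow_of_pow_eq_one hξ
      exact Finset.mem_image.2 ⟨a, Finset.mem_range.2 ha, rfl⟩
    · rw [hζ.card_nthRootsFinset]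
      exact Finset.card_image_le.trans (by rw [Finset.card_range])
  rw [h2, Finset.prod_image]
  · exact Finset.prod_congr rfl fun j _ => by rw [mul_one]
  · intro i hi j hj hij
    exact hζ.pow_inj (Finset.mem_range.1 hi) (Finset.mem_range.1 hj) hij

end Roots

section Normalized

variable {F L : Type*} [Field F] [Field L] [Algebra F L]

local notation "ι" => algebraMap F L

variable {V : ValuationSubring F} {w : F} {𝒲 : Set (ValuationSubring L)}

theorem approxAt_prod (h𝒲 : ∀ W ∈ 𝒲, Over V W) (hw : IsUnif V w) {n : ℕ} {κ : Type*}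
    (s : Finset κ) (f : κ → L) (hf : ∀ i ∈ s, ApproxAt V w 𝒲 n (f i)) :
    ApproxAt V w 𝒲 n (∏ i ∈ s, f i) := by
  classical
  induction s using Finset.induction_on with
  | empty => rw [Finset.prod_empty]; exact approx_one n
  | insert i s hi ih =>
    rw [Finset.prod_insert hi]
    exact ApproxAt.mul h𝒲 hw (hf i (Finset.mem_insert_self i s))
      (ih fun j hj => hf j (Finset.mem_insert_of_mem hj))

/-- comparison of valuations of elements of `F` in `V` and in `W` over `V` -/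
theorem Over.val_lt_val_iff {W : ValuationSubring L} (h : Over V W) (a : F) {b : F}
    (hb : b ≠ 0) : W.valuation (ι a) < W.valuation (ι b) ↔ V.valuation a < V.valuation b := by
  have hW0 : 0 < W.valuation (ι b) := zero_lt_iff.2 (h.val_ne_zero hb)
  have hV0 : 0 < V.valuation b := zero_lt_iff.2 ((Valuation.ne_zero_iff _).2 hb)
  have e1 : W.valuation (ι a) < W.valuation (ι b) ↔ W.valuation (ι (a * b⁻¹)) < 1 := by
    rw [map_mul, map_mul, map_inv₀, map_inv₀, mul_inv_lt_iff₀ hW0, one_mul]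
  have e2 : V.valuation a < V.valuation b ↔ V.valuation (a * b⁻¹) < 1 := by
    rw [map_mul, map_inv₀, mul_inv_lt_iff₀ hV0, one_mul]
  rw [e1, e2, h.val_lt_one_iff]

/-- **A wildly normalised Kummer generator is approximable.** -/
theorem approx_of_pow_eq_wild (h𝒲 : ∀ W ∈ 𝒲, Over V W) (hw : IsUnif V w) (hne : 𝒲.Nonempty)
    {p : ℕ} (hp : p.Prime) {ζ : F} (hζ : IsPrimitiveRoot ζ p) {y : L} {h : F}
    (hy : y ^ p = ι h)
    (hy1 : ∀ W ∈ 𝒲, W.valuation (y - 1) < W.valuation (ι (ζ - 1))) : Approx V w 𝒲 y := by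
  classical
  obtain ⟨W₀, hW₀⟩ := hne
  have hζL : IsPrimitiveRoot (ι ζ) p := hζ.map_of_injective (algebraMap F L).injective
  have hlam0 : ζ - 1 ≠ 0 := sub_ne_zero.2 (hζ.ne_one hp.one_lt)
  have hιlam0 : ι (ζ - 1) ≠ 0 := (map_ne_zero _).2 hlam0
  have hlamV : ζ - 1 ∈ V := by
    rw [← ValuationSubring.valuation_le_one_iff]
    exact val_sub_one_le_one _ hp hζ
  -- the constants `e j`
  have he_mem : ∀ j : ℕ, (∑ k ∈ Finset.range j, ζ ^ k) ∈ V := fun j => by
    rw [← ValuationSubring.valuation_le_one_iff]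
    exact val_geom_sum_le_one _ hp.ne_zero hζ.pow_eq_one j
  have he_unit : ∀ W ∈ 𝒲, ∀ j ∈ (Finset.range p).erase 0,
      W.valuation (ι (∑ k ∈ Finset.range j, ζ ^ k)) = 1 := by
    intro W _ j hj
    have hj' := Finset.mem_erase.1 hj
    have hpj : ¬ p ∣ j := fun hd =>
      hj'.1 (Nat.eq_zero_of_dvd_of_lt hd (Finset.mem_range.1 hj'.2))
    have e : ι (∑ k ∈ Finset.range j, ζ ^ k) = ∑ k ∈ Finset.range j, (ι ζ) ^ k := by
      simp only [map_sum, map_pow]
    rw [e]
    exact val_geom_sum_eq_one _ hp hζL hpj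
  set θ : L := (y - 1) * (ι (ζ - 1))⁻¹ with hθ
  have hθlt : ∀ W ∈ 𝒲, W.valuation θ < 1 := by
    intro W hW
    have hpos : 0 < W.valuation (ι (ζ - 1)) :=
      zero_lt_iff.2 ((Valuation.ne_zero_iff _).2 hιlam0)
    rw [hθ, map_mul, map_inv₀, mul_inv_lt_iff₀ hpos, one_mul]
    exact hy1 W hW
  have hyθ : y = 1 + ι (ζ - 1) * θ := by
    rw [hθ]
    field_simp
    ring
  -- the unit `U`
  set U : L := ∏ j ∈ (Finset.range p).erase 0, (θ - ι (∑ k ∈ Finset.range j, ζ ^ k)) with hU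
  have hUu : ∀ W ∈ 𝒲, W.valuation U = 1 := by
    intro W hW
    rw [hU, map_prod]
    refine Finset.prod_eq_one fun j hj => ?_
    rw [Valuation.map_sub_eq_of_lt_right, he_unit W hW j hj]
    rw [he_unit W hW j hj]
    exact hθlt W hW
  have hU0 : U ≠ 0 := by
    intro h0
    have := hUu W₀ hW₀
    rw [h0, map_zero] at this
    exact zero_ne_one this
  -- the identity `h - 1 = λ^p θ U`
  have hfactor : ∀ j : ℕ, y - (ι ζ) ^ j = ι (ζ - 1) * (θ - ι (∑ k ∈ Finset.range j, ζ ^ k)) := by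
    intro j
    have e1 : ι (ζ - 1) * ι (∑ k ∈ Finset.range j, ζ ^ k) = (ι ζ) ^ j - 1 := by
      rw [← map_mul, mul_geom_sum, map_sub, map_pow, map_one]
    rw [mul_sub, e1]
    nth_rewrite 1 [hyθ]
    ring
  have hident : ι (h - 1) = ι (ζ - 1) ^ p * (θ * U) := by
    have h1 := prod_range_sub_pow hp.pos hζL y
    rw [hy] at h1
    have h0 : 0 ∈ Finset.range p := Finset.mem_range.2 hp.pos
    rw [map_sub, map_one, ← h1, Finset.prod_congr rfl fun j _ => hfactor j,
      Finset.prod_mul_distrib, Finset.prod_const, Finset.card_range,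
      ← Finset.mul_prod_erase _ _ h0, Finset.range_zero, Finset.sum_empty, map_zero, sub_zero]
  -- `z = (h - 1) / λ^p` is a nonunit of `V`
  set z : F := (h - 1) * ((ζ - 1) ^ p)⁻¹ with hz
  have hιz : ι z = θ * U := by
    rw [hz, map_mul, hident, map_inv₀, map_pow]
    field_simp
  have hzlt : W₀.valuation (ι z) < 1 := by
    rw [hιz, map_mul, hUu W₀ hW₀, mul_one]
    exact hθlt W₀ hW₀
  have hzV : z ∈ V := ((h𝒲 W₀ hW₀).val_le_one_iff _).1 hzlt.le
  have hz' : z * w⁻¹ ∈ V := by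
    refine hw.mul_inv_mem hzV ?_
    by_cases h0 : z = 0
    · exact Or.inl h0
    · exact Or.inr fun hinv => absurd ((h𝒲 W₀ hW₀).val_eq_one h0 hzV hinv) hzlt.ne
  set z' : F := z * w⁻¹ with hz'def
  have hwz : ι w * ι z' = ι z := by
    rw [← map_mul, hz'def, mul_comm w, mul_assoc, inv_mul_cancel₀ hw.ne_zero, mul_one]
  have hθeq : θ = ι w * (ι z' * U⁻¹) := by
    rw [← mul_assoc, hwz, hιz, mul_assoc, mul_inv_cancel₀ hU0, mul_one]
  -- induction
  have key : ∀ n : ℕ, ApproxAt V w 𝒲 (n + 1) θ := by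
    intro n
    induction n with
    | zero =>
      have h0 : ApproxAt V w 𝒲 0 (ι z' * U⁻¹) := by
        refine ⟨0, V.zero_mem, fun W hW => ?_⟩
        rw [map_zero, sub_zero, pow_zero, map_mul, map_inv₀, hUu W hW, inv_one, mul_one]
        exact (h𝒲 W hW).val_le_one hz'
      have h1 := ApproxAt.w_mul hw h0
      rw [hθeq]
      exact h1
    | succ n ih =>
      have hUn : ApproxAt V w 𝒲 (n + 1) U :=
        approxAt_prod h𝒲 hw _ _ fun j _ =>
          ApproxAt.add ih (ApproxAt.neg (approxAt_algebraMap (he_mem j) _)) |> fun h => by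
            rwa [← sub_eq_add_neg] at h
      have hUinv : ApproxAt V w 𝒲 (n + 1) U⁻¹ :=
        ApproxAt.inv h𝒲 hw (by omega) hUn ⟨W₀, hW₀⟩ hUu
      have h2 : ApproxAt V w 𝒲 (n + 1) (ι z' * U⁻¹) :=
        ApproxAt.mul h𝒲 hw (approxAt_algebraMap hz' _) hUinv
      have h3 := ApproxAt.w_mul hw h2
      rw [hθeq]
      exact h3
  intro n
  have h1 : ApproxAt V w 𝒲 n θ := ApproxAt.mono h𝒲 hw (Nat.le_succ n) (key n)
  rw [hyθ]
  exact ApproxAt.add (approx_one _) (ApproxAt.mul h𝒲 hw (approxAt_algebraMap hlamV _) h1)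

variable {p : ℕ} {ζ : F} {κ : Type*}

/-- **Uniqueness.**  Two valuation subrings of `L = F[y_i]` over `V` which are both wildly
normalised for the Kummer generators `y_i` are equal. -/
theorem eq_of_normalized_wild (hw : IsUnif V w) (hp : p.Prime) (hζ : IsPrimitiveRoot ζ p)
    (y : κ → L) (hpow : ∀ i, ∃ h : F, y i ^ p = ι h)
    (hgen : Algebra.adjoin F (Set.range y) = ⊤)
    {W₁ W₂ : ValuationSubring L} (h₁ : Over V W₁) (h₂ : Over V W₂)
    (hy₁ : ∀ i, W₁.valuation (y i - 1) < W₁.valuation (ι (ζ - 1)))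
    (hy₂ : ∀ i, W₂.valuation (y i - 1) < W₂.valuation (ι (ζ - 1))) :
    W₁ = W₂ := by
  set 𝒲 : Set (ValuationSubring L) := {W₁, W₂} with h𝒲def
  have hm₁ : W₁ ∈ 𝒲 := Set.mem_insert _ _
  have hm₂ : W₂ ∈ 𝒲 := Set.mem_insert_of_mem _ (Set.mem_singleton _)
  have h𝒲 : ∀ W ∈ 𝒲, Over V W := by
    intro W hW
    rcases Set.mem_insert_iff.1 hW with rfl | hW
    · exact h₁
    · rw [Set.mem_singleton_iff.1 hW]; exact h₂
  have hy : ∀ i, Approx V w 𝒲 (y i) := by
    intro i
    obtain ⟨h, hh⟩ := hpow i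
    refine approx_of_pow_eq_wild h𝒲 hw ⟨W₁, hm₁⟩ hp hζ hh ?_
    intro W hW
    rcases Set.mem_insert_iff.1 hW with rfl | hW
    · exact hy₁ i
    · rw [Set.mem_singleton_iff.1 hW]; exact hy₂ i
  ext b
  rw [mem_iff_approx h𝒲 hw y hy hgen hm₁ b, mem_iff_approx h𝒲 hw y hy hgen hm₂ b]

/-- every element of a wildly normalised `W` is approximable by `V` -/
theorem approx_of_normalized_wild (hw : IsUnif V w) (hp : p.Prime) (hζ : IsPrimitiveRoot ζ p)
    (y : κ → L) (hpow : ∀ i, ∃ h : F, y i ^ p = ι h)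
    (hgen : Algebra.adjoin F (Set.range y) = ⊤)
    {W : ValuationSubring L} (hW : Over V W)
    (hy : ∀ i, W.valuation (y i - 1) < W.valuation (ι (ζ - 1)))
    {b : L} (hb : b ∈ W) : Approx V w {W} b := by
  have h𝒲 : ∀ W' ∈ ({W} : Set (ValuationSubring L)), Over V W' := by
    intro W' hW'
    rw [Set.mem_singleton_iff.1 hW']; exact hW
  have hyA : ∀ i, Approx V w {W} (y i) := by
    intro i
    obtain ⟨h, hh⟩ := hpow i
    refine approx_of_pow_eq_wild h𝒲 hw ⟨W, Set.mem_singleton _⟩ hp hζ hh ?_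
    intro W' hW'
    rw [Set.mem_singleton_iff.1 hW']; exact hy i
  exact (mem_iff_approx h𝒲 hw y hyA hgen (Set.mem_singleton _) b).1 hb

/-- **Residue degree one** (strong form): `W = V + wⁿ W` for all `n`. -/
theorem exists_sub_val_le_of_normalized_wild (hw : IsUnif V w) (hp : p.Prime)
    (hζ : IsPrimitiveRoot ζ p) (y : κ → L) (hpow : ∀ i, ∃ h : F, y i ^ p = ι h)
    (hgen : Algebra.adjoin F (Set.range y) = ⊤)
    {W : ValuationSubring L} (hW : Over V W)
    (hy : ∀ i, W.valuation (y i - 1) < W.valuation (ι (ζ - 1)))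
    {b : L} (hb : b ∈ W) (n : ℕ) :
    ∃ a ∈ V, W.valuation (b - ι a) ≤ W.valuation (ι w) ^ n := by
  obtain ⟨a, ha, h⟩ := approx_of_normalized_wild hw hp hζ y hpow hgen hW hy hb n
  exact ⟨a, ha, h W (Set.mem_singleton _)⟩

/-- **Ramification index one**: `𝔪_W = w W`. -/
theorem val_le_w_of_normalized_wild (hw : IsUnif V w) (hp : p.Prime)
    (hζ : IsPrimitiveRoot ζ p) (y : κ → L) (hpow : ∀ i, ∃ h : F, y i ^ p = ι h)
    (hgen : Algebra.adjoin F (Set.range y) = ⊤)
    {W : ValuationSubring L} (hW : Over V W)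
    (hy : ∀ i, W.valuation (y i - 1) < W.valuation (ι (ζ - 1)))
    {b : L} (hb : W.valuation b < 1) : W.valuation b ≤ W.valuation (ι w) := by
  have hbW : b ∈ W := (ValuationSubring.valuation_le_one_iff _ _).1 hb.le
  obtain ⟨a, ha, h⟩ := exists_sub_val_le_of_normalized_wild hw hp hζ y hpow hgen hW hy hbW 1
  rw [pow_one] at h
  have ha1 : W.valuation (ι a) < 1 := by
    have e : ι a = b + -(b - ι a) := by ring
    rw [e]
    refine Valuation.map_add_lt _ hb ?_
    rw [Valuation.map_neg]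
    exact h.trans_lt (hW.val_w_lt_one hw)
  have e : b = (b - ι a) + ι a := by ring
  rw [e]
  exact Valuation.map_add_le _ h (hW.val_le_w hw ha1)

end Normalized

/-- Hypotheses of wild COVER-SPLIT. -/
structure KummerSplitW {F L : Type*} [Field F] [Field L] [Algebra F L]
    (V : ValuationSubring F) (w : F) (p : ℕ) (ζ : F) {κ : Type*}
    (y : κ → L) (g c : κ → F) : Prop where
  unif : IsUnif V w
  prime : p.Prime
  prim : IsPrimitiveRoot ζ p
  pow : ∀ i, y i ^ p = algebraMap F L (g i)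
  g_ne : ∀ i, g i ≠ 0
  g_mem : ∀ i, g i ∈ V
  g_inv : ∀ i, (g i)⁻¹ ∈ V
  c_mem : ∀ i, c i ∈ V
  cong : ∀ i, V.valuation (g i - c i ^ p) < V.valuation ((ζ - 1) ^ p)
  gen : Algebra.adjoin F (Set.range y) = ⊤

namespace KummerSplitW

variable {F L : Type*} [Field F] [Field L] [Algebra F L]

local notation "ι" => algebraMap F L

variable {V : ValuationSubring F} {w : F} {p : ℕ} {ζ : F} {κ : Type*}
  {y : κ → L} {g c : κ → F}

section Base

variable (S : KummerSplitW V w p ζ y g c)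
include S

theorem lam_ne_zero : ζ - 1 ≠ 0 := sub_ne_zero.2 (S.prim.ne_one S.prime.one_lt)

theorem val_lam_le_one : V.valuation (ζ - 1) ≤ 1 := val_sub_one_le_one _ S.prime S.prim

theorem cong_lt_one (i : κ) : V.valuation (g i - c i ^ p) < 1 := by
  refine (S.cong i).trans_le ?_
  rw [map_pow]
  exact pow_le_one₀ zero_le S.val_lam_le_one

theorem val_g (i : κ) : V.valuation (g i) = 1 := by
  have h1 : V.valuation (g i) ≤ 1 := (ValuationSubring.valuation_le_one_iff _ _).2 (S.g_mem i)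
  have h2 : V.valuation (g i)⁻¹ ≤ 1 := (ValuationSubring.valuation_le_one_iff _ _).2 (S.g_inv i)
  rw [map_inv₀] at h2
  have hpos : 0 < V.valuation (g i) := zero_lt_iff.2 ((Valuation.ne_zero_iff _).2 (S.g_ne i))
  exact le_antisymm h1 ((inv_le_one₀ hpos).1 h2)

theorem val_c (i : κ) : V.valuation (c i) = 1 := by
  have h1 : V.valuation (c i ^ p) = 1 := by
    have e : c i ^ p = g i + -(g i - c i ^ p) := by ring
    rw [e, Valuation.map_add_eq_of_lt_left, S.val_g]
    rw [Valuation.map_neg, S.val_g]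
    exact S.cong_lt_one i
  rw [map_pow] at h1
  exact (pow_eq_one_iff_of_nonneg zero_le S.prime.ne_zero).1 h1

theorem val_zeta : V.valuation ζ = 1 := val_root_eq_one _ S.prime.ne_zero S.prim.pow_eq_one

/-- the constants `d = c_i ζ^a` -/
theorem val_d (i : κ) (a : ℕ) : V.valuation (c i * ζ ^ a) = 1 := by
  rw [map_mul, map_pow, S.val_c, S.val_zeta, one_pow, one_mul]

theorem d_ne_zero (i : κ) (a : ℕ) : c i * ζ ^ a ≠ 0 := by
  intro h
  have := S.val_d i a
  rw [h, map_zero] at this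
  exact zero_ne_one this

theorem d_mem (i : κ) (a : ℕ) : c i * ζ ^ a ∈ V := by
  rw [← ValuationSubring.valuation_le_one_iff, S.val_d]

theorem d_inv_mem (i : κ) (a : ℕ) : (c i * ζ ^ a)⁻¹ ∈ V := by
  rw [← ValuationSubring.valuation_le_one_iff, map_inv₀, S.val_d, inv_one]

theorem d_pow (i : κ) (a : ℕ) : (c i * ζ ^ a) ^ p = c i ^ p := by
  rw [mul_pow, ← pow_mul, mul_comm a p, pow_mul, S.prim.pow_eq_one, one_pow, mul_one]

theorem y_ne_zero (i : κ) : y i ≠ 0 := by
  intro h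
  have := S.pow i
  rw [h, zero_pow S.prime.ne_zero] at this
  exact S.g_ne i ((map_eq_zero _).1 this.symm)

theorem ιlam_ne_zero : ι (ζ - 1) ≠ 0 := (map_ne_zero _).2 S.lam_ne_zero

theorem primL : IsPrimitiveRoot (ι ζ) p := S.prim.map_of_injective (algebraMap F L).injective

variable {W : ValuationSubring L}

theorem valW_lam_pos : 0 < W.valuation (ι (ζ - 1)) :=
  zero_lt_iff.2 ((Valuation.ne_zero_iff _).2 S.ιlam_ne_zero)

theorem valW_lam_le_one : W.valuation (ι (ζ - 1)) ≤ 1 := by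
  rw [map_sub, map_one]
  exact val_sub_one_le_one _ S.prime S.primL

variable (hW : Over V W)
include hW

theorem valW_d (i : κ) (a : ℕ) : W.valuation (ι (c i * ζ ^ a)) = 1 :=
  hW.val_eq_one (S.d_ne_zero i a) (S.d_mem i a) (S.d_inv_mem i a)

/-- **The type of `W`.** -/
theorem exists_type (i : κ) :
    ∃ a < p, W.valuation (y i - ι (c i * ζ ^ a)) < W.valuation (ι (ζ - 1)) := by
  have : NeZero p := ⟨S.prime.ne_zero⟩
  have hζL : IsPrimitiveRoot (ι ζ) p := S.primL
  have hc0 : ι (c i) ≠ 0 := by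
    have := S.d_ne_zero i 0
    rw [pow_zero, mul_one] at this
    exact (map_ne_zero _).2 this
  have hvc : W.valuation (ι (c i)) = 1 := by
    have := S.valW_d hW i 0
    rwa [pow_zero, mul_one] at this
  set u : L := y i * (ι (c i))⁻¹ with hu
  have hum : u ^ p - 1 = ι (g i - c i ^ p) * (ι (c i) ^ p)⁻¹ := by
    rw [hu, mul_pow, S.pow i, map_sub, map_pow, inv_pow]
    field_simp
  have hlt : W.valuation (u ^ p - 1) < W.valuation (ι (ζ - 1)) ^ p := by
    rw [hum, map_mul, map_inv₀, map_pow, hvc, one_pow, inv_one, mul_one, ← map_pow, ← map_pow]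
    exact (Over.val_lt_val_iff hW _ (pow_ne_zero _ S.lam_ne_zero)).2 (S.cong i)
  rw [← prod_range_sub_pow S.prime.pos hζL u, map_prod] at hlt
  have hex : ∃ j ∈ Finset.range p, W.valuation (u - (ι ζ) ^ j) < W.valuation (ι (ζ - 1)) := by
    by_contra hcon
    push Not at hcon
    have h1 := Finset.prod_le_prod' (s := Finset.range p)
      (f := fun _ => W.valuation (ι (ζ - 1))) (g := fun j => W.valuation (u - (ι ζ) ^ j)) hcon
    rw [Finset.prod_const, Finset.card_range] at h1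
    exact absurd hlt (not_lt.2 h1)
  obtain ⟨a, ha, hξlt⟩ := hex
  refine ⟨a, Finset.mem_range.1 ha, ?_⟩
  have e : y i - ι (c i * ζ ^ a) = ι (c i) * (u - ι ζ ^ a) := by
    rw [hu, map_mul, map_pow]
    field_simp
  rw [e, map_mul, hvc, one_mul]
  exact hξlt

/-- every `y_i - c_i ζ^a` is divisible by `λ` in every `W` over `V` -/
theorem val_sub_le (i : κ) (a : ℕ) :
    W.valuation (y i - ι (c i * ζ ^ a)) ≤ W.valuation (ι (ζ - 1)) := by
  obtain ⟨b, -, hb⟩ := S.exists_type hW i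
  have e : y i - ι (c i * ζ ^ a) =
      (y i - ι (c i * ζ ^ b)) + ι (c i) * ((ι ζ ^ b - 1) - (ι ζ ^ a - 1)) := by
    rw [map_mul, map_mul, map_pow, map_pow]; ring
  have hvc : W.valuation (ι (c i)) = 1 := by
    have := S.valW_d hW i 0
    rwa [pow_zero, mul_one] at this
  have hz : ∀ k : ℕ, W.valuation (ι ζ ^ k - 1) ≤ W.valuation (ι (ζ - 1)) := by
    intro k
    rw [← mul_geom_sum, map_mul, map_sub (algebraMap F L), map_one]
    calc W.valuation (ι ζ - 1) * W.valuation (∑ i ∈ Finset.range k, ι ζ ^ i)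
        ≤ W.valuation (ι ζ - 1) * 1 :=
          mul_le_mul' le_rfl (val_geom_sum_le_one _ S.prime.ne_zero S.primL.pow_eq_one k)
      _ = _ := mul_one _
  rw [e]
  refine Valuation.map_add_le _ hb.le ?_
  rw [map_mul, hvc, one_mul]
  exact Valuation.map_sub_le _ (hz b) (hz a)

end Base

section Norm

variable (S : KummerSplitW V w p ζ y g c) (a : κ → ℕ)

/-- the normalised generators attached to a type `a` -/
def normGen (_S : KummerSplitW V w p ζ y g c) (a : κ → ℕ) (i : κ) : L :=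
  y i * (ι (c i * ζ ^ a i))⁻¹

theorem normGen_pow (i : κ) :
    ∃ h : F, S.normGen a i ^ p = ι h := by
  refine ⟨g i * ((c i * ζ ^ a i) ^ p)⁻¹, ?_⟩
  rw [normGen, mul_pow, S.pow i, inv_pow, ← map_pow, ← map_inv₀, ← map_mul]

theorem normGen_gen : Algebra.adjoin F (Set.range (S.normGen a)) = ⊤ := by
  rw [eq_top_iff, ← S.gen]
  refine Algebra.adjoin_le ?_
  rintro _ ⟨i, rfl⟩
  have hd : ι (c i * ζ ^ a i) ≠ 0 := (map_ne_zero _).2 (S.d_ne_zero i (a i))
  have e : y i = (c i * ζ ^ a i) • S.normGen a i := by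
    rw [Algebra.smul_def, normGen]
    field_simp
  rw [e]
  exact Subalgebra.smul_mem _ (Algebra.subset_adjoin (Set.mem_range_self i)) _

theorem normGen_val {W : ValuationSubring L} (hW : Over V W)
    (ha : ∀ i, W.valuation (y i - ι (c i * ζ ^ a i)) < W.valuation (ι (ζ - 1))) (i : κ) :
    W.valuation (S.normGen a i - 1) < W.valuation (ι (ζ - 1)) := by
  have hd : ι (c i * ζ ^ a i) ≠ 0 := (map_ne_zero _).2 (S.d_ne_zero i (a i))
  have e : S.normGen a i - 1 = (y i - ι (c i * ζ ^ a i)) * (ι (c i * ζ ^ a i))⁻¹ := by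
    rw [normGen]
    field_simp
  rw [e, map_mul, map_inv₀, S.valW_d hW, inv_one, mul_one]
  exact ha i

end Norm

section Main

variable (S : KummerSplitW V w p ζ y g c)
include S

/-- **`W` is determined by its type.** -/
theorem eq_of_type {W₁ W₂ : ValuationSubring L} (h₁ : Over V W₁) (h₂ : Over V W₂)
    (a : κ → ℕ)
    (ha₁ : ∀ i, W₁.valuation (y i - ι (c i * ζ ^ a i)) < W₁.valuation (ι (ζ - 1)))
    (ha₂ : ∀ i, W₂.valuation (y i - ι (c i * ζ ^ a i)) < W₂.valuation (ι (ζ - 1))) :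
    W₁ = W₂ :=
  eq_of_normalized_wild S.unif S.prime S.prim (S.normGen a) (S.normGen_pow a) (S.normGen_gen a)
    h₁ h₂ (S.normGen_val a h₁ ha₁) (S.normGen_val a h₂ ha₂)

variable {W : ValuationSubring L} (hW : Over V W)
include hW

/-- **Residue degree one** (strong form): `W = V + wⁿ W`. -/
theorem residue_pow {b : L} (hb : b ∈ W) (n : ℕ) :
    ∃ a ∈ V, W.valuation (b - ι a) ≤ W.valuation (ι w) ^ n := by
  choose a _ ha using fun i => S.exists_type hW i
  exact exists_sub_val_le_of_normalized_wild S.unif S.prime S.prim (S.normGen a)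
    (S.normGen_pow a) (S.normGen_gen a) hW (S.normGen_val a hW ha) hb n

/-- **Residue degree one**: `W = V + 𝔪_W`. -/
theorem residue {b : L} (hb : b ∈ W) : ∃ a ∈ V, W.valuation (b - ι a) < 1 := by
  obtain ⟨a, ha, h⟩ := S.residue_pow hW hb 1
  refine ⟨a, ha, h.trans_lt ?_⟩
  rw [pow_one]
  exact hW.val_w_lt_one S.unif

/-- **Ramification index one**: `𝔪_W = w W` (valuation form). -/
theorem val_le_w {b : L} (hb : W.valuation b < 1) : W.valuation b ≤ W.valuation (ι w) := by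
  choose a _ ha using fun i => S.exists_type hW i
  exact val_le_w_of_normalized_wild S.unif S.prime S.prim (S.normGen a) (S.normGen_pow a)
    (S.normGen_gen a) hW (S.normGen_val a hW ha) hb

/-- **Ramification index one**: `𝔪_W = w W`. -/
theorem unramified {b : L} (hb : W.valuation b < 1) : b * (ι w)⁻¹ ∈ W := by
  rw [← ValuationSubring.valuation_le_one_iff, map_mul, map_inv₀,
    mul_inv_le_iff₀ (hW.val_w_pos S.unif), one_mul]
  exact S.val_le_w hW hb

/-- **Free action**: an `F`-automorphism of `L` mapping `𝔪_W` into itself is the identity. -/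
theorem free (σ : L ≃ₐ[F] L) (hσ : ∀ b, W.valuation b < 1 → W.valuation (σ b) < 1) :
    σ = AlgEquiv.refl := by
  choose a _ ha using fun i => S.exists_type hW i
  have hlpos : 0 < W.valuation (ι (ζ - 1)) := S.valW_lam_pos
  have hfix : ∀ i, σ (y i) = y i := by
    intro i
    have hy' := S.normGen_val a hW ha i
    have hy'lt1 : W.valuation (S.normGen a i - 1) < 1 := hy'.trans_le S.valW_lam_le_one
    have hy'1 : W.valuation (S.normGen a i) = 1 := val_eq_one_of_sub_one hy'lt1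
    -- `θ = (n - 1)/λ ∈ 𝔪_W`
    set θ : L := (S.normGen a i - 1) * (ι (ζ - 1))⁻¹ with hθ
    have hθlt : W.valuation θ < 1 := by
      rw [hθ, map_mul, map_inv₀, mul_inv_lt_iff₀ hlpos, one_mul]
      exact hy'
    have hσθ : W.valuation (σ θ) < 1 := hσ _ hθlt
    have hσn : σ (S.normGen a i) - S.normGen a i = ι (ζ - 1) * (σ θ - θ) := by
      have h1 : S.normGen a i = 1 + ι (ζ - 1) * θ := by
        rw [hθ]
        have := S.ιlam_ne_zero
        field_simp
        ring
      have h2 : σ (S.normGen a i) = 1 + ι (ζ - 1) * σ θ := by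
        conv_lhs => rw [h1]
        rw [map_add, map_one, map_mul, AlgEquiv.commutes]
      rw [h2]
      conv_lhs => rw [h1]
      ring
    have hy0 : y i ≠ 0 := S.y_ne_zero i
    have hd : ι (c i * ζ ^ a i) ≠ 0 := (map_ne_zero _).2 (S.d_ne_zero i (a i))
    have hn0 : S.normGen a i ≠ 0 := by
      rw [normGen]
      exact mul_ne_zero hy0 (inv_ne_zero hd)
    set ξ : L := σ (y i) * (y i)⁻¹ with hξ
    have hξm : ξ ^ p = 1 := by
      rw [hξ, mul_pow, ← map_pow, S.pow i, AlgEquiv.commutes, inv_pow, ← S.pow i]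
      exact mul_inv_cancel₀ (pow_ne_zero _ hy0)
    have hξ' : ξ = σ (S.normGen a i) * (S.normGen a i)⁻¹ := by
      rw [hξ, normGen, map_mul, map_inv₀, AlgEquiv.commutes]
      field_simp
    have hξ1 : W.valuation (ξ - 1) < W.valuation (ι ζ - 1) := by
      have e : ξ - 1 = (σ (S.normGen a i) - S.normGen a i) * (S.normGen a i)⁻¹ := by
        rw [hξ']
        field_simp
      rw [e, hσn, map_mul, map_mul, map_inv₀, hy'1, inv_one, mul_one, ← map_one (algebraMap F L),
        ← map_sub]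
      calc W.valuation (ι (ζ - 1)) * W.valuation (σ θ - θ)
          < W.valuation (ι (ζ - 1)) * 1 :=
            mul_lt_mul_of_pos_left (Valuation.map_sub_lt _ hσθ hθlt) hlpos
        _ = _ := mul_one _
    have h1 := eq_one_of_pow_eq_one_wild W.valuation S.prime S.primL hξm hξ1
    rw [hξ] at h1
    have := congrArg (· * y i) h1
    simpa [hy0] using this
  have h2 : (σ : L →ₐ[F] L) = AlgHom.id F L := by
    refine AlgHom.ext_of_adjoin_eq_top S.gen ?_
    rintro _ ⟨i, rfl⟩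
    exact hfix i
  ext b
  exact congrArg (fun φ : L →ₐ[F] L => φ b) h2

/-- **TRIV.**  A ring automorphism `τ̃` of `L` which maps `𝔪_W` into itself and is trivial
modulo `𝔪_W` on `V` is trivial modulo `𝔪_W` on `W`. -/
theorem triv (τ : L ≃+* L) (hτ : ∀ b, W.valuation b < 1 → W.valuation (τ b) < 1)
    (hτV : ∀ a ∈ V, W.valuation (τ (ι a) - ι a) < 1) {b : L} (hb : b ∈ W) :
    W.valuation (τ b - b) < 1 := by
  obtain ⟨a, ha, h⟩ := S.residue hW hb
  have e : τ b - b = (τ (b - ι a) + -(b - ι a)) + (τ (ι a) - ι a) := by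
    rw [map_sub]; ring
  rw [e]
  refine Valuation.map_add_lt _ (Valuation.map_add_lt _ (hτ _ h) ?_) (hτV a ha)
  rw [Valuation.map_neg]
  exact h

end Main

section Finite

variable (S : KummerSplitW V w p ζ y g c)
include S

/-- **Finitely many sheets.** -/
theorem finite [Finite κ] : {W : ValuationSubring L | Over V W}.Finite := by
  classical
  have hex : ∀ W : {W : ValuationSubring L | Over V W}, ∀ i : κ,
      ∃ a : Fin p, (W : ValuationSubring L).valuation (y i - ι (c i * ζ ^ (a : ℕ))) <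
        (W : ValuationSubring L).valuation (ι (ζ - 1)) := by
    intro W i
    obtain ⟨a, ha, h⟩ := S.exists_type W.2 i
    exact ⟨⟨a, ha⟩, h⟩
  choose t ht using hex
  have hinj : Function.Injective t := by
    intro W₁ W₂ h12
    apply Subtype.ext
    refine S.eq_of_type W₁.2 W₂.2 (fun i => (t W₁ i : ℕ)) (ht W₁) ?_
    intro i
    rw [h12]
    exact ht W₂ i
  exact Set.finite_coe_iff.1 (Finite.of_injective t hinj)

end Finite

end KummerSplitW

/-! ## Transitivity -/

section Trans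

variable {F L : Type*} [Field F] [Field L] [Algebra F L]

local notation "ι" => algebraMap F L

variable {V : ValuationSubring F}

/-- the intersection of all valuation subrings of `L` over `V` -/
def ringAll (L : Type*) [Field L] [Algebra F L] (V : ValuationSubring F) : Subring L where
  carrier := {b | ∀ W : ValuationSubring L, Over V W → b ∈ W}
  mul_mem' := fun ha hb W hW => W.mul_mem _ _ (ha W hW) (hb W hW)
  one_mem' := fun W _ => W.one_mem
  add_mem' := fun ha hb W hW => W.add_mem _ _ (ha W hW) (hb W hW)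
  zero_mem' := fun W _ => W.zero_mem
  neg_mem' := fun ha W hW => W.neg_mem _ (ha W hW)

theorem mem_ringAll {b : L} : b ∈ ringAll L V ↔ ∀ W : ValuationSubring L, Over V W → b ∈ W :=
  Iff.rfl

theorem ringAll_le {W : ValuationSubring L} (hW : Over V W) : ringAll L V ≤ W.toSubring :=
  fun _ hb => hb W hW

/-- the centre of a valuation subring over `V` on `ringAll` -/
def centreAll (W : ValuationSubring L) (hW : Over V W) : Ideal (ringAll L V) :=
  (IsLocalRing.maximalIdeal W).comap (Subring.inclusion (ringAll_le hW))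

theorem mem_centreAll (W : ValuationSubring L) (hW : Over V W) (s : ringAll L V) :
    s ∈ centreAll W hW ↔ W.valuation (s : L) < 1 := by
  rw [centreAll, Ideal.mem_comap, ValuationSubring.valuation_lt_one_iff]
  rfl

instance centreAll_isPrime (W : ValuationSubring L) (hW : Over V W) :
    (centreAll W hW).IsPrime :=
  Ideal.comap_isPrime _ _

theorem over_comap {W : ValuationSubring L} (hW : Over V W) (σ : L ≃ₐ[F] L) :
    Over V (W.comap (σ : L →+* L)) := by
  intro a
  rw [ValuationSubring.mem_comap]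
  have : (σ : L →+* L) (ι a) = ι a := σ.commutes a
  rw [this]
  exact hW a

theorem val_comap_lt_one_iff (W : ValuationSubring L) (σ : L ≃ₐ[F] L) (b : L) :
    (W.comap (σ : L →+* L)).valuation b < 1 ↔ W.valuation (σ b) < 1 := by
  by_cases hb : b = 0
  · simp [hb]
  have hσb : σ b ≠ 0 := fun h0 => hb (σ.injective (by rw [h0, map_zero]))
  have e1 : (W.comap (σ : L →+* L)).valuation b < 1 ↔ b⁻¹ ∉ W.comap (σ : L →+* L) := by
    rw [← ValuationSubring.valuation_le_one_iff, map_inv₀,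
      inv_le_one₀ (zero_lt_iff.2 ((Valuation.ne_zero_iff _).2 hb)), not_le]
  have e2 : W.valuation (σ b) < 1 ↔ (σ b)⁻¹ ∉ W := by
    rw [← ValuationSubring.valuation_le_one_iff, map_inv₀,
      inv_le_one₀ (zero_lt_iff.2 ((Valuation.ne_zero_iff _).2 hσb)), not_le]
  rw [e1, e2, ValuationSubring.mem_comap]
  have : (σ : L →+* L) b⁻¹ = (σ b)⁻¹ := map_inv₀ σ b
  rw [this]

variable {w : F} {p : ℕ} {ζ : F} {κ : Type*} {y : κ → L} {g c : κ → F}

/-- **Transitivity.**  For `L / F` finite Galois, any two valuation subrings of `L` over `V` are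
conjugate under `Gal(L/F)`. -/
theorem KummerSplitW.trans (S : KummerSplitW V w p ζ y g c) [FiniteDimensional F L]
    [IsGalois F L] {W W' : ValuationSubring L} (hW : Over V W) (hW' : Over V W') :
    ∃ σ : L ≃ₐ[F] L, W.comap (σ : L →+* L) = W' := by
  classical
  by_contra hcon
  push Not at hcon
  choose a' _ ha' using fun i => S.exists_type hW' i
  have hnot : ¬ ∃ σ ∈ (Finset.univ : Finset (L ≃ₐ[F] L)),
      centreAll W' hW' ≤ centreAll (W.comap (σ : L →+* L)) (over_comap hW σ) := by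
    rintro ⟨σ, -, hle⟩
    apply hcon σ
    refine S.eq_of_type (over_comap hW σ) hW' a' ?_ ha'
    intro i
    set Z : L := (y i - ι (c i * ζ ^ a' i)) * (ι (ζ - 1))⁻¹ with hZ
    have hZmem : Z ∈ ringAll L V := by
      intro W'' hW''
      rw [← ValuationSubring.valuation_le_one_iff, hZ, map_mul, map_inv₀,
        mul_inv_le_iff₀ S.valW_lam_pos, one_mul]
      exact S.val_sub_le hW'' i (a' i)
    have h1 : (⟨Z, hZmem⟩ : ringAll L V) ∈ centreAll W' hW' := by
      rw [mem_centreAll]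
      show W'.valuation Z < 1
      rw [hZ, map_mul, map_inv₀, mul_inv_lt_iff₀ S.valW_lam_pos, one_mul]
      exact ha' i
    have h2 := (mem_centreAll _ _ _).1 (hle h1)
    change (W.comap (σ : L →+* L)).valuation Z < 1 at h2
    rw [hZ, map_mul, map_inv₀, mul_inv_lt_iff₀ S.valW_lam_pos, one_mul] at h2
    exact h2
  rw [← Ideal.subset_union_prime (1 : L ≃ₐ[F] L) 1
    (fun σ _ _ _ => centreAll_isPrime _ _)] at hnot
  obtain ⟨x, hxP', hxσ⟩ := Set.not_subset.1 hnot
  have hxlt : W'.valuation (x : L) < 1 := (mem_centreAll _ _ _).1 hxP'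
  have hxunit : ∀ σ : L ≃ₐ[F] L, W.valuation (σ (x : L)) = 1 := by
    intro σ
    have h1 : x ∉ centreAll (W.comap (σ : L →+* L)) (over_comap hW σ) := by
      intro h
      apply hxσ
      simp only [Set.mem_iUnion]
      exact ⟨σ, Finset.mem_coe.2 (Finset.mem_univ σ), h⟩
    have hxW : σ (x : L) ∈ W := ringAll_le (over_comap hW σ) x.2
    have hle : W.valuation (σ (x : L)) ≤ 1 := (W.valuation_le_one_iff _).2 hxW
    rcases lt_or_eq_of_le hle with hlt | heq
    · exact absurd ((mem_centreAll _ _ _).2 ((val_comap_lt_one_iff W σ _).2 hlt)) h1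
    · exact heq
  -- the norm
  obtain ⟨n, hn⟩ : ∃ n : F, ι n = ∏ σ : L ≃ₐ[F] L, σ (x : L) := by
    have hfix : ∀ τ : L ≃ₐ[F] L,
        τ (∏ σ : L ≃ₐ[F] L, σ (x : L)) = ∏ σ : L ≃ₐ[F] L, σ (x : L) := by
      intro τ
      rw [map_prod]
      exact Fintype.prod_equiv (Equiv.mulLeft τ) _ _ (fun σ => rfl)
    have hbot := (IsGalois.mem_bot_iff_fixed (F := F) (E := L) _).2 hfix
    rw [IntermediateField.mem_bot] at hbot
    exact hbot
  have hnW : W.valuation (ι n) = 1 := by
    rw [hn, map_prod]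
    exact Finset.prod_eq_one (fun σ _ => hxunit σ)
  have hnW' : W'.valuation (ι n) < 1 := by
    rw [hn, ← Finset.mul_prod_erase Finset.univ (fun σ : L ≃ₐ[F] L => σ (x : L))
      (Finset.mem_univ (1 : L ≃ₐ[F] L)), map_mul]
    have h1 : W'.valuation ((1 : L ≃ₐ[F] L) (x : L)) < 1 := hxlt
    have h2 : W'.valuation (∏ σ ∈ Finset.univ.erase (1 : L ≃ₐ[F] L), σ (x : L)) ≤ 1 := by
      rw [W'.valuation_le_one_iff]
      refine Subring.prod_mem W'.toSubring (fun σ _ => ?_)
      exact ringAll_le (over_comap hW' σ) x.2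
    calc W'.valuation ((1 : L ≃ₐ[F] L) (x : L)) *
          W'.valuation (∏ σ ∈ Finset.univ.erase (1 : L ≃ₐ[F] L), σ (x : L))
        ≤ W'.valuation ((1 : L ≃ₐ[F] L) (x : L)) * 1 := mul_le_mul' le_rfl h2
      _ = W'.valuation ((1 : L ≃ₐ[F] L) (x : L)) := mul_one _
      _ < 1 := h1
  have h3 : V.valuation n < 1 := (hW'.val_lt_one_iff n).1 hnW'
  have h4 : W.valuation (ι n) < 1 := (hW.val_lt_one_iff n).2 h3
  rw [hnW] at h4
  exact lt_irrefl _ h4

/-- transitivity in the shape of `H12.SheetsConclusion.trans` -/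
theorem KummerSplitW.trans_mem (S : KummerSplitW V w p ζ y g c) [FiniteDimensional F L]
    [IsGalois F L] {W W' : ValuationSubring L} (hW : Over V W) (hW' : Over V W') :
    ∃ σ : L ≃ₐ[F] L, ∀ b, b ∈ W ↔ σ b ∈ W' := by
  obtain ⟨σ, hσ⟩ := S.trans hW' hW
  refine ⟨σ, fun b => ?_⟩
  rw [← hσ, ValuationSubring.mem_comap]
  rfl

/-- freeness in the shape of `H12.SheetsConclusion.free` -/
theorem KummerSplitW.free_mem (S : KummerSplitW V w p ζ y g c) {W : ValuationSubring L}
    (hW : Over V W) (σ : L ≃ₐ[F] L) (hσ : ∀ b, b ∈ W ↔ σ b ∈ W) : σ = 1 := by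
  refine S.free hW σ fun b hb => ?_
  by_cases hb0 : b = 0
  · rw [hb0, map_zero, map_zero]; exact zero_lt_one
  have hσb : σ b ≠ 0 := fun h0 => hb0 (σ.injective (by rw [h0, map_zero]))
  have e1 : W.valuation b < 1 ↔ b⁻¹ ∉ W := by
    rw [← ValuationSubring.valuation_le_one_iff, map_inv₀,
      inv_le_one₀ (zero_lt_iff.2 ((Valuation.ne_zero_iff _).2 hb0)), not_le]
  have e2 : W.valuation (σ b) < 1 ↔ (σ b)⁻¹ ∉ W := by
    rw [← ValuationSubring.valuation_le_one_iff, map_inv₀,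
      inv_le_one₀ (zero_lt_iff.2 ((Valuation.ne_zero_iff _).2 hσb)), not_le]
  rw [e2, ← map_inv₀, ← hσ]
  exact e1.1 hb

end Trans

end Fermat.Agent.Ribet.H883

end
-- ===== PACK-END Ribet/H883/SplitW.lean

-- ===== PACK-BEGIN A2/T0/H669/T0.lean
section




/-!
# WALL A2, piece T0 (helper669): Kummer form of the wall ⇒ the wall

Interface of `origin/helper13:Fermat/Agent/A2/{Spec,Skel}.lean` (`target_of_kummerTarget`), stated
here with the two definitions `KummerTarget`, `Target` of `Spec.lean` UNFOLDED (so that this file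
only imports files which are on main).  `Spec.act N τ` is by definition
`arithmeticRingAut (modularFunctionFieldFull N) τ`.

* `a2Kummer_of_kummer`          : one `τ`; pointwise Kummer statement ⇒ `H129.A2Kummer N m τ`
                                  (the hypothesis consumed by `H909` / TRANSFER).
* `unipotent_of_kummer`         : one `τ`; pointwise Kummer statement ⇒ `τ•τ•x + x = 2•τ•x`.
* `target_of_kummerTarget`      : `KummerTarget N q m → Target N q m` (both unfolded), VERBATIM the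
                                  statement T0 of `Skel.lean` after `unfold KummerTarget Target act`.
* `a2Kummer_of_kummerTarget`    : `KummerTarget N q m → ∀ P | q, ∀ τ ∈ I_P, H129.A2Kummer N m τ`.
-/

set_option autoImplicit false

noncomputable section

namespace Fermat.Agent.A2.T0.H669

open ModularCurve AlgebraicCurve

/-- The pointwise Kummer statement for one `τ` (body of `Spec.KummerTarget`). -/
def KummerAt (N m : ℕ) (τ : AlgebraicClosure ℚ ≃ₐ[ℚ] AlgebraicClosure ℚ) : Prop :=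
  ∀ f : modularFunctionFieldBar N, f ≠ 0 →
    (∀ v : Place (AlgebraicClosure ℚ) (modularFunctionFieldBar N), (m : ℤ) ∣ v.ord f) →
    ∃ h : modularFunctionFieldBar N, h ≠ 0 ∧
      arithmeticRingAut (modularFunctionFieldFull N) τ
          (arithmeticRingAut (modularFunctionFieldFull N) τ f) * f =
        h ^ m * (arithmeticRingAut (modularFunctionFieldFull N) τ f) ^ 2

/-- `(τ-1)² f = τ²f · f / (τ f)²` in the notation of `H129`. -/
theorem tauSubOne_tauSubOne_eq {F : Type*} [Field F] (τ : F ≃+* F) {f : F} (hf : f ≠ 0) :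
    H129.tauSubOne τ (H129.tauSubOne τ f) = τ (τ f) * f * ((τ f) ^ 2)⁻¹ := by
  have hτf : τ f ≠ 0 := (map_ne_zero_iff τ τ.injective).2 hf
  unfold H129.tauSubOne
  rw [map_mul, map_inv₀, mul_inv, inv_inv]
  field_simp

/-- One `τ`: the pointwise Kummer statement gives `H129.A2Kummer`. -/
theorem a2Kummer_of_kummer (N m : ℕ) (τ : AlgebraicClosure ℚ ≃ₐ[ℚ] AlgebraicClosure ℚ)
    (h : KummerAt N m τ) : H129.A2Kummer N m τ := by
  intro f hf hdiv
  obtain ⟨y, _, hy⟩ := h f hf hdiv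
  refine ⟨y, 1, one_ne_zero, ?_⟩
  rw [toRingAut_arithmeticGalois, tauSubOne_tauSubOne_eq _ hf, hy, map_one, one_mul]
  have hτf : arithmeticRingAut (modularFunctionFieldFull N) τ f ≠ 0 :=
    (map_ne_zero_iff _ (arithmeticRingAut (modularFunctionFieldFull N) τ).injective).2 hf
  field_simp

/-- One `τ`: the pointwise Kummer statement gives `(τ - 1)² = 0` on `J₀(N)[m]`. -/
theorem unipotent_of_kummer (N m : ℕ) (hm : 0 < m)
    (τ : AlgebraicClosure ℚ ≃ₐ[ℚ] AlgebraicClosure ℚ) (h : KummerAt N m τ)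
    (x : JZero N) (hx : m • x = 0) :
    τ • (τ • x) + x = 2 • (τ • x) := by
  have h1 := H129.unipotent_JZero_of_kummer N m hm.ne' τ (a2Kummer_of_kummer N m τ h) x hx
  rw [smul_sub] at h1
  rw [two_nsmul]
  have h2 : τ • (τ • x) = τ • x - x + τ • x := by
    rw [← h1]; abel
  rw [h2]; abel

/-- **T0** (`target_of_kummerTarget` of `Skel.lean`, definitions unfolded). -/
theorem target_of_kummerTarget (N q m : ℕ) (hm : 0 < m)
    (h : ∀ P : ValuationSubring (AlgebraicClosure ℚ), P.LiesOverPrime q →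
      ∀ τ ∈ P.inertiaSubgroupIn ℚ, ∀ f : modularFunctionFieldBar N, f ≠ 0 →
        (∀ v : Place (AlgebraicClosure ℚ) (modularFunctionFieldBar N), (m : ℤ) ∣ v.ord f) →
        ∃ h : modularFunctionFieldBar N, h ≠ 0 ∧
          arithmeticRingAut (modularFunctionFieldFull N) τ
              (arithmeticRingAut (modularFunctionFieldFull N) τ f) * f =
            h ^ m * (arithmeticRingAut (modularFunctionFieldFull N) τ f) ^ 2) :
    ∀ P : ValuationSubring (AlgebraicClosure ℚ), P.LiesOverPrime q →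
      ∀ τ ∈ P.inertiaSubgroupIn ℚ, ∀ x : JZero N, m • x = 0 →
        τ • (τ • x) + x = 2 • (τ • x) :=
  fun P hP τ hτ x hx => unipotent_of_kummer N m hm τ (h P hP τ hτ) x hx

/-- **T0'** : the form consumed by `H909` (TRANSFER): `H129.A2Kummer` for every inertia
element at `q`. -/
theorem a2Kummer_of_kummerTarget (N q m : ℕ)
    (h : ∀ P : ValuationSubring (AlgebraicClosure ℚ), P.LiesOverPrime q →
      ∀ τ ∈ P.inertiaSubgroupIn ℚ, ∀ f : modularFunctionFieldBar N, f ≠ 0 →
        (∀ v : Place (AlgebraicClosure ℚ) (modularFunctionFieldBar N), (m : ℤ) ∣ v.ord f) →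
        ∃ h : modularFunctionFieldBar N, h ≠ 0 ∧
          arithmeticRingAut (modularFunctionFieldFull N) τ
              (arithmeticRingAut (modularFunctionFieldFull N) τ f) * f =
            h ^ m * (arithmeticRingAut (modularFunctionFieldFull N) τ f) ^ 2) :
    ∀ P : ValuationSubring (AlgebraicClosure ℚ), P.LiesOverPrime q →
      ∀ τ ∈ P.inertiaSubgroupIn ℚ, H129.A2Kummer N m τ :=
  fun P hP τ hτ => a2Kummer_of_kummer N m τ (h P hP τ hτ)

end Fermat.Agent.A2.T0.H669

end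
end
-- ===== PACK-END A2/T0/H669/T0.lean

-- ===== PACK-BEGIN Ribet/H873/Sheets.lean
section



/-!
# Row 38, WALL-p, (S4)/I6 instantiation leaf SHEETS — Mathlib-only core  (helper873)

`L` a field, `τ` a ring automorphism of finite order, `W, W'` valuation subrings of `L` with the
same `τ`-fixed elements (i.e. lying over the same valuation ring of the fixed field).  Then
`W' = τ ^ j • W` for some `j`.  This is `Lib/ValConj.exists_smul_eq_of_fixed_mem_iff` for the
cyclic group generated by `τ`.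
-/

set_option autoImplicit false
set_option linter.style.haveILetI false

open scoped Pointwise

namespace Fermat.Agent.Ribet.H873

variable {L : Type*} [Field L]

/-- **SHEETS, core (cyclic group of automorphisms).**  If `τ ^ n = 1`, `0 < n`, and `W`, `W'`
contain the same `τ`-fixed elements, then `W' = τ ^ j • W` for some `j < n` (pointwise action of
`RingAut L` on valuation subrings). -/
theorem exists_pow_smul_eq_of_fixed_mem_iff (τ : L ≃+* L) {n : ℕ} (hn : 0 < n) (hτ : τ ^ n = 1)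
    (W W' : ValuationSubring L)
    (h : ∀ x : L, τ x = x → (x ∈ W ↔ x ∈ W')) :
    ∃ j : ℕ, j < n ∧ (τ ^ j) • W = W' := by
  classical
  -- the cyclic group generated by `τ` is finite
  have hord : IsOfFinOrder τ := isOfFinOrder_iff_pow_eq_one.mpr ⟨n, hn, hτ⟩
  haveI hfin : Finite (Subgroup.zpowers τ) := (IsOfFinOrder.finite_zpowers hord).to_subtype
  -- fixed by the group iff fixed by `τ`
  have hfix : ∀ x : L, (∀ g : Subgroup.zpowers τ, g • x = x) → (x ∈ W ↔ x ∈ W') := by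
    intro x hx
    exact h x (hx ⟨τ, Subgroup.mem_zpowers τ⟩)
  obtain ⟨g, hg⟩ := Fermat.Agent.Lib.ValConj.exists_smul_eq_of_fixed_mem_iff
    (G := Subgroup.zpowers τ) W W' hfix
  obtain ⟨k, hk⟩ := Subgroup.mem_zpowers_iff.mp g.2
  -- reduce the exponent modulo `n`
  have hkn : τ ^ k = τ ^ (k % (n : ℤ)).toNat := by
    have hn' : (n : ℤ) ≠ 0 := by exact_mod_cast hn.ne'
    have hnn : 0 ≤ k % (n : ℤ) := Int.emod_nonneg k hn'
    have h1 : τ ^ k = τ ^ (k % (n : ℤ)) := by
      conv_lhs => rw [← Int.emod_add_mul_ediv k n]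
      rw [zpow_add, zpow_mul, zpow_natCast, hτ, one_zpow, mul_one]
    rw [h1]
    conv_lhs => rw [← Int.toNat_of_nonneg hnn]
    rw [zpow_natCast]
  refine ⟨(k % (n : ℤ)).toNat, ?_, ?_⟩
  · have hn' : (n : ℤ) ≠ 0 := by exact_mod_cast hn.ne'
    have hlt : k % (n : ℤ) < n := Int.emod_lt_of_pos k (by exact_mod_cast hn)
    have hnn : 0 ≤ k % (n : ℤ) := Int.emod_nonneg k hn'
    omega
  · rw [← hkn, hk]
    exact hg

/-- Elementwise form: `z ∈ W' ↔ (τ ^ j)⁻¹ z ∈ W`. -/
theorem exists_pow_forall_mem_iff (τ : L ≃+* L) {n : ℕ} (hn : 0 < n) (hτ : τ ^ n = 1)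
    (W W' : ValuationSubring L)
    (h : ∀ x : L, τ x = x → (x ∈ W ↔ x ∈ W')) :
    ∃ j : ℕ, j < n ∧ ∀ z : L, (τ ^ j) z ∈ W' ↔ z ∈ W := by
  obtain ⟨j, hj, hjW⟩ := exists_pow_smul_eq_of_fixed_mem_iff τ hn hτ W W' h
  refine ⟨j, hj, fun z => ?_⟩
  rw [← hjW]
  exact ValuationSubring.smul_mem_pointwise_smul_iff (g := τ ^ j) (S := W) (x := z)

end Fermat.Agent.Ribet.H873

namespace Fermat.Agent.Ribet.H873

section algEquiv

variable {F F' : Type*} [Field F] [Field F'] [Algebra F F']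

omit [Algebra F F'] in
/-- Powers of the underlying ring automorphism of an algebra automorphism. -/
theorem toRingEquiv_pow_apply {A : Type*} [CommSemiring A] [Algebra A F'] (τ : F' ≃ₐ[A] F')
    (j : ℕ) (z : F') : ((τ : F' ≃+* F') ^ j) z = (τ ^ j) z := by
  induction j generalizing z with
  | zero => rfl
  | succ j ih =>
    rw [pow_succ, pow_succ, RingAut.mul_apply, AlgEquiv.mul_apply]
    exact ih (τ z)

/-- Ring-automorphism form with an explicit description of the fixed elements: if every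
`τ`-fixed element comes from `F` and `W`, `W'` induce the same valuation subring of `F`. -/
theorem exists_pow_forall_mem_iff_of_comap_eq (τ : F' ≃+* F') {n : ℕ} (hn : 0 < n)
    (hτ : τ ^ n = 1) (hfix : ∀ x : F', τ x = x → ∃ y : F, algebraMap F F' y = x)
    (W W' : ValuationSubring F')
    (hWW' : W.comap (algebraMap F F') = W'.comap (algebraMap F F')) :
    ∃ j : ℕ, j < n ∧ ∀ z : F', (τ ^ j) z ∈ W' ↔ z ∈ W := by
  refine exists_pow_forall_mem_iff τ hn hτ W W' (fun x hx => ?_)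
  obtain ⟨y, rfl⟩ := hfix x hx
  have h1 : algebraMap F F' y ∈ W ↔ y ∈ W.comap (algebraMap F F') := Iff.rfl
  have h2 : algebraMap F F' y ∈ W' ↔ y ∈ W'.comap (algebraMap F F') := Iff.rfl
  rw [h1, h2, hWW']

/-- **SHEETS, Galois form.**  `F'/F` finite Galois with cyclic group generated by `τ`; two
valuation subrings of `F'` over the same valuation subring of `F` are conjugate under a power
of `τ`. -/
theorem exists_pow_forall_mem_iff_of_isGalois [FiniteDimensional F F'] [IsGalois F F']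
    (τ : F' ≃ₐ[F] F') (hgen : ∀ σ : F' ≃ₐ[F] F', σ ∈ Subgroup.zpowers τ)
    (W W' : ValuationSubring F')
    (hWW' : W.comap (algebraMap F F') = W'.comap (algebraMap F F')) :
    ∃ j : ℕ, j < Module.finrank F F' ∧ ∀ z : F', (τ ^ j) z ∈ W' ↔ z ∈ W := by
  have hn : 0 < Module.finrank F F' := Module.finrank_pos
  have hcard : Nat.card (F' ≃ₐ[F] F') = Module.finrank F F' := IsGalois.card_aut_eq_finrank F F'
  have hτn : τ ^ Module.finrank F F' = 1 := by
    rw [← hcard]; exact pow_card_eq_one'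
  -- the underlying ring automorphism
  have hτ' : (τ : F' ≃+* F') ^ Module.finrank F F' = 1 := by
    ext z
    have := congrArg (fun σ : F' ≃ₐ[F] F' => σ z) hτn
    simpa using this
  have hfix : ∀ x : F', (τ : F' ≃+* F') x = x → ∃ y : F, algebraMap F F' y = x := by
    intro x hx
    have hx' : τ x = x := hx
    have hall : ∀ σ : F' ≃ₐ[F] F', σ x = x := by
      intro σ
      obtain ⟨k, rfl⟩ := Subgroup.mem_zpowers_iff.mp (hgen σ)
      have hpow : ∀ m : ℕ, (τ ^ m) x = x := by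
        intro m
        induction m with
        | zero => simp
        | succ m ih => rw [pow_succ, AlgEquiv.mul_apply, hx', ih]
      rcases Int.eq_nat_or_neg k with ⟨m, rfl | rfl⟩
      · rw [zpow_natCast]; exact hpow m
      · rw [zpow_neg, zpow_natCast]
        have := hpow m
        calc (τ ^ m)⁻¹ x = (τ ^ m)⁻¹ ((τ ^ m) x) := by rw [this]
          _ = x := by
            rw [← AlgEquiv.mul_apply, inv_mul_cancel, AlgEquiv.one_apply]
    have hmem : x ∈ (⊥ : IntermediateField F F') :=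
      (IsGalois.mem_bot_iff_fixed x).mpr hall
    obtain ⟨y, hy⟩ := IntermediateField.mem_bot.mp hmem
    exact ⟨y, hy⟩
  obtain ⟨j, hj, hjz⟩ :=
    exists_pow_forall_mem_iff_of_comap_eq (τ : F' ≃+* F') hn hτ' hfix W W' hWW'
  refine ⟨j, hj, fun z => ?_⟩
  have e : ((τ : F' ≃+* F') ^ j) z = (τ ^ j) z := toRingEquiv_pow_apply τ j z
  rw [← e]
  exact hjz z

end algEquiv

end Fermat.Agent.Ribet.H873

end
-- ===== PACK-END Ribet/H873/Sheets.lean

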