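import Mathlib
import Fermat.Prelude.Def_ModularCurve_X0ModL
import Fermat.Prelude.Def_FLTPrelim_Ramification
import Fermat.Agent.Pack.S44C.G0E16L2
import Fermat.Agent.Pack.S44C.G0E13L0
import Fermat.Agent.Pack.S44C.G0E16L0
import Fermat.Agent.Pack.S44C.G0E15L3
import Fermat.Agent.Pack.S44C.G0E15L2
import Fermat.Agent.Pack.S44C.G0E0L1
import Fermat.Agent.Pack.S44C.G0E7L3
import Fermat.Agent.Pack.S44C.G0E4L0
import Fermat.Agent.Pack.S44C.G0E15L0
import Fermat.Agent.Pack.S44C.G0E2L1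
import Fermat.Agent.Pack.S44C.G0E2L2
import Fermat.Agent.Pack.S44C.G0E10L1
import Fermat.Agent.Pack.S44C.G0E15L1
import Fermat.Agent.Pack.S44C.G0E13L1
import Fermat.Agent.Pack.S44C.G0E13L3
import Fermat.Agent.Pack.S44C.G0E5L3
import Fermat.Agent.Pack.S44C.G0E5L0
import Fermat.Agent.Pack.Fast891

-- ===== PACK-BEGIN S24/Deg/H457_Degree.lean
section



/-!
# S24 / DEG (helper457): the degree fields of `ModularPackage`, unconditionally

`degree_fields N : FiniteDimensional ℚ̄(j) (FF N) ∧ finrank ℚ̄(j) (FF N) ≤ |SL₂(ℤ)/Γ₀(N)|`.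

Chain: helper648 (conjugate product + D5 + growth of `j`, function level)
→ `hyp_complex` (formal relations over `ℂ`, via helper708 `HasQExp` and helper264 `hasSum_jFun`)
→ `finiteDimensional_and_finrank_le` (descent `ℂ → ℚ̄` + primitive element).
-/

set_option autoImplicit false

noncomputable section

open UpperHalfPlane ModularGroup CongruenceSubgroup Polynomial ModularCurve
open scoped MatrixGroups Manifold Modular Real

namespace Fermat.Agent.S24.Deg457

theorem jFun_eq_H648 : Fermat.Agent.S24.JFun.jFun = Fermat.Agent.S24.H648.jFun := rfl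

/-- the interface hypothesis over `ℂ`, unconditionally -/
theorem hyp_complex_card (N : ℕ) [NeZero N] : Hyp ℂ N (Nat.card (XX N)) := by
  refine hyp_complex N ?_ ?_
  · rw [jFun_eq_H648]
    exact Fermat.Agent.S24.H648.exists_polynomial_of_expGrowth
  · rw [jFun_eq_H648]
    exact Fermat.Agent.S24.H648.jFun_bound_fd

/-- **The degree fields of helper984's `ModularPackage N`** (upper bound half). -/
theorem degree_fields (N : ℕ) [NeZero N] :
    FiniteDimensional ↥(IntermediateField.adjoin Kbar {jF N}) (FF N) ∧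
      Module.finrank ↥(IntermediateField.adjoin Kbar {jF N}) (FF N) ≤ Nat.card (XX N) :=
  finiteDimensional_and_finrank_le N _ (hyp_complex_card N)

end Fermat.Agent.S24.Deg457

end
end
-- ===== PACK-END S24/Deg/H457_Degree.lean

-- ===== PACK-BEGIN S28/H867/Integral.lean
section



set_option autoImplicit false
noncomputable section
open ModularCurve HahnSeries IntermediateField Polynomial

namespace Fermat.Agent.S28.H867

section Integral

variable (k : Type*) [Field k]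

/-- `j(q^d)` for `d ≠ 0`, with junk value at `0` (total function in `d`). -/
def jd (d : ℕ) : LaurentSeries k :=
  if h : d = 0 then 0 else @qExpand k _ d ⟨h⟩ (jqModC k)

theorem jd_eq (d : ℕ) [hd : NeZero d] : jd k d = qExpand k d (jqModC k) := by
  rw [jd, dif_neg hd.out]

theorem jd_one : jd k 1 = jqModC k := by
  rw [jd_eq, qExpand_one_apply]

theorem qExpand_jd (a b : ℕ) [NeZero a] [NeZero b] : qExpand k a (jd k b) = jd k (a * b) := by
  rw [jd_eq, jd_eq, qExpand_qExpand]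

/-- If `x` and `V_a j` are integral over `k(j)`, so is `V_a x`. -/
theorem isIntegral_qExpand (a : ℕ) [NeZero a] {x : LaurentSeries k}
    (hx : IsIntegral (jField k) x) (ha : IsIntegral (jField k) (jd k a)) :
    IsIntegral (jField k) (qExpand k a x) := by
  set 𝔸 := algebraicClosure (jField k) (LaurentSeries k) with h𝔸
  have hmem : ∀ z ∈ jField k, qExpand k a z ∈ 𝔸.restrictScalars k := by
    have hle : (jField k).map (qExpandAlgHomC k a) ≤ 𝔸.restrictScalars k := by
      have h0 : (jField k).map (qExpandAlgHomC k a) = adjoin k {qExpand k a (jqModC k)} := by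
        rw [← jpField_eq_map]; rfl
      rw [h0, adjoin_simple_le_iff]
      show qExpand k a (jqModC k) ∈ 𝔸
      rw [h𝔸, mem_algebraicClosure_iff']
      rwa [jd_eq] at ha
    intro z hz
    exact hle ⟨z, hz, rfl⟩
  let φ : jField k →+* 𝔸 :=
    { toFun := fun z => ⟨qExpand k a z, hmem z z.2⟩
      map_one' := by ext; simp
      map_mul' := fun x y => by ext; simp
      map_zero' := by ext; simp
      map_add' := fun x y => by ext; simp }
  have h1 : IsIntegral 𝔸 (qExpand k a x) :=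
    hx.map_of_comp_eq φ (qExpand k a) (by ext z; rfl)
  have : Algebra.IsIntegral (jField k) 𝔸 :=
    (algebraicClosure.isAlgebraic (jField k) (LaurentSeries k)).isIntegral
  exact isIntegral_trans (R := jField k) (A := 𝔸) _ h1

theorem isIntegral_jd_prime {p : ℕ} [NeZero p] (D : ModPolyData p) :
    IsIntegral (jField k) (jd k p) := by
  let y : jField k := ⟨jqModC k, jq_mem_jField k⟩
  refine ⟨polyOver (jField k) y D.Φ, polyOver_monic _ y D.monic, ?_⟩
  rw [← Polynomial.aeval_def, aeval_polyOver, jd_eq]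
  exact modPoly_eval_jp_field k D

theorem isIntegral_jd (d : ℕ) (hd : d ≠ 0)
    (hΦ : ∀ p : ℕ, p.Prime → p ∣ d → ∀ [NeZero p], Nonempty (ModPolyData p)) :
    IsIntegral (jField k) (jd k d) := by
  induction d using Nat.recOnMul with
  | zero => exact absurd rfl hd
  | one =>
    rw [jd_one]
    exact isIntegral_algebraMap (x := (⟨jqModC k, jq_mem_jField k⟩ : jField k))
  | prime p hp =>
    have : NeZero p := ⟨hp.ne_zero⟩
    obtain ⟨D⟩ := hΦ p hp dvd_rfl
    exact isIntegral_jd_prime k D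
  | mul a b iha ihb =>
    have ha0 : a ≠ 0 := fun h => hd (by rw [h, zero_mul])
    have hb0 : b ≠ 0 := fun h => hd (by rw [h, mul_zero])
    have : NeZero a := ⟨ha0⟩
    have : NeZero b := ⟨hb0⟩
    rw [← qExpand_jd]
    exact isIntegral_qExpand k a
      (ihb hb0 fun p hp hpb => hΦ p hp (hpb.mul_left a))
      (iha ha0 fun p hp hpa => hΦ p hp (hpa.mul_right b))

theorem divisorExpansionsC_eq_image (M : ℕ) (hM : M ≠ 0) :
    divisorExpansionsC k M = (fun d => jd k d) '' (M.divisors : Set ℕ) := by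
  ext x
  constructor
  · rintro ⟨d, hd, hdM, rfl⟩
    exact ⟨d, by simpa using ⟨hdM, hM⟩, jd_eq k d⟩
  · rintro ⟨d, hd, rfl⟩
    have hd' : d ∣ M := Nat.dvd_of_mem_divisors hd
    have hd0 : d ≠ 0 := fun h => hM (by rw [h] at hd'; exact Nat.eq_zero_of_zero_dvd hd')
    have : NeZero d := ⟨hd0⟩
    exact ⟨d, ⟨hd0⟩, hd', jd_eq k d⟩

theorem degE_ne_zero (M : ℕ) (hM : M ≠ 0)
    (hΦ : ∀ p : ℕ, p.Prime → p ∣ M → ∀ [NeZero p], Nonempty (ModPolyData p)) :
    degE k M ≠ 0 := by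
  have h1 : EF k M = jField k ⊔ adjoin k (divisorExpansionsC k M) :=
    (sup_eq_right.mpr (jField_le_EF k M)).symm
  rw [degE, h1]
  refine relfinrank_sup_adjoin_ne_zero _ ?_ ?_
  · rw [divisorExpansionsC_eq_image k M hM]
    exact (Finset.finite_toSet _).image _
  · rw [divisorExpansionsC_eq_image k M hM]
    rintro x ⟨d, hd, rfl⟩
    have hd' : d ∣ M := Nat.dvd_of_mem_divisors hd
    have hd0 : d ≠ 0 := fun h => hM (by rw [h] at hd'; exact Nat.eq_zero_of_zero_dvd hd')
    exact isIntegral_jd k d hd0 fun p hp hpd => hΦ p hp (hpd.trans hd')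

end Integral

end Fermat.Agent.S28.H867

end
end
-- ===== PACK-END S28/H867/Integral.lean

-- ===== PACK-BEGIN S37/H159/MDiscr.lean
section



/-!
# Theorem M, part 4: traces and discriminants reduce
(row S37, piece R-b; seat helper159)

For `f ∈ B = O ∩ B_η` the trace `Tr_{B_η/K[x]} f` is a polynomial with coefficients in `A` whose
reduction is `Tr_{T/k[x̄]} (ρ f)`.  Consequently the discriminant of a lifted basis is a polynomial
`D ∈ A[X]` reducing to the discriminant of the basis of `T`.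
-/

set_option autoImplicit false
set_option linter.unusedSectionVars false
set_option linter.style.haveILetI false

namespace Fermat.Agent.S37.H159

open Polynomial

theorem isSeparable_of_charZero (K : Type*) [Field K] [CharZero K] (L₀ F : Type*) [Field L₀]
    [Field F] [Algebra K[X] L₀] [IsFractionRing K[X] L₀] [Algebra L₀ F]
    [FiniteDimensional L₀ F] : Algebra.IsSeparable L₀ F := by
  haveI : CharZero L₀ := charZero_of_injective_algebraMap (IsFractionRing.injective K[X] L₀)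
  exact Algebra.IsSeparable.of_integral L₀ F

namespace RedCtx

variable {K : Type*} [Field K] [CharZero K] {A : ValuationSubring K} {k : Type*} [Field k]
  {F : Type*} [Field F] [Algebra K[X] F] {Fk : Type*} [Field Fk] [Algebra k[X] Fk]
  (G : RedCtx A k F Fk)

variable (L₀ : Type*) [Field L₀] [Algebra K[X] L₀] [IsFractionRing K[X] L₀] [Algebra L₀ F]
  [IsScalarTower K[X] L₀ F] [FiniteDimensional L₀ F]
variable (L₀k : Type*) [Field L₀k] [Algebra k[X] L₀k] [IsFractionRing k[X] L₀k] [Algebra L₀k Fk]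
  [IsScalarTower k[X] L₀k Fk] [FiniteDimensional L₀k Fk] [Algebra.IsSeparable L₀k Fk]

include L₀ in
theorem algebraMap_injective_K : Function.Injective (algebraMap K[X] F) := by
  rw [IsScalarTower.algebraMap_eq K[X] L₀ F]
  exact (algebraMap L₀ F).injective.comp (IsFractionRing.injective K[X] L₀)

include L₀ in
theorem isTorsionFree_F : Module.IsTorsionFree K[X] F :=
  Module.isTorsionFree_iff_algebraMap_injective.mpr (algebraMap_injective_K (F := F) L₀)

include L₀ in
theorem finite_Tη : Module.Finite K[X] (integralClosure K[X] F) := by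
  haveI := isSeparable_of_charZero K L₀ F
  exact IsIntegralClosure.finite K[X] L₀ F (integralClosure K[X] F)

include L₀ in
theorem free_Tη : Module.Free K[X] (integralClosure K[X] F) := by
  haveI := isSeparable_of_charZero K L₀ F
  haveI := isTorsionFree_F (K := K) (F := F) L₀
  exact IsIntegralClosure.module_free K[X] L₀ F (integralClosure K[X] F)

include L₀ in
theorem finrank_Tη : Module.finrank K[X] (integralClosure K[X] F) = Module.finrank L₀ F := by
  haveI := isSeparable_of_charZero K L₀ F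
  haveI := isTorsionFree_F (K := K) (F := F) L₀
  exact IsIntegralClosure.rank K[X] L₀ F (integralClosure K[X] F)

/-- Trace of `B_η / K[x]` versus trace of `F / K(x)`. -/
theorem algebraMap_trace_Tη (f : integralClosure K[X] F) :
    algebraMap K[X] L₀ (Algebra.trace K[X] (integralClosure K[X] F) f) =
      Algebra.trace L₀ F (f : F) := by
  haveI := finite_Tη (K := K) (F := F) L₀
  haveI := free_Tη (K := K) (F := F) L₀
  haveI : IsLocalization (Algebra.algebraMapSubmonoid (integralClosure K[X] F)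
      (nonZeroDivisors K[X])) F :=
    IsIntegralClosure.isLocalization K[X] L₀ F (integralClosure K[X] F)
  exact (Algebra.trace_localization K[X] (nonZeroDivisors K[X]) (Rₘ := L₀) (Sₘ := F) f).symm

/-- Trace of `T / k[x̄]` versus trace of `F_k / k(x̄)`. -/
theorem algebraMap_trace_Tk (hdeg : Module.finrank L₀ F = Module.finrank L₀k Fk) (t : G.Tk) :
    algebraMap k[X] L₀k (Algebra.trace k[X] G.Tk t) = Algebra.trace L₀k Fk (t : Fk) := by
  haveI := G.finite_Tk L₀ L₀k hdeg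
  haveI := G.isTorsionFree_Tk L₀k
  haveI : Module.Free k[X] G.Tk := inferInstance
  haveI := G.isFractionRing_Tk L₀ L₀k
  haveI := G.isIntegral_Tk L₀ L₀k hdeg
  haveI : FaithfulSMul k[X] G.Tk :=
    (faithfulSMul_iff_algebraMap_injective _ _).mpr (G.algebraMap_Tk_injective L₀k)
  haveI : IsLocalization (Algebra.algebraMapSubmonoid G.Tk (nonZeroDivisors k[X])) Fk :=
    inferInstance
  exact (Algebra.trace_localization k[X] (nonZeroDivisors k[X]) (Rₘ := L₀k) (Sₘ := Fk) t).symm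

variable {n : ℕ} (y : Module.Basis (Fin n) L₀ F) (hyO : ∀ i, y i ∈ G.O)
  (hR : H217.ResidIndep (G.V₀ L₀) G.O y) (bk : Module.Basis (Fin n) L₀k Fk)
  (hρy : ∀ i, G.ρ ⟨y i, hyO i⟩ = bk i)

include y hyO hR bk hρy in
/-- **Traces reduce.** -/
theorem exists_trace_lift (hdeg : Module.finrank L₀ F = Module.finrank L₀k Fk)
    (f : G.O) (hf : IsIntegral K[X] (f : F)) :
    ∃ P₁ : A[X], P₁.map A.subtype = Algebra.trace K[X] (integralClosure K[X] F) ⟨f, hf⟩ ∧
      P₁.map G.π = Algebra.trace k[X] G.Tk ⟨G.ρ f, G.ρ_mem_Tk f hf⟩ := by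
  classical
  have hext := G.valExtends L₀
  -- the trace over `K(x)` lies in the Gauss ring
  have h1 : Algebra.trace L₀ F (f : F) = ((H217.intMatrix hext y hR hyO f).trace : L₀) :=
    H217.trace_eq_trace_intMatrix hext y hR hyO f
  have h2 := algebraMap_trace_Tη (K := K) (F := F) L₀ ⟨f, hf⟩
  have h3 : algebraMap K[X] L₀ (Algebra.trace K[X] (integralClosure K[X] F) ⟨f, hf⟩) ∈ G.V₀ L₀ := by
    rw [h2, h1]
    exact Subtype.property _
  obtain ⟨P₁, hP₁⟩ := G.exists_map_eq_of_mem_V₀ L₀ L₀k _ h3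
  refine ⟨P₁, hP₁, ?_⟩
  -- reduction
  have h4 : G.ρ₀ L₀ L₀k (H217.intMatrix hext y hR hyO f).trace = Algebra.trace L₀k Fk (G.ρ f) :=
    H217.map_trace_intMatrix_eq_trace_map hext y hR hyO (G.ρ₀ L₀ L₀k) G.ρ
      (fun a => G.ρ_algebraMap L₀ L₀k a) bk hρy f
  have h5 : (H217.intMatrix hext y hR hyO f).trace = ⟨_, G.poly_mem_V₀ L₀ P₁⟩ := by
    apply Subtype.ext
    show ((H217.intMatrix hext y hR hyO f).trace : L₀) = algebraMap K[X] L₀ (P₁.map A.subtype)
    rw [hP₁, h2, h1]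
  rw [h5, G.ρ₀_poly] at h4
  have h6 := G.algebraMap_trace_Tk L₀ L₀k hdeg ⟨G.ρ f, G.ρ_mem_Tk f hf⟩
  apply IsFractionRing.injective k[X] L₀k
  rw [h4, h6]

variable (b : Module.Basis (Fin n) k[X] G.Tk) (hb : ∀ i, bk i = (b i : Fk))

include L₀ bk hb in
/-- The discriminant of the basis of `T` is nonzero (separability). -/
theorem discr_Tk_ne_zero (hdeg : Module.finrank L₀ F = Module.finrank L₀k Fk) :
    Algebra.discr k[X] b ≠ 0 := by
  classical
  intro h0
  apply Algebra.discr_not_zero_of_basis L₀k bk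
  have h1 : Algebra.traceMatrix L₀k bk =
      (Algebra.traceMatrix k[X] b).map (algebraMap k[X] L₀k) := by
    ext i j
    rw [Matrix.map_apply, Algebra.traceMatrix_apply, Algebra.traceMatrix_apply,
      Algebra.traceForm_apply, Algebra.traceForm_apply, G.algebraMap_trace_Tk L₀ L₀k hdeg,
      hb, hb]
    rfl
  rw [Algebra.discr_def, h1, ← RingHom.mapMatrix_apply, ← RingHom.map_det, ← Algebra.discr_def,
    h0, map_zero]

include y hyO hR bk hρy hb in
/-- **The discriminant reduces.** -/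
theorem exists_discr_lift (hdeg : Module.finrank L₀ F = Module.finrank L₀k Fk)
    (hyint : ∀ i, IsIntegral K[X] (y i)) :
    ∃ D : A[X],
      D.map A.subtype =
        Algebra.discr K[X] (fun i => (⟨y i, hyint i⟩ : integralClosure K[X] F)) ∧
      D.map G.π = Algebra.discr k[X] b := by
  classical
  let u : Fin n → G.O := fun i => ⟨y i, hyO i⟩
  have hu : ∀ i j, IsIntegral K[X] ((u i * u j : G.O) : F) := fun i j =>
    (hyint i).mul (hyint j)
  choose P hP1 hP2 using fun i j =>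
    G.exists_trace_lift L₀ L₀k y hyO hR bk hρy hdeg (u i * u j) (hu i j)
  let M : Matrix (Fin n) (Fin n) A[X] := Matrix.of P
  refine ⟨M.det, ?_, ?_⟩
  · rw [← Polynomial.coe_mapRingHom, RingHom.map_det, Algebra.discr_def]
    congr 1
    ext1 i j
    rw [RingHom.mapMatrix_apply, Matrix.map_apply, Algebra.traceMatrix_apply,
      Algebra.traceForm_apply]
    show (P i j).map A.subtype = _
    rw [hP1]
    rfl
  · rw [← Polynomial.coe_mapRingHom, RingHom.map_det, Algebra.discr_def]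
    congr 1
    ext1 i j
    rw [RingHom.mapMatrix_apply, Matrix.map_apply, Algebra.traceMatrix_apply,
      Algebra.traceForm_apply]
    show (P i j).map G.π = _
    rw [hP2]
    congr 1
    apply Subtype.ext
    show G.ρ (u i * u j) = ((b i : G.Tk) : Fk) * ((b j : G.Tk) : Fk)
    rw [map_mul, ← hb, ← hb, ← hρy, ← hρy]

end RedCtx

end Fermat.Agent.S37.H159

end
-- ===== PACK-END S37/H159/MDiscr.lean

-- ===== PACK-BEGIN S37/H697/Pic0Level.lean
section


/-!
# S37 (helper697): equivariance and the Eichler–Shimura relation on `Pic⁰`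

Consequences of `Equivariant.lean` / `Relation.lean` for the reduction map
`reductionPic0Along r hr hgen : Pic⁰(F_N ⊗ L) → Pic⁰(F_{N,k})`:

* `reductionPic0Along_galois_smul` : `red (σ • x) = Φ_φ • red x` if `σ` preserves `A` and induces
  `φ` on the residue field (only a Riemann bound is used: no non-constancy, no degree hypotheses);
* `reductionPic0Along_hecke` : `red (T_ℓ x) = Φ • red x + ℓ • Φ⁻¹ • red x` from the Kronecker
  congruence for norms.
-/

set_option autoImplicit false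
set_option linter.style.haveILetI false

noncomputable section

open HahnSeries IntermediateField AlgebraicCurve ModularCurve

namespace Fermat.Agent.S37.H697

section Equivariance

variable {L : Type*} [Field L] [Algebra ℚ L] {A : ValuationSubring L}
variable {k : Type*} [Field k] {π : A →+* k} {N : ℕ}

/-- Equivariance on divisors of degree zero, from a Riemann bound only. -/
theorem mapDomain_smul_of_degree_eq_zero
    {r : Place L (laurentBaseChange L (modularFunctionFieldFull N)) →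
      Place k (modularFunctionFieldFullC k N)}
    (hr : IsPlaceReductionAlong A π N r) (hgen : PrincipalGeneratedByIntegral A π N)
    (hR : RiemannBound L (laurentBaseChange L (modularFunctionFieldFull N)))
    (σ : L ≃ₐ[ℚ] L) (hσ : ∀ a ∈ A, σ a ∈ A)
    (φ : k ≃+* k) (hφ : ∀ a : A, π ⟨σ a, hσ a a.2⟩ = φ (π a))
    (D : Divisor L (laurentBaseChange L (modularFunctionFieldFull N)))
    (hD : Divisor.degree D = 0) :
    Finsupp.mapDomain r (arithmeticGalois (modularFunctionFieldFull N) σ • D)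
      = coeffSL N φ • Finsupp.mapDomain r D := by
  set g := arithmeticGalois (modularFunctionFieldFull N) σ with hg
  set Φ := coeffSL N φ with hΦ
  set r₂ : Place L (laurentBaseChange L (modularFunctionFieldFull N)) →
      Place k (modularFunctionFieldFullC k N) := fun P => Φ⁻¹ • r (g • P) with hr₂
  have hcomp : ∀ D : Divisor L (laurentBaseChange L (modularFunctionFieldFull N)),
      Finsupp.mapDomain r₂ D = Φ⁻¹ • Finsupp.mapDomain r (g • D) := by
    intro D
    have : r₂ = (fun Q => Φ⁻¹ • Q) ∘ r ∘ (fun P => g • P) := rfl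
    rw [this, Finsupp.mapDomain_comp, Finsupp.mapDomain_comp]
    rfl
  have hagree : ∀ D ∈ integralPrincipalDivisors A π N,
      Finsupp.mapDomain r D = Finsupp.mapDomain r₂ D := by
    intro D hD
    rw [hcomp, smul_integral_divisor hr σ hσ φ hφ hD, inv_smul_smul]
  have h := mapDomain_eq_of_agree hgen hagree hR D hD
  rw [hcomp] at h
  rw [h, smul_inv_smul]

/-- **Equivariance of the reduction map on `Pic⁰`.** -/
theorem reductionPic0Along_galois_smul
    {r : Place L (laurentBaseChange L (modularFunctionFieldFull N)) →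
      Place k (modularFunctionFieldFullC k N)}
    (hr : IsPlaceReductionAlong A π N r) (hgen : PrincipalGeneratedByIntegral A π N)
    (hR : RiemannBound L (laurentBaseChange L (modularFunctionFieldFull N)))
    (σ : L ≃ₐ[ℚ] L) (hσ : ∀ a ∈ A, σ a ∈ A)
    (φ : k ≃+* k) (hφ : ∀ a : A, π ⟨σ a, hσ a a.2⟩ = φ (π a))
    (x : Pic0 L (laurentBaseChange L (modularFunctionFieldFull N))) :
    reductionPic0Along r hr hgen (σ • x) = coeffSL N φ • reductionPic0Along r hr hgen x := by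
  obtain ⟨D, rfl⟩ := Pic0.mk_surjective x
  rw [galois_smul_pic0_def, SemilinearAut.pic0_smul_mk, reductionPic0Along_mk,
    reductionPic0Along_mk, SemilinearAut.pic0_smul_mk]
  refine congrArg Pic0.mk (Subtype.ext ?_)
  rw [coe_reductionDegZeroAlong, SemilinearAut.coe_degZeroSMulHom,
    SemilinearAut.coe_degZeroSMulHom, coe_reductionDegZeroAlong]
  exact mapDomain_smul_of_degree_eq_zero hr hgen hR σ hσ φ hφ _ (Divisor.mem_degZero.mp D.2)

end Equivariance

section Hecke

variable {L : Type*} [Field L] [Algebra ℚ L] {A : ValuationSubring L}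
variable {k : Type*} [Field k] {π : A →+* k} {N ℓ : ℕ} [NeZero N] [NeZero ℓ]
variable (hα : HeckeAlphaBarIntegral L N ℓ) (hβ : HeckeBetaBarIntegral L N ℓ)
variable [HasPrincipalDivisors L (laurentBaseChange L (modularFunctionFieldFull (N * ℓ)))]

/-- **Eichler–Shimura relation on `Pic⁰`.** -/
theorem reductionPic0Along_hecke
    {r : Place L (laurentBaseChange L (modularFunctionFieldFull N)) →
      Place k (modularFunctionFieldFullC k N)}
    (hr : IsPlaceReductionAlong A π N r) (hgen : PrincipalGeneratedByIntegral A π N)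
    (hR : RiemannBound L (laurentBaseChange L (modularFunctionFieldFull N)))
    (hFI : FundamentalIdentityAlong L (heckeBetaBar L N ℓ) hβ)
    (hfin : FiniteAlong L (heckeAlphaBar L N ℓ))
    (hN : NormFormulaAlong L (heckeAlphaBar L N ℓ) hfin)
    (φ : k ≃+* k) (hK : KroneckerNorm A π N ℓ φ)
    (C : ℕ) (hC : ∀ P : Place L (laurentBaseChange L (modularFunctionFieldFull N)),
      l1norm (heckeDivBar hα hβ (Finsupp.single P 1)) ≤ C)
    (x : Pic0 L (laurentBaseChange L (modularFunctionFieldFull N))) :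
    reductionPic0Along r hr hgen (heckePic0Bar hα hβ hFI hfin hN x)
      = coeffSL N φ • reductionPic0Along r hr hgen x
        + ℓ • ((coeffSL N φ)⁻¹ • reductionPic0Along r hr hgen x) := by
  obtain ⟨D, rfl⟩ := Pic0.mk_surjective x
  have h1 : heckePic0Bar hα hβ hFI hfin hN (Pic0.mk D)
      = Pic0.mk (Pic0.degZeroCorrespondence (heckeBetaBar L N ℓ) (heckeAlphaBar L N ℓ) hβ hα hFI D) :=
    rfl
  have hmk : ∀ (n : ℕ) (E : Divisor.degZero (K := k) (F := modularFunctionFieldFullC k N)),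
      n • Pic0.mk E = Pic0.mk (n • E) := fun n E => (QuotientAddGroup.mk_nsmul _ E n).symm
  rw [h1, reductionPic0Along_mk, reductionPic0Along_mk, SemilinearAut.pic0_smul_mk,
    SemilinearAut.pic0_smul_mk, hmk, ← Pic0.mk_add]
  refine congrArg Pic0.mk (Subtype.ext ?_)
  exact relation_divisor hα hβ hr hgen hR hfin hN φ hK C hC D (Divisor.mem_degZero.mp D.2)

end Hecke

end Fermat.Agent.S37.H697

end
end
-- ===== PACK-END S37/H697/Pic0Level.lean

-- ===== PACK-BEGIN S37/H697/HeckeBound.lean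
section


/-!
# S37 (helper697): the Hecke correspondence is bounded on prime divisors

If all places of `F_N ⊗ L` have degree one, then `T (P)` is an effective divisor of degree
`[F_{Nℓ} : β F_N]`, hence of `ℓ¹`-norm `[F_{Nℓ} : β F_N]`.  This discharges the boundedness
hypothesis `hC` of `relation_divisor`.
-/

set_option autoImplicit false
set_option linter.style.haveILetI false

noncomputable section

open HahnSeries IntermediateField AlgebraicCurve ModularCurve

namespace Fermat.Agent.S37.H697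

section General

variable {K F F' : Type*} [Field K] [Field F] [Field F'] [Algebra K F] [Algebra K F']

theorem l1norm_eq_degree_of_nonneg (hdeg : ∀ v : Place K F, v.deg = 1) (D : Divisor K F)
    (hD : ∀ v, 0 ≤ D v) : (l1norm D : ℤ) = Divisor.degree D := by
  unfold l1norm Divisor.degree
  rw [Finsupp.liftAddHom_apply, Finsupp.sum, Finsupp.sum, Nat.cast_sum]
  refine Finset.sum_congr rfl fun v _ => ?_
  rw [AddMonoidHom.mulRight_apply, hdeg v, Nat.cast_one, mul_one]
  exact Int.natAbs_of_nonneg (hD v)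

theorem pullbackAlong_nonneg [HasPrincipalDivisors K F'] (φ : F →ₐ[K] F')
    (hφ : φ.toRingHom.IsIntegral) (D : Divisor K F) (hD : ∀ v, 0 ≤ D v) (w : Place K F') :
    0 ≤ Divisor.pullbackAlong φ hφ D w := by
  letI := algebraAlong φ
  haveI := isScalarTower_along φ
  haveI := isIntegral_along φ hφ
  show 0 ≤ Divisor.pullback F' D w
  rw [Divisor.pullback_apply]
  exact mul_nonneg (Int.natCast_nonneg _) (hD _)

theorem pushforwardAlong_nonneg (φ : F →ₐ[K] F')
    (hφ : φ.toRingHom.IsIntegral) (D : Divisor K F') (hD : ∀ w, 0 ≤ D w) (v : Place K F) :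
    0 ≤ Divisor.pushforwardAlong φ hφ D v := by
  classical
  letI := algebraAlong φ
  haveI := isScalarTower_along φ
  haveI := isIntegral_along φ hφ
  show 0 ≤ Divisor.pushforward F D v
  rw [Divisor.pushforward_apply]
  refine Finset.sum_nonneg fun w _ => ?_
  split_ifs
  · exact mul_nonneg (hD w) (Int.natCast_nonneg _)
  · exact le_rfl

end General

section Hecke

variable {L : Type*} [Field L] [Algebra ℚ L] {N ℓ : ℕ} [NeZero N] [NeZero ℓ]
variable (hα : HeckeAlphaBarIntegral L N ℓ) (hβ : HeckeBetaBarIntegral L N ℓ)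
variable [HasPrincipalDivisors L (laurentBaseChange L (modularFunctionFieldFull (N * ℓ)))]

/-- `T (P)` has `ℓ¹`-norm `[F_{Nℓ} : β F_N]`. -/
theorem l1norm_heckeDivBar_single
    (hdeg : ∀ P : Place L (laurentBaseChange L (modularFunctionFieldFull N)), P.deg = 1)
    (hFI : FundamentalIdentityAlong L (heckeBetaBar L N ℓ) hβ)
    (P : Place L (laurentBaseChange L (modularFunctionFieldFull N))) :
    l1norm (heckeDivBar hα hβ (Finsupp.single P 1)) = finrankAlong L (heckeBetaBar L N ℓ) := by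
  classical
  have hnn : ∀ v, 0 ≤ heckeDivBar hα hβ (Finsupp.single P 1) v := by
    intro v
    refine pushforwardAlong_nonneg (heckeAlphaBar L N ℓ) hα _ (fun w => ?_) v
    refine pullbackAlong_nonneg (heckeBetaBar L N ℓ) hβ _ (fun u => ?_) w
    rw [Finsupp.single_apply]
    split_ifs <;> norm_num
  have h1 := l1norm_eq_degree_of_nonneg hdeg _ hnn
  have h2 : Divisor.degree (heckeDivBar hα hβ (Finsupp.single P 1))
      = (finrankAlong L (heckeBetaBar L N ℓ) : ℤ) * Divisor.degree (Finsupp.single P (1 : ℤ)) :=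
    Divisor.degree_correspondence (heckeBetaBar L N ℓ) (heckeAlphaBar L N ℓ) hβ hα hFI _
  rw [h2, Divisor.degree_single, hdeg P, Nat.cast_one, mul_one, mul_one] at h1
  exact_mod_cast h1

end Hecke

end Fermat.Agent.S37.H697

end
end
-- ===== PACK-END S37/H697/HeckeBound.lean

-- ===== PACK-BEGIN S28/H988/Upper.lean
section
/-
S28 / [L.UP] upper bound, helper988.
`[E_N : k(j)] ≤ ψ(N)` over ANY field `k`, from the modular relations at the primes dividing `N`;
adapter from the captain's `ModPolyData`.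
-/






set_option autoImplicit false

noncomputable section

open Polynomial ModularCurve

namespace Fermat.Agent.S28.H988

variable (k : Type*) [Field k]

/-- Adapter: the captain's `ModPolyData p` gives the relations over every field. -/
theorem phiRel_of_modPolyData (p : ℕ) [NeZero p] (D : Fermat.Agent.S28.ModPolyData p) :
    PhiRel k p D.Φ := by
  set c : LaurentSeries ℤ →+* LaurentSeries k := coeffMap (Int.castRingHom k) with hc
  have hcj : c (jqModC ℤ) = jqModC k := coeffMap_jqModC _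
  have hcjp : c (qExpand ℤ p (jqModC ℤ)) = jd k p := by
    rw [hc, coeffMap_qExpand, coeffMap_jqModC, jd_eq]
  have hcomp : ∀ y : LaurentSeries ℤ,
      c.comp (Fermat.Agent.S28.evalAt y) = eval₂RingHom (Int.castRingHom (LaurentSeries k)) (c y) := by
    intro y
    apply Polynomial.ringHom_ext
    · intro a
      simp [Fermat.Agent.S28.evalAt]
    · simp [Fermat.Agent.S28.evalAt]
  refine ⟨D.monic, D.natDegree_eq, ?_, ?_⟩
  · have := congrArg c D.eval_jp
    rw [map_zero, Polynomial.hom_eval₂, hcomp, hcj, hcjp, eval₂_eq_eval_map] at this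
    exact this
  · have := congrArg c D.eval_j
    rw [map_zero, Polynomial.hom_eval₂, hcomp, hcj, hcjp, eval₂_eq_eval_map] at this
    exact this

theorem full_one : modularFunctionFieldFullC k 1 = IntermediateField.adjoin k {jqModC k} := by
  apply le_antisymm
  · rw [full_le_iff k one_ne_zero]
    intro d hd
    rw [Nat.dvd_one.mp hd, jd_one]
    exact IntermediateField.mem_adjoin_simple_self k _
  · rw [IntermediateField.adjoin_le_iff]
    rintro x hx
    rw [Set.mem_singleton_iff] at hx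
    rw [hx]
    exact jqModC_mem_full k 1

variable {k}

/-- **Upper bound.** `0 < [E_N : E_1] ≤ ψ(N)`. -/
theorem relfinrank_full_le (Φ : ℕ → Polynomial (Polynomial ℤ)) (N : ℕ) (hN : N ≠ 0)
    (hΦ : ∀ r, r.Prime → r ∣ N → PhiRel k r (Φ r)) :
    0 < IntermediateField.relfinrank (modularFunctionFieldFullC k 1)
        (modularFunctionFieldFullC k N) ∧
    IntermediateField.relfinrank (modularFunctionFieldFullC k 1)
        (modularFunctionFieldFullC k N) ≤ dedekindPsi N := by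
  induction N using induction_on_primes with
  | zero => exact absurd rfl hN
  | one =>
    rw [IntermediateField.relfinrank_self, dedekindPsi_one]
    exact ⟨Nat.one_pos, le_rfl⟩
  | prime_mul p M hp ih =>
    have hM : M ≠ 0 := by rintro rfl; simp at hN
    rw [mul_comm p M] at hΦ ⊢
    have ih' := ih hM (fun r hr hrM => hΦ r hr (hrM.trans (Dvd.intro p rfl)))
    have hstep := relfinrank_step Φ hM hp hΦ
    have hMp : M * p ≠ 0 := Nat.mul_ne_zero hM hp.ne_zero
    have h1 : modularFunctionFieldFullC k 1 ≤ modularFunctionFieldFullC k M :=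
      full_mono k hM (one_dvd M)
    have h2 : modularFunctionFieldFullC k M ≤ modularFunctionFieldFullC k (M * p) :=
      full_mono k hMp (Dvd.intro p rfl)
    rw [← IntermediateField.relfinrank_mul_relfinrank h1 h2]
    refine ⟨Nat.mul_pos ih'.1 hstep.1, ?_⟩
    by_cases hpM : p ∣ M
    · rw [if_pos hpM] at hstep
      rw [Fermat.Agent.S20.H872.dedekindPsi_mul_prime_of_dvd hM hp hpM, mul_comm]
      exact Nat.mul_le_mul hstep.2 ih'.2
    · rw [if_neg hpM] at hstep
      rw [Fermat.Agent.S20.H872.dedekindPsi_mul_prime_of_not_dvd hM hp hpM, mul_comm]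
      exact Nat.mul_le_mul hstep.2 ih'.2

/-- **Upper bound**, existential form of the hypothesis. -/
theorem relfinrank_full_le' (N : ℕ) (hN : N ≠ 0)
    (hΦ : ∀ r : ℕ, r.Prime → r ∣ N → ∃ Φ : Polynomial (Polynomial ℤ), PhiRel k r Φ) :
    0 < IntermediateField.relfinrank (modularFunctionFieldFullC k 1)
        (modularFunctionFieldFullC k N) ∧
    IntermediateField.relfinrank (modularFunctionFieldFullC k 1)
        (modularFunctionFieldFullC k N) ≤ dedekindPsi N := by
  classical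
  set Φ : ℕ → Polynomial (Polynomial ℤ) := fun r =>
    if h : r.Prime ∧ r ∣ N then (hΦ r h.1 h.2).choose else 0 with hΦdef
  refine relfinrank_full_le Φ N hN ?_
  intro r hr hrN
  have hΦr : Φ r = (hΦ r hr hrN).choose := by
    rw [hΦdef]
    simp only
    rw [dif_pos ⟨hr, hrN⟩]
  rw [hΦr]
  exact (hΦ r hr hrN).choose_spec

/-- **Upper bound from the captain's interface**, over any field `k`:
`0 < [k(j(q^d) : d ∣ N) : k(j)] ≤ ψ(N)`. -/
theorem relfinrank_jField_full_le (N : ℕ) (hN : N ≠ 0)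
    (hΦ : ∀ (r : ℕ) (hr : r.Prime), r ∣ N →
      Nonempty (@Fermat.Agent.S28.ModPolyData r ⟨hr.ne_zero⟩)) :
    0 < IntermediateField.relfinrank (Fermat.Agent.S28.jField k)
        (modularFunctionFieldFullC k N) ∧
    IntermediateField.relfinrank (Fermat.Agent.S28.jField k)
        (modularFunctionFieldFullC k N) ≤ dedekindPsi N := by
  have hj : Fermat.Agent.S28.jField k = modularFunctionFieldFullC k 1 := (full_one k).symm
  rw [hj]
  refine relfinrank_full_le' N hN ?_
  intro r hr hrN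
  have : NeZero r := ⟨hr.ne_zero⟩
  obtain ⟨D⟩ := hΦ r hr hrN
  exact ⟨D.Φ, phiRel_of_modPolyData k r D⟩

/-- The same over `ℚ`, for the Prelude's `modularFunctionFieldFull`. -/
theorem relfinrank_jField_modularFunctionFieldFull_le (N : ℕ) (hN : N ≠ 0)
    (hΦ : ∀ (r : ℕ) (hr : r.Prime), r ∣ N →
      Nonempty (@Fermat.Agent.S28.ModPolyData r ⟨hr.ne_zero⟩)) :
    0 < IntermediateField.relfinrank (Fermat.Agent.S28.jField ℚ) (modularFunctionFieldFull N) ∧
    IntermediateField.relfinrank (Fermat.Agent.S28.jField ℚ) (modularFunctionFieldFull N)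
      ≤ dedekindPsi N :=
  relfinrank_jField_full_le (k := ℚ) N hN hΦ

end Fermat.Agent.S28.H988

end

end
-- ===== PACK-END S28/H988/Upper.lean

-- ===== PACK-BEGIN A2/Alg/H754/SmoothAbs.lean
section





/-!
# A2 / ALG / P-S (helper754): purity at a smooth point of the special fibre, abstract form

`B` a Noetherian integrally closed domain with fraction field `F`, `ϖ ≠ 0` with
`(ϖ) = p ⊓ p'` (two incomparable primes), `B / p` Dedekind, `n` a maximal ideal with `p ≤ n`,
`¬ p' ≤ n`.  If `u ∈ Fˣ` has divisor divisible by `m` at every height-one prime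
(`S18.H754.DivisibleDivisor`) and is a unit at `p`, then there is `d ∈ Fˣ` with `u d ^ m` a unit
at `n` and `d` a unit at `p` and at `p'`.

Proof: `B_n` is a Noetherian local domain, `ϖ` is prime in `B_n` and `𝔪 B_n = (ϖ, t)`, so `B_n`
is a UFD (`S18.H754.ufd_of_regular_pair`) and `u = ε s ^ (-m)` (`S18.H754.exists_unit_mul_pow`).
Then `s` is a unit at `p`, and `s = υ ϖ ^ j` at `p'`; correct by `g ^ (-j)`, `g := g₀ ^ 2 + ϖ`,
`g₀ ∈ p' ∖ n`.
-/

set_option autoImplicit false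
set_option linter.style.haveILetI false

noncomputable section

namespace Fermat.Agent.A2.Alg.H754

open IsLocalRing
open Fermat.Agent.S18.H754 (DivisibleDivisor LocallyPow)

variable {B F : Type*} [CommRing B] [IsDomain B] [Field F] [Algebra B F] [IsFractionRing B F]

section Components

omit [IsDomain B] in
/-- local generation of `p` by `ϖ` away from `p'`. -/
lemma exists_mul_eq_of_mem (ϖ : B) (p p' : Ideal B) (hinf : p ⊓ p' = Ideal.span {ϖ}) {g b : B}
    (hg : g ∈ p') (hb : b ∈ p) : ∃ c : B, g * b = ϖ * c := by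
  have h : g * b ∈ p ⊓ p' := ⟨p.mul_mem_left g hb, p'.mul_mem_right b hg⟩
  rw [hinf, Ideal.mem_span_singleton] at h
  exact h

omit [IsDomain B] in
lemma mem_minimalPrimes_of_inf (ϖ : B) (p p' : Ideal B) [hp : p.IsPrime]
    (hinf : p ⊓ p' = Ideal.span {ϖ}) (h21 : ¬ p' ≤ p) :
    p ∈ (Ideal.span {ϖ}).minimalPrimes := by
  refine ⟨⟨hp, ?_⟩, ?_⟩
  · rw [← hinf]
    exact inf_le_left
  · rintro q ⟨hq, hle⟩ hqp
    have h1 : p * p' ≤ q := le_trans Ideal.mul_le_inf (hinf ▸ hle)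
    rcases (Ideal.IsPrime.mul_le hq).1 h1 with h | h
    · exact h
    · exact absurd (le_trans h hqp) h21

lemma height_eq_one_of_inf [IsNoetherianRing B] (ϖ : B) (hϖ : ϖ ≠ 0) (p p' : Ideal B)
    [hp : p.IsPrime] (hinf : p ⊓ p' = Ideal.span {ϖ}) (h21 : ¬ p' ≤ p) : p.height = 1 := by
  apply le_antisymm
  · exact Ideal.height_le_one_of_isPrincipal_of_mem_minimalPrimes (Ideal.span {ϖ}) p
      (mem_minimalPrimes_of_inf ϖ p p' hinf h21)
  · rw [Order.one_le_iff_pos, pos_iff_ne_zero, Ne, Ideal.height_eq_zero_iff_eq_bot]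
    intro h0
    have : ϖ ∈ p := by
      have : ϖ ∈ p ⊓ p' := hinf ▸ Ideal.mem_span_singleton_self ϖ
      exact this.1
    rw [h0, Ideal.mem_bot] at this
    exact hϖ this

end Components

section Unif

variable [IsNoetherianRing B] [IsIntegrallyClosed B]

/-- At a height-one prime `𝔮` whose localisation has uniformiser `ϖ`, every nonzero element of
`F` is a unit at `𝔮` times an integer power of `ϖ`. -/
theorem exists_zpow_locU (𝔮 : Ideal B) [h𝔮 : 𝔮.IsPrime] (h : 𝔮.height = 1) (ϖ : B) (hϖ0 : ϖ ≠ 0)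
    (hϖ : ϖ ∈ 𝔮) (hgen : ∀ a ∈ 𝔮, ∃ g : B, g ∉ 𝔮 ∧ ∃ c : B, g * a = ϖ * c) {f : F}
    (hf : f ≠ 0) :
    ∃ (j : ℤ) (υ : F), LocU 𝔮 υ ∧ f = υ * (algebraMap B F ϖ) ^ j := by
  obtain ⟨W, hdvr, hW⟩ := Fermat.Agent.S18.H438.exists_dvr_of_height_one (F := F) 𝔮 h
  haveI := hdvr
  have h1𝔮 : (1 : B) ∉ 𝔮 := fun h1 => h𝔮.ne_top ((Ideal.eq_top_iff_one _).2 h1)
  have hinj : Function.Injective (algebraMap B F) := IsFractionRing.injective B F
  have hϖF : algebraMap B F ϖ ≠ 0 := fun h0 => hϖ0 (hinj (by rw [h0, map_zero]))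
  have hϖW : algebraMap B F ϖ ∈ W := (hW _).2 ⟨ϖ, 1, h1𝔮, by rw [map_one, mul_one]⟩
  -- units of `W`
  have hunit : ∀ x : W, IsUnit x ↔ LocU 𝔮 (x : F) := by
    intro x
    constructor
    · intro hx
      obtain ⟨y, hy⟩ := isUnit_iff_exists_inv.1 hx
      have hxy : (x : F) * (y : F) = 1 := by
        have := congrArg (Subtype.val) hy
        simpa using this
      have hx0 : (x : F) ≠ 0 := left_ne_zero_of_mul_eq_one hxy
      rw [locU_iff_of_valuationSubring 𝔮 W hW hx0]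
      refine ⟨x.2, ?_⟩
      rw [inv_eq_of_mul_eq_one_right hxy]
      exact y.2
    · intro hx
      have hx0 := hx.ne_zero
      obtain ⟨-, h2⟩ := (locU_iff_of_valuationSubring 𝔮 W hW hx0).1 hx
      exact isUnit_iff_exists_inv.2 ⟨⟨(x : F)⁻¹, h2⟩, Subtype.ext (mul_inv_cancel₀ hx0)⟩
  have hirr : Irreducible (⟨algebraMap B F ϖ, hϖW⟩ : W) := by
    rw [IsDiscreteValuationRing.irreducible_iff_uniformizer]
    ext x
    rw [IsLocalRing.mem_maximalIdeal, mem_nonunits_iff, Ideal.mem_span_singleton]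
    constructor
    · intro hx
      obtain ⟨a, s, hs, has⟩ := (hW x).1 x.2
      have ha : a ∈ 𝔮 := by
        by_contra ha
        exact hx ((hunit x).2 ⟨a, s, ha, hs, has⟩)
      obtain ⟨g, hg, c, hc⟩ := hgen a ha
      have hgs : g * s ∉ 𝔮 := fun hgs => (h𝔮.mem_or_mem hgs).elim hg hs
      have hgsF : algebraMap B F (g * s) ≠ 0 := LocU.algebraMap_ne_zero hgs
      have hy : algebraMap B F c * (algebraMap B F (g * s))⁻¹ ∈ W :=
        (hW _).2 ⟨c, g * s, hgs, by rw [mul_assoc, inv_mul_cancel₀ hgsF, mul_one]⟩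
      refine ⟨⟨_, hy⟩, Subtype.ext ?_⟩
      change (x : F) = algebraMap B F ϖ * (algebraMap B F c * (algebraMap B F (g * s))⁻¹)
      have e : (x : F) * algebraMap B F (g * s) = algebraMap B F ϖ * algebraMap B F c := by
        rw [map_mul, mul_comm (algebraMap B F g), ← mul_assoc, has, ← map_mul, ← map_mul,
          mul_comm a g, hc]
      rw [← mul_assoc, ← e, mul_assoc, mul_inv_cancel₀ hgsF, mul_one]
    · rintro ⟨y, rfl⟩ hu
      have hu' : IsUnit (⟨algebraMap B F ϖ, hϖW⟩ : W) := isUnit_of_mul_isUnit_left hu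
      obtain ⟨a, b, ha, hb, hab⟩ := (hunit _).1 hu'
      apply ha
      have : a = ϖ * b := hinj (by rw [map_mul]; exact hab.symm)
      rw [this]
      exact 𝔮.mul_mem_right b hϖ
  have key : ∀ x : W, x ≠ 0 →
      ∃ (j : ℕ) (υ : F), LocU 𝔮 υ ∧ (x : F) = υ * (algebraMap B F ϖ) ^ j := by
    intro x hx
    obtain ⟨j, υ, hxυ⟩ := IsDiscreteValuationRing.eq_unit_mul_pow_irreducible hx hirr
    refine ⟨j, ((υ : W) : F), (hunit _).1 υ.isUnit, ?_⟩
    rw [hxυ]
    rfl
  rcases W.mem_or_inv_mem f with hfW | hfW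
  · obtain ⟨j, υ, hυ, e⟩ := key ⟨f, hfW⟩ (fun h0 => hf (congrArg Subtype.val h0))
    exact ⟨j, υ, hυ, by rw [zpow_natCast]; exact e⟩
  · obtain ⟨j, υ, hυ, e⟩ := key ⟨f⁻¹, hfW⟩
      (fun h0 => inv_ne_zero hf (congrArg Subtype.val h0))
    refine ⟨-j, υ⁻¹, hυ.inv, ?_⟩
    have e' : f⁻¹ = υ * algebraMap B F ϖ ^ j := e
    rw [zpow_neg, zpow_natCast, ← mul_inv, ← e', inv_inv]

end Unif

section Main

variable [IsNoetherianRing B] [IsIntegrallyClosed B]

/-- **Purity at a smooth point, abstract form.** -/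
theorem pure_smooth_abs (ϖ : B) (hϖ : ϖ ≠ 0) (p p' : Ideal B) [hp : p.IsPrime]
    [hp' : p'.IsPrime] (hinf : p ⊓ p' = Ideal.span {ϖ}) (h12 : ¬ p ≤ p') (h21 : ¬ p' ≤ p)
    (hD : IsDedekindDomain (B ⧸ p))
    (n : Ideal B) (hn : n.IsMaximal) (hpn : p ≤ n) (hp'n : ¬ p' ≤ n)
    (m : ℕ) (hm : 0 < m) (u : F) (hu : u ≠ 0)
    (hdiv : DivisibleDivisor B m u) (hup : LocU p u) :
    ∃ d : F, d ≠ 0 ∧ LocU n (u * d ^ m) ∧ LocU p d ∧ LocU p' d := by
  classical
  haveI hnp : n.IsPrime := hn.isPrime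
  have h1n : (1 : B) ∉ n := fun h1 => hnp.ne_top ((Ideal.eq_top_iff_one _).2 h1)
  have hinj : Function.Injective (algebraMap B F) := IsFractionRing.injective B F
  obtain ⟨g₀, hg₀p', hg₀n⟩ := SetLike.not_le_iff_exists.1 hp'n
  obtain ⟨h₀, hh₀p, hh₀p'⟩ := SetLike.not_le_iff_exists.1 h12
  have hϖpp : ϖ ∈ p ⊓ p' := hinf ▸ Ideal.mem_span_singleton_self ϖ
  have hϖp : ϖ ∈ p := hϖpp.1
  have hϖp' : ϖ ∈ p' := hϖpp.2
  have hϖn : ϖ ∈ n := hpn hϖp
  have hϖF : algebraMap B F ϖ ≠ 0 := fun h0 => hϖ (hinj (by rw [h0, map_zero]))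
  -- local generator of `n` modulo `p`
  obtain ⟨t, htn, hreg⟩ : ∃ t ∈ n, ∀ a ∈ n, ∃ s : B, s ∉ n ∧ s * a ∈ Ideal.span {ϖ, t} := by
    haveI := hD
    have hsurj : Function.Surjective (Ideal.Quotient.mk p) := Ideal.Quotient.mk_surjective
    have hM : (n.map (Ideal.Quotient.mk p)).IsMaximal := by
      haveI := hn
      exact Ideal.IsMaximal.map_of_surjective_of_ker_le hsurj (by rw [Ideal.mk_ker]; exact hpn)
    obtain ⟨tb, htb, sb, hsb, hall⟩ :=
      Fermat.Agent.S18.B12.H84.exists_local_generator (n.map (Ideal.Quotient.mk p)) hM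
    obtain ⟨t, rfl⟩ := hsurj tb
    obtain ⟨s, rfl⟩ := hsurj sb
    have hmem : ∀ b : B, Ideal.Quotient.mk p b ∈ n.map (Ideal.Quotient.mk p) ↔ b ∈ n := by
      intro b
      rw [← Ideal.mem_comap, Ideal.comap_map_of_surjective _ hsurj, ← RingHom.ker_eq_comap_bot,
        Ideal.mk_ker, sup_eq_left.2 hpn]
    have hsn : s ∉ n := fun h => hsb ((hmem s).2 h)
    refine ⟨t, (hmem t).1 htb, fun a ha => ⟨g₀ * s, ?_, ?_⟩⟩
    · exact fun h => (hnp.mem_or_mem h).elim hg₀n hsn
    · have h1 := hall _ ((hmem a).2 ha)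
      rw [Ideal.mem_span_singleton'] at h1
      obtain ⟨cb, hcb⟩ := h1
      obtain ⟨c, rfl⟩ := hsurj cb
      have hd : s * a - c * t ∈ p := by
        rw [← Ideal.Quotient.eq, map_mul, map_mul]
        exact hcb.symm
      obtain ⟨e, he⟩ := exists_mul_eq_of_mem ϖ p p' hinf hg₀p' hd
      rw [Ideal.mem_span_pair]
      refine ⟨e, g₀ * c, ?_⟩
      linear_combination (-1 : B) * he
  -- the local ring `A = B_n ⊆ F`
  let A : Subalgebra B F :=
    Localization.subalgebra.ofField F n.primeCompl n.primeCompl_le_nonZeroDivisors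
  haveI : IsLocalization.AtPrime A n := (inferInstance : IsLocalization n.primeCompl A)
  haveI : IsLocalRing A := IsLocalization.AtPrime.isLocalRing A n
  haveI : IsNoetherianRing A := IsLocalization.isNoetherianRing n.primeCompl A inferInstance
  have hmapp : Ideal.span {algebraMap B A ϖ} = Ideal.map (algebraMap B A) p := by
    apply le_antisymm
    · rw [Ideal.span_singleton_le_iff_mem]
      exact Ideal.mem_map_of_mem _ hϖp
    · rw [Ideal.map_le_iff_le_comap]
      intro b hb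
      obtain ⟨c, hc⟩ := exists_mul_eq_of_mem ϖ p p' hinf hg₀p' hb
      rw [Ideal.mem_comap]
      have hu : IsUnit (algebraMap B A g₀) :=
        IsLocalization.map_units A (⟨g₀, hg₀n⟩ : n.primeCompl)
      have h2 : algebraMap B A g₀ * algebraMap B A b ∈ Ideal.span {algebraMap B A ϖ} := by
        rw [← map_mul, hc, map_mul]
        exact Ideal.mul_mem_right _ _ (Ideal.mem_span_singleton_self _)
      exact (Ideal.unit_mul_mem_iff_mem _ hu).1 h2
  have hprime : Prime (algebraMap B A ϖ) := by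
    have h0 : algebraMap B A ϖ ≠ 0 := fun h =>
      hϖ (IsLocalization.injective A n.primeCompl_le_nonZeroDivisors (by rw [h, map_zero]))
    rw [← Ideal.span_singleton_prime h0, hmapp]
    refine IsLocalization.isPrime_of_isPrime_disjoint n.primeCompl A p hp ?_
    rw [Set.disjoint_left]
    intro x hx hx'
    exact hx (hpn hx')
  have hmax : maximalIdeal A = Ideal.span {algebraMap B A ϖ, algebraMap B A t} :=
    Fermat.Agent.S18.H754.maximalIdeal_loc_eq_span_pair n A hϖn htn hreg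
  haveI : UniqueFactorizationMonoid A :=
    Fermat.Agent.S18.H754.ufd_of_regular_pair _ _ hprime hmax
  obtain ⟨s, hs0, ε, hε⟩ := Fermat.Agent.S18.H754.exists_unit_mul_pow (R := A) m hm u hu
    (fun π hπ => Fermat.Agent.S18.H754.locallyPow_of_divisibleDivisor n A hdiv π hπ)
  -- `u * s ^ m` is a unit at `n`
  have hUn : LocU n (u * s ^ m) := by
    have hne : u * s ^ m ≠ 0 := mul_ne_zero hu (pow_ne_zero _ hs0)
    refine locU_of_frac_of_inv_frac n hne ?_ ?_
    · rw [hε]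
      exact (Fermat.Agent.S18.H438.mem_ofField_primeCompl_iff n _).1 (ε : A).2
    · have e : (u * s ^ m)⁻¹ = algebraMap A F ((ε⁻¹ : Aˣ) : A) := by
        rw [hε]
        apply inv_eq_of_mul_eq_one_left
        rw [← map_mul, Units.inv_mul, map_one]
      rw [e]
      exact (Fermat.Agent.S18.H438.mem_ofField_primeCompl_iff n _).1 ((ε⁻¹ : Aˣ) : A).2
  -- `s` is a unit at `p`
  have hhtp : p.height = 1 := height_eq_one_of_inf ϖ hϖ p p' hinf h21
  have hhtp' : p'.height = 1 :=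
    height_eq_one_of_inf ϖ hϖ p' p (by rw [inf_comm]; exact hinf) h12
  have hsp : LocU p s := by
    obtain ⟨W, -, hW⟩ := Fermat.Agent.S18.H438.exists_dvr_of_height_one (F := F) p hhtp
    refine locU_of_pow p W hW hm ?_
    have h1 : LocU p (s ^ m * u) := by
      rw [mul_comm]
      exact hUn.mono hpn
    exact h1.of_mul_left hup
  -- `s` at `p'`
  have hgen' : ∀ a ∈ p', ∃ g : B, g ∉ p' ∧ ∃ c : B, g * a = ϖ * c := by
    intro a ha
    refine ⟨h₀, hh₀p', ?_⟩
    obtain ⟨c, hc⟩ := exists_mul_eq_of_mem ϖ p p' hinf ha hh₀p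
    exact ⟨c, by rw [mul_comm, hc]⟩
  obtain ⟨j, υ, hυ, hsυ⟩ := exists_zpow_locU p' hhtp' ϖ hϖ hϖp' hgen' hs0
  -- the correcting element
  have hgn : g₀ ^ 2 + ϖ ∉ n := by
    intro h
    have h2 : g₀ ^ 2 ∈ n := by
      have := n.sub_mem h hϖn
      rwa [add_sub_cancel_right] at this
    exact hg₀n (hnp.mem_of_pow_mem 2 h2)
  have hgp' : LocU p' (algebraMap B F (g₀ ^ 2 + ϖ) * (algebraMap B F ϖ)⁻¹) := by
    obtain ⟨c, hc⟩ := exists_mul_eq_of_mem ϖ p p' hinf hg₀p' hh₀p
    have hh2 : h₀ ^ 2 ∉ p' := fun h => hh₀p' (hp'.mem_of_pow_mem 2 h)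
    refine ⟨ϖ * c ^ 2 + h₀ ^ 2, h₀ ^ 2, ?_, hh2, ?_⟩
    · intro h
      apply hh2
      have := p'.sub_mem h (p'.mul_mem_right (c ^ 2) hϖp')
      rwa [add_sub_cancel_left] at this
    · have key : (g₀ ^ 2 + ϖ) * h₀ ^ 2 = ϖ * (ϖ * c ^ 2 + h₀ ^ 2) := by
        linear_combination (g₀ * h₀ + ϖ * c) * hc
      rw [mul_right_comm, ← map_mul, key, map_mul, mul_right_comm, mul_inv_cancel₀ hϖF, one_mul]
  have hGn : LocU n (algebraMap B F (g₀ ^ 2 + ϖ)) := LocU.of_notMem hgn h1n
  have hG0 : algebraMap B F (g₀ ^ 2 + ϖ) ≠ 0 := hGn.ne_zero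
  refine ⟨s * (algebraMap B F (g₀ ^ 2 + ϖ)) ^ (-j), mul_ne_zero hs0 (zpow_ne_zero _ hG0), ?_, ?_,
    ?_⟩
  · have e : u * (s * (algebraMap B F (g₀ ^ 2 + ϖ)) ^ (-j)) ^ m =
        (u * s ^ m) * ((algebraMap B F (g₀ ^ 2 + ϖ)) ^ (-j)) ^ m := by
      rw [mul_pow, mul_assoc]
    rw [e]
    exact hUn.mul ((hGn.zpow (-j)).pow m)
  · exact hsp.mul ((hGn.mono hpn).zpow (-j))
  · have e : s * (algebraMap B F (g₀ ^ 2 + ϖ)) ^ (-j) =
        υ * (algebraMap B F (g₀ ^ 2 + ϖ) * (algebraMap B F ϖ)⁻¹) ^ (-j) := by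
      rw [hsυ, mul_zpow, inv_zpow', neg_neg]
      ring
    rw [e]
    exact hυ.mul (hgp'.zpow (-j))

end Main

end Fermat.Agent.A2.Alg.H754

end

end
-- ===== PACK-END A2/Alg/H754/SmoothAbs.lean

-- ===== PACK-BEGIN A2/Mod/H553/Vinf.lean
section



/-!
# A2 / MOD leaves L1 `VinfExists`, L2 `VinfBasic` (helper553)

Level `E` Gauss valuation `V∞` of `F_{N,E} = E(j_d : d ∣ N)` over `R_E = P ∩ E` (a DVR):

* `VinfE P E N` : the valuation subring (`= H708.gaussInf`), `isVinf_VinfE`, `IsVinf.eq`;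
* `mem_of_int`, `inv_mem_of_int` : functions with integral `t`-expansion lie in `V∞`; if a
  coefficient is `±1` they are units of `V∞`;
* `vinfExists : VinfExistsStatement P E`  (L1);
* `vinfBasic : VinfBasicStatement P E w`  (L2).
-/

set_option autoImplicit false
set_option synthInstance.maxHeartbeats 400000
set_option maxHeartbeats 1600000
set_option linter.unusedSectionVars false
set_option linter.style.haveILetI false

noncomputable section

namespace Fermat.Agent.A2.Mod.H553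

open ModularCurve HahnSeries Polynomial
open Fermat.Agent.A2 Fermat.Agent.A2.Mod

variable (P : ValuationSubring _root_.Fermat.Agent.A2.Mod.Qb) (E : IntermediateField ℚ _root_.Fermat.Agent.A2.Mod.Qb)

/-- the Gauss valuation ring at `∞` of `F_{N,E}` -/
def VinfE (N : ℕ) [IsNoetherianRing ↥(_root_.Fermat.Agent.A2.Mod.RE P E)] : ValuationSubring ↥(_root_.Fermat.Agent.A2.Mod.FE E N) :=
  H708.gaussInf (_root_.Fermat.Agent.A2.Mod.RE P E) (modularFunctionFieldFull N) (H708.intGen_full N)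
    (H708.attainsMax_of_isNoetherianRing (_root_.Fermat.Agent.A2.Mod.RE P E) (modularFunctionFieldFull N))

theorem isVinf_VinfE (N : ℕ) [IsNoetherianRing ↥(_root_.Fermat.Agent.A2.Mod.RE P E)] : IsVinf P E N (VinfE P E N) :=
  fun _ => Iff.rfl

variable {P E}

theorem eq_VinfE_of_isVinf {N : ℕ} [IsNoetherianRing ↥(_root_.Fermat.Agent.A2.Mod.RE P E)] {V : ValuationSubring ↥(_root_.Fermat.Agent.A2.Mod.FE E N)}
    (hV : IsVinf P E N V) : V = VinfE P E N := by
  ext f
  rw [hV f]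
  exact ((isVinf_VinfE P E N) f).symm

/-- integral series, in `E((t))` -/
theorem coeffEmb_castQ (g : LaurentSeries ℤ) :
    coeffEmb (↥E) (H708.castQ g) = H708.incl (_root_.Fermat.Agent.A2.Mod.RE P E) (H708.castA (_root_.Fermat.Agent.A2.Mod.RE P E) g) :=
  (H708.incl_castA (_root_.Fermat.Agent.A2.Mod.RE P E) g).symm

/-- functions with integral `t`-expansion lie in `V∞` -/
theorem mem_of_int {N : ℕ} {V : ValuationSubring ↥(_root_.Fermat.Agent.A2.Mod.FE E N)} (hV : IsVinf P E N V)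
    {f : ↥(_root_.Fermat.Agent.A2.Mod.FE E N)} {g : LaurentSeries ℤ}
    (hfg : (f : LaurentSeries ↥E) = coeffEmb (↥E) (H708.castQ g)) : f ∈ V := by
  rw [hV f, hfg, coeffEmb_castQ (P := P)]
  exact H708.IsGaussInt.of_incl _

theorem red_castA_ne_zero {g : LaurentSeries ℤ} {k : ℤ}
    (hk : g.coeff k = 1 ∨ g.coeff k = -1) :
    H708.red (_root_.Fermat.Agent.A2.Mod.RE P E) (H708.castA (_root_.Fermat.Agent.A2.Mod.RE P E) g) ≠ 0 := by
  rw [H708.red_ne_zero_iff]
  refine ⟨k, ?_⟩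
  have h1 : (((H708.castA (_root_.Fermat.Agent.A2.Mod.RE P E) g).coeff k : ↥(_root_.Fermat.Agent.A2.Mod.RE P E)) : ↥E) = ((g.coeff k : ℤ) : ↥E) := by
    show ((((g.coeff k : ℤ) : ↥(_root_.Fermat.Agent.A2.Mod.RE P E))) : ↥E) = _
    simp
  rw [h1]
  rcases hk with hk | hk
  · rw [hk]; simp
  · rw [hk]; simp

/-- functions with integral `t`-expansion having a coefficient `±1` are units of `V∞` -/
theorem inv_mem_of_int {N : ℕ} {V : ValuationSubring ↥(_root_.Fermat.Agent.A2.Mod.FE E N)} (hV : IsVinf P E N V)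
    {f : ↥(_root_.Fermat.Agent.A2.Mod.FE E N)} {g : LaurentSeries ℤ} {k : ℤ}
    (hfg : (f : LaurentSeries ↥E) = coeffEmb (↥E) (H708.castQ g))
    (hk : g.coeff k = 1 ∨ g.coeff k = -1) : f⁻¹ ∈ V := by
  rw [hV f⁻¹]
  have hf : (f : LaurentSeries ↥E) = H708.incl (_root_.Fermat.Agent.A2.Mod.RE P E) (H708.castA (_root_.Fermat.Agent.A2.Mod.RE P E) g) := by
    rw [hfg, coeffEmb_castQ (P := P)]
  have hred := red_castA_ne_zero (P := P) (E := E) hk
  have hne : H708.incl (_root_.Fermat.Agent.A2.Mod.RE P E) (H708.castA (_root_.Fermat.Agent.A2.Mod.RE P E) g) ≠ 0 :=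
    H708.incl_ne_zero _ (H708.ne_zero_of_red_ne_zero _ hred)
  refine ⟨1, H708.castA (_root_.Fermat.Agent.A2.Mod.RE P E) g, hred, ?_, ?_⟩
  · rw [← hf]
    exact f.2
  · rw [IntermediateField.coe_inv, hf, inv_mul_cancel₀ hne, map_one]

/-- the generators `j_d` as integral series -/
theorem coe_jE (N d : ℕ) [NeZero d] (hd : d ∣ N) :
    ((jE E N d hd : ↥(_root_.Fermat.Agent.A2.Mod.FE E N)) : LaurentSeries ↥E) = coeffEmb (↥E) (H708.castQ (H708.jInt d)) := by
  rw [H708.castQ_jInt]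
  rfl

theorem coeff_jInt_top (d : ℕ) [NeZero d] : (H708.jInt d).coeff (-(d : ℤ)) = 1 := by
  have h := coeff_jqModC_pow_self ℤ 1
  rw [H708.jInt, jqNModC,
    show (-(d : ℤ)) = (d : ℤ) * (-((1 : ℕ) : ℤ)) by push_cast; ring, qExpand_coeff_mul]
  simpa using h

variable (P E)

/-- **L1.** -/
theorem vinfExists : VinfExistsStatement P E := by
  intro N _ hdvr
  haveI := hdvr
  exact ⟨VinfE P E N, isVinf_VinfE P E N⟩

/-- `V∞ ∩ E = R_E`. -/
theorem algebraMap_mem_iff {N : ℕ} [IsNoetherianRing ↥(_root_.Fermat.Agent.A2.Mod.RE P E)] {V : ValuationSubring ↥(_root_.Fermat.Agent.A2.Mod.FE E N)}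
    (hV : IsVinf P E N V) (e : ↥E) : algebraMap ↥E ↥(_root_.Fermat.Agent.A2.Mod.FE E N) e ∈ V ↔ e ∈ _root_.Fermat.Agent.A2.Mod.RE P E := by
  rw [eq_VinfE_of_isVinf hV]
  exact H708.algebraMap_mem_gaussInf_iff _ _ e

/-- every nonzero function is a constant times a unit of `V∞` -/
theorem exists_const_mul_unit {N : ℕ} [IsNoetherianRing ↥(_root_.Fermat.Agent.A2.Mod.RE P E)]
    {V : ValuationSubring ↥(_root_.Fermat.Agent.A2.Mod.FE E N)} (hV : IsVinf P E N V) {f : ↥(_root_.Fermat.Agent.A2.Mod.FE E N)} (hf : f ≠ 0) :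
    ∃ c : ↥E, c ≠ 0 ∧ V.valuation (f * (algebraMap ↥E ↥(_root_.Fermat.Agent.A2.Mod.FE E N) c)⁻¹) = 1 := by
  rw [eq_VinfE_of_isVinf hV]
  exact H708.exists_const_mul_unit _ _ hf

/-- **L2.** -/
theorem vinfBasic (w : _root_.Fermat.Agent.A2.Mod.RE P E) : VinfBasicStatement P E w := by
  intro N _ hdvr hw V hV
  haveI := hdvr
  have hw0 : (w : ↥E) ≠ 0 := by
    intro h0
    exact hw.ne_zero (Subtype.ext h0)
  have hwinv : ((w : ↥E))⁻¹ ∉ _root_.Fermat.Agent.A2.Mod.RE P E := by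
    intro hmem
    apply hw.not_isUnit
    refine isUnit_iff_exists_inv.mpr ⟨⟨_, hmem⟩, Subtype.ext ?_⟩
    show (w : ↥E) * ((w : ↥E))⁻¹ = 1
    exact mul_inv_cancel₀ hw0
  refine ⟨⟨?_, ?_, ?_⟩, fun e => algebraMap_mem_iff P E hV e, ?_⟩
  · exact (algebraMap_mem_iff P E hV _).mpr w.2
  · intro hmem
    have h1 : (cE P E N w)⁻¹ = algebraMap ↥E ↥(_root_.Fermat.Agent.A2.Mod.FE E N) ((w : ↥E))⁻¹ := (map_inv₀ _ _).symm
    rw [h1] at hmem
    exact hwinv ((algebraMap_mem_iff P E hV _).mp hmem)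
  · intro f hfV hfinv
    rcases eq_or_ne f 0 with rfl | hf0
    · rw [zero_mul]; exact V.zero_mem
    obtain ⟨c, hc0, hu⟩ := exists_const_mul_unit P E hV hf0
    obtain ⟨u, hu_def⟩ : ∃ u : ↥(_root_.Fermat.Agent.A2.Mod.FE E N), u = f * (algebraMap ↥E ↥(_root_.Fermat.Agent.A2.Mod.FE E N) c)⁻¹ := ⟨_, rfl⟩
    rw [← hu_def] at hu
    have hcF : algebraMap ↥E ↥(_root_.Fermat.Agent.A2.Mod.FE E N) c ≠ 0 :=
      (map_ne_zero_iff _ (algebraMap ↥E ↥(_root_.Fermat.Agent.A2.Mod.FE E N)).injective).mpr hc0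
    have hu0 : u ≠ 0 := by
      rw [hu_def]
      exact mul_ne_zero hf0 (inv_ne_zero hcF)
    have huV : u ∈ V := (V.valuation_le_one_iff _).mp hu.le
    have huinvV : u⁻¹ ∈ V := by
      rw [← V.valuation_le_one_iff, map_inv₀, hu, inv_one]
    have hfu : f = u * algebraMap ↥E ↥(_root_.Fermat.Agent.A2.Mod.FE E N) c := by
      rw [hu_def, mul_assoc, inv_mul_cancel₀ hcF, mul_one]
    -- `c ∈ R`
    have hcV : algebraMap ↥E ↥(_root_.Fermat.Agent.A2.Mod.FE E N) c ∈ V := by
      have : algebraMap ↥E ↥(_root_.Fermat.Agent.A2.Mod.FE E N) c = u⁻¹ * f := by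
        rw [hfu, ← mul_assoc, inv_mul_cancel₀ hu0, one_mul]
      rw [this]
      exact V.mul_mem _ _ huinvV hfV
    have hcR : c ∈ _root_.Fermat.Agent.A2.Mod.RE P E := (algebraMap_mem_iff P E hV c).mp hcV
    -- `c` is not a unit of `R`
    have hcnu : ¬ IsUnit (⟨c, hcR⟩ : ↥(_root_.Fermat.Agent.A2.Mod.RE P E)) := by
      intro hunit
      obtain ⟨d, hd⟩ := isUnit_iff_exists_inv.mp hunit
      have hd' : c * (d : ↥E) = 1 := congrArg Subtype.val hd
      have hdinv : c⁻¹ = (d : ↥E) := by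
        rw [inv_eq_iff_eq_inv]
        exact eq_inv_of_mul_eq_one_left hd'
      apply hfinv
      have : f⁻¹ = u⁻¹ * algebraMap ↥E ↥(_root_.Fermat.Agent.A2.Mod.FE E N) (d : ↥E) := by
        rw [hfu, mul_inv, ← hdinv, map_inv₀]
      rw [this]
      exact V.mul_mem _ _ huinvV ((algebraMap_mem_iff P E hV _).mpr d.2)
    have hcm : (⟨c, hcR⟩ : ↥(_root_.Fermat.Agent.A2.Mod.RE P E)) ∈ IsLocalRing.maximalIdeal ↥(_root_.Fermat.Agent.A2.Mod.RE P E) :=
      (IsLocalRing.mem_maximalIdeal _).mpr hcnu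
    rw [hw.maximalIdeal_eq, Ideal.mem_span_singleton'] at hcm
    obtain ⟨r, hr⟩ := hcm
    have hr' : (r : ↥E) * (w : ↥E) = c := congrArg Subtype.val hr
    have hcwF : cE P E N w ≠ 0 :=
      (map_ne_zero_iff _ (algebraMap ↥E ↥(_root_.Fermat.Agent.A2.Mod.FE E N)).injective).mpr hw0
    have hcr : algebraMap ↥E ↥(_root_.Fermat.Agent.A2.Mod.FE E N) c = algebraMap ↥E ↥(_root_.Fermat.Agent.A2.Mod.FE E N) (r : ↥E) * cE P E N w := by
      rw [← hr', map_mul]
      rfl
    have : f * (cE P E N w)⁻¹ = u * algebraMap ↥E ↥(_root_.Fermat.Agent.A2.Mod.FE E N) (r : ↥E) := by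
      rw [hfu, hcr, mul_assoc, mul_assoc, mul_inv_cancel₀ hcwF, mul_one]
    rw [this]
    exact V.mul_mem _ _ huV ((algebraMap_mem_iff P E hV _).mpr r.2)
  · intro d _ hd
    exact ⟨mem_of_int hV (coe_jE N d hd),
      inv_mem_of_int hV (coe_jE N d hd) (Or.inl (coeff_jInt_top d))⟩

end Fermat.Agent.A2.Mod.H553

end
end
-- ===== PACK-END A2/Mod/H553/Vinf.lean

-- ===== PACK-BEGIN A2/H553/Prim.lean
section




/-!
# A2 / K2c (helper553): primitive factorisation over `A ∩ E` and Gauss forms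

* `exists_uniformizer` : discreteness of `v_A` on a finite extension `E/ℚ`;
* `exists_prim_factor` : a nonzero series with coefficients in `A ∩ E` is `C c * (primitive)`;
* `FinFrac.hasGaussForm` : `FinFrac A x`, `x ≠ 0` ⟹ `HasGaussForm A x`.
-/

set_option autoImplicit false
set_option linter.unusedSectionVars false
set_option linter.style.haveILetI false

noncomputable section

namespace Fermat.Agent.A2.H553

open ModularCurve HahnSeries IntermediateField Fermat.Agent.S28.H86 Fermat.Agent.S18.H602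

local notation "Q̄" => AlgebraicClosure ℚ

variable {A : ValuationSubring Q̄} {ℓ : ℕ}

/-- Discreteness of `v_A` on a finite extension `E` of `ℚ`. -/
theorem exists_uniformizer (hℓ : ℓ ≠ 0) (hA : A.LiesOverPrime ℓ)
    (E : IntermediateField ℚ Q̄) [FiniteDimensional ℚ E] :
    ∃ ϖ : Q̄, ϖ ≠ 0 ∧ A.valuation ϖ < 1 ∧
      ∀ y : Q̄, y ∈ A → y ∈ E → y ≠ 0 → ∃ k : ℕ, A.valuation y = A.valuation ϖ ^ k := by
  haveI : IsDiscreteValuationRing ↥(_root_.Fermat.Agent.S18.H602.RE A E) := isDiscreteValuationRing_RE A E hℓ hA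
  obtain ⟨ϖ, hϖ⟩ := IsDiscreteValuationRing.exists_irreducible ↥(_root_.Fermat.Agent.S18.H602.RE A E)
  have hunit : ∀ u : (↥(_root_.Fermat.Agent.S18.H602.RE A E))ˣ, A.valuation (((u : ↥(_root_.Fermat.Agent.S18.H602.RE A E)) : E) : Q̄) = 1 := by
    intro u
    have h1 : ((((u : ↥(_root_.Fermat.Agent.S18.H602.RE A E)) : E) : Q̄)) ∈ A := (u : ↥(_root_.Fermat.Agent.S18.H602.RE A E)).2
    have h2 : (((((u⁻¹ : (↥(_root_.Fermat.Agent.S18.H602.RE A E))ˣ) : ↥(_root_.Fermat.Agent.S18.H602.RE A E)) : E) : Q̄)) ∈ A :=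
      ((u⁻¹ : (↥(_root_.Fermat.Agent.S18.H602.RE A E))ˣ) : ↥(_root_.Fermat.Agent.S18.H602.RE A E)).2
    have h3 : ((((u : ↥(_root_.Fermat.Agent.S18.H602.RE A E)) : E) : Q̄)) *
        (((((u⁻¹ : (↥(_root_.Fermat.Agent.S18.H602.RE A E))ˣ) : ↥(_root_.Fermat.Agent.S18.H602.RE A E)) : E) : Q̄)) = 1 := by
      exact congrArg (fun z : ↥(_root_.Fermat.Agent.S18.H602.RE A E) => ((z : E) : Q̄)) (u.mul_inv)
    have e1 := (A.valuation_le_one_iff _).mpr h1
    have e2 := (A.valuation_le_one_iff _).mpr h2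
    have e3 := congrArg A.valuation h3
    rw [map_mul, map_one] at e3
    by_contra hne
    have hlt : A.valuation ((((u : ↥(_root_.Fermat.Agent.S18.H602.RE A E)) : E) : Q̄)) < 1 := lt_of_le_of_ne e1 hne
    have : A.valuation ((((u : ↥(_root_.Fermat.Agent.S18.H602.RE A E)) : E) : Q̄)) *
        A.valuation (((((u⁻¹ : (↥(_root_.Fermat.Agent.S18.H602.RE A E))ˣ) : ↥(_root_.Fermat.Agent.S18.H602.RE A E)) : E) : Q̄)) < 1 :=
      mul_lt_one_of_nonneg_of_lt_one_left zero_le hlt e2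
    rw [e3] at this
    exact lt_irrefl _ this
  refine ⟨((ϖ : E) : Q̄), ?_, ?_, ?_⟩
  · intro h0
    apply hϖ.ne_zero
    apply Subtype.ext
    apply Subtype.ext
    simpa using h0
  · have h1 : A.valuation ((ϖ : E) : Q̄) ≤ 1 := (A.valuation_le_one_iff _).mpr ϖ.2
    refine lt_of_le_of_ne h1 ?_
    intro h1'
    apply hϖ.not_isUnit
    have hϖ0 : ((ϖ : E) : Q̄) ≠ 0 := by
      intro h0
      rw [h0, map_zero] at h1'
      exact zero_ne_one h1'
    have hinvA : (((ϖ : E) : Q̄))⁻¹ ∈ A := by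
      rw [← A.valuation_le_one_iff, map_inv₀, h1', inv_one]
    have hinv : ((ϖ : E)⁻¹ : E) ∈ _root_.Fermat.Agent.S18.H602.RE A E := by
      rw [mem_RE]
      have : (((ϖ : E)⁻¹ : E) : Q̄) = (((ϖ : E) : Q̄))⁻¹ := by simp
      rw [this]
      exact hinvA
    have hϖE : (ϖ : E) ≠ 0 := by
      intro h0
      apply hϖ0
      rw [h0]; rfl
    exact isUnit_iff_exists_inv.mpr ⟨⟨(ϖ : E)⁻¹, hinv⟩, Subtype.ext (mul_inv_cancel₀ hϖE)⟩
  · intro y hyA hyE hy0
    set y' : ↥(_root_.Fermat.Agent.S18.H602.RE A E) := ⟨⟨y, hyE⟩, hyA⟩ with hy'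
    have hy'0 : y' ≠ 0 := by
      intro h0
      apply hy0
      have := congrArg (fun z : ↥(_root_.Fermat.Agent.S18.H602.RE A E) => ((z : E) : Q̄)) h0
      simpa [hy'] using this
    obtain ⟨n, u, hu⟩ := IsDiscreteValuationRing.eq_unit_mul_pow_irreducible hy'0 hϖ
    refine ⟨n, ?_⟩
    have h1 : y = (((u : ↥(_root_.Fermat.Agent.S18.H602.RE A E)) : E) : Q̄) * (((ϖ : E) : Q̄)) ^ n := by
      have := congrArg (fun z : ↥(_root_.Fermat.Agent.S18.H602.RE A E) => ((z : E) : Q̄)) hu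
      simpa [hy'] using this
    rw [h1, map_mul, map_pow, hunit u, one_mul]

/-- Primitive factorisation: a nonzero series with coefficients in `A ∩ E` (`E/ℚ` finite) is a
nonzero constant times a primitive `A`-integral series. -/
theorem exists_prim_factor (hℓ : ℓ ≠ 0) (hA : A.LiesOverPrime ℓ)
    {E : IntermediateField ℚ Q̄} [FiniteDimensional ℚ E] {a : LaurentSeries Q̄}
    (ha : a ∈ coeffSubring (capSubring A E)) (ha0 : a ≠ 0) :
    ∃ c : Q̄, c ≠ 0 ∧ ∃ a' : LaurentSeries ↥A.toSubring,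
      redL (resA A) a' ≠ 0 ∧ a = HahnSeries.C c * inclL A.toSubring a' := by
  classical
  obtain ⟨ϖ, hϖ0, hϖ1, hval⟩ := exists_uniformizer hℓ hA E
  have hvϖ : A.valuation ϖ ≠ 0 := (Valuation.ne_zero_iff _).mpr hϖ0
  have hvpos : 0 < A.valuation ϖ := zero_lt_iff.mpr hvϖ
  -- the set of exponents
  have hex : ∃ k : ℕ, ∃ n, a.coeff n ≠ 0 ∧ A.valuation (a.coeff n) = A.valuation ϖ ^ k := by
    obtain ⟨n, hn⟩ : ∃ n, a.coeff n ≠ 0 := by
      by_contra hcon
      push Not at hcon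
      exact ha0 (HahnSeries.ext (funext hcon))
    obtain ⟨k, hk⟩ := hval _ (ha n).1 (ha n).2 hn
    exact ⟨k, n, hn, hk⟩
  set k₀ := Nat.find hex with hk₀
  obtain ⟨n₀, hn₀, hvn₀⟩ := Nat.find_spec hex
  have hmin : ∀ n, a.coeff n ≠ 0 → ∃ k, k₀ ≤ k ∧ A.valuation (a.coeff n) = A.valuation ϖ ^ k := by
    intro n hn
    obtain ⟨k, hk⟩ := hval _ (ha n).1 (ha n).2 hn
    exact ⟨k, Nat.find_min' hex ⟨n, hn, hk⟩, hk⟩
  set c : Q̄ := ϖ ^ k₀ with hc
  have hc0 : c ≠ 0 := pow_ne_zero _ hϖ0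
  have hvc : A.valuation c = A.valuation ϖ ^ k₀ := by rw [hc, map_pow]
  -- the scaled series
  set a'' : LaurentSeries Q̄ := HahnSeries.C c⁻¹ * a with ha''
  have hcoeff : ∀ n, a''.coeff n = c⁻¹ * a.coeff n := fun n => coeff_C_mul' _ _ _
  have hint : a'' ∈ coeffSubring A.toSubring := by
    intro n
    rw [hcoeff]
    rcases eq_or_ne (a.coeff n) 0 with h0 | h0
    · rw [h0, mul_zero]; exact A.zero_mem
    · obtain ⟨k, hk, hvk⟩ := hmin n h0
      show c⁻¹ * a.coeff n ∈ A
      rw [← A.valuation_le_one_iff, map_mul, map_inv₀, hvc, hvk]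
      obtain ⟨d, rfl⟩ := Nat.exists_eq_add_of_le hk
      rw [_root_.pow_add, ← mul_assoc, inv_mul_cancel₀ (pow_ne_zero _ hvϖ), one_mul]
      exact pow_le_one₀ zero_le hϖ1.le
  obtain ⟨a', ha'⟩ := exists_inclL_eq hint
  refine ⟨c, hc0, a', ?_, ?_⟩
  · rw [redL_ne_zero_iff]
    refine ⟨n₀, ?_⟩
    have : ((a'.coeff n₀ : ↥A.toSubring) : Q̄) = a''.coeff n₀ := by
      rw [← ha', inclL_coeff]
    rw [this, hcoeff, map_mul, map_inv₀, hvc, hvn₀, ← hk₀,
      inv_mul_cancel₀ (pow_ne_zero _ hvϖ)]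
  · rw [ha', ha'', ← mul_assoc, ← map_mul, mul_inv_cancel₀ hc0, map_one, one_mul]

/-- `FinFrac` elements are constants times Gauss units. -/
theorem FinFrac.hasGaussForm (hℓ : ℓ ≠ 0) (hA : A.LiesOverPrime ℓ) {x : LaurentSeries Q̄}
    (h : FinFrac A x) (hx : x ≠ 0) : HasGaussForm A x := by
  obtain ⟨E, hE, a, b, ha, hb, hb0, hab⟩ := h
  haveI := hE
  have ha0 : a ≠ 0 := by rw [← hab]; exact mul_ne_zero hx hb0
  obtain ⟨ca, hca, a', ha', rfl⟩ := exists_prim_factor hℓ hA ha ha0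
  obtain ⟨cb, hcb, b', hb', rfl⟩ := exists_prim_factor hℓ hA hb hb0
  refine ⟨ca / cb, div_ne_zero hca hcb, a', b', ha', hb', ?_⟩
  have hCb := C_ne_zero' (K := Q̄) hcb
  have e : (HahnSeries.C (ca / cb) : LaurentSeries Q̄) = HahnSeries.C ca * (HahnSeries.C cb)⁻¹ := by
    rw [div_eq_mul_inv, map_mul]
    congr 1
    apply eq_inv_of_mul_eq_one_left
    rw [← map_mul, inv_mul_cancel₀ hcb, map_one]
  rw [e]
  have h2 : x * inclL A.toSubring b' * HahnSeries.C cb =
      HahnSeries.C ca * inclL A.toSubring a' := by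
    rw [← hab]; ring
  calc x * inclL A.toSubring b'
      = (x * inclL A.toSubring b' * HahnSeries.C cb) * (HahnSeries.C cb)⁻¹ := by
        rw [mul_assoc, mul_inv_cancel₀ hCb, mul_one]
    _ = HahnSeries.C ca * (HahnSeries.C cb)⁻¹ * inclL A.toSubring a' := by
        rw [h2]; ring

end Fermat.Agent.A2.H553

end
end
-- ===== PACK-END A2/H553/Prim.lean

-- ===== PACK-BEGIN A2/Mod/H872/Unique.lean
section


/-!
# A2 / MOD leaf L7 (helper872), part 1: uniqueness of the Gauss extension (abstract)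

Mathlib + `H48` (helper48's QEP2 library) only.

`R` a factorial domain with prime element `ϖ`, `F` a field with an injective ring homomorphism
`R[X] → F` (`X ↦ x`), `V₁`, `V₂` valuation rings of `F` which both contain `R[X]`, have maximal
ideal generated by `ϖ` and induce the Gauss valuation on `Frac R[X]`.  If there are `n` elements
of `V₁` whose residues are linearly independent over `(R/ϖ)[X]` and which span `F` over
`Frac R[X]` (denominator form), then `V₁ = V₂`.

This is the case `f₁ = n = [F : K]` of the fundamental inequality; it is deduced from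
`H48.GaussPairLe.card` applied to the families `b` and `c = (1)`.
-/

set_option autoImplicit false

namespace Fermat.Agent.A2.Mod.H872

open Polynomial Fermat.Agent.A2.H48

section Abstract

variable {R : Type*} [CommRing R] [IsDomain R] [UniqueFactorizationMonoid R]
variable {K F : Type*} [Field K] [Field F] [Algebra R[X] K] [IsFractionRing R[X] K]
  [Algebra K F] [Algebra R[X] F] [IsScalarTower R[X] K F]

/-- Uniqueness of the Gauss extension, with an explicit fraction field `K` of `R[X]`. -/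
theorem eq_of_gauss_indep_of_finrank_le [FiniteDimensional K F] {ϖ : R}
    {V₁ V₂ : ValuationSubring F} {n : ℕ} {b : Fin n → F}
    (prime : Prime ϖ)
    (unif₁ : IsUnif V₁ (algebraMap R[X] F (C ϖ)))
    (unif₂ : IsUnif V₂ (algebraMap R[X] F (C ϖ)))
    (poly₁ : ∀ P : R[X], algebraMap R[X] F P ∈ V₁)
    (poly₂ : ∀ P : R[X], algebraMap R[X] F P ∈ V₂)
    (gauss₁ : ∀ P : R[X], ¬ C ϖ ∣ P → (algebraMap R[X] F P)⁻¹ ∈ V₁)
    (gauss₂ : ∀ P : R[X], ¬ C ϖ ∣ P → (algebraMap R[X] F P)⁻¹ ∈ V₂)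
    (b_mem : ∀ i, b i ∈ V₁)
    (b_indep : ∀ a : Fin n → R[X],
      (∑ i, algebraMap R[X] F (a i) * b i) * (algebraMap R[X] F (C ϖ))⁻¹ ∈ V₁ →
        ∀ i, C ϖ ∣ a i)
    (hle : Module.finrank K F ≤ n) : V₁ = V₂ := by
  by_contra hne
  have h : GaussPairLe (K := K) ϖ V₁ V₂ b (fun _ : Fin 1 => (1 : F)) :=
    { prime := prime
      unif₁ := unif₁
      unif₂ := unif₂
      poly₁ := poly₁
      poly₂ := poly₂
      gauss₁ := gauss₁
      gauss₂ := gauss₂
      ne := hne
      b_mem := b_mem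
      c_mem := fun _ => one_mem _
      b_indep := b_indep
      c_indep := by
        intro a ha j
        by_contra hdvd
        have hj : j = 0 := Subsingleton.elim _ _
        subst hj
        have hsum : (∑ j : Fin 1, algebraMap R[X] F (a j) * 1) = algebraMap R[X] F (a 0) := by
          simp
        rw [hsum] at ha
        have h0 : algebraMap R[X] F (a 0) ≠ 0 := by
          intro h0
          have hK : algebraMap R[X] K (a 0) = 0 := by
            have h1 : algebraMap K F (algebraMap R[X] K (a 0)) = 0 := by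
              rw [← IsScalarTower.algebraMap_apply]; exact h0
            exact (map_eq_zero (algebraMap K F)).mp h1
          have : a 0 = 0 :=
            (IsFractionRing.injective R[X] K) (by rw [hK, map_zero])
          exact hdvd (this ▸ dvd_zero _)
        have hinv := gauss₂ (a 0) hdvd
        apply unif₂.inv_not_mem
        have : (algebraMap R[X] F (C ϖ))⁻¹ =
            (algebraMap R[X] F (a 0))⁻¹ *
              (algebraMap R[X] F (a 0) * (algebraMap R[X] F (C ϖ))⁻¹) := by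
          rw [← mul_assoc, inv_mul_cancel₀ h0, one_mul]
        rw [this]
        exact mul_mem hinv ha
      le := by omega }
  have hcard := h.card
  omega

end Abstract

section Lift

variable {R : Type*} [CommRing R] [IsDomain R] [UniqueFactorizationMonoid R]
variable {F : Type*} [Field F] [Algebra R[X] F] [FaithfulSMul R[X] F]

attribute [local instance] FractionRing.liftAlgebra

omit [UniqueFactorizationMonoid R] in
/-- Spanning in denominator form gives spanning over the fraction field. -/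
theorem span_eq_top_of_denominators {n : ℕ} {b : Fin n → F}
    (hspan : ∀ f : F, ∃ (Q : R[X]) (P : Fin n → R[X]), Q ≠ 0 ∧
      algebraMap R[X] F Q * f = ∑ i, algebraMap R[X] F (P i) * b i) :
    Submodule.span (FractionRing R[X]) (Set.range b) = ⊤ := by
  rw [eq_top_iff]
  intro f _
  obtain ⟨Q, P, hQ, hQf⟩ := hspan f
  have hQF : algebraMap R[X] F Q ≠ 0 := by
    intro h0
    exact hQ ((FaithfulSMul.algebraMap_injective R[X] F) (by rw [h0, map_zero]))
  have hQK : algebraMap R[X] (FractionRing R[X]) Q ≠ 0 := by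
    intro h0
    apply hQF
    rw [IsScalarTower.algebraMap_apply R[X] (FractionRing R[X]) F, h0, map_zero]
  have hf : f = ∑ i, ((algebraMap R[X] (FractionRing R[X]) Q)⁻¹ *
      algebraMap R[X] (FractionRing R[X]) (P i)) • b i := by
    have h1 : ∀ i, ((algebraMap R[X] (FractionRing R[X]) Q)⁻¹ *
        algebraMap R[X] (FractionRing R[X]) (P i)) • b i =
        (algebraMap R[X] F Q)⁻¹ * (algebraMap R[X] F (P i) * b i) := by
      intro i
      rw [Algebra.smul_def, map_mul, map_inv₀,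
        ← IsScalarTower.algebraMap_apply R[X] (FractionRing R[X]) F,
        ← IsScalarTower.algebraMap_apply R[X] (FractionRing R[X]) F, mul_assoc]
    rw [Finset.sum_congr rfl (fun i _ => h1 i), ← Finset.mul_sum, ← hQf, ← mul_assoc,
      inv_mul_cancel₀ hQF, one_mul]
  rw [hf]
  exact Submodule.sum_mem _ fun i _ =>
    Submodule.smul_mem _ _ (Submodule.subset_span ⟨i, rfl⟩)

/-- **Uniqueness of the Gauss extension.**  `R[X] → F` injective, `V₁`, `V₂` Gauss extensions
with uniformiser `ϖ`, `b` a family of `n` elements of `V₁` with independent residues, spanning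
`F` over `Frac R[X]` in denominator form.  Then `V₁ = V₂`. -/
theorem eq_of_gauss_indep {ϖ : R} {V₁ V₂ : ValuationSubring F} {n : ℕ} {b : Fin n → F}
    (prime : Prime ϖ)
    (unif₁ : IsUnif V₁ (algebraMap R[X] F (C ϖ)))
    (unif₂ : IsUnif V₂ (algebraMap R[X] F (C ϖ)))
    (poly₁ : ∀ P : R[X], algebraMap R[X] F P ∈ V₁)
    (poly₂ : ∀ P : R[X], algebraMap R[X] F P ∈ V₂)
    (gauss₁ : ∀ P : R[X], ¬ C ϖ ∣ P → (algebraMap R[X] F P)⁻¹ ∈ V₁)
    (gauss₂ : ∀ P : R[X], ¬ C ϖ ∣ P → (algebraMap R[X] F P)⁻¹ ∈ V₂)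
    (b_mem : ∀ i, b i ∈ V₁)
    (b_indep : ∀ a : Fin n → R[X],
      (∑ i, algebraMap R[X] F (a i) * b i) * (algebraMap R[X] F (C ϖ))⁻¹ ∈ V₁ →
        ∀ i, C ϖ ∣ a i)
    (hspan : ∀ f : F, ∃ (Q : R[X]) (P : Fin n → R[X]), Q ≠ 0 ∧
      algebraMap R[X] F Q * f = ∑ i, algebraMap R[X] F (P i) * b i) : V₁ = V₂ := by
  have htop := span_eq_top_of_denominators (R := R) hspan
  have : Module.Finite (FractionRing R[X]) F := by
    refine ⟨?_⟩
    rw [← htop]
    exact Submodule.fg_span (Set.finite_range b)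
  have hle : Module.finrank (FractionRing R[X]) F ≤ n := by
    have := finrank_le_of_span_eq_top (R := FractionRing R[X]) htop
    simpa using this
  exact eq_of_gauss_indep_of_finrank_le (K := FractionRing R[X]) prime unif₁ unif₂ poly₁ poly₂
    gauss₁ gauss₂ b_mem b_indep hle

end Lift

end Fermat.Agent.A2.Mod.H872

end
-- ===== PACK-END A2/Mod/H872/Unique.lean

-- ===== PACK-BEGIN A2/Mod/H708/Vinf.lean
section



/-!
# A2 / MOD leaves L1 `VinfExists` and L2 `VinfBasic` (helper708)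

Exact shapes of `Fermat/Agent/A2/Mod/Spec.lean` (architect helper994):

* `vinfE P E N : ValuationSubring (FE E N)` — the Gauss valuation ring at `∞` over `R_E = P ∩ E`
  (`= H708.gaussInf`), for `R_E` noetherian;
* `isVinf_vinfE`, `eq_vinfE_of_isVinf` (the predicate `IsVinf` determines `V`);
* `vinfExists : VinfExistsStatement P E`                                              (L1);
* `vinfBasic : VinfBasicStatement P E w`                                              (L2);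
* reusable: `mem_of_isVinf_of_incl`, `inv_mem_of_isVinf_of_incl` (functions with an `R_E`-integral,
  resp. primitive `R_E`-integral, expansion are integral, resp. units),
  `algebraMap_mem_iff_of_isVinf`, `exists_const_mul_unit_of_isVinf`, `red_castA_jInt_ne_zero`.
-/

set_option autoImplicit false
set_option synthInstance.maxHeartbeats 400000
set_option maxHeartbeats 1600000

noncomputable section

namespace Fermat.Agent.A2.Mod.H708

open ModularCurve HahnSeries Polynomial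
open Fermat.Agent.A2

variable (P : ValuationSubring _root_.Fermat.Agent.A2.Mod.Qb) (E : IntermediateField ℚ _root_.Fermat.Agent.A2.Mod.Qb)

/-- The Gauss valuation ring at `∞` of `F_{N,E}` over `R_E` (`R_E` noetherian, e.g. a DVR). -/
def vinfE (N : ℕ) [IsNoetherianRing (_root_.Fermat.Agent.A2.Mod.RE P E)] : ValuationSubring (_root_.Fermat.Agent.A2.Mod.FE E N) :=
  H708.gaussInf (_root_.Fermat.Agent.A2.Mod.RE P E) (modularFunctionFieldFull N) (H708.intGen_full N)
    (H708.attainsMax_of_isNoetherianRing (_root_.Fermat.Agent.A2.Mod.RE P E) (modularFunctionFieldFull N))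

theorem isVinf_vinfE (N : ℕ) [IsNoetherianRing (_root_.Fermat.Agent.A2.Mod.RE P E)] : IsVinf P E N (vinfE P E N) :=
  fun _ => Iff.rfl

variable {P E}

/-- `IsVinf` determines the valuation ring. -/
theorem eq_vinfE_of_isVinf {N : ℕ} [IsNoetherianRing (_root_.Fermat.Agent.A2.Mod.RE P E)] {V : ValuationSubring (_root_.Fermat.Agent.A2.Mod.FE E N)}
    (hV : IsVinf P E N V) : V = vinfE P E N := by
  ext f
  rw [hV f]
  exact Iff.rfl

/-- functions with an `R_E`-integral expansion lie in `V∞`. -/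
theorem mem_of_isVinf_of_incl {N : ℕ} {V : ValuationSubring (_root_.Fermat.Agent.A2.Mod.FE E N)} (hV : IsVinf P E N V)
    {f : _root_.Fermat.Agent.A2.Mod.FE E N} (U : LaurentSeries (_root_.Fermat.Agent.A2.Mod.RE P E))
    (h : (f : LaurentSeries E) = H708.incl (_root_.Fermat.Agent.A2.Mod.RE P E) U) : f ∈ V := by
  rw [hV f, h]
  exact H708.IsGaussInt.of_incl U

/-- functions with a primitive `R_E`-integral expansion are units of `V∞`. -/
theorem inv_mem_of_isVinf_of_incl {N : ℕ} {V : ValuationSubring (_root_.Fermat.Agent.A2.Mod.FE E N)} (hV : IsVinf P E N V)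
    {f : _root_.Fermat.Agent.A2.Mod.FE E N} (U : LaurentSeries (_root_.Fermat.Agent.A2.Mod.RE P E))
    (h : (f : LaurentSeries E) = H708.incl (_root_.Fermat.Agent.A2.Mod.RE P E) U) (hU : H708.red (_root_.Fermat.Agent.A2.Mod.RE P E) U ≠ 0) :
    f⁻¹ ∈ V := by
  rw [hV f⁻¹]
  have hf0 : (f : LaurentSeries E) ≠ 0 := by
    rw [h]
    exact H708.incl_ne_zero (_root_.Fermat.Agent.A2.Mod.RE P E) (H708.ne_zero_of_red_ne_zero (_root_.Fermat.Agent.A2.Mod.RE P E) hU)
  refine ⟨1, U, hU, h ▸ f.2, ?_⟩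
  rw [IntermediateField.coe_inv, ← h, inv_mul_cancel₀ hf0, map_one]

/-- `V∞ ∩ E = R_E`. -/
theorem algebraMap_mem_iff_of_isVinf {N : ℕ} [IsNoetherianRing (_root_.Fermat.Agent.A2.Mod.RE P E)]
    {V : ValuationSubring (_root_.Fermat.Agent.A2.Mod.FE E N)} (hV : IsVinf P E N V) (e : E) :
    algebraMap E (_root_.Fermat.Agent.A2.Mod.FE E N) e ∈ V ↔ e ∈ _root_.Fermat.Agent.A2.Mod.RE P E := by
  rw [eq_vinfE_of_isVinf hV]
  exact H708.algebraMap_mem_gaussInf_iff _ _ e

/-- value group of `V∞` = value group of `R_E`. -/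
theorem exists_const_mul_unit_of_isVinf {N : ℕ} [IsNoetherianRing (_root_.Fermat.Agent.A2.Mod.RE P E)]
    {V : ValuationSubring (_root_.Fermat.Agent.A2.Mod.FE E N)} (hV : IsVinf P E N V) {f : _root_.Fermat.Agent.A2.Mod.FE E N} (hf : f ≠ 0) :
    ∃ c : E, c ≠ 0 ∧ V.valuation (f * (algebraMap E (_root_.Fermat.Agent.A2.Mod.FE E N) c)⁻¹) = 1 := by
  rw [eq_vinfE_of_isVinf hV]
  exact H708.exists_const_mul_unit _ _ hf

/-- the reduction of `j(t^d)` is nonzero. -/
theorem red_castA_jInt_ne_zero (d : ℕ) [NeZero d] :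
    H708.red (_root_.Fermat.Agent.A2.Mod.RE P E) (H708.castA (_root_.Fermat.Agent.A2.Mod.RE P E) (H708.jInt d)) ≠ 0 := by
  have h1 : H708.red (_root_.Fermat.Agent.A2.Mod.RE P E) (H708.castA (_root_.Fermat.Agent.A2.Mod.RE P E) (H708.jInt d))
      = jqNModC (IsLocalRing.ResidueField (_root_.Fermat.Agent.A2.Mod.RE P E)) d := by
    show coeffMap _ (coeffMap _ (jqNModC ℤ d)) = _
    rw [coeffMap_jqNModC, coeffMap_jqNModC]
  rw [h1]
  intro h0
  have h2 : (jqNModC (IsLocalRing.ResidueField (_root_.Fermat.Agent.A2.Mod.RE P E)) d).coeff ((d : ℤ) * (-1)) = 1 := by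
    rw [jqNModC, qExpand_coeff_mul, coeff_jqModC_neg_one]
  rw [h0] at h2
  simp at h2

/-- `j_d` has the `R_E`-integral expansion `j(t^d) ∈ ℤ((t))`. -/
theorem coe_jE_eq (N d : ℕ) [NeZero d] (hd : d ∣ N) :
    ((jE E N d hd : _root_.Fermat.Agent.A2.Mod.FE E N) : LaurentSeries E)
      = H708.incl (_root_.Fermat.Agent.A2.Mod.RE P E) (H708.castA (_root_.Fermat.Agent.A2.Mod.RE P E) (H708.jInt d)) := by
  rw [H708.incl_castA, H708.castQ_jInt]
  rfl

section L1

variable (P E)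

/-- **L1** (`VinfExistsStatement`): the Gauss valuation ring exists at every level. -/
theorem vinfExists : VinfExistsStatement P E := by
  intro N _ hdvr
  have := hdvr
  exact ⟨vinfE P E N, isVinf_vinfE P E N⟩

end L1

section L2

variable (P E) (w : _root_.Fermat.Agent.A2.Mod.RE P E)

/-- **L2** (`VinfBasicStatement`): `w` is a uniformiser of `V∞`, `V∞ ∩ E = R_E`, and the
generators `j_d` are units of `V∞`. -/
theorem vinfBasic : VinfBasicStatement P E w := by
  intro N _ hdvr hw V hV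
  have := hdvr
  have hw0 : (w : E) ≠ 0 := fun h => hw.ne_zero (Subtype.ext h)
  refine ⟨⟨?_, ?_, ?_⟩, fun e => algebraMap_mem_iff_of_isVinf hV e, ?_⟩
  · -- `w ∈ V`
    exact (algebraMap_mem_iff_of_isVinf hV (w : E)).mpr w.2
  · -- `w⁻¹ ∉ V`
    intro h
    have h1 : (cE P E N w)⁻¹ = algebraMap E (_root_.Fermat.Agent.A2.Mod.FE E N) ((w : E)⁻¹) := by
      rw [cE, map_inv₀]
    rw [h1] at h
    have h2 : (w : E)⁻¹ ∈ _root_.Fermat.Agent.A2.Mod.RE P E := (algebraMap_mem_iff_of_isVinf hV _).mp h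
    refine hw.not_isUnit (IsUnit.of_mul_eq_one (⟨(w : E)⁻¹, h2⟩ : _root_.Fermat.Agent.A2.Mod.RE P E) ?_)
    exact Subtype.ext (mul_inv_cancel₀ hw0)
  · -- every non-unit is divisible by `w`
    intro f hf hfinv
    have hf0 : f ≠ 0 := by
      rintro rfl
      exact hfinv (by rw [inv_zero]; exact V.zero_mem)
    obtain ⟨c, hc, hu⟩ := exists_const_mul_unit_of_isVinf hV hf0
    have hcF : algebraMap E (_root_.Fermat.Agent.A2.Mod.FE E N) c ≠ 0 := by
      rw [Ne, map_eq_zero]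
      exact hc
    -- `v(f) = v(c)`
    have hvf : V.valuation f = V.valuation (algebraMap E (_root_.Fermat.Agent.A2.Mod.FE E N) c) := by
      rw [map_mul, map_inv₀] at hu
      have hv0 : V.valuation (algebraMap E (_root_.Fermat.Agent.A2.Mod.FE E N) c) ≠ 0 :=
        (Valuation.ne_zero_iff _).mpr hcF
      calc V.valuation f
          = V.valuation f * (V.valuation (algebraMap E (_root_.Fermat.Agent.A2.Mod.FE E N) c))⁻¹ *
              V.valuation (algebraMap E (_root_.Fermat.Agent.A2.Mod.FE E N) c) := by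
            rw [mul_assoc, inv_mul_cancel₀ hv0, mul_one]
        _ = V.valuation (algebraMap E (_root_.Fermat.Agent.A2.Mod.FE E N) c) := by rw [hu, one_mul]
    have hcV : algebraMap E (_root_.Fermat.Agent.A2.Mod.FE E N) c ∈ V := by
      rw [← ValuationSubring.valuation_le_one_iff, ← hvf, ValuationSubring.valuation_le_one_iff]
      exact hf
    have hcinvV : (algebraMap E (_root_.Fermat.Agent.A2.Mod.FE E N) c)⁻¹ ∉ V := by
      rw [← ValuationSubring.valuation_le_one_iff, map_inv₀, ← hvf, ← map_inv₀,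
        ValuationSubring.valuation_le_one_iff]
      exact hfinv
    have hcR : c ∈ _root_.Fermat.Agent.A2.Mod.RE P E := (algebraMap_mem_iff_of_isVinf hV c).mp hcV
    have hcinvR : c⁻¹ ∉ _root_.Fermat.Agent.A2.Mod.RE P E := by
      intro h
      exact hcinvV (by rw [← map_inv₀]; exact (algebraMap_mem_iff_of_isVinf hV _).mpr h)
    -- `c` is a non-unit of `R_E`, hence divisible by `w`
    have hnu : ¬ IsUnit (⟨c, hcR⟩ : _root_.Fermat.Agent.A2.Mod.RE P E) := by
      intro hunit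
      obtain ⟨d, hd⟩ := hunit.exists_right_inv
      apply hcinvR
      have h3 : c * (d : E) = 1 := congrArg Subtype.val hd
      have h4 : c⁻¹ = (d : E) := inv_eq_of_mul_eq_one_right h3
      rw [h4]
      exact d.2
    have hmem : (⟨c, hcR⟩ : _root_.Fermat.Agent.A2.Mod.RE P E) ∈ IsLocalRing.maximalIdeal (_root_.Fermat.Agent.A2.Mod.RE P E) :=
      (IsLocalRing.mem_maximalIdeal _).mpr hnu
    rw [(IsDiscreteValuationRing.irreducible_iff_uniformizer w).mp hw,
      Ideal.mem_span_singleton] at hmem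
    obtain ⟨d, hd⟩ := hmem
    have hcd : c = (w : E) * (d : E) := congrArg Subtype.val hd
    have hdV : algebraMap E (_root_.Fermat.Agent.A2.Mod.FE E N) (d : E) ∈ V := (algebraMap_mem_iff_of_isVinf hV _).mpr d.2
    have hunitV : f * (algebraMap E (_root_.Fermat.Agent.A2.Mod.FE E N) c)⁻¹ ∈ V := by
      rw [← ValuationSubring.valuation_le_one_iff, hu]
    have hkey : f * (cE P E N w)⁻¹
        = f * (algebraMap E (_root_.Fermat.Agent.A2.Mod.FE E N) c)⁻¹ * algebraMap E (_root_.Fermat.Agent.A2.Mod.FE E N) (d : E) := by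
      have hwF : cE P E N w ≠ 0 := by
        rw [cE, Ne, map_eq_zero]
        exact hw0
      have hcF' : algebraMap E (_root_.Fermat.Agent.A2.Mod.FE E N) c = cE P E N w * algebraMap E (_root_.Fermat.Agent.A2.Mod.FE E N) (d : E) := by
        rw [cE, ← map_mul, hcd]
      have hdF : algebraMap E (_root_.Fermat.Agent.A2.Mod.FE E N) (d : E) ≠ 0 := by
        intro h0
        rw [h0, mul_zero] at hcF'
        exact hcF hcF'
      rw [hcF']
      field_simp
    rw [hkey]
    exact V.mul_mem _ _ hunitV hdV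
  · -- the `j_d` are units
    intro d _ hd
    exact ⟨mem_of_isVinf_of_incl hV _ (coe_jE_eq N d hd),
      inv_mem_of_isVinf_of_incl hV _ (coe_jE_eq N d hd) (red_castA_jInt_ne_zero d)⟩

end L2

end Fermat.Agent.A2.Mod.H708

end
end
-- ===== PACK-END A2/Mod/H708/Vinf.lean

-- ===== PACK-BEGIN Ribet/H132/NodeValLeaf.lean
section



/-!
# RIBET wall-p, I6 spec v3: leaf NODEVAL, VERBATIM (helper132)

`nodeVal : I6.NodeValStatement` (frozen in `Ribet/H704/I6Inst.lean`), from the node-ring library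
`Ribet/H132/NodeVal.lean`.  Also the valuation form of horizontal divisibility:
`horDivFrac_of_horDivVal : I6.HorDivVal K π m u → I6.HorDivFrac K π m u` in a node ring.
-/

set_option autoImplicit false

namespace Fermat.Agent.Ribet.H132

open Fermat.Agent.Ribet.H704

/-- **NODEVAL** (verbatim). -/
theorem nodeVal : I6.NodeValStatement := by
  intro R K _ _ _ _ _ _ _ _ 𝔭₁ 𝔭₂ π x y hN
  have h := branchData_right hN
  exact ⟨fun u hu => exists_valAt h.vert hu, fun u v v' hv hv' => valAt_unique h.vert hv hv',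
    fun u hu => exists_slopeAt h hu, fun u s s' hs hs' => slopeAt_unique h hs hs'⟩

/-- NODEVAL for the first branch. -/
theorem nodeVal_left {R K : Type*} [CommRing R] [IsDomain R] [IsIntegrallyClosed R]
    [IsNoetherianRing R] [IsLocalRing R] [Field K] [Algebra R K] [IsFractionRing R K]
    {𝔭₁ 𝔭₂ : Ideal R} {π x y : R} (hN : I6.IsNode 𝔭₁ 𝔭₂ π x y) :
    (∀ u : K, u ≠ 0 → ∃ v : ℤ, I6.ValAt K 𝔭₁ π u v) ∧
    (∀ (u : K) (v v' : ℤ), I6.ValAt K 𝔭₁ π u v → I6.ValAt K 𝔭₁ π u v' → v = v') ∧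
    (∀ u : K, u ≠ 0 → ∃ s : ℤ, I6.SlopeAt K 𝔭₁ π x u s) ∧
    (∀ (u : K) (s s' : ℤ), I6.SlopeAt K 𝔭₁ π x u s → I6.SlopeAt K 𝔭₁ π x u s' → s = s') := by
  have h := branchData_left hN
  exact ⟨fun u hu => exists_valAt h.vert hu, fun u v v' hv hv' => valAt_unique h.vert hv hv',
    fun u hu => exists_slopeAt h hu, fun u s s' hs hs' => slopeAt_unique h hs hs'⟩

/-- Horizontal divisibility: the valuation form implies the ring form, in a node ring. -/
theorem horDivFrac_of_horDivVal {R K : Type*} [CommRing R] [IsDomain R] [IsIntegrallyClosed R]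
    [IsNoetherianRing R] [IsLocalRing R] [Field K] [Algebra R K] [IsFractionRing R K]
    {𝔭₁ 𝔭₂ : Ideal R} {π x y : R} (hN : I6.IsNode 𝔭₁ 𝔭₂ π x y) {m : ℕ} (hm : m ≠ 0) {u : K}
    (hu : u ≠ 0) (h : I6.HorDivVal K π m u) : I6.HorDivFrac K π m u :=
  horDivFrac_of_divisible hN hm hu h

end Fermat.Agent.Ribet.H132

end
-- ===== PACK-END Ribet/H132/NodeValLeaf.lean

-- ===== PACK-BEGIN S28/H748/Conj.lean
section





/-!
# S28 / H748 — the conjugates of `j(dτ)` and of `Δ(dτ)/Δ(τ)` under `SL(2,ℤ)`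

For `d ∣ N` and `γ ∈ SL(2,ℤ)` the functions `τ ↦ j(d·γτ)` and `τ ↦ Δ(d·γτ)/Δ(γτ)` are
`j((aτ+b)/δ)` and `δ⁻¹² Δ((aτ+b)/δ)/Δ(τ)` for the Hermite data `(a,b,δ)` of `(d,γ)`; all of them
have convergent Laurent expansions in `t = exp(2πiτ/N)` with coefficients in `ℤ[ζ_N, 1/N]`.
-/

set_option autoImplicit false

noncomputable section

open UpperHalfPlane HahnSeries ModularCurve Fermat.Agent.S24
open scoped Real MatrixGroups Manifold

namespace Fermat.Agent.S28.H748

local notation "Δ" => ModularForm.discriminant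

/-! ### Laurent series with coefficients in a subring -/

/-- Laurent series all of whose coefficients lie in the subring `S`. -/
def coeffSub (S : Subring ℂ) : Subring (LaurentSeries ℂ) where
  carrier := {φ | ∀ n, φ.coeff n ∈ S}
  zero_mem' := fun n => by simp
  one_mem' := fun n => by
    rw [HahnSeries.coeff_one]
    split_ifs
    · exact S.one_mem
    · exact S.zero_mem
  add_mem' := fun hx hy n => by
    rw [HahnSeries.coeff_add]
    exact S.add_mem (hx n) (hy n)
  neg_mem' := fun hx n => by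
    rw [HahnSeries.coeff_neg]
    exact S.neg_mem (hx n)
  mul_mem' := fun hx hy n => by
    rw [HahnSeries.coeff_mul]
    exact S.sum_mem fun ij _ => S.mul_mem (hx _) (hy _)

theorem mem_coeffSub {S : Subring ℂ} {φ : LaurentSeries ℂ} :
    φ ∈ coeffSub S ↔ ∀ n, φ.coeff n ∈ S := Iff.rfl

theorem qExpand_mem_coeffSub {S : Subring ℂ} (e : ℕ) [NeZero e] {φ : LaurentSeries ℂ}
    (h : φ ∈ coeffSub S) : qExpand ℂ e φ ∈ coeffSub S := by
  intro n
  by_cases hn : (e : ℤ) ∣ n
  · obtain ⟨k, rfl⟩ := hn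
    rw [qExpand_coeff_mul]
    exact h k
  · rw [qExpand_coeff_of_not_dvd e φ hn]
    exact S.zero_mem

theorem infTwist_mem_coeffSub {S : Subring ℂ} (u : ℂˣ) (hu : ∀ k : ℤ, ((u ^ k : ℂˣ) : ℂ) ∈ S)
    {φ : LaurentSeries ℂ} (h : φ ∈ coeffSub S) : infTwist u φ ∈ coeffSub S := by
  intro n
  rw [infTwist_coeff]
  exact S.mul_mem (h n) (hu n)

theorem coeffMap_int_mem_coeffSub (S : Subring ℂ) (x : LaurentSeries ℤ) :
    coeffMap (Int.castRingHom ℂ) x ∈ coeffSub S := by
  intro n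
  rw [coeffMap_coeff]
  exact intCast_mem S _

theorem C_mem_coeffSub {S : Subring ℂ} {c : ℂ} (hc : c ∈ S) :
    (HahnSeries.C c : LaurentSeries ℂ) ∈ coeffSub S := by
  intro n
  rw [HahnSeries.C_apply, HahnSeries.coeff_single]
  split_ifs
  · exact hc
  · exact S.zero_mem

theorem jqModC_mem_coeffSub (S : Subring ℂ) : jqModC ℂ ∈ coeffSub S := by
  rw [← coeffMap_jqModC (Int.castRingHom ℂ)]
  exact coeffMap_int_mem_coeffSub S _

theorem single_one_mem_coeffSub (S : Subring ℂ) (k : ℤ) :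
    (HahnSeries.single k (1 : ℂ) : LaurentSeries ℂ) ∈ coeffSub S := by
  intro n
  rw [HahnSeries.coeff_single]
  split_ifs
  · exact S.one_mem
  · exact S.zero_mem

theorem ofPowerSeries_map_int_mem_coeffSub (S : Subring ℂ) (p : PowerSeries ℤ) :
    HahnSeries.ofPowerSeries ℤ ℂ (PowerSeries.map (Int.castRingHom ℂ) p) ∈ coeffSub S := by
  rw [← coeffMap_ofPowerSeries]
  exact coeffMap_int_mem_coeffSub S _

theorem deltaSeriesC_mem_coeffSub (S : Subring ℂ) : H565.deltaSeriesC ∈ coeffSub S := by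
  rw [H565.deltaSeriesC, H565.etaProdC, ← map_pow]
  exact (coeffSub S).mul_mem (single_one_mem_coeffSub S 1) (ofPowerSeries_map_int_mem_coeffSub S _)

theorem deltaInvSeriesC_mem_coeffSub (S : Subring ℂ) : H565.deltaInvSeriesC ∈ coeffSub S := by
  rw [H565.deltaInvSeriesC, H565.etaInvC]
  exact (coeffSub S).mul_mem (single_one_mem_coeffSub S (-1))
    (ofPowerSeries_map_int_mem_coeffSub S _)

/-! ### The coefficient ring `ℤ[ζ_N, 1/N]` -/

/-- `ℤ[ζ_N, 1/N] ⊂ ℂ`. -/
def coeffRing (N : ℕ) : Subring ℂ :=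
  Subring.closure ({Complex.exp (2 * Real.pi * Complex.I / N), (N : ℂ)⁻¹} : Set ℂ)

theorem zeta_mem_coeffRing (N : ℕ) : Complex.exp (2 * Real.pi * Complex.I / N) ∈ coeffRing N :=
  Subring.subset_closure (by simp)

theorem inv_mem_coeffRing (N : ℕ) : (N : ℂ)⁻¹ ∈ coeffRing N :=
  Subring.subset_closure (by simp)

theorem zeta_pow_self (N : ℕ) [NeZero N] : Complex.exp (2 * Real.pi * Complex.I / N) ^ N = 1 := by
  rw [← Complex.exp_nat_mul]
  have hN : (N : ℂ) ≠ 0 := by exact_mod_cast NeZero.ne N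
  rw [mul_div_cancel₀ _ hN]
  exact Complex.exp_two_pi_mul_I

theorem zeta_zpow_mem_coeffRing (N : ℕ) [NeZero N] (k : ℤ) :
    Complex.exp (2 * Real.pi * Complex.I / N) ^ k ∈ coeffRing N := by
  have hN : (N : ℤ) ≠ 0 := by exact_mod_cast NeZero.ne N
  have h0 : Complex.exp (2 * Real.pi * Complex.I / N) ≠ 0 := Complex.exp_ne_zero _
  have hk : k = (N : ℤ) * (k / N) + k % N := (Int.mul_ediv_add_emod k N).symm
  have hnn : 0 ≤ k % (N : ℤ) := Int.emod_nonneg k hN
  obtain ⟨m, hm⟩ := Int.eq_ofNat_of_zero_le hnn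
  rw [hk, zpow_add₀ h0, zpow_mul, zpow_natCast, zeta_pow_self, one_zpow, one_mul, hm, zpow_natCast]
  exact (coeffRing N).pow_mem (zeta_mem_coeffRing N) m

theorem infRoot_zpow_mem_coeffRing {N δ : ℕ} [NeZero N] (hδ : 0 < δ) (hδN : δ ∣ N) (b k : ℤ) :
    ((infRoot b δ ^ k : ℂˣ) : ℂ) ∈ coeffRing N := by
  obtain ⟨c, rfl⟩ := hδN
  rw [infRoot_zpow_coe]
  have hδ0 : (δ : ℂ) ≠ 0 := by exact_mod_cast hδ.ne'
  have hc0 : (c : ℂ) ≠ 0 := by
    intro h
    have : c = 0 := by exact_mod_cast h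
    exact NeZero.ne (δ * c) (by rw [this, mul_zero])
  have h1 : Complex.exp (2 * Real.pi * Complex.I * b / δ)
      = Complex.exp (2 * Real.pi * Complex.I / ((δ * c : ℕ) : ℂ)) ^ (b * c) := by
    rw [← Complex.exp_int_mul]
    congr 1
    push_cast
    field_simp
  rw [h1, ← zpow_mul]
  exact zeta_zpow_mem_coeffRing (δ * c) _

theorem natCast_inv_mem_coeffRing {N δ : ℕ} [NeZero N] (hδN : δ ∣ N) :
    ((δ : ℂ))⁻¹ ∈ coeffRing N := by
  obtain ⟨c, rfl⟩ := hδN
  have hδ0 : (δ : ℂ) ≠ 0 := by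
    intro h
    have : δ = 0 := by exact_mod_cast h
    exact NeZero.ne (δ * c) (by rw [this, zero_mul])
  have hc0 : (c : ℂ) ≠ 0 := by
    intro h
    have : c = 0 := by exact_mod_cast h
    exact NeZero.ne (δ * c) (by rw [this, mul_zero])
  have h1 : ((δ : ℂ))⁻¹ = (c : ℂ) * (((δ * c : ℕ) : ℂ))⁻¹ := by
    push_cast
    field_simp
  rw [h1]
  exact (coeffRing (δ * c)).mul_mem (natCast_mem (coeffRing (δ * c)) c) (inv_mem_coeffRing _)

/-! ### Level-one expansions in the `InfExp` language -/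

theorem infExp_iff_hasTExp {N : ℕ} {f : ℍ → ℂ} {φ : LaurentSeries ℂ} :
    InfExp N f φ ↔ H565.HasTExp (N : ℝ) f φ := Iff.rfl

theorem infExp_of_hasTExp_one {f : ℍ → ℂ} {φ : LaurentSeries ℂ} (h : H565.HasTExp 1 f φ) :
    InfExp 1 f φ := by
  rw [infExp_iff_hasTExp, Nat.cast_one]
  exact h

theorem infExp_one_jFun : InfExp 1 H565.jFun (jqModC ℂ) :=
  infExp_of_hasTExp_one H565.hasTExp_jFun

theorem infExp_one_delta : InfExp 1 Δ H565.deltaSeriesC :=
  infExp_of_hasTExp_one H565.hasTExp_discriminant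

theorem infExp_one_deltaInv : InfExp 1 (fun τ => (Δ τ)⁻¹) H565.deltaInvSeriesC :=
  infExp_of_hasTExp_one H565.hasTExp_discriminant_inv

theorem infExp_level {N : ℕ} [NeZero N] {f : ℍ → ℂ} {φ : LaurentSeries ℂ} (h : InfExp 1 f φ) :
    InfExp N f (qExpand ℂ N φ) := by
  rw [infExp_iff_hasTExp] at h ⊢
  rw [Nat.cast_one] at h
  exact h.qExpand_one N

theorem InfExp.mdiff748 {N : ℕ} [NeZero N] {f : ℍ → ℂ} {φ : LaurentSeries ℂ} (h : InfExp N f φ) :
    MDiff f :=
  H205.ConvTo.mdiff (N := N) (φ := φ) h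

/-! ### The conjugate functions -/

/-- `τ ↦ j((aτ+b)/δ)`. -/
def conjJ (a b δ : ℕ) (τ : ℍ) : ℂ := H565.jFun (infAff a b δ τ)

/-- `τ ↦ δ⁻¹² Δ((aτ+b)/δ) / Δ(τ)`. -/
def conjU (a b δ : ℕ) (τ : ℍ) : ℂ := ((δ : ℂ)⁻¹) ^ 12 * Δ (infAff a b δ τ) * (Δ τ)⁻¹

theorem exists_infExp_comp_infAff {N a δ : ℕ} (b : ℤ) [NeZero N] (ha : 0 < a) (hδ : 0 < δ)
    (hδN : δ ∣ N) {f : ℍ → ℂ} {φ : LaurentSeries ℂ} (hf : InfExp 1 f φ)
    (hφ : φ ∈ coeffSub (coeffRing N)) :
    ∃ ψ, InfExp N (fun τ => f (infAff a b δ τ)) ψ ∧ ψ ∈ coeffSub (coeffRing N) := by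
  obtain ⟨c, hc⟩ := hδN
  have hN : 0 < N := Nat.pos_of_ne_zero (NeZero.ne N)
  have hcpos : 0 < c := by
    rcases Nat.eq_zero_or_pos c with h | h
    · subst h
      simp at hc
      omega
    · exact h
  haveI : NeZero (a * c) := ⟨(Nat.mul_pos ha hcpos).ne'⟩
  refine ⟨qExpand ℂ (a * c) (infTwist (infRoot b (δ * 1)) φ),
    InfExp.comp_infAff (M := 1) b ha hδ one_pos hN (by rw [hc]; ring) hf, ?_⟩
  apply qExpand_mem_coeffSub
  apply infTwist_mem_coeffSub _ _ hφ
  intro k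
  rw [mul_one]
  exact infRoot_zpow_mem_coeffRing hδ ⟨c, hc⟩ b k

theorem exists_infExp_conjJ {N a δ : ℕ} (b : ℕ) [NeZero N] (ha : 0 < a) (hδ : 0 < δ)
    (hδN : δ ∣ N) :
    ∃ ψ, InfExp N (conjJ a b δ) ψ ∧ ψ ∈ coeffSub (coeffRing N) :=
  exists_infExp_comp_infAff (b : ℤ) ha hδ hδN infExp_one_jFun (jqModC_mem_coeffSub _)

theorem exists_infExp_conjU {N a δ : ℕ} (b : ℕ) [NeZero N] (ha : 0 < a) (hδ : 0 < δ)
    (hδN : δ ∣ N) :
    ∃ ψ, InfExp N (conjU a b δ) ψ ∧ ψ ∈ coeffSub (coeffRing N) := by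
  obtain ⟨ψ, hψ, hψm⟩ := exists_infExp_comp_infAff (N := N) (b : ℤ) ha hδ hδN infExp_one_delta
    (deltaSeriesC_mem_coeffSub _)
  have h2 : InfExp N (fun τ => (Δ τ)⁻¹) (qExpand ℂ N H565.deltaInvSeriesC) :=
    infExp_level infExp_one_deltaInv
  have h3 := ((InfExp.const (N := N) (((δ : ℂ)⁻¹) ^ 12)).mul hψ).mul h2
  refine ⟨_, h3, ?_⟩
  refine (coeffSub _).mul_mem ((coeffSub _).mul_mem (C_mem_coeffSub ?_) hψm)
    (qExpand_mem_coeffSub N (deltaInvSeriesC_mem_coeffSub _))
  exact (coeffRing N).pow_mem (natCast_inv_mem_coeffRing hδN) 12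

/-! ### Hermite normal form: the conjugates of `j(dτ)` and `Δ(dτ)/Δ(τ)` -/

open H628 in
theorem hermite_data {d : ℕ} (hd : 0 < d) (γ : SL(2, ℤ)) :
    ∃ γ' : SL(2, ℤ), ∀ τ : ℍ,
      infAff d 0 1 (γ • τ) = γ' • infAff (hermA d γ) (hermB d γ) (hermD d γ) τ ∧
      ((γ' 1 0 : ℂ) * (infAff (hermA d γ) (hermB d γ) (hermD d γ) τ : ℂ) + (γ' 1 1 : ℂ)) *
          (hermD d γ : ℂ) = (γ 1 0 : ℂ) * τ + (γ 1 1 : ℂ) := by
  obtain ⟨γ', hmat⟩ := hermite_spec hd γ
  refine ⟨γ', fun τ => ?_⟩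
  have hA := hermA_pos hd γ
  have hD := hermD_pos hd γ
  set σ := infAff (hermA d γ) (hermB d γ) (hermD d γ) τ with hσdef
  have hσ : (σ : ℂ) = ((hermA d γ : ℂ) * τ + (hermB d γ : ℂ)) / (hermD d γ : ℂ) := by
    rw [hσdef, infAff_coe hA hD]
    push_cast
    rfl
  have h00 := congrFun (congrFun hmat 0) 0
  have h01 := congrFun (congrFun hmat 0) 1
  have h10 := congrFun (congrFun hmat 1) 0
  have h11 := congrFun (congrFun hmat 1) 1
  simp only [Matrix.mul_apply, Fin.sum_univ_two, Matrix.of_apply, Matrix.cons_val',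
    Matrix.cons_val_zero, Matrix.cons_val_one, Matrix.empty_val', Matrix.cons_val_fin_one,
    zero_mul, add_zero, one_mul, zero_add, mul_zero] at h00 h01 h10 h11
  have c00 : (d : ℂ) * (γ 0 0 : ℂ) = (γ' 0 0 : ℂ) * (hermA d γ : ℂ) := by exact_mod_cast h00
  have c01 : (d : ℂ) * (γ 0 1 : ℂ) =
      (γ' 0 0 : ℂ) * (hermB d γ : ℂ) + (γ' 0 1 : ℂ) * (hermD d γ : ℂ) := by
    exact_mod_cast h01
  have c10 : (γ 1 0 : ℂ) = (γ' 1 0 : ℂ) * (hermA d γ : ℂ) := by exact_mod_cast h10
  have c11 : (γ 1 1 : ℂ) = (γ' 1 0 : ℂ) * (hermB d γ : ℂ) + (γ' 1 1 : ℂ) * (hermD d γ : ℂ) := by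
    exact_mod_cast h11
  have hD0 : (hermD d γ : ℂ) ≠ 0 := by exact_mod_cast hD.ne'
  have hden1 := int_lin_ne_zero _ _ (SL2_bottom_ne_zero γ) τ
  have hden2 := int_lin_ne_zero _ _ (SL2_bottom_ne_zero γ') σ
  have hnum : (γ' 0 0 : ℂ) * σ + (γ' 0 1 : ℂ)
      = (d : ℂ) * ((γ 0 0 : ℂ) * τ + (γ 0 1 : ℂ)) / (hermD d γ : ℂ) := by
    rw [hσ]; field_simp; linear_combination (-(τ : ℂ)) * c00 - c01
  have hdenom : (γ' 1 0 : ℂ) * σ + (γ' 1 1 : ℂ)
      = ((γ 1 0 : ℂ) * τ + (γ 1 1 : ℂ)) / (hermD d γ : ℂ) := by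
    rw [hσ]; field_simp; linear_combination (-(τ : ℂ)) * c10 - c11
  constructor
  · apply UpperHalfPlane.ext
    rw [infAff_coe hd one_pos, SL2_coe_smul, SL2_coe_smul, hnum, hdenom]
    simp only [Int.cast_zero, add_zero, Nat.cast_one, div_one]
    field_simp
  · rw [hdenom]
    field_simp

open H628 in
theorem conjJ_smul {d : ℕ} (hd : 0 < d) (γ : SL(2, ℤ)) (τ : ℍ) :
    conjJ d 0 1 (γ • τ) = conjJ (hermA d γ) (hermB d γ) (hermD d γ) τ := by
  obtain ⟨γ', h⟩ := hermite_data hd γ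
  have h1 := (h τ).1
  simp only [conjJ, Nat.cast_zero]
  rw [h1, H565.jFun_smul]

open H628 in
theorem conjU_smul {d : ℕ} (hd : 0 < d) (γ : SL(2, ℤ)) (τ : ℍ) :
    conjU d 0 1 (γ • τ) = conjU (hermA d γ) (hermB d γ) (hermD d γ) τ := by
  obtain ⟨γ', h⟩ := hermite_data hd γ
  obtain ⟨h1, h2⟩ := h τ
  have hD0 : (hermD d γ : ℂ) ≠ 0 := by exact_mod_cast (hermD_pos hd γ).ne'
  have hden1 := H565.denom_ne_zero' γ τ
  have hΔ := ModularForm.discriminant_ne_zero τ
  simp only [conjU, Nat.cast_zero, Nat.cast_one, inv_one, one_pow, one_mul]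
  rw [h1, H565.discriminant_smul γ' _, H565.discriminant_smul γ τ, ← h2]
  rw [← h2] at hden1
  have hx : ((γ' 1 0 : ℂ) *
      (infAff (hermA d γ) (hermB d γ) (hermD d γ) τ : ℂ) + (γ' 1 1 : ℂ)) ≠ 0 :=
    left_ne_zero_of_mul hden1
  norm_cast
  field_simp

end Fermat.Agent.S28.H748

end

end
-- ===== PACK-END S28/H748/Conj.lean

-- ===== PACK-BEGIN Ribet/H399/SplitLoc.lean
section



/-!
# RIBET wall-p, I6 spec v3: leaf SPLIT-LOC, VERBATIM (helper399)

`splitLoc : I6.SplitLocStatement` (frozen in `Ribet/H704/I6Inst.lean`).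

In a node ring `R` (normal noetherian local, branches `𝔭₁, 𝔭₂`, `𝔭₁ ⊓ 𝔭₂ = (π)`), `K = Frac R`:
a horizontally `p`-divisible `u ∈ Kˣ` which is a `p`-th power in the `π`-adic completions of both
branches is `u = g · d ^ p` with `d ∈ Kˣ`, `g ∈ R ∖ (𝔭₁ ∪ 𝔭₂)` satisfying the hypotheses of WPUR.

Proof (elementwise, on top of the node-ring library `Ribet/H132/NodeVal.lean`):
* `p ∣ vᵢ(u)` from `SplitAt` at `k = 1`;
* `u₁ := a b ^ (p-1) = u b ^ p ∈ R` for `u = a / b`; `vᵢ(u₁) = p nᵢ`, `nᵢ ≥ 0`;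
* `Z := π + x²` has `(v₁, v₂) = (0, 1)`, `Z' := π + y²` has `(v₁, v₂) = (1, 0)`;
  `u' := u₁ Z ^ (p (c - n₂)) Z' ^ (p (c - n₁))` has `v₁ = v₂ = p c`, `c = max n₁ n₂`;
* `π ^ (p c) ∣ u'` in `R` by induction (`w ∈ 𝔭₁ ⊓ 𝔭₂ = (π)`), `g := u' / π ^ (p c)`;
* `HorDiv` by `H132.horDiv_of_divisible`; the split conditions are transported by hand.
-/

set_option autoImplicit false
set_option linter.unusedSectionVars false
set_option linter.style.haveILetI false

namespace Fermat.Agent.Ribet.H399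

open Fermat.Agent.Ribet.H704 Fermat.Agent.Ribet.H132 Fermat.Agent.A2.Alg.H132

section Vert

variable {R : Type*} [CommRing R] [IsDomain R] [IsNoetherianRing R] [IsIntegrallyClosed R]
variable {K : Type*} [Field K] [Algebra R K] [IsFractionRing R K]
variable {π : R} {𝔭 𝔮 : Ideal R}

theorem algebraMap_ne_zero_h399 {a : R} (ha : a ≠ 0) : algebraMap R K a ≠ 0 := fun h0 =>
  ha ((IsFractionRing.injective R K) (by rw [h0, map_zero]))

/-- The branch valuation of an element of `R ∖ 𝔭` is `0`. -/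
theorem bv_of_notMem (h : VertData π 𝔭 𝔮) {a : R} (ha : a ∉ 𝔭) :
    branchVal (K := K) h (algebraMap R K a) = 0 :=
  branchVal_eq h (valAt_of_notMem h ha)

/-- The branch valuation of a power. -/
theorem bv_pow (h : VertData π 𝔭 𝔮) {u : K} (hu : u ≠ 0) (n : ℕ) :
    branchVal h (u ^ n) = n * branchVal h u :=
  branchVal_eq h (valAt_pow h (branchVal_spec h hu) n)

/-- The branch valuation of an inverse. -/
theorem bv_inv (h : VertData π 𝔭 𝔮) {u : K} (hu : u ≠ 0) :
    branchVal h u⁻¹ = - branchVal h u :=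
  branchVal_eq h (valAt_inv h (branchVal_spec h hu))

/-- `ValAt` of an element of the ring, in ring form, when the valuation is a natural number. -/
theorem valAt_nat_iff (_h : VertData π 𝔭 𝔮) (w : R) (n : ℕ) :
    I6.ValAt K 𝔭 π (algebraMap R K w) n ↔ ∃ a b : R, a ∉ 𝔭 ∧ b ∉ 𝔭 ∧ w * b = π ^ n * a := by
  constructor
  · rintro ⟨a, b, ha, hb, hab⟩
    refine ⟨a, b, ha, hb, IsFractionRing.injective R K ?_⟩
    rw [map_mul, map_mul, map_pow, hab, zpow_natCast]
  · rintro ⟨a, b, ha, hb, hab⟩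
    refine ⟨a, b, ha, hb, ?_⟩
    rw [zpow_natCast, ← map_pow, ← map_mul, ← map_mul, hab]

/-- Elements of the ring have nonnegative branch valuation. -/
theorem bv_nonneg (h : VertData π 𝔭 𝔮) {w : R} (hw : w ≠ 0) :
    0 ≤ branchVal (K := K) h (algebraMap R K w) := by
  have hp := h.prime
  have hπK : algebraMap R K π ≠ 0 := algebraMap_ne_zero_h399 h.w_ne
  by_contra hneg
  rw [not_le] at hneg
  obtain ⟨a, b, ha, hb, hab⟩ := branchVal_spec (K := K) h (algebraMap_ne_zero_h399 hw)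
  obtain ⟨n, hn⟩ : ∃ n : ℕ, branchVal (K := K) h (algebraMap R K w) = -((n : ℤ) + 1) := by
    obtain ⟨n, hn⟩ := Int.eq_ofNat_of_zero_le
      (by omega : 0 ≤ -branchVal (K := K) h (algebraMap R K w) - 1)
    exact ⟨n, by omega⟩
  rw [hn, zpow_neg] at hab
  have e : algebraMap R K (w * b * π ^ (n + 1)) = algebraMap R K a := by
    rw [map_mul, map_mul, map_pow, hab]
    have : (algebraMap R K π) ^ ((n : ℤ) + 1) = (algebraMap R K π) ^ (n + 1) := by
      rw [← zpow_natCast]; push_cast; rfl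
    rw [this]
    have h0 : (algebraMap R K π) ^ (n + 1) ≠ 0 := pow_ne_zero _ hπK
    field_simp
  have e' := IsFractionRing.injective R K e
  exact ha (e' ▸ 𝔭.mul_mem_left _ (𝔭.pow_mem_of_mem h.w_mem _ (Nat.succ_pos n)))

/-- An element of the ring of positive branch valuation lies in the branch. -/
theorem mem_of_bv_pos (h : VertData π 𝔭 𝔮) {w : R} (hw : w ≠ 0)
    (hpos : 1 ≤ branchVal (K := K) h (algebraMap R K w)) : w ∈ 𝔭 := by
  have hp := h.prime
  obtain ⟨n, hn⟩ : ∃ n : ℕ, branchVal (K := K) h (algebraMap R K w) = ((n + 1 : ℕ) : ℤ) := by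
    obtain ⟨n, hn⟩ := Int.eq_ofNat_of_zero_le
      (by omega : 0 ≤ branchVal (K := K) h (algebraMap R K w) - 1)
    exact ⟨n, by push_cast; omega⟩
  have hv := branchVal_spec (K := K) h (algebraMap_ne_zero_h399 hw)
  rw [hn] at hv
  obtain ⟨a, b, ha, hb, hab⟩ := (valAt_nat_iff h w (n + 1)).1 hv
  have : w * b ∈ 𝔭 := hab ▸ 𝔭.mul_mem_right _ (𝔭.pow_mem_of_mem h.w_mem _ (Nat.succ_pos n))
  exact (hp.mem_or_mem this).resolve_right hb

/-- An element of the ring of branch valuation `0` does not lie in the branch. -/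
theorem notMem_of_bv_zero (h : VertData π 𝔭 𝔮) {w : R} (hw : w ≠ 0)
    (h0 : branchVal (K := K) h (algebraMap R K w) = 0) : w ∉ 𝔭 := by
  have hp := h.prime
  intro hmem
  have hv := branchVal_spec (K := K) h (algebraMap_ne_zero_h399 hw)
  rw [h0] at hv
  obtain ⟨a, b, ha, hb, hab⟩ := (valAt_nat_iff h w 0).1 (by simpa using hv)
  rw [pow_zero, one_mul] at hab
  exact ha (hab ▸ 𝔭.mul_mem_right _ hmem)

/-- An element of the branch has positive branch valuation. -/
theorem bv_pos_of_mem (h : VertData π 𝔭 𝔮) {w : R} (hw : w ≠ 0) (hmem : w ∈ 𝔭) :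
    1 ≤ branchVal (K := K) h (algebraMap R K w) := by
  have h0 := bv_nonneg (K := K) h hw
  by_contra hlt
  have : branchVal (K := K) h (algebraMap R K w) = 0 := by omega
  exact notMem_of_bv_zero h hw this hmem

/-- `π + t²` has branch valuation `1` along `𝔭` if `t ∈ 𝔭`. -/
theorem bv_pi_add_sq (h : VertData π 𝔭 𝔮) {t : R} (ht : t ∈ 𝔭) (hne : π + t ^ 2 ≠ 0) :
    branchVal (K := K) h (algebraMap R K (π + t ^ 2)) = 1 := by
  have hp := h.prime
  by_cases ht0 : t = 0
  · subst ht0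
    have : (π : R) + 0 ^ 2 = π := by ring
    rw [this]
    exact branchVal_pi h
  have hpos := bv_pos_of_mem (K := K) h ht0 ht
  obtain ⟨n, hn⟩ : ∃ n : ℕ, branchVal (K := K) h (algebraMap R K t) = ((n + 1 : ℕ) : ℤ) := by
    obtain ⟨n, hn⟩ := Int.eq_ofNat_of_zero_le
      (by omega : 0 ≤ branchVal (K := K) h (algebraMap R K t) - 1)
    exact ⟨n, by push_cast; omega⟩
  have hv := branchVal_spec (K := K) h (algebraMap_ne_zero_h399 ht0)
  rw [hn] at hv
  obtain ⟨a, b, ha, hb, hab⟩ := (valAt_nat_iff h t (n + 1)).1 hv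
  have hv1 : I6.ValAt K 𝔭 π (algebraMap R K (π + t ^ 2)) ((1 : ℕ) : ℤ) := by
    refine (valAt_nat_iff h _ 1).2 ⟨b ^ 2 + π ^ (2 * n + 1) * a ^ 2, b ^ 2, ?_, ?_, ?_⟩
    · intro hmem
      have h2 : π ^ (2 * n + 1) * a ^ 2 ∈ 𝔭 :=
        𝔭.mul_mem_right _ (𝔭.pow_mem_of_mem h.w_mem _ (Nat.succ_pos _))
      have h3 : b ^ 2 ∈ 𝔭 := by
        have := 𝔭.sub_mem hmem h2
        simpa using this
      exact hb (hp.mem_of_pow_mem _ h3)
    · intro hmem
      exact hb (hp.mem_of_pow_mem _ hmem)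
    · have : (t * b) ^ 2 = (π ^ (n + 1) * a) ^ 2 := by rw [hab]
      linear_combination this
  have := branchVal_eq h hv1
  simpa using this

end Vert

section Node

variable {R : Type*} [CommRing R] [IsDomain R] [IsIntegrallyClosed R] [IsNoetherianRing R]
  [IsLocalRing R]
variable {K : Type*} [Field K] [Algebra R K] [IsFractionRing R K]
variable {𝔭₁ 𝔭₂ : Ideal R} {π x y : R}

/-- Division by `π ^ n` in a node ring: an element with both branch valuations `≥ n` is a
multiple of `π ^ n`. -/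
theorem exists_eq_pi_pow_mul (hN : I6.IsNode 𝔭₁ 𝔭₂ π x y) (n : ℕ) :
    ∀ w : R, w ≠ 0 →
      (n : ℤ) ≤ branchVal (K := K) (vertData_left hN) (algebraMap R K w) →
      (n : ℤ) ≤ branchVal (K := K) (vertData_right hN) (algebraMap R K w) →
      ∃ g : R, w = π ^ n * g := by
  have hπ0 : π ≠ 0 := isNode_pi_ne_zero hN
  induction n with
  | zero => intro w _ _ _; exact ⟨w, by simp⟩
  | succ n ih =>
    intro w hw h1 h2
    have hm1 : w ∈ 𝔭₁ := mem_of_bv_pos (K := K) (vertData_left hN) hw (by push_cast at h1; omega)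
    have hm2 : w ∈ 𝔭₂ := mem_of_bv_pos (K := K) (vertData_right hN) hw (by push_cast at h2; omega)
    have hmem : w ∈ 𝔭₁ ⊓ 𝔭₂ := ⟨hm1, hm2⟩
    rw [hN.inf_eq, Ideal.mem_span_singleton] at hmem
    obtain ⟨w', rfl⟩ := hmem
    have hw' : w' ≠ 0 := fun h0 => hw (by rw [h0, mul_zero])
    have hπK : algebraMap R K π ≠ 0 := algebraMap_ne_zero_h399 hπ0
    have hw'K : algebraMap R K w' ≠ 0 := algebraMap_ne_zero_h399 hw'
    rw [map_mul, branchVal_mul _ _ _ hπK hw'K, branchVal_pi] at h1 h2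
    obtain ⟨g, hg⟩ := ih w' hw' (by push_cast at h1; omega) (by push_cast at h2; omega)
    exact ⟨g, by rw [hg]; ring⟩

/-- The valuation along a branch of a `p`-th power in the completion is divisible by `p`. -/
theorem exists_bv_eq_mul_of_split {𝔭 𝔮 : Ideal R} (h : VertData π 𝔭 𝔮) {p : ℕ} (hp : p ≠ 0)
    {u : K} (hu : u ≠ 0) (hs : I6.SplitAt K 𝔭 π p u) :
    ∃ e : ℤ, branchVal h u = p * e := by
  have hpr := h.prime
  obtain ⟨H, r, t, hr, hH⟩ := hs 1
  have hr0 : r ≠ 0 := fun h0 => hr (h0 ▸ 𝔭.zero_mem)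
  have hrK : algebraMap R K r ≠ 0 := algebraMap_ne_zero_h399 hr0
  have hrt : r + π ^ 1 * t ∉ 𝔭 := by
    intro hmem
    have : π ^ 1 * t ∈ 𝔭 := 𝔭.mul_mem_right _ (by simpa using h.w_mem)
    have := 𝔭.sub_mem hmem this
    exact hr (by simpa using this)
  have hrt0 : r + π ^ 1 * t ≠ 0 := fun h0 => hrt (h0 ▸ 𝔭.zero_mem)
  have hrtK : algebraMap R K (r + π ^ 1 * t) ≠ 0 := algebraMap_ne_zero_h399 hrt0
  have hH' : u * algebraMap R K r = H ^ p * algebraMap R K (r + π ^ 1 * t) := by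
    rw [hH, map_add, map_mul, map_pow]
  have hH0 : H ≠ 0 := by
    rintro rfl
    rw [zero_pow hp, zero_mul] at hH'
    exact mul_ne_zero hu hrK hH'
  have e1 := congrArg (branchVal h) hH'
  rw [branchVal_mul h _ _ hu hrK, branchVal_mul h _ _ (pow_ne_zero _ hH0) hrtK,
    bv_of_notMem h hr, bv_of_notMem h hrt, bv_pow h hH0] at e1
  exact ⟨branchVal h H, by linarith⟩

/-- Transport of the split condition to `g = u · D ^ p ∈ R` with branch valuation `0`. -/
theorem split_ring_of_splitAt {𝔭 𝔮 : Ideal R} (h : VertData π 𝔭 𝔮) {p : ℕ} (hp : p ≠ 0)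
    {u : K} (hu : u ≠ 0) (hs : I6.SplitAt K 𝔭 π p u) {g : R} {D : K} (hD : D ≠ 0)
    (hg : algebraMap R K g = u * D ^ p) (hg𝔭 : g ∉ 𝔭) :
    ∀ k : ℕ, ∃ hh r t : R, r ∉ 𝔭 ∧ g * r ^ p - hh ^ p = π ^ k * t := by
  have hpr := h.prime
  have h1 : (1 : R) ∉ 𝔭 := fun h1 => hpr.ne_top ((Ideal.eq_top_iff_one _).2 h1)
  intro k
  rcases Nat.eq_zero_or_pos k with hk | hk
  · subst hk
    exact ⟨0, 1, g, h1, by rw [zero_pow hp]; ring⟩
  obtain ⟨H, r, t, hr, hH⟩ := hs k
  have hr0 : r ≠ 0 := fun h0 => hr (h0 ▸ 𝔭.zero_mem)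
  have hrK : algebraMap R K r ≠ 0 := algebraMap_ne_zero_h399 hr0
  have hrt : r + π ^ k * t ∉ 𝔭 := by
    intro hmem
    have : π ^ k * t ∈ 𝔭 := 𝔭.mul_mem_right _ (𝔭.pow_mem_of_mem h.w_mem _ hk)
    have := 𝔭.sub_mem hmem this
    exact hr (by simpa using this)
  have hrt0 : r + π ^ k * t ≠ 0 := fun h0 => hrt (h0 ▸ 𝔭.zero_mem)
  have hrtK : algebraMap R K (r + π ^ k * t) ≠ 0 := algebraMap_ne_zero_h399 hrt0
  have hH' : u * algebraMap R K r = H ^ p * algebraMap R K (r + π ^ k * t) := by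
    rw [hH, map_add, map_mul, map_pow]
  have hH0 : H ≠ 0 := by
    rintro rfl
    rw [zero_pow hp, zero_mul] at hH'
    exact mul_ne_zero hu hrK hH'
  -- `H' := H * D`
  have hHD0 : H * D ≠ 0 := mul_ne_zero hH0 hD
  have e2 : algebraMap R K g * algebraMap R K r =
      (H * D) ^ p * algebraMap R K (r + π ^ k * t) := by
    rw [hg, mul_pow]
    linear_combination (D ^ p) * hH'
  have hg0 : g ≠ 0 := fun h0 => hg𝔭 (h0 ▸ 𝔭.zero_mem)
  have hgK : algebraMap R K g ≠ 0 := algebraMap_ne_zero_h399 hg0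
  have e3 := congrArg (branchVal h) e2
  rw [branchVal_mul h _ _ hgK hrK, branchVal_mul h _ _ (pow_ne_zero _ hHD0) hrtK,
    bv_of_notMem h hr, bv_of_notMem h hrt, bv_of_notMem h hg𝔭, bv_pow h hHD0] at e3
  have hbv0 : branchVal h (H * D) = 0 := by
    have hp' : (p : ℤ) ≠ 0 := by exact_mod_cast hp
    have : (p : ℤ) * branchVal h (H * D) = 0 := by linarith
    rcases mul_eq_zero.1 this with h' | h'
    · exact absurd h' hp'
    · exact h'
  have hv := branchVal_spec h hHD0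
  rw [hbv0] at hv
  obtain ⟨a, b, ha, hb, hab⟩ := hv
  rw [zpow_zero, one_mul] at hab
  have hb0 : b ≠ 0 := fun h0 => hb (h0 ▸ 𝔭.zero_mem)
  have hbK : algebraMap R K b ≠ 0 := algebraMap_ne_zero_h399 hb0
  -- `g r b ^ p = a ^ p (r + π ^ k t)`
  have e4 : g * r * b ^ p = a ^ p * (r + π ^ k * t) := by
    apply IsFractionRing.injective R K
    rw [map_mul, map_mul, map_pow, map_mul, map_pow, ← hab, mul_pow]
    linear_combination (algebraMap R K b ^ p) * e2
  obtain ⟨p', rfl⟩ := Nat.exists_eq_add_one_of_ne_zero hp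
  refine ⟨a * r, r * b, a ^ (p' + 1) * t * r ^ p', fun hm => (hpr.mem_or_mem hm).elim hr hb, ?_⟩
  linear_combination (r ^ p') * e4

/-- **SPLIT-LOC** (verbatim). -/
theorem splitLoc : I6.SplitLocStatement := by
  intro R K _ _ _ _ _ _ _ _ 𝔭₁ 𝔭₂ π x y hN p hp u hu hdiv hs₁ hs₂
  have hp0 : p ≠ 0 := hp.ne_zero
  have hppos : (0 : ℤ) < p := by exact_mod_cast hp.pos
  have V₁ := vertData_left hN
  have V₂ := vertData_right hN
  have hpr₁ := hN.prime₁
  have hpr₂ := hN.prime₂
  have hπ0 : π ≠ 0 := isNode_pi_ne_zero hN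
  have hπK : algebraMap R K π ≠ 0 := algebraMap_ne_zero_h399 hπ0
  have hπ₁ : π ∈ 𝔭₁ := V₁.w_mem
  have hπ₂ : π ∈ 𝔭₂ := V₂.w_mem
  -- `p ∣ vᵢ(u)`
  obtain ⟨e₁, he₁⟩ := exists_bv_eq_mul_of_split V₁ hp0 hu hs₁
  obtain ⟨e₂, he₂⟩ := exists_bv_eq_mul_of_split V₂ hp0 hu hs₂
  -- `u = a / b`
  obtain ⟨a, b, hb, hab⟩ := IsFractionRing.div_surjective (A := R) u
  have hb0 : b ≠ 0 := nonZeroDivisors.ne_zero hb
  have hbK : algebraMap R K b ≠ 0 := algebraMap_ne_zero_h399 hb0
  have hub : u * algebraMap R K b = algebraMap R K a := by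
    rw [← hab]; field_simp
  have ha0 : a ≠ 0 := by
    rintro rfl
    rw [map_zero] at hub
    exact mul_ne_zero hu hbK hub
  obtain ⟨p', hp'⟩ := Nat.exists_eq_add_one_of_ne_zero hp0
  -- `u₁ = a b ^ (p - 1) = u b ^ p`
  set u₁ : R := a * b ^ p' with hu₁
  have hu₁K : algebraMap R K u₁ = u * algebraMap R K b ^ p := by
    rw [hu₁, map_mul, map_pow, ← hub, hp', pow_succ]; ring
  have hu₁0 : u₁ ≠ 0 := mul_ne_zero ha0 (pow_ne_zero _ hb0)
  -- valuations of `u₁`
  have hv₁ : branchVal (K := K) V₁ (algebraMap R K u₁) =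
      p * (e₁ + branchVal (K := K) V₁ (algebraMap R K b)) := by
    rw [hu₁K, branchVal_mul V₁ _ _ hu (pow_ne_zero _ hbK), bv_pow V₁ hbK, he₁]; ring
  have hv₂ : branchVal (K := K) V₂ (algebraMap R K u₁) =
      p * (e₂ + branchVal (K := K) V₂ (algebraMap R K b)) := by
    rw [hu₁K, branchVal_mul V₂ _ _ hu (pow_ne_zero _ hbK), bv_pow V₂ hbK, he₂]; ring
  have hn₁ : 0 ≤ e₁ + branchVal (K := K) V₁ (algebraMap R K b) := by
    have := bv_nonneg (K := K) V₁ hu₁0
    rw [hv₁] at this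
    exact nonneg_of_mul_nonneg_right this hppos
  have hn₂ : 0 ≤ e₂ + branchVal (K := K) V₂ (algebraMap R K b) := by
    have := bv_nonneg (K := K) V₂ hu₁0
    rw [hv₂] at this
    exact nonneg_of_mul_nonneg_right this hppos
  obtain ⟨n₁, hn₁'⟩ := Int.eq_ofNat_of_zero_le hn₁
  obtain ⟨n₂, hn₂'⟩ := Int.eq_ofNat_of_zero_le hn₂
  rw [hn₁'] at hv₁
  rw [hn₂'] at hv₂
  -- the two elements `Z = π + x²` (`(v₁, v₂) = (0, 1)`) and `Z' = π + y²` (`(1, 0)`)
  set Z : R := π + x ^ 2 with hZ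
  set Z' : R := π + y ^ 2 with hZ'
  have hZ₁ : Z ∉ 𝔭₁ := by
    intro hmem
    have : x ^ 2 ∈ 𝔭₁ := by
      have := 𝔭₁.sub_mem hmem hπ₁
      simpa [hZ] using this
    exact hN.hx₁ (hpr₁.mem_of_pow_mem _ this)
  have hZ'₂ : Z' ∉ 𝔭₂ := by
    intro hmem
    have : y ^ 2 ∈ 𝔭₂ := by
      have := 𝔭₂.sub_mem hmem hπ₂
      simpa [hZ'] using this
    exact hN.hy₂ (hpr₂.mem_of_pow_mem _ this)
  have hZ0 : Z ≠ 0 := fun h0 => hZ₁ (h0 ▸ 𝔭₁.zero_mem)
  have hZ'0 : Z' ≠ 0 := fun h0 => hZ'₂ (h0 ▸ 𝔭₂.zero_mem)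
  have hZK : algebraMap R K Z ≠ 0 := algebraMap_ne_zero_h399 hZ0
  have hZ'K : algebraMap R K Z' ≠ 0 := algebraMap_ne_zero_h399 hZ'0
  have bZ₁ : branchVal (K := K) V₁ (algebraMap R K Z) = 0 := bv_of_notMem V₁ hZ₁
  have bZ₂ : branchVal (K := K) V₂ (algebraMap R K Z) = 1 := bv_pi_add_sq V₂ hN.hx hZ0
  have bZ'₁ : branchVal (K := K) V₁ (algebraMap R K Z') = 1 := bv_pi_add_sq V₁ hN.hy hZ'0
  have bZ'₂ : branchVal (K := K) V₂ (algebraMap R K Z') = 0 := bv_of_notMem V₂ hZ'₂
  -- equalise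
  set c : ℕ := max n₁ n₂ with hc
  have hc₁ : n₁ ≤ c := le_max_left _ _
  have hc₂ : n₂ ≤ c := le_max_right _ _
  set E : R := Z ^ (c - n₂) * Z' ^ (c - n₁) with hE
  have hE0 : E ≠ 0 := mul_ne_zero (pow_ne_zero _ hZ0) (pow_ne_zero _ hZ'0)
  have hEK : algebraMap R K E ≠ 0 := algebraMap_ne_zero_h399 hE0
  have bE₁ : branchVal (K := K) V₁ (algebraMap R K E) = ((c - n₁ : ℕ) : ℤ) := by
    rw [hE, map_mul, map_pow, map_pow,
      branchVal_mul V₁ _ _ (pow_ne_zero _ hZK) (pow_ne_zero _ hZ'K), bv_pow V₁ hZK,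
      bv_pow V₁ hZ'K, bZ₁, bZ'₁]
    ring
  have bE₂ : branchVal (K := K) V₂ (algebraMap R K E) = ((c - n₂ : ℕ) : ℤ) := by
    rw [hE, map_mul, map_pow, map_pow,
      branchVal_mul V₂ _ _ (pow_ne_zero _ hZK) (pow_ne_zero _ hZ'K), bv_pow V₂ hZK,
      bv_pow V₂ hZ'K, bZ₂, bZ'₂]
    ring
  set u' : R := u₁ * E ^ p with hu'
  have hu'0 : u' ≠ 0 := mul_ne_zero hu₁0 (pow_ne_zero _ hE0)
  have hu'K : algebraMap R K u' ≠ 0 := algebraMap_ne_zero_h399 hu'0
  have bu'₁ : branchVal (K := K) V₁ (algebraMap R K u') = ((p * c : ℕ) : ℤ) := by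
    rw [hu', map_mul, map_pow,
      branchVal_mul V₁ _ _ (algebraMap_ne_zero_h399 hu₁0) (pow_ne_zero _ hEK), bv_pow V₁ hEK,
      hv₁, bE₁]
    push_cast [Nat.cast_sub hc₁]
    ring
  have bu'₂ : branchVal (K := K) V₂ (algebraMap R K u') = ((p * c : ℕ) : ℤ) := by
    rw [hu', map_mul, map_pow,
      branchVal_mul V₂ _ _ (algebraMap_ne_zero_h399 hu₁0) (pow_ne_zero _ hEK), bv_pow V₂ hEK,
      hv₂, bE₂]
    push_cast [Nat.cast_sub hc₂]
    ring
  -- divide by `π ^ (p c)`
  obtain ⟨g, hg⟩ := exists_eq_pi_pow_mul (K := K) hN (p * c) u' hu'0 bu'₁.ge bu'₂.ge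
  have hg0 : g ≠ 0 := fun h0 => hu'0 (by rw [hg, h0, mul_zero])
  have hgK : algebraMap R K g ≠ 0 := algebraMap_ne_zero_h399 hg0
  have hπpK : algebraMap R K (π ^ (p * c)) ≠ 0 := algebraMap_ne_zero_h399 (pow_ne_zero _ hπ0)
  have bg₁ : branchVal (K := K) V₁ (algebraMap R K g) = 0 := by
    have := bu'₁
    rw [hg, map_mul, branchVal_mul V₁ _ _ hπpK hgK, map_pow, bv_pow V₁ hπK, branchVal_pi] at this
    linarith
  have bg₂ : branchVal (K := K) V₂ (algebraMap R K g) = 0 := by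
    have := bu'₂
    rw [hg, map_mul, branchVal_mul V₂ _ _ hπpK hgK, map_pow, bv_pow V₂ hπK, branchVal_pi] at this
    linarith
  have hg₁ : g ∉ 𝔭₁ := notMem_of_bv_zero (K := K) V₁ hg0 bg₁
  have hg₂ : g ∉ 𝔭₂ := notMem_of_bv_zero (K := K) V₂ hg0 bg₂
  -- `g = u · D ^ p`, `D = b E / π ^ c`
  set D : K := algebraMap R K b * algebraMap R K E * ((algebraMap R K π) ^ c)⁻¹ with hD
  have hD0 : D ≠ 0 := mul_ne_zero (mul_ne_zero hbK hEK) (inv_ne_zero (pow_ne_zero _ hπK))
  have hgD : algebraMap R K g = u * D ^ p := by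
    have h1 : algebraMap R K u' = algebraMap R K π ^ (p * c) * algebraMap R K g := by
      rw [hg, map_mul, map_pow]
    have h2 : algebraMap R K u' = u * algebraMap R K b ^ p * algebraMap R K E ^ p := by
      rw [hu', map_mul, map_pow, hu₁K]
    have h3 : algebraMap R K π ^ (p * c) ≠ 0 := pow_ne_zero _ hπK
    have h4 : (algebraMap R K π ^ c) ^ p = algebraMap R K π ^ (p * c) := by
      rw [← pow_mul, mul_comm]
    rw [hD, mul_pow, mul_pow, inv_pow, h4]
    field_simp
    linear_combination h2 - h1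
  refine ⟨g, D⁻¹, inv_ne_zero hD0, ?_, hg₁, hg₂, ?_, ?_, ?_⟩
  · rw [hgD, inv_pow]
    field_simp
  · -- horizontal divisibility
    refine horDiv_of_divisible hN hp0 hgK (u' := g) (b := 1) (by simp) ?_
    intro V hV hR hπV
    obtain ⟨G, u₀, hu₀, hu₀', huG⟩ := hdiv V hV hR hπV
    refine ⟨G * D, u₀, hu₀, hu₀', ?_⟩
    rw [hgD, huG, mul_pow]
    ring
  · exact split_ring_of_splitAt V₁ hp0 hu hs₁ hD0 hgD hg₁
  · exact split_ring_of_splitAt V₂ hp0 hu hs₂ hD0 hgD hg₂

end Node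

end Fermat.Agent.Ribet.H399

end
-- ===== PACK-END Ribet/H399/SplitLoc.lean

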