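import Mathlib
import Fermat.Prelude.Def_ModularCurve_ReductionModL
import Fermat.Agent.Pack.S44C.G0E16L2
import Fermat.Agent.Pack.S44C.G0E14L3
import Fermat.Agent.Pack.S44C.G0E14L0
import Fermat.Agent.Pack.S44C.G0E15L2
import Fermat.Agent.Pack.S44C.G0E15L3
import Fermat.Agent.Pack.S44C.G0E15L1
import Fermat.Agent.Pack.S44C.G0E9L1
import Fermat.Agent.Pack.S44C.G0E12L1
import Fermat.Agent.Pack.S44C.G0E15L0
import Fermat.Agent.Pack.S44C.G0E14L2
import Fermat.Agent.Pack.S44C.G0E4L3
import Fermat.Agent.Pack.S44C.G0E11L0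
import Fermat.Agent.Pack.S44C.G0E0L3
import Fermat.Agent.Pack.S44C.G0E16L1
import Fermat.Agent.Pack.Fast891

-- ===== PACK-BEGIN S28/H807/Families.lean
section
/-
S28 / helper807 — `S`-invariance of the two families of conjugates:
* `j`-family: `{J(pτ)} ∪ {J((τ+b)/p)}` for an `SL(2,ℤ)`-invariant `J`;
* unit family: `{p¹² D(pτ)/D(τ)} ∪ {D((τ+b)/p)/D(τ)}` for a weight-12 form `D`.
-/



set_option autoImplicit false
set_option maxHeartbeats 400000

noncomputable section

open ModularCurve Polynomial Matrix UpperHalfPlane Complex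
open scoped MatrixGroups

namespace Fermat.Agent.S28.H807

variable (p : ℕ) [NeZero p]

/-- The polynomial `(X - E(τ)) ∏_b (X - G((τ+b)/p))`. -/
def conjPoly (E G : ℍ → ℂ) (τ : ℍ) : Polynomial ℂ :=
  (X - C (E τ)) * ∏ b : Fin p, (X - C (G (divShift p ((b : ℕ) : ℤ) τ)))

theorem conjPoly_S_of (hp : p.Prime) (E G : ℍ → ℂ)
    (ha : ∀ τ : ℍ, E (ModularGroup.S • τ) = G (divShift p 0 τ))
    (hb : ∀ τ : ℍ, G (divShift p 0 (ModularGroup.S • τ)) = E τ)
    (hc : ∀ (B B' k : ℤ) (_ : B * B' + 1 = (p : ℤ) * k) (τ : ℍ),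
      G (divShift p B (ModularGroup.S • τ)) = G (divShift p B' τ))
    (τ : ℍ) : conjPoly p E G (ModularGroup.S • τ) = conjPoly p E G τ := by
  have : Fact p.Prime := ⟨hp⟩
  unfold conjPoly
  apply prod_conj_eq_of_perm p (E τ) (E (ModularGroup.S • τ))
    (fun b => G (divShift p ((b : ℕ) : ℤ) τ))
    (fun b => G (divShift p ((b : ℕ) : ℤ) (ModularGroup.S • τ)))
  · simpa using ha τ
  · simpa using hb τ
  · intro b hb0
    obtain ⟨k, hk⟩ := dvd_mul_negInvFin_add_one p hb0
    exact hc _ _ k hk τ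

/-- `S`-invariance for the `j`-family. -/
theorem conjPoly_J_S (hp : p.Prime) (J : ℍ → ℂ)
    (hJ : ∀ (γ : SL(2, ℤ)) (τ : ℍ), J (γ • τ) = J τ) (τ : ℍ) :
    conjPoly p (fun τ => J (mulNat p τ)) J (ModularGroup.S • τ)
      = conjPoly p (fun τ => J (mulNat p τ)) J τ := by
  apply conjPoly_S_of p hp
  · intro τ
    rw [mulNat_S_smul, hJ]
  · intro τ
    rw [divShift_zero_S_smul, hJ]
  · intro B B' k h τ
    rw [← conjMat_smul p B B' k h, hJ]

/-- The function `τ' ↦ D(τ')/D(pτ')`, whose values at `(τ+b)/p` are `D((τ+b)/p)/D(τ)`. -/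
def unitG (D : ℍ → ℂ) (τ : ℍ) : ℂ := D τ / D (mulNat p τ)

/-- The function `τ ↦ p¹² D(pτ)/D(τ)`. -/
def unitE (D : ℍ → ℂ) (τ : ℍ) : ℂ := (p : ℂ) ^ 12 * D (mulNat p τ) / D τ

/-- `S`-invariance for the unit family. -/
theorem conjPoly_unit_S (hp : p.Prime) (D : ℍ → ℂ) (hD0 : ∀ τ, D τ ≠ 0)
    (hD : ∀ (γ : SL(2, ℤ)) (τ : ℍ), D (γ • τ) = (denom γ τ) ^ 12 * D τ) (τ : ℍ) :
    conjPoly p (unitE p D) (unitG p D) (ModularGroup.S • τ)
      = conjPoly p (unitE p D) (unitG p D) τ := by
  have hpc : (p : ℂ) ≠ 0 := by exact_mod_cast NeZero.ne p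
  have hS : ∀ z : ℍ, D (ModularGroup.S • z) = (z : ℂ) ^ 12 * D z := by
    intro z
    rw [hD, ModularGroup.denom_S]
  have hT : ∀ (n : ℤ) (z : ℍ), D (ModularGroup.T ^ n • z) = D z := by
    intro n z
    rw [hD]
    have : denom ((ModularGroup.T ^ n : SL(2, ℤ)) : GL (Fin 2) ℝ) z = 1 := by
      rw [ModularGroup.denom_apply]
      simp [ModularGroup.coe_T_zpow]
    rw [this, one_pow, one_mul]
  apply conjPoly_S_of p hp
  · intro τ
    have hτ : (τ : ℂ) ≠ 0 := ne_zero τ
    unfold unitE unitG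
    rw [mulNat_S_smul, hS, hS, mulNat_divShift, hT]
    have h1 : ((divShift p 0 τ : ℍ) : ℂ) = (τ : ℂ) / (p : ℂ) := by simp
    rw [h1]
    have := hD0 τ
    field_simp
  · intro τ
    have hτ : (τ : ℂ) ≠ 0 := ne_zero τ
    unfold unitE unitG
    rw [mulNat_divShift, hT, divShift_zero_S_smul, hS, hS]
    have h1 : ((mulNat p τ : ℍ) : ℂ) = (p : ℂ) * (τ : ℂ) := by simp
    rw [h1]
    have := hD0 τ
    field_simp
  · intro B B' k h τ
    have hτ : (τ : ℂ) ≠ 0 := ne_zero τ
    unfold unitG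
    rw [mulNat_divShift, hT, mulNat_divShift, hT, ← conjMat_smul p B B' k h, hD,
      denom_conjMat, hS]
    have := hD0 τ
    field_simp

end Fermat.Agent.S28.H807

end

end
-- ===== PACK-END S28/H807/Families.lean

-- ===== PACK-BEGIN S37/H940/QSeries.lean
section





/-!
# S37 / RIM (helper940): from an atlas of fibres to the Prelude's `ReductionInputsAlong`

For subfields `F ⊆ L((q))`, `F_k ⊆ k((q))` and a valuation ring `A ⊆ L` with residue map
`π : A → k`, the integral `q`-series of `F` with reduction in `F_k` form a subring `O` with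
a reduction map; `qData` is the associated context of fractions.

`reductionInputsAlong_of_atlas`: an atlas of fibres for this context (+ trivial residue
fields, `HasPrincipalDivisors`, and "every function is a constant times a fraction of integral
series with nonzero reduction") gives the Prelude's `ModularCurve.ReductionInputsAlong A π N`,
i.e. the hypothesis `h` of the frozen statement S18.
-/

set_option autoImplicit false

noncomputable section

namespace Fermat.Agent.S37.H940

open AlgebraicCurve ModularCurve HahnSeries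

variable {L : Type*} [Field L] (A : ValuationSubring L) {k : Type*} [Field k] (π : A →+* k)
variable (F : IntermediateField L (LaurentSeries L)) (Fk : IntermediateField k (LaurentSeries k))

theorem coeffMap_subtype_injective : Function.Injective (coeffMap A.subtype) := by
  intro x y h
  ext n
  have := congrArg (fun z : LaurentSeries L => z.coeff n) h
  simp only [coeffMap_coeff] at this
  exact this

/-- `f ∈ F` is an integral `q`-series whose reduction lies in `F_k`. -/
def IsIntQ (f : F) : Prop :=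
  ∃ y : LaurentSeries A, coeffMap A.subtype y = (f : LaurentSeries L) ∧ coeffMap π y ∈ Fk

/-- the ring of integral `q`-series of `F` with reduction in `F_k` -/
def intQ : Subring F where
  carrier := {f | IsIntQ A π F Fk f}
  mul_mem' := by
    rintro f g ⟨y, hy, hyk⟩ ⟨z, hz, hzk⟩
    refine ⟨y * z, ?_, ?_⟩
    · rw [map_mul, hy, hz]; rfl
    · rw [map_mul]; exact mul_mem hyk hzk
  one_mem' := ⟨1, by rw [map_one]; rfl, by rw [map_one]; exact one_mem _⟩
  add_mem' := by
    rintro f g ⟨y, hy, hyk⟩ ⟨z, hz, hzk⟩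
    refine ⟨y + z, ?_, ?_⟩
    · rw [map_add, hy, hz]; rfl
    · rw [map_add]; exact add_mem hyk hzk
  zero_mem' := ⟨0, by rw [map_zero]; rfl, by rw [map_zero]; exact zero_mem _⟩
  neg_mem' := by
    rintro f ⟨y, hy, hyk⟩
    refine ⟨-y, ?_, ?_⟩
    · rw [map_neg, hy]; rfl
    · rw [map_neg]; exact neg_mem hyk

/-- the integral series representing an element of `intQ` -/
def series (f : intQ A π F Fk) : LaurentSeries A := (f.2 : IsIntQ A π F Fk f).choose

theorem coeffMap_series (f : intQ A π F Fk) :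
    coeffMap A.subtype (series A π F Fk f) = ((f : F) : LaurentSeries L) :=
  (f.2 : IsIntQ A π F Fk f).choose_spec.1

theorem coeffMap_series_mem (f : intQ A π F Fk) : coeffMap π (series A π F Fk f) ∈ Fk :=
  (f.2 : IsIntQ A π F Fk f).choose_spec.2

theorem series_eq (f : intQ A π F Fk) {y : LaurentSeries A}
    (hy : coeffMap A.subtype y = ((f : F) : LaurentSeries L)) : series A π F Fk f = y :=
  coeffMap_subtype_injective A ((coeffMap_series A π F Fk f).trans hy.symm)

/-- the reduction of integral series -/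
def redQ : intQ A π F Fk →+* Fk where
  toFun f := ⟨coeffMap π (series A π F Fk f), coeffMap_series_mem A π F Fk f⟩
  map_one' := by
    apply Subtype.ext
    show coeffMap π (series A π F Fk 1) = 1
    rw [series_eq A π F Fk 1 (y := 1) (by rw [map_one]; rfl), map_one]
  map_mul' f g := by
    apply Subtype.ext
    show coeffMap π (series A π F Fk (f * g))
      = coeffMap π (series A π F Fk f) * coeffMap π (series A π F Fk g)
    rw [series_eq A π F Fk (f * g) (y := series A π F Fk f * series A π F Fk g)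
      (by rw [map_mul, coeffMap_series, coeffMap_series]; rfl), map_mul]
  map_zero' := by
    apply Subtype.ext
    show coeffMap π (series A π F Fk 0) = 0
    rw [series_eq A π F Fk 0 (y := 0) (by rw [map_zero]; rfl), map_zero]
  map_add' f g := by
    apply Subtype.ext
    show coeffMap π (series A π F Fk (f + g))
      = coeffMap π (series A π F Fk f) + coeffMap π (series A π F Fk g)
    rw [series_eq A π F Fk (f + g) (y := series A π F Fk f + series A π F Fk g)
      (by rw [map_add, coeffMap_series, coeffMap_series]; rfl), map_add]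

theorem coe_redQ (f : intQ A π F Fk) {y : LaurentSeries A}
    (hy : coeffMap A.subtype y = ((f : F) : LaurentSeries L)) :
    ((redQ A π F Fk f : Fk) : LaurentSeries k) = coeffMap π y := by
  show coeffMap π (series A π F Fk f) = coeffMap π y
  rw [series_eq A π F Fk f hy]

theorem const_isIntQ (a : A) : IsIntQ A π F Fk (algebraMap L F (a : L)) := by
  refine ⟨HahnSeries.single 0 a, ?_, ?_⟩
  · rw [coeffMap_single]
    show HahnSeries.single 0 (a : L) = algebraMap L (LaurentSeries L) (a : L)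
    rw [algebraMap_laurentSeries_eq_single]
  · rw [coeffMap_single, ← algebraMap_laurentSeries_eq_single]
    exact Fk.algebraMap_mem _

/-- the data of integral `q`-series -/
def qData (hsurj : Function.Surjective π) (hker : ∀ a : A, π a = 0 ↔ ¬ IsUnit a) :
    FracData L F k Fk where
  A := A
  π := π
  π_surj := hsurj
  π_eq_zero := hker
  O := intQ A π F Fk
  ρ₀ := redQ A π F Fk
  A_mem := const_isIntQ A π F Fk
  ρ₀_A a := by
    apply Subtype.ext
    rw [coe_redQ A π F Fk ⟨_, const_isIntQ A π F Fk a⟩ (y := HahnSeries.single 0 a)]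
    · rw [coeffMap_single, ← algebraMap_laurentSeries_eq_single]
      rfl
    · rw [coeffMap_single]
      show HahnSeries.single 0 (a : L) = algebraMap L (LaurentSeries L) (a : L)
      rw [algebraMap_laurentSeries_eq_single]

section Main

variable (hsurj : Function.Surjective π) (hker : ∀ a : A, π a = 0 ↔ ¬ IsUnit a)

/-- "Value group" hypothesis: every nonzero function is a constant times a fraction of
integral series with nonzero reductions. -/
def ValueGroupHyp : Prop :=
  ∀ f : F, f ≠ 0 → ∃ c : L, c ≠ 0 ∧ ∃ y₁ y₂ : intQ A π F Fk,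
    redQ A π F Fk y₁ ≠ 0 ∧ redQ A π F Fk y₂ ≠ 0 ∧
      f * (y₂ : F) = algebraMap L F c * (y₁ : F)

/-- clause (ii) of `IsPlaceReductionAlong`, for general `F`, `F_k` -/
def SpecialisesDivisors (r : Place L F → Place k Fk) : Prop :=
  ∀ (y : LaurentSeries A) (hy : coeffMap A.subtype y ∈ F) (hyk : coeffMap π y ∈ Fk),
    coeffMap π y ≠ 0 → ∀ D : Divisor L F,
      (∀ P, D P = P.ord (⟨coeffMap A.subtype y, hy⟩ : F)) →
        ∀ Q, Finsupp.mapDomain r D Q = Q.ord (⟨coeffMap π y, hyk⟩ : Fk)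

/-- the integral principal divisors, for general `F`, `F_k` -/
def intPrincipal : Set (Divisor L F) :=
  {D | ∃ (y : LaurentSeries A) (hy : coeffMap A.subtype y ∈ F),
    coeffMap π y ∈ Fk ∧ coeffMap π y ≠ 0 ∧
      ∀ P, D P = P.ord (⟨coeffMap A.subtype y, hy⟩ : F)}

/-- **Specialisation of divisors from an atlas.** -/
theorem exists_specialisesDivisors [Infinite k] {ι : Type*}
    (𝔄 : Atlas (qData A π F Fk hsurj hker).ctx ι)
    (hresK : ∀ (P : Place L F) (f : F), 0 ≤ P.ord f → ∃ c : L, InMax P (f - algebraMap L F c))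
    (hresk : ∀ (Q : Place k Fk) (g : Fk), 0 ≤ Q.ord g →
      ∃ a : k, InMax Q (g - algebraMap k Fk a)) :
    ∃ r : Place L F → Place k Fk, (∀ P, (r P).deg = P.deg) ∧ SpecialisesDivisors A π F Fk r := by
  obtain ⟨r, hdeg, hr⟩ := Atlas.exists_red 𝔄 hresK hresk
  refine ⟨r, hdeg, ?_⟩
  intro y hy hyk hne D hD Q
  set 𝔇 := qData A π F Fk hsurj hker with h𝔇
  have hint : IsIntQ A π F Fk ⟨coeffMap A.subtype y, hy⟩ := ⟨y, rfl, hyk⟩
  set a : 𝔇.O := ⟨⟨coeffMap A.subtype y, hy⟩, hint⟩ with ha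
  set u : 𝔇.ctx.V := 𝔇.ofO a with hu
  have hρ : 𝔇.ctx.ρ u = ⟨coeffMap π y, hyk⟩ := by
    show 𝔇.ρ (𝔇.ofO a) = _
    rw [𝔇.ρ_ofO]
    apply Subtype.ext
    exact coe_redQ A π F Fk _ (y := y) rfl
  have hu0 : 𝔇.ctx.ρ u ≠ 0 := by
    rw [hρ]
    intro h
    exact hne (congrArg Subtype.val h)
  have := hr u hu0 D hD Q
  rw [hρ] at this
  exact this

/-- **Principal divisors are generated by integral ones**, from the value group hypothesis. -/
theorem principal_le_closure_intPrincipal [HasPrincipalDivisors L F]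
    (hVG : ValueGroupHyp A π F Fk) :
    Divisor.principal (K := L) (F := F) ≤ AddSubgroup.closure (intPrincipal A π F Fk) := by
  rintro D ⟨f, hf, hD⟩
  obtain ⟨c, hc, y₁, y₂, h₁, h₂, hfy⟩ := hVG f hf
  have hy₁ : (y₁ : F) ≠ 0 := fun h => h₁ (by
    have : y₁ = 0 := Subtype.ext h
    rw [this, map_zero])
  have hy₂ : (y₂ : F) ≠ 0 := fun h => h₂ (by
    have : y₂ = 0 := Subtype.ext h
    rw [this, map_zero])
  obtain ⟨D₁, hD₁, -⟩ := HasPrincipalDivisors.exists_divisor (K := L) (y₁ : F) hy₁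
  obtain ⟨D₂, hD₂, -⟩ := HasPrincipalDivisors.exists_divisor (K := L) (y₂ : F) hy₂
  have hmem : ∀ (y : intQ A π F Fk) (E : Divisor L F), redQ A π F Fk y ≠ 0 →
      (∀ P, E P = P.ord (y : F)) → E ∈ intPrincipal A π F Fk := by
    intro y E hy hE
    obtain ⟨s, hs, hsk⟩ := (y.2 : IsIntQ A π F Fk y)
    refine ⟨s, by rw [hs]; exact (y : F).2, hsk, ?_, ?_⟩
    · intro h0
      apply hy
      apply Subtype.ext
      rw [coe_redQ A π F Fk y hs, h0]
      rfl
    · intro P
      rw [hE P]
      congr 1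
      apply Subtype.ext
      exact hs.symm
  have hDeq : D = D₁ - D₂ := by
    ext P
    rw [Finsupp.sub_apply, hD P, hD₁ P, hD₂ P]
    have hc' : algebraMap L F c ≠ 0 := by
      rwa [Ne, map_eq_zero_iff _ (algebraMap L F).injective]
    have h := congrArg P.ord hfy
    rw [P.ord_mul hf hy₂, P.ord_mul hc' hy₁, Fermat.Agent.S24.FF.ord_algebraMap] at h
    omega
  rw [hDeq]
  exact AddSubgroup.sub_mem _ (AddSubgroup.subset_closure (hmem y₁ D₁ h₁ hD₁))
    (AddSubgroup.subset_closure (hmem y₂ D₂ h₂ hD₂))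

end Main

section Prelude

variable {L : Type*} [Field L] [Algebra ℚ L] (A : ValuationSubring L) {k : Type*} [Field k]
  (π : A →+* k) (N : ℕ)
variable (hsurj : Function.Surjective π) (hker : ∀ a : A, π a = 0 ↔ ¬ IsUnit a)

/-- **The Prelude's `ReductionInputsAlong` from an atlas of fibres** (the hypothesis `h` of the
frozen statement S18 when `π` is the residue map of `A ⊆ ℚ̄`). -/
theorem reductionInputsAlong_of_atlas [Infinite k] {ι : Type*}
    [HasPrincipalDivisors L (laurentBaseChange L (modularFunctionFieldFull N))]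
    (𝔄 : Atlas (qData A π (laurentBaseChange L (modularFunctionFieldFull N))
      (modularFunctionFieldFullC k N) hsurj hker).ctx ι)
    (hresK : ∀ (P : Place L (laurentBaseChange L (modularFunctionFieldFull N)))
      (f : laurentBaseChange L (modularFunctionFieldFull N)), 0 ≤ P.ord f →
        ∃ c : L, InMax P (f - algebraMap L _ c))
    (hresk : ∀ (Q : Place k (modularFunctionFieldFullC k N))
      (g : modularFunctionFieldFullC k N), 0 ≤ Q.ord g →
        ∃ a : k, InMax Q (g - algebraMap k _ a))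
    (hVG : ValueGroupHyp A π (laurentBaseChange L (modularFunctionFieldFull N))
      (modularFunctionFieldFullC k N)) :
    ReductionInputsAlong A π N := by
  obtain ⟨r, hdeg, hr⟩ := exists_specialisesDivisors A π _ _ hsurj hker 𝔄 hresK hresk
  exact ⟨r, ⟨hdeg, hr⟩, principal_le_closure_intPrincipal A π _ _ hVG⟩

end Prelude

end Fermat.Agent.S37.H940

end
end
-- ===== PACK-END S37/H940/QSeries.lean

-- ===== PACK-BEGIN S37/Core/Weak.lean
section


/-!
# S37 row (helper37): weak reduction data suffice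

`IsWeakRed` drops the field `frob_ker` of `Fermat.Agent.S37.H99.IsRed` and asks for the
Eichler-Shimura relation at ONE Frobenius element `σ₀` only.  From a weak reduction map `red`
we build `red' x = (n ↦ red (σ₀ ^ n • x))`, which satisfies all four fields of `IsRed`.
Consequently the geometric part of S37 never has to talk about a Frobenius action on the
special fibre.
-/

set_option autoImplicit false

noncomputable section

namespace Fermat.Agent.S37.Core

open ModularCurve ValuationSubring Fermat.Agent.S37.H99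

section Abstract

variable {K L : Type*} [Field K] [Field L] [Algebra K L]
variable (p : ℕ) (J : Type) [AddCommGroup J] [Module HeckeAlg J]
  [DistribMulAction (L ≃ₐ[K] L) J] [SMulCommClass (L ≃ₐ[K] L) HeckeAlg J]

/-- Weak reduction data at `(A, ℓ)` relative to ONE Frobenius element `σ₀`. -/
structure IsWeakRed (A : ValuationSubring L) (ℓ : ℕ) (hℓ : ℓ.Prime) (σ₀ : L ≃ₐ[K] L)
    {Y : Type*} [AddCommGroup Y] (red : J →+ Y) : Prop where
  frob : A.IsFrobeniusAt σ₀ ℓ
  inertia : ∀ τ ∈ A.inertiaSubgroupIn K, ∀ x : J, red (τ • x) = red x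
  inj_torsion : ∀ x : J, (∃ n : ℕ, p ^ n • x = 0) → red x = 0 → x = 0
  relation : ∀ x : J, red (σ₀ • σ₀ • x - heckeGen ⟨ℓ, hℓ⟩ • (σ₀ • x) + ℓ • x) = 0

variable {p J}

/-- the inertia subgroup is stable under conjugation by the decomposition group -/
theorem conj_mem_inertiaSubgroupIn {A : ValuationSubring L} {g τ : L ≃ₐ[K] L}
    (hg : g ∈ A.decompositionSubgroup K) (hτ : τ ∈ A.inertiaSubgroupIn K) :
    g * τ * g⁻¹ ∈ A.inertiaSubgroupIn K := by
  obtain ⟨t, ht, rfl⟩ := hτ
  let d : A.decompositionSubgroup K := ⟨g, hg⟩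
  haveI : (A.inertiaSubgroup K).Normal := MonoidHom.normal_ker _
  refine ⟨d * t * d⁻¹, Subgroup.Normal.conj_mem ‹_› t ht d, rfl⟩

/-- `red' x = (n ↦ red (σ₀ ^ n • x))` -/
def iterRed (σ₀ : L ≃ₐ[K] L) {Y : Type*} [AddCommGroup Y] (red : J →+ Y) : J →+ (ℕ → Y) where
  toFun x n := red (σ₀ ^ n • x)
  map_zero' := by
    funext n
    simp
  map_add' x y := by
    funext n
    simp [smul_add]

@[simp] theorem iterRed_apply (σ₀ : L ≃ₐ[K] L) {Y : Type*} [AddCommGroup Y] (red : J →+ Y)
    (x : J) (n : ℕ) : iterRed σ₀ red x n = red (σ₀ ^ n • x) := rfl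

theorem IsWeakRed.red_pow_smul_inertia {A : ValuationSubring L} {ℓ : ℕ} {hℓ : ℓ.Prime}
    {σ₀ : L ≃ₐ[K] L} {Y : Type*} [AddCommGroup Y] {red : J →+ Y}
    (h : IsWeakRed (K := K) p J A ℓ hℓ σ₀ red) (n : ℕ) {τ : L ≃ₐ[K] L}
    (hτ : τ ∈ A.inertiaSubgroupIn K) (x : J) :
    red (σ₀ ^ n • τ • x) = red (σ₀ ^ n • x) := by
  have hg : σ₀ ^ n ∈ A.decompositionSubgroup K :=
    pow_mem h.frob.mem_decompositionSubgroup n
  have hconj := conj_mem_inertiaSubgroupIn hg hτ
  have e : σ₀ ^ n • τ • x = (σ₀ ^ n * τ * (σ₀ ^ n)⁻¹) • (σ₀ ^ n • x) := by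
    rw [← mul_smul, ← mul_smul, inv_mul_cancel_right]
  rw [e, h.inertia _ hconj]

theorem IsWeakRed.red_pow_smul_frob {A : ValuationSubring L} {ℓ : ℕ} {hℓ : ℓ.Prime}
    {σ₀ : L ≃ₐ[K] L} {Y : Type*} [AddCommGroup Y] {red : J →+ Y}
    (h : IsWeakRed (K := K) p J A ℓ hℓ σ₀ red) (n : ℕ) {σ : L ≃ₐ[K] L}
    (hσ : A.IsFrobeniusAt σ ℓ) (x : J) :
    red (σ₀ ^ n • σ • x) = red (σ₀ ^ (n + 1) • x) := by
  have hτ := inv_mul_mem_inertiaSubgroupIn h.frob hσ
  have e : σ₀ ^ n • σ • x = σ₀ ^ (n + 1) • (σ₀⁻¹ * σ) • x := by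
    rw [← mul_smul, ← mul_smul, pow_succ, mul_assoc, mul_inv_cancel_left]
  rw [e, h.red_pow_smul_inertia (n + 1) hτ]

/-- **Weak reduction data suffice.** -/
theorem IsWeakRed.isRed_iterRed {A : ValuationSubring L} {ℓ : ℕ} {hℓ : ℓ.Prime}
    {σ₀ : L ≃ₐ[K] L} {Y : Type*} [AddCommGroup Y] {red : J →+ Y}
    (h : IsWeakRed (K := K) p J A ℓ hℓ σ₀ red) :
    IsRed (K := K) p J A ℓ hℓ (iterRed σ₀ red) where
  inertia τ hτ x := by
    funext n
    exact h.red_pow_smul_inertia n hτ x
  frob_ker σ hσ x hx := by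
    funext n
    rw [iterRed_apply, h.red_pow_smul_frob n hσ]
    exact congrFun hx (n + 1)
  inj_torsion x hx hx0 := by
    refine h.inj_torsion x hx ?_
    have := congrFun hx0 0
    simpa using this
  relation σ hσ x := by
    funext n
    have hgal : ∀ (g : L ≃ₐ[K] L) (t : HeckeAlg) (y : J), t • (g • y) = g • (t • y) :=
      fun g t y => (smul_comm g t y).symm
    have e2 : σ₀ • σ₀ • (σ₀ ^ n • x) = σ₀ ^ (n + 1 + 1) • x := by
      rw [smul_smul, smul_smul, pow_succ' σ₀ (n + 1), pow_succ' σ₀ n, mul_assoc]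
    have e1 : σ₀ • (σ₀ ^ n • x) = σ₀ ^ (n + 1) • x := by
      rw [smul_smul, pow_succ' σ₀ n]
    have h1 : red (σ₀ ^ n • σ • σ • x) = red (σ₀ • σ₀ • (σ₀ ^ n • x)) := by
      rw [e2, h.red_pow_smul_frob n hσ (σ • x), h.red_pow_smul_frob (n + 1) hσ x]
    have h2 : red (σ₀ ^ n • (heckeGen ⟨ℓ, hℓ⟩ • (σ • x))) =
        red (heckeGen ⟨ℓ, hℓ⟩ • (σ₀ • (σ₀ ^ n • x))) := by
      rw [e1, hgal σ (heckeGen ⟨ℓ, hℓ⟩) x, h.red_pow_smul_frob n hσ (heckeGen ⟨ℓ, hℓ⟩ • x),
        hgal (σ₀ ^ (n + 1)) (heckeGen ⟨ℓ, hℓ⟩) x]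
    have h3 : red (σ₀ ^ n • ((ℓ : ℕ) • x)) = red ((ℓ : ℕ) • (σ₀ ^ n • x)) := by
      rw [smul_comm]
    have := h.relation (σ₀ ^ n • x)
    rw [map_add, map_sub] at this
    show red (σ₀ ^ n • (σ • σ • x - heckeGen ⟨ℓ, hℓ⟩ • (σ • x) + ℓ • x)) = 0
    rw [smul_add, smul_sub, map_add, map_sub, h1, h2, h3]
    exact this

variable (p) in
/-- **R1 at one place, weak form.** -/
theorem exists_specialization_of_isWeakRed (A : ValuationSubring L) (ℓ : ℕ) (hℓ : ℓ.Prime)
    (σ₀ : L ≃ₐ[K] L) {Y : Type*} [AddCommGroup Y] (red : J →+ Y)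
    (hred : IsWeakRed (K := K) p J A ℓ hℓ σ₀ red) :
    ∃ (J' : Type) (_ : AddCommGroup J') (_ : Module HeckeAlg J') (sp : J →+ J')
      (F : J' →+ J'),
      IsSpecialization (K := K) p J J' A ℓ sp F ∧ SpecialFibreRelation J' ℓ hℓ F :=
  exists_specialization_of_isRed p A ℓ hℓ ⟨σ₀, hred.frob⟩ (iterRed σ₀ red) hred.isRed_iterRed

end Abstract

end Fermat.Agent.S37.Core

end
end
-- ===== PACK-END S37/Core/Weak.lean

-- ===== PACK-BEGIN S37/H99/Glue.lean
section


/-!
# S37 (helper99): the frozen statement S37 from reduction data (R1, final glue)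

`RedData N A ℓ hℓ` is the ONLY thing left to construct: an additive map `red` from
`JZero N = Pic⁰(ℚ̄(X₀(N)))` to an arbitrary additive group such that
* inertia at `A` acts trivially after `red`,
* Frobenius elements at `A` preserve `ker red`,
* `red` is injective on torsion of order prime to `ℓ`,
* (Eichler–Shimura) `red (σ²x - T_ℓ σ x + ℓ x) = 0` for Frobenius elements `σ` at `A`.
No Hecke-module structure on the target is needed.
-/

set_option autoImplicit false

noncomputable section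

namespace Fermat.Agent.S37.H99

open ModularCurve ValuationSubring

/-- Reduction data for `J₀(N)` at a valuation subring `A` of `ℚ̄` over the prime `ℓ`. -/
structure RedData (N : ℕ) [NeZero N] (A : ValuationSubring (AlgebraicClosure ℚ)) (ℓ : ℕ)
    (hℓ : ℓ.Prime) where
  /-- the target group (e.g. divisor classes on the special fibre) -/
  Y : Type
  /-- additive group structure on the target -/
  instY : AddCommGroup Y
  /-- the reduction map -/
  red : JZero N →+ Y
  inertia : ∀ τ ∈ A.inertiaSubgroupIn ℚ, ∀ x : JZero N, red (τ • x) = red x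
  frob_ker : ∀ σ : AlgebraicClosure ℚ ≃ₐ[ℚ] AlgebraicClosure ℚ, A.IsFrobeniusAt σ ℓ →
    ∀ x : JZero N, red x = 0 → red (σ • x) = 0
  inj_torsion : ∀ (m : ℕ) (x : JZero N), m.Coprime ℓ → m • x = 0 → red x = 0 → x = 0
  relation : ∀ σ : AlgebraicClosure ℚ ≃ₐ[ℚ] AlgebraicClosure ℚ, A.IsFrobeniusAt σ ℓ →
    ∀ x : JZero N, red (σ • σ • x - heckeOperatorBar N ⟨ℓ, hℓ⟩ (σ • x) + ℓ • x) = 0

attribute [instance] RedData.instY

/-- **S37 from reduction data.**  Same binders and conclusion as the frozen statement, plus the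
hypothesis `H`. -/
theorem result_of_redData (N p : ℕ) [NeZero N]
    (H : ∀ ℓ : ℕ, (hℓ : ℓ.Prime) → ¬ ℓ ∣ N →
      ∀ A : ValuationSubring (AlgebraicClosure ℚ), A.LiesOverPrime ℓ →
        Nonempty (RedData N A ℓ hℓ))
    (hcomm : ModularCurve.HeckeOperatorsCommuteBar N) :
    letI := ModularCurve.heckeModuleBar N
    ∀ (_ : SMulCommClass (AlgebraicClosure ℚ ≃ₐ[ℚ] AlgebraicClosure ℚ) ModularCurve.HeckeAlg
      (ModularCurve.JZero N)),
      ModularCurve.SpecializationExists (K := ℚ) (L := AlgebraicClosure ℚ) N p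
        (ModularCurve.JZero N) := by
  letI := ModularCurve.heckeModuleBar N
  intro _
  refine specializationExists_of_isRed N p (JZero N) ?_
  intro ℓ hℓ hdvd A hA
  have hℓN : ¬ ℓ ∣ N := fun h => hdvd (Dvd.dvd.mul_right h p)
  have hℓp : ¬ ℓ ∣ p := fun h => hdvd (Dvd.dvd.mul_left h N)
  obtain ⟨D⟩ := H ℓ hℓ hℓN A hA
  refine ⟨D.Y, D.instY, D.red, ⟨D.inertia, D.frob_ker, ?_, ?_⟩⟩
  · rintro x ⟨n, hn⟩ hx
    refine D.inj_torsion (p ^ n) x ?_ hn hx
    exact Nat.Coprime.pow_left n ((Nat.coprime_comm.mp ((Nat.Prime.coprime_iff_not_dvd hℓ).mpr hℓp)))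
  · intro σ hσ x
    have h := D.relation σ hσ x
    rwa [← heckeModuleBar_heckeGen_smul hcomm ⟨ℓ, hℓ⟩ (σ • x)] at h

end Fermat.Agent.S37.H99

end
end
-- ===== PACK-END S37/H99/Glue.lean

-- ===== PACK-BEGIN Lib/RR/H409/Riemann.lean
section



/-!
# RR library, layer L3.1: Riemann's theorem (exact skeleton statement)

Obtained from `exists_riemann_bound_of` (file `RiemannOf.lean`, which does not depend on layer
L2) and the pole bound `sum_neg_ord_le_finrank` of layer L2.
-/

set_option autoImplicit false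

noncomputable section

open AlgebraicCurve

namespace Fermat.Agent.Lib.RR.H409

open Fermat.Agent.Lib.RR

variable (K F : Type*) [Field K] [Field F] [Algebra K F]

/-- **L3.1** Riemann's theorem: `deg D - ℓ(D)` is bounded above. -/
theorem exists_riemann_bound [FF1 K F] :
    ∃ γ : ℤ, ∀ D : Divisor K F, Divisor.degree D - ell D ≤ γ :=
  exists_riemann_bound_of fun x _ S hS => sum_neg_ord_le_finrank FF1.deg_eq_one x S hS

end Fermat.Agent.Lib.RR.H409

end
end
-- ===== PACK-END Lib/RR/H409/Riemann.lean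

-- ===== PACK-BEGIN Lib/RR/H80/OneDim.lean
section


/-!
# RR library, layer L5 (helper80): the Weil differentials form a one-dimensional `F`-space

Inputs from layers L3/L4 are taken as explicit hypotheses:
* `hfin : ∀ D, Module.Finite K (H1 D)`,
* `hrr  : ∀ D, ℓ(D) - dim H¹(D) = deg D + 1 - g`.
-/

set_option autoImplicit false

noncomputable section

open AlgebraicCurve

namespace Fermat.Agent.Lib.RR.H80

open Fermat.Agent.Lib.RR

variable {K F : Type*} [Field K] [Field F] [Algebra K F]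

/-- For `x ∈ L(A + B)`, `x ω ∈ Ω(-B)` whenever `ω ∈ Ω(A)`. -/
theorem smulD_mem_Om_neg [HasPrincipalDivisors K F] {A B : Divisor K F}
    {ω : Module.Dual K ↥(repartitions K F)} (hω : ω ∈ Om A) {x : F}
    (hx : x ∈ riemannRochSpace (A + B)) : smulD x ω ∈ Om (-B) := by
  rcases eq_or_ne x 0 with rfl | hx0
  · rw [smulD_zero_left]; exact Submodule.zero_mem _
  obtain ⟨E, hE, -⟩ := HasPrincipalDivisors.exists_divisor (K := K) x hx0
  have h1 : smulD x ω ∈ Om (A + E) := smulD_mem_Om hx0 hE hω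
  refine Om_anti ?_ h1
  rw [Finsupp.le_def]
  intro v
  have := (mem_L_iff.mp hx v).resolve_left hx0
  simp only [Finsupp.coe_add, Pi.add_apply, Finsupp.coe_neg, Pi.neg_apply, hE v] at this ⊢
  omega

theorem map_muMap_le [HasPrincipalDivisors K F] {A B : Divisor K F}
    {ω : Module.Dual K ↥(repartitions K F)} (hω : ω ∈ Om A) :
    Submodule.map (muMap ω) (riemannRochSpace (A + B)) ≤ Om (-B) := by
  rintro _ ⟨x, hx, rfl⟩
  exact smulD_mem_Om_neg hω hx

theorem finrank_map_muMap {ω : Module.Dual K ↥(repartitions K F)} (hω : ω ≠ 0)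
    (D : Divisor K F) :
    Module.finrank K (Submodule.map (muMap ω) (riemannRochSpace D)) = ell D :=
  (Submodule.equivMapOfInjective (muMap ω) (muMap_injective hω)
    (riemannRochSpace D)).finrank_eq.symm

section Input

variable [FF1 K F] {g : ℤ}

theorem genus_eq_of_rr
    (hrr : ∀ D : Divisor K F,
      (ell D : ℤ) - Module.finrank K (H1 D) = Divisor.degree D + 1 - g) :
    g = Module.finrank K (H1 (0 : Divisor K F)) := by
  have h := hrr 0
  rw [ell_zero, map_zero] at h
  push_cast at h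
  omega

theorem genus_nonneg_of_rr
    (hrr : ∀ D : Divisor K F,
      (ell D : ℤ) - Module.finrank K (H1 D) = Divisor.degree D + 1 - g) : 0 ≤ g := by
  rw [genus_eq_of_rr hrr]
  exact Int.natCast_nonneg _

omit [FF1 K F] in
theorem finrank_Om_eq
    (hrr : ∀ D : Divisor K F,
      (ell D : ℤ) - Module.finrank K (H1 D) = Divisor.degree D + 1 - g) (D : Divisor K F) :
    (Module.finrank K (Om D) : ℤ) = ell D - Divisor.degree D - 1 + g := by
  rw [finrank_Om]
  have := hrr D
  omega

omit [FF1 K F] in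
theorem ell_ge_of_rr
    (hrr : ∀ D : Divisor K F,
      (ell D : ℤ) - Module.finrank K (H1 D) = Divisor.degree D + 1 - g) (D : Divisor K F) :
    Divisor.degree D + 1 - g ≤ ell D := by
  have := hrr D
  have h2 : (0 : ℤ) ≤ Module.finrank K (H1 D) := Int.natCast_nonneg _
  omega

/-- **Existence of a nonzero Weil differential.** -/
theorem exists_ne_zero_mem_Om
    (hrr : ∀ D : Divisor K F,
      (ell D : ℤ) - Module.finrank K (H1 D) = Divisor.degree D + 1 - g) :
    ∃ (A : Divisor K F) (ω : Module.Dual K ↥(repartitions K F)), ω ∈ Om A ∧ ω ≠ 0 := by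
  obtain ⟨P⟩ := (FF1.nonempty_place : Nonempty (Place K F))
  let A : Divisor K F := -(prim P + prim P)
  have hdeg : Divisor.degree A = -2 := by
    simp only [A, map_neg, map_add, degree_prim']; norm_num
  have hell : ell A = 0 := ell_eq_zero_of_degree_neg (by rw [hdeg]; norm_num)
  have hfr := finrank_Om_eq hrr A
  rw [hell, hdeg] at hfr
  have hg := genus_nonneg_of_rr hrr
  have hpos : 0 < Module.finrank K (Om A) := by
    have : (0 : ℤ) < Module.finrank K (Om A) := by rw [hfr]; push_cast; omega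
    exact_mod_cast this
  have : Nontrivial (Om A) := Module.nontrivial_of_finrank_pos hpos
  obtain ⟨ω, hω⟩ := exists_ne (0 : Om A)
  exact ⟨A, ω, ω.2, fun h => hω (Subtype.ext h)⟩

/-- **One-dimensionality**: any Weil differential is an `F`-multiple of a given nonzero one. -/
theorem exists_smulD_eq
    (hfin : ∀ D : Divisor K F, Module.Finite K (H1 D))
    (hrr : ∀ D : Divisor K F,
      (ell D : ℤ) - Module.finrank K (H1 D) = Divisor.degree D + 1 - g)
    {A₁ A₂ : Divisor K F} {ω₁ ω₂ : Module.Dual K ↥(repartitions K F)}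
    (h₁ : ω₁ ∈ Om A₁) (h₁0 : ω₁ ≠ 0) (h₂ : ω₂ ∈ Om A₂) :
    ∃ z : F, ω₂ = smulD z ω₁ := by
  classical
  rcases eq_or_ne ω₂ 0 with rfl | h₂0
  · exact ⟨0, (smulD_zero_left _).symm⟩
  obtain ⟨P⟩ := (FF1.nonempty_place : Nonempty (Place K F))
  -- choose `B = n P` with `n` large
  let N : ℤ := 3 * g - 3 - Divisor.degree A₁ - Divisor.degree A₂
  let n : ℕ := (max N 0 + 1).toNat
  have hn : (n : ℤ) = max N 0 + 1 := Int.toNat_of_nonneg (by positivity)
  have hnN : N < n := by rw [hn]; have := le_max_left N 0; omega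
  have hn1 : (1 : ℤ) ≤ n := by rw [hn]; have := le_max_right N 0; omega
  let B : Divisor K F := n • prim P
  have hdegB : Divisor.degree B = n := by
    simp only [B, map_nsmul, degree_prim']; simp
  let U₁ := Submodule.map (muMap ω₁) (riemannRochSpace (A₁ + B))
  let U₂ := Submodule.map (muMap ω₂) (riemannRochSpace (A₂ + B))
  have hU₁ : U₁ ≤ Om (-B) := map_muMap_le h₁
  have hU₂ : U₂ ≤ Om (-B) := map_muMap_le h₂
  have := hfin (-B)
  have : Module.Finite K (Om (-B)) := finite_Om (-B)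
  have : Module.Finite K U₁ := Submodule.finiteDimensional_of_le hU₁
  have : Module.Finite K U₂ := Submodule.finiteDimensional_of_le hU₂
  have hinter : U₁ ⊓ U₂ ≠ ⊥ := by
    intro hbot
    have hsum := Submodule.finrank_sup_add_finrank_inf_eq U₁ U₂
    rw [hbot, finrank_bot, add_zero] at hsum
    have hle : Module.finrank K ↥(U₁ ⊔ U₂) ≤ Module.finrank K (Om (-B)) :=
      Submodule.finrank_mono (sup_le hU₁ hU₂)
    have e1 : Module.finrank K U₁ = ell (A₁ + B) := finrank_map_muMap h₁0 _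
    have e2 : Module.finrank K U₂ = ell (A₂ + B) := finrank_map_muMap h₂0 _
    have e3 := finrank_Om_eq hrr (-B)
    have hellB : ell (-B) = 0 :=
      ell_eq_zero_of_degree_neg (by rw [map_neg, hdegB]; omega)
    rw [hellB, map_neg, hdegB] at e3
    have g1 := ell_ge_of_rr hrr (A₁ + B)
    have g2 := ell_ge_of_rr hrr (A₂ + B)
    rw [map_add, hdegB] at g1 g2
    have hsumZ : (Module.finrank K ↥(U₁ ⊔ U₂) : ℤ) = ell (A₁ + B) + ell (A₂ + B) := by
      rw [hsum, e1, e2]; push_cast; ring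
    have hleZ : (Module.finrank K ↥(U₁ ⊔ U₂) : ℤ) ≤ Module.finrank K (Om (-B)) := by
      exact_mod_cast hle
    push_cast at e3
    simp only [N] at hnN
    omega
  obtain ⟨η, hη, hη0⟩ := Submodule.exists_mem_ne_zero_of_ne_bot hinter
  obtain ⟨⟨x₁, -, hx₁⟩, ⟨x₂, -, hx₂⟩⟩ := Submodule.mem_inf.mp hη
  rw [muMap_apply] at hx₁ hx₂
  have hx₂0 : x₂ ≠ 0 := by
    rintro rfl
    rw [smulD_zero_left] at hx₂
    exact hη0 hx₂.symm
  refine ⟨x₂⁻¹ * x₁, ?_⟩
  rw [← smulD_smulD, hx₁, ← hx₂, smulD_smulD, inv_mul_cancel₀ hx₂0, smulD_one]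

end Input

end Fermat.Agent.Lib.RR.H80

end
end
-- ===== PACK-END Lib/RR/H80/OneDim.lean

-- ===== PACK-BEGIN S20/H800/JetIndep.lean
section




/-!
# S20 / helper800 : independence of the jets of a graded basis (step (5) of `exists_fundSystem`)
-/

set_option autoImplicit false

noncomputable section

namespace Fermat.Agent.S20.H800

open Fermat.Agent.S20
open UpperHalfPlane ModularForm CongruenceSubgroup MatrixGroups Filter EisensteinSeries
open scoped Manifold Topology Real

local notation "Δ" => ModularForm.discriminant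

variable {Γ : Subgroup SL(2, ℤ)} {J : Type*} {wt : J → ℤ} {F : J → ℍ → ℂ}

lemma hasJet_smul {k : ℤ} {f : ℍ → ℂ} {v : X Γ → ℂ} (c : ℂ) (hv : HasJet Γ k f v) :
    HasJet Γ k (c • f) (c • v) := by
  unfold HasJet at hv ⊢
  have h1 : jetFun Γ k (c • f) = fun τ => c • jetFun Γ k f τ := by
    funext τ
    unfold jetFun
    rw [map_smul, map_smul]
  rw [h1]
  exact hv.const_smul c

lemma hasJet_zero (k : ℤ) : HasJet Γ k 0 0 := by
  unfold HasJet
  have h1 : jetFun Γ k (0 : ℍ → ℂ) = fun _ => 0 := by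
    funext τ
    unfold jetFun
    rw [map_zero, map_zero]
  rw [h1]
  exact tendsto_const_nhds

lemma hasJet_add {k : ℤ} {f g : ℍ → ℂ} {v w : X Γ → ℂ} (hv : HasJet Γ k f v)
    (hw : HasJet Γ k g w) : HasJet Γ k (f + g) (v + w) := by
  unfold HasJet at hv hw ⊢
  have h1 : jetFun Γ k (f + g) = fun τ => jetFun Γ k f τ + jetFun Γ k g τ := by
    funext τ
    unfold jetFun
    rw [map_add, map_add]
  rw [h1]
  exact hv.add hw

lemma hasJet_sum {ι : Type*} (s : Finset ι) {k : ℤ} {f : ι → ℍ → ℂ} {v : ι → X Γ → ℂ}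
    (hv : ∀ i ∈ s, HasJet Γ k (f i) (v i)) : HasJet Γ k (∑ i ∈ s, f i) (∑ i ∈ s, v i) := by
  classical
  induction s using Finset.induction_on with
  | empty => simpa using hasJet_zero (Γ := Γ) k
  | insert i s hi ih =>
    rw [Finset.sum_insert hi, Finset.sum_insert hi]
    exact hasJet_add (hv i (Finset.mem_insert_self i s))
      (ih fun j hj => hv j (Finset.mem_insert_of_mem hj))

/-- Level one forms of even weight `≥ 4` with a non-zero limit at `i∞`. -/
lemma exists_levelOne_tendsto_ne_zero {m : ℤ} (hm : Even m) (hm4 : 4 ≤ m) :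
    ∃ a ∈ MF ⊤ m, ∃ L : ℂ, L ≠ 0 ∧ Tendsto a atImInfty (𝓝 L) := by
  obtain ⟨t, ht⟩ := hm
  rcases Int.even_or_odd' t with ⟨x, hx | hx⟩
  · refine ⟨(⇑E₄ : ℍ → ℂ) ^ x.toNat, ?_, 1, one_ne_zero, ?_⟩
    · have := pow_mem_MF_top E₄_mem x.toNat
      have hx0 : 0 ≤ x := by omega
      have e : ((x.toNat : ℤ)) * 4 = m := by rw [Int.toNat_of_nonneg hx0]; omega
      rwa [e] at this
    · have := L1.tendsto_E₄.pow x.toNat
      rw [one_pow] at this
      exact this
  · refine ⟨(⇑E₄ : ℍ → ℂ) ^ (x - 1).toNat * ⇑E₆, ?_, 1, one_ne_zero, ?_⟩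
    · have h1 := pow_mem_MF_top E₄_mem (x - 1).toNat
      have hx0 : 0 ≤ x - 1 := by omega
      have e : ((x - 1).toNat : ℤ) * 4 + 6 = m := by rw [Int.toNat_of_nonneg hx0]; omega
      exact mul_mem_MF' (Γ := ⊤) h1 E₆_mem e
    · have := (L1.tendsto_E₄.pow (x - 1).toNat).mul L1.tendsto_E₆
      rw [one_pow, one_mul] at this
      exact this

/-- **Independence of the jets of a graded basis.** -/
theorem indep_jet [Γ.FiniteIndex] (B : GradedBasis Γ wt F) (hneg : -1 ∈ Γ)
    (jet : J → X Γ → ℂ) (hjet : ∀ j, HasJet Γ (wt j) (F j) (jet j)) :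
    LinearIndependent ℂ jet := by
  classical
  rw [linearIndependent_iff']
  intro s c hsum
  obtain ⟨M, hM0, hM⟩ := exists_weight_bound s wt
  set K : ℤ := 2 * M + 4 with hK
  have hex : ∀ j, ∃ (a : ℍ → ℂ) (L : ℂ), j ∈ s →
      a ∈ MF ⊤ (K - wt j) ∧ L ≠ 0 ∧ Tendsto a atImInfty (𝓝 L) := by
    intro j
    by_cases hj : j ∈ s
    · have hev : Even (K - wt j) := by
        refine Even.sub ?_ (B.wt_even hneg j)
        exact ⟨M + 2, by rw [hK]; ring⟩
      have hle : 4 ≤ K - wt j := by
        have := hM j hj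
        have := le_abs_self (wt j)
        omega
      obtain ⟨a, ha, L, hL, hT⟩ := exists_levelOne_tendsto_ne_zero hev hle
      exact ⟨a, L, fun _ => ⟨ha, hL, hT⟩⟩
    · exact ⟨0, 0, fun h => absurd h hj⟩
  choose a L haL using hex
  set f : ℍ → ℂ := ∑ j ∈ s, (c j / L j) • (a j * F j) with hf
  have hfmem : f ∈ MF Γ K :=
    Submodule.sum_mem _ fun j hj =>
      Submodule.smul_mem _ _ (mul_mem_MF' (haL j hj).1 (B.mem j) (sub_add_cancel K (wt j)))
  have hjf : HasJet Γ K f 0 := by
    have h1 : HasJet Γ K f (∑ j ∈ s, (c j / L j) • (L j • jet j)) := by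
      refine hasJet_sum s fun j hj => hasJet_smul _ ?_
      have h2 := Jets759.hasJet_mul (Γ := Γ) (haL j hj).1 (hjet j)
      rw [sub_add_cancel,
        show valueAtInfty (a j) = L j from ((haL j hj).2.2).limUnder_eq] at h2
      exact h2
    have h3 : ∑ j ∈ s, (c j / L j) • (L j • jet j) = 0 := by
      rw [← hsum]
      refine Finset.sum_congr rfl fun j hj => ?_
      rw [smul_smul, div_mul_cancel₀ _ (haL j hj).2.1]
    rwa [h3] at h1
  obtain ⟨g, hg, hfg⟩ := Jets759.ker_jet hfmem hjf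
  obtain ⟨s', b, hb, hgb⟩ := B.gen (K - 12) g hg
  set d : J → ℍ → ℂ := fun j =>
    (if j ∈ s then (c j / L j) • a j else 0) - (Δ : ℍ → ℂ) * (if j ∈ s' then b j else 0) with hd
  have hΔ : (Δ : ℍ → ℂ) ∈ MF ⊤ 12 := SF_le_MF _ _ L1.discriminant_mem
  have hdmem : ∀ j ∈ s ∪ s', d j ∈ MF ⊤ (K - wt j) := by
    intro j _
    refine Submodule.sub_mem _ ?_ ?_
    · split_ifs with h
      · exact Submodule.smul_mem _ _ (haL j h).1
      · exact Submodule.zero_mem _
    · split_ifs with h
      · exact mul_mem_MF' hΔ (hb j h) (by ring)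
      · rw [mul_zero]; exact Submodule.zero_mem _
  have hdsum : ∑ j ∈ s ∪ s', d j * F j = 0 := by
    simp only [hd, sub_mul, Finset.sum_sub_distrib]
    have e1 : ∑ j ∈ s ∪ s', (if j ∈ s then (c j / L j) • a j else 0) * F j = f := by
      rw [hf, ← Finset.sum_subset Finset.subset_union_left]
      · refine Finset.sum_congr rfl fun j hj => ?_
        rw [if_pos hj, smul_mul_assoc]
      · intro j _ hj
        rw [if_neg hj, zero_mul]
    have e2 : ∑ j ∈ s ∪ s', (Δ : ℍ → ℂ) * (if j ∈ s' then b j else 0) * F j = Δ * g := by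
      rw [hgb, Finset.mul_sum, ← Finset.sum_subset Finset.subset_union_right]
      · refine Finset.sum_congr rfl fun j hj => ?_
        rw [if_pos hj, mul_assoc]
      · intro j _ hj
        rw [if_neg hj, mul_zero, zero_mul]
    rw [e1, e2, hfg, sub_self]
  have hzero := B.free K (s ∪ s') d hdmem hdsum
  intro j hj
  have h1 := hzero j (Finset.mem_union_left _ hj)
  simp only [hd, if_pos hj] at h1
  -- `(c j / L j) • a j = Δ * b'`, take limits at `i∞`
  set b' : ℍ → ℂ := if j ∈ s' then b j else 0 with hb'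
  have hb'bdd : IsBoundedAtImInfty b' := by
    rw [hb']
    split_ifs with h
    · have := (hb j h).2.2 1
      rwa [SlashAction.slash_one] at this
    · exact zero_form_isBoundedAtImInfty
  have hlim1 : Tendsto ((c j / L j) • a j) atImInfty (𝓝 ((c j / L j) • L j)) :=
    (haL j hj).2.2.const_smul _
  have hlim2 : Tendsto ((Δ : ℍ → ℂ) * b') atImInfty (𝓝 0) := by
    have hz : IsZeroAtImInfty (Δ : ℍ → ℂ) := L1.tendsto_discriminant
    exact hz.mul_boundedAtFilter hb'bdd
  have h2 : (c j / L j) • a j = (Δ : ℍ → ℂ) * b' := sub_eq_zero.mp h1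
  rw [h2] at hlim1
  have h3 := tendsto_nhds_unique hlim1 hlim2
  rw [smul_eq_mul, div_mul_cancel₀ _ (haL j hj).2.1] at h3
  exact h3

end Fermat.Agent.S20.H800

end
end
-- ===== PACK-END S20/H800/JetIndep.lean

-- ===== PACK-BEGIN A2/H609/Purity.lean
section



/-!
# Node purity, part 7: the abstract purity criterion

`R` a noetherian local integrally closed domain, `π ∈ 𝔪`, `u` regular modulo `π`, `(u, π)`
`𝔪`-primary, (H1) `m ∣ ord_𝔓 u` at the horizontal primes.  If an ideal `J' ∋ π` contains every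
`f` with `f ^ m = u r`, `r ∈ 𝔪`, and `ℓ(R/(u, π)) < m ℓ(R/J')`, then `u = ε f ^ m`.
Mathlib only.
-/

set_option autoImplicit false

namespace Fermat.Agent.A2.H609

open Ideal

variable {R : Type*} [CommRing R] [IsDomain R] [IsIntegrallyClosed R] [IsNoetherianRing R]
  [IsLocalRing R]

/-- The abstract purity criterion (length count). -/
theorem exists_unit_mul_pow_of_relLen {u π : R} {m : ℕ} (hm : m ≠ 0) (hu0 : u ≠ 0)
    (hπ0 : π ≠ 0) (hπ : π ∈ IsLocalRing.maximalIdeal R)
    (hreg : ∀ x : R, π ∣ u * x → π ∣ x)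
    (huπ : ∀ 𝔮 : Ideal R, 𝔮.IsPrime → u ∈ 𝔮 → π ∈ 𝔮 → 𝔮 = IsLocalRing.maximalIdeal R)
    (H1 : ∀ 𝔓 : Ideal R, 𝔓.IsPrime → u ∈ 𝔓 → π ∉ 𝔓 → ∃ f r : R, r ∉ 𝔓 ∧ f ^ m = u * r)
    (J' : Ideal R) (hπJ : π ∈ J')
    (hJ' : ∀ f r : R, f ^ m = u * r → r ∈ IsLocalRing.maximalIdeal R → f ∈ J')
    (B : ℕ) (hB : (B : ℕ∞) ≤ relLen J' (⊤ : Ideal R))
    (hlt : relLen (Ideal.span {u, π}) (⊤ : Ideal R) < (m : ℕ∞) * B) :
    ∃ (f : R) (ε : Rˣ), u = ε * f ^ m := by
  by_contra hcon
  have hall : ∀ f r : R, f ^ m = u * r → r ∈ IsLocalRing.maximalIdeal R := by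
    intro f r hfr
    by_contra hr
    have hr' : IsUnit r := by
      by_contra h
      exact hr ((IsLocalRing.mem_maximalIdeal r).mpr h)
    obtain ⟨ε, rfl⟩ := hr'
    apply hcon
    refine ⟨f, ε⁻¹, ?_⟩
    rw [hfr, mul_comm u, ← mul_assoc, Units.inv_mul, one_mul]
  have hI : rootIdeal u m hm 1 ⊔ Ideal.span {π} ≤ J' := by
    refine sup_le ?_ ?_
    · intro f hf
      rw [mem_rootIdeal, pow_one] at hf
      obtain ⟨r, hr⟩ := hf
      exact hJ' f r hr (hall f r hr)
    · rw [Ideal.span_singleton_le_iff_mem]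
      exact hπJ
  have h1 : (B : ℕ∞) ≤ relLen (rootIdeal u m hm 1 ⊔ Ideal.span {π}) (⊤ : Ideal R) :=
    hB.trans (relLen_mono_left hI le_top)
  obtain ⟨t, r, k, ht, hk⟩ := exists_generator hm hu0 hπ huπ H1
  have hfin : relLen (Ideal.span {u, π}) (⊤ : Ideal R) ≠ ⊤ := by
    intro h
    rw [h] at hlt
    exact not_top_lt hlt
  have h2 := relLen_span_pair_eq_nsmul (hm := hm) hu0 hπ0 hreg ht hk hfin
  rw [h2, nsmul_eq_mul] at hlt
  exact absurd (mul_le_mul_right h1 (m : ℕ∞)) (not_le.mpr hlt)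

end Fermat.Agent.A2.H609

end
-- ===== PACK-END A2/H609/Purity.lean

-- ===== PACK-BEGIN A2/H12/GSpec.lean
section



/-!
# Cell A2 — route G: the hub definitions and leaf conclusions of the ALG assembly (helper12)

Definitions only (plus trivial lemmas), no `sorry`.  See `GAsm.lean` for the assembly theorem
`algG` and `origin/helper12:coord/A2-wallG.md` for the plan.

Setting: `R` the base ring (a DVR in the application), `w : R` the uniformiser, `F` the function
field, `x : F` the coordinate, `L ⊇ F` a cover.  Charts of any field `K ⊇ R[x]` are the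
`S18.H138.chart R {x}`, `chart R {x⁻¹}`, `chart R {x, x⁻¹}`.

* `IsSheet w x W`    : the valuation subring `W` of `K` extends the Gauss valuation of `R[x]`.
* `SplitAt`, `HorDiv`, `IsKummerSplit` : Kummer covers `L = F(g_i^{1/m})` with `m ∣ div g_i` on the
  generic fibre and `g_i` an `m`-th power in the residue field of every sheet of `F`.
* `SheetsConclusion`, `RedConclusion`, `ConstConclusion`, `CountConclusion`, `CoverConclusion` :
  the conclusions of the leaves `SHEETS`, `RED`, `CONST`, `COUNT`, `COVER`.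
-/

set_option autoImplicit false

namespace Fermat.Agent.A2.H12

open Polynomial
open Fermat.Agent.S18.H138 (chart baseField)

universe u

section Hub

variable {R : Type u} [CommRing R] {K : Type u} [Field K] [Algebra R K]

/-- `W` is a *sheet* of `K`: a valuation subring containing `R[x]` in which `w` is a non-unit and
which induces the Gauss valuation on `R[x]` (a polynomial in `x` with a coefficient not divisible
by `w` is a unit of `W`). -/
def IsSheet (w : R) (x : K) (W : ValuationSubring K) : Prop :=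
  (∀ r : R, algebraMap R K r ∈ W) ∧ x ∈ W ∧ algebraMap R K w ∈ W.nonunits ∧
    ∀ P : R[X], (∃ i, ¬ w ∣ P.coeff i) → (aeval x P)⁻¹ ∈ W

end Hub

section Cover

variable {R : Type u} [CommRing R] {F : Type u} [Field F] [Algebra R F]

/-- `g` is an `m`-th power in the residue field of `V` (and a unit of `V`). -/
def SplitAt (m : ℕ) (V : ValuationSubring F) (g : F) : Prop :=
  ∃ u : F, u ∈ V ∧ u⁻¹ ∈ V ∧ g - u ^ m ∈ V.nonunits

variable (R) in
/-- `m ∣ div g` on the generic fibre: at every discrete valuation ring of `F` containing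
`Frac R`, `g` is a unit times an `m`-th power. -/
def HorDiv (m : ℕ) (g : F) : Prop :=
  ∀ V : ValuationSubring F, IsDiscreteValuationRing V →
    (∀ r : R, r ≠ 0 → algebraMap R F r ∈ V ∧ (algebraMap R F r)⁻¹ ∈ V) →
    ∃ h u : F, h ≠ 0 ∧ u ∈ V ∧ u⁻¹ ∈ V ∧ g = u * h ^ m

variable (L : Type u) [Field L] [Algebra F L] [Algebra R L] [IsScalarTower R F L]

/-- `L / F` is a finite Galois Kummer cover generated by `m`-th roots of elements `g i` of `F`
with `m ∣ div (g i)` on the generic fibre and split at every sheet of `F`. -/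
structure IsKummerSplit (w : R) (x : F) (m : ℕ) : Prop where
  finite : FiniteDimensional F L
  galois : IsGalois F L
  gen : ∃ (n : ℕ) (y : Fin n → L) (g : Fin n → F),
    (∀ i, g i ≠ 0) ∧ (∀ i, y i ^ m = algebraMap F L (g i)) ∧
    IntermediateField.adjoin F (Set.range y) = ⊤ ∧
    (∀ i, HorDiv R m (g i)) ∧ ∀ i, ∀ V : ValuationSubring F, IsSheet w x V → SplitAt m V (g i)

/-- Conclusion of leaf **SHEETS**. -/
structure SheetsConclusion (w : R) (x : F) : Prop where
  /-- finitely many sheets -/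
  finite : {W : ValuationSubring L | IsSheet w (algebraMap F L x) W}.Finite
  /-- every sheet of `F` extends to `L` -/
  exists_over : ∀ V : ValuationSubring F, IsSheet w x V →
    ∃ W : ValuationSubring L, IsSheet w (algebraMap F L x) W ∧ W.comap (algebraMap F L) = V
  /-- `w` is a uniformiser of every sheet of `L` -/
  unif : ∀ W : ValuationSubring L, IsSheet w (algebraMap F L x) W →
    ∀ a ∈ W.nonunits, ∃ b ∈ W, a = algebraMap R L w * b
  /-- residue degree one -/
  resdeg : ∀ W : ValuationSubring L, IsSheet w (algebraMap F L x) W →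
    ∀ b ∈ W, ∃ c : F, b - algebraMap F L c ∈ W.nonunits
  /-- the Galois group is transitive on the sheets over a sheet of `F` -/
  trans : ∀ W W' : ValuationSubring L, IsSheet w (algebraMap F L x) W →
    IsSheet w (algebraMap F L x) W' → W.comap (algebraMap F L) = W'.comap (algebraMap F L) →
    ∃ σ : L ≃ₐ[F] L, ∀ b, b ∈ W ↔ σ b ∈ W'
  /-- the decomposition groups are trivial -/
  free : ∀ W : ValuationSubring L, IsSheet w (algebraMap F L x) W →
    ∀ σ : L ≃ₐ[F] L, (∀ b, b ∈ W ↔ σ b ∈ W) → σ = 1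

/-- Conclusion of leaf **RED**: the special fibre of each of the three charts of `L` is reduced
and all its components are sheets. -/
def RedConclusion (w : R) (x : F) : Prop :=
  ∀ T : Set L, T = {algebraMap F L x} ∨ T = {(algebraMap F L x)⁻¹} ∨
      T = {algebraMap F L x, (algebraMap F L x)⁻¹} →
    ∀ b ∈ chart R T, (∀ W : ValuationSubring L, IsSheet w (algebraMap F L x) W → b ∈ W.nonunits) →
      ∃ t ∈ chart R T, b = algebraMap R L w * t

/-- Conclusion of leaf **CONST**: `R` is integrally closed in `L` and `L` is finite over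
`Frac R (x)`. -/
structure ConstConclusion (x : F) : Prop where
  closed : ∀ y : L, IsIntegral R y → y ∈ Set.range (algebraMap R L)
  finite : FiniteDimensional (baseField R (algebraMap F L x)) L

/-- **COUNT** for one chart `T`: through a closed point of the chart passes at most one sheet
of each colour (colour = the sheet of `F` below). -/
def CountAt (w : R) (x : F) (T : Set L) : Prop :=
  ∀ 𝔫 : Ideal (chart R T), 𝔫.IsMaximal → ∀ W W' : ValuationSubring L,
    IsSheet w (algebraMap F L x) W → IsSheet w (algebraMap F L x) W' →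
    W.comap (algebraMap F L) = W'.comap (algebraMap F L) →
    (∀ c : chart R T, (c : L) ∈ W.nonunits → c ∈ 𝔫) →
    (∀ c : chart R T, (c : L) ∈ W'.nonunits → c ∈ 𝔫) → W = W'

/-- Conclusion of leaf **COUNT**. -/
def CountConclusion (w : R) (x : F) : Prop :=
  CountAt L w x {algebraMap F L x} ∧ CountAt L w x {(algebraMap F L x)⁻¹}

end Cover

section CoverExists

variable {R : Type u} [CommRing R] {F : Type u} [Field F] [Algebra R F]

/-- Conclusion of leaf **COVER**: a Kummer-split cover of `F` containing an `m`-th root of `g`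
to which `τ` lifts. -/
def CoverConclusion (w : R) (x : F) (m : ℕ) (τ : F ≃+* F) (g : F) : Prop :=
  ∃ (L : Type u) (_ : Field L) (_ : Algebra F L) (_ : Algebra R L) (_ : IsScalarTower R F L),
    IsKummerSplit L w x m ∧ ∃ (τ' : L ≃+* L) (y : L),
      (∀ f : F, τ' (algebraMap F L f) = algebraMap F L (τ f)) ∧ y ^ m = algebraMap F L g

end CoverExists

end Fermat.Agent.A2.H12

end
-- ===== PACK-END A2/H12/GSpec.lean

-- ===== PACK-BEGIN S55/Bridge/H594/Lift.lean
section



/-!
# S55 bridge (helper594), piece B14: lifting decomposition and inertia elements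

`F ⊂ ℚ̄` a normal intermediate field, `A` a valuation subring of `ℚ̄` over a prime number `q`.

* `exists_decomposition_lift`: every `τ ∈ Gal(F/ℚ)` stabilising the prime of `𝓞_F` below `A`
  is the restriction of an element of the decomposition group of `A`;
* `exists_inertia_lift`: every `τ ∈ Gal(F/ℚ)` acting trivially on `𝓞_F` modulo the prime below
  `A` is the restriction of an element of the inertia group of `A`.
-/

set_option autoImplicit false
set_option linter.style.haveILetI false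

namespace Fermat.Agent.S55.Bridge.H594

open Fermat.Agent.S54 Fermat.Agent.S55.Bridge
open scoped Pointwise

attribute [local instance] isAlgebraic_Qbar isGalois_Qbar

section lift

variable (F : IntermediateField ℚ (AlgebraicClosure ℚ))

/-- An algebraic integer fixed by `Gal(ℚ̄/F)` lies in `F`. -/
theorem coe_mem_of_forall_fixingSubgroup_smul_eq
    (b : integralClosure ℤ (AlgebraicClosure ℚ))
    (hb : ∀ h : F.fixingSubgroup, h • b = b) : (b : AlgebraicClosure ℚ) ∈ F := by
  have h1 : (b : AlgebraicClosure ℚ) ∈ IntermediateField.fixedField F.fixingSubgroup := by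
    intro h
    exact congrArg Subtype.val (hb h)
  rwa [InfiniteGalois.fixedField_fixingSubgroup] at h1

variable [Normal ℚ F]

theorem restrictNormalHom_apply (σ : AlgebraicClosure ℚ ≃ₐ[ℚ] AlgebraicClosure ℚ) (x : F) :
    ((AlgEquiv.restrictNormalHom F σ x : F) : AlgebraicClosure ℚ) = σ (x : AlgebraicClosure ℚ) :=
  AlgEquiv.restrictNormal_commutes σ F x

theorem restrictNormalHom_eq_one_of_mem_fixingSubgroup
    (h : AlgebraicClosure ℚ ≃ₐ[ℚ] AlgebraicClosure ℚ) (hh : h ∈ F.fixingSubgroup) :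
    AlgEquiv.restrictNormalHom F h = 1 := by
  apply AlgEquiv.ext
  intro x
  apply Subtype.ext
  rw [restrictNormalHom_apply]
  exact (IntermediateField.mem_fixingSubgroup_iff F h).mp hh x x.2

variable (A : ValuationSubring (AlgebraicClosure ℚ))

/-- **B14, decomposition part.**  If `τ ∈ Gal(F/ℚ)` preserves the non-units of `A` among the
integers of `F`, then `τ` lifts to the decomposition group of `A`. -/
theorem exists_decomposition_lift {q : ℕ} (hq : q.Prime) (hA : A.LiesOverPrime q)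
    (τ : F ≃ₐ[ℚ] F)
    (hτ : ∀ x : F, IsIntegral ℤ x →
      (((τ x : F) : AlgebraicClosure ℚ) ∈ A.nonunits ↔ (x : AlgebraicClosure ℚ) ∈ A.nonunits)) :
    ∃ σ ∈ A.decompositionSubgroup ℚ, AlgEquiv.restrictNormalHom F σ = τ := by
  letI : TopologicalSpace (integralClosure ℤ (AlgebraicClosure ℚ)) := ⊥
  haveI : DiscreteTopology (integralClosure ℤ (AlgebraicClosure ℚ)) := ⟨rfl⟩
  haveI := continuousSMul_integralClosure
  haveI := primeBelow_isPrime A
  obtain ⟨τ₀, hτ₀⟩ := AlgEquiv.restrictNormalHom_surjective (F := ℚ) (K₁ := F)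
    (AlgebraicClosure ℚ) τ
  haveI : (τ₀ • primeBelow A).IsPrime := by
    rw [Ideal.pointwise_smul_eq_comap]
    exact Ideal.comap_isPrime _ _
  have hPQ : ∀ b : integralClosure ℤ (AlgebraicClosure ℚ),
      (∀ h : F.fixingSubgroup, h • b = b) → (b ∈ primeBelow A ↔ b ∈ τ₀ • primeBelow A) := by
    intro b hb
    have hbF : (b : AlgebraicClosure ℚ) ∈ F := coe_mem_of_forall_fixingSubgroup_smul_eq F b hb
    rw [Ideal.mem_pointwise_smul_iff_inv_smul_mem, mem_primeBelow, mem_primeBelow, coe_smul]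
    -- `x = τ⁻¹ b`
    have hx : IsIntegral ℤ (τ⁻¹ ⟨(b : AlgebraicClosure ℚ), hbF⟩ : F) := by
      have hbint : IsIntegral ℤ (⟨(b : AlgebraicClosure ℚ), hbF⟩ : F) := by
        have := b.2
        exact (isIntegral_algebraMap_iff
          (FaithfulSMul.algebraMap_injective F (AlgebraicClosure ℚ))).mp this
      exact hbint.map (τ⁻¹ : F ≃ₐ[ℚ] F)
    have h1 := hτ _ hx
    have h2 : τ (τ⁻¹ ⟨(b : AlgebraicClosure ℚ), hbF⟩ : F) = ⟨(b : AlgebraicClosure ℚ), hbF⟩ := by
      show (τ * τ⁻¹) _ = _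
      rw [mul_inv_cancel]; rfl
    rw [h2] at h1
    have h3 : ((τ⁻¹ ⟨(b : AlgebraicClosure ℚ), hbF⟩ : F) : AlgebraicClosure ℚ) =
        τ₀⁻¹ (b : AlgebraicClosure ℚ) := by
      rw [← hτ₀, ← map_inv, restrictNormalHom_apply]
    rw [h3] at h1
    exact h1
  obtain ⟨h, hh⟩ := exists_smul_eq_of_forall_fixed_mem_iff (B := integralClosure ℤ (AlgebraicClosure ℚ))
    F.fixingSubgroup (InfiniteGalois.fixingSubgroup_isClosed F) (τ₀ • primeBelow A)
    (primeBelow A) (fun b hb => (hPQ b hb).symm)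
  refine ⟨(h : AlgebraicClosure ℚ ≃ₐ[ℚ] AlgebraicClosure ℚ) * τ₀, ?_, ?_⟩
  · rw [mem_decompositionSubgroup_iff_smul_primeBelow A hq hA, mul_smul, ← hh]
  · rw [map_mul, restrictNormalHom_eq_one_of_mem_fixingSubgroup F h h.2, one_mul, hτ₀]

/-- **B14, inertia part.**  If `τ ∈ Gal(F/ℚ)` acts trivially modulo the non-units of `A` on the
integers of `F`, then `τ` lifts to the inertia group of `A`. -/
theorem exists_inertia_lift {q : ℕ} (hq : q.Prime) (hA : A.LiesOverPrime q)
    (τ : F ≃ₐ[ℚ] F)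
    (hτ : ∀ x : F, IsIntegral ℤ x →
      ((τ x : F) : AlgebraicClosure ℚ) - (x : AlgebraicClosure ℚ) ∈ A.nonunits) :
    ∃ σ ∈ A.inertiaSubgroupIn ℚ, AlgEquiv.restrictNormalHom F σ = τ := by
  letI : TopologicalSpace (integralClosure ℤ (AlgebraicClosure ℚ)) := ⊥
  haveI : DiscreteTopology (integralClosure ℤ (AlgebraicClosure ℚ)) := ⟨rfl⟩
  haveI := continuousSMul_integralClosure
  haveI := primeBelow_isPrime A
  have hτ' : ∀ x : F, IsIntegral ℤ x →
      (((τ x : F) : AlgebraicClosure ℚ) ∈ A.nonunits ↔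
        (x : AlgebraicClosure ℚ) ∈ A.nonunits) := by
    intro x hx
    constructor
    · intro h
      have := A.nonunits.sub_mem h (hτ x hx)
      simpa using this
    · intro h
      have := A.nonunits.add_mem (hτ x hx) h
      simpa using this
  obtain ⟨σ₁, hσ₁D, hσ₁⟩ := exists_decomposition_lift F A hq hA τ hτ'
  have hσ₁P : σ₁ • primeBelow A = primeBelow A :=
    (mem_decompositionSubgroup_iff_smul_primeBelow A hq hA σ₁).mp hσ₁D
  have hfix : ∀ b : integralClosure ℤ (AlgebraicClosure ℚ),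
      (∀ h : F.fixingSubgroup, h • b = b) → σ₁ • b - b ∈ primeBelow A := by
    intro b hb
    have hbF : (b : AlgebraicClosure ℚ) ∈ F := coe_mem_of_forall_fixingSubgroup_smul_eq F b hb
    have hbint : IsIntegral ℤ (⟨(b : AlgebraicClosure ℚ), hbF⟩ : F) :=
      (isIntegral_algebraMap_iff
        (FaithfulSMul.algebraMap_injective F (AlgebraicClosure ℚ))).mp b.2
    have h1 := hτ _ hbint
    rw [← hσ₁, restrictNormalHom_apply] at h1
    exact h1
  obtain ⟨h, hhP, hh⟩ := exists_stabilizer_congr_of_forall_fixed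
    (B := integralClosure ℤ (AlgebraicClosure ℚ)) F.fixingSubgroup
    (InfiniteGalois.fixingSubgroup_isClosed F) (primeBelow A) σ₁ hσ₁P hfix
  have hhP' : ∀ b : integralClosure ℤ (AlgebraicClosure ℚ),
      b ∈ primeBelow A → (h : AlgebraicClosure ℚ ≃ₐ[ℚ] AlgebraicClosure ℚ)⁻¹ • b ∈ primeBelow A := by
    intro b hb
    have := (smul_primeBelow_eq_iff A _).mp hhP
      ((h : AlgebraicClosure ℚ ≃ₐ[ℚ] AlgebraicClosure ℚ)⁻¹ • b)
    rw [smul_inv_smul] at this
    exact this.mp hb
  refine ⟨(h : AlgebraicClosure ℚ ≃ₐ[ℚ] AlgebraicClosure ℚ)⁻¹ * σ₁, ?_, ?_⟩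
  · rw [mem_inertiaSubgroupIn_iff_primeBelow A hq hA]
    intro b
    have h1 : σ₁ • b - (h : AlgebraicClosure ℚ ≃ₐ[ℚ] AlgebraicClosure ℚ) • b ∈ primeBelow A := by
      have := (primeBelow A).neg_mem (hh b)
      simpa using this
    have h2 := hhP' _ h1
    rw [smul_sub, inv_smul_smul] at h2
    rw [mul_smul]
    exact h2
  · rw [map_mul, map_inv, restrictNormalHom_eq_one_of_mem_fixingSubgroup F h h.2, inv_one,
      one_mul, hσ₁]

end lift

end Fermat.Agent.S55.Bridge.H594

end
-- ===== PACK-END S55/Bridge/H594/Lift.lean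

-- ===== PACK-BEGIN A2/Mod/H900/L7Core.lean
section



/-!
# A2 / MOD leaf L7 (helper900): Fricke stability of the Gauss valuation, core

`L ⊇ ℚ` a field, `A` a valuation subring of `L`, `k` its residue field, `N` a level with
`S28.CoreData N k` (true when `char k ∤ N`), `F = laurentBaseChange L (F_N)`.

* `exists_decomp` : every `f ≠ 0` of `F` satisfies
  `f · G(j) = c · ∑ᵢ Hᵢ(j) yᵢ` with `G, Hᵢ ∈ A[X]` having a coefficient `1`, `c ∈ Lˣ`,
  `yᵢ ∈ ℤ[j_d : d ∣ N]` the S28 monomials (refined form of `S18.H516.exists_gauss_decomp`);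
* `isGaussInt_iff_of_decomp` : `f` is Gauss-integral iff `c ∈ A`.
-/

set_option autoImplicit false
set_option linter.unusedSectionVars false
set_option synthInstance.maxHeartbeats 400000
set_option maxHeartbeats 1600000

noncomputable section

namespace Fermat.Agent.A2.Mod.H900

open ModularCurve HahnSeries Polynomial IntermediateField Fermat.Agent.S28

section Generic

variable {L : Type} [Field L] [Algebra ℚ L] (A : ValuationSubring L)
variable (N : ℕ) [NeZero N]

/-- the residue map of `A`. -/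
abbrev resA : A →+* IsLocalRing.ResidueField A := IsLocalRing.residue A

/-- integer series in `L((t))`. -/
abbrev castL (L : Type) [Field L] : LaurentSeries ℤ →+* LaurentSeries L :=
  coeffMap (Int.castRingHom L)

/-- **Refined Gauss decomposition** along the S28 basis. -/
theorem exists_decomp (core : CoreData N (IsLocalRing.ResidueField A)) {f : LaurentSeries L}
    (hf : f ∈ laurentBaseChange L (modularFunctionFieldFull N)) (hf0 : f ≠ 0) :
    ∃ (n : ℕ) (y : Fin n → LaurentSeries ℤ) (c : L) (G : A[X]) (H : Fin n → A[X]),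
      (∀ i, y i ∈ Subring.closure (intDivisorExpansions N)) ∧
      LinearIndependent (jField (IsLocalRing.ResidueField A))
        (fun i => coeffMap (Int.castRingHom (IsLocalRing.ResidueField A)) (y i)) ∧
      c ≠ 0 ∧ (∃ m, G.coeff m = 1) ∧ (∃ i m, (H i).coeff m = 1) ∧
      f * S18.H516.evJ (G.map A.subtype) =
        HahnSeries.C c * ∑ i, S18.H516.evJ ((H i).map A.subtype) * castL L (y i) := by
  classical
  obtain ⟨n, y, hy, hspan, hli⟩ := core.exists_basis
  have hS : S18.H516.SpansQ N y := ⟨hy, hspan⟩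
  have hfs := (S18.H516.mem_baseChange_iff_mem_spanL L hS).mp hf
  obtain ⟨G, H, hG, hGH⟩ := S18.H516.exists_cleared L _ hfs
  have hGne : S18.H516.evJ G ≠ 0 := fun h => hG ((S18.H516.evJ_eq_zero_iff L).mp h)
  have hH : ∃ i, H i ≠ 0 := by
    by_contra hcon
    push Not at hcon
    have : S18.H516.evJ G * f = 0 := by
      rw [hGH]
      exact Finset.sum_eq_zero fun i _ => by rw [hcon i, S18.H516.evJ_zero, zero_mul]
    rcases mul_eq_zero.mp this with h | h
    · exact hGne h
    · exact hf0 h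
  obtain ⟨g0, G', hg0, hG', i1, m1, hG1⟩ :=
    S18.H516.exists_scale A (fun _ : Fin 1 => G) ⟨0, hG⟩
  obtain rfl : i1 = 0 := Subsingleton.elim _ _
  obtain ⟨h0, H', hh0, hH', i0, m0, hH1⟩ := S18.H516.exists_scale A H hH
  refine ⟨n, y, h0 * g0⁻¹, G' 0, H', hy, hli, mul_ne_zero hh0 (inv_ne_zero hg0), ⟨m1, hG1⟩,
    ⟨i0, m0, hH1⟩, ?_⟩
  have h1 : ∀ i, S18.H516.evJ ((H' i).map A.subtype) = HahnSeries.C h0⁻¹ * S18.H516.evJ (H i) := by
    intro i
    rw [hH' i, S18.H516.evJ_mul, S18.H516.evJ_C]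
  have h2 : S18.H516.evJ ((G' 0).map A.subtype) = HahnSeries.C g0⁻¹ * S18.H516.evJ G := by
    rw [hG' 0, S18.H516.evJ_mul, S18.H516.evJ_C]
  have h3 : ∑ i, S18.H516.evJ ((H' i).map A.subtype) * castL L (y i) =
      HahnSeries.C h0⁻¹ * (S18.H516.evJ G * f) := by
    rw [hGH, Finset.mul_sum]
    refine Finset.sum_congr rfl fun i _ => ?_
    rw [h1 i]
    ring
  rw [h2, h3, map_mul]
  have hC : HahnSeries.C (Γ := ℤ) h0 * HahnSeries.C h0⁻¹ = 1 := by
    rw [← map_mul, mul_inv_cancel₀ hh0, map_one]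
  calc f * (HahnSeries.C g0⁻¹ * S18.H516.evJ G)
      = (HahnSeries.C (Γ := ℤ) h0 * HahnSeries.C h0⁻¹) *
          (HahnSeries.C g0⁻¹ * (S18.H516.evJ G * f)) := by
        rw [hC]; ring
    _ = HahnSeries.C h0 * HahnSeries.C g0⁻¹ *
          (HahnSeries.C h0⁻¹ * (S18.H516.evJ G * f)) := by ring

/-- In a refined decomposition, `f` is Gauss-integral iff the constant is integral. -/
theorem isGaussInt_iff_of_decomp {n : ℕ} {y : Fin n → LaurentSeries ℤ} {c : L} {G : A[X]}
    {H : Fin n → A[X]} {f : LaurentSeries L}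
    (hli : LinearIndependent (jField (IsLocalRing.ResidueField A))
      (fun i => coeffMap (Int.castRingHom (IsLocalRing.ResidueField A)) (y i)))
    (hG : ∃ m, G.coeff m = 1) (hH : ∃ i m, (H i).coeff m = 1)
    (he : f * S18.H516.evJ (G.map A.subtype) =
      HahnSeries.C c * ∑ i, S18.H516.evJ ((H i).map A.subtype) * castL L (y i)) :
    H708.IsGaussInt A (modularFunctionFieldFull N) f ↔ c ∈ A := by
  classical
  set U₂ : LaurentSeries A := S18.H516.evJ G with hU₂
  set U₁ : LaurentSeries A := ∑ i, S18.H516.evJ (H i) * H708.castA A (y i) with hU₁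
  have hU₂L : H708.incl A U₂ = S18.H516.evJ (G.map A.subtype) := by
    rw [hU₂, H708.incl, S18.H516.coeffMap_evJ]
  have hU₁L : H708.incl A U₁ = ∑ i, S18.H516.evJ ((H i).map A.subtype) * castL L (y i) := by
    rw [hU₁, map_sum]
    refine Finset.sum_congr rfl fun i _ => ?_
    rw [map_mul, H708.incl, S18.H516.coeffMap_evJ, H708.castA, coeffMap_coeffMap,
      show (A.subtype.comp (Int.castRingHom A)) = Int.castRingHom L from RingHom.ext_int _ _]
  have hU₂k : H708.red A U₂ = S18.H516.evJ (G.map (IsLocalRing.residue A)) := by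
    rw [hU₂, H708.red, S18.H516.coeffMap_evJ]
  have hU₁k : H708.red A U₁ = ∑ i, S18.H516.evJ ((H i).map (IsLocalRing.residue A)) *
      coeffMap (Int.castRingHom (IsLocalRing.ResidueField A)) (y i) := by
    rw [hU₁, map_sum]
    refine Finset.sum_congr rfl fun i _ => ?_
    rw [map_mul, H708.red, S18.H516.coeffMap_evJ, H708.castA, coeffMap_coeffMap,
      show ((IsLocalRing.residue A).comp (Int.castRingHom A)) =
        Int.castRingHom (IsLocalRing.ResidueField A) from RingHom.ext_int _ _]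
  have h₂ : H708.red A U₂ ≠ 0 := by
    rw [hU₂k]
    intro h1
    obtain ⟨m1, hG1⟩ := hG
    have h2 := (S18.H516.evJ_eq_zero_iff _).mp h1
    have h3 := congrArg (fun P : (IsLocalRing.ResidueField A)[X] => P.coeff m1) h2
    simp only [Polynomial.coeff_map, Polynomial.coeff_zero, hG1, map_one] at h3
    exact one_ne_zero h3
  have h₁ : H708.red A U₁ ≠ 0 := by
    rw [hU₁k]
    intro h0'
    obtain ⟨i0, m0, hH1⟩ := hH
    have hli' := Fintype.linearIndependent_iff.mp hli
      (fun i => (⟨S18.H516.evJ ((H i).map (IsLocalRing.residue A)),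
        S18.H516.evJ_mem_jField _ _⟩ : jField (IsLocalRing.ResidueField A))) h0' i0
    have h1 : S18.H516.evJ ((H i0).map (IsLocalRing.residue A)) = 0 :=
      congrArg Subtype.val hli'
    have h2 := (S18.H516.evJ_eq_zero_iff _).mp h1
    have h3 := congrArg (fun P : (IsLocalRing.ResidueField A)[X] => P.coeff m0) h2
    simp only [Polynomial.coeff_map, Polynomial.coeff_zero, hH1, map_one] at h3
    exact one_ne_zero h3
  have hm₂ : H708.incl A U₂ ∈ laurentBaseChange L (modularFunctionFieldFull N) := by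
    rw [hU₂L]
    exact S18.H516.jField_le_baseChange L (S18.H516.evJ_mem_jField L _)
  have he' : f * H708.incl A U₂ = H708.cst c * H708.incl A U₁ := by
    rw [hU₂L, hU₁L, he, H708.cst, algebraMap_laurentSeries_eq_single, HahnSeries.C_apply]
  exact H708.isGaussInt_iff_of_normal_form h₁ h₂ hm₂ he'

end Generic

section Fricke

variable {L : Type} [Field L] [Algebra ℚ L] (A : ValuationSubring L)
variable (N : ℕ) [NeZero N]

/-- `F_{N,L}`. -/
abbrev FL (L : Type) [Field L] [Algebra ℚ L] (N : ℕ) : IntermediateField L (LaurentSeries L) :=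
  laurentBaseChange L (modularFunctionFieldFull N)

/-- the generator `j_d` of `F_{N,L}`. -/
def jL (L : Type) [Field L] [Algebra ℚ L] (N : ℕ) (d : ℕ) [NeZero d] (hd : d ∣ N) : FL L N :=
  ⟨coeffEmb L (qExpand ℚ d jq), coeffEmb_mem_laurentBaseChange L (jqd_mem_full N hd)⟩

theorem coe_jL (d : ℕ) [NeZero d] (hd : d ∣ N) :
    ((jL L N d hd : FL L N) : LaurentSeries L) = qExpand L d (jqModC L) := by
  show coeffEmb L (qExpand ℚ d jq) = _
  rw [coeffEmb, coeffMap_qExpand, ← jqModC_rat, coeffMap_jqModC]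

theorem castL_gen (d : ℕ) [NeZero d] :
    castL L (qExpand ℤ d (jqModC ℤ)) = qExpand L d (jqModC L) := by
  rw [castL, coeffMap_qExpand, coeffMap_jqModC]

/-- `W` is a Fricke involution on generators. -/
def FrickeOnGens (W : FL L N ≃ₐ[L] FL L N) : Prop :=
  ∀ (d d' : ℕ) [NeZero d] [NeZero d'] (hd : d ∣ N) (hd' : d' ∣ N), d * d' = N →
    W (jL L N d hd) = jL L N d' hd'

variable {N}

/-- the S28 monomials and their Fricke images are integer series. -/
theorem exists_int_of_closure {W : FL L N ≃ₐ[L] FL L N} (hW : FrickeOnGens N W)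
    {y : LaurentSeries ℤ} (hy : y ∈ Subring.closure (intDivisorExpansions N)) :
    ∃ (g : FL L N) (y' : LaurentSeries ℤ), (g : LaurentSeries L) = castL L y ∧
      ((W g : FL L N) : LaurentSeries L) = castL L y' := by
  induction hy using Subring.closure_induction with
  | mem x hx =>
    obtain ⟨d, hd, hdN, rfl⟩ := hx
    have hN : N ≠ 0 := NeZero.ne N
    have hd0 : N / d ≠ 0 := by
      intro h
      rcases (Nat.div_eq_zero_iff).mp h with h1 | h1
      · exact (NeZero.ne d) h1
      · exact absurd (Nat.le_of_dvd (Nat.pos_of_ne_zero hN) hdN) (not_le.mpr h1)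
    have : NeZero (N / d) := ⟨hd0⟩
    refine ⟨jL L N d hdN, qExpand ℤ (N / d) (jqModC ℤ), ?_, ?_⟩
    · rw [coe_jL, castL_gen]
    · rw [hW d (N / d) hdN (Nat.div_dvd_of_dvd hdN) (Nat.mul_div_cancel' hdN), coe_jL, castL_gen]
  | zero => exact ⟨0, 0, by simp, by simp⟩
  | one => exact ⟨1, 1, by simp, by simp⟩
  | add x y _ _ hx hy =>
    obtain ⟨g, y', h1, h2⟩ := hx
    obtain ⟨g', y'', h1', h2'⟩ := hy
    exact ⟨g + g', y' + y'', by rw [IntermediateField.coe_add, h1, h1', map_add],
      by rw [map_add, IntermediateField.coe_add, h2, h2', map_add]⟩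
  | neg x _ hx =>
    obtain ⟨g, y', h1, h2⟩ := hx
    exact ⟨-g, -y', by rw [IntermediateField.coe_neg, h1, map_neg],
      by rw [map_neg, IntermediateField.coe_neg, h2, map_neg]⟩
  | mul x y _ _ hx hy =>
    obtain ⟨g, y', h1, h2⟩ := hx
    obtain ⟨g', y'', h1', h2'⟩ := hy
    exact ⟨g * g', y' * y'', by rw [IntermediateField.coe_mul, h1, h1', map_mul],
      by rw [map_mul, IntermediateField.coe_mul, h2, h2', map_mul]⟩

/-- evaluation of a polynomial at `j = j_1` inside `F_{N,L}`: its series is `evJ`. -/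
theorem coe_aeval_jL (Q : L[X]) :
    ((aeval (jL L N 1 (one_dvd N)) Q : FL L N) : LaurentSeries L) = S18.H516.evJ Q := by
  have h := Polynomial.aeval_algHom_apply (FL L N).val (jL L N 1 (one_dvd N)) Q
  have h1 : (FL L N).val (jL L N 1 (one_dvd N)) = jqModC L := by
    show ((jL L N 1 (one_dvd N) : FL L N) : LaurentSeries L) = _
    rw [coe_jL, qExpand_one_apply]
  rw [h1] at h
  show (FL L N).val (aeval (jL L N 1 (one_dvd N)) Q) = _
  rw [← h, S18.H516.aeval_eq_evJ]

/-- evaluation of a polynomial at `j_N` inside `F_{N,L}`: its series is `qExpand N ∘ evJ`. -/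
theorem coe_aeval_jL_top (Q : L[X]) :
    ((aeval (jL L N N dvd_rfl) Q : FL L N) : LaurentSeries L) =
      qExpand L N (S18.H516.evJ Q) := by
  have h := Polynomial.aeval_algHom_apply (FL L N).val (jL L N N dvd_rfl) Q
  have h1 : (FL L N).val (jL L N N dvd_rfl) = qExpandAlgHomC L N (jqModC L) := by
    show ((jL L N N dvd_rfl : FL L N) : LaurentSeries L) = _
    rw [coe_jL, qExpandAlgHomC_apply]
  rw [h1, Polynomial.aeval_algHom_apply] at h
  show (FL L N).val (aeval (jL L N N dvd_rfl) Q) = _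
  rw [← h, qExpandAlgHomC_apply, S18.H516.aeval_eq_evJ]

/-- **L7, core form.**  If `W` is an `L`-automorphism of `F_{N,L}` with `W j_d = j_{N/d}` and
`S28.CoreData N k` holds for the residue field `k` of `A`, then `W` preserves Gauss-integrality. -/
theorem frickeStable_core (core : CoreData N (IsLocalRing.ResidueField A))
    {W : FL L N ≃ₐ[L] FL L N} (hW : FrickeOnGens N W) (f : FL L N)
    (hf : H708.IsGaussInt A (modularFunctionFieldFull N) (f : LaurentSeries L)) :
    H708.IsGaussInt A (modularFunctionFieldFull N) ((W f : FL L N) : LaurentSeries L) := by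
  classical
  by_cases hf0 : f = 0
  · rw [hf0, map_zero]
    exact H708.IsGaussInt.zero
  have hf0' : (f : LaurentSeries L) ≠ 0 := fun h => hf0 (Subtype.ext h)
  obtain ⟨n, y, c, G, H, hy, hli, hc, hG, hH, he⟩ := exists_decomp A N core f.2 hf0'
  have hcA : c ∈ A := (isGaussInt_iff_of_decomp A N hli hG hH he).mp hf
  -- the monomials inside `F`
  have hY : ∀ i, ∃ (g : FL L N) (y' : LaurentSeries ℤ), (g : LaurentSeries L) = castL L (y i) ∧
      ((W g : FL L N) : LaurentSeries L) = castL L y' := fun i => exists_int_of_closure hW (hy i)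
  choose Y y' hY1 hY2 using hY
  -- the equation inside `F`
  have heF : f * aeval (jL L N 1 (one_dvd N)) (G.map A.subtype) =
      algebraMap L (FL L N) c *
        ∑ i, aeval (jL L N 1 (one_dvd N)) ((H i).map A.subtype) * Y i := by
    apply Subtype.ext
    rw [IntermediateField.coe_mul, IntermediateField.coe_mul, coe_aeval_jL, he,
      IntermediateField.coe_sum]
    congr 1
    · show HahnSeries.C c = algebraMap L (LaurentSeries L) c
      rw [algebraMap_laurentSeries_eq_single, HahnSeries.C_apply]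
    · refine Finset.sum_congr rfl fun i _ => ?_
      rw [IntermediateField.coe_mul, coe_aeval_jL, hY1 i]
  have hWj : W (jL L N 1 (one_dvd N)) = jL L N N dvd_rfl :=
    hW 1 N (one_dvd N) dvd_rfl (one_mul N)
  have hWaeval : ∀ Q : L[X], W (aeval (jL L N 1 (one_dvd N)) Q) = aeval (jL L N N dvd_rfl) Q := by
    intro Q
    have := Polynomial.aeval_algHom_apply (W : FL L N →ₐ[L] FL L N) (jL L N 1 (one_dvd N)) Q
    rw [AlgEquiv.coe_toAlgHom, hWj] at this
    exact this.symm
  have heW := congrArg W heF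
  rw [map_mul, map_mul, AlgEquiv.commutes, map_sum, hWaeval] at heW
  have heW' : ((W f : FL L N) : LaurentSeries L) *
      qExpand L N (S18.H516.evJ (G.map A.subtype)) =
      HahnSeries.C c * ∑ i, qExpand L N (S18.H516.evJ ((H i).map A.subtype)) * castL L (y' i) := by
    have h := congrArg (fun z : FL L N => (z : LaurentSeries L)) heW
    simp only [IntermediateField.coe_mul, IntermediateField.coe_sum] at h
    rw [coe_aeval_jL_top] at h
    rw [h]
    congr 1
    · show algebraMap L (LaurentSeries L) c = HahnSeries.C c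
      rw [algebraMap_laurentSeries_eq_single, HahnSeries.C_apply]
    · refine Finset.sum_congr rfl fun i _ => ?_
      rw [map_mul, hWaeval, IntermediateField.coe_mul, coe_aeval_jL_top, hY2 i]
  -- the integral model of `W f`
  set U₂ : LaurentSeries A := qExpand A N (S18.H516.evJ G) with hU₂
  set U₁ : LaurentSeries A := H708.cstA A ⟨c, hcA⟩ *
    ∑ i, qExpand A N (S18.H516.evJ (H i)) * H708.castA A (y' i) with hU₁
  have hU₂L : H708.incl A U₂ = qExpand L N (S18.H516.evJ (G.map A.subtype)) := by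
    rw [hU₂, H708.incl, coeffMap_qExpand, S18.H516.coeffMap_evJ]
  have hU₁L : H708.incl A U₁ =
      HahnSeries.C c * ∑ i, qExpand L N (S18.H516.evJ ((H i).map A.subtype)) * castL L (y' i) := by
    rw [hU₁, map_mul, H708.incl_cstA, H708.cst, algebraMap_laurentSeries_eq_single,
      HahnSeries.C_apply, map_sum]
    congr 1
    refine Finset.sum_congr rfl fun i _ => ?_
    rw [map_mul, H708.incl, coeffMap_qExpand, S18.H516.coeffMap_evJ, H708.castA,
      coeffMap_coeffMap,
      show (A.subtype.comp (Int.castRingHom A)) = Int.castRingHom L from RingHom.ext_int _ _]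
  refine ⟨U₁, U₂, ?_, ?_, ?_⟩
  · rw [hU₂, H708.red, coeffMap_qExpand, S18.H516.coeffMap_evJ]
    intro h1
    have h1' : S18.H516.evJ (G.map (IsLocalRing.residue A)) = 0 :=
      qExpand_injective N (by rw [h1, map_zero])
    obtain ⟨m1, hG1⟩ := hG
    have h2 := (S18.H516.evJ_eq_zero_iff _).mp h1'
    have h3 := congrArg (fun P : (IsLocalRing.ResidueField A)[X] => P.coeff m1) h2
    simp only [Polynomial.coeff_map, Polynomial.coeff_zero, hG1, map_one] at h3
    exact one_ne_zero h3
  · rw [hU₂L, ← coe_aeval_jL_top]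
    exact (aeval (jL L N N dvd_rfl) (G.map A.subtype) : FL L N).2
  · rw [hU₂L, hU₁L, heW']

end Fricke

end Fermat.Agent.A2.Mod.H900

end
end
-- ===== PACK-END A2/Mod/H900/L7Core.lean

-- ===== PACK-BEGIN A2/Mod/H549/L14.lean
section



/-!
# A2 / MOD, leaf L14 (Inertia) (helper549)

`inertia : Mod.InertiaStatement P E w` (statement of `Fermat/Agent/A2/Mod/Spec.lean`, verbatim).

Generic part (any field `L ⊇ ℚ`, any valuation subring `A` of `L`, any `F₀ ⊆ ℚ((t))`):

* `isGaussInt_coeffMap` : `σ f` is Gauss-integral (`H708.IsGaussInt`) if `f` is and `σ A ⊆ A`.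
* `isGaussInt_sub_div` : if moreover `σ a - a ∈ 𝔪_A` for all `a ∈ A` and `w` generates `𝔪_A`,
  then `(σ f - f) / w` is Gauss-integral.

Modular part:

* `fricke_comm` : a ring endomorphism `W` of `L(j_d : d ∣ N)` which is the identity on `L` and
  maps every `j_d` to a `σ`-fixed element commutes with the coefficientwise action of `σ`.

Instantiation at `L = E ⊆ ℚ̄`, `A = P ∩ E`:

* `inertia_core` : leaf L14 with the definitions of `Spec.lean` unfolded (`τE` any restriction of
  `τ` to `E`);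
* `inertia` : leaf L14.
-/

set_option autoImplicit false

noncomputable section

namespace Fermat.Agent.A2.Mod.H549

open ModularCurve HahnSeries Fermat.Agent.A2

/-! ## Generic part -/

section generic

variable {L : Type*} [Field L] [Algebra ℚ L] (A : ValuationSubring L)
  (F₀ : IntermediateField ℚ (LaurentSeries ℚ))

/-- the restriction of `σ` to `A` -/
def resA (σ : L ≃ₐ[ℚ] L) (hσA : ∀ a ∈ A, σ a ∈ A) : A →+* A where
  toFun x := ⟨σ x, hσA x x.2⟩
  map_one' := Subtype.ext (map_one σ)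
  map_mul' x y := Subtype.ext (map_mul σ (x : L) (y : L))
  map_zero' := Subtype.ext (map_zero σ)
  map_add' x y := Subtype.ext (map_add σ (x : L) (y : L))

variable {A}

theorem incl_coeffMap_resA (σ : L ≃ₐ[ℚ] L) (hσA : ∀ a ∈ A, σ a ∈ A) (U : LaurentSeries A) :
    H708.incl A (coeffMap (resA A σ hσA) U) = coeffMap (σ : L →+* L) (H708.incl A U) := by
  rw [H708.incl, coeffMap_coeffMap, coeffMap_coeffMap]
  exact coeffMap_congr (RingHom.ext fun _ => rfl) U

theorem residue_resA (σ : L ≃ₐ[ℚ] L) (hσA : ∀ a ∈ A, σ a ∈ A)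
    (hσI : ∀ a ∈ A, σ a - a ∈ A.nonunits) (x : A) :
    IsLocalRing.residue A (resA A σ hσA x) = IsLocalRing.residue A x := by
  rw [← sub_eq_zero, ← map_sub, IsLocalRing.residue_eq_zero_iff,
    ← ValuationSubring.coe_mem_nonunits_iff]
  exact hσI x x.2

theorem red_coeffMap_resA (σ : L ≃ₐ[ℚ] L) (hσA : ∀ a ∈ A, σ a ∈ A)
    (hσI : ∀ a ∈ A, σ a - a ∈ A.nonunits) (U : LaurentSeries A) :
    H708.red A (coeffMap (resA A σ hσA) U) = H708.red A U := by
  ext n
  simp only [coeffMap_coeff]
  exact residue_resA σ hσA hσI _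

theorem red_coeffMap_resA_ne_zero (σ : L ≃ₐ[ℚ] L) (hσA : ∀ a ∈ A, σ a ∈ A)
    {U : LaurentSeries A} (hU : H708.red A U ≠ 0) :
    H708.red A (coeffMap (resA A σ hσA) U) ≠ 0 := by
  obtain ⟨n, hn⟩ := (H708.red_ne_zero_iff A U).mp hU
  refine (H708.red_ne_zero_iff A _).mpr ⟨n, ?_⟩
  have hunit : IsUnit (U.coeff n) := (ValuationSubring.valuation_eq_one_iff A _).mpr hn
  have h2 : IsUnit (resA A σ hσA (U.coeff n)) := hunit.map (resA A σ hσA)
  rw [coeffMap_coeff]
  exact (ValuationSubring.valuation_eq_one_iff A _).mp h2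

omit [Algebra ℚ L] in
/-- dividing an integral series with coefficients in `w A` by `w`. -/
theorem exists_cstA_mul_eq (w : A) (hw0 : w ≠ 0) (U : LaurentSeries A)
    (h : ∀ n, w ∣ U.coeff n) : ∃ U' : LaurentSeries A, H708.cstA A w * U' = U := by
  choose d hd using h
  have hsupp : Function.support d ⊆ U.support := by
    intro n hn
    rw [Function.mem_support] at hn
    rw [HahnSeries.mem_support, hd n]
    exact mul_ne_zero hw0 hn
  refine ⟨⟨d, U.isPWO_support.mono hsupp⟩, ?_⟩
  apply HahnSeries.ext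
  funext n
  rw [H708.cstA, HahnSeries.coeff_single_zero_mul]
  exact (hd n).symm

/-- `σ f` is Gauss-integral if `f` is (`σ` in the decomposition group). -/
theorem isGaussInt_coeffMap (σ : L ≃ₐ[ℚ] L) (hσA : ∀ a ∈ A, σ a ∈ A)
    {f : LaurentSeries L} (hf : H708.IsGaussInt A F₀ f) :
    H708.IsGaussInt A F₀ (coeffMap (σ : L →+* L) f) := by
  obtain ⟨U₁, U₂, hred, hmem, heq⟩ := hf
  refine ⟨coeffMap (resA A σ hσA) U₁, coeffMap (resA A σ hσA) U₂,
    red_coeffMap_resA_ne_zero σ hσA hred, ?_, ?_⟩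
  · rw [incl_coeffMap_resA]
    exact coeffMap_mem_laurentBaseChange σ hmem
  · rw [incl_coeffMap_resA, incl_coeffMap_resA, ← map_mul, heq]

/-- **Inertia acts trivially modulo `w`** on the Gauss-integral elements: `(σ f - f) / w` is
Gauss-integral. -/
theorem isGaussInt_sub_div (σ : L ≃ₐ[ℚ] L) (hσA : ∀ a ∈ A, σ a ∈ A)
    (hσI : ∀ a ∈ A, σ a - a ∈ A.nonunits) (w : A) (hw0 : w ≠ 0)
    (hw : ∀ a : A, (a : L) ∈ A.nonunits → w ∣ a)
    {f : LaurentSeries L} (hf : H708.IsGaussInt A F₀ f) :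
    H708.IsGaussInt A F₀ ((coeffMap (σ : L →+* L) f - f) * (H708.cst (w : L))⁻¹) := by
  obtain ⟨U₁, U₂, hred, hmem, heq⟩ := hf
  have e1 : coeffMap (σ : L →+* L) f * H708.incl A (coeffMap (resA A σ hσA) U₂)
      = H708.incl A (coeffMap (resA A σ hσA) U₁) := by
    rw [incl_coeffMap_resA, incl_coeffMap_resA, ← map_mul, heq]
  have hred3 : H708.red A (coeffMap (resA A σ hσA) U₁ * U₂ - U₁ * coeffMap (resA A σ hσA) U₂)
      = 0 := by
    rw [map_sub, map_mul, map_mul, red_coeffMap_resA σ hσA hσI, red_coeffMap_resA σ hσA hσI,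
      sub_self]
  have hdiv : ∀ n, w ∣
      (coeffMap (resA A σ hσA) U₁ * U₂ - U₁ * coeffMap (resA A σ hσA) U₂).coeff n := by
    intro n
    refine hw _ ?_
    rw [ValuationSubring.mem_nonunits_iff]
    exact (H708.red_eq_zero_iff A _).mp hred3 n
  obtain ⟨U₃, hU₃⟩ := exists_cstA_mul_eq w hw0 _ hdiv
  have hwL : (w : L) ≠ 0 := fun h => hw0 (Subtype.ext h)
  have hcst : H708.cst (w : L) ≠ 0 := H708.cst_ne_zero hwL
  refine ⟨U₃, U₂ * coeffMap (resA A σ hσA) U₂, ?_, ?_, ?_⟩
  · rw [map_mul]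
    exact mul_ne_zero hred (red_coeffMap_resA_ne_zero σ hσA hred)
  · rw [map_mul, incl_coeffMap_resA]
    exact mul_mem hmem (coeffMap_mem_laurentBaseChange σ hmem)
  · have key : H708.cst (w : L) * H708.incl A U₃
        = (coeffMap (σ : L →+* L) f - f) * H708.incl A (U₂ * coeffMap (resA A σ hσA) U₂) := by
      rw [← H708.incl_cstA, ← map_mul, hU₃, map_sub, map_mul, map_mul, map_mul, ← e1, ← heq]
      ring
    rw [mul_right_comm, ← key, mul_comm (H708.cst (w : L)), mul_assoc,
      mul_inv_cancel₀ hcst, mul_one]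

end generic

/-! ## The Fricke involution commutes with the Galois action -/

section fricke

variable {L : Type*} [Field L] [Algebra ℚ L] (N : ℕ)

/-- the generator `j_d` of `L(j_d : d ∣ N)` -/
def jL (L : Type*) [Field L] [Algebra ℚ L] (N : ℕ) (d : ℕ) [NeZero d] (hd : d ∣ N) :
    ↥(laurentBaseChange L (modularFunctionFieldFull N)) :=
  ⟨coeffEmb L (qExpand ℚ d jq), coeffEmb_mem_laurentBaseChange L (jqd_mem_full N hd)⟩

/-- the coefficientwise action as a ring homomorphism -/
abbrev galHom (σ : L ≃ₐ[ℚ] L) : ↥(laurentBaseChange L (modularFunctionFieldFull N)) →+*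
    ↥(laurentBaseChange L (modularFunctionFieldFull N)) :=
  ((arithmeticRingAut (modularFunctionFieldFull N) σ : _ ≃+* _) : _ →+* _)

/-- the subfield of `σ`-fixed elements -/
def fixSub (σ : L ≃ₐ[ℚ] L) : Subfield ↥(laurentBaseChange L (modularFunctionFieldFull N)) :=
  RingHom.eqLocusField (galHom N σ) (RingHom.id _)

theorem mem_fixSub {σ : L ≃ₐ[ℚ] L} {g : ↥(laurentBaseChange L (modularFunctionFieldFull N))} :
    g ∈ fixSub N σ ↔ arithmeticRingAut (modularFunctionFieldFull N) σ g = g := Iff.rfl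

theorem algebraMap_rat_mem_fixSub (σ : L ≃ₐ[ℚ] L) (c : ℚ) :
    algebraMap L ↥(laurentBaseChange L (modularFunctionFieldFull N)) (algebraMap ℚ L c)
      ∈ fixSub N σ := by
  rw [mem_fixSub, arithmeticRingAut_algebraMap, AlgEquiv.commutes]

/-- If `W` maps every generator `j_d` to a `σ`-fixed element, it maps every rational function
to a `σ`-fixed element. -/
theorem fricke_rat_fixed
    (W : ↥(laurentBaseChange L (modularFunctionFieldFull N)) →+*
      ↥(laurentBaseChange L (modularFunctionFieldFull N)))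
    (hWc : ∀ c : L, W (algebraMap L _ c) = algebraMap L _ c)
    (σ : L ≃ₐ[ℚ] L)
    (hW : ∀ (d : ℕ) [NeZero d] (hd : d ∣ N), W (jL L N d hd) ∈ fixSub N σ)
    {z : LaurentSeries ℚ} (hz : z ∈ modularFunctionFieldFull N)
    (g : ↥(laurentBaseChange L (modularFunctionFieldFull N)))
    (hg : (g : LaurentSeries L) = coeffEmb L z) : W g ∈ fixSub N σ := by
  -- the subfield of `ℚ((t))` of all `z` such that `W (coeffEmb z)` is fixed
  let K' : Subfield (LaurentSeries ℚ) :=
    (((fixSub N σ).comap W).map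
      (algebraMap ↥(laurentBaseChange L (modularFunctionFieldFull N)) (LaurentSeries L))).comap
        (coeffEmb L : LaurentSeries ℚ →+* LaurentSeries L)
  have h1 : Set.range (algebraMap ℚ (LaurentSeries ℚ)) ⊆ (K' : Set (LaurentSeries ℚ)) := by
    rintro _ ⟨c, rfl⟩
    refine ⟨algebraMap L ↥(laurentBaseChange L (modularFunctionFieldFull N))
      (algebraMap ℚ L c), ?_, ?_⟩
    · show W _ ∈ fixSub N σ
      rw [hWc]
      exact algebraMap_rat_mem_fixSub N σ c
    · exact (Fermat.Agent.S18.H602.coeffMap_algebraMap' (algebraMap ℚ L) c).symm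
  have h2 : divisorExpansions N ⊆ (K' : Set (LaurentSeries ℚ)) := by
    rintro _ ⟨d, hne, hd, rfl⟩
    haveI := hne
    exact ⟨jL L N d hd, hW d hd, rfl⟩
  have hle : (modularFunctionFieldFull N).toSubfield ≤ K' :=
    IntermediateField.adjoin_le_subfield ℚ _ h1 h2
  obtain ⟨g', hg', hgg'⟩ := hle hz
  have : g' = g := Subtype.ext (hgg'.trans hg.symm)
  rw [← this]
  exact hg'

/-- **`τ W = W τ`.**  A ring endomorphism `W` of `L(j_d : d ∣ N)` which is the identity on `L` and
maps every generator `j_d` to a `σ`-fixed element commutes with the coefficientwise action of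
`σ`. -/
theorem fricke_comm
    (W : ↥(laurentBaseChange L (modularFunctionFieldFull N)) →+*
      ↥(laurentBaseChange L (modularFunctionFieldFull N)))
    (hWc : ∀ c : L, W (algebraMap L _ c) = algebraMap L _ c)
    (σ : L ≃ₐ[ℚ] L)
    (hW : ∀ (d : ℕ) [NeZero d] (hd : d ∣ N), W (jL L N d hd) ∈ fixSub N σ)
    (f : ↥(laurentBaseChange L (modularFunctionFieldFull N))) :
    arithmeticRingAut (modularFunctionFieldFull N) σ (W f)
      = W (arithmeticRingAut (modularFunctionFieldFull N) σ f) := by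
  let S : Subfield ↥(laurentBaseChange L (modularFunctionFieldFull N)) :=
    RingHom.eqLocusField ((galHom N σ).comp W) (W.comp (galHom N σ))
  let K : Subfield (LaurentSeries L) :=
    S.map (algebraMap ↥(laurentBaseChange L (modularFunctionFieldFull N)) (LaurentSeries L))
  have h1 : Set.range (algebraMap L (LaurentSeries L)) ⊆ (K : Set (LaurentSeries L)) := by
    rintro _ ⟨c, rfl⟩
    refine ⟨algebraMap L ↥(laurentBaseChange L (modularFunctionFieldFull N)) c, ?_, rfl⟩
    show arithmeticRingAut (modularFunctionFieldFull N) σ (W (algebraMap L _ c))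
      = W (arithmeticRingAut (modularFunctionFieldFull N) σ (algebraMap L _ c))
    rw [hWc, arithmeticRingAut_algebraMap, hWc]
  have h2 : (⇑(coeffEmb L) '' ((modularFunctionFieldFull N : IntermediateField ℚ
      (LaurentSeries ℚ)) : Set (LaurentSeries ℚ))) ⊆ (K : Set (LaurentSeries L)) := by
    rintro _ ⟨z, hz, rfl⟩
    refine ⟨⟨coeffEmb L z, coeffEmb_mem_laurentBaseChange L hz⟩, ?_, rfl⟩
    show arithmeticRingAut (modularFunctionFieldFull N) σ (W _)
      = W (arithmeticRingAut (modularFunctionFieldFull N) σ _)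
    have e1 := fricke_rat_fixed N W hWc σ hW hz
      ⟨coeffEmb L z, coeffEmb_mem_laurentBaseChange L hz⟩ rfl
    rw [mem_fixSub] at e1
    have e2 : arithmeticRingAut (modularFunctionFieldFull N) σ
        ⟨coeffEmb L z, coeffEmb_mem_laurentBaseChange L hz⟩
        = ⟨coeffEmb L z, coeffEmb_mem_laurentBaseChange L hz⟩ :=
      Subtype.ext (coeffMap_coeffEmb σ z)
    rw [e1, e2]
  have hle : (laurentBaseChange L (modularFunctionFieldFull N)).toSubfield ≤ K :=
    IntermediateField.adjoin_le_subfield L _ h1 h2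
  obtain ⟨g, hg, hgf⟩ := hle f.2
  have : g = f := Subtype.ext hgf
  rw [← this]
  exact hg

end fricke

/-! ## Instantiation at `L = E ⊆ ℚ̄`, `A = P ∩ E` -/

section inst

/-- nonunits of a comap -/
theorem mem_nonunits_comap {K L : Type*} [Field K] [Field L] (A : ValuationSubring L)
    (φ : K →+* L) (x : K) : x ∈ (A.comap φ).nonunits ↔ φ x ∈ A.nonunits := by
  rw [ValuationSubring.mem_nonunits_iff_or, ValuationSubring.mem_nonunits_iff_or,
    ValuationSubring.mem_comap, map_inv₀, map_eq_zero]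

variable (P : ValuationSubring (AlgebraicClosure ℚ))
  (E : IntermediateField ℚ (AlgebraicClosure ℚ))

/-- **Leaf L14 (Inertia)**, with the definitions of `A2/Mod/Spec.lean` unfolded.
`τ` in the inertia group of `P`, `τE` its restriction to `E`, `R = P ∩ E` a DVR with uniformiser
`w`, `V` the Gauss valuation ring of `F_{N,E}`, `W` the Fricke involution: then `τ W = W τ` and
`(τ f - f) / w ∈ V` for all `f ∈ V`. -/
theorem inertia_core (w : ↥(P.comap (algebraMap ↥E (AlgebraicClosure ℚ)))) (N : ℕ) (hN : N ≠ 0)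
    (_hdvr : IsDiscreteValuationRing ↥(P.comap (algebraMap ↥E (AlgebraicClosure ℚ))))
    (hw : Irreducible w)
    (V : ValuationSubring ↥(laurentBaseChange ↥E (modularFunctionFieldFull N)))
    (W : ↥(laurentBaseChange ↥E (modularFunctionFieldFull N)) ≃ₐ[↥E]
      ↥(laurentBaseChange ↥E (modularFunctionFieldFull N)))
    (hV : ∀ f : ↥(laurentBaseChange ↥E (modularFunctionFieldFull N)), f ∈ V ↔
      H708.IsGaussInt (P.comap (algebraMap ↥E (AlgebraicClosure ℚ)))
        (modularFunctionFieldFull N) (f : LaurentSeries ↥E))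
    (hW : ∀ (d d' : ℕ) [NeZero d] [NeZero d'] (hd : d ∣ N) (hd' : d' ∣ N), d * d' = N →
      W (jL ↥E N d hd) = jL ↥E N d' hd')
    (τ : AlgebraicClosure ℚ ≃ₐ[ℚ] AlgebraicClosure ℚ) (τE : ↥E ≃ₐ[ℚ] ↥E)
    (hτE : ∀ e : ↥E, ((τE e : ↥E) : AlgebraicClosure ℚ) = τ (e : AlgebraicClosure ℚ))
    (hτ : τ ∈ P.inertiaSubgroupIn ℚ) :
    (∀ f : ↥(laurentBaseChange ↥E (modularFunctionFieldFull N)),
      arithmeticRingAut (modularFunctionFieldFull N) τE (W f) =
        W (arithmeticRingAut (modularFunctionFieldFull N) τE f)) ∧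
    ∀ f ∈ V, (arithmeticRingAut (modularFunctionFieldFull N) τE f - f) *
      (algebraMap ↥E ↥(laurentBaseChange ↥E (modularFunctionFieldFull N)) (w : ↥E))⁻¹ ∈ V := by
  constructor
  · -- `τ W = W τ`
    refine fricke_comm N (W : _ →+* _) (fun c => W.commutes c) τE ?_
    intro d hne hd
    obtain ⟨d', hd'⟩ := hd
    have hd'0 : d' ≠ 0 := by
      rintro rfl
      exact hN (by rw [hd', mul_zero])
    haveI : NeZero d' := ⟨hd'0⟩
    have hdN : d ∣ N := ⟨d', hd'⟩
    have hd'N : d' ∣ N := ⟨d, by rw [hd', mul_comm]⟩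
    show W (jL ↥E N d hdN) ∈ fixSub N τE
    rw [hW d d' hdN hd'N hd'.symm, mem_fixSub]
    exact Subtype.ext (coeffMap_coeffEmb τE _)
  · -- `τ ≡ id` modulo `w V`
    intro f hf
    have hτD := H708.mem_decomposition_of_mem_inertiaIn P hτ
    have hσA : ∀ a ∈ P.comap (algebraMap ↥E (AlgebraicClosure ℚ)), τE a ∈
        P.comap (algebraMap ↥E (AlgebraicClosure ℚ)) := by
      intro a ha
      rw [ValuationSubring.mem_comap] at ha ⊢
      have e : algebraMap ↥E (AlgebraicClosure ℚ) (τE a)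
          = τ (algebraMap ↥E (AlgebraicClosure ℚ) a) := hτE a
      rw [e]
      exact H708.apply_mem_of_mem_decomposition P hτD ha
    have hσI : ∀ a ∈ P.comap (algebraMap ↥E (AlgebraicClosure ℚ)), τE a - a ∈
        (P.comap (algebraMap ↥E (AlgebraicClosure ℚ))).nonunits := by
      intro a ha
      rw [ValuationSubring.mem_comap] at ha
      rw [mem_nonunits_comap, map_sub]
      have e : algebraMap ↥E (AlgebraicClosure ℚ) (τE a)
          = τ (algebraMap ↥E (AlgebraicClosure ℚ) a) := hτE a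
      rw [e]
      exact H708.sub_mem_nonunits_of_mem_inertiaIn P hτ ha
    have hw0 : w ≠ 0 := hw.ne_zero
    have hwgen : ∀ a : ↥(P.comap (algebraMap ↥E (AlgebraicClosure ℚ))),
        (a : ↥E) ∈ (P.comap (algebraMap ↥E (AlgebraicClosure ℚ))).nonunits → w ∣ a := by
      intro a ha
      rw [ValuationSubring.coe_mem_nonunits_iff, hw.maximalIdeal_eq,
        Ideal.mem_span_singleton] at ha
      exact ha
    have key := isGaussInt_sub_div (F₀ := modularFunctionFieldFull N) τE hσA hσI w hw0 hwgen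
      ((hV f).mp hf)
    exact (hV _).mpr key

end inst

/-- **Leaf L14** (`Mod.InertiaStatement`, verbatim). -/
theorem inertia (P : ValuationSubring Mod.Qb) (E : IntermediateField ℚ Mod.Qb)
    (w : Mod.RE P E) : Mod.InertiaStatement P E w := by
  intro N hN hdvr hw V W hV hW τ hτ hτI
  exact inertia_core P E w N hN hdvr hw V W hV hW.1 τ (Mod.resE E τ hτ) (fun _ => rfl) hτI

end Fermat.Agent.A2.Mod.H549

end
end
-- ===== PACK-END A2/Mod/H549/L14.lean

-- ===== PACK-BEGIN A2/H489/ChartA.lean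
section


/-!
# A2 / MODASM step S1-abs (helper489): the two components of a chart

Setting of `H48.GaussPairLe` (helper48): `R` a factorial domain (application: the discrete
valuation ring `P ∩ E`), `ϖ ∈ R` prime, `K = Frac R[X]`, `F / K` finite, `V₁ ≠ V₂` valuation
subrings of `F` inducing the Gauss valuation on `K`, with residue-independent families of total
size `≥ [F : K]`.  In addition `F` is an `R`-algebra compatibly with `R → R[X] → F`, and
`x := algebraMap R[X] F X` is the coordinate.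

For the chart `B` = integral closure of `R[x]` in `F` (any `Subalgebra R F` with
`f ∈ B ↔ IsIntegral (Algebra.adjoin R {x}) f`):

* `isIntegral_adjoin_iff` : integrality over `Algebra.adjoin R {x}` = integrality over `R[X]`;
* `compIdeal B V hBV` : the ideal `B ∩ 𝔪_V` (`mem_compIdeal`), prime (`compIdeal_isPrime`);
* `GaussPairLe.exists_mem_not_mem` : some element of the chart lies in `𝔪_{V₁}` and is a unit of
  `V₂`;
* `GaussPairLe.compIdeal_inf` : `(B ∩ 𝔪_{V₁}) ⊓ (B ∩ 𝔪_{V₂}) = ϖ B`  (`SSChart.inf_eq`);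
* `GaussPairLe.exists_components` : the fields `p₁ p₂ prime₁ prime₂ ne not_le₁₂ not_le₂₁ inf_eq`
  of `Fermat.Agent.A2.SSChart` (Spec v2), with `p_i` characterised by `b ∈ p_i ↔ b ∈ 𝔪_{V_i}`.
-/

set_option autoImplicit false
set_option linter.style.haveILetI false
set_option linter.unusedSectionVars false

namespace Fermat.Agent.A2.H489

open Polynomial
open Fermat.Agent.A2.H48

section Integral

variable {R F : Type*} [CommRing R] [Field F] [Algebra R[X] F] [Algebra R F]
  [IsScalarTower R R[X] F]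

/-- `R[X] → F` is evaluation at the coordinate `x = algebraMap R[X] F X`. -/
theorem aeval_coord_eq_algebraMap (P : R[X]) :
    aeval (algebraMap R[X] F X) P = algebraMap R[X] F P := by
  have h : (aeval (algebraMap R[X] F X) : R[X] →ₐ[R] F) = IsScalarTower.toAlgHom R R[X] F := by
    apply Polynomial.algHom_ext
    simp
  exact DFunLike.congr_fun h P

/-- the constants: `algebraMap R F r = algebraMap R[X] F (C r)` -/
theorem algebraMap_const_eq (r : R) : algebraMap R F r = algebraMap R[X] F (C r) := by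
  rw [IsScalarTower.algebraMap_apply R R[X] F]
  rfl

/-- Integrality over the subalgebra `R[x] ⊆ F` is integrality over the polynomial ring. -/
theorem isIntegral_adjoin_iff (f : F) :
    IsIntegral (Algebra.adjoin R ({algebraMap R[X] F X} : Set F)) f ↔ IsIntegral R[X] f := by
  have hmem : ∀ P : R[X], algebraMap R[X] F P ∈
      Algebra.adjoin R ({algebraMap R[X] F X} : Set F) := by
    intro P
    have h1 := Polynomial.aeval_mem_adjoin_singleton (p := P) R (algebraMap R[X] F X)
    rwa [aeval_coord_eq_algebraMap] at h1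
  let φ : R[X] →+* Algebra.adjoin R ({algebraMap R[X] F X} : Set F) :=
    (algebraMap R[X] F).codRestrict _ hmem
  have hsurj : Function.Surjective φ := by
    rintro ⟨y, hy⟩
    rw [Algebra.adjoin_singleton_eq_range_aeval] at hy
    obtain ⟨P, hP⟩ := hy
    refine ⟨P, Subtype.ext ?_⟩
    show algebraMap R[X] F P = y
    rw [← hP]
    exact (aeval_coord_eq_algebraMap P).symm
  letI : Algebra R[X] (Algebra.adjoin R ({algebraMap R[X] F X} : Set F)) := φ.toAlgebra
  haveI : IsScalarTower R[X] (Algebra.adjoin R ({algebraMap R[X] F X} : Set F)) F :=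
    IsScalarTower.of_algebraMap_eq (fun _ => rfl)
  constructor
  · intro hf
    haveI : Algebra.IsIntegral R[X] (Algebra.adjoin R ({algebraMap R[X] F X} : Set F)) :=
      ⟨fun y => RingHom.isIntegral_of_surjective φ hsurj y⟩
    exact isIntegral_trans f hf
  · exact fun hf => hf.tower_top

end Integral

section Comp

variable {R F : Type*} [CommRing R] [Field F] [Algebra R F]

theorem nonunits_add_mem {V : ValuationSubring F} {a b : F} (ha : a ∈ V.nonunits)
    (hb : b ∈ V.nonunits) : a + b ∈ V.nonunits := by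
  rw [ValuationSubring.mem_nonunits_iff] at ha hb ⊢
  exact lt_of_le_of_lt (Valuation.map_add _ _ _) (max_lt ha hb)

theorem mem_mul_nonunits {V : ValuationSubring F} {a b : F} (ha : a ∈ V)
    (hb : b ∈ V.nonunits) : a * b ∈ V.nonunits := by
  rw [ValuationSubring.mem_nonunits_iff] at hb ⊢
  rw [map_mul]
  exact Right.mul_lt_one_of_le_of_lt ((ValuationSubring.valuation_le_one_iff V a).mpr ha) hb

/-- The component `B ∩ 𝔪_V` of the chart `B ⊆ V`. -/
def compIdeal (B : Subalgebra R F) (V : ValuationSubring F) (hBV : ∀ b : B, (b : F) ∈ V) :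
    Ideal B where
  carrier := {b | (b : F) ∈ V.nonunits}
  add_mem' := fun {a b} ha hb => by
    show ((a + b : B) : F) ∈ V.nonunits
    rw [Subalgebra.coe_add]
    exact nonunits_add_mem ha hb
  zero_mem' := by
    show ((0 : B) : F) ∈ V.nonunits
    rw [Subalgebra.coe_zero, ValuationSubring.mem_nonunits_iff, map_zero]
    exact zero_lt_one
  smul_mem' := fun c b hb => by
    show ((c • b : B) : F) ∈ V.nonunits
    rw [smul_eq_mul, Subalgebra.coe_mul]
    exact mem_mul_nonunits (hBV c) hb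

theorem mem_compIdeal {B : Subalgebra R F} {V : ValuationSubring F}
    {hBV : ∀ b : B, (b : F) ∈ V} {b : B} :
    b ∈ compIdeal B V hBV ↔ (b : F) ∈ V.nonunits := Iff.rfl

theorem compIdeal_isPrime (B : Subalgebra R F) (V : ValuationSubring F)
    (hBV : ∀ b : B, (b : F) ∈ V) : (compIdeal B V hBV).IsPrime := by
  rw [Ideal.isPrime_iff]
  constructor
  · intro h
    have h1 : (1 : B) ∈ compIdeal B V hBV := by rw [h]; exact Submodule.mem_top
    rw [mem_compIdeal, Subalgebra.coe_one, ValuationSubring.mem_nonunits_iff, map_one] at h1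
    exact lt_irrefl _ h1
  · intro a b hab
    rw [mem_compIdeal, Subalgebra.coe_mul, ValuationSubring.mem_nonunits_iff, map_mul] at hab
    rw [mem_compIdeal, mem_compIdeal, ValuationSubring.mem_nonunits_iff,
      ValuationSubring.mem_nonunits_iff]
    by_contra hcon
    push Not at hcon
    obtain ⟨h1, h2⟩ := hcon
    have ha := (ValuationSubring.valuation_le_one_iff V _).mpr (hBV a)
    have hb := (ValuationSubring.valuation_le_one_iff V _).mpr (hBV b)
    rw [le_antisymm ha h1, le_antisymm hb h2, one_mul] at hab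
    exact lt_irrefl _ hab

end Comp

section Main

variable {R : Type*} [CommRing R] [IsDomain R] [UniqueFactorizationMonoid R]
variable {K F : Type*} [Field K] [Field F] [Algebra R[X] K] [IsFractionRing R[X] K]
  [Algebra K F] [Algebra R[X] F] [IsScalarTower R[X] K F]
variable {ϖ : R} {V₁ V₂ : ValuationSubring F} {f₁ f₂ : ℕ} {b : Fin f₁ → F} {c : Fin f₂ → F}

theorem gaussPairLe_symm (h : GaussPairLe (K := K) ϖ V₁ V₂ b c) :
    GaussPairLe (K := K) ϖ V₂ V₁ c b where
  prime := h.prime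
  unif₁ := h.unif₂
  unif₂ := h.unif₁
  poly₁ := h.poly₂
  poly₂ := h.poly₁
  gauss₁ := h.gauss₂
  gauss₂ := h.gauss₁
  ne := h.ne.symm
  b_mem := h.c_mem
  c_mem := h.b_mem
  b_indep := h.c_indep
  c_indep := h.b_indep
  le := by have := h.le; omega

/-- the chart lies in `V₁` -/
theorem gaussPairLe_mem_of_isIntegral (h : GaussPairLe (K := K) ϖ V₁ V₂ b c) {f : F}
    (hf : IsIntegral R[X] f) : f ∈ V₁ := by
  obtain ⟨p, hp, hpf⟩ := hf
  refine mem_of_monic_root V₁ (p := p.map (algebraMap R[X] F)) (hp.map _)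
    (fun i => by rw [coeff_map]; exact h.poly₁ _) ?_
  rw [eval_map]
  exact hpf

/-- a polynomial prime to `ϖ` is a unit of `V₁` -/
theorem gaussPairLe_valuation_eq_one (h : GaussPairLe (K := K) ϖ V₁ V₂ b c) {T : R[X]}
    (hT : ¬ C ϖ ∣ T) : V₁.valuation (algebraMap R[X] F T) = 1 := by
  have h1 := (ValuationSubring.valuation_le_one_iff V₁ _).mpr (h.poly₁ T)
  have h2 := (ValuationSubring.valuation_le_one_iff V₁ _).mpr (h.gauss₁ T hT)
  rw [map_inv₀] at h2
  have hT0 : algebraMap R[X] F T ≠ 0 := by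
    intro h0
    have hinj : Function.Injective (algebraMap R[X] F) := by
      rw [IsScalarTower.algebraMap_eq R[X] K F]
      exact (algebraMap K F).injective.comp (IsFractionRing.injective R[X] K)
    have hT' : T = 0 := hinj (by rw [h0, map_zero])
    apply hT
    rw [hT']
    exact dvd_zero _
  have hv0 : V₁.valuation (algebraMap R[X] F T) ≠ 0 := (Valuation.ne_zero_iff _).mpr hT0
  exact le_antisymm h1 ((inv_le_one₀ (zero_lt_iff.mpr hv0)).mp h2)

/-- **clearing denominators**: an element of `V₁ ∩ V₂` becomes integral over `R[X]` after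
multiplication by a polynomial prime to `ϖ`. -/
theorem gaussPairLe_exists_scale [FiniteDimensional K F]
    (h : GaussPairLe (K := K) ϖ V₁ V₂ b c) {u : F} (hu₁ : u ∈ V₁) (hu₂ : u ∈ V₂) :
    ∃ T : R[X], ¬ C ϖ ∣ T ∧ IsIntegral R[X] (algebraMap R[X] F T * u) := by
  classical
  obtain ⟨p, hp, hpc, hpu⟩ := h.exists_monic_of_mem hu₁ hu₂
  have hex : ∀ i, ∃ P Q : R[X], ¬ C ϖ ∣ Q ∧
      p.coeff i = algebraMap R[X] K P / algebraMap R[X] K Q :=
    fun i => exists_div_of_mem_gaussRing h.prime h.unif₁ h.poly₁ h.gauss₁ (hpc i)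
  choose P Q hQ hPQ using hex
  set n := p.natDegree with hn
  set T : R[X] := ∏ i ∈ Finset.range n, Q i with hTdef
  have hT : ¬ C ϖ ∣ T := by
    intro hdvd
    obtain ⟨i, -, hi⟩ := (Prime.dvd_finsetProd_iff (prime_C h.prime) _).mp hdvd
    exact hQ i hi
  refine ⟨T, hT, ?_⟩
  set tK := algebraMap R[X] K T with htK
  have hroot : aeval (algebraMap K F tK * u) (p.scaleRoots tK) = 0 :=
    scaleRoots_aeval_eq_zero hpu
  have hmonic : (p.scaleRoots tK).Monic := (monic_scaleRoots_iff _).mpr hp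
  have hcoef : ∀ i, (p.scaleRoots tK).coeff i ∈ Set.range (algebraMap R[X] K) := by
    intro i
    rw [coeff_scaleRoots, ← hn]
    rcases lt_trichotomy i n with hi | hi | hi
    · have hQi0 : algebraMap R[X] K (Q i) ≠ 0 := by
        intro h0
        have : Q i = 0 := (IsFractionRing.injective R[X] K) (by rw [h0, map_zero])
        apply hQ i
        rw [this]
        exact dvd_zero _
      refine ⟨P i * (∏ j ∈ (Finset.range n).erase i, Q j) * T ^ (n - i - 1), ?_⟩
      have hTe : T = Q i * ∏ j ∈ (Finset.range n).erase i, Q j :=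
        (Finset.mul_prod_erase _ _ (Finset.mem_range.mpr hi)).symm
      have hpow : n - i = (n - i - 1) + 1 := by omega
      rw [hPQ i]
      conv_rhs => rw [hpow, pow_succ]
      have htK' : tK = algebraMap R[X] K (Q i) *
          algebraMap R[X] K (∏ j ∈ (Finset.range n).erase i, Q j) := by
        rw [htK, ← map_mul, ← hTe]
      rw [map_mul, map_mul, map_pow, ← htK]
      conv_rhs => rw [mul_comm (tK ^ (n - i - 1)) tK, ← mul_assoc]
      congr 1
      rw [htK']
      field_simp
    · subst hi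
      rw [hn, hp.coeff_natDegree, Nat.sub_self, pow_zero, mul_one]
      exact ⟨1, map_one _⟩
    · rw [coeff_eq_zero_of_natDegree_lt (by rw [← hn]; exact hi), zero_mul]
      exact ⟨0, map_zero _⟩
  obtain ⟨q, hq, -, hqm⟩ :=
    lifts_and_natDegree_eq_and_monic ((lifts_iff_coeff_lifts _).2 hcoef) hmonic
  refine ⟨q, hqm, ?_⟩
  have e : eval₂ (algebraMap R[X] F) (algebraMap R[X] F T * u) q =
      aeval (algebraMap R[X] F T * u) (q.map (algebraMap R[X] K)) := by
    rw [aeval_def, eval₂_map, ← IsScalarTower.algebraMap_eq]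
  rw [e, hq, ← map_eq (K := K)]
  exact hroot

/-- some element of the chart lies in `𝔪_{V₁}` and is a unit of `V₂` -/
theorem gaussPairLe_exists_mem_not_mem [FiniteDimensional K F]
    (h : GaussPairLe (K := K) ϖ V₁ V₂ b c) :
    ∃ g : F, IsIntegral R[X] g ∧ g ∈ V₁.nonunits ∧ g ∉ V₂.nonunits := by
  obtain ⟨c₀, hc0, hc1, hc2⟩ := exists_separating h.unif₁ h.unif₂ h.ne
  have hu1 : V₁.valuation (1 + c₀) = 1 := Valuation.map_one_add_of_lt _ hc1
  have h1c : 1 + c₀ ≠ 0 := by
    intro h0
    rw [h0, map_zero] at hu1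
    exact zero_ne_one hu1
  have hv1 : V₁.valuation (c₀ * (1 + c₀)⁻¹) < 1 := by
    rw [map_mul, map_inv₀, hu1, inv_one, mul_one]
    exact hc1
  have hu_eq : c₀ * (1 + c₀)⁻¹ = (1 + c₀⁻¹)⁻¹ := by
    have h2 : 1 + c₀⁻¹ = (1 + c₀) * c₀⁻¹ := by
      rw [add_mul, one_mul, mul_inv_cancel₀ hc0, add_comm]
    rw [h2, mul_inv, inv_inv, mul_comm]
  have hv2' : V₂.valuation (1 + c₀⁻¹) = 1 := Valuation.map_one_add_of_lt _ hc2
  have hv2 : V₂.valuation (c₀ * (1 + c₀)⁻¹) = 1 := by
    rw [hu_eq, map_inv₀, hv2', inv_one]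
  have hu₁ : c₀ * (1 + c₀)⁻¹ ∈ V₁ := (ValuationSubring.valuation_le_one_iff V₁ _).mp hv1.le
  have hu₂ : c₀ * (1 + c₀)⁻¹ ∈ V₂ := (ValuationSubring.valuation_le_one_iff V₂ _).mp hv2.le
  obtain ⟨T, hT, hint⟩ := gaussPairLe_exists_scale h hu₁ hu₂
  refine ⟨algebraMap R[X] F T * (c₀ * (1 + c₀)⁻¹), hint, ?_, ?_⟩
  · exact mem_mul_nonunits (h.poly₁ T) ((ValuationSubring.mem_nonunits_iff V₁).mpr hv1)
  · intro hmem
    rw [ValuationSubring.mem_nonunits_iff, map_mul, hv2, mul_one,
      gaussPairLe_valuation_eq_one (gaussPairLe_symm h) hT] at hmem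
    exact lt_irrefl _ hmem

variable [Algebra R F] [IsScalarTower R R[X] F]

/-- **`SSChart.inf_eq`**: `(B ∩ 𝔪_{V₁}) ⊓ (B ∩ 𝔪_{V₂}) = ϖ B`. -/
theorem gaussPairLe_compIdeal_inf [FiniteDimensional K F]
    (h : GaussPairLe (K := K) ϖ V₁ V₂ b c) (B : Subalgebra R F)
    (hB : ∀ f : F, f ∈ B ↔ IsIntegral R[X] f)
    (hBV₁ : ∀ b : B, (b : F) ∈ V₁) (hBV₂ : ∀ b : B, (b : F) ∈ V₂) :
    compIdeal B V₁ hBV₁ ⊓ compIdeal B V₂ hBV₂ = Ideal.span {algebraMap R B ϖ} := by
  have hϖF : ((algebraMap R B ϖ : B) : F) = algebraMap R[X] F (C ϖ) :=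
    algebraMap_const_eq ϖ
  have hϖ0 : algebraMap R[X] F (C ϖ) ≠ 0 := h.unif₁.ne_zero
  apply le_antisymm
  · intro y hy
    obtain ⟨hy₁, hy₂⟩ := hy
    rw [SetLike.mem_coe, mem_compIdeal, ValuationSubring.mem_nonunits_iff,
      ← h.unif₁.mul_inv_mem_iff] at hy₁
    rw [SetLike.mem_coe, mem_compIdeal, ValuationSubring.mem_nonunits_iff,
      ← h.unif₂.mul_inv_mem_iff] at hy₂
    have hint := h.qep2 ((hB _).mp y.2) hy₁ hy₂
    rw [Ideal.mem_span_singleton']
    refine ⟨⟨_, (hB _).mpr hint⟩, Subtype.ext ?_⟩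
    rw [Subalgebra.coe_mul, hϖF]
    show (y : F) * (algebraMap R[X] F (C ϖ))⁻¹ * algebraMap R[X] F (C ϖ) = y
    rw [mul_assoc, inv_mul_cancel₀ hϖ0, mul_one]
  · rw [Ideal.span_le, Set.singleton_subset_iff]
    constructor
    · rw [SetLike.mem_coe, mem_compIdeal, hϖF, ValuationSubring.mem_nonunits_iff]
      exact h.unif₁.val_lt_one
    · rw [SetLike.mem_coe, mem_compIdeal, hϖF, ValuationSubring.mem_nonunits_iff]
      exact h.unif₂.val_lt_one

/-- **MODASM S1-abs.**  The fields `p₁ p₂ prime₁ prime₂ ne not_le₁₂ not_le₂₁ inf_eq` of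
`SSChart ϖ B` for the chart `B` = integral closure of `R[x]`, `x = algebraMap R[X] F X`, with the
components characterised by the two valuations. -/
theorem gaussPairLe_exists_components [FiniteDimensional K F]
    (h : GaussPairLe (K := K) ϖ V₁ V₂ b c) (B : Subalgebra R F)
    (hB : ∀ f : F, f ∈ B ↔
      IsIntegral (Algebra.adjoin R ({algebraMap R[X] F X} : Set F)) f) :
    ∃ p₁ p₂ : Ideal B,
      (∀ y : B, y ∈ p₁ ↔ (y : F) ∈ V₁.nonunits) ∧ (∀ y : B, y ∈ p₂ ↔ (y : F) ∈ V₂.nonunits) ∧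
      p₁.IsPrime ∧ p₂.IsPrime ∧ p₁ ≠ p₂ ∧ ¬ p₁ ≤ p₂ ∧ ¬ p₂ ≤ p₁ ∧
      p₁ ⊓ p₂ = Ideal.span {algebraMap R B ϖ} := by
  have hB' : ∀ f : F, f ∈ B ↔ IsIntegral R[X] f := fun f =>
    (hB f).trans (isIntegral_adjoin_iff f)
  have hBV₁ : ∀ y : B, (y : F) ∈ V₁ := fun y =>
    gaussPairLe_mem_of_isIntegral h ((hB' _).mp y.2)
  have hBV₂ : ∀ y : B, (y : F) ∈ V₂ := fun y =>
    gaussPairLe_mem_of_isIntegral (gaussPairLe_symm h) ((hB' _).mp y.2)
  have h12 : ¬ compIdeal B V₁ hBV₁ ≤ compIdeal B V₂ hBV₂ := by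
    intro hle
    obtain ⟨g, hg, hg₁, hg₂⟩ := gaussPairLe_exists_mem_not_mem h
    exact hg₂ (hle (show (⟨g, (hB' g).mpr hg⟩ : B) ∈ compIdeal B V₁ hBV₁ from hg₁))
  have h21 : ¬ compIdeal B V₂ hBV₂ ≤ compIdeal B V₁ hBV₁ := by
    intro hle
    obtain ⟨g, hg, hg₁, hg₂⟩ := gaussPairLe_exists_mem_not_mem (gaussPairLe_symm h)
    exact hg₂ (hle (show (⟨g, (hB' g).mpr hg⟩ : B) ∈ compIdeal B V₂ hBV₂ from hg₁))
  refine ⟨compIdeal B V₁ hBV₁, compIdeal B V₂ hBV₂, fun _ => Iff.rfl, fun _ => Iff.rfl,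
    compIdeal_isPrime B V₁ hBV₁, compIdeal_isPrime B V₂ hBV₂, ?_, h12, h21,
    gaussPairLe_compIdeal_inf h B hB' hBV₁ hBV₂⟩
  intro heq
  exact h12 (le_of_eq heq)

end Main

end Fermat.Agent.A2.H489

end
-- ===== PACK-END A2/H489/ChartA.lean

-- ===== PACK-BEGIN A2/H672/Purity.lean
section


/-!
# A2 / node purity (helper672): the purity theorem (abstract special fibre)

`R` a noetherian local integrally closed domain, `π ∈ 𝔪`, `π ≠ 0`, `u, g ∈ R`, `ε ∈ Rˣ`, `m > 0`:

* (H2') `u ≡ ε g ^ m` modulo `π`, `g` a nonzerodivisor modulo `π`;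
* (Hfib) `𝔪 ^ k ≤ (u, π)`;
* (H1) at every prime `P ∋ u`, `π ∉ P`: `∃ z σ, σ ∉ P ∧ z ^ m = σ * u`;
* (SF) the special fibre is "seminormal at `g`": if `f ^ m ≡ g ^ m r` modulo `π` with `r ∈ 𝔪`,
  then `f ∈ g 𝔪 + πR`.

Then `u = δ f ^ m` with `δ` a unit (`exists_unit_mul_pow`).  The hypothesis (SF) is proved for a
smooth special fibre and for a node in `Fermat.Agent.A2.H672.Node`.
-/

set_option autoImplicit false
set_option linter.unusedSectionVars false
set_option linter.style.haveILetI false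

namespace Fermat.Agent.A2.H672

open IsLocalRing

section general

variable {R : Type*} [CommRing R]

/-- `ℓ(R/(g ^ j, π)) ≤ j · ℓ(R/(g, π))`. -/
theorem relLen_span_pow_le (g π : R) (j : ℕ) :
    relLen (Ideal.span {g ^ j} ⊔ Ideal.span {π}) ⊤
      ≤ j * relLen (Ideal.span {g} ⊔ Ideal.span {π}) ⊤ := by
  induction j with
  | zero =>
    rw [pow_zero, Ideal.span_singleton_one, top_sup_eq, relLen_self]
    simp
  | succ j ih =>
    have hle : Ideal.span {g ^ (j + 1)} ⊔ Ideal.span {π} ≤ Ideal.span {g ^ j} ⊔ Ideal.span {π} := by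
      refine sup_le_sup_right ?_ _
      rw [Ideal.span_singleton_le_iff_mem, pow_succ]
      exact Ideal.mul_mem_right _ _ (Ideal.mem_span_singleton_self _)
    have hstep : relLen (Ideal.span {g ^ (j + 1)} ⊔ Ideal.span {π})
        (Ideal.span {g ^ j} ⊔ Ideal.span {π}) ≤ relLen (Ideal.span {g} ⊔ Ideal.span {π}) ⊤ := by
      refine relLen_le_of_map (LinearMap.mulLeft R (g ^ j)) ?_ ?_ ?_
      · intro b _
        exact Ideal.mem_sup_left (Ideal.mul_mem_right _ _ (Ideal.mem_span_singleton_self _))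
      · intro b _ hb
        obtain ⟨a, ha, c, rfl⟩ := mem_sup_span_singleton.1 hb
        obtain ⟨d, rfl⟩ := Ideal.mem_span_singleton'.1 ha
        simp only [LinearMap.mulLeft_apply]
        refine mem_sup_span_singleton.2 ⟨g ^ (j + 1) * d, ?_, g ^ j * c, by ring⟩
        exact Ideal.mul_mem_right _ _ (Ideal.mem_span_singleton_self _)
      · intro b' hb'
        obtain ⟨a, ha, c, rfl⟩ := mem_sup_span_singleton.1 hb'
        obtain ⟨d, rfl⟩ := Ideal.mem_span_singleton'.1 ha
        refine ⟨d, trivial, ?_⟩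
        simp only [LinearMap.mulLeft_apply]
        have : d * g ^ j + π * c - g ^ j * d = π * c := by ring
        rw [this]
        exact Ideal.mem_sup_right (Ideal.mul_mem_right _ _ (Ideal.mem_span_singleton_self _))
    rw [relLen_add hle le_top]
    calc relLen (Ideal.span {g ^ (j + 1)} ⊔ Ideal.span {π}) (Ideal.span {g ^ j} ⊔ Ideal.span {π})
          + relLen (Ideal.span {g ^ j} ⊔ Ideal.span {π}) ⊤
        ≤ relLen (Ideal.span {g} ⊔ Ideal.span {π}) ⊤
          + j * relLen (Ideal.span {g} ⊔ Ideal.span {π}) ⊤ := add_le_add hstep ih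
      _ = ((j + 1 : ℕ) : ℕ∞) * relLen (Ideal.span {g} ⊔ Ideal.span {π}) ⊤ := by
        push_cast
        ring

/-- If `u ≡ ε v` modulo `π` with `ε` a unit then `(u, π) = (v, π)`. -/
theorem span_pair_eq_of_dvd_sub {u v ε π : R} (hε : IsUnit ε) (h : π ∣ u - ε * v) :
    Ideal.span {u} ⊔ Ideal.span {π} = Ideal.span {v} ⊔ Ideal.span {π} := by
  obtain ⟨c, hc⟩ := h
  obtain ⟨ε', rfl⟩ := hε
  refine le_antisymm (sup_le ?_ le_sup_right) (sup_le ?_ le_sup_right)
  · rw [Ideal.span_singleton_le_iff_mem]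
    refine mem_sup_span_singleton.2 ⟨ε' * v, Ideal.mul_mem_left _ _
      (Ideal.mem_span_singleton_self _), c, ?_⟩
    rw [← hc]
    ring
  · rw [Ideal.span_singleton_le_iff_mem]
    refine mem_sup_span_singleton.2 ⟨↑ε'⁻¹ * u, Ideal.mul_mem_left _ _
      (Ideal.mem_span_singleton_self _), -(↑ε'⁻¹ * c), ?_⟩
    have : π * -(↑ε'⁻¹ * c) = -(↑ε'⁻¹ * (π * c)) := by ring
    rw [this, ← hc]
    have h1 : (↑ε'⁻¹ : R) * (ε' : R) = 1 := Units.inv_mul ε'
    linear_combination (-v) * h1

end general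

variable {R : Type*} [CommRing R] [IsDomain R] [IsIntegrallyClosed R] [IsNoetherianRing R]
  [IsLocalRing R]

/-- **Node purity, abstract form.**  See the header of this file. -/
theorem exists_unit_mul_pow (u g ε π : R) (m : ℕ) (hm : 0 < m) (hπ0 : π ≠ 0)
    (hπm : π ∈ maximalIdeal R) (hε : IsUnit ε) (hcong : π ∣ u - ε * g ^ m)
    (hg : ∀ x : R, π ∣ g * x → π ∣ x) (k : ℕ)
    (hfin : maximalIdeal R ^ k ≤ Ideal.span {u, π})
    (hloc : ∀ P : Ideal R, P.IsPrime → u ∈ P → π ∉ P → ∃ z σ : R, σ ∉ P ∧ z ^ m = σ * u)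
    (hSF : ∀ f r : R, r ∈ maximalIdeal R → π ∣ f ^ m - g ^ m * r →
      ∃ μ ∈ maximalIdeal R, ∃ c : R, f = g * μ + π * c) :
    ∃ f δ : R, IsUnit δ ∧ u = δ * f ^ m := by
  have hπu : ¬ IsUnit π := (IsLocalRing.mem_maximalIdeal π).1 hπm
  -- `u` is a nonzerodivisor modulo `π`
  have hreg : ∀ x : R, π ∣ u * x → π ∣ x := by
    intro x hx
    have h1 : π ∣ g ^ m * (ε * x) := by
      have : g ^ m * (ε * x) = u * x - (u - ε * g ^ m) * x := by ring
      rw [this]
      exact dvd_sub hx (hcong.mul_right x)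
    have h2 := dvd_of_dvd_pow_mul hg m _ h1
    exact (hε.dvd_mul_left).1 h2
  have hu : u ≠ 0 := by
    rintro rfl
    exact hπu (isUnit_of_dvd_one (hreg 1 (by simp)))
  -- the multiplicity identity
  have hmult := length_eq_mul_length u hu m hm π hπ0 hπm hreg k hfin hloc
  rw [← relLen_top, ← relLen_top, Ideal.span_insert,
    span_pair_eq_of_dvd_sub hε hcong] at hmult
  set ℓ₀ := relLen (H969.powRootIdeal u hu m hm 1 ⊔ Ideal.span {π}) ⊤ with hℓ₀
  set lam := relLen (Ideal.span {g} ⊔ Ideal.span {π}) ⊤ with hlam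
  have hgm : Ideal.span {u, π} ≤ Ideal.span {g} ⊔ Ideal.span {π} := by
    rw [Ideal.span_insert, span_pair_eq_of_dvd_sub hε hcong]
    refine sup_le_sup_right ?_ _
    rw [Ideal.span_singleton_le_iff_mem]
    obtain ⟨n, rfl⟩ := Nat.exists_eq_succ_of_ne_zero hm.ne'
    rw [pow_succ]
    exact Ideal.mul_mem_left _ _ (Ideal.mem_span_singleton_self _)
  have hlamfin : lam ≠ ⊤ := relLen_top_ne_top_of_pow_le _ k (hfin.trans hgm)
  have hle : ℓ₀ ≤ lam := by
    have h1 : (m : ℕ∞) * ℓ₀ ≤ m * lam := by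
      rw [← hmult]
      exact relLen_span_pow_le g π m
    exact (ENat.mul_le_mul_left_iff (by exact_mod_cast hm.ne') (ENat.natCast_ne_top m)).1 h1
  -- `g ∉ g 𝔪 + π R`
  have hgJ : g ∉ Ideal.span {g} * maximalIdeal R ⊔ Ideal.span {π} := by
    intro h
    obtain ⟨a, ha, c, hc⟩ := mem_sup_span_singleton.1 h
    obtain ⟨μ, hμ, rfl⟩ := Ideal.mem_span_singleton_mul.1 ha
    have h1 : π ∣ g * (1 - μ) := ⟨c, by linear_combination hc⟩
    have h2 := hg _ h1
    have h3 : IsUnit (1 - μ) := by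
      have := (IsLocalRing.mem_maximalIdeal μ).1 hμ
      rcases IsLocalRing.isUnit_or_isUnit_one_sub_self μ with h | h
      · exact absurd h this
      · exact h
    exact hπu (isUnit_of_dvd_unit h2 h3)
  -- some `f ∈ I₁` lies outside `g 𝔪 + π R`
  have hex : ∃ f ∈ H969.powRootIdeal u hu m hm 1,
      f ∉ Ideal.span {g} * maximalIdeal R ⊔ Ideal.span {π} := by
    by_contra hcon
    push Not at hcon
    have hI : H969.powRootIdeal u hu m hm 1 ⊔ Ideal.span {π}
        ≤ Ideal.span {g} * maximalIdeal R ⊔ Ideal.span {π} :=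
      sup_le hcon le_sup_right
    have hJ : Ideal.span {g} * maximalIdeal R ⊔ Ideal.span {π}
        ≤ Ideal.span {g} ⊔ Ideal.span {π} :=
      sup_le_sup_right Ideal.mul_le_left _
    have h1 : relLen (Ideal.span {g} * maximalIdeal R ⊔ Ideal.span {π}) ⊤ ≤ ℓ₀ :=
      relLen_anti_left ⊤ hI
    rw [relLen_add hJ le_top] at h1
    have h2 : relLen (Ideal.span {g} * maximalIdeal R ⊔ Ideal.span {π})
        (Ideal.span {g} ⊔ Ideal.span {π}) ≠ 0 := by
      rw [Ne, relLen_eq_zero_iff]
      intro h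
      exact hgJ (h (Ideal.mem_sup_left (Ideal.mem_span_singleton_self g)))
    have h3 : 1 + lam ≤ lam :=
      (add_le_add (Order.one_le_iff_ne_zero.2 h2) le_rfl).trans (h1.trans hle)
    obtain ⟨n, hn⟩ := ENat.ne_top_iff_exists.1 hlamfin
    rw [← hn] at h3
    have : (1 : ℕ) + n ≤ n := by exact_mod_cast h3
    omega
  obtain ⟨f, hfI, hfJ⟩ := hex
  rw [H969.mem_powRootIdeal, pow_one] at hfI
  obtain ⟨r₀, hr₀⟩ := hfI
  have hr₀u : IsUnit r₀ := by
    by_contra hnu
    have hr₀m : r₀ ∈ maximalIdeal R := (IsLocalRing.mem_maximalIdeal r₀).2 hnu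
    obtain ⟨μ, hμ, c, hc⟩ := hSF f (ε * r₀) (Ideal.mul_mem_left _ _ hr₀m) (by
      have : f ^ m - g ^ m * (ε * r₀) = (u - ε * g ^ m) * r₀ := by rw [hr₀]; ring
      rw [this]
      exact hcong.mul_right r₀)
    apply hfJ
    exact mem_sup_span_singleton.2 ⟨g * μ, Ideal.mem_span_singleton_mul.2 ⟨μ, hμ, rfl⟩, c, hc⟩
  obtain ⟨ρ, rfl⟩ := hr₀u
  refine ⟨f, ↑ρ⁻¹, Units.isUnit _, ?_⟩
  rw [hr₀]
  have h1 : (↑ρ⁻¹ : R) * (ρ : R) = 1 := Units.inv_mul ρ
  linear_combination (-u) * h1

end Fermat.Agent.A2.H672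

end
-- ===== PACK-END A2/H672/Purity.lean

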