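import Fermat.Prelude.Def_AlgebraicCurve_DivisorPushPull
import Mathlib
import Fermat.Prelude.Def_ModularCurve_X0ModL
import Fermat.Agent.Pack.S44C.G0E0L3
import Fermat.Agent.Pack.S44C.G0E16L3
import Fermat.Agent.Pack.S44C.G1E0L0
import Fermat.Agent.Pack.S44C.G0E10L1
import Fermat.Agent.Pack.S44C.G0E13L3
import Fermat.Agent.Pack.S44C.G0E6L2
import Fermat.Agent.Pack.S44C.G0E6L1
import Fermat.Agent.Pack.S44C.G0E6L3
import Fermat.Agent.Pack.S44C.G0E16L1
import Fermat.Agent.Pack.S44C.G0E13L0
import Fermat.Agent.Pack.S44C.G0E16L2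
import Fermat.Agent.Pack.S44C.G0E6L0
import Fermat.Agent.Pack.S44C.G0E15L2
import Fermat.Agent.Pack.S44C.G0E3L1
import Fermat.Agent.Pack.S44C.G0E15L0
import Fermat.Agent.Pack.S44C.G0E14L2
import Fermat.Agent.Pack.S44C.G0E12L2
import Fermat.Agent.Pack.S44C.G0E5L3
import Fermat.Agent.Pack.S44C.G0E16L0
import Fermat.Agent.Pack.Fast891

-- ===== PACK-BEGIN S24/Count.lean
section



/-!
# S24 — counting on `SL₂(ℤ)/Γ₀(N) ≅ ℙ¹(ℤ/N)`

INTERFACE FILE (statements frozen by helper984 @4630f4b), proofs filled in by helper324 from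
`Fermat.Agent.S24.H324` (which assembles helper694's `S20.Comb` and helper360's `CuspCount360`).
-/

set_option autoImplicit false

noncomputable section

open ModularCurve
open scoped MatrixGroups

namespace Fermat.Agent.S24

variable (N : ℕ) [NeZero N]

theorem card_XX : Nat.card (XX N) = dedekindPsi N :=
  H324.card_XX N

theorem two_mul_numOrbits_S :
    2 * numOrbits (permOf N ModularGroup.S) = dedekindPsi N + nuTwo N :=
  H324.two_mul_numOrbits_S N

theorem three_mul_numOrbits_ST :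
    3 * numOrbits (permOf N (ModularGroup.S * ModularGroup.T))
      = dedekindPsi N + 2 * nuThree N :=
  H324.three_mul_numOrbits_ST N

theorem numOrbits_T : numOrbits (permOf N ModularGroup.T) = cuspCount N :=
  H324.numOrbits_T N

end Fermat.Agent.S24

end
end
-- ===== PACK-END S24/Count.lean

-- ===== PACK-BEGIN Lib/HI/H864/RelPlace.lean
section




/-!
# Lib / HI (helper864): the fibre of a place in a finite extension of function fields

`K` algebraically closed of characteristic `0`, `F'/F` a finite extension of function fields of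
one variable over `K`, `v` a place of `F`.  With `R = O_v` and `S` the integral closure of `R` in
`F'`:

* `sum_fiber_ord_uniformizer` : `∑_{w | v} w(τ) = [F' : F]` for a uniformizer `τ` of `v`;
* `sum_fiber_ord_eq_ord_norm` : `∑_{w | v} w(f) = v(N_{F'/F} f)`.
-/

set_option autoImplicit false
set_option linter.unusedSectionVars false
set_option linter.style.haveILetI false
set_option linter.unusedVariables false

noncomputable section

open AlgebraicCurve IsDedekindDomain IntermediateField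

namespace Fermat.Agent.Lib.HI.H864

open Fermat.Agent.S24

section

variable {K F F' : Type*} [Field K] [Field F] [Field F'] [Algebra K F] [Algebra K F']
  [Algebra F F'] [IsScalarTower K F F']

theorem flat_of_torsionFree (R S : Type*) [CommRing R] [IsDedekindDomain R] [CommRing S]
    [Algebra R S] [Module.IsTorsionFree R S] : Module.Flat R S := inferInstance

theorem torsionFree_integralClosure (v : Place K F) :
    Module.IsTorsionFree v.toValuationSubring (integralClosure v.toValuationSubring F') :=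
  inferInstance

theorem isScalarTower_valuationSubring (v : Place K F) :
    IsScalarTower K v.toValuationSubring F' :=
  IsScalarTower.of_algebraMap_eq fun a => by
    rw [IsScalarTower.algebraMap_apply K F F']
    rfl

/-- `ord` on the valuation ring is the multiplicity of the maximal ideal. -/
theorem ord_coe_eq_multiplicity (v : Place K F) {r : v.toValuationSubring} (hr : r ≠ 0) :
    v.ord (r : F) = (multiplicity (IsLocalRing.maximalIdeal v.toValuationSubring)
      (Ideal.span {r}) : ℤ) := by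
  show -(WithZero.log (v.heightOneSpectrum.valuation F (algebraMap v.toValuationSubring F r))) = _
  rw [HeightOneSpectrum.valuation_of_algebraMap,
    HeightOneSpectrum.intValuation_eq_exp_neg_multiplicity _ hr, WithZero.log_exp, neg_neg,
    Place.heightOneSpectrum_asIdeal]

section Fiber

variable [Algebra.IsIntegral F F']

/-- A place `w` of `F'` restricts to `v` iff its valuation ring contains `O_v`. -/
theorem restrict_eq_iff (v : Place K F) (w : Place K F') :
    w.restrict F = v ↔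
      ∀ r : v.toValuationSubring, algebraMap F F' (r : F) ∈ w.toValuationSubring := by
  constructor
  · rintro rfl r
    exact (Place.mem_restrict_iff w).mp r.2
  · intro h
    apply Place.ext
    symm
    refine ValuationSubring.eq_of_le_of_ne_top _ ?_ (w.restrict F).ne_top'
    intro r hr
    exact (Place.mem_restrict_iff w).mpr (h ⟨r, hr⟩)

theorem ord_algebraMap_of_restrict_eq {v : Place K F} {w : Place K F'} (hw : w.restrict F = v)
    (f : F) : w.ord (algebraMap F F' f) = (w.ramificationIndex F : ℤ) * v.ord f := by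
  rw [w.ord_restrict f, hw]

theorem ord_uniformizer_of_restrict_eq {v : Place K F} {w : Place K F'} (hw : w.restrict F = v)
    {τ : v.toValuationSubring} (hτ : Irreducible τ) :
    w.ord (algebraMap F F' (τ : F)) = (w.ramificationIndex F : ℤ) := by
  rw [ord_algebraMap_of_restrict_eq hw, v.ord_coe_irreducible hτ, mul_one]

theorem fiber_iff [HasPrincipalDivisors K F'] (v : Place K F) {τ : v.toValuationSubring}
    (hτ : Irreducible τ) (w : Place K F') :
    w ∈ v.fiber F' ↔ (0 < w.ord (algebraMap v.toValuationSubring F' τ) ∧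
      ∀ r : v.toValuationSubring, algebraMap v.toValuationSubring F' r ∈ w.toValuationSubring) := by
  rw [Place.mem_fiber, restrict_eq_iff]
  constructor
  · intro h
    refine ⟨?_, h⟩
    have hw : w.restrict F = v := (restrict_eq_iff v w).mpr h
    show 0 < w.ord (algebraMap F F' (τ : F))
    rw [ord_uniformizer_of_restrict_eq hw hτ]
    exact_mod_cast w.ramificationIndex_pos (F := F)
  · rintro ⟨-, h⟩
    exact h

end Fiber

section Main

variable [IsAlgClosed K] [CharZero K] [FiniteDimensional F F'] [HasPrincipalDivisors K F']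

theorem exists_const_sub_mem_maximalIdeal (x : F) (hx : Transcendental K x)
    [FiniteDimensional K⟮x⟯ F] (v : Place K F) (r : v.toValuationSubring) :
    ∃ c : K, r - algebraMap K v.toValuationSubring c
      ∈ IsLocalRing.maximalIdeal v.toValuationSubring := by
  obtain ⟨a, ha⟩ := FF.exists_const_sub_mem_nonunits v hx r.2
  refine ⟨a, ?_⟩
  rw [← ValuationSubring.coe_mem_nonunits_iff]
  exact ha

/-- **Relative fundamental identity** for a uniformizer. -/
theorem sum_fiber_ord_uniformizer (x : F) (hx : Transcendental K x)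
    [FiniteDimensional K⟮x⟯ F] (v : Place K F) {τ : v.toValuationSubring}
    (hτ : Irreducible τ) :
    ∑ w ∈ v.fiber F', w.ord (algebraMap F F' (τ : F)) = (Module.finrank F F' : ℤ) := by
  haveI : Module.IsTorsionFree v.toValuationSubring (integralClosure v.toValuationSubring F') :=
    torsionFree_integralClosure v
  haveI : Module.Flat v.toValuationSubring (integralClosure v.toValuationSubring F') :=
    flat_of_torsionFree _ _
  haveI : IsScalarTower K v.toValuationSubring F' := isScalarTower_valuationSubring v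
  haveI : CharZero F := charZero_of_injective_algebraMap (algebraMap K F).injective
  haveI : IsScalarTower v.toValuationSubring (integralClosure v.toValuationSubring F') F' :=
    Subalgebra.isScalarTower_mid _
  haveI : IsFractionRing (integralClosure v.toValuationSubring F') F' :=
    integralClosure.isFractionRing_of_finite_extension F F'
  haveI : IsDedekindDomain (integralClosure v.toValuationSubring F') :=
    IsIntegralClosure.isDedekindDomain v.toValuationSubring F F'
      (integralClosure v.toValuationSubring F')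
  haveI : Module.Finite v.toValuationSubring (integralClosure v.toValuationSubring F') :=
    IsIntegralClosure.finite v.toValuationSubring F F' (integralClosure v.toValuationSubring F')
  have hfin : Module.finrank F F'
      = Module.finrank v.toValuationSubring (integralClosure v.toValuationSubring F') :=
    IsFractionRing.finrank_eq v.toValuationSubring F (integralClosure v.toValuationSubring F') F'
  haveI hmax : (IsLocalRing.maximalIdeal v.toValuationSubring).IsMaximal :=
    IsLocalRing.maximalIdeal.isMaximal _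
  have hinj : Function.Injective
      (algebraMap v.toValuationSubring (integralClosure v.toValuationSubring F')) := by
    intro a b hab
    have := congrArg (algebraMap (integralClosure v.toValuationSubring F') F') hab
    rw [← IsScalarTower.algebraMap_apply, ← IsScalarTower.algebraMap_apply] at this
    exact Subtype.ext ((algebraMap F F').injective this)
  rw [hfin]
  exact sum_ord_tau_eq_finrank (K := K) (F := F')
    (S := integralClosure v.toValuationSubring F') (R := v.toValuationSubring)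
    (IsLocalRing.maximalIdeal v.toValuationSubring) τ hτ.maximalIdeal_eq hτ.ne_zero hinj
    (exists_const_sub_mem_maximalIdeal x hx v) (v.fiber F') (fiber_iff v hτ)

/-- Over an algebraically closed constant field all inertia degrees are `1`. -/
theorem place_inertiaDeg_eq_one (x : F) (hx : Transcendental K x) [FiniteDimensional K⟮x⟯ F]
    (x' : F') (hx' : Transcendental K x') [FiniteDimensional K⟮x'⟯ F'] (w : Place K F') :
    w.inertiaDeg F = 1 := by
  have h := w.deg_restrict_mul_inertiaDeg (F := F)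
  rw [FF.deg_eq_one (w.restrict F) hx, FF.deg_eq_one w hx', one_mul] at h
  exact h

/-- **`∑ e f = n`** in the language of places. -/
theorem sumRamificationInertia (x : F) (hx : Transcendental K x) [FiniteDimensional K⟮x⟯ F]
    (x' : F') (hx' : Transcendental K x') [FiniteDimensional K⟮x'⟯ F'] :
    SumRamificationInertia K F F' where
  sum_ramificationIndex_mul_inertiaDeg v := by
    obtain ⟨τ, hτ⟩ := IsDiscreteValuationRing.exists_irreducible v.toValuationSubring
    rw [← sum_fiber_ord_uniformizer x hx v hτ]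
    refine Finset.sum_congr rfl fun w hw => ?_
    rw [ord_uniformizer_of_restrict_eq (Place.mem_fiber.mp hw) hτ,
      place_inertiaDeg_eq_one x hx x' hx' w, Nat.cast_one, mul_one]

/-- Norm formula for integral elements. -/
theorem sum_fiber_ord_integral (x : F) (hx : Transcendental K x)
    [FiniteDimensional K⟮x⟯ F] (v : Place K F)
    {a : integralClosure v.toValuationSubring F'} (ha : a ≠ 0) :
    ∑ w ∈ v.fiber F', w.ord (a : F') = v.ord (Algebra.norm F (a : F')) := by
  obtain ⟨τ, hτ⟩ := IsDiscreteValuationRing.exists_irreducible v.toValuationSubring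
  haveI : Module.IsTorsionFree v.toValuationSubring (integralClosure v.toValuationSubring F') :=
    torsionFree_integralClosure v
  haveI : IsScalarTower K v.toValuationSubring F' := isScalarTower_valuationSubring v
  haveI : CharZero F := charZero_of_injective_algebraMap (algebraMap K F).injective
  haveI : CharZero v.toValuationSubring :=
    charZero_of_injective_algebraMap (algebraMap K v.toValuationSubring).injective
  haveI : CharZero (FractionRing v.toValuationSubring) :=
    charZero_of_injective_algebraMap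
      (IsFractionRing.injective v.toValuationSubring (FractionRing v.toValuationSubring))
  haveI : PerfectField (FractionRing v.toValuationSubring) := PerfectField.ofCharZero
  haveI : IsScalarTower v.toValuationSubring (integralClosure v.toValuationSubring F') F' :=
    Subalgebra.isScalarTower_mid _
  haveI : IsFractionRing (integralClosure v.toValuationSubring F') F' :=
    integralClosure.isFractionRing_of_finite_extension F F'
  haveI : IsDedekindDomain (integralClosure v.toValuationSubring F') :=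
    IsIntegralClosure.isDedekindDomain v.toValuationSubring F F'
      (integralClosure v.toValuationSubring F')
  haveI : Module.Finite v.toValuationSubring (integralClosure v.toValuationSubring F') :=
    IsIntegralClosure.finite v.toValuationSubring F F' (integralClosure v.toValuationSubring F')
  haveI hmax : (IsLocalRing.maximalIdeal v.toValuationSubring).IsMaximal :=
    IsLocalRing.maximalIdeal.isMaximal _
  have hinj : Function.Injective
      (algebraMap v.toValuationSubring (integralClosure v.toValuationSubring F')) := by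
    intro a b hab
    have := congrArg (algebraMap (integralClosure v.toValuationSubring F') F') hab
    rw [← IsScalarTower.algebraMap_apply, ← IsScalarTower.algebraMap_apply] at this
    exact Subtype.ext ((algebraMap F F').injective this)
  have h1 := sum_ord_eq_multiplicity_intNorm (K := K) (F := F')
    (S := integralClosure v.toValuationSubring F') (R := v.toValuationSubring)
    (IsLocalRing.maximalIdeal v.toValuationSubring) τ hτ.maximalIdeal_eq hτ.ne_zero hinj
    (exists_const_sub_mem_maximalIdeal x hx v) (v.fiber F') (fiber_iff v hτ) ha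
  have h3 : algebraMap v.toValuationSubring F
      (Algebra.intNorm v.toValuationSubring (integralClosure v.toValuationSubring F') a)
        = Algebra.norm F (algebraMap (integralClosure v.toValuationSubring F') F' a) :=
    Algebra.algebraMap_intNorm (A := v.toValuationSubring) (K := F) (L := F')
      (B := integralClosure v.toValuationSubring F') a
  have ha' : (a : F') ≠ 0 := fun h => ha (Subtype.ext h)
  have hn0 : Algebra.intNorm v.toValuationSubring (integralClosure v.toValuationSubring F') a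
      ≠ 0 := by
    intro h0
    rw [h0, map_zero] at h3
    exact (Algebra.norm_ne_zero_iff.mpr ha') h3.symm
  have h2 := ord_coe_eq_multiplicity v hn0
  have h4 : (algebraMap (integralClosure v.toValuationSubring F') F' a) = (a : F') := rfl
  rw [h4] at h1 h3
  rw [h1, ← h2, ← h3]
  rfl

/-- **Norm formula**: `∑_{w | v} w(f) = v(N_{F'/F} f)`. -/
theorem sum_fiber_ord_eq_ord_norm (x : F) (hx : Transcendental K x)
    [FiniteDimensional K⟮x⟯ F] (v : Place K F) {f : F'} (hf : f ≠ 0) :
    ∑ w ∈ v.fiber F', w.ord f = v.ord (Algebra.norm F f) := by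
  haveI : CharZero F := charZero_of_injective_algebraMap (algebraMap K F).injective
  haveI : IsScalarTower v.toValuationSubring (integralClosure v.toValuationSubring F') F' :=
    Subalgebra.isScalarTower_mid _
  haveI : IsFractionRing (integralClosure v.toValuationSubring F') F' :=
    integralClosure.isFractionRing_of_finite_extension F F'
  obtain ⟨a, b, hb, hab⟩ :=
    IsFractionRing.div_surjective (A := integralClosure v.toValuationSubring F') f
  have hb0 : b ≠ 0 := nonZeroDivisors.ne_zero hb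
  have hb' : (b : F') ≠ 0 := fun h => hb0 (Subtype.ext h)
  have hfb : f * (b : F') = (a : F') := by
    have h1 : algebraMap (integralClosure v.toValuationSubring F') F' a = (a : F') := rfl
    have h2 : algebraMap (integralClosure v.toValuationSubring F') F' b = (b : F') := rfl
    rw [h1, h2] at hab
    rw [← hab, div_mul_cancel₀ _ hb']
  have ha' : (a : F') ≠ 0 := by
    rw [← hfb]
    exact mul_ne_zero hf hb'
  have ha0 : a ≠ 0 := fun h => ha' (by rw [h]; rfl)
  have hA := sum_fiber_ord_integral x hx v ha0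
  have hB := sum_fiber_ord_integral x hx v hb0
  have hsum : ∑ w ∈ v.fiber F', w.ord (a : F')
      = ∑ w ∈ v.fiber F', w.ord f + ∑ w ∈ v.fiber F', w.ord (b : F') := by
    rw [← Finset.sum_add_distrib]
    refine Finset.sum_congr rfl fun w _ => ?_
    rw [← hfb, w.ord_mul hf hb']
  have hnorm : Algebra.norm F (a : F') = Algebra.norm F f * Algebra.norm F (b : F') := by
    rw [← hfb, map_mul]
  have hNf : Algebra.norm F f ≠ 0 := Algebra.norm_ne_zero_iff.mpr hf
  have hNb : Algebra.norm F (b : F') ≠ 0 := Algebra.norm_ne_zero_iff.mpr hb'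
  rw [hnorm, v.ord_mul hNf hNb] at hA
  omega

/-- **Push-forward of principal divisors is given by the norm.** -/
theorem pushforwardNormFormula (x : F) (hx : Transcendental K x) [FiniteDimensional K⟮x⟯ F]
    (x' : F') (hx' : Transcendental K x') [FiniteDimensional K⟮x'⟯ F'] :
    Divisor.PushforwardNormFormula K F F' := by
  classical
  intro f hf D hD v
  rw [Divisor.pushforward_apply, ← sum_fiber_ord_eq_ord_norm x hx v hf]
  have h1 : ∀ w ∈ D.support, (if w.restrict F = v then D w * (w.inertiaDeg F : ℤ) else 0)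
      = if w ∈ v.fiber F' then w.ord f else 0 := by
    intro w _
    by_cases hwv : w.restrict F = v
    · rw [if_pos hwv, if_pos (Place.mem_fiber.mpr hwv), hD,
        place_inertiaDeg_eq_one x hx x' hx' w, Nat.cast_one, mul_one]
    · rw [if_neg hwv, if_neg (fun h => hwv (Place.mem_fiber.mp h))]
  rw [Finset.sum_congr rfl h1, ← Finset.sum_filter]
  refine Finset.sum_subset (fun w hw => (Finset.mem_filter.mp hw).2) ?_
  intro w hw hnot
  rw [Finset.mem_filter, not_and_or] at hnot
  rcases hnot with h | h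
  · rw [Finsupp.mem_support_iff, not_not, hD] at h
    exact h
  · exact absurd hw h

end Main

end

end Fermat.Agent.Lib.HI.H864

end
end
-- ===== PACK-END Lib/HI/H864/RelPlace.lean

-- ===== PACK-BEGIN S24/H864/FF3e.lean
section



/-!
# S24 / ALG / FF3: a principal divisor has degree zero
-/

set_option autoImplicit false

noncomputable section

open AlgebraicCurve IntermediateField

namespace Fermat.Agent.S24.H864

variable {K F : Type*} [Field K] [Field F] [Algebra K F]

theorem adjoin_simple_inv_eq (f : F) : K⟮f⁻¹⟯ = K⟮f⟯ := by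
  apply le_antisymm
  · rw [IntermediateField.adjoin_simple_le_iff]
    exact inv_mem (IntermediateField.mem_adjoin_simple_self K f)
  · rw [IntermediateField.adjoin_simple_le_iff]
    have h := inv_mem (IntermediateField.mem_adjoin_simple_self K f⁻¹)
    rwa [inv_inv] at h

theorem transcendental_inv {f : F} (hf : Transcendental K f) : Transcendental K f⁻¹ := by
  intro h
  apply hf
  have := h.inv
  rwa [inv_inv] at this

variable [IsAlgClosed K] [CharZero K]

/-- the number of zeros equals the number of poles -/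
theorem sum_ord_pos_eq_sum_ord_neg (f : F) (hf : Transcendental K f)
    [FiniteDimensional ↥(IntermediateField.adjoin K {f}) F]
    (sp sn : Finset (Place K F)) (hsp : ∀ v : Place K F, v ∈ sp ↔ 0 < v.ord f)
    (hsn : ∀ v : Place K F, v ∈ sn ↔ v.ord f < 0) :
    ∑ v ∈ sp, v.ord f + ∑ v ∈ sn, v.ord f = 0 := by
  have h1 := fundamental_identity f hf sp hsp
  have hfi : Transcendental K f⁻¹ := transcendental_inv hf
  haveI : FiniteDimensional ↥(IntermediateField.adjoin K {f⁻¹}) F := by
    rw [adjoin_simple_inv_eq]; infer_instance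
  have hsn' : ∀ v : Place K F, v ∈ sn ↔ 0 < v.ord f⁻¹ := by
    intro v
    rw [hsn, Place.ord_inv]
    omega
  have h2 := fundamental_identity f⁻¹ hfi sn hsn'
  have h3 : Module.finrank ↥(IntermediateField.adjoin K {f⁻¹}) F
      = Module.finrank ↥(IntermediateField.adjoin K {f}) F := by
    rw [adjoin_simple_inv_eq]
  have h4 : ∑ v ∈ sn, v.ord f = -∑ v ∈ sn, v.ord f⁻¹ := by
    rw [← Finset.sum_neg_distrib]
    refine Finset.sum_congr rfl fun v _ => ?_
    rw [Place.ord_inv, neg_neg]
  rw [h1, h4, h2, h3]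
  ring

/-- **FF3.**  A principal divisor has degree zero. -/
theorem degree_principal (j : F) (hj : Transcendental K j)
    [FiniteDimensional ↥(IntermediateField.adjoin K {j}) F] (f : F) (hf : f ≠ 0)
    (D : Divisor K F) (hD : ∀ v : Place K F, D v = v.ord f) : Divisor.degree D = 0 := by
  classical
  have hdeg : Divisor.degree D = ∑ v ∈ D.support, v.ord f := by
    show Finsupp.liftAddHom (fun v : Place K F => AddMonoidHom.mulRight (v.deg : ℤ)) D = _
    rw [Finsupp.liftAddHom_apply, Finsupp.sum]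
    refine Finset.sum_congr rfl fun v _ => ?_
    rw [AddMonoidHom.coe_mulRight, hD v, FF.deg_eq_one v hj]
    simp
  rw [hdeg]
  by_cases hfK : f ∈ (algebraMap K F).range
  · obtain ⟨c, rfl⟩ := hfK
    refine Finset.sum_eq_zero fun v _ => FF.ord_algebraMap v c
  · have hft : Transcendental K f := FF.transcendental_of_not_mem_range hfK
    haveI : FiniteDimensional ↥(IntermediateField.adjoin K {f}) F :=
      FF.finiteDimensional_adjoin_of_transcendental hj hft
    have hsupp : ∀ v : Place K F, v ∈ D.support ↔ v.ord f ≠ 0 := by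
      intro v
      rw [Finsupp.mem_support_iff, hD v]
    set sp := D.support.filter (fun v => 0 < v.ord f) with hsp
    set sn := D.support.filter (fun v => v.ord f < 0) with hsn
    have hsp' : ∀ v : Place K F, v ∈ sp ↔ 0 < v.ord f := by
      intro v
      rw [hsp, Finset.mem_filter, hsupp]
      constructor
      · exact fun h => h.2
      · exact fun h => ⟨by omega, h⟩
    have hsn' : ∀ v : Place K F, v ∈ sn ↔ v.ord f < 0 := by
      intro v
      rw [hsn, Finset.mem_filter, hsupp]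
      constructor
      · exact fun h => h.2
      · exact fun h => ⟨by omega, h⟩
    have hkey := sum_ord_pos_eq_sum_ord_neg f hft sp sn hsp' hsn'
    have hunion : D.support = sp ∪ sn := by
      ext v
      rw [Finset.mem_union, hsp', hsn', hsupp]
      omega
    have hdisj : Disjoint sp sn := by
      rw [Finset.disjoint_left]
      intro v h1 h2
      rw [hsp'] at h1
      rw [hsn'] at h2
      omega
    rw [hunion, Finset.sum_union hdisj]
    exact hkey

end Fermat.Agent.S24.H864

end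
end
-- ===== PACK-END S24/H864/FF3e.lean

-- ===== PACK-BEGIN Lib/Cheb/H221/Tier2.lean
section









/-!
# Tier 2 of CHEB modulo the analytic core (helper221)

Everything except `Spec.DirichletLimitStatement` (AN) is discharged with the theorems already on
main: exact qualitative Chebotarev follows from AN alone.
-/

set_option autoImplicit false

namespace Fermat.Agent.Lib.Cheb.H221

open Fermat.Agent.Lib.Cheb

/-- Tier 1, finite level (assembled from landed pieces). -/
theorem frobFinite_main : Spec.FrobFiniteStatement :=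
  H341.frobFinite H761.primeSum_statement H761.primeCountBound_statement H764.count
    H943.frobStatement

/-- CYC from AN. -/
theorem cyc_of_dirichletLimit (hAN : Spec.DirichletLimitStatement) : Spec.CycStatement :=
  cyc H761.primeSum_statement H764.count H943.frobStatement frobFinite_main hAN

/-- Finite-level exact Chebotarev from AN. -/
theorem chebFinite_of_dirichletLimit (hAN : Spec.DirichletLimitStatement) :
    Spec.ChebFiniteStatement :=
  H223.cross H943.frobStatement (cyc_of_dirichletLimit hAN)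

/-- Prelude-level exact qualitative Chebotarev from AN. -/
theorem chebotarev_of_dirichletLimit (hAN : Spec.DirichletLimitStatement) :
    Spec.ChebotarevStatement :=
  H476.bridge (chebFinite_of_dirichletLimit hAN)

end Fermat.Agent.Lib.Cheb.H221

end
-- ===== PACK-END Lib/Cheb/H221/Tier2.lean

-- ===== PACK-BEGIN S14/H74/Orbit.lean
section



/-!
# S14/N1 (helper74): orbit decomposition of the smoothed sum (piece P3)
-/

namespace Fermat.Agent.S14.H74

open NumberField NumberField.mixedEmbedding NumberField.Units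
  NumberField.Units.dirichletUnitTheorem NumberField.InfinitePlace Module

open scoped Classical

variable {K : Type*} [Field K] [NumberField K]

/-- Nonzero principal ideals contained in `J`. -/
def PJ (J : Ideal (𝓞 K)) : Type _ :=
  {I : Ideal (𝓞 K) // I ≠ ⊥ ∧ I.IsPrincipal ∧ I ≤ J}

/-- A chosen generator. -/
noncomputable def pjGen {J : Ideal (𝓞 K)} (I : PJ J) : 𝓞 K :=
  haveI := I.2.2.1
  Submodule.IsPrincipal.generator I.1

theorem span_pjGen {J : Ideal (𝓞 K)} (I : PJ J) : Ideal.span {pjGen I} = I.1 := by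
  have := I.2.2.1
  exact Ideal.span_singleton_generator I.1

theorem pjGen_ne_zero {J : Ideal (𝓞 K)} (I : PJ J) : pjGen I ≠ 0 := by
  intro h
  have := span_pjGen I
  rw [h, Ideal.span_singleton_eq_bot.mpr rfl] at this
  exact I.2.1 this.symm

theorem pjGen_mem {J : Ideal (𝓞 K)} (I : PJ J) : pjGen I ∈ J := by
  apply I.2.2.2
  rw [← span_pjGen I]
  exact Ideal.mem_span_singleton_self _

theorem span_unit_mul (u : (𝓞 K)ˣ) (g : 𝓞 K) :
    Ideal.span {(u : 𝓞 K) * g} = Ideal.span {g} :=
  Ideal.span_singleton_mul_left_unit u.isUnit g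

/-- The orbit decomposition of the nonzero elements of `J`. -/
noncomputable def orbitEquiv (J : Ideal (𝓞 K)) :
    PJ J × (𝓞 K)ˣ ≃ {y : 𝓞 K // y ∈ J ∧ y ≠ 0} :=
  Equiv.ofBijective (fun p ↦ ⟨(p.2 : 𝓞 K) * pjGen p.1,
    J.mul_mem_left _ (pjGen_mem p.1), mul_ne_zero p.2.ne_zero (pjGen_ne_zero p.1)⟩) (by
    constructor
    · rintro ⟨I, u⟩ ⟨I', u'⟩ h
      have h1 : (u : 𝓞 K) * pjGen I = (u' : 𝓞 K) * pjGen I' := congrArg Subtype.val h
      have e1 : I.1 = Ideal.span {(u : 𝓞 K) * pjGen I} := by rw [span_unit_mul, span_pjGen]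
      have e2 : I'.1 = Ideal.span {(u' : 𝓞 K) * pjGen I'} := by rw [span_unit_mul, span_pjGen]
      have h2 : I = I' := Subtype.ext (by rw [e1, e2, h1])
      subst h2
      have h3 : (u : 𝓞 K) = u' := mul_right_cancel₀ (pjGen_ne_zero I) h1
      rw [Units.ext h3]
    · rintro ⟨y, hyJ, hy0⟩
      let I : PJ J := ⟨Ideal.span {y}, by
        rw [Ne, Ideal.span_singleton_eq_bot]
        exact hy0, ⟨⟨y, rfl⟩⟩, by
        rw [Ideal.span_singleton_le_iff_mem]
        exact hyJ⟩
      have h1 : Ideal.span {pjGen I} = Ideal.span {y} := span_pjGen I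
      rw [Ideal.span_singleton_eq_span_singleton] at h1
      obtain ⟨u, hu⟩ := h1
      refine ⟨(I, u), Subtype.ext ?_⟩
      show (u : 𝓞 K) * pjGen I = y
      rw [mul_comm]
      exact hu)

theorem orbitEquiv_apply (J : Ideal (𝓞 K)) (p : PJ J × (𝓞 K)ˣ) :
    ((orbitEquiv J p : {y : 𝓞 K // y ∈ J ∧ y ≠ 0}) : 𝓞 K) = (p.2 : 𝓞 K) * pjGen p.1 := rfl

theorem mixedEmbedding_unit_mul (u : (𝓞 K)ˣ) (g : 𝓞 K) :
    mixedEmbedding K (((u : 𝓞 K) * g : 𝓞 K) : K) = u • mixedEmbedding K (g : K) := by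
  rw [unitSMul_smul, ← map_mul]
  rfl

theorem norm_pjGen {J : Ideal (𝓞 K)} (I : PJ J) :
    mixedEmbedding.norm (mixedEmbedding K (pjGen I : K)) = (Ideal.absNorm I.1 : ℝ) := by
  rw [mixedEmbedding_norm_coe, ← span_pjGen I, Ideal.absNorm_span_singleton, Nat.cast_natAbs,
    Int.cast_abs]

theorem FS_unit_mul (s : ℝ) (u : (𝓞 K)ˣ) {J : Ideal (𝓞 K)} (I : PJ J) :
    FS K s ((u : 𝓞 K) * pjGen I) =
      rho K (u • mixedEmbedding K (pjGen I : K)) * (Ideal.absNorm I.1 : ℝ) ^ (-s) := by
  unfold FS fS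
  rw [mixedEmbedding_unit_mul, norm_unit_smul, norm_pjGen]

theorem tsum_ideal_eq_tsum_ne_zero (J : Ideal (𝓞 K)) (s : ℝ) :
    ∑' y : J, FS K s (y : 𝓞 K) = ∑' y : {y : 𝓞 K // y ∈ J ∧ y ≠ 0}, FS K s (y : 𝓞 K) := by
  have h1 := tsum_subtype (J : Set (𝓞 K)) (FS K s)
  have h2 := tsum_subtype ({y : 𝓞 K | y ∈ J ∧ y ≠ 0}) (FS K s)
  have h3 : (J : Set (𝓞 K)).indicator (FS K s) =
      ({y : 𝓞 K | y ∈ J ∧ y ≠ 0}).indicator (FS K s) := by
    funext y
    by_cases hy : y = 0
    · subst hy
      simp [Set.indicator, FS_zero]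
    · simp [Set.indicator, hy]
  calc ∑' y : J, FS K s (y : 𝓞 K) = ∑' y, (J : Set (𝓞 K)).indicator (FS K s) y := h1
    _ = ∑' y, ({y : 𝓞 K | y ∈ J ∧ y ≠ 0}).indicator (FS K s) y := by rw [h3]
    _ = _ := h2.symm

/-- **P3**: the smoothed sum over `J` is the sum over the nonzero principal ideals contained
in `J`, counted with multiplicity `torsionOrder K`. -/
theorem tsum_FS_eq (J : Ideal (𝓞 K)) {s : ℝ} (hs : 1 < s) :
    ∑' y : J, FS K s (y : 𝓞 K) =
      (torsionOrder K : ℝ) * ∑' I : PJ J, (Ideal.absNorm I.1 : ℝ) ^ (-s) := by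
  rw [tsum_ideal_eq_tsum_ne_zero]
  have hsumF := summable_FS (K := K) hs
  have hsum0 : Summable fun y : {y : 𝓞 K // y ∈ J ∧ y ≠ 0} ↦ FS K s (y : 𝓞 K) :=
    hsumF.comp_injective Subtype.val_injective
  set G : PJ J × (𝓞 K)ˣ → ℝ := fun p ↦
    rho K (p.2 • mixedEmbedding K (pjGen p.1 : K)) * (Ideal.absNorm p.1.1 : ℝ) ^ (-s) with hG
  have hcomp : (fun y : {y : 𝓞 K // y ∈ J ∧ y ≠ 0} ↦ FS K s (y : 𝓞 K)) ∘ orbitEquiv J = G := by
    funext p
    simp only [Function.comp_apply, orbitEquiv_apply, hG]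
    exact FS_unit_mul s p.2 p.1
  have hsumG : Summable G := by
    rw [← hcomp]
    exact (orbitEquiv J).summable_iff.mpr hsum0
  have hfib : ∀ I : PJ J, HasSum (fun u : (𝓞 K)ˣ ↦ G (I, u))
      ((torsionOrder K : ℝ) * (Ideal.absNorm I.1 : ℝ) ^ (-s)) := by
    intro I
    have hN : mixedEmbedding.norm (mixedEmbedding K (pjGen I : K)) ≠ 0 := by
      rw [norm_pjGen]
      have : Ideal.absNorm I.1 ≠ 0 := by
        rw [Ne, Ideal.absNorm_eq_zero_iff]
        exact I.2.1
      exact_mod_cast this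
    exact (hasSum_rho_unit_smul hN).mul_right _
  calc ∑' y : {y : 𝓞 K // y ∈ J ∧ y ≠ 0}, FS K s (y : 𝓞 K)
      = ∑' p : PJ J × (𝓞 K)ˣ, G p := by
        rw [← hcomp]
        exact ((orbitEquiv J).tsum_eq _).symm
    _ = ∑' I : PJ J, ∑' u : (𝓞 K)ˣ, G (I, u) := hsumG.tsum_prod' fun I ↦ (hfib I).summable
    _ = ∑' I : PJ J, (torsionOrder K : ℝ) * (Ideal.absNorm I.1 : ℝ) ^ (-s) :=
        tsum_congr fun I ↦ (hfib I).tsum_eq
    _ = _ := tsum_mul_left

end Fermat.Agent.S14.H74

end
-- ===== PACK-END S14/H74/Orbit.lean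

-- ===== PACK-BEGIN Lib/Frob/A1/H290/Main.lean
section



/-!
# Piece A1 of row S52: `ReductionData` (helper290)

For `W : WeierstrassCurve ℤ`, a prime `ℓ ∤ Δ(W)`, a valuation subring `A` of `ℚ̄` over `ℓ` and a
Frobenius element `σ` at `A`: the reduction map of `Fermat.Agent.Lib.Red.H290` with
`k = κ_A` (the residue field of `A`) restricted to the `n`-torsion (`ℓ ∤ n`) is additive, injective
and intertwines `σ` with the `ℓ`-power Frobenius.
-/

set_option autoImplicit false
set_option linter.style.haveILetI false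

open WeierstrassCurve WeierstrassCurve.Affine WeierstrassCurve.Affine.Point

namespace Fermat.Agent.Lib.Frob.A1.H290

open Fermat.Agent.Lib.Red.H290
open Fermat.Agent.Lib.Frob

variable (A : ValuationSubring Qb)

/-- The residue field of `A`. -/
abbrev Res : Type := IsLocalRing.ResidueField A

lemma rd_intCast {K : Type*} [Field K] {κ : Type*} [Field κ] {V : ValuationSubring K}
    {φ : V →+* κ} (m : ℤ) : rd V φ (m : K) = (m : κ) := by
  rw [rd_of_mem (intCast_mem V m)]
  have : (⟨(m : K), intCast_mem V m⟩ : V) = (m : V) := rfl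
  rw [this, map_intCast]

section char

variable {A} {ℓ : ℕ} [hℓ : Fact ℓ.Prime] (hA : A.LiesOverPrime ℓ)
include hA

omit hℓ in
lemma natCast_res_eq_zero : ((ℓ : ℕ) : Res A) = 0 := by
  have h1 : A.valuation ((ℓ : ℕ) : Qb) < 1 := (A.mem_nonunits_iff).mp hA
  have h2 := rd_eq_zero_of_lt (kerMax_residue A) h1
  rwa [rd_natCast] at h2

lemma charP_res : CharP (Res A) ℓ := by
  obtain ⟨p, hp⟩ := CharP.exists (Res A)
  have hdvd : p ∣ ℓ := (CharP.cast_eq_zero_iff (Res A) p ℓ).mp (natCast_res_eq_zero hA)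
  have hp1 : p ≠ 1 := CharP.char_ne_one (Res A) p
  have : p = ℓ := (Nat.prime_dvd_prime_iff_eq
    ((Nat.dvd_prime hℓ.out).mp hdvd |>.resolve_left hp1 ▸ hℓ.out) hℓ.out).mp hdvd
  exact this ▸ hp

lemma val_natCast_eq_one {n : ℕ} (hn : ¬ ℓ ∣ n) : A.valuation (n : Qb) = 1 := by
  have := charP_res hA
  have hne : ((n : ℕ) : Res A) ≠ 0 := by
    intro h0
    exact hn ((CharP.cast_eq_zero_iff (Res A) ℓ n).mp h0)
  rw [← rd_natCast (A := A) (φ := IsLocalRing.residue A)] at hne
  exact (rd_ne_zero_iff (kerMax_residue A) (natCast_mem A n)).mp hne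

end char

section curve

variable {A} {ℓ : ℕ} [Fact ℓ.Prime] [Algebra (ZMod ℓ) (Res A)]

/-- The reduction of the `ℚ̄`-curve of `W` is the base change of `W mod ℓ`. -/
lemma isRedOf_int (W : WeierstrassCurve ℤ) :
    IsRedOf A (IsLocalRing.residue A) ((W.map (Int.castRingHom ℚ))⁄Qb)
      ((W.reductionMod ℓ)⁄(Res A)) := by
  have e : ∀ m : ℤ, algebraMap ℚ Qb (Int.castRingHom ℚ m) = (m : Qb) := fun m => by simp
  have e' : ∀ m : ℤ, algebraMap (ZMod ℓ) (Res A) (Int.castRingHom (ZMod ℓ) m) = (m : Res A) :=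
    fun m => by simp
  have hm : ∀ m : ℤ, algebraMap ℚ Qb (Int.castRingHom ℚ m) ∈ A := fun m => by
    rw [e]; exact intCast_mem A m
  have hr : ∀ m : ℤ, rd A (IsLocalRing.residue A) (algebraMap ℚ Qb (Int.castRingHom ℚ m)) =
      algebraMap (ZMod ℓ) (Res A) (Int.castRingHom (ZMod ℓ) m) := fun m => by
    rw [e, e', rd_intCast]
  exact ⟨hm _, hm _, hm _, hm _, hm _, hr _, hr _, hr _, hr _, hr _⟩

lemma Δ_red_ne_zero [CharP (Res A) ℓ] (W : WeierstrassCurve ℤ) (hgood : W.IsGoodPrimeFor ℓ) :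
    ((W.reductionMod ℓ)⁄(Res A)).Δ ≠ 0 := by
  have h1 : ((W.reductionMod ℓ)⁄(Res A)).Δ =
      algebraMap (ZMod ℓ) (Res A) (Int.castRingHom (ZMod ℓ) W.Δ) := by
    show ((W.map (Int.castRingHom (ZMod ℓ))).map (algebraMap (ZMod ℓ) (Res A))).Δ = _
    rw [WeierstrassCurve.map_Δ, WeierstrassCurve.map_Δ]
  rw [h1]
  have e' : algebraMap (ZMod ℓ) (Res A) (Int.castRingHom (ZMod ℓ) W.Δ) = (W.Δ : Res A) := by simp
  rw [e']
  intro h0
  exact hgood ((CharP.intCast_eq_zero_iff (Res A) ℓ W.Δ).mp h0)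

end curve

section frob

variable {A} {ℓ : ℕ} {σ : Qb ≃ₐ[ℚ] Qb} (hσ : A.IsFrobeniusAt σ ℓ)
include hσ

lemma frob_mem {x : Qb} (hx : x ∈ A) : σ x ∈ A := by
  obtain ⟨hd, -⟩ := hσ
  exact ((⟨σ, hd⟩ : A.decompositionSubgroup ℚ) • (⟨x, hx⟩ : A)).2

lemma frob_mem_iff (x : Qb) : σ x ∈ A ↔ x ∈ A := by
  refine ⟨fun h => ?_, frob_mem hσ⟩
  obtain ⟨hd, -⟩ := hσ
  have := ((⟨σ, hd⟩ : A.decompositionSubgroup ℚ)⁻¹ • (⟨σ x, h⟩ : A)).2
  have e : (((⟨σ, hd⟩ : A.decompositionSubgroup ℚ)⁻¹ • (⟨σ x, h⟩ : A) : A) : Qb) = x := by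
    show σ⁻¹ (σ x) = x
    exact σ.symm_apply_apply x
  rwa [e] at this

lemma rd_frob {x : Qb} (hx : x ∈ A) :
    rd A (IsLocalRing.residue A) (σ x) = rd A (IsLocalRing.residue A) x ^ ℓ := by
  have hx' := frob_mem hσ hx
  obtain ⟨hd, hF⟩ := hσ
  rw [rd_of_mem hx', rd_of_mem hx, ← hF, ← IsLocalRing.ResidueField.residue_smul]
  rfl

end frob

/-- **A1.** -/
theorem reductionData : ReductionData := by
  intro W ℓ _ hgood A σ hA hσ n hn hℓn
  letI : DecidableEq (Res A) := Classical.decEq _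
  haveI : CharP (Res A) ℓ := charP_res hA
  letI : Algebra (ZMod ℓ) (Res A) := ZMod.algebra _ ℓ
  have h := isRedOf_int (A := A) (ℓ := ℓ) W
  have hφ := kerMax_residue A
  have hΔ := Δ_red_ne_zero (A := A) W hgood
  have hn1 : A.valuation (n : Qb) = 1 := val_natCast_eq_one hA hℓn
  refine ⟨Res A, inferInstance, inferInstance, inferInstance,
    (redHom h hφ hΔ).comp (Submodule.torsionBy ℤ (Pts W) n).subtype.toAddMonoidHom, ?_, ?_⟩
  · intro P Q hPQ
    have hP : n • (P : Pts W) = 0 := by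
      have := (Submodule.mem_torsionBy_iff _ _).mp P.2
      rwa [natCast_zsmul] at this
    have hQ : n • (Q : Pts W) = 0 := by
      have := (Submodule.mem_torsionBy_iff _ _).mp Q.2
      rwa [natCast_zsmul] at this
    exact Subtype.ext (eq_of_red_eq_of_nsmul h hφ hΔ n hn1 _ _ hP hQ hPQ)
  · intro P
    show red h hΔ (σ • (P : Pts W)) = frobPt ℓ (W.reductionMod ℓ) (Res A) (red h hΔ (P : Pts W))
    rcases hP : (P : Pts W) with _ | ⟨x, y, hxy⟩
    · rfl
    · rw [WeierstrassCurve.Affine.Point.algEquiv_smul_def, Point.map_some]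
      by_cases hx : x ∈ A
      · have hy : y ∈ A := y_mem_of_x_mem h hxy.1 hx
        rw [red_some_of_mem h hΔ (x := σ.toAlgHom x) (y := σ.toAlgHom y) _ (frob_mem hσ hx),
          red_some_of_mem h hΔ hxy hx]
        simp only [frobPt, Point.map_some]
        congr 1
        · refine (rd_frob hσ hx).trans ?_
          simp [FiniteField.frobeniusAlgHom, ZMod.card]
        · refine (rd_frob hσ hy).trans ?_
          simp [FiniteField.frobeniusAlgHom, ZMod.card]
      · rw [red_some_of_not_mem h hΔ (x := σ.toAlgHom x) (y := σ.toAlgHom y) _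
            (fun h' => hx ((frob_mem_iff hσ x).mp h')),
          red_some_of_not_mem h hΔ hxy hx]
        exact (_root_.map_zero _).symm

end Fermat.Agent.Lib.Frob.A1.H290

end
-- ===== PACK-END Lib/Frob/A1/H290/Main.lean

-- ===== PACK-BEGIN S37/H157/NormSwap.lean
section
/-
S37 helper (helper157), piece NORM-ID, part B: the "swap" embedding.

For a prime `ℓ ∤ N` let `F = K(j(q^d) : d ∣ N)` and `F' = K(j(q^d) : d ∣ Nℓ)` inside `K((q))`.
If `[F' : F] = ℓ + 1` there is a ring homomorphism `W : F' → K((q))` with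
`W y = y(q^ℓ)` for `y ∈ F` and `W (y(q^ℓ)) = y` for `y ∈ F` (the Atkin–Lehner swap of the two
degeneracy maps, constructed purely algebraically from the modular polynomials of
`Fermat.Agent.S28.H626`).
-/




set_option autoImplicit false
set_option linter.unusedSectionVars false
set_option linter.style.haveILetI false

noncomputable section

open ModularCurve HahnSeries Polynomial IntermediateField
open Fermat.Agent.S28.H626

namespace Fermat.Agent.S37.H157

/-! ### Extending a ring homomorphism to a simple algebraic extension -/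

section LiftSimple

variable {F L M : Type*} [Field F] [Field L] [Algebra F L] [CommRing M] {x : L}

/-- Extension of `i : F →+* M` to `F⟮x⟯`, sending `x` to a root `y` of the (image of the) minimal
polynomial of `x`. -/
def liftSimple (hx : IsIntegral F x) (i : F →+* M) (y : M)
    (h : (minpoly F x).eval₂ i y = 0) : ↥F⟮x⟯ →+* M :=
  (AdjoinRoot.lift i y h).comp
    ((adjoinRootEquivAdjoin F hx).symm : ↥F⟮x⟯ →+* AdjoinRoot (minpoly F x))

theorem liftSimple_algebraMap (hx : IsIntegral F x) (i : F →+* M) (y : M)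
    (h : (minpoly F x).eval₂ i y = 0) (a : F) :
    liftSimple hx i y h (algebraMap F ↥F⟮x⟯ a) = i a := by
  have h1 : (adjoinRootEquivAdjoin F hx).symm (algebraMap F ↥F⟮x⟯ a)
      = AdjoinRoot.of (minpoly F x) a := by
    rw [AlgEquiv.commutes, AdjoinRoot.algebraMap_eq]
  show AdjoinRoot.lift i y h ((adjoinRootEquivAdjoin F hx).symm (algebraMap F ↥F⟮x⟯ a)) = i a
  rw [h1, AdjoinRoot.lift_of]

theorem liftSimple_gen (hx : IsIntegral F x) (i : F →+* M) (y : M)
    (h : (minpoly F x).eval₂ i y = 0) :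
    liftSimple hx i y h (AdjoinSimple.gen F x) = y := by
  have h1 : (adjoinRootEquivAdjoin F hx).symm (AdjoinSimple.gen F x)
      = AdjoinRoot.root (minpoly F x) := by
    rw [AlgEquiv.symm_apply_eq, adjoinRootEquivAdjoin_apply_root]
  show AdjoinRoot.lift i y h ((adjoinRootEquivAdjoin F hx).symm (AdjoinSimple.gen F x)) = y
  rw [h1, AdjoinRoot.lift_root]

end LiftSimple

/-! ### Inclusion between subfields of different kinds -/

section InclHom

variable {L S T : Type*} [Field L] [SetLike S L] [SetLike T L] [SubringClass S L]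
  [SubringClass T L]

/-- The inclusion `A → B` of two subrings (of possibly different bundled kinds) of `L`. -/
def inclHom (A : S) (B : T) (h : ∀ x : L, x ∈ A → x ∈ B) : ↥A →+* ↥B where
  toFun x := ⟨x.1, h x.1 x.2⟩
  map_one' := rfl
  map_mul' _ _ := rfl
  map_zero' := rfl
  map_add' _ _ := rfl

@[simp] theorem coe_inclHom (A : S) (B : T) (h : ∀ x : L, x ∈ A → x ∈ B) (x : A) :
    ((inclHom A B h x : B) : L) = (x : L) := rfl

end InclHom


/-! ### The swap embedding -/

section Swap

variable (K : Type*) [Field K] (N ℓ : ℕ) [NeZero N] [NeZero ℓ]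

/-- `j` as an element of the level-`N` field. -/
def jIn : ↥(modularFunctionFieldFullC K N) := ⟨jqModC K, jqModC_mem_full K N⟩

@[simp] theorem coe_jIn : ((jIn K N : modularFunctionFieldFullC K N) : LaurentSeries K) = jqModC K :=
  rfl

/-- The base embedding `F → K((q))`, `y ↦ y(q^ℓ)`. -/
def baseHom : ↥(modularFunctionFieldFullC K N) →+* LaurentSeries K :=
  (qExpand K ℓ).comp (algebraMap ↥(modularFunctionFieldFullC K N) (LaurentSeries K))

@[simp] theorem baseHom_apply (y : modularFunctionFieldFullC K N) :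
    baseHom K N ℓ y = qExpand K ℓ (y : LaurentSeries K) := rfl

variable {K N ℓ}

theorem aeval_jdl_spec {Φ : Polynomial (Polynomial ℤ)} (hΦ : IsModPoly ℓ Φ) :
    Polynomial.aeval (jd K ℓ) (spec Φ (jIn K N)) = 0 := by
  rw [Polynomial.aeval_def, Polynomial.eval₂_eq_eval_map, map_spec, eval_spec]
  show ev2 Φ (jqModC K) (jd K ℓ) = 0
  have := ev2_jd_up (k := K) hΦ 1
  rwa [jd_one, jd_congr K (one_mul ℓ)] at this

theorem isIntegral_jdl {Φ : Polynomial (Polynomial ℤ)} (hΦ : IsModPoly ℓ Φ) :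
    IsIntegral ↥(modularFunctionFieldFullC K N) (jd K ℓ) :=
  ⟨spec Φ (jIn K N), spec_monic hΦ.monic _, aeval_jdl_spec hΦ⟩

theorem eval₂_baseHom_spec {Φ : Polynomial (Polynomial ℤ)} (hΦ : IsModPoly ℓ Φ) :
    (spec Φ (jIn K N)).eval₂ (baseHom K N ℓ) (jqModC K) = 0 := by
  rw [Polynomial.eval₂_eq_eval_map, map_spec, eval_spec]
  show ev2 Φ (qExpand K ℓ (jqModC K)) (jqModC K) = 0
  have := ev2_jd_down (k := K) hΦ 1
  rwa [jd_one, jd_congr K (one_mul ℓ)] at this

theorem minpoly_jdl_eq {Φ : Polynomial (Polynomial ℤ)} (hΦ : IsModPoly ℓ Φ)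
    (hdeg : (minpoly ↥(modularFunctionFieldFullC K N) (jd K ℓ)).natDegree = ℓ + 1) :
    minpoly ↥(modularFunctionFieldFullC K N) (jd K ℓ) = spec Φ (jIn K N) := by
  have hdvd : minpoly ↥(modularFunctionFieldFullC K N) (jd K ℓ) ∣ spec Φ (jIn K N) :=
    minpoly.dvd ↥(modularFunctionFieldFullC K N) (jd K ℓ) (aeval_jdl_spec hΦ)
  have hle : (spec Φ (jIn K N)).natDegree
      ≤ (minpoly ↥(modularFunctionFieldFullC K N) (jd K ℓ)).natDegree := by
    rw [spec_natDegree hΦ.monic, hΦ.natDegree_eq, hdeg]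
  exact (eq_of_monic_of_dvd_of_natDegree_le (minpoly.monic (isIntegral_jdl (K := K) (N := N) hΦ))
    (spec_monic hΦ.monic _) hdvd hle).symm

theorem eval₂_baseHom_minpoly {Φ : Polynomial (Polynomial ℤ)} (hΦ : IsModPoly ℓ Φ)
    (hdeg : (minpoly ↥(modularFunctionFieldFullC K N) (jd K ℓ)).natDegree = ℓ + 1) :
    (minpoly ↥(modularFunctionFieldFullC K N) (jd K ℓ)).eval₂ (baseHom K N ℓ) (jqModC K) = 0 := by
  rw [minpoly_jdl_eq hΦ hdeg]
  exact eval₂_baseHom_spec hΦ

/-- Generation: `F' ≤ F(j(q^ℓ))`. -/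
theorem full_mul_le_adjoin_jdl (hℓ : ℓ.Prime) (hℓN : ¬ ℓ ∣ N) (H : HasModPolys K (N * ℓ)) :
    ∀ x : LaurentSeries K, x ∈ modularFunctionFieldFullC K (N * ℓ) →
      x ∈ (↥(modularFunctionFieldFullC K N))⟮jd K ℓ⟯ := by
  haveI : NeZero (ℓ ^ (0 + 1)) := ⟨pow_ne_zero _ hℓ.ne_zero⟩
  have h := full_mul_le_adjoin (k := K) (M := N) (p := ℓ) (a := 0) hℓ H (by simp)
    (by simpa using hℓN)
  have hx : jd K (ℓ ^ (0 + 1)) = jd K ℓ := jd_congr K (by simp)
  rw [hx] at h
  intro x hxm
  exact h hxm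

/-- The other inclusion `F(j(q^ℓ)) ≤ F'`. -/
theorem adjoin_jdl_le_full :
    ∀ x : LaurentSeries K, x ∈ (↥(modularFunctionFieldFullC K N))⟮jd K ℓ⟯ →
      x ∈ modularFunctionFieldFullC K (N * ℓ) := by
  have hFF' : modularFunctionFieldFullC K N ≤ modularFunctionFieldFullC K (N * ℓ) :=
    full_degeneracyC_le K (Dvd.intro ℓ rfl)
  have h : (↥(modularFunctionFieldFullC K N))⟮jd K ℓ⟯ ≤ extendScalars hFF' := by
    rw [adjoin_le_iff]
    rintro x hx
    rw [Set.mem_singleton_iff] at hx
    subst hx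
    exact jd_mem_full (N * ℓ) ℓ (Dvd.intro_left N rfl)
  intro x hx
  exact h hx

end Swap


section SwapDef

variable {K : Type*} [Field K] {N ℓ : ℕ} [NeZero N] [NeZero ℓ]

/-- The swap embedding `W : F' → K((q))`. -/
def swapHom {Φ : Polynomial (Polynomial ℤ)} (hℓ : ℓ.Prime) (hℓN : ¬ ℓ ∣ N)
    (H : HasModPolys K (N * ℓ)) (hΦ : IsModPoly ℓ Φ)
    (hdeg : (minpoly ↥(modularFunctionFieldFullC K N) (jd K ℓ)).natDegree = ℓ + 1) :
    ↥(modularFunctionFieldFullC K (N * ℓ)) →+* LaurentSeries K :=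
  (liftSimple (isIntegral_jdl hΦ) (baseHom K N ℓ) (jqModC K)
      (eval₂_baseHom_minpoly hΦ hdeg)).comp
    (inclHom (modularFunctionFieldFullC K (N * ℓ)) (↥(modularFunctionFieldFullC K N))⟮jd K ℓ⟯
      (full_mul_le_adjoin_jdl hℓ hℓN H))

variable {Φ : Polynomial (Polynomial ℤ)} (hℓ : ℓ.Prime) (hℓN : ¬ ℓ ∣ N)
  (H : HasModPolys K (N * ℓ)) (hΦ : IsModPoly ℓ Φ)
  (hdeg : (minpoly ↥(modularFunctionFieldFullC K N) (jd K ℓ)).natDegree = ℓ + 1)

/-- (W1) `W y = y(q^ℓ)` for `y ∈ F`. -/
theorem swapHom_of_mem (y : LaurentSeries K) (hy : y ∈ modularFunctionFieldFullC K N)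
    (hy' : y ∈ modularFunctionFieldFullC K (N * ℓ)) :
    swapHom hℓ hℓN H hΦ hdeg ⟨y, hy'⟩ = qExpand K ℓ y := by
  have h1 : inclHom (modularFunctionFieldFullC K (N * ℓ))
      (↥(modularFunctionFieldFullC K N))⟮jd K ℓ⟯ (full_mul_le_adjoin_jdl hℓ hℓN H) ⟨y, hy'⟩
      = algebraMap ↥(modularFunctionFieldFullC K N) ↥(↥(modularFunctionFieldFullC K N))⟮jd K ℓ⟯
          ⟨y, hy⟩ := Subtype.ext rfl
  rw [swapHom, RingHom.comp_apply, h1, liftSimple_algebraMap]
  rfl

/-- (W2) `W (j(q^ℓ)) = j`. -/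
theorem swapHom_jdl (hm : jd K ℓ ∈ modularFunctionFieldFullC K (N * ℓ)) :
    swapHom hℓ hℓN H hΦ hdeg ⟨jd K ℓ, hm⟩ = jqModC K := by
  have h1 : inclHom (modularFunctionFieldFullC K (N * ℓ))
      (↥(modularFunctionFieldFullC K N))⟮jd K ℓ⟯ (full_mul_le_adjoin_jdl hℓ hℓN H) ⟨jd K ℓ, hm⟩
      = AdjoinSimple.gen ↥(modularFunctionFieldFullC K N) (jd K ℓ) := Subtype.ext rfl
  rw [swapHom, RingHom.comp_apply, h1, liftSimple_gen]

/-- transport of a two-variable relation from `K((q))` to a subfield -/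
theorem ev2_subtype (E : IntermediateField K (LaurentSeries K)) (Ψ : Polynomial (Polynomial ℤ))
    (a b : LaurentSeries K) (ha : a ∈ E) (hb : b ∈ E) (h : ev2 Ψ a b = 0) :
    ev2 Ψ (⟨a, ha⟩ : E) (⟨b, hb⟩ : E) = 0 := by
  have h1 := map_ev2 (algebraMap ↥E (LaurentSeries K)) Ψ (⟨a, ha⟩ : E) (⟨b, hb⟩ : E)
  have h2 : ev2 Ψ (algebraMap ↥E (LaurentSeries K) ⟨a, ha⟩)
      (algebraMap ↥E (LaurentSeries K) ⟨b, hb⟩) = 0 := h
  rw [← h1] at h2
  exact (algebraMap ↥E (LaurentSeries K)).injective (by rw [h2, map_zero])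

/-- a relation is transported by the swap -/
theorem ev2_swapHom (Ψ : Polynomial (Polynomial ℤ))
    (a b : LaurentSeries K) (ha : a ∈ modularFunctionFieldFullC K (N * ℓ))
    (hb : b ∈ modularFunctionFieldFullC K (N * ℓ)) (h : ev2 Ψ a b = 0) :
    ev2 Ψ (swapHom hℓ hℓN H hΦ hdeg ⟨a, ha⟩) (swapHom hℓ hℓN H hΦ hdeg ⟨b, hb⟩) = 0 := by
  rw [← map_ev2, ev2_subtype _ Ψ a b ha hb h, map_zero]

end SwapDef


/-! ### The swap on the generators -/

section CommonRoot

variable {K : Type*} [Field K]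

/-- **Uniqueness of the common root.** A common root `w ∈ K((q))` of `Φ_r(j(q^e), X)` and
`Φ_ℓ(j(q^{erℓ}), X)` is `j(q^{er})`. -/
theorem eq_jd_of_common_root {r ℓ : ℕ} [NeZero r] [NeZero ℓ] (hr : r.Prime) (hℓ : ℓ.Prime)
    [NeZero (r : K)] [NeZero (ℓ : K)]
    {Φr Φℓ : Polynomial (Polynomial ℤ)} (hΦr : IsModPoly r Φr) (hΦℓ : IsModPoly ℓ Φℓ)
    (e : ℕ) [NeZero e] (w : LaurentSeries K)
    (h1 : ev2 Φr (jd K e) w = 0) (h2 : ev2 Φℓ (jd K (e * r * ℓ)) w = 0) :
    w = jd K (e * r) := by
  classical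
  obtain ⟨ζr, hζr⟩ := exists_primitiveRoot_unit (AlgebraicClosure K) r hr.ne_zero
  obtain ⟨ζℓ, hζℓ⟩ := exists_primitiveRoot_unit (AlgebraicClosure K) ℓ hℓ.ne_zero
  have he0 : 0 < e := Nat.pos_of_ne_zero (NeZero.ne e)
  have hr2 : 2 ≤ r := hr.two_le
  set ι : LaurentSeries K →+* LaurentSeries (AlgebraicClosure K) :=
    embHom K (AlgebraicClosure K) r with hι
  have h1' : ev2 Φr (jTw (AlgebraicClosure K) 1 (e * r)) (ι w) = 0 := by
    have := congrArg ι h1
    rw [map_ev2, map_zero, hι, embHom_jd] at this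
    rw [← hι] at this
    rwa [jTw_congr (1 : (AlgebraicClosure K)ˣ) (mul_comm r e)] at this
  have h2' : ev2 Φℓ (jTw (AlgebraicClosure K) 1 (r * e * r * ℓ)) (ι w) = 0 := by
    have := congrArg ι h2
    rw [map_ev2, map_zero, hι, embHom_jd] at this
    rw [← hι] at this
    rwa [jTw_congr (1 : (AlgebraicClosure K)ˣ)
      (show r * (e * r * ℓ) = r * e * r * ℓ by ring)] at this
  have hroot1 : ι w ∈ rootMultiset r ζr e := by
    rw [← roots_spec hr.one_lt hΦr hζr e,
      Polynomial.mem_roots (spec_monic hΦr.monic _).ne_zero, Polynomial.IsRoot, eval_spec]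
    exact h1'
  have hroot2 : ι w ∈ rootMultiset ℓ ζℓ (r * e * r) := by
    rw [← roots_spec hℓ.one_lt hΦℓ hζℓ (r * e * r),
      Polynomial.mem_roots (spec_monic hΦℓ.monic _).ne_zero, Polynomial.IsRoot, eval_spec]
    exact h2'
  rcases mem_rootMultiset.mp hroot1 with hw | ⟨c, -, hw⟩
  · apply (embHom K (AlgebraicClosure K) r).injective
    rw [← hι, hw, hι, embHom_jd]
    exact jTw_congr _ (by ring)
  · exfalso
    have hlt : e < r * e * r := by
      have h4 : 2 * e * 2 ≤ r * e * r := Nat.mul_le_mul (Nat.mul_le_mul hr2 le_rfl) hr2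
      omega
    rcases mem_rootMultiset.mp hroot2 with hw2 | ⟨b, -, hw2⟩
    · have h3 := (jTw_inj (hw.symm.trans hw2)).1
      have : r * e * r ≤ r * e * r * ℓ * ℓ := by
        have hℓ1 : 1 ≤ ℓ := hℓ.one_lt.le
        calc r * e * r = r * e * r * 1 * 1 := by ring
          _ ≤ r * e * r * ℓ * ℓ := by gcongr
      omega
    · have h3 := (jTw_inj (hw.symm.trans hw2)).1
      omega

end CommonRoot

section SwapJd

variable {K : Type*} [Field K] {N ℓ : ℕ} [NeZero N] [NeZero ℓ]
variable {Φ : Polynomial (Polynomial ℤ)} (hℓ : ℓ.Prime) (hℓN : ¬ ℓ ∣ N)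
  (H : HasModPolys K (N * ℓ)) (hΦ : IsModPoly ℓ Φ)
  (hdeg : (minpoly ↥(modularFunctionFieldFullC K N) (jd K ℓ)).natDegree = ℓ + 1)

/-- (W3) `W (j(q^{dℓ})) = j(q^d)` for every `d ∣ N`. -/
theorem swapHom_jd_mul : ∀ (d : ℕ) [NeZero d], d ∣ N →
    ∀ hm : jd K (d * ℓ) ∈ modularFunctionFieldFullC K (N * ℓ),
      swapHom hℓ hℓN H hΦ hdeg ⟨jd K (d * ℓ), hm⟩ = jd K d := by
  intro d
  induction d using Nat.strong_induction_on with
  | _ d ih =>
    intro instd hd hm
    rcases eq_or_ne d 1 with hd1 | hd1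
    · subst hd1
      have h1 : (⟨jd K (1 * ℓ), hm⟩ : modularFunctionFieldFullC K (N * ℓ))
          = ⟨jd K ℓ, jd_mem_full (N * ℓ) ℓ (Dvd.intro_left N rfl)⟩ :=
        Subtype.ext (jd_congr K (one_mul ℓ))
      rw [h1, swapHom_jdl, jd_one]
    · obtain ⟨r, hr, e, hde⟩ : ∃ r, r.Prime ∧ ∃ e, d = e * r :=
        ⟨d.minFac, Nat.minFac_prime hd1, d / d.minFac,
          (Nat.div_mul_cancel (Nat.minFac_dvd d)).symm⟩
      subst hde
      have he0 : e ≠ 0 := fun h => (NeZero.ne (e * r)) (by rw [h, zero_mul])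
      haveI : NeZero e := ⟨he0⟩
      haveI : NeZero r := ⟨hr.ne_zero⟩
      have heN : e ∣ N := (Dvd.intro r rfl).trans hd
      have hrN : r ∣ N := (Dvd.intro_left e rfl).trans hd
      have helt : e < e * r := by
        have := hr.two_le
        have := Nat.pos_of_ne_zero he0
        nlinarith
      obtain ⟨hrK, Φr, hΦr⟩ := H r hr (hrN.trans (Dvd.intro ℓ rfl))
      obtain ⟨hℓK, -, -⟩ := H ℓ hℓ (Dvd.intro_left N rfl)
      haveI : NeZero (r : K) := ⟨hrK⟩
      haveI : NeZero (ℓ : K) := ⟨hℓK⟩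
      have hme : jd K (e * ℓ) ∈ modularFunctionFieldFullC K (N * ℓ) :=
        jd_mem_full (N * ℓ) (e * ℓ) (mul_dvd_mul_right heN ℓ)
      have ihe := ih e helt heN hme
      -- relation A
      have hA : ev2 Φr (jd K e) (swapHom hℓ hℓN H hΦ hdeg ⟨jd K (e * r * ℓ), hm⟩) = 0 := by
        have hrel : ev2 Φr (jd K (e * ℓ)) (jd K (e * r * ℓ)) = 0 := by
          have := ev2_jd_up (k := K) hΦr (e * ℓ)
          rwa [jd_congr K (show e * ℓ * r = e * r * ℓ by ring)] at this
        have := ev2_swapHom hℓ hℓN H hΦ hdeg Φr _ _ hme hm hrel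
        rwa [ihe] at this
      -- relation B
      have hB : ev2 Φ (jd K (e * r * ℓ)) (swapHom hℓ hℓN H hΦ hdeg ⟨jd K (e * r * ℓ), hm⟩) = 0 := by
        have hrel : ev2 Φ (jd K (e * r)) (jd K (e * r * ℓ)) = 0 := ev2_jd_up (k := K) hΦ (e * r)
        have hmem : jd K (e * r) ∈ modularFunctionFieldFullC K N := jd_mem_full N (e * r) hd
        have hmem' : jd K (e * r) ∈ modularFunctionFieldFullC K (N * ℓ) :=
          full_degeneracyC_le K (Dvd.intro ℓ rfl) hmem
        have := ev2_swapHom hℓ hℓN H hΦ hdeg Φ _ _ hmem' hm hrel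
        rw [swapHom_of_mem hℓ hℓN H hΦ hdeg _ hmem hmem'] at this
        have hq : qExpand K ℓ (jd K (e * r)) = jd K (e * r * ℓ) := by
          show qExpand K ℓ (qExpand K (e * r) (jqModC K)) = _
          rw [qExpand_qExpand]
          exact jd_congr K (mul_comm _ _)
        rwa [hq] at this
      exact eq_jd_of_common_root hr hℓ hΦr hΦ e _ hA hB

end SwapJd

end Fermat.Agent.S37.H157

end

end
-- ===== PACK-END S37/H157/NormSwap.lean

-- ===== PACK-BEGIN Ribet/H376/DlogKron.lean
section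
/-
Row 38 (RIBET), WALL-p, leaf M6a / I2 — FORMAL CORE (helper376): logarithmic derivative of the
Kronecker norm.

For a field `k` containing a primitive `ℓ`-th root of unity and `h ∈ k((q))` with `θ h = g · h`
(`θ = q d/dq`):

    θ (kronNorm ℓ h) = (ℓ · V_ℓ g + U_ℓ g) · kronNorm ℓ h,

i.e. `dlog (Nm_α (β h)) = T_ℓ (dlog h)` with the weight-2 Hecke operator
`T_ℓ : c_n ↦ c_{nℓ} + ℓ c_{n/ℓ}` on `q`-series.  Consequently, if
`kronNorm ℓ h = c · h ^ a · G ^ p` in characteristic `p` (the reduction of the identity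
`Nm_α (β f) = c f^{a_ℓ} G^p`, which holds for the Kummer function `f` of a `T_ℓ`-eigenclass of
`J₀(N)[p]` with eigenvalue `a_ℓ`), then `T_ℓ g = a · g`.

Mathlib + `S37/H400` (Kronecker norm) + `S18/H602` (Leibniz rule for `d/dq`) only.
-/



set_option autoImplicit false
set_option maxHeartbeats 400000

noncomputable section

namespace Fermat.Agent.Ribet.H376

open HahnSeries ModularCurve
open Fermat.Agent.S37 Fermat.Agent.S18.H602

section Theta

variable {k : Type*} [CommRing k]

/-- `θ = q d/dq` on `k((q))`. -/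
def thetaL (f : LaurentSeries k) : LaurentSeries k := single (1 : ℤ) (1 : k) * dq f

@[simp]
theorem thetaL_coeff (f : LaurentSeries k) (n : ℤ) :
    (thetaL f).coeff n = (n : k) * f.coeff n := by
  rw [thetaL, coeff_single_mul, one_mul, dq_coeff]
  simp

theorem thetaL_add (f g : LaurentSeries k) : thetaL (f + g) = thetaL f + thetaL g := by
  ext n
  simp [mul_add]

theorem thetaL_zero : thetaL (0 : LaurentSeries k) = 0 := by
  ext n
  simp

theorem thetaL_mul (f g : LaurentSeries k) :
    thetaL (f * g) = thetaL f * g + f * thetaL g := by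
  rw [thetaL, thetaL, thetaL, dq_mul]
  ring

theorem thetaL_C (c : k) : thetaL (C c : LaurentSeries k) = 0 := by
  rw [thetaL, dq_C, mul_zero]

theorem thetaL_one : thetaL (1 : LaurentSeries k) = 0 := by
  rw [thetaL, dq_one, mul_zero]

theorem thetaL_pow (f : LaurentSeries k) (n : ℕ) :
    thetaL (f ^ (n + 1)) = ((n + 1 : ℕ) : LaurentSeries k) * f ^ n * thetaL f := by
  induction n with
  | zero => simp
  | succ n ih =>
    rw [pow_succ, thetaL_mul, ih]
    push_cast
    ring

theorem thetaL_qExpand (ℓ : ℕ) [NeZero ℓ] (f : LaurentSeries k) :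
    thetaL (qExpand k ℓ f) = C (ℓ : k) * qExpand k ℓ (thetaL f) := by
  ext n
  rw [thetaL_coeff, C_mul_eq_smul, coeff_smul, smul_eq_mul]
  by_cases hn : (ℓ : ℤ) ∣ n
  · obtain ⟨m, rfl⟩ := hn
    rw [qExpand_coeff_mul, qExpand_coeff_mul, thetaL_coeff]
    push_cast
    ring
  · rw [qExpand_coeff_of_not_dvd ℓ _ hn, qExpand_coeff_of_not_dvd ℓ _ hn, mul_zero, mul_zero]

theorem thetaL_tw (ℓ : ℕ) (ζ : k) (f : LaurentSeries k) :
    thetaL (H340.tw ℓ ζ f) = H340.tw ℓ ζ (thetaL f) := by
  ext n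
  rw [thetaL_coeff, H340.tw_coeff, H340.tw_coeff, thetaL_coeff]
  ring

end Theta

section Dlog

variable {k : Type*} [CommRing k]

/-- `g` is a logarithmic derivative of `h`: `θ h = g · h`. -/
def IsDlogL (h g : LaurentSeries k) : Prop := thetaL h = g * h

theorem isDlogL_iff (h g : LaurentSeries k) :
    IsDlogL h g ↔ ∀ n : ℤ, (g * h).coeff n = (n : k) * h.coeff n := by
  unfold IsDlogL
  constructor
  · intro H n
    rw [← H, thetaL_coeff]
  · intro H
    ext n
    rw [thetaL_coeff, H n]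

theorem isDlogL_one : IsDlogL (1 : LaurentSeries k) 0 := by
  rw [IsDlogL, thetaL_one, zero_mul]

theorem isDlogL_C (c : k) : IsDlogL (C c : LaurentSeries k) 0 := by
  rw [IsDlogL, thetaL_C, zero_mul]

theorem isDlogL_mul {h₁ h₂ g₁ g₂ : LaurentSeries k} (H₁ : IsDlogL h₁ g₁)
    (H₂ : IsDlogL h₂ g₂) : IsDlogL (h₁ * h₂) (g₁ + g₂) := by
  unfold IsDlogL at *
  rw [thetaL_mul, H₁, H₂]
  ring

theorem isDlogL_prod {ι : Type*} (s : Finset ι) (h g : ι → LaurentSeries k)
    (H : ∀ i ∈ s, IsDlogL (h i) (g i)) : IsDlogL (∏ i ∈ s, h i) (∑ i ∈ s, g i) := by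
  classical
  induction s using Finset.induction_on with
  | empty => simpa using (isDlogL_one (k := k))
  | insert a s ha ih =>
    rw [Finset.prod_insert ha, Finset.sum_insert ha]
    exact isDlogL_mul (H a (Finset.mem_insert_self a s))
      (ih fun i hi => H i (Finset.mem_insert_of_mem hi))

theorem isDlogL_pow {h g : LaurentSeries k} (H : IsDlogL h g) (n : ℕ) :
    IsDlogL (h ^ n) ((n : LaurentSeries k) * g) := by
  induction n with
  | zero => simpa using (isDlogL_one (k := k))
  | succ n ih =>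
    rw [pow_succ]
    have := isDlogL_mul ih H
    convert this using 1
    push_cast
    ring

theorem isDlogL_qExpand {h g : LaurentSeries k} (H : IsDlogL h g) (ℓ : ℕ) [NeZero ℓ] :
    IsDlogL (qExpand k ℓ h) (C (ℓ : k) * qExpand k ℓ g) := by
  unfold IsDlogL at *
  rw [thetaL_qExpand, H, map_mul]
  ring

theorem isDlogL_tw {h g : LaurentSeries k} (H : IsDlogL h g) {ℓ : ℕ} [NeZero ℓ] {ζ : k}
    (hζ : ζ ^ ℓ = 1) : IsDlogL (H340.tw ℓ ζ h) (H340.tw ℓ ζ g) := by
  unfold IsDlogL at *
  rw [thetaL_tw, H, H340.tw_mul hζ]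

/-- In characteristic `p`, `p`-th powers have logarithmic derivative `0`. -/
theorem isDlogL_pow_char (p : ℕ) [CharP k p] (hp : p ≠ 0) (G : LaurentSeries k) :
    IsDlogL (G ^ p) 0 := by
  obtain ⟨n, rfl⟩ : ∃ n, p = n + 1 := ⟨p - 1, by omega⟩
  rw [IsDlogL, thetaL_pow, zero_mul]
  have h0 : ((n + 1 : ℕ) : LaurentSeries k) = 0 := by
    have h1 : ((n + 1 : ℕ) : k) = 0 := CharP.cast_eq_zero k (n + 1)
    have h2 : ((n + 1 : ℕ) : LaurentSeries k) = C ((n + 1 : ℕ) : k) := by
      rw [map_natCast]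
    rw [h2, h1, map_zero]
  rw [h0, zero_mul, zero_mul]

end Dlog


section Hecke

variable {k : Type*} [CommRing k]

/-- The weight-2 Hecke operator `T_ℓ = ℓ V_ℓ + U_ℓ` on `q`-series:
`c_n ↦ c_{nℓ} + ℓ c_{n/ℓ}`. -/
def heckeL (ℓ : ℕ) [NeZero ℓ] (g : LaurentSeries k) : LaurentSeries k :=
  C (ℓ : k) * qExpand k ℓ g + H400.secL ℓ 0 g

theorem heckeL_coeff_mul (ℓ : ℕ) [NeZero ℓ] (g : LaurentSeries k) (m : ℤ) :
    (heckeL ℓ g).coeff ((ℓ : ℤ) * m) = (ℓ : k) * g.coeff m + g.coeff ((ℓ : ℤ) * ((ℓ : ℤ) * m)) := by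
  rw [heckeL, coeff_add, C_mul_eq_smul, coeff_smul, smul_eq_mul, qExpand_coeff_mul,
    H400.secL_coeff, add_zero]

theorem heckeL_coeff_of_not_dvd (ℓ : ℕ) [NeZero ℓ] (g : LaurentSeries k) {n : ℤ}
    (hn : ¬ (ℓ : ℤ) ∣ n) : (heckeL ℓ g).coeff n = g.coeff ((ℓ : ℤ) * n) := by
  rw [heckeL, coeff_add, C_mul_eq_smul, coeff_smul, smul_eq_mul,
    qExpand_coeff_of_not_dvd ℓ _ hn, mul_zero, zero_add, H400.secL_coeff, add_zero]

/-- Sum of the twists by all `ℓ`-th roots of unity. -/
theorem sum_tw_eq [IsDomain k] (ℓ : ℕ) [NeZero ℓ] {ζ : k} (hζ : IsPrimitiveRoot ζ ℓ)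
    (g : LaurentSeries k) :
    ∑ b : Fin ℓ, H340.tw ℓ (ζ ^ (b : ℕ)) g = C (ℓ : k) * qExpand k ℓ (H400.secL ℓ 0 g) := by
  ext n
  rw [coeff_sum, C_mul_eq_smul, coeff_smul, smul_eq_mul]
  simp only [H340.tw_coeff]
  rw [← Finset.sum_mul]
  have hℓ0 : (0 : ℤ) < (ℓ : ℤ) := by exact_mod_cast Nat.pos_of_ne_zero (NeZero.ne ℓ)
  have hsum : ∑ b : Fin ℓ, H340.zpw ℓ (ζ ^ (b : ℕ)) n =
      ∑ b ∈ Finset.range ℓ, (ζ ^ (n % (ℓ : ℤ)).toNat) ^ b := by
    rw [Finset.sum_range]
    refine Finset.sum_congr rfl fun b _ => ?_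
    unfold H340.zpw
    rw [← pow_mul, ← pow_mul, mul_comm]
  by_cases hn : (ℓ : ℤ) ∣ n
  · obtain ⟨m, rfl⟩ := hn
    rw [qExpand_coeff_mul, H400.secL_coeff, add_zero, hsum]
    have hr : ((ℓ : ℤ) * m % (ℓ : ℤ)).toNat = 0 := by simp
    rw [hr]
    simp
  · rw [qExpand_coeff_of_not_dvd ℓ _ hn, mul_zero, hsum]
    set r := (n % (ℓ : ℤ)).toNat with hr
    have hr0 : 0 < r := by
      have h1 : 0 ≤ n % (ℓ : ℤ) := Int.emod_nonneg n hℓ0.ne'
      have h2 : n % (ℓ : ℤ) ≠ 0 := fun h => hn (Int.dvd_of_emod_eq_zero h)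
      omega
    have hrℓ : r < ℓ := by
      have h1 : n % (ℓ : ℤ) < (ℓ : ℤ) := Int.emod_lt_of_pos n hℓ0
      omega
    have hne : ζ ^ r ≠ 1 := hζ.pow_ne_one_of_pos_of_lt hr0.ne' hrℓ
    have hgeom : (∑ b ∈ Finset.range ℓ, (ζ ^ r) ^ b) * (ζ ^ r - 1) = 0 := by
      rw [geom_sum_mul, ← pow_mul, mul_comm, pow_mul, hζ.pow_eq_one, one_pow, sub_self]
    rcases mul_eq_zero.mp hgeom with h | h
    · rw [h, zero_mul]
    · exact absurd (sub_eq_zero.mp h) hne

/-- **Logarithmic derivative of the Kronecker norm**: `dlog (kronNorm ℓ h) = T_ℓ (dlog h)`. -/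
theorem isDlogL_kronNorm [IsDomain k] {ℓ : ℕ} [NeZero ℓ] {ζ : k} (hζ : IsPrimitiveRoot ζ ℓ)
    (hℓk : (ℓ : k) ≠ 0) {h g : LaurentSeries k} (H : IsDlogL h g) :
    IsDlogL (H400.kronNorm ℓ h) (heckeL ℓ g) := by
  have hE := H400.qExpand_kronNorm_eq_prod ℓ hζ h
  have h1 : IsDlogL (qExpand k ℓ (qExpand k ℓ h) * ∏ b : Fin ℓ, H340.tw ℓ (ζ ^ (b : ℕ)) h)
      (C (ℓ : k) * qExpand k ℓ (C (ℓ : k) * qExpand k ℓ g) +
        ∑ b : Fin ℓ, H340.tw ℓ (ζ ^ (b : ℕ)) g) :=
    isDlogL_mul (isDlogL_qExpand (isDlogL_qExpand H ℓ) ℓ)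
      (isDlogL_prod Finset.univ _ _ fun b _ =>
        isDlogL_tw H (H340.pow_pow_eq_one hζ.pow_eq_one (b : ℕ)))
  rw [← hE, sum_tw_eq ℓ hζ] at h1
  unfold IsDlogL at h1 ⊢
  rw [thetaL_qExpand] at h1
  have h2 : C (ℓ : k) * qExpand k ℓ (thetaL (H400.kronNorm ℓ h)) =
      C (ℓ : k) * qExpand k ℓ (heckeL ℓ g * H400.kronNorm ℓ h) := by
    rw [h1, heckeL]
    simp only [map_mul, map_add, qExpand_C]
    ring
  have hC : (C (ℓ : k) : LaurentSeries k) ≠ 0 := by
    intro h0
    exact hℓk (HahnSeries.C_injective (by rw [h0, map_zero]))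
  exact qExpand_injective (R := k) (N := ℓ) (mul_left_cancel₀ hC h2)

end Hecke


section Field

variable {k : Type*} [Field k]

theorem isDlogL_unique {h g g' : LaurentSeries k} (h0 : h ≠ 0) (H : IsDlogL h g)
    (H' : IsDlogL h g') : g = g' := by
  unfold IsDlogL at H H'
  exact mul_right_cancel₀ h0 (H.symm.trans H')

theorem isDlogL_inv {h g : LaurentSeries k} (h0 : h ≠ 0) (H : IsDlogL h g) :
    IsDlogL h⁻¹ (-g) := by
  unfold IsDlogL at *
  have h1 : thetaL (h * h⁻¹) = 0 := by rw [mul_inv_cancel₀ h0, thetaL_one]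
  rw [thetaL_mul, H] at h1
  have h2 : h * (thetaL h⁻¹ + g * h⁻¹) = 0 := by linear_combination h1
  have h3 := (mul_eq_zero.mp h2).resolve_left h0
  linear_combination h3

theorem isDlogL_zpow {h g : LaurentSeries k} (h0 : h ≠ 0) (H : IsDlogL h g) (a : ℤ) :
    IsDlogL (h ^ a) (C (a : k) * g) := by
  have hC : ∀ n : ℕ, (C ((n : ℤ) : k) : LaurentSeries k) = (n : LaurentSeries k) := by
    intro n
    rw [Int.cast_natCast, map_natCast]
  cases a with
  | ofNat n =>
    rw [Int.ofNat_eq_natCast, zpow_natCast, hC]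
    exact isDlogL_pow H n
  | negSucc n =>
    rw [zpow_negSucc]
    have h1 := isDlogL_inv (pow_ne_zero (n + 1) h0) (isDlogL_pow H (n + 1))
    convert h1 using 1
    rw [Int.cast_negSucc, map_neg, map_natCast]
    ring

/-- **Eigen-relation from the norm identity.**  If `h ≠ 0` has logarithmic derivative `g` and
`kronNorm ℓ h = c · h ^ a · G ^ p` in characteristic `p`, then `T_ℓ g = a · g`. -/
theorem heckeL_eq_of_kronNorm_eq (p : ℕ) [CharP k p] (hp : p ≠ 0) {ℓ : ℕ} [NeZero ℓ] {ζ : k}
    (hζ : IsPrimitiveRoot ζ ℓ) (hℓk : (ℓ : k) ≠ 0) {h g : LaurentSeries k} (h0 : h ≠ 0)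
    (H : IsDlogL h g) (a : ℤ) (c : k) (G : LaurentSeries k)
    (hK : H400.kronNorm ℓ h = C c * h ^ a * G ^ p) :
    heckeL ℓ g = C (a : k) * g := by
  have h1 : IsDlogL (H400.kronNorm ℓ h) (heckeL ℓ g) := isDlogL_kronNorm hζ hℓk H
  have h2 : IsDlogL (C c * h ^ a * G ^ p) (0 + C (a : k) * g + 0) :=
    isDlogL_mul (isDlogL_mul (isDlogL_C c) (isDlogL_zpow h0 H a)) (isDlogL_pow_char p hp G)
  rw [← hK, zero_add, add_zero] at h2
  have hN : H400.kronNorm ℓ h ≠ 0 := by
    intro hz
    have hE := H400.qExpand_kronNorm_eq_prod ℓ hζ h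
    rw [hz, map_zero] at hE
    have hV : qExpand k ℓ (qExpand k ℓ h) ≠ 0 := fun hh =>
      h0 (qExpand_injective (R := k) (N := ℓ)
        (qExpand_injective (R := k) (N := ℓ) (by rw [hh, map_zero, map_zero])))
    have hP : ∏ b : Fin ℓ, H340.tw ℓ (ζ ^ (b : ℕ)) h ≠ 0 := by
      refine Finset.prod_ne_zero_iff.mpr fun b _ htw => h0 ?_
      ext n
      have := congrArg (fun x : LaurentSeries k => x.coeff n) htw
      simp only [H340.tw_coeff, coeff_zero] at this
      rcases mul_eq_zero.mp this with hzz | hzz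
      · exfalso
        unfold H340.zpw at hzz
        exact pow_ne_zero _ (pow_ne_zero _ (hζ.ne_zero (NeZero.ne ℓ))) hzz
      · simpa using hzz
    exact (mul_ne_zero hV hP) hE.symm
  exact isDlogL_unique hN h1 h2

end Field

end Fermat.Agent.Ribet.H376

end
end
-- ===== PACK-END Ribet/H376/DlogKron.lean

-- ===== PACK-BEGIN Ribet/H495/AlgPTau.lean
section


/-!
# W-ALGP: the key computation (helper495)

`tau_one_add`: if `τ ≡ id mod w` on `S`, `τ Λ = Λ K`, `Λ = w ρ`, `K ^ k ≡ c mod w`, `k ≥ 1`, then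
for `t ∈ S`:  `τ (1 + Λ^k t) = (1 + Λ^k t)^c · (1 + Λ^k w s)` with `s ∈ S`.
-/

set_option autoImplicit false

namespace Fermat.Agent.Ribet.H495.AlgP

section Comp

variable {R F : Type*} [CommRing R] [Field F] [Algebra R F]

/-- `(1 + X)^c = 1 + c X + X² q` with `q` in any subalgebra containing `X`. -/
theorem one_add_pow_expand (S : Subalgebra R F) {X : F} (hX : X ∈ S) (c : ℕ) :
    ∃ q ∈ S, (1 + X) ^ c = 1 + (c : F) * X + X ^ 2 * q := by
  induction c with
  | zero => exact ⟨0, S.zero_mem, by simp⟩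
  | succ c ih =>
    obtain ⟨q, hq, e⟩ := ih
    refine ⟨(c : F) + q + X * q, ?_, ?_⟩
    · exact S.add_mem (S.add_mem (natCast_mem S c) hq) (S.mul_mem hX hq)
    · rw [pow_succ, e]
      push_cast
      ring

/-- **Key computation.** -/
theorem tau_one_add {w : R} {S : Subalgebra R F} {τ : F ≃+* F} (hS : TauLoc w S τ)
    (lam ρ k₀ κ : R) (c k : ℕ) (hk : 0 < k) (hlam : lam = w * ρ)
    (hτlam : τ (algebraMap R F lam) = algebraMap R F lam * algebraMap R F k₀)
    (hk₀ : k₀ ^ k = (c : R) + w * κ) {t : F} (ht : t ∈ S) :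
    (1 + algebraMap R F lam ^ k * t) ^ c ≠ 0 ∧
    ∃ s ∈ S, τ (1 + algebraMap R F lam ^ k * t) =
      (1 + algebraMap R F lam ^ k * t) ^ c *
        (1 + algebraMap R F lam ^ k * algebraMap R F w * s) := by
  set Λ : F := algebraMap R F lam with hΛ
  set W : F := algebraMap R F w with hW
  have hΛW : Λ = W * algebraMap R F ρ := by rw [hΛ, hW, hlam, map_mul]
  obtain ⟨k', rfl⟩ : ∃ k', k = k' + 1 := ⟨k - 1, by omega⟩
  have hΛS : Λ ∈ S := S.algebraMap_mem lam
  have hρS : algebraMap R F ρ ∈ S := S.algebraMap_mem ρ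
  have hκS : algebraMap R F κ ∈ S := S.algebraMap_mem κ
  have hWS : W ∈ S := S.algebraMap_mem w
  obtain ⟨t', ht', hτt⟩ := hS.tau t ht
  set X : F := Λ ^ (k' + 1) * t with hX
  have hXS : X ∈ S := S.mul_mem (S.pow_mem hΛS _) ht
  obtain ⟨q, hq, hexp⟩ := one_add_pow_expand S hXS c
  -- `Λ^(k'+1) = W * (ρ Λ^k')`
  have hΛk : Λ ^ (k' + 1) = W * (algebraMap R F ρ * Λ ^ k') := by
    rw [pow_succ, hΛW]
    ring
  -- `B = 1 + W * b`
  set b : F := algebraMap R F ρ * Λ ^ k' * ((c : F) * t + X * t * q) with hb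
  have hbS : b ∈ S :=
    S.mul_mem (S.mul_mem hρS (S.pow_mem hΛS _))
      (S.add_mem (S.mul_mem (natCast_mem S c) ht) (S.mul_mem (S.mul_mem hXS ht) hq))
  have hB : (1 + X) ^ c = 1 + W * b := by
    rw [hexp, hb, hX, hΛk]
    ring
  obtain ⟨hBne, hBinv⟩ := hS.inv_mem b hbS
  rw [← hB] at hBne hBinv
  refine ⟨hBne, ?_⟩
  -- `K^k = c + W κ`
  have hK : algebraMap R F k₀ ^ (k' + 1) = (c : F) + W * algebraMap R F κ := by
    rw [← map_pow, hk₀, map_add, map_mul, map_natCast]
  -- `A = τ (1 + X)`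
  have hA : τ (1 + X) = 1 + (c : F) * X + Λ ^ (k' + 1) * W *
      ((c : F) * t' + algebraMap R F κ * t + W * algebraMap R F κ * t') := by
    rw [hX, map_add, map_one, map_mul, map_pow, hτlam, hτt, mul_pow, hK]
    ring
  set s₀ : F := ((c : F) * t' + algebraMap R F κ * t + W * algebraMap R F κ * t') -
      algebraMap R F ρ * Λ ^ k' * t ^ 2 * q with hs₀
  have hs₀S : s₀ ∈ S := by
    refine S.sub_mem (S.add_mem (S.add_mem (S.mul_mem (natCast_mem S c) ht')
      (S.mul_mem hκS ht)) (S.mul_mem (S.mul_mem hWS hκS) ht')) ?_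
    exact S.mul_mem (S.mul_mem (S.mul_mem hρS (S.pow_mem hΛS _)) (S.pow_mem ht 2)) hq
  have hAB : τ (1 + X) = (1 + X) ^ c + Λ ^ (k' + 1) * W * s₀ := by
    rw [hA, hexp, hs₀, hX]
    have h2 : (Λ ^ (k' + 1) * t) ^ 2 = Λ ^ (k' + 1) * W * (algebraMap R F ρ * Λ ^ k' * t ^ 2) := by
      rw [mul_pow, sq (Λ ^ (k' + 1))]
      nth_rewrite 2 [hΛk]
      ring
    rw [h2]
    ring
  refine ⟨s₀ * ((1 + X) ^ c)⁻¹, S.mul_mem hs₀S hBinv, ?_⟩
  rw [hAB]
  field_simp

end Comp

end Fermat.Agent.Ribet.H495.AlgP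

end
-- ===== PACK-END Ribet/H495/AlgPTau.lean

-- ===== PACK-BEGIN A2/H729/Glue.lean
section


/-!
# A2, piece ALG_ss (helper729), version A: gluing a generic idempotent

Setting of `S18.H138.connected_special_fibre`: `R` a noetherian domain with `R[X]` integrally
closed (a DVR), `w ∈ R` prime, `F` a field of characteristic `0`, `x ∈ F` transcendental, `F`
finite over `baseField R x`, `R` integrally closed in `F`.  The charts are the integral closures of
`R[x]`, `R[x⁻¹]`, `R[x, x⁻¹]` in `F`.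

`O` is the *Gauss ring*: a subalgebra of `F` containing the charts (in the application the
intersection of the valuation rings of `F` over the Gauss valuations of the special fibre), with
the `q`-expansion principle `chart ∩ w O = w chart` for the three charts (the special fibre is
reduced).  `e₀ ∈ O` is idempotent modulo `w O` (an idempotent of the total ring of fractions of
the special fibre).

**Theorem** (`generic_idempotent_trivial`).  If `e₀` is *locally regular* at every closed point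
of the special fibre of both charts (for every maximal ideal `𝔫 ∋ w` of the chart there is a
denominator `s ∉ 𝔫` with `s e₀ ≡` an element of the chart modulo `w O`), then `e₀ ≡ 0` or
`e₀ ≡ 1` modulo `w O`.

No normality of the special fibre is used: only reducedness (the three `qep` hypotheses).
-/

set_option autoImplicit false

namespace Fermat.Agent.A2.H729

open Fermat.Agent.S18.H138

variable {R : Type*} [CommRing R] {F : Type*} [Field F] [Algebra R F]

/-- `z ∈ w O`. -/
def InW (O : Subalgebra R F) (w : R) (z : F) : Prop :=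
  ∃ t ∈ O, z = algebraMap R F w * t

theorem InW.add {O : Subalgebra R F} {w : R} {a b : F} (ha : InW O w a) (hb : InW O w b) :
    InW O w (a + b) := by
  obtain ⟨s, hs, rfl⟩ := ha
  obtain ⟨t, ht, rfl⟩ := hb
  exact ⟨s + t, O.add_mem hs ht, by ring⟩

theorem InW.neg {O : Subalgebra R F} {w : R} {a : F} (ha : InW O w a) : InW O w (-a) := by
  obtain ⟨s, hs, rfl⟩ := ha
  exact ⟨-s, O.neg_mem hs, by ring⟩

theorem InW.sub {O : Subalgebra R F} {w : R} {a b : F} (ha : InW O w a) (hb : InW O w b) :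
    InW O w (a - b) := by
  rw [sub_eq_add_neg]
  exact ha.add hb.neg

theorem InW.mul_left {O : Subalgebra R F} {w : R} {a : F} (ha : InW O w a) {c : F}
    (hc : c ∈ O) : InW O w (c * a) := by
  obtain ⟨s, hs, rfl⟩ := ha
  exact ⟨c * s, O.mul_mem hc hs, by ring⟩

theorem InW.mul_right {O : Subalgebra R F} {w : R} {a : F} (ha : InW O w a) {c : F}
    (hc : c ∈ O) : InW O w (a * c) := by
  rw [mul_comm]
  exact ha.mul_left hc

theorem InW.zero (O : Subalgebra R F) (w : R) : InW O w 0 :=
  ⟨0, O.zero_mem, by ring⟩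

theorem InW.of_mul {O : Subalgebra R F} (w : R) {t : F} (ht : t ∈ O) :
    InW O w (algebraMap R F w * t) :=
  ⟨t, ht, rfl⟩

theorem InW.mem {O : Subalgebra R F} {w : R} {a : F} (ha : InW O w a) : a ∈ O := by
  obtain ⟨s, hs, rfl⟩ := ha
  exact O.mul_mem (O.algebraMap_mem w) hs

theorem InW.sum {O : Subalgebra R F} {w : R} {ι : Type*} (s : Finset ι) (f : ι → F)
    (h : ∀ i ∈ s, InW O w (f i)) : InW O w (∑ i ∈ s, f i) := by
  classical
  induction s using Finset.induction_on with
  | empty => simpa using InW.zero O w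
  | insert a s ha ih =>
    rw [Finset.sum_insert ha]
    exact (h a (Finset.mem_insert_self a s)).add
      (ih fun i hi => h i (Finset.mem_insert_of_mem hi))

/-- The *regularity ideal* of `e₀` on the chart `C`: the denominators `s ∈ C` such that
`s e₀` is congruent modulo `w O` to an element of `C`. -/
def regIdeal (C O : Subalgebra R F) (hCO : C ≤ O) (w : R) (e₀ : F) : Ideal C where
  carrier := {s | ∃ e ∈ C, InW O w ((s : F) * e₀ - e)}
  add_mem' := by
    rintro a b ⟨e, he, h⟩ ⟨e', he', h'⟩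
    refine ⟨e + e', C.add_mem he he', ?_⟩
    have : ((a + b : C) : F) * e₀ - (e + e') = ((a : F) * e₀ - e) + ((b : F) * e₀ - e') := by
      push_cast; ring
    rw [this]
    exact h.add h'
  zero_mem' := ⟨0, C.zero_mem, by simpa using InW.zero O w⟩
  smul_mem' := by
    rintro c a ⟨e, he, h⟩
    refine ⟨c * e, C.mul_mem c.2 he, ?_⟩
    have : ((c • a : C) : F) * e₀ - c * e = (c : F) * ((a : F) * e₀ - e) := by
      rw [smul_eq_mul]; push_cast; ring
    rw [this]
    exact h.mul_left (hCO c.2)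

theorem mem_regIdeal {C O : Subalgebra R F} {hCO : C ≤ O} {w : R} {e₀ : F} {s : C} :
    s ∈ regIdeal C O hCO w e₀ ↔ ∃ e ∈ C, InW O w ((s : F) * e₀ - e) := Iff.rfl

/-- If `e₀ ∈ O` is locally regular at all maximal ideals of `C` containing `w`, it is congruent
modulo `w O` to an element of `C`. -/
theorem exists_chart_rep {C O : Subalgebra R F} (hCO : C ≤ O) (w : R) {e₀ : F} (he₀ : e₀ ∈ O)
    (hloc : ∀ 𝔫 : Ideal C, 𝔫.IsMaximal → algebraMap R C w ∈ 𝔫 →
      ∃ s : C, s ∉ 𝔫 ∧ ∃ e ∈ C, InW O w ((s : F) * e₀ - e)) :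
    ∃ e ∈ C, InW O w (e₀ - e) := by
  have hw : algebraMap R C w ∈ regIdeal C O hCO w e₀ := by
    refine ⟨0, C.zero_mem, ?_⟩
    rw [sub_zero]
    exact ⟨e₀, he₀, rfl⟩
  have htop : regIdeal C O hCO w e₀ = ⊤ := by
    by_contra hne
    obtain ⟨𝔫, h𝔫, hle⟩ := Ideal.exists_le_maximal _ hne
    obtain ⟨s, hs, e, he, h⟩ := hloc 𝔫 h𝔫 (hle hw)
    exact hs (hle ⟨e, he, h⟩)
  have h1 : (1 : C) ∈ regIdeal C O hCO w e₀ := by rw [htop]; trivial
  obtain ⟨e, he, h⟩ := h1
  refine ⟨e, he, ?_⟩
  simpa using h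

section Main

variable [IsNoetherianRing R] [IsIntegrallyClosed (Polynomial R)] [CharZero F]

/-- **ALG_ss, version A.**  A generic idempotent of a reduced special fibre which is locally
regular at every closed point of both charts is `0` or `1`. -/
theorem generic_idempotent_trivial
    (hinjR : Function.Injective (algebraMap R F))
    (hRF : ∀ y : F, IsIntegral R y → y ∈ Set.range (algebraMap R F))
    {x : F} (hx : Transcendental R x) [FiniteDimensional (baseField R x) F]
    (w : R) (hw : Prime w)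
    (O : Subalgebra R F)
    (hfin : chart R ({x} : Set F) ≤ O) (hinf : chart R ({x⁻¹} : Set F) ≤ O)
    (qep_fin : ∀ b ∈ chart R ({x} : Set F), InW O w b →
      ∃ t ∈ chart R ({x} : Set F), b = algebraMap R F w * t)
    (qep_inf : ∀ b ∈ chart R ({x⁻¹} : Set F), InW O w b →
      ∃ t ∈ chart R ({x⁻¹} : Set F), b = algebraMap R F w * t)
    (qep_mid : ∀ b ∈ chart R ({x, x⁻¹} : Set F), InW O w b →
      ∃ t ∈ chart R ({x, x⁻¹} : Set F), b = algebraMap R F w * t)
    {e₀ : F} (he₀ : e₀ ∈ O) (hidem : InW O w (e₀ ^ 2 - e₀))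
    (hloc_fin : ∀ 𝔫 : Ideal (chart R ({x} : Set F)), 𝔫.IsMaximal →
      algebraMap R (chart R ({x} : Set F)) w ∈ 𝔫 →
      ∃ s : chart R ({x} : Set F), s ∉ 𝔫 ∧
        ∃ e ∈ chart R ({x} : Set F), InW O w ((s : F) * e₀ - e))
    (hloc_inf : ∀ 𝔫 : Ideal (chart R ({x⁻¹} : Set F)), 𝔫.IsMaximal →
      algebraMap R (chart R ({x⁻¹} : Set F)) w ∈ 𝔫 →
      ∃ s : chart R ({x⁻¹} : Set F), s ∉ 𝔫 ∧
        ∃ e ∈ chart R ({x⁻¹} : Set F), InW O w ((s : F) * e₀ - e)) :
    InW O w e₀ ∨ InW O w (1 - e₀) := by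
  obtain ⟨e₁, he₁, h₁⟩ := exists_chart_rep hfin w he₀ hloc_fin
  obtain ⟨e₂, he₂, h₂⟩ := exists_chart_rep hinf w he₀ hloc_inf
  have he₁O : e₁ ∈ O := hfin he₁
  have he₂O : e₂ ∈ O := hinf he₂
  -- `e₁` is idempotent modulo `w` in the finite chart
  have hi₁ : ∃ t ∈ chart R ({x} : Set F), e₁ ^ 2 - e₁ = algebraMap R F w * t := by
    refine qep_fin _ (Subalgebra.sub_mem _ (Subalgebra.pow_mem _ he₁ 2) he₁) ?_
    have : e₁ ^ 2 - e₁ = (e₀ ^ 2 - e₀) - (e₀ - e₁) * (e₀ + e₁ - 1) := by ring
    rw [this]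
    exact hidem.sub (h₁.mul_right
      (O.sub_mem (O.add_mem he₀ he₁O) O.one_mem))
  have hi₂ : ∃ t ∈ chart R ({x⁻¹} : Set F), e₂ ^ 2 - e₂ = algebraMap R F w * t := by
    refine qep_inf _ (Subalgebra.sub_mem _ (Subalgebra.pow_mem _ he₂ 2) he₂) ?_
    have : e₂ ^ 2 - e₂ = (e₀ ^ 2 - e₀) - (e₀ - e₂) * (e₀ + e₂ - 1) := by ring
    rw [this]
    exact hidem.sub (h₂.mul_right
      (O.sub_mem (O.add_mem he₀ he₂O) O.one_mem))
  have h₁₂ : ∃ t ∈ chart R ({x, x⁻¹} : Set F), e₁ - e₂ = algebraMap R F w * t := by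
    refine qep_mid _ (Subalgebra.sub_mem _ (chart_mono (by simp) he₁)
      (chart_mono (by simp) he₂)) ?_
    have : e₁ - e₂ = (e₀ - e₂) - (e₀ - e₁) := by ring
    rw [this]
    exact h₂.sub h₁
  rcases connected_special_fibre hinjR hRF hx w hw e₁ e₂ he₁ he₂ hi₁ hi₂ h₁₂ with
    ⟨⟨t, ht, h⟩, _⟩ | ⟨⟨t, ht, h⟩, _⟩
  · left
    have : e₀ = (e₀ - e₁) + e₁ := by ring
    rw [this]
    exact h₁.add ⟨t, hfin ht, h⟩
  · right
    have : 1 - e₀ = (1 - e₁) - (e₀ - e₁) := by ring
    rw [this]
    exact InW.sub ⟨t, hfin ht, h⟩ h₁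

end Main

end Fermat.Agent.A2.H729

end
-- ===== PACK-END A2/H729/Glue.lean

-- ===== PACK-BEGIN Ribet/H67/UnitEisLaurent.lean
section
/-
RIBET / W-EIS leaf UNIT-EIS (helper67), part 2: transfer to Laurent series.

`kronNorm ℓ u_p = C c · u_p^(ℓ+1)` with `c ≠ 0`, for the modular unit `u_p = Δ(q^p)/Δ(q)`,
over any field with a primitive `ℓ`-th root of unity (`ℓ` prime, `ℓ ∤ p`).
-/




set_option autoImplicit false

noncomputable section

namespace Fermat.Agent.Ribet.H67

open PowerSeries ModularCurve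
open Fermat.Agent.S37 Fermat.Agent.S37.H400

section Transfer

variable {K : Type*} [CommRing K]

theorem ofPS_expand (k : ℕ) [NeZero k] (hk : k ≠ 0) (f : K⟦X⟧) :
    HahnSeries.ofPowerSeries ℤ K (expand k hk f) =
      qExpand K k (HahnSeries.ofPowerSeries ℤ K f) := by
  have hk0 : (0 : ℤ) < k := by exact_mod_cast Nat.pos_of_ne_zero hk
  ext n
  by_cases hn : (k : ℤ) ∣ n
  · obtain ⟨m, rfl⟩ := hn
    rw [qExpand_coeff_mul]
    rcases le_or_gt 0 m with hm | hm
    · lift m to ℕ using hm
      rw [HahnSeries.ofPowerSeries_apply_coeff, show (k : ℤ) * (m : ℤ) = ((k * m : ℕ) : ℤ) by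
        push_cast; ring, HahnSeries.ofPowerSeries_apply_coeff, PowerSeries.coeff_expand_mul]
    · rw [ofPowerSeries_coeff_of_neg _ hm, ofPowerSeries_coeff_of_neg _ (by nlinarith)]
  · rw [qExpand_coeff_of_not_dvd k _ hn]
    rcases le_or_gt 0 n with hn0 | hn0
    · lift n to ℕ using hn0
      rw [HahnSeries.ofPowerSeries_apply_coeff, PowerSeries.coeff_expand_of_not_dvd]
      intro h
      exact hn (by exact_mod_cast h)
    · rw [ofPowerSeries_coeff_of_neg _ hn0]

theorem ofPS_rescale {ℓ : ℕ} [NeZero ℓ] {η : K} (hη : η ^ ℓ = 1) (f : K⟦X⟧) :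
    HahnSeries.ofPowerSeries ℤ K (rescale η f) =
      H340.tw ℓ η (HahnSeries.ofPowerSeries ℤ K f) := by
  ext n
  rw [H340.tw_coeff]
  rcases le_or_gt 0 n with hn | hn
  · lift n to ℕ using hn
    rw [HahnSeries.ofPowerSeries_apply_coeff, HahnSeries.ofPowerSeries_apply_coeff,
      coeff_rescale, H340.zpw_natCast hη]
  · rw [ofPowerSeries_coeff_of_neg _ hn, ofPowerSeries_coeff_of_neg _ hn, mul_zero]

theorem ofPS_twN {ℓ : ℕ} [NeZero ℓ] {ζ : K} (hζ : ζ ^ ℓ = 1) (f : K⟦X⟧) :
    HahnSeries.ofPowerSeries ℤ K (twN ℓ ζ f) =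
      ∏ b : Fin ℓ, H340.tw ℓ (ζ ^ (b : ℕ)) (HahnSeries.ofPowerSeries ℤ K f) := by
  rw [twN, map_prod,
    Fin.prod_univ_eq_prod_range
      (fun b => H340.tw ℓ (ζ ^ b) (HahnSeries.ofPowerSeries ℤ K f)) ℓ]
  exact Finset.prod_congr rfl fun b _ => ofPS_rescale (H340.pow_pow_eq_one hζ b) f

/-- A power series satisfying the norm identity gives a fixed point of `f ↦ kronNorm ℓ f / f^{ℓ+1}`. -/
theorem kronNorm_ofPS_of_identity [IsDomain K] {ℓ : ℕ} [NeZero ℓ] {ζ : K}
    (hζ : IsPrimitiveRoot ζ ℓ) (G : K⟦X⟧)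
    (h : expand ℓ (NeZero.ne ℓ) (expand ℓ (NeZero.ne ℓ) G) * twN ℓ ζ G =
      (expand ℓ (NeZero.ne ℓ) G) ^ (ℓ + 1)) :
    kronNorm ℓ (HahnSeries.ofPowerSeries ℤ K G) = (HahnSeries.ofPowerSeries ℤ K G) ^ (ℓ + 1) := by
  apply qExpand_injective (R := K) (N := ℓ)
  rw [qExpand_kronNorm_eq_prod ℓ hζ, map_pow, ← ofPS_expand ℓ (NeZero.ne ℓ),
    ← ofPS_expand ℓ (NeZero.ne ℓ), ← ofPS_twN hζ.pow_eq_one, ← map_mul, h, map_pow]

/-- The Kronecker norm of `q`. -/
theorem kronNorm_qq [IsDomain K] {ℓ : ℕ} [NeZero ℓ] {ζ : K} (hζ : IsPrimitiveRoot ζ ℓ) :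
    kronNorm ℓ (H340.qq : LaurentSeries K) =
      HahnSeries.C (∏ b : Fin ℓ, ζ ^ (b : ℕ)) * (H340.qq : LaurentSeries K) ^ (ℓ + 1) := by
  apply qExpand_injective (R := K) (N := ℓ)
  have hq : qExpand K ℓ (H340.qq : LaurentSeries K) = (H340.qq : LaurentSeries K) ^ ℓ := by
    rw [H340.qq_pow, H340.qq, qExpand_single, mul_one]
  have htw : ∀ b : Fin ℓ, H340.tw ℓ (ζ ^ (b : ℕ)) (H340.qq : LaurentSeries K) =
      HahnSeries.C (ζ ^ (b : ℕ)) * (H340.qq : LaurentSeries K) := by
    intro b
    have := H340.tw_qq_pow (ℓ := ℓ) (ζ := ζ ^ (b : ℕ))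
      (H340.pow_pow_eq_one hζ.pow_eq_one b) 1
    rwa [pow_one, pow_one] at this
  rw [qExpand_kronNorm_eq_prod ℓ hζ, map_mul, qExpand_C, map_pow, hq, map_pow, hq,
    Finset.prod_congr rfl fun b _ => htw b, Finset.prod_mul_distrib, Finset.prod_const,
    Finset.card_univ, Fintype.card_fin, map_prod]
  ring

end Transfer

section Assembly

variable {L : Type*} [Field L]

/-- `f` is an eigen-unit for the Kronecker norm: `kronNorm ℓ f = c · f^{ℓ+1}`, `c ≠ 0`. -/
def IsNormEig (ℓ : ℕ) [NeZero ℓ] (f : LaurentSeries L) : Prop :=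
  ∃ c : L, c ≠ 0 ∧ kronNorm ℓ f = HahnSeries.C c * f ^ (ℓ + 1)

theorem IsNormEig.mul {ℓ : ℕ} [NeZero ℓ] {f g : LaurentSeries L} (hf : IsNormEig ℓ f)
    (hg : IsNormEig ℓ g) : IsNormEig ℓ (f * g) := by
  obtain ⟨c, hc, hcf⟩ := hf
  obtain ⟨d, hd, hdg⟩ := hg
  refine ⟨c * d, mul_ne_zero hc hd, ?_⟩
  rw [kronNorm_mul, hcf, hdg, map_mul, mul_pow]
  ring

theorem IsNormEig.one {ℓ : ℕ} [NeZero ℓ] : IsNormEig ℓ (1 : LaurentSeries L) :=
  ⟨1, one_ne_zero, by rw [kronNorm_one, map_one, one_pow, one_mul]⟩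

theorem IsNormEig.pow {ℓ : ℕ} [NeZero ℓ] {f : LaurentSeries L} (hf : IsNormEig ℓ f) (n : ℕ) :
    IsNormEig ℓ (f ^ n) := by
  induction n with
  | zero => rw [pow_zero]; exact IsNormEig.one
  | succ n ih => rw [pow_succ]; exact ih.mul hf

theorem IsNormEig.of_mul_eq_one {ℓ : ℕ} [NeZero ℓ] {f g : LaurentSeries L} (hf : IsNormEig ℓ f)
    (h : f * g = 1) : IsNormEig ℓ g := by
  obtain ⟨c, hc, hcf⟩ := hf
  refine ⟨c⁻¹, inv_ne_zero hc, ?_⟩
  have h1 : kronNorm ℓ f * kronNorm ℓ g = 1 := by rw [← kronNorm_mul, h, kronNorm_one]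
  have hcc : (HahnSeries.C c⁻¹ : LaurentSeries L) * HahnSeries.C c = 1 := by
    rw [← map_mul, inv_mul_cancel₀ hc, map_one]
  have hfg : g ^ (ℓ + 1) * f ^ (ℓ + 1) = 1 := by rw [← mul_pow, mul_comm, h, one_pow]
  calc kronNorm ℓ g = (HahnSeries.C c⁻¹ * g ^ (ℓ + 1)) * (HahnSeries.C c * f ^ (ℓ + 1)) *
        kronNorm ℓ g := by
        rw [mul_mul_mul_comm, hcc, hfg, one_mul, one_mul]
    _ = (HahnSeries.C c⁻¹ * g ^ (ℓ + 1)) * (kronNorm ℓ f * kronNorm ℓ g) := by
        rw [hcf, mul_assoc]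
    _ = HahnSeries.C c⁻¹ * g ^ (ℓ + 1) := by rw [h1, mul_one]

theorem deltaL_eq : S28.deltaL L =
    (H340.qq : LaurentSeries L) * (HahnSeries.ofPowerSeries ℤ L (etaK L)) ^ 24 := by
  rw [S28.deltaL, H340.qq, etaK, dedekindEtaUnit, map_pow, map_pow]

theorem qExpand_deltaL_eq (p : ℕ) [NeZero p] : qExpand L p (S28.deltaL L) =
    (H340.qq : LaurentSeries L) ^ p *
      (HahnSeries.ofPowerSeries ℤ L (expand p (NeZero.ne p) (etaK L))) ^ 24 := by
  rw [deltaL_eq, map_mul, map_pow, ← ofPS_expand p (NeZero.ne p), H340.qq_pow, H340.qq,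
    qExpand_single, mul_one]

/-- **UNIT-EIS**, general form. -/
theorem kronNorm_unitL_eq (p : ℕ) [NeZero p] (ℓ : ℕ) [NeZero ℓ] (hℓ : ℓ.Prime) (hℓp : ¬ ℓ ∣ p)
    {ζ : L} (hζ : IsPrimitiveRoot ζ ℓ) :
    ∃ c : L, c ≠ 0 ∧
      kronNorm ℓ (S28.unitL L p) = HahnSeries.C c * S28.unitL L p ^ (ℓ + 1) := by
  have hε : (∏ b : Fin ℓ, ζ ^ (b : ℕ)) ≠ 0 :=
    Finset.prod_ne_zero_iff.2 fun b _ => pow_ne_zero _ (hζ.ne_zero hℓ.ne_zero)
  have hq : IsNormEig ℓ (H340.qq : LaurentSeries L) := ⟨_, hε, kronNorm_qq hζ⟩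
  have hE : IsNormEig ℓ (HahnSeries.ofPowerSeries ℤ L (etaK L)) :=
    ⟨1, one_ne_zero, by
      rw [map_one, one_mul]
      exact kronNorm_ofPS_of_identity hζ _ (etaK_norm_identity hℓ hζ)⟩
  have hEp : IsNormEig ℓ (HahnSeries.ofPowerSeries ℤ L (expand p (NeZero.ne p) (etaK L))) :=
    ⟨1, one_ne_zero, by
      rw [map_one, one_mul]
      exact kronNorm_ofPS_of_identity hζ _
        (etaK_expand_norm_identity hℓ hζ p (NeZero.ne p) hℓp)⟩
  have hΔ : IsNormEig ℓ (S28.deltaL L) := by
    rw [deltaL_eq]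
    exact hq.mul (hE.pow 24)
  have hΔp : IsNormEig ℓ (qExpand L p (S28.deltaL L)) := by
    rw [qExpand_deltaL_eq]
    exact (hq.pow p).mul (hEp.pow 24)
  have hΔinv : IsNormEig ℓ (S28.deltaInvL L) :=
    hΔ.of_mul_eq_one (S28.h88_deltaL_mul_deltaInvL L)
  exact hΔp.mul hΔinv

end Assembly

end Fermat.Agent.Ribet.H67

end

end
-- ===== PACK-END Ribet/H67/UnitEisLaurent.lean

-- ===== PACK-BEGIN S28/H88/Kronecker.lean
section
/-
S28-derived shared brick -- helper88: Frobenius on Laurent series in characteristic `p`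
(`f ^ p = V_p (f^{(p)})`) and the Kronecker congruence for the modular polynomial:
`Φ_p(X, Y) ≡ (X^p - Y)(X - Y^p) mod p`, derived formally from `ModPolyData p`.
-/


set_option autoImplicit false

noncomputable section

open ModularCurve HahnSeries

namespace Fermat.Agent.S28

section Frobenius

variable (k : Type*) [Field k] (p : ℕ) [hp : Fact p.Prime] [CharP k p] [NeZero p]

omit hp [NeZero p] in
theorem h88_charP_laurent : CharP (LaurentSeries k) p :=
  charP_of_injective_ringHom (f := (HahnSeries.C : k →+* LaurentSeries k))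
    HahnSeries.C_injective p

omit hp [CharP k p] in
/-- If all coefficients of `x` below `N` vanish, all coefficients of `x ^ p` below `p * N`
vanish. -/
theorem h88_coeff_pow_eq_zero {x : LaurentSeries k} {N : ℤ} (hx : ∀ i < N, x.coeff i = 0)
    {n : ℤ} (hn : n < (p : ℤ) * N) : (x ^ p).coeff n = 0 := by
  by_cases hx0 : x = 0
  · rw [hx0, zero_pow (NeZero.ne p), HahnSeries.coeff_zero]
  · apply HahnSeries.coeff_eq_zero_of_lt_order
    rw [HahnSeries.order_pow, nsmul_eq_mul]
    have h1 : N ≤ x.order := by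
      by_contra hlt
      rw [not_le] at hlt
      exact (HahnSeries.coeff_order_eq_zero.not.mpr hx0) (hx _ hlt)
    have hp0 : (0 : ℤ) ≤ (p : ℤ) := by positivity
    have h2 : (p : ℤ) * N ≤ (p : ℤ) * x.order := mul_le_mul_of_nonneg_left h1 hp0
    exact lt_of_lt_of_le hn h2

/-- **Frobenius on Laurent series** in characteristic `p`: `f ^ p = V_p (f^{(p)})`, where
`f^{(p)}` raises every coefficient to the `p`-th power. -/
theorem h88_pow_char_eq_qExpand (f : LaurentSeries k) :
    f ^ p = qExpand k p (coeffMap (frobenius k p) f) := by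
  have : CharP (LaurentSeries k) p := h88_charP_laurent k p
  have hp1 : (1 : ℤ) ≤ p := by exact_mod_cast Nat.pos_of_ne_zero (NeZero.ne p)
  ext n
  -- cut `f` at `N`
  obtain ⟨N, hN⟩ : ∃ N : ℤ, n < (p : ℤ) * N := by
    refine ⟨|n| + 1, ?_⟩
    have h1 : n ≤ |n| := le_abs_self n
    have h2 : (0 : ℤ) ≤ |n| := abs_nonneg n
    nlinarith
  set A : LaurentSeries k :=
    ∑ i ∈ Finset.Ico f.order N, HahnSeries.single i (f.coeff i) with hA
  have hAcoeff : ∀ i, A.coeff i = if i ∈ Finset.Ico f.order N then f.coeff i else 0 := by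
    intro i
    rw [hA, HahnSeries.coeff_sum]
    by_cases hi : i ∈ Finset.Ico f.order N
    · rw [if_pos hi, Finset.sum_eq_single_of_mem i hi, HahnSeries.coeff_single_same]
      intro i' _ hne
      exact HahnSeries.coeff_single_of_ne (Ne.symm hne)
    · rw [if_neg hi]
      apply Finset.sum_eq_zero
      intro i' hi'
      apply HahnSeries.coeff_single_of_ne
      rintro rfl
      exact hi hi'
  have hB : ∀ i < N, (f - A).coeff i = 0 := by
    intro i hi
    rw [HahnSeries.coeff_sub, hAcoeff]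
    by_cases hio : f.order ≤ i
    · rw [if_pos (Finset.mem_Ico.mpr ⟨hio, hi⟩), sub_self]
    · rw [if_neg (fun h => hio (Finset.mem_Ico.mp h).1), sub_zero]
      exact HahnSeries.coeff_eq_zero_of_lt_order (not_le.mp hio)
  have hsplit : f ^ p = A ^ p + (f - A) ^ p := by
    rw [← add_pow_char, add_sub_cancel]
  have hApow : A ^ p = ∑ i ∈ Finset.Ico f.order N,
      HahnSeries.single ((p : ℤ) * i) (f.coeff i ^ p) := by
    rw [hA, sum_pow_char]
    refine Finset.sum_congr rfl fun i _ => ?_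
    rw [HahnSeries.single_pow, nsmul_eq_mul]
  rw [hsplit, HahnSeries.coeff_add, h88_coeff_pow_eq_zero k p hB hN, add_zero, hApow,
    HahnSeries.coeff_sum]
  by_cases hdvd : (p : ℤ) ∣ n
  · obtain ⟨i₀, rfl⟩ := hdvd
    rw [qExpand_coeff_mul, coeffMap_coeff, frobenius_def]
    have hi₀N : i₀ < N := by
      by_contra hge
      rw [not_lt] at hge
      have : (p : ℤ) * N ≤ (p : ℤ) * i₀ := mul_le_mul_of_nonneg_left hge (by positivity)
      omega
    have hpne : (p : ℤ) ≠ 0 := by exact_mod_cast NeZero.ne p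
    by_cases hio : f.order ≤ i₀
    · rw [Finset.sum_eq_single_of_mem i₀ (Finset.mem_Ico.mpr ⟨hio, hi₀N⟩),
        HahnSeries.coeff_single_same]
      intro i' _ hne
      apply HahnSeries.coeff_single_of_ne
      intro h
      exact hne (mul_left_cancel₀ hpne h).symm
    · rw [HahnSeries.coeff_eq_zero_of_lt_order (not_le.mp hio), zero_pow (NeZero.ne p)]
      apply Finset.sum_eq_zero
      intro i' hi'
      apply HahnSeries.coeff_single_of_ne
      intro h
      have h1 : i₀ = i' := mul_left_cancel₀ hpne h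
      exact hio (h1 ▸ (Finset.mem_Ico.mp hi').1)
  · rw [qExpand_coeff_of_not_dvd p _ hdvd]
    apply Finset.sum_eq_zero
    intro i' _
    apply HahnSeries.coeff_single_of_ne
    rintro rfl
    exact hdvd ⟨i', rfl⟩

end Frobenius

section FrobeniusZMod

variable (p : ℕ) [hp : Fact p.Prime] [NeZero p]

/-- Over `𝔽_p`: `V_p f = f ^ p`. -/
theorem h88_qExpand_zmod (f : LaurentSeries (ZMod p)) :
    qExpand (ZMod p) p f = f ^ p := by
  rw [h88_pow_char_eq_qExpand (ZMod p) p f]
  congr 1
  ext n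
  rw [coeffMap_coeff, frobenius_def, ZMod.pow_card]

end FrobeniusZMod

section Kronecker

open Polynomial

variable (p : ℕ) [hp : Fact p.Prime] [NeZero p]

/-- The modular polynomial reduced mod `p`, in `𝔽_p[Y][X]`. -/
def h88_PhiBar (Φ : ModPolyData p) : Polynomial (Polynomial (ZMod p)) :=
  Φ.Φ.map (Polynomial.mapRingHom (Int.castRingHom (ZMod p)))

theorem h88_PhiBar_monic (Φ : ModPolyData p) : (h88_PhiBar p Φ).Monic := Φ.monic.map _

theorem h88_PhiBar_natDegree (Φ : ModPolyData p) : (h88_PhiBar p Φ).natDegree = p + 1 := by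
  rw [h88_PhiBar, Φ.monic.natDegree_map, Φ.natDegree_eq]

theorem h88_aeval_comp_mapRingHom (k : Type*) [Field k] (y : LaurentSeries k) :
    ((Polynomial.aeval (R := k) y).toRingHom).comp
        (Polynomial.mapRingHom (Int.castRingHom k)) = evalAt y := by
  apply Polynomial.ringHom_ext
  · intro a
    simp [evalAt]
  · simp [evalAt]

/-- `Ψ(j^p, j) = 0` where `Ψ = Φ mod p`. -/
theorem h88_PhiBar_eval_jp (Φ : ModPolyData p) :
    (h88_PhiBar p Φ).eval₂ (Polynomial.aeval (R := ZMod p) (jqModC (ZMod p))).toRingHom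
      ((jqModC (ZMod p)) ^ p) = 0 := by
  rw [h88_PhiBar, Polynomial.eval₂_map, h88_aeval_comp_mapRingHom, ← h88_qExpand_zmod]
  exact h88_modPoly_eval_jp (ZMod p) p Φ

/-- `Ψ(j, j^p) = 0` where `Ψ = Φ mod p`. -/
theorem h88_PhiBar_eval_j (Φ : ModPolyData p) :
    (h88_PhiBar p Φ).eval₂ (Polynomial.aeval (R := ZMod p) ((jqModC (ZMod p)) ^ p)).toRingHom
      (jqModC (ZMod p)) = 0 := by
  rw [h88_PhiBar, Polynomial.eval₂_map, h88_aeval_comp_mapRingHom, ← h88_qExpand_zmod]
  exact h88_modPoly_eval_j (ZMod p) p Φ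

/-- `Ψ(Y^p, Y) = 0` as a polynomial identity. -/
theorem h88_PhiBar_eval_X_pow (Φ : ModPolyData p) :
    (h88_PhiBar p Φ).eval ((Polynomial.X : Polynomial (ZMod p)) ^ p) = 0 := by
  apply h88_aeval_jqModC_injective (ZMod p)
  rw [map_zero]
  have h := Polynomial.hom_eval₂ (h88_PhiBar p Φ) (RingHom.id (Polynomial (ZMod p)))
    (Polynomial.aeval (R := ZMod p) (jqModC (ZMod p))).toRingHom
    ((Polynomial.X : Polynomial (ZMod p)) ^ p)
  rw [Polynomial.eval₂_id, RingHom.comp_id] at h
  have h2 : (Polynomial.aeval (R := ZMod p) (jqModC (ZMod p))).toRingHom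
      ((Polynomial.X : Polynomial (ZMod p)) ^ p) = (jqModC (ZMod p)) ^ p := by
    simp
  rw [h2, h88_PhiBar_eval_jp] at h
  exact h

theorem h88_aeval_pow_eq_qExpand (c : Polynomial (ZMod p)) :
    Polynomial.aeval ((jqModC (ZMod p)) ^ p) c
      = qExpand (ZMod p) p (Polynomial.aeval (jqModC (ZMod p)) c) := by
  rw [← h88_qExpand_zmod]
  exact Polynomial.aeval_algHom_apply (qExpandAlgHomC (ZMod p) p) (jqModC (ZMod p)) c

/-- A polynomial `R ∈ 𝔽_p[Y][X]` of `X`-degree `< p` with `R(j, j^p) = 0` vanishes. -/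
theorem h88_eq_zero_of_eval_j_pow (R : Polynomial (Polynomial (ZMod p)))
    (hdeg : R.natDegree < p)
    (h : R.eval₂ (Polynomial.aeval (R := ZMod p) ((jqModC (ZMod p)) ^ p)).toRingHom
      (jqModC (ZMod p)) = 0) : R = 0 := by
  rw [Polynomial.eval₂_eq_sum_range' _ hdeg] at h
  have h' : ∑ i ∈ Finset.range p,
      qExpand (ZMod p) p (Polynomial.aeval (jqModC (ZMod p)) (R.coeff i))
        * (jqModC (ZMod p)) ^ i = 0 := by
    rw [← h]
    refine Finset.sum_congr rfl fun i _ => ?_
    rw [← h88_aeval_pow_eq_qExpand]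
    rfl
  have h0 := h88_linIndep_core (ZMod p) p
    (fun i => Polynomial.aeval (jqModC (ZMod p)) (R.coeff i)) h'
  refine Polynomial.ext fun i => ?_
  rw [Polynomial.coeff_zero]
  by_cases hi : i < p
  · apply h88_aeval_jqModC_injective (ZMod p)
    rw [map_zero]
    exact h0 i (Finset.mem_range.mpr hi)
  · exact Polynomial.coeff_eq_zero_of_natDegree_lt (by omega)

/-- **Kronecker congruence**: `Φ_p(X, Y) ≡ (X^p - Y)(X - Y^p) mod p`. -/
theorem h88_kronecker (Φ : ModPolyData p) :
    h88_PhiBar p Φ =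
      ((Polynomial.X : Polynomial (Polynomial (ZMod p))) ^ p
          - Polynomial.C (Polynomial.X : Polynomial (ZMod p)))
        * (Polynomial.X - Polynomial.C ((Polynomial.X : Polynomial (ZMod p)) ^ p)) := by
  have hp0 : p ≠ 0 := NeZero.ne p
  have hp2 : 2 ≤ p := hp.out.two_le
  obtain ⟨D, hD⟩ : ∃ D : Polynomial (Polynomial (ZMod p)),
      D = (Polynomial.X : Polynomial (Polynomial (ZMod p))) ^ p
        - Polynomial.C (Polynomial.X : Polynomial (ZMod p)) := ⟨_, rfl⟩
  rw [← hD]
  have hDmonic : D.Monic := by rw [hD]; exact Polynomial.monic_X_pow_sub_C _ hp0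
  have hDdeg : D.natDegree = p := by rw [hD]; exact Polynomial.natDegree_X_pow_sub_C
  have hD1 : D ≠ 1 := by
    intro h1
    have := congrArg Polynomial.natDegree h1
    rw [hDdeg, Polynomial.natDegree_one] at this
    exact hp0 this
  have hdiv := Polynomial.modByMonic_add_div (h88_PhiBar p Φ) D
  -- the remainder vanishes
  have hRdeg : (h88_PhiBar p Φ %ₘ D).natDegree < p := by
    have := Polynomial.natDegree_modByMonic_lt (h88_PhiBar p Φ) hDmonic hD1
    rwa [hDdeg] at this
  have hevD : D.eval₂ (Polynomial.aeval (R := ZMod p) ((jqModC (ZMod p)) ^ p)).toRingHom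
      (jqModC (ZMod p)) = 0 := by
    rw [hD, Polynomial.eval₂_sub, Polynomial.eval₂_pow, Polynomial.eval₂_X, Polynomial.eval₂_C]
    simp
  have hevR : (h88_PhiBar p Φ %ₘ D).eval₂
      (Polynomial.aeval (R := ZMod p) ((jqModC (ZMod p)) ^ p)).toRingHom
      (jqModC (ZMod p)) = 0 := by
    have h := h88_PhiBar_eval_j p Φ
    rw [← hdiv, Polynomial.eval₂_add, Polynomial.eval₂_mul, hevD, zero_mul, add_zero] at h
    exact h
  have hR0 : h88_PhiBar p Φ %ₘ D = 0 := h88_eq_zero_of_eval_j_pow p _ hRdeg hevR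
  rw [hR0, zero_add] at hdiv
  -- the quotient is monic of degree one
  have hmon : (D * (h88_PhiBar p Φ /ₘ D)).Monic := by
    rw [hdiv]; exact h88_PhiBar_monic p Φ
  have hQmonic : (h88_PhiBar p Φ /ₘ D).Monic := hDmonic.of_mul_monic_left hmon
  have hQdeg : (h88_PhiBar p Φ /ₘ D).natDegree = 1 := by
    have h := congrArg Polynomial.natDegree hdiv
    rw [hDmonic.natDegree_mul hQmonic, hDdeg, h88_PhiBar_natDegree] at h
    omega
  have hQ := hQmonic.eq_X_add_C hQdeg
  -- evaluate at `X = Y ^ p`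
  have hev := h88_PhiBar_eval_X_pow p Φ
  have hDev : D.eval ((Polynomial.X : Polynomial (ZMod p)) ^ p)
      = ((Polynomial.X : Polynomial (ZMod p)) ^ p) ^ p - Polynomial.X := by
    rw [hD, Polynomial.eval_sub, Polynomial.eval_pow, Polynomial.eval_X, Polynomial.eval_C]
  have hQev : (h88_PhiBar p Φ /ₘ D).eval ((Polynomial.X : Polynomial (ZMod p)) ^ p)
      = (Polynomial.X : Polynomial (ZMod p)) ^ p + (h88_PhiBar p Φ /ₘ D).coeff 0 := by
    conv_lhs => rw [hQ, Polynomial.eval_add, Polynomial.eval_X, Polynomial.eval_C]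
  rw [← hdiv, Polynomial.eval_mul, hDev, hQev] at hev
  have hne : ((Polynomial.X : Polynomial (ZMod p)) ^ p) ^ p - Polynomial.X ≠ 0 := by
    intro h0
    have h1 := congrArg (fun q => Polynomial.coeff q 1) h0
    simp only [Polynomial.coeff_sub, Polynomial.coeff_X_one, Polynomial.coeff_zero] at h1
    rw [← pow_mul, Polynomial.coeff_X_pow, if_neg (by nlinarith), zero_sub] at h1
    exact one_ne_zero (neg_eq_zero.mp h1)
  have hc : (h88_PhiBar p Φ /ₘ D).coeff 0 = -((Polynomial.X : Polynomial (ZMod p)) ^ p) := by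
    rcases mul_eq_zero.mp hev with h | h
    · exact absurd h hne
    · exact eq_neg_of_add_eq_zero_right h
  rw [← hdiv]
  conv_lhs => rw [hQ, hc, Polynomial.C_neg, ← sub_eq_add_neg]

/-- Kronecker congruence over any commutative ring `k` of characteristic `p`. -/
theorem h88_kronecker_charP (k : Type*) [CommRing k] [CharP k p] (Φ : ModPolyData p) :
    Φ.Φ.map (Polynomial.mapRingHom (Int.castRingHom k)) =
      ((Polynomial.X : Polynomial (Polynomial k)) ^ p
          - Polynomial.C (Polynomial.X : Polynomial k))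
        * (Polynomial.X - Polynomial.C ((Polynomial.X : Polynomial k) ^ p)) := by
  have h := congrArg (Polynomial.map (Polynomial.mapRingHom (ZMod.castHom (dvd_refl p) k)))
    (h88_kronecker p Φ)
  rw [h88_PhiBar, Polynomial.map_map] at h
  have hcomp : (Polynomial.mapRingHom (ZMod.castHom (dvd_refl p) k)).comp
      (Polynomial.mapRingHom (Int.castRingHom (ZMod p)))
      = Polynomial.mapRingHom (Int.castRingHom k) := by
    apply Polynomial.ringHom_ext
    · intro a
      simp
    · simp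
  rw [hcomp] at h
  rw [h]
  simp

/-- Kronecker congruence over `ℤ`: `Φ_p = (X^p - Y)(X - Y^p) + p · Θ`. -/
theorem h88_kronecker_int (Φ : ModPolyData p) :
    ∃ Θ : Polynomial (Polynomial ℤ), Φ.Φ =
      ((Polynomial.X : Polynomial (Polynomial ℤ)) ^ p
          - Polynomial.C (Polynomial.X : Polynomial ℤ))
        * (Polynomial.X - Polynomial.C ((Polynomial.X : Polynomial ℤ) ^ p))
        + Polynomial.C (Polynomial.C (p : ℤ)) * Θ := by
  set G : Polynomial (Polynomial ℤ) := Φ.Φ -
      ((Polynomial.X : Polynomial (Polynomial ℤ)) ^ p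
          - Polynomial.C (Polynomial.X : Polynomial ℤ))
        * (Polynomial.X - Polynomial.C ((Polynomial.X : Polynomial ℤ) ^ p)) with hG
  have hG0 : G.map (Polynomial.mapRingHom (Int.castRingHom (ZMod p))) = 0 := by
    rw [hG, Polynomial.map_sub]
    have h := h88_kronecker p Φ
    rw [h88_PhiBar] at h
    rw [h]
    simp
  have hdvd : ∀ i j, (p : ℤ) ∣ (G.coeff i).coeff j := by
    intro i j
    have h1 := congrArg (fun q => (Polynomial.coeff q i).coeff j) hG0
    simp only [Polynomial.coeff_map, Polynomial.coe_mapRingHom, Polynomial.coeff_zero] at h1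
    exact (ZMod.intCast_zmod_eq_zero_iff_dvd _ p).mp h1
  have hdvd2 : Polynomial.C (Polynomial.C (p : ℤ)) ∣ G := by
    rw [Polynomial.C_dvd_iff_dvd_coeff]
    intro i
    rw [Polynomial.C_dvd_iff_dvd_coeff]
    intro j
    exact hdvd i j
  obtain ⟨Θ, hΘ⟩ := hdvd2
  exact ⟨Θ, by rw [← hΘ, hG]; ring⟩

end Kronecker

end Fermat.Agent.S28

end

end
-- ===== PACK-END S28/H88/Kronecker.lean

-- ===== PACK-BEGIN A2/Mod/H816/L3.lean
section



/-!
# A2 / MOD leaf L3 (helper816): `vinfGauss : VinfGaussStatement P E w`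

If `u ∈ F_N` is the image of an `R`-integral series `U = t^{-a}(c + …)`, `a > 0`, `c ∈ Rˣ`, then
for every `p ∈ R[X]` not divisible by the uniformiser `w`, `p(u)` is a unit of the Gauss
valuation ring `V∞`.

Proof: `p(u)` is the image of the integral series `Q = p(U)`; its reduction is `p̄(Ū) ≠ 0`
(`L3Poly.eval₂_C_ne_zero_of_polar`), so `Q` is primitive, and `p(u) = Q / 1`, `p(u)⁻¹ = 1 / Q`
are Gauss-integral.
-/

set_option autoImplicit false
set_option synthInstance.maxHeartbeats 400000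
set_option maxHeartbeats 1600000

noncomputable section

namespace Fermat.Agent.A2.Mod.H816

open ModularCurve HahnSeries Polynomial Fermat.Agent.A2 Fermat.Agent.A2.Mod

variable (P : ValuationSubring _root_.Fermat.Agent.A2.Mod.Qb) (E : IntermediateField ℚ _root_.Fermat.Agent.A2.Mod.Qb)

/-- `coeffMap` commutes with constants. -/
theorem coeffMap_comp_C {R S : Type*} [CommRing R] [CommRing S] (f : R →+* S) :
    (coeffMap f).comp (HahnSeries.C : R →+* LaurentSeries R) =
      (HahnSeries.C : S →+* LaurentSeries S).comp f := by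
  ext r : 1
  show coeffMap f (HahnSeries.single 0 r) = HahnSeries.single 0 (f r)
  exact coeffMap_single f 0 r

/-- The integral series `p(U)`. -/
def polyAt (p : Polynomial (_root_.Fermat.Agent.A2.Mod.RE P E)) (U : LaurentSeries (_root_.Fermat.Agent.A2.Mod.RE P E)) : LaurentSeries (_root_.Fermat.Agent.A2.Mod.RE P E) :=
  p.eval₂ (HahnSeries.C : _root_.Fermat.Agent.A2.Mod.RE P E →+* LaurentSeries (_root_.Fermat.Agent.A2.Mod.RE P E)) U

theorem incl_polyAt (N : ℕ) (p : Polynomial (_root_.Fermat.Agent.A2.Mod.RE P E)) (U : LaurentSeries (_root_.Fermat.Agent.A2.Mod.RE P E))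
    (u : _root_.Fermat.Agent.A2.Mod.FE E N) (hu : (u : LaurentSeries E) = H708.incl (_root_.Fermat.Agent.A2.Mod.RE P E) U) :
    ((ev P E N u p : _root_.Fermat.Agent.A2.Mod.FE E N) : LaurentSeries E) = H708.incl (_root_.Fermat.Agent.A2.Mod.RE P E) (polyAt P E p U) := by
  unfold ev polyAt
  have h1 : ((p.eval₂ ((algebraMap E (_root_.Fermat.Agent.A2.Mod.FE E N)).comp (_root_.Fermat.Agent.A2.Mod.RE P E).subtype) u : _root_.Fermat.Agent.A2.Mod.FE E N) :
      LaurentSeries E) =
      p.eval₂ (((_root_.Fermat.Agent.A2.Mod.FE E N).val : _root_.Fermat.Agent.A2.Mod.FE E N →+* LaurentSeries E).comp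
        ((algebraMap E (_root_.Fermat.Agent.A2.Mod.FE E N)).comp (_root_.Fermat.Agent.A2.Mod.RE P E).subtype)) (u : LaurentSeries E) :=
    Polynomial.hom_eval₂ p _ ((_root_.Fermat.Agent.A2.Mod.FE E N).val : _root_.Fermat.Agent.A2.Mod.FE E N →+* LaurentSeries E) u
  rw [h1, hu]
  rw [H708.incl, Polynomial.hom_eval₂, coeffMap_comp_C]
  congr 1
  ext r : 1
  show ((algebraMap E (_root_.Fermat.Agent.A2.Mod.FE E N) (r : E) : _root_.Fermat.Agent.A2.Mod.FE E N) : LaurentSeries E) =
    HahnSeries.C ((r : E))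
  rw [IntermediateField.coe_algebraMap_apply, algebraMap_laurentSeries_eq_single]
  rfl

theorem red_polyAt (p : Polynomial (_root_.Fermat.Agent.A2.Mod.RE P E)) (U : LaurentSeries (_root_.Fermat.Agent.A2.Mod.RE P E)) :
    H708.red (_root_.Fermat.Agent.A2.Mod.RE P E) (polyAt P E p U) =
      (p.map (IsLocalRing.residue (_root_.Fermat.Agent.A2.Mod.RE P E))).eval₂
        (HahnSeries.C : IsLocalRing.ResidueField (_root_.Fermat.Agent.A2.Mod.RE P E) →+*
          LaurentSeries (IsLocalRing.ResidueField (_root_.Fermat.Agent.A2.Mod.RE P E))) (H708.red (_root_.Fermat.Agent.A2.Mod.RE P E) U) := by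
  unfold polyAt
  rw [H708.red, Polynomial.hom_eval₂, coeffMap_comp_C, Polynomial.eval₂_map]

/-- The reduction of `p` is nonzero if `w ∤ p`. -/
theorem map_residue_ne_zero [IsDiscreteValuationRing (_root_.Fermat.Agent.A2.Mod.RE P E)] {w : _root_.Fermat.Agent.A2.Mod.RE P E} (hw : Irreducible w)
    {p : Polynomial (_root_.Fermat.Agent.A2.Mod.RE P E)} (hp : ¬ Polynomial.C w ∣ p) :
    p.map (IsLocalRing.residue (_root_.Fermat.Agent.A2.Mod.RE P E)) ≠ 0 := by
  intro h
  apply hp
  rw [Polynomial.C_dvd_iff_dvd_coeff]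
  intro i
  have h1 : (p.map (IsLocalRing.residue (_root_.Fermat.Agent.A2.Mod.RE P E))).coeff i = 0 := by rw [h]; simp
  rw [Polynomial.coeff_map, IsLocalRing.residue_eq_zero_iff] at h1
  rw [(IsDiscreteValuationRing.irreducible_iff_uniformizer w).mp hw,
    Ideal.mem_span_singleton] at h1
  exact h1

/-- **L3.** -/
theorem vinfGauss (w : _root_.Fermat.Agent.A2.Mod.RE P E) : VinfGaussStatement P E w := by
  intro N _hN hdvr hw V hV u U a ha hu h0 hc p hp
  have := hdvr
  set Q := polyAt P E p U with hQ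
  have hincl := incl_polyAt P E N p U u hu
  -- `Q` is primitive
  have hred : H708.red (_root_.Fermat.Agent.A2.Mod.RE P E) Q ≠ 0 := by
    rw [hQ, red_polyAt]
    refine eval₂_C_ne_zero_of_polar (a := -(a : ℤ)) (by omega) ?_ ?_
      (map_residue_ne_zero P E hw hp)
    · intro n hn
      show (IsLocalRing.residue (_root_.Fermat.Agent.A2.Mod.RE P E)) (U.coeff n) = 0
      rw [h0 n hn, map_zero]
    · show (IsLocalRing.residue (_root_.Fermat.Agent.A2.Mod.RE P E)) (U.coeff (-(a : ℤ))) ≠ 0
      rw [Ne, IsLocalRing.residue_eq_zero_iff]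
      exact fun hmem => (IsLocalRing.mem_maximalIdeal _).mp hmem hc
  have hQ0 : Q ≠ 0 := H708.ne_zero_of_red_ne_zero _ hred
  have hne : ((ev P E N u p : _root_.Fermat.Agent.A2.Mod.FE E N) : LaurentSeries E) ≠ 0 := by
    rw [hincl]; exact H708.incl_ne_zero _ hQ0
  have hmemF : H708.incl (_root_.Fermat.Agent.A2.Mod.RE P E) Q ∈ laurentBaseChange E (modularFunctionFieldFull N) := by
    rw [← hincl]; exact (ev P E N u p).2
  constructor
  · rw [hV, hincl]
    exact H708.IsGaussInt.of_incl Q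
  · rw [hV]
    refine ⟨1, Q, hred, hmemF, ?_⟩
    have hcoe : (((ev P E N u p)⁻¹ : _root_.Fermat.Agent.A2.Mod.FE E N) : LaurentSeries E) =
        ((ev P E N u p : _root_.Fermat.Agent.A2.Mod.FE E N) : LaurentSeries E)⁻¹ := rfl
    rw [hcoe, ← hincl, map_one]
    exact inv_mul_cancel₀ hne

end Fermat.Agent.A2.Mod.H816

end

end
-- ===== PACK-END A2/Mod/H816/L3.lean

-- ===== PACK-BEGIN S18/H203/KBasis.lean
section


/-!
# S18 / b1 (helper203): the lifted family is a basis of the generic fibre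

Same setting as `LiftBasis.lean`; moreover `F / K` is algebraic.  If the reductions of
`b : ι → B` form an `S̄`-basis of `B̄ = B ⧸ (w) B` then the images of the `b i` in `F` form a
`K`-basis of `F` (`basisOfLift`), so `card ι = [F : K]` (`card_eq_finrank`).
-/

set_option autoImplicit false

namespace Fermat.Agent.S18.H203

open Ideal

section

variable {S B : Type*} [CommRing S] [IsDomain S] [CommRing B] [Algebra S B]

/-- The integral closure in a field is torsion-free over the base. -/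
theorem isTorsionFree_of_isIntegralClosure (K F : Type*) [Field K] [Algebra S K]
    [IsFractionRing S K] [Field F] [Algebra K F] [Algebra S F] [IsScalarTower S K F]
    [Algebra B F] [IsScalarTower S B F] [IsIntegralClosure B S F] :
    Module.IsTorsionFree S B := by
  have hinjSF : Function.Injective (algebraMap S F) := by
    rw [IsScalarTower.algebraMap_eq S K F]
    exact (algebraMap K F).injective.comp (IsFractionRing.injective S K)
  have h1 : Module.IsTorsionFree S F := Module.isTorsionFree_iff_algebraMap_injective.mpr hinjSF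
  exact Function.Injective.moduleIsTorsionFree (algebraMap B F)
    (IsIntegralClosure.algebraMap_injective B S F) fun r m => by
      rw [Algebra.smul_def, map_mul, ← IsScalarTower.algebraMap_apply, Algebra.smul_def]

variable [IsNoetherianRing S] {ι : Type*} [Fintype ι]

/-- The lifts are linearly independent over `K` in `F`. -/
theorem linearIndependent_map_lift (K F : Type*) [Field K] [Algebra S K]
    [IsFractionRing S K] [Field F] [Algebra K F] [Algebra S F] [IsScalarTower S K F]
    [Algebra B F] [IsScalarTower S B F] [IsIntegralClosure B S F]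
    {w : S} (hw : Prime w) (b : ι → B)
    (hli : LinearIndependent (S ⧸ Ideal.span {w}) fun i => redB (S := S) w (b i)) :
    LinearIndependent K fun i => algebraMap B F (b i) := by
  have htf : Module.IsTorsionFree S B := isTorsionFree_of_isIntegralClosure K F
  have h1 : LinearIndependent S b := linearIndependent_lift hw b hli
  have h2 : LinearIndependent S fun i => algebraMap B F (b i) := by
    have := h1.map' (IsScalarTower.toAlgHom S B F).toLinearMap
      (LinearMap.ker_eq_bot.mpr (IsIntegralClosure.algebraMap_injective B S F))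
    exact this
  exact (LinearIndependent.iff_fractionRing S K).mp h2

omit [IsNoetherianRing S] in
/-- The lifts span `F` over `K`. -/
theorem span_map_lift_eq_top (K F : Type*) [Field K] [Algebra S K]
    [IsFractionRing S K] [Field F] [Algebra K F] [Algebra S F] [IsScalarTower S K F]
    [Algebra B F] [IsScalarTower S B F] [IsIntegralClosure B S F]
    [Module.Finite S B] [Algebra.IsAlgebraic K F]
    (w : S) (hw1 : ¬ IsUnit w) (b : ι → B)
    (hspan : Submodule.span (S ⧸ Ideal.span {w}) (Set.range fun i => redB (S := S) w (b i)) = ⊤) :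
    Submodule.span K (Set.range fun i => algebraMap B F (b i)) = ⊤ := by
  obtain ⟨r, hr1, hr⟩ := exists_smul_mem_span w b hspan
  have hinjSK : Function.Injective (algebraMap S K) := IsFractionRing.injective S K
  have hr0 : r ≠ 0 := by
    rintro rfl
    rw [zero_sub, neg_mem_iff, Ideal.mem_span_singleton] at hr1
    exact hw1 (isUnit_of_dvd_one hr1)
  rw [eq_top_iff]
  intro f _
  -- `f` has an integral multiple
  have hf : IsAlgebraic S f := by
    have := Algebra.IsAlgebraic.isAlgebraic (R := K) f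
    exact (IsFractionRing.isAlgebraic_iff S K F).mpr this
  obtain ⟨y, hy0, hy⟩ := hf.exists_integral_multiple
  obtain ⟨β, hβ⟩ := (IsIntegralClosure.isIntegral_iff (A := B)).mp hy
  -- `r • β ∈ span_S b`
  have h1 := hr β
  have h2 : algebraMap B F (r • β) ∈
      Submodule.span K (Set.range fun i => algebraMap B F (b i)) := by
    have h3 : (IsScalarTower.toAlgHom S B F).toLinearMap (r • β) ∈
        Submodule.map (IsScalarTower.toAlgHom S B F).toLinearMap
          (Submodule.span S (Set.range b)) := Submodule.mem_map_of_mem h1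
    rw [Submodule.map_span, ← Set.range_comp] at h3
    have h4 : Submodule.span S (Set.range ((IsScalarTower.toAlgHom S B F).toLinearMap ∘ b)) ≤
        (Submodule.span K (Set.range fun i => algebraMap B F (b i))).restrictScalars S := by
      rw [Submodule.span_le]
      rintro _ ⟨i, rfl⟩
      exact Submodule.subset_span ⟨i, rfl⟩
    exact h4 h3
  have h5 : algebraMap B F (r • β) = (algebraMap S K (r * y)) • f := by
    rw [Algebra.smul_def r β, map_mul, hβ, ← IsScalarTower.algebraMap_apply,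
      Algebra.smul_def y f, Algebra.smul_def, ← IsScalarTower.algebraMap_apply, map_mul]
    ring
  rw [h5] at h2
  have h6 : algebraMap S K (r * y) ≠ 0 := by
    simpa using (map_ne_zero_iff _ hinjSK).mpr (mul_ne_zero hr0 hy0)
  have h7 := Submodule.smul_mem _ (algebraMap S K (r * y))⁻¹ h2
  rwa [smul_smul, inv_mul_cancel₀ h6, one_smul] at h7

/-- **The lifted basis of the generic fibre.** -/
noncomputable def basisOfLift (K F : Type*) [Field K] [Algebra S K]
    [IsFractionRing S K] [Field F] [Algebra K F] [Algebra S F] [IsScalarTower S K F]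
    [Algebra B F] [IsScalarTower S B F] [IsIntegralClosure B S F]
    [Module.Finite S B] [Algebra.IsAlgebraic K F]
    {w : S} (hw : Prime w) (b : ι → B)
    (hli : LinearIndependent (S ⧸ Ideal.span {w}) fun i => redB (S := S) w (b i))
    (hspan : Submodule.span (S ⧸ Ideal.span {w}) (Set.range fun i => redB (S := S) w (b i)) = ⊤) :
    Module.Basis ι K F :=
  Module.Basis.mk (linearIndependent_map_lift K F hw b hli)
    (span_map_lift_eq_top K F w hw.not_isUnit b hspan).ge

@[simp]
theorem basisOfLift_apply (K F : Type*) [Field K] [Algebra S K]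
    [IsFractionRing S K] [Field F] [Algebra K F] [Algebra S F] [IsScalarTower S K F]
    [Algebra B F] [IsScalarTower S B F] [IsIntegralClosure B S F]
    [Module.Finite S B] [Algebra.IsAlgebraic K F]
    {w : S} (hw : Prime w) (b : ι → B)
    (hli : LinearIndependent (S ⧸ Ideal.span {w}) fun i => redB (S := S) w (b i))
    (hspan : Submodule.span (S ⧸ Ideal.span {w}) (Set.range fun i => redB (S := S) w (b i)) = ⊤)
    (i : ι) : basisOfLift K F hw b hli hspan i = algebraMap B F (b i) := by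
  simp [basisOfLift]

/-- The rank of the special fibre is the degree of the generic fibre. -/
theorem card_eq_finrank (K F : Type*) [Field K] [Algebra S K]
    [IsFractionRing S K] [Field F] [Algebra K F] [Algebra S F] [IsScalarTower S K F]
    [Algebra B F] [IsScalarTower S B F] [IsIntegralClosure B S F]
    [Module.Finite S B] [Algebra.IsAlgebraic K F]
    {w : S} (hw : Prime w) (b : ι → B)
    (hli : LinearIndependent (S ⧸ Ideal.span {w}) fun i => redB (S := S) w (b i))
    (hspan : Submodule.span (S ⧸ Ideal.span {w}) (Set.range fun i => redB (S := S) w (b i)) = ⊤) :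
    Fintype.card ι = Module.finrank K F :=
  (Module.finrank_eq_card_basis (basisOfLift K F hw b hli hspan)).symm

end

end Fermat.Agent.S18.H203

end
-- ===== PACK-END S18/H203/KBasis.lean

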