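import Mathlib
import Fermat.Prelude.Thm_CuspForm_mem_intLattice_of_mem_heckeAlgebra
import Fermat.Prelude.Def_ModularCurve_ReductionModL
import Fermat.Agent.Pack.S44C.G0E16L1
import Fermat.Agent.Pack.S44C.G0E6L3
import Fermat.Agent.Pack.S44C.G0E16L3
import Fermat.Agent.Pack.S44C.G0E16L2
import Fermat.Agent.Pack.S44C.G1E0L0
import Fermat.Agent.Pack.S44C.G0E0L1
import Fermat.Agent.Pack.S44C.G0E14L3
import Fermat.Agent.Pack.S44C.G0E2L3
import Fermat.Agent.Pack.S44C.G0E14L2
import Fermat.Agent.Pack.S44C.G0E11L0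
import Fermat.Agent.Pack.S44C.G0E1L0
import Fermat.Agent.Pack.S44C.G0E17L3
import Fermat.Agent.Pack.S44C.G0E3L0
import Fermat.Agent.Pack.S44C.G0E17L2
import Fermat.Agent.Pack.S44C.G0E12L3
import Fermat.Agent.Pack.S44C.G0E4L2
import Fermat.Agent.Pack.S44C.G0E17L1
import Fermat.Agent.Pack.Fast891

-- ===== PACK-BEGIN S05/AssembleFinal.lean
section
/-
S05 final assembly (helper665): `P.GaloisRepUnramifiedAt q` from the two abstract facts
(C1b) = `HC1` and (C3c) = `HC3`.
-/


set_option autoImplicit false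

namespace Fermat.Agent.S05.Assemble

open WeierstrassCurve WeierstrassCurve.Affine WeierstrassCurve.Affine.Point
open Fermat.Agent.S05.SameRed

set_option linter.unusedSectionVars false
set_option linter.unusedVariables false

/-- (C1b) specialised to `ℚ̄`: the kernel of reduction has no odd torsion prime to the residue
characteristic. -/
def HC1 : Prop :=
  ∀ (A : ValuationSubring Qb) (W : Affine Qb), IntegralCoeffs W A.valuation →
    A.valuation (2 : Qb) = 1 → ∀ n : ℕ, Odd n → A.valuation (n : Qb) = 1 →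
    KerTorsionFree W A.valuation n

/-- (C3c) specialised to `ℚ̄`. -/
def HC3 : Prop :=
  ∀ (A : ValuationSubring Qb) (W : Affine Qb), IntegralCoeffs W A.valuation →
    A.valuation (2 : Qb) = 1 → ∀ e₁ α β : Qb, Roots W e₁ (e₁ + α) (e₁ + β) →
    A.valuation e₁ ≤ 1 → α ≠ 0 → A.valuation α < 1 → A.valuation β = 1 →
    ∀ n : ℕ, Odd n → A.valuation (n : Qb) = 1 → KerTorsionFree W A.valuation n →
    NodeTorsion W A.valuation e₁ α n

lemma fA_ne_zero (P : FreyPackage) : fA P ≠ 0 := by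
  simp only [fA]
  exact_mod_cast pow_ne_zero _ P.ha0

lemma fB_ne_zero (P : FreyPackage) : fB P ≠ 0 := by
  simp only [fB]
  exact_mod_cast pow_ne_zero _ P.hb0

lemma fC_ne_zero (P : FreyPackage) : fC P ≠ 0 := by
  simp only [fC]
  exact_mod_cast pow_ne_zero _ P.hc0

lemma sigma_int (σ : Qb ≃ₐ[ℚ] Qb) (n : ℤ) : σ (n : Qb) = (n : Qb) := map_intCast σ n

lemma sigma_fA (P : FreyPackage) (σ : Qb ≃ₐ[ℚ] Qb) : σ (fA P) = fA P := sigma_int σ _
lemma sigma_fB (P : FreyPackage) (σ : Qb ≃ₐ[ℚ] Qb) : σ (fB P) = fB P := sigma_int σ _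
lemma sigma_fC (P : FreyPackage) (σ : Qb ≃ₐ[ℚ] Qb) : σ (fC P) = fC P := sigma_int σ _

lemma val_div_four {A : ValuationSubring Qb} (h4 : A.valuation (4 : Qb) = 1) (z : Qb) :
    A.valuation (z / 4) = A.valuation z := by
  rw [map_div₀, h4, div_one]

lemma val_neg_div_four {A : ValuationSubring Qb} (h4 : A.valuation (4 : Qb) = 1) (z : Qb) :
    A.valuation (-z / 4) = A.valuation z := by
  rw [map_div₀, h4, div_one, Valuation.map_neg]

/-- `v (π) ^ p = v (α) ^ 2` for `π = t ^ 2`, `α = ± t ^ p / 4`. -/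
lemma val_sq_pow {A : ValuationSubring Qb} (t : ℤ) (p : ℕ) :
    A.valuation (((t ^ 2 : ℤ) : Qb)) ^ p = A.valuation (((t ^ p : ℤ) : Qb)) ^ 2 := by
  push_cast
  rw [map_pow, map_pow, ← pow_mul, ← pow_mul, mul_comm]

theorem unramified_of (h1 : HC1) (h3 : HC3) (P : FreyPackage) {q : ℕ} (hq : q.Prime)
    (hq2 : q ≠ 2) (hqp : q ≠ P.p) : P.GaloisRepUnramifiedAt q := by
  intro A hA σ hσ x
  obtain ⟨pt, hpt⟩ := x
  apply Subtype.ext
  show Point.map (W' := P.freyCurve) σ.toAlgHom pt = pt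
  have hP : P.p • pt = 0 := by
    have := (Submodule.mem_torsionBy_iff _ _).mp hpt
    rwa [natCast_zsmul] at this
  have hW := frey_integral (P := P) hA hq hq2
  have h2 := val_two_eq_one hA hq hq2
  have h4 := val_four_eq_one hA hq hq2
  have hp := val_p_eq_one (P := P) hA hq hqp
  have hodd : Odd P.p := P.hp_odd
  have hC1 := h1 A (P.freyCurve⁄Qb) hW h2 P.p hodd hp
  have hres := inertia_res A hσ
  have hσ₁ : (σ : Qb →+* Qb) (P.freyCurve⁄Qb).a₁ = (P.freyCurve⁄Qb).a₁ := by
    rw [frey_a₁]; exact map_one _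
  have hσ₃ : (σ : Qb →+* Qb) (P.freyCurve⁄Qb).a₃ = (P.freyCurve⁄Qb).a₃ := by
    rw [frey_a₃]; exact _root_.map_zero _
  have hτ : ∀ (x y : Qb) (h : (P.freyCurve⁄Qb).Nonsingular x y),
      ∃ h' : (P.freyCurve⁄Qb).Nonsingular ((σ : Qb →+* Qb) x) ((σ : Qb →+* Qb) y),
        Point.map (W' := P.freyCurve) σ.toAlgHom (Point.some x y h) =
          Point.some ((σ : Qb →+* Qb) x) ((σ : Qb →+* Qb) y) h' := by
    intro x y h
    exact ⟨_, Point.map_some (W' := P.freyCurve) σ.toAlgHom h⟩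
  have hroots := frey_roots P
  by_cases ha : (q : ℤ) ∣ P.a
  · -- node at `x ≡ 0`, small root `a^p / 4`
    have hb : ¬ (q : ℤ) ∣ P.b := not_dvd_of_gcd_eq_one hq P.hgcdab ha
    have hr : Roots (P.freyCurve⁄Qb) 0 (0 + fA P / 4) (0 + -(fB P) / 4) := by
      simpa using hroots
    have hα : A.valuation (fA P / 4) < 1 := by
      rw [val_div_four h4]; exact val_fA_lt_one hA ha
    have hβ : A.valuation (-(fB P) / 4) = 1 := by
      rw [val_neg_div_four h4]; exact val_fB_eq_one hA hq hb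
    have hα0 : fA P / 4 ≠ 0 := div_ne_zero (fA_ne_zero P) four_ne_zero_Qb
    have hπ : A.valuation (((P.a ^ 2 : ℤ) : Qb)) ^ P.p = A.valuation (fA P / 4) ^ 2 := by
      rw [val_div_four h4]; exact val_sq_pow _ _
    have hC3 := h3 A (P.freyCurve⁄Qb) hW h2 0 (fA P / 4) (-(fB P) / 4) hr
      (by rw [_root_.map_zero]; exact zero_le_one) hα0 hα hβ P.p hodd hp hC1
    exact fixed_of_node hW h2 (σ : Qb →+* Qb) hres hσ₁ hσ₃ _ hτ hodd hC1 hr
      (by rw [_root_.map_zero]; exact zero_le_one) hα hβ (_root_.map_zero _)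
      (π := ((P.a ^ 2 : ℤ) : Qb)) (sigma_int σ _) hπ hC3 pt hP
  by_cases hb : (q : ℤ) ∣ P.b
  · -- node at `x ≡ 0`, small root `-b^p / 4`
    have hr : Roots (P.freyCurve⁄Qb) 0 (0 + -(fB P) / 4) (0 + fA P / 4) := by
      have := hroots.swap₁₂.swap₁₃.swap₁₂
      simpa using this
    have hα : A.valuation (-(fB P) / 4) < 1 := by
      rw [val_neg_div_four h4]; exact val_fB_lt_one hA hb
    have hβ : A.valuation (fA P / 4) = 1 := by
      rw [val_div_four h4]; exact val_fA_eq_one hA hq ha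
    have hα0 : -(fB P) / 4 ≠ 0 := div_ne_zero (neg_ne_zero.mpr (fB_ne_zero P)) four_ne_zero_Qb
    have hπ : A.valuation (((P.b ^ 2 : ℤ) : Qb)) ^ P.p = A.valuation (-(fB P) / 4) ^ 2 := by
      rw [val_neg_div_four h4]; exact val_sq_pow _ _
    have hC3 := h3 A (P.freyCurve⁄Qb) hW h2 0 (-(fB P) / 4) (fA P / 4) hr
      (by rw [_root_.map_zero]; exact zero_le_one) hα0 hα hβ P.p hodd hp hC1
    exact fixed_of_node hW h2 (σ : Qb →+* Qb) hres hσ₁ hσ₃ _ hτ hodd hC1 hr
      (by rw [_root_.map_zero]; exact zero_le_one) hα hβ (_root_.map_zero _)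
      (π := ((P.b ^ 2 : ℤ) : Qb)) (sigma_int σ _) hπ hC3 pt hP
  by_cases hc : (q : ℤ) ∣ P.c
  · -- node at `x ≡ a^p / 4 ≡ -b^p / 4`, small root difference `-c^p / 4`
    have hABC := fA_add_fB P
    have hr : Roots (P.freyCurve⁄Qb) (fA P / 4) (fA P / 4 + -(fC P) / 4)
        (fA P / 4 + -(fA P) / 4) := by
      have h' := hroots.swap₁₂
      have e1 : fA P / 4 + -(fC P) / 4 = -(fB P) / 4 := by rw [← hABC]; ring
      have e2 : fA P / 4 + -(fA P) / 4 = 0 := by ring
      rw [e1, e2]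
      exact hroots.swap₁₃.swap₁₂
    have he : A.valuation (fA P / 4) ≤ 1 := by
      rw [val_div_four h4]; exact val_fA_le_one
    have hα : A.valuation (-(fC P) / 4) < 1 := by
      rw [val_neg_div_four h4]; exact val_fC_lt_one hA hc
    have hβ : A.valuation (-(fA P) / 4) = 1 := by
      rw [val_neg_div_four h4]; exact val_fA_eq_one hA hq ha
    have hα0 : -(fC P) / 4 ≠ 0 := div_ne_zero (neg_ne_zero.mpr (fC_ne_zero P)) four_ne_zero_Qb
    have hπ : A.valuation (((P.c ^ 2 : ℤ) : Qb)) ^ P.p = A.valuation (-(fC P) / 4) ^ 2 := by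
      rw [val_neg_div_four h4]; exact val_sq_pow _ _
    have hσe : (σ : Qb →+* Qb) (fA P / 4) = fA P / 4 := by
      simp only [fA, map_div₀, map_intCast, map_ofNat]
    have hC3 := h3 A (P.freyCurve⁄Qb) hW h2 (fA P / 4) (-(fC P) / 4) (-(fA P) / 4) hr
      he hα0 hα hβ P.p hodd hp hC1
    exact fixed_of_node hW h2 (σ : Qb →+* Qb) hres hσ₁ hσ₃ _ hτ hodd hC1 hr
      he hα hβ hσe
      (π := ((P.c ^ 2 : ℤ) : Qb)) (sigma_int σ _) hπ hC3 pt hP
  · -- good reduction
    have hA1 := val_fA_eq_one hA hq ha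
    have hB1 := val_fB_eq_one hA hq hb
    have hC1' := val_fC_eq_one hA hq hc
    have hABC := fA_add_fB P
    refine fixed_of_good hW h2 (σ : Qb →+* Qb) hres hσ₁ hσ₃ _ hτ hodd hC1 hroots
      (by rw [_root_.map_zero]; exact zero_le_one)
      (by rw [val_div_four h4]; exact val_fA_le_one)
      (by rw [val_neg_div_four h4]; exact val_fB_le_one) ?_ ?_ ?_ pt hP
    · have : (0 : Qb) - fA P / 4 = -(fA P) / 4 := by ring
      rw [this, val_neg_div_four h4]; exact hA1
    · have : (0 : Qb) - -(fB P) / 4 = fB P / 4 := by ring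
      rw [this, val_div_four h4]; exact hB1
    · have : fA P / 4 - -(fB P) / 4 = fC P / 4 := by rw [← hABC]; ring
      rw [this, val_div_four h4]; exact hC1'

end Fermat.Agent.S05.Assemble

end
-- ===== PACK-END S05/AssembleFinal.lean

-- ===== PACK-BEGIN Lib/Cheb/H476/FrobeniusDivision.lean
section



/-!
# CHEB Tier 1, END: the Frobenius division theorem at Prelude level

`frobeniusDivision : Spec.FrobeniusDivisionStatement` — for every finite extension `E ⊆ ℚ̄` of `ℚ`,
every `σ ∈ Gal(ℚ̄/ℚ)` and every finite set `S` of primes there are a prime `ℓ ∉ S`, a valuation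
subring `A` of `ℚ̄` over `ℓ` whose inertia group acts trivially on `E`, and a Frobenius element `τ`
at `A` such that `τ = σ ^ k` and `σ = τ ^ j` on `E`.

Assembly: `H476.bridgeDivision` (F6) applied to `Cheb.frobFinite` (Z, B0, A, D, M).
-/

set_option autoImplicit false

namespace Fermat.Agent.Lib.Cheb.H476

open Fermat.Agent.Lib.Cheb.Spec

/-- **Frobenius division theorem**, Prelude level (Tier 1 of the shared library CHEB). -/
theorem frobeniusDivision : FrobeniusDivisionStatement :=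
  bridgeDivision Fermat.Agent.Lib.Cheb.frobFinite

/-- Unfolded form of `frobeniusDivision`, convenient for clients. -/
theorem exists_frobenius_division (E : IntermediateField ℚ Qb) [FiniteDimensional ℚ E]
    (σ : GQ) (S : Finset ℕ) :
    ∃ (ℓ : ℕ) (A : ValuationSubring Qb) (τ : GQ) (k j : ℕ),
      ℓ.Prime ∧ ℓ ∉ S ∧ A.LiesOverPrime ℓ ∧ A.IsFrobeniusAt τ ℓ ∧
      (∀ ι ∈ A.inertiaSubgroupIn ℚ, ∀ x ∈ E, ι x = x) ∧
      (∀ x ∈ E, τ x = (σ ^ k) x) ∧ (∀ x ∈ E, (τ ^ j) x = σ x) :=
  _root_.Fermat.Agent.Lib.Cheb.H476.frobeniusDivision E inferInstance σ S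

end Fermat.Agent.Lib.Cheb.H476

end
-- ===== PACK-END Lib/Cheb/H476/FrobeniusDivision.lean

-- ===== PACK-BEGIN S52/H297/MFrob.lean
section



/-!
# Frobenius on `M`: `h ∘ Φ = q h` and `h ∘ (Φ - 1) = #E(F) · h`
-/

set_option autoImplicit false
set_option linter.unusedSectionVars false

open Polynomial WeierstrassCurve
open scoped WeierstrassCurve.Affine

namespace Fermat.Agent.S52.H297

open Fermat.Agent.Lib.FrobRel.H230 (frobPt frobPsi)

section General

variable {F : Type*} [Field F]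

lemma hgt_pow (u : RatFunc F) (n : ℕ) : hgt (u ^ n) = n * hgt u := by
  have hu := RatFunc.num_div_denom u
  have hd := RatFunc.denom_ne_zero u
  have hc := RatFunc.isCoprime_num_denom u
  have e : u ^ n = algebraMap F[X] (RatFunc F) (u.num ^ n)
      / algebraMap F[X] (RatFunc F) (u.denom ^ n) := by
    rw [map_pow, map_pow, ← div_pow, hu]
  rw [e, hgt_div_of_isCoprime (pow_ne_zero n hd) hc.pow, natDegree_pow, natDegree_pow]
  show max _ _ = n * max _ _
  rw [Nat.mul_max_mul_left]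

lemma exists_C_of_hgt_eq_zero {u : RatFunc F} (h : hgt u = 0) : ∃ c : F, u = RatFunc.C c := by
  have h1 : u.num.natDegree = 0 := by
    unfold hgt at h
    omega
  have h2 : u.denom.natDegree = 0 := by
    unfold hgt at h
    omega
  obtain ⟨a, ha⟩ := natDegree_eq_zero.mp h1
  obtain ⟨b, hb⟩ := natDegree_eq_zero.mp h2
  refine ⟨a / b, ?_⟩
  rw [← RatFunc.num_div_denom u, ← ha, ← hb, RatFunc.algebraMap_C, RatFunc.algebraMap_C, map_div₀]

end General

variable {F : Type*} [Field F] [Fintype F] [DecidableEq F] {W : WeierstrassCurve F}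
variable {K : Type*} [Field K] [Algebra F K] [DecidableEq K]
variable {ι : RatFunc F →ₐ[F] K} {y : K}

omit [Algebra F K] in
lemma some_congr_x {WK : Affine K} {x x' v : K} (h : WK.Nonsingular x v) (e : x = x') :
    ∃ h' : WK.Nonsingular x' v, Affine.Point.some x v h = Affine.Point.some x' v h' := by
  subst e
  exact ⟨h, rfl⟩

lemma frobPt_some' {x v : K} (h : (W⁄K).Nonsingular x v) :
    ∃ h' : (W⁄K).Nonsingular (x ^ Fintype.card F) (v ^ Fintype.card F),
      frobPt W K (Affine.Point.some x v h)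
        = Affine.Point.some (x ^ Fintype.card F) (v ^ Fintype.card F) h' :=
  ⟨_, Fermat.Agent.Lib.FrobRel.H230.frobPt_some W K h⟩

lemma y_pow_card (hs : TwistSetup W ι y) (hF : ringChar F ≠ 2) :
    y ^ Fintype.card F = y * ι (fRat W ^ (Fintype.card F / 2)) := by
  have hq := card_eq_two_mul_add_one (F := F) hF
  generalize Fintype.card F / 2 = m at hq
  rw [hq, pow_succ, pow_mul, hs.hy', map_pow]
  ring

lemma inM_frob (hs : TwistSetup W ι y) (hF : ringChar F ≠ 2) {P : (W⁄K).Point}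
    (hP : InM W ι y P) : InM W ι y (frobPt W K P) := by
  rcases P with _ | ⟨x, v, h⟩
  · exact trivial
  · obtain ⟨u, Y, hx, hv⟩ := hP
    refine ⟨u ^ Fintype.card F, fRat W ^ (Fintype.card F / 2) * Y ^ Fintype.card F, ?_, ?_⟩
    · show x ^ Fintype.card F = _
      rw [hx, map_pow]
    · show v ^ Fintype.card F = _
      rw [hv, mul_pow, y_pow_card hs hF]
      simp only [map_mul, map_pow]
      ring

/-- `h (Φ Q) = q · h (Q)` on `M`. -/
theorem ptHt_frob {P : (W⁄K).Point} (hP : InM W ι y P) :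
    ptHt W ι (frobPt W K P) = Fintype.card F * ptHt W ι P := by
  rcases P with _ | ⟨x, v, h⟩
  · show ptHt W ι 0 = _ * ptHt W ι 0
    rw [ptHt_zero, mul_zero]
  · obtain ⟨u, Y, hx, hv⟩ := hP
    subst hx
    rw [ptHt_some]
    have e : ∃ h', frobPt W K (Affine.Point.some (ι u) v h)
        = Affine.Point.some (ι (u ^ Fintype.card F)) (v ^ Fintype.card F) h' := by
      have hx : (ι u) ^ Fintype.card F = ι (u ^ Fintype.card F) := (map_pow ι u _).symm
      obtain ⟨h1, e1⟩ := frobPt_some' (W := W) h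
      rw [e1]
      exact some_congr_x _ hx
    obtain ⟨h', e⟩ := e
    rw [e, ptHt_some, hgt_pow]

lemma pow_card_ne_self {u : RatFunc F} (hu : hgt u ≠ 0) : u ^ Fintype.card F ≠ u := by
  intro e
  apply transcendental_of_hgt_ne_zero hu
  refine ⟨X ^ Fintype.card F - X, FiniteField.X_pow_card_sub_X_ne_zero F Fintype.one_lt_card, ?_⟩
  simp [e]

/-- **Manin's identification**: for `Q = (ι u, v) ∈ W(K)` with `u` non-constant, the
`x`-coordinate of `Φ Q - Q` is `ι (R(u))`, `R` Manin's rational function. -/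
theorem frob_sub_some (hs : TwistSetup W ι y) (hF : ringChar F ≠ 2) {u : RatFunc F} {v : K}
    (h : (W⁄K).Nonsingular (ι u) v) (hu : hgt u ≠ 0) :
    ∃ (v' : K) (h' : (W⁄K).Nonsingular (ι (subst u hu (maninR W.a₂ W.a₄ W.a₆))) v'),
      frobPt W K (Affine.Point.some (ι u) v h) - Affine.Point.some (ι u) v h
        = Affine.Point.some (ι (subst u hu (maninR W.a₂ W.a₄ W.a₆))) v' h' := by
  have hne : (ι u) ^ Fintype.card F ≠ ι u := by
    intro e
    apply pow_card_ne_self hu
    apply (ι : RatFunc F →+* K).injective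
    rw [map_pow]
    exact e
  have hD : (ι u) ^ Fintype.card F - ι u ≠ 0 := sub_ne_zero.mpr hne
  obtain ⟨h1, e1⟩ := frobPt_some' (W := W) h
  rw [e1, sub_eq_add_neg, Affine.Point.neg_some, Affine.Point.add_of_X_ne hne]
  suffices hX : (W⁄K).addX (ι u ^ Fintype.card F) (ι u)
      ((W⁄K).slope (ι u ^ Fintype.card F) (ι u) (v ^ Fintype.card F) ((W⁄K).negY (ι u) v))
      = ι (subst u hu (maninR W.a₂ W.a₄ W.a₆)) from ⟨_, some_congr_x _ hX⟩
  rw [Affine.slope_of_X_ne hne, hs.negY]
  -- the right-hand side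
  have hR : ι (subst u hu (maninR W.a₂ W.a₄ W.a₆))
      = (((ι u) ^ 3 + algebraMap F K W.a₂ * (ι u) ^ 2 + algebraMap F K W.a₄ * ι u
            + algebraMap F K W.a₆)
          * (((ι u) ^ 3 + algebraMap F K W.a₂ * (ι u) ^ 2 + algebraMap F K W.a₄ * ι u
            + algebraMap F K W.a₆) ^ (Fintype.card F / 2) + 1) ^ 2
          - (algebraMap F K W.a₂ + (ι u) ^ Fintype.card F + ι u)
            * ((ι u) ^ Fintype.card F - ι u) ^ 2)
        / ((ι u) ^ Fintype.card F - ι u) ^ 2 := by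
    unfold maninR
    rw [subst_div, map_div₀, ← aeval_algHom_apply, ← aeval_algHom_apply]
    simp only [maninNum, maninDen, uPoly, cubic, map_sub, map_mul, map_add, map_pow, aeval_X,
      aeval_C, map_one]
  rw [hR]
  -- the curve equation
  have hv2 : v ^ 2 = (ι u) ^ 3 + algebraMap F K W.a₂ * (ι u) ^ 2 + algebraMap F K W.a₄ * ι u
      + algebraMap F K W.a₆ := by
    have := (Affine.equation_iff (W := (W⁄K)) (ι u) v).mp h.1
    rw [hs.a₁K, hs.a₃K] at this
    have e2 : (W⁄K).a₂ = algebraMap F K W.a₂ := rfl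
    have e4 : (W⁄K).a₄ = algebraMap F K W.a₄ := rfl
    have e6 : (W⁄K).a₆ = algebraMap F K W.a₆ := rfl
    rw [e2, e4, e6] at this
    linear_combination this
  rw [← hv2]
  have hq := card_eq_two_mul_add_one (F := F) hF
  have hvq : v ^ Fintype.card F - -v = v * ((v ^ 2) ^ (Fintype.card F / 2) + 1) := by
    generalize Fintype.card F / 2 = m at hq
    rw [hq]
    ring
  rw [hvq, Affine.addX, hs.a₁K]
  have e2 : (W⁄K).a₂ = algebraMap F K W.a₂ := rfl
  rw [e2]
  field_simp
  ring

/-- `h (Φ Q - Q) = #E(F) · h (Q)` on `M`. -/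
theorem ptHt_frob_sub (hs : TwistSetup W ι y) (hF : ringChar F ≠ 2) (hΔ : W.Δ ≠ 0)
    {Q : (W⁄K).Point} (hQ : InM W ι y Q) :
    ptHt W ι (frobPt W K Q - Q) = Nat.card W.toAffine.Point * ptHt W ι Q := by
  haveI : W.IsElliptic := ⟨isUnit_iff_ne_zero.mpr hΔ⟩
  rcases Q with _ | ⟨x, v, h⟩
  · show ptHt W ι (frobPt W K 0 - 0) = _ * ptHt W ι 0
    rw [map_zero, sub_zero, ptHt_zero, mul_zero]
  · have hQ' := hQ
    obtain ⟨u, Y, hx, hv⟩ := hQ
    subst hx
    by_cases hu : hgt u = 0
    · rw [ptHt_some, hu, mul_zero]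
      obtain ⟨c, rfl⟩ := exists_C_of_hgt_eq_zero hu
      obtain ⟨h1, e1⟩ := frobPt_some' (W := W) h
      have hxx : (ι (RatFunc.C c)) ^ Fintype.card F = ι (RatFunc.C c) := by
        rw [← map_pow, ← map_pow, FiniteField.pow_card]
      rcases (Affine.Point.X_eq_iff (h₁ := h1) (h₂ := h)).mp hxx with e | e
      · rw [e1, e, sub_self, ptHt_zero]
      · rw [e1, e]
        have hpar := ptHt_parallelogram hs (inM_neg hs hQ') hQ'
        rw [neg_add_cancel, ptHt_zero, ptHt_neg, ptHt_some, hu] at hpar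
        omega
    · obtain ⟨v', h', e⟩ := frob_sub_some hs hF h hu
      rw [e, ptHt_some, ptHt_some, hgt_subst, hgt_maninR_eq_card_point hF W hs.a₁ hs.a₃ hΔ]

end Fermat.Agent.S52.H297

end
-- ===== PACK-END S52/H297/MFrob.lean

-- ===== PACK-BEGIN S29/H222/ESKDiv.lean
section
/-
S29 / helper222 — piece ESK, part 2: divisors of functions (`IsDivOf`), their behaviour under
products, powers and semilinear automorphisms, and the decomposition of a principal divisor as a
difference of divisors of INTEGRAL series (from the Prelude's `PrincipalGeneratedByIntegral`).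
-/


set_option autoImplicit false
set_option linter.style.haveILetI false

noncomputable section

namespace Fermat.Agent.S29.H222

open ModularCurve AlgebraicCurve HahnSeries IsLocalRing
open Fermat.Agent.S18 (Qb IsInt toF CoreStatement)

section Generic

variable {K F : Type*} [Field K] [Field F] [Algebra K F]

/-- `D` is the divisor of the function `f`. -/
def IsDivOf (f : F) (D : Divisor K F) : Prop := ∀ v : Place K F, D v = v.ord f

theorem IsDivOf.mul {f g : F} {D E : Divisor K F} (hf0 : f ≠ 0) (hg0 : g ≠ 0)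
    (hf : IsDivOf f D) (hg : IsDivOf g E) : IsDivOf (f * g) (D + E) := fun v => by
  rw [Finsupp.add_apply, hf v, hg v, v.ord_mul hf0 hg0]

theorem esk_ord_pow (v : Place K F) (f : F) (n : ℕ) : v.ord (f ^ n) = n * v.ord f := by
  have := v.ord_zpow f (n : ℤ)
  simpa using this

theorem IsDivOf.pow {f : F} {D : Divisor K F} (hf : IsDivOf f D) (n : ℕ) :
    IsDivOf (f ^ n) ((n : ℤ) • D) := fun v => by
  rw [Finsupp.smul_apply, hf v, esk_ord_pow, smul_eq_mul]

theorem IsDivOf.smul {f : F} {D : Divisor K F} (g : SemilinearAut K F) (hf : IsDivOf f D) :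
    IsDivOf (g • f) (g • D) := fun w => by
  rw [SemilinearAut.divisor_smul_apply, hf (g⁻¹ • w)]
  have h := SemilinearAut.ord_smul g (g⁻¹ • w) f
  rw [smul_inv_smul] at h
  exact h.symm

theorem esk_ord_algebraMap (v : Place K F) {c : K} (hc : c ≠ 0) :
    v.ord (algebraMap K F c) = 0 := by
  have h1 : algebraMap K F c ∈ v.toValuationSubring := v.algebraMap_mem' c
  have h2 : algebraMap K F c⁻¹ ∈ v.toValuationSubring := v.algebraMap_mem' c⁻¹
  let u : (v.toValuationSubring)ˣ :=
    { val := ⟨algebraMap K F c, h1⟩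
      inv := ⟨algebraMap K F c⁻¹, h2⟩
      val_inv := by
        apply Subtype.ext
        show algebraMap K F c * algebraMap K F c⁻¹ = 1
        rw [← map_mul, mul_inv_cancel₀ hc, map_one]
      inv_val := by
        apply Subtype.ext
        show algebraMap K F c⁻¹ * algebraMap K F c = 1
        rw [← map_mul, inv_mul_cancel₀ hc, map_one] }
  exact v.ord_coe_unit u

/-- **Kummer criterion**: if `V₁ = c · y ^ m · V₂` and `div V₁ - div V₂ = m • E` (`m ≠ 0`), then
`E` is the divisor of `y`; in particular `E` is principal. -/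
theorem isDivOf_of_eq_const_mul_pow {m : ℕ} (hm : m ≠ 0) {V₁ V₂ y : F} {c : K} (hc : c ≠ 0)
    (hy : y ≠ 0) (hV₂ : V₂ ≠ 0) (h : V₁ = algebraMap K F c * y ^ m * V₂)
    {E : Divisor K F} (hE : ∀ v : Place K F, (m : ℤ) * E v = v.ord V₁ - v.ord V₂) :
    IsDivOf y E := fun v => by
  have hc' : algebraMap K F c ≠ 0 := by
    simpa using hc
  have h1 : v.ord V₁ = (m : ℤ) * v.ord y + v.ord V₂ := by
    rw [h, v.ord_mul (mul_ne_zero hc' (pow_ne_zero m hy)) hV₂,
      v.ord_mul hc' (pow_ne_zero m hy), esk_ord_algebraMap v hc, esk_ord_pow, zero_add]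
  have h2 : (m : ℤ) * E v = (m : ℤ) * v.ord y := by rw [hE v, h1]; ring
  exact mul_left_cancel₀ (Int.natCast_ne_zero.mpr hm) h2

end Generic

variable {A : ValuationSubring Qb} {N : ℕ}

/-- A principal divisor is the difference of the divisors of two integral series. -/
theorem exists_isInt_of_principal
    (hpgi : PrincipalGeneratedByIntegral A (residue A) N)
    {D : Divisor Qb (modularFunctionFieldBar N)}
    (hD : D ∈ Divisor.principal (K := Qb) (F := modularFunctionFieldBar N)) :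
    ∃ (U₁ U₂ : LaurentSeries A) (h₁ : IsInt A N U₁) (h₂ : IsInt A N U₂)
      (D₁ D₂ : Divisor Qb (modularFunctionFieldBar N)),
      IsDivOf (toF h₁) D₁ ∧ IsDivOf (toF h₂) D₂ ∧ D = D₁ - D₂ := by
  have hD' := hpgi hD
  clear hD
  induction hD' using AddSubgroup.closure_induction with
  | mem E hE =>
      obtain ⟨y, hy, hyk, hne, hEy⟩ := hE
      refine ⟨y, 1, ⟨hy, hyk, hne⟩, isInt_one, E, 0, fun v => hEy v, fun v => ?_, by simp⟩
      have : toF (isInt_one (A := A) (N := N)) = 1 := Subtype.ext (map_one _)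
      rw [this]
      simp
  | zero =>
      refine ⟨1, 1, isInt_one, isInt_one, 0, 0, fun v => ?_, fun v => ?_, by simp⟩ <;>
      · have : toF (isInt_one (A := A) (N := N)) = 1 := Subtype.ext (map_one _)
        rw [this]
        simp
  | add E E' _ _ hE hE' =>
      obtain ⟨U₁, U₂, h₁, h₂, D₁, D₂, hd₁, hd₂, rfl⟩ := hE
      obtain ⟨U₁', U₂', h₁', h₂', D₁', D₂', hd₁', hd₂', rfl⟩ := hE'
      refine ⟨U₁ * U₁', U₂ * U₂', isInt_mul h₁ h₁', isInt_mul h₂ h₂', D₁ + D₁', D₂ + D₂',
        ?_, ?_, by abel⟩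
      · rw [toF_mul h₁ h₁']
        exact hd₁.mul (toF_ne_zero h₁) (toF_ne_zero h₁') hd₁'
      · rw [toF_mul h₂ h₂']
        exact hd₂.mul (toF_ne_zero h₂) (toF_ne_zero h₂') hd₂'
  | neg E _ hE =>
      obtain ⟨U₁, U₂, h₁, h₂, D₁, D₂, hd₁, hd₂, rfl⟩ := hE
      exact ⟨U₂, U₁, h₂, h₁, D₂, D₁, hd₂, hd₁, by abel⟩

end Fermat.Agent.S29.H222

end
end
-- ===== PACK-END S29/H222/ESKDiv.lean

-- ===== PACK-BEGIN S24/Alg/LocFundFF.lean
section



/-!
# S24 / ALG-LOC: the fundamental inequality `|X| ≤ ∑_{v | t} ord_v t` (final form)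

Combines the local uniqueness argument (`LocFund.lean`) with "residue field `= K`"
(helper804, `FFFinite.lean`).  No Dedekind theory.
-/

set_option autoImplicit false

noncomputable section

open AlgebraicCurve IntermediateField

namespace Fermat.Agent.S24.H144

variable {K F : Type*} [Field K] [Field F] [Algebra K F]
variable {C : Type*} [Field C] {X : Type*} {t : F}

/-- Over an algebraically closed constant field the residue field of every place is `K`. -/
theorem loc_residueTrivial [IsAlgClosed K] (v : Place K F) (ht : 0 < v.ord t)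
    [FiniteDimensional K⟮t⟯ F] : ResidueTrivial v := by
  have htr : Transcendental K t := by
    apply FF.transcendental_of_not_mem_range
    rintro ⟨c, rfl⟩
    rw [loc_ord_algebraMap] at ht
    exact lt_irrefl _ ht
  intro f hf
  obtain ⟨a, ha⟩ := FF.exists_const_sub_mem_nonunits v htr hf
  refine ⟨a, ?_⟩
  rcases eq_or_ne (f - algebraMap K F a) 0 with h0 | h0
  · exact Or.inl (sub_eq_zero.mp h0)
  · exact Or.inr ((FF.ord_pos_iff_mem_nonunits v h0).mpr ha)

/-- **Fundamental inequality from local data.** -/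
theorem loc_fundamental_inequality [IsAlgClosed K] [CharZero C] [Finite X]
    [FiniteDimensional K⟮t⟯ F] (L : LocalData K F C X t)
    (s : Finset (Place K F)) (hs : ∀ v, v ∈ s ↔ 0 < v.ord t) :
    (Nat.card X : ℤ) ≤ ∑ v ∈ s, v.ord t :=
  loc_card_le_sum_of_residueTrivial L (fun v hv => loc_residueTrivial v hv) s hs

end Fermat.Agent.S24.H144

end
end
-- ===== PACK-END S24/Alg/LocFundFF.lean

-- ===== PACK-BEGIN S28/H326/Final.lean
section
/-
S28 / helper326: the prime-level analytic stubs of the captain skeleton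
(`ModPolyData p`, `UnitPolyData p` of `Fermat.Agent.S28.Defs`).
-/





set_option autoImplicit false
set_option linter.unusedSectionVars false

noncomputable section

namespace Fermat.Agent.S28.H326

open ModularCurve HahnSeries

variable (p : ℕ) [NeZero p]

/-- the base embedding `ℤ((q)) → ℂ((t))`, `q ↦ t^p` -/
def iotaP : LaurentSeries ℤ →+* LaurentSeries ℂ := (qExpand ℂ p).comp kap

theorem iotaP_injective : Function.Injective (iotaP p) :=
  (qExpand_injective p).comp kap_injective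

theorem theta_eq_comp :
    theta p = (iotaP p).comp (Polynomial.aeval (jqModC ℤ)).toRingHom := rfl

theorem theta_eq_comp' :
    theta p = kap.comp (Polynomial.aeval (qExpand ℤ p (jqModC ℤ))).toRingHom := by
  refine Polynomial.ringHom_ext (fun a => ?_) ?_
  · simp
  · rw [theta_X]
    simp only [RingHom.comp_apply, AlgHom.toRingHom_eq_coe, RingHom.coe_coe, Polynomial.aeval_X]
    rw [coeffMap_qExpand, coeffMap_jqModC, jP]

theorem iotaP_qExpand_jq : iotaP p (qExpand ℤ p (jqModC ℤ)) = y p none := by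
  rw [iotaP, RingHom.comp_apply, coeffMap_qExpand, coeffMap_jqModC]
  rfl

theorem kap_jq : kap (jqModC ℤ) = y p (some ⟨0, Nat.pos_of_ne_zero (NeZero.ne p)⟩) := by
  rw [coeffMap_jqModC]
  simp only [y, pow_zero, inv_one, map_one, one_mul, cB_zero]
  rfl

theorem deltaL_eq : deltaL ℤ = deltaZ := by
  rw [deltaL, deltaZ, DZ, map_mul, HahnSeries.ofPowerSeries_X]
  congr 2

theorem deltaInvL_eq : deltaInvL ℤ = deltaInvZ := by
  rw [deltaInvL, deltaInvZ]
  congr 2

theorem iotaP_unit :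
    iotaP p ((p : LaurentSeries ℤ) ^ 12 * unitL ℤ p) = w p none := by
  rw [unitL, deltaL_eq, deltaInvL_eq, w, scal, conj, cInf, cBase, delInv, iotaP]
  simp only [RingHom.comp_apply, map_mul, map_pow, map_natCast, coeffMap_qExpand]
  rw [deltaZ, kap_ofPS, DC]
  ring

/-- **[A-Φ]** existence of the modular polynomial of prime level `p`. -/
theorem nonempty_modPolyData (hp : p.Prime) : Nonempty (ModPolyData p) := by
  obtain ⟨Φ, hmonic, hdeg, hmap⟩ := exists_Phi p (heckeInput p hp)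
  refine ⟨⟨Φ, hmonic, hdeg, ?_, ?_⟩⟩
  · apply iotaP_injective p
    rw [map_zero, Polynomial.hom_eval₂, ← theta_eq_comp, ← Polynomial.eval_map, hmap,
      iotaP_qExpand_jq]
    exact PhiPoly_eval p none
  · apply kap_injective
    rw [map_zero, Polynomial.hom_eval₂, ← theta_eq_comp', ← Polynomial.eval_map, hmap, kap_jq p]
    exact PhiPoly_eval p _

/-- **[A-W]** `p¹² Δ(q^p)/Δ(q)` is integral over `ℤ[j]`. -/
theorem nonempty_unitPolyData (hp : p.Prime) : Nonempty (UnitPolyData p) := by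
  obtain ⟨W, hmonic, -, hmap⟩ := exists_W p (heckeInput p hp)
  refine ⟨⟨W, hmonic, ?_⟩⟩
  apply iotaP_injective p
  rw [map_zero, Polynomial.hom_eval₂, ← theta_eq_comp, ← Polynomial.eval_map, hmap, iotaP_unit]
  exact WPoly_eval p none

end Fermat.Agent.S28.H326

end
end
-- ===== PACK-END S28/H326/Final.lean

-- ===== PACK-BEGIN Lib/RR/H443/Degree.lean
section


/-!
# RR bridge (helper443), part 3: `deg (x)_∞ = [F : K(x)]` and `HasPrincipalDivisors`

Characteristic-free.  From `Hyp K F` and the bound `ZerosBound K F` (layer L2 of the RR library: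
zeros of `x` counted with multiplicity are at most `[F : K(x)]`) we deduce

* finiteness of the zeros and poles of every function;
* `[F : K(x)] ≤ deg (x)_∞` (Stichtenoth 1.4.11), hence equality;
* every principal divisor has degree `0`, i.e. `HasPrincipalDivisors K F`, and `FF1 K F`.
-/

set_option autoImplicit false

noncomputable section

open AlgebraicCurve Polynomial IntermediateField
open Fermat.Agent.Lib.RR

namespace Fermat.Agent.Lib.RR.H443

variable {K F : Type*} [Field K] [Field F] [Algebra K F]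

variable (K F) in
/-- The statement of layer L2 of the RR library. -/
def ZerosBound : Prop :=
  ∀ (x : F) [FiniteDimensional K⟮x⟯ F] (S : Finset (Place K F)), (∀ v ∈ S, 0 < v.ord x) →
    ∑ v ∈ S, v.ord x ≤ (Module.finrank K⟮x⟯ F : ℤ)

/-! ### Finiteness of zeros and poles -/

theorem finite_zeros_of_finite (hZ : ZerosBound K F) (x : F) [FiniteDimensional K⟮x⟯ F] :
    {v : Place K F | 0 < v.ord x}.Finite := by
  by_contra hinf
  have hinf' : {v : Place K F | 0 < v.ord x}.Infinite := hinf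
  obtain ⟨S, hS, hcard⟩ := hinf'.exists_subset_card_eq (Module.finrank K⟮x⟯ F + 1)
  have h1 := hZ x S (fun v hv => hS hv)
  have h2 : (S.card : ℤ) ≤ ∑ v ∈ S, v.ord x := by
    have : ∑ _v ∈ S, (1 : ℤ) ≤ ∑ v ∈ S, v.ord x :=
      Finset.sum_le_sum fun v hv => by
        have : 0 < v.ord x := hS hv
        omega
    simpa using this
  rw [hcard] at h2
  push_cast at h2
  omega

theorem transcendental_inv {f : F} (hf : Transcendental K f) : Transcendental K f⁻¹ :=
  fun h => hf (by simpa using h.inv)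

theorem adjoin_inv_eq (f : F) : K⟮f⁻¹⟯ = K⟮f⟯ := by
  apply le_antisymm
  · rw [adjoin_simple_le_iff]
    exact inv_mem (mem_adjoin_simple_self K f)
  · rw [adjoin_simple_le_iff]
    have h2 : (f⁻¹)⁻¹ ∈ K⟮f⁻¹⟯ := inv_mem (mem_adjoin_simple_self K f⁻¹)
    rwa [inv_inv] at h2

theorem finrank_adjoin_inv (f : F) : Module.finrank K⟮f⁻¹⟯ F = Module.finrank K⟮f⟯ F :=
  congrArg (fun E : IntermediateField K F => Module.finrank E F) (_root_.Fermat.Agent.Lib.RR.H443.adjoin_inv_eq f)

theorem ord_eq_zero_of_isAlgebraic (h : Hyp K F) {f : F} (hf : IsAlgebraic K f)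
    (v : Place K F) : v.ord f = 0 := by
  obtain ⟨c, rfl⟩ := h.const f hf
  exact ord_algebraMap v c

theorem finite_zeros (h : Hyp K F) (hZ : ZerosBound K F) (f : F) :
    {v : Place K F | 0 < v.ord f}.Finite := by
  by_cases hf : Transcendental K f
  · have := h.finite f hf
    exact finite_zeros_of_finite hZ f
  · have hf' : IsAlgebraic K f := by
      by_contra hna
      exact hf hna
    have : {v : Place K F | 0 < v.ord f} = ∅ := by
      ext v
      simp [ord_eq_zero_of_isAlgebraic h hf' v]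
    rw [this]
    exact Set.finite_empty

theorem finite_poles (h : Hyp K F) (hZ : ZerosBound K F) (f : F) :
    {v : Place K F | v.ord f < 0}.Finite := by
  refine (finite_zeros h hZ f⁻¹).subset fun v hv => ?_
  have hv' : v.ord f < 0 := hv
  show 0 < v.ord f⁻¹
  rw [v.ord_inv]
  omega

/-! ### The pole divisor -/

/-- The pole divisor `(f)_∞`. -/
def poleDiv (h : Hyp K F) (hZ : ZerosBound K F) (f : F) : Divisor K F :=
  Finsupp.ofSupportFinite (fun v => max 0 (-v.ord f)) <| by
    refine (finite_poles h hZ f).subset fun v hv => ?_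
    have hv' : max 0 (-v.ord f) ≠ 0 := hv
    show v.ord f < 0
    by_contra hcon
    apply hv'
    rw [max_eq_left]
    omega

@[simp]
theorem poleDiv_apply (h : Hyp K F) (hZ : ZerosBound K F) (f : F) (v : Place K F) :
    poleDiv h hZ f v = max 0 (-v.ord f) := rfl

theorem poleDiv_nonneg (h : Hyp K F) (hZ : ZerosBound K F) (f : F) : 0 ≤ poleDiv h hZ f := by
  rw [Finsupp.le_def]
  intro v
  simp

theorem mem_support_poleDiv (h : Hyp K F) (hZ : ZerosBound K F) (f : F) (v : Place K F) :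
    v ∈ (poleDiv h hZ f).support ↔ v.ord f < 0 := by
  rw [Finsupp.mem_support_iff, poleDiv_apply]
  constructor
  · intro hne
    by_contra hcon
    apply hne
    rw [max_eq_left]
    omega
  · intro hlt
    rw [max_eq_right (by omega)]
    omega

theorem degree_poleDiv (h : Hyp K F) (hZ : ZerosBound K F) (f : F) :
    Divisor.degree (poleDiv h hZ f) = ∑ v ∈ (poleDiv h hZ f).support, v.ord f⁻¹ := by
  rw [degree_eq_sum]
  refine Finset.sum_congr rfl fun v hv => ?_
  rw [mem_support_poleDiv] at hv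
  rw [h.deg_eq_one v, poleDiv_apply, v.ord_inv, max_eq_right (by omega)]
  simp

/-- `deg (x)_∞ ≤ [F : K(x)]`, from the zeros bound applied to `x⁻¹`. -/
theorem degree_poleDiv_le (h : Hyp K F) (hZ : ZerosBound K F) {x : F}
    (hx : Transcendental K x) :
    Divisor.degree (poleDiv h hZ x) ≤ (@Module.finrank K⟮x⟯ F _ _ _ : ℤ) := by
  have := h.finite x⁻¹ (transcendental_inv hx)
  rw [degree_poleDiv, ← finrank_adjoin_inv x]
  refine hZ x⁻¹ _ fun v hv => ?_
  rw [mem_support_poleDiv] at hv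
  rw [v.ord_inv]
  omega

/-! ### The lower bound -/

theorem linearIndependent_pow_of_transcendental {A : Type*} [Ring A] [Algebra K A] {a : A}
    (ha : Transcendental K a) (l : ℕ) :
    LinearIndependent K fun i : Fin (l + 1) => a ^ (i : ℕ) := by
  rw [Fintype.linearIndependent_iff]
  intro g hg i
  have hinj := transcendental_iff_injective.mp ha
  have hp : aeval a (∑ i : Fin (l + 1), Polynomial.monomial (i : ℕ) (g i)) = 0 := by
    rw [map_sum]
    simp_rw [aeval_monomial, ← Algebra.smul_def]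
    exact hg
  have hp0 : (∑ i : Fin (l + 1), Polynomial.monomial (i : ℕ) (g i)) = 0 :=
    hinj (by rw [hp, map_zero])
  have := congrArg (fun q : K[X] => q.coeff (i : ℕ)) hp0
  simp only [Polynomial.finsetSum_coeff, Polynomial.coeff_monomial, Polynomial.coeff_zero] at this
  rw [Finset.sum_eq_single i] at this
  · simpa using this
  · intro j _ hji
    rw [if_neg]
    exact fun h => hji (Fin.ext h)
  · intro hi
    exact absurd (Finset.mem_univ i) hi

set_option maxHeartbeats 800000 in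
/-- The products `x ^ i * b j` (`i ≤ l`, `b` a `K(x)`-basis of `F`) are `K`-linearly
independent. -/
theorem linearIndependent_pow_mul_basis {x : F} (hx : Transcendental K x)
    [FiniteDimensional K⟮x⟯ F] (l : ℕ) :
    LinearIndependent K fun p : Fin (l + 1) × Fin (Module.finrank K⟮x⟯ F) =>
      x ^ (p.1 : ℕ) * (Module.finBasis K⟮x⟯ F p.2 : F) := by
  have hgen : Transcendental K (AdjoinSimple.gen K x) := by
    rw [← transcendental_algebraMap_iff (algebraMap K⟮x⟯ F).injective]
    exact hx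
  have h1 := linearIndependent_pow_of_transcendental hgen l
  have h2 := (Module.finBasis K⟮x⟯ F).linearIndependent
  have h3 := linearIndependent_smul h1 h2
  convert h3 using 2 with p
  rw [Algebra.smul_def]
  simp

/-- `[F : K(x)] ≤ deg (x)_∞` (Stichtenoth, Thm. 1.4.11). -/
theorem finrank_le_degree_poleDiv (h : Hyp K F) (hZ : ZerosBound K F) {x : F}
    (hx : Transcendental K x) :
    (@Module.finrank K⟮x⟯ F _ _ _ : ℤ) ≤ Divisor.degree (poleDiv h hZ x) := by
  classical
  have hfinx := h.finite x hx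
  set n := Module.finrank K⟮x⟯ F with hn
  set B := poleDiv h hZ x with hB
  set C : Divisor K F := ∑ j : Fin n, poleDiv h hZ (Module.finBasis K⟮x⟯ F j : F) with hC
  have hB0 : 0 ≤ B := poleDiv_nonneg h hZ x
  have hC0 : 0 ≤ C := Finset.sum_nonneg fun j _ => poleDiv_nonneg h hZ _
  have hx0 : x ≠ 0 := fun h0 => hx (h0 ▸ isAlgebraic_zero)
  -- the key inequality for every `l`
  have key : ∀ l : ℕ, ((l + 1) * n : ℤ) ≤ l * Divisor.degree B + Divisor.degree C + 1 := by
    intro l
    have hD0 : 0 ≤ l • B + C := add_nonneg (nsmul_nonneg hB0 l) hC0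
    have hfin := finite_L_of_nonneg h hD0
    have hell := ell_le_of_nonneg h hD0
    have hli := linearIndependent_pow_mul_basis hx l
    have hmem : ∀ p : Fin (l + 1) × Fin n,
        x ^ (p.1 : ℕ) * (Module.finBasis K⟮x⟯ F p.2 : F) ∈ riemannRochSpace (l • B + C) := by
      rintro ⟨i, j⟩
      rw [mem_L_iff]
      intro v
      right
      have hbj : (Module.finBasis K⟮x⟯ F j : F) ≠ 0 := (Module.finBasis K⟮x⟯ F).ne_zero j
      rw [v.ord_mul (pow_ne_zero _ hx0) hbj, ord_pow]
      have hBv : B v = max 0 (-v.ord x) := rfl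
      have hCv : max 0 (-v.ord (Module.finBasis K⟮x⟯ F j : F)) ≤ C v := by
        rw [hC, Finsupp.finsetSum_apply]
        have : poleDiv h hZ (Module.finBasis K⟮x⟯ F j : F) v ≤
            ∑ j' : Fin n, poleDiv h hZ (Module.finBasis K⟮x⟯ F j' : F) v :=
          Finset.single_le_sum
            (f := fun j' => poleDiv h hZ (Module.finBasis K⟮x⟯ F j' : F) v)
            (fun j' _ => by simp) (Finset.mem_univ j)
        simpa using this
      have hi : (i : ℕ) ≤ l := Nat.lt_succ_iff.mp i.2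
      have hval : (l • B + C) v = (l : ℤ) * B v + C v := by
        rw [Finsupp.add_apply, Finsupp.smul_apply, nsmul_eq_mul]
      rw [hval, hBv]
      have h1 : ((i : ℕ) : ℤ) * max 0 (-v.ord x) ≤ (l : ℤ) * max 0 (-v.ord x) :=
        mul_le_mul_of_nonneg_right (by exact_mod_cast hi) (le_max_left _ _)
      have h2 : -(((i : ℕ) : ℤ) * max 0 (-v.ord x)) ≤ ((i : ℕ) : ℤ) * v.ord x := by
        have h3 : -v.ord x ≤ max 0 (-v.ord x) := le_max_right _ _
        have h4 : (0 : ℤ) ≤ ((i : ℕ) : ℤ) := Int.natCast_nonneg _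
        nlinarith
      have h5 : -v.ord (Module.finBasis K⟮x⟯ F j : F) ≤
          max 0 (-v.ord (Module.finBasis K⟮x⟯ F j : F)) := le_max_right _ _
      push_cast
      linarith
    -- count
    let g : Fin (l + 1) × Fin n → riemannRochSpace (l • B + C) := fun p => ⟨_, hmem p⟩
    have hli' : LinearIndependent K g := by
      apply LinearIndependent.of_comp (riemannRochSpace (l • B + C)).subtype
      exact hli
    have hcard := hli'.fintype_card_le_finrank
    rw [Fintype.card_prod, Fintype.card_fin, Fintype.card_fin] at hcard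
    have hdeg : Divisor.degree (l • B + C) = l * Divisor.degree B + Divisor.degree C := by
      rw [map_add, map_nsmul, nsmul_eq_mul]
    have hcard' : (((l + 1) * n : ℕ) : ℤ) ≤ (ell (l • B + C) : ℤ) := by exact_mod_cast hcard
    rw [hdeg] at hell
    push_cast at hcard'
    linarith
  -- conclude
  by_contra hcon
  rw [not_le] at hcon
  have hdC : 0 ≤ Divisor.degree C := degree_nonneg hC0
  have hdB : 0 ≤ Divisor.degree B := degree_nonneg hB0
  have hk := key ((Divisor.degree C).toNat + 1)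
  have hl : ((Divisor.degree C).toNat : ℤ) = Divisor.degree C := Int.toNat_of_nonneg hdC
  push_cast at hk
  rw [hl] at hk
  have hn1 : 0 ≤ (n : ℤ) - Divisor.degree B - 1 := by omega
  have hC2 : 0 ≤ Divisor.degree C + 2 := by omega
  nlinarith [mul_nonneg hC2 hn1]

/-- **The degree of the pole divisor** of a transcendental `x` is `[F : K(x)]`. -/
theorem degree_poleDiv_eq (h : Hyp K F) (hZ : ZerosBound K F) {x : F}
    (hx : Transcendental K x) :
    Divisor.degree (poleDiv h hZ x) = (@Module.finrank K⟮x⟯ F _ _ _ : ℤ) :=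
  le_antisymm (degree_poleDiv_le h hZ hx) (finrank_le_degree_poleDiv h hZ hx)

/-! ### Principal divisors -/

/-- The divisor of a function. -/
def divFun (h : Hyp K F) (hZ : ZerosBound K F) (f : F) : Divisor K F :=
  poleDiv h hZ f⁻¹ - poleDiv h hZ f

theorem divFun_apply (h : Hyp K F) (hZ : ZerosBound K F) (f : F) (v : Place K F) :
    divFun h hZ f v = v.ord f := by
  simp only [divFun, Finsupp.coe_sub, Pi.sub_apply, poleDiv_apply, v.ord_inv, neg_neg]
  rcases le_total 0 (v.ord f) with h0 | h0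
  · rw [max_eq_right h0, max_eq_left (by omega)]
    ring
  · rw [max_eq_left h0, max_eq_right (by omega)]
    ring

theorem degree_divFun (h : Hyp K F) (hZ : ZerosBound K F) (f : F) :
    Divisor.degree (divFun h hZ f) = 0 := by
  by_cases hf : Transcendental K f
  · rw [divFun, map_sub, degree_poleDiv_eq h hZ hf,
      degree_poleDiv_eq h hZ (transcendental_inv hf), finrank_adjoin_inv]
    ring
  · have hf' : IsAlgebraic K f := by
      by_contra hna
      exact hf hna
    have : divFun h hZ f = 0 := by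
      ext v
      rw [divFun_apply, ord_eq_zero_of_isAlgebraic h hf' v]
      rfl
    rw [this, map_zero]

/-- **Principal divisors have degree zero** — in any characteristic. -/
theorem hasPrincipalDivisors (h : Hyp K F) (hZ : ZerosBound K F) : HasPrincipalDivisors K F :=
  ⟨fun f _ => ⟨divFun h hZ f, divFun_apply h hZ f, degree_divFun h hZ f⟩⟩

/-- The bridge: the standing hypotheses `FF1` of the RR library. -/
theorem ff1_of_hyp (h : Hyp K F) (hZ : ZerosBound K F) {x : F} (hx : Transcendental K x) :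
    FF1 K F where
  hpd := hasPrincipalDivisors h hZ
  deg_eq_one := h.deg_eq_one
  nonempty_place := by
    obtain ⟨v, -⟩ := exists_place_ord_pos h.finite hx
    exact ⟨v⟩
  exists_finite := ⟨x, hx, h.finite x hx⟩

/-- **Fundamental identity at the zeros**: `∑_{v(x) > 0} ord_v x = [F : K(x)]`. -/
theorem sum_ord_zeros_eq_finrank (h : Hyp K F) (hZ : ZerosBound K F) {x : F}
    (hx : Transcendental K x) (S : Finset (Place K F)) (hS : ∀ v, v ∈ S ↔ 0 < v.ord x) :
    ∑ v ∈ S, v.ord x = (@Module.finrank K⟮x⟯ F _ _ _ : ℤ) := by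
  have h1 := degree_poleDiv_eq h hZ (transcendental_inv hx)
  rw [finrank_adjoin_inv, degree_poleDiv, inv_inv] at h1
  rw [← h1]
  refine Finset.sum_congr ?_ fun _ _ => rfl
  ext v
  rw [hS, mem_support_poleDiv, v.ord_inv]
  omega

/-- **Fundamental identity at the poles**: `∑_{v(x) < 0} -ord_v x = [F : K(x)]`. -/
theorem sum_ord_poles_eq_finrank (h : Hyp K F) (hZ : ZerosBound K F) {x : F}
    (hx : Transcendental K x) (S : Finset (Place K F)) (hS : ∀ v, v ∈ S ↔ v.ord x < 0) :
    ∑ v ∈ S, -v.ord x = (@Module.finrank K⟮x⟯ F _ _ _ : ℤ) := by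
  have h1 := degree_poleDiv_eq h hZ hx
  rw [degree_poleDiv] at h1
  rw [← h1]
  refine Finset.sum_congr ?_ fun v _ => ?_
  · ext v
    rw [hS, mem_support_poleDiv]
  · rw [v.ord_inv]

end Fermat.Agent.Lib.RR.H443

end
end
-- ===== PACK-END Lib/RR/H443/Degree.lean

-- ===== PACK-BEGIN S18/H24/GaussA.lean
section


/-!
# S18 / MOD-ASM, piece G-V (helper24) — part A: integral series and the Gauss valuation ring

Concrete objects of `S18/Mod/Defs.lean`.  `inc = coeffMap A.subtype : A((q)) → Q̄((q))`,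
`red = coeffMap (residue A) : A((q)) → κ((q))`.

* `isIntE_iff`                 : `IsIntE M A E U ↔ ∃ f ∈ Fc M E, f = inc U`;
* `IsIntE.add/mul/neg/...`     : integral series form a ring;
* `Vc M A E : Subring (Om M)`  : the Gauss valuation ring, with carrier `VcSet M A E`
  (`coe_Vc`);
* fields `V_le`, `R_le_V`, `w_inv_not_mem_V` of `Alg.GoodModel`.
-/

set_option autoImplicit false

noncomputable section

namespace Fermat.Agent.S18.H24

open ModularCurve AlgebraicCurve HahnSeries Fermat.Agent.S18 Fermat.Agent.S18.Mod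
open Fermat.Agent.S18.H456

variable (M : ℕ) (A : ValuationSubring Qb) (E : IntermediateField ℚ Qb)

/-- `A((q)) → Q̄((q))`. -/
abbrev inc : LaurentSeries A →+* LaurentSeries Qb := coeffMap A.subtype

/-- `A((q)) → κ((q))`. -/
abbrev red : LaurentSeries A →+* LaurentSeries (IsLocalRing.ResidueField A) :=
  coeffMap (IsLocalRing.residue A)

variable {A} in
theorem inc_injective : Function.Injective (inc A) := by
  intro x y hxy
  ext k
  have := congrArg (fun z => z.coeff k) hxy
  simpa using this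

variable {A} in
theorem inc_coeff (U : LaurentSeries A) (n : ℤ) : (inc A U).coeff n = (U.coeff n : Qb) := by
  rw [coeffMap_coeff]; rfl

variable {A} in
theorem red_coeff (U : LaurentSeries A) (n : ℤ) :
    (red A U).coeff n = IsLocalRing.residue A (U.coeff n) := by
  rw [coeffMap_coeff]

variable {A} in
/-- A series over `Q̄` with coefficients in `A` comes from `A((q))`. -/
theorem exists_inc_eq {g : LaurentSeries Qb} (hg : ∀ n, g.coeff n ∈ A) :
    ∃ U : LaurentSeries A, inc A U = g := by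
  have hsupp : (Function.support fun n => (⟨g.coeff n, hg n⟩ : A)) = g.support := by
    ext n
    simp only [Function.mem_support, HahnSeries.mem_support, ne_eq]
    constructor
    · intro h h0
      exact h (Subtype.ext h0)
    · intro h h0
      exact h (congrArg Subtype.val h0)
  refine ⟨⟨fun n => ⟨g.coeff n, hg n⟩, ?_⟩, ?_⟩
  · rw [hsupp]; exact g.isPWO_support
  · ext n
    rw [inc_coeff]

variable {A} in
theorem red_eq_zero_iff (U : LaurentSeries A) :
    red A U = 0 ↔ ∀ n, U.coeff n ∈ IsLocalRing.maximalIdeal A := by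
  constructor
  · intro h n
    have := congrArg (fun z => z.coeff n) h
    simp only [red_coeff, HahnSeries.coeff_zero] at this
    exact (IsLocalRing.residue_eq_zero_iff _).mp this
  · intro h
    ext n
    rw [red_coeff, HahnSeries.coeff_zero]
    exact (IsLocalRing.residue_eq_zero_iff _).mpr (h n)

variable {A} in
/-- an element of `A` is in the maximal ideal iff it is `0` or its inverse is not in `A`. -/
theorem mem_maximalIdeal_iff (c : A) :
    c ∈ IsLocalRing.maximalIdeal A ↔ (c : Qb) = 0 ∨ (c : Qb)⁻¹ ∉ A := by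
  rw [IsLocalRing.mem_maximalIdeal, mem_nonunits_iff]
  constructor
  · intro h
    by_contra hcon
    rw [not_or, not_not] at hcon
    apply h
    exact isUnit_iff_exists_inv.mpr ⟨⟨(c : Qb)⁻¹, hcon.2⟩, Subtype.ext (by
      show (c : Qb) * (c : Qb)⁻¹ = 1
      exact mul_inv_cancel₀ hcon.1)⟩
  · rintro (h | h) hu
    · have : c = 0 := Subtype.ext h
      rw [this] at hu
      exact not_isUnit_zero hu
    · obtain ⟨d, hd⟩ := isUnit_iff_exists_inv.mp hu
      apply h
      have h1 : (c : Qb) * (d : Qb) = 1 := congrArg Subtype.val hd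
      have : (c : Qb)⁻¹ = d := inv_eq_of_mul_eq_one_right h1
      rw [this]; exact d.2

/-! ### Integral series -/

theorem isIntE_iff {U : LaurentSeries A} :
    IsIntE M A E U ↔ ∃ f ∈ Fc M E, (f : LaurentSeries Qb) = inc A U := by
  constructor
  · exact fun h => h.2
  · rintro ⟨f, hf, hfU⟩
    refine ⟨fun n => ?_, f, hf, hfU⟩
    have := coeff_mem_of_mem_Fc M E hf n
    rw [hfU, inc_coeff] at this
    exact this

variable {M A E}

theorem isIntE_zero : IsIntE M A E 0 :=
  (isIntE_iff M A E).mpr ⟨0, zero_mem _, by simp⟩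

theorem isIntE_one : IsIntE M A E 1 :=
  (isIntE_iff M A E).mpr ⟨1, one_mem _, by simp⟩

theorem IsIntE.add {U U' : LaurentSeries A} (h : IsIntE M A E U) (h' : IsIntE M A E U') :
    IsIntE M A E (U + U') := by
  obtain ⟨f, hf, hfU⟩ := (isIntE_iff M A E).mp h
  obtain ⟨f', hf', hfU'⟩ := (isIntE_iff M A E).mp h'
  exact (isIntE_iff M A E).mpr ⟨f + f', add_mem hf hf', by
    rw [map_add, ← hfU, ← hfU']; rfl⟩

theorem IsIntE.mul {U U' : LaurentSeries A} (h : IsIntE M A E U) (h' : IsIntE M A E U') :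
    IsIntE M A E (U * U') := by
  obtain ⟨f, hf, hfU⟩ := (isIntE_iff M A E).mp h
  obtain ⟨f', hf', hfU'⟩ := (isIntE_iff M A E).mp h'
  exact (isIntE_iff M A E).mpr ⟨f * f', mul_mem hf hf', by
    rw [map_mul, ← hfU, ← hfU']; rfl⟩

theorem IsIntE.neg {U : LaurentSeries A} (h : IsIntE M A E U) : IsIntE M A E (-U) := by
  obtain ⟨f, hf, hfU⟩ := (isIntE_iff M A E).mp h
  exact (isIntE_iff M A E).mpr ⟨-f, neg_mem hf, by
    rw [map_neg, ← hfU]; rfl⟩

theorem IsIntE.pow {U : LaurentSeries A} (h : IsIntE M A E U) (n : ℕ) : IsIntE M A E (U ^ n) := by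
  induction n with
  | zero => rw [pow_zero]; exact isIntE_one
  | succ n ih => rw [pow_succ]; exact IsIntE.mul ih h

/-- A constant `c ∈ A ∩ E` as an integral series. -/
theorem isIntE_C {c : A} (hc : (c : Qb) ∈ E) : IsIntE M A E (HahnSeries.C c) := by
  refine (isIntE_iff M A E).mpr ⟨cst M (c : Qb), field_E_le_F M E (cst_mem_Ec M E hc), ?_⟩
  rw [val_cst]
  ext n
  rw [inc_coeff]
  by_cases hn : n = 0
  · subst hn
    simp [HahnSeries.C_apply]
  · rw [HahnSeries.coeff_single_of_ne hn]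
    have : (HahnSeries.C c : LaurentSeries A).coeff n = 0 := by
      rw [HahnSeries.C_apply, HahnSeries.coeff_single_of_ne hn]
    rw [this]; rfl

theorem inc_C (c : A) : inc A (HahnSeries.C c) = HahnSeries.C (c : Qb) := by
  ext n
  rw [inc_coeff]
  by_cases hn : n = 0
  · subst hn
    simp [HahnSeries.C_apply]
  · rw [HahnSeries.C_apply, HahnSeries.C_apply, HahnSeries.coeff_single_of_ne hn,
      HahnSeries.coeff_single_of_ne hn]
    rfl

theorem red_C (c : A) : red A (HahnSeries.C c) = HahnSeries.C (IsLocalRing.residue A c) := by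
  ext n
  rw [red_coeff]
  by_cases hn : n = 0
  · subst hn
    simp [HahnSeries.C_apply]
  · rw [HahnSeries.C_apply, HahnSeries.C_apply, HahnSeries.coeff_single_of_ne hn,
      HahnSeries.coeff_single_of_ne hn, map_zero]

/-! ### The Gauss valuation ring -/

theorem mem_VcSet_iff {f : Om M} :
    f ∈ VcSet M A E ↔ f ∈ Fc M E ∧ ∃ U₁ U₂ : LaurentSeries A, IsIntE M A E U₁ ∧ IsIntE M A E U₂ ∧
      red A U₂ ≠ 0 ∧ (f : LaurentSeries Qb) * inc A U₂ = inc A U₁ := Iff.rfl

/-- An integral series defines an element of `V`. -/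
theorem mem_VcSet_of_isIntE {f : Om M} {U : LaurentSeries A} (hU : IsIntE M A E U)
    (hf : (f : LaurentSeries Qb) = inc A U) : f ∈ VcSet M A E := by
  obtain ⟨g, hg, hgU⟩ := (isIntE_iff M A E).mp hU
  have hfg : f = g := Subtype.ext (by rw [hf, hgU])
  refine ⟨hfg ▸ hg, U, 1, hU, isIntE_one, ?_, ?_⟩
  · rw [map_one]; exact one_ne_zero
  · rw [map_one, mul_one, hf]

variable (M A E) in
/-- The Gauss valuation ring `V` of `Fc`, as a subring of `Ω`. -/
def Vc : Subring (Om M) where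
  carrier := VcSet M A E
  zero_mem' := mem_VcSet_of_isIntE isIntE_zero (by simp)
  one_mem' := mem_VcSet_of_isIntE isIntE_one (by simp)
  add_mem' := by
    rintro f g ⟨hf, U₁, U₂, h₁, h₂, hr, hfU⟩ ⟨hg, W₁, W₂, k₁, k₂, kr, hgW⟩
    refine ⟨add_mem hf hg, U₁ * W₂ + W₁ * U₂, U₂ * W₂, IsIntE.add (IsIntE.mul h₁ k₂) (IsIntE.mul k₁ h₂), IsIntE.mul h₂ k₂,
      ?_, ?_⟩
    · rw [map_mul]; exact mul_ne_zero hr kr
    · show ((f : LaurentSeries Qb) + (g : LaurentSeries Qb)) * inc A (U₂ * W₂) = _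
      rw [map_mul, map_add, map_mul, map_mul, ← hfU, ← hgW]
      ring
  mul_mem' := by
    rintro f g ⟨hf, U₁, U₂, h₁, h₂, hr, hfU⟩ ⟨hg, W₁, W₂, k₁, k₂, kr, hgW⟩
    refine ⟨mul_mem hf hg, U₁ * W₁, U₂ * W₂, IsIntE.mul h₁ k₁, IsIntE.mul h₂ k₂, ?_, ?_⟩
    · rw [map_mul]; exact mul_ne_zero hr kr
    · show ((f : LaurentSeries Qb) * (g : LaurentSeries Qb)) * inc A (U₂ * W₂) = _
      rw [map_mul, map_mul, ← hfU, ← hgW]
      ring
  neg_mem' := by
    rintro f ⟨hf, U₁, U₂, h₁, h₂, hr, hfU⟩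
    refine ⟨neg_mem hf, -U₁, U₂, IsIntE.neg h₁, h₂, hr, ?_⟩
    show (-(f : LaurentSeries Qb)) * inc A U₂ = _
    rw [map_neg, ← hfU]
    ring

variable (M A E) in
theorem coe_Vc : (Vc M A E : Set (Om M)) = VcSet M A E := rfl

theorem mem_Vc_iff {f : Om M} : f ∈ Vc M A E ↔ f ∈ VcSet M A E := Iff.rfl

variable (M A E) in
/-- field `V_le`. -/
theorem field_V_le : (Vc M A E : Set (Om M)) ⊆ Fc M E := fun _ hf => hf.1

variable (M A E) in
/-- field `R_le_V`. -/
theorem field_R_le_V : Rc M A E ≤ Vc M A E := by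
  intro r hr
  obtain ⟨c, hcA, hcE, rfl⟩ := (mem_Rc_iff M A E).mp hr
  refine mem_VcSet_of_isIntE (U := HahnSeries.C (⟨c, hcA⟩ : A)) (isIntE_C hcE) ?_
  rw [val_cst, inc_C]
  rfl

/-- field `w_inv_not_mem_V`: a non-unit `w₀ ≠ 0` of `A` is not invertible in `V`. -/
theorem field_w_inv_not_mem_V {w₀ : Qb} (hw0 : w₀ ≠ 0) (hwn : w₀⁻¹ ∉ A) :
    (cst M w₀)⁻¹ ∉ Vc M A E := by
  rintro ⟨-, U₁, U₂, -, -, hr, hU⟩
  apply hr
  rw [red_eq_zero_iff]
  intro n
  rw [mem_maximalIdeal_iff]
  have hval : (((cst M w₀)⁻¹ : Om M) : LaurentSeries Qb) = HahnSeries.C (w₀⁻¹) := by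
    rw [← map_inv₀]
    exact val_cst M _
  rw [hval] at hU
  have hn := congrArg (fun z => z.coeff n) hU
  simp only [HahnSeries.C_mul_eq_smul, HahnSeries.coeff_smul, inc_coeff, smul_eq_mul] at hn
  by_cases h0 : ((U₂.coeff n : A) : Qb) = 0
  · exact Or.inl h0
  · right
    intro hinv
    apply hwn
    have : w₀⁻¹ = (U₁.coeff n : Qb) * ((U₂.coeff n : A) : Qb)⁻¹ := by
      rw [← hn]; field_simp
    rw [this]
    exact A.mul_mem _ _ (U₁.coeff n).2 hinv

end Fermat.Agent.S18.H24

end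
end
-- ===== PACK-END S18/H24/GaussA.lean

-- ===== PACK-BEGIN S18/H107/T3Model.lean
section







/-!
# helper107 — S18 / M3-T : the good model for the coordinate `t₃` (case `ℓ = 2`)

`goodModel_t3_107` : from the `j`-model WITHOUT branch-set fields (`BaseModel107 … j`, true for
every `ℓ ∤ M`), the branch data of the `j`-line in characteristic `0` (`BranchJ107`), the identity
`j t³ = (t + 27)(t + 243)³`, `3⁻¹ ∈ R`, `t ∈ Fc ∩ V` and the Gauss property of `t`, we get the
frozen `Alg.GoodModel Lc Ec Fc R V w t S` with `S = {0, -27}`.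
-/

set_option autoImplicit false

namespace Fermat.Agent.S18.H107

open Polynomial Fermat.Agent.S18.Alg

variable {Ω : Type*} [Field Ω]

theorem goodModel_t3_107 {Lc Ec Fc : Subfield Ω} {R V : Subring Ω} {w j t : Ω} {S : Finset Ω}
    (hb : BaseModel107 Lc Ec Fc R V w j) (hB : BranchJ107 Lc j)
    (hrel : j * t ^ 3 = (t + 27) * (t + 243) ^ 3) (htF : t ∈ Fc) (htV : t ∈ V)
    (h3 : (3 : Ω)⁻¹ ∈ R)
    (hgauss : ∀ P : Polynomial Ω, (∀ i, P.coeff i ∈ R) →
      (∃ i, P.coeff i ≠ 0 ∧ (P.coeff i)⁻¹ ∈ R) → (P.eval t)⁻¹ ∈ V)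
    (hS : ∀ s, s ∈ S ↔ s = 0 ∨ s = -27) :
    GoodModel Lc Ec Fc R V w t S := by
  have := hb.charZero
  have hj0 : j ≠ 0 := ne_zero_of_transcendental107 hb.x_transcendental
  have hH : HauptT3107 Fc R V j t :=
    { rel := hrel
      three_inv := h3
      three_ne := three_ne_zero
      j_ne := hj0
      t_mem_Fc := htF
      t_mem_V := htV
      t27_inv_mem_V := gauss_X_add_C107 hgauss (ofNat_mem R 27) }
  have ht0 : t ≠ 0 := hH.t_ne
  have hwF : w ∈ Fc := hb.E_le_F (hb.R_le hb.w_mem)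
  have htinvV : t⁻¹ ∈ V := gauss_X107 hgauss
  have h64 : (27 : Ω)⁻¹ ∈ R := hH.inv27_mem
  -- `j ∈ Ec(t)`
  have hjrat : j ∈ ratField Ec t := by
    have e : j = (t + 27) * (t + 243) ^ 3 * (t ^ 3)⁻¹ := by
      field_simp
      linear_combination hrel
    rw [e]
    have ht := self_mem_ratField107 Ec t
    exact mul_mem (mul_mem (add_mem ht (ofNat_mem _ 27)) (pow_mem (add_mem ht (ofNat_mem _ 243)) 3))
      (inv_mem (pow_mem ht 3))
  -- transcendence of `t`
  have htr : Transcendental Lc t := by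
    intro halg
    apply hb.x_transcendental
    have e : j = (t + 27) * (t + 243) ^ 3 * (t ^ 3)⁻¹ := by
      field_simp
      linear_combination hrel
    rw [e]
    have h27 : IsAlgebraic Lc (27 : Ω) := by
      have : (27 : Ω) = algebraMap Lc Ω (27 : Lc) := by
        rw [map_ofNat]
      rw [this]
      exact isAlgebraic_algebraMap _
    have h243 : IsAlgebraic Lc (243 : Ω) := by
      have : (243 : Ω) = algebraMap Lc Ω (243 : Lc) := by
        rw [map_ofNat]
      rw [this]
      exact isAlgebraic_algebraMap _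
    exact ((halg.add h27).mul ((halg.add h243).pow 3)).mul (halg.pow 3).inv
  refine (show BaseModel107 Lc Ec Fc R V w t from
    { charZero := hb.charZero
      R_le := hb.R_le
      R_total := hb.R_total
      w_mem := hb.w_mem
      w_ne_zero := hb.w_ne_zero
      w_inv_not_mem := hb.w_inv_not_mem
      w_gen := hb.w_gen
      w_discrete := hb.w_discrete
      residue_perfect := hb.residue_perfect
      E_le_L := hb.E_le_L
      E_le_F := hb.E_le_F
      L_algebraic := hb.L_algebraic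
      L_algClosed := hb.L_algClosed
      E_closed_in_F := hb.E_closed_in_F
      compositum := hb.compositum
      x_mem := htF
      x_transcendental := htr
      finite := finite_transfer107 hjrat hb.finite
      V_le := hb.V_le
      V_total := hb.V_total
      R_le_V := hb.R_le_V
      w_inv_not_mem_V := hb.w_inv_not_mem_V
      V_gen := hb.V_gen
      x_mem_V := htV
      gauss := hgauss
      qep_fin := hH.qep_fin hwF hb.qep_fin hb.qep_inf
      qep_inf := hH.qep_inf hwF hb.qep_fin hb.qep_inf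
      separable := separable_transfer107 (e := t ^ 3)
        (Subring.pow_mem _ (self_mem_polyRing107 R t) 3)
        (by
          rw [hrel]
          exact Subring.mul_mem _ (Subring.add_mem _ (self_mem_polyRing107 R t) (ofNat_mem _ 27))
            (Subring.pow_mem _
              (Subring.add_mem _ (self_mem_polyRing107 R t) (ofNat_mem _ 243)) 3))
        (V.pow_mem htV 3) (by rw [← inv_pow]; exact V.pow_mem htinvV 3) (pow_ne_zero _ ht0)
        hb.separable }).toGoodModel S ?_ ?_ ?_ ?_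
  · intro s hs
    rcases (hS s).1 hs with rfl | rfl
    · exact R.zero_mem
    · exact R.neg_mem (ofNat_mem R 27)
  · intro s hs s' hs' hne
    rcases (hS s).1 hs with rfl | rfl <;> rcases (hS s').1 hs' with rfl | rfl
    · exact absurd rfl hne
    · have e : ((0 : Ω) - -27)⁻¹ = (27 : Ω)⁻¹ := by norm_num
      rw [e]
      exact h64
    · have e : ((-27 : Ω) - 0)⁻¹ = -(27 : Ω)⁻¹ := by
        rw [sub_zero, inv_neg]
      rw [e]
      exact R.neg_mem h64
    · exact absurd rfl hne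
  · intro s hs hs0
    rcases (hS s).1 hs with rfl | rfl
    · exact absurd rfl hs0
    · rw [inv_neg]
      exact R.neg_mem h64
  · intro O hL c hc hcS hz hz'
    have hc0 : c ≠ 0 := fun h => hcS ((hS c).2 (Or.inl h))
    have hc64 : c ≠ -27 := fun h => hcS ((hS c).2 (Or.inr h))
    exact unramified_t3_107 Lc j t hrel hB O hL c hc hc64 hc0 hz hz'

end Fermat.Agent.S18.H107

end
-- ===== PACK-END S18/H107/T3Model.lean

-- ===== PACK-BEGIN Ribet/H764/I3Desc.lean
section




/-!
# I3 leaf (L2) DESC (helper764): an eigen-series in `redForms k M` gives `FormsModP`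

`k` any field of characteristic `p`.  Apply an `𝔽_p`-linear functional `φ : k → 𝔽_p` coefficientwise
(`φ (c_{n₀}(g)) ≠ 0`): the result is the reduction of an integral form `f₀ ∈ L`, `f₀ ∉ pL`, and
the eigen-relations (which have coefficients in `𝔽_p`) survive, so `T_ℓ f₀ - a_ℓ f₀ ∈ pL`.
-/

set_option autoImplicit false
set_option linter.style.haveILetI false

open CuspForm ModularFormClass CongruenceSubgroup

namespace Fermat.Agent.Ribet.H764.I3

open Fermat.Agent.S49

variable {M : ℕ}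

/-- Elements of the integral lattice have integral `q`-coefficients. -/
theorem int_of_mem_intLattice_h764 {f : CuspForm (Gamma0 M) 2} (hf : f ∈ intLattice M 2)
    (n : ℕ) : ∃ z : ℤ, qCoeff f n = (z : ℂ) := by
  induction hf using Submodule.span_induction with
  | mem x hx => exact hx n
  | zero =>
    refine ⟨0, ?_⟩
    have h := glue_qCoeff_smul (N := M) 0 (0 : CuspForm (Gamma0 M) 2) n
    rw [zero_smul, zero_mul] at h
    rw [h, Int.cast_zero]
  | add x y _ _ hx hy =>
    obtain ⟨a, ha⟩ := hx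
    obtain ⟨b, hb⟩ := hy
    exact ⟨a + b, by rw [glue_qCoeff_add, ha, hb, Int.cast_add]⟩
  | smul c x _ hx =>
    obtain ⟨a, ha⟩ := hx
    refine ⟨c * a, ?_⟩
    rw [← Int.cast_smul_eq_zsmul ℂ, glue_qCoeff_smul, ha, Int.cast_mul]

theorem mem_intLattice_of_int_h764 {f : CuspForm (Gamma0 M) 2}
    (hf : ∀ n : ℕ, ∃ z : ℤ, qCoeff f n = (z : ℂ)) : f ∈ intLattice M 2 :=
  Submodule.subset_span hf

theorem qCoeff_zsmul_h764 (c : ℤ) (f : CuspForm (Gamma0 M) 2) (n : ℕ) :
    qCoeff ⇑(c • f) n = c * qCoeff ⇑f n := by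
  rw [← Int.cast_smul_eq_zsmul ℂ, glue_qCoeff_smul]

theorem qCoeff_nsmul_h764 (c : ℕ) (f : CuspForm (Gamma0 M) 2) (n : ℕ) :
    qCoeff ⇑(c • f) n = c * qCoeff ⇑f n := by
  rw [← Nat.cast_smul_eq_nsmul ℂ, glue_qCoeff_smul]

/-- An integral form all of whose coefficients are divisible by `p` lies in `pL`. -/
theorem exists_eq_nsmul_of_dvd_h764 {p : ℕ} (hp : p ≠ 0) (F : CuspForm (Gamma0 M) 2)
    (e : ℕ → ℤ) (he : ∀ n, qCoeff F n = (e n : ℂ)) (hdvd : ∀ n, (p : ℤ) ∣ e n) :
    ∃ f' ∈ intLattice M 2, F = p • f' := by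
  have hpC : (p : ℂ) ≠ 0 := Nat.cast_ne_zero.mpr hp
  refine ⟨(p : ℂ)⁻¹ • F, mem_intLattice_of_int_h764 fun n => ?_, ?_⟩
  · obtain ⟨z, hz⟩ := hdvd n
    refine ⟨z, ?_⟩
    rw [glue_qCoeff_smul, he, hz]
    push_cast
    field_simp
  · rw [← Nat.cast_smul_eq_nsmul ℂ, smul_smul, mul_inv_cancel₀ hpC, one_smul]

section Functional

variable {p : ℕ} [Fact p.Prime] {k : Type} [Field k] [CharP k p]

/-- Coefficientwise image of a series in `redForms k M` under an `𝔽_p`-linear functional is the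
reduction of an integral form. -/
theorem exists_form_of_functional_h764 (g : PowerSeries k) (hg : g ∈ redForms k M) :
    letI := ZMod.algebra k p
    ∀ φ : k →ₗ[ZMod p] ZMod p, ∃ f ∈ intLattice M 2, ∃ m : ℕ → ℤ,
      (∀ n, qCoeff f n = (m n : ℂ)) ∧ ∀ n, ((m n : ℤ) : ZMod p) = φ (PowerSeries.coeff n g) := by
  letI := ZMod.algebra k p
  induction hg using Submodule.span_induction with
  | mem x hx =>
    intro φ
    obtain ⟨f, c, hfc, hxc⟩ := hx
    refine ⟨((φ 1 : ZMod p).cast : ℤ) • f, ?_, fun n => ((φ 1 : ZMod p).cast : ℤ) * c n, ?_, ?_⟩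
    · exact (intLattice M 2).smul_mem _ (mem_intLattice_of_int_h764 fun n => ⟨c n, hfc n⟩)
    · intro n
      rw [qCoeff_zsmul_h764, hfc, Int.cast_mul]
    · intro n
      rw [hxc n, Int.cast_mul, ZMod.intCast_zmod_cast]
      have h1 : ((c n : ℤ) : k) = ((c n : ℤ) : ZMod p) • (1 : k) := by
        rw [Algebra.smul_def, mul_one, map_intCast]
      rw [h1, map_smul, smul_eq_mul, mul_comm]
  | zero =>
    intro φ
    refine ⟨0, (intLattice M 2).zero_mem, fun _ => 0, fun n => ?_, fun n => ?_⟩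
    · have h := glue_qCoeff_smul (N := M) 0 (0 : CuspForm (Gamma0 M) 2) n
      rw [zero_smul, zero_mul] at h
      rw [h, Int.cast_zero]
    · rw [map_zero, map_zero, Int.cast_zero]
  | add x y _ _ hx hy =>
    intro φ
    obtain ⟨f₁, hf₁, m₁, h₁, h₁'⟩ := hx φ
    obtain ⟨f₂, hf₂, m₂, h₂, h₂'⟩ := hy φ
    refine ⟨f₁ + f₂, (intLattice M 2).add_mem hf₁ hf₂, fun n => m₁ n + m₂ n, fun n => ?_,
      fun n => ?_⟩
    · rw [glue_qCoeff_add, h₁, h₂, Int.cast_add]
    · rw [map_add, map_add, Int.cast_add, h₁', h₂']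
  | smul c x _ hx =>
    intro φ
    obtain ⟨f, hf, m, h, h'⟩ := hx (φ.comp (LinearMap.mulLeft (ZMod p) c))
    refine ⟨f, hf, m, h, fun n => ?_⟩
    rw [h' n]
    simp [LinearMap.mulLeft_apply]

end Functional

/-- **(L2) DESC.** -/
theorem desc_proved : DescStatement := by
  intro p M _ hp k _ _ S a g hg hg0 heig
  haveI : Fact p.Prime := ⟨hp⟩
  letI := ZMod.algebra k p
  -- a nonzero coefficient and a functional detecting it
  obtain ⟨n₀, hn₀⟩ : ∃ n₀, PowerSeries.coeff n₀ g ≠ 0 := by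
    by_contra hcon
    push Not at hcon
    exact hg0 (PowerSeries.ext fun n => by rw [hcon n, map_zero])
  obtain ⟨φ, hφ⟩ : ∃ φ : Module.Dual (ZMod p) k, φ (PowerSeries.coeff n₀ g) ≠ 0 := by
    by_contra hcon
    push Not at hcon
    exact hn₀ ((Module.forall_dual_apply_eq_zero_iff (ZMod p) _).mp hcon)
  obtain ⟨f₀, hf₀, m, hm, hmφ⟩ := exists_form_of_functional_h764 (p := p) g hg φ
  refine ⟨f₀, hf₀, ?_, ?_⟩
  · -- `f₀ ∉ pL`
    intro f' hf' e
    obtain ⟨z, hz⟩ := int_of_mem_intLattice_h764 hf' n₀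
    have h1 : (m n₀ : ℂ) = ((p : ℤ) * z : ℤ) := by
      rw [← hm n₀, e, qCoeff_nsmul_h764, hz]
      push_cast
      rfl
    have h2 : m n₀ = (p : ℤ) * z := by exact_mod_cast h1
    apply hφ
    rw [← hmφ n₀, h2]
    simp
  · -- the eigen-relations
    intro ℓ hℓ hℓM hℓS
    apply exists_eq_nsmul_of_dvd_h764 hp.ne_zero _
      (fun n => m (n * ℓ) + (if ℓ ∣ n then (ℓ : ℤ) * m (n / ℓ) else 0) - a ℓ * m n)
    · intro n
      rw [glue_qCoeff_sub, glue_qCoeff_heckeTLin, qCoeff_zsmul_h764]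
      simp only [hm]
      split_ifs with hd
      · push_cast
        rfl
      · push_cast
        rfl
    · intro n
      rw [← ZMod.intCast_zmod_eq_zero_iff_dvd]
      have hrel := heig ℓ hℓ hℓM hℓS n
      have hk : ∀ (z : ℤ) (x : k), φ ((z : k) * x) = (z : ZMod p) * φ x := by
        intro z x
        have h1 : (z : k) * x = (z : ZMod p) • x := by
          rw [Algebra.smul_def, map_intCast]
        rw [h1, map_smul, smul_eq_mul]
      have h3 := congrArg φ hrel
      rw [map_add] at h3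
      have h4 : φ ((a ℓ : k) * PowerSeries.coeff n g) = (a ℓ : ZMod p) * (m n : ZMod p) := by
        rw [hk, hmφ]
      rw [h4, ← hmφ] at h3
      push_cast
      split_ifs at h3 ⊢ with hd
      · have h5 : φ ((ℓ : k) * PowerSeries.coeff (n / ℓ) g) =
            (ℓ : ZMod p) * (m (n / ℓ) : ZMod p) := by
          have := hk (ℓ : ℤ) (PowerSeries.coeff (n / ℓ) g)
          rw [Int.cast_natCast, Int.cast_natCast] at this
          rw [this, hmφ]
        rw [h5] at h3
        rw [h3]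
        ring
      · rw [map_zero] at h3
        rw [h3]
        ring

end Fermat.Agent.Ribet.H764.I3

end
-- ===== PACK-END Ribet/H764/I3Desc.lean

-- ===== PACK-BEGIN S37/Core/PlaceRed.lean
section



/-!
# S37 row (helper37): from a place reduction map to the frozen statement

`PlaceRed N A ℓ σ₀` is the geometric datum to be constructed by the row:
a map `r` from the places of `ℚ̄(X₀(N))` to the places of the function field of the special
fibre such that
* `isRed`, `gen` : `r` witnesses `ReductionInputsModL A N` (Prelude);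
* `inertia` : `r (τ • P) = r P` for `τ` in the inertia group at `A`;
* `es` : Eichler-Shimura on divisors, `r_* (T_ℓ P) = r (σ₀ P) + ℓ · r (σ₀⁻¹ P)`.

`specialization_of_placeRed` turns it (together with `HeckeInputsAlong` and the conclusion of
the frozen statement S18, both taken as hypotheses) into the conclusion of S37 at `(ℓ, A)`.
Everything here is fully proved.
-/

set_option autoImplicit false
set_option synthInstance.maxHeartbeats 400000

noncomputable section

namespace Fermat.Agent.S37.Core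

open ModularCurve ValuationSubring AlgebraicCurve HahnSeries

/-- the conclusion of the frozen statement S18 at `(N, ℓ, A)` -/
def InjTorsionModL (N : ℕ) [NeZero N] (ℓ : ℕ) (A : ValuationSubring (AlgebraicClosure ℚ)) :
    Prop :=
  ∀ (_ : ReductionInputsModL A N) (m : ℕ), ¬ ℓ ∣ m → ∀ z : JZero N, m • z = 0 →
    reductionModL A N z = 0 → z = 0

/-- The geometric datum: a place reduction map with inertia invariance and the
Eichler-Shimura congruence on divisors, relative to one Frobenius element `σ₀`. -/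
structure PlaceRed (N : ℕ) [NeZero N] (A : ValuationSubring (AlgebraicClosure ℚ)) (ℓ : ℕ)
    [NeZero ℓ] (σ₀ : AlgebraicClosure ℚ ≃ₐ[ℚ] AlgebraicClosure ℚ) : Type where
  /-- the reduction map on places -/
  r : Place (AlgebraicClosure ℚ) (modularFunctionFieldBar N) →
    Place (IsLocalRing.ResidueField A) (modularFunctionFieldFullC (IsLocalRing.ResidueField A) N)
  isRed : IsPlaceReductionModL A N r
  gen : PrincipalGeneratedByIntegral A (IsLocalRing.residue A) N
  inertia : ∀ τ ∈ A.inertiaSubgroupIn ℚ,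
    ∀ P : Place (AlgebraicClosure ℚ) (modularFunctionFieldBar N),
      r (arithmeticGalois (modularFunctionFieldFull N) τ • P) = r P
  es : ∀ (hα : HeckeAlphaBarIntegral (AlgebraicClosure ℚ) N ℓ)
    (hβ : HeckeBetaBarIntegral (AlgebraicClosure ℚ) N ℓ)
    [HasPrincipalDivisors (AlgebraicClosure ℚ) (modularFunctionFieldBar (N * ℓ))]
    (P : Place (AlgebraicClosure ℚ) (modularFunctionFieldBar N)),
    Finsupp.mapDomain r (heckeDivBar hα hβ (Finsupp.single P 1)) =
      Finsupp.single (r (arithmeticGalois (modularFunctionFieldFull N) σ₀ • P)) 1 +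
        Finsupp.single (r ((arithmeticGalois (modularFunctionFieldFull N) σ₀)⁻¹ • P)) (ℓ : ℤ)

section Torsion

variable {L : Type*} [Field L] [Algebra ℚ L] {A : ValuationSubring L}
variable {k : Type*} [Field k] {π : A →+* k} {N : ℕ}

/-- two place reductions agree on principal divisors -/
theorem mapDomain_eq_of_mem_principal
    {r₁ r₂ : Place L (laurentBaseChange L (modularFunctionFieldFull N)) →
      Place k (modularFunctionFieldFullC k N)}
    (h₁ : IsPlaceReductionAlong A π N r₁) (h₂ : IsPlaceReductionAlong A π N r₂)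
    (hgen : PrincipalGeneratedByIntegral A π N)
    {D : Divisor L (laurentBaseChange L (modularFunctionFieldFull N))}
    (hD : D ∈ Divisor.principal (K := L) (F := laurentBaseChange L (modularFunctionFieldFull N))) :
    Finsupp.mapDomain r₁ D = Finsupp.mapDomain r₂ D := by
  have hD' := hgen hD
  clear hD
  induction hD' using AddSubgroup.closure_induction with
  | mem E hE =>
    obtain ⟨y, hy, hyk, hne, hDy⟩ := hE
    ext Q
    rw [h₁.2 y hy hyk hne E hDy Q, h₂.2 y hy hyk hne E hDy Q]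
  | zero => rw [Finsupp.mapDomain_zero, Finsupp.mapDomain_zero]
  | add E E' _ _ hE hE' => rw [Finsupp.mapDomain_add, Finsupp.mapDomain_add, hE, hE']
  | neg E _ hE =>
    rw [← Finsupp.mapDomain.addMonoidHom_apply, ← Finsupp.mapDomain.addMonoidHom_apply, map_neg,
      map_neg, Finsupp.mapDomain.addMonoidHom_apply, Finsupp.mapDomain.addMonoidHom_apply, hE]

/-- two place reductions agree on divisors some nonzero multiple of which is principal -/
theorem mapDomain_eq_of_nsmul_mem_principal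
    {r₁ r₂ : Place L (laurentBaseChange L (modularFunctionFieldFull N)) →
      Place k (modularFunctionFieldFullC k N)}
    (h₁ : IsPlaceReductionAlong A π N r₁) (h₂ : IsPlaceReductionAlong A π N r₂)
    (hgen : PrincipalGeneratedByIntegral A π N)
    {D : Divisor L (laurentBaseChange L (modularFunctionFieldFull N))} {m : ℕ} (hm : m ≠ 0)
    (hD : m • D ∈
      Divisor.principal (K := L) (F := laurentBaseChange L (modularFunctionFieldFull N))) :
    Finsupp.mapDomain r₁ D = Finsupp.mapDomain r₂ D := by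
  have h := mapDomain_eq_of_mem_principal h₁ h₂ hgen hD
  rw [← Finsupp.mapDomain.addMonoidHom_apply, ← Finsupp.mapDomain.addMonoidHom_apply,
    map_nsmul, map_nsmul, Finsupp.mapDomain.addMonoidHom_apply,
    Finsupp.mapDomain.addMonoidHom_apply] at h
  ext Q
  have hQ := DFunLike.congr_fun h Q
  rw [Finsupp.smul_apply, Finsupp.smul_apply, nsmul_eq_mul, nsmul_eq_mul] at hQ
  exact mul_left_cancel₀ (Nat.cast_ne_zero.mpr hm) hQ

/-- on torsion classes the reduction map does not depend on the place reduction -/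
theorem reductionPic0Along_eq_of_nsmul_eq_zero
    {r₁ r₂ : Place L (laurentBaseChange L (modularFunctionFieldFull N)) →
      Place k (modularFunctionFieldFullC k N)}
    (h₁ : IsPlaceReductionAlong A π N r₁) (h₂ : IsPlaceReductionAlong A π N r₂)
    (hgen : PrincipalGeneratedByIntegral A π N) {m : ℕ} (hm : m ≠ 0)
    {x : Pic0 L (laurentBaseChange L (modularFunctionFieldFull N))} (hx : m • x = 0) :
    reductionPic0Along r₁ h₁ hgen x = reductionPic0Along r₂ h₂ hgen x := by
  obtain ⟨D, rfl⟩ := Pic0.mk_surjective x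
  rw [reductionPic0Along_mk, reductionPic0Along_mk]
  congr 1
  apply Subtype.ext
  rw [coe_reductionDegZeroAlong, coe_reductionDegZeroAlong]
  refine mapDomain_eq_of_nsmul_mem_principal h₁ h₂ hgen hm ?_
  have h0 : (m • D : Divisor.degZero (K := L)
      (F := laurentBaseChange L (modularFunctionFieldFull N))) ∈
      (Divisor.principal (K := L)
        (F := laurentBaseChange L (modularFunctionFieldFull N))).addSubgroupOf
        (Divisor.degZero (K := L) (F := laurentBaseChange L (modularFunctionFieldFull N))) := by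
    rw [← QuotientAddGroup.eq_zero_iff]
    exact hx
  rw [AddSubgroup.mem_addSubgroupOf, AddSubgroupClass.coe_nsmul] at h0
  exact h0

end Torsion

section Main

variable {N : ℕ} [NeZero N] {A : ValuationSubring (AlgebraicClosure ℚ)} {ℓ : ℕ} [NeZero ℓ]
  {σ₀ : AlgebraicClosure ℚ ≃ₐ[ℚ] AlgebraicClosure ℚ}

/-- the reduction map on `J₀(N)` attached to a `PlaceRed` -/
def PlaceRed.red (D : PlaceRed N A ℓ σ₀) : JZero N →+ JZeroC (IsLocalRing.ResidueField A) N :=
  reductionPic0Along D.r D.isRed D.gen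

theorem PlaceRed.red_mk (D : PlaceRed N A ℓ σ₀)
    (E : Divisor.degZero (K := AlgebraicClosure ℚ) (F := modularFunctionFieldBar N)) :
    D.red (Pic0.mk E) = Pic0.mk (reductionDegZeroAlong D.r D.isRed.1 E) := rfl

theorem PlaceRed.reductionInputs (D : PlaceRed N A ℓ σ₀) : ReductionInputsModL A N :=
  ⟨D.r, D.isRed, D.gen⟩

/-- on torsion classes `D.red` is the Prelude reduction map -/
theorem PlaceRed.red_eq_reductionModL (D : PlaceRed N A ℓ σ₀) {m : ℕ} (hm : m ≠ 0)
    {x : JZero N} (hx : m • x = 0) : D.red x = reductionModL A N x := by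
  have h := D.reductionInputs
  show reductionPic0Along D.r D.isRed D.gen x = reductionAlong A (IsLocalRing.residue A) N x
  rw [reductionAlong_eq h]
  exact reductionPic0Along_eq_of_nsmul_eq_zero D.isRed h.choose_spec.1 D.gen hm hx

/-- inertia acts trivially after reduction -/
theorem PlaceRed.red_inertia (D : PlaceRed N A ℓ σ₀)
    {τ : AlgebraicClosure ℚ ≃ₐ[ℚ] AlgebraicClosure ℚ} (hτ : τ ∈ A.inertiaSubgroupIn ℚ)
    (x : JZero N) : D.red (τ • x) = D.red x := by
  obtain ⟨E, rfl⟩ := Pic0.mk_surjective x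
  rw [galois_smul_pic0_def, SemilinearAut.pic0_smul_mk, D.red_mk, D.red_mk]
  congr 1
  apply Subtype.ext
  rw [coe_reductionDegZeroAlong, coe_reductionDegZeroAlong, SemilinearAut.coe_degZeroSMulHom,
    SemilinearAut.divisor_smul_def, ← Finsupp.mapDomain_comp]
  congr 1
  funext P
  exact D.inertia τ hτ P

/-- injectivity on prime-to-`ℓ` torsion, from the conclusion of S18 -/
theorem PlaceRed.red_inj_torsion (D : PlaceRed N A ℓ σ₀) (hS18 : InjTorsionModL N ℓ A)
    {m : ℕ} (hm : ¬ ℓ ∣ m) {x : JZero N} (hx : m • x = 0) (h0 : D.red x = 0) : x = 0 := by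
  have hm0 : m ≠ 0 := fun h => hm (h ▸ dvd_zero ℓ)
  refine hS18 D.reductionInputs m hm x hx ?_
  rw [← D.red_eq_reductionModL hm0 hx]
  exact h0

/-- the Eichler-Shimura relation on divisors -/
theorem PlaceRed.mapDomain_relation (D : PlaceRed N A ℓ σ₀)
    (hα : HeckeAlphaBarIntegral (AlgebraicClosure ℚ) N ℓ)
    (hβ : HeckeBetaBarIntegral (AlgebraicClosure ℚ) N ℓ)
    [HasPrincipalDivisors (AlgebraicClosure ℚ) (modularFunctionFieldBar (N * ℓ))]
    (E : Divisor (AlgebraicClosure ℚ) (modularFunctionFieldBar N)) :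
    Finsupp.mapDomain D.r
      (arithmeticGalois (modularFunctionFieldFull N) σ₀ •
          arithmeticGalois (modularFunctionFieldFull N) σ₀ • E -
        heckeDivBar hα hβ (arithmeticGalois (modularFunctionFieldFull N) σ₀ • E) +
        ℓ • E) = 0 := by
  set g := arithmeticGalois (modularFunctionFieldFull N) σ₀ with hg
  let Ψ : Divisor (AlgebraicClosure ℚ) (modularFunctionFieldBar N) →+
      Divisor (IsLocalRing.ResidueField A)
        (modularFunctionFieldFullC (IsLocalRing.ResidueField A) N) :=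
    (Finsupp.mapDomain.addMonoidHom D.r).comp
      ((DistribSMul.toAddMonoidHom _ g).comp (DistribSMul.toAddMonoidHom _ g) -
        (heckeDivBar hα hβ).comp (DistribSMul.toAddMonoidHom _ g) +
        ℓ • AddMonoidHom.id _)
  have hΨ : Ψ = 0 := by
    refine Finsupp.addHom_ext' fun P => ?_
    refine AddMonoidHom.ext_int ?_
    show Finsupp.mapDomain D.r (g • g • Finsupp.single P 1 -
      heckeDivBar hα hβ (g • Finsupp.single P 1) + ℓ • Finsupp.single P 1) = 0
    rw [SemilinearAut.smul_single, SemilinearAut.smul_single, Finsupp.mapDomain_add,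
      Finsupp.mapDomain_sub, D.es hα hβ (g • P), inv_smul_smul, Finsupp.mapDomain_single,
      Finsupp.smul_single, Finsupp.mapDomain_single, nsmul_eq_mul, mul_one]
    abel
  exact DFunLike.congr_fun hΨ E

end Main

end Fermat.Agent.S37.Core

end
end
-- ===== PACK-END S37/Core/PlaceRed.lean

-- ===== PACK-BEGIN S37/Red/SpecMod.lean
section




/-!
# S37-RED — frozen interfaces at the modular level (architect: helper40)        v1

* `ModDatum N A`   : a reduction datum (`Spec.lean`) on `(F_N, F_{N,k})` with good charts, linked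
                     to the `q`-expansion integrality of the Prelude and Galois-stable.
* `PlaceRed N A ℓ` : everything about the place map `r` that the assembly needs.
* `AssemblyStatement` : `PlaceRed` + `HeckeInputsAlong`  ⟹  `H99.RedData`  (⟹ frozen S37 by
                     `H99.result_of_redData`, already on main).

Documentation: `coord/S37-red.md` on `origin/helper40`.
-/

set_option autoImplicit false
set_option synthInstance.maxHeartbeats 400000

noncomputable section

namespace Fermat.Agent.S37.Red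

open ModularCurve AlgebraicCurve HahnSeries IsLocalRing

/-- `Q̄` -/
abbrev Qb : Type := AlgebraicClosure ℚ

/-- the function field `F_N = Q̄(j(q^d) : d ∣ N)` of `X₀(N)` over `Q̄` -/
abbrev FN (N : ℕ) : Type := modularFunctionFieldBar N

/-- the residue field `k = A/𝔪` -/
abbrev kA (A : ValuationSubring Qb) : Type := ResidueField A

/-- the function field `F_{N,k} = k(j(q^d) : d ∣ N)` -/
abbrev FNk (A : ValuationSubring Qb) (N : ℕ) : Type := modularFunctionFieldFullC (kA A) N

/-- **RED-E (instantiation)**: a reduction datum on `(F_N, F_{N,k})` with good charts such that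
* (link) every Prelude-integral series `y` (i.e. `y ∈ A((q)) ∩ F_N`, `ȳ ∈ F_{N,k}`, `ȳ ≠ 0`) lies
  in `O` and `ρ y = ȳ`;
* (galois) the decomposition group of `A` preserves `O` and fixes the coordinate `x`. -/
structure ModDatum (N : ℕ) (A : ValuationSubring Qb) where
  /-- the datum -/
  G : Datum A (residue A) (FN N) (FNk A N)
  good : G.Good
  link : ∀ (y : LaurentSeries A) (hy : coeffMap A.subtype y ∈ modularFunctionFieldBar N)
    (hyk : coeffMap (residue A) y ∈ modularFunctionFieldFullC (kA A) N),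
    coeffMap (residue A) y ≠ 0 →
    ∃ h : (⟨coeffMap A.subtype y, hy⟩ : FN N) ∈ G.O,
      G.ρ ⟨⟨coeffMap A.subtype y, hy⟩, h⟩ = ⟨coeffMap (residue A) y, hyk⟩
  galois_mem : ∀ σ ∈ A.decompositionSubgroup ℚ, ∀ f : FN N, f ∈ G.O →
    arithmeticGalois (modularFunctionFieldFull N) σ • f ∈ G.O
  galois_x : ∀ σ : Qb ≃ₐ[ℚ] Qb, arithmeticGalois (modularFunctionFieldFull N) σ • G.x = G.x

/-- **RED-E1**: the abstract (i)+(ii) for a `ModDatum` give the Prelude's
`IsPlaceReductionModL`. -/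
def IsPlaceReductionOfIsRedStatement : Prop :=
  ∀ (N : ℕ) (A : ValuationSubring Qb) (M : ModDatum N A)
    (r : Place Qb (FN N) → Place (kA A) (FNk A N)),
    IsRed M.G r → IsPlaceReductionModL A N r

/-- Everything the assembly needs to know about the place map `r` (level `N`). -/
structure PlaceRed (N : ℕ) [NeZero N] (A : ValuationSubring Qb) (ℓ : ℕ) [NeZero ℓ] where
  /-- the place map -/
  r : Place Qb (FN N) → Place (kA A) (FNk A N)
  /-- (i), (ii) -/
  isRed : IsPlaceReductionModL A N r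
  /-- (iii) -/
  pgi : PrincipalGeneratedByIntegral A (residue A) N
  /-- (III) inertia acts trivially after reduction -/
  inertia : ∀ τ ∈ A.inertiaSubgroupIn ℚ, ∀ P : Place Qb (FN N),
    r (arithmeticGalois (modularFunctionFieldFull N) τ • P) = r P
  /-- the coefficientwise Frobenius of `F_{N,k}` -/
  φ : SemilinearAut (kA A) (FNk A N)
  /-- (IV) Frobenius elements reduce to `φ` -/
  frob : ∀ σ : Qb ≃ₐ[ℚ] Qb, A.IsFrobeniusAt σ ℓ → ∀ P : Place Qb (FN N),
    r (arithmeticGalois (modularFunctionFieldFull N) σ • P) = φ • r P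
  /-- (V) pointwise Eichler–Shimura: `r_*(T_ℓ P) = φ(rP) + ℓ·φ⁻¹(rP)` -/
  es : ∀ (hα : HeckeAlphaBarIntegral Qb N ℓ) (hβ : HeckeBetaBarIntegral Qb N ℓ)
    [HasPrincipalDivisors Qb (laurentBaseChange Qb (modularFunctionFieldFull (N * ℓ)))]
    (P : Place Qb (FN N)),
    Finsupp.mapDomain r (heckeDivBar hα hβ (Finsupp.single P 1)) =
      Finsupp.single (φ • r P) 1 + Finsupp.single (φ⁻¹ • r P) (ℓ : ℤ)
  /-- (S18 core, in the `r`-general form `DivisorCore` of helper94) -/
  inj : ∀ m : ℕ, m.Coprime ℓ → ∀ D : Divisor Qb (FN N),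
    Divisor.degree D = 0 → Divisor.IsPrincipal (m • D) →
      Divisor.IsPrincipal (Finsupp.mapDomain r D) → Divisor.IsPrincipal D

/-- **RED-H (assembly, level `N`)**: reduction data for the frozen S37 from `PlaceRed` and
`HeckeInputsAlong` (`red := reductionPic0Along r`). -/
def AssemblyStatement : Prop :=
  ∀ (N : ℕ) [NeZero N] (A : ValuationSubring Qb) (ℓ : ℕ) (hℓ : ℓ.Prime),
    haveI : NeZero ℓ := ⟨hℓ.ne_zero⟩
    HeckeInputsAlong Qb N ℓ → PlaceRed N A ℓ → Nonempty (H99.RedData N A ℓ hℓ)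

end Fermat.Agent.S37.Red

end
end
-- ===== PACK-END S37/Red/SpecMod.lean

-- ===== PACK-BEGIN Ribet/H495/AlgPAsm.lean
section



/-!
# W-ALGP: LF-p and the assembly `algP_of_leaves` (helper495)

* `localFactorP_of_pureAtP` (**LF-p**): `PureAtP u n ⟹ LocalFactorP (τ u / u ^ c) n`.
* `algP_of_leaves` : `WPSmoothLeaf → WPNodeLeaf → GluePLeaf → AlgPStatement`.
-/

set_option autoImplicit false
set_option linter.style.haveILetI false
set_option linter.unusedSectionVars false

namespace Fermat.Agent.Ribet.H495.AlgP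

open Fermat.Agent.A2 Fermat.Agent.A2.Alg

section LF

variable {R F : Type*} [CommRing R] [Field F] [Algebra R F]

theorem w_mem_comp₁ {w : R} {B : Subalgebra R F} (c : SSChart w B) :
    algebraMap R B w ∈ c.p₁ := by
  have : algebraMap R B w ∈ c.p₁ ⊓ c.p₂ := by
    rw [c.inf_eq]
    exact Ideal.mem_span_singleton_self _
  exact this.1

theorem w_mem_comp₂ {w : R} {B : Subalgebra R F} (c : SSChart w B) :
    algebraMap R B w ∈ c.p₂ := by
  have : algebraMap R B w ∈ c.p₁ ⊓ c.p₂ := by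
    rw [c.inf_eq]
    exact Ideal.mem_span_singleton_self _
  exact this.2

/-- the component part of LF-p: `ζ^j d ∈ 1 + λ B_𝔭 ⟹ τ d / d^c ∈ 1 + λ w B_𝔭`. -/
theorem comp_of_pure {w : R} {B : Subalgebra R F} {τ : F ≃+* F}
    (hτB : ∀ b ∈ B, ∃ c ∈ B, τ b - b = algebraMap R F w * c)
    (𝔭 : Ideal B) (h𝔭 : 𝔭.IsPrime) (hw𝔭 : algebraMap R B w ∈ 𝔭)
    (p : ℕ) (ζ ρ k₀ κ₁ : R) (cc : ℕ) (hζp : ζ ^ p = 1) (hp : 0 < p)
    (hlam : ζ - 1 = w * ρ)
    (hτζ : τ (algebraMap R F ζ) = algebraMap R F (ζ ^ cc))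
    (hgeom : ζ ^ cc - 1 = (ζ - 1) * k₀)
    (hk1 : k₀ = (cc : R) + w * κ₁)
    {d : F} (hd : d ≠ 0) {j : ℕ} (h : LocOneR B 𝔭 (ζ - 1) (algebraMap R F (ζ ^ j) * d)) :
    LocOneR B 𝔭 ((ζ - 1) * w) (τ d * (d ^ cc)⁻¹) := by
  have hS := tauLoc_locSub w B τ hτB 𝔭 h𝔭 hw𝔭
  obtain ⟨z, hz, e⟩ := (locOneR_iff h𝔭).1 h
  have hτlam : τ (algebraMap R F (ζ - 1)) = algebraMap R F (ζ - 1) * algebraMap R F k₀ := by
    rw [map_sub, map_sub, map_one, map_one, hτζ, ← map_one (algebraMap R F), ← map_sub,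
      ← map_sub, ← map_mul, hgeom]
  obtain ⟨hne, s, hs, hτ⟩ := tau_one_add hS (ζ - 1) ρ k₀ κ₁ cc 1 one_pos hlam hτlam
    (by rw [pow_one]; exact hk1) hz
  rw [pow_one] at hτ hne
  have hZ : algebraMap R F ζ ^ p = 1 := by rw [← map_pow, hζp, map_one]
  have hZ0 : algebraMap R F ζ ≠ 0 := by
    intro h0
    rw [h0, zero_pow hp.ne'] at hZ
    exact zero_ne_one hZ
  have hZj : algebraMap R F (ζ ^ j) ≠ 0 := by
    rw [map_pow]
    exact pow_ne_zero _ hZ0
  have hτZj : τ (algebraMap R F (ζ ^ j)) = algebraMap R F (ζ ^ j) ^ cc := by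
    rw [map_pow, map_pow, hτζ, map_pow, ← pow_mul, ← pow_mul, mul_comm]
  -- `τ (ζ^j d) = (ζ^j d)^c (1 + λ w s)`
  rw [← e, map_mul, hτZj, mul_pow] at hτ
  have hτd : τ d = d ^ cc * (1 + algebraMap R F (ζ - 1) * algebraMap R F w * s) := by
    have h3 := mul_left_cancel₀ (pow_ne_zero cc hZj)
      (show algebraMap R F (ζ ^ j) ^ cc * τ d = algebraMap R F (ζ ^ j) ^ cc *
        (d ^ cc * (1 + algebraMap R F (ζ - 1) * algebraMap R F w * s)) by
        rw [hτ]; ring)
    exact h3
  refine (locOneR_iff h𝔭).2 ⟨s, hs, ?_⟩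
  rw [hτd, map_mul]
  field_simp

/-- **LF-p.** -/
theorem localFactorP_of_pureAtP {w : R} {B : Subalgebra R F} (c : SSChart w B) {τ : F ≃+* F}
    (hτB : ∀ b ∈ B, ∃ c ∈ B, τ b - b = algebraMap R F w * c)
    (n : Ideal B) (hn : n.IsPrime) (hwn : algebraMap R B w ∈ n)
    (p : ℕ) (ζ ρ k₀ κ₁ κ₂ : R) (cc : ℕ) (hζp : ζ ^ p = 1) (hp : 0 < p)
    (hlam : ζ - 1 = w * ρ)
    (hτζ : τ (algebraMap R F ζ) = algebraMap R F (ζ ^ cc))
    (hgeom : ζ ^ cc - 1 = (ζ - 1) * k₀)
    (hk1 : k₀ = (cc : R) + w * κ₁) (hkp : k₀ ^ p = (cc : R) + w * κ₂)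
    {u : F} (hu : u ≠ 0) (h : PureAtP B c p ζ u n) :
    LocalFactorP B c p (ζ - 1) (τ u * (u ^ cc)⁻¹) n := by
  obtain ⟨d, hd, hloc, ⟨j₁, h₁⟩, ⟨j₂, h₂⟩⟩ := h
  have hτd : τ d ≠ 0 := (map_ne_zero τ).2 hd
  refine ⟨τ d * (d ^ cc)⁻¹, mul_ne_zero hτd (inv_ne_zero (pow_ne_zero _ hd)), ?_,
    comp_of_pure hτB c.p₁ c.prime₁ (w_mem_comp₁ c) p ζ ρ k₀ κ₁ cc hζp hp hlam hτζ hgeom hk1 hd h₁,
    comp_of_pure hτB c.p₂ c.prime₂ (w_mem_comp₂ c) p ζ ρ k₀ κ₁ cc hζp hp hlam hτζ hgeom hk1 hd h₂⟩
  have hS := tauLoc_locSub w B τ hτB n hn hwn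
  obtain ⟨t, ht, e⟩ := (locOneR_iff hn).1 hloc
  have hτlam : τ (algebraMap R F (ζ - 1)) = algebraMap R F (ζ - 1) * algebraMap R F k₀ := by
    rw [map_sub, map_sub, map_one, map_one, hτζ, ← map_one (algebraMap R F), ← map_sub,
      ← map_sub, ← map_mul, hgeom]
  obtain ⟨hne, s, hs, hτ⟩ := tau_one_add hS (ζ - 1) ρ k₀ κ₂ cc p hp hlam hτlam hkp ht
  rw [map_pow] at e
  rw [← e] at hτ hne
  refine (locOneR_iff hn).2 ⟨s, hs, ?_⟩
  have hu' : u ^ cc ≠ 0 := pow_ne_zero _ hu
  have hd' : d ^ cc ≠ 0 := pow_ne_zero _ hd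
  have key : τ u * (u ^ cc)⁻¹ * (τ d * (d ^ cc)⁻¹) ^ p = τ (u * d ^ p) * ((u * d ^ p) ^ cc)⁻¹ := by
    rw [map_mul, map_pow, mul_pow, mul_pow, inv_pow, mul_inv, ← pow_mul, ← pow_mul,
      mul_comm p cc]
    ring
  rw [key, hτ, map_mul, map_pow]
  field_simp

end LF

section Div

variable {E F : Type*} [Field E] [Field F] [Algebra E F]

theorem divisibleDiv_pow495 (m : ℕ) (f : F) (hf : DivisibleDiv E m f) (c : ℕ) :
    DivisibleDiv E m (f ^ c) := by
  intro V hV hE
  obtain ⟨h, u, hh, hu, hu', rfl⟩ := hf V hV hE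
  refine ⟨h ^ c, u ^ c, pow_ne_zero _ hh, V.pow_mem hu c, ?_, ?_⟩
  · rw [← inv_pow]
    exact V.pow_mem hu' c
  · rw [mul_pow, ← pow_mul, ← pow_mul, mul_comm m c]

end Div

section Asm

variable {R E F : Type} [CommRing R] [IsDomain R] [IsDiscreteValuationRing R]
  [HenselianLocalRing R] [IsAlgClosed (IsLocalRing.ResidueField R)]
  [Field E] [CharZero E] [Algebra R E] [IsFractionRing R E]
  [Field F] [Algebra E F] [Algebra R F] [IsScalarTower R E F]

/-- `ζ - 1` lies in the maximal ideal. -/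
theorem zeta_sub_one_mem (p : ℕ) (hp : p.Prime) (hpR : (p : R) ∈ IsLocalRing.maximalIdeal R)
    (ζ : R) (hζ : ζ ^ p = 1) : ζ - 1 ∈ IsLocalRing.maximalIdeal R := by
  haveI : Fact p.Prime := ⟨hp⟩
  have h0 : ((p : ℕ) : IsLocalRing.ResidueField R) = 0 := by
    have := (IsLocalRing.residue_eq_zero_iff (p : R)).2 hpR
    rwa [map_natCast] at this
  haveI : CharP (IsLocalRing.ResidueField R) p := (CharP.charP_iff_prime_eq_zero hp).2 h0
  rw [← IsLocalRing.residue_eq_zero_iff]
  have h1 : (IsLocalRing.residue R (ζ - 1)) ^ p = 0 := by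
    rw [map_sub, map_one, sub_pow_char, one_pow, ← map_pow, hζ, map_one, sub_self]
  exact pow_eq_zero_iff (hp.ne_zero) |>.1 h1

/-- the arithmetic of the cyclotomic exponent modulo `w`. -/
theorem exists_cyclo_data (w : R) (hw : Irreducible w) (p : ℕ) (hp : p.Prime)
    (hpR : (p : R) ∈ IsLocalRing.maximalIdeal R) (ζ : R) (hζ : ζ ^ p = 1) (c : ℕ) :
    ∃ ρ k₀ κ₁ κ₂ : R, ζ - 1 = w * ρ ∧ ζ ^ c - 1 = (ζ - 1) * k₀ ∧
      k₀ = (c : R) + w * κ₁ ∧ k₀ ^ p = (c : R) + w * κ₂ := by
  have hmax : IsLocalRing.maximalIdeal R = Ideal.span {w} := hw.maximalIdeal_eq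
  have hmem : ∀ r : R, r ∈ IsLocalRing.maximalIdeal R ↔ ∃ s, r = w * s := by
    intro r
    rw [hmax, Ideal.mem_span_singleton']
    constructor
    · rintro ⟨a, ha⟩
      exact ⟨a, by rw [← ha, mul_comm]⟩
    · rintro ⟨s, hs⟩
      exact ⟨s, by rw [hs, mul_comm]⟩
  obtain ⟨ρ, hρ⟩ := (hmem _).1 (zeta_sub_one_mem p hp hpR ζ hζ)
  set k₀ : R := ∑ i ∈ Finset.range c, ζ ^ i with hk₀
  have hgeom : ζ ^ c - 1 = (ζ - 1) * k₀ := (mul_geom_sum ζ c).symm
  -- `k₀ - c ∈ 𝔪`
  have h1 : k₀ - (c : R) ∈ IsLocalRing.maximalIdeal R := by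
    have : k₀ - (c : R) = ∑ i ∈ Finset.range c, (ζ ^ i - 1) := by
      rw [Finset.sum_sub_distrib, Finset.sum_const, Finset.card_range, nsmul_eq_mul, mul_one]
    rw [this]
    refine Ideal.sum_mem _ fun i _ => ?_
    have hi : ζ ^ i - 1 = (ζ - 1) * ∑ j ∈ Finset.range i, ζ ^ j := (mul_geom_sum ζ i).symm
    rw [hi]
    exact Ideal.mul_mem_right _ _ (zeta_sub_one_mem p hp hpR ζ hζ)
  obtain ⟨κ₁, hκ₁⟩ := (hmem _).1 h1
  -- `k₀^p - c ∈ 𝔪`
  have h2 : k₀ ^ p - (c : R) ∈ IsLocalRing.maximalIdeal R := by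
    have ha : k₀ ^ p - (c : R) ^ p ∈ IsLocalRing.maximalIdeal R := by
      obtain ⟨q, hq⟩ := sub_dvd_pow_sub_pow k₀ (c : R) p
      rw [hq]
      exact Ideal.mul_mem_right _ _ h1
    have hb : (c : R) ^ p - (c : R) ∈ IsLocalRing.maximalIdeal R := by
      haveI : Fact p.Prime := ⟨hp⟩
      have hz : ((c : ZMod p)) ^ p - (c : ZMod p) = 0 := by rw [ZMod.pow_card, sub_self]
      have hz' : (((c : ℤ) ^ p - (c : ℤ) : ℤ) : ZMod p) = 0 := by
        push_cast
        exact hz
      obtain ⟨m, hm⟩ := (ZMod.intCast_zmod_eq_zero_iff_dvd _ p).1 hz'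
      have : (c : R) ^ p - (c : R) = (p : R) * (m : R) := by
        have := congrArg (Int.cast : ℤ → R) hm
        push_cast at this
        exact this
      rw [this]
      exact Ideal.mul_mem_right _ _ hpR
    have : k₀ ^ p - (c : R) = (k₀ ^ p - (c : R) ^ p) + ((c : R) ^ p - (c : R)) := by ring
    rw [this]
    exact Ideal.add_mem _ ha hb
  obtain ⟨κ₂, hκ₂⟩ := (hmem _).1 h2
  exact ⟨ρ, k₀, κ₁, κ₂, hρ, hgeom, by linear_combination hκ₁, by linear_combination hκ₂⟩

/-- **ALG-p from the three leaves.** -/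
theorem algP_of_leaves (hS : WPSmoothLeaf) (hN : WPNodeLeaf) (hG : GluePLeaf) :
    AlgPStatement := by
  intro R E F _ _ _ _ _ _ _ _ _ _ _ _ _ w hw p hp hp2 hpR ζ hζ x hx hfin hconst Bf Bi hBf hBi
    cf ci τ τE τR hτE hτR hτf hτi c hc u hu hdiv hdf hdi
  have hCf : ChartCtx E w x Bf := ⟨hw, hx, hfin, hconst, hBf⟩
  have hCi : ChartCtx E w x⁻¹ Bi := H34.chartCtx_inv w hw x hx hfin hconst Bi hBi
  have hIf : Incomparable cf := ⟨cf.not_le₁₂, cf.not_le₂₁⟩
  have hIi : Incomparable ci := ⟨ci.not_le₁₂, ci.not_le₂₁⟩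
  have hζp : ζ ^ p = 1 := hζ.pow_eq_one
  obtain ⟨ρ, k₀, κ₁, κ₂, hlam, hgeom, hk1, hkp⟩ := exists_cyclo_data w hw p hp hpR ζ hζp c
  have hτζ : τ (algebraMap R F ζ) = algebraMap R F (ζ ^ c) := by
    rw [IsScalarTower.algebraMap_apply R E F, hτE, hτR, hc,
      ← IsScalarTower.algebraMap_apply R E F]
  have hτu : τ u ≠ 0 := (map_ne_zero τ).2 hu
  have hv : τ u * (u ^ c)⁻¹ ≠ 0 := mul_ne_zero hτu (inv_ne_zero (pow_ne_zero _ hu))
  have hdivv : DivisibleDiv E p (τ u * (u ^ c)⁻¹) :=
    H34.divisibleDiv_mul_inv p _ _ (H34.divisibleDiv_tau τ τE hτE p u hdiv)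
      (divisibleDiv_pow495 p u hdiv c)
  have hlf : LocallyFactoredP Bf cf p (ζ - 1) (τ u * (u ^ c)⁻¹) := by
    intro n hn hwn
    have hpure : PureAtP Bf cf p ζ u n := by
      by_cases h1 : cf.p₁ ≤ n ∧ cf.p₂ ≤ n
      · exact hN p hp hp2 hpR ζ hζ w x Bf hCf cf hIf u hu hdiv hdf n hn hwn h1.1 h1.2
      · exact hS p hp hp2 hpR ζ hζ w x Bf hCf cf hIf u hu hdiv hdf n hn hwn h1
    exact localFactorP_of_pureAtP cf hτf n hn.isPrime hwn p ζ ρ k₀ κ₁ κ₂ c hζp hp.pos hlam hτζ
      hgeom hk1 hkp hu hpure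
  have hli : LocallyFactoredP Bi ci p (ζ - 1) (τ u * (u ^ c)⁻¹) := by
    intro n hn hwn
    have hpure : PureAtP Bi ci p ζ u n := by
      by_cases h1 : ci.p₁ ≤ n ∧ ci.p₂ ≤ n
      · exact hN p hp hp2 hpR ζ hζ w x⁻¹ Bi hCi ci hIi u hu hdiv hdi n hn hwn h1.1 h1.2
      · exact hS p hp hp2 hpR ζ hζ w x⁻¹ Bi hCi ci hIi u hu hdiv hdi n hn hwn h1
    exact localFactorP_of_pureAtP ci hτi n hn.isPrime hwn p ζ ρ k₀ κ₁ κ₂ c hζp hp.pos hlam hτζ
      hgeom hk1 hkp hu hpure
  obtain ⟨y, hy, hyv⟩ := hG p hp hp2 hpR ζ hζ w x Bf Bi hCf hCi cf ci hIf hIi _ hv hdivv hlf hli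
  refine ⟨y, hy, ?_⟩
  rw [← hyv, mul_assoc, inv_mul_cancel₀ (pow_ne_zero _ hu), mul_one]

end Asm

end Fermat.Agent.Ribet.H495.AlgP

end
-- ===== PACK-END Ribet/H495/AlgPAsm.lean

-- ===== PACK-BEGIN A2/H729/Gauss.lean
section



/-!
# A2 (helper729): the canonical Gauss ring of the `x`-line model and its `q`-expansion principle

`R` a domain with `R[X]` integrally closed, `w ∈ R` prime, `F ⊇ R` a field, `x ∈ F` transcendental.
`gaussO hw x` is the ring of all `t ∈ F` such that `Q(x) t` is integral over `R[x]` for some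
polynomial `Q` which is nonzero modulo `w` (the integral closure in `F` of the Gauss valuation ring
`R[x]_(w)` of `R(x)`; the intersection of the valuation rings of `F` over the Gauss valuation).

Results (all hypotheses of `generic_idempotent_trivial` / `kummer_trivial_of_local` about `O`):
* `chart_fin_le_gaussO`, `chart_inf_le_gaussO`, `chart_mid_le_gaussO`;
* `qep_fin`, `qep_inf`, `qep_mid`: `chart ∩ w O = w chart`.
These hold for EVERY finite extension `F` (normality of the charts); reducedness of the special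
fibre is what allows the user to prove congruences modulo `w O`.
-/

set_option autoImplicit false
set_option linter.unusedSectionVars false

namespace Fermat.Agent.A2.H729

open Polynomial Fermat.Agent.S18.H138

variable {R : Type*} [CommRing R] {F : Type*} [Field F] [Algebra R F]

/-- `s = Q(x)` for a polynomial `Q` which is nonzero modulo `w`. -/
def IsGaussDenom (w : R) (x s : F) : Prop :=
  ∃ Q : R[X], ¬ C w ∣ Q ∧ s = aeval x Q

theorem not_C_dvd_one {w : R} (hw : Prime w) : ¬ (C w : R[X]) ∣ 1 := fun h =>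
  hw.not_isUnit (Polynomial.isUnit_C.1 (isUnit_of_dvd_one h))

theorem not_C_dvd_X_pow {w : R} (hw : Prime w) (k : ℕ) : ¬ (C w : R[X]) ∣ X ^ k := by
  intro h
  have hp : Prime (C w : R[X]) := prime_C_iff.2 hw
  have h1 : (C w : R[X]) ∣ X := hp.dvd_of_dvd_pow h
  obtain ⟨q, hq⟩ := h1
  have := congrArg (fun p : R[X] => p.coeff 1) hq
  simp only [coeff_X_one, coeff_C_mul] at this
  exact hw.not_isUnit (IsUnit.of_mul_eq_one _ this.symm)

theorem isGaussDenom_one {w : R} (hw : Prime w) (x : F) : IsGaussDenom w x 1 :=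
  ⟨1, not_C_dvd_one hw, by simp⟩

theorem isGaussDenom_X_pow {w : R} (hw : Prime w) (x : F) (k : ℕ) : IsGaussDenom w x (x ^ k) :=
  ⟨X ^ k, not_C_dvd_X_pow hw k, by simp⟩

theorem IsGaussDenom.mul {w : R} (hw : Prime w) {x s s' : F} (hs : IsGaussDenom w x s)
    (hs' : IsGaussDenom w x s') : IsGaussDenom w x (s * s') := by
  obtain ⟨Q, hQ, rfl⟩ := hs
  obtain ⟨Q', hQ', rfl⟩ := hs'
  refine ⟨Q * Q', fun h => ?_, by simp⟩
  rcases (prime_C_iff.2 hw).dvd_or_dvd h with h | h
  · exact hQ h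
  · exact hQ' h

theorem IsGaussDenom.mem_adjoin {w : R} {x s : F} (hs : IsGaussDenom w x s) :
    s ∈ Algebra.adjoin R ({x} : Set F) := by
  obtain ⟨Q, -, rfl⟩ := hs
  exact mem_adjoin_singleton_iff.2 ⟨Q, rfl⟩

theorem x_mem_chart_fin (x : F) : x ∈ chart R ({x} : Set F) :=
  mem_chart_of_mem (Set.mem_singleton x)

theorem xinv_mem_chart_inf (x : F) : x⁻¹ ∈ chart R ({x⁻¹} : Set F) :=
  mem_chart_of_mem (Set.mem_singleton x⁻¹)

theorem xinv_mem_chart_mid (x : F) : x⁻¹ ∈ chart R ({x, x⁻¹} : Set F) :=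
  mem_chart_of_mem (Set.mem_insert_of_mem _ (Set.mem_singleton x⁻¹))

theorem chart_fin_le_mid (x : F) : chart R ({x} : Set F) ≤ chart R ({x, x⁻¹} : Set F) :=
  chart_mono (Set.singleton_subset_iff.2 (Set.mem_insert _ _))

theorem chart_inf_le_mid (x : F) : chart R ({x⁻¹} : Set F) ≤ chart R ({x, x⁻¹} : Set F) :=
  chart_mono (Set.singleton_subset_iff.2 (Set.mem_insert_of_mem _ (Set.mem_singleton x⁻¹)))

/-- The canonical Gauss ring. -/
def gaussO {w : R} (hw : Prime w) (x : F) : Subalgebra R F where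
  carrier := {t | ∃ s, IsGaussDenom w x s ∧ s * t ∈ chart R ({x} : Set F)}
  mul_mem' := by
    rintro a b ⟨s, hs, ha⟩ ⟨s', hs', hb⟩
    refine ⟨s * s', hs.mul hw hs', ?_⟩
    have : s * s' * (a * b) = (s * a) * (s' * b) := by ring
    rw [this]
    exact Subalgebra.mul_mem _ ha hb
  add_mem' := by
    rintro a b ⟨s, hs, ha⟩ ⟨s', hs', hb⟩
    refine ⟨s * s', hs.mul hw hs', ?_⟩
    have : s * s' * (a + b) = s' * (s * a) + s * (s' * b) := by ring
    rw [this]
    exact Subalgebra.add_mem _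
      (Subalgebra.mul_mem _ (adjoin_le_chart _ hs'.mem_adjoin) ha)
      (Subalgebra.mul_mem _ (adjoin_le_chart _ hs.mem_adjoin) hb)
  algebraMap_mem' r := ⟨1, isGaussDenom_one hw x, by
    rw [one_mul]; exact Subalgebra.algebraMap_mem _ r⟩

theorem mem_gaussO {w : R} {hw : Prime w} {x t : F} :
    t ∈ gaussO hw x ↔ ∃ s, IsGaussDenom w x s ∧ s * t ∈ chart R ({x} : Set F) := Iff.rfl

theorem chart_fin_le_gaussO {w : R} (hw : Prime w) (x : F) :
    chart R ({x} : Set F) ≤ gaussO hw x := fun t ht =>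
  ⟨1, isGaussDenom_one hw x, by rwa [one_mul]⟩

theorem chart_mid_le_gaussO {w : R} (hw : Prime w) {x : F} (hx : x ≠ 0) :
    chart R ({x, x⁻¹} : Set F) ≤ gaussO hw x := fun t ht => by
  obtain ⟨K, hK⟩ := exists_pow_mul_mem_chart hx ht
  exact ⟨x ^ K, isGaussDenom_X_pow hw x K, hK⟩

theorem chart_inf_le_gaussO {w : R} (hw : Prime w) {x : F} (hx : x ≠ 0) :
    chart R ({x⁻¹} : Set F) ≤ gaussO hw x :=
  le_trans (chart_inf_le_mid (R := R) x) (chart_mid_le_gaussO hw hx)

section Transcendental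

variable [IsDomain R]

/-- `R[X] ≃ R[x]` for transcendental `x`. -/
noncomputable def adjoinEquiv {x : F} (hx : Transcendental R x) :
    R[X] ≃ₐ[R] Algebra.adjoin R ({x} : Set F) :=
  (AlgEquiv.ofInjective (aeval x) (transcendental_iff_injective.1 hx)).trans
    (Subalgebra.equivOfEq _ _ (Algebra.adjoin_singleton_eq_range_aeval R x).symm)

theorem coe_adjoinEquiv {x : F} (hx : Transcendental R x) (Q : R[X]) :
    ((adjoinEquiv hx Q : Algebra.adjoin R ({x} : Set F)) : F) = aeval x Q := rfl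

theorem prime_algebraMap_adjoin {w : R} (hw : Prime w) {x : F} (hx : Transcendental R x) :
    Prime (algebraMap R (Algebra.adjoin R ({x} : Set F)) w) := by
  have h : Prime (adjoinEquiv hx (C w)) :=
    (MulEquiv.prime_iff (adjoinEquiv hx).toMulEquiv).2 (prime_C_iff.2 hw)
  have h2 : adjoinEquiv hx (C w) = algebraMap R (Algebra.adjoin R ({x} : Set F)) w := by
    apply Subtype.ext
    rw [coe_adjoinEquiv, aeval_C]
    rfl
  rwa [h2] at h

theorem not_dvd_adjoinEquiv {w : R} {x : F} (hx : Transcendental R x) {Q : R[X]}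
    (hQ : ¬ C w ∣ Q) :
    ¬ algebraMap R (Algebra.adjoin R ({x} : Set F)) w ∣ adjoinEquiv hx Q := by
  rintro ⟨a, ha⟩
  apply hQ
  refine ⟨(adjoinEquiv hx).symm a, ?_⟩
  apply (adjoinEquiv hx).injective
  rw [map_mul, AlgEquiv.apply_symm_apply, ha]
  congr 1
  apply Subtype.ext
  rw [coe_adjoinEquiv, aeval_C]
  rfl

variable [IsIntegrallyClosed R[X]]

/-- The regular-sequence lemma on the chart: if `w t` and `Q(x) t` are integral over `R[x]`,
`Q ≢ 0 mod w`, then `t` is integral over `R[x]`. -/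
theorem mem_chart_of_mul_mem {w : R} (hw : Prime w) {x : F} (hx : Transcendental R x)
    {s t : F} (hs : IsGaussDenom w x s)
    (h1 : algebraMap R F w * t ∈ chart R ({x} : Set F))
    (h2 : s * t ∈ chart R ({x} : Set F)) : t ∈ chart R ({x} : Set F) := by
  obtain ⟨Q, hQ, rfl⟩ := hs
  have := isIntegrallyClosed_adjoin_singleton (R := R) hx
  rw [mem_chart] at h1 h2 ⊢
  refine isIntegral_of_smul_of_smul (prime_algebraMap_adjoin hw hx)
    (not_dvd_adjoinEquiv hx hQ) ?_ ?_
  · have : algebraMap R (Algebra.adjoin R ({x} : Set F)) w • t = algebraMap R F w * t := rfl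
    rw [this]; exact h1
  · have : adjoinEquiv hx Q • t = aeval x Q * t := rfl
    rw [this]; exact h2

/-- **QEP** on the finite chart. -/
theorem qep_fin {w : R} (hw : Prime w) {x : F} (hx : Transcendental R x) :
    ∀ b ∈ chart R ({x} : Set F), InW (gaussO hw x) w b →
      ∃ t ∈ chart R ({x} : Set F), b = algebraMap R F w * t := by
  rintro b hb ⟨t, ⟨s, hs, hst⟩, rfl⟩
  exact ⟨t, mem_chart_of_mul_mem hw hx hs hb hst, rfl⟩

/-- **QEP** on the middle chart. -/
theorem qep_mid {w : R} (hw : Prime w) {x : F} (hx : Transcendental R x) :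
    ∀ b ∈ chart R ({x, x⁻¹} : Set F), InW (gaussO hw x) w b →
      ∃ t ∈ chart R ({x, x⁻¹} : Set F), b = algebraMap R F w * t := by
  have hx0 : x ≠ 0 := ne_zero_of_transcendental hx
  rintro b hb ⟨t, ⟨s, hs, hst⟩, rfl⟩
  obtain ⟨K, hK⟩ := exists_pow_mul_mem_chart hx0 hb
  have h1 : algebraMap R F w * (x ^ K * t) ∈ chart R ({x} : Set F) := by
    have : algebraMap R F w * (x ^ K * t) = x ^ K * (algebraMap R F w * t) := by ring
    rw [this]; exact hK
  have h2 : s * (x ^ K * t) ∈ chart R ({x} : Set F) := by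
    have : s * (x ^ K * t) = x ^ K * (s * t) := by ring
    rw [this]
    exact Subalgebra.mul_mem _ (Subalgebra.pow_mem _ (x_mem_chart_fin (R := R) x) K) hst
  have h3 : x ^ K * t ∈ chart R ({x} : Set F) := mem_chart_of_mul_mem hw hx hs h1 h2
  refine ⟨t, ?_, rfl⟩
  have : t = x⁻¹ ^ K * (x ^ K * t) := by
    rw [← mul_assoc, ← mul_pow, inv_mul_cancel₀ hx0, one_pow, one_mul]
  rw [this]
  exact Subalgebra.mul_mem _ (Subalgebra.pow_mem _ (xinv_mem_chart_mid (R := R) x) K)
    (chart_fin_le_mid (R := R) x h3)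

theorem not_C_dvd_reflect {w : R} {Q : R[X]} (hQ : ¬ C w ∣ Q) (d : ℕ) :
    ¬ C w ∣ reflect d Q := by
  rintro ⟨q, hq⟩
  apply hQ
  have h1 : Q = reflect d (reflect d Q) := reflect_reflect.symm
  rw [hq, reflect_C_mul] at h1
  exact ⟨_, h1⟩

/-- Membership in the Gauss ring can be tested on the chart at infinity. -/
theorem exists_denom_inv_of_mem_gaussO {w : R} (hw : Prime w) {x : F} (hx0 : x ≠ 0) {t : F}
    (ht : t ∈ gaussO hw x) :
    ∃ s, IsGaussDenom w x⁻¹ s ∧ s * t ∈ chart R ({x⁻¹} : Set F) := by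
  obtain ⟨s, ⟨Q, hQ, rfl⟩, hst⟩ := ht
  obtain ⟨D, hD⟩ := exists_inv_pow_mul_mem_chart hx0 hst
  set d := Q.natDegree with hd
  have hrefl : x⁻¹ ^ d * aeval x Q = aeval x⁻¹ (reflect d Q) := by
    have := pow_mul_aeval_inv (R := R) (x := x⁻¹) (inv_ne_zero hx0) Q (d := d) le_rfl
    rwa [inv_inv] at this
  refine ⟨aeval x⁻¹ (X ^ D * reflect d Q), ⟨X ^ D * reflect d Q, fun h => ?_, rfl⟩, ?_⟩
  · rcases (prime_C_iff.2 hw).dvd_or_dvd h with h | h
    · exact not_C_dvd_X_pow hw D h
    · exact not_C_dvd_reflect hQ d h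
  · rw [map_mul, map_pow, aeval_X, ← hrefl]
    have : x⁻¹ ^ D * (x⁻¹ ^ d * aeval x Q) * t = x⁻¹ ^ d * (x⁻¹ ^ D * (aeval x Q * t)) := by ring
    rw [this]
    exact Subalgebra.mul_mem _ (Subalgebra.pow_mem _ (xinv_mem_chart_inf (R := R) x) d) hD

/-- **QEP** on the chart at infinity. -/
theorem qep_inf {w : R} (hw : Prime w) {x : F} (hx : Transcendental R x) :
    ∀ b ∈ chart R ({x⁻¹} : Set F), InW (gaussO hw x) w b →
      ∃ t ∈ chart R ({x⁻¹} : Set F), b = algebraMap R F w * t := by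
  have hx0 : x ≠ 0 := ne_zero_of_transcendental hx
  rintro b hb ⟨t, ht, rfl⟩
  obtain ⟨s, hs, hst⟩ := exists_denom_inv_of_mem_gaussO hw hx0 ht
  exact ⟨t, mem_chart_of_mul_mem hw (transcendental_inv hx) hs hb hst, rfl⟩

end Transcendental

end Fermat.Agent.A2.H729

end
-- ===== PACK-END A2/H729/Gauss.lean

-- ===== PACK-BEGIN A2/H609/Smooth.lean
section


/-!
# Node purity, part 8: a smooth point of the special fibre

`R` a noetherian local integrally closed domain, `𝔭 = (π)` prime with `R ⧸ 𝔭` a discrete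
valuation ring (so `R` is regular of dimension two, but unique factorisation of regular local
rings is not used).  If `u ∉ 𝔭` satisfies (H1) `m ∣ ord_𝔓 u` at the horizontal primes and (H2)
`u` is a unit times an `m`-th power modulo `𝔭`, then `u = ε f ^ m`.  Mathlib only.
-/

set_option autoImplicit false

namespace Fermat.Agent.A2.H609

open Ideal

section BranchLength

variable {R : Type*} [CommRing R] [IsLocalRing R]
variable (𝔭 : Ideal R) [𝔭.IsPrime] [IsDiscreteValuationRing (R ⧸ 𝔭)]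

/-- `𝔪 = (x) + 𝔭` for a uniformiser `x` modulo `𝔭`. -/
theorem maximalIdeal_le_span_sup {x : R} (hx : Irreducible (Ideal.Quotient.mk 𝔭 x)) :
    IsLocalRing.maximalIdeal R ≤ Ideal.span {x} ⊔ 𝔭 := by
  intro s hs
  obtain ⟨g, hg⟩ := exists_sub_mul_mem_of_mem_maximalIdeal 𝔭 hx hs
  have h : s = x * g + (s - x * g) := by ring
  rw [h]
  exact Ideal.add_mem _ (Ideal.mem_sup_left (Ideal.mem_span_singleton.mpr (Dvd.intro g rfl)))
    (Ideal.mem_sup_right hg)

/-- `ℓ(R / ((x ^ k) + 𝔭)) = k` for a uniformiser `x` modulo `𝔭`. -/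
theorem relLen_branch_pow {x : R} (hx : Irreducible (Ideal.Quotient.mk 𝔭 x)) (k : ℕ) :
    relLen (Ideal.span {x ^ k} ⊔ 𝔭) (⊤ : Ideal R) = k := by
  have h := relLen_pow_chain 𝔭 hx 𝔭 le_rfl 0 ?_ k
  · rw [zero_add, pow_zero, Ideal.span_singleton_one, top_sup_eq] at h
    exact h
  · intro n _ s hs
    obtain ⟨g, hg⟩ := exists_sub_mul_mem_of_mem_maximalIdeal 𝔭 hx hs
    have h : s * x ^ n = x ^ (n + 1) * g + (s - x * g) * x ^ n := by ring
    rw [h]
    exact Ideal.add_mem _
      (Ideal.mem_sup_left (Ideal.mem_span_singleton.mpr (Dvd.intro g rfl)))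
      (Ideal.mem_sup_right (𝔭.mul_mem_right _ hg))

omit [IsLocalRing R] [IsDiscreteValuationRing (R ⧸ 𝔭)] [𝔭.IsPrime] in
/-- A prime containing `𝔭` and `u ≡ ε x ^ n` contains `x`. -/
theorem mem_of_le_of_mk_eq {x u : R} {n : ℕ} {ε : (R ⧸ 𝔭)ˣ}
    (hu : Ideal.Quotient.mk 𝔭 u = ε * (Ideal.Quotient.mk 𝔭 x) ^ n)
    {𝔮 : Ideal R} (h𝔮 : 𝔮.IsPrime) (hle : 𝔭 ≤ 𝔮) (hu𝔮 : u ∈ 𝔮) : x ∈ 𝔮 := by
  obtain ⟨e, he⟩ := exists_pow_sub_mul_mem 𝔭 hu
  refine h𝔮.mem_of_pow_mem n ?_
  have h : x ^ n = (x ^ n - u * e) + u * e := by ring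
  rw [h]
  exact 𝔮.add_mem (hle he) (𝔮.mul_mem_right _ hu𝔮)

end BranchLength

variable {R : Type*} [CommRing R] [IsDomain R] [IsIntegrallyClosed R] [IsNoetherianRing R]
  [IsLocalRing R]

/-- **Purity at a smooth point of the special fibre.** -/
theorem exists_unit_mul_pow_of_smooth {u π : R} {m : ℕ} (hm : m ≠ 0) (hπ0 : π ≠ 0)
    (𝔭 : Ideal R) [𝔭.IsPrime] [IsDiscreteValuationRing (R ⧸ 𝔭)] (h𝔭 : 𝔭 = Ideal.span {π})
    (hu : u ∉ 𝔭)
    (H1 : ∀ 𝔓 : Ideal R, 𝔓.IsPrime → u ∈ 𝔓 → π ∉ 𝔓 → ∃ f r : R, r ∉ 𝔓 ∧ f ^ m = u * r)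
    (H2 : ∃ v : R ⧸ 𝔭, Associated (v ^ m) (Ideal.Quotient.mk 𝔭 u)) :
    ∃ (f : R) (ε : Rˣ), u = ε * f ^ m := by
  have hπ𝔭 : π ∈ 𝔭 := by
    rw [h𝔭]
    exact Ideal.mem_span_singleton_self π
  have h𝔭𝔪 : 𝔭 ≤ IsLocalRing.maximalIdeal R :=
    IsLocalRing.le_maximalIdeal (Ideal.IsPrime.ne_top inferInstance)
  have hu0 : u ≠ 0 := by
    rintro rfl
    exact hu 𝔭.zero_mem
  obtain ⟨ϖ, hϖ⟩ := IsDiscreteValuationRing.exists_irreducible (R ⧸ 𝔭)
  obtain ⟨x, rfl⟩ := Ideal.Quotient.mk_surjective ϖ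
  obtain ⟨a, ε, hε⟩ := exists_mk_eq_unit_mul_pow 𝔭 hϖ hm hu H2
  have h𝔪 := maximalIdeal_le_span_sup 𝔭 hϖ
  have hreg : ∀ z : R, π ∣ u * z → π ∣ z := by
    intro z hz
    have h1 : u * z ∈ 𝔭 := by
      rw [h𝔭]
      exact Ideal.mem_span_singleton.mpr hz
    rcases Ideal.IsPrime.mem_or_mem inferInstance h1 with h | h
    · exact absurd h hu
    · rw [h𝔭] at h
      exact Ideal.mem_span_singleton.mp h
  have huπ : ∀ 𝔮 : Ideal R, 𝔮.IsPrime → u ∈ 𝔮 → π ∈ 𝔮 →
      𝔮 = IsLocalRing.maximalIdeal R := by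
    intro 𝔮 h𝔮 hu𝔮 hπ𝔮
    have hle : 𝔭 ≤ 𝔮 := by
      rw [h𝔭, Ideal.span_singleton_le_iff_mem]
      exact hπ𝔮
    have hx𝔮 : x ∈ 𝔮 := mem_of_le_of_mk_eq 𝔭 hε h𝔮 hle hu𝔮
    refine le_antisymm (IsLocalRing.le_maximalIdeal h𝔮.ne_top) (h𝔪.trans ?_)
    exact sup_le ((Ideal.span_singleton_le_iff_mem _).mpr hx𝔮) hle
  refine exists_unit_mul_pow_of_relLen hm hu0 hπ0 (h𝔭𝔪 hπ𝔭) hreg huπ H1
    (Ideal.span {x ^ (a + 1)} ⊔ 𝔭) (Ideal.mem_sup_right hπ𝔭) ?_ (a + 1) ?_ ?_
  · intro f r hf hr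
    obtain ⟨g, hg⟩ := exists_sub_pow_succ_mul_mem 𝔭 hϖ hε hf hr
    have h : f = x ^ (a + 1) * g + (f - x ^ (a + 1) * g) := by ring
    rw [h]
    exact Ideal.add_mem _
      (Ideal.mem_sup_left (Ideal.mem_span_singleton.mpr (Dvd.intro g rfl)))
      (Ideal.mem_sup_right hg)
  · rw [relLen_branch_pow 𝔭 hϖ (a + 1)]
  · have hle : Ideal.span {x ^ (m * a)} ⊔ 𝔭 ≤ Ideal.span {u, π} := by
      refine sup_le ?_ ?_
      · rw [Ideal.span_singleton_le_iff_mem]
        obtain ⟨e, he⟩ := exists_pow_sub_mul_mem 𝔭 hε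
        rw [h𝔭, Ideal.mem_span_singleton] at he
        obtain ⟨c, hc⟩ := he
        have h : x ^ (m * a) = e * u + c * π := by
          have : x ^ (m * a) = (x ^ (m * a) - u * e) + u * e := by ring
          rw [this, hc]
          ring
        rw [h]
        exact Ideal.add_mem _
          (Ideal.mul_mem_left _ _ (Ideal.subset_span (by simp)))
          (Ideal.mul_mem_left _ _ (Ideal.subset_span (by simp)))
      · rw [h𝔭, Ideal.span_singleton_le_iff_mem]
        exact Ideal.subset_span (by simp)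
    have h1 : relLen (Ideal.span {u, π}) (⊤ : Ideal R) ≤ ((m * a : ℕ) : ℕ∞) := by
      rw [← relLen_branch_pow 𝔭 hϖ (m * a)]
      exact relLen_mono_left hle le_top
    refine lt_of_le_of_lt h1 ?_
    have h2 : m * a < m * (a + 1) := by
      have : 0 < m := Nat.pos_of_ne_zero hm
      nlinarith
    exact_mod_cast h2

end Fermat.Agent.A2.H609

end
-- ===== PACK-END A2/H609/Smooth.lean

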