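import Fermat.Prelude.Def_AlgebraicCurve_Correspondence
import Fermat.Statements.S05
import Mathlib
import Fermat.Prelude.Def_AlgebraicCurve_DivisorClassGroup
import Fermat.Agent.Pack.S44C.G0E17L1
import Fermat.Agent.Pack.S44C.G0E17L2
import Fermat.Agent.Pack.S44C.G0E18L2
import Fermat.Agent.Pack.S44C.G0E0L3
import Fermat.Agent.Pack.S44C.G0E10L3
import Fermat.Agent.Pack.S44C.G0E18L1
import Fermat.Agent.Pack.S44C.G0E10L2
import Fermat.Agent.Pack.S44C.G0E14L1
import Fermat.Agent.Pack.S44C.G0E14L0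
import Fermat.Agent.Pack.S44C.G0E10L1
import Fermat.Agent.Pack.S44C.G0E16L3
import Fermat.Agent.Pack.S44C.G1E0L0
import Fermat.Agent.Pack.S44C.G0E18L3
import Fermat.Agent.Pack.S44C.G0E2L1
import Fermat.Agent.Pack.S44C.G0E18L0
import Fermat.Agent.Pack.Fast891

-- ===== PACK-BEGIN S24/H624/Elliptic.lean
section


/-!
# Elliptic fixed points: the rotation factor is a primitive 2nd / 3rd root of unity
-/

set_option autoImplicit false

namespace Fermat.Agent.S24.H624

open UpperHalfPlane Complex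
open scoped Manifold Topology MatrixGroups

/-- The factor by which `γ` rotates leading coefficients at `τ`
(the derivative of `z ↦ γ⁻¹ • z` at `τ`). -/
noncomputable def rotFactor (γ : SL(2, ℤ)) (τ : ℍ) : ℂ :=
  1 / denom ((γ⁻¹ : SL(2, ℤ)) : GL (Fin 2) ℝ) (τ : ℂ) ^ 2

theorem rotFactor_def (γ : SL(2, ℤ)) (τ : ℍ) :
    rotFactor γ τ = 1 / denom ((γ⁻¹ : SL(2, ℤ)) : GL (Fin 2) ℝ) (τ : ℂ) ^ 2 := rfl

theorem rotFactor_ne_zero (γ : SL(2, ℤ)) (τ : ℍ) : rotFactor γ τ ≠ 0 :=
  one_div_ne_zero (pow_ne_zero _ (denom_ne_zero _ τ))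

/-- `LocalData`-shaped statement with `rotFactor`. -/
theorem laurentAt_smul_fixed_rotFactor {γ : SL(2, ℤ)} {τ : ℍ} (hτ : γ • τ = τ) (F : MerH) :
    (laurentAt τ (γ • F)).order = (laurentAt τ F).order ∧
    (laurentAt τ (γ • F)).leadingCoeff
      = rotFactor γ τ ^ (laurentAt τ F).order * (laurentAt τ F).leadingCoeff :=
  laurentAt_smul_of_fixed hτ F

theorem trace_inv_SL (γ : SL(2, ℤ)) : (γ⁻¹) 0 0 + (γ⁻¹) 1 1 = γ 0 0 + γ 1 1 := by
  rw [Matrix.SpecialLinearGroup.coe_inv, Matrix.adjugate_fin_two]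
  simp
  ring

theorem inv_smul_of_fixed {γ : SL(2, ℤ)} {τ : ℍ} (hτ : γ • τ = τ) : γ⁻¹ • τ = τ := by
  rw [inv_smul_eq_iff, hτ]

theorem rotFactor_eq_neg_one {γ : SL(2, ℤ)} {τ : ℍ} (hτ : γ • τ = τ)
    (htr : γ 0 0 + γ 1 1 = 0) : rotFactor γ τ = -1 := by
  have h2 := denom_sq_eq_of_fixed (inv_smul_of_fixed hτ)
  rw [trace_inv_SL, htr] at h2
  simp only [Int.cast_zero, zero_mul, zero_sub] at h2
  rw [rotFactor_def, h2]
  norm_num

theorem isPrimitiveRoot_rotFactor_two {γ : SL(2, ℤ)} {τ : ℍ} (hτ : γ • τ = τ)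
    (htr : γ 0 0 + γ 1 1 = 0) : IsPrimitiveRoot (rotFactor γ τ) 2 := by
  rw [rotFactor_eq_neg_one hτ htr]
  exact IsPrimitiveRoot.neg_one 0 (by norm_num)

theorem isPrimitiveRoot_three_of_root {μ : ℂ} (hμ : μ ^ 2 + μ + 1 = 0) : IsPrimitiveRoot μ 3 := by
  have h3 : μ ^ 3 = 1 := by linear_combination (μ - 1) * hμ
  refine IsPrimitiveRoot.mk_of_lt μ (by norm_num) h3 ?_
  intro l hl0 hl3 hl
  have : 3 ∣ l := three_dvd_of_root hμ hl
  omega

theorem isPrimitiveRoot_rotFactor_three {γ : SL(2, ℤ)} {τ : ℍ} (hτ : γ • τ = τ)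
    (htr : γ 0 0 + γ 1 1 = 1 ∨ γ 0 0 + γ 1 1 = -1) : IsPrimitiveRoot (rotFactor γ τ) 3 := by
  have h2 := denom_sq_eq_of_fixed (inv_smul_of_fixed hτ)
  rw [trace_inv_SL] at h2
  set lam := denom ((γ⁻¹ : SL(2, ℤ)) : GL (Fin 2) ℝ) (τ : ℂ) with hlam
  have hlam0 : lam ≠ 0 := denom_ne_zero _ τ
  have hμ : (lam ^ 2) ^ 2 + lam ^ 2 + 1 = 0 := by
    rcases htr with htr | htr
    · rw [htr] at h2
      simp only [Int.cast_one, one_mul] at h2
      linear_combination (lam ^ 2 + lam + 1) * h2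
    · rw [htr] at h2
      simp only [Int.cast_neg, Int.cast_one, neg_mul, one_mul] at h2
      linear_combination (lam ^ 2 - lam + 1) * h2
  apply isPrimitiveRoot_three_of_root
  rw [rotFactor_def, ← hlam]
  have h4 : (lam ^ 2) ≠ 0 := pow_ne_zero _ hlam0
  field_simp
  linear_combination hμ

theorem S_smul_I : ModularGroup.S • UpperHalfPlane.I = UpperHalfPlane.I := by
  rw [modular_S_smul]
  ext
  simp [UpperHalfPlane.coe_I, Complex.inv_I]

theorem trace_S : (ModularGroup.S : SL(2, ℤ)) 0 0 + (ModularGroup.S : SL(2, ℤ)) 1 1 = 0 := by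
  decide

theorem trace_ST :
    (ModularGroup.S * ModularGroup.T : SL(2, ℤ)) 0 0
      + (ModularGroup.S * ModularGroup.T : SL(2, ℤ)) 1 1 = 1 := by
  decide

/-- The point `ρ = -1/2 + (√3/2) i`. -/
noncomputable def rhoH : ℍ :=
  ⟨⟨-1 / 2, Real.sqrt 3 / 2⟩, by
    show (0 : ℝ) < Real.sqrt 3 / 2
    positivity⟩

theorem rhoH_coe : (rhoH : ℂ) = ⟨-1 / 2, Real.sqrt 3 / 2⟩ := rfl

theorem rhoH_sq : (rhoH : ℂ) ^ 2 + (rhoH : ℂ) + 1 = 0 := by
  have h3 : Real.sqrt 3 * Real.sqrt 3 = 3 := Real.mul_self_sqrt (by norm_num)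
  rw [rhoH_coe]
  apply Complex.ext
  · simp [pow_two]
    nlinarith
  · simp [pow_two]
    ring

theorem ST_smul_rhoH : (ModularGroup.S * ModularGroup.T) • rhoH = rhoH := by
  apply UpperHalfPlane.ext
  rw [coe_specialLinearGroup_apply]
  have h := rhoH_sq
  have hne : (rhoH : ℂ) + 1 ≠ 0 := by
    intro h0
    have : (rhoH : ℂ) = -1 := by linear_combination h0
    rw [this] at h
    norm_num at h
  have e00 : (ModularGroup.S * ModularGroup.T : SL(2, ℤ)) 0 0 = 0 := by decide
  have e01 : (ModularGroup.S * ModularGroup.T : SL(2, ℤ)) 0 1 = -1 := by decide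
  have e10 : (ModularGroup.S * ModularGroup.T : SL(2, ℤ)) 1 0 = 1 := by decide
  have e11 : (ModularGroup.S * ModularGroup.T : SL(2, ℤ)) 1 1 = 1 := by decide
  rw [e00, e01, e10, e11]
  simp only [algebraMap_int_eq, Int.coe_castRingHom, Int.cast_zero, Complex.ofReal_zero,
    zero_mul, Int.cast_neg, Int.cast_one, Complex.ofReal_neg, Complex.ofReal_one, zero_add,
    one_mul]
  rw [div_eq_iff hne]
  linear_combination -h

theorem isPrimitiveRoot_rotFactor_S :
    IsPrimitiveRoot (rotFactor ModularGroup.S UpperHalfPlane.I) 2 :=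
  isPrimitiveRoot_rotFactor_two S_smul_I trace_S

theorem isPrimitiveRoot_rotFactor_ST :
    IsPrimitiveRoot (rotFactor (ModularGroup.S * ModularGroup.T) rhoH) 3 :=
  isPrimitiveRoot_rotFactor_three ST_smul_rhoH (Or.inl trace_ST)

end Fermat.Agent.S24.H624

end
-- ===== PACK-END S24/H624/Elliptic.lean

-- ===== PACK-BEGIN Lib/HI/H864/Along.lean
section





/-!
# Lib / HI (helper864): the five inputs of a correspondence, along an embedding

`K` algebraically closed of characteristic `0`, `φ : F →ₐ[K] F'` an embedding of function fields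
of one variable (`x ∈ F` transcendental, `F / K(x)` and `F' / K(φ x)` finite).  Then, in the
language of the Prelude (`Def_AlgebraicCurve_Correspondence`):

* `isIntegral_along_of_finite` : `φ.toRingHom.IsIntegral`
* `finiteAlong`                : `FiniteAlong K φ`
* `hasPrincipalDivisors`       : `HasPrincipalDivisors K F'`
* `fundamentalIdentityAlong`   : `FundamentalIdentityAlong K φ hφ`
* `normFormulaAlong`           : `NormFormulaAlong K φ hfin`
-/

set_option autoImplicit false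
set_option linter.unusedSectionVars false
set_option linter.style.haveILetI false
set_option linter.unusedVariables false

noncomputable section

open AlgebraicCurve IsDedekindDomain IntermediateField

namespace Fermat.Agent.Lib.HI.H864

open Fermat.Agent.S24

section Finite

variable {K F F' : Type*} [Field K] [Field F] [Field F'] [Algebra K F] [Algebra K F']
  [Algebra F F'] [IsScalarTower K F F']

/-- If `F'` is finite over `K(x')` with `x'` the image of `x ∈ F`, then `F'` is finite over `F`. -/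
theorem finite_of_adjoin (x : F) [hfin : FiniteDimensional K⟮algebraMap F F' x⟯ F'] :
    FiniteDimensional F F' := by
  obtain ⟨s, hs⟩ := (Module.Finite.fg_top : (⊤ : Submodule K⟮algebraMap F F' x⟯ F').FG)
  refine ⟨⟨s, ?_⟩⟩
  have hle : K⟮algebraMap F F' x⟯ ≤ (IsScalarTower.toAlgHom K F F').fieldRange := by
    rw [IntermediateField.adjoin_simple_le_iff]
    exact ⟨x, rfl⟩
  have key : ∀ y ∈ Submodule.span K⟮algebraMap F F' x⟯ (s : Set F'),
      y ∈ Submodule.span F (s : Set F') := by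
    intro y hy
    induction hy using Submodule.span_induction with
    | mem z hz => exact Submodule.subset_span hz
    | zero => exact zero_mem _
    | add a b _ _ ha hb => exact add_mem ha hb
    | smul c z _ hz =>
      obtain ⟨c', hc'⟩ := hle c.2
      have h1 : c • z = c' • z := by
        rw [Algebra.smul_def, Algebra.smul_def]
        congr 1
        exact hc'.symm
      rw [h1]
      exact Submodule.smul_mem _ _ hz
  rw [eq_top_iff]
  intro y _
  exact key y (by rw [hs]; trivial)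

end Finite

section HPD

variable {K F : Type*} [Field K] [Field F] [Algebra K F] [IsAlgClosed K] [CharZero K]

/-- divisors of functions exist (finitely many zeros and poles) and have degree `0` -/
theorem exists_divisor (x : F) (hx : Transcendental K x)
    [FiniteDimensional ↥(IntermediateField.adjoin K {x}) F] (f : F) (hf : f ≠ 0) :
    ∃ D : Divisor K F, (∀ v : Place K F, D v = v.ord f) ∧ Divisor.degree D = 0 := by
  classical
  suffices h : ∃ D : Divisor K F, ∀ v : Place K F, D v = v.ord f by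
    obtain ⟨D, hD⟩ := h
    exact ⟨D, hD, S24.H864.degree_principal x hx f hf D hD⟩
  by_cases hfK : f ∈ (algebraMap K F).range
  · obtain ⟨c, rfl⟩ := hfK
    exact ⟨0, fun v => by rw [S24.FF.ord_algebraMap v c]; rfl⟩
  · have hft : Transcendental K f := S24.FF.transcendental_of_not_mem_range hfK
    haveI : FiniteDimensional ↥(IntermediateField.adjoin K {f}) F :=
      S24.FF.finiteDimensional_adjoin_of_transcendental hx hft
    haveI : FiniteDimensional ↥(IntermediateField.adjoin K {f⁻¹}) F := by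
      rw [S24.H864.adjoin_simple_inv_eq]; infer_instance
    obtain ⟨sp, hsp⟩ := S24.H864.exists_finset_zeros f hft
    obtain ⟨sn, hsn⟩ := S24.H864.exists_finset_zeros f⁻¹ (S24.H864.transcendental_inv hft)
    refine ⟨Finsupp.onFinset (sp ∪ sn) (fun v => v.ord f) ?_, fun v => rfl⟩
    intro v hv
    rw [Finset.mem_union, hsp, hsn, Place.ord_inv]
    omega

theorem hasPrincipalDivisors (x : F) (hx : Transcendental K x)
    [FiniteDimensional ↥(IntermediateField.adjoin K {x}) F] : HasPrincipalDivisors K F :=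
  ⟨fun f hf => exists_divisor x hx f hf⟩

end HPD

section Along

variable {K F F' : Type*} [Field K] [Field F] [Field F'] [Algebra K F] [Algebra K F']
  [IsAlgClosed K] [CharZero K]
variable (φ : F →ₐ[K] F') (x : F)

theorem transcendental_map (hx : Transcendental K x) : Transcendental K (φ x) := by
  intro h
  exact hx ((isAlgebraic_algHom_iff φ φ.injective).mp h)

theorem finiteAlong [hfin : FiniteDimensional K⟮φ x⟯ F'] : FiniteAlong K φ := by
  unfold FiniteAlong
  letI := algebraAlong φ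
  haveI := isScalarTower_along φ
  haveI : FiniteDimensional K⟮algebraMap F F' x⟯ F' := hfin
  exact finite_of_adjoin (K := K) x

theorem isIntegral_along_of_finite [hfin : FiniteDimensional K⟮φ x⟯ F'] :
    φ.toRingHom.IsIntegral := by
  letI := algebraAlong φ
  haveI : Module.Finite F F' := finiteAlong φ x
  exact (Algebra.IsIntegral.of_finite F F').isIntegral

theorem fundamentalIdentityAlong (hx : Transcendental K x) [FiniteDimensional K⟮x⟯ F]
    [hfin : FiniteDimensional K⟮φ x⟯ F'] [HasPrincipalDivisors K F']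
    (hφ : φ.toRingHom.IsIntegral) : FundamentalIdentityAlong K φ hφ := by
  unfold FundamentalIdentityAlong
  letI := algebraAlong φ
  haveI := isScalarTower_along φ
  haveI : FiniteDimensional F F' := finiteAlong φ x
  haveI : SumRamificationInertia K F F' :=
    sumRamificationInertia x hx (φ x) (transcendental_map φ x hx)
  exact instFundamentalIdentityOfSumRamificationInertia

theorem normFormulaAlong (hx : Transcendental K x) [FiniteDimensional K⟮x⟯ F]
    [hfin : FiniteDimensional K⟮φ x⟯ F']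
    (hfin' : FiniteAlong K φ) : NormFormulaAlong K φ hfin' := by
  unfold NormFormulaAlong
  letI := algebraAlong φ
  haveI := isScalarTower_along φ
  haveI : FiniteDimensional F F' := hfin'
  haveI : HasPrincipalDivisors K F' :=
    hasPrincipalDivisors (φ x) (transcendental_map φ x hx)
  exact pushforwardNormFormula x hx (φ x) (transcendental_map φ x hx)

end Along

end Fermat.Agent.Lib.HI.H864

end
end
-- ===== PACK-END Lib/HI/H864/Along.lean

-- ===== PACK-BEGIN Lib/NormL/Orb.lean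
section



/-!
# `NormL`, piece ORB (helper941): sums over elements vs sums over principal ideals

`elemSum K χ ε A s = torsionOrder K * prinL K χ A s` for `ε = decide (χ (-1) = -1)` and `s > 1`.

The weight `χ(N x) sign(N x)^ε` only depends on `|N x| = N((x))`, hence is constant on the orbits
of the units; the orbit sums of `rho` are `torsionOrder K` (helper74, `hasSum_rho_unit_smul`).
-/

namespace Fermat.Agent.Lib.NormL

open NumberField NumberField.mixedEmbedding NumberField.Units Fermat.Agent.S14.H74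
open scoped nonZeroDivisors Classical

/-- The sign-twisted character value only depends on `|n|`. -/
theorem orb941_char_sign {m : ℕ} (χ : DirichletCharacter ℂ m) {n : ℤ} (hn : n ≠ 0) :
    χ ((n : ℤ) : ZMod m) *
        (((if decide (χ (-1) = -1) = true then ((n.sign : ℤ) : ℝ) else 1 : ℝ)) : ℂ) =
      χ ((n.natAbs : ℕ) : ZMod m) := by
  have hsq : χ (-1) * χ (-1) = 1 := by
    rw [← map_mul]
    simp
  have h11 : χ (-1) = 1 ∨ χ (-1) = -1 := mul_self_eq_one_iff.mp hsq
  rcases lt_or_gt_of_ne hn with h | h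
  · have hs : n.sign = -1 := Int.sign_eq_neg_one_of_neg h
    have hn' : ((n : ℤ) : ZMod m) = -1 * ((n.natAbs : ℕ) : ZMod m) := by
      have h0 : n = -((n.natAbs : ℕ) : ℤ) := by omega
      calc ((n : ℤ) : ZMod m) = ((-((n.natAbs : ℕ) : ℤ) : ℤ) : ZMod m) := by rw [← h0]
        _ = -1 * ((n.natAbs : ℕ) : ZMod m) := by
          rw [Int.cast_neg, Int.cast_natCast, neg_one_mul]
    rw [hn', map_mul, hs]
    by_cases hε : χ (-1) = -1
    · rw [hε]
      simp
    · have h1 : χ (-1) = 1 := h11.resolve_right hε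
      rw [h1]
      have h2 : ¬ ((1 : ℂ) = -1) := by norm_num
      simp [h2]
  · have hs : n.sign = 1 := Int.sign_eq_one_of_pos h
    have hn' : ((n : ℤ) : ZMod m) = ((n.natAbs : ℕ) : ZMod m) := by
      have h0 : n = ((n.natAbs : ℕ) : ℤ) := by omega
      calc ((n : ℤ) : ZMod m) = ((((n.natAbs : ℕ) : ℤ) : ℤ) : ZMod m) := by rw [← h0]
        _ = ((n.natAbs : ℕ) : ZMod m) := Int.cast_natCast _
    rw [hn', hs]
    by_cases hε : χ (-1) = -1 <;> simp [hε]

variable (K : Type*) [Field K] [NumberField K]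

/-- The summand of `elemSum` in terms of the ideal generated by `x`. -/
theorem orb941_term_eq {m : ℕ} (χ : DirichletCharacter ℂ m) (s : ℝ) (x : 𝓞 K) :
    χ ((Algebra.norm ℤ (x : 𝓞 K) : ℤ) : ZMod m) *
        ((GS K (decide (χ (-1) = -1)) s x : ℝ) : ℂ) =
      χ ((Ideal.absNorm (Ideal.span {x}) : ℕ) : ZMod m) * ((FS K s x : ℝ) : ℂ) := by
  by_cases hx : x = 0
  · subst hx
    simp [GS, FS_zero]
  · have hN : Algebra.norm ℤ x ≠ 0 := by
      rwa [Ne, Algebra.norm_eq_zero_iff]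
    rw [Ideal.absNorm_span_singleton, ← orb941_char_sign χ hN]
    unfold GS
    push_cast
    ring

variable {K} in
/-- `PJ A` (helper74) against the index type of `prinL`. -/
noncomputable def orb941_equiv (A : Ideal (𝓞 K)) :
    PJ A ≃ {I : (Ideal (𝓞 K))⁰ // (I : Ideal (𝓞 K)).IsPrincipal ∧ A ∣ (I : Ideal (𝓞 K))} where
  toFun I := ⟨⟨I.1, mem_nonZeroDivisors_iff_ne_zero.mpr I.2.1⟩, I.2.2.1,
    Ideal.dvd_iff_le.mpr I.2.2.2⟩
  invFun I := ⟨I.1.1, nonZeroDivisors.coe_ne_zero I.1, I.2.1, Ideal.dvd_iff_le.mp I.2.2⟩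
  left_inv _ := rfl
  right_inv _ := rfl

/-- **ORB**: the sum over elements is `torsionOrder` times the sum over principal ideals. -/
theorem elemSum_eq_torsionOrder_mul_prinL {m : ℕ} (χ : DirichletCharacter ℂ m)
    (A : (Ideal (𝓞 K))⁰) {s : ℝ} (hs : 1 < s) :
    elemSum K χ (decide (χ (-1) = -1)) (A : Ideal (𝓞 K)) s =
      (Units.torsionOrder K : ℂ) * prinL K χ (A : Ideal (𝓞 K)) s := by
  set J : Ideal (𝓞 K) := (A : Ideal (𝓞 K)) with hJ
  set T : 𝓞 K → ℂ := fun x ↦
    χ ((Ideal.absNorm (Ideal.span {x}) : ℕ) : ZMod m) * ((FS K s x : ℝ) : ℂ) with hT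
  have hT0 : T 0 = 0 := by simp [hT, FS_zero]
  have hTn : ∀ x, ‖T x‖ ≤ FS K s x := by
    intro x
    simp only [hT]
    rw [norm_mul, Complex.norm_real, Real.norm_of_nonneg (FS_nonneg s x)]
    exact mul_le_of_le_one_left (FS_nonneg s x) (DirichletCharacter.norm_le_one χ _)
  have hsumF := summable_FS (K := K) hs
  have hsumT : Summable T := Summable.of_norm_bounded hsumF hTn
  have h1 : elemSum K χ (decide (χ (-1) = -1)) J s = ∑' x : J, T (x : 𝓞 K) := by
    unfold elemSum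
    exact tsum_congr fun x ↦ orb941_term_eq K χ s x
  rw [h1]
  have h2 : ∑' x : J, T (x : 𝓞 K) = ∑' y : {y : 𝓞 K // y ∈ J ∧ y ≠ 0}, T (y : 𝓞 K) := by
    have e1 := tsum_subtype (J : Set (𝓞 K)) T
    have e2 := tsum_subtype ({y : 𝓞 K | y ∈ J ∧ y ≠ 0}) T
    have e3 : (J : Set (𝓞 K)).indicator T = ({y : 𝓞 K | y ∈ J ∧ y ≠ 0}).indicator T := by
      funext y
      by_cases hy : y = 0
      · subst hy
        simp [Set.indicator, hT0]
      · simp [Set.indicator, hy]
    calc ∑' x : J, T (x : 𝓞 K) = ∑' y, (J : Set (𝓞 K)).indicator T y := e1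
      _ = ∑' y, ({y : 𝓞 K | y ∈ J ∧ y ≠ 0}).indicator T y := by rw [e3]
      _ = _ := e2.symm
  rw [h2]
  have hsum0 : Summable fun y : {y : 𝓞 K // y ∈ J ∧ y ≠ 0} ↦ T (y : 𝓞 K) :=
    hsumT.comp_injective Subtype.val_injective
  set c : PJ J → ℂ := fun I ↦
    χ ((Ideal.absNorm I.1 : ℕ) : ZMod m) * (((Ideal.absNorm I.1 : ℝ) ^ (-s) : ℝ) : ℂ) with hc
  set G : PJ J × (𝓞 K)ˣ → ℂ := fun p ↦
    c p.1 * ((rho K (p.2 • mixedEmbedding K (pjGen p.1 : K)) : ℝ) : ℂ) with hG
  have hcomp : (fun y : {y : 𝓞 K // y ∈ J ∧ y ≠ 0} ↦ T (y : 𝓞 K)) ∘ orbitEquiv J = G := by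
    funext p
    simp only [Function.comp_apply, orbitEquiv_apply, hG, hT, hc]
    rw [FS_unit_mul s p.2 p.1, span_unit_mul, span_pjGen]
    push_cast
    ring
  have hsumG : Summable G := by
    rw [← hcomp]
    exact (orbitEquiv J).summable_iff.mpr hsum0
  have hfib : ∀ I : PJ J, HasSum (fun u : (𝓞 K)ˣ ↦ G (I, u))
      (c I * (torsionOrder K : ℂ)) := by
    intro I
    have hN : mixedEmbedding.norm (mixedEmbedding K (pjGen I : K)) ≠ 0 := by
      rw [norm_pjGen]
      have : Ideal.absNorm I.1 ≠ 0 := by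
        rw [Ne, Ideal.absNorm_eq_zero_iff]
        exact I.2.1
      exact_mod_cast this
    have h := hasSum_rho_unit_smul hN
    have h' : HasSum (fun u : (𝓞 K)ˣ ↦
        ((rho K (u • mixedEmbedding K (pjGen I : K)) : ℝ) : ℂ)) (((torsionOrder K : ℝ)) : ℂ) :=
      Complex.hasSum_ofReal.mpr h
    have h'' := h'.mul_left (c I)
    simpa [hG] using h''
  have hre : ∑' I : PJ J, c I = prinL K χ J s := by
    unfold prinL
    exact (orb941_equiv J).tsum_eq (fun I ↦
      χ ((Ideal.absNorm (I.1 : Ideal (𝓞 K)) : ℕ) : ZMod m) *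
        (((Ideal.absNorm (I.1 : Ideal (𝓞 K)) : ℝ) ^ (-s) : ℝ) : ℂ))
  calc ∑' y : {y : 𝓞 K // y ∈ J ∧ y ≠ 0}, T (y : 𝓞 K)
      = ∑' p : PJ J × (𝓞 K)ˣ, G p := by
        rw [← hcomp]
        exact ((orbitEquiv J).tsum_eq _).symm
    _ = ∑' I : PJ J, ∑' u : (𝓞 K)ˣ, G (I, u) := hsumG.tsum_prod' fun I ↦ (hfib I).summable
    _ = ∑' I : PJ J, c I * (torsionOrder K : ℂ) := tsum_congr fun I ↦ (hfib I).tsum_eq
    _ = (∑' I : PJ J, c I) * (torsionOrder K : ℂ) := tsum_mul_right
    _ = _ := by rw [hre, mul_comm]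

end Fermat.Agent.Lib.NormL

end
-- ===== PACK-END Lib/NormL/Orb.lean

-- ===== PACK-BEGIN Lib/Frob/A2/H230/Main.lean
section




/-!
# Piece A2 of row S52: the Hasse–Weil Frobenius relation over `𝔽_ℓ` (helper230 assembly)

`frobRelationFin : FrobRelationFin` — for every prime `ℓ ≥ 5`, every Weierstrass curve `E` over
`ZMod ℓ` with `Δ ≠ 0`, every field `k` over `ZMod ℓ` and every `P : (E⁄k).Point`:
`Φ (Φ P) - a_ℓ • Φ P + ℓ • P = 0`.

Assembly of: helper311 (exact parallelogram law), helper621 (Manin count, degree of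
compositions), helper127 (quadratic form algebra), helper240 (short Weierstrass form),
helper230 (odd points, generic point ⇒ all points).
-/

open WeierstrassCurve Polynomial
open scoped Polynomial.Bivariate WeierstrassCurve.Affine

namespace Fermat.Agent.Lib.Frob.A2.H230

open Fermat.Agent.S52.H311 Fermat.Agent.S52.H621 Fermat.Agent.S52.H127

/-- The Frobenius relation for the literal short Weierstrass curves, in terms of `frobPsi`. -/
theorem frobPsi_shortW_eq_zero (ℓ : ℕ) [Fact ℓ.Prime] (hℓ2 : ℓ ≠ 2) (A B : ZMod ℓ)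
    (hΔ : (shortW ℓ A B).Δ ≠ 0) (k : Type) [Field k] [Algebra (ZMod ℓ) k] [DecidableEq k]
    (P : ((shortW ℓ A B)⁄k).Point) :
    Fermat.Agent.Lib.FrobRel.H230.frobPsi (shortW ℓ A B) k
      (shortW ℓ A B).traceOfFrobenius P = 0 := by
  classical
  have h2 : (2 : ZMod ℓ) ≠ 0 := two_ne_zero_zmod ℓ hℓ2
  have hΔF : ((shortW ℓ A B)⁄(ZMod ℓ)).Δ ≠ 0 :=
    Fermat.Agent.Lib.FrobRel.H230.baseChange_Δ_ne_zero' _ hΔ _
  have hpar : IsParNat (fun P : oddPts (shortW ℓ A B) => hh P.1) :=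
    fun P Q => hh_parallelogram rfl rfl h2 hΔ P.2 Q.2
  have key := IsParNat.frobenius_relation hpar
    (((Fermat.Agent.Lib.FrobRel.H230.frobPt (shortW ℓ A B) (KK (shortW ℓ A B))).comp
      (oddPts (shortW ℓ A B)).subtype).codRestrict (oddPts (shortW ℓ A B))
      (fun P => frobPt_mem_oddPts P.2))
    ℓ (ratDeg (maninFun ℓ A B))
    (fun Q => by
      show hh (Fermat.Agent.Lib.FrobRel.H230.frobPt (shortW ℓ A B) (KK (shortW ℓ A B)) Q.1)
        = ℓ * hh Q.1
      rw [hh_frob rfl rfl h2 Q.2, ZMod.card])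
    (fun Q => hh_frob_sub hℓ2 hΔ Q.2)
    ⟨Fermat.Agent.Lib.FrobRel.H230.genericPoint (shortW ℓ A B) (ZMod ℓ) hΔF,
      generic_mem_oddPts hΔF⟩
  have hconst := hh_eq_zero_iff_isConst rfl rfl h2 (SetLike.coe_mem _) key
  have htr : (ℓ : ℤ) + 1 - (ratDeg (maninFun ℓ A B) : ℤ) = (shortW ℓ A B).traceOfFrobenius := by
    rw [ratDeg_maninFun_eq_trace ℓ hℓ2 A B hΔ]
    ring
  refine Fermat.Agent.Lib.FrobRel.H230.frobPsi_eq_zero (shortW ℓ A B) hΔ
    (Fermat.Agent.Lib.FrobRel.H230.generic_nonsingular (shortW ℓ A B) (ZMod ℓ) hΔF)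
    (Fermat.Agent.Lib.FrobRel.H230.gx_transcendental (shortW ℓ A B) (ZMod ℓ))
    (shortW ℓ A B).traceOfFrobenius ?_ P
  rw [← htr]
  convert hconst using 1
  rw [Fermat.Agent.Lib.FrobRel.H230.frobPsi_apply, ZMod.card]
  simp only [AddSubgroup.coe_add, AddSubgroup.coe_sub, AddSubgroup.coe_zsmul,
    AddSubgroup.coe_nsmul, natCast_zsmul]
  rfl

/-- Piece A2 for the literal short Weierstrass curves `⟨0, 0, 0, A, B⟩`. -/
theorem frobRelationFinShortLit : Fermat.Agent.Lib.Frob.A2.H240.FrobRelationFinShortLit := by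
  intro ℓ _ hℓ A B hΔ k _ _ _ P
  have hℓ2 : ℓ ≠ 2 := by omega
  have h := frobPsi_shortW_eq_zero ℓ hℓ2 A B hΔ k P
  have e := Fermat.Agent.Lib.FrobRel.H230.frobPsi_apply (shortW ℓ A B) k
    (shortW ℓ A B).traceOfFrobenius P
  rw [h, ZMod.card] at e
  exact e.symm

/-- **Piece A2** (frozen interface `FrobRelationFin` of `Lib/Frob/Interfaces.lean`). -/
theorem frobRelationFin_H230 : Fermat.Agent.Lib.Frob.FrobRelationFin :=
  Fermat.Agent.Lib.Frob.A2.H240.frobRelationFin_of_shortLit frobRelationFinShortLit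

end Fermat.Agent.Lib.Frob.A2.H230

end
-- ===== PACK-END Lib/Frob/A2/H230/Main.lean

-- ===== PACK-BEGIN S05.lean
section
-- S05: the mod-p Galois representation of the Frey curve is unramified at every prime q ≠ 2, p.
-- Assembly (helper665) of: (C1b) no torsion in the kernel of reduction (helper845),
-- (C2) same-reduction lemma (helper853), (C3c) component analysis at a node (helper365),
-- slope lemma + Galois argument + Frey arithmetic (helper665).





set_option autoImplicit false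
open WeierstrassCurve WeierstrassCurve.Affine WeierstrassCurve.Affine.Point
open CuspForm ModularFormClass UpperHalfPlane
open FreyPackage

namespace Fermat.Agent.S05

/-- (C1b) in the form consumed by the assembly. -/
theorem assemble_hC1 : Assemble.HC1 :=
  fun _ _ hW _ n _ hvn P hP h => C1b.eq_zero_of_inKer_of_nsmul_eq_zero hW n hvn P hP h

/-- (C3c) in the form consumed by the assembly. -/
theorem assemble_hC3 : Assemble.HC3 :=
  fun _ _ _ h2 e₁ α β hr _ hα0 hα hβ n hn _ _ x y h hP hx =>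
    Comp.c3c h2 e₁ α β (by rw [hr.b₂]; ring) hr.b₄ hr.b₆ hα0 hα hβ n hn x y h hP hx

theorem result (P : FreyPackage) {q : ℕ} (hq : q.Prime) (hq2 : q ≠ 2) (hqp : q ≠ P.p) : P.GaloisRepUnramifiedAt q := by
  exact Assemble.unramified_of assemble_hC1 assemble_hC3 P hq hq2 hqp

end Fermat.Agent.S05

end
-- ===== PACK-END S05.lean

-- ===== PACK-BEGIN S13/H64/AtP.lean
section





/-!
# S13 / T5a: inertia at `p` moves `p`-torsion points of the Frey curve only inside `E₁`

Adaptation of the S05 assembly (helper665) to the residue characteristic `p`: the kernel of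
reduction may now contain `p`-torsion, so "(C1)" is replaced by the explicit hypothesis that the
point is integral, and the conclusion is `σ P - P ∈ E₁` instead of `σ P = P`.
-/

set_option autoImplicit false
set_option linter.unusedSectionVars false
set_option linter.unusedVariables false

namespace Fermat.Agent.S13.H64

open WeierstrassCurve WeierstrassCurve.Affine WeierstrassCurve.Affine.Point
open Fermat.Agent.S05 Fermat.Agent.S05.SameRed Fermat.Agent.S05.Assemble

section abstract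

variable {K : Type*} [Field K] [DecidableEq K]
  {Γ₀ : Type*} [LinearOrderedCommGroupWithZero Γ₀]
variable {W : Affine K} {v : Valuation K Γ₀}

/-- For an integral odd torsion point with nonsingular reduction, `η` is a unit. -/
lemma val_eta_eq_one_of_integral_torsion (hW : IntegralCoeffs W v) (h2 : v (2 : K) = 1) {n : ℕ}
    (hn : Odd n) {x y : K}
    (h : W.Nonsingular x y) (hP : n • Point.some x y h = 0) (hx : v x ≤ 1)
    (hNR : v (2 * y + W.a₁ * x + W.a₃) < 1 →
      v (W.a₁ * y - (3 * x ^ 2 + 2 * W.a₂ * x + W.a₄)) = 1) :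
    v (2 * y + W.a₁ * x + W.a₃) = 1 := by
  have hy : v y ≤ 1 := Assemble.val_y_le_one hW h.1 hx
  have hle := val_eta_le_one hW h2 hx hy
  rcases hle.lt_or_eq with hlt | heq
  swap
  · exact heq
  exfalso
  have hX := hNR hlt
  have hneg : W.Nonsingular x (W.negY x y) := (Affine.nonsingular_neg ..).mpr h
  have hnegY : W.negY x y = -y - W.a₁ * x - W.a₃ := rfl
  have hyn : v (W.negY x y) ≤ 1 := by
    rw [hnegY]
    exact val_sub_le_one (val_sub_le_one (by rwa [Valuation.map_neg])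
      (val_mul_le_one hW.a₁ hx)) hW.a₃
  have hker := inKer_sub_of_same_reduction hW h hneg hx hy hx hyn (by simp)
    (by
      have : y - W.negY x y = 2 * y + W.a₁ * x + W.a₃ := by rw [hnegY]; ring
      rw [this]; exact hlt) (Or.inl hX)
  rw [← Point.neg_some h, sub_neg_eq_add] at hker
  obtain ⟨k, hk⟩ := hn
  have hPk : Point.some x y h = (k + 1) • (Point.some x y h + Point.some x y h) := by
    have h3 : (k + 1) • (Point.some x y h + Point.some x y h) =
        n • Point.some x y h + Point.some x y h := by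
      rw [hk]
      module
    rw [h3, hP, zero_add]
  have hin : InKer W v (Point.some x y h) := by
    rw [hPk]; exact inKer_nsmul hW hker (k + 1)
  exact absurd hin (not_lt.mpr hx)

/-- The core Galois argument without (C1): if `x - e` and `η` are both "`c` times integral",
with `c ≠ 0`, `e` fixed by `σ` and `η / c` a unit, then `σ P - P ∈ E₁`. -/
theorem inKer_sub_of_scaled (hW : IntegralCoeffs W v) (h2 : v (2 : K) = 1)
    (σ : K →+* K) (hres : ∀ z, v z ≤ 1 → v (σ z - z) < 1)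
    (hσ₁ : σ W.a₁ = W.a₁) (hσ₃ : σ W.a₃ = W.a₃)
    {x y : K} (h : W.Nonsingular x y) (h' : W.Nonsingular (σ x) (σ y)) (hx : v x ≤ 1)
    {c e : K} (hc0 : c ≠ 0) (hc : σ c = c) (he : σ e = e)
    (hηc : v (2 * y + W.a₁ * x + W.a₃) = v c) (hxc : v (x - e) ≤ v c) :
    InKer W v (Point.some (σ x) (σ y) h' - Point.some x y h) := by
  have hy : v y ≤ 1 := Assemble.val_y_le_one hW h.1 hx
  set η : K := 2 * y + W.a₁ * x + W.a₃ with hη
  have hx' : v (σ x) ≤ 1 := by
    have : σ x = x + (σ x - x) := by ring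
    rw [this]; exact val_add_le_one hx (hres x hx).le
  have hvc : 0 < v c := (Valuation.pos_iff v).mpr hc0
  set ε : K := (x - e) / c with hε
  set θ : K := η / c with hθ
  have hεv : v ε ≤ 1 := by
    rw [hε, map_div₀]; exact (div_le_one₀ hvc).mpr hxc
  have hθv : v θ ≤ 1 := by
    rw [hθ, map_div₀, hηc, div_self hvc.ne']
  have hxε : x = e + c * ε := by rw [hε]; field_simp; ring
  have hηθ : η = c * θ := by rw [hθ]; field_simp
  have hσxx : σ x - x = c * (σ ε - ε) := by
    conv_lhs => rw [hxε]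
    simp only [map_add, map_mul, hc, he]; ring
  have hση : (2 * σ y + W.a₁ * σ x + W.a₃) = σ η := by
    simp only [hη, map_add, map_mul, hσ₁, hσ₃, map_ofNat]
  have hσηη : σ η - η = c * (σ θ - θ) := by
    conv_lhs => rw [hηθ]
    simp only [map_mul, hc]; ring
  have hlt1 : v (σ x - x) < v η := by
    rw [hσxx, map_mul, hηc]
    exact mul_lt_of_lt_one_right hvc (hres ε hεv)
  have hlt2 : v ((2 * σ y + W.a₁ * σ x + W.a₃) - η) < v η := by
    rw [hση, hσηη, map_mul, hηc]
    exact mul_lt_of_lt_one_right hvc (hres θ hθv)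
  exact inKer_sub_of_eta hW h2 h h' hx hx' hlt1 hlt2

/-- **[Good]** without (C1). -/
theorem inKer_sub_of_good (hW : IntegralCoeffs W v) (h2 : v (2 : K) = 1)
    (σ : K →+* K) (hres : ∀ z, v z ≤ 1 → v (σ z - z) < 1)
    (hσ₁ : σ W.a₁ = W.a₁) (hσ₃ : σ W.a₃ = W.a₃)
    {n : ℕ} (hn : Odd n)
    {r₁ r₂ r₃ : K} (hr : Roots W r₁ r₂ r₃) (hr₁ : v r₁ ≤ 1) (hr₂ : v r₂ ≤ 1) (hr₃ : v r₃ ≤ 1)
    (h12 : v (r₁ - r₂) = 1) (h13 : v (r₁ - r₃) = 1) (h23 : v (r₂ - r₃) = 1)
    {x y : K} (h : W.Nonsingular x y) (h' : W.Nonsingular (σ x) (σ y))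
    (hP : n • Point.some x y h = 0) (hx : v x ≤ 1) :
    InKer W v (Point.some (σ x) (σ y) h' - Point.some x y h) := by
  have hy : v y ≤ 1 := Assemble.val_y_le_one hW h.1 hx
  have h4 := val_four (v := v) h2
  have h21 : v (r₂ - r₁) = 1 := by rw [← Valuation.map_neg, neg_sub]; exact h12
  have h31 : v (r₃ - r₁) = 1 := by rw [← Valuation.map_neg, neg_sub]; exact h13
  have h32 : v (r₃ - r₂) = 1 := by rw [← Valuation.map_neg, neg_sub]; exact h23
  have hη1 : v (2 * y + W.a₁ * x + W.a₃) = 1 := by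
    apply val_eta_eq_one_of_integral_torsion hW h2 hn h hP hx
    intro hη
    have hsq := val_eta_sq_lt_one hη
    rw [hr.eta_sq h.1, map_mul, h4, one_mul] at hsq
    rcases exists_lt_one_of_mul (val_sub_le_one hx hr₁) (val_sub_le_one hx hr₂)
      (val_sub_le_one hx hr₃) hsq with h1 | h1 | h1
    · exact hr.val_WX_eq_one hW h2 hx hr₁ hr₂ hr₃ hη h1 h12 h13
    · exact hr.swap₁₂.val_WX_eq_one hW h2 hx hr₂ hr₁ hr₃ hη h1 h21 h23
    · exact hr.swap₁₃.val_WX_eq_one hW h2 hx hr₃ hr₂ hr₁ hη h1 h32 h31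
  exact inKer_sub_of_scaled hW h2 σ hres hσ₁ hσ₃ h h' hx (c := 1) (e := 0) one_ne_zero
    (map_one σ) (map_zero σ) (by rw [hη1, map_one]) (by rw [sub_zero, map_one]; exact hx)

/-- **[Node]** without (C1). -/
theorem inKer_sub_of_node (hW : IntegralCoeffs W v) (h2 : v (2 : K) = 1)
    (σ : K →+* K) (hres : ∀ z, v z ≤ 1 → v (σ z - z) < 1)
    (hσ₁ : σ W.a₁ = W.a₁) (hσ₃ : σ W.a₃ = W.a₃)
    {n : ℕ} (hn : Odd n)
    {e₁ α β : K} (hr : Roots W e₁ (e₁ + α) (e₁ + β)) (he₁ : v e₁ ≤ 1) (hα : v α < 1)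
    (hβ : v β = 1) (hσe : σ e₁ = e₁)
    {π : K} (hπ0 : π ≠ 0) (hσπ : σ π = π) (hπ : v π ^ n = v α ^ 2)
    (hC3 : NodeTorsion W v e₁ α n)
    {x y : K} (h : W.Nonsingular x y) (h' : W.Nonsingular (σ x) (σ y))
    (hP : n • Point.some x y h = 0) (hx : v x ≤ 1) :
    InKer W v (Point.some (σ x) (σ y) h' - Point.some x y h) := by
  have hy : v y ≤ 1 := Assemble.val_y_le_one hW h.1 hx
  have h4 := val_four (v := v) h2
  have hn0 : n ≠ 0 := hn.pos.ne'
  have hxe : v (x - e₁) ≤ 1 := val_sub_le_one hx he₁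
  have hr₂ : v (e₁ + α) ≤ 1 := val_add_le_one he₁ hα.le
  have hr₃ : v (e₁ + β) ≤ 1 := val_add_le_one he₁ hβ.le
  have hβα : v (β - α) = 1 := by
    rw [val_sub_eq_of_lt (by rw [hβ]; exact hα), hβ]
  rcases hxe.lt_or_eq with hlt | heq
  · -- off `E₀`
    obtain ⟨hαx, j, hj⟩ := hC3 x y h hP hlt
    have hvc : v (π ^ j) = v (x - e₁) := by
      apply pow_eq_pow_imp_eq hn0
      rw [hj, map_pow, ← pow_mul, mul_comm, pow_mul, hπ, ← pow_mul]
    have hxα : v (x - (e₁ + α)) = v (x - e₁) := by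
      have : x - (e₁ + α) = (x - e₁) - α := by ring
      rw [this, val_sub_eq_of_lt hαx]
    have hxβ : v (x - (e₁ + β)) = 1 := by
      have : x - (e₁ + β) = (x - e₁) - β := by ring
      rw [this, val_sub_eq_of_lt' (by rw [hβ]; exact hlt), hβ]
    have hη : v (2 * y + W.a₁ * x + W.a₃) = v (π ^ j) := by
      apply pow_eq_pow_imp_eq (n := 2) (by norm_num)
      rw [← map_pow, hr.eta_sq h.1, map_mul, map_mul, map_mul, h4, hxα, hxβ, hvc]
      simp [pow_two]
    exact inKer_sub_of_scaled hW h2 σ hres hσ₁ hσ₃ h h' hx (c := π ^ j) (e := e₁)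
      (pow_ne_zero _ hπ0) (by rw [map_pow, hσπ]) hσe hη (by rw [hvc])
  · -- on `E₀`
    have hη1 : v (2 * y + W.a₁ * x + W.a₃) = 1 := by
      apply val_eta_eq_one_of_integral_torsion hW h2 hn h hP hx
      intro hη
      have hsq := val_eta_sq_lt_one hη
      rw [hr.eta_sq h.1, map_mul, h4, one_mul] at hsq
      have hxα : v (x - (e₁ + α)) = 1 := by
        have : x - (e₁ + α) = (x - e₁) - α := by ring
        rw [this, val_sub_eq_of_lt (by rw [heq]; exact hα), heq]
      have h3 : v (x - (e₁ + β)) < 1 := by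
        rw [map_mul, map_mul, heq, hxα, one_mul, one_mul] at hsq
        exact hsq
      have h31 : v (e₁ + β - e₁) = 1 := by
        have : e₁ + β - e₁ = β := by ring
        rw [this, hβ]
      have h32 : v (e₁ + β - (e₁ + α)) = 1 := by
        have : e₁ + β - (e₁ + α) = β - α := by ring
        rw [this, hβα]
      exact hr.swap₁₃.val_WX_eq_one hW h2 hx hr₃ hr₂ he₁ hη h3 h32 h31
    exact inKer_sub_of_scaled hW h2 σ hres hσ₁ hσ₃ h h' hx (c := 1) (e := 0) one_ne_zero
      (map_one σ) (map_zero σ) (by rw [hη1, map_one]) (by rw [sub_zero, map_one]; exact hx)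

end abstract

section frey

lemma int_cast_ne_zero_Qb {n : ℤ} (hn : n ≠ 0) : ((n : ℤ) : Qb) ≠ 0 := by
  exact_mod_cast hn

/-- (C3c) for the Frey curve at any odd residue characteristic, from `Comp.c3c`. -/
lemma nodeTorsion_of_c3c {W : Affine Qb} {A : ValuationSubring Qb}
    (h2 : A.valuation (2 : Qb) = 1) {e₁ α β : Qb} (hr : Roots W e₁ (e₁ + α) (e₁ + β))
    (hα0 : α ≠ 0) (hα : A.valuation α < 1) (hβ : A.valuation β = 1) {n : ℕ} (hn : Odd n) :
    NodeTorsion W A.valuation e₁ α n :=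
  fun x y h hP hx =>
    Comp.c3c h2 e₁ α β (by rw [hr.b₂]; ring) hr.b₄ hr.b₆ hα0 hα hβ n hn x y h hP hx

/-- **(T5a)** At a valuation subring `A` of `ℚ̄` over an odd prime `q` (in particular `q = p`),
an inertia element moves an integral `p`-torsion point of the Frey curve by an element of the
kernel of reduction. -/
theorem frey_inKer_smul_sub (P : FreyPackage) {q : ℕ} (hq : q.Prime) (hq2 : q ≠ 2)
    (A : ValuationSubring Qb) (hA : A.LiesOverPrime q)
    (σ : Qb ≃ₐ[ℚ] Qb) (hσ : σ ∈ A.inertiaSubgroupIn ℚ)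
    {x y : Qb} (h : (P.freyCurve⁄Qb).Nonsingular x y)
    (hP : P.p • Point.some x y h = 0) (hx : A.valuation x ≤ 1) :
    InKer (P.freyCurve⁄Qb) A.valuation (σ • Point.some x y h - Point.some x y h) := by
  have hW := frey_integral (P := P) hA hq hq2
  have h2 := val_two_eq_one hA hq hq2
  have h4 := val_four_eq_one hA hq hq2
  have hodd : Odd P.p := P.hp_odd
  have hres := inertia_res A hσ
  have hσ₁ : (σ : Qb →+* Qb) (P.freyCurve⁄Qb).a₁ = (P.freyCurve⁄Qb).a₁ := by
    rw [frey_a₁]; exact map_one _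
  have hσ₃ : (σ : Qb →+* Qb) (P.freyCurve⁄Qb).a₃ = (P.freyCurve⁄Qb).a₃ := by
    rw [frey_a₃]; exact _root_.map_zero _
  have h' : (P.freyCurve⁄Qb).Nonsingular ((σ : Qb →+* Qb) x) ((σ : Qb →+* Qb) y) :=
    (WeierstrassCurve.Affine.baseChange_nonsingular P.freyCurve
      σ.toAlgHom.injective x y).mpr h
  have hsmul : σ • Point.some x y h =
      Point.some ((σ : Qb →+* Qb) x) ((σ : Qb →+* Qb) y) h' := rfl
  rw [hsmul]
  have hroots := frey_roots P
  by_cases ha : (q : ℤ) ∣ P.a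
  · have hb : ¬ (q : ℤ) ∣ P.b := not_dvd_of_gcd_eq_one hq P.hgcdab ha
    have hr : Roots (P.freyCurve⁄Qb) 0 (0 + fA P / 4) (0 + -(fB P) / 4) := by
      simpa using hroots
    have hα : A.valuation (fA P / 4) < 1 := by
      rw [val_div_four h4]; exact val_fA_lt_one hA ha
    have hβ : A.valuation (-(fB P) / 4) = 1 := by
      rw [val_neg_div_four h4]; exact val_fB_eq_one hA hq hb
    have hα0 : fA P / 4 ≠ 0 := div_ne_zero (fA_ne_zero P) four_ne_zero_Qb
    have hπ : A.valuation (((P.a ^ 2 : ℤ) : Qb)) ^ P.p = A.valuation (fA P / 4) ^ 2 := by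
      rw [val_div_four h4]; exact val_sq_pow _ _
    exact inKer_sub_of_node hW h2 (σ : Qb →+* Qb) hres hσ₁ hσ₃ hodd hr
      (by rw [_root_.map_zero]; exact zero_le_one) hα hβ (_root_.map_zero _)
      (π := ((P.a ^ 2 : ℤ) : Qb)) (int_cast_ne_zero_Qb (pow_ne_zero _ P.ha0)) (sigma_int σ _) hπ
      (nodeTorsion_of_c3c h2 hr hα0 hα hβ hodd) h h' hP hx
  by_cases hb : (q : ℤ) ∣ P.b
  · have hr : Roots (P.freyCurve⁄Qb) 0 (0 + -(fB P) / 4) (0 + fA P / 4) := by
      have := hroots.swap₁₂.swap₁₃.swap₁₂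
      simpa using this
    have hα : A.valuation (-(fB P) / 4) < 1 := by
      rw [val_neg_div_four h4]; exact val_fB_lt_one hA hb
    have hβ : A.valuation (fA P / 4) = 1 := by
      rw [val_div_four h4]; exact val_fA_eq_one hA hq ha
    have hα0 : -(fB P) / 4 ≠ 0 := div_ne_zero (neg_ne_zero.mpr (fB_ne_zero P)) four_ne_zero_Qb
    have hπ : A.valuation (((P.b ^ 2 : ℤ) : Qb)) ^ P.p = A.valuation (-(fB P) / 4) ^ 2 := by
      rw [val_neg_div_four h4]; exact val_sq_pow _ _
    exact inKer_sub_of_node hW h2 (σ : Qb →+* Qb) hres hσ₁ hσ₃ hodd hr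
      (by rw [_root_.map_zero]; exact zero_le_one) hα hβ (_root_.map_zero _)
      (π := ((P.b ^ 2 : ℤ) : Qb)) (int_cast_ne_zero_Qb (pow_ne_zero _ P.hb0)) (sigma_int σ _) hπ
      (nodeTorsion_of_c3c h2 hr hα0 hα hβ hodd) h h' hP hx
  by_cases hc : (q : ℤ) ∣ P.c
  · have hABC := fA_add_fB P
    have hr : Roots (P.freyCurve⁄Qb) (fA P / 4) (fA P / 4 + -(fC P) / 4)
        (fA P / 4 + -(fA P) / 4) := by
      have e1 : fA P / 4 + -(fC P) / 4 = -(fB P) / 4 := by rw [← hABC]; ring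
      have e2 : fA P / 4 + -(fA P) / 4 = 0 := by ring
      rw [e1, e2]
      exact hroots.swap₁₃.swap₁₂
    have he : A.valuation (fA P / 4) ≤ 1 := by
      rw [val_div_four h4]; exact val_fA_le_one
    have hα : A.valuation (-(fC P) / 4) < 1 := by
      rw [val_neg_div_four h4]; exact val_fC_lt_one hA hc
    have hβ : A.valuation (-(fA P) / 4) = 1 := by
      rw [val_neg_div_four h4]; exact val_fA_eq_one hA hq ha
    have hα0 : -(fC P) / 4 ≠ 0 := div_ne_zero (neg_ne_zero.mpr (fC_ne_zero P)) four_ne_zero_Qb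
    have hπ : A.valuation (((P.c ^ 2 : ℤ) : Qb)) ^ P.p = A.valuation (-(fC P) / 4) ^ 2 := by
      rw [val_neg_div_four h4]; exact val_sq_pow _ _
    have hσe : (σ : Qb →+* Qb) (fA P / 4) = fA P / 4 := by
      simp only [fA, map_div₀, map_intCast, map_ofNat]
    exact inKer_sub_of_node hW h2 (σ : Qb →+* Qb) hres hσ₁ hσ₃ hodd hr
      he hα hβ hσe
      (π := ((P.c ^ 2 : ℤ) : Qb)) (int_cast_ne_zero_Qb (pow_ne_zero _ P.hc0)) (sigma_int σ _) hπ
      (nodeTorsion_of_c3c h2 hr hα0 hα hβ hodd) h h' hP hx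
  · have hA1 := val_fA_eq_one hA hq ha
    have hB1 := val_fB_eq_one hA hq hb
    have hC1' := val_fC_eq_one hA hq hc
    have hABC := fA_add_fB P
    refine inKer_sub_of_good hW h2 (σ : Qb →+* Qb) hres hσ₁ hσ₃ hodd hroots
      (by rw [_root_.map_zero]; exact zero_le_one)
      (by rw [val_div_four h4]; exact val_fA_le_one)
      (by rw [val_neg_div_four h4]; exact val_fB_le_one) ?_ ?_ ?_ h h' hP hx
    · have : (0 : Qb) - fA P / 4 = -(fA P) / 4 := by ring
      rw [this, val_neg_div_four h4]; exact hA1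
    · have : (0 : Qb) - -(fB P) / 4 = fB P / 4 := by ring
      rw [this, val_div_four h4]; exact hB1
    · have : fA P / 4 - -(fB P) / 4 = fC P / 4 := by rw [← hABC]; ring
      rw [this, val_div_four h4]; exact hC1'

end frey

end Fermat.Agent.S13.H64

end
-- ===== PACK-END S13/H64/AtP.lean

-- ===== PACK-BEGIN S52/H297/MFinal.lean
section



/-!
# The Frobenius relation over a finite field of odd characteristic (Manin's elementary proof)

`F` a finite field with `q` elements, `q` odd, `W : y² = x³ + a₂x² + a₄x + a₆` over `F` with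
`Δ ≠ 0`.  Then `Φ² - a Φ + q = 0` on `W(L)` for every field `L ⊇ F`, where `Φ` is the `q`-power
Frobenius and `a = q + 1 - #W(F)`.
-/

set_option autoImplicit false
set_option linter.unusedSectionVars false

open Polynomial WeierstrassCurve
open scoped WeierstrassCurve.Affine

namespace Fermat.Agent.S52.H297

open Fermat.Agent.Lib.FrobRel.H230 (frobPt frobPsi IsConstPt)

variable {F : Type*} [Field F] [Fintype F] [DecidableEq F] {W : WeierstrassCurve F}
variable {K : Type*} [Field K] [Algebra F K] [DecidableEq K]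
variable {ι : RatFunc F →ₐ[F] K} {y : K}

/-- Frobenius restricted to `M`. -/
noncomputable def frobM (hs : TwistSetup W ι y) (hF : ringChar F ≠ 2) : Msub hs →+ Msub hs :=
  AddMonoidHom.codRestrict ((frobPt W K).comp (Msub hs).subtype) (Msub hs)
    (fun P => inM_frob hs hF P.2)

/-- the height on `M` -/
noncomputable def hM (hs : TwistSetup W ι y) : Msub hs → ℕ := fun P => ptHt W ι P.1

lemma isParNat_hM (hs : TwistSetup W ι y) (hΔ : W.Δ ≠ 0) :
    Fermat.Agent.S52.H127.IsParNat (hM hs) := by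
  have : W.IsElliptic := ⟨isUnit_iff_ne_zero.mpr hΔ⟩
  intro P Q
  exact ptHt_parallelogram hs P.2 Q.2

/-- On `M`, `Φ² - a Φ + q` takes values of height `0`. -/
theorem ptHt_frobPsi (hs : TwistSetup W ι y) (hF : ringChar F ≠ 2) (hΔ : W.Δ ≠ 0)
    {Q : (W⁄K).Point} (hQ : InM W ι y Q) :
    InM W ι y (frobPsi W K ((Fintype.card F : ℤ) + 1 - (Nat.card W.toAffine.Point : ℤ)) Q) ∧
    ptHt W ι (frobPsi W K ((Fintype.card F : ℤ) + 1 - (Nat.card W.toAffine.Point : ℤ)) Q) = 0 := by
  have key := (isParNat_hM hs hΔ).frobenius_relation (frobM hs hF) (Fintype.card F)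
    (Nat.card W.toAffine.Point) (fun P => ptHt_frob P.2) (fun P => ptHt_frob_sub hs hF hΔ P.2)
    ⟨Q, hQ⟩
  have e : ((frobM hs hF (frobM hs hF ⟨Q, hQ⟩)
      - ((Fintype.card F : ℤ) + 1 - (Nat.card W.toAffine.Point : ℤ)) • frobM hs hF ⟨Q, hQ⟩
      + Fintype.card F • (⟨Q, hQ⟩ : Msub hs) : Msub hs) : (W⁄K).Point)
      = frobPsi W K ((Fintype.card F : ℤ) + 1 - (Nat.card W.toAffine.Point : ℤ)) Q := by
    rw [Fermat.Agent.Lib.FrobRel.H230.frobPsi_apply, natCast_zsmul]
    rfl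
  rw [← e]
  exact ⟨Subtype.property _, key⟩

lemma isConstPt_of_ptHt_eq_zero {P : (W⁄K).Point} (hP : InM W ι y P) (h0 : ptHt W ι P = 0) :
    IsConstPt W P := by
  rcases P with _ | ⟨x, v, h⟩
  · exact Or.inl rfl
  · obtain ⟨u, Y, hx, hv⟩ := hP
    subst hx
    rw [ptHt_some] at h0
    obtain ⟨c, rfl⟩ := exists_C_of_hgt_eq_zero h0
    refine Or.inr ⟨_, _, h, rfl, ?_⟩
    rw [← RatFunc.algebraMap_eq_C, AlgHom.commutes]
    exact isAlgebraic_algebraMap c

/-- **Frobenius relation from a twist setup.** -/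
theorem frobPsi_eq_zero_of_setup (hs : TwistSetup W ι y) (hF : ringChar F ≠ 2) (hΔ : W.Δ ≠ 0)
    {L : Type*} [Field L] [Algebra F L] [DecidableEq L] (T : (W⁄L).Point) :
    frobPsi W L ((Fintype.card F : ℤ) + 1 - (Nat.card W.toAffine.Point : ℤ)) T = 0 := by
  have hΔK : (W⁄K).Δ ≠ 0 := Fermat.Agent.Lib.FrobRel.H230.baseChange_Δ_ne_zero' W hΔ K
  have heq : (W⁄K).Equation (ι RatFunc.X) y := by
    rw [Affine.equation_iff, hs.a₁K, hs.a₃K, a₂K (ι := ι), a₄K (ι := ι), a₆K (ι := ι), hs.hy',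
      fRat]
    simp only [map_add, map_mul, map_pow]
    ring
  have hns : (W⁄K).Nonsingular (ι RatFunc.X) y :=
    (Affine.equation_iff_nonsingular_of_Δ_ne_zero hΔK).mp heq
  have hM : InM W ι y (Affine.Point.some _ _ hns) := ⟨RatFunc.X, 1, rfl, by rw [map_one, mul_one]⟩
  have hx : Transcendental F (ι RatFunc.X) := by
    have h1 : Transcendental F (RatFunc.X : RatFunc F) :=
      transcendental_of_hgt_ne_zero (by rw [hgt_X]; exact one_ne_zero)
    intro halg
    exact h1 ((isAlgebraic_algHom_iff ι (ι : RatFunc F →+* K).injective).mp halg)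
  obtain ⟨hmem, hht⟩ := ptHt_frobPsi hs hF hΔ hM
  exact Fermat.Agent.Lib.FrobRel.H230.frobPsi_eq_zero W hΔ hns hx _
    (isConstPt_of_ptHt_eq_zero hmem hht) T

end Fermat.Agent.S52.H297

end
-- ===== PACK-END S52/H297/MFinal.lean

-- ===== PACK-BEGIN S29/Main.lean
section
/-
S29 row — FINAL CHAIN (row-lead helper269), complete proof:

  `S29_of_parts : FrobeniusDivisionStatement → RawESStatement → M4aStatement → M4bStatement →
      HCohStatement → (frozen S29 statement)`.

Uses (all complete): layer A `H872.result_of_module` (helper872), `Orb` (helper449),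
layer M assembly `H42.hasFrobModule_of_raw` (helper42; contains GEQ + SMOOTH), `M4c` (helper92),
integrality `H642.isIntegral_qCoeff` (helper642).
-/








set_option autoImplicit false
set_option linter.style.haveILetI false

noncomputable section

namespace Fermat.Agent.S29

open ModularCurve AlgebraicCurve Polynomial
open scoped TensorProduct

/-! ### (1) Weak Chebotarev from CHEB Tier 1 -/

theorem Main_weakCheb (h : Fermat.Agent.Lib.Cheb.Spec.FrobeniusDivisionStatement) :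
    H872.WeakCheb := by
  intro s σ S
  have hfd : FiniteDimensional ℚ
      (IntermediateField.adjoin ℚ ((s : Set (AlgebraicClosure ℚ)))) :=
    IntermediateField.finiteDimensional_adjoin
      (fun x _ => (AlgebraicClosure.isAlgebraic ℚ).isIntegral.isIntegral x)
  obtain ⟨ℓ, A, τ, _, j, hℓ, hℓS, hA, hτ, _, _, hj⟩ := h _ hfd σ S
  exact ⟨ℓ, A, τ, j, hℓ, hℓS, hA, hτ,
    fun x hx => hj x (IntermediateField.subset_adjoin ℚ _ hx)⟩

/-! ### (2) Transport of the eigenclass from `Jp N p` to `H42.JTors N p` -/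

section Transport

variable (N p : ℕ) [NeZero N]

/-- The two incarnations of `J₀(N)[p]` agree. -/
def Main_equiv : Jp N p ≃ₗ[ℤ] H42.JTors N p where
  toFun x := ⟨(x : JZero N), Pic0.mem_torsion.mpr ((Submodule.mem_torsionBy_iff _ _).mp x.2)⟩
  invFun y := ⟨(y : JZero N), (Submodule.mem_torsionBy_iff _ _).mpr (Pic0.mem_torsion.mp y.2)⟩
  map_add' _ _ := rfl
  map_smul' _ _ := rfl
  left_inv _ := rfl
  right_inv _ := rfl

theorem Main_equiv_hecke {ℓ : ℕ} (hℓ : ℓ.Prime) :
    (H42.heckeTors N p ℓ) ∘ₗ (Main_equiv N p).toLinearMap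
      = (Main_equiv N p).toLinearMap ∘ₗ heckeJp N p ⟨ℓ, hℓ⟩ := by
  ext x
  rw [LinearMap.comp_apply, LinearMap.comp_apply, H42.coe_heckeTors_apply N p hℓ]
  rfl

theorem Main_occ {F : Type} [Field F] (t : ℕ → F)
    (h : ∃ x : F ⊗[ℤ] Jp N p, x ≠ 0 ∧ ∀ ℓ : Nat.Primes, ¬ (ℓ : ℕ) ∣ N * p →
      (heckeJp N p ℓ).baseChange F x = t ℓ • x) :
    ∃ v : F ⊗[ℤ] H42.JTors N p, v ≠ 0 ∧
      ∀ ℓ : ℕ, ℓ.Prime → ¬ ℓ ∣ N * p → (H42.heckeTors N p ℓ).baseChange F v = t ℓ • v := by
  obtain ⟨x, hx0, hx⟩ := h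
  refine ⟨(Main_equiv N p).toLinearMap.baseChange F x, ?_, ?_⟩
  · intro h0
    apply hx0
    have h1 : ((Main_equiv N p).symm.toLinearMap.baseChange F)
        (((Main_equiv N p).toLinearMap.baseChange F) x) = x := by
      rw [← LinearMap.comp_apply, ← LinearMap.baseChange_comp]
      have : (Main_equiv N p).symm.toLinearMap ∘ₗ (Main_equiv N p).toLinearMap
          = LinearMap.id := by
        ext y; rfl
      rw [this, LinearMap.baseChange_id, LinearMap.id_apply]
    rw [← h1, h0, map_zero]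
  · intro ℓ hℓ hℓS
    rw [← LinearMap.comp_apply, ← LinearMap.baseChange_comp, Main_equiv_hecke N p hℓ,
      LinearMap.baseChange_comp, LinearMap.comp_apply, hx ⟨ℓ, hℓ⟩ hℓS, map_smul]

end Transport

/-! ### (3) Layer M : the Frobenius module -/

theorem Main_hasFrobModule (hES : RawESStatement) (hA : M4aStatement) (hB : M4bStatement)
    (hH : HCohStatement) {N : ℕ} [NeZero N]
    {g : CuspForm (CongruenceSubgroup.Gamma0 N) 2} (hg : g.IsNormalizedEigenform)
    {p : ℕ} (hp : p.Prime) {F : Type} [Field F] [IsAlgClosed F] [CharP F p]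
    (ψ : integralClosure ℤ ℂ →+* F) (a : ℕ → integralClosure ℤ ℂ)
    (ha : ∀ ℓ : ℕ, ℓ.Prime → ¬ ℓ ∣ N →
      ((a ℓ : integralClosure ℤ ℂ) : ℂ) = ModularFormClass.qCoeff g ℓ) :
    HasFrobModule F (N * p) (fun ℓ => ψ (a ℓ)) := by
  have hocc := M4c_exists_eigenclass_of N hp (fun ℓ => ψ (a ℓ))
    (fun _ _ => hA N g hg p F ψ a ha) (fun _ => hB N p)
    (fun ℓ hℓ hℓN c hc => hH N p ℓ hℓ hℓN c hc)
  refine H42.hasFrobModule_of_raw N hp (fun ℓ => ψ (a ℓ)) ?_ ?_ (Main_occ N p _ hocc)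
  · intro ℓ hℓ hS V hV σ hσ x hx
    exact (hES N p hp ℓ hℓ hS V hV).1 σ hσ x hx
  · intro ℓ hℓ hS V hV σ hσ x hx
    exact (hES N p hp ℓ hℓ hS V hV).2 σ hσ x hx

/-! ### (4) From a smooth Frobenius module to `H872.ModHyp` -/

theorem Main_modHyp {N : ℕ} [NeZero N]
    {g : CuspForm (CongruenceSubgroup.Gamma0 N) 2} {p : ℕ}
    {F : Type} [Field F] (ψ : integralClosure ℤ ℂ →+* F) (a : ℕ → integralClosure ℤ ℂ)
    (ha : ∀ ℓ : ℕ, ℓ.Prime → ¬ ℓ ∣ N →
      ((a ℓ : integralClosure ℤ ℂ) : ℂ) = ModularFormClass.qCoeff g ℓ)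
    (h : HasFrobModule F (N * p) (fun ℓ => ψ (a ℓ))) : H872.ModHyp g p ψ := by
  obtain ⟨M, _, _, ρ, hnt, hsm, hur, hfq⟩ := h
  obtain ⟨W, hW0, hWfin, hWst, L, hL, hLfix⟩ := exists_finite_stable_submodule ρ hsm
  let r : GQ →* Module.End F W :=
    { toFun := fun σ => (ρ σ).restrict (hWst σ)
      map_one' := by
        ext x
        simp
      map_mul' := fun σ τ => by
        ext x
        simp [LinearMap.restrict_apply] }
  have hr : ∀ (σ : GQ) (x : W), ((r σ x : W) : M) = ρ σ (x : M) := fun _ _ => rfl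
  haveI : Nontrivial W := (Submodule.nontrivial_iff_ne_bot).mpr hW0
  refine ⟨W, inferInstance, inferInstance, hWfin, inferInstance, r, ⟨L, hL, ?_⟩, ?_, ?_⟩
  · intro σ hσ
    ext x
    rw [hr, hLfix σ hσ x x.2]
    rfl
  · intro ℓ hℓ hS A hA σ hσ
    ext x
    rw [hr, hur ℓ hℓ hS A hA σ hσ]
    rfl
  · intro ℓ hℓ hS
    have hℓN : ¬ ℓ ∣ N := fun hd => hS (Dvd.dvd.mul_right hd p)
    refine ⟨a ℓ, ha ℓ hℓ hℓN, fun A hA σ hσ => ?_⟩
    have h0 := hfq ℓ hℓ hS A hA σ hσ
    ext x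
    have h1 := congrArg (fun f : Module.End F M => f (x : M)) h0
    simp only [LinearMap.add_apply, LinearMap.sub_apply, Module.End.mul_apply,
      LinearMap.smul_apply, Module.End.one_apply, LinearMap.zero_apply] at h1
    simp only [LinearMap.sub_apply, Module.End.mul_apply, LinearMap.smul_apply,
      Module.End.one_apply, Submodule.coe_sub, Submodule.coe_smul, hr]
    rw [sub_add_eq_add_sub, sub_eq_zero] at h1
    rw [eq_sub_iff_add_eq, h1]

/-! ### (5) The frozen statement S29 from the remaining inputs -/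

theorem S29_of_parts (hfrob : Fermat.Agent.Lib.Cheb.Spec.FrobeniusDivisionStatement)
    (hES : RawESStatement) (hA : M4aStatement) (hB : M4bStatement) (hH : HCohStatement)
    {N : ℕ} {g : CuspForm (CongruenceSubgroup.Gamma0 N) 2} (hg : g.IsNormalizedEigenform)
    {p : ℕ} (hp : p.Prime) {k : Type} [Field k] [CharP k p]
    (φ : integralClosure ℤ ℂ →+* k) :
    ∃ ρ : ResidualGaloisRep k, ρ.IsAttachedTo g φ ∧
      ∀ ℓ : ℕ, ℓ.Prime → ¬ ℓ ∣ N * p → ρ.IsUnramifiedAt ℓ := by
  refine H872.result_of_module hp φ (Main_weakCheb hfrob) ?_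
  intro hN F _ _ _ ψ
  haveI : NeZero N := ⟨hN⟩
  classical
  let a : ℕ → integralClosure ℤ ℂ := fun ℓ =>
    if h : ℓ.Prime ∧ ¬ ℓ ∣ N then ⟨ModularFormClass.qCoeff g ℓ, H642.isIntegral_qCoeff hg h.1 h.2⟩
    else 0
  have ha : ∀ ℓ : ℕ, ℓ.Prime → ¬ ℓ ∣ N →
      ((a ℓ : integralClosure ℤ ℂ) : ℂ) = ModularFormClass.qCoeff g ℓ := by
    intro ℓ hℓ hℓN
    simp only [a, dif_pos (And.intro hℓ hℓN)]
  exact Main_modHyp ψ a ha (Main_hasFrobModule hES hA hB hH hg hp ψ a ha)

end Fermat.Agent.S29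

end
end
-- ===== PACK-END S29/Main.lean

-- ===== PACK-BEGIN S29/H222/ESKInertia.lean
section
/-
S29 / helper222 — piece ESK-U: inertia at `A` acts trivially on `J₀(N)(ℚ̄)[m]`, from
`S18.CoreStatement N A m` and the Prelude's `PrincipalGeneratedByIntegral`.

Proof: `x = [D]`, `m D = div U₁ - div U₂` (`U₁, U₂` integral).  For `τ` in the inertia group put
`V₁ = τU₁ · U₂`, `V₂ = U₁ · τU₂`; they have the same reduction, and `div V₁ - div V₂ = m (τD - D)`.
CORE gives `V₁ = c y^m V₂`, hence `τD - D = div y`.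
-/


set_option autoImplicit false
set_option linter.style.haveILetI false

noncomputable section

namespace Fermat.Agent.S29.H222

open ModularCurve AlgebraicCurve HahnSeries IsLocalRing
open Fermat.Agent.S18 (Qb IsInt toF CoreStatement)

variable {A : ValuationSubring Qb} {N : ℕ}

/-- `m`-torsion classes: `m • D` is principal. -/
theorem smul_mem_principal_of_torsion {m : ℕ}
    (D : Divisor.degZero (K := Qb) (F := modularFunctionFieldBar N))
    (hx : (m : ℤ) • (Pic0.mk D : JZero N) = 0) :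
    (m : ℤ) • (D : Divisor Qb (modularFunctionFieldBar N))
      ∈ Divisor.principal (K := Qb) (F := modularFunctionFieldBar N) := by
  have hx' : ((m : ℤ) • D : Divisor.degZero (K := Qb) (F := modularFunctionFieldBar N)) ∈
      (Divisor.principal (K := Qb) (F := modularFunctionFieldBar N)).addSubgroupOf
        (Divisor.degZero (K := Qb) (F := modularFunctionFieldBar N)) := by
    have : Pic0.mk ((m : ℤ) • D) = 0 := hx
    exact (QuotientAddGroup.eq_zero_iff _).mp this
  rw [AddSubgroup.mem_addSubgroupOf] at hx'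
  simpa using hx'

/-- Two classes are equal as soon as the difference of the divisors is the divisor of a
function. -/
theorem pic0_mk_eq_of_isDivOf
    (D D' : Divisor.degZero (K := Qb) (F := modularFunctionFieldBar N))
    {y : modularFunctionFieldBar N} (hy : y ≠ 0)
    (h : IsDivOf (K := Qb) y ((D' : Divisor Qb (modularFunctionFieldBar N))
      - (D : Divisor Qb (modularFunctionFieldBar N)))) :
    (Pic0.mk D' : JZero N) = Pic0.mk D := by
  symm
  refine QuotientAddGroup.eq.mpr ?_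
  rw [AddSubgroup.mem_addSubgroupOf]
  refine ⟨y, hy, fun v => ?_⟩
  have := h v
  rw [← this]
  simp [sub_eq_neg_add]

theorem decK_eq_self_of_mem_inertia {g : A.decompositionSubgroup ℚ}
    (hg : g ∈ A.inertiaSubgroup ℚ) (x : ResidueField A) : decK g x = x := by
  have h1 := MonoidHom.mem_ker.mp hg
  exact congrArg (fun e : RingAut (ResidueField A) => e x) h1

theorem coeffMap_decK_of_mem_inertia {g : A.decompositionSubgroup ℚ}
    (hg : g ∈ A.inertiaSubgroup ℚ) (x : LaurentSeries (ResidueField A)) :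
    coeffMap (decK g) x = x := by
  ext n
  rw [coeffMap_coeff, decK_eq_self_of_mem_inertia hg]

/-- **ESK-U.** -/
theorem esk_inertia : ESKInertiaStatement := by
  intro N _ m hm A hcore hpgi τ hτ x hx
  obtain ⟨g, hg, rfl⟩ := hτ
  obtain ⟨D, rfl⟩ := Pic0.mk_surjective x
  obtain ⟨U₁, U₂, h₁, h₂, D₁, D₂, hd₁, hd₂, hDD⟩ :=
    exists_isInt_of_principal hpgi (smul_mem_principal_of_torsion D hx)
  set G := arithmeticGalois (modularFunctionFieldFull N)
    (((A.decompositionSubgroup ℚ).subtype g : Qb ≃ₐ[ℚ] Qb)) with hG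
  have hV₁ : IsInt A N (galA g U₁ * U₂) := isInt_mul (isInt_galA g h₁) h₂
  have hV₂ : IsInt A N (U₁ * galA g U₂) := isInt_mul h₁ (isInt_galA g h₂)
  have hred : coeffMap (residue A) (galA g U₁ * U₂) = coeffMap (residue A) (U₁ * galA g U₂) := by
    rw [map_mul, map_mul, coeffMap_residue_galA, coeffMap_residue_galA,
      coeffMap_decK_of_mem_inertia hg, coeffMap_decK_of_mem_inertia hg]
  have hgd₁ : IsDivOf (toF (isInt_galA g h₁)) (G • D₁) := by
    rw [toF_galA]; exact hd₁.smul G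
  have hgd₂ : IsDivOf (toF (isInt_galA g h₂)) (G • D₂) := by
    rw [toF_galA]; exact hd₂.smul G
  have hdV₁ : IsDivOf (toF hV₁) (G • D₁ + D₂) := by
    rw [toF_mul (isInt_galA g h₁) h₂]
    exact hgd₁.mul (toF_ne_zero _) (toF_ne_zero _) hd₂
  have hdV₂ : IsDivOf (toF hV₂) (D₁ + G • D₂) := by
    rw [toF_mul h₁ (isInt_galA g h₂)]
    exact hd₁.mul (toF_ne_zero _) (toF_ne_zero _) hgd₂
  have hkey : ∀ v : Place Qb (modularFunctionFieldBar N),
      (m : ℤ) * (G • (D : Divisor Qb (modularFunctionFieldBar N)) - D) v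
        = v.ord (toF hV₁) - v.ord (toF hV₂) := by
    intro v
    rw [← hdV₁ v, ← hdV₂ v]
    have e1 : ((m : ℤ) • (D : Divisor Qb (modularFunctionFieldBar N))) v = D₁ v - D₂ v := by
      rw [hDD, Finsupp.sub_apply]
    have e2 : ((m : ℤ) • (D : Divisor Qb (modularFunctionFieldBar N))) (G⁻¹ • v)
        = D₁ (G⁻¹ • v) - D₂ (G⁻¹ • v) := by
      rw [hDD, Finsupp.sub_apply]
    rw [Finsupp.smul_apply, smul_eq_mul] at e1 e2
    simp only [Finsupp.sub_apply, Finsupp.add_apply, SemilinearAut.divisor_smul_apply]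
    linear_combination e2 - e1
  have hord : ∀ v : Place Qb (modularFunctionFieldBar N),
      (m : ℤ) ∣ v.ord (toF hV₁) - v.ord (toF hV₂) := fun v => ⟨_, (hkey v).symm⟩
  obtain ⟨c, y, hc, hy, hcy⟩ := hcore _ _ hV₁ hV₂ hred hord
  have hE := isDivOf_of_eq_const_mul_pow hm hc hy (toF_ne_zero hV₂) hcy hkey
  show (((A.decompositionSubgroup ℚ).subtype g : Qb ≃ₐ[ℚ] Qb)) • (Pic0.mk D : JZero N) = Pic0.mk D
  rw [galois_smul_pic0_def, SemilinearAut.pic0_smul_mk]
  exact pic0_mk_eq_of_isDivOf D _ hy hE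

end Fermat.Agent.S29.H222

end
end
-- ===== PACK-END S29/H222/ESKInertia.lean

-- ===== PACK-BEGIN S24/FFDegree.lean
section




/-!
# S24 / FF layer: poles of a coordinate function and `deg (div f) = 0`
(helper804)
-/

set_option autoImplicit false
set_option linter.unusedSectionVars false

namespace Fermat.Agent.S24.FF

open AlgebraicCurve Polynomial IntermediateField

variable {K F : Type*} [Field K] [Field F] [Algebra K F]

theorem adjoin_inv_eq (f : F) : K⟮f⁻¹⟯ = K⟮f⟯ := by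
  apply le_antisymm
  · rw [adjoin_simple_le_iff]
    exact inv_mem (mem_adjoin_simple_self K f)
  · rw [adjoin_simple_le_iff]
    have := inv_mem (mem_adjoin_simple_self K f⁻¹)
    rwa [inv_inv] at this

theorem finrank_adjoin_inv (f : F) : Module.finrank K⟮f⁻¹⟯ F = Module.finrank K⟮f⟯ F := by
  rw [adjoin_inv_eq]

theorem transcendental_inv {f : F} (hf : Transcendental K f) : Transcendental K f⁻¹ := by
  intro h
  apply hf
  have := h.inv
  rwa [inv_inv] at this

theorem finiteDimensional_adjoin_inv (f : F) [h : FiniteDimensional K⟮f⟯ F] :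
    FiniteDimensional K⟮f⁻¹⟯ F := by
  rw [adjoin_inv_eq]
  exact h

theorem adjoin_sub_const_eq (f : F) (a : K) : K⟮f - algebraMap K F a⟯ = K⟮f⟯ := by
  apply le_antisymm
  · rw [adjoin_simple_le_iff]
    exact sub_mem (mem_adjoin_simple_self K f) (IntermediateField.algebraMap_mem _ a)
  · rw [adjoin_simple_le_iff]
    have := add_mem (mem_adjoin_simple_self K (f - algebraMap K F a))
      (IntermediateField.algebraMap_mem K⟮f - algebraMap K F a⟯ a)
    rwa [sub_add_cancel] at this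

theorem finrank_adjoin_sub_const (f : F) (a : K) :
    Module.finrank K⟮f - algebraMap K F a⟯ F = Module.finrank K⟮f⟯ F := by
  rw [adjoin_sub_const_eq]

theorem finiteDimensional_adjoin_sub_const (f : F) (a : K) [h : FiniteDimensional K⟮f⟯ F] :
    FiniteDimensional K⟮f - algebraMap K F a⟯ F := by
  rw [adjoin_sub_const_eq]
  exact h

theorem transcendental_sub_const {f : F} (hf : Transcendental K f) (a : K) :
    Transcendental K (f - algebraMap K F a) := by
  intro h
  apply hf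
  have := h.add (isAlgebraic_algebraMap (R := K) (A := F) a)
  rwa [sub_add_cancel] at this

section

variable [CharZero K]

/-- A coordinate function has finitely many poles. -/
theorem finite_setOf_ord_neg {t : F} (ht : Transcendental K t) [FiniteDimensional K⟮t⟯ F] :
    {v : Place K F | v.ord t < 0}.Finite := by
  have := finiteDimensional_adjoin_inv (K := K) t
  have h := finite_setOf_ord_pos (transcendental_inv ht)
  refine h.subset ?_
  intro v hv
  change 0 < v.ord t⁻¹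
  have hv' : v.ord t < 0 := hv
  rw [v.ord_inv]
  omega

/-- A nonconstant function has finitely many zeros and poles. -/
theorem finite_setOf_ord_ne_zero {t : F} (ht : Transcendental K t) [FiniteDimensional K⟮t⟯ F] :
    {v : Place K F | v.ord t ≠ 0}.Finite := by
  refine ((finite_setOf_ord_pos ht).union (finite_setOf_ord_neg ht)).subset ?_
  intro v hv
  have hv' : v.ord t ≠ 0 := hv
  rcases lt_or_gt_of_ne hv' with h | h
  · exact Or.inr h
  · exact Or.inl h

variable [IsAlgClosed K]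

/-- **Fundamental identity at the poles**: `∑_{v(t) < 0} ord_v(t) = -[F : K(t)]`. -/
theorem sum_ord_neg_eq_neg_finrank {t : F} (ht : Transcendental K t) [FiniteDimensional K⟮t⟯ F]
    (s : Finset (Place K F)) (hs : ∀ v, v ∈ s ↔ v.ord t < 0) :
    ∑ v ∈ s, v.ord t = -(Module.finrank K⟮t⟯ F : ℤ) := by
  have := finiteDimensional_adjoin_inv (K := K) t
  have h := sum_ord_eq_finrank (transcendental_inv ht) s (fun v => by
    rw [hs, v.ord_inv]
    omega)
  rw [finrank_adjoin_inv] at h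
  rw [← h, ← Finset.sum_neg_distrib]
  refine Finset.sum_congr rfl fun v _ => ?_
  rw [v.ord_inv, neg_neg]

/-- **Fundamental identity over the point `a`**: `∑_{v(t - a) > 0} ord_v(t - a) = [F : K(t)]`. -/
theorem sum_ord_sub_const_eq_finrank {t : F} (ht : Transcendental K t)
    [FiniteDimensional K⟮t⟯ F] (a : K)
    (s : Finset (Place K F)) (hs : ∀ v, v ∈ s ↔ 0 < v.ord (t - algebraMap K F a)) :
    ∑ v ∈ s, v.ord (t - algebraMap K F a) = (Module.finrank K⟮t⟯ F : ℤ) := by
  have := finiteDimensional_adjoin_sub_const (K := K) t a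
  have h := sum_ord_eq_finrank (transcendental_sub_const ht a) s hs
  rwa [finrank_adjoin_sub_const] at h

theorem degree_eq_sum (D : Divisor K F) :
    Divisor.degree D = ∑ v ∈ D.support, D v * (v.deg : ℤ) := by
  simp [Divisor.degree, Finsupp.sum]

/-- **FF3: a principal divisor has degree zero.** -/
theorem degree_principal (j : F) (hj : Transcendental K j) [FiniteDimensional K⟮j⟯ F]
    (f : F) (D : Divisor K F) (hD : ∀ v : Place K F, D v = v.ord f) :
    Divisor.degree D = 0 := by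
  by_cases hfr : f ∈ (algebraMap K F).range
  · obtain ⟨a, rfl⟩ := hfr
    have : D = 0 := by
      ext v
      rw [hD, _root_.Fermat.Agent.S24.FF.ord_algebraMap]
      rfl
    rw [this, map_zero]
  have hft : Transcendental K f := transcendental_of_not_mem_range hfr
  have hfin : FiniteDimensional K⟮f⟯ F := finiteDimensional_adjoin_of_transcendental hj hft
  classical
  rw [degree_eq_sum]
  have hsupp : ∀ v, v ∈ D.support ↔ v.ord f ≠ 0 := fun v => by
    rw [Finsupp.mem_support_iff, hD]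
  have h1 : ∑ v ∈ D.support, D v * (v.deg : ℤ) = ∑ v ∈ D.support, v.ord f := by
    refine Finset.sum_congr rfl fun v _ => ?_
    rw [hD, deg_eq_one v hj]
    simp
  rw [h1, ← Finset.sum_filter_add_sum_filter_not D.support (fun v => 0 < v.ord f)]
  have hP := sum_ord_eq_finrank hft (D.support.filter fun v => 0 < v.ord f) (fun v => by
    rw [Finset.mem_filter, hsupp]
    constructor
    · exact fun h => h.2
    · exact fun h => ⟨h.ne', h⟩)
  have hN := sum_ord_neg_eq_neg_finrank hft (D.support.filter fun v => ¬ 0 < v.ord f)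
    (fun v => by
      rw [Finset.mem_filter, hsupp]
      constructor
      · rintro ⟨h1, h2⟩
        omega
      · intro h
        exact ⟨h.ne, by omega⟩)
  rw [hP, hN]
  ring

end

end Fermat.Agent.S24.FF

namespace Fermat.Agent.S24.FF

open AlgebraicCurve

variable {K F : Type*} [Field K] [Field F] [Algebra K F] [IsAlgClosed K] [CharZero K]

/-- Exact shape of helper984's `open_fundamental_le` (`Alg/Open.lean`). -/
theorem fundamental_le (t : F) (ht : Transcendental K t)
    [FiniteDimensional ↥(IntermediateField.adjoin K {t}) F]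
    (s : Finset (Place K F)) (hs : ∀ v : Place K F, v ∈ s ↔ 0 < v.ord t) :
    (Module.finrank ↥(IntermediateField.adjoin K {t}) F : ℤ) ≤ ∑ v ∈ s, v.ord t :=
  (sum_ord_eq_finrank ht s hs).ge

/-- Exact shape of helper984's `open_degree_principal` (`Alg/Open.lean`). -/
theorem degree_principal' (j : F) (hj : Transcendental K j)
    [FiniteDimensional ↥(IntermediateField.adjoin K {j}) F] (f : F) (_hf : f ≠ 0)
    (D : Divisor K F) (hD : ∀ v : Place K F, D v = v.ord f) : Divisor.degree D = 0 :=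
  _root_.Fermat.Agent.S24.FF.degree_principal j hj f D hD

end Fermat.Agent.S24.FF

end
-- ===== PACK-END S24/FFDegree.lean

-- ===== PACK-BEGIN S18/H333/HauptMem.lean
section



/-!
# S18 / c3 (helper333): `t₂ ∈ K(j, j(q²))`, `t₃ ∈ K(j, j(q³))`

For every field `K`:
* `t2 K, t3 K : LaurentSeries K` (images of `t2Z`, `t3Z`), with the four relations
  `t2_rel_a`, `t2_rel_b`, `t3_rel_a`, `t3_rel_b`;
* `t2_mem_full : (2 : K) ≠ 0 → 2 ∣ M → t2 K ∈ modularFunctionFieldFullC K M`;
* `t3_mem_full : (3 : K) ≠ 0 → 3 ∣ M → t3 K ∈ modularFunctionFieldFullC K M`.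
Proof: explicit elimination `D t + N = 0` (HauptElim) and `D ≠ 0`, because
`D Δ² Δ₂² = -2²⁴ q⁵ + …`  resp.  `D Δ⁵ Δ₃³ = -3¹⁸ q⁷ + …`  (kernel computation).
-/

set_option autoImplicit false

noncomputable section

namespace Fermat.Agent.S18.H333

open PowerSeries ModularCurve HahnSeries

/-! ### two more truncation rules -/

theorem tl_ofNat (n : ℕ) (c : ℕ) [c.AtLeastTwo] :
    tl n (ofNat(c) : PowerSeries ℤ) = tsmul n (ofNat(c)) (tone n) := by
  rw [← tl_one, ← tl_smul]
  congr 1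
  rw [zsmul_eq_mul, mul_one, Int.cast_ofNat]

theorem tl_neg (n : ℕ) (f : PowerSeries ℤ) : tl n (-f) = tsmul n (-1) (tl n f) := by
  rw [← tl_smul]
  congr 1
  simp

/-! ### the numerators of `D` -/

/-- `D₂ Δ² Δ₂²` -/
def P2 : PowerSeries ℤ := elimDh2 (Ez ^ 3) Dz (Vser 2 Ez ^ 3) (Vser 2 Dz)

/-- `D₃ Δ⁵ Δ₃³` -/
def P3 : PowerSeries ℤ := elimDh3 (Ez ^ 3) Dz (Vser 3 Ez ^ 3) (Vser 3 Dz)

theorem tl_Ez_8 : tl 8 Ez = [1, 240, 2160, 6720, 17520, 30240, 60480, 82560] := by
  rw [tl_Ez]; decide +kernel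

theorem tl_Dz_8 : tl 8 Dz = [0, 1, -24, 252, -1472, 4830, -6048, -16744] := by
  rw [tl_Dz]; decide +kernel

theorem tl_Ez_6 : tl 6 Ez = [1, 240, 2160, 6720, 17520, 30240] := by
  rw [tl_Ez]; decide +kernel

theorem tl_Dz_6 : tl 6 Dz = [0, 1, -24, 252, -1472, 4830] := by
  rw [tl_Dz]; decide +kernel

theorem tl_P2 : tl 6 P2 = [0, 0, 0, 0, 0, -16777216] := by
  rw [P2, elimDh2]
  simp only [tl_sub, tl_mul, tl_pow, tl_add, tl_neg, tl_ofNat,
    tl_Vser _ _ (show 0 < 2 by norm_num), tl_Dz_6, tl_Ez_6]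
  decide +kernel

theorem tl_P3 : tl 8 P3 = [0, 0, 0, 0, 0, 0, 0, -387420489] := by
  rw [P3, elimDh3]
  simp only [tl_sub, tl_mul, tl_pow, tl_add, tl_neg, tl_ofNat,
    tl_Vser _ _ (show 0 < 3 by norm_num), tl_Dz_8, tl_Ez_8]
  decide +kernel

theorem coeff_P2 : PowerSeries.coeff 5 P2 = -16777216 := by
  have h := tl_getD 6 P2 (i := 5) (by norm_num)
  rw [tl_P2] at h
  simpa using h.symm

theorem coeff_P3 : PowerSeries.coeff 7 P3 = -387420489 := by
  have h := tl_getD 8 P3 (i := 7) (by norm_num)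
  rw [tl_P3] at h
  simpa using h.symm

theorem elimD2_mul : elimD2 (jqModC ℤ) (qExpand ℤ 2 (jqModC ℤ)) * DL ^ 2 * qExpand ℤ 2 DL ^ 2
    = ιZ P2 := by
  rw [elimD2_hom, jZ_mul_DL, qExpand_jZ_mul, P2, map_elimDh2, ← qExpand_ιZ 2 Dz]
  rfl

theorem elimD3_mul : elimD3 (jqModC ℤ) (qExpand ℤ 3 (jqModC ℤ)) * DL ^ 5 * qExpand ℤ 3 DL ^ 3
    = ιZ P3 := by
  rw [elimD3_hom, jZ_mul_DL, qExpand_jZ_mul, P3, map_elimDh3, ← qExpand_ιZ 3 Dz]
  rfl

/-! ### over a field -/

section Field

variable (K : Type*) [Field K]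

/-- `t₂` over `K` -/
def t2 : LaurentSeries K := coeffMap (Int.castRingHom K) t2Z

/-- `t₃` over `K` -/
def t3 : LaurentSeries K := coeffMap (Int.castRingHom K) t3Z

theorem t2_rel_a : jqModC K * t2 K ^ 2 = (t2 K + 256) ^ 3 := by
  have h := congrArg (coeffMap (Int.castRingHom K)) t2Z_rel_a
  simpa only [t2, map_mul, map_pow, map_add, map_ofNat, coeffMap_jqModC] using h

theorem t2_rel_b : qExpand K 2 (jqModC K) * t2 K = (t2 K + 16) ^ 3 := by
  have h := congrArg (coeffMap (Int.castRingHom K)) t2Z_rel_b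
  simpa only [t2, map_mul, map_pow, map_add, map_ofNat, coeffMap_jqModC, coeffMap_qExpand] using h

theorem t3_rel_a : jqModC K * t3 K ^ 3 = (t3 K + 27) * (t3 K + 243) ^ 3 := by
  have h := congrArg (coeffMap (Int.castRingHom K)) t3Z_rel_a
  simpa only [t3, map_mul, map_pow, map_add, map_ofNat, coeffMap_jqModC] using h

theorem t3_rel_b : qExpand K 3 (jqModC K) * t3 K = (t3 K + 27) * (t3 K + 3) ^ 3 := by
  have h := congrArg (coeffMap (Int.castRingHom K)) t3Z_rel_b
  simpa only [t3, map_mul, map_pow, map_add, map_ofNat, coeffMap_jqModC, coeffMap_qExpand] using h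

theorem coeffMap_ιZ_coeff (P : PowerSeries ℤ) (n : ℕ) :
    (coeffMap (Int.castRingHom K) (ιZ P)).coeff (n : ℤ) = ((PowerSeries.coeff n P : ℤ) : K) := by
  rw [coeffMap_coeff, ιZ_coeff_nat]
  rfl

theorem elimD2_ne_zero (h2 : (2 : K) ≠ 0) :
    elimD2 (jqModC K) (qExpand K 2 (jqModC K)) ≠ 0 := by
  intro h0
  have h := congrArg (coeffMap (Int.castRingHom K)) elimD2_mul
  rw [map_mul, map_mul, map_elimD2, coeffMap_jqModC, coeffMap_qExpand, coeffMap_jqModC, h0,
    zero_mul, zero_mul] at h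
  have h5 := congrArg (fun x : LaurentSeries K => x.coeff ((5 : ℕ) : ℤ)) h
  simp only [coeffMap_ιZ_coeff, coeff_P2] at h5
  have : ((-16777216 : ℤ) : K) = -(2 : K) ^ 24 := by push_cast; norm_num
  rw [this] at h5
  exact neg_ne_zero.mpr (pow_ne_zero 24 h2) h5.symm

theorem elimD3_ne_zero (h3 : (3 : K) ≠ 0) :
    elimD3 (jqModC K) (qExpand K 3 (jqModC K)) ≠ 0 := by
  intro h0
  have h := congrArg (coeffMap (Int.castRingHom K)) elimD3_mul
  rw [map_mul, map_mul, map_elimD3, coeffMap_jqModC, coeffMap_qExpand, coeffMap_jqModC, h0,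
    zero_mul, zero_mul] at h
  have h5 := congrArg (fun x : LaurentSeries K => x.coeff ((7 : ℕ) : ℤ)) h
  simp only [coeffMap_ιZ_coeff, coeff_P3] at h5
  have : ((-387420489 : ℤ) : K) = -(3 : K) ^ 18 := by push_cast; norm_num
  rw [this] at h5
  exact neg_ne_zero.mpr (pow_ne_zero 18 h3) h5.symm

/-- explicit formula: `t₂ = -N₂(j, j₂) / D₂(j, j₂)` -/
theorem t2_eq (h2 : (2 : K) ≠ 0) :
    t2 K = -elimN2 (jqModC K) (qExpand K 2 (jqModC K))
      / elimD2 (jqModC K) (qExpand K 2 (jqModC K)) := by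
  have h := elim2 (t2 K) _ _ (t2_rel_a K) (t2_rel_b K)
  rw [eq_div_iff (elimD2_ne_zero K h2)]
  linear_combination h

/-- explicit formula: `t₃ = -N₃(j, j₃) / D₃(j, j₃)` -/
theorem t3_eq (h3 : (3 : K) ≠ 0) :
    t3 K = -elimN3 (jqModC K) (qExpand K 3 (jqModC K))
      / elimD3 (jqModC K) (qExpand K 3 (jqModC K)) := by
  have h := elim3 (t3 K) _ _ (t3_rel_a K) (t3_rel_b K)
  rw [eq_div_iff (elimD3_ne_zero K h3)]
  linear_combination h

variable {K} in
theorem elimD2_mem (F : IntermediateField K (LaurentSeries K)) {j J : LaurentSeries K}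
    (hj : j ∈ F) (hJ : J ∈ F) : elimD2 j J ∈ F := by
  have := map_elimD2 (algebraMap F (LaurentSeries K)) ⟨j, hj⟩ ⟨J, hJ⟩
  exact this ▸ (elimD2 (⟨j, hj⟩ : F) ⟨J, hJ⟩).2

variable {K} in
theorem elimN2_mem (F : IntermediateField K (LaurentSeries K)) {j J : LaurentSeries K}
    (hj : j ∈ F) (hJ : J ∈ F) : elimN2 j J ∈ F := by
  have := map_elimN2 (algebraMap F (LaurentSeries K)) ⟨j, hj⟩ ⟨J, hJ⟩
  exact this ▸ (elimN2 (⟨j, hj⟩ : F) ⟨J, hJ⟩).2

variable {K} in
theorem elimD3_mem (F : IntermediateField K (LaurentSeries K)) {j J : LaurentSeries K}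
    (hj : j ∈ F) (hJ : J ∈ F) : elimD3 j J ∈ F := by
  have := map_elimD3 (algebraMap F (LaurentSeries K)) ⟨j, hj⟩ ⟨J, hJ⟩
  exact this ▸ (elimD3 (⟨j, hj⟩ : F) ⟨J, hJ⟩).2

variable {K} in
theorem elimN3_mem (F : IntermediateField K (LaurentSeries K)) {j J : LaurentSeries K}
    (hj : j ∈ F) (hJ : J ∈ F) : elimN3 j J ∈ F := by
  have := map_elimN3 (algebraMap F (LaurentSeries K)) ⟨j, hj⟩ ⟨J, hJ⟩
  exact this ▸ (elimN3 (⟨j, hj⟩ : F) ⟨J, hJ⟩).2

/-- **`t₂` is a modular function of level `M`** (`2 ∣ M`, `char K ≠ 2`). -/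
theorem t2_mem_full (h2 : (2 : K) ≠ 0) (M : ℕ) (hM : 2 ∣ M) :
    t2 K ∈ modularFunctionFieldFullC K M := by
  have hj : jqModC K ∈ modularFunctionFieldFullC K M := jqModC_mem_full K M
  have hJ : qExpand K 2 (jqModC K) ∈ modularFunctionFieldFullC K M := jqModCd_mem_full K M hM
  rw [t2_eq K h2]
  exact div_mem (neg_mem (elimN2_mem _ hj hJ)) (elimD2_mem _ hj hJ)

/-- **`t₃` is a modular function of level `M`** (`3 ∣ M`, `char K ≠ 3`). -/
theorem t3_mem_full (h3 : (3 : K) ≠ 0) (M : ℕ) (hM : 3 ∣ M) :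
    t3 K ∈ modularFunctionFieldFullC K M := by
  have hj : jqModC K ∈ modularFunctionFieldFullC K M := jqModC_mem_full K M
  have hJ : qExpand K 3 (jqModC K) ∈ modularFunctionFieldFullC K M := jqModCd_mem_full K M hM
  rw [t3_eq K h3]
  exact div_mem (neg_mem (elimN3_mem _ hj hJ)) (elimD3_mem _ hj hJ)

end Field

end Fermat.Agent.S18.H333

end
end
-- ===== PACK-END S18/H333/HauptMem.lean

-- ===== PACK-BEGIN S18/Mod/H216/Basis.lean
section


/-!
# S18 / MOD (helper216): the S28 basis inside `Fc M E`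

* `exists_Fc_of_full` (T0): `coeffEmb Q̄ z`, `z ∈ F_ℚ`, is the value of an element of `Fc M E`.
* `exists_FE_of_Fc` (T1): every `f ∈ Fc M E` is the coefficientwise image of an element of
  `F_E := laurentBaseChange E (modularFunctionFieldFull M) ⊆ E((q))`.
* `yInt` : the S28 monomials as elements of `intE M A E`.
* `exists_scaled_relation` (B2): `q(j) f = ∑ pᵢ(j) yᵢ` with `q, pᵢ ∈ (A ∩ E)[X]`, jointly primitive.
* `redE_sum_eq_zero` (B3): independence of the reductions over `κ[j̄]`.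
-/

set_option autoImplicit false
set_option linter.unusedSectionVars false

noncomputable section

namespace Fermat.Agent.S18.Mod.H216

open ModularCurve AlgebraicCurve HahnSeries Polynomial Fermat.Agent.S18 Fermat.Agent.S18.Mod
open Fermat.Agent.S28

variable (M : ℕ) (A : ValuationSubring Qb) (E : IntermediateField ℚ Qb)

/-! ### T0, T1 -/

theorem coe_jd (d : ℕ) [NeZero d] (hd : d ∣ M) :
    ((jd M d hd : Om M) : LaurentSeries Qb) = coeffEmb Qb (qExpand ℚ d jq) := rfl

theorem jd_mem_Fc (d : ℕ) [NeZero d] (hd : d ∣ M) : jd M d hd ∈ Fc M E :=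
  Subfield.subset_closure (Or.inr ⟨d, inferInstance, hd, rfl⟩)

theorem coeffEmb_algebraMap (r : ℚ) :
    coeffEmb Qb (algebraMap ℚ (LaurentSeries ℚ) r) = HahnSeries.C (algebraMap ℚ Qb r) := by
  rw [algebraMap_laurentSeries_eq_single, coeffEmb, coeffMap_single, ← HahnSeries.C_apply]

/-- **T0.** -/
theorem exists_Fc_of_full {z : LaurentSeries ℚ} (hz : z ∈ modularFunctionFieldFull M) :
    ∃ f ∈ Fc M E, (f : LaurentSeries Qb) = coeffEmb Qb z := by
  have hle : Subfield.closure (Set.range (algebraMap ℚ (LaurentSeries ℚ)) ∪ divisorExpansions M) ≤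
      Subfield.comap (coeffEmb Qb) ((Fc M E).map (omVal M)) := by
    rw [Subfield.closure_le]
    rintro x (⟨r, rfl⟩ | ⟨d, hd, hdM, rfl⟩)
    · refine ⟨algebraMap Qb (Om M) (algebraMap ℚ Qb r), ?_, ?_⟩
      · exact Ec_le_Fc M E ((mem_Ec_iff M E).mpr ⟨_, E.algebraMap_mem r, rfl⟩)
      · rw [omVal_apply, coe_algebraMap_Om, coeffEmb_algebraMap]
    · haveI := hd
      exact ⟨jd M d hdM, jd_mem_Fc M E d hdM, rfl⟩
  obtain ⟨f, hf, hfz⟩ := hle hz
  exact ⟨f, hf, hfz⟩

/-- `E((q)) → Q̄((q))`. -/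
abbrev iotaE : LaurentSeries ↥E →+* LaurentSeries Qb := coeffMap (algebraMap ↥E Qb)

theorem iotaE_coeffEmb (z : LaurentSeries ℚ) : iotaE E (coeffEmb ↥E z) = coeffEmb Qb z := by
  rw [coeffEmb, coeffEmb, coeffMap_coeffMap]
  exact coeffMap_congr (RingHom.ext_rat _ _) z

theorem iotaE_algebraMap (c : ↥E) :
    iotaE E (algebraMap ↥E (LaurentSeries ↥E) c) = HahnSeries.C (c : Qb) := by
  rw [algebraMap_laurentSeries_eq_single, coeffMap_single, ← HahnSeries.C_apply]
  rfl

/-- **T1.** -/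
theorem exists_FE_of_Fc {f : Om M} (hf : f ∈ Fc M E) :
    ∃ g ∈ laurentBaseChange ↥E (modularFunctionFieldFull M), iotaE E g = (f : LaurentSeries Qb) := by
  have hle : Fc M E ≤ Subfield.comap (omVal M)
      ((laurentBaseChange ↥E (modularFunctionFieldFull M)).toSubfield.map (iotaE E)) := by
    rw [Fc, Subfield.closure_le]
    rintro x (hx | ⟨d, hd, hdM, rfl⟩)
    · obtain ⟨c, hc, rfl⟩ := (mem_Ec_iff M E).mp hx
      refine ⟨algebraMap ↥E (LaurentSeries ↥E) ⟨c, hc⟩, ?_, ?_⟩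
      · exact (laurentBaseChange ↥E (modularFunctionFieldFull M)).algebraMap_mem _
      · rw [omVal_apply, coe_algebraMap_Om]
        exact iotaE_algebraMap E ⟨c, hc⟩
    · haveI := hd
      refine ⟨coeffEmb ↥E (qExpand ℚ d jq), ?_, ?_⟩
      · exact coeffEmb_mem_laurentBaseChange ↥E (jqd_mem_full M hdM)
      · rw [omVal_apply, coe_jd]
        exact iotaE_coeffEmb E _
  obtain ⟨g, hg, hgf⟩ := hle hf
  exact ⟨g, hg, hgf⟩

/-! ### The monomials -/

variable {M} {n : ℕ} {y : Fin n → LaurentSeries ℤ}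

theorem coeffMap_intCast_mem_intE [NeZero M] (hS : H516.SpansQ M y) (i : Fin n) :
    coeffMap (Int.castRingHom ↥A) (y i) ∈ intE M A E := by
  rw [mem_intE]
  obtain ⟨f, hf, hfz⟩ := exists_Fc_of_full M E (H516.yQ_mem_full hS i)
  refine ⟨fun k => ?_, f, hf, ?_⟩
  · rw [coeffMap_coeff]
    simp only [eq_intCast, SubringClass.coe_intCast]
    exact intCast_mem E _
  · rw [hfz, ← H516.coeffMap_intCast_eq_coeffEmb, coeffMap_coeffMap]
    exact coeffMap_congr (RingHom.ext_int _ _) _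

/-- The S28 monomials as integral series. -/
def yInt [NeZero M] (hS : H516.SpansQ M y) (i : Fin n) : ↥(intE M A E) :=
  ⟨coeffMap (Int.castRingHom ↥A) (y i), coeffMap_intCast_mem_intE A E hS i⟩

theorem coe_toOm_yInt [NeZero M] (hS : H516.SpansQ M y) (i : Fin n) :
    ((toOm M A E (yInt A E hS i) : Om M) : LaurentSeries Qb) =
      coeffMap (Int.castRingHom Qb) (y i) := by
  rw [coe_toOm]
  show coeffMap A.subtype (coeffMap (Int.castRingHom ↥A) (y i)) = _
  rw [coeffMap_coeffMap]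
  exact coeffMap_congr (RingHom.ext_int _ _) _

theorem redE_yInt [NeZero M] (hS : H516.SpansQ M y) (i : Fin n) :
    redE M A E (yInt A E hS i) =
      coeffMap (Int.castRingHom (IsLocalRing.ResidueField ↥A)) (y i) := by
  show coeffMap (IsLocalRing.residue ↥A) (coeffMap (Int.castRingHom ↥A) (y i)) = _
  rw [coeffMap_coeffMap]
  exact coeffMap_congr (RingHom.ext_int _ _) _

/-- **(B3)** independence of the reductions over `κ[j̄]`. -/
theorem redE_sum_eq_zero [NeZero M] (hS : H516.SpansQ M y)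
    (hli : LinearIndependent (jField (IsLocalRing.ResidueField ↥A))
      (fun i => coeffMap (Int.castRingHom (IsLocalRing.ResidueField ↥A)) (y i)))
    (p : Fin n → (↥(S0 A E))[X])
    (h : redE M A E (∑ i, Uev M A E (p i) * yInt A E hS i) = 0) :
    ∀ i, (p i).map (resS A E) = 0 := by
  rw [map_sum] at h
  simp only [map_mul, redE_Uev, redE_yInt] at h
  have h2 := Fintype.linearIndependent_iff.mp hli
    (fun i => (⟨H516.evJ ((p i).map (resS A E)), H516.evJ_mem_jField _ _⟩ :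
      jField (IsLocalRing.ResidueField ↥A))) h
  intro i
  have h3 := congrArg Subtype.val (h2 i)
  exact (H516.evJ_eq_zero_iff _).mp h3

/-! ### (B2) the scaled relation -/

variable (M) in
theorem coe_toOm_Uev (p : (↥(S0 A E))[X]) :
    ((toOm M A E (Uev M A E p) : Om M) : LaurentSeries Qb) =
      H516.evJ (p.map (S0 A E).subtype) := by
  have h : (omVal M).comp ((toOm M A E).comp (Uev M A E)) =
      (Polynomial.eval₂RingHom (HahnSeries.C (Γ := ℤ) (R := Qb)) (jqModC Qb)).comp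
        (Polynomial.mapRingHom (S0 A E).subtype) := by
    apply Polynomial.ringHom_ext
    · intro c
      simp only [RingHom.comp_apply, Uev, Polynomial.coe_eval₂RingHom, Polynomial.eval₂_C,
        Polynomial.coe_mapRingHom, Polynomial.map_C, omVal_apply]
      rw [toOm_cS, coe_algebraMap_Om]
      rfl
    · simp only [RingHom.comp_apply, Uev, Polynomial.coe_eval₂RingHom, Polynomial.eval₂_X,
        Polynomial.coe_mapRingHom, Polynomial.map_X, omVal_apply]
      rw [toOm_jInt, coe_jOm]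
  exact RingHom.congr_fun h p

/-- `A ∩ E` as a valuation subring of `E`. -/
def RE : ValuationSubring ↥E := A.comap (algebraMap ↥E Qb)

/-- `RE → S0`. -/
def reToS0 : ↥(RE A E) →+* ↥(S0 A E) where
  toFun c := ⟨algebraMap ↥E Qb (c : ↥E), c.2, (c : ↥E).2⟩
  map_one' := Subtype.ext (by simp)
  map_mul' a b := Subtype.ext (by simp)
  map_zero' := Subtype.ext (by simp)
  map_add' a b := Subtype.ext (by simp)

theorem subtype_comp_reToS0 :
    (S0 A E).subtype.comp (reToS0 A E) = (algebraMap ↥E Qb).comp (RE A E).subtype := rfl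

variable (M) in
theorem coe_toOm_Uev_map (P : (↥(RE A E))[X]) :
    ((toOm M A E (Uev M A E (P.map (reToS0 A E))) : Om M) : LaurentSeries Qb) =
      iotaE E (H516.evJ (P.map (RE A E).subtype)) := by
  rw [coe_toOm_Uev, H516.coeffMap_evJ, Polynomial.map_map, Polynomial.map_map,
    subtype_comp_reToS0]

/-- **(B2)** every `f ∈ Fc M E` satisfies a jointly primitive relation
`q(j) f = ∑ pᵢ(j) yᵢ` over `A ∩ E`. -/
theorem exists_scaled_relation [NeZero M] (hS : H516.SpansQ M y) {f : Om M}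
    (hf : f ∈ Fc M E) :
    ∃ (q : (↥(S0 A E))[X]) (p : Fin n → (↥(S0 A E))[X]),
      (q.map (resS A E) ≠ 0 ∨ ∃ i, (p i).map (resS A E) ≠ 0) ∧
      toOm M A E (Uev M A E q) * f =
        toOm M A E (∑ i, Uev M A E (p i) * yInt A E hS i) := by
  classical
  obtain ⟨g, hg, hgf⟩ := exists_FE_of_Fc M E hf
  have hgs := (H516.mem_baseChange_iff_mem_spanL ↥E hS).mp hg
  obtain ⟨G, H, hG, hrel⟩ :=
    H516.exists_cleared ↥E (fun i => coeffMap (Int.castRingHom ↥E) (y i)) hgs
  obtain ⟨c, H', hc, hH', i0, m0, h1⟩ :=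
    H516.exists_scale (RE A E) (Fin.cons G H : Fin (n + 1) → (↥E)[X]) ⟨0, by simpa using hG⟩
  have hq : (H' 0).map (RE A E).subtype = C c⁻¹ * G := by
    rw [hH' 0, Fin.cons_zero]
  have hp : ∀ i : Fin n, (H' i.succ).map (RE A E).subtype = C c⁻¹ * H i := by
    intro i
    rw [hH' i.succ, Fin.cons_succ]
  refine ⟨(H' 0).map (reToS0 A E), fun i => (H' i.succ).map (reToS0 A E), ?_, ?_⟩
  · -- primitivity
    have hone : ∀ P : (↥(RE A E))[X], P.coeff m0 = 1 →
        (P.map (reToS0 A E)).map (resS A E) ≠ 0 := by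
      intro P hP h0
      have := congrArg (fun q => q.coeff m0) h0
      simp only [Polynomial.coeff_map, hP, map_one, Polynomial.coeff_zero] at this
      exact one_ne_zero this
    rcases Fin.eq_zero_or_eq_succ i0 with h0 | ⟨i, hi⟩
    · left
      exact hone _ (h0 ▸ h1)
    · right
      exact ⟨i, hone _ (hi ▸ h1)⟩
  · -- the relation
    have hE : H516.evJ ((H' 0).map (RE A E).subtype) * g =
        ∑ i, H516.evJ ((H' i.succ).map (RE A E).subtype) *
          coeffMap (Int.castRingHom ↥E) (y i) := by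
      rw [hq, H516.evJ_mul, mul_assoc, hrel, Finset.mul_sum]
      refine Finset.sum_congr rfl fun i _ => ?_
      rw [hp i, H516.evJ_mul, mul_assoc]
    apply Subtype.ext
    have hy : ∀ i, iotaE E (coeffMap (Int.castRingHom ↥E) (y i)) =
        ((toOm M A E (yInt A E hS i) : Om M) : LaurentSeries Qb) := by
      intro i
      rw [coe_toOm_yInt, coeffMap_coeffMap]
      exact coeffMap_congr (RingHom.ext_int _ _) _
    have h2 := congrArg (iotaE E) hE
    rw [map_mul, map_sum, hgf, ← coe_toOm_Uev_map M] at h2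
    rw [map_sum]
    push_cast
    rw [h2]
    refine Finset.sum_congr rfl fun i _ => ?_
    rw [map_mul, hy, ← coe_toOm_Uev_map M, map_mul]
    rfl

end Fermat.Agent.S18.Mod.H216

end
end
-- ===== PACK-END S18/Mod/H216/Basis.lean

-- ===== PACK-BEGIN S18/H24/GaussB.lean
section


/-!
# S18 / MOD-ASM, piece G-V (helper24) — part B: `V_gen`, primitive parts, `V_total`

`IsUnif A E w₀` : `w₀` is a uniformiser of the discrete valuation ring `A ∩ E` (element-wise form,
to be supplied by G-R).  With `w = cst M w₀`: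

* `field_V_gen`          : `f ∈ V`, `f⁻¹ ∉ V` ⟹ `f/w ∈ V`;
* `exists_primitive`     : a nonzero integral series is `w₀^a ·` (integral series with nonzero
                           reduction);
* `exists_gauss_form`    : every `f ≠ 0` in `Fc` is `w^n · U₁/U₂` with `U₁, U₂` integral of nonzero
                           reduction;
* `field_V_total`        : `f ∈ V ∨ f⁻¹ ∈ V` for `f ∈ Fc`.
-/

set_option autoImplicit false

noncomputable section

namespace Fermat.Agent.S18.H24

open ModularCurve AlgebraicCurve HahnSeries Fermat.Agent.S18 Fermat.Agent.S18.Mod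
open Fermat.Agent.S18.H456

/-- `w₀` is a uniformiser of the discrete valuation ring `A ∩ E`. -/
structure IsUnif (A : ValuationSubring Qb) (E : IntermediateField ℚ Qb) (w₀ : Qb) : Prop where
  mem_A : w₀ ∈ A
  mem_E : w₀ ∈ E
  ne_zero : w₀ ≠ 0
  inv_not_mem : w₀⁻¹ ∉ A
  gen : ∀ c, c ∈ A → c ∈ E → c⁻¹ ∉ A → c * w₀⁻¹ ∈ A
  discrete : ∀ c, c ∈ A → c ∈ E → c ≠ 0 →
    ∃ n : ℕ, c * (w₀⁻¹) ^ n ∈ A ∧ (c * (w₀⁻¹) ^ n)⁻¹ ∈ A

variable {M : ℕ} {A : ValuationSubring Qb} {E : IntermediateField ℚ Qb}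

theorem val_inv (f : Om M) : ((f⁻¹ : Om M) : LaurentSeries Qb) = (f : LaurentSeries Qb)⁻¹ := rfl

theorem val_mul (f g : Om M) :
    ((f * g : Om M) : LaurentSeries Qb) = (f : LaurentSeries Qb) * (g : LaurentSeries Qb) := rfl

theorem val_cst' (c : Qb) : ((cst M c : Om M) : LaurentSeries Qb) = HahnSeries.C c := by
  rw [val_cst]; rfl

theorem val_eq_zero_iff {f : Om M} : (f : LaurentSeries Qb) = 0 ↔ f = 0 :=
  ⟨fun h => Subtype.ext h, fun h => by rw [h]; rfl⟩

theorem red_ne_zero_imp_inc_ne_zero {U : LaurentSeries A} (h : red A U ≠ 0) : inc A U ≠ 0 := by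
  intro h0
  apply h
  have : U = 0 := inc_injective (by rw [h0, map_zero])
  rw [this, map_zero]

/-- Dividing an integral series with zero reduction by the uniformiser. -/
theorem exists_div_unif {w₀ : Qb} (hw : _root_.Fermat.Agent.S18.H24.IsUnif A E w₀) {U : LaurentSeries A}
    (hU : IsIntE M A E U) (hred : red A U = 0) :
    ∃ U' : LaurentSeries A, IsIntE M A E U' ∧ inc A U' = HahnSeries.C (w₀⁻¹) * inc A U := by
  have hcoef : ∀ n, (HahnSeries.C (w₀⁻¹) * inc A U).coeff n ∈ A := by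
    intro n
    rw [HahnSeries.C_mul_eq_smul, HahnSeries.coeff_smul, inc_coeff, smul_eq_mul, mul_comm]
    have hm := (red_eq_zero_iff U).mp hred n
    rcases (mem_maximalIdeal_iff _).mp hm with h0 | hni
    · rw [h0, zero_mul]; exact A.zero_mem
    · exact hw.gen _ (U.coeff n).2 (hU.1 n) hni
  obtain ⟨U', hU'⟩ := exists_inc_eq hcoef
  refine ⟨U', ?_, hU'⟩
  obtain ⟨f, hf, hfU⟩ := hU.2
  refine (isIntE_iff M A E).mpr ⟨(cst M w₀)⁻¹ * f, ?_, ?_⟩
  · exact mul_mem (inv_mem (field_E_le_F M E (cst_mem_Ec M E hw.mem_E))) hf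
  · rw [hU', val_mul, val_inv, val_cst', hfU, ← map_inv₀]

variable (M) in
/-- field `V_gen`. -/
theorem field_V_gen {w₀ : Qb} (hw : _root_.Fermat.Agent.S18.H24.IsUnif A E w₀) :
    ∀ f ∈ Vc M A E, f⁻¹ ∉ Vc M A E → f * (cst M w₀)⁻¹ ∈ Vc M A E := by
  rintro f ⟨hfF, U₁, U₂, h₁, h₂, hr, hfU⟩ hfinv
  have hf0 : f ≠ 0 := by
    rintro rfl
    rw [inv_zero] at hfinv
    exact hfinv (zero_mem _)
  have hfv0 : (f : LaurentSeries Qb) ≠ 0 := fun h => hf0 (val_eq_zero_iff.mp h)
  have hred : red A U₁ = 0 := by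
    by_contra hne
    apply hfinv
    refine ⟨inv_mem hfF, U₂, U₁, h₂, h₁, hne, ?_⟩
    rw [val_inv, ← hfU]
    field_simp
  obtain ⟨U', hU', hU'eq⟩ := exists_div_unif hw h₁ hred
  refine ⟨mul_mem hfF (inv_mem (field_E_le_F M E (cst_mem_Ec M E hw.mem_E))), U', U₂, hU', h₂, hr,
    ?_⟩
  rw [hU'eq, val_mul, val_inv, val_cst', ← hfU, ← map_inv₀]
  ring

/-! ### Primitive parts -/

theorem unit_mul_pow_mem {w₀ : Qb} (hw : _root_.Fermat.Agent.S18.H24.IsUnif A E w₀) {c : Qb} {k a : ℕ} (hak : a ≤ k)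
    (hc : c * (w₀⁻¹) ^ k ∈ A) : c * (w₀⁻¹) ^ a ∈ A := by
  obtain ⟨d, rfl⟩ := Nat.exists_eq_add_of_le hak
  have : c * (w₀⁻¹) ^ a = c * (w₀⁻¹) ^ (a + d) * w₀ ^ d := by
    rw [_root_.pow_add, inv_pow, inv_pow]
    have := hw.ne_zero
    field_simp
  rw [this]
  exact A.mul_mem _ _ hc (pow_mem hw.mem_A d)

/-- A nonzero integral series is a power of the uniformiser times an integral series with
nonzero reduction. -/
theorem exists_primitive {w₀ : Qb} (hw : _root_.Fermat.Agent.S18.H24.IsUnif A E w₀) {U : LaurentSeries A}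
    (hU : IsIntE M A E U) (hU0 : U ≠ 0) :
    ∃ (a : ℕ) (U₀ : LaurentSeries A), IsIntE M A E U₀ ∧ red A U₀ ≠ 0 ∧
      inc A U = HahnSeries.C (w₀ ^ a) * inc A U₀ := by
  classical
  -- the set of valuations of nonzero coefficients
  have hex : ∃ k : ℕ, ∃ n : ℤ, U.coeff n ≠ 0 ∧ (U.coeff n : Qb) * (w₀⁻¹) ^ k ∈ A ∧
      ((U.coeff n : Qb) * (w₀⁻¹) ^ k)⁻¹ ∈ A := by
    obtain ⟨n, hn⟩ : ∃ n, U.coeff n ≠ 0 := by
      by_contra h
      push Not at h
      exact hU0 (HahnSeries.ext (funext h))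
    have hn' : (U.coeff n : Qb) ≠ 0 := fun h => hn (Subtype.ext h)
    obtain ⟨k, hk1, hk2⟩ := hw.discrete _ (U.coeff n).2 (hU.1 n) hn'
    exact ⟨k, n, hn, hk1, hk2⟩
  set a := Nat.find hex with ha
  obtain ⟨n₀, hn₀, hn₀1, hn₀2⟩ := Nat.find_spec hex
  have hmin : ∀ k, (∃ n : ℤ, U.coeff n ≠ 0 ∧ (U.coeff n : Qb) * (w₀⁻¹) ^ k ∈ A ∧
      ((U.coeff n : Qb) * (w₀⁻¹) ^ k)⁻¹ ∈ A) → a ≤ k := fun k hk => Nat.find_min' hex hk
  have hcoef : ∀ n, (HahnSeries.C ((w₀⁻¹) ^ a) * inc A U).coeff n ∈ A := by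
    intro n
    rw [HahnSeries.C_mul_eq_smul, HahnSeries.coeff_smul, inc_coeff, smul_eq_mul, mul_comm]
    by_cases hn : U.coeff n = 0
    · rw [hn]; simp
    · have hn' : (U.coeff n : Qb) ≠ 0 := fun h => hn (Subtype.ext h)
      obtain ⟨k, hk1, hk2⟩ := hw.discrete _ (U.coeff n).2 (hU.1 n) hn'
      exact unit_mul_pow_mem hw (hmin k ⟨n, hn, hk1, hk2⟩) hk1
  obtain ⟨U₀, hU₀⟩ := exists_inc_eq hcoef
  have hw0 := hw.ne_zero
  refine ⟨a, U₀, ?_, ?_, ?_⟩
  · obtain ⟨f, hf, hfU⟩ := hU.2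
    refine (isIntE_iff M A E).mpr ⟨((cst M w₀)⁻¹) ^ a * f, ?_, ?_⟩
    · exact mul_mem (pow_mem (inv_mem (field_E_le_F M E (cst_mem_Ec M E hw.mem_E))) _) hf
    · rw [hU₀, val_mul, hfU]
      congr 1
      show (((cst M w₀)⁻¹ ^ a : Om M) : LaurentSeries Qb) = _
      rw [← map_inv₀, ← map_pow]
      exact val_cst' _
  · intro hred
    have hm := (red_eq_zero_iff U₀).mp hred n₀
    rcases (mem_maximalIdeal_iff _).mp hm with h0 | hni
    · have h1 : ((U₀.coeff n₀ : A) : Qb) = (U.coeff n₀ : Qb) * (w₀⁻¹) ^ a := by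
        rw [← inc_coeff, hU₀, HahnSeries.C_mul_eq_smul, HahnSeries.coeff_smul, inc_coeff,
          smul_eq_mul, mul_comm]
      rw [h1] at h0
      have hn₀' : (U.coeff n₀ : Qb) ≠ 0 := fun h => hn₀ (Subtype.ext h)
      exact mul_ne_zero hn₀' (pow_ne_zero _ (inv_ne_zero hw0)) h0
    · apply hni
      have h1 : ((U₀.coeff n₀ : A) : Qb) = (U.coeff n₀ : Qb) * (w₀⁻¹) ^ a := by
        rw [← inc_coeff, hU₀, HahnSeries.C_mul_eq_smul, HahnSeries.coeff_smul, inc_coeff,
          smul_eq_mul, mul_comm]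
      rw [h1]
      exact hn₀2
  · rw [hU₀, ← mul_assoc, ← map_mul, inv_pow, mul_inv_cancel₀ (pow_ne_zero _ hw0), map_one,
      one_mul]

/-! ### The Gauss normal form -/

/-- `f = w^n · U₁ / U₂` with integral `U₁, U₂` of nonzero reduction. -/
def GaussForm (M : ℕ) (A : ValuationSubring Qb) (E : IntermediateField ℚ Qb) (w₀ : Qb)
    (f : Om M) : Prop :=
  ∃ (n : ℤ) (U₁ U₂ : LaurentSeries A), IsIntE M A E U₁ ∧ IsIntE M A E U₂ ∧
    red A U₁ ≠ 0 ∧ red A U₂ ≠ 0 ∧
    (f : LaurentSeries Qb) * inc A U₂ = HahnSeries.C w₀ ^ n * inc A U₁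

theorem GaussForm.ne_zero {w₀ : Qb} (hw0 : w₀ ≠ 0) {f : Om M} (h : GaussForm M A E w₀ f) :
    f ≠ 0 := by
  rintro rfl
  obtain ⟨n, U₁, U₂, -, -, hr₁, -, heq⟩ := h
  have h1 : (HahnSeries.C w₀ : LaurentSeries Qb) ≠ 0 := by
    intro h
    exact hw0 (HahnSeries.C_injective (by rw [h, map_zero]))
  have : HahnSeries.C w₀ ^ n * inc A U₁ = 0 := by
    rw [← heq]
    show (0 : LaurentSeries Qb) * _ = 0
    rw [zero_mul]
  rcases mul_eq_zero.mp this with h | h
  · exact zpow_ne_zero n h1 h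
  · exact red_ne_zero_imp_inc_ne_zero hr₁ h

theorem C_ne_zero' {w₀ : Qb} (hw0 : w₀ ≠ 0) : (HahnSeries.C w₀ : LaurentSeries Qb) ≠ 0 := by
  intro h
  exact hw0 (HahnSeries.C_injective (by rw [h, map_zero]))

theorem GaussForm.inv {w₀ : Qb} (hw0 : w₀ ≠ 0) {f : Om M} (h : GaussForm M A E w₀ f) :
    GaussForm M A E w₀ f⁻¹ := by
  have hf0 := h.ne_zero hw0
  obtain ⟨n, U₁, U₂, h₁, h₂, hr₁, hr₂, heq⟩ := h
  refine ⟨-n, U₂, U₁, h₂, h₁, hr₂, hr₁, ?_⟩
  have hfv0 : (f : LaurentSeries Qb) ≠ 0 := fun h => hf0 (val_eq_zero_iff.mp h)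
  have hC := C_ne_zero' hw0
  have hCn : (HahnSeries.C w₀ : LaurentSeries Qb) ^ n ≠ 0 := zpow_ne_zero n hC
  rw [val_inv, zpow_neg]
  have h1 : inc A U₁ = (HahnSeries.C w₀ ^ n)⁻¹ * ((f : LaurentSeries Qb) * inc A U₂) := by
    rw [heq, ← mul_assoc, inv_mul_cancel₀ hCn, one_mul]
  rw [h1]
  field_simp

theorem GaussForm.mul {w₀ : Qb} (hw0 : w₀ ≠ 0) {f g : Om M} (hf : GaussForm M A E w₀ f)
    (hg : GaussForm M A E w₀ g) : GaussForm M A E w₀ (f * g) := by
  obtain ⟨n, U₁, U₂, h₁, h₂, hr₁, hr₂, heq⟩ := hf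
  obtain ⟨n', W₁, W₂, k₁, k₂, kr₁, kr₂, heq'⟩ := hg
  refine ⟨n + n', U₁ * W₁, U₂ * W₂, IsIntE.mul h₁ k₁, IsIntE.mul h₂ k₂, ?_, ?_, ?_⟩
  · rw [map_mul]; exact mul_ne_zero hr₁ kr₁
  · rw [map_mul]; exact mul_ne_zero hr₂ kr₂
  · rw [val_mul, map_mul, map_mul, zpow_add₀ (C_ne_zero' hw0)]
    calc (f : LaurentSeries Qb) * (g : LaurentSeries Qb) * (inc A U₂ * inc A W₂)
        = ((f : LaurentSeries Qb) * inc A U₂) * ((g : LaurentSeries Qb) * inc A W₂) := by ring
      _ = _ := by rw [heq, heq']; ring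

theorem GaussForm.neg {w₀ : Qb} {f : Om M} (hf : GaussForm M A E w₀ f) :
    GaussForm M A E w₀ (-f) := by
  obtain ⟨n, U₁, U₂, h₁, h₂, hr₁, hr₂, heq⟩ := hf
  refine ⟨n, -U₁, U₂, IsIntE.neg h₁, h₂, ?_, hr₂, ?_⟩
  · rw [map_neg]; exact neg_ne_zero.mpr hr₁
  · show (-(f : LaurentSeries Qb)) * inc A U₂ = _
    rw [map_neg, neg_mul, heq, mul_neg]

/-- The sum of two Gauss forms (with `n ≤ n'`) is `0` or a Gauss form. -/
theorem GaussForm.add_aux {w₀ : Qb} (hw : _root_.Fermat.Agent.S18.H24.IsUnif A E w₀) {f g : Om M} {n : ℤ} {d : ℕ}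
    {U₁ U₂ W₁ W₂ : LaurentSeries A}
    (h₁ : IsIntE M A E U₁) (h₂ : IsIntE M A E U₂) (hr₂ : red A U₂ ≠ 0)
    (heq : (f : LaurentSeries Qb) * inc A U₂ = HahnSeries.C w₀ ^ n * inc A U₁)
    (k₁ : IsIntE M A E W₁) (k₂ : IsIntE M A E W₂) (kr₂ : red A W₂ ≠ 0)
    (heq' : (g : LaurentSeries Qb) * inc A W₂ = HahnSeries.C w₀ ^ (n + d) * inc A W₁) :
    f + g = 0 ∨ GaussForm M A E w₀ (f + g) := by
  have hw0 := hw.ne_zero
  have hC := C_ne_zero' hw0
  -- the numerator
  set Nn : LaurentSeries A := U₁ * W₂ + HahnSeries.C (⟨w₀, hw.mem_A⟩ ^ d : A) * W₁ * U₂ with hNn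
  have hNint : IsIntE M A E Nn := by
    refine IsIntE.add (IsIntE.mul h₁ k₂) (IsIntE.mul (IsIntE.mul ?_ k₁) h₂)
    refine isIntE_C ?_
    show ((⟨w₀, hw.mem_A⟩ ^ d : A) : Qb) ∈ E
    rw [SubmonoidClass.coe_pow]
    exact pow_mem hw.mem_E d
  have hincN : inc A Nn = inc A U₁ * inc A W₂ + HahnSeries.C w₀ ^ d * inc A W₁ * inc A U₂ := by
    rw [hNn, map_add, map_mul, map_mul, map_mul, inc_C, SubmonoidClass.coe_pow, map_pow]
  have hden : red A (U₂ * W₂) ≠ 0 := by rw [map_mul]; exact mul_ne_zero hr₂ kr₂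
  have hmain : ((f + g : Om M) : LaurentSeries Qb) * inc A (U₂ * W₂) =
      HahnSeries.C w₀ ^ n * inc A Nn := by
    show ((f : LaurentSeries Qb) + (g : LaurentSeries Qb)) * inc A (U₂ * W₂) = _
    rw [map_mul, hincN]
    calc ((f : LaurentSeries Qb) + (g : LaurentSeries Qb)) * (inc A U₂ * inc A W₂)
        = ((f : LaurentSeries Qb) * inc A U₂) * inc A W₂ +
            ((g : LaurentSeries Qb) * inc A W₂) * inc A U₂ := by ring
      _ = _ := by
        rw [heq, heq', zpow_add₀ hC, zpow_natCast]; ring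
  by_cases hN0 : Nn = 0
  · left
    rw [hN0, map_zero, mul_zero] at hmain
    rcases mul_eq_zero.mp hmain with h | h
    · exact val_eq_zero_iff.mp h
    · exact absurd h (red_ne_zero_imp_inc_ne_zero hden)
  · right
    obtain ⟨a, N₀, hN₀, hrN₀, hNeq⟩ := exists_primitive hw hNint hN0
    refine ⟨n + a, N₀, U₂ * W₂, hN₀, IsIntE.mul h₂ k₂, hrN₀, hden, ?_⟩
    rw [hmain, hNeq, zpow_add₀ hC, zpow_natCast, map_pow]
    ring

theorem GaussForm.add {w₀ : Qb} (hw : _root_.Fermat.Agent.S18.H24.IsUnif A E w₀) {f g : Om M}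
    (hf : GaussForm M A E w₀ f) (hg : GaussForm M A E w₀ g) :
    f + g = 0 ∨ GaussForm M A E w₀ (f + g) := by
  obtain ⟨n, U₁, U₂, h₁, h₂, -, hr₂, heq⟩ := hf
  obtain ⟨n', W₁, W₂, k₁, k₂, -, kr₂, heq'⟩ := hg
  rcases le_total n n' with h | h
  · obtain ⟨d, hd⟩ := Int.le.dest h
    rw [← hd] at heq'
    exact GaussForm.add_aux hw h₁ h₂ hr₂ heq k₁ k₂ kr₂ heq'
  · obtain ⟨d, hd⟩ := Int.le.dest h
    rw [← hd] at heq
    rw [add_comm]
    exact GaussForm.add_aux hw k₁ k₂ kr₂ heq' h₁ h₂ hr₂ heq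

end Fermat.Agent.S18.H24

end
end
-- ===== PACK-END S18/H24/GaussB.lean

-- ===== PACK-BEGIN Ribet/H584/IncAnOrd.lean
section
/-
RIBET row 38, WALL-p, I3 leaf INC-AN, piece ORD (formal local computation) — helper584.

In `C((z))`, `char C = 0`: from the relations
  `U · j (j - 1728) = - h₁`,  `h₁² = h₂ (j - 1728)`,  `h₁³ = h₃ j`
and the local orders of `h₁, h₂, h₃` we get `ord (U · θ j) ≥ 1` (`θ = z d/dz`), i.e. the
differential `U dj` is regular:
* `holo_fin`  : at a finite point (`ord (j - a) = m ≥ 1`, `h₁, h₂, h₃` regular);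
* `holo_cusp` : at a cusp (`ord j = -N < 0`, `ord h₁ ≥ 1 - N`).
-/


set_option autoImplicit false

noncomputable section

namespace Fermat.Agent.Ribet.H584

open HahnSeries Fermat.Agent.S28 Fermat.Agent.Ribet.H763.IncAn

variable {C : Type*} [Field C]

theorem coeff_C_of_ne (c : C) {n : ℤ} (hn : n ≠ 0) : (HahnSeries.C c : LaurentSeries C).coeff n = 0 :=
  HahnSeries.coeff_single_of_ne hn

theorem order_add_C_of_pos {x : LaurentSeries C} (hx : 0 < x.order) {c : C} (hc : c ≠ 0) :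
    (x + HahnSeries.C c).order = 0 := by
  have h0 : (x + HahnSeries.C c).coeff 0 ≠ 0 := by
    rw [HahnSeries.coeff_add, HahnSeries.coeff_eq_zero_of_lt_order hx, zero_add]
    show (HahnSeries.single (0 : ℤ) c).coeff 0 ≠ 0
    rw [HahnSeries.coeff_single_same]
    exact hc
  have hne : x + HahnSeries.C c ≠ 0 := HahnSeries.ne_zero_of_coeff_ne_zero h0
  apply le_antisymm (HahnSeries.order_le_of_coeff_ne_zero h0)
  rw [HahnSeries.le_order_iff_forall hne]
  intro j hj
  rw [HahnSeries.coeff_add, HahnSeries.coeff_eq_zero_of_lt_order (hj.trans hx),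
    coeff_C_of_ne c hj.ne, add_zero]

theorem order_add_C_of_neg {x : LaurentSeries C} (hx : x.order < 0) (c : C) :
    (x + HahnSeries.C c).order = x.order := by
  have hx0 : x ≠ 0 := by
    rintro rfl
    simp at hx
  have h0 : (x + HahnSeries.C c).coeff x.order ≠ 0 := by
    rw [HahnSeries.coeff_add, coeff_C_of_ne c hx.ne, add_zero]
    exact fun h => hx0 (HahnSeries.coeff_order_eq_zero.mp h)
  have hne : x + HahnSeries.C c ≠ 0 := HahnSeries.ne_zero_of_coeff_ne_zero h0
  apply le_antisymm (HahnSeries.order_le_of_coeff_ne_zero h0)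
  rw [HahnSeries.le_order_iff_forall hne]
  intro j hj
  rw [HahnSeries.coeff_add, HahnSeries.coeff_eq_zero_of_lt_order hj,
    coeff_C_of_ne c (hj.trans hx).ne, add_zero]

theorem order_pow' (x : LaurentSeries C) (n : ℕ) : (x ^ n).order = n * x.order := by
  rcases eq_or_ne x 0 with rfl | hx
  · rcases Nat.eq_zero_or_pos n with rfl | hn
    · simp
    · rw [zero_pow hn.ne']
      simp
  induction n with
  | zero => simp
  | succ n ih =>
    rw [pow_succ, HahnSeries.order_mul (pow_ne_zero n hx) hx, ih]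
    push_cast
    ring

theorem thetaL_add_C (x : LaurentSeries C) (c : C) :
    _root_.Fermat.Agent.S28.thetaL C (x + HahnSeries.C c) = _root_.Fermat.Agent.S28.thetaL C x := by
  rw [h88_thetaL_add, h88_thetaL_C, add_zero]

variable [CharZero C]

open Classical in
/-- **ORD, finite point.** -/
theorem holo_fin (sj sU h₁ h₂ h₃ : LaurentSeries C) (a : C) (m : ℕ) (hm : 0 < m)
    (ht : (sj - HahnSeries.C a).order = (m : ℤ))
    (hU : sU * (sj * (sj - HahnSeries.C 1728)) = -h₁)
    (h12 : h₁ ^ 2 = h₂ * (sj - HahnSeries.C 1728)) (h13 : h₁ ^ 3 = h₃ * sj)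
    (o1 : 0 ≤ h₁.order) (o2 : 0 ≤ h₂.order) (o3 : 0 ≤ h₃.order) :
    sU * _root_.Fermat.Agent.S28.thetaL C sj = 0 ∨ 1 ≤ (sU * _root_.Fermat.Agent.S28.thetaL C sj).order := by
  have hm' : (0 : ℤ) < m := by exact_mod_cast hm
  set t := sj - HahnSeries.C a with htdef
  have htpos : 0 < t.order := by rw [ht]; exact hm'
  have ht0 : t ≠ 0 := by
    rintro h
    rw [h] at htpos
    simp at htpos
  have hsj : sj = t + HahnSeries.C a := by rw [htdef, sub_add_cancel]
  have hsj' : sj - HahnSeries.C 1728 = t + HahnSeries.C (a - 1728) := by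
    rw [htdef, map_sub]
    ring
  -- orders of `j` and `j - 1728`
  have oj : sj.order = if a = 0 then (m : ℤ) else 0 := by
    split_ifs with ha
    · rw [hsj, ha, map_zero, add_zero, ht]
    · rw [hsj, order_add_C_of_pos htpos ha]
  have oj' : (sj - HahnSeries.C 1728).order = if a = 1728 then (m : ℤ) else 0 := by
    split_ifs with ha
    · rw [hsj', ha, sub_self, map_zero, add_zero, ht]
    · rw [hsj', order_add_C_of_pos htpos (sub_ne_zero.mpr ha)]
  have hj0 : sj ≠ 0 := by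
    rw [hsj]
    intro h
    by_cases ha : a = 0
    · rw [ha, map_zero, add_zero] at h
      exact ht0 h
    · have := order_add_C_of_pos htpos ha
      have h0 : (t + HahnSeries.C a).coeff 0 = a := by
        rw [HahnSeries.coeff_add, HahnSeries.coeff_eq_zero_of_lt_order htpos, zero_add]
        exact HahnSeries.coeff_single_same 0 a
      rw [h, HahnSeries.coeff_zero] at h0
      exact ha h0.symm
  have hj0' : sj - HahnSeries.C 1728 ≠ 0 := by
    rw [hsj']
    intro h
    by_cases ha : a - 1728 = 0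
    · rw [ha, map_zero, add_zero] at h
      exact ht0 h
    · have h0 : (t + HahnSeries.C (a - 1728)).coeff 0 = a - 1728 := by
        rw [HahnSeries.coeff_add, HahnSeries.coeff_eq_zero_of_lt_order htpos, zero_add]
        exact HahnSeries.coeff_single_same 0 _
      rw [h, HahnSeries.coeff_zero] at h0
      exact ha h0.symm
  -- `θ j`
  have hθ : _root_.Fermat.Agent.S28.thetaL C sj = _root_.Fermat.Agent.S28.thetaL C t := by rw [hsj, thetaL_add_C]
  have ht_ne : t.order ≠ 0 := htpos.ne'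
  have hθ0 : _root_.Fermat.Agent.S28.thetaL C t ≠ 0 := thetaL_ne_zero_of_order_ne_zero ht_ne
  have oθ : (_root_.Fermat.Agent.S28.thetaL C t).order = (m : ℤ) := by rw [order_thetaL ht_ne, ht]
  by_cases h10 : h₁ = 0
  · left
    rw [h10, neg_zero] at hU
    rcases mul_eq_zero.mp hU with h | h
    · rw [h, zero_mul]
    · exact absurd h (mul_ne_zero hj0 hj0')
  right
  have hU0 : sU ≠ 0 := by
    rintro rfl
    rw [zero_mul] at hU
    exact h10 (neg_eq_zero.mp hU.symm)
  have h20 : h₂ ≠ 0 := by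
    rintro rfl
    rw [zero_mul] at h12
    exact h10 (pow_eq_zero_iff (two_ne_zero) |>.mp h12)
  have h30 : h₃ ≠ 0 := by
    rintro rfl
    rw [zero_mul] at h13
    exact h10 (pow_eq_zero_iff (three_ne_zero) |>.mp h13)
  have e1 : sU.order + (sj.order + (sj - HahnSeries.C 1728).order) = h₁.order := by
    have := congrArg HahnSeries.order hU
    rwa [HahnSeries.order_mul hU0 (mul_ne_zero hj0 hj0'), HahnSeries.order_mul hj0 hj0',
      HahnSeries.order_neg] at this
  have e2 : 2 * h₁.order = h₂.order + (sj - HahnSeries.C 1728).order := by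
    have := congrArg HahnSeries.order h12
    rwa [order_pow', HahnSeries.order_mul h20 hj0'] at this
  have e3 : 3 * h₁.order = h₃.order + sj.order := by
    have := congrArg HahnSeries.order h13
    rwa [order_pow', HahnSeries.order_mul h30 hj0] at this
  rw [hθ, HahnSeries.order_mul hU0 hθ0, oθ]
  rw [oj] at e1 e3
  rw [oj'] at e1 e2
  have h1728 : (1728 : C) ≠ 0 := by norm_num
  by_cases ha0 : a = 0
  · have ha1 : a ≠ 1728 := by rw [ha0]; exact h1728.symm
    rw [if_pos ha0] at e1 e3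
    rw [if_neg ha1] at e1 e2
    omega
  · rw [if_neg ha0] at e1 e3
    by_cases ha1 : a = 1728
    · rw [if_pos ha1] at e1 e2
      omega
    · rw [if_neg ha1] at e1 e2
      omega

/-- **ORD, cusp.** -/
theorem holo_cusp (sj sU h₁ : LaurentSeries C) (N : ℕ) (hN : 0 < N)
    (hj : sj.order = -(N : ℤ))
    (hU : sU * (sj * (sj - HahnSeries.C 1728)) = -h₁)
    (o1 : h₁ = 0 ∨ 1 - (N : ℤ) ≤ h₁.order) :
    sU * _root_.Fermat.Agent.S28.thetaL C sj = 0 ∨ 1 ≤ (sU * _root_.Fermat.Agent.S28.thetaL C sj).order := by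
  have hN' : (0 : ℤ) < N := by exact_mod_cast hN
  have hjneg : sj.order < 0 := by rw [hj]; omega
  have hj0 : sj ≠ 0 := by
    rintro rfl
    simp at hjneg
  have oj' : (sj - HahnSeries.C 1728).order = -(N : ℤ) := by
    have : sj - HahnSeries.C 1728 = sj + HahnSeries.C (-1728) := by
      rw [map_neg]
      ring
    rw [this, order_add_C_of_neg hjneg, hj]
  have hj0' : sj - HahnSeries.C 1728 ≠ 0 := by
    intro h
    rw [h] at oj'
    simp at oj'
    omega
  have hj_ne : sj.order ≠ 0 := hjneg.ne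
  have hθ0 : _root_.Fermat.Agent.S28.thetaL C sj ≠ 0 := thetaL_ne_zero_of_order_ne_zero hj_ne
  have oθ : (_root_.Fermat.Agent.S28.thetaL C sj).order = -(N : ℤ) := by rw [order_thetaL hj_ne, hj]
  by_cases h10 : h₁ = 0
  · left
    rw [h10, neg_zero] at hU
    rcases mul_eq_zero.mp hU with h | h
    · rw [h, zero_mul]
    · exact absurd h (mul_ne_zero hj0 hj0')
  right
  have o1' : 1 - (N : ℤ) ≤ h₁.order := o1.resolve_left h10
  have hU0 : sU ≠ 0 := by
    rintro rfl
    rw [zero_mul] at hU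
    exact h10 (neg_eq_zero.mp hU.symm)
  have e1 : sU.order + (sj.order + (sj - HahnSeries.C 1728).order) = h₁.order := by
    have := congrArg HahnSeries.order hU
    rwa [HahnSeries.order_mul hU0 (mul_ne_zero hj0 hj0'), HahnSeries.order_mul hj0 hj0',
      HahnSeries.order_neg] at this
  rw [HahnSeries.order_mul hU0 hθ0, oθ]
  rw [hj, oj'] at e1
  omega

end Fermat.Agent.Ribet.H584

end
end
-- ===== PACK-END Ribet/H584/IncAnOrd.lean

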