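import Mathlib
import Fermat.Prelude.Def_CuspForm_Newforms
import Fermat.Prelude.Thm_CuspForm_intLattice_fg
import Fermat.Prelude.Def_AlgebraicCurve_DivisorClassGroup
import Fermat.Prelude.Def_AlgebraicCurve_Correspondence
import Mathlib.RingTheory.Ideal.GoingUp
import Fermat.Agent.Pack.S44C.G0E20L3
import Fermat.Agent.Pack.S44C.G0E16L1
import Fermat.Agent.Pack.S44C.G0E10L3
import Fermat.Agent.Pack.S44C.G0E19L0
import Fermat.Agent.Pack.S44C.G0E11L3
import Fermat.Agent.Pack.S44C.G0E11L1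
import Fermat.Agent.Pack.S44C.G0E11L2
import Fermat.Agent.Pack.S44C.G0E11L0
import Fermat.Agent.Pack.S44C.G0E16L3
import Fermat.Agent.Pack.S44C.G0E16L0
import Fermat.Agent.Pack.S44C.G0E19L1
import Fermat.Agent.Pack.S44C.G0E12L2
import Fermat.Agent.Pack.S44C.G0E3L2
import Fermat.Agent.Pack.S44C.G0E8L2
import Fermat.Agent.Pack.S44C.G1E0L0
import Fermat.Agent.Pack.S44C.G0E13L0
import Fermat.Agent.Pack.S44C.G0E19L2
import Fermat.Agent.Pack.S44C.G0E20L2
import Fermat.Agent.Pack.S44C.G0E20L0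
import Fermat.Agent.Pack.S44C.G0E17L3
import Fermat.Agent.Pack.S44C.G0E18L2
import Fermat.Agent.Pack.S44C.G0E4L2
import Fermat.Agent.Pack.S44C.G0E10L1
import Fermat.Agent.Pack.Fast891

-- ===== PACK-BEGIN S12/H411/Rat.lean
section





/-!
# S12 (helper411), piece RAT: rationality of a point from unramifiedness (Minkowski)

* `red_smul_of_mem_inertia` : at a place `A` of good reduction, inertia commutes with reduction;
* `smul_eq_of_mem_inertia_of_good` : inertia at a good place fixes every torsion point whose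
  order is a unit at `A`;
* `smul_eq_of_mem_inertia_of_inKer_inter` : same for torsion points `R` of any order, as soon as
  the subgroup generated by `R` meets the kernel of reduction trivially (used at `ℓ = p`);
* `fixed_of_unramified` : a torsion point `R` with `⟨R⟩` Galois-stable, fixed by one inertia
  group at every prime, is Galois-fixed (landed Minkowski `S13.H175.minkowski_subgroup`).
-/

set_option autoImplicit false
set_option linter.unusedSectionVars false

open WeierstrassCurve WeierstrassCurve.Affine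

namespace Fermat.Agent.S12.H411

open Fermat.Agent.Lib.Red.H290 Fermat.Agent.S15.H242
open Fermat.Agent.S05.SameRed (IntegralCoeffs InKer)

section action

variable {W : WeierstrassCurve ℤ}

lemma gal_smul_def (σ : Gal) (P : Pts W) :
    σ • P = Point.map (W' := W.map (Int.castRingHom ℚ)) σ.toAlgHom P := rfl

lemma gal_smul_some (σ : Gal) {x y : AlgebraicClosure ℚ}
    (h : ((W.map (Int.castRingHom ℚ))⁄(AlgebraicClosure ℚ)).Nonsingular x y) :
    ∃ h', σ • (Point.some x y h : Pts W) = (Point.some (σ x) (σ y) h' : Pts W) :=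
  ⟨_, Point.map_some (W' := W.map (Int.castRingHom ℚ)) σ.toAlgHom h⟩

lemma gal_smul_zero (σ : Gal) : σ • (0 : Pts W) = 0 := rfl

lemma gal_smul_add (σ : Gal) (P Q : Pts W) : σ • (P + Q) = σ • P + σ • Q := by
  rw [gal_smul_def, gal_smul_def, gal_smul_def, map_add]

lemma gal_smul_sub (σ : Gal) (P Q : Pts W) : σ • (P - Q) = σ • P - σ • Q := by
  rw [gal_smul_def, gal_smul_def, gal_smul_def, map_sub]

lemma gal_smul_nsmul (σ : Gal) (n : ℕ) (P : Pts W) : σ • (n • P) = n • (σ • P) := by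
  rw [gal_smul_def, gal_smul_def, map_nsmul]

lemma gal_smul_zsmul (σ : Gal) (n : ℤ) (P : Pts W) : σ • (n • P) = n • (σ • P) := by
  rw [gal_smul_def, gal_smul_def, map_zsmul]

end action

section inertia

variable (A : ValuationSubring (AlgebraicClosure ℚ))

lemma mem_of_mem_inertia {σ : Gal} (hσ : σ ∈ A.inertiaSubgroupIn ℚ) {z : AlgebraicClosure ℚ}
    (hz : z ∈ A) : σ z ∈ A := by
  have h1 := Fermat.Agent.S05.Assemble.inertia_res A hσ z ((A.valuation_le_one_iff z).mpr hz)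
  have h2 : σ z - z ∈ A := (A.valuation_le_one_iff _).mp h1.le
  have : σ z = (σ z - z) + z := by ring
  rw [this]
  exact A.add_mem _ _ h2 hz

lemma mem_iff_of_mem_inertia {σ : Gal} (hσ : σ ∈ A.inertiaSubgroupIn ℚ)
    (z : AlgebraicClosure ℚ) : σ z ∈ A ↔ z ∈ A := by
  refine ⟨fun h => ?_, mem_of_mem_inertia A hσ⟩
  have hσ' : σ⁻¹ ∈ A.inertiaSubgroupIn ℚ := Subgroup.inv_mem _ hσ
  have := mem_of_mem_inertia A hσ' h
  simpa using this

lemma rd_smul_of_mem_inertia {κ : Type*} [Field κ] {φ : A →+* κ} (hφ : KerMax A φ) {σ : Gal}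
    (hσ : σ ∈ A.inertiaSubgroupIn ℚ) {z : AlgebraicClosure ℚ} (hz : z ∈ A) :
    rd A φ (σ z) = rd A φ z := by
  rw [rd_eq_iff hφ (mem_of_mem_inertia A hσ hz) hz]
  exact Fermat.Agent.S05.Assemble.inertia_res A hσ z ((A.valuation_le_one_iff z).mpr hz)

end inertia

section good

variable {W : WeierstrassCurve ℤ} {A : ValuationSubring (AlgebraicClosure ℚ)}
  {κ : Type*} [Field κ] [DecidableEq κ] {φ : A →+* κ}
  (hred : IsRedOf A φ ((W.map (Int.castRingHom ℚ))⁄(AlgebraicClosure ℚ)) (W⁄κ))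
  (hφ : KerMax A φ) (hΔ : (W⁄κ).Δ ≠ 0)

include hφ in
/-- inertia commutes with reduction -/
theorem red_smul_of_mem_inertia {σ : Gal} (hσ : σ ∈ A.inertiaSubgroupIn ℚ) (P : Pts W) :
    red hred hΔ (σ • P) = red hred hΔ P := by
  classical
  rcases P with _ | ⟨x, y, h⟩
  · rfl
  · obtain ⟨h', e⟩ := gal_smul_some σ h
    rw [e]
    by_cases hx : x ∈ A
    · have hy : y ∈ A := y_mem_of_x_mem hred h.1 hx
      rw [red_some_of_mem hred hΔ _ (mem_of_mem_inertia A hσ hx), red_some_of_mem hred hΔ h hx]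
      simp only [Point.some.injEq]
      exact ⟨rd_smul_of_mem_inertia A hφ hσ hx, rd_smul_of_mem_inertia A hφ hσ hy⟩
    · rw [red_some_of_not_mem hred hΔ _ (fun h' => hx ((mem_iff_of_mem_inertia A hσ x).mp h')),
        red_some_of_not_mem hred hΔ h hx]

include hred hφ hΔ in
/-- At a good place, inertia moves a point only inside the kernel of reduction. -/
theorem inKer_smul_sub_of_mem_inertia {σ : Gal} (hσ : σ ∈ A.inertiaSubgroupIn ℚ) (P : Pts W) :
    InKer ((W.map (Int.castRingHom ℚ))⁄(AlgebraicClosure ℚ)) A.valuation (σ • P - P) := by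
  classical
  rw [← red_eq_zero_iff hred hΔ]
  have := (redHom hred hφ hΔ).map_sub (σ • P) P
  simp only [redHom_apply] at this
  rw [this, red_smul_of_mem_inertia hred hφ hΔ hσ, sub_self]

include hred hφ hΔ in
/-- Inertia at a good place fixes torsion of order prime to the residue characteristic. -/
theorem smul_eq_of_mem_inertia_of_good {σ : Gal} (hσ : σ ∈ A.inertiaSubgroupIn ℚ)
    (n : ℕ) (hn : A.valuation ((n : ℕ) : AlgebraicClosure ℚ) = 1) (P : Pts W)
    (hP : n • P = 0) : σ • P = P := by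
  classical
  have hσP : n • (σ • P) = 0 := by
    rw [← gal_smul_nsmul, hP, gal_smul_zero]
  exact eq_of_red_eq_of_nsmul hred hφ hΔ n hn _ _ hσP hP
    (red_smul_of_mem_inertia hred hφ hΔ hσ P)

end good

/-- **Minkowski for a torsion point.**  If `⟨R⟩` is Galois-stable and, at every prime, the
inertia group of ONE place fixes `R`, then `R` is Galois-fixed. -/
theorem fixed_of_unramified (W : WeierstrassCurve ℤ) (R : Pts W)
    (hstab : ∀ σ : Gal, ∃ m : ℤ, σ • R = m • R)
    (hunr : ∀ q : ℕ, q.Prime → ∃ A : ValuationSubring (AlgebraicClosure ℚ),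
      A.LiesOverPrime q ∧ ∀ σ ∈ A.inertiaSubgroupIn ℚ, σ • R = R) :
    ∀ σ : Gal, σ • R = R := by
  classical
  let H : Subgroup Gal := MulAction.stabilizer Gal R
  have hH : H.Normal := by
    refine ⟨fun σ hσ τ => ?_⟩
    rw [MulAction.mem_stabilizer_iff] at hσ ⊢
    obtain ⟨m, hm⟩ := hstab τ⁻¹
    have h1 : (τ * σ * τ⁻¹) • R = τ • σ • τ⁻¹ • R := by rw [mul_smul, mul_smul]
    rw [h1, hm, gal_smul_zsmul, hσ, ← hm, smul_inv_smul]
  have hopen : ∃ s : Finset (AlgebraicClosure ℚ), ∀ σ : Gal, (∀ x ∈ s, σ x = x) → σ ∈ H := by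
    rcases hR : R with _ | ⟨x, y, h⟩
    · exact ⟨∅, fun σ _ => by
        rw [MulAction.mem_stabilizer_iff, hR]; rfl⟩
    · refine ⟨{x, y}, fun σ hσ => ?_⟩
      rw [MulAction.mem_stabilizer_iff, hR]
      have hx : σ x = x := hσ x (by simp)
      have hy : σ y = y := hσ y (by simp)
      obtain ⟨h', e⟩ := gal_smul_some σ h
      rw [e]
      simp only [Point.some.injEq]
      exact ⟨hx, hy⟩
  have htop := Fermat.Agent.S13.H175.minkowski_subgroup H hH hopen (fun q hq => by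
    obtain ⟨A, hA, hAR⟩ := hunr q hq
    exact ⟨A, hA, fun σ hσ => MulAction.mem_stabilizer_iff.mpr (hAR σ hσ)⟩)
  intro σ
  have : σ ∈ H := by rw [htop]; exact Subgroup.mem_top σ
  exact MulAction.mem_stabilizer_iff.mp this

end Fermat.Agent.S12.H411

end
-- ===== PACK-END S12/H411/Rat.lean

-- ===== PACK-BEGIN S18/H456/ModRes.lean
section


/-!
# S18 / MOD assembly (helper456): `residue_perfect` for `R = Rc M A E`
-/

set_option autoImplicit false

noncomputable section

namespace Fermat.Agent.S18.H456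

open ModularCurve AlgebraicCurve HahnSeries Fermat.Agent.S18 Fermat.Agent.S18.Mod
open IsDedekindDomain
open scoped NumberField

variable (A : ValuationSubring Qb) (E : IntermediateField ℚ Qb)

section NF

variable [NumberField E]

/-- `𝓞 E → κ_E`. -/
def toRes : 𝓞 E →+* IsLocalRing.ResidueField (H602.RE A E) :=
  (IsLocalRing.residue (H602.RE A E)).comp (H602.ofInt A E)

omit [NumberField E] in
theorem toRes_eq_zero_iff (a : 𝓞 E) : toRes A E a = 0 ↔ a ∈ H602.primeBelow A E := by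
  unfold toRes
  rw [RingHom.comp_apply, IsLocalRing.residue_eq_zero_iff]
  rfl

theorem toRes_surjective {ℓ : ℕ} (hℓ : ℓ ≠ 0) (hA : (ℓ : Qb) ∈ A.nonunits) :
    Function.Surjective (toRes A E) := by
  intro x
  obtain ⟨r, rfl⟩ := IsLocalRing.residue_surjective x
  have hr : (r : E) ∈ (H602.primeSpec A E hℓ hA).valuationSubringAtPrime E := by
    rw [H602.RE_eq_valuationSubringAtPrime A E hℓ hA]
    exact r.2
  obtain ⟨a, s, hs, hrs⟩ := hr
  -- `s` is invertible modulo the maximal ideal `P`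
  have hPmax : (H602.primeBelow A E).IsMaximal :=
    Ideal.IsPrime.isMaximal inferInstance (H602.primeBelow_ne_bot A E hℓ hA)
  have hs' : s ∉ H602.primeBelow A E := hs
  obtain ⟨t, ht⟩ := Ideal.IsMaximal.exists_inv hPmax hs'
  obtain ⟨u, hu, hstu⟩ := ht
  -- `s * t + u = 1`, hence `φ s * φ t = 1`
  have h1 : toRes A E s * toRes A E t = 1 := by
    have := congrArg (toRes A E) hstu
    rw [map_add, map_mul, (toRes_eq_zero_iff A E u).2 hu, add_zero, map_one] at this
    rwa [mul_comm] at this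
  refine ⟨a * t, ?_⟩
  -- `r * s = a` in `R_E`
  have h2 : r * H602.ofInt A E s = H602.ofInt A E a := by
    apply Subtype.ext
    show (r : E) * algebraMap (𝓞 E) E s = algebraMap (𝓞 E) E a
    rw [hrs]
    have hs0 : algebraMap (𝓞 E) E s ≠ 0 := by
      intro h0
      have : s = 0 := by
        apply FaithfulSMul.algebraMap_injective (𝓞 E) E
        rw [h0, map_zero]
      exact hs' (this ▸ Ideal.zero_mem _)
    rw [mul_assoc, inv_mul_cancel₀ hs0, mul_one]
  have h3 : IsLocalRing.residue (H602.RE A E) r * toRes A E s = toRes A E a := by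
    have := congrArg (IsLocalRing.residue (H602.RE A E)) h2
    rwa [map_mul] at this
  rw [map_mul, ← h3, mul_assoc, h1, mul_one]

theorem finite_residueField {ℓ : ℕ} (hℓ : ℓ ≠ 0) (hA : (ℓ : Qb) ∈ A.nonunits) :
    Finite (IsLocalRing.ResidueField (H602.RE A E)) := by
  have hP : H602.primeBelow A E ≠ ⊥ := H602.primeBelow_ne_bot A E hℓ hA
  have : Finite (𝓞 E ⧸ H602.primeBelow A E) := Ideal.finiteQuotientOfFreeOfNeBot _ hP
  let ψ : 𝓞 E ⧸ H602.primeBelow A E →+* IsLocalRing.ResidueField (H602.RE A E) :=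
    Ideal.Quotient.lift _ (toRes A E) (fun a ha => (toRes_eq_zero_iff A E a).2 ha)
  have hψ : Function.Surjective ψ := by
    intro x
    obtain ⟨a, rfl⟩ := toRes_surjective A E hℓ hA x
    exact ⟨Ideal.Quotient.mk _ a, rfl⟩
  exact Finite.of_surjective ψ hψ

end NF

/-- Frobenius is surjective on the residue field of `R_E` (`E/ℚ` finite). -/
theorem exists_pow_sub_mem_maximalIdeal [FiniteDimensional ℚ E] {ℓ : ℕ} (hℓ : ℓ.Prime)
    (hA : A.LiesOverPrime ℓ) (r : H602.RE A E) :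
    ∃ s : H602.RE A E, r - s ^ ℓ ∈ IsLocalRing.maximalIdeal (H602.RE A E) := by
  have := H602.numberField_of_finiteDimensional E
  have : Finite (IsLocalRing.ResidueField (H602.RE A E)) :=
    finite_residueField A E hℓ.ne_zero hA
  have hℓ0 : ((ℓ : ℕ) : IsLocalRing.ResidueField (H602.RE A E)) = 0 := by
    rw [← map_natCast (IsLocalRing.residue (H602.RE A E)), IsLocalRing.residue_eq_zero_iff,
      IsLocalRing.mem_maximalIdeal, mem_nonunits_iff]
    exact H602.natCast_not_isUnit_RE A E hA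
  have : Fact ℓ.Prime := ⟨hℓ⟩
  have : CharP (IsLocalRing.ResidueField (H602.RE A E)) ℓ :=
    (CharP.charP_iff_prime_eq_zero hℓ).2 hℓ0
  have : PerfectRing (IsLocalRing.ResidueField (H602.RE A E)) ℓ :=
    PerfectRing.ofFiniteOfIsReduced ℓ _
  obtain ⟨y, hy⟩ := surjective_frobenius (IsLocalRing.ResidueField (H602.RE A E)) ℓ
    (IsLocalRing.residue _ r)
  obtain ⟨s, rfl⟩ := IsLocalRing.residue_surjective y
  refine ⟨s, ?_⟩
  rw [← IsLocalRing.residue_eq_zero_iff, map_sub, map_pow, sub_eq_zero]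
  exact hy.symm

variable (M : ℕ)

/-- **`residue_perfect`** for `R = Rc M A E`. -/
theorem field_residue_perfect [FiniteDimensional ℚ E] {ℓ : ℕ} (hℓ : ℓ.Prime)
    (hA : A.LiesOverPrime ℓ) {w : Om M} (hw : IsUnif M A E w) :
    ∃ p : ℕ, p.Prime ∧ (p : Om M) * w⁻¹ ∈ Rc M A E ∧
      ∀ r ∈ Rc M A E, ∃ s ∈ Rc M A E, (r - s ^ p) * w⁻¹ ∈ Rc M A E := by
  have : IsDiscreteValuationRing (H602.RE A E) :=
    H602.isDiscreteValuationRing_RE A E hℓ.ne_zero hA
  refine ⟨ℓ, hℓ, ?_, ?_⟩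
  · rw [← cstR_natCast M A E, hw.mul_inv_mem_iff, IsLocalRing.mem_maximalIdeal, mem_nonunits_iff]
    exact H602.natCast_not_isUnit_RE A E hA
  · intro r hr
    obtain ⟨r₀, rfl⟩ := (mem_Rc_iff_cstR M A E).1 hr
    obtain ⟨s, hs⟩ := exists_pow_sub_mem_maximalIdeal A E hℓ hA r₀
    refine ⟨cstR M A E s, cstR_mem_Rc M A E s, ?_⟩
    rw [← cstR_pow, ← cstR_sub, hw.mul_inv_mem_iff]
    exact hs

end Fermat.Agent.S18.H456

end
end
-- ===== PACK-END S18/H456/ModRes.lean

-- ===== PACK-BEGIN S18/B12/H33/B2Regular.lean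
section












/-!
# S18 b2 (squad S18/S33, assembled by helper33): `b2Regular : B2RegularStatement`, UNCONDITIONAL

This is output O1 of piece b2 of Route K (see `B12/Spec3.lean`): for a finite, torsion-free,
integrally closed `R[X]`-algebra `B` (`R` a DVR-like PID of characteristic 0 with prime `w`) whose
special fibre `B / w B` is a domain and generically separable over `k[X]`, tame at the primes
`X - c` (`c ∈ S`, distinct mod `w`) and unramified (reduced fibre) at all other primes of `R[X]`,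
the ring `B` is regular along `w`:  `H754.RegularAlong (algebraMap R[X] B (C w))`.

Pieces (all sorry-free, standard axioms):
* A0, A2, A2' (regular sequence, local bases, rank)  : helper93  (`B12/H93`; also helper873)
* A3  (discriminant reduction)                        : helper393 (`B12/H393`; also helper203/204)
* A4, A1 (UFD step, polynomial-ring instance)         : helper203 (`B12/H203`; also helper245/693)
* A5  (generic discriminant, tame)                    : helper444 (`B12/H444`, via helper274 P3)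
* A5' (reduction basis)                               : helper203 (`B12/H203`; also helper245/633)
* A8, A9 (integrally closed fibre, Dedekind => regular): helper84 (`B12/H84`, via helper278 P2;
                                                        also helper231/845)
* heart A6' and glue O1                               : helper33  (`B12/H33`)
-/

set_option autoImplicit false

namespace Fermat.Agent.S18.B12.H33

universe u v

/-- **A6' (heart of b2), unconditional.** -/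
theorem b2CoreAbs : B2CoreAbsStatement.{u, v} :=
  b2CoreAbs_of_pieces H93.regSeqAbs H93.localBasis H93.localBasisRank H393.discrRed
    H203.ufdStep H444.genericDiscr H203.redBasisAbs

/-- **O1 = b2, unconditional**: `H754.RegularAlong (C w)` for the chart ring. -/
theorem b2Regular : B2RegularStatement.{u, v} :=
  b2Regular_of_pieces b2CoreAbs H93.regSeqAbs H84.a8 H84.a9 H203.polyInst

end Fermat.Agent.S18.B12.H33

end
-- ===== PACK-END S18/B12/H33/B2Regular.lean

-- ===== PACK-BEGIN Lib/Newform/H863/GoodEigen.lean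
section






/-!
# NEWFORM library, piece E (helper863)

* `finiteDimensional_cuspForm` : `S₂(Γ₀(N))` is finite dimensional (from landed S23).
* `exists_normalizedEigenform_of_eigenvector` : a nonzero common eigenvector of the Hecke
  operators `T_ℓ`, `ℓ ∤ M`, `ℓ ∉ S` at level `M` gives a normalised eigenform of level `M`
  (in the sense of the prelude: eigen for ALL `T_ℓ`, `U_q`) with `a_ℓ = lam ℓ` for those `ℓ`.
* `goodEigensystemOccursAt_of_eigenvector` : the form needed for `IsNewform` arguments.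
-/

set_option autoImplicit false
open CuspForm CongruenceSubgroup ModularFormClass

namespace Fermat.Agent.Lib.Newform.H863

theorem finiteDimensional_cuspForm (N : ℕ) [NeZero N] :
    FiniteDimensional ℂ (CuspForm (Gamma0 N) 2) := by
  obtain ⟨S, hS⟩ := CuspForm.intLattice_fg N 2
  have hint : CuspForm.HasIntegralStructure N 2 := Fermat.Agent.S23.result N
  unfold CuspForm.HasIntegralStructure at hint
  refine ⟨⟨S, top_le_iff.mp ?_⟩⟩
  rw [← hint]
  apply Submodule.span_le.mpr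
  intro f hf
  have hf' : f ∈ Submodule.span ℤ (S : Set (CuspForm (Gamma0 N) 2)) := hS ▸ hf
  exact Submodule.span_le_restrictScalars ℤ ℂ _ hf'

/-- The common eigenspace of the good Hecke operators. -/
def goodEigenspace (M : ℕ) [NeZero M] (S : Set ℕ) (lam : ℕ → ℂ) :
    Submodule ℂ (CuspForm (Gamma0 M) 2) where
  carrier := {h | ∀ (ℓ : ℕ) (hℓ : ℓ.Prime) (hℓM : ¬ ℓ ∣ M), ℓ ∉ S →
    CuspForm.heckeTLin 2 hℓ hℓM h = lam ℓ • h}
  add_mem' := by
    intro a b ha hb ℓ hℓ hℓM hS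
    rw [map_add, ha ℓ hℓ hℓM hS, hb ℓ hℓ hℓM hS, smul_add]
  zero_mem' := by
    intro ℓ hℓ hℓM hS
    simp
  smul_mem' := by
    intro c a ha ℓ hℓ hℓM hS
    rw [map_smul, ha ℓ hℓ hℓM hS, smul_comm]

theorem mem_goodEigenspace {M : ℕ} [NeZero M] {S : Set ℕ} {lam : ℕ → ℂ}
    {h : CuspForm (Gamma0 M) 2} :
    h ∈ goodEigenspace M S lam ↔ ∀ (ℓ : ℕ) (hℓ : ℓ.Prime) (hℓM : ¬ ℓ ∣ M), ℓ ∉ S →
      CuspForm.heckeTLin 2 hℓ hℓM h = lam ℓ • h := Iff.rfl

/-- Every element of the full Hecke algebra preserves the good eigenspace. -/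
theorem heckeAlgebra_mapsTo_goodEigenspace {M : ℕ} [NeZero M] (S : Set ℕ) (lam : ℕ → ℂ)
    (t : heckeAlgebra M 2 (∅ : Set ℕ)) (w : CuspForm (Gamma0 M) 2)
    (hw : w ∈ goodEigenspace M S lam) :
    (t : Module.End ℂ (CuspForm (Gamma0 M) 2)) w ∈ goodEigenspace M S lam := by
  intro ℓ hℓ hℓM hS
  have hcomm : (heckeAlgebra.T hℓ hℓM (Set.notMem_empty _) : heckeAlgebra M 2 (∅ : Set ℕ)) * t
      = t * heckeAlgebra.T hℓ hℓM (Set.notMem_empty _) := mul_comm _ _
  have h1 := congrArg (fun x : heckeAlgebra M 2 (∅ : Set ℕ) =>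
    (x : Module.End ℂ (CuspForm (Gamma0 M) 2)) w) hcomm
  simp only [MulMemClass.coe_mul, heckeAlgebra.coe_T, Module.End.mul_apply] at h1
  rw [h1, hw ℓ hℓ hℓM hS, map_smul]

/-- The action of the full Hecke algebra on the good eigenspace. -/
noncomputable def heckeOnGood (M : ℕ) [NeZero M] (S : Set ℕ) (lam : ℕ → ℂ) :
    heckeAlgebra M 2 (∅ : Set ℕ) →+* Module.End ℂ (goodEigenspace M S lam) where
  toFun t := (t : Module.End ℂ (CuspForm (Gamma0 M) 2)).restrict
    (fun w hw => heckeAlgebra_mapsTo_goodEigenspace S lam t w hw)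
  map_one' := by
    ext w
    simp
  map_mul' a b := by
    ext w
    simp [Module.End.mul_apply]
  map_zero' := by
    ext w
    simp
  map_add' a b := by
    ext w
    simp

theorem heckeOnGood_apply_coe {M : ℕ} [NeZero M] (S : Set ℕ) (lam : ℕ → ℂ)
    (t : heckeAlgebra M 2 (∅ : Set ℕ)) (w : goodEigenspace M S lam) :
    ((heckeOnGood M S lam t w : goodEigenspace M S lam) : CuspForm (Gamma0 M) 2)
      = (t : Module.End ℂ (CuspForm (Gamma0 M) 2)) (w : CuspForm (Gamma0 M) 2) := rfl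

/-- **E-lemma.** A nonzero common eigenvector of the good Hecke operators at level `M`
yields a normalised eigenform of level `M` with the prescribed good eigenvalues. -/
theorem exists_normalizedEigenform_of_eigenvector {M : ℕ} [NeZero M] (S : Set ℕ) (lam : ℕ → ℂ)
    (h : CuspForm (Gamma0 M) 2) (hh : h ≠ 0)
    (heig : ∀ (ℓ : ℕ) (hℓ : ℓ.Prime) (hℓM : ¬ ℓ ∣ M), ℓ ∉ S →
      CuspForm.heckeTLin 2 hℓ hℓM h = lam ℓ • h) :
    ∃ g : CuspForm (Gamma0 M) 2, g.IsNormalizedEigenform ∧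
      ∀ ℓ : ℕ, ℓ.Prime → ¬ ℓ ∣ M → ℓ ∉ S → qCoeff g ℓ = lam ℓ := by
  classical
  have := finiteDimensional_cuspForm M
  set W := goodEigenspace M S lam with hW
  have hhW : h ∈ W := heig
  have : Nontrivial W := ⟨⟨⟨h, hhW⟩, 0, fun h0 => hh (congrArg Subtype.val h0)⟩⟩
  set ρ := heckeOnGood M S lam with hρ
  -- a maximal ideal containing the kernel
  have hker : RingHom.ker ρ ≠ ⊤ := by
    intro htop
    have h1 : (1 : heckeAlgebra M 2 (∅ : Set ℕ)) ∈ RingHom.ker ρ := htop ▸ Submodule.mem_top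
    rw [RingHom.mem_ker, map_one] at h1
    have h2 := congrArg (fun e : Module.End ℂ W => e ⟨h, hhW⟩) h1
    simp only [Module.End.one_apply, LinearMap.zero_apply] at h2
    exact hh (congrArg Subtype.val h2)
  obtain ⟨𝔫, h𝔫max, h𝔫le⟩ := Ideal.exists_le_maximal _ hker
  have : 𝔫.IsPrime := h𝔫max.isPrime
  obtain ⟨g, χ, hg0, hgχ, -⟩ := Fermat.Agent.S49.exists_eigenvector_ker_le' ρ 𝔫 h𝔫le
  have hg0' : (g : CuspForm (Gamma0 M) 2) ≠ 0 := fun h0 => hg0 (Subtype.ext h0)
  have hgχ' : ∀ t : heckeAlgebra M 2 (∅ : Set ℕ),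
      (t : Module.End ℂ (CuspForm (Gamma0 M) 2)) (g : CuspForm (Gamma0 M) 2)
        = χ t • (g : CuspForm (Gamma0 M) 2) := by
    intro t
    have := congrArg Subtype.val (hgχ t)
    simpa [hρ, heckeOnGood_apply_coe] using this
  obtain ⟨f, hf, hfχ⟩ := Fermat.Agent.S49.exists_normalized_eigenform
    (g : CuspForm (Gamma0 M) 2) hg0' χ hgχ'
  refine ⟨f, hf, fun ℓ hℓ hℓM hℓS => ?_⟩
  rw [hfχ ℓ hℓ hℓM]
  have h1 := hgχ' (heckeAlgebra.T hℓ hℓM (Set.notMem_empty _))
  rw [heckeAlgebra.coe_T, g.2 ℓ hℓ hℓM hℓS] at h1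
  have h2 : (lam ℓ - χ (heckeAlgebra.T hℓ hℓM (Set.notMem_empty _))) •
      (g : CuspForm (Gamma0 M) 2) = 0 := by
    rw [sub_smul, h1, sub_self]
  rcases smul_eq_zero.mp h2 with h3 | h3
  · exact (sub_eq_zero.mp h3).symm
  · exact absurd h3 hg0'

/-- **E-lemma, newform shape.** If the good eigensystem of `f` (level `N`) is realised by a
nonzero common eigenvector at level `M ∣ N`, then it occurs at `M` in the sense of the prelude. -/
theorem goodEigensystemOccursAt_of_eigenvector {N M : ℕ} [NeZero M] (hMN : M ∣ N)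
    (f : CuspForm (Gamma0 N) 2) (h : CuspForm (Gamma0 M) 2) (hh : h ≠ 0)
    (heig : ∀ (ℓ : ℕ) (hℓ : ℓ.Prime) (hℓN : ¬ ℓ ∣ N),
      CuspForm.heckeTLin 2 hℓ (fun hd => hℓN (hd.trans hMN)) h = qCoeff f ℓ • h) :
    CuspForm.GoodEigensystemOccursAt f M := by
  obtain ⟨g, hg, hgl⟩ := exists_normalizedEigenform_of_eigenvector
    (S := {ℓ | ℓ ∣ N}) (fun ℓ => qCoeff f ℓ) h hh
    (fun ℓ hℓ hℓM hℓS => heig ℓ hℓ hℓS)
  exact ⟨g, hg, fun ℓ hℓ hℓN => hgl ℓ hℓ (fun hd => hℓN (hd.trans hMN)) hℓN⟩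

end Fermat.Agent.Lib.Newform.H863

end
-- ===== PACK-END Lib/Newform/H863/GoodEigen.lean

-- ===== PACK-BEGIN S37/H940/Line.lean
section







/-!
# S37 / RIM (helper940): function fields over a coordinate line, characteristic free

`F / K` a function field (Prelude `Place K F`), `K` algebraically closed, `t ∈ F` transcendental
with `F` finite over `K(t)`.  Characteristic-free facts used to build the fibres of the place
reduction map over the `t`-line:

* `Line.exists_value`      : regular functions have values in `K`;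
* `Line.finite_ord_ne_zero`: zeros and poles are finite in number;
* `Line.inMax_aeval_sub`   : `p(t)` has the value `p(c)` where `t` has the value `c`;
* `Line.mem_integralClosure_of_regular` : a function regular wherever `t` is regular is
  integral over `K[t]`;
* `Line.exists_clear`      : pole clearing by a polynomial in `t` not vanishing at `c`;
* `Line.exists_localParam`, `Line.exists_separating` : elements of the integral closure of `K[t]`
  which are local parameters at a given point of the fibre `t = c` (units at the others), resp.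
  which separate the points of the fibre `t = c`.
-/

set_option autoImplicit false

noncomputable section

namespace Fermat.Agent.S37.H940.Line

open AlgebraicCurve IntermediateField Polynomial
open Fermat.Agent.S37.H940

variable {K F : Type*} [Field K] [Field F] [Algebra K F]

/-- regularity in terms of membership -/
theorem regular_iff_mem (P : Place K F) (f : F) : 0 ≤ P.ord f ↔ f ∈ P.toValuationSubring :=
  (Fermat.Agent.S24.FF.mem_iff_ord_nonneg P).symm

theorem regular_mul (P : Place K F) {f g : F} (hf : 0 ≤ P.ord f) (hg : 0 ≤ P.ord g) :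
    0 ≤ P.ord (f * g) := by
  rw [regular_iff_mem] at *
  exact mul_mem hf hg

theorem regular_pow (P : Place K F) {f : F} (hf : 0 ≤ P.ord f) (n : ℕ) : 0 ≤ P.ord (f ^ n) := by
  rw [regular_iff_mem] at *
  exact pow_mem hf n

theorem regular_sub_const (P : Place K F) {f : F} (hf : 0 ≤ P.ord f) (c : K) :
    0 ≤ P.ord (f - algebraMap K F c) := by
  rw [regular_iff_mem] at *
  exact sub_mem hf (P.algebraMap_mem' c)

theorem regular_aeval (P : Place K F) {t : F} (ht : 0 ≤ P.ord t) (p : K[X]) :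
    0 ≤ P.ord (aeval t p) :=
  (regular_iff_mem P _).mpr (Fermat.Agent.Lib.RR.aeval_mem P ht p)

/-- `p(t)` has the value `p(c)` at a place where `t` has the value `c` -/
theorem inMax_aeval_sub (P : Place K F) {t : F} {c : K} (h : InMax P (t - algebraMap K F c))
    (p : K[X]) : InMax P (aeval t p - algebraMap K F (p.eval c)) := by
  have hreg : 0 ≤ P.ord t := ord_nonneg_of_inMax_sub h
  obtain ⟨q, hq⟩ : (X - C c) ∣ p - C (p.eval c) := by
    rw [Polynomial.dvd_iff_isRoot]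
    simp
  have e : aeval t p - algebraMap K F (p.eval c) = (t - algebraMap K F c) * aeval t q := by
    have := congrArg (aeval t) hq
    simpa using this
  rw [e]
  exact h.mul_of_ord_nonneg (regular_aeval P hreg q)

section AlgClosed

variable [IsAlgClosed K] {t : F} (ht : Transcendental K t) [FiniteDimensional K⟮t⟯ F]

include ht

/-- regular functions have values in `K` -/
theorem exists_value (P : Place K F) {f : F} (hf : 0 ≤ P.ord f) :
    ∃ c : K, InMax P (f - algebraMap K F c) := by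
  obtain ⟨a, ha⟩ := Fermat.Agent.S24.FF.exists_const_sub_mem_nonunits P ht
    ((regular_iff_mem P f).mp hf)
  exact ⟨a, inMax_iff_mem_nonunits.mpr ha⟩

theorem deg_eq_one (P : Place K F) : P.deg = 1 := Fermat.Agent.S24.FF.deg_eq_one P ht

theorem hyp : Fermat.Agent.Lib.RR.H443.Hyp K F := Fermat.Agent.Lib.RR.H443.hyp_of_isAlgClosed ht

theorem zerosBound : Fermat.Agent.Lib.RR.H443.ZerosBound K F :=
  Fermat.Agent.Lib.RR.H443.zerosBound (hyp ht).deg_eq_one

/-- zeros and poles are finite in number -/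
theorem finite_ord_ne_zero (u : F) : {P : Place K F | P.ord u ≠ 0}.Finite := by
  refine ((Fermat.Agent.Lib.RR.H443.finite_zeros (hyp ht) (zerosBound ht) u).union
    (Fermat.Agent.Lib.RR.H443.finite_poles (hyp ht) (zerosBound ht) u)).subset fun P hP => ?_
  have hP' : P.ord u ≠ 0 := hP
  rcases lt_or_gt_of_ne hP' with h | h
  · exact Or.inr h
  · exact Or.inl h

omit [IsAlgClosed K] [FiniteDimensional K⟮t⟯ F] in
theorem sub_const_ne_zero (c : K) : t - algebraMap K F c ≠ 0 := by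
  intro h
  apply ht
  rw [sub_eq_zero] at h
  rw [h]
  exact isAlgebraic_algebraMap c

/-- the fibre `t = c` is finite -/
theorem finite_fibre (c : K) : {P : Place K F | InMax P (t - algebraMap K F c)}.Finite := by
  refine (finite_ord_ne_zero ht (t - algebraMap K F c)).subset fun P hP => ?_
  have := InMax.ord_pos hP (sub_const_ne_zero ht c)
  exact ne_of_gt this

/-- the fibre `t = c` is not empty -/
theorem exists_mem_fibre (c : K) : ∃ P : Place K F, InMax P (t - algebraMap K F c) := by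
  have htr : Transcendental K (t - algebraMap K F c) := by
    intro h
    apply ht
    have := h.add (isAlgebraic_algebraMap (R := K) (A := F) c)
    rwa [sub_add_cancel] at this
  obtain ⟨P, hP⟩ := Fermat.Agent.Lib.RR.H443.exists_place_ord_pos (hyp ht).finite htr
  exact ⟨P, inMax_of_ord_pos hP⟩

/-- **Regular functions are integral.**  A function which is regular at every place where `t`
is regular is integral over `K[t]`. -/
theorem mem_integralClosure_of_regular (f : F)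
    (h : ∀ P : Place K F, 0 ≤ P.ord t → 0 ≤ P.ord f) :
    f ∈ integralClosure (Algebra.adjoin K {t}) F := by
  set s : Set F := Set.range (algebraMap K F) ∪ {t} with hs
  have hmem : f ∈ (integralClosure (Subring.closure s) F).toSubring := by
    rw [← iInf_valuationSubring_superset]
    rw [Subring.mem_iInf]
    rintro ⟨V, hV⟩
    by_cases htop : V = ⊤
    · show f ∈ V
      rw [htop]
      exact ValuationSubring.mem_top f
    · have hK : ∀ a : K, algebraMap K F a ∈ V := fun a => hV (Or.inl ⟨a, rfl⟩)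
      have htV : t ∈ V := hV (Or.inr rfl)
      let P : Place K F :=
        Fermat.Agent.Lib.RR.H443.placeOfValuationSubring V hK htop (hyp ht).finite
      have h1 : 0 ≤ P.ord t := (regular_iff_mem P t).mpr htV
      exact (regular_iff_mem P f).mp (h P h1)
  have hint : IsIntegral (Subring.closure s) f := hmem
  obtain ⟨p, hp, hpf⟩ := hint
  have hle : Subring.closure s ≤ (Algebra.adjoin K {t}).toSubring := by
    rw [Subring.closure_le]
    rintro y (⟨a, rfl⟩ | rfl)
    · exact (Algebra.adjoin K {t}).algebraMap_mem a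
    · exact Algebra.self_mem_adjoin_singleton K _
  let ι : Subring.closure s →+* Algebra.adjoin K {t} := Subring.inclusion hle
  refine ⟨p.map ι, hp.map ι, ?_⟩
  rw [Polynomial.eval₂_map]
  exact hpf

/-- **Pole clearing**: a function regular on the fibre `t = c` becomes regular wherever `t` is
regular after multiplication by a polynomial in `t` which does not vanish at `c`. -/
theorem exists_clear (c : K) (f : F)
    (hreg : ∀ P : Place K F, InMax P (t - algebraMap K F c) → 0 ≤ P.ord f) :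
    ∃ p : K[X], p.eval c ≠ 0 ∧ ∀ P : Place K F, 0 ≤ P.ord t → 0 ≤ P.ord (f * aeval t p) := by
  classical
  -- induction on a finite set containing the finite poles
  have key : ∀ (S : Finset (Place K F)) (f : F),
      (∀ P : Place K F, 0 ≤ P.ord t → P.ord f < 0 → P ∈ S) →
      (∀ P ∈ S, ¬ InMax P (t - algebraMap K F c)) → (∀ P ∈ S, 0 ≤ P.ord t) →
      ∃ p : K[X], p.eval c ≠ 0 ∧ ∀ P : Place K F, 0 ≤ P.ord t → 0 ≤ P.ord (f * aeval t p) := by
    intro S
    induction S using Finset.induction_on with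
    | empty =>
      intro f h1 _ _
      refine ⟨1, by simp, fun P hP => ?_⟩
      rw [map_one, mul_one]
      by_contra hneg
      exact absurd (h1 P hP (not_le.mp hneg)) (Finset.notMem_empty P)
    | insert P₀ S' hP₀ ih =>
      intro f h1 h2 h3
      have hP₀t : 0 ≤ P₀.ord t := h3 P₀ (Finset.mem_insert_self _ _)
      obtain ⟨c₀, hc₀⟩ := exists_value ht P₀ hP₀t
      have hne : c₀ ≠ c := by
        rintro rfl
        exact h2 P₀ (Finset.mem_insert_self _ _) hc₀
      set m : ℕ := (-(P₀.ord f)).toNat with hm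
      set g : F := t - algebraMap K F c₀ with hg
      have hg0 : g ≠ 0 := sub_const_ne_zero ht c₀
      have hgreg : ∀ P : Place K F, 0 ≤ P.ord t → 0 ≤ P.ord (g ^ m) := fun P hP =>
        regular_pow P (regular_sub_const P hP c₀) m
      have hpoles : ∀ P : Place K F, 0 ≤ P.ord t → P.ord (f * g ^ m) < 0 → P ∈ S' := by
        intro P hP hneg
        rcases eq_or_ne f 0 with rfl | hf0
        · rw [zero_mul, P.ord_zero] at hneg
          exact absurd hneg (lt_irrefl _)
        have hgm0 : g ^ m ≠ 0 := pow_ne_zero _ hg0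
        have hord : P.ord (f * g ^ m) = P.ord f + P.ord (g ^ m) := P.ord_mul hf0 hgm0
        have hfneg : P.ord f < 0 := by
          have := hgreg P hP
          omega
        have hmem := h1 P hP hfneg
        rcases Finset.mem_insert.mp hmem with rfl | hS
        · exfalso
          have h4 : (m : ℤ) ≤ P.ord (g ^ m) := by
            have h5 : P.ord (g ^ m) = m * P.ord g := by
              have := P.ord_zpow g (m : ℤ)
              rwa [zpow_natCast] at this
            have h6 : 0 < P.ord g := InMax.ord_pos hc₀ hg0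
            rw [h5]
            nlinarith
          have h7 : -(P.ord f) ≤ (m : ℤ) := by
            rw [hm]
            exact Int.self_le_toNat _
          omega
        · exact hS
      obtain ⟨p', hp', hp'reg⟩ := ih (f * g ^ m) hpoles
        (fun P hP => h2 P (Finset.mem_insert_of_mem hP))
        (fun P hP => h3 P (Finset.mem_insert_of_mem hP))
      refine ⟨(X - C c₀) ^ m * p', ?_, fun P hP => ?_⟩
      · rw [eval_mul, eval_pow, eval_sub, eval_X, eval_C]
        exact mul_ne_zero (pow_ne_zero _ (sub_ne_zero.mpr hne.symm)) hp'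
      · have e : f * aeval t ((X - C c₀) ^ m * p') = f * g ^ m * aeval t p' := by
          rw [map_mul, map_pow, map_sub, aeval_X, aeval_C, mul_assoc]
        rw [e]
        exact hp'reg P hP
  have hfin : {P : Place K F | P.ord f < 0}.Finite :=
    Fermat.Agent.Lib.RR.H443.finite_poles (hyp ht) (zerosBound ht) f
  have hfin' : {P : Place K F | P.ord f < 0 ∧ 0 ≤ P.ord t}.Finite :=
    hfin.subset fun P hP => hP.1
  refine key hfin'.toFinset f (fun P hP hneg => ?_) (fun P hP hin => ?_) (fun P hP => ?_)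
  · rw [Set.Finite.mem_toFinset]
    exact ⟨hneg, hP⟩
  · rw [Set.Finite.mem_toFinset] at hP
    have := hreg P hin
    have := hP.1
    omega
  · rw [Set.Finite.mem_toFinset] at hP
    exact hP.2

omit [FiniteDimensional K⟮t⟯ F] [IsAlgClosed K] in
/-- a polynomial in `t` not vanishing at `c` is a unit on the fibre `t = c` -/
theorem aeval_unit_on_fibre {c : K} {p : K[X]} (hp : p.eval c ≠ 0) {P : Place K F}
    (hP : InMax P (t - algebraMap K F c)) : aeval t p ≠ 0 ∧ P.ord (aeval t p) = 0 := by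
  have _ := ht
  have h1 := inMax_aeval_sub P hP p
  refine ⟨?_, ord_eq_zero_of_inMax_sub h1 hp⟩
  intro h0
  rw [h0, zero_sub] at h1
  have h2 := h1.neg
  rw [neg_neg, inMax_algebraMap_iff] at h2
  exact hp h2

/-- **Local parameters.**  Every point of the fibre `t = c` has a local parameter which is
integral over `K[t]` and a unit at the other points of the fibre. -/
theorem exists_localParam (c : K) (P₀ : Place K F) (_hP₀ : InMax P₀ (t - algebraMap K F c)) :
    ∃ τ ∈ integralClosure (Algebra.adjoin K {t}) F, P₀.ord τ = 1 ∧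
      ∀ P : Place K F, InMax P (t - algebraMap K F c) → P ≠ P₀ → P.ord τ = 0 := by
  classical
  set S : Finset (Place K F) := (finite_fibre ht c).toFinset with hS
  have hmemS : ∀ P : Place K F, P ∈ S ↔ InMax P (t - algebraMap K F c) := fun P => by
    rw [hS, Set.Finite.mem_toFinset]; rfl
  obtain ⟨z, hz⟩ := Fermat.Agent.Lib.RR.H623.weak_approximation (insert P₀ S) (fun _ => (0 : F))
    (fun P => if P = P₀ then 1 else 0)
  have hz0 : z ≠ 0 := by
    have := (hz P₀ (Finset.mem_insert_self _ _)).1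
    rwa [sub_zero] at this
  have hzord : ∀ P ∈ insert P₀ S, P.ord z = if P = P₀ then 1 else 0 := fun P hP => by
    have := (hz P hP).2
    rwa [sub_zero] at this
  have hreg : ∀ P : Place K F, InMax P (t - algebraMap K F c) → 0 ≤ P.ord z := by
    intro P hP
    rw [hzord P (Finset.mem_insert_of_mem ((hmemS P).mpr hP))]
    split_ifs <;> norm_num
  obtain ⟨p, hp, hpreg⟩ := exists_clear ht c z hreg
  refine ⟨z * aeval t p, mem_integralClosure_of_regular ht _ hpreg, ?_, fun P hP hne => ?_⟩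
  · obtain ⟨h1, h2⟩ := aeval_unit_on_fibre ht hp _hP₀
    rw [P₀.ord_mul hz0 h1, h2, hzord P₀ (Finset.mem_insert_self _ _), if_pos rfl, add_zero]
  · obtain ⟨h1, h2⟩ := aeval_unit_on_fibre ht hp hP
    rw [P.ord_mul hz0 h1, h2, hzord P (Finset.mem_insert_of_mem ((hmemS P).mpr hP)), if_neg hne,
      add_zero]

/-- **Separating functions.**  Some function integral over `K[t]` takes pairwise different
values at the points of the fibre `t = c`. -/
theorem exists_separating (c : K) :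
    ∃ σ ∈ integralClosure (Algebra.adjoin K {t}) F,
      ∀ P P' : Place K F, InMax P (t - algebraMap K F c) → InMax P' (t - algebraMap K F c) →
        ∀ a : K, InMax P (σ - algebraMap K F a) → InMax P' (σ - algebraMap K F a) → P = P' := by
  classical
  set S : Finset (Place K F) := (finite_fibre ht c).toFinset with hS
  have hmemS : ∀ P : Place K F, P ∈ S ↔ InMax P (t - algebraMap K F c) := fun P => by
    rw [hS, Set.Finite.mem_toFinset]; rfl
  have : Infinite K := IsAlgClosed.instInfinite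
  -- distinct target values
  let a : Place K F → K := fun P =>
    if h : P ∈ S then Infinite.natEmbedding K (S.equivFin ⟨P, h⟩ : ℕ) else 0
  have ha_inj : ∀ P ∈ S, ∀ P' ∈ S, a P = a P' → P = P' := by
    intro P hP P' hP' h
    simp only [a, dif_pos hP, dif_pos hP'] at h
    have h1 := (Infinite.natEmbedding K).injective h
    have h2 := Fin.val_injective h1
    have h3 := S.equivFin.injective h2
    exact congrArg Subtype.val h3
  obtain ⟨z, hz⟩ := Fermat.Agent.Lib.RR.H623.weak_approximation_ge S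
    (fun P => algebraMap K F (a P)) (fun _ => 1)
  have hzval : ∀ P : Place K F, InMax P (t - algebraMap K F c) →
      InMax P (z - algebraMap K F (a P)) := by
    intro P hP
    rcases hz P ((hmemS P).mpr hP) with h | h
    · exact Or.inl h
    · exact Or.inr (by omega)
  have hreg : ∀ P : Place K F, InMax P (t - algebraMap K F c) → 0 ≤ P.ord z :=
    fun P hP => ord_nonneg_of_inMax_sub (hzval P hP)
  obtain ⟨p, hp, hpreg⟩ := exists_clear ht c z hreg
  have hval : ∀ P : Place K F, InMax P (t - algebraMap K F c) →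
      InMax P (z * aeval t p - algebraMap K F (a P * p.eval c)) := by
    intro P hP
    have h1 := hzval P hP
    have h2 := inMax_aeval_sub P hP p
    have hregp : 0 ≤ P.ord (aeval t p) := regular_aeval P (ord_nonneg_of_inMax_sub hP) p
    have e : z * aeval t p - algebraMap K F (a P * p.eval c)
        = (z - algebraMap K F (a P)) * aeval t p
          + algebraMap K F (a P) * (aeval t p - algebraMap K F (p.eval c)) := by
      rw [map_mul]; ring
    rw [e]
    exact (h1.mul_of_ord_nonneg hregp).add (h2.const_mul (a P))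
  refine ⟨z * aeval t p, mem_integralClosure_of_regular ht _ hpreg, ?_⟩
  intro P P' hP hP' b hb hb'
  have e1 := value_unique (hval P hP) hb
  have e2 := value_unique (hval P' hP') hb'
  have e3 : a P = a P' := by
    have : a P * p.eval c = a P' * p.eval c := by rw [e1, e2]
    exact mul_right_cancel₀ hp this
  exact ha_inj P ((hmemS P).mpr hP) P' ((hmemS P').mpr hP') e3

end AlgClosed

end Fermat.Agent.S37.H940.Line

end
end
-- ===== PACK-END S37/H940/Line.lean

-- ===== PACK-BEGIN Lib/FF398/Global.lean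
section




/-!
# Lib/FF398 — global consequences for function fields over an algebraically closed field

* `hasPrincipalDivisors` : a function field of one variable over an algebraically closed field
  of characteristic zero has principal divisors (finite support, degree zero)
  [repackaging of helper804's `S24.FF.degree_principal`];
* `sumRamificationInertia`, `fundamentalIdentity` : `∑_{w | v} e(w|v) f(w|v) = [F' : F]`;
* `pushforwardNormFormula` : `N_* div(g) = div(N g)`.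
(helper398)
-/

set_option autoImplicit false
set_option linter.unusedSectionVars false

open AlgebraicCurve IsDedekindDomain IntermediateField

namespace Fermat.Agent.Lib.FF398

section HPD

variable {K F : Type*} [Field K] [Field F] [Algebra K F] [IsAlgClosed K] [CharZero K]

/-- A function field of one variable over an algebraically closed field of characteristic zero
has principal divisors. -/
theorem hasPrincipalDivisors (j : F) (hj : Transcendental K j) [FiniteDimensional K⟮j⟯ F] :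
    HasPrincipalDivisors K F where
  exists_divisor f hf := by
    by_cases hfr : f ∈ (algebraMap K F).range
    · obtain ⟨a, rfl⟩ := hfr
      refine ⟨0, fun v => ?_, map_zero _⟩
      rw [Fermat.Agent.S24.FF.ord_algebraMap]
      rfl
    · have hft : Transcendental K f := Fermat.Agent.S24.FF.transcendental_of_not_mem_range hfr
      have hfin : FiniteDimensional K⟮f⟯ F :=
        Fermat.Agent.S24.FF.finiteDimensional_adjoin_of_transcendental hj hft
      have hfinite : {v : Place K F | v.ord f ≠ 0}.Finite :=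
        Fermat.Agent.S24.FF.finite_setOf_ord_ne_zero hft
      let D : Divisor K F := Finsupp.ofSupportFinite (fun v => v.ord f) hfinite
      have hD : ∀ v : Place K F, D v = v.ord f := fun v => rfl
      exact ⟨D, hD, Fermat.Agent.S24.FF.degree_principal j hj f D hD⟩

end HPD

section Relative

variable {K F F' : Type*} [Field K] [Field F] [Field F'] [Algebra K F] [Algebra K F']
  [Algebra F F'] [IsScalarTower K F F'] [FiniteDimensional F F'] [CharZero F]
  [HasPrincipalDivisors K F']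

/-- **Fundamental identity** `∑_{w | v} e(w|v) f(w|v) = [F' : F]` when all places of `F'` have
degree one. -/
theorem sumRamificationInertia (hdeg' : ∀ w : Place K F', w.deg = 1) :
    SumRamificationInertia K F F' where
  sum_ramificationIndex_mul_inertiaDeg v := by
    rw [← sum_ramificationIndex v hdeg' (v.fiber F') (fun w => Place.mem_fiber)]
    refine Finset.sum_congr rfl fun w _ => ?_
    rw [inertiaDeg_eq_one hdeg' w]
    simp

theorem fundamentalIdentity (hdeg' : ∀ w : Place K F', w.deg = 1) :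
    FundamentalIdentity K F F' :=
  haveI := sumRamificationInertia (F := F) hdeg'
  inferInstance

/-- **Norm formula** `N_* div(g) = div(N_{F'/F} g)` when all places of `F'` have degree one. -/
theorem pushforwardNormFormula (hdeg' : ∀ w : Place K F', w.deg = 1) :
    Divisor.PushforwardNormFormula K F F' := by
  classical
  intro g hg D hD v
  rw [Divisor.pushforward_apply, ← sum_ord_eq_ord_norm v hdeg' (v.fiber F')
    (fun w => Place.mem_fiber) g hg]
  rw [← Finset.sum_filter]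
  refine Finset.sum_subset_zero_on_sdiff ?_ ?_ ?_
  · intro w hw
    rw [Finset.mem_filter] at hw
    exact Place.mem_fiber.mpr hw.2
  · intro w hw
    rw [Finset.mem_sdiff, Finset.mem_filter, Place.mem_fiber] at hw
    have hnot : w ∉ D.support := fun h => hw.2 ⟨h, hw.1⟩
    rw [Finsupp.notMem_support_iff, hD] at hnot
    exact hnot
  · intro w hw
    rw [hD, inertiaDeg_eq_one hdeg' w]
    simp

end Relative

end Fermat.Agent.Lib.FF398

end
-- ===== PACK-END Lib/FF398/Global.lean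

-- ===== PACK-BEGIN A2/H609/MinPrimes.lean
section


/-!
# Node purity, part 10: (H1) at the minimal primes of `(u)` only

The theorems `exists_unit_mul_pow_of_relLen`, `exists_unit_mul_pow_of_smooth`,
`exists_unit_mul_pow_of_node` with the hypothesis (H1) required only at the minimal primes `𝔓`
of `(u)` with `π ∉ 𝔓` (these are the primes at which `R_𝔓` is a discrete valuation ring, so that
(H1) follows from `m ∣ ord_𝔓 u`).  Mathlib only.
-/

set_option autoImplicit false

namespace Fermat.Agent.A2.H609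

open Ideal

variable {R : Type*} [CommRing R] [IsDomain R] [IsIntegrallyClosed R] [IsNoetherianRing R]
  [IsLocalRing R]

omit [IsIntegrallyClosed R] in
/-- If `𝔪` is the only prime containing `u` and `π`, every prime `𝔓 ∋ u` with `π ∉ 𝔓` is a
minimal prime of `(u)`. -/
theorem mem_minimalPrimes_of_mem_of_notMem {u π : R} (hu0 : u ≠ 0)
    (hπ : π ∈ IsLocalRing.maximalIdeal R)
    (huπ : ∀ 𝔮 : Ideal R, 𝔮.IsPrime → u ∈ 𝔮 → π ∈ 𝔮 → 𝔮 = IsLocalRing.maximalIdeal R)
    {𝔓 : Ideal R} (h𝔓 : 𝔓.IsPrime) (hu : u ∈ 𝔓) (hπ𝔓 : π ∉ 𝔓) :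
    𝔓 ∈ (Ideal.span {u}).minimalPrimes := by
  have hle : Ideal.span {u} ≤ 𝔓 := by
    rw [Ideal.span_le, Set.singleton_subset_iff]
    exact hu
  obtain ⟨𝔓₀, h𝔓₀min, h𝔓₀le⟩ := Ideal.exists_minimalPrimes_le hle
  have h𝔓₀ : 𝔓₀.IsPrime := h𝔓₀min.1.1
  have hu₀ : u ∈ 𝔓₀ := h𝔓₀min.1.2 (Ideal.mem_span_singleton_self u)
  by_cases hne : 𝔓₀ = 𝔓
  · rw [← hne]
    exact h𝔓₀min
  · exact (not_lt_of_mem_of_not_mem hu0 hπ huπ hu₀ hπ𝔓 (lt_of_le_of_ne h𝔓₀le hne)).elim

/-- The abstract purity criterion, (H1) at the minimal primes of `(u)`. -/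
theorem exists_unit_mul_pow_of_relLen_min {u π : R} {m : ℕ} (hm : m ≠ 0) (hu0 : u ≠ 0)
    (hπ0 : π ≠ 0) (hπ : π ∈ IsLocalRing.maximalIdeal R)
    (hreg : ∀ x : R, π ∣ u * x → π ∣ x)
    (huπ : ∀ 𝔮 : Ideal R, 𝔮.IsPrime → u ∈ 𝔮 → π ∈ 𝔮 → 𝔮 = IsLocalRing.maximalIdeal R)
    (H1 : ∀ 𝔓 ∈ (Ideal.span {u}).minimalPrimes, π ∉ 𝔓 → ∃ f r : R, r ∉ 𝔓 ∧ f ^ m = u * r)
    (J' : Ideal R) (hπJ : π ∈ J')
    (hJ' : ∀ f r : R, f ^ m = u * r → r ∈ IsLocalRing.maximalIdeal R → f ∈ J')
    (B : ℕ) (hB : (B : ℕ∞) ≤ relLen J' (⊤ : Ideal R))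
    (hlt : relLen (Ideal.span {u, π}) (⊤ : Ideal R) < (m : ℕ∞) * B) :
    ∃ (f : R) (ε : Rˣ), u = ε * f ^ m :=
  exists_unit_mul_pow_of_relLen hm hu0 hπ0 hπ hreg huπ
    (fun 𝔓 h𝔓 hu𝔓 hπ𝔓 =>
      H1 𝔓 (mem_minimalPrimes_of_mem_of_notMem hu0 hπ huπ h𝔓 hu𝔓 hπ𝔓) hπ𝔓)
    J' hπJ hJ' B hB hlt

/-- **Purity at a smooth point of the special fibre**, (H1) at the minimal primes of `(u)`. -/
theorem exists_unit_mul_pow_of_smooth_min {u π : R} {m : ℕ} (hm : m ≠ 0) (hπ0 : π ≠ 0)
    (𝔭 : Ideal R) [𝔭.IsPrime] [IsDiscreteValuationRing (R ⧸ 𝔭)] (h𝔭 : 𝔭 = Ideal.span {π})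
    (hu : u ∉ 𝔭)
    (H1 : ∀ 𝔓 ∈ (Ideal.span {u}).minimalPrimes, π ∉ 𝔓 → ∃ f r : R, r ∉ 𝔓 ∧ f ^ m = u * r)
    (H2 : ∃ v : R ⧸ 𝔭, Associated (v ^ m) (Ideal.Quotient.mk 𝔭 u)) :
    ∃ (f : R) (ε : Rˣ), u = ε * f ^ m := by
  have hπ𝔭 : π ∈ 𝔭 := by
    rw [h𝔭]
    exact Ideal.mem_span_singleton_self π
  have h𝔭𝔪 : 𝔭 ≤ IsLocalRing.maximalIdeal R :=
    IsLocalRing.le_maximalIdeal (Ideal.IsPrime.ne_top inferInstance)
  have hu0 : u ≠ 0 := by
    rintro rfl
    exact hu 𝔭.zero_mem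
  obtain ⟨ϖ, hϖ⟩ := IsDiscreteValuationRing.exists_irreducible (R ⧸ 𝔭)
  obtain ⟨x, rfl⟩ := Ideal.Quotient.mk_surjective ϖ
  obtain ⟨a, ε, hε⟩ := exists_mk_eq_unit_mul_pow 𝔭 hϖ hm hu H2
  have h𝔪 := maximalIdeal_le_span_sup 𝔭 hϖ
  have hreg : ∀ z : R, π ∣ u * z → π ∣ z := by
    intro z hz
    have h1 : u * z ∈ 𝔭 := by
      rw [h𝔭]
      exact Ideal.mem_span_singleton.mpr hz
    rcases Ideal.IsPrime.mem_or_mem inferInstance h1 with h | h
    · exact absurd h hu
    · rw [h𝔭] at h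
      exact Ideal.mem_span_singleton.mp h
  have huπ : ∀ 𝔮 : Ideal R, 𝔮.IsPrime → u ∈ 𝔮 → π ∈ 𝔮 →
      𝔮 = IsLocalRing.maximalIdeal R := by
    intro 𝔮 h𝔮 hu𝔮 hπ𝔮
    have hle : 𝔭 ≤ 𝔮 := by
      rw [h𝔭, Ideal.span_singleton_le_iff_mem]
      exact hπ𝔮
    have hx𝔮 : x ∈ 𝔮 := mem_of_le_of_mk_eq 𝔭 hε h𝔮 hle hu𝔮
    refine le_antisymm (IsLocalRing.le_maximalIdeal h𝔮.ne_top) (h𝔪.trans ?_)
    exact sup_le ((Ideal.span_singleton_le_iff_mem _).mpr hx𝔮) hle
  refine exists_unit_mul_pow_of_relLen_min hm hu0 hπ0 (h𝔭𝔪 hπ𝔭) hreg huπ H1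
    (Ideal.span {x ^ (a + 1)} ⊔ 𝔭) (Ideal.mem_sup_right hπ𝔭) ?_ (a + 1) ?_ ?_
  · intro f r hf hr
    obtain ⟨g, hg⟩ := exists_sub_pow_succ_mul_mem 𝔭 hϖ hε hf hr
    have h : f = x ^ (a + 1) * g + (f - x ^ (a + 1) * g) := by ring
    rw [h]
    exact Ideal.add_mem _
      (Ideal.mem_sup_left (Ideal.mem_span_singleton.mpr (Dvd.intro g rfl)))
      (Ideal.mem_sup_right hg)
  · rw [relLen_branch_pow 𝔭 hϖ (a + 1)]
  · have hle : Ideal.span {x ^ (m * a)} ⊔ 𝔭 ≤ Ideal.span {u, π} := by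
      refine sup_le ?_ ?_
      · rw [Ideal.span_singleton_le_iff_mem]
        obtain ⟨e, he⟩ := exists_pow_sub_mul_mem 𝔭 hε
        rw [h𝔭, Ideal.mem_span_singleton] at he
        obtain ⟨c, hc⟩ := he
        have h : x ^ (m * a) = e * u + c * π := by
          have : x ^ (m * a) = (x ^ (m * a) - u * e) + u * e := by ring
          rw [this, hc]
          ring
        rw [h]
        exact Ideal.add_mem _
          (Ideal.mul_mem_left _ _ (Ideal.subset_span (by simp)))
          (Ideal.mul_mem_left _ _ (Ideal.subset_span (by simp)))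
      · rw [h𝔭, Ideal.span_singleton_le_iff_mem]
        exact Ideal.subset_span (by simp)
    have h1 : relLen (Ideal.span {u, π}) (⊤ : Ideal R) ≤ ((m * a : ℕ) : ℕ∞) := by
      rw [← relLen_branch_pow 𝔭 hϖ (m * a)]
      exact relLen_mono_left hle le_top
    refine lt_of_le_of_lt h1 ?_
    have h2 : m * a < m * (a + 1) := by
      have : 0 < m := Nat.pos_of_ne_zero hm
      nlinarith
    exact_mod_cast h2


/-- **Purity at an ordinary double point of the special fibre**, (H1) at the minimal primes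
of `(u)`. -/
theorem exists_unit_mul_pow_of_node_min {u π : R} {m : ℕ} (hm : m ≠ 0)
    (𝔭₁ 𝔭₂ : Ideal R) [𝔭₁.IsPrime] [𝔭₂.IsPrime]
    [IsDiscreteValuationRing (R ⧸ 𝔭₁)] [IsDiscreteValuationRing (R ⧸ 𝔭₂)]
    (hinf : 𝔭₁ ⊓ 𝔭₂ = Ideal.span {π}) (hsup : 𝔭₁ ⊔ 𝔭₂ = IsLocalRing.maximalIdeal R)
    (hu₁ : u ∉ 𝔭₁) (hu₂ : u ∉ 𝔭₂)
    (H1 : ∀ 𝔓 ∈ (Ideal.span {u}).minimalPrimes, π ∉ 𝔓 → ∃ f r : R, r ∉ 𝔓 ∧ f ^ m = u * r)
    (H2₁ : ∃ v : R ⧸ 𝔭₁, Associated (v ^ m) (Ideal.Quotient.mk 𝔭₁ u))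
    (H2₂ : ∃ v : R ⧸ 𝔭₂, Associated (v ^ m) (Ideal.Quotient.mk 𝔭₂ u)) :
    ∃ (f : R) (ε : Rˣ), u = ε * f ^ m := by
  have h𝔭₁𝔪 : 𝔭₁ ≤ IsLocalRing.maximalIdeal R := hsup ▸ le_sup_left
  have h𝔭₂𝔪 : 𝔭₂ ≤ IsLocalRing.maximalIdeal R := hsup ▸ le_sup_right
  have hπ₁ : π ∈ 𝔭₁ :=
    (inf_le_left : 𝔭₁ ⊓ 𝔭₂ ≤ 𝔭₁) (hinf ▸ Ideal.mem_span_singleton_self π)
  have hπ₂ : π ∈ 𝔭₂ :=
    (inf_le_right : 𝔭₁ ⊓ 𝔭₂ ≤ 𝔭₂) (hinf ▸ Ideal.mem_span_singleton_self π)
  have hmem_inf : ∀ z : R, z ∈ 𝔭₁ → z ∈ 𝔭₂ → ∃ c : R, z = c * π := by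
    intro z h1 h2
    have h : z ∈ 𝔭₁ ⊓ 𝔭₂ := ⟨h1, h2⟩
    rw [hinf] at h
    exact Ideal.mem_span_singleton'.mp h |>.imp fun c hc => hc.symm
  have hu0 : u ≠ 0 := by
    rintro rfl
    exact hu₁ 𝔭₁.zero_mem
  -- uniformisers of the two branches
  obtain ⟨x, hx₂, hx⟩ := exists_mem_irreducible_mk 𝔭₁ 𝔭₂ hsup.ge
  obtain ⟨y, hy₁, hy⟩ := exists_mem_irreducible_mk 𝔭₂ 𝔭₁ (by rw [sup_comm]; exact hsup.ge)
  have hx₁ : x ∉ 𝔭₁ := fun h => hx.ne_zero (Ideal.Quotient.eq_zero_iff_mem.mpr h)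
  have hy₂ : y ∉ 𝔭₂ := fun h => hy.ne_zero (Ideal.Quotient.eq_zero_iff_mem.mpr h)
  have h𝔭₂ : 𝔭₂ ≤ Ideal.span {x} ⊔ Ideal.span {π} := by
    rw [← hinf]
    exact le_span_sup_inf 𝔭₁ 𝔭₂ hx₂ hx h𝔭₂𝔪
  have h𝔭₁ : 𝔭₁ ≤ Ideal.span {y} ⊔ Ideal.span {π} := by
    rw [← hinf, inf_comm]
    exact le_span_sup_inf 𝔭₂ 𝔭₁ hy₁ hy h𝔭₁𝔪
  have h𝔭₂' : 𝔭₂ = Ideal.span {x} ⊔ Ideal.span {π} :=
    le_antisymm h𝔭₂ (sup_le ((Ideal.span_singleton_le_iff_mem _).mpr hx₂)
      ((Ideal.span_singleton_le_iff_mem _).mpr hπ₂))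
  have hπ0 : π ≠ 0 := by
    rintro rfl
    obtain ⟨c, hc⟩ := hmem_inf (x * y) (𝔭₁.mul_mem_left _ hy₁) (𝔭₂.mul_mem_right _ hx₂)
    rw [mul_zero] at hc
    rcases mul_eq_zero.mp hc with h | h
    · exact hx₁ (h ▸ 𝔭₁.zero_mem)
    · exact hy₂ (h ▸ 𝔭₂.zero_mem)
  obtain ⟨a₁, ε₁, hε₁⟩ := exists_mk_eq_unit_mul_pow 𝔭₁ hx hm hu₁ H2₁
  obtain ⟨a₂, ε₂, hε₂⟩ := exists_mk_eq_unit_mul_pow 𝔭₂ hy hm hu₂ H2₂
  have hreg : ∀ z : R, π ∣ u * z → π ∣ z := by
    intro z hz
    have h1 : u * z ∈ 𝔭₁ ⊓ 𝔭₂ := by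
      rw [hinf]
      exact Ideal.mem_span_singleton.mpr hz
    have h2 : z ∈ 𝔭₁ :=
      (Ideal.IsPrime.mem_or_mem inferInstance h1.1).resolve_left hu₁
    have h3 : z ∈ 𝔭₂ :=
      (Ideal.IsPrime.mem_or_mem inferInstance h1.2).resolve_left hu₂
    obtain ⟨c, hc⟩ := hmem_inf z h2 h3
    exact ⟨c, by rw [hc, mul_comm]⟩
  have huπ : ∀ 𝔮 : Ideal R, 𝔮.IsPrime → u ∈ 𝔮 → π ∈ 𝔮 →
      𝔮 = IsLocalRing.maximalIdeal R := by
    intro 𝔮 h𝔮 hu𝔮 hπ𝔮
    have hle : 𝔭₁ ⊓ 𝔭₂ ≤ 𝔮 := by
      rw [hinf, Ideal.span_singleton_le_iff_mem]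
      exact hπ𝔮
    refine le_antisymm (IsLocalRing.le_maximalIdeal h𝔮.ne_top) ?_
    rw [← hsup]
    rcases h𝔮.inf_le.mp hle with h | h
    · have hx𝔮 : x ∈ 𝔮 := mem_of_le_of_mk_eq 𝔭₁ hε₁ h𝔮 h hu𝔮
      refine sup_le h (h𝔭₂.trans (sup_le ?_ ?_))
      · exact (Ideal.span_singleton_le_iff_mem _).mpr hx𝔮
      · exact (Ideal.span_singleton_le_iff_mem _).mpr hπ𝔮
    · have hy𝔮 : y ∈ 𝔮 := mem_of_le_of_mk_eq 𝔭₂ hε₂ h𝔮 h hu𝔮
      refine sup_le (h𝔭₁.trans (sup_le ?_ ?_)) h
      · exact (Ideal.span_singleton_le_iff_mem _).mpr hy𝔮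
      · exact (Ideal.span_singleton_le_iff_mem _).mpr hπ𝔮
  -- the lengths of the ideals `J(b, c) = (x ^ b, y ^ c, π)`, `b, c ≥ 1`
  have hlen : ∀ k c : ℕ, relLen
      (Ideal.span {x ^ (1 + k)} ⊔ (Ideal.span {y ^ (c + 1)} ⊔ Ideal.span {π}))
      (⊤ : Ideal R) = ((k + (c + 1) : ℕ) : ℕ∞) := by
    intro k c
    have h𝔞 : Ideal.span {y ^ (c + 1)} ⊔ Ideal.span {π} ≤ 𝔭₁ :=
      sup_le ((Ideal.span_singleton_le_iff_mem _).mpr (𝔭₁.pow_mem_of_mem hy₁ _ (by omega)))
        ((Ideal.span_singleton_le_iff_mem _).mpr hπ₁)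
    have hchain := relLen_pow_chain 𝔭₁ hx _ h𝔞 1 ?_ k
    · have hbase : Ideal.span {x ^ 1} ⊔ (Ideal.span {y ^ (c + 1)} ⊔ Ideal.span {π}) =
          Ideal.span {y ^ (c + 1)} ⊔ 𝔭₂ := by
        rw [pow_one, h𝔭₂', sup_left_comm]
      have hmono : Ideal.span {x ^ (1 + k)} ⊔ (Ideal.span {y ^ (c + 1)} ⊔ Ideal.span {π}) ≤
          Ideal.span {x ^ 1} ⊔ (Ideal.span {y ^ (c + 1)} ⊔ Ideal.span {π}) := by
        refine sup_le_sup_right ?_ _
        rw [Ideal.span_singleton_le_span_singleton]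
        exact pow_dvd_pow x (by omega)
      rw [relLen_add hmono le_top, hchain, hbase, relLen_branch_pow 𝔭₂ hy (c + 1)]
      push_cast
      rfl
    · intro n hn s hs
      obtain ⟨g, hg⟩ := exists_sub_mul_mem_of_mem_maximalIdeal 𝔭₁ hx hs
      obtain ⟨d, hd⟩ := hmem_inf ((s - x * g) * x ^ n) (𝔭₁.mul_mem_right _ hg)
        (𝔭₂.mul_mem_left _ (𝔭₂.pow_mem_of_mem hx₂ _ (by omega)))
      have h : s * x ^ n = x ^ (n + 1) * g + d * π := by
        rw [← hd]
        ring
      rw [h]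
      exact Ideal.add_mem _
        (Ideal.mem_sup_left (Ideal.mem_span_singleton.mpr (Dvd.intro g rfl)))
        (Ideal.mem_sup_right (Ideal.mem_sup_right
          (Ideal.mem_span_singleton.mpr (Dvd.intro_left d rfl))))
  refine exists_unit_mul_pow_of_relLen_min hm hu0 hπ0 (h𝔭₁𝔪 hπ₁) hreg huπ H1
    (Ideal.span {x ^ (1 + a₁)} ⊔ (Ideal.span {y ^ (a₂ + 1)} ⊔ Ideal.span {π}))
    (Ideal.mem_sup_right (Ideal.mem_sup_right (Ideal.mem_span_singleton_self π))) ?_
    (a₁ + (a₂ + 1)) (hlen a₁ a₂).ge ?_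
  · -- every `f` with `f ^ m = u r`, `r ∈ 𝔪`, lies in `J(a₁ + 1, a₂ + 1)`
    intro f r hf hr
    obtain ⟨g₁, hg₁⟩ := exists_sub_pow_succ_mul_mem 𝔭₁ hx hε₁ hf hr
    obtain ⟨g₂, hg₂⟩ := exists_sub_pow_succ_mul_mem 𝔭₂ hy hε₂ hf hr
    obtain ⟨d, hd⟩ := hmem_inf (f - x ^ (a₁ + 1) * g₁ - y ^ (a₂ + 1) * g₂)
      (𝔭₁.sub_mem hg₁ (𝔭₁.mul_mem_right _ (𝔭₁.pow_mem_of_mem hy₁ _ (by omega))))
      (by
        have h : f - x ^ (a₁ + 1) * g₁ - y ^ (a₂ + 1) * g₂ =
            (f - y ^ (a₂ + 1) * g₂) - x ^ (a₁ + 1) * g₁ := by ring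
        rw [h]
        exact 𝔭₂.sub_mem hg₂ (𝔭₂.mul_mem_right _ (𝔭₂.pow_mem_of_mem hx₂ _ (by omega))))
    have h : f = x ^ (1 + a₁) * g₁ + (y ^ (a₂ + 1) * g₂ + d * π) := by
      rw [← hd, add_comm 1 a₁]
      ring
    rw [h]
    exact Ideal.add_mem _
      (Ideal.mem_sup_left (Ideal.mem_span_singleton.mpr (Dvd.intro g₁ rfl)))
      (Ideal.mem_sup_right (Ideal.add_mem _
        (Ideal.mem_sup_left (Ideal.mem_span_singleton.mpr (Dvd.intro g₂ rfl)))
        (Ideal.mem_sup_right (Ideal.mem_span_singleton.mpr (Dvd.intro_left d rfl)))))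
  · -- `ℓ(R/(u, π)) ≤ m (a₁ + a₂)`
    set J'' : Ideal R :=
      Ideal.span {x ^ (1 + m * a₁)} ⊔ (Ideal.span {y ^ (m * a₂ + 1)} ⊔ Ideal.span {π})
      with hJ''
    set T : Ideal R := IsLocalRing.maximalIdeal R * Ideal.span {u} ⊔ Ideal.span {π} with hT
    have hxT : x ^ (1 + m * a₁) ∈ T := by
      obtain ⟨e, he⟩ := exists_pow_sub_mul_mem 𝔭₁ hε₁
      obtain ⟨d, hd⟩ := hmem_inf (x * (x ^ (m * a₁) - u * e)) (𝔭₁.mul_mem_left _ he)
        (𝔭₂.mul_mem_right _ hx₂)
      have h : x ^ (1 + m * a₁) = (x * e) * u + d * π := by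
        rw [← hd]
        ring
      rw [h]
      exact Ideal.add_mem _
        (Ideal.mem_sup_left (Ideal.mul_mem_mul (Ideal.mul_mem_right _ _ (h𝔭₂𝔪 hx₂))
          (Ideal.mem_span_singleton_self u)))
        (Ideal.mem_sup_right (Ideal.mem_span_singleton.mpr (Dvd.intro_left d rfl)))
    have hyT : y ^ (m * a₂ + 1) ∈ T := by
      obtain ⟨e, he⟩ := exists_pow_sub_mul_mem 𝔭₂ hε₂
      obtain ⟨d, hd⟩ := hmem_inf (y * (y ^ (m * a₂) - u * e)) (𝔭₁.mul_mem_right _ hy₁)
        (𝔭₂.mul_mem_left _ he)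
      have h : y ^ (m * a₂ + 1) = (y * e) * u + d * π := by
        rw [← hd]
        ring
      rw [h]
      exact Ideal.add_mem _
        (Ideal.mem_sup_left (Ideal.mul_mem_mul (Ideal.mul_mem_right _ _ (h𝔭₁𝔪 hy₁))
          (Ideal.mem_span_singleton_self u)))
        (Ideal.mem_sup_right (Ideal.mem_span_singleton.mpr (Dvd.intro_left d rfl)))
    have hJT : J'' ≤ T :=
      sup_le ((Ideal.span_singleton_le_iff_mem _).mpr hxT)
        (sup_le ((Ideal.span_singleton_le_iff_mem _).mpr hyT) le_sup_right)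
    have huT : u ∉ T := by
      intro h
      obtain ⟨t, ht, p, hp, htp⟩ := Submodule.mem_sup.mp h
      obtain ⟨s, hs, rfl⟩ := Ideal.mem_mul_span_singleton.mp ht
      obtain ⟨c, rfl⟩ := Ideal.mem_span_singleton'.mp hp
      have h1 : u * (1 - s) ∈ 𝔭₁ := by
        have : u * (1 - s) = c * π := by
          linear_combination -htp
        rw [this]
        exact 𝔭₁.mul_mem_left _ hπ₁
      rcases Ideal.IsPrime.mem_or_mem inferInstance h1 with h2 | h2
      · exact hu₁ h2
      · have h3 : (1 : R) ∈ IsLocalRing.maximalIdeal R := by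
          have : (1 : R) = (1 - s) + s := by ring
          rw [this]
          exact Ideal.add_mem _ (h𝔭₁𝔪 h2) hs
        exact (Ideal.ne_top_iff_one _).mp (IsLocalRing.maximalIdeal.isMaximal R).ne_top h3
    have hTle : T ≤ Ideal.span {u, π} := by
      refine sup_le ?_ ?_
      · refine Ideal.mul_le_right.trans ?_
        rw [Ideal.span_singleton_le_iff_mem]
        exact Ideal.subset_span (by simp)
      · rw [Ideal.span_singleton_le_iff_mem]
        exact Ideal.subset_span (by simp)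
    have h1 : 1 ≤ relLen J'' (Ideal.span {u, π}) :=
      one_le_relLen_of_notMem (Ideal.subset_span (by simp)) (fun h => huT (hJT h))
    have h2 : relLen J'' (⊤ : Ideal R) = ((m * a₁ + (m * a₂ + 1) : ℕ) : ℕ∞) := hlen _ _
    rw [relLen_add (hJT.trans hTle) le_top] at h2
    have h3 : relLen (Ideal.span {u, π}) (⊤ : Ideal R) ≠ ⊤ := by
      intro h
      rw [h, add_top] at h2
      exact ENat.top_ne_natCast _ h2
    have h4 : relLen J'' (Ideal.span {u, π}) ≠ ⊤ := by
      intro h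
      rw [h, top_add] at h2
      exact ENat.top_ne_natCast _ h2
    lift relLen (Ideal.span {u, π}) (⊤ : Ideal R) to ℕ using h3 with L
    lift relLen J'' (Ideal.span {u, π}) to ℕ using h4 with L'
    have h5 : 1 ≤ L' := by exact_mod_cast h1
    have h6 : L' + L = m * a₁ + (m * a₂ + 1) := by exact_mod_cast h2
    have h7 : L < m * (a₁ + (a₂ + 1)) := by
      have : 0 < m := Nat.pos_of_ne_zero hm
      nlinarith
    exact_mod_cast h7


end Fermat.Agent.A2.H609

end
-- ===== PACK-END A2/H609/MinPrimes.lean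

-- ===== PACK-BEGIN A2/H729/BaseChange.lean
section


/-!
# A2 (helper729): base change of charts and Gauss rings along a field extension `F₀ → F`

`F₀ ⊆ F` fields over `R`, `x₀ ∈ F₀`, `x = algebraMap F₀ F x₀`.  The charts and the Gauss ring of
`F₀` map into those of `F`, congruences modulo `w O` are preserved, maximal ideals of the chart of
`F` contract to maximal ideals of the chart of `F₀`, and `F₀`-automorphisms of `F` preserve the
charts, the Gauss ring and congruences modulo `w O`.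
-/

set_option autoImplicit false
set_option linter.unusedSectionVars false

namespace Fermat.Agent.A2.H729

open Polynomial Fermat.Agent.S18.H138

variable {R : Type*} [CommRing R] {F₀ : Type*} [Field F₀] [Algebra R F₀]
  {F : Type*} [Field F] [Algebra R F] [Algebra F₀ F] [IsScalarTower R F₀ F]

/-- The restriction `R[S] → R[φ S]` of `F₀ → F`. -/
noncomputable def adjoinMap (S : Set F₀) :
    Algebra.adjoin R S →ₐ[R] Algebra.adjoin R ((algebraMap F₀ F) '' S) :=
  AlgHom.codRestrict ((IsScalarTower.toAlgHom R F₀ F).comp (Algebra.adjoin R S).val)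
    (Algebra.adjoin R ((algebraMap F₀ F) '' S)) (fun a => by
      have h := AlgHom.map_adjoin (IsScalarTower.toAlgHom R F₀ F) S
      have h2 : (IsScalarTower.toAlgHom R F₀ F) a ∈
          Subalgebra.map (IsScalarTower.toAlgHom R F₀ F) (Algebra.adjoin R S) :=
        Subalgebra.mem_map.2 ⟨a, a.2, rfl⟩
      rw [h] at h2
      exact h2)

theorem coe_adjoinMap (S : Set F₀) (a : Algebra.adjoin R S) :
    ((adjoinMap (F := F) S a : Algebra.adjoin R ((algebraMap F₀ F) '' S)) : F) =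
      algebraMap F₀ F a := rfl

/-- Charts map to charts. -/
theorem algebraMap_mem_chart {S : Set F₀} {z : F₀} (hz : z ∈ chart R S) :
    algebraMap F₀ F z ∈ chart R ((algebraMap F₀ F) '' S) := by
  rw [mem_chart] at hz ⊢
  exact IsIntegral.map_of_comp_eq (adjoinMap (F := F) S).toRingHom (algebraMap F₀ F)
    (by ext a; rfl) hz

theorem algebraMap_mem_chart_singleton {x₀ z : F₀} (hz : z ∈ chart R ({x₀} : Set F₀)) :
    algebraMap F₀ F z ∈ chart R ({algebraMap F₀ F x₀} : Set F) := by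
  have := algebraMap_mem_chart (F := F) hz
  rwa [Set.image_singleton] at this

theorem algebraMap_mem_chart_inv {x₀ z : F₀} (hz : z ∈ chart R ({x₀⁻¹} : Set F₀)) :
    algebraMap F₀ F z ∈ chart R ({(algebraMap F₀ F x₀)⁻¹} : Set F) := by
  have := algebraMap_mem_chart (F := F) hz
  rwa [Set.image_singleton, map_inv₀] at this

theorem IsGaussDenom.map {w : R} {x₀ s : F₀} (hs : IsGaussDenom w x₀ s) :
    IsGaussDenom w (algebraMap F₀ F x₀) (algebraMap F₀ F s) := by
  obtain ⟨Q, hQ, rfl⟩ := hs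
  refine ⟨Q, hQ, ?_⟩
  rw [← aeval_algebraMap_apply]

/-- The Gauss ring maps to the Gauss ring. -/
theorem algebraMap_mem_gaussO {w : R} (hw : Prime w) {x₀ t : F₀} (ht : t ∈ gaussO hw x₀) :
    algebraMap F₀ F t ∈ gaussO hw (algebraMap F₀ F x₀) := by
  obtain ⟨s, hs, hst⟩ := ht
  refine ⟨algebraMap F₀ F s, hs.map, ?_⟩
  rw [← map_mul]
  exact algebraMap_mem_chart_singleton hst

/-- Congruences modulo `w O` are preserved. -/
theorem InW.map {w : R} (hw : Prime w) {x₀ z : F₀} (hz : InW (gaussO hw x₀) w z) :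
    InW (gaussO hw (algebraMap F₀ F x₀)) w (algebraMap F₀ F z) := by
  obtain ⟨t, ht, rfl⟩ := hz
  refine ⟨algebraMap F₀ F t, algebraMap_mem_gaussO hw ht, ?_⟩
  rw [map_mul, ← IsScalarTower.algebraMap_apply]

section Auto

/-- `F₀`-automorphisms of `F` preserve the chart. -/
theorem algEquiv_mem_chart (σ : F ≃ₐ[F₀] F) {S : Set F}
    (hS : ∀ a ∈ S, σ a = a) {z : F} (hz : z ∈ chart R S) : σ z ∈ chart R S := by
  rw [mem_chart] at hz ⊢
  have hfix : ∀ a ∈ Algebra.adjoin R S, σ a = a := by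
    intro a ha
    induction ha using Algebra.adjoin_induction with
    | mem y hy => exact hS y hy
    | algebraMap r =>
      rw [IsScalarTower.algebraMap_apply R F₀ F, AlgEquiv.commutes]
    | add y z _ _ hy hz => rw [map_add, hy, hz]
    | mul y z _ _ hy hz => rw [map_mul, hy, hz]
  refine IsIntegral.map_of_comp_eq (RingHom.id _) (σ : F →+* F) ?_ hz
  ext a
  exact (hfix a a.2).symm

theorem algEquiv_mem_gaussO {w : R} (hw : Prime w) (σ : F ≃ₐ[F₀] F) {x₀ : F₀} {t : F}
    (ht : t ∈ gaussO hw (algebraMap F₀ F x₀)) : σ t ∈ gaussO hw (algebraMap F₀ F x₀) := by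
  obtain ⟨s, ⟨Q, hQ, rfl⟩, hst⟩ := ht
  have hsx : σ (algebraMap F₀ F x₀) = algebraMap F₀ F x₀ := σ.commutes x₀
  have hs : σ (aeval (algebraMap F₀ F x₀) Q) = aeval (algebraMap F₀ F x₀) Q := by
    rw [aeval_algebraMap_apply, σ.commutes]
  refine ⟨aeval (algebraMap F₀ F x₀) Q, ⟨Q, hQ, rfl⟩, ?_⟩
  have := algEquiv_mem_chart (R := R) σ
    (S := ({algebraMap F₀ F x₀} : Set F)) (fun a ha => by
      rw [Set.mem_singleton_iff] at ha; rw [ha, hsx]) hst
  rwa [map_mul, hs] at this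

theorem InW.algEquiv {w : R} (hw : Prime w) (σ : F ≃ₐ[F₀] F) {x₀ : F₀} {z : F}
    (hz : InW (gaussO hw (algebraMap F₀ F x₀)) w z) :
    InW (gaussO hw (algebraMap F₀ F x₀)) w (σ z) := by
  obtain ⟨t, ht, rfl⟩ := hz
  refine ⟨σ t, algEquiv_mem_gaussO hw σ ht, ?_⟩
  rw [map_mul, IsScalarTower.algebraMap_apply R F₀ F, σ.commutes]

end Auto

end Fermat.Agent.A2.H729

end
-- ===== PACK-END A2/H729/BaseChange.lean

-- ===== PACK-BEGIN A2/H729/Bridge.lean
section



/-!
# A2 (helper729): from the components of the special fibre to the canonical Gauss ring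

`B = chart R {x}`, `p₁, p₂` prime ideals of `B` with `p₁ ⊓ p₂ = (w)` (the two components of a
reduced special fibre).

* `inv_mem_gaussO_of_not_mem` (**Gauss units**): `b ∈ B`, `b ∉ p₁`, `b ∉ p₂` implies
  `b⁻¹ ∈ gaussO` (going-up and incomparability for the integral extension `R[x] ⊆ B`).
* `inW_sub_one_of_oneAt` (**bridge**): if `h ≡ 1` on both components
  (`h b_i = a_i`, `b_i ∉ p_i`, `a_i - b_i ∈ p_i`) and the components are incomparable, then
  `h ≡ 1 mod w · gaussO`.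
-/

set_option autoImplicit false
set_option linter.unusedSectionVars false
set_option linter.style.haveILetI false

namespace Fermat.Agent.A2.H729

open Polynomial Fermat.Agent.S18.H138

variable {R : Type*} [CommRing R] [IsDomain R] {F : Type*} [Field F] [Algebra R F]

/-- The inclusion `R[x] → chart R {x}`. -/
noncomputable def adjoinToChart (x : F) :
    Algebra.adjoin R ({x} : Set F) →+* chart R ({x} : Set F) :=
  (Subalgebra.inclusion (adjoin_le_chart (R := R) ({x} : Set F))).toRingHom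

theorem coe_adjoinToChart (x : F) (a : Algebra.adjoin R ({x} : Set F)) :
    ((adjoinToChart x a : chart R ({x} : Set F)) : F) = (a : F) := rfl

theorem adjoinToChart_algebraMap (x : F) (r : R) :
    adjoinToChart x (algebraMap R (Algebra.adjoin R ({x} : Set F)) r) =
      algebraMap R (chart R ({x} : Set F)) r := rfl

theorem adjoinToChart_isIntegral (x : F) : (adjoinToChart (R := R) x).IsIntegral := by
  intro b
  obtain ⟨p, hpm, hp⟩ := (mem_chart.1 b.2 : IsIntegral (Algebra.adjoin R ({x} : Set F)) (b : F))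
  refine ⟨p, hpm, ?_⟩
  apply Subtype.ext
  have h1 : ((eval₂ (adjoinToChart (R := R) x) b p : chart R ({x} : Set F)) : F) =
      eval₂ (((chart R ({x} : Set F)).val.toRingHom).comp (adjoinToChart (R := R) x))
        (b : F) p :=
    hom_eval₂ p (adjoinToChart (R := R) x) ((chart R ({x} : Set F)).val.toRingHom) b
  rw [h1]
  exact hp

/-- **Gauss units.**  An element of the chart outside both components of the special fibre is
a unit of the Gauss ring. -/
theorem exists_gaussDenom_mul_of_not_mem {w : R} (hw : Prime w) {x : F}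
    (hx : Transcendental R x) {p₁ p₂ : Ideal (chart R ({x} : Set F))}
    (hp₁ : p₁.IsPrime) (hp₂ : p₂.IsPrime)
    (hinf : p₁ ⊓ p₂ = Ideal.span {algebraMap R (chart R ({x} : Set F)) w})
    {b : chart R ({x} : Set F)} (hb₁ : b ∉ p₁) (hb₂ : b ∉ p₂) :
    ∃ s : F, IsGaussDenom w x s ∧ ∃ c : chart R ({x} : Set F), s = (b : F) * (c : F) := by
  classical
  letI : Algebra (Algebra.adjoin R ({x} : Set F)) (chart R ({x} : Set F)) :=
    (adjoinToChart (R := R) x).toAlgebra
  haveI : Algebra.IsIntegral (Algebra.adjoin R ({x} : Set F)) (chart R ({x} : Set F)) :=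
    ⟨adjoinToChart_isIntegral x⟩
  have hwAp : Prime (algebraMap R (Algebra.adjoin R ({x} : Set F)) w) :=
    prime_algebraMap_adjoin hw hx
  haveI hPprime : (Ideal.span {algebraMap R (Algebra.adjoin R ({x} : Set F)) w}).IsPrime :=
    (Ideal.span_singleton_prime hwAp.ne_zero).2 hwAp
  have hw₁ : algebraMap R (chart R ({x} : Set F)) w ∈ p₁ := by
    have : algebraMap R (chart R ({x} : Set F)) w ∈ p₁ ⊓ p₂ := by
      rw [hinf]; exact Ideal.mem_span_singleton_self _
    exact this.1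
  have hw₂ : algebraMap R (chart R ({x} : Set F)) w ∈ p₂ := by
    have : algebraMap R (chart R ({x} : Set F)) w ∈ p₁ ⊓ p₂ := by
      rw [hinf]; exact Ideal.mem_span_singleton_self _
    exact this.2
  -- the key claim
  have key : ¬ (Ideal.span {b}).comap
      (algebraMap (Algebra.adjoin R ({x} : Set F)) (chart R ({x} : Set F))) ≤
      Ideal.span {algebraMap R (Algebra.adjoin R ({x} : Set F)) w} := by
    intro hle
    obtain ⟨Q, hQb, hQp, hQ⟩ := Ideal.exists_ideal_over_prime_of_isIntegral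
      (Ideal.span {algebraMap R (Algebra.adjoin R ({x} : Set F)) w}) (Ideal.span {b}) hle
    have hbQ : b ∈ Q := hQb (Ideal.mem_span_singleton_self b)
    have hwQ : algebraMap R (chart R ({x} : Set F)) w ∈ Q := by
      have : algebraMap R (Algebra.adjoin R ({x} : Set F)) w ∈
          Q.comap (algebraMap (Algebra.adjoin R ({x} : Set F)) (chart R ({x} : Set F))) := by
        rw [hQ]; exact Ideal.mem_span_singleton_self _
      exact this
    have hle' : p₁ ⊓ p₂ ≤ Q := by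
      rw [hinf, Ideal.span_singleton_le_iff_mem]
      exact hwQ
    -- a component contained in `Q` with the same contraction equals `Q`
    have aux : ∀ p : Ideal (chart R ({x} : Set F)), p.IsPrime →
        algebraMap R (chart R ({x} : Set F)) w ∈ p → p ≤ Q → b ∉ p → False := by
      intro p hp hwp hpQ hbp
      have hlt : p < Q := lt_of_le_of_ne hpQ (fun h => hbp (h ▸ hbQ))
      obtain ⟨z, hzQ, hzp⟩ := SetLike.exists_of_lt hlt
      have h1 : p.comap (algebraMap (Algebra.adjoin R ({x} : Set F)) (chart R ({x} : Set F))) <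
          Q.comap (algebraMap (Algebra.adjoin R ({x} : Set F)) (chart R ({x} : Set F))) :=
        Ideal.comap_lt_comap_of_integral_mem_sdiff hpQ ⟨hzQ, hzp⟩
          (Algebra.IsIntegral.isIntegral z)
      have h2 : Q.comap (algebraMap (Algebra.adjoin R ({x} : Set F)) (chart R ({x} : Set F))) ≤
          p.comap (algebraMap (Algebra.adjoin R ({x} : Set F)) (chart R ({x} : Set F))) := by
        rw [hQ, Ideal.span_singleton_le_iff_mem]
        exact hwp
      exact (lt_irrefl _ (lt_of_lt_of_le h1 h2))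
    rcases (Ideal.IsPrime.inf_le hQp).1 hle' with h | h
    · exact aux p₁ hp₁ hw₁ h hb₁
    · exact aux p₂ hp₂ hw₂ h hb₂
  obtain ⟨a, ha, haP⟩ := SetLike.not_le_iff_exists.1 key
  have ha' : algebraMap (Algebra.adjoin R ({x} : Set F)) (chart R ({x} : Set F)) a ∈
      Ideal.span {b} := ha
  obtain ⟨c, hc⟩ := Ideal.mem_span_singleton'.1 ha'
  have hnd : ¬ algebraMap R (Algebra.adjoin R ({x} : Set F)) w ∣ a :=
    fun h => haP (Ideal.mem_span_singleton.2 h)
  refine ⟨(a : F), isGaussDenom_of_not_dvd hx hnd, c, ?_⟩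
  have := congrArg (fun t : chart R ({x} : Set F) => (t : F)) hc
  rw [mul_comm]
  exact this.symm

theorem inv_mem_gaussO_of_not_mem {w : R} (hw : Prime w) {x : F}
    (hx : Transcendental R x) {p₁ p₂ : Ideal (chart R ({x} : Set F))}
    (hp₁ : p₁.IsPrime) (hp₂ : p₂.IsPrime)
    (hinf : p₁ ⊓ p₂ = Ideal.span {algebraMap R (chart R ({x} : Set F)) w})
    {b : chart R ({x} : Set F)} (hb₁ : b ∉ p₁) (hb₂ : b ∉ p₂) :
    (b : F)⁻¹ ∈ gaussO hw x := by
  obtain ⟨s, hs, c, hsc⟩ := exists_gaussDenom_mul_of_not_mem hw hx hp₁ hp₂ hinf hb₁ hb₂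
  have hb0 : (b : F) ≠ 0 := by
    intro h0
    apply hb₁
    have : b = 0 := Subtype.ext h0
    rw [this]
    exact p₁.zero_mem
  refine ⟨s, hs, ?_⟩
  have : s * (b : F)⁻¹ = (c : F) := by
    rw [hsc]; field_simp
  rw [this]
  exact c.2

/-- **Bridge.**  `h ≡ 1` on both components implies `h ≡ 1 mod w · gaussO`. -/
theorem inW_sub_one_of_oneAt {w : R} (hw : Prime w) {x : F}
    (hx : Transcendental R x) {p₁ p₂ : Ideal (chart R ({x} : Set F))}
    (hp₁ : p₁.IsPrime) (hp₂ : p₂.IsPrime)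
    (hinf : p₁ ⊓ p₂ = Ideal.span {algebraMap R (chart R ({x} : Set F)) w})
    (h₁₂ : ¬ p₁ ≤ p₂) (h₂₁ : ¬ p₂ ≤ p₁) {h : F}
    (hone₁ : ∃ a b : chart R ({x} : Set F), b ∉ p₁ ∧ a - b ∈ p₁ ∧ h * (b : F) = (a : F))
    (hone₂ : ∃ a b : chart R ({x} : Set F), b ∉ p₂ ∧ a - b ∈ p₂ ∧ h * (b : F) = (a : F)) :
    InW (gaussO hw x) w (h - 1) := by
  obtain ⟨a₁, b₁, hb₁, hab₁, e₁⟩ := hone₁
  obtain ⟨a₂, b₂, hb₂, hab₂, e₂⟩ := hone₂
  obtain ⟨c₂, hc₂p₁, hc₂p₂⟩ := SetLike.not_le_iff_exists.1 h₁₂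
  obtain ⟨c₁, hc₁p₂, hc₁p₁⟩ := SetLike.not_le_iff_exists.1 h₂₁
  -- `c₁ ∈ p₂ ∖ p₁`, `c₂ ∈ p₁ ∖ p₂`
  set b := b₁ * c₁ + b₂ * c₂ with hb
  set a := a₁ * c₁ + a₂ * c₂ with ha
  have hbp₁ : b ∉ p₁ := by
    intro hmem
    have h1 : b₂ * c₂ ∈ p₁ := p₁.mul_mem_left _ hc₂p₁
    have h2 : b₁ * c₁ ∈ p₁ := by
      have := p₁.sub_mem hmem h1
      rwa [hb, add_sub_cancel_right] at this
    rcases hp₁.mem_or_mem h2 with h3 | h3
    · exact hb₁ h3
    · exact hc₁p₁ h3
  have hbp₂ : b ∉ p₂ := by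
    intro hmem
    have h1 : b₁ * c₁ ∈ p₂ := p₂.mul_mem_left _ hc₁p₂
    have h2 : b₂ * c₂ ∈ p₂ := by
      have := p₂.sub_mem hmem h1
      rwa [hb, add_sub_cancel_left] at this
    rcases hp₂.mem_or_mem h2 with h3 | h3
    · exact hb₂ h3
    · exact hc₂p₂ h3
  have hab : a - b ∈ p₁ ⊓ p₂ := by
    have e : a - b = (a₁ - b₁) * c₁ + (a₂ - b₂) * c₂ := by rw [ha, hb]; ring
    rw [e]
    refine ⟨p₁.add_mem (p₁.mul_mem_right _ hab₁) (p₁.mul_mem_left _ hc₂p₁),
      p₂.add_mem (p₂.mul_mem_left _ hc₁p₂) (p₂.mul_mem_right _ hab₂)⟩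
  rw [hinf] at hab
  obtain ⟨d, hd⟩ := Ideal.mem_span_singleton'.1 hab
  have hbinv := inv_mem_gaussO_of_not_mem hw hx hp₁ hp₂ hinf hbp₁ hbp₂
  have hb0 : (b : F) ≠ 0 := by
    intro h0
    apply hbp₁
    have : b = 0 := Subtype.ext h0
    rw [this]
    exact p₁.zero_mem
  have ehb : h * (b : F) = (a : F) := by
    have : (b : F) = (b₁ : F) * c₁ + (b₂ : F) * c₂ := by rw [hb]; rfl
    rw [this]
    have : (a : F) = (a₁ : F) * c₁ + (a₂ : F) * c₂ := by rw [ha]; rfl
    rw [this, ← e₁, ← e₂]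
    ring
  have hdF : (a : F) - (b : F) = (d : F) * algebraMap R F w := by
    have := congrArg (fun t : chart R ({x} : Set F) => (t : F)) hd
    exact this.symm
  refine ⟨(d : F) * (b : F)⁻¹,
    Subalgebra.mul_mem _ (chart_fin_le_gaussO hw x d.2) hbinv, ?_⟩
  have : h - 1 = ((a : F) - (b : F)) * (b : F)⁻¹ := by
    rw [← ehb]; field_simp
  rw [this, hdF]
  ring

end Fermat.Agent.A2.H729

end
-- ===== PACK-END A2/H729/Bridge.lean

-- ===== PACK-BEGIN Ribet/H883/WildHub.lean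
section
/-
RIBET row 38, WALL-p, target (S2) / leaf W-ALGP (I5), helper883: the WILD form of the route-G hub
of cell A2 (`A2/H12/WallG.lean`, `A2/H12/GAsm.lean`, helper12).

In cell A2 the torsion order `m` is prime to the residue characteristic and the inertia element
`τ` fixes the `m`-th roots of unity; the hub gives `τ g / g ∈ F ^ m`.  At the wall `m = p` is the
residue characteristic and `τ ζ = ζ ^ c` (`c = χ(τ)`); the SAME sheet argument (`wallG_fixes`,
`wallG_comm`: `τ̃` fixes every sheet, hence commutes with the deck group) gives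

    `algG_core_wild : τ g = z ^ m * g ^ c`,

i.e. `τ x = χ(τ) x` for the class `x` of `g`.  The leaf conclusions (`SheetsConclusion`,
`RedConclusion`, `ConstConclusion`, `CountConclusion` of `A2/H12/GSpec.lean`) do not mention `m`
and are taken as hypotheses on the cover `L`.
-/



set_option autoImplicit false

namespace Fermat.Agent.Ribet.H883

open Polynomial
open Fermat.Agent.S18.H138 (chart baseField)
open Fermat.Agent.A2.H12

universe u

section Kummer

variable {L : Type*} [Field L]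

/-- **Kummer part, wild form.**  If `τ` commutes with every `g ∈ G` on `y`, every `g ∈ G`
multiplies `y` by a root of unity `ζ` with `τ ζ = ζ ^ c`, then `τ y / y ^ c` is fixed by `G`. -/
theorem kummer_of_commute_pow (G : Set (L ≃+* L)) (τ : L ≃+* L) (c : ℕ) (y : L) (hy : y ≠ 0)
    (h_comm : ∀ g ∈ G, τ (g y) = g (τ y))
    (h_char : ∀ g ∈ G, ∃ ζ : L, g y = ζ * y ∧ τ ζ = ζ ^ c) :
    ∀ g ∈ G, g (τ y / y ^ c) = τ y / y ^ c := by
  intro g hg
  obtain ⟨ζ, hζ, hτζ⟩ := h_char g hg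
  have h1 : g (τ y) = ζ ^ c * τ y := by
    rw [← h_comm g hg, hζ, map_mul, hτζ]
  have hζ0 : ζ ≠ 0 := by
    rintro rfl
    rw [zero_mul] at hζ
    exact hy ((map_eq_zero_iff g g.injective).1 hζ)
  rw [map_div₀, h1, map_pow, hζ, mul_pow]
  have hyc : y ^ c ≠ 0 := pow_ne_zero c hy
  have hζc : ζ ^ c ≠ 0 := pow_ne_zero c hζ0
  field_simp

end Kummer

section Val

variable {R : Type*} [CommRing R] {L : Type*} [Field L] [Algebra R L]
variable {S : Type*}

/-- **Route G: the WALL, field form, wild.** -/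
theorem wallG_wild [Fintype S] (w : R) (Bfin Binf Bmid : Subalgebra R L)
    (M : S → AddSubgroup L)
    (habs : ∀ s, ∀ c ∈ Bmid, ∀ a ∈ M s, c * a ∈ M s)
    (hfm : Bfin ≤ Bmid) (him : Binf ≤ Bmid)
    (hM1 : ∀ s, (1 : L) ∉ M s) (hwM : ∀ s, algebraMap R L w ∈ M s)
    (hred_mid : ∀ b ∈ Bmid, (∀ s, b ∈ M s) → ∃ t ∈ Bmid, b = algebraMap R L w * t)
    (hred_fin : ∀ b ∈ Bfin, (∀ s, b ∈ M s) → ∃ t ∈ Bfin, b = algebraMap R L w * t)
    (hred_inf : ∀ b ∈ Binf, (∀ s, b ∈ M s) → ∃ t ∈ Binf, b = algebraMap R L w * t)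
    (hcech : ∀ e₁ e₂ : L, e₁ ∈ Bfin → e₂ ∈ Binf →
      (∃ t ∈ Bfin, e₁ ^ 2 - e₁ = algebraMap R L w * t) →
      (∃ t ∈ Binf, e₂ ^ 2 - e₂ = algebraMap R L w * t) →
      (∃ t ∈ Bmid, e₁ - e₂ = algebraMap R L w * t) →
      ((∃ t ∈ Bfin, e₁ = algebraMap R L w * t) ∧ (∃ t ∈ Binf, e₂ = algebraMap R L w * t)) ∨
      ((∃ t ∈ Bfin, 1 - e₁ = algebraMap R L w * t) ∧
        (∃ t ∈ Binf, 1 - e₂ = algebraMap R L w * t)))
    (τ : L ≃+* L) (hτfin : ∀ b, b ∈ Bfin ↔ τ b ∈ Bfin) (hτinf : ∀ b, b ∈ Binf ↔ τ b ∈ Binf)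
    (hτM : ∀ s, ∃ s', ∀ b, b ∈ M s ↔ τ b ∈ M s')
    (hMinj : Function.Injective M)
    {C : Type*} (col : S → C)
    (h_col : ∀ s s', (∀ b, b ∈ M s ↔ τ b ∈ M s') → col s' = col s)
    (h_triv : ∀ s, (∀ b, b ∈ M s ↔ τ b ∈ M s) → ∀ b, b ∈ Bfin ∨ b ∈ Binf → τ b - b ∈ M s)
    (h_uni_fin : ∀ 𝔫 : Ideal Bfin, 𝔫.IsMaximal → ∀ s t, col s = col t →
      (∀ c : Bfin, (c : L) ∈ M s → c ∈ 𝔫) → (∀ c : Bfin, (c : L) ∈ M t → c ∈ 𝔫) → s = t)
    (h_uni_inf : ∀ 𝔫 : Ideal Binf, 𝔫.IsMaximal → ∀ s t, col s = col t →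
      (∀ c : Binf, (c : L) ∈ M s → c ∈ 𝔫) → (∀ c : Binf, (c : L) ∈ M t → c ∈ 𝔫) → s = t)
    (s₀ : S) (h₀ : ∀ b, b ∈ M s₀ ↔ τ b ∈ M s₀)
    (Γ : Subgroup (L ≃+* L))
    (hΓM : ∀ σ ∈ Γ, ∀ s, ∃ s', ∀ b, b ∈ M s ↔ σ b ∈ M s')
    (hfree : ∀ σ ∈ Γ, ∀ s, (∀ b, b ∈ M s ↔ σ b ∈ M s) → σ = 1)
    (hnorm : ∀ σ ∈ Γ, τ * σ * τ⁻¹ ∈ Γ)
    (c : ℕ) (y : L) (hy : y ≠ 0) (hζ : ∀ σ ∈ Γ, ∃ ζ : L, σ y = ζ * y ∧ τ ζ = ζ ^ c) :
    ∀ σ ∈ Γ, σ (τ y / y ^ c) = τ y / y ^ c := by
  choose τS hτS using hτM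
  -- a sheet `s'` with `τ (M s) = M s'` is `τS s`
  have huniq : ∀ s s', (∀ b, b ∈ M s ↔ τ b ∈ M s') → τS s = s' := by
    intro s s' h
    apply hMinj
    ext c
    have h1 := hτS s (τ.symm c)
    have h2 := h (τ.symm c)
    simp only [RingEquiv.apply_symm_apply] at h1 h2
    rw [← h1, h2]
  have hfix := wallG_fixes w Bfin Binf Bmid M habs hfm him hM1 hwM hred_mid hred_fin hred_inf
    hcech τ hτfin hτinf τS hτS col (fun s => h_col s (τS s) (hτS s))
    (fun s hs b hb => h_triv s (fun c => by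
      have := hτS s c
      rwa [hs] at this) b hb)
    h_uni_fin h_uni_inf s₀ (huniq s₀ s₀ h₀)
  have hall : ∀ s b, b ∈ M s ↔ τ b ∈ M s := by
    intro s b
    have := hτS s b
    rwa [hfix s] at this
  have hcomm := wallG_comm M τ hall Γ hΓM hfree hnorm s₀
  exact kummer_of_commute_pow (Γ : Set (L ≃+* L)) τ c y hy (fun g hg => hcomm g hg y)
    (fun g hg => hζ g hg)

end Val

section Asm

variable {R : Type u} [CommRing R] {F : Type u} [Field F] [Algebra R F]
variable {L : Type u} [Field L] [Algebra F L] [Algebra R L] [IsScalarTower R F L]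

/-- **Route G, ALG core, WILD form.**  Cover `L / F` with the leaf conclusions, lift `τ'` fixing
the sheet `W₀`, `τ ζ = ζ ^ c` on the `m`-th roots of unity: then `τ g / g ^ c ∈ F ^ m` for every
`g` with an `m`-th root in `L`. -/
theorem algG_core_wild [IsDomain R] [IsNoetherianRing R] [IsIntegrallyClosed R[X]] [CharZero F]
    (w : R) (x : F) (m : ℕ) (τ : F ≃+* F) (τR : R ≃+* R)
    (hinj : Function.Injective (algebraMap R F)) (hx : Transcendental R x) (hw : Prime w)
    (hm : 0 < m) (c : ℕ) (hroot : ∃ ζ : R, IsPrimitiveRoot ζ m ∧ τR ζ = ζ ^ c)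
    (hτx : τ x = x) (hτR : ∀ r, τ (algebraMap R F r) = algebraMap R F (τR r))
    (hτw : ∀ r, w ∣ r ↔ w ∣ τR r)
    (hτV : ∀ V : ValuationSubring F, IsSheet w x V → ∀ c : F,
      (c ∈ V ↔ τ c ∈ V) ∧ (c ∈ V → τ c - c ∈ V.nonunits))
    [FiniteDimensional F L] [IsGalois F L]
    (hS : SheetsConclusion L w x) (hRed : RedConclusion L w x)
    (hConst : ConstConclusion (R := R) L x) (hCount : CountConclusion L w x)
    (τ' : L ≃+* L) (hτ' : ∀ f : F, τ' (algebraMap F L f) = algebraMap F L (τ f))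
    (W₀ : ValuationSubring L) (hW₀ : IsSheet w (algebraMap F L x) W₀)
    (hfix : ∀ b, b ∈ W₀ ↔ τ' b ∈ W₀)
    (g : F) (hg : g ≠ 0) (y : L) (hy : y ^ m = algebraMap F L g) :
    ∃ z : F, τ g = z ^ m * g ^ c := by
  classical
  set xL : L := algebraMap F L x with hxL
  let S := ↥{W : ValuationSubring L | IsSheet w xL W}
  have : Fintype S := hS.finite.fintype
  let M : S → AddSubgroup L := fun s => s.1.nonunits.toAddSubgroup
  have hι : Function.Injective (algebraMap F L) := (algebraMap F L).injective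
  have hinjL : Function.Injective (algebraMap R L) := by
    rw [IsScalarTower.algebraMap_eq R F L]
    exact hι.comp hinj
  have : CharZero L := charZero_of_injective_algebraMap hι
  have := hConst.finite
  have hxLt : Transcendental R xL := (transcendental_algebraMap_iff hι).2 hx
  have hy0 : y ≠ 0 := by
    rintro rfl
    rw [zero_pow hm.ne'] at hy
    exact hg (hι (by rw [← hy, map_zero]))
  have hιg : algebraMap F L g ≠ 0 := fun h => hg (hι (by rw [h, map_zero]))
  -- roots of unity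
  have hζ : ∀ σ ∈ galSubgroup F L, ∃ ζ : L, σ y = ζ * y ∧ τ' ζ = ζ ^ c := by
    intro σ hσ
    obtain ⟨ζ₀, hζ₀, hτζ₀⟩ := hroot
    have hprim : IsPrimitiveRoot (algebraMap R L ζ₀) m := hζ₀.map_of_injective hinjL
    have hpow : (σ y / y) ^ m = 1 := by
      rw [div_pow, ← map_pow, hy, hσ g, div_self hιg]
    have : NeZero m := ⟨hm.ne'⟩
    obtain ⟨i, -, hi⟩ := hprim.eq_pow_of_pow_eq_one hpow
    refine ⟨σ y / y, by field_simp, ?_⟩
    rw [← hi, map_pow, lift_algebraMap_R τ τR hτR τ' hτ', hτζ₀, map_pow, ← pow_mul, ← pow_mul,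
      mul_comm]
  have key := wallG_wild (R := R) (L := L) (S := S) w (chart R {xL}) (chart R {xL⁻¹})
    (chart R {xL, xL⁻¹}) M
    (fun s c hc a ha => mul_mem_nonunits s.1 ha (s.2.chart_le Set.Subset.rfl hc))
    (Fermat.Agent.S18.H138.chart_mono (Set.singleton_subset_iff.2 (Or.inl rfl)))
    (Fermat.Agent.S18.H138.chart_mono (Set.singleton_subset_iff.2 (Or.inr rfl)))
    (fun s => one_not_mem_nonunits s.1)
    (fun s => s.2.2.2.1)
    (fun b hb h => hRed _ (Or.inr (Or.inr rfl)) b hb (fun W hW => h ⟨W, hW⟩))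
    (fun b hb h => hRed _ (Or.inl rfl) b hb (fun W hW => h ⟨W, hW⟩))
    (fun b hb h => hRed _ (Or.inr (Or.inl rfl)) b hb (fun W hW => h ⟨W, hW⟩))
    (fun e₁ e₂ he₁ he₂ h1 h2 h12 =>
      Fermat.Agent.S18.H138.connected_special_fibre hinjL hConst.closed hxLt w hw e₁ e₂ he₁ he₂
        h1 h2 h12)
    τ'
    (lift_chart_iff x τ τR hτx hτR τ' hτ' {xL} (Set.singleton_subset_iff.2 (Or.inl rfl)))
    (lift_chart_iff x τ τR hτx hτR τ' hτ' {xL⁻¹} (Set.singleton_subset_iff.2 (Or.inr rfl)))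
    (fun s => ⟨⟨s.1.comap (τ'.symm : L →+* L), lift_isSheet w x τ τR hτx hτR hτw τ' hτ' s.2⟩,
      fun b => by
        change b ∈ s.1.nonunits ↔ τ' b ∈ (s.1.comap (τ'.symm : L →+* L)).nonunits
        rw [mem_nonunits_comap]
        simp⟩)
    (fun s t hst => by
      apply Subtype.ext
      apply ValuationSubring.nonunits_injective
      ext b
      have := congrArg (fun A : AddSubgroup L => b ∈ A) hst
      exact iff_of_eq this)
    (col := fun s : S => s.1.comap (algebraMap F L))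
    (fun s s' h => by
      have hmem := mem_iff_of_nonunits_iff τ' s.1 s'.1 h
      have hV := (IsSheet.comap_algebraMap s.2)
      ext f
      have h1 := hmem (algebraMap F L (τ.symm f))
      rw [hτ', RingEquiv.apply_symm_apply] at h1
      have h2 := (hτV _ hV (τ.symm f)).1
      rw [RingEquiv.apply_symm_apply] at h2
      rw [ValuationSubring.mem_comap, ← h1, ← ValuationSubring.mem_comap, h2])
    (fun s h b hb => by
      have hmem := mem_iff_of_nonunits_iff τ' s.1 s.1 h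
      have hV := (IsSheet.comap_algebraMap s.2)
      have hbW : b ∈ s.1 := by
        rcases hb with hb | hb
        · exact s.2.chart_le (Set.singleton_subset_iff.2 (Or.inl rfl)) hb
        · exact s.2.chart_le (Set.singleton_subset_iff.2 (Or.inr rfl)) hb
      obtain ⟨c, hc⟩ := hS.resdeg s.1 s.2 b hbW
      have hcW : algebraMap F L c ∈ s.1 := by
        have : algebraMap F L c = b - (b - algebraMap F L c) := by ring
        rw [this]
        exact sub_mem hbW (ValuationSubring.nonunits_subset hc)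
      have hcV : c ∈ s.1.comap (algebraMap F L) := hcW
      have h3 := (mem_nonunits_comap s.1 (algebraMap F L) _).1 ((hτV _ hV c).2 hcV)
      rw [map_sub] at h3
      have h4 : τ' (b - algebraMap F L c) ∈ s.1.nonunits := (h _).1 hc
      have h5 : τ' b - b = (τ' (b - algebraMap F L c) - (b - algebraMap F L c)) +
          (algebraMap F L (τ c) - algebraMap F L c) := by
        rw [map_sub, hτ']
        ring
      change τ' b - b ∈ s.1.nonunits
      rw [h5]
      exact s.1.nonunits.add_mem (s.1.nonunits.sub_mem h4 hc) h3)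
    (fun 𝔫 h𝔫 s t hc hs ht => Subtype.ext (hCount.1 𝔫 h𝔫 s.1 t.1 s.2 t.2 hc hs ht))
    (fun 𝔫 h𝔫 s t hc hs ht => Subtype.ext (hCount.2 𝔫 h𝔫 s.1 t.1 s.2 t.2 hc hs ht))
    ⟨W₀, hW₀⟩ (nonunits_iff_of_mem_iff τ' W₀ W₀ hfix)
    (galSubgroup F L)
    (fun σ hσ s => ⟨⟨s.1.comap (σ.symm : L →+* L), gal_isSheet w x σ hσ s.2⟩, fun b => by
        change b ∈ s.1.nonunits ↔ σ b ∈ (s.1.comap (σ.symm : L →+* L)).nonunits
        rw [mem_nonunits_comap]
        simp⟩)
    (fun σ hσ s h => by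
      have hmem := mem_iff_of_nonunits_iff σ s.1 s.1 h
      have h1 := hS.free s.1 s.2 (AlgEquiv.ofRingEquiv (f := σ) hσ) hmem
      ext b
      have := congrArg (fun f : L ≃ₐ[F] L => f b) h1
      exact this)
    (fun σ hσ f => by
      change τ' (σ (τ'.symm (algebraMap F L f))) = algebraMap F L f
      rw [lift_symm_algebraMap τ τ' hτ', hσ, hτ', RingEquiv.apply_symm_apply])
    c y hy0 hζ
  -- conclusion
  have hz : τ' y / y ^ c ∈ (⊥ : IntermediateField F L) := by
    rw [IsGalois.mem_bot_iff_fixed]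
    intro f
    exact key (f : L ≃+* L) (fun c => f.commutes c)
  obtain ⟨z, hz⟩ := IntermediateField.mem_bot.1 hz
  refine ⟨z, hι ?_⟩
  have hyc : (y ^ c) ^ m = algebraMap F L (g ^ c) := by
    rw [← pow_mul, mul_comm, pow_mul, hy, map_pow]
  rw [map_mul, map_pow, hz, div_pow, ← hyc, div_mul_cancel₀ _ (pow_ne_zero m (pow_ne_zero c hy0)),
    ← map_pow, hy, hτ']

end Asm

end Fermat.Agent.Ribet.H883

end
-- ===== PACK-END Ribet/H883/WildHub.lean

-- ===== PACK-BEGIN A2/H12/AlgSS.lean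
section




/-!
# Cell A2 — route G: `AlgSSStatement` from the seven leaves (helper12)

`algSS_of_leaves : BaseLeaf → RootLeaf → SheetsLeaf → RedLeaf → ConstLeaf → CountLeaf → CoverLeaf →
  Fermat.Agent.A2.AlgSSStatement`.

Proof: STEP I (`Step1.lean`) shows that `g := τ f / f` is split at the sheets and has `m ∣ div g`;
the leaf COVER gives a Kummer-split cover with a lift of `τ`; `algG` (`GAsm.lean`: deck argument
`wallG` + connectedness `S18.H138.connected_special_fibre` + COUNT) gives `τ g = z ^ m * g`.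
-/

set_option autoImplicit false

namespace Fermat.Agent.A2.H12

open Fermat.Agent.A2 Polynomial

/-- `DivisibleDiv E m f → HorDiv R m f` for `E = Frac R`. -/
theorem horDiv_of_divisibleDiv {R E F : Type} [CommRing R] [IsDomain R] [Field E] [Algebra R E]
    [IsFractionRing R E] [Field F] [Algebra E F] [Algebra R F] [IsScalarTower R E F]
    {m : ℕ} {f : F} (h : DivisibleDiv E m f) : HorDiv R m f := by
  intro V hV hVR
  refine h V hV (fun e => ?_)
  obtain ⟨a, b, hb, rfl⟩ := IsFractionRing.div_surjective (A := R) e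
  have hb0 : b ≠ 0 := nonZeroDivisors.ne_zero hb
  rw [map_div₀, ← IsScalarTower.algebraMap_apply, ← IsScalarTower.algebraMap_apply,
    div_eq_mul_inv]
  by_cases ha : a = 0
  · subst ha
    simp [V.zero_mem]
  · exact V.mul_mem _ _ (hVR a ha).1 (hVR b hb0).2

/-- **ALG from the leaves (route G).** -/
theorem algSS_of_leaves (hBase : BaseLeaf) (hRoot : RootLeaf) (hSheets : SheetsLeaf)
    (hRed : RedLeaf) (hConst : ConstLeaf) (hCount : CountLeaf) (hCover : CoverLeaf) :
    AlgSSStatement := by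
  intro R E F _ _ _ _ _ _ _ _ _ _ _ _ _ w hirr q m hq hqR hm hqm x hx hfin hconst Bf Bi hBf hBi
    cf ci sf si τ τE τR hτE hτR hτx hfo hτf hτi
  have ctx : SSCtx w q m x Bf Bi τ τE τR :=
    ⟨hirr, hq, hqR, hm, hqm, hx, hfin, hconst, hBf, hBi, ⟨cf⟩, ⟨ci⟩, sf, si, hτE, hτR, hτx, hfo,
      hτf, hτi⟩
  have B := hBase w q m x Bf Bi τ τE τR ctx
  have Rt := hRoot w q m x Bf Bi τ τE τR ctx
  have hinjRE : Function.Injective (algebraMap R E) := IsFractionRing.injective R E
  have hinj : Function.Injective (algebraMap R F) := by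
    rw [IsScalarTower.algebraMap_eq R E F]
    exact (algebraMap E F).injective.comp hinjRE
  have : CharZero F := charZero_of_injective_algebraMap (algebraMap E F).injective
  have hxR : Transcendental R x := hx.restrictScalars hinjRE
  have hw : Prime w := hirr.prime
  have hτRF : ∀ r, τ (algebraMap R F r) = algebraMap R F (τR r) := by
    intro r
    rw [IsScalarTower.algebraMap_apply R E F, hτE, hτR, ← IsScalarTower.algebraMap_apply]
  -- `w ∣ r ↔ r` is not a unit
  have hdvd : ∀ r : R, w ∣ r ↔ ¬ IsUnit r := by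
    intro r
    rw [← Ideal.mem_span_singleton, ← hirr.maximalIdeal_eq, IsLocalRing.mem_maximalIdeal,
      mem_nonunits_iff]
  have hτw : ∀ r, w ∣ r ↔ w ∣ τR r := by
    intro r
    rw [hdvd, hdvd]
    exact not_congr (MulEquiv.isUnit_map (τR : R ≃* R)).symm
  have hwunit : ∃ c d : R, τR w = w * c ∧ c * d = 1 := by
    obtain ⟨c, hc⟩ := (hτw w).1 dvd_rfl
    have hirr' : Irreducible (τR w) := (MulEquiv.irreducible_iff (τR : R ≃* R)).2 hirr
    rw [hc] at hirr'
    rcases hirr'.isUnit_or_isUnit rfl with h | h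
    · exact absurd h hirr.not_isUnit
    · obtain ⟨d, hd⟩ := h.exists_right_inv
      exact ⟨c, d, hc, hd⟩
  have hW0 : algebraMap R F w ≠ 0 := by
    intro h0
    exact hirr.ne_zero (hinj (by rw [h0, map_zero]))
  intro f hf hdiv
  have hHor : HorDiv R m f := horDiv_of_divisibleDiv hdiv
  have hτf0 : τ f ≠ 0 := fun h0 => hf ((map_eq_zero_iff τ τ.injective).1 h0)
  have hg0 : τ f / f ≠ 0 := div_ne_zero hτf0 hf
  have hgHor : HorDiv R m (τ f / f) := (hHor.map τ τR hτRF).div hHor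
  have hgSplit : ∀ V : ValuationSubring F, IsSheet w x V → SplitAt m V (τ f / f) :=
    fun V hV => splitAt_tauSubOne w x m hm τ τR hτRF hW0 hwunit Rt.unit_pow V hV
      (fun c hc => (B.stable V hV c).2 hc) (B.discrete V hV) f hf
  have hcov := hCover w q m x Bf Bi τ τE τR ctx (τ f / f) hg0 hgHor hgSplit
  obtain ⟨z, hz⟩ := algG w x m τ τR hinj hxR hw hm Rt.root hτx hτRF hτw B.stable B.exists_sheet
    (fun L _ _ _ _ h => hSheets w q m x Bf Bi τ τE τR ctx L h)
    (fun L _ _ _ _ h => hRed w q m x Bf Bi τ τE τR ctx L h)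
    (fun L _ _ _ _ h => hConst w q m x Bf Bi τ τE τR ctx L h)
    (fun L _ _ _ _ h => hCount w q m x Bf Bi τ τE τR ctx L h)
    (τ f / f) hg0 hcov
  have hz0 : z ≠ 0 := by
    rintro rfl
    rw [zero_pow hm.ne', zero_mul] at hz
    exact hg0 ((map_eq_zero_iff τ τ.injective).1 hz)
  refine ⟨z, hz0, ?_⟩
  rw [map_div₀] at hz
  field_simp at hz
  rw [hz]
  ring

end Fermat.Agent.A2.H12

end
-- ===== PACK-END A2/H12/AlgSS.lean

-- ===== PACK-BEGIN A2/IF/H429/Inertia.lean
section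





/-!
# A2 / IF (helper429): the inertia group of a valuation subring of `ℚ̄` and its fixed field

`P` a valuation subring of `ℚ̄` over a prime number `q`, `I = P.inertiaSubgroupIn ℚ`,
`E_I = ℚ̄^I` the inertia field.

* `valuation_map_eq`          : elements of the decomposition group preserve the valuation of `P`;
* `exists_inertia_apply_eq`   : an automorphism fixing `E_I` pointwise agrees, on each element of
                                `ℚ̄`, with some element of `I`;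
* `exists_zpow_of_mem_inertiaField` : every nonzero element of `E_I` is a unit times a power of
                                `q` (the inertia field is unramified).
-/

set_option autoImplicit false
set_option linter.style.haveILetI false
set_option linter.unusedSectionVars false

open scoped Pointwise
open NumberField IsDedekindDomain

namespace Fermat.Agent.A2.IF.H429

open Fermat.Agent.S55.Bridge Fermat.Agent.S55.Bridge.H594

attribute [local instance] isAlgebraic_Qbar isGalois_Qbar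

/-- `ℚ̄` (local abbreviation). -/
local notation "Qb" => AlgebraicClosure ℚ

variable (P : ValuationSubring Qb)

/-! ## Decomposition and inertia elements -/

theorem mem_of_mem_decomp {σ : Qb ≃ₐ[ℚ] Qb} (hσ : σ ∈ P.decompositionSubgroup ℚ) {x : Qb}
    (hx : x ∈ P) : σ x ∈ P :=
  ((mem_decompositionSubgroup_iff_forall P σ).mp hσ x).mpr hx

theorem mem_nonunits_of_mem_decomp {σ : Qb ≃ₐ[ℚ] Qb} (hσ : σ ∈ P.decompositionSubgroup ℚ)
    {x : Qb} (hx : x ∈ P.nonunits) : σ x ∈ P.nonunits := by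
  rw [ValuationSubring.mem_nonunits_iff_or] at hx ⊢
  rcases hx with rfl | hx
  · left; simp
  · right
    intro h
    apply hx
    rw [← map_inv₀] at h
    exact ((mem_decompositionSubgroup_iff_forall P σ).mp hσ _).mp h

theorem decomp_of_inertia {σ : Qb ≃ₐ[ℚ] Qb} (hσ : σ ∈ P.inertiaSubgroupIn ℚ) :
    σ ∈ P.decompositionSubgroup ℚ :=
  ((mem_inertiaSubgroupIn_iff_forall P σ).mp hσ).1

theorem sub_mem_nonunits_of_inertia {σ : Qb ≃ₐ[ℚ] Qb} (hσ : σ ∈ P.inertiaSubgroupIn ℚ)
    {x : Qb} (hx : x ∈ P) : σ x - x ∈ P.nonunits :=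
  ((mem_inertiaSubgroupIn_iff_forall P σ).mp hσ).2 x hx

/-- Elements of the decomposition group are strictly monotone for the valuation. -/
theorem valuation_map_lt {σ : Qb ≃ₐ[ℚ] Qb} (hσ : σ ∈ P.decompositionSubgroup ℚ) {a b : Qb}
    (h : P.valuation a < P.valuation b) : P.valuation (σ a) < P.valuation (σ b) := by
  have hb : b ≠ 0 := by
    rintro rfl
    simp at h
  have hbv : P.valuation b ≠ 0 := (Valuation.ne_zero_iff _).mpr hb
  have hσb : σ b ≠ 0 := by simpa using hb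
  have hσbv : P.valuation (σ b) ≠ 0 := (Valuation.ne_zero_iff _).mpr hσb
  have h1 : a / b ∈ P.nonunits := by
    rw [ValuationSubring.mem_nonunits_iff, map_div₀]
    exact (div_lt_one₀ (zero_lt_iff.mpr hbv)).mpr h
  have h2 := mem_nonunits_of_mem_decomp P hσ h1
  rw [ValuationSubring.mem_nonunits_iff, map_div₀, map_div₀] at h2
  exact (div_lt_one₀ (zero_lt_iff.mpr hσbv)).mp h2

theorem valuation_iterate_lt {σ : Qb ≃ₐ[ℚ] Qb} (hσ : σ ∈ P.decompositionSubgroup ℚ) {x : Qb}
    (h : P.valuation (σ x) < P.valuation x) (k : ℕ) :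
    P.valuation ((σ ^ (k + 1)) x) < P.valuation x := by
  induction k with
  | zero => simpa using h
  | succ k ih =>
    have h1 := valuation_map_lt P hσ ih
    have h2 : (σ ^ (k + 1 + 1)) x = σ ((σ ^ (k + 1)) x) := by
      rw [pow_succ' σ (k + 1)]; rfl
    rw [h2]
    exact h1.trans h

theorem valuation_iterate_gt {σ : Qb ≃ₐ[ℚ] Qb} (hσ : σ ∈ P.decompositionSubgroup ℚ) {x : Qb}
    (h : P.valuation x < P.valuation (σ x)) (k : ℕ) :
    P.valuation x < P.valuation ((σ ^ (k + 1)) x) := by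
  induction k with
  | zero => simpa using h
  | succ k ih =>
    have h1 := valuation_map_lt P hσ ih
    have h2 : (σ ^ (k + 1 + 1)) x = σ ((σ ^ (k + 1)) x) := by
      rw [pow_succ' σ (k + 1)]; rfl
    rw [h2]
    exact h.trans h1

/-- Every element of `ℚ̄` is fixed by a positive power of any automorphism. -/
theorem exists_pow_apply_eq (σ : Qb ≃ₐ[ℚ] Qb) (x : Qb) : ∃ k : ℕ, (σ ^ (k + 1)) x = x := by
  have hx : IsIntegral ℚ x := Algebra.IsIntegral.isIntegral x
  have hfin : ((minpoly ℚ x).rootSet Qb).Finite := Polynomial.rootSet_finite _ _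
  have hmem : ∀ i : ℕ, (σ ^ i) x ∈ (minpoly ℚ x).rootSet Qb := by
    intro i
    rw [Polynomial.mem_rootSet]
    refine ⟨minpoly.ne_zero hx, ?_⟩
    have := Polynomial.aeval_algHom_apply ((σ ^ i : Qb ≃ₐ[ℚ] Qb) : Qb →ₐ[ℚ] Qb) x (minpoly ℚ x)
    rw [minpoly.aeval, map_zero] at this
    exact this
  haveI : Finite ((minpoly ℚ x).rootSet Qb) := hfin
  obtain ⟨i, j, hij, h⟩ := Finite.exists_ne_map_eq_of_infinite
    (fun i : ℕ => (⟨(σ ^ i) x, hmem i⟩ : (minpoly ℚ x).rootSet Qb))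
  have h' : (σ ^ i) x = (σ ^ j) x := congrArg Subtype.val h
  wlog hlt : i < j generalizing i j
  · exact this j i hij.symm h.symm h'.symm (lt_of_le_of_ne (not_lt.mp hlt) hij.symm)
  obtain ⟨k, rfl⟩ : ∃ k, j = i + (k + 1) := ⟨j - i - 1, by omega⟩
  refine ⟨k, ?_⟩
  have h3 : (σ ^ (i + (k + 1))) x = (σ ^ i) ((σ ^ (k + 1)) x) := by
    rw [pow_add]; rfl
  rw [h3] at h'
  exact ((σ ^ i).injective h').symm

/-- Elements of the decomposition group preserve the valuation. -/
theorem valuation_map_eq {σ : Qb ≃ₐ[ℚ] Qb} (hσ : σ ∈ P.decompositionSubgroup ℚ) (x : Qb) :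
    P.valuation (σ x) = P.valuation x := by
  obtain ⟨k, hk⟩ := exists_pow_apply_eq σ x
  rcases lt_trichotomy (P.valuation (σ x)) (P.valuation x) with h | h | h
  · have := valuation_iterate_lt P hσ h k
    rw [hk] at this
    exact absurd this (lt_irrefl _)
  · exact h
  · have := valuation_iterate_gt P hσ h k
    rw [hk] at this
    exact absurd this (lt_irrefl _)

/-- Every finite set of algebraic numbers lies in a finite Galois extension of `ℚ` in `ℚ̄`. -/
theorem exists_finite_galois (S : Finset Qb) :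
    ∃ M : IntermediateField ℚ Qb, (∀ s ∈ S, s ∈ M) ∧ FiniteDimensional ℚ M ∧ IsGalois ℚ M := by
  let M₀ : IntermediateField ℚ Qb := IntermediateField.adjoin ℚ (S : Set Qb)
  haveI : FiniteDimensional ℚ M₀ :=
    IntermediateField.finiteDimensional_adjoin (fun x _ => Algebra.IsIntegral.isIntegral x)
  let M : IntermediateField ℚ Qb := IntermediateField.normalClosure ℚ M₀ Qb
  refine ⟨M, fun s hs => ?_, inferInstance, ?_⟩
  · have h1 : M₀ ≤ M := IntermediateField.le_normalClosure M₀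
    exact h1 (IntermediateField.subset_adjoin ℚ _ hs)
  · haveI : Normal ℚ Qb := IsGalois.to_normal
    haveI : Normal ℚ M := normalClosure.normal ℚ M₀ Qb
    exact ⟨⟩

/-- The inertia field of `P`. -/
noncomputable def inertiaField : IntermediateField ℚ Qb :=
  IntermediateField.fixedField (P.inertiaSubgroupIn ℚ)

theorem mem_inertiaField_iff {x : Qb} :
    x ∈ inertiaField P ↔ ∀ τ ∈ P.inertiaSubgroupIn ℚ, τ x = x := by
  unfold inertiaField
  rw [IntermediateField.mem_fixedField_iff]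

/-- **Lemma A.**  An automorphism fixing the inertia field pointwise agrees, on each element,
with some element of the inertia group. -/
theorem exists_inertia_apply_eq (σ : Qb ≃ₐ[ℚ] Qb) (hσ : ∀ e ∈ inertiaField P, σ e = e)
    (x : Qb) : ∃ τ ∈ P.inertiaSubgroupIn ℚ, σ x = τ x := by
  obtain ⟨M, hxM, hfin, hgal⟩ := exists_finite_galois {x}
  have hx : x ∈ M := hxM x (Finset.mem_singleton_self x)
  let H : Subgroup (M ≃ₐ[ℚ] M) := (P.inertiaSubgroupIn ℚ).map (AlgEquiv.restrictNormalHom M)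
  have hmem : AlgEquiv.restrictNormalHom M σ ∈ H := by
    rw [← IntermediateField.fixingSubgroup_fixedField H]
    rw [IntermediateField.mem_fixingSubgroup_iff]
    intro y hy
    apply Subtype.ext
    rw [restrictNormalHom_apply]
    apply hσ
    rw [mem_inertiaField_iff]
    intro τ hτ
    rw [IntermediateField.mem_fixedField_iff] at hy
    have h1 := hy (AlgEquiv.restrictNormalHom M τ) ⟨τ, hτ, rfl⟩
    rw [← restrictNormalHom_apply M τ y, h1]
  obtain ⟨τ, hτ, hτσ⟩ := hmem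
  refine ⟨τ, hτ, ?_⟩
  have h1 := restrictNormalHom_apply M σ ⟨x, hx⟩
  have h2 := restrictNormalHom_apply M τ ⟨x, hx⟩
  rw [← hτσ] at h1
  exact h1.symm.trans h2


/-- **The inertia field is unramified**: every nonzero element of the inertia field is a unit of
`P` times a power of `q`. -/
theorem exists_zpow_of_mem_inertiaField (q : ℕ) (hq : q.Prime) (hP : P.LiesOverPrime q)
    (y : Qb) (hy : y ∈ inertiaField P) (hy0 : y ≠ 0) :
    ∃ k : ℤ, P.valuation (y / (q : Qb) ^ k) = 1 := by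
  obtain ⟨M, hyM, hfin, hgal⟩ := exists_finite_galois {y}
  have hyM' : y ∈ M := hyM y (Finset.mem_singleton_self y)
  haveI : NumberField M := numberField_of_finite M
  have hne : Fermat.Agent.S14.H937.primeOf M P ≠ ⊥ :=
    Fermat.Agent.S14.H937.primeOf_ne_bot M P q hq hP
  let w : HeightOneSpectrum (𝓞 M) := ⟨Fermat.Agent.S14.H937.primeOf M P, inferInstance, hne⟩
  have hw : w.asIdeal = Fermat.Agent.S14.H937.primeOf M P := rfl
  have hqw : (q : 𝓞 M) ∈ w.asIdeal := Fermat.Agent.S14.H937.natCast_mem_primeOf M P q hP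
  have hfix : ∀ τ ∈ w.asIdeal.inertia Gal(M/ℚ), τ (⟨y, hyM'⟩ : M) = ⟨y, hyM'⟩ := by
    intro τ hτ
    obtain ⟨σ, hσ, hστ⟩ := exists_inertia_lift M P hq hP τ (fun x hx => by
      obtain ⟨x', rfl⟩ : ∃ x' : 𝓞 M, algebraMap (𝓞 M) M x' = x := ⟨⟨x, hx⟩, rfl⟩
      have h2 : τ • x' - x' ∈ Fermat.Agent.S14.H937.primeOf M P := hτ x'
      exact (Fermat.Agent.S14.H937.mem_primeOf M P _).mp h2)
    apply Subtype.ext
    rw [← hστ, restrictNormalHom_apply]
    exact (mem_inertiaField_iff P).mp hy σ hσ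
  obtain ⟨k, hk⟩ := exists_zpow_valuation_eq_one_of_fixed M w q hq hqw ⟨y, hyM'⟩
    (fun h => hy0 (congrArg Subtype.val h)) hfix
  refine ⟨k, ?_⟩
  have h1 := Fermat.Agent.S14.H937.valuation_eq_one_of M P w hw _ hk
  rw [map_div₀, map_zpow₀, map_natCast] at h1
  exact h1


end Fermat.Agent.A2.IF.H429

end
-- ===== PACK-END A2/IF/H429/Inertia.lean

-- ===== PACK-BEGIN Ribet/H403/NodeSlopeFrac.lean
section


/-!
# RIBET, wall at `p`, leaf CT2 = P-NODE, fraction field form (helper403)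

Setting of `Fermat.Agent.Ribet.H403.NodeSlope`: a node `X Y = ε π ^ n` with branches `𝔭₁ ∋ X`,
`𝔭₂ ∋ Y` in a noetherian local integrally closed domain `R`, `K = Frac R`.

For `u ∈ Kˣ` with
* `v_{𝔭₁}(u) = k₁` : `u b₁ = π ^ k₁ a₁`, `a₁ b₁ ∉ 𝔭₁`, `k₁ : ℤ`,
* `v_{𝔭₂}(u) = k₂` : `u b₂ = π ^ k₂ a₂`, `a₂ b₂ ∉ 𝔭₂`, `k₂ : ℤ`,
* slope on the branch `𝔭₂` : `ord (a₂ mod 𝔭₂) - ord (b₂ mod 𝔭₂) = sa - sb`,
* (H1) `u` is an `m`-th power up to units at every horizontal prime (`π ∉ P`), in the form of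
  `H672.node_purity_frac`,

`node_slope_frac_403` :  `n * (sa - sb) ≡ k₁ - k₂  (mod m)`  if `m` is prime to `n`;
`node_slope_frac_eq_403` :  `n * (sa - sb) = k₁ - k₂` if `u` is a unit at every horizontal prime.

Also: `exists_val_403` (every nonzero element of `R` has a `𝔭₁`-adic valuation with respect
to `π`: `R_{𝔭₁}` is a discrete valuation ring with uniformiser `π`).
-/

set_option autoImplicit false
set_option linter.unusedSectionVars false
set_option linter.style.haveILetI false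

namespace Fermat.Agent.Ribet.H403

open IsLocalRing Fermat.Agent.A2

section val

variable {R : Type*} [CommRing R] [IsDomain R] [IsNoetherianRing R]
variable (𝔭₁ 𝔭₂ : Ideal R) [𝔭₁.IsPrime] [𝔭₂.IsPrime]

/-- Krull: if `Y ^ β r ∈ (π ^ β)` for all `β`, with `Y ∉ 𝔭₁ ∋ π`, then `r = 0`. -/
theorem eq_zero_of_forall_pow_dvd_403 {π Y : R} (hπ₁ : π ∈ 𝔭₁) (hY₁ : Y ∉ 𝔭₁) {r : R}
    (h : ∀ β : ℕ, π ^ β ∣ Y ^ β * r) : r = 0 := by
  let L := Localization.AtPrime 𝔭₁
  haveI : IsNoetherianRing L := IsLocalization.isNoetherianRing 𝔭₁.primeCompl L inferInstance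
  have hinj : Function.Injective (algebraMap R L) :=
    IsLocalization.injective L 𝔭₁.primeCompl_le_nonZeroDivisors
  have hYu : IsUnit (algebraMap R L Y) :=
    IsLocalization.map_units L (⟨Y, hY₁⟩ : 𝔭₁.primeCompl)
  have hI : Ideal.span {algebraMap R L π} ≠ ⊤ := by
    intro htop
    rw [Ideal.span_singleton_eq_top] at htop
    exact (IsLocalization.AtPrime.isUnit_to_map_iff L 𝔭₁ π).mp htop hπ₁
  have hmem : algebraMap R L r ∈ ⨅ i : ℕ, Ideal.span {algebraMap R L π} ^ i := by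
    rw [Ideal.mem_iInf]
    intro β
    rw [Ideal.span_singleton_pow, Ideal.mem_span_singleton]
    obtain ⟨t, ht⟩ := h β
    have h1 : algebraMap R L Y ^ β * algebraMap R L r
        = algebraMap R L π ^ β * algebraMap R L t := by
      rw [← map_pow, ← map_pow, ← map_mul, ← map_mul, ht]
    have h2 : algebraMap R L π ^ β ∣ algebraMap R L Y ^ β * algebraMap R L r :=
      Dvd.intro _ h1.symm
    exact ((hYu.pow β).dvd_mul_left).mp h2
  rw [Ideal.iInf_pow_eq_bot_of_isDomain _ hI, Ideal.mem_bot] at hmem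
  exact hinj (by rw [hmem, map_zero])

/-- Every nonzero `r ∈ R` has a `𝔭₁`-adic valuation with respect to `π`:
`σ r = τ π ^ β` with `σ, τ ∉ 𝔭₁`. -/
theorem exists_val_403 {π Y : R} (hπ : Ideal.span {π} = 𝔭₁ ⊓ 𝔭₂) (hY₂ : Y ∈ 𝔭₂) (hY₁ : Y ∉ 𝔭₁)
    {r : R} (hr : r ≠ 0) :
    ∃ (β : ℕ) (σ τ : R), σ ∉ 𝔭₁ ∧ τ ∉ 𝔭₁ ∧ σ * r = τ * π ^ β := by
  have hπ₁ : π ∈ 𝔭₁ := by
    have : π ∈ 𝔭₁ ⊓ 𝔭₂ := hπ ▸ Ideal.mem_span_singleton_self π
    exact this.1
  have hex : ∃ β : ℕ, ¬ π ^ β ∣ Y ^ β * r := by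
    by_contra hcon
    refine hr (eq_zero_of_forall_pow_dvd_403 𝔭₁ hπ₁ hY₁ fun β => ?_)
    by_contra h
    exact hcon ⟨β, h⟩
  classical
  let β₀ := Nat.find hex
  have hβ₀ : ¬ π ^ β₀ ∣ Y ^ β₀ * r := Nat.find_spec hex
  have hpos : β₀ ≠ 0 := by
    intro h0
    apply hβ₀
    rw [h0, pow_zero]
    exact one_dvd _
  obtain ⟨β, hβ⟩ : ∃ β, β₀ = β + 1 := ⟨β₀ - 1, by omega⟩
  have hβ' : π ^ β ∣ Y ^ β * r := by
    by_contra hcon
    have := Nat.find_min' hex hcon
    omega
  obtain ⟨t, ht⟩ := hβ'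
  refine ⟨β, Y ^ β, t, fun h => hY₁ (Ideal.IsPrime.mem_of_pow_mem inferInstance β h), ?_, ?_⟩
  · intro ht₁
    apply hβ₀
    have h1 : Y * t ∈ 𝔭₁ ⊓ 𝔭₂ := ⟨𝔭₁.mul_mem_left _ ht₁, 𝔭₂.mul_mem_right _ hY₂⟩
    rw [← hπ, Ideal.mem_span_singleton] at h1
    obtain ⟨t', ht'⟩ := h1
    rw [hβ]
    refine ⟨t', ?_⟩
    have : Y ^ (β + 1) * r = Y * (Y ^ β * r) := by ring
    rw [this, ht, pow_succ]
    have : Y * (π ^ β * t) = π ^ β * (Y * t) := by ring
    rw [this, ht']
    ring
  · rw [ht]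
    ring

end val

section frac

variable {R : Type*} [CommRing R] [IsDomain R] [IsIntegrallyClosed R] [IsNoetherianRing R]
  [IsLocalRing R]
variable (K : Type*) [Field K] [Algebra R K] [IsFractionRing R K]
variable (𝔭₁ 𝔭₂ : Ideal R) [𝔭₁.IsPrime] [𝔭₂.IsPrime]
  [IsDiscreteValuationRing (R ⧸ 𝔭₁)] [IsDiscreteValuationRing (R ⧸ 𝔭₂)]

/-- Node-slope relation in the fraction field, normalised to `v_{𝔭₂}(u) = 0`. -/
theorem node_slope_frac_aux_403 {π X Y ε : R} {n : ℕ} (hπ0 : π ≠ 0)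
    (hπ : Ideal.span {π} = 𝔭₁ ⊓ 𝔭₂)
    (hX : Irreducible (Ideal.Quotient.mk 𝔭₂ X))
    (hY₂ : Y ∈ 𝔭₂) (hY : Irreducible (Ideal.Quotient.mk 𝔭₁ Y)) (hε : IsUnit ε)
    (hXY : X * Y = ε * π ^ n) {m : ℕ} (hm : 0 < m) (hnm : Nat.Coprime n m) (u : K)
    {a₁ b₁ : R} {k : ℤ} (ha₁ : a₁ ∉ 𝔭₁) (hb₁ : b₁ ∉ 𝔭₁)
    (h₁ : u * algebraMap R K b₁ = algebraMap R K π ^ k * algebraMap R K a₁)
    {a₂ b₂ : R} (hb₂ : b₂ ∉ 𝔭₂) (h₂ : u * algebraMap R K b₂ = algebraMap R K a₂)
    {sa sb : ℕ} {εa εb : (R ⧸ 𝔭₂)ˣ}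
    (hsa : Ideal.Quotient.mk 𝔭₂ a₂ = εa * (Ideal.Quotient.mk 𝔭₂ X) ^ sa)
    (hsb : Ideal.Quotient.mk 𝔭₂ b₂ = εb * (Ideal.Quotient.mk 𝔭₂ X) ^ sb)
    (hloc : ∀ P : Ideal R, P.IsPrime → π ∉ P → ∃ (z : K) (s₁ s₂ : R), s₁ ∉ P ∧ s₂ ∉ P ∧
      algebraMap R K s₁ * u = algebraMap R K s₂ * z ^ m) :
    (n : ℤ) * ((sa : ℤ) - sb) ≡ k [ZMOD (m : ℤ)] := by
  have hinj : Function.Injective (algebraMap R K) := IsFractionRing.injective R K
  have hπK : algebraMap R K π ≠ 0 := by rwa [Ne, map_eq_zero_iff _ hinj]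
  have hY₁ : Y ∉ 𝔭₁ := fun h => hY.ne_zero (Ideal.Quotient.eq_zero_iff_mem.mpr h)
  obtain ⟨m', rfl⟩ : ∃ m', m = m' + 1 := ⟨m - 1, by omega⟩
  -- the numerator `U = u b₂ ^ m`
  set U : R := a₂ * b₂ ^ m' with hU
  have hUK : algebraMap R K U = u * algebraMap R K b₂ ^ (m' + 1) := by
    rw [hU, map_mul, map_pow, ← h₂, pow_succ]
    ring
  have hsU : Ideal.Quotient.mk 𝔭₂ U
      = ((εa * εb ^ m' : (R ⧸ 𝔭₂)ˣ) : R ⧸ 𝔭₂) * (Ideal.Quotient.mk 𝔭₂ X) ^ (sa + m' * sb) := by
    rw [hU, map_mul, map_pow, hsa, hsb, Units.val_mul, Units.val_pow_eq_pow_val]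
    ring
  -- (H1) for `U`
  have H1U : ∀ P : Ideal R, P.IsPrime → U ∈ P → π ∉ P →
      ∃ z σ : R, σ ∉ P ∧ z ^ (m' + 1) = σ * U := by
    intro P hP _ hπP
    obtain ⟨z, s₁, s₂, hs₁, hs₂, hz⟩ := hloc P hP hπP
    have hw : (algebraMap R K s₂ * (z * algebraMap R K b₂)) ^ (m' + 1)
        = algebraMap R K (s₂ ^ m' * s₁ * U) := by
      rw [map_mul, map_mul, map_pow, hUK]
      have : (algebraMap R K s₂ * (z * algebraMap R K b₂)) ^ (m' + 1)
          = algebraMap R K s₂ ^ m' * (algebraMap R K s₂ * z ^ (m' + 1))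
            * algebraMap R K b₂ ^ (m' + 1) := by
        rw [mul_pow, mul_pow, pow_succ (algebraMap R K s₂) m']
        ring
      rw [this, ← hz]
      ring
    have hint : IsIntegral R ((algebraMap R K s₂ * (z * algebraMap R K b₂)) ^ (m' + 1)) := by
      rw [hw]
      exact isIntegral_algebraMap
    obtain ⟨y, hy⟩ := IsIntegrallyClosed.exists_algebraMap_eq_of_isIntegral_pow
      (Nat.succ_pos m') hint
    refine ⟨y, s₂ ^ m' * s₁, ?_, ?_⟩
    · intro h
      rcases Ideal.IsPrime.mem_or_mem hP h with h1 | h1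
      · exact hs₂ (hP.mem_of_pow_mem m' h1)
      · exact hs₁ h1
    · apply hinj
      rw [map_pow, hy, hw]
  -- the `𝔭₁`-adic valuation of `U`
  have hb₂0 : b₂ ≠ 0 := by
    rintro rfl
    exact hb₂ 𝔭₂.zero_mem
  obtain ⟨β, σb, τb, hσb, hτb, hb⟩ := exists_val_403 𝔭₁ 𝔭₂ hπ hY₂ hY₁ hb₂0
  have hbK : algebraMap R K σb * algebraMap R K b₂ = algebraMap R K τb * algebraMap R K π ^ β := by
    rw [← map_mul, hb, map_mul, map_pow]
  have hrel : algebraMap R K (b₁ * σb ^ (m' + 1) * U)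
      = algebraMap R K π ^ (k + ((m' + 1 : ℕ) : ℤ) * β)
        * algebraMap R K (a₁ * τb ^ (m' + 1)) := by
    have e1 : algebraMap R K (b₁ * σb ^ (m' + 1) * U)
        = (u * algebraMap R K b₁) * (algebraMap R K σb * algebraMap R K b₂) ^ (m' + 1) := by
      rw [map_mul, map_mul, map_pow, hUK]
      ring
    rw [e1, h₁, hbK, map_mul, map_pow, zpow_add₀ hπK, mul_pow, ← pow_mul]
    have e2 : algebraMap R K π ^ (((m' + 1 : ℕ) : ℤ) * (β : ℤ))
        = algebraMap R K π ^ (β * (m' + 1)) := by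
      rw [← zpow_natCast]
      congr 1
      push_cast
      ring
    rw [e2]
    ring
  have hσ₀ : b₁ * σb ^ (m' + 1) ∉ 𝔭₁ := by
    intro h
    rcases Ideal.IsPrime.mem_or_mem inferInstance h with h1 | h1
    · exact hb₁ h1
    · exact hσb (Ideal.IsPrime.mem_of_pow_mem inferInstance _ h1)
  have hτ₀ : a₁ * τb ^ (m' + 1) ∉ 𝔭₁ := by
    intro h
    rcases Ideal.IsPrime.mem_or_mem inferInstance h with h1 | h1
    · exact ha₁ h1
    · exact hτb (Ideal.IsPrime.mem_of_pow_mem inferInstance _ h1)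
  have hπ₁ : π ∈ 𝔭₁ := by
    have : π ∈ 𝔭₁ ⊓ 𝔭₂ := hπ ▸ Ideal.mem_span_singleton_self π
    exact this.1
  -- the exponent is nonnegative
  have hc0 : 0 ≤ k + ((m' + 1 : ℕ) : ℤ) * β := by
    by_contra hneg
    rw [not_le] at hneg
    obtain ⟨e, he⟩ : ∃ e : ℕ, k + ((m' + 1 : ℕ) : ℤ) * β = -((e + 1 : ℕ) : ℤ) :=
      ⟨(-(k + ((m' + 1 : ℕ) : ℤ) * β)).toNat - 1, by omega⟩
    rw [he, zpow_neg, zpow_natCast] at hrel
    have h3 : algebraMap R K (b₁ * σb ^ (m' + 1) * U * π ^ (e + 1))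
        = algebraMap R K (a₁ * τb ^ (m' + 1)) := by
      rw [map_mul (algebraMap R K) (b₁ * σb ^ (m' + 1) * U), hrel, map_pow]
      field_simp
    have h4 := hinj h3
    apply hτ₀
    rw [← h4]
    exact 𝔭₁.mul_mem_left _ (Ideal.pow_mem_of_mem _ hπ₁ _ (Nat.succ_pos e))
  obtain ⟨c, hc⟩ := Int.eq_ofNat_of_zero_le hc0
  have hcR : b₁ * σb ^ (m' + 1) * U = a₁ * τb ^ (m' + 1) * π ^ c := by
    apply hinj
    rw [hrel, hc, zpow_natCast, map_mul (algebraMap R K) (a₁ * τb ^ (m' + 1)), map_pow]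
    ring
  have hcore := node_slope_modEq_403 𝔭₁ 𝔭₂ hπ0 hπ hX hY₂ hY hε hXY hsU hm hnm H1U hσ₀ hτ₀ hcR
  rw [Int.modEq_iff_dvd] at hcore ⊢
  have e3 : k - (n : ℤ) * ((sa : ℤ) - sb)
      = ((c : ℤ) - ((n * (sa + m' * sb) : ℕ) : ℤ))
        + ((m' + 1 : ℕ) : ℤ) * ((n : ℤ) * sb - β) := by
    have hc' : (c : ℤ) = k + ((m' + 1 : ℕ) : ℤ) * β := hc.symm
    rw [hc']
    push_cast
    ring
  rw [e3]
  exact dvd_add hcore (Dvd.intro _ rfl)

/-- **CT2 / P-NODE, fraction field form.**  `v_{𝔭₁}(u) - v_{𝔭₂}(u) ≡ n · slope (mod m)` for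
`u ∈ K` which is an `m`-th power up to units at every horizontal prime, `m` prime to the
thickness `n`. -/
theorem node_slope_frac_403 {π X Y ε : R} {n : ℕ} (hπ0 : π ≠ 0)
    (hπ : Ideal.span {π} = 𝔭₁ ⊓ 𝔭₂)
    (hX : Irreducible (Ideal.Quotient.mk 𝔭₂ X))
    (hY₂ : Y ∈ 𝔭₂) (hY : Irreducible (Ideal.Quotient.mk 𝔭₁ Y)) (hε : IsUnit ε)
    (hXY : X * Y = ε * π ^ n) {m : ℕ} (hm : 0 < m) (hnm : Nat.Coprime n m) (u : K)
    {a₁ b₁ : R} {k₁ : ℤ} (ha₁ : a₁ ∉ 𝔭₁) (hb₁ : b₁ ∉ 𝔭₁)
    (h₁ : u * algebraMap R K b₁ = algebraMap R K π ^ k₁ * algebraMap R K a₁)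
    {a₂ b₂ : R} {k₂ : ℤ} (hb₂ : b₂ ∉ 𝔭₂)
    (h₂ : u * algebraMap R K b₂ = algebraMap R K π ^ k₂ * algebraMap R K a₂)
    {sa sb : ℕ} {εa εb : (R ⧸ 𝔭₂)ˣ}
    (hsa : Ideal.Quotient.mk 𝔭₂ a₂ = εa * (Ideal.Quotient.mk 𝔭₂ X) ^ sa)
    (hsb : Ideal.Quotient.mk 𝔭₂ b₂ = εb * (Ideal.Quotient.mk 𝔭₂ X) ^ sb)
    (hloc : ∀ P : Ideal R, P.IsPrime → π ∉ P → ∃ (z : K) (s₁ s₂ : R), s₁ ∉ P ∧ s₂ ∉ P ∧
      algebraMap R K s₁ * u = algebraMap R K s₂ * z ^ m) :
    (n : ℤ) * ((sa : ℤ) - sb) ≡ k₁ - k₂ [ZMOD (m : ℤ)] := by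
  have hinj : Function.Injective (algebraMap R K) := IsFractionRing.injective R K
  have hπK : algebraMap R K π ≠ 0 := by rwa [Ne, map_eq_zero_iff _ hinj]
  refine node_slope_frac_aux_403 K 𝔭₁ 𝔭₂ hπ0 hπ hX hY₂ hY hε hXY hm hnm
    (u * algebraMap R K π ^ (-k₂)) ha₁ hb₁ ?_ hb₂ ?_ hsa hsb ?_
  · rw [mul_right_comm, h₁, sub_eq_add_neg, zpow_add₀ hπK]
    ring
  · rw [mul_right_comm, h₂, mul_right_comm, ← zpow_add₀ hπK, add_neg_cancel, zpow_zero, one_mul]
  · intro P hP hπP
    obtain ⟨z, s₁, s₂, hs₁, hs₂, hz⟩ := hloc P hP hπP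
    rcases Int.eq_nat_or_neg k₂ with ⟨j, rfl | rfl⟩
    · refine ⟨z, s₁ * π ^ j, s₂, ?_, hs₂, ?_⟩
      · intro h
        rcases Ideal.IsPrime.mem_or_mem hP h with h1 | h1
        · exact hs₁ h1
        · exact hπP (hP.mem_of_pow_mem j h1)
      · rw [map_mul, map_pow, ← hz, zpow_neg, zpow_natCast]
        field_simp
    · refine ⟨z, s₁, s₂ * π ^ j, hs₁, ?_, ?_⟩
      · intro h
        rcases Ideal.IsPrime.mem_or_mem hP h with h1 | h1
        · exact hs₂ h1
        · exact hπP (hP.mem_of_pow_mem j h1)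
      · rw [map_mul, map_pow, neg_neg, zpow_natCast, ← mul_assoc, hz]
        ring

end frac

end Fermat.Agent.Ribet.H403

end
-- ===== PACK-END Ribet/H403/NodeSlopeFrac.lean

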