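import Fermat.Agent.Pack.S44C.G0E19L3
import Fermat.Agent.Pack.S44C.G0E0L3
import Fermat.Agent.Pack.S44C.G1E0L0
import Fermat.Agent.Pack.S44C.G0E7L2
import Fermat.Agent.Pack.S44C.G0E19L1
import Fermat.Agent.Pack.S44C.G0E19L0
import Fermat.Agent.Pack.S44C.G0E19L2
import Fermat.Agent.Pack.S44C.G0E7L1
import Fermat.Agent.Pack.S44C.G0E18L1
import Fermat.Agent.Pack.S44C.G0E17L3
import Fermat.Agent.Pack.S44C.G0E3L1
import Fermat.Agent.Pack.S44C.G0E18L3
import Fermat.Agent.Pack.S44C.G0E12L1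
import Fermat.Agent.Pack.S44C.G0E9L2
import Fermat.Agent.Pack.S44C.G0E17L1
import Fermat.Agent.Pack.S44C.G0E17L0
import Fermat.Agent.Pack.S44C.G0E17L2
import Fermat.Agent.Pack.S44C.G0E18L2
import Fermat.Agent.Pack.S44C.G0E15L1
import Fermat.Agent.Pack.Fast891

-- ===== PACK-BEGIN Lib/NormL/DS.lean
section


/-!
# `NormL`, block DS: domination of differences of the signed summand `GS`, coset lemma
-/

namespace Fermat.Agent.Lib.NormL

open NumberField NumberField.mixedEmbedding Fermat.Agent.S14.H74 Module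
open scoped Classical

variable (K : Type*) [Field K] [NumberField K]

/-- The sign twist. -/
noncomputable def theta (ε : Bool) (x : 𝓞 K) : ℝ :=
  if ε then (((Algebra.norm ℤ x).sign : ℤ) : ℝ) else 1

variable {K}

theorem GS_eq (ε : Bool) (s : ℝ) (x : 𝓞 K) : GS K ε s x = FS K s x * theta K ε x := rfl

theorem abs_theta_le_one (ε : Bool) (x : 𝓞 K) : |theta K ε x| ≤ 1 := by
  unfold theta
  split_ifs
  · rcases lt_trichotomy (Algebra.norm ℤ x) 0 with h | h | h
    · rw [Int.sign_eq_neg_one_of_neg h]; simp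
    · rw [h]; simp
    · rw [Int.sign_eq_one_of_pos h]; simp
  · simp

theorem abs_GS_le (ε : Bool) (s : ℝ) (x : 𝓞 K) : |GS K ε s x| ≤ FS K s x := by
  rw [GS_eq, abs_mul, abs_of_nonneg (FS_nonneg s x)]
  exact mul_le_of_le_one_right (FS_nonneg s x) (abs_theta_le_one ε x)

theorem summable_GS (ε : Bool) {s : ℝ} (hs : 1 < s) : Summable (GS K ε s) :=
  Summable.of_norm_bounded (summable_FS (K := K) hs) fun x ↦ by
    rw [Real.norm_eq_abs]
    exact abs_GS_le ε s x

theorem continuous_FS (x : 𝓞 K) : Continuous fun s : ℝ ↦ FS K s x := by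
  by_cases hx : x = 0
  · subst hx
    simp only [FS_zero]
    exact continuous_const
  · have h1 := one_le_mixedEmbedding_norm hx
    have h0 : mixedEmbedding.norm (mixedEmbedding K (x : K)) ≠ 0 := by linarith
    unfold FS fS
    exact continuous_const.mul ((Real.continuous_const_rpow h0).comp continuous_neg)

theorem continuous_GS (ε : Bool) (x : 𝓞 K) : Continuous fun s : ℝ ↦ GS K ε s x := by
  simp only [GS_eq]
  exact (continuous_FS x).mul continuous_const

theorem FS_eq_zero_of_rho_eq_zero {s : ℝ} {x : 𝓞 K}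
    (h : rho K (mixedEmbedding K (x : K)) = 0) : FS K s x = 0 :=
  fS_eq_zero_of_rho_eq_zero h

/-- On the support of `rho`, far from the origin, the sign twist is stable. -/
theorem theta_add_eq {A : ℝ} (hA1 : 1 ≤ A)
    (hA : ∀ x : mixedSpace K, rho K x ≠ 0 → ∀ w, ‖x‖ ≤ A * normAtPlace w x) (ε : Bool)
    {y t : 𝓞 K} (hρ : rho K (mixedEmbedding K (y : K)) ≠ 0) (hy : A * mnorm K t < mnorm K y) :
    theta K ε (y + t) = theta K ε y := by
  unfold theta
  split_ifs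
  · congr 1
    apply sign_norm_add_eq
    intro w
    have h1 := hA _ hρ w
    rw [normAtPlace_apply] at h1
    have h2 : w (t : K) ≤ mnorm K t := by
      have := normAtPlace_le_norm w (mixedEmbedding K (t : K))
      rwa [normAtPlace_apply] at this
    have hA0 : 0 < A := by linarith
    have h3 : A * w (t : K) ≤ A * mnorm K t := mul_le_mul_of_nonneg_left h2 hA0.le
    have h4 : A * w (t : K) < A * w (y : K) := by
      unfold mnorm at hy h3
      linarith
    exact lt_of_mul_lt_mul_left h4 hA0.le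
  · rfl

/-- Signed version of helper74's `exists_dominating`. -/
theorem exists_dominating_GS (ε : Bool) (t : 𝓞 K) : ∃ g : 𝓞 K → ℝ, Summable g ∧
    (∀ y, 0 ≤ g y) ∧
    ∀ s : ℝ, 1 ≤ s → s ≤ 2 → ∀ y : 𝓞 K, |GS K ε s (y + t) - GS K ε s y| ≤ g y := by
  obtain ⟨g, hg, hg0, hgb⟩ := exists_dominating (K := K) t
  obtain ⟨A, hA1, hA⟩ := exists_support_bound (K := K)
  have hA0 : 0 < A := by linarith
  set n : ℕ := finrank ℚ K with hn
  set R : ℝ := A * mnorm K t with hR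
  have hR0 : 0 ≤ R := mul_nonneg hA0.le (mnorm_nonneg t)
  have hsum : Summable fun y : 𝓞 K ↦ mnorm K y ^ (-((n : ℝ) + 1)) :=
    summable_mnorm_rpow (by rw [neg_lt_neg_iff]; linarith)
  refine ⟨fun y ↦ g y + 2 * R ^ (n + 1) * mnorm K y ^ (-((n : ℝ) + 1)) +
      if y = 0 then 2 else 0,
    (hg.add (hsum.mul_left _)).add (hasSum_ite_eq 0 (2 : ℝ)).summable, fun y ↦ ?_,
    fun s hs1 hs2 y ↦ ?_⟩
  · have h1 : 0 ≤ mnorm K y ^ (-((n : ℝ) + 1)) := Real.rpow_nonneg (mnorm_nonneg y) _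
    have h2 : (0 : ℝ) ≤ if y = 0 then 2 else 0 := by split_ifs <;> norm_num
    have h3 := hg0 y
    show 0 ≤ g y + 2 * R ^ (n + 1) * mnorm K y ^ (-((n : ℝ) + 1)) + if y = 0 then 2 else 0
    positivity
  · have hs0 : (0 : ℝ) ≤ s := by linarith
    show |GS K ε s (y + t) - GS K ε s y| ≤
      g y + 2 * R ^ (n + 1) * mnorm K y ^ (-((n : ℝ) + 1)) + if y = 0 then 2 else 0
    have hb := hgb s hs1 hs2 y
    have h1 : 0 ≤ 2 * R ^ (n + 1) * mnorm K y ^ (-((n : ℝ) + 1)) :=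
      mul_nonneg (by positivity) (Real.rpow_nonneg (mnorm_nonneg y) _)
    have h2 : (0 : ℝ) ≤ if y = 0 then 2 else 0 := by split_ifs <;> norm_num
    by_cases hρ : rho K (mixedEmbedding K (y : K)) = 0
    · have hF : FS K s y = 0 := FS_eq_zero_of_rho_eq_zero hρ
      have hG : GS K ε s y = 0 := by rw [GS_eq, hF, zero_mul]
      rw [hG, sub_zero]
      rw [hF, sub_zero, abs_of_nonneg (FS_nonneg s _)] at hb
      have := abs_GS_le ε s (y + t)
      linarith
    · by_cases hy : R < mnorm K y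
      · have hθ := theta_add_eq hA1 hA ε hρ hy
        have e : GS K ε s (y + t) - GS K ε s y =
            (FS K s (y + t) - FS K s y) * theta K ε y := by
          rw [GS_eq, GS_eq, hθ]
          ring
        rw [e, abs_mul]
        have := mul_le_of_le_one_right (abs_nonneg (FS K s (y + t) - FS K s y))
          (abs_theta_le_one ε y)
        linarith
      · have hy' : mnorm K y ≤ R := not_lt.mp hy
        have a1 := abs_GS_le ε s (y + t)
        have a2 := abs_GS_le ε s y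
        have a3 := FS_le_one hs0 (y + t)
        have a4 := FS_le_one hs0 y
        have h3 : |GS K ε s (y + t) - GS K ε s y| ≤ 2 := by
          have := abs_sub (GS K ε s (y + t)) (GS K ε s y)
          linarith
        by_cases hy0 : y = 0
        · rw [if_pos hy0]
          have := hg0 y
          linarith
        · rw [if_neg hy0, add_zero]
          have hm : 0 < mnorm K y := lt_of_le_of_ne (mnorm_nonneg y) (Ne.symm (by
            rwa [Ne, mnorm_eq_zero_iff]))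
          have e : mnorm K y ^ (-((n : ℝ) + 1)) = 1 / mnorm K y ^ (n + 1) := by
            rw [Real.rpow_neg hm.le, one_div]
            congr 1
            exact_mod_cast Real.rpow_natCast (mnorm K y) (n + 1)
          have h4 : 2 ≤ 2 * R ^ (n + 1) * mnorm K y ^ (-((n : ℝ) + 1)) := by
            rw [e, mul_one_div, le_div_iff₀ (by positivity)]
            have : mnorm K y ^ (n + 1) ≤ R ^ (n + 1) := pow_le_pow_left₀ hm.le hy' _
            linarith
          have := hg0 y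
          linarith

/-- **Coset lemma**: the difference of the sums of `GS` over two cosets of an ideal `Λ`
extends continuously to `[1, 2]`. -/
theorem exists_continuousOn_coset_sub (ε : Bool) (Λ : Ideal (𝓞 K)) (r r' : 𝓞 K) :
    ∃ D : ℝ → ℝ, ContinuousOn D (Set.Icc 1 2) ∧ ∀ s : ℝ, 1 < s → s ≤ 2 →
      (∑' l : Λ, GS K ε s (r + (l : 𝓞 K))) - (∑' l : Λ, GS K ε s (r' + (l : 𝓞 K))) = D s := by
  obtain ⟨g, hg, hg0, hgb⟩ := exists_dominating_GS (K := K) ε (r - r')
  have hinj : ∀ a : 𝓞 K, Function.Injective fun l : Λ ↦ a + (l : 𝓞 K) := fun a l l' h ↦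
    Subtype.ext (add_left_cancel h)
  have hgΛ : Summable fun l : Λ ↦ g (r' + (l : 𝓞 K)) := hg.comp_injective (hinj r')
  refine ⟨fun s ↦ ∑' l : Λ, (GS K ε s (r + (l : 𝓞 K)) - GS K ε s (r' + (l : 𝓞 K))), ?_,
    fun s hs1 hs2 ↦ ?_⟩
  · refine continuousOn_tsum (fun l ↦ ?_) hgΛ fun l s hs ↦ ?_
    · exact ((continuous_GS ε _).sub (continuous_GS ε _)).continuousOn
    · rw [Real.norm_eq_abs]
      have := hgb s hs.1 hs.2 (r' + (l : 𝓞 K))
      rwa [show r' + (l : 𝓞 K) + (r - r') = r + (l : 𝓞 K) by ring] at this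
  · have h1 : Summable fun l : Λ ↦ GS K ε s (r + (l : 𝓞 K)) :=
      (summable_GS ε hs1).comp_injective (hinj r)
    have h2 : Summable fun l : Λ ↦ GS K ε s (r' + (l : 𝓞 K)) :=
      (summable_GS ε hs1).comp_injective (hinj r')
    exact (h1.tsum_sub h2).symm

end Fermat.Agent.Lib.NormL

end
-- ===== PACK-END Lib/NormL/DS.lean

-- ===== PACK-BEGIN S24/Alg/Principal.lean
section





/-!
# S24 / ALG — principal divisors have degree zero (FF3), from the fundamental equality (FF1)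

helper984.  `deg div f = ∑_{zeros} ord_v f - ∑_{poles} ord_v f⁻¹ = [F:K(f)] - [F:K(f⁻¹)] = 0`.
-/

set_option autoImplicit false

noncomputable section

open AlgebraicCurve

namespace Fermat.Agent.S24

variable {K F : Type*} [Field K] [Field F] [Algebra K F]

theorem degree_eq_sum_of_deg_one' (hdeg : ∀ v : Place K F, v.deg = 1) (E : Divisor K F)
    (T : Finset (Place K F)) (hT : E.support ⊆ T) :
    Divisor.degree E = ∑ v ∈ T, E v := by
  have h1 : Divisor.degree E = E.sum fun v n => n * (v.deg : ℤ) := by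
    simp [Divisor.degree, Finsupp.liftAddHom_apply]
  rw [h1, Finsupp.sum_of_support_subset E hT _ (fun v _ => by simp)]
  refine Finset.sum_congr rfl fun v _ => ?_
  rw [hdeg v]; simp

variable [IsAlgClosed K] [CharZero K]

/-- FF1 in inequality form, for an arbitrary enumeration `s` of the zeros of `t`. -/
theorem fundamental_le (t : F) (ht : Transcendental K t)
    [FiniteDimensional ↥(IntermediateField.adjoin K {t}) F]
    (s : Finset (Place K F)) (hs : ∀ v : Place K F, v ∈ s ↔ 0 < v.ord t) :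
    (Module.finrank ↥(IntermediateField.adjoin K {t}) F : ℤ) ≤ ∑ v ∈ s, v.ord t := by
  obtain ⟨s', hs', hsum⟩ := open_fundamental_eq t ht
  have : s = s' := by
    ext v
    rw [hs, hs']
  rw [this, hsum]

/-- FF3: a principal divisor has degree zero. -/
theorem degree_principal (j : F) (hj : Transcendental K j)
    [FiniteDimensional ↥(IntermediateField.adjoin K {j}) F] (f : F) (hf : f ≠ 0)
    (D : Divisor K F) (hD : ∀ v : Place K F, D v = v.ord f) : Divisor.degree D = 0 := by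
  classical
  by_cases hfK : f ∈ (algebraMap K F).range
  · -- constants have no zeros or poles
    obtain ⟨c, rfl⟩ := hfK
    have : D = 0 := by
      ext v
      rw [hD, ord_algebraMap]
      rfl
    rw [this, map_zero]
  · have hft : Transcendental K f := FF.transcendental_of_not_mem_range hfK
    have hfit : Transcendental K f⁻¹ := by
      intro h
      exact hft (by simpa using h.inv)
    haveI : FiniteDimensional ↥(IntermediateField.adjoin K {f}) F :=
      FF.finiteDimensional_adjoin_of_transcendental hj hft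
    obtain ⟨hfd, hfr⟩ := finiteDimensional_and_finrank_of_eq (adjoin_inv K f)
    obtain ⟨Z, hZ, hZsum⟩ := open_fundamental_eq f hft
    obtain ⟨P, hP, hPsum⟩ := open_fundamental_eq f⁻¹ hfit
    have hdeg : ∀ v : Place K F, v.deg = 1 := fun v => FF.deg_eq_one v hj
    have hsupp : D.support ⊆ Z ∪ P := by
      intro v hv
      rw [Finsupp.mem_support_iff, hD] at hv
      rw [Finset.mem_union, hZ, hP, v.ord_inv]
      omega
    have hdisj : Disjoint Z P := by
      rw [Finset.disjoint_left]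
      intro v hvZ hvP
      rw [hZ] at hvZ
      rw [hP, v.ord_inv] at hvP
      omega
    rw [degree_eq_sum_of_deg_one' hdeg D _ hsupp, Finset.sum_union hdisj]
    have h1 : ∑ v ∈ Z, D v = ∑ v ∈ Z, v.ord f := Finset.sum_congr rfl fun v _ => hD v
    have h2 : ∑ v ∈ P, D v = -∑ v ∈ P, v.ord f⁻¹ := by
      rw [← Finset.sum_neg_distrib]
      refine Finset.sum_congr rfl fun v _ => ?_
      rw [hD, v.ord_inv, neg_neg]
    rw [h1, h2, hZsum, hPsum, hfr]
    ring

end Fermat.Agent.S24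

end
end
-- ===== PACK-END S24/Alg/Principal.lean

-- ===== PACK-BEGIN S28/H568/DeltaSeries.lean
section


/-!
# S28 / H568 — the formal discriminant over `ℤ` and `ℂ`, and its expansions along `τ ↦ (aτ+b)/d`
-/

set_option autoImplicit false

noncomputable section

open HahnSeries ModularCurve UpperHalfPlane Complex Matrix
open scoped Real MatrixGroups

namespace Fermat.Agent.S28.H568

open Fermat.Agent.S24

/-! ### the integral series -/

/-- The formal discriminant `Δ = q ∏ (1 - qⁿ)²⁴` over `ℤ`. -/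
def deltaZ : LaurentSeries ℤ :=
  HahnSeries.single (1 : ℤ) (1 : ℤ) * HahnSeries.ofPowerSeries ℤ ℤ dedekindEtaUnit

/-- The formal inverse of `Δ` over `ℤ`. -/
def deltaInvZ : LaurentSeries ℤ :=
  HahnSeries.single (-1 : ℤ) (1 : ℤ) * HahnSeries.ofPowerSeries ℤ ℤ dedekindEtaUnitInv

theorem deltaZ_mul_deltaInvZ : deltaZ * deltaInvZ = 1 := by
  rw [deltaZ, deltaInvZ]
  have h1 : HahnSeries.single (1 : ℤ) (1 : ℤ) * HahnSeries.single (-1 : ℤ) (1 : ℤ) = 1 := by
    rw [HahnSeries.single_mul_single]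
    simp
  have h2 : HahnSeries.ofPowerSeries ℤ ℤ dedekindEtaUnit *
      HahnSeries.ofPowerSeries ℤ ℤ dedekindEtaUnitInv = 1 := by
    rw [← map_mul, dedekindEtaUnit_mul_inv, map_one]
  calc _ = (HahnSeries.single (1 : ℤ) (1 : ℤ) * HahnSeries.single (-1 : ℤ) (1 : ℤ)) *
      (HahnSeries.ofPowerSeries ℤ ℤ dedekindEtaUnit *
        HahnSeries.ofPowerSeries ℤ ℤ dedekindEtaUnitInv) := by ring
    _ = 1 := by rw [h1, h2, one_mul]

/-- `Δ` as a unit of `ℤ((q))`. -/
def deltaU : (LaurentSeries ℤ)ˣ :=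
  ⟨deltaZ, deltaInvZ, deltaZ_mul_deltaInvZ, by rw [mul_comm]; exact deltaZ_mul_deltaInvZ⟩

@[simp] theorem deltaU_val : (deltaU : LaurentSeries ℤ) = deltaZ := rfl

/-- Coefficient extension `ℤ((q)) → ℂ((q))`. -/
abbrev castC : LaurentSeries ℤ →+* LaurentSeries ℂ := coeffMap (Int.castRingHom ℂ)

theorem castC_injective : Function.Injective castC :=
  inf_coeffMap_injective (RingHom.injective_int (Int.castRingHom ℂ))

/-- The formal discriminant over `ℂ`. -/
abbrev dS : LaurentSeries ℂ := H565.deltaSeriesC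

/-- The formal inverse discriminant over `ℂ`. -/
abbrev dInvS : LaurentSeries ℂ := H565.deltaInvSeriesC

theorem castC_deltaZ : castC deltaZ = dS := by
  rw [deltaZ, map_mul, coeffMap_single, coeffMap_ofPowerSeries, H565.map_dedekindEtaUnit]
  simp [H565.deltaSeriesC]

theorem castC_deltaInvZ : castC deltaInvZ = dInvS := by
  rw [deltaInvZ, map_mul, coeffMap_single, coeffMap_ofPowerSeries]
  simp [H565.deltaInvSeriesC, H565.etaInvC]

theorem dS_mul_dInvS : dS * dInvS = 1 := H565.deltaSeriesC_mul_inv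

theorem dS_ne_zero : dS ≠ 0 := left_ne_zero_of_mul_eq_one dS_mul_dInvS

theorem dInvS_ne_zero : dInvS ≠ 0 := right_ne_zero_of_mul_eq_one dS_mul_dInvS

theorem dInvS_eq_inv : dInvS = dS⁻¹ := eq_inv_of_mul_eq_one_right dS_mul_dInvS

theorem dS_coeff_one : dS.coeff 1 = 1 := by
  have h := inf_coeff_single_mul_ofPowerSeries (1 : ℤ) (H565.etaProdC ^ 24) 0
  simp only [Nat.cast_zero, zero_add] at h
  rw [show dS = single (1 : ℤ) (1 : ℂ) * ofPowerSeries ℤ ℂ (H565.etaProdC ^ 24) from rfl, h,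
    ← H565.map_dedekindEtaUnit, PowerSeries.coeff_map, PowerSeries.coeff_zero_eq_constantCoeff,
    constantCoeff_dedekindEtaUnit]
  simp

theorem dS_coeff_of_lt {m : ℤ} (hm : m < 1) : dS.coeff m = 0 :=
  inf_coeff_single_mul_ofPowerSeries_of_lt (1 : ℤ) (H565.etaProdC ^ 24) hm

theorem dS_order : dS.order = 1 :=
  inf_order_eq_of_coeff (by rw [dS_coeff_one]; exact one_ne_zero) fun _ hm => dS_coeff_of_lt hm

theorem dS_leadingCoeff : dS.leadingCoeff = 1 := by
  rw [leadingCoeff_eq, dS_order, dS_coeff_one]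

theorem dInvS_order : dInvS.order = -1 := by
  rw [dInvS_eq_inv, order_inv' dS_ne_zero, dS_order]

theorem dInvS_leadingCoeff : dInvS.leadingCoeff = 1 := by
  rw [dInvS_eq_inv, leadingCoeff_inv', dS_leadingCoeff, inv_one]

theorem dS_mem_coeffSubring (C : Subring ℂ) : dS ∈ coeffSubring C := by
  rw [← castC_deltaZ]; exact coeffMap_int_mem_coeffSubring _

theorem dInvS_mem_coeffSubring (C : Subring ℂ) : dInvS ∈ coeffSubring C := by
  rw [← castC_deltaInvZ]; exact coeffMap_int_mem_coeffSubring _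

/-! ### analytic expansions -/

local notation "Δ" => ModularForm.discriminant

theorem infExp_of_hasTExp_one {f : ℍ → ℂ} {φ : LaurentSeries ℂ} (h : H565.HasTExp 1 f φ) :
    InfExp 1 f φ := by
  intro τ
  have := h τ
  simpa [infZ] using this

theorem infExp_delta : InfExp 1 Δ dS := infExp_of_hasTExp_one H565.hasTExp_discriminant

theorem infExp_delta_inv : InfExp 1 (fun τ => (Δ τ)⁻¹) dInvS :=
  infExp_of_hasTExp_one H565.hasTExp_discriminant_inv

/-- Expansion of `Δ((aτ+b)/d)` in `z = exp(2πiτ/N)` when `e·d = a·N`. -/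
theorem infExp_delta_aff {N a d e : ℕ} [NeZero e] (b : ℤ)
    (ha : 0 < a) (hd : 0 < d) (hN : 0 < N) (he : e * d = a * N) :
    InfExp N (fun τ => Δ (infAff a b d τ)) (qExpand ℂ e (infTwist (infRoot b d) dS)) := by
  have h := infExp_delta.comp_infAff (e := e) b ha hd one_pos hN (by rw [mul_one]; exact he)
  rw [mul_one] at h
  exact h

/-- Expansion of `Δ((aτ+b)/d)⁻¹` in `z = exp(2πiτ/N)` when `e·d = a·N`. -/
theorem infExp_delta_inv_aff {N a d e : ℕ} [NeZero e] (b : ℤ)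
    (ha : 0 < a) (hd : 0 < d) (hN : 0 < N) (he : e * d = a * N) :
    InfExp N (fun τ => (Δ (infAff a b d τ))⁻¹) (qExpand ℂ e (infTwist (infRoot b d) dInvS)) := by
  have h := infExp_delta_inv.comp_infAff (e := e) b ha hd one_pos hN (by rw [mul_one]; exact he)
  rw [mul_one] at h
  exact h

/-- Expansion of `Δ(τ)` in `z = exp(2πiτ/N)`. -/
theorem infExp_delta_N {N : ℕ} [NeZero N] : InfExp N Δ (qExpand ℂ N dS) := by
  have hN : 0 < N := Nat.pos_of_ne_zero (NeZero.ne N)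
  have h := infExp_delta_aff (N := N) (e := N) 0 one_pos one_pos hN (by ring)
  rw [infRoot_zero, infTwist_one] at h
  exact h.congr fun τ => by rw [infAff_one_zero_one]

/-- Expansion of `Δ(τ)⁻¹` in `z = exp(2πiτ/N)`. -/
theorem infExp_delta_inv_N {N : ℕ} [NeZero N] :
    InfExp N (fun τ => (Δ τ)⁻¹) (qExpand ℂ N dInvS) := by
  have hN : 0 < N := Nat.pos_of_ne_zero (NeZero.ne N)
  have h := infExp_delta_inv_aff (N := N) (e := N) 0 one_pos one_pos hN (by ring)
  rw [infRoot_zero, infTwist_one] at h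
  exact h.congr fun τ => by rw [infAff_one_zero_one]

/-! ### transformation of `Δ` -/

theorem discriminant_smul (γ : SL(2, ℤ)) (τ : ℍ) :
    Δ (γ • τ) = (((γ 1 0 : ℤ) : ℂ) * τ + ((γ 1 1 : ℤ) : ℂ)) ^ 12 * Δ τ := by
  have := SlashInvariantForm.slash_action_eqn' (Γ := 𝒮ℒ) CuspForm.discriminant
    (γ := (Matrix.SpecialLinearGroup.mapGL ℝ γ)) ⟨γ, rfl⟩ τ
  have h2 : (Matrix.SpecialLinearGroup.mapGL ℝ γ) • τ = γ • τ := rfl
  rw [h2] at this
  simpa using this

end Fermat.Agent.S28.H568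

end
end
-- ===== PACK-END S28/H568/DeltaSeries.lean

-- ===== PACK-BEGIN S18/H333/Coord.lean
section



/-!
# S18 / NODE COORD (c3), helper333: existence of the coordinates

`node_coord` has EXACTLY the type of `Integ.node_coord` in the row skeleton
(origin/helper18:Fermat/Agent/S18/Integ/Skeleton.lean):

    theorem node_coord (M : ℕ) [NeZero M] {ℓ : ℕ} [Fact ℓ.Prime] (hℓM : ¬ ℓ ∣ M)
        (h3 : ℓ = 3 → 2 ∣ M) (h2 : ℓ = 2 → 3 ∣ M) : Mod.CoordinateStatement M ℓ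

`ℓ ≥ 5`: `x = j`;  `ℓ = 3`: `x = t₂ = q⁻¹(η(q)/η(q²))²⁴`;  `ℓ = 2`: `x = t₃ = q⁻¹(η(q)/η(q³))¹²`.
-/

set_option autoImplicit false

noncomputable section

namespace Fermat.Agent.S18.H333

open ModularCurve AlgebraicCurve HahnSeries

theorem coeffEmb_coeffMap_int (X : LaurentSeries ℤ) :
    coeffEmb Qb (coeffMap (Int.castRingHom ℚ) X) = coeffMap (Int.castRingHom Qb) X := by
  rw [coeffEmb, coeffMap_coeffMap]
  exact coeffMap_congr (RingHom.ext_int _ _) X

theorem jOm_coe (M : ℕ) : ((Mod.jOm M : Mod.Om M) : LaurentSeries Qb) = jqModC Qb := by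
  show coeffEmb Qb (qExpand ℚ 1 jq) = jqModC Qb
  rw [qExpand_one_apply, ← jqModC_rat, coeffEmb, coeffMap_jqModC]

/-- the element of `Ω = F_M` given by an integral series lying in `ℚ(j_d : d ∣ M)` -/
def omOf (M : ℕ) (X : LaurentSeries ℤ)
    (hX : coeffMap (Int.castRingHom ℚ) X ∈ modularFunctionFieldFull M) : Mod.Om M :=
  ⟨coeffEmb Qb (coeffMap (Int.castRingHom ℚ) X), coeffEmb_mem_laurentBaseChange Qb hX⟩

theorem omOf_coe (M : ℕ) (X : LaurentSeries ℤ)
    (hX : coeffMap (Int.castRingHom ℚ) X ∈ modularFunctionFieldFull M) :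
    ((omOf M X hX : Mod.Om M) : LaurentSeries Qb) = coeffMap (Int.castRingHom Qb) X :=
  coeffEmb_coeffMap_int X

theorem t2Q_mem (M : ℕ) (hM : 2 ∣ M) :
    coeffMap (Int.castRingHom ℚ) t2Z ∈ modularFunctionFieldFull M :=
  t2_mem_full ℚ (by norm_num) M hM

theorem t3Q_mem (M : ℕ) (hM : 3 ∣ M) :
    coeffMap (Int.castRingHom ℚ) t3Z ∈ modularFunctionFieldFull M :=
  t3_mem_full ℚ (by norm_num) M hM

/-- `t₂ ∈ Ω = F_M` (`2 ∣ M`) -/
def t2Om (M : ℕ) (hM : 2 ∣ M) : Mod.Om M := omOf M t2Z (t2Q_mem M hM)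

/-- `t₃ ∈ Ω = F_M` (`3 ∣ M`) -/
def t3Om (M : ℕ) (hM : 3 ∣ M) : Mod.Om M := omOf M t3Z (t3Q_mem M hM)

theorem t2Om_rel (M : ℕ) (hM : 2 ∣ M) :
    Mod.jOm M * t2Om M hM ^ 2 = (t2Om M hM + 256) ^ 3 := by
  apply Subtype.ext
  have h := t2_rel_a Qb
  have hx : ((t2Om M hM : Mod.Om M) : LaurentSeries Qb) = t2 Qb := omOf_coe M t2Z _
  push_cast
  rw [jOm_coe, hx]
  exact h

theorem t3Om_rel (M : ℕ) (hM : 3 ∣ M) :
    Mod.jOm M * t3Om M hM ^ 3 = (t3Om M hM + 27) * (t3Om M hM + 243) ^ 3 := by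
  apply Subtype.ext
  have h := t3_rel_a Qb
  have hx : ((t3Om M hM : Mod.Om M) : LaurentSeries Qb) = t3 Qb := omOf_coe M t3Z _
  push_cast
  rw [jOm_coe, hx]
  exact h

/-- **NODE COORD.** -/
theorem node_coord (M : ℕ) [NeZero M] {ℓ : ℕ} [Fact ℓ.Prime] (hℓM : ¬ ℓ ∣ M)
    (h3 : ℓ = 3 → 2 ∣ M) (h2 : ℓ = 2 → 3 ∣ M) : Mod.CoordinateStatement M ℓ := by
  classical
  have hp : ℓ.Prime := Fact.out
  by_cases hl3 : ℓ = 3
  · refine ⟨t2Om M (h3 hl3), {0, -64}, Or.inr ⟨Or.inl ⟨hl3, t2Om_rel M (h3 hl3), ?_⟩, ?_⟩⟩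
    · intro s; simp
    · exact ⟨t2Z, t2Z_coeff_neg_one, fun k hk => t2Z_coeff_of_lt hk, omOf_coe M t2Z _,
        t2Q_mem M (h3 hl3)⟩
  by_cases hl2 : ℓ = 2
  · refine ⟨t3Om M (h2 hl2), {0, -27}, Or.inr ⟨Or.inr ⟨hl2, t3Om_rel M (h2 hl2), ?_⟩, ?_⟩⟩
    · intro s; simp
    · exact ⟨t3Z, t3Z_coeff_neg_one, fun k hk => t3Z_coeff_of_lt hk, omOf_coe M t3Z _,
        t3Q_mem M (h2 hl2)⟩
  · refine ⟨Mod.jOm M, {0, 1728}, Or.inl ⟨?_, rfl, ?_⟩⟩
    · have h2' := hp.two_le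
      by_contra hlt
      have : ℓ = 4 := by omega
      subst this
      exact absurd hp (by norm_num)
    · intro s; simp

end Fermat.Agent.S18.H333

end
end
-- ===== PACK-END S18/H333/Coord.lean

-- ===== PACK-BEGIN S37/Red/ModG.lean
section




/-!
# S37 node_rim — RED-E1: the modular reduction datum (architect: helper40)

For `F ⊆ Q̄((q))`, `F_k ⊆ k((q))` the modular function fields and `A ⊆ Q̄` a valuation subring,
we build the reduction datum `modG : Datum A (residue A) F F_k` of `Red/Spec.lean`: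

* `O`  = the ring `V` of fractions `a / b` of integral `q`-series (`a, b ∈ A((q)) ∩ F` with
         reductions in `F_k`, `b̄ ≠ 0`) of helper940 (`H940.qData`, `FracData.V`); it is a
         VALUATION ring by the value-group hypothesis `ModVG` (every `f ≠ 0` is `c · y₁ / y₂`);
* `ρ`  = `ρ (a / b) = ā / b̄`;
* `x`  = any integral coordinate with transcendental reduction (`j`, or a Hauptmodul).

`modG_link` is the `link` of `ModDatum`.  What remains for NODE [RIM] is exactly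
`(modG …).Good` (+ `MainStatement` + PGI): see `node_rim_of_modG`.
-/

set_option autoImplicit false
set_option synthInstance.maxHeartbeats 400000

noncomputable section

namespace Fermat.Agent.S37.Red

open ModularCurve AlgebraicCurve HahnSeries IsLocalRing

variable (N : ℕ) (A : ValuationSubring Qb)

theorem residue_eq_zero_iff_not_isUnit (a : A) : residue A a = 0 ↔ ¬ IsUnit a := by
  rw [IsLocalRing.residue_eq_zero_iff, IsLocalRing.mem_maximalIdeal, mem_nonunits_iff]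

/-- helper940's fraction data for the modular function fields -/
def modFrac : H940.FracData Qb (FN N) (kA A) (FNk A N) :=
  H940.qData A (residue A) (modularFunctionFieldBar N)
    (modularFunctionFieldFullC (kA A) N) IsLocalRing.residue_surjective
    (residue_eq_zero_iff_not_isUnit A)

/-- **Value-group hypothesis** (helper940's `ValueGroupHyp`): every nonzero `f ∈ F` is a constant
times a fraction of integral `q`-series with nonzero reductions in `F_k`. -/
abbrev ModVG : Prop :=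
  H940.ValueGroupHyp A (residue A) (modularFunctionFieldBar N)
    (modularFunctionFieldFullC (kA A) N)

variable {N A}

/-- the Gauss valuation ring of `F` -/
def modO (hVG : ModVG N A) : ValuationSubring (FN N) :=
  { (modFrac N A).V with
    mem_or_inv_mem' := by
      intro f
      rcases eq_or_ne f 0 with rfl | hf
      · exact Or.inl (Subring.zero_mem _)
      obtain ⟨c, hc, y₁, y₂, h₁, h₂, hfy⟩ := hVG f hf
      let z₁ : (modFrac N A).O := y₁
      let z₂ : (modFrac N A).O := y₂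
      have hz₁ : (modFrac N A).ρ₀ z₁ ≠ 0 := h₁
      have hz₂ : (modFrac N A).ρ₀ z₂ ≠ 0 := h₂
      have hfz : f * (z₂ : FN N) = algebraMap Qb (FN N) c * (z₁ : FN N) := hfy
      by_cases hcA : c ∈ A
      · left
        refine ⟨⟨algebraMap Qb (FN N) c, (modFrac N A).A_mem ⟨c, hcA⟩⟩ * z₁, z₂, hz₂, ?_⟩
        rw [hfz]
        rfl
      · right
        have hinv : c⁻¹ ∈ A := (A.mem_or_inv_mem c).resolve_left hcA
        refine ⟨⟨algebraMap Qb (FN N) c⁻¹, (modFrac N A).A_mem ⟨c⁻¹, hinv⟩⟩ * z₂, z₁, hz₁, ?_⟩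
        have hy₁ : (z₁ : FN N) ≠ 0 := (modFrac N A).coe_ne_zero hz₁
        have hc' : algebraMap Qb (FN N) c ≠ 0 := by
          rwa [Ne, map_eq_zero_iff _ (algebraMap Qb (FN N)).injective]
        show f⁻¹ * (z₁ : FN N) = algebraMap Qb (FN N) c⁻¹ * (z₂ : FN N)
        rw [map_inv₀, inv_mul_eq_iff_eq_mul₀ hf, ← mul_assoc, mul_comm f, mul_assoc, hfz,
          ← mul_assoc, inv_mul_cancel₀ hc', one_mul] }

theorem mem_modO (hVG : ModVG N A) {f : FN N} : f ∈ modO hVG ↔ f ∈ (modFrac N A).V := Iff.rfl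

/-- the reduction map on the Gauss valuation ring -/
def modρ (hVG : ModVG N A) : modO hVG →+* FNk A N := (modFrac N A).ρ

end Fermat.Agent.S37.Red

namespace Fermat.Agent.S37.Red

open ModularCurve AlgebraicCurve HahnSeries IsLocalRing

variable {N : ℕ} {A : ValuationSubring Qb}

/-- an integral series of `F` with reduction in `F_k`, as an element of the Gauss valuation
ring -/
def ofSeries (hVG : ModVG N A) (y : LaurentSeries A)
    (hy : coeffMap A.subtype y ∈ modularFunctionFieldBar N)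
    (hyk : coeffMap (residue A) y ∈ modularFunctionFieldFullC (kA A) N) : modO hVG :=
  ⟨⟨coeffMap A.subtype y, hy⟩, (modFrac N A).isFrac_of_mem ⟨⟨coeffMap A.subtype y, hy⟩, y, rfl, hyk⟩⟩

@[simp] theorem coe_ofSeries (hVG : ModVG N A) (y : LaurentSeries A)
    (hy : coeffMap A.subtype y ∈ modularFunctionFieldBar N)
    (hyk : coeffMap (residue A) y ∈ modularFunctionFieldFullC (kA A) N) :
    ((ofSeries hVG y hy hyk : modO hVG) : FN N) = ⟨coeffMap A.subtype y, hy⟩ := rfl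

theorem modρ_ofSeries (hVG : ModVG N A) (y : LaurentSeries A)
    (hy : coeffMap A.subtype y ∈ modularFunctionFieldBar N)
    (hyk : coeffMap (residue A) y ∈ modularFunctionFieldFullC (kA A) N) :
    modρ hVG (ofSeries hVG y hy hyk) = ⟨coeffMap (residue A) y, hyk⟩ := by
  have h := (modFrac N A).ρ_ofO ⟨⟨coeffMap A.subtype y, hy⟩, y, rfl, hyk⟩
  refine Eq.trans h ?_
  apply Subtype.ext
  exact H940.coe_redQ A (residue A) _ _ ⟨⟨coeffMap A.subtype y, hy⟩, y, rfl, hyk⟩ (y := y) rfl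

/-- **`link`**: a Prelude-integral series lies in `O` and `ρ` is its coefficientwise
reduction. -/
theorem modG_link (hVG : ModVG N A) (y : LaurentSeries A)
    (hy : coeffMap A.subtype y ∈ modularFunctionFieldBar N)
    (hyk : coeffMap (residue A) y ∈ modularFunctionFieldFullC (kA A) N) :
    ∃ h : (⟨coeffMap A.subtype y, hy⟩ : FN N) ∈ modO hVG,
      modρ hVG ⟨⟨coeffMap A.subtype y, hy⟩, h⟩ = ⟨coeffMap (residue A) y, hyk⟩ :=
  ⟨(ofSeries hVG y hy hyk).2, modρ_ofSeries hVG y hy hyk⟩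

/-- units of `O`: nonzero reduction implies the inverse is in `O` -/
theorem inv_mem_modO (hVG : ModVG N A) (u : modO hVG) (hu : modρ hVG u ≠ 0) :
    ((u : FN N))⁻¹ ∈ modO hVG :=
  (modFrac N A).ctx.inv_mem u hu

/-- the image of `ρ`, as a set of series -/
def ρImage (hVG : ModVG N A) : Set (LaurentSeries (kA A)) :=
  {g | ∃ u : modO hVG, ((modρ hVG u : FNk A N) : LaurentSeries (kA A)) = g}

/-- the image of `ρ` is an intermediate field -/
def ρField (hVG : ModVG N A) : IntermediateField (kA A) (LaurentSeries (kA A)) where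
  carrier := ρImage hVG
  mul_mem' := by
    rintro _ _ ⟨u, rfl⟩ ⟨v, rfl⟩
    exact ⟨u * v, by rw [map_mul]; rfl⟩
  one_mem' := ⟨1, by rw [map_one]; rfl⟩
  add_mem' := by
    rintro _ _ ⟨u, rfl⟩ ⟨v, rfl⟩
    exact ⟨u + v, by rw [map_add]; rfl⟩
  zero_mem' := ⟨0, by rw [map_zero]; rfl⟩
  algebraMap_mem' := by
    intro c
    obtain ⟨a, rfl⟩ := IsLocalRing.residue_surjective (R := A) c
    refine ⟨⟨algebraMap Qb (FN N) (a : Qb), (modFrac N A).ctx.A_mem a⟩, ?_⟩
    have h := (modFrac N A).ctx.ρ_A a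
    show ((modρ hVG _ : FNk A N) : LaurentSeries (kA A)) = _
    have h' : modρ hVG ⟨algebraMap Qb (FN N) (a : Qb), (modFrac N A).ctx.A_mem a⟩ =
        algebraMap (kA A) (FNk A N) (residue A a) := h
    rw [h']
    rfl
  inv_mem' := by
    rintro _ ⟨u, rfl⟩
    by_cases hu : modρ hVG u = 0
    · refine ⟨0, ?_⟩
      rw [hu, map_zero]
      simp
    · refine ⟨⟨((u : FN N))⁻¹, inv_mem_modO hVG u hu⟩, ?_⟩
      have hmul : (⟨((u : FN N))⁻¹, inv_mem_modO hVG u hu⟩ : modO hVG) * u = 1 := by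
        apply Subtype.ext
        have hu0 : (u : FN N) ≠ 0 := by
          intro h0
          apply hu
          have : u = 0 := Subtype.ext h0
          rw [this, map_zero]
        show ((u : FN N))⁻¹ * (u : FN N) = 1
        exact inv_mul_cancel₀ hu0
      have h1 := congrArg (modρ hVG) hmul
      rw [map_mul, map_one] at h1
      have h2 : modρ hVG ⟨((u : FN N))⁻¹, inv_mem_modO hVG u hu⟩ = (modρ hVG u)⁻¹ :=
        eq_inv_of_mul_eq_one_left h1
      rw [h2]
      rfl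

end Fermat.Agent.S37.Red

namespace Fermat.Agent.S37.Red

open ModularCurve AlgebraicCurve HahnSeries IsLocalRing

variable {N : ℕ} {A : ValuationSubring Qb}

/-- `j(q^d) ∈ F` for `d ∣ N` -/
theorem jqNModC_mem_bar {d : ℕ} [NeZero d] (hd : d ∣ N) :
    jqNModC Qb d ∈ modularFunctionFieldBar N := by
  have h1 : jqNModC ℚ d ∈ modularFunctionFieldFull N := by
    rw [← modularFunctionFieldFullC_rat]
    exact jqModCd_mem_full ℚ N hd
  have h2 := coeffEmb_mem_laurentBaseChange Qb h1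
  have h3 : coeffEmb Qb (jqNModC ℚ d) = jqNModC Qb d :=
    coeffMap_jqNModC (algebraMap ℚ Qb) d
  rwa [h3] at h2

/-- the generators of `F_k` are reductions -/
theorem generators_mem_ρField (hVG : ModVG N A) :
    divisorExpansionsC (kA A) N ⊆ (ρField hVG : Set (LaurentSeries (kA A))) := by
  rintro g ⟨d, hne, hd, rfl⟩
  haveI := hne
  have hy : coeffMap A.subtype (jqNModC A d) ∈ modularFunctionFieldBar N := by
    rw [coeffMap_jqNModC]
    exact jqNModC_mem_bar hd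
  have hyk : coeffMap (residue A) (jqNModC A d) ∈ modularFunctionFieldFullC (kA A) N := by
    rw [coeffMap_jqNModC]
    exact jqModCd_mem_full (kA A) N hd
  refine ⟨ofSeries hVG (jqNModC A d) hy hyk, ?_⟩
  rw [modρ_ofSeries]
  show coeffMap (residue A) (jqNModC A d) = _
  rw [coeffMap_jqNModC]
  rfl

/-- **`ρ` is surjective** -/
theorem modρ_surjective (hVG : ModVG N A) : Function.Surjective (modρ hVG) := by
  intro g
  have hle : modularFunctionFieldFullC (kA A) N ≤ ρField hVG :=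
    IntermediateField.adjoin_le_iff.mpr (generators_mem_ρField hVG)
  obtain ⟨u, hu⟩ := hle g.2
  exact ⟨u, Subtype.ext hu⟩

/-- **RED-E1: the modular reduction datum** with coordinate `x` (an integral series of `F`
whose reduction lies in `F_k` and is transcendental over `k`). -/
def modG (hVG : ModVG N A) (x : LaurentSeries A)
    (hx : coeffMap A.subtype x ∈ modularFunctionFieldBar N)
    (hxk : coeffMap (residue A) x ∈ modularFunctionFieldFullC (kA A) N)
    (htr : Transcendental (kA A) (⟨coeffMap (residue A) x, hxk⟩ : FNk A N)) :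
    Datum A (residue A) (FN N) (FNk A N) where
  π_surj := IsLocalRing.residue_surjective
  O := modO hVG
  ρ := modρ hVG
  ρ_surj := modρ_surjective hVG
  const_mem := fun a => (modFrac N A).ctx.A_mem a
  ρ_const := fun a => (modFrac N A).ctx.ρ_A a
  x := ⟨coeffMap A.subtype x, hx⟩
  x_mem := (ofSeries hVG x hx hxk).2
  xk_transc := by
    have h := modρ_ofSeries hVG x hx hxk
    have h' : modρ hVG ⟨⟨coeffMap A.subtype x, hx⟩, (ofSeries hVG x hx hxk).2⟩ =
        ⟨coeffMap (residue A) x, hxk⟩ := h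
    rw [h']
    exact htr

/-- `j ∈ F`, as an integral series -/
theorem coeffMap_jqModC_mem_bar (N : ℕ) (A : ValuationSubring Qb) :
    coeffMap A.subtype (jqModC A) ∈ modularFunctionFieldBar N := by
  have h := jqNModC_mem_bar (N := N) (d := 1) (one_dvd N)
  rw [jqNModC_one] at h
  rw [coeffMap_jqModC]
  exact h

/-- `j̄ ∈ F_k` -/
theorem coeffMap_jqModC_mem_fullC (N : ℕ) (A : ValuationSubring Qb) :
    coeffMap (residue A) (jqModC A) ∈ modularFunctionFieldFullC (kA A) N := by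
  rw [coeffMap_jqModC]
  exact jqModC_mem_full (kA A) N

/-- the reduced coordinate `j̄ ∈ F_k` -/
def jk (N : ℕ) (A : ValuationSubring Qb) : FNk A N :=
  ⟨coeffMap (residue A) (jqModC A), coeffMap_jqModC_mem_fullC N A⟩

/-- **The modular reduction datum with coordinate `x = j`.** -/
def modGj (hVG : ModVG N A) (htr : Transcendental (kA A) (jk N A)) :
    Datum A (residue A) (FN N) (FNk A N) :=
  modG hVG (jqModC A) (coeffMap_jqModC_mem_bar N A) (coeffMap_jqModC_mem_fullC N A) htr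

/-- **NODE [RIM] from `MainStatement`, PGI and goodness of the modular datum.** -/
theorem node_rim_of_modG (hMain : MainStatement.{0}) (hVG : ModVG N A) (x : LaurentSeries A)
    (hx : coeffMap A.subtype x ∈ modularFunctionFieldBar N)
    (hxk : coeffMap (residue A) x ∈ modularFunctionFieldFullC (kA A) N)
    (htr : Transcendental (kA A) (⟨coeffMap (residue A) x, hxk⟩ : FNk A N))
    (hgood : (modG hVG x hx hxk htr).Good)
    (hpgi : PrincipalGeneratedByIntegral A (residue A) N) :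
    ReductionInputsModL A N := by
  haveI : IsAlgClosed (kA A) := Fermat.Agent.S18.H9.resAlgClosed Qb A
  obtain ⟨r, hr, -⟩ := hMain Qb (kA A) (FN N) (FNk A N) A (residue A) _ hgood
  refine ⟨r, ⟨hr.1, ?_⟩, hpgi⟩
  intro y hy hyk hne D hD Q
  obtain ⟨h, hρ⟩ := modG_link hVG y hy hyk
  have hne' : (modG hVG x hx hxk htr).ρ ⟨⟨coeffMap A.subtype y, hy⟩, h⟩ ≠ 0 := by
    intro h0
    apply hne
    have := hρ.symm.trans h0
    exact congrArg Subtype.val this
  have key := hr.2 _ h hne' D hD Q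
  have hρ' : (modG hVG x hx hxk htr).ρ ⟨⟨coeffMap A.subtype y, hy⟩, h⟩ =
      ⟨coeffMap (residue A) y, hyk⟩ := hρ
  rw [hρ'] at key
  exact key

end Fermat.Agent.S37.Red

end
end
-- ===== PACK-END S37/Red/ModG.lean

-- ===== PACK-BEGIN S20/H800/FundGamma0.lean
section




/-!
# S20 / helper800 : `Γ₀(N)` has a fundamental system (Skeleton `exists_fundSystem` for `Γ₀(N)`)

Combines the landed `H428.exists_homBasis` (generation + freeness), `F658` (leaf F) and
`H800.fundSystem_of_gradedBasis`.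
-/

set_option autoImplicit false

noncomputable section

namespace Fermat.Agent.S20.H800

open Fermat.Agent.S20
open UpperHalfPlane ModularForm CongruenceSubgroup MatrixGroups Filter EisensteinSeries
open scoped Manifold Topology Real

/-- A homogeneous basis in the sense of `Defs.lean` is a graded basis. -/
theorem gradedBasis_of_isHomBasis {N : ℕ} {ι : Type} [Fintype ι] {k : ι → ℤ} {F : ι → ℍ → ℂ}
    (hB : IsHomBasis N k F) : GradedBasis (Gamma0 N) k F :=
  GradedBasis.of_fintype (fun j => hB.mem j) (fun w f hf => hB.span w f hf)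
    (fun w a ha h => hB.indep w a ha h)

/-- `-1 ∈ Γ₀(N)`. -/
theorem neg_one_mem_Gamma0 (N : ℕ) : (-1 : SL(2, ℤ)) ∈ Gamma0 N := by
  rw [Gamma0_mem]; simp

/-- Leaf F in the form used by the captain's skeleton. -/
theorem exists_form_injective_ev (N : ℕ) [NeZero N] :
    ∃ f₀ ∈ MF (Gamma0 N) 12, ∃ z₀ : ℍ, Function.Injective (ev (Gamma0 N) 12 z₀ f₀) :=
  ⟨F658.f0 N, F658.f0_isMF_raw N, F658.z0 N, F658.f0_conj_injective N⟩

/-- **`Γ₀(N)` has a fundamental system.** -/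
theorem exists_fundSystem_Gamma0 (N : ℕ) [NeZero N] : Nonempty (FundSystem (Gamma0 N)) := by
  obtain ⟨ι, _, k, F, hB⟩ := H428.exists_homBasis N
  exact fundSystem_of_gradedBasis (neg_one_mem_Gamma0 N) (gradedBasis_of_isHomBasis hB)
    (exists_form_injective_ev N)

end Fermat.Agent.S20.H800

end
end
-- ===== PACK-END S20/H800/FundGamma0.lean

-- ===== PACK-BEGIN A2/H729/GaussUnits.lean
section


/-!
# A2 (helper729): units and roots in the canonical Gauss ring

* `mem_chart_of_pow_mem`, `mem_gaussO_of_pow_mem` : the charts and the Gauss ring are closed under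
  taking roots (they are integrally closed in `F`).
* `inv_one_add_mem_gaussO` : `w` lies in the Jacobson radical of the Gauss ring:
  `t ∈ O → (1 + w t)⁻¹ ∈ O`.
* `inW_inv_sub_one` : `h ≡ 1 mod w O → h⁻¹ ≡ 1 mod w O`.
-/

set_option autoImplicit false
set_option linter.unusedSectionVars false

namespace Fermat.Agent.A2.H729

open Polynomial Fermat.Agent.S18.H138

variable {R : Type*} [CommRing R] {F : Type*} [Field F] [Algebra R F]

theorem mem_chart_of_pow_mem {S : Set F} {z : F} {n : ℕ} (hn : 0 < n)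
    (h : z ^ n ∈ chart R S) : z ∈ chart R S := by
  rw [mem_chart] at h ⊢
  exact IsIntegral.of_pow hn h

theorem mem_gaussO_of_pow_mem {w : R} (hw : Prime w) {x z : F} {n : ℕ} (hn : 0 < n)
    (h : z ^ n ∈ gaussO hw x) : z ∈ gaussO hw x := by
  obtain ⟨s, hs, hsz⟩ := h
  refine ⟨s, hs, mem_chart_of_pow_mem hn ?_⟩
  have : (s * z) ^ n = s ^ (n - 1) * (s * z ^ n) := by
    rw [mul_pow, ← mul_assoc, ← pow_succ]
    congr 2
    omega
  rw [this]
  exact Subalgebra.mul_mem _ (Subalgebra.pow_mem _ (adjoin_le_chart _ hs.mem_adjoin) _) hsz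

section Transcendental

variable [IsDomain R]

theorem not_C_dvd_symm {w : R} {x : F} (hx : Transcendental R x)
    {a : Algebra.adjoin R ({x} : Set F)}
    (ha : ¬ algebraMap R (Algebra.adjoin R ({x} : Set F)) w ∣ a) :
    ¬ C w ∣ (adjoinEquiv hx).symm a := by
  rintro ⟨q, hq⟩
  apply ha
  refine ⟨adjoinEquiv hx q, ?_⟩
  have h1 := congrArg (adjoinEquiv hx) hq
  rw [AlgEquiv.apply_symm_apply, map_mul] at h1
  rw [h1]
  congr 1
  apply Subtype.ext
  rw [coe_adjoinEquiv, aeval_C]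
  rfl

theorem isGaussDenom_of_not_dvd {w : R} {x : F} (hx : Transcendental R x)
    {a : Algebra.adjoin R ({x} : Set F)}
    (ha : ¬ algebraMap R (Algebra.adjoin R ({x} : Set F)) w ∣ a) :
    IsGaussDenom w x (a : F) := by
  refine ⟨(adjoinEquiv hx).symm a, not_C_dvd_symm hx ha, ?_⟩
  rw [← coe_adjoinEquiv hx, AlgEquiv.apply_symm_apply]

/-- `w` is in the Jacobson radical of the Gauss ring. -/
theorem one_add_unit_gaussO {w : R} (hw : Prime w) {x : F} (hx : Transcendental R x)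
    {t : F} (ht : t ∈ gaussO hw x) :
    (1 + algebraMap R F w * t) ≠ 0 ∧ (1 + algebraMap R F w * t)⁻¹ ∈ gaussO hw x := by
  classical
  obtain ⟨s, ⟨Q, hQ, rfl⟩, hst⟩ := ht
  set A := Algebra.adjoin R ({x} : Set F) with hA
  set w' : A := algebraMap R A w with hw'
  have hw'p : Prime w' := prime_algebraMap_adjoin hw hx
  set sA : A := adjoinEquiv hx Q with hsA
  have hsA' : ¬ w' ∣ sA := not_dvd_adjoinEquiv hx hQ
  have hsAcoe : (sA : F) = aeval x Q := coe_adjoinEquiv hx Q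
  set c : F := aeval x Q * t with hc
  obtain ⟨m, hm, hmc⟩ := (mem_chart.1 hst : IsIntegral A c)
  set n := m.natDegree with hn
  set P : A[X] := (m.scaleRoots w').comp (X - C sA) with hP
  set β : F := aeval x Q + algebraMap R F w * c with hβ
  have hβC : β ∈ chart R ({x} : Set F) :=
    Subalgebra.add_mem _ (adjoin_le_chart _ (mem_adjoin_singleton_iff.2 ⟨Q, rfl⟩))
      (Subalgebra.mul_mem _ (Subalgebra.algebraMap_mem _ w) hst)
  -- `P(β) = 0`
  have hPβ : aeval β P = 0 := by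
    rw [hP, aeval_comp]
    have h1 : aeval β (X - C sA : A[X]) = algebraMap A F w' * c := by
      rw [map_sub, aeval_X, aeval_C]
      have : algebraMap A F sA = aeval x Q := hsAcoe
      rw [this, hβ]
      have : algebraMap A F w' = algebraMap R F w := rfl
      rw [this]
      ring
    rw [h1]
    exact scaleRoots_aeval_eq_zero hmc
  -- constant term of `P`
  have hP0 : ¬ w' ∣ P.coeff 0 := by
    rw [coeff_zero_eq_eval_zero, hP, eval_comp]
    have h0 : eval 0 (X - C sA : A[X]) = -sA := by simp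
    rw [h0, eval_eq_sum_range, natDegree_scaleRoots, Finset.sum_range_succ]
    intro hdvd
    have hlow : w' ∣ ∑ i ∈ Finset.range m.natDegree,
        (m.scaleRoots w').coeff i * (-sA) ^ i := by
      refine Finset.dvd_sum fun i hi => ?_
      rw [coeff_scaleRoots]
      have hi' : 0 < m.natDegree - i := by
        have := Finset.mem_range.1 hi
        omega
      exact Dvd.dvd.mul_right (Dvd.dvd.mul_left (dvd_pow_self _ hi'.ne') _) _
    have htop : w' ∣ (m.scaleRoots w').coeff m.natDegree * (-sA) ^ m.natDegree :=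
      (dvd_add_right hlow).1 hdvd
    rw [coeff_scaleRoots, Nat.sub_self, pow_zero, mul_one, hm.coeff_natDegree, one_mul] at htop
    have := hw'p.dvd_of_dvd_pow htop
    exact hsA' ((dvd_neg).1 this)
  -- `β * γ = p₀`
  set γ : F := -aeval β P.divX with hγ
  have hγC : γ ∈ chart R ({x} : Set F) := by
    rw [hγ]
    refine Subalgebra.neg_mem _ ?_
    rw [aeval_eq_sum_range]
    refine Subalgebra.sum_mem _ fun i _ => ?_
    rw [Algebra.smul_def]
    exact Subalgebra.mul_mem _ (adjoin_le_chart _ (P.divX.coeff i).2)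
      (Subalgebra.pow_mem _ hβC i)
  have hβγ : β * γ = ((P.coeff 0 : A) : F) := by
    have h1 : aeval β (P.divX * X + C (P.coeff 0)) = 0 := by rw [divX_mul_X_add, hPβ]
    rw [map_add, map_mul, aeval_X, aeval_C] at h1
    have h2 : algebraMap A F (P.coeff 0) = ((P.coeff 0 : A) : F) := rfl
    rw [h2] at h1
    rw [hγ]
    linear_combination -h1
  have hp0 : ((P.coeff 0 : A) : F) ≠ 0 := by
    intro h
    have : P.coeff 0 = 0 := Subtype.ext h
    exact hP0 (this ▸ dvd_zero _)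
  have hβ0 : β ≠ 0 := fun h => hp0 (by rw [← hβγ, h, zero_mul])
  have hz : β = aeval x Q * (1 + algebraMap R F w * t) := by
    rw [hβ, hc]; ring
  have hz0 : (1 + algebraMap R F w * t) ≠ 0 := fun h => hβ0 (by rw [hz, h, mul_zero])
  refine ⟨hz0, ((P.coeff 0 : A) : F), isGaussDenom_of_not_dvd hx hP0, ?_⟩
  have : ((P.coeff 0 : A) : F) * (1 + algebraMap R F w * t)⁻¹ = aeval x Q * γ := by
    rw [← hβγ, hz]
    field_simp
  rw [this]
  exact Subalgebra.mul_mem _ (adjoin_le_chart _ (mem_adjoin_singleton_iff.2 ⟨Q, rfl⟩)) hγC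

theorem inv_one_add_mem_gaussO {w : R} (hw : Prime w) {x : F} (hx : Transcendental R x)
    {t : F} (ht : t ∈ gaussO hw x) : (1 + algebraMap R F w * t)⁻¹ ∈ gaussO hw x :=
  (one_add_unit_gaussO hw hx ht).2

/-- `h ≡ 1 mod w O` implies `h ≠ 0`, `h⁻¹ ∈ O` and `h⁻¹ ≡ 1 mod w O`. -/
theorem inW_inv_sub_one {w : R} (hw : Prime w) {x : F} (hx : Transcendental R x)
    {h : F} (hh : InW (gaussO hw x) w (h - 1)) :
    h ≠ 0 ∧ h⁻¹ ∈ gaussO hw x ∧ InW (gaussO hw x) w (h⁻¹ - 1) := by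
  obtain ⟨t, ht, htt⟩ := hh
  have hh' : h = 1 + algebraMap R F w * t := by rw [← htt]; ring
  obtain ⟨hne, hinv⟩ := one_add_unit_gaussO hw hx ht
  rw [← hh'] at hne hinv
  refine ⟨hne, hinv, ⟨-(h⁻¹ * t), Subalgebra.neg_mem _ (Subalgebra.mul_mem _ hinv ht), ?_⟩⟩
  field_simp
  rw [hh']
  ring

end Transcendental

end Fermat.Agent.A2.H729

end
-- ===== PACK-END A2/H729/GaussUnits.lean

-- ===== PACK-BEGIN A2/H12/Step1.lean
section


/-!
# Cell A2 — route G: STEP I (helper12)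

Mathlib-only.  For `f` with `m ∣ div f` on the generic fibre, `g := τ f / f` again has `m ∣ div g`
and is split at every sheet `V` of `F` (a unit with residue an `m`-th power), provided
`V` is discrete with uniformiser `w`, `τ ≡ id` on the residue field of `V`, and the units of `R`
are `m`-th powers.
-/

set_option autoImplicit false

namespace Fermat.Agent.A2.H12

universe u

section Step1

variable {R : Type u} [CommRing R] {F : Type u} [Field F] [Algebra R F]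

theorem zpow_mem_of_unit (V : ValuationSubring F) {a : F} (ha : a ∈ V) (ha' : a⁻¹ ∈ V) (n : ℤ) :
    a ^ n ∈ V := by
  cases n with
  | ofNat k =>
    simp only [Int.ofNat_eq_natCast, zpow_natCast]
    exact V.pow_mem ha k
  | negSucc k =>
    rw [zpow_negSucc, ← inv_pow]
    exact V.pow_mem ha' _

/-- `HorDiv` is stable under an automorphism compatible with `R`. -/
theorem HorDiv.map (τ : F ≃+* F) (τR : R ≃+* R)
    (hτR : ∀ r, τ (algebraMap R F r) = algebraMap R F (τR r)) {m : ℕ} {f : F}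
    (hf : HorDiv R m f) : HorDiv R m (τ f) := by
  intro V hV hVR
  let V' : ValuationSubring F := V.comap (τ : F →+* F)
  let φ : V' →+* V := RingHom.restrict (τ : F →+* F) V' V (fun x hx => hx)
  have hφ : Function.Bijective φ := by
    constructor
    · intro a b hab
      apply Subtype.ext
      have : τ (a : F) = τ (b : F) := congrArg Subtype.val hab
      exact τ.injective this
    · intro b
      refine ⟨⟨τ.symm (b : F), ?_⟩, Subtype.ext ?_⟩
      · change τ (τ.symm (b : F)) ∈ V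
        rw [RingEquiv.apply_symm_apply]
        exact b.2
      · change τ (τ.symm (b : F)) = b
        rw [RingEquiv.apply_symm_apply]
  let e : V' ≃+* V := RingEquiv.ofBijective φ hφ
  have hV' : IsDiscreteValuationRing V' := IsDiscreteValuationRing.RingEquivClass.isDiscreteValuationRing e.symm
  obtain ⟨h, u, hh, hu, hu', hfu⟩ := hf V' hV' (fun r hr => by
    have hr' : τR r ≠ 0 := fun h0 => hr ((map_eq_zero_iff τR τR.injective).1 h0)
    constructor
    · change τ (algebraMap R F r) ∈ V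
      rw [hτR]
      exact (hVR _ hr').1
    · change τ (algebraMap R F r)⁻¹ ∈ V
      rw [map_inv₀, hτR]
      exact (hVR _ hr').2)
  refine ⟨τ h, τ u, ?_, hu, ?_, ?_⟩
  · intro h0
    exact hh ((map_eq_zero_iff τ τ.injective).1 h0)
  · rw [← map_inv₀]
    exact hu'
  · rw [hfu, map_mul, map_pow]

/-- `HorDiv` is stable under quotients. -/
theorem HorDiv.div {m : ℕ} {a b : F} (ha : HorDiv R m a) (hb : HorDiv R m b) :
    HorDiv R m (a / b) := by
  intro V hV hVR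
  obtain ⟨h, u, hh, hu, hu', hfu⟩ := ha V hV hVR
  obtain ⟨h', v, hh', hv, hv', hfv⟩ := hb V hV hVR
  refine ⟨h / h', u / v, div_ne_zero hh hh', ?_, ?_, ?_⟩
  · rw [div_eq_mul_inv]
    exact V.mul_mem _ _ hu hv'
  · rw [inv_div, div_eq_mul_inv]
    exact V.mul_mem _ _ hv hu'
  · rw [hfu, hfv, div_pow, mul_div_mul_comm]

/-- **STEP I, split part.** -/
theorem splitAt_tauSubOne (w : R) (x : F) (m : ℕ) (hm : 0 < m) (τ : F ≃+* F) (τR : R ≃+* R)
    (hτR : ∀ r, τ (algebraMap R F r) = algebraMap R F (τR r))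
    (hW0 : algebraMap R F w ≠ 0)
    (hwunit : ∃ c d : R, τR w = w * c ∧ c * d = 1)
    (hpow : ∀ c : R, IsUnit c → ∃ c₀ : R, c = c₀ ^ m)
    (V : ValuationSubring F) (hV : IsSheet w x V)
    (hstab : ∀ c : F, c ∈ V → τ c - c ∈ V.nonunits)
    (hdisc : ∀ f : F, f ≠ 0 → ∃ (n : ℤ) (u : F), u ∈ V ∧ u⁻¹ ∈ V ∧
      f = algebraMap R F w ^ n * u)
    (f : F) (hf : f ≠ 0) : SplitAt m V (τ f / f) := by
  obtain ⟨n, u, hu, hu', hfu⟩ := hdisc f hf
  obtain ⟨c, d, hc, hcd⟩ := hwunit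
  have hcunit : IsUnit c := IsUnit.of_mul_eq_one d hcd
  obtain ⟨c₀, hc₀⟩ := hpow c hcunit
  have hc₀unit : IsUnit c₀ := by
    rw [hc₀] at hcunit
    exact (isUnit_pow_iff hm.ne').1 hcunit
  obtain ⟨d₀, hd₀⟩ := hc₀unit.exists_right_inv
  set W : F := algebraMap R F w with hW
  set C₀ : F := algebraMap R F c₀ with hC₀
  have hC₀d : C₀ * algebraMap R F d₀ = 1 := by rw [hC₀, ← map_mul, hd₀, map_one]
  have hC₀ne : C₀ ≠ 0 := left_ne_zero_of_mul_eq_one hC₀d
  have hC₀inv : C₀⁻¹ = algebraMap R F d₀ := (eq_inv_of_mul_eq_one_right hC₀d).symm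
  have hC₀V : C₀ ∈ V := hV.1 c₀
  have hC₀V' : C₀⁻¹ ∈ V := by rw [hC₀inv]; exact hV.1 d₀
  have hu0 : u ≠ 0 := by
    rintro rfl
    rw [mul_zero] at hfu
    exact hf hfu
  have hτW : τ W = W * C₀ ^ m := by
    rw [hW, hτR, hc, map_mul, hc₀, map_pow]
  have hτu0 : τ u ≠ 0 := fun h0 => hu0 ((map_eq_zero_iff τ τ.injective).1 h0)
  -- the quotient
  have hg : τ f / f = (C₀ ^ n) ^ m * (τ u / u) := by
    rw [hfu, map_mul, map_zpow₀, hτW, mul_zpow]
    have h1 : (C₀ ^ m) ^ n = (C₀ ^ n) ^ m := by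
      rw [← zpow_natCast, ← zpow_natCast, ← zpow_mul, ← zpow_mul, mul_comm]
    rw [h1]
    have hWn : W ^ n ≠ 0 := zpow_ne_zero n hW0
    field_simp
  refine ⟨C₀ ^ n, zpow_mem_of_unit V hC₀V hC₀V' n, ?_, ?_⟩
  · rw [← inv_zpow]
    exact zpow_mem_of_unit V hC₀V' (by rw [inv_inv]; exact hC₀V) n
  · have h2 : τ f / f - (C₀ ^ n) ^ m = ((C₀ ^ n) ^ m * u⁻¹) * (τ u - u) := by
      rw [hg]
      field_simp
    rw [h2]
    exact mul_mem_nonunits V (hstab u hu)
      (V.mul_mem _ _ (V.pow_mem (zpow_mem_of_unit V hC₀V hC₀V' n) m) hu')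

end Step1

end Fermat.Agent.A2.H12

end
-- ===== PACK-END A2/H12/Step1.lean

-- ===== PACK-BEGIN A2/Mod/H13/Frame.lean
section





/-!
# WALL A2 / MODASM, S1 part 1 (helper13): from the leaves to helper489's FRAME

Level `N = M * q`, coordinate `x = j · j_q`, `V = V∞` (`IsVinf`), `V₀ = V.comap W` (`IsFricke`).
From the leaves L2 (`H553.vinfBasic`, main), L3 (`H816.vinfGauss`, main), L6, L8, L9, L10
(hypotheses) we produce the hypotheses of `H489.twoExtHyp_of_gauss`: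

* `isOver_of_isVinf`, `isOver_comap`        : `V`, `V₀` lie over `R_E`;
* `isGaussOver_of_polar`                    : `IsGaussOver R V u` for every polar `u ∈ F_N`;
* `isGaussOver_xE`, `isGaussOver_comap_xE`  : the Gauss property of `V`, `V₀` for `x`;
* `polyIndepMod_of_indepMod`                : `Mod.IndepMod ⟹ H489.PolyIndepMod`;
* `twoExtHyp_of_leaves`                     : `H489.TwoExtHyp E(x) (V ∩ E(x)) V V₀ b c`.
-/

set_option autoImplicit false
set_option linter.unusedSectionVars false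
set_option linter.style.haveILetI false
set_option synthInstance.maxHeartbeats 400000
set_option maxHeartbeats 1600000

noncomputable section

namespace Fermat.Agent.A2.Mod.H13

open ModularCurve HahnSeries Polynomial IntermediateField
open Fermat.Agent.A2 Fermat.Agent.A2.Mod

variable (P : ValuationSubring _root_.Fermat.Agent.A2.Mod.Qb) (E : IntermediateField ℚ _root_.Fermat.Agent.A2.Mod.Qb)

/-! ### Integer series with a pole of exact order -/

/-- An integer Laurent series is *polar of order `a`*: lowest term `t^(-a)` with coefficient `1`. -/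
def IsPolarInt (g : LaurentSeries ℤ) (a : ℕ) : Prop :=
  (∀ n : ℤ, n < -(a : ℤ) → g.coeff n = 0) ∧ g.coeff (-(a : ℤ)) = 1

theorem IsPolarInt.order {g : LaurentSeries ℤ} {a : ℕ} (h : IsPolarInt g a) :
    g.order = -(a : ℤ) := by
  have h1 : g.coeff (-(a : ℤ)) ≠ 0 := by rw [h.2]; exact one_ne_zero
  have hg : g ≠ 0 := by
    rintro rfl
    exact h1 (by simp)
  apply le_antisymm
  · exact order_le_of_coeff_ne_zero h1
  · by_contra hlt
    exact (HahnSeries.coeff_order_eq_zero.not.mpr hg) (h.1 _ (not_le.mp hlt))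

theorem IsPolarInt.mul {g g' : LaurentSeries ℤ} {a a' : ℕ} (h : IsPolarInt g a)
    (h' : IsPolarInt g' a') : IsPolarInt (g * g') (a + a') := by
  have hg : g ≠ 0 := by
    rintro rfl
    have := h.2
    simp at this
  have hg' : g' ≠ 0 := by
    rintro rfl
    have := h'.2
    simp at this
  have hord : (g * g').order = -((a + a' : ℕ) : ℤ) := by
    rw [HahnSeries.order_mul hg hg', h.order, h'.order]
    push_cast
    ring
  refine ⟨fun n hn => ?_, ?_⟩
  · apply HahnSeries.coeff_eq_zero_of_lt_order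
    rw [hord]
    exact hn
  · have key := HahnSeries.coeff_mul_order_add_order g g'
    rw [HahnSeries.leadingCoeff_eq, HahnSeries.leadingCoeff_eq, h.order, h'.order, h.2, h'.2,
      mul_one] at key
    rw [← key]
    congr 1
    push_cast
    ring

theorem isPolarInt_jInt (d : ℕ) [NeZero d] : IsPolarInt (H708.jInt d) d := by
  refine ⟨fun n hn => ?_, H553.coeff_jInt_top d⟩
  rw [H708.jInt, jqNModC]
  by_cases hdn : (d : ℤ) ∣ n
  · obtain ⟨k, rfl⟩ := hdn
    rw [qExpand_coeff_mul]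
    apply coeff_jqModC_of_lt
    have hd : (0 : ℤ) < d := by exact_mod_cast Nat.pos_of_ne_zero (NeZero.ne d)
    by_contra hk
    have hk' : -1 ≤ k := not_lt.mp hk
    have : -(d : ℤ) ≤ (d : ℤ) * k := by nlinarith
    omega
  · exact qExpand_coeff_of_not_dvd d _ hdn

/-! ### `V∞` and `V₀` lie over `R_E` -/

section Over

variable {P E} {N : ℕ} [IsDiscreteValuationRing (_root_.Fermat.Agent.A2.Mod.RE P E)]

theorem algebraMap_RE_eq (r : _root_.Fermat.Agent.A2.Mod.RE P E) :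
    algebraMap (_root_.Fermat.Agent.A2.Mod.RE P E) (_root_.Fermat.Agent.A2.Mod.FE E N) r = algebraMap E (_root_.Fermat.Agent.A2.Mod.FE E N) (r : E) := rfl

theorem isOver_of_isVinf {V : ValuationSubring (_root_.Fermat.Agent.A2.Mod.FE E N)} (hV : IsVinf P E N V) :
    H489.IsOver (_root_.Fermat.Agent.A2.Mod.RE P E) V where
  mem := fun r => (H553.algebraMap_mem_iff P E hV (r : E)).mpr r.2
  nonunit := fun r hr => by
    rw [ValuationSubring.mem_nonunits_iff_or]
    by_cases h0 : r = 0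
    · left
      rw [h0, map_zero]
    · right
      intro hmem
      have hr0 : (r : E) ≠ 0 := fun h => h0 (Subtype.ext h)
      have e : (algebraMap (_root_.Fermat.Agent.A2.Mod.RE P E) (_root_.Fermat.Agent.A2.Mod.FE E N) r)⁻¹ = algebraMap E (_root_.Fermat.Agent.A2.Mod.FE E N) ((r : E)⁻¹) := by
        rw [algebraMap_RE_eq, map_inv₀]
      rw [e, H553.algebraMap_mem_iff P E hV] at hmem
      have hu : IsUnit r :=
        isUnit_iff_exists_inv.mpr ⟨⟨_, hmem⟩, Subtype.ext (mul_inv_cancel₀ hr0)⟩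
      exact (IsLocalRing.mem_maximalIdeal r).mp hr hu

/-- Nonunits of the pull-back of a valuation ring along an automorphism. -/
theorem mem_nonunits_comap {F : Type*} [Field F] (V : ValuationSubring F) (W : F →+* F) (f : F) :
    f ∈ (V.comap W).nonunits ↔ W f ∈ V.nonunits := by
  rw [ValuationSubring.mem_nonunits_iff_or, ValuationSubring.mem_nonunits_iff_or,
    ValuationSubring.mem_comap]
  constructor
  · rintro (h | h)
    · left
      rw [h, map_zero]
    · right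
      intro h'
      apply h
      show W f⁻¹ ∈ V
      rw [map_inv₀]
      exact h'
  · rintro (h | h)
    · left
      exact (map_eq_zero W).mp h
    · right
      intro h'
      apply h
      have h'' : W f⁻¹ ∈ V := h'
      rwa [map_inv₀] at h''

theorem isOver_comap {V : ValuationSubring (_root_.Fermat.Agent.A2.Mod.FE E N)} (hV : IsVinf P E N V)
    (W : _root_.Fermat.Agent.A2.Mod.FE E N ≃ₐ[E] _root_.Fermat.Agent.A2.Mod.FE E N) :
    H489.IsOver (_root_.Fermat.Agent.A2.Mod.RE P E) (V.comap (W : _root_.Fermat.Agent.A2.Mod.FE E N →+* _root_.Fermat.Agent.A2.Mod.FE E N)) where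
  mem := fun r => by
    rw [ValuationSubring.mem_comap]
    show W (algebraMap (_root_.Fermat.Agent.A2.Mod.RE P E) (_root_.Fermat.Agent.A2.Mod.FE E N) r) ∈ V
    rw [algebraMap_RE_eq, W.commutes]
    exact (isOver_of_isVinf hV).mem r
  nonunit := fun r hr => by
    rw [mem_nonunits_comap]
    show W (algebraMap (_root_.Fermat.Agent.A2.Mod.RE P E) (_root_.Fermat.Agent.A2.Mod.FE E N) r) ∈ V.nonunits
    rw [algebraMap_RE_eq, W.commutes]
    exact (isOver_of_isVinf hV).nonunit r hr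

end Over

/-! ### The Gauss property for polar elements -/

section Gauss

variable {P E} {N : ℕ} [IsDiscreteValuationRing (_root_.Fermat.Agent.A2.Mod.RE P E)]

variable (E N) in
/-- `u ∈ F_N` is *polar of order `a`*: its `t`-expansion is an integer series with lowest term
`t^(-a)`. -/
def IsPolar (u : _root_.Fermat.Agent.A2.Mod.FE E N) (a : ℕ) : Prop :=
  ∃ g : LaurentSeries ℤ, IsPolarInt g a ∧ (u : LaurentSeries E) = coeffEmb E (H708.castQ g)

theorem IsPolar.mul {u u' : _root_.Fermat.Agent.A2.Mod.FE E N} {a a' : ℕ} (h : IsPolar E N u a) (h' : IsPolar E N u' a') :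
    IsPolar E N (u * u') (a + a') := by
  obtain ⟨g, hg, e⟩ := h
  obtain ⟨g', hg', e'⟩ := h'
  refine ⟨g * g', hg.mul hg', ?_⟩
  rw [map_mul, map_mul, ← e, ← e']
  rfl

theorem isPolar_jE (d : ℕ) [NeZero d] (hd : d ∣ N) : IsPolar E N (jE E N d hd) d :=
  ⟨H708.jInt d, isPolarInt_jInt d, H553.coe_jE N d hd⟩

theorem ev_eq_aeval (u : _root_.Fermat.Agent.A2.Mod.FE E N) (p : Polynomial (_root_.Fermat.Agent.A2.Mod.RE P E)) : ev P E N u p = aeval u p := rfl

theorem not_C_dvd_of_map_ne_zero {w : _root_.Fermat.Agent.A2.Mod.RE P E} (hw : Irreducible w) {p : Polynomial (_root_.Fermat.Agent.A2.Mod.RE P E)}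
    (hp : p.map (IsLocalRing.residue (_root_.Fermat.Agent.A2.Mod.RE P E)) ≠ 0) : ¬ Polynomial.C w ∣ p := by
  rintro ⟨Q, rfl⟩
  apply hp
  rw [Polynomial.map_mul, Polynomial.map_C]
  have : IsLocalRing.residue (_root_.Fermat.Agent.A2.Mod.RE P E) w = 0 := by
    rw [IsLocalRing.residue_eq_zero_iff]
    exact (IsLocalRing.mem_maximalIdeal w).mpr hw.not_isUnit
  rw [this, map_zero, zero_mul]

/-- **Gauss property** of `V∞` for a polar element. -/
theorem isGaussOver_of_polar {V : ValuationSubring (_root_.Fermat.Agent.A2.Mod.FE E N)} (hV : IsVinf P E N V)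
    {w : _root_.Fermat.Agent.A2.Mod.RE P E} (hw : Irreducible w) (hN : N ≠ 0) {u : _root_.Fermat.Agent.A2.Mod.FE E N} {a : ℕ} (ha : 0 < a)
    (hu : IsPolar E N u a) (htr : Transcendental (_root_.Fermat.Agent.A2.Mod.RE P E) u) :
    H489.IsGaussOver (_root_.Fermat.Agent.A2.Mod.RE P E) V u where
  isOver := isOver_of_isVinf hV
  mem := by
    obtain ⟨g, -, e⟩ := hu
    exact H553.mem_of_int hV e
  prim := by
    intro p hp
    by_contra hne
    obtain ⟨g, hg, e⟩ := hu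
    have hp0 : p ≠ 0 := by
      rintro rfl
      exact hne (Polynomial.map_zero _)
    have h3 := H816.vinfGauss P E w N hN inferInstance hw V hV u (H708.castA (_root_.Fermat.Agent.A2.Mod.RE P E) g) a ha
      (by rw [e]; exact H553.coeffEmb_castQ (P := P) g)
      (fun n hn => by
        show ((g.coeff n : ℤ) : _root_.Fermat.Agent.A2.Mod.RE P E) = 0
        rw [hg.1 n hn, Int.cast_zero])
      (by
        have : (H708.castA (_root_.Fermat.Agent.A2.Mod.RE P E) g).coeff (-(a : ℤ)) = 1 := by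
          show ((g.coeff (-(a : ℤ)) : ℤ) : _root_.Fermat.Agent.A2.Mod.RE P E) = 1
          rw [hg.2, Int.cast_one]
        rw [this]
        exact isUnit_one)
      p (not_C_dvd_of_map_ne_zero hw hne)
    rw [ev_eq_aeval] at h3
    rcases (ValuationSubring.mem_nonunits_iff_or V).mp hp with h0 | h0
    · exact htr ⟨p, hp0, h0⟩
    · exact h0 h3.2

/-- transport of the Gauss property along an `E`-automorphism. -/
theorem isGaussOver_comap {V : ValuationSubring (_root_.Fermat.Agent.A2.Mod.FE E N)} (hV : IsVinf P E N V)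
    (W : _root_.Fermat.Agent.A2.Mod.FE E N ≃ₐ[E] _root_.Fermat.Agent.A2.Mod.FE E N) {u : _root_.Fermat.Agent.A2.Mod.FE E N} (h : H489.IsGaussOver (_root_.Fermat.Agent.A2.Mod.RE P E) V (W u)) :
    H489.IsGaussOver (_root_.Fermat.Agent.A2.Mod.RE P E) (V.comap (W : _root_.Fermat.Agent.A2.Mod.FE E N →+* _root_.Fermat.Agent.A2.Mod.FE E N)) u where
  isOver := isOver_comap hV W
  mem := h.mem
  prim := by
    intro p hp
    apply h.prim p
    rw [mem_nonunits_comap] at hp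
    have e : W (aeval u p) = aeval (W u) p := by
      have := Polynomial.aeval_algHom_apply (W.toAlgHom.restrictScalars (_root_.Fermat.Agent.A2.Mod.RE P E)) u p
      exact this.symm
    rw [← e]
    exact hp

theorem transcendental_RE {u : _root_.Fermat.Agent.A2.Mod.FE E N} (h : Transcendental E u) : Transcendental (_root_.Fermat.Agent.A2.Mod.RE P E) u :=
  h.restrictScalars (fun a b hab => Subtype.ext hab)

theorem transcendental_algEquiv (W : _root_.Fermat.Agent.A2.Mod.FE E N ≃ₐ[E] _root_.Fermat.Agent.A2.Mod.FE E N) {u : _root_.Fermat.Agent.A2.Mod.FE E N}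
    (h : Transcendental E u) : Transcendental E (W u) := by
  rintro ⟨p, hp0, hp⟩
  apply h
  refine ⟨p, hp0, ?_⟩
  have e := Polynomial.aeval_algHom_apply W.toAlgHom u p
  have e' : W (aeval u p) = 0 := by
    rw [← hp]
    exact e.symm
  exact (map_eq_zero_iff W W.injective).mp e'

end Gauss

/-! ### The coordinate `x = j · j_q` -/

section Coordinate

variable {P E} (M q : ℕ) [NeZero M] [NeZero q] [IsDiscreteValuationRing (_root_.Fermat.Agent.A2.Mod.RE P E)]

theorem isPolar_xE : IsPolar E (M * q) (xE E M q) (1 + q) :=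
  (isPolar_jE 1 (one_dvd _)).mul (isPolar_jE q (dvd_mul_left q M))

theorem isPolar_fricke_xE {W : _root_.Fermat.Agent.A2.Mod.FE E (M * q) ≃ₐ[E] _root_.Fermat.Agent.A2.Mod.FE E (M * q)} (hW : IsFricke E (M * q) W) :
    IsPolar E (M * q) (W (xE E M q)) (M * q + M) := by
  have h1 : W (jE E (M * q) 1 (one_dvd _)) = jE E (M * q) (M * q) (dvd_refl _) :=
    hW.1 1 (M * q) (one_dvd _) (dvd_refl _) (one_mul _)
  have h2 : W (jE E (M * q) q (dvd_mul_left q M)) = jE E (M * q) M (dvd_mul_right M q) :=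
    hW.1 q M (dvd_mul_left q M) (dvd_mul_right M q) (mul_comm q M)
  rw [xE, map_mul, h1, h2]
  exact (isPolar_jE (M * q) (dvd_refl _)).mul (isPolar_jE M (dvd_mul_right M q))

variable {M q}

/-- `V∞` induces the Gauss valuation on `E(x)`. -/
theorem isGaussOver_xE {w : _root_.Fermat.Agent.A2.Mod.RE P E} (hw : Irreducible w)
    {V : ValuationSubring (_root_.Fermat.Agent.A2.Mod.FE E (M * q))} (hV : IsVinf P E (M * q) V)
    (htr : Transcendental E (xE E M q)) :
    H489.IsGaussOver (_root_.Fermat.Agent.A2.Mod.RE P E) V (xE E M q) :=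
  isGaussOver_of_polar hV hw (NeZero.ne _) (by omega) (isPolar_xE M q) (transcendental_RE htr)

/-- `V₀ = V∞ ∘ W` induces the Gauss valuation on `E(x)`. -/
theorem isGaussOver_comap_xE {w : _root_.Fermat.Agent.A2.Mod.RE P E} (hw : Irreducible w)
    {V : ValuationSubring (_root_.Fermat.Agent.A2.Mod.FE E (M * q))} (hV : IsVinf P E (M * q) V)
    {W : _root_.Fermat.Agent.A2.Mod.FE E (M * q) ≃ₐ[E] _root_.Fermat.Agent.A2.Mod.FE E (M * q)} (hW : IsFricke E (M * q) W)
    (htr : Transcendental E (xE E M q)) :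
    H489.IsGaussOver (_root_.Fermat.Agent.A2.Mod.RE P E) (V.comap (W : _root_.Fermat.Agent.A2.Mod.FE E (M * q) →+* _root_.Fermat.Agent.A2.Mod.FE E (M * q))) (xE E M q) :=
  isGaussOver_comap hV W
    (isGaussOver_of_polar hV hw (NeZero.ne _)
      (Nat.add_pos_right _ (Nat.pos_of_ne_zero (NeZero.ne M)))
      (isPolar_fricke_xE M q hW) (transcendental_RE (transcendental_algEquiv W htr)))

end Coordinate

/-! ### Independence and the final frame -/

section Indep

variable {P E} {N : ℕ} [IsDiscreteValuationRing (_root_.Fermat.Agent.A2.Mod.RE P E)]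

theorem inW_iff_mem_nonunits {V : ValuationSubring (_root_.Fermat.Agent.A2.Mod.FE E N)} {w : _root_.Fermat.Agent.A2.Mod.RE P E}
    (hu : H48.IsUnif V (cE P E N w)) (f : _root_.Fermat.Agent.A2.Mod.FE E N) : InW P E N V w f ↔ f ∈ V.nonunits := by
  rw [InW, hu.mul_inv_mem_iff, ValuationSubring.mem_nonunits_iff]

theorem isUnif_comap {V : ValuationSubring (_root_.Fermat.Agent.A2.Mod.FE E N)} {w : _root_.Fermat.Agent.A2.Mod.RE P E}
    (hu : H48.IsUnif V (cE P E N w)) (W : _root_.Fermat.Agent.A2.Mod.FE E N ≃ₐ[E] _root_.Fermat.Agent.A2.Mod.FE E N) :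
    H48.IsUnif (V.comap (W : _root_.Fermat.Agent.A2.Mod.FE E N →+* _root_.Fermat.Agent.A2.Mod.FE E N)) (cE P E N w) := by
  have hW : W (cE P E N w) = cE P E N w := W.commutes _
  have hWi : W (cE P E N w)⁻¹ = (cE P E N w)⁻¹ := by rw [map_inv₀, hW]
  refine ⟨?_, ?_, ?_⟩
  · show W (cE P E N w) ∈ V
    rw [hW]
    exact hu.mem
  · intro h
    have h' : W (cE P E N w)⁻¹ ∈ V := h
    rw [hWi] at h'
    exact hu.inv_not_mem h'
  · intro f hf hfi
    show W (f * (cE P E N w)⁻¹) ∈ V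
    rw [map_mul, hWi]
    refine hu.gen (W f) hf ?_
    intro h
    apply hfi
    show W f⁻¹ ∈ V
    rw [map_inv₀]
    exact h

theorem polyIndepMod_of_indepMod {V : ValuationSubring (_root_.Fermat.Agent.A2.Mod.FE E N)} {w : _root_.Fermat.Agent.A2.Mod.RE P E}
    (hw : Irreducible w) (hu : H48.IsUnif V (cE P E N w)) {x : _root_.Fermat.Agent.A2.Mod.FE E N} {n : ℕ}
    {b : Fin n → _root_.Fermat.Agent.A2.Mod.FE E N} (h : IndepMod P E N V w x b) :
    H489.PolyIndepMod (_root_.Fermat.Agent.A2.Mod.RE P E) V x b := by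
  intro a ha i
  have h1 := h a ((inW_iff_mem_nonunits hu _).mpr ha) i
  by_contra hne
  exact not_C_dvd_of_map_ne_zero hw hne h1

end Indep

section Final

variable {P E} {M q : ℕ} [NeZero M] [NeZero q] {w : _root_.Fermat.Agent.A2.Mod.RE P E}

/-- **The frame for `X₀(Mq)`**: from the leaves L2, L3 (main) and L6, L8, L9, L10 (hypotheses),
the two valuation rings `V∞`, `V₀ = V∞ ∘ W` satisfy `H489.TwoExtHyp` over the Gauss ring of
`E(x)`, `x = j · j_q`. -/
theorem twoExtHyp_of_leaves (hS : Setting P E M q w)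
    (V : ValuationSubring (_root_.Fermat.Agent.A2.Mod.FE E (M * q))) (W : _root_.Fermat.Agent.A2.Mod.FE E (M * q) ≃ₐ[E] _root_.Fermat.Agent.A2.Mod.FE E (M * q))
    (hV : IsVinf P E (M * q) V) (hW : IsFricke E (M * q) W)
    (hL6 : VzeroNeStatement P E M q w) (hL8 : DegStatement E M q)
    (hL9 : IndInfStatement P E M q w) (hL10 : IndZeroStatement P E M q w) :
    haveI := hS.dvr
    ∃ (b c : Fin ((q + 1) * dedekindPsi M) → _root_.Fermat.Agent.A2.Mod.FE E (M * q))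
      (_ : IsDiscreteValuationRing (H489.gaussRing E V (xE E M q))),
      H489.TwoExtHyp (IntermediateField.adjoin E ({xE E M q} : Set (_root_.Fermat.Agent.A2.Mod.FE E (M * q))))
        (H489.gaussRing E V (xE E M q)) V
        (V.comap (W : _root_.Fermat.Agent.A2.Mod.FE E (M * q) →+* _root_.Fermat.Agent.A2.Mod.FE E (M * q))) b c := by
  haveI := hS.dvr
  obtain ⟨htr, hfr, -⟩ := hL8 hS.q_prime hS.q_not_dvd
  obtain ⟨b, hb, hbI⟩ := hL9 hS V hV
  obtain ⟨c, hc, hcI⟩ := hL10 hS V W hV hW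
  have hu : H48.IsUnif V (cE P E (M * q) w) :=
    (H553.vinfBasic P E w (M * q) (NeZero.ne _) hS.dvr hS.unif V hV).1
  have hG₁ := isGaussOver_xE hS.unif hV htr
  have hG₂ := isGaussOver_comap_xE hS.unif hV hW htr
  have hdvr : IsDiscreteValuationRing (H489.gaussRing E V (xE E M q)) :=
    hG₁.isDiscreteValuationRing
  refine ⟨b, c, hdvr, ?_⟩
  exact H489.twoExtHyp_of_gauss hG₁ hG₂ (fun h => hL6 hS V W hV hW h.symm) hb hc
    (polyIndepMod_of_indepMod hS.unif hu hbI)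
    (polyIndepMod_of_indepMod hS.unif (isUnif_comap hu W) hcI)
    (by rw [hfr, two_mul])

end Final


end Fermat.Agent.A2.Mod.H13

end
end
-- ===== PACK-END A2/Mod/H13/Frame.lean

-- ===== PACK-BEGIN Ribet/H399/CuspPureChart.lean
section



/-!
# Row 38, W-EIS leaf CUSP, piece (I) (helper399): one-sided purity at a smooth point of a chart

Chart form of `pure_smooth_one`: `B` a chart (`A2.Alg.ChartCtx`), `p`, `p'` its two components
(`p ⊓ p' = (w)`), `n` a closed point on `p` and not on `p'`.  A function `u` with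
`A2.DivisibleDiv E m u` (`m` ARBITRARY, e.g. the residue characteristic) becomes, after
multiplication by a power of `w` and an `m`-th power `d ^ m`, a unit at `n`, with `d` a unit at
`p`.  No hypothesis on the behaviour of `u` on the components (no `IsSplit`).
-/

set_option autoImplicit false
set_option linter.style.haveILetI false
set_option linter.unusedSectionVars false
set_option linter.unusedVariables false

noncomputable section

namespace Fermat.Agent.Ribet.H399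

open Polynomial IsLocalRing
open Fermat.Agent.A2 Fermat.Agent.A2.Alg Fermat.Agent.A2.Alg.H754

variable {R E F : Type*} [CommRing R] [IsDomain R] [IsDiscreteValuationRing R]
  [Field E] [Algebra R E] [IsFractionRing R E]
  [Field F] [Algebra E F] [Algebra R F] [IsScalarTower R E F]

/-- `m ∣ div u` at every horizontal height-one prime of the chart. -/
theorem horizontal_of_divisibleDiv (w : R) (hw : Irreducible w) (B : Subalgebra R F)
    [IsNoetherianRing B] [IsIntegrallyClosed B] [IsFractionRing B F]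
    (m : ℕ) (u : F) (hu : u ≠ 0) (hdiv : DivisibleDiv E m u)
    (𝔭 : Ideal B) (h𝔭 : 𝔭.IsPrime) (hht : 𝔭.height = 1) (hw𝔭 : algebraMap R B w ∉ 𝔭) :
    ∃ t : F, ∃ a s : B, a ∉ 𝔭 ∧ s ∉ 𝔭 ∧ u * t ^ m * algebraMap B F s = algebraMap B F a := by
  haveI := h𝔭
  obtain ⟨W, hdvr, hW⟩ := Fermat.Agent.S18.H438.exists_dvr_of_height_one (F := F) 𝔭 hht
  have hE : ∀ e : E, algebraMap E F e ∈ W := by
    intro e
    obtain ⟨a, b, hb, rfl⟩ := IsFractionRing.div_surjective (A := R) e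
    have hb0 : b ≠ 0 := nonZeroDivisors.ne_zero hb
    obtain ⟨k, υ, hbk⟩ := IsDiscreteValuationRing.eq_unit_mul_pow_irreducible hb0 hw
    have hb𝔭 : algebraMap R B b ∉ 𝔭 := by
      rw [hbk, map_mul, map_pow]
      intro h
      rcases h𝔭.mem_or_mem h with h | h
      · exact h𝔭.ne_top (Ideal.eq_top_of_isUnit_mem _ h (υ.isUnit.map (algebraMap R B)))
      · exact hw𝔭 (h𝔭.mem_of_pow_mem k h)
    have hbF : algebraMap R F b ≠ 0 := fun h0 =>
      hb0 (algebraMap_base_injective (E := E) (F := F) (by rw [h0, map_zero]))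
    refine (hW _).2 ⟨algebraMap R B a, algebraMap R B b, hb𝔭, ?_⟩
    rw [← IsScalarTower.algebraMap_apply R B F, ← IsScalarTower.algebraMap_apply R B F,
      map_div₀, ← IsScalarTower.algebraMap_apply R E F, ← IsScalarTower.algebraMap_apply R E F,
      div_mul_cancel₀ _ hbF]
  obtain ⟨h, u₀, hh, hu₀, hu₀', huu⟩ := hdiv W hdvr hE
  have hu₀0 : u₀ ≠ 0 := by
    rintro rfl
    rw [zero_mul] at huu
    exact hu huu
  obtain ⟨a, s, ha, hs', has⟩ :=
    (locU_iff_of_valuationSubring 𝔭 W hW hu₀0).2 ⟨hu₀, hu₀'⟩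
  refine ⟨h⁻¹, a, s, ha, hs', ?_⟩
  rw [huu, inv_pow, mul_assoc u₀, mul_inv_cancel₀ (pow_ne_zero _ hh), mul_one]
  exact has

/-- **One-sided purity at a smooth point of a chart** (`m` arbitrary, no `IsSplit`). -/
theorem pure_smooth_one_chart [CharZero E] (m : ℕ) (hm : 0 < m)
    (w : R) (x : F) (B : Subalgebra R F) (hB : ChartCtx E w x B)
    (u : F) (hu : u ≠ 0) (hdiv : DivisibleDiv E m u)
    (p p' : Ideal B) (hp : p.IsPrime) (hp' : p'.IsPrime)
    (hinf : p ⊓ p' = Ideal.span {algebraMap R B w}) (h21 : ¬ p' ≤ p)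
    (hnorm : IsIntegrallyClosed (B ⧸ p))
    (n : Ideal B) (hn : n.IsMaximal) (hpn : p ≤ n) (hp'n : ¬ p' ≤ n) :
    ∃ (k : ℤ) (d : F), d ≠ 0 ∧ LocUnit B n (u * (algebraMap R F w) ^ k * d ^ m) ∧
      LocUnit B p d := by
  obtain ⟨hN, hIC, hFr⟩ := chart_package w x B hB
  haveI := hN
  haveI := hIC
  haveI := hFr
  haveI := hp
  haveI := hp'
  have hwB0 : algebraMap R B w ≠ 0 := fun h0 =>
    hB.hw.ne_zero (algebraMap_chart_injective (E := E) B (by rw [h0, map_zero]))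
  have hwp : algebraMap R B w ∈ p := by
    have : algebraMap R B w ∈ p ⊓ p' := hinf ▸ Ideal.mem_span_singleton_self _
    exact this.1
  have hD : IsDedekindDomain (B ⧸ p) := isDedekindDomain_component w x B hB p hwp hnorm
  obtain ⟨k, d, hd0, hU, hdp⟩ := pure_smooth_one (algebraMap R B w) hwB0 p p' hinf h21 hD n hn hpn
    hp'n m hm u hu
    (fun 𝔭 h𝔭 hht hw𝔭 => horizontal_of_divisibleDiv w hB.hw B m u hu hdiv 𝔭 h𝔭 hht hw𝔭)
  exact ⟨k, d, hd0, hU, hdp⟩

end Fermat.Agent.Ribet.H399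

end

end
-- ===== PACK-END Ribet/H399/CuspPureChart.lean

-- ===== PACK-BEGIN Ribet/H403/NodeSlope.lean
section




/-!
# RIBET, wall at `p`, crux (I6), leaf CT2 = P-NODE: the node-slope relation (helper403)

Abstract local algebra (Mathlib + landed A2 node-purity library of helper672/helper609).

`R` a noetherian local integrally closed domain, `𝔭₁ 𝔭₂` two primes ("branches") with
`(π) = 𝔭₁ ⊓ 𝔭₂`, `R ⧸ 𝔭ᵢ` discrete valuation rings, `X ∈ 𝔭₁` a uniformiser of `R ⧸ 𝔭₂`,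
`Y ∈ 𝔭₂` a uniformiser of `R ⧸ 𝔭₁`, `X * Y = ε * π ^ n` with `ε` a unit (a node of thickness
`n`; no completion, no hypothesis on the residue characteristic).

For `u ∉ 𝔭₂` write `s = ord_{𝔭₂}(u)` for the order of `u mod 𝔭₂` in `R ⧸ 𝔭₂`
(`mk u = ε' * mk X ^ s`) and `c = v_{𝔭₁}(u)` (`σ * u = τ * π ^ c`, `σ τ ∉ 𝔭₁`).

* `length_quotient_span_pair` : `ℓ(R / (u, Y)) = n * s`.
* `dvd_mul_ord` : if `u` is an `m`-th power up to units at every prime `P ∋ u`, `Y ∉ P`,
  then `m ∣ n * s`.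
* `node_slope_dvd` : if `m ∣ ord_P u` at all HORIZONTAL primes (`π ∉ P`) and `m ∣ c + n * j`,
  then `m ∣ n * (s + j)`.
* `node_slope_modEq` : for `m` prime to `n`:  `n * s ≡ c  (mod m)`      (**CT2 / P-NODE**).
* `node_slope_eq` : for a purely vertical `u` (no horizontal prime):  `n * s = c`  EXACTLY.
-/

set_option autoImplicit false
set_option linter.unusedSectionVars false
set_option linter.style.haveILetI false

namespace Fermat.Agent.Ribet.H403

open IsLocalRing Fermat.Agent.A2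

section cancel

variable {R : Type*} [CommRing R] [IsDomain R]
variable (𝔭₂ : Ideal R) [𝔭₂.IsPrime]

/-- Cancellation at the node: if `X Y = ε π ^ n`, `X ∉ 𝔭₂ ∋ π` and
`r π ^ i ∈ (Y, π ^ (i + 1))` with `i < n`, then `r ∈ 𝔭₂`. -/
theorem mem_of_mul_pow_mem_403 {π X Y ε : R} {n : ℕ} (hπ0 : π ≠ 0) (hπ₂ : π ∈ 𝔭₂)
    (hX₂ : X ∉ 𝔭₂) (hXY : X * Y = ε * π ^ n) {i : ℕ} (hi : i < n) {r : R}
    (h : r * π ^ i ∈ Ideal.span {Y} ⊔ Ideal.span {π ^ (i + 1)}) : r ∈ 𝔭₂ := by
  obtain ⟨a, ha, b, hb, hab⟩ := Submodule.mem_sup.mp h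
  obtain ⟨a', rfl⟩ := Ideal.mem_span_singleton'.mp ha
  obtain ⟨b', rfl⟩ := Ideal.mem_span_singleton'.mp hb
  obtain ⟨d, rfl⟩ : ∃ d, n = i + 1 + d := ⟨n - (i + 1), by omega⟩
  have h1 : π ^ i * (X * (r - π * b')) = π ^ i * (ε * π ^ (d + 1) * a') := by
    have : X * (a' * Y) = a' * (ε * π ^ (i + 1 + d)) := by rw [← hXY]; ring
    have h2 : X * (r * π ^ i) = X * (a' * Y + b' * π ^ (i + 1)) := by rw [hab]
    rw [mul_add, this] at h2
    have e1 : π ^ (i + 1 + d) = π ^ i * π ^ (d + 1) := by rw [← pow_add]; congr 1; omega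
    have e2 : π ^ (i + 1) = π ^ i * π := pow_succ π i
    rw [e1, e2] at h2
    linear_combination h2
  have h2 := mul_left_cancel₀ (pow_ne_zero i hπ0) h1
  have h3 : X * (r - π * b') ∈ 𝔭₂ := by
    rw [h2, pow_succ]
    exact 𝔭₂.mul_mem_right _ (𝔭₂.mul_mem_left _ (𝔭₂.mul_mem_left _ hπ₂))
  have h4 : r - π * b' ∈ 𝔭₂ := (Ideal.IsPrime.mem_or_mem inferInstance h3).resolve_left hX₂
  have : r = (r - π * b') + π * b' := by ring
  rw [this]
  exact 𝔭₂.add_mem h4 (𝔭₂.mul_mem_right _ hπ₂)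

/-- `u ∉ 𝔭₂` is regular modulo `(Y, π ^ i)` for `i ≤ n`. -/
theorem mem_span_sup_of_mul_mem_403 {π X Y ε : R} {n : ℕ} (hπ0 : π ≠ 0) (hπ₂ : π ∈ 𝔭₂)
    (hX₂ : X ∉ 𝔭₂) (hXY : X * Y = ε * π ^ n)
    (h𝔭₂ : 𝔭₂ ≤ Ideal.span {Y} ⊔ Ideal.span {π}) {u : R} (hu : u ∉ 𝔭₂) :
    ∀ i : ℕ, i ≤ n → ∀ a : R, u * a ∈ Ideal.span {Y} ⊔ Ideal.span {π ^ i} →
      a ∈ Ideal.span {Y} ⊔ Ideal.span {π ^ i} := by
  intro i
  induction i with
  | zero =>
    intro _ a _
    rw [pow_zero, Ideal.span_singleton_one, sup_top_eq]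
    trivial
  | succ i ih =>
    intro hi a ha
    have hle : Ideal.span {Y} ⊔ Ideal.span {π ^ (i + 1)} ≤ Ideal.span {Y} ⊔ Ideal.span {π ^ i} :=
      sup_le_sup_left ((Ideal.span_singleton_le_span_singleton).mpr (pow_dvd_pow π (Nat.le_succ i))) _
    obtain ⟨c, hc, d, hd, hcd⟩ := Submodule.mem_sup.mp (ih (by omega) a (hle ha))
    obtain ⟨c', rfl⟩ := Ideal.mem_span_singleton'.mp hc
    obtain ⟨d', rfl⟩ := Ideal.mem_span_singleton'.mp hd
    -- `u d' π ^ i ∈ (Y, π ^ (i+1))`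
    have h1 : (u * d') * π ^ i ∈ Ideal.span {Y} ⊔ Ideal.span {π ^ (i + 1)} := by
      have : (u * d') * π ^ i = u * a - (u * c') * Y := by rw [← hcd]; ring
      rw [this]
      exact Ideal.sub_mem _ ha (Ideal.mem_sup_left (Ideal.mul_mem_left _ _
        (Ideal.mem_span_singleton_self Y)))
    have h2 : u * d' ∈ 𝔭₂ := mem_of_mul_pow_mem_403 𝔭₂ hπ0 hπ₂ hX₂ hXY (by omega) h1
    have h3 : d' ∈ 𝔭₂ := (Ideal.IsPrime.mem_or_mem inferInstance h2).resolve_left hu
    obtain ⟨e, he, f, hf, hef⟩ := Submodule.mem_sup.mp (h𝔭₂ h3)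
    obtain ⟨e', rfl⟩ := Ideal.mem_span_singleton'.mp he
    obtain ⟨f', rfl⟩ := Ideal.mem_span_singleton'.mp hf
    have : a = (c' + e' * π ^ i) * Y + f' * π ^ (i + 1) := by
      rw [← hcd, ← hef, pow_succ]; ring
    rw [this]
    exact Ideal.add_mem _
      (Ideal.mem_sup_left (Ideal.mul_mem_left _ _ (Ideal.mem_span_singleton_self Y)))
      (Ideal.mem_sup_right (Ideal.mul_mem_left _ _ (Ideal.mem_span_singleton_self _)))

/-- `(Y, π ^ n) = (Y)` when `X Y = ε π ^ n`, `ε` a unit. -/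
theorem span_sup_span_pow_eq_403 {π X Y ε : R} {n : ℕ} (hε : IsUnit ε)
    (hXY : X * Y = ε * π ^ n) : Ideal.span {Y} ⊔ Ideal.span {π ^ n} = Ideal.span {Y} := by
  refine le_antisymm (sup_le le_rfl ?_) le_sup_left
  rw [Ideal.span_singleton_le_iff_mem, Ideal.mem_span_singleton]
  obtain ⟨e, rfl⟩ := hε
  refine ⟨(↑e⁻¹ : R) * X, ?_⟩
  have : Y * ((↑e⁻¹ : R) * X) = (↑e⁻¹ : R) * (X * Y) := by ring
  rw [this, hXY, ← mul_assoc, Units.inv_mul, one_mul]

/-- `u ∉ 𝔭₂` is regular modulo `Y`. -/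
theorem dvd_of_dvd_mul_403 {π X Y ε : R} {n : ℕ} (hπ0 : π ≠ 0) (hπ₂ : π ∈ 𝔭₂)
    (hX₂ : X ∉ 𝔭₂) (hε : IsUnit ε) (hXY : X * Y = ε * π ^ n)
    (h𝔭₂ : 𝔭₂ ≤ Ideal.span {Y} ⊔ Ideal.span {π}) {u : R} (hu : u ∉ 𝔭₂) :
    ∀ x : R, Y ∣ u * x → Y ∣ x := by
  intro x hx
  have h1 : u * x ∈ Ideal.span {Y} ⊔ Ideal.span {π ^ n} :=
    Ideal.mem_sup_left (Ideal.mem_span_singleton.mpr hx)
  have h2 := mem_span_sup_of_mul_mem_403 𝔭₂ hπ0 hπ₂ hX₂ hXY h𝔭₂ hu n le_rfl x h1
  rw [span_sup_span_pow_eq_403 hε hXY] at h2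
  exact Ideal.mem_span_singleton.mp h2

end cancel

section length

/-- (local copy, name-stable) a power vanishes only if the base does. -/
theorem eq_zero_of_pow_eq_zero_403 {M : Type*} [MonoidWithZero M] [NoZeroDivisors M] {a : M}
    {n : ℕ} (h : a ^ n = 0) : a = 0 := by
  induction n with
  | zero => rw [pow_zero] at h; exact (mul_one a).symm.trans (by rw [h, mul_zero])
  | succ n ih =>
    rw [pow_succ] at h
    rcases mul_eq_zero.mp h with h1 | h1
    · exact ih h1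
    · exact h1

variable {R : Type*} [CommRing R] [IsDomain R] [IsLocalRing R]
variable (𝔭₂ : Ideal R) [𝔭₂.IsPrime] [IsDiscreteValuationRing (R ⧸ 𝔭₂)]

omit [IsDomain R] [IsLocalRing R] in
/-- Membership in an ideal with three generators. -/
theorem mem_span_triple_403 {u Y w x : R} :
    x ∈ Ideal.span {u} ⊔ Ideal.span {Y} ⊔ Ideal.span {w} ↔
      ∃ a c d : R, x = u * a + Y * c + w * d := by
  constructor
  · intro h
    obtain ⟨y, hy, z, hz, rfl⟩ := Submodule.mem_sup.mp h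
    obtain ⟨y₁, hy₁, y₂, hy₂, rfl⟩ := Submodule.mem_sup.mp hy
    obtain ⟨a, rfl⟩ := Ideal.mem_span_singleton'.mp hy₁
    obtain ⟨c, rfl⟩ := Ideal.mem_span_singleton'.mp hy₂
    obtain ⟨d, rfl⟩ := Ideal.mem_span_singleton'.mp hz
    exact ⟨a, c, d, by ring⟩
  · rintro ⟨a, c, d, rfl⟩
    exact Ideal.add_mem _ (Ideal.mem_sup_left (Ideal.add_mem _
      (Ideal.mem_sup_left (Ideal.mul_mem_right _ _ (Ideal.mem_span_singleton_self u)))
      (Ideal.mem_sup_right (Ideal.mul_mem_right _ _ (Ideal.mem_span_singleton_self Y)))))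
      (Ideal.mem_sup_right (Ideal.mul_mem_right _ _ (Ideal.mem_span_singleton_self w)))

omit [IsDomain R] [IsLocalRing R] [IsDiscreteValuationRing (R ⧸ 𝔭₂)] [𝔭₂.IsPrime] in
/-- `(u) + 𝔭₂ = (X ^ s) + 𝔭₂` if `u ≡ ε' X ^ s` modulo `𝔭₂`. -/
theorem span_sup_eq_of_mk_eq_403 {X u : R} {s : ℕ} {ε' : (R ⧸ 𝔭₂)ˣ}
    (hs : Ideal.Quotient.mk 𝔭₂ u = ε' * (Ideal.Quotient.mk 𝔭₂ X) ^ s) :
    Ideal.span {u} ⊔ 𝔭₂ = Ideal.span {X ^ s} ⊔ 𝔭₂ := by
  apply le_antisymm
  · refine sup_le ?_ le_sup_right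
    rw [Ideal.span_singleton_le_iff_mem]
    obtain ⟨e, he⟩ := Ideal.Quotient.mk_surjective ((ε' : (R ⧸ 𝔭₂)ˣ) : R ⧸ 𝔭₂)
    have h1 : u - X ^ s * e ∈ 𝔭₂ := by
      rw [← Ideal.Quotient.eq, map_mul, map_pow, he, hs, mul_comm]
    have : u = X ^ s * e + (u - X ^ s * e) := by ring
    rw [this]
    exact Ideal.add_mem _ (Ideal.mem_sup_left (Ideal.mul_mem_right _ _
      (Ideal.mem_span_singleton_self _))) (Ideal.mem_sup_right h1)
  · refine sup_le ?_ le_sup_right
    rw [Ideal.span_singleton_le_iff_mem]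
    obtain ⟨e, he⟩ := H609.exists_pow_sub_mul_mem 𝔭₂ hs
    have : X ^ s = u * e + (X ^ s - u * e) := by ring
    rw [this]
    exact Ideal.add_mem _ (Ideal.mem_sup_left (Ideal.mul_mem_right _ _
      (Ideal.mem_span_singleton_self _))) (Ideal.mem_sup_right he)

omit [IsDomain R] in
/-- `ℓ(R / ((u) + 𝔭₂)) = s` if `u ≡ ε' X ^ s` modulo `𝔭₂`, `X` a uniformiser modulo `𝔭₂`. -/
theorem relLen_span_sup_branch_403 {X u : R} (hX : Irreducible (Ideal.Quotient.mk 𝔭₂ X))
    {s : ℕ} {ε' : (R ⧸ 𝔭₂)ˣ}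
    (hs : Ideal.Quotient.mk 𝔭₂ u = ε' * (Ideal.Quotient.mk 𝔭₂ X) ^ s) :
    H672.relLen (Ideal.span {u} ⊔ 𝔭₂) (⊤ : Ideal R) = s := by
  rw [span_sup_eq_of_mk_eq_403 𝔭₂ hs]
  exact H609.relLen_branch_pow 𝔭₂ hX s

/-- One step of the `π`-adic chain on `R / (u, Y)`. -/
theorem relLen_step_403 {π X Y ε : R} {n : ℕ} (hπ0 : π ≠ 0) (hπ₂ : π ∈ 𝔭₂)
    (hX₂ : X ∉ 𝔭₂) (hXY : X * Y = ε * π ^ n)
    (h𝔭₂ : 𝔭₂ ≤ Ideal.span {Y} ⊔ Ideal.span {π}) {u : R} (hu : u ∉ 𝔭₂) {i : ℕ} (hi : i < n) :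
    H672.relLen (Ideal.span {u} ⊔ Ideal.span {Y} ⊔ Ideal.span {π ^ (i + 1)})
        (Ideal.span {u} ⊔ Ideal.span {Y} ⊔ Ideal.span {π ^ i})
      = H672.relLen (Ideal.span {u} ⊔ 𝔭₂) (⊤ : Ideal R) := by
  symm
  refine H672.relLen_eq_of_map (LinearMap.mulRight R (π ^ i)) ?_ ?_ ?_
  · intro b _
    rw [LinearMap.mulRight_apply]
    exact Ideal.mem_sup_right (Ideal.mul_mem_left _ _ (Ideal.mem_span_singleton_self _))
  · intro b _
    rw [LinearMap.mulRight_apply]
    constructor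
    · intro hb
      obtain ⟨a, c, d, hacd⟩ := mem_span_triple_403.mp hb
      have h1 : u * a ∈ Ideal.span {Y} ⊔ Ideal.span {π ^ i} := by
        have : u * a = (-c) * Y + (b - π * d) * π ^ i := by
          have e2 : π ^ (i + 1) = π ^ i * π := pow_succ π i
          rw [e2] at hacd
          linear_combination -hacd
        rw [this]
        exact Ideal.add_mem _
          (Ideal.mem_sup_left (Ideal.mul_mem_left _ _ (Ideal.mem_span_singleton_self _)))
          (Ideal.mem_sup_right (Ideal.mul_mem_left _ _ (Ideal.mem_span_singleton_self _)))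
      obtain ⟨y, hy, z, hz, hyz⟩ := Submodule.mem_sup.mp
        (mem_span_sup_of_mul_mem_403 𝔭₂ hπ0 hπ₂ hX₂ hXY h𝔭₂ hu i hi.le a h1)
      obtain ⟨a', rfl⟩ := Ideal.mem_span_singleton'.mp hy
      obtain ⟨a'', rfl⟩ := Ideal.mem_span_singleton'.mp hz
      have h2 : (b - u * a'') * π ^ i ∈ Ideal.span {Y} ⊔ Ideal.span {π ^ (i + 1)} := by
        have : (b - u * a'') * π ^ i = (c + u * a') * Y + d * π ^ (i + 1) := by
          rw [← hyz] at hacd
          linear_combination hacd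
        rw [this]
        exact Ideal.add_mem _
          (Ideal.mem_sup_left (Ideal.mul_mem_left _ _ (Ideal.mem_span_singleton_self _)))
          (Ideal.mem_sup_right (Ideal.mul_mem_left _ _ (Ideal.mem_span_singleton_self _)))
      have h3 := mem_of_mul_pow_mem_403 𝔭₂ hπ0 hπ₂ hX₂ hXY hi h2
      have : b = u * a'' + (b - u * a'') := by ring
      rw [this]
      exact Ideal.add_mem _ (Ideal.mem_sup_left (Ideal.mul_mem_right _ _
        (Ideal.mem_span_singleton_self _))) (Ideal.mem_sup_right h3)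
    · intro hb
      obtain ⟨y, hy, z, hz, rfl⟩ := Submodule.mem_sup.mp hb
      obtain ⟨a, rfl⟩ := Ideal.mem_span_singleton'.mp hy
      obtain ⟨y', hy', z', hz', rfl⟩ := Submodule.mem_sup.mp (h𝔭₂ hz)
      obtain ⟨c, rfl⟩ := Ideal.mem_span_singleton'.mp hy'
      obtain ⟨d, rfl⟩ := Ideal.mem_span_singleton'.mp hz'
      refine mem_span_triple_403.mpr ⟨a * π ^ i, c * π ^ i, d, ?_⟩
      rw [pow_succ]
      ring
  · intro b' hb'
    obtain ⟨a, c, d, rfl⟩ := mem_span_triple_403.mp hb'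
    refine ⟨d, trivial, ?_⟩
    rw [LinearMap.mulRight_apply]
    refine mem_span_triple_403.mpr ⟨a, c, 0, ?_⟩
    ring

/-- The `π`-adic chain on `R / (u, Y)`. -/
theorem relLen_chain_403 {π X Y ε : R} {n : ℕ} (hπ0 : π ≠ 0) (hπ₂ : π ∈ 𝔭₂)
    (hX₂ : X ∉ 𝔭₂) (hXY : X * Y = ε * π ^ n)
    (h𝔭₂ : 𝔭₂ ≤ Ideal.span {Y} ⊔ Ideal.span {π}) {u : R} (hu : u ∉ 𝔭₂) :
    ∀ i : ℕ, i ≤ n →
      H672.relLen (Ideal.span {u} ⊔ Ideal.span {Y} ⊔ Ideal.span {π ^ i}) (⊤ : Ideal R)
        = i * H672.relLen (Ideal.span {u} ⊔ 𝔭₂) (⊤ : Ideal R) := by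
  intro i
  induction i with
  | zero =>
    intro _
    rw [pow_zero, Ideal.span_singleton_one, sup_top_eq, H672.relLen_self]
    simp
  | succ i ih =>
    intro hi
    have hle : Ideal.span {u} ⊔ Ideal.span {Y} ⊔ Ideal.span {π ^ (i + 1)}
        ≤ Ideal.span {u} ⊔ Ideal.span {Y} ⊔ Ideal.span {π ^ i} :=
      sup_le_sup_left ((Ideal.span_singleton_le_span_singleton).mpr
        (pow_dvd_pow π (Nat.le_succ i))) _
    rw [H672.relLen_add hle le_top, ih (by omega),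
      relLen_step_403 𝔭₂ hπ0 hπ₂ hX₂ hXY h𝔭₂ hu (by omega)]
    push_cast
    ring

/-- **The intersection number with the branch `𝔭₂`.**
`ℓ(R / (u, Y)) = n · ord_{𝔭₂}(u)` at a node `X Y = ε π ^ n`. -/
theorem length_quotient_span_pair_403 {π X Y ε : R} {n : ℕ} (hπ0 : π ≠ 0) (hπ₂ : π ∈ 𝔭₂)
    (hX : Irreducible (Ideal.Quotient.mk 𝔭₂ X)) (hε : IsUnit ε)
    (hXY : X * Y = ε * π ^ n) (h𝔭₂ : 𝔭₂ ≤ Ideal.span {Y} ⊔ Ideal.span {π}) {u : R}
    {s : ℕ} {ε' : (R ⧸ 𝔭₂)ˣ}
    (hs : Ideal.Quotient.mk 𝔭₂ u = ε' * (Ideal.Quotient.mk 𝔭₂ X) ^ s) :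
    Module.length R (R ⧸ Ideal.span {u, Y}) = n * s := by
  have hX₂ : X ∉ 𝔭₂ := fun h => hX.ne_zero (Ideal.Quotient.eq_zero_iff_mem.mpr h)
  have hu : u ∉ 𝔭₂ := by
    intro h
    have h0 : Ideal.Quotient.mk 𝔭₂ u = 0 := Ideal.Quotient.eq_zero_iff_mem.mpr h
    rw [hs] at h0
    rcases mul_eq_zero.mp h0 with h1 | h1
    · exact ε'.ne_zero h1
    · exact hX.ne_zero (eq_zero_of_pow_eq_zero_403 h1)
  have h := relLen_chain_403 𝔭₂ hπ0 hπ₂ hX₂ hXY h𝔭₂ hu n le_rfl
  rw [relLen_span_sup_branch_403 𝔭₂ hX hs, sup_assoc, span_sup_span_pow_eq_403 hε hXY,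
    H672.relLen_top, ← Ideal.span_insert] at h
  exact h

end length

section main

variable {R : Type*} [CommRing R] [IsDomain R] [IsIntegrallyClosed R] [IsNoetherianRing R]
  [IsLocalRing R]
variable (𝔭₁ 𝔭₂ : Ideal R) [𝔭₁.IsPrime] [𝔭₂.IsPrime]
  [IsDiscreteValuationRing (R ⧸ 𝔭₁)] [IsDiscreteValuationRing (R ⧸ 𝔭₂)]

omit [IsDomain R] [IsIntegrallyClosed R] [IsNoetherianRing R] [IsLocalRing R] [𝔭₂.IsPrime]
  [IsDiscreteValuationRing (R ⧸ 𝔭₂)] in
/-- A prime containing `π` but not the uniformiser `Y` of the branch `𝔭₁` is `𝔭₁`. -/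
theorem eq_of_mem_of_notMem_403 {π Y : R} (hπ : Ideal.span {π} = 𝔭₁ ⊓ 𝔭₂) (hY₂ : Y ∈ 𝔭₂)
    (hY : Irreducible (Ideal.Quotient.mk 𝔭₁ Y)) {P : Ideal R} (hP : P.IsPrime) (hπP : π ∈ P)
    (hYP : Y ∉ P) : P = 𝔭₁ := by
  have hle : 𝔭₁ ⊓ 𝔭₂ ≤ P := by
    rw [← hπ, Ideal.span_singleton_le_iff_mem]
    exact hπP
  have h1 : 𝔭₁ ≤ P := by
    rcases (Ideal.IsPrime.inf_le hP).mp hle with h | h
    · exact h
    · exact absurd (h hY₂) hYP
  refine le_antisymm ?_ h1
  intro z hz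
  by_contra hz₁
  have hz0 : Ideal.Quotient.mk 𝔭₁ z ≠ 0 := by
    rwa [Ne, Ideal.Quotient.eq_zero_iff_mem]
  obtain ⟨k, v, hv⟩ := IsDiscreteValuationRing.eq_unit_mul_pow_irreducible hz0 hY
  exact hYP (H609.mem_of_le_of_mk_eq 𝔭₁ hv hP h1 hz)

omit [IsIntegrallyClosed R] in
/-- `(u, Y)` is primary to the maximal ideal for `u ∉ 𝔭₂`. -/
theorem exists_pow_le_span_pair_403 {π X Y ε : R} {n : ℕ} (hε : IsUnit ε)
    (hXY : X * Y = ε * π ^ n) (h𝔭₂ : 𝔭₂ ≤ Ideal.span {Y} ⊔ Ideal.span {π}) {u : R}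
    (hu : u ∉ 𝔭₂) : ∃ k : ℕ, maximalIdeal R ^ k ≤ Ideal.span {u, Y} := by
  obtain ⟨k, hk⟩ := H672.exists_pow_le_span_sup 𝔭₂ hu
  refine Ideal.exists_pow_le_of_le_radical_of_fg ?_ (IsNoetherian.noetherian _)
  intro x hx
  have h1 : x ^ k ∈ Ideal.span {u} ⊔ 𝔭₂ := hk (Ideal.pow_mem_pow hx k)
  obtain ⟨y, hy, z, hz, hyz⟩ := Submodule.mem_sup.mp h1
  obtain ⟨a, rfl⟩ := Ideal.mem_span_singleton'.mp hy
  obtain ⟨y', hy', z', hz', rfl⟩ := Submodule.mem_sup.mp (h𝔭₂ hz)
  obtain ⟨c, rfl⟩ := Ideal.mem_span_singleton'.mp hy'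
  obtain ⟨d, rfl⟩ := Ideal.mem_span_singleton'.mp hz'
  have hπn : π ^ n ∈ Ideal.span {u, Y} := by
    have h2 : π ^ n ∈ Ideal.span {Y} := by
      have h3 : π ^ n ∈ Ideal.span {Y} ⊔ Ideal.span {π ^ n} :=
        Ideal.mem_sup_right (Ideal.mem_span_singleton_self _)
      rwa [span_sup_span_pow_eq_403 hε hXY] at h3
    exact Ideal.span_mono (by simp) h2
  have h2 : x ^ k - d * π ∈ Ideal.span {u, Y} := by
    have : x ^ k - d * π = a * u + c * Y := by rw [← hyz]; ring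
    rw [this]
    exact Ideal.add_mem _ (Ideal.mul_mem_left _ _ (Ideal.subset_span (by simp)))
      (Ideal.mul_mem_left _ _ (Ideal.subset_span (by simp)))
  have h3 : (x ^ k) ^ n - (d * π) ^ n ∈ Ideal.span {u, Y} := by
    obtain ⟨e, he⟩ := sub_dvd_pow_sub_pow (x ^ k) (d * π) n
    rw [he]
    exact Ideal.mul_mem_right _ _ h2
  have h4 : (d * π) ^ n ∈ Ideal.span {u, Y} := by
    rw [mul_pow]
    exact Ideal.mul_mem_left _ _ hπn
  refine ⟨k * n, ?_⟩
  have : x ^ (k * n) = ((x ^ k) ^ n - (d * π) ^ n) + (d * π) ^ n := by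
    rw [pow_mul]; ring
  rw [this]
  exact Ideal.add_mem _ h3 h4

/-- **Lemma B.**  If `u ∉ 𝔭₂` is an `m`-th power up to units at every prime `P ∋ u` with
`Y ∉ P`, then `m ∣ n · ord_{𝔭₂}(u)`. -/
theorem dvd_mul_ord_403 {π X Y ε : R} {n : ℕ} (hπ0 : π ≠ 0)
    (hπ : Ideal.span {π} = 𝔭₁ ⊓ 𝔭₂)
    (hX : Irreducible (Ideal.Quotient.mk 𝔭₂ X))
    (hY₂ : Y ∈ 𝔭₂) (hY : Irreducible (Ideal.Quotient.mk 𝔭₁ Y)) (hε : IsUnit ε)
    (hXY : X * Y = ε * π ^ n) {u : R} {s : ℕ} {ε' : (R ⧸ 𝔭₂)ˣ}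
    (hs : Ideal.Quotient.mk 𝔭₂ u = ε' * (Ideal.Quotient.mk 𝔭₂ X) ^ s) {m : ℕ} (hm : 0 < m)
    (hloc : ∀ P : Ideal R, P.IsPrime → u ∈ P → Y ∉ P → ∃ z σ : R, σ ∉ P ∧ z ^ m = σ * u) :
    m ∣ n * s := by
  have h𝔭₂m : 𝔭₂ ≤ maximalIdeal R :=
    IsLocalRing.le_maximalIdeal (Ideal.IsPrime.ne_top inferInstance)
  have hπ₂ : π ∈ 𝔭₂ := by
    have : π ∈ 𝔭₁ ⊓ 𝔭₂ := hπ ▸ Ideal.mem_span_singleton_self π
    exact this.2
  have hX₂ : X ∉ 𝔭₂ := fun h => hX.ne_zero (Ideal.Quotient.eq_zero_iff_mem.mpr h)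
  have hY₁ : Y ∉ 𝔭₁ := fun h => hY.ne_zero (Ideal.Quotient.eq_zero_iff_mem.mpr h)
  have hY0 : Y ≠ 0 := by
    rintro rfl
    exact hY₁ 𝔭₁.zero_mem
  have h𝔭₂ : 𝔭₂ ≤ Ideal.span {Y} ⊔ Ideal.span {π} := by
    rw [hπ]
    intro z hz
    obtain ⟨g, hg⟩ := H609.exists_sub_mul_mem_of_mem_maximalIdeal 𝔭₁ hY (h𝔭₂m hz)
    have h : z = Y * g + (z - Y * g) := by ring
    rw [h]
    exact Ideal.add_mem _
      (Ideal.mem_sup_left (Ideal.mem_span_singleton.mpr (Dvd.intro g rfl)))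
      (Ideal.mem_sup_right ⟨hg, 𝔭₂.sub_mem hz (𝔭₂.mul_mem_right _ hY₂)⟩)
  have hu : u ∉ 𝔭₂ := by
    intro h
    have h0 : Ideal.Quotient.mk 𝔭₂ u = 0 := Ideal.Quotient.eq_zero_iff_mem.mpr h
    rw [hs] at h0
    rcases mul_eq_zero.mp h0 with h1 | h1
    · exact ε'.ne_zero h1
    · exact hX.ne_zero (eq_zero_of_pow_eq_zero_403 h1)
  have hu0 : u ≠ 0 := by
    rintro rfl
    exact hu 𝔭₂.zero_mem
  obtain ⟨k, hk⟩ := exists_pow_le_span_pair_403 𝔭₂ hε hXY h𝔭₂ hu
  have hlen := H672.length_eq_mul_length u hu0 m hm Y hY0 (h𝔭₂m hY₂)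
    (dvd_of_dvd_mul_403 𝔭₂ hπ0 hπ₂ hX₂ hε hXY h𝔭₂ hu) k hk hloc
  rw [length_quotient_span_pair_403 𝔭₂ hπ0 hπ₂ hX hε hXY h𝔭₂ hs] at hlen
  generalize Module.length R (R ⧸ (H969.powRootIdeal u hu0 m hm 1 ⊔ Ideal.span {Y})) = L at hlen
  cases L with
  | top =>
    exfalso
    rw [ENat.mul_top (by exact_mod_cast hm.ne')] at hlen
    exact ENat.natCast_ne_top (n * s) (by exact_mod_cast hlen)
  | coe l =>
    refine ⟨l, ?_⟩
    exact_mod_cast hlen

/-- **Node-slope relation, divisibility form.**  `u ∉ 𝔭₂` with `m ∣ ord_P u` at all horizontal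
primes, `v_{𝔭₁}(u) = c`, `ord_{𝔭₂}(u) = s`; if `m ∣ c + n j` then `m ∣ n (s + j)`. -/
theorem node_slope_dvd_403 {π X Y ε : R} {n : ℕ} (hπ0 : π ≠ 0)
    (hπ : Ideal.span {π} = 𝔭₁ ⊓ 𝔭₂)
    (hX : Irreducible (Ideal.Quotient.mk 𝔭₂ X))
    (hY₂ : Y ∈ 𝔭₂) (hY : Irreducible (Ideal.Quotient.mk 𝔭₁ Y)) (hε : IsUnit ε)
    (hXY : X * Y = ε * π ^ n) {u : R} {s : ℕ} {ε' : (R ⧸ 𝔭₂)ˣ}
    (hs : Ideal.Quotient.mk 𝔭₂ u = ε' * (Ideal.Quotient.mk 𝔭₂ X) ^ s) {m : ℕ} (hm : 0 < m)
    (H1 : ∀ P : Ideal R, P.IsPrime → u ∈ P → π ∉ P → ∃ z σ : R, σ ∉ P ∧ z ^ m = σ * u)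
    {c : ℕ} {σ₀ τ₀ : R} (hσ₀ : σ₀ ∉ 𝔭₁) (hτ₀ : τ₀ ∉ 𝔭₁) (hc : σ₀ * u = τ₀ * π ^ c)
    {j : ℕ} (hj : m ∣ c + n * j) : m ∣ n * (s + j) := by
  have hY₁ : Y ∉ 𝔭₁ := fun h => hY.ne_zero (Ideal.Quotient.eq_zero_iff_mem.mpr h)
  have hs' : Ideal.Quotient.mk 𝔭₂ (u * X ^ j)
      = ε' * (Ideal.Quotient.mk 𝔭₂ X) ^ (s + j) := by
    rw [map_mul, map_pow, hs, pow_add, mul_assoc]
  refine dvd_mul_ord_403 𝔭₁ 𝔭₂ hπ0 hπ hX hY₂ hY hε hXY hs' hm ?_
  intro P hP huP hYP
  obtain ⟨m', rfl⟩ : ∃ m', m = m' + 1 := ⟨m - 1, by omega⟩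
  by_cases hπP : π ∈ P
  · obtain rfl := eq_of_mem_of_notMem_403 𝔭₁ 𝔭₂ hπ hY₂ hY hP hπP hYP
    obtain ⟨q, hq⟩ := hj
    refine ⟨τ₀ * ε ^ j * π ^ q, σ₀ * Y ^ j * (τ₀ * ε ^ j) ^ m', ?_, ?_⟩
    · intro h
      rcases (Ideal.IsPrime.mem_or_mem hP h) with h1 | h1
      · rcases (Ideal.IsPrime.mem_or_mem hP h1) with h2 | h2
        · exact hσ₀ h2
        · exact hY₁ (hP.mem_of_pow_mem j h2)
      · rcases (Ideal.IsPrime.mem_or_mem hP (hP.mem_of_pow_mem m' h1)) with h2 | h2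
        · exact hτ₀ h2
        · exact hP.ne_top (Ideal.eq_top_of_isUnit_mem _ (hP.mem_of_pow_mem j h2) hε)
    · have e1 : σ₀ * Y ^ j * (τ₀ * ε ^ j) ^ m' * (u * X ^ j)
          = (σ₀ * u) * (X * Y) ^ j * (τ₀ * ε ^ j) ^ m' := by ring
      rw [e1, hc, hXY]
      have e2 : (τ₀ * ε ^ j * π ^ q) ^ (m' + 1)
          = (τ₀ * ε ^ j) ^ (m' + 1) * π ^ ((m' + 1) * q) := by
        rw [mul_pow, ← pow_mul, mul_comm q]
      rw [e2, ← hq]
      ring
  · have hXP : X ∉ P := by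
      intro h
      have h1 : ε * π ^ n ∈ P := hXY ▸ P.mul_mem_right _ h
      rcases (Ideal.IsPrime.mem_or_mem hP h1) with h2 | h2
      · exact hP.ne_top (Ideal.eq_top_of_isUnit_mem _ h2 hε)
      · exact hπP (hP.mem_of_pow_mem n h2)
    have huP' : u ∈ P := by
      rcases (Ideal.IsPrime.mem_or_mem hP huP) with h | h
      · exact h
      · exact absurd (hP.mem_of_pow_mem j h) hXP
    obtain ⟨z, σ, hσ, hz⟩ := H1 P hP huP' hπP
    refine ⟨z * X ^ j, σ * (X ^ j) ^ m', ?_, ?_⟩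
    · intro h
      rcases (Ideal.IsPrime.mem_or_mem hP h) with h1 | h1
      · exact hσ h1
      · exact hXP (hP.mem_of_pow_mem j (hP.mem_of_pow_mem m' h1))
    · rw [mul_pow, hz, pow_succ (X ^ j) m']
      ring

/-- **CT2 / P-NODE: the node-slope relation.**  At a node `X Y = ε π ^ n` of thickness `n`
prime to `m`: if `u ∉ 𝔭₂` has `m ∣ ord_P u` at all horizontal primes `P` (`π ∉ P`), then

  `n · ord_{𝔭₂}(u mod 𝔭₂) ≡ v_{𝔭₁}(u)   (mod m)`. -/
theorem node_slope_modEq_403 {π X Y ε : R} {n : ℕ} (hπ0 : π ≠ 0)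
    (hπ : Ideal.span {π} = 𝔭₁ ⊓ 𝔭₂)
    (hX : Irreducible (Ideal.Quotient.mk 𝔭₂ X))
    (hY₂ : Y ∈ 𝔭₂) (hY : Irreducible (Ideal.Quotient.mk 𝔭₁ Y)) (hε : IsUnit ε)
    (hXY : X * Y = ε * π ^ n) {u : R} {s : ℕ} {ε' : (R ⧸ 𝔭₂)ˣ}
    (hs : Ideal.Quotient.mk 𝔭₂ u = ε' * (Ideal.Quotient.mk 𝔭₂ X) ^ s) {m : ℕ} (hm : 0 < m)
    (hnm : Nat.Coprime n m)
    (H1 : ∀ P : Ideal R, P.IsPrime → u ∈ P → π ∉ P → ∃ z σ : R, σ ∉ P ∧ z ^ m = σ * u)
    {c : ℕ} {σ₀ τ₀ : R} (hσ₀ : σ₀ ∉ 𝔭₁) (hτ₀ : τ₀ ∉ 𝔭₁) (hc : σ₀ * u = τ₀ * π ^ c) :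
    ((n * s : ℕ) : ℤ) ≡ (c : ℤ) [ZMOD (m : ℤ)] := by
  -- choose `j` with `m ∣ c + n j`
  obtain ⟨j, hj⟩ : ∃ j : ℕ, m ∣ c + n * j := by
    obtain ⟨j, -, hj⟩ := Nat.exists_mul_mod_eq_of_coprime (c * (m - 1)) hnm hm.ne'
    refine ⟨j, ?_⟩
    have h3 : n * j ≡ c * (m - 1) [MOD m] := hj
    have h4 : c + n * j ≡ c + c * (m - 1) [MOD m] := Nat.ModEq.add_left c h3
    have h5 : c + c * (m - 1) = m * c := by
      obtain ⟨m', rfl⟩ : ∃ m', m = m' + 1 := ⟨m - 1, by omega⟩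
      simp only [Nat.add_sub_cancel]
      ring
    rw [h5] at h4
    exact (Nat.modEq_zero_iff_dvd).mp (h4.trans (by
      rw [Nat.modEq_zero_iff_dvd]; exact Dvd.intro c rfl))
  have h := node_slope_dvd_403 𝔭₁ 𝔭₂ hπ0 hπ hX hY₂ hY hε hXY hs hm H1 hσ₀ hτ₀ hc hj
  have h1 : (m : ℤ) ∣ ((n * (s + j) : ℕ) : ℤ) := by exact_mod_cast h
  have h2 : (m : ℤ) ∣ ((c + n * j : ℕ) : ℤ) := by exact_mod_cast hj
  rw [Int.modEq_iff_dvd]
  have h3 : (c : ℤ) - ((n * s : ℕ) : ℤ) = ((c + n * j : ℕ) : ℤ) - ((n * (s + j) : ℕ) : ℤ) := by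
    push_cast
    ring
  rw [h3]
  exact dvd_sub h2 h1

/-- **Exact node-slope relation for purely vertical elements.**  If `u ∉ 𝔭₂` lies in no
horizontal prime (every prime containing `u` contains `π`), then

  `n · ord_{𝔭₂}(u mod 𝔭₂) = v_{𝔭₁}(u)`. -/
theorem node_slope_eq_403 {π X Y ε : R} {n : ℕ} (hπ0 : π ≠ 0)
    (hπ : Ideal.span {π} = 𝔭₁ ⊓ 𝔭₂)
    (hX : Irreducible (Ideal.Quotient.mk 𝔭₂ X))
    (hY₂ : Y ∈ 𝔭₂) (hY : Irreducible (Ideal.Quotient.mk 𝔭₁ Y)) (hε : IsUnit ε)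
    (hXY : X * Y = ε * π ^ n) {u : R} {s : ℕ} {ε' : (R ⧸ 𝔭₂)ˣ}
    (hs : Ideal.Quotient.mk 𝔭₂ u = ε' * (Ideal.Quotient.mk 𝔭₂ X) ^ s)
    (Hv : ∀ P : Ideal R, P.IsPrime → u ∈ P → π ∈ P)
    {c : ℕ} {σ₀ τ₀ : R} (hσ₀ : σ₀ ∉ 𝔭₁) (hτ₀ : τ₀ ∉ 𝔭₁) (hc : σ₀ * u = τ₀ * π ^ c) :
    n * s = c := by
  set b : ℕ := c + n * s + 1 with hb
  have hm : 0 < c + n * b := by
    rcases Nat.eq_zero_or_pos n with h0 | h0
    · -- `n = 0` is impossible: `Y` would be a unit
      exfalso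
      subst h0
      rw [pow_zero, mul_one] at hXY
      have hYu : IsUnit Y := isUnit_of_mul_isUnit_right (hXY ▸ hε)
      exact (Ideal.IsPrime.ne_top (inferInstance : 𝔭₂.IsPrime))
        (Ideal.eq_top_of_isUnit_mem _ hY₂ hYu)
    · have : 0 < n * b := Nat.mul_pos h0 (by omega)
      omega
  have h := node_slope_dvd_403 𝔭₁ 𝔭₂ hπ0 hπ hX hY₂ hY hε hXY hs hm
    (fun P hP huP hπP => absurd (Hv P hP huP) hπP) hσ₀ hτ₀ hc (dvd_refl _)
  -- `c + n b ∣ n (s + b)` with `b` large forces `n s = c`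
  have hn : 0 < n := by
    rcases Nat.eq_zero_or_pos n with h0 | h0
    · exfalso
      subst h0
      rw [pow_zero, mul_one] at hXY
      have hYu : IsUnit Y := isUnit_of_mul_isUnit_right (hXY ▸ hε)
      exact (Ideal.IsPrime.ne_top (inferInstance : 𝔭₂.IsPrime))
        (Ideal.eq_top_of_isUnit_mem _ hY₂ hYu)
    · exact h0
  have h1 : ((c + n * b : ℕ) : ℤ) ∣ ((n * (s + b) : ℕ) : ℤ) := by exact_mod_cast h
  have h2 : ((c + n * b : ℕ) : ℤ) ∣ ((n * s : ℕ) : ℤ) - (c : ℤ) := by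
    have : ((n * s : ℕ) : ℤ) - (c : ℤ) = ((n * (s + b) : ℕ) : ℤ) - ((c + n * b : ℕ) : ℤ) := by
      push_cast
      ring
    rw [this]
    exact dvd_sub h1 (dvd_refl _)
  have hbn : b ≤ n * b := Nat.le_mul_of_pos_left b hn
  have h3 : |((n * s : ℕ) : ℤ) - (c : ℤ)| < ((c + n * b : ℕ) : ℤ) := by
    rw [abs_lt]
    constructor
    · push_cast
      have : (0 : ℤ) ≤ (n : ℤ) * s := by positivity
      have h4 : (0 : ℤ) < (n : ℤ) * b := by exact_mod_cast (by omega : 0 < n * b)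
      linarith
    · have : ((n * s : ℕ) : ℤ) < ((c + n * b : ℕ) : ℤ) := by exact_mod_cast (by omega)
      have hc0 : (0 : ℤ) ≤ c := by positivity
      linarith
  have h4 := Int.eq_zero_of_abs_lt_dvd h2 h3
  have h5 : ((n * s : ℕ) : ℤ) = (c : ℤ) := by linarith
  exact_mod_cast h5

omit [IsDomain R] [IsIntegrallyClosed R] [IsNoetherianRing R] [IsLocalRing R] [𝔭₁.IsPrime]
  [IsDiscreteValuationRing (R ⧸ 𝔭₁)] in
/-- The order on the branch `𝔭₂` exists for every `u ∉ 𝔭₂`. -/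
theorem exists_ord_403 {X : R} (hX : Irreducible (Ideal.Quotient.mk 𝔭₂ X)) {u : R}
    (hu : u ∉ 𝔭₂) :
    ∃ (s : ℕ) (ε' : (R ⧸ 𝔭₂)ˣ),
      Ideal.Quotient.mk 𝔭₂ u = ε' * (Ideal.Quotient.mk 𝔭₂ X) ^ s := by
  have hu0 : Ideal.Quotient.mk 𝔭₂ u ≠ 0 := by
    rwa [Ne, Ideal.Quotient.eq_zero_iff_mem]
  obtain ⟨k, v, hv⟩ := IsDiscreteValuationRing.eq_unit_mul_pow_irreducible hu0 hX
  exact ⟨k, v, hv⟩

end main

end Fermat.Agent.Ribet.H403

end
-- ===== PACK-END Ribet/H403/NodeSlope.lean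

-- ===== PACK-BEGIN Ribet/H819/PerFE.lean
section


/-!
# Row 38, WALL-p, (S4) WILD: the FE ADAPTER (helper819)

`K` a field of characteristic `0` (`ℚ̄`), `F₀ ⊆ ℚ((t))` (`= modularFunctionFieldFull N`),
`E ⊆ K` an intermediate field, `F_E = laurentBaseChange E F₀ ⊆ E((t))` (`= A2.Mod.FE E N`).

* `embBC F₀ E : F_E →+* K((t))` (coefficientwise inclusion), `imBC F₀ E` its image;
* `coeff_mem_of_mem_imBC`, `C_mem_imBC` : the fields `hcoef`, `hconst` of `PerCtx` for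
  `F₁ := imBC F₀ E₁`;
* `imBC_eq_closure`, `imBC_adjoin` : if `E₂ = E₁(u)` then `imBC F₀ E₂ = (imBC F₀ E₁)(u)`;
* `PerCtx.ofBC` : the context with `F₁ = imBC F₀ E₁`;
* for `c : PerCtx K` with `c.F₁ = imBC F₀ E₁`, `E₂ = E₁(c.u)`:
  `c.e₁BC : F_{E₁} →+* c.F₁`, `c.e₂BC : F_{E₂} →+* c.F₂`, surjective, with `coe` lemmas:
  the inputs `e₁, e₂` of `PerShell`;
* `bcMap : F_{E₁} →+* F_{E₂}` for `E₁ ≤ E₂`, `embBC_bcMap` (a canonical `Algebra K₁ K₂`).
-/

set_option autoImplicit false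
set_option linter.unusedSectionVars false
set_option linter.style.haveILetI false
set_option maxHeartbeats 400000

noncomputable section

namespace Fermat.Agent.Ribet.H819

open ModularCurve

section BC

variable {K : Type} [Field K] [Algebra ℚ K] (F₀ : IntermediateField ℚ (LaurentSeries ℚ))

/-- The embedding of `F_E = E(F₀) ⊆ E((t))` into `K((t))`. -/
def embBC (E : IntermediateField ℚ K) : ↥(laurentBaseChange ↥E F₀) →+* LaurentSeries K :=
  (coeffMap (algebraMap ↥E K)).comp (algebraMap ↥(laurentBaseChange ↥E F₀) (LaurentSeries ↥E))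

theorem embBC_apply (E : IntermediateField ℚ K) (x : ↥(laurentBaseChange ↥E F₀)) :
    embBC F₀ E x = coeffMap (algebraMap ↥E K) (x : LaurentSeries ↥E) := rfl

/-- The image of `F_E` in `K((t))`. -/
def imBC (E : IntermediateField ℚ K) : Subfield (LaurentSeries K) := (embBC F₀ E).fieldRange

theorem mem_imBC_iff (E : IntermediateField ℚ K) (z : LaurentSeries K) :
    z ∈ imBC F₀ E ↔ ∃ x : ↥(laurentBaseChange ↥E F₀), embBC F₀ E x = z :=
  RingHom.mem_fieldRange

theorem embBC_mem (E : IntermediateField ℚ K) (x : ↥(laurentBaseChange ↥E F₀)) :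
    embBC F₀ E x ∈ imBC F₀ E := (mem_imBC_iff F₀ E _).mpr ⟨x, rfl⟩

theorem coeff_mem_of_mem_imBC (E : IntermediateField ℚ K) {z : LaurentSeries K}
    (hz : z ∈ imBC F₀ E) (n : ℤ) : z.coeff n ∈ E.toSubfield := by
  obtain ⟨x, rfl⟩ := (mem_imBC_iff F₀ E z).mp hz
  rw [embBC_apply, coeffMap_coeff]
  exact ((x : LaurentSeries ↥E).coeff n).2

theorem C_mem_imBC (E : IntermediateField ℚ K) {c : K} (hc : c ∈ E) :
    (HahnSeries.C c : LaurentSeries K) ∈ imBC F₀ E := by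
  refine (mem_imBC_iff F₀ E _).mpr ⟨algebraMap ↥E ↥(laurentBaseChange ↥E F₀) ⟨c, hc⟩, ?_⟩
  rw [embBC_apply, IntermediateField.coe_algebraMap_apply, algebraMap_laurentSeries_eq_single,
    coeffMap_single, HahnSeries.C_apply]
  rfl

theorem coeffEmb_mem_imBC (E : IntermediateField ℚ K) {y : LaurentSeries ℚ} (hy : y ∈ F₀) :
    coeffEmb K y ∈ imBC F₀ E := by
  refine (mem_imBC_iff F₀ E _).mpr ⟨⟨coeffEmb ↥E y, coeffEmb_mem_laurentBaseChange ↥E hy⟩, ?_⟩
  rw [embBC_apply]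
  show coeffMap (algebraMap ↥E K) (coeffMap (algebraMap ℚ ↥E) y) = coeffMap (algebraMap ℚ K) y
  rw [coeffMap_coeffMap]
  exact coeffMap_congr (RingHom.ext fun q => (IsScalarTower.algebraMap_apply ℚ ↥E K q).symm) y

/-- The generators of the image. -/
def genBC (E : IntermediateField ℚ K) : Set (LaurentSeries K) :=
  (fun c : K => (HahnSeries.C c : LaurentSeries K)) '' (E : Set K) ∪
    (⇑(coeffEmb K) '' (F₀ : Set (LaurentSeries ℚ)))

theorem imBC_eq_closure (E : IntermediateField ℚ K) :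
    imBC F₀ E = Subfield.closure (genBC F₀ E) := by
  apply le_antisymm
  · intro z hz
    obtain ⟨x, rfl⟩ := (mem_imBC_iff F₀ E z).mp hz
    have hx : (x : LaurentSeries ↥E) ∈ Subfield.closure
        (Set.range (algebraMap ↥E (LaurentSeries ↥E)) ∪
          (⇑(coeffEmb ↥E) '' (F₀ : Set (LaurentSeries ℚ)))) :=
      mem_laurentBaseChange_iff.mp x.2
    have h1 : coeffMap (algebraMap ↥E K) (x : LaurentSeries ↥E) ∈
        (Subfield.closure (Set.range (algebraMap ↥E (LaurentSeries ↥E)) ∪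
          (⇑(coeffEmb ↥E) '' (F₀ : Set (LaurentSeries ℚ))))).map
            (coeffMap (algebraMap ↥E K)) := ⟨_, hx, rfl⟩
    rw [RingHom.map_field_closure] at h1
    refine Subfield.closure_mono ?_ h1
    rintro _ ⟨w, (⟨c, rfl⟩ | ⟨y, hy, rfl⟩), rfl⟩
    · left
      refine ⟨(c : K), c.2, ?_⟩
      show HahnSeries.C (c : K) = coeffMap (algebraMap ↥E K) (algebraMap ↥E (LaurentSeries ↥E) c)
      rw [algebraMap_laurentSeries_eq_single, coeffMap_single, HahnSeries.C_apply]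
      rfl
    · right
      refine ⟨y, hy, ?_⟩
      show coeffMap (algebraMap ℚ K) y =
        coeffMap (algebraMap ↥E K) (coeffMap (algebraMap ℚ ↥E) y)
      rw [coeffMap_coeffMap]
      exact coeffMap_congr (RingHom.ext fun q => IsScalarTower.algebraMap_apply ℚ ↥E K q) y
  · rw [Subfield.closure_le]
    rintro _ (⟨c, hc, rfl⟩ | ⟨y, hy, rfl⟩)
    · exact C_mem_imBC F₀ E hc
    · exact coeffEmb_mem_imBC F₀ E hy

theorem imBC_mono {E₁ E₂ : IntermediateField ℚ K} (h : E₁ ≤ E₂) : imBC F₀ E₁ ≤ imBC F₀ E₂ := by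
  rw [imBC_eq_closure F₀ E₁, Subfield.closure_le]
  rintro _ (⟨c, hc, rfl⟩ | ⟨y, hy, rfl⟩)
  · exact C_mem_imBC F₀ E₂ (h hc)
  · exact coeffEmb_mem_imBC F₀ E₂ hy

/-- **`F_{E₁(u)} = F_{E₁}(u)`** inside `K((t))`. -/
theorem imBC_adjoin {E₁ E₂ : IntermediateField ℚ K} {u : K}
    (hE : E₂.toSubfield = Subfield.closure ((E₁ : Set K) ∪ {u})) :
    imBC F₀ E₂ = Subfield.closure ((imBC F₀ E₁ : Set (LaurentSeries K)) ∪
      {(HahnSeries.C u : LaurentSeries K)}) := by
  have h12 : E₁ ≤ E₂ := by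
    intro c hc
    have : c ∈ E₂.toSubfield := by
      rw [hE]
      exact Subfield.subset_closure (Or.inl hc)
    exact this
  have hu : u ∈ E₂ := by
    have : u ∈ E₂.toSubfield := by
      rw [hE]
      exact Subfield.subset_closure (Or.inr rfl)
    exact this
  apply le_antisymm
  · rw [imBC_eq_closure F₀ E₂, Subfield.closure_le]
    rintro _ (⟨c, hc, rfl⟩ | ⟨y, hy, rfl⟩)
    · have hc' : c ∈ Subfield.closure ((E₁ : Set K) ∪ {u}) := by
        rw [← hE]
        exact hc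
      have h1 : (HahnSeries.C c : LaurentSeries K) ∈
          (Subfield.closure ((E₁ : Set K) ∪ {u})).map
            (HahnSeries.C : K →+* LaurentSeries K) := ⟨c, hc', rfl⟩
      rw [RingHom.map_field_closure] at h1
      refine Subfield.closure_mono ?_ h1
      rintro _ ⟨w, (hw | hw), rfl⟩
      · exact Or.inl (C_mem_imBC F₀ E₁ hw)
      · rw [Set.mem_singleton_iff] at hw
        rw [hw]
        exact Or.inr rfl
    · exact Subfield.subset_closure (Or.inl (coeffEmb_mem_imBC F₀ E₁ hy))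
  · rw [Subfield.closure_le]
    rintro z (hz | hz)
    · exact imBC_mono F₀ h12 hz
    · rw [Set.mem_singleton_iff] at hz
      rw [hz]
      exact C_mem_imBC F₀ E₂ hu

end BC

namespace PerCtx

section OfBC

variable {K : Type} [Field K] [Algebra ℚ K] (F₀ : IntermediateField ℚ (LaurentSeries ℚ))

/-- The context of INST-D over the function field `F₁ = imBC F₀ E₁` (the image of
`F_{E₁} = laurentBaseChange E₁ F₀` in `K((t))`). -/
def ofBC (p : ℕ) (hp : p.Prime) (E₁ : IntermediateField ℚ K) (ζ : K) (hζ : IsPrimitiveRoot ζ p)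
    (hζE : ζ ∈ E₁) (σ₀ : K ≃+* K) (hσE : ∀ c ∈ E₁, σ₀ c = c) (u : K) (hσu : σ₀ u = ζ⁻¹ * u)
    (hu0 : u ≠ 0) (hup : u ^ p ∈ E₁) (h : LaurentSeries K) (hhcoef : ∀ n : ℤ, h.coeff n ∈ E₁)
    (hhp : h ^ p ∈ imBC F₀ E₁) (hhF : h ∉ imBC F₀ E₁) : PerCtx K where
  p := p
  hp := hp
  E₁ := E₁.toSubfield
  ζ := ζ
  hζ := hζ
  hζE := hζE
  σ₀ := σ₀
  hσE := hσE
  u := u
  hσu := hσu
  hu0 := hu0
  hup := hup
  F₁ := imBC F₀ E₁
  hcoef := fun _ hz n => coeff_mem_of_mem_imBC F₀ E₁ hz n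
  hconst := fun _ hc => C_mem_imBC F₀ E₁ hc
  h := h
  hhcoef := hhcoef
  hhp := hhp
  hhF := hhF

variable (c : PerCtx K) {E₁ E₂ : IntermediateField ℚ K}

/-- `c.F₂ = F_{E₂}` if `c.F₁ = F_{E₁}` and `E₂ = E₁(u)`. -/
theorem F₂_eq_imBC (hF₁ : c.F₁ = imBC F₀ E₁)
    (hE : E₂.toSubfield = Subfield.closure ((E₁ : Set K) ∪ {c.u})) :
    c.F₂ = imBC F₀ E₂ := by
  rw [imBC_adjoin F₀ hE, F₂, hF₁]
  rfl

/-- `e₁ : F_{E₁} →+* c.F₁`. -/
def e₁BC (hF₁ : c.F₁ = imBC F₀ E₁) : ↥(laurentBaseChange ↥E₁ F₀) →+* ↥c.F₁ :=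
  (embBC F₀ E₁).codRestrict c.F₁ (fun x => by
    rw [hF₁]
    exact embBC_mem F₀ E₁ x)

theorem coe_e₁BC (hF₁ : c.F₁ = imBC F₀ E₁) (x : ↥(laurentBaseChange ↥E₁ F₀)) :
    ((c.e₁BC F₀ hF₁ x : ↥c.F₁) : LaurentSeries K) = embBC F₀ E₁ x := rfl

theorem e₁BC_surjective (hF₁ : c.F₁ = imBC F₀ E₁) : Function.Surjective (c.e₁BC F₀ hF₁) := by
  intro y
  have hy : (y : LaurentSeries K) ∈ imBC F₀ E₁ := by
    rw [← hF₁]
    exact y.2
  obtain ⟨x, hx⟩ := (mem_imBC_iff F₀ E₁ _).mp hy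
  exact ⟨x, Subtype.ext hx⟩

/-- `e₂ : F_{E₂} →+* c.F₂`. -/
def e₂BC (hF₁ : c.F₁ = imBC F₀ E₁)
    (hE : E₂.toSubfield = Subfield.closure ((E₁ : Set K) ∪ {c.u})) :
    ↥(laurentBaseChange ↥E₂ F₀) →+* ↥c.F₂ :=
  (embBC F₀ E₂).codRestrict c.F₂ (fun x => by
    rw [c.F₂_eq_imBC F₀ hF₁ hE]
    exact embBC_mem F₀ E₂ x)

theorem coe_e₂BC (hF₁ : c.F₁ = imBC F₀ E₁)
    (hE : E₂.toSubfield = Subfield.closure ((E₁ : Set K) ∪ {c.u}))
    (x : ↥(laurentBaseChange ↥E₂ F₀)) :
    ((c.e₂BC F₀ hF₁ hE x : ↥c.F₂) : LaurentSeries K) = embBC F₀ E₂ x := rfl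

theorem e₂BC_surjective (hF₁ : c.F₁ = imBC F₀ E₁)
    (hE : E₂.toSubfield = Subfield.closure ((E₁ : Set K) ∪ {c.u})) :
    Function.Surjective (c.e₂BC F₀ hF₁ hE) := by
  intro y
  have hy : (y : LaurentSeries K) ∈ imBC F₀ E₂ := by
    rw [← c.F₂_eq_imBC F₀ hF₁ hE]
    exact y.2
  obtain ⟨x, hx⟩ := (mem_imBC_iff F₀ E₂ _).mp hy
  exact ⟨x, Subtype.ext hx⟩

/-- The compatibility `h₁₂` of `PerShell`, from the compatibility of `Algebra F_{E₁} F_{E₂}`
with the embeddings. -/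
theorem h₁₂_BC (hF₁ : c.F₁ = imBC F₀ E₁)
    (hE : E₂.toSubfield = Subfield.closure ((E₁ : Set K) ∪ {c.u}))
    [Algebra ↥(laurentBaseChange ↥E₁ F₀) ↥(laurentBaseChange ↥E₂ F₀)]
    (hcompat : ∀ x : ↥(laurentBaseChange ↥E₁ F₀),
      embBC F₀ E₂ (algebraMap ↥(laurentBaseChange ↥E₁ F₀) ↥(laurentBaseChange ↥E₂ F₀) x) =
        embBC F₀ E₁ x) (x : ↥(laurentBaseChange ↥E₁ F₀)) :
    ((c.e₂BC F₀ hF₁ hE
      (algebraMap ↥(laurentBaseChange ↥E₁ F₀) ↥(laurentBaseChange ↥E₂ F₀) x) : ↥c.F₂) :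
        LaurentSeries K) = ((c.e₁BC F₀ hF₁ x : ↥c.F₁) : LaurentSeries K) := by
  rw [coe_e₂BC, coe_e₁BC, hcompat]

end OfBC

end PerCtx

end Fermat.Agent.Ribet.H819

end

end
-- ===== PACK-END Ribet/H819/PerFE.lean

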