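import Fermat.Prelude.Def_GaloisRep_ComplexConjugation
import Mathlib
import Fermat.Prelude.Def_ModularCurve_ReductionModL
import Fermat.Prelude.Def_FLTPrelim_Ramification
import Fermat.Prelude.Def_CuspForm_HeckeLocal
import Fermat.Prelude.Def_FLTPrelim_ModularRep
import Fermat.Prelude.Def_ModularCurve_HeckeModule
import Fermat.Agent.Pack.S44C.G0E0L3
import Fermat.Agent.Pack.S44C.G0E21L2
import Fermat.Agent.Pack.S44C.G0E17L0
import Fermat.Agent.Pack.S44C.G0E13L2
import Fermat.Agent.Pack.S44C.G0E21L1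
import Fermat.Agent.Pack.S44C.G0E0L2
import Fermat.Agent.Pack.S44C.G0E18L0
import Fermat.Agent.Pack.S44C.G0E10L3
import Fermat.Agent.Pack.S44C.G0E19L0
import Fermat.Agent.Pack.S44C.G0E20L1
import Fermat.Agent.Pack.S44C.G0E6L2
import Fermat.Agent.Pack.S44C.G0E10L2
import Fermat.Agent.Pack.S44C.G0E11L1
import Fermat.Agent.Pack.S44C.G0E20L2
import Fermat.Agent.Pack.S44C.G0E18L1
import Fermat.Agent.Pack.S44C.G0E16L1
import Fermat.Agent.Pack.S44C.G0E21L3
import Fermat.Agent.Pack.S44C.G0E3L2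
import Fermat.Agent.Pack.S44C.G0E7L1
import Fermat.Agent.Pack.S44C.G0E15L0
import Fermat.Agent.Pack.S44C.G0E18L2
import Fermat.Agent.Pack.S44C.G0E4L3
import Fermat.Agent.Pack.S44C.G0E12L1
import Fermat.Agent.Pack.Fast891

-- ===== PACK-BEGIN S24/Mod.lean
section




/-!
# S24 — modular side: local embedding data for the function field of `X₀(N)`

INTERFACE FILE (statements frozen by helper984 @4630f4b).

Proof: helper997's assembly `H997.AnalyticCore.modularPackage_fields` applied to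
* the concrete analytic core `H997.analyticCore N` (`Mod/H997HolBase.lean`: helper384's
  expansions at `∞`, helper624's Taylor expansions, helper47's local orders of `j`, helper264's
  `q`-expansion of `j`), and
* the degree bound `Deg457.degree_fields N` (helper457 / helper648 / helper708).
-/

set_option autoImplicit false

noncomputable section

open AlgebraicCurve ModularCurve
open scoped MatrixGroups

namespace Fermat.Agent.S24

/-- Everything the algebraic side needs to know about `F = ℚ̄(j(q^d) : d ∣ N)`. -/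
structure ModularPackage (N : ℕ) [NeZero N] where
  finiteDimensional :
    FiniteDimensional ↥(IntermediateField.adjoin Kbar {jF N}) (FF N)
  finrank_eq :
    Module.finrank ↥(IntermediateField.adjoin Kbar {jF N}) (FF N) = Nat.card (XX N)
  dataFin : ∀ a : Kbar, LocalData Kbar (FF N) ℂ (XX N) (jF N - algebraMap Kbar (FF N) a)
  dataInf : LocalData Kbar (FF N) ℂ (XX N) (jF N)⁻¹
  perm_generic : ∀ a : Kbar, a ≠ 0 → a ≠ 1728 → (dataFin a).perm = 1
  orbits_zero :
    numOrbits (dataFin 0).perm = numOrbits (permOf N (ModularGroup.S * ModularGroup.T))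
  orbits_1728 : numOrbits (dataFin 1728).perm = numOrbits (permOf N ModularGroup.S)
  orbits_inf : numOrbits dataInf.perm = numOrbits (permOf N ModularGroup.T)

theorem nonempty_modularPackage (N : ℕ) [NeZero N] : Nonempty (ModularPackage N) := by
  obtain ⟨hfd, hle⟩ := Deg457.degree_fields N
  obtain ⟨dF, dI, h1, h2, h3, h4, h5⟩ := (H997.analyticCore N).modularPackage_fields hfd hle
  exact ⟨⟨hfd, h1, dF, dI, h2, h3, h4, h5⟩⟩

end Fermat.Agent.S24

end
end
-- ===== PACK-END S24/Mod.lean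

-- ===== PACK-BEGIN Ribet/H187/ELocSS.lean
section



/-!
# RIBET / S40, leaf ELOC-ss in the shape of the wall board v2 (helper187)

Vocabulary of `Fermat.Agent.Ribet.H944.Wall` (`WallSpec.lean`): `CycloAt`, `ETorsion`,
`OrdinaryInertiaAt`.

* `exists_cycloAt` : every `σ ∈ G_ℚ` acts on `μ_p` as a `c`-th power;
* `not_ordinaryInertiaAt_of_ss` : **ELOC-ss**.  If all nonzero points of `E[p]` lie in the kernel
  of reduction at `A` (`1 < v (x P)`), then `¬ OrdinaryInertiaAt E p A`;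
* `exists_integral_point_of_ordinaryInertiaAt` : contrapositive, the entry point of ELOC-ord:
  `OrdinaryInertiaAt E p A` gives a nonzero `P ∈ E[p]` with `x P ∈ A`.

No good-reduction hypothesis is used.
-/

set_option autoImplicit false

open WeierstrassCurve WeierstrassCurve.Affine
open Fermat.Agent.S51.Five (xc)
open Fermat.Agent.Ribet.Spec (GQ)
open Fermat.Agent.Ribet.H944.Wall (CycloAt ETorsion OrdinaryInertiaAt)

namespace Fermat.Agent.Ribet.H187

local notation "Qb" => AlgebraicClosure ℚ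

/-- Every automorphism acts on the `p`-th roots of unity as a `c`-th power. -/
theorem exists_cycloAt (p : ℕ) (hp : 0 < p) (σ : GQ) : ∃ c : ℕ, CycloAt p σ c := by
  have : NeZero p := ⟨hp.ne'⟩
  have : NeZero ((p : ℕ) : Qb) := ⟨Nat.cast_ne_zero.mpr hp.ne'⟩
  obtain ⟨ζ, hζ⟩ := HasEnoughRootsOfUnity.exists_primitiveRoot Qb p
  have h1 : (σ ζ) ^ p = 1 := by rw [← map_pow, hζ.pow_eq_one, map_one]
  obtain ⟨c, -, hc⟩ := hζ.eq_pow_of_pow_eq_one h1
  refine ⟨c, fun ζ' hζ' => ?_⟩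
  obtain ⟨j, -, rfl⟩ := hζ.eq_pow_of_pow_eq_one hζ'
  rw [map_pow, ← hc, ← pow_mul, ← pow_mul, mul_comm]

/-- **ELOC-ss** (wall board v2).  If every nonzero point of `E[p]` lies in the kernel of reduction
at `A`, the inertia group at `A` does not act "ordinarily" on `E[p]`. -/
theorem not_ordinaryInertiaAt_of_ss {W : WeierstrassCurve ℤ} (hΔ : W.Δ ≠ 0) {p : ℕ}
    (hp : p.Prime) (hp2 : p ≠ 2) (A : ValuationSubring Qb) (hA : A.LiesOverPrime p)
    (hss : ∀ P : ((W.map (Int.castRingHom ℚ))⁄Qb).Point, P ≠ 0 → p • P = 0 →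
      1 < A.valuation (xc P)) :
    ¬ OrdinaryInertiaAt (W.map (Int.castRingHom ℚ)) p A := by
  intro hOrd
  have := isElliptic_baseChange W hΔ
  obtain ⟨τ, hτ, h⟩ := exists_inertia_no_eigenvector hΔ hp hp2 A hA hss
  obtain ⟨c, hc⟩ := exists_cycloAt p hp.pos τ
  have hodd : Odd p := hp.odd_of_ne_two hp2
  have hp3 : 3 ≤ p := by
    have := hp.two_le
    omega
  have hnt : Nontrivial (ETorsion (W.map (Int.castRingHom ℚ)) p) :=
    (Fermat.Agent.S13.H891.T1_odd ((W.map (Int.castRingHom ℚ))⁄Qb) p hp3 hodd).1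
  obtain ⟨x, hx0⟩ := exists_ne (0 : ETorsion (W.map (Int.castRingHom ℚ)) p)
  have hx0' : (x : ((W.map (Int.castRingHom ℚ))⁄Qb).Point) ≠ 0 := fun h0 => hx0 (Subtype.ext h0)
  have hxp : p • (x : ((W.map (Int.castRingHom ℚ))⁄Qb).Point) = 0 :=
    Fermat.Agent.S13.H891.nsmul_eq_zero_of_mem_torsionBy p x
  have hO := hOrd τ hτ c hc x
  by_cases hfix : τ • x = x
  · refine h x hx0' hxp 1 ?_
    rw [one_smul]
    exact congrArg Subtype.val hfix
  · set y : ETorsion (W.map (Int.castRingHom ℚ)) p := τ • x - x with hy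
    have hy0 : y ≠ 0 := fun h0 => hfix (sub_eq_zero.mp h0)
    have hy0' : (y : ((W.map (Int.castRingHom ℚ))⁄Qb).Point) ≠ 0 := fun h0 => hy0 (Subtype.ext h0)
    have hyp : p • (y : ((W.map (Int.castRingHom ℚ))⁄Qb).Point) = 0 :=
      Fermat.Agent.S13.H891.nsmul_eq_zero_of_mem_torsionBy p y
    have hτy : τ • y = c • y := by
      rw [hy, smul_sub, nsmul_sub]
      have h2 : τ • τ • x = (c + 1) • τ • x - c • x := eq_sub_of_add_eq hO
      rw [h2, add_nsmul, one_nsmul]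
      abel
    refine h y hy0' hyp (c : ℤ) ?_
    rw [natCast_zsmul]
    have := congrArg Subtype.val hτy
    exact this

/-- Contrapositive of ELOC-ss, the entry point of ELOC-ord: an "ordinary" inertia action on `E[p]`
forces a nonzero point of `E[p]` with `A`-integral `x`-coordinate. -/
theorem exists_integral_point_of_ordinaryInertiaAt {W : WeierstrassCurve ℤ} (hΔ : W.Δ ≠ 0)
    {p : ℕ} (hp : p.Prime) (hp2 : p ≠ 2) (A : ValuationSubring Qb) (hA : A.LiesOverPrime p)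
    (hOrd : OrdinaryInertiaAt (W.map (Int.castRingHom ℚ)) p A) :
    ∃ P : ((W.map (Int.castRingHom ℚ))⁄Qb).Point, P ≠ 0 ∧ p • P = 0 ∧ xc P ∈ A := by
  by_contra hcon
  refine not_ordinaryInertiaAt_of_ss hΔ hp hp2 A hA ?_ hOrd
  intro P hP0 hPp
  by_contra hle
  exact hcon ⟨P, hP0, hPp, (A.valuation_le_one_iff _).mp (not_lt.mp hle)⟩

end Fermat.Agent.Ribet.H187

end
-- ===== PACK-END Ribet/H187/ELocSS.lean

-- ===== PACK-BEGIN Ribet/H463/AuxPrime.lean
section









/-!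
# Row RIBET, piece AUX (helper463): the auxiliary prime

`Fermat.Agent.Ribet.H463.auxPrime : Spec.AuxPrimeStatement` — UNCONDITIONAL.

For every integral model `W` of the Frey curve there is a prime `q'` of good reduction of `W`,
`q' ∤ N`, `q' ∉ {2, p}`, with `q' ≡ -1 mod p` and `a_{q'}(W) ≡ 0 mod p`.

Proof.  Let `c` be complex conjugation (Prelude `complexConjugation`), `P₀ ≠ 0` a `p`-torsion
point of `W(ℚ̄)`, `ζ` a primitive `p`-th root of unity, and `E` the (finite) extension of `ℚ`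
generated by the coordinates of `P₀`, of `c P₀`, and by `ζ`.  The Frobenius division theorem
(`Lib/Cheb`, Tier 1) gives a prime `ℓ ≥ 5` of good reduction outside any finite set and a
Frobenius `τ` at `ℓ` with `⟨τ|E⟩ = ⟨c|E⟩`; as `c² = 1` and `c ζ = ζ⁻¹ ≠ ζ` this forces `τ = c` on
`E`.  Then `ζ^ℓ = τ ζ = ζ⁻¹`, so `p ∣ ℓ + 1`; and the Frobenius relation (`Lib/Frob`)
`τ²P₀ - a_ℓ τP₀ + ℓ P₀ = 0` reads `a_ℓ • (c P₀) = (1 + ℓ) • P₀ = 0`, whence `p ∣ a_ℓ` since
`c P₀` has exact order `p`.  No Weil pairing, no trace formula, no `det = cyclotomic`.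

The general statement for an arbitrary integral Weierstrass curve is `exists_aux_prime`.
-/

set_option autoImplicit false

open WeierstrassCurve WeierstrassCurve.Affine WeierstrassCurve.Affine.Point

namespace Fermat.Agent.Ribet.H463

open Fermat.Agent.Lib.Frob (Qb Pts FrobRelation)

/-- The Frobenius relation of `Lib/Frob`, assembled. -/
theorem frobRelation_h463 : FrobRelation :=
  Fermat.Agent.Lib.Frob.frobRelation_of_parts Fermat.Agent.Lib.Frob.frobRelationFin
    Fermat.Agent.Lib.Frob.reductionData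

/-- Complex conjugation inverts roots of unity. -/
theorem complexConjugation_root_h463 {m : ℕ} (hm : m ≠ 0) {t : Qb} (ht : t ^ m = 1) :
    complexConjugation t = t⁻¹ := by
  apply complexEmbedding.toRingHom.injective
  show complexEmbedding (complexConjugation t) = complexEmbedding t⁻¹
  rw [complexEmbedding_complexConjugation, map_inv₀]
  have hz : (complexEmbedding t) ^ m = 1 := by rw [← map_pow, ht, map_one]
  have hnorm : ‖complexEmbedding t‖ = 1 := by
    have h := congrArg norm hz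
    rw [norm_pow, norm_one] at h
    exact (pow_eq_one_iff_of_nonneg (norm_nonneg _) hm).1 h
  exact (Complex.inv_eq_conj hnorm).symm

theorem complexConjugation_apply_apply (x : Qb) : complexConjugation (complexConjugation x) = x := by
  have h := congrArg (fun f : Qb ≃ₐ[ℚ] Qb => f x) complexConjugation_mul_self
  simpa using h

section points

variable (W : WeierstrassCurve ℤ)

/-- Two automorphisms agreeing on the coordinates of an affine point agree on the point. -/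
theorem smul_some_congr {σ τ : Qb ≃ₐ[ℚ] Qb} {x y : Qb}
    (h : ((W.map (Int.castRingHom ℚ))⁄Qb).toAffine.Nonsingular x y)
    (hx : σ x = τ x) (hy : σ y = τ y) :
    σ • (Point.some x y h : Pts W) = τ • (Point.some x y h : Pts W) := by
  show Point.map σ.toAlgHom (Point.some x y h) = Point.map τ.toAlgHom (Point.some x y h)
  rw [Point.map_some, Point.map_some]
  simp only [Point.some.injEq]
  exact ⟨hx, hy⟩

/-- Same, for the composite action. -/
theorem smul_smul_some_congr {σ τ : Qb ≃ₐ[ℚ] Qb} {x y : Qb}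
    (h : ((W.map (Int.castRingHom ℚ))⁄Qb).toAffine.Nonsingular x y)
    (hx : σ (τ x) = x) (hy : σ (τ y) = y) :
    σ • τ • (Point.some x y h : Pts W) = (Point.some x y h : Pts W) := by
  show Point.map σ.toAlgHom (Point.map τ.toAlgHom (Point.some x y h)) = Point.some x y h
  rw [Point.map_some, Point.map_some]
  simp only [Point.some.injEq]
  exact ⟨hx, hy⟩

end points

/-- If `p • Q = 0`, `a • Q = 0` and `Q ≠ 0` in an additive group, with `p` prime, then `p ∣ a`. -/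
theorem dvd_of_zsmul_eq_zero {G : Type*} [AddCommGroup G] {p : ℕ} (hp : p.Prime) {Q : G}
    (hQ : Q ≠ 0) (hpQ : (p : ℤ) • Q = 0) {a : ℤ} (ha : a • Q = 0) : (p : ℤ) ∣ a := by
  by_contra hnd
  have hcop : IsCoprime (p : ℤ) a :=
    (Prime.coprime_iff_not_dvd (Nat.prime_iff_prime_int.mp hp)).mpr hnd
  obtain ⟨u, v, huv⟩ := hcop
  have h0 : (u * (p : ℤ) + v * a) • Q = 0 := by
    rw [add_smul, mul_smul, mul_smul, hpQ, ha, smul_zero, smul_zero, add_zero]
  rw [huv, one_smul] at h0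
  exact hQ h0

/-- **Auxiliary prime, general form.**  For an integral Weierstrass curve `W` with `Δ ≠ 0`, an odd
prime `p` such that `W(ℚ̄)` has a nonzero `p`-torsion point, and a finite set `S`, there is a
prime `q ≥ 5` outside `S`, `q ≠ p`, of good reduction, with `q ≡ -1` and `a_q(W) ≡ 0 mod p`. -/
theorem exists_aux_prime (W : WeierstrassCurve ℤ) (hΔ : W.Δ ≠ 0) {p : ℕ} (hp : p.Prime)
    (hp2 : p ≠ 2) (P₀ : Pts W) (hP₀ : P₀ ≠ 0) (hpP₀ : p • P₀ = 0) (S : Finset ℕ) :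
    ∃ q : ℕ, q.Prime ∧ q ∉ S ∧ 5 ≤ q ∧ q ≠ p ∧ W.IsGoodPrimeFor q ∧ p ∣ q + 1 ∧
      (p : ℤ) ∣ W.apOfModel q := by
  have : Fact p.Prime := ⟨hp⟩
  -- affine coordinates of `P₀`
  obtain ⟨x, y, h, rfl⟩ : ∃ (x y : Qb) (h : ((W.map (Int.castRingHom ℚ))⁄Qb).toAffine.Nonsingular x y),
      P₀ = Point.some x y h := by
    rcases P₀ with _ | ⟨x, y, h⟩
    · exact absurd rfl hP₀
    · exact ⟨x, y, h, rfl⟩
  -- a primitive `p`-th root of unity
  have : NeZero (p : ℚ) := ⟨by exact_mod_cast hp.ne_zero⟩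
  obtain ⟨ζ, hζ⟩ := HasEnoughRootsOfUnity.exists_primitiveRoot Qb p
  have hζp : ζ ^ p = 1 := hζ.pow_eq_one
  have hζ0 : ζ ≠ 0 := hζ.ne_zero hp.ne_zero
  have hcζ : complexConjugation ζ = ζ⁻¹ := complexConjugation_root_h463 hp.ne_zero hζp
  -- the finite extension `E`
  set T : Set Qb := {x, y, complexConjugation x, complexConjugation y, ζ} with hT
  set E : IntermediateField ℚ Qb := IntermediateField.adjoin ℚ T with hE
  have hTfin : T.Finite := by
    rw [hT]
    exact Set.toFinite _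
  have hfin : FiniteDimensional ℚ E := by
    have : Finite T := hTfin
    exact IntermediateField.finiteDimensional_adjoin
      (fun z _ => ((AlgebraicClosure.isAlgebraic ℚ).isIntegral).isIntegral z)
  have hmem : ∀ z ∈ T, z ∈ E := fun z hz => IntermediateField.subset_adjoin ℚ T hz
  have hxE : x ∈ E := hmem x (by rw [hT]; simp)
  have hyE : y ∈ E := hmem y (by rw [hT]; simp)
  have hcxE : complexConjugation x ∈ E := hmem _ (by rw [hT]; simp)
  have hcyE : complexConjugation y ∈ E := hmem _ (by rw [hT]; simp)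
  have hζE : ζ ∈ E := hmem ζ (by rw [hT]; simp)
  -- Frobenius division theorem
  obtain ⟨ℓ, A, τ, k, j, hℓ, hℓS, hA, hτ, -, hk, hj⟩ :=
    Fermat.Agent.Lib.Cheb.frobeniusDivision E hfin complexConjugation
      (S ∪ {2, 3, p} ∪ W.Δ.natAbs.primeFactors)
  simp only [Finset.mem_union, Finset.mem_insert, Finset.mem_singleton, not_or] at hℓS
  obtain ⟨⟨hℓS, hℓ2, hℓ3, hℓp⟩, hℓΔ⟩ := hℓS
  have h5 : 5 ≤ ℓ := by
    by_contra hlt
    have h2 := hℓ.two_le
    have h4 : ℓ = 4 := by omega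
    rw [h4] at hℓ
    exact absurd hℓ (by decide)
  have hgood : W.IsGoodPrimeFor ℓ := by
    intro hdvd
    apply hℓΔ
    rw [Nat.mem_primeFactors]
    exact ⟨hℓ, Int.natCast_dvd.mp hdvd, Int.natAbs_ne_zero.mpr hΔ⟩
  -- `τ = c` on `E`
  have hτc : ∀ z ∈ E, τ z = complexConjugation z := by
    rcases Nat.even_or_odd k with ⟨r, hr⟩ | ⟨r, hr⟩
    · -- `c ^ k = 1`: impossible
      exfalso
      have hck : complexConjugation ^ k = 1 := by
        rw [hr, ← two_mul, pow_mul, complexConjugation_sq, one_pow]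
      have hτ1 : ∀ z ∈ E, τ z = z := fun z hz => by rw [hk z hz, hck]; rfl
      have hτj : ∀ n : ℕ, ∀ z ∈ E, (τ ^ n) z = z := by
        intro n
        induction n with
        | zero => intro z _; rfl
        | succ n ih =>
          intro z hz
          rw [pow_succ, AlgEquiv.mul_apply, hτ1 z hz, ih z hz]
      have h1 : complexConjugation ζ = ζ := by rw [← hj ζ hζE, hτj j ζ hζE]
      rw [hcζ] at h1
      have h2 : ζ ^ 2 = 1 := by
        rw [pow_two]
        nth_rewrite 1 [← h1]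
        exact inv_mul_cancel₀ hζ0
      have h3 : p ∣ 2 := hζ.dvd_of_pow_eq_one 2 h2
      exact hp2 ((Nat.prime_dvd_prime_iff_eq hp Nat.prime_two).mp h3)
    · intro z hz
      have hck : complexConjugation ^ k = complexConjugation := by
        rw [hr, pow_succ, pow_mul, complexConjugation_sq, one_pow, one_mul]
      rw [hk z hz, hck]
  -- `p ∣ ℓ + 1`
  have hτζ : τ ζ = ζ ^ ℓ := Fermat.Agent.S29.H872.frob_root_eq_pow p hℓ hℓp A hA τ hτ hζp
  have hdvd : p ∣ ℓ + 1 := by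
    apply hζ.dvd_of_pow_eq_one
    rw [pow_succ, ← hτζ, hτc ζ hζE, hcζ]
    exact inv_mul_cancel₀ hζ0
  refine ⟨ℓ, hℓ, hℓS, h5, hℓp, hgood, hdvd, ?_⟩
  -- the Frobenius relation at `P₀`
  have hℓnp : ¬ ℓ ∣ p := fun hd => hℓp ((Nat.prime_dvd_prime_iff_eq hℓ hp).mp hd)
  have hrel := frobRelation_h463 W ℓ hℓ h5 hgood A τ hA hτ p hp.pos hℓnp (Point.some x y h) hpP₀
  -- `τ • P₀ = c • P₀`, `τ • τ • P₀ = P₀`
  have e1 : τ • (Point.some x y h : Pts W) = complexConjugation • (Point.some x y h : Pts W) :=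
    smul_some_congr W h (hτc x hxE) (hτc y hyE)
  have e2 : τ • complexConjugation • (Point.some x y h : Pts W) = (Point.some x y h : Pts W) :=
    smul_smul_some_congr W h
      (by rw [hτc _ hcxE]; exact complexConjugation_apply_apply x)
      (by rw [hτc _ hcyE]; exact complexConjugation_apply_apply y)
  rw [e1, e2] at hrel
  set Q : Pts W := complexConjugation • (Point.some x y h : Pts W) with hQ
  have hpP₀' : (p : ℤ) • (Point.some x y h : Pts W) = 0 := by
    rw [natCast_zsmul]; exact hpP₀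
  have hQ0 : Q ≠ 0 := by
    intro h0
    exact hP₀ ((smul_eq_zero_iff_eq complexConjugation).mp h0)
  have hpQ : (p : ℤ) • Q = 0 := by
    rw [hQ, ← algEquiv_smul_zsmul, hpP₀', smul_zero]
  have haQ : W.apOfModel ℓ • Q = 0 := by
    obtain ⟨m, hm⟩ := hdvd
    have h1 : ((ℓ : ℤ) + 1) • (Point.some x y h : Pts W) = 0 := by
      have : ((ℓ : ℤ) + 1) = (m : ℤ) * (p : ℤ) := by
        have := congrArg (Nat.cast : ℕ → ℤ) hm
        push_cast at this
        rw [this]; ring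
      rw [this, mul_smul, hpP₀']
      exact zsmul_zero _
    have h2 : W.apOfModel ℓ • Q = ((ℓ : ℤ) + 1) • (Point.some x y h : Pts W) := by
      rw [add_zsmul, one_zsmul]
      have := hrel
      rw [sub_add_eq_add_sub, sub_eq_zero] at this
      rw [← this, add_comm]
    rw [h2, h1]
  exact dvd_of_zsmul_eq_zero hp hQ0 hpQ haQ

/-! ## The Frey curve -/

section frey

variable (P : FreyPackage)

/-- The discriminant of the Frey curve is `(abc)^{2p} / 2^8`. -/
theorem freyCurve_Δ_h463 :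
    P.freyCurve.Δ = ((P.a * P.b * P.c : ℤ) : ℚ) ^ (2 * P.p) / 2 ^ 8 := by
  have hc : ((P.c : ℤ) : ℚ) ^ P.p = (P.a : ℚ) ^ P.p + (P.b : ℚ) ^ P.p := by
    have := congrArg (Int.cast : ℤ → ℚ) P.hFLT
    push_cast at this
    exact this.symm
  simp only [WeierstrassCurve.Δ, WeierstrassCurve.b₂, WeierstrassCurve.b₄, WeierstrassCurve.b₆,
    WeierstrassCurve.b₈, FreyPackage.freyCurve]
  push_cast
  rw [pow_mul', mul_pow, mul_pow, hc]
  ring

theorem freyCurve_Δ_ne_zero_h463 : P.freyCurve.Δ ≠ 0 := by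
  rw [freyCurve_Δ_h463]
  have h := P.habc0
  have : ((P.a * P.b * P.c : ℤ) : ℚ) ≠ 0 := by exact_mod_cast h
  positivity

/-- An integral model of the Frey curve has nonzero discriminant. -/
theorem Δ_ne_zero_of_isIntegralModelOf {W : WeierstrassCurve ℤ}
    (hW : W.IsIntegralModelOf P.freyCurve) : W.Δ ≠ 0 := by
  obtain ⟨C, hC⟩ := hW
  intro h0
  have h1 : (C • P.freyCurve).Δ = 0 := by
    rw [hC, WeierstrassCurve.map_Δ, h0, _root_.map_zero]
  rw [WeierstrassCurve.variableChange_Δ] at h1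
  rcases mul_eq_zero.mp h1 with h2 | h2
  · exact absurd (pow_eq_zero_iff (by norm_num) |>.mp h2) (Units.ne_zero _)
  · exact freyCurve_Δ_ne_zero_h463 P h2

/-- A nonzero `p`-torsion point of the Frey curve gives one on every integral model. -/
theorem exists_torsion_of_isIntegralModelOf {W : WeierstrassCurve ℤ}
    (hW : W.IsIntegralModelOf P.freyCurve)
    (hnt : Nontrivial (Submodule.torsionBy ℤ (P.freyCurve⁄Qb).Point P.p)) :
    ∃ P₀ : Pts W, P₀ ≠ 0 ∧ P.p • P₀ = 0 := by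
  obtain ⟨C, hC⟩ := hW
  obtain ⟨P₁, hP₁⟩ := exists_ne (0 : Submodule.torsionBy ℤ (P.freyCurve⁄Qb).Point P.p)
  have hP₁0 : (P₁ : (P.freyCurve⁄Qb).Point) ≠ 0 := fun h => hP₁ (Subtype.ext h)
  have hP₁p : ((P.p : ℕ) : ℤ) • (P₁ : (P.freyCurve⁄Qb).Point) = 0 :=
    (Submodule.mem_torsionBy_iff _ _).mp P₁.2
  have key : ∀ W' : WeierstrassCurve ℚ, C • P.freyCurve = W' →
      ∃ P₀ : (W'⁄Qb).Point, P₀ ≠ 0 ∧ P.p • P₀ = 0 := by
    rintro _ rfl
    refine ⟨(Fermat.Agent.Lib.VC.vcPointBC P.freyCurve C Qb).symm P₁, ?_, ?_⟩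
    · intro h0
      apply hP₁0
      have := congrArg (Fermat.Agent.Lib.VC.vcPointBC P.freyCurve C Qb) h0
      rwa [AddEquiv.apply_symm_apply, _root_.map_zero] at this
    · rw [← map_nsmul, ← natCast_zsmul, hP₁p, _root_.map_zero]
  exact key _ hC

end frey

/-- **Piece AUX of row RIBET** (unconditional): the auxiliary prime. -/
theorem auxPrime : Spec.AuxPrimeStatement := by
  intro P N W hN hW hirr
  have hΔ : W.Δ ≠ 0 := Δ_ne_zero_of_isIntegralModelOf P hW
  obtain ⟨P₀, hP₀, hpP₀⟩ := exists_torsion_of_isIntegralModelOf P hW hirr.1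
  have hp2 : P.p ≠ 2 := by have := P.hp5; omega
  obtain ⟨q, hq, hqS, h5, hqp, hgood, hdvd, ha⟩ :=
    exists_aux_prime W hΔ P.pp hp2 P₀ hP₀ hpP₀ N.divisors
  refine ⟨q, hq, ?_, hqp, by omega, hgood, hdvd, ha⟩
  intro hqN
  exact hqS (Nat.mem_divisors.mpr ⟨hqN, hN.ne'⟩)

end Fermat.Agent.Ribet.H463

end
-- ===== PACK-END Ribet/H463/AuxPrime.lean

-- ===== PACK-BEGIN S29/H509/KummerFun.lean
section



/-!
# The Kummer function of a character (helper509, S29 piece K1-full)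

For `Γ ≤ SL(2, ℤ)` and a unitary character `χ : Γ →* ℂˣ` trivial on the stabiliser of `∞`:
`kumH χ τ = twEis χ 12 τ / Δ τ` is holomorphic on `ℍ`, nonzero, satisfies
`kumH χ (γ • τ) = χ γ * kumH χ τ` for `γ ∈ Γ`, and all its `SL(2, ℤ)`-translates have at most
exponential growth at `i∞`.  If `χ ^ p = 1` and `Γ = Γ₀(N)`, then `kumH χ ^ p` lies in helper648's
`goodRing N` (so, by helper882's MERO, its `q`-expansion lies in the function field over `ℂ`).
-/

set_option autoImplicit false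

namespace Fermat.Agent.S29.H509

open ModularForm UpperHalfPlane Matrix CongruenceSubgroup EisensteinSeries Filter Topology
open scoped MatrixGroups Manifold Real

open Fermat.Agent.S24.H648 (goodRing ExpGrowth)

noncomputable section

local notation "Δ" => ModularForm.discriminant

/-- A uniform bound for weighted Eisenstein sums on `im z ≥ 1`. -/
theorem exists_bound_wEis {k : ℤ} (hk : 3 ≤ k) :
    ∃ M : ℝ, ∀ (w : (Fin 2 → ℤ) → ℂ), (∀ v, ‖w v‖ ≤ 1) → ∀ z : ℍ, 1 ≤ z.im →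
      ‖wEis w k z‖ ≤ M := by
  refine ⟨∑' x : Fin 2 → ℤ, r ⟨⟨1, 1⟩, one_pos⟩ ^ (-k) * ‖x‖ ^ (-k), fun w hw z hz => ?_⟩
  obtain ⟨n, hn⟩ := ModularGroup_T_zpow_mem_verticalStrip z (N := 1) one_pos
  refine (norm_wEis_le_eisMaj hw hk z).trans ?_
  rw [← eisMaj_T_zpow_smul k ((1 : ℕ) * n) z]
  refine eisMaj_le_of_mem_verticalStrip hk one_pos ?_
  exact verticalStrip_anti_right _ hz (by simpa using hn)

variable {Γ : Subgroup SL(2, ℤ)}

/-- A uniform bound for all `SL(2, ℤ)`-translates of the twisted Eisenstein series on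
`im z ≥ 1`. -/
theorem exists_bound_twEis_slash {χ : Γ →* ℂˣ} (hnorm : ∀ γ, ‖(χ γ : ℂ)‖ = 1) {k : ℤ}
    (hk : 3 ≤ k) : ∃ M : ℝ, ∀ (g : SL(2, ℤ)) (z : ℍ), 1 ≤ z.im →
      ‖(twEis χ k ∣[k] g) z‖ ≤ M := by
  obtain ⟨M, hM⟩ := exists_bound_wEis hk
  refine ⟨M, fun g z hz => ?_⟩
  unfold twEis
  rw [wEis_slash]
  exact hM _ (fun v => norm_chiWeight_le hnorm _) z hz

/-- The Kummer function `E^χ₁₂ / Δ` of a character `χ`. -/
def kumH (χ : Γ →* ℂˣ) : ℍ → ℂ := fun τ => twEis χ 12 τ * (Δ τ)⁻¹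

lemma kumH_apply (χ : Γ →* ℂˣ) (τ : ℍ) : kumH χ τ = twEis χ 12 τ * (Δ τ)⁻¹ := rfl

theorem kumH_mdifferentiable {χ : Γ →* ℂˣ} (hnorm : ∀ γ, ‖(χ γ : ℂ)‖ = 1) :
    MDiff (kumH χ) := by
  have h1 : MDiff (twEis χ 12) := twEis_mdifferentiable hnorm (by norm_num)
  have h2 := h1.div Fermat.Agent.S28.H565.mdifferentiable_discriminant
    ModularForm.discriminant_ne_zero
  have h3 : kumH χ = twEis χ 12 / Δ := by
    funext τ
    simp only [kumH_apply, Pi.div_apply, div_eq_mul_inv]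
  rw [h3]
  exact h2

lemma denom_SL_eq (g : SL(2, ℤ)) (τ : ℍ) :
    denom (g : SL(2, ℤ)) τ = ((g 1 0 : ℤ) : ℂ) * τ + ((g 1 1 : ℤ) : ℂ) := by
  simp [UpperHalfPlane.denom]

/-- Translates of the Kummer function by `SL(2, ℤ)`. -/
theorem kumH_smul_SL (χ : Γ →* ℂˣ) (g : SL(2, ℤ)) (τ : ℍ) :
    kumH χ (g • τ) = (twEis χ 12 ∣[(12 : ℤ)] g) τ * (Δ τ)⁻¹ := by
  have hd : denom (g : SL(2, ℤ)) τ ≠ 0 := denom_ne_zero _ τ
  rw [kumH_apply, SL_slash_apply, Fermat.Agent.S28.H565.discriminant_smul, ← denom_SL_eq,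
    mul_inv, _root_.zpow_neg]
  ring

/-- The Kummer function transforms under `Γ` by the character `χ`. -/
theorem kumH_smul {χ : Γ →* ℂˣ} (hχ : TrivOnUnip χ) (γ : Γ) (τ : ℍ) :
    kumH χ ((γ : SL(2, ℤ)) • τ) = (χ γ : ℂ) * kumH χ τ := by
  rw [kumH_smul_SL, twEis_slash hχ, Pi.smul_apply, smul_eq_mul, kumH_apply, mul_assoc]

/-- All translates of the Kummer function have at most exponential growth at `i∞`. -/
theorem kumH_expGrowth {χ : Γ →* ℂˣ} (hnorm : ∀ γ, ‖(χ γ : ℂ)‖ = 1) (g : SL(2, ℤ)) :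
    ExpGrowth (fun τ => kumH χ (g • τ)) := by
  obtain ⟨M, hM⟩ := exists_bound_twEis_slash (χ := χ) hnorm (k := 12) (by norm_num)
  obtain ⟨C, hC⟩ := Fermat.Agent.S28.H589.exists_inv_discriminant_bound
  have hM0 : 0 ≤ M := (norm_nonneg _).trans (hM 1 UpperHalfPlane.I (by simp))
  refine ⟨M * C, 1, fun τ hτ => ?_⟩
  show ‖kumH χ (g • τ)‖ ≤ _
  rw [kumH_smul_SL, norm_mul]
  calc ‖(twEis χ 12 ∣[(12 : ℤ)] g) τ‖ * ‖(Δ τ)⁻¹‖
      ≤ M * (C * Real.exp (2 * π * τ.im)) :=
        mul_le_mul (hM g τ hτ) (hC τ hτ) (norm_nonneg _) hM0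
    _ = M * C * Real.exp (2 * π * (1 : ℕ) * τ.im) := by
        simp only [Nat.cast_one, mul_one]
        ring

/-- The Kummer function is not identically zero. -/
theorem kumH_ne_zero {χ : Γ →* ℂˣ} (hnorm : ∀ γ, ‖(χ γ : ℂ)‖ = 1) (hχ : TrivOnStabInfty χ) :
    kumH χ ≠ 0 := by
  intro h0
  apply twEis_ne_zero hnorm hχ (k := 12) (by norm_num) (by decide)
  funext τ
  have h1 : kumH χ τ = 0 := by rw [h0]; rfl
  rw [kumH_apply] at h1
  rcases mul_eq_zero.mp h1 with h | h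
  · exact h
  · exact absurd (inv_eq_zero.mp h) (ModularForm.discriminant_ne_zero τ)

/-- The `p`-th power of the Kummer function of a character of order dividing `p` is a good
function for `Γ₀(N)`: holomorphic, `Γ₀(N)`-invariant, all translates of exponential growth. -/
theorem kumH_pow_mem_goodRing {N : ℕ} {χ : Gamma0 N →* ℂˣ} (hχ : TrivOnUnip χ) {p : ℕ}
    (hp : p ≠ 0) (hχp : ∀ γ, χ γ ^ p = 1) : kumH χ ^ p ∈ goodRing N := by
  have hnorm : ∀ γ, ‖(χ γ : ℂ)‖ = 1 := fun γ => norm_eq_one_of_pow_eq_one' hp (hχp γ)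
  refine ⟨(kumH_mdifferentiable hnorm).pow p, fun γ hγ τ => ?_, fun g => ?_⟩
  · have h := kumH_smul hχ ⟨γ, hγ⟩ τ
    simp only [Pi.pow_apply]
    change kumH χ (γ • τ) = _ at h
    rw [h, mul_pow]
    have h1 : (χ ⟨γ, hγ⟩ : ℂ) ^ p = 1 := by
      have := congrArg (fun x : ℂˣ => (x : ℂ)) (hχp ⟨γ, hγ⟩)
      simpa using this
    rw [h1, one_mul]
  · have h := kumH_expGrowth (χ := χ) hnorm g
    have hpow : ∀ n : ℕ, ExpGrowth (fun τ => kumH χ (g • τ) ^ n) := by
      intro n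
      induction n with
      | zero =>
        simp only [pow_zero]
        exact Fermat.Agent.S24.H648.expGrowth_const 1
      | succ n ih =>
        have h2 := ih.mul h
        have h3 : ((fun τ => kumH χ (g • τ) ^ n) * fun τ => kumH χ (g • τ))
            = fun τ => kumH χ (g • τ) ^ (n + 1) := by
          funext τ
          simp only [Pi.mul_apply, pow_succ]
        rwa [h3] at h2
    exact hpow p

end

end Fermat.Agent.S29.H509

end
-- ===== PACK-END S29/H509/KummerFun.lean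

-- ===== PACK-BEGIN S18/H516/CoreRes.lean
section







/-!
# S18 / MOD (helper516): the S28 core data for the residue field of a place over `ℓ`

`coreData_residue` : for `A ⊆ L` a valuation subring with `(ℓ : L) ∈ 𝔪_A` (`A.LiesOverPrime ℓ`),
`ℓ ∤ N`: `CoreData N (IsLocalRing.ResidueField A)` (S28 H867 + H326 + H25, all on main).
`coreData_of_charP` : the same for any field `k : Type` of characteristic `ℓ`.
-/

set_option autoImplicit false

noncomputable section

namespace Fermat.Agent.S18.H516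

open ModularCurve Fermat.Agent.S28

/-- S28 core data for every field of characteristic `ℓ ∤ N`. -/
theorem coreData_of_charP (N : ℕ) [NeZero N] (ℓ : ℕ) [Fact ℓ.Prime] (hℓN : ¬ ℓ ∣ N)
    (k : Type) [Field k] [CharP k ℓ] : CoreData N k :=
  H867.coreData_of_inputs N ℓ hℓN k
    (fun p hp _ _ => H326.nonempty_modPolyData p hp)
    (fun p hp _ _ => H326.nonempty_unitPolyData p hp)
    H25.theta_identity

theorem charP_residue {L : Type*} [Field L] (A : ValuationSubring L) {ℓ : ℕ} [Fact ℓ.Prime]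
    (hA : A.LiesOverPrime ℓ) : CharP (IsLocalRing.ResidueField A) ℓ := by
  have hℓ : ℓ.Prime := Fact.out
  have h0 : ((ℓ : ℕ) : IsLocalRing.ResidueField A) = 0 := by
    have h1 : IsLocalRing.residue A ((ℓ : ℕ) : ↥A) = 0 := by
      rw [IsLocalRing.residue_eq_zero_iff, IsLocalRing.mem_maximalIdeal, mem_nonunits_iff]
      intro hu
      have h2 : (ℓ : L) ∈ A.nonunits := hA
      rw [ValuationSubring.mem_nonunits_iff] at h2
      have h3 : A.valuation (ℓ : L) = 1 := by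
        have := (A.valuation_eq_one_iff ((ℓ : ℕ) : ↥A)).mp hu
        simpa using this
      exact absurd h3 h2.ne
    simpa using h1
  exact (CharP.charP_iff_prime_eq_zero hℓ).mpr h0

/-- **S28 core data for the residue field of a place over `ℓ ∤ N`.** -/
theorem coreData_residue (N : ℕ) [NeZero N] {ℓ : ℕ} [Fact ℓ.Prime] (hℓN : ¬ ℓ ∣ N)
    (A : ValuationSubring (AlgebraicClosure ℚ)) (hA : A.LiesOverPrime ℓ) :
    CoreData N (IsLocalRing.ResidueField A) := by
  have := charP_residue A hA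
  exact coreData_of_charP N ℓ hℓN _

end Fermat.Agent.S18.H516

end
end
-- ===== PACK-END S18/H516/CoreRes.lean

-- ===== PACK-BEGIN S18/Mod/H216/IntegJ.lean
section


/-!
# S18 / MOD (helper216): integrality of the S28 monomials over `Rc[j]`, and G-V, G-QEP for `x = j`

* `isIntegral_jd` : `j(q^d)` is integral over `Rc[j]` (from `CoreData.integral`).
* `isIntegral_toOm_yInt` : the monomials `yᵢ ∈ ℤ[j_d : d ∣ M]` are integral over `Rc[j]`.
* `partV_j`, `partQep_j` : `PartV`, `PartQep` for `(Fc M E, Rc M A E, Vc M A E, w, jOm M)` from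
  `CoreData M κ`, `κ` the residue field of `A`.
-/

set_option autoImplicit false
set_option linter.unusedSectionVars false

noncomputable section

namespace Fermat.Agent.S18.Mod.H216

open ModularCurve AlgebraicCurve HahnSeries Polynomial Fermat.Agent.S18 Fermat.Agent.S18.Mod
open Fermat.Agent.S28 Fermat.Agent.S18.Alg

variable {M : ℕ} [NeZero M] (A : ValuationSubring Qb) (E : IntermediateField ℚ Qb)

/-- `ℤ((q)) → Q̄((q))`. -/
abbrev phiZ : LaurentSeries ℤ →+* LaurentSeries Qb := coeffMap (Int.castRingHom Qb)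

theorem coe_jd_eq_phiZ (d : ℕ) [NeZero d] (hd : d ∣ M) :
    ((jd M d hd : Om M) : LaurentSeries Qb) = phiZ (qExpand ℤ d (jqModC ℤ)) := by
  rw [coe_jd, coeffEmb, coeffMap_qExpand, coeffMap_qExpand, ← jqModC_rat, coeffMap_jqModC,
    coeffMap_jqModC]

theorem intCast_mem_Rc (k : ℤ) : (k : Om M) ∈ Rc M A E := intCast_mem _ k

theorem aeval_jOm_mem_polyRing (g : Polynomial ℤ) :
    Polynomial.aeval (jOm M) g ∈ polyRing (Rc M A E) (jOm M) := by
  rw [Polynomial.aeval_eq_sum_range]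
  refine sum_mem fun i _ => ?_
  rw [zsmul_eq_mul]
  exact mul_mem (le_polyRing _ _ (intCast_mem_Rc A E _)) (pow_mem (self_mem_polyRing _ _) i)

/-- `ℤ[X] → Rc[j]`. -/
def psiZ : Polynomial ℤ →+* ↥(polyRing (Rc M A E) (jOm M)) :=
  (Polynomial.aeval (R := ℤ) (jOm M)).toRingHom.codRestrict (polyRing (Rc M A E) (jOm M))
    (aeval_jOm_mem_polyRing A E)

theorem omVal_comp_aeval :
    (omVal M).comp (Polynomial.aeval (R := ℤ) (jOm M)).toRingHom =
      phiZ.comp (evalAt (jqModC ℤ)) := by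
  apply Polynomial.ringHom_ext
  · intro k
    simp
  · simp only [RingHom.comp_apply, AlgHom.toRingHom_eq_coe, RingHom.coe_coe, Polynomial.aeval_X,
      omVal_apply]
    rw [coe_jOm, coeffMap_jqModC]

theorem isIntegral_jd
    (hint : ∀ (d : ℕ) [NeZero d], d ∣ M → ∃ P : Polynomial (Polynomial ℤ), P.Monic ∧
      P.eval₂ (evalAt (jqModC ℤ)) (qExpand ℤ d (jqModC ℤ)) = 0)
    (d : ℕ) [NeZero d] (hd : d ∣ M) :
    IsIntegral (polyRing (Rc M A E) (jOm M)) (jd M d hd) := by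
  obtain ⟨P, hmonic, hroot⟩ := hint d hd
  refine ⟨P.map (psiZ A E), hmonic.map _, ?_⟩
  rw [Polynomial.eval₂_map]
  have hcomp : (algebraMap ↥(polyRing (Rc M A E) (jOm M)) (Om M)).comp (psiZ A E) =
      (Polynomial.aeval (R := ℤ) (jOm M)).toRingHom := rfl
  rw [hcomp]
  apply omVal_injective M
  rw [map_zero, Polynomial.hom_eval₂, omVal_comp_aeval, omVal_apply, coe_jd_eq_phiZ,
    ← Polynomial.hom_eval₂, hroot, map_zero]

variable {n : ℕ} {y : Fin n → LaurentSeries ℤ}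

theorem isIntegral_toOm_yInt (hS : H516.SpansQ M y)
    (hint : ∀ (d : ℕ) [NeZero d], d ∣ M → ∃ P : Polynomial (Polynomial ℤ), P.Monic ∧
      P.eval₂ (evalAt (jqModC ℤ)) (qExpand ℤ d (jqModC ℤ)) = 0)
    (i : Fin n) :
    IsIntegral (polyRing (Rc M A E) (jOm M)) (toOm M A E (yInt A E hS i)) := by
  have hle : Subring.closure (intDivisorExpansions M) ≤
      Subring.comap phiZ
        ((integralClosure ↥(polyRing (Rc M A E) (jOm M)) (Om M)).toSubring.map (omVal M)) := by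
    rw [Subring.closure_le]
    rintro z ⟨d, hd, hdM, rfl⟩
    haveI := hd
    exact ⟨jd M d hdM, isIntegral_jd A E hint d hdM, coe_jd_eq_phiZ d hdM⟩
  obtain ⟨f, hf, hfy⟩ := hle (hS.1 i)
  have : f = toOm M A E (yInt A E hS i) := by
    apply Subtype.ext
    rw [coe_toOm_yInt]
    exact hfy
  rw [← this]
  exact hf

/-! ### G-V and G-QEP for `x = j` -/

/-- **G-V** for the coordinate `j`. -/
theorem partV_j (core : CoreData M (IsLocalRing.ResidueField ↥A)) {w : Om M}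
    (hR : PartR (Ec M E) (Rc M A E) w) :
    PartV (Fc M E) (Rc M A E) (Vc M A E) w (jOm M) := by
  obtain ⟨n, y, hy, hspan, hli⟩ := core.exists_basis
  have hS : H516.SpansQ M y := ⟨hy, hspan⟩
  exact
    { V_le := Vc_le_Fc M A E
      V_total := V_total_j A E hS hli
      R_le_V := R_le_V M A E
      w_inv_not_mem_V := w_inv_not_mem_V M A E hR
      V_gen := V_gen M A E hR
      x_mem_V := jOm_mem_Vc M A E
      gauss := gauss_j M A E }

/-- **G-QEP** for the coordinate `j`. -/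
theorem partQep_j (core : CoreData M (IsLocalRing.ResidueField ↥A)) {w : Om M}
    (hR : PartR (Ec M E) (Rc M A E) w) :
    PartQep (Fc M E) (Rc M A E) (Vc M A E) w (jOm M) := by
  obtain ⟨n, y, hy, hspan, hli⟩ := core.exists_basis
  have hS : H516.SpansQ M y := ⟨hy, hspan⟩
  exact partQep_of_den hR (partV_j A E core hR) (Ec_le_Fc M E) (jOm_mem_Vc M A E)
    (injective_evR_j A E)
    (denAt_j A E hR hS hli (isIntegral_toOm_yInt A E hS (fun d _ hd => core.integral d hd)))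

end Fermat.Agent.S18.Mod.H216

end
end
-- ===== PACK-END S18/Mod/H216/IntegJ.lean

-- ===== PACK-BEGIN Lib/Ribet/H584/DeligneSerre.lean
section





/-!
# RIBET, piece R3b (helper584): Deligne–Serre lifting for weight 2, level `N`, any prime `p`

Let `𝕋 = heckeAlgebra N 2 S` be the Hecke algebra of `S₂(Γ₀(N))` away from a set `S` of primes.

* `exists_eigenform_of_prime` : for every prime ideal `𝔫` of `𝕋` there are a normalised eigenform
  `f` of level `N` (in the sense of the prelude: eigen for ALL `T_ℓ`, `U_q`), a ring homomorphism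
  `χ : 𝕋 → ℤ̄` with `χ (T_ℓ) = a_ℓ(f)` for the good primes `ℓ ∉ S`, and a maximal ideal `𝔪'` of
  `ℤ̄` with `χ(𝔫) ⊆ 𝔪'`.
* `exists_eigenform_of_ringHom` : the same for the kernel of a ring homomorphism `φ : 𝕋 → k` to a
  field of characteristic `p`; then `p ∈ 𝔪'`.
* `exists_eigenform_congr_of_ringHom` : congruence form (the shape of
  `WeierstrassCurve.IsResiduallyModularOfLevel`): if `φ (T_ℓ) = b ℓ` (image of an integer) for the
  good primes `ℓ ∉ S`, then `a_ℓ(f) - b ℓ ∈ 𝔪'`.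

Everything is assembled from landed pieces: S23 (integral structure), S49 (linear algebra,
going up), NEWFORM/H863 (normalisation of a common eigenvector).
-/

set_option autoImplicit false
open CuspForm CongruenceSubgroup ModularFormClass

namespace Fermat.Agent.Lib.Ribet.H584

variable {N : ℕ} [NeZero N] (S : Set ℕ)

/-- Every element of the Hecke algebra (away from `S`) is integral over `ℤ`. -/
theorem isIntegral_heckeAlgebra (t : heckeAlgebra N 2 S) : IsIntegral ℤ t := by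
  have hbij := CuspForm.latticeRestrictHom_bijective N S (Fermat.Agent.S23.result N)
  have h1 : IsIntegral ℤ (CuspForm.latticeRestrictHom N S t) :=
    Algebra.IsIntegral.isIntegral _
  exact (isIntegral_algHom_iff _ hbij.1).mp h1

/-- Going up for prime ideals: a maximal ideal of `ℤ̄` containing the image of a prime ideal
which contains the kernel. -/
theorem exists_maximal_over_prime {A : Type*} [CommRing A] (χ : A →+* integralClosure ℤ ℂ)
    (𝔫 : Ideal A) [𝔫.IsPrime] (h : RingHom.ker χ ≤ 𝔫) :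
    ∃ 𝔪' : Ideal (integralClosure ℤ ℂ), 𝔪'.IsMaximal ∧ ∀ t ∈ 𝔫, χ t ∈ 𝔪' := by
  let _ : Algebra A (integralClosure ℤ ℂ) := χ.toAlgebra
  have hint : Algebra.IsIntegral A (integralClosure ℤ ℂ) :=
    ⟨fun x => (Algebra.IsIntegral.isIntegral (R := ℤ) x).tower_top⟩
  obtain ⟨Q, -, hQ, hQc⟩ := Ideal.exists_ideal_over_prime_of_isIntegral 𝔫 (⊥ : Ideal _)
    (by
      intro t ht
      apply h
      rw [RingHom.mem_ker]
      have h1 : (algebraMap A (integralClosure ℤ ℂ)) t ∈ (⊥ : Ideal (integralClosure ℤ ℂ)) := ht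
      exact Ideal.mem_bot.mp h1)
  obtain ⟨𝔪', h𝔪', hle⟩ := Ideal.exists_le_maximal Q hQ.ne_top
  refine ⟨𝔪', h𝔪', fun t ht => hle ?_⟩
  have : t ∈ Q.comap (algebraMap A (integralClosure ℤ ℂ)) := hQc ▸ ht
  exact this

/-- **Deligne–Serre lifting**, prime-ideal form. -/
theorem exists_eigenform_of_prime (𝔫 : Ideal (heckeAlgebra N 2 S)) [𝔫.IsPrime] :
    ∃ (f : CuspForm (Gamma0 N) 2) (𝔪' : Ideal (integralClosure ℤ ℂ))
      (χ : heckeAlgebra N 2 S →+* integralClosure ℤ ℂ),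
      f.IsNormalizedEigenform ∧ 𝔪'.IsMaximal ∧
      (∀ (ℓ : ℕ) (hℓ : ℓ.Prime) (hℓN : ¬ ℓ ∣ N) (hℓS : ℓ ∉ S),
        ((χ (heckeAlgebra.T hℓ hℓN hℓS) : integralClosure ℤ ℂ) : ℂ) = qCoeff f ℓ) ∧
      (∀ t ∈ 𝔫, χ t ∈ 𝔪') := by
  classical
  have := Fermat.Agent.Lib.Newform.H863.finiteDimensional_cuspForm N
  obtain ⟨g, χ₀, hg, hχ₀, hker⟩ := Fermat.Agent.S49.exists_eigenvector_ker_le
    (K := ℂ) (V := CuspForm (Gamma0 N) 2)
    ((heckeAlgebra N 2 S).val.toRingHom) Subtype.val_injective 𝔫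
  -- the eigencharacter takes values in the integral closure
  have hint : ∀ t, χ₀ t ∈ integralClosure ℤ ℂ := fun t =>
    (isIntegral_heckeAlgebra S t).map χ₀.toIntAlgHom
  let χ : heckeAlgebra N 2 S →+* integralClosure ℤ ℂ :=
    χ₀.codRestrict (integralClosure ℤ ℂ).toSubring hint
  have hχ : ∀ t, ((χ t : integralClosure ℤ ℂ) : ℂ) = χ₀ t := fun t => rfl
  have hker' : RingHom.ker χ ≤ 𝔫 := by
    intro t ht
    apply hker
    rw [RingHom.mem_ker] at ht ⊢
    rw [← hχ, ht]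
    rfl
  obtain ⟨𝔪', h𝔪', hover⟩ := exists_maximal_over_prime χ 𝔫 hker'
  -- normalise
  set lam : ℕ → ℂ := fun ℓ =>
    if h : ℓ.Prime ∧ ¬ ℓ ∣ N ∧ ℓ ∉ S then χ₀ (heckeAlgebra.T h.1 h.2.1 h.2.2) else 0 with hlam
  have heig : ∀ (ℓ : ℕ) (hℓ : ℓ.Prime) (hℓN : ¬ ℓ ∣ N), ℓ ∉ S →
      CuspForm.heckeTLin 2 hℓ hℓN g = lam ℓ • g := by
    intro ℓ hℓ hℓN hℓS
    have h1 := hχ₀ (heckeAlgebra.T hℓ hℓN hℓS)
    have h2 : lam ℓ = χ₀ (heckeAlgebra.T hℓ hℓN hℓS) := by
      simp only [hlam]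
      rw [dif_pos ⟨hℓ, hℓN, hℓS⟩]
    rw [h2, ← h1]
    rfl
  obtain ⟨f, hf, hfl⟩ :=
    Fermat.Agent.Lib.Newform.H863.exists_normalizedEigenform_of_eigenvector S lam g hg heig
  refine ⟨f, 𝔪', χ, hf, h𝔪', fun ℓ hℓ hℓN hℓS => ?_, hover⟩
  rw [hχ, hfl ℓ hℓ hℓN hℓS]
  simp only [hlam]
  rw [dif_pos ⟨hℓ, hℓN, hℓS⟩]

/-- **Deligne–Serre lifting** for a ring homomorphism of the Hecke algebra to a field of
characteristic `p`. -/
theorem exists_eigenform_of_ringHom {k : Type*} [Field k] (p : ℕ) [CharP k p]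
    (φ : heckeAlgebra N 2 S →+* k) :
    ∃ (f : CuspForm (Gamma0 N) 2) (𝔪' : Ideal (integralClosure ℤ ℂ))
      (χ : heckeAlgebra N 2 S →+* integralClosure ℤ ℂ),
      f.IsNormalizedEigenform ∧ 𝔪'.IsMaximal ∧ (p : integralClosure ℤ ℂ) ∈ 𝔪' ∧
      (∀ (ℓ : ℕ) (hℓ : ℓ.Prime) (hℓN : ¬ ℓ ∣ N) (hℓS : ℓ ∉ S),
        ((χ (heckeAlgebra.T hℓ hℓN hℓS) : integralClosure ℤ ℂ) : ℂ) = qCoeff f ℓ) ∧
      (∀ t, φ t = 0 → χ t ∈ 𝔪') := by
  have hprime : (RingHom.ker φ).IsPrime := RingHom.ker_isPrime φ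
  obtain ⟨f, 𝔪', χ, hf, h𝔪', hT, hover⟩ := exists_eigenform_of_prime S (RingHom.ker φ)
  refine ⟨f, 𝔪', χ, hf, h𝔪', ?_, hT, fun t ht => hover t (RingHom.mem_ker.mpr ht)⟩
  have hp : ((p : ℕ) : heckeAlgebra N 2 S) ∈ RingHom.ker φ := by
    rw [RingHom.mem_ker, map_natCast]
    exact CharP.cast_eq_zero k p
  have := hover _ hp
  rwa [map_natCast] at this

/-- **Deligne–Serre lifting**, congruence form: an eigensystem `b` with values in `ℤ` which is
realised modulo `p` by a character of the Hecke algebra is congruent to the eigensystem of a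
normalised eigenform. -/
theorem exists_eigenform_congr_of_ringHom {k : Type*} [Field k] (p : ℕ) [CharP k p]
    (φ : heckeAlgebra N 2 S →+* k) (b : ℕ → ℤ)
    (hb : ∀ (ℓ : ℕ) (hℓ : ℓ.Prime) (hℓN : ¬ ℓ ∣ N) (hℓS : ℓ ∉ S),
      φ (heckeAlgebra.T hℓ hℓN hℓS) = ((b ℓ : ℤ) : k)) :
    ∃ (f : CuspForm (Gamma0 N) 2) (𝔪' : Ideal (integralClosure ℤ ℂ)),
      f.IsNormalizedEigenform ∧ 𝔪'.IsMaximal ∧ (p : integralClosure ℤ ℂ) ∈ 𝔪' ∧
      ∀ ℓ : ℕ, ℓ.Prime → ¬ ℓ ∣ N → ℓ ∉ S →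
        ∃ a : integralClosure ℤ ℂ, (a : ℂ) = qCoeff f ℓ ∧
          a - ((b ℓ : ℤ) : integralClosure ℤ ℂ) ∈ 𝔪' := by
  obtain ⟨f, 𝔪', χ, hf, h𝔪', hp, hT, hover⟩ := exists_eigenform_of_ringHom S p φ
  refine ⟨f, 𝔪', hf, h𝔪', hp, fun ℓ hℓ hℓN hℓS => ⟨χ (heckeAlgebra.T hℓ hℓN hℓS),
    hT ℓ hℓ hℓN hℓS, ?_⟩⟩
  have h0 : φ (heckeAlgebra.T hℓ hℓN hℓS - ((b ℓ : ℤ) : heckeAlgebra N 2 S)) = 0 := by
    rw [map_sub, hb ℓ hℓ hℓN hℓS, map_intCast, sub_self]
  have := hover _ h0
  rwa [map_sub, map_intCast] at this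

/-- The set of primes excluded in `WeierstrassCurve.IsResiduallyModularOfLevel`: `p` and the
bad primes of `W`. -/
def excluded (W : WeierstrassCurve ℤ) (p : ℕ) : Set ℕ :=
  {ℓ | ℓ = p ∨ ¬ W.IsGoodPrimeFor ℓ}

theorem notMem_excluded {W : WeierstrassCurve ℤ} {p ℓ : ℕ} (hg : W.IsGoodPrimeFor ℓ)
    (hℓp : ℓ ≠ p) : ℓ ∉ excluded W p := by
  rintro (h | h)
  · exact hℓp h
  · exact h hg

/-- **R3b, final shape**: a character of the Hecke algebra of level `N` (away from `p` and the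
bad primes of `W`) with values in a field of characteristic `p` which sends `T_ℓ` to `a_ℓ(W)`
makes `W` residually modular of level `N` at `p`. -/
theorem isResiduallyModularOfLevel_of_ringHom (W : WeierstrassCurve ℤ) {k : Type*} [Field k]
    (p : ℕ) [CharP k p] (φ : heckeAlgebra N 2 (excluded W p) →+* k)
    (hφ : ∀ (ℓ : ℕ) (hℓ : ℓ.Prime) (hℓN : ¬ ℓ ∣ N) (hℓS : ℓ ∉ excluded W p),
      φ (heckeAlgebra.T hℓ hℓN hℓS) = ((W.apOfModel ℓ : ℤ) : k)) :
    W.IsResiduallyModularOfLevel p N := by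
  obtain ⟨f, 𝔪', hf, h𝔪', hp, hcong⟩ :=
    exists_eigenform_congr_of_ringHom (excluded W p) p φ (fun ℓ => W.apOfModel ℓ) hφ
  exact ⟨f, 𝔪', hf, h𝔪', hp, fun ℓ hℓ hg hℓN hℓp =>
    hcong ℓ hℓ hℓN (notMem_excluded hg hℓp)⟩

/-- **R3b, Frey shape**: the same for `FreyPackage.ModularRepOfLevel`. -/
theorem modularRepOfLevel_of_ringHom (P : FreyPackage) (W : WeierstrassCurve ℤ)
    (hW : W.IsIntegralModelOf P.freyCurve) {k : Type*} [Field k] [CharP k P.p]
    (φ : heckeAlgebra N 2 (excluded W P.p) →+* k)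
    (hφ : ∀ (ℓ : ℕ) (hℓ : ℓ.Prime) (hℓN : ¬ ℓ ∣ N) (hℓS : ℓ ∉ excluded W P.p),
      φ (heckeAlgebra.T hℓ hℓN hℓS) = ((W.apOfModel ℓ : ℤ) : k)) :
    P.ModularRepOfLevel N := by
  obtain ⟨f, 𝔪', hf, h𝔪', hp, hcong⟩ :=
    exists_eigenform_congr_of_ringHom (excluded W P.p) P.p φ (fun ℓ => W.apOfModel ℓ) hφ
  exact ⟨f, W, 𝔪', hf, hW, h𝔪', hp, fun ℓ hℓ hg hℓN hℓp =>
    hcong ℓ hℓ hℓN (notMem_excluded hg hℓp)⟩

end Fermat.Agent.Lib.Ribet.H584

end
-- ===== PACK-END Lib/Ribet/H584/DeligneSerre.lean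

-- ===== PACK-BEGIN Ribet/H940/LineFrac.lean
section



/-!
# RIBET wall-p, leaf I3 / INC-RED (helper940): local rings are rings of fractions of the chart

`F / K(t)` a function field over an algebraically closed field, `C` the integral closure of `K[t]`
in `F`.  For a place `Q` where `t` is regular, every `f ∈ O_Q` is a fraction `c₁ / c₂` with
`c₁, c₂ ∈ C` and `c₂(Q) ≠ 0` (`exists_frac`).
-/

set_option autoImplicit false
set_option linter.unusedSectionVars false
set_option linter.style.haveILetI false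

noncomputable section

namespace Fermat.Agent.Ribet.H940

open AlgebraicCurve IntermediateField Polynomial
open Fermat.Agent.S37.H940

variable {K F : Type*} [Field K] [Field F] [Algebra K F]
variable [IsAlgClosed K] {t : F} (ht : Transcendental K t) [FiniteDimensional K⟮t⟯ F]

include ht

/-- clearing the poles on the fibre of `Q`, away from `Q` -/
theorem exists_clear_fibre (c : K) (Q : Place K F) (hQ : InMax Q (t - algebraMap K F c))
    (f : F) (hf : 0 ≤ Q.ord f) :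
    ∃ d ∈ integralClosure (Algebra.adjoin K {t}) F, d ≠ 0 ∧ Q.ord d = 0 ∧
      ∀ P : Place K F, InMax P (t - algebraMap K F c) → 0 ≤ P.ord (f * d) := by
  classical
  have key : ∀ (S : Finset (Place K F)) (f : F),
      (∀ P ∈ S, InMax P (t - algebraMap K F c) ∧ P ≠ Q) →
      (∀ P : Place K F, InMax P (t - algebraMap K F c) → P.ord f < 0 → P ∈ S) →
      ∃ d ∈ integralClosure (Algebra.adjoin K {t}) F, d ≠ 0 ∧ Q.ord d = 0 ∧
        ∀ P : Place K F, InMax P (t - algebraMap K F c) → 0 ≤ P.ord (f * d) := by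
    intro S
    induction S using Finset.induction_on with
    | empty =>
        intro f _ hpol
        refine ⟨1, one_mem _, one_ne_zero, Place.ord_one Q, fun P hP => ?_⟩
        rw [mul_one]
        by_contra hneg
        exact absurd (hpol P hP (not_le.mp hneg)) (Finset.notMem_empty P)
    | insert P₁ S hP₁S ih =>
        intro f hS hpol
        rcases eq_or_ne f 0 with rfl | hf0
        · refine ⟨1, one_mem _, one_ne_zero, Place.ord_one Q, fun P _ => ?_⟩
          rw [zero_mul, Place.ord_zero]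
        obtain ⟨hP₁fib, hP₁Q⟩ := hS P₁ (Finset.mem_insert_self _ _)
        obtain ⟨τ, hτC, hτ1, hτ0⟩ := Line.exists_localParam ht c P₁ hP₁fib
        have hτne : τ ≠ 0 := Fermat.Agent.Lib.RR.ne_zero_of_ord_ne_zero P₁ (by rw [hτ1]; norm_num)
        set n : ℕ := (-(P₁.ord f)).toNat with hn
        have hτn : τ ^ n ≠ 0 := pow_ne_zero n hτne
        have hord : ∀ P : Place K F, P.ord (f * τ ^ n) = P.ord f + n * P.ord τ := fun P => by
          rw [P.ord_mul hf0 hτn, Fermat.Agent.Lib.RR.ord_pow]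
        obtain ⟨d', hd'C, hd'0, hd'Q, hd'⟩ := ih (f * τ ^ n)
          (fun P hP => hS P (Finset.mem_insert_of_mem hP))
          (by
            intro P hP hneg
            rw [hord] at hneg
            rcases eq_or_ne P P₁ with rfl | hne
            · exfalso
              rw [hτ1, mul_one] at hneg
              have : -(P.ord f) ≤ (n : ℤ) := Int.self_le_toNat _
              omega
            · rw [hτ0 P hP hne, mul_zero, add_zero] at hneg
              rcases Finset.mem_insert.mp (hpol P hP hneg) with h | h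
              · exact absurd h hne
              · exact h)
        refine ⟨τ ^ n * d', mul_mem (pow_mem hτC n) hd'C, mul_ne_zero hτn hd'0, ?_, fun P hP => ?_⟩
        · rw [Q.ord_mul hτn hd'0, Fermat.Agent.Lib.RR.ord_pow, hτ0 Q hQ (Ne.symm hP₁Q), mul_zero,
            hd'Q, add_zero]
        · rw [← mul_assoc]
          exact hd' P hP
  -- the finite set of poles on the fibre
  have hfin : {P : Place K F | InMax P (t - algebraMap K F c)}.Finite := Line.finite_fibre ht c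
  refine key (hfin.toFinset.filter fun P => P ≠ Q) f ?_ ?_
  · intro P hP
    rw [Finset.mem_filter, Set.Finite.mem_toFinset] at hP
    exact hP
  · intro P hP hneg
    rw [Finset.mem_filter, Set.Finite.mem_toFinset]
    refine ⟨hP, ?_⟩
    rintro rfl
    omega

/-- **Local rings are rings of fractions of the chart.** -/
theorem exists_frac (Q : Place K F) (hQ : 0 ≤ Q.ord t) (f : F) (hf : 0 ≤ Q.ord f) :
    ∃ c₁ ∈ integralClosure (Algebra.adjoin K {t}) F,
      ∃ c₂ ∈ integralClosure (Algebra.adjoin K {t}) F, c₂ ≠ 0 ∧ Q.ord c₂ = 0 ∧ f * c₂ = c₁ := by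
  obtain ⟨c, hc⟩ := Line.exists_value ht Q hQ
  obtain ⟨d, hdC, hd0, hdQ, hd⟩ := exists_clear_fibre ht c Q hc f hf
  obtain ⟨p, hp, hpreg⟩ := Line.exists_clear ht c (f * d) hd
  obtain ⟨hp0, hpQ⟩ := Line.aeval_unit_on_fibre ht hp hc
  have hpC : aeval t p ∈ integralClosure (Algebra.adjoin K {t}) F :=
    Line.mem_integralClosure_of_regular ht _ fun P hP => Line.regular_aeval P hP p
  refine ⟨f * d * aeval t p, Line.mem_integralClosure_of_regular ht _ hpreg,
    d * aeval t p, mul_mem hdC hpC, mul_ne_zero hd0 hp0, ?_, by ring⟩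
  rw [Q.ord_mul hd0 hp0, hdQ, hpQ, add_zero]

end Fermat.Agent.Ribet.H940

end
end
-- ===== PACK-END Ribet/H940/LineFrac.lean

-- ===== PACK-BEGIN S37/H159/MAdapt.lean
section



/-!
# THEOREM M, concrete form: coordinate `t ∈ F`, `K(t) = K⟮t⟯ ⊆ F`
(row S37, piece R-b / RED-E4 (H3); seat helper159)

`lift_integral_adjoin`: `K` algebraically closed of characteristic `0`, `A ⊆ K` a valuation ring,
`π : A ↠ k`, `O ⊆ F` a valuation ring with `ρ : O ↠ F_k` extending `π`, `t ∈ O` with `ρ t`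
transcendental over `k`, `[F : K(t)] = [F_k : k(t̄)] < ∞`, `F_k / k(t̄)` separable, and

(NC) for `c ∈ A` outside a finite set `S` injective mod `𝔪_A`: for `f` integral over `K[t]`,
     `f² / (t - c)` integral over `K[t]` implies `f / (t - c)` integral over `K[t]`.

Then every `z ∈ F_k` integral over `k[t̄]` is `ρ b` for some `b ∈ O` integral over `A[t]`.
-/

set_option autoImplicit false
set_option linter.unusedSectionVars false
set_option linter.style.haveILetI false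

namespace Fermat.Agent.S37.H159

open Polynomial IntermediateField

/-- Integrality along a composite with a surjective first map. -/
theorem isIntegralElem_comp_of_surjective {R S T : Type*} [CommRing R] [CommRing S]
    [Nontrivial S] [Ring T]
    (f : R →+* S) (hf : Function.Surjective f) (g : S →+* T) {x : T}
    (h : g.IsIntegralElem x) : (g.comp f).IsIntegralElem x := by
  obtain ⟨p, hp, hpx⟩ := h
  have hl : p ∈ Polynomial.lifts f := by
    rw [Polynomial.lifts_iff_coeff_lifts]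
    exact fun i => hf _
  obtain ⟨q, hq, -, hqm⟩ := Polynomial.lifts_and_degree_eq_and_monic hl hp
  refine ⟨q, hqm, ?_⟩
  rw [← Polynomial.eval₂_map, hq]
  exact hpx

section Poly

variable (K : Type*) {F : Type*} [Field K] [Field F] [Algebra K F] (t : F)

/-- `K[X] → F`, `X ↦ t`, as an algebra structure -/
@[reducible] noncomputable def polyAlg : Algebra K[X] F := (aeval t).toRingHom.toAlgebra

/-- `K[X] → K(t)`, `X ↦ t`, as an algebra structure -/
@[reducible] noncomputable def polyAlgAdjoin : Algebra K[X] K⟮t⟯ :=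
  (aeval (AdjoinSimple.gen K t)).toRingHom.toAlgebra

theorem coe_aeval_gen (p : K[X]) : ((aeval (AdjoinSimple.gen K t) p : K⟮t⟯) : F) = aeval t p := by
  rw [← AdjoinSimple.algebraMap_gen K t, aeval_algebraMap_apply]
  rfl

theorem isScalarTower_polyAlg :
    letI := polyAlg K t
    letI := polyAlgAdjoin K t
    IsScalarTower K[X] K⟮t⟯ F := by
  letI := polyAlg K t
  letI := polyAlgAdjoin K t
  exact IsScalarTower.of_algebraMap_eq fun p => (coe_aeval_gen K t p).symm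

theorem isFractionRing_polyAlg (ht : Transcendental K t) :
    letI := polyAlgAdjoin K t
    IsFractionRing K[X] K⟮t⟯ := by
  letI := polyAlgAdjoin K t
  have hinj : Function.Injective (algebraMap K[X] K⟮t⟯) := by
    intro p q hpq
    have h1 : aeval t p = aeval t q := by
      have := congrArg (fun z : K⟮t⟯ => (z : F)) hpq
      exact (coe_aeval_gen K t p).symm.trans (this.trans (coe_aeval_gen K t q))
    exact transcendental_iff_injective.mp ht h1
  haveI : FaithfulSMul K[X] K⟮t⟯ := (faithfulSMul_iff_algebraMap_injective _ _).mpr hinj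
  refine IsFractionRing.of_field (R := K[X]) K⟮t⟯ fun z => ?_
  obtain ⟨r, s, hrs⟩ := (mem_adjoin_simple_iff K (z : F)).mp z.2
  refine ⟨r, s, ?_⟩
  apply Subtype.ext
  rw [hrs]
  show aeval t r / aeval t s = ((aeval (AdjoinSimple.gen K t) r / aeval (AdjoinSimple.gen K t) s :
    K⟮t⟯) : F)
  rw [IntermediateField.coe_div, coe_aeval_gen, coe_aeval_gen]

/-- integrality over `K[X]` (via `X ↦ t`) is integrality over `K[t]` -/
theorem isIntegral_polyAlg_iff (f : F) :
    letI := polyAlg K t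
    IsIntegral K[X] f ↔ IsIntegral (Algebra.adjoin K {t}) f := by
  letI := polyAlg K t
  let φ : K[X] →+* Algebra.adjoin K {t} :=
    RingHom.codRestrict (aeval t).toRingHom (Algebra.adjoin K {t})
      (fun p => by rw [Algebra.adjoin_singleton_eq_range_aeval]; exact ⟨p, rfl⟩)
  have hφ : Function.Surjective φ := by
    rintro ⟨y, hy⟩
    rw [Algebra.adjoin_singleton_eq_range_aeval] at hy
    obtain ⟨p, hp⟩ := hy
    exact ⟨p, Subtype.ext hp⟩
  have hcomp : (algebraMap (Algebra.adjoin K {t}) F).comp φ = algebraMap K[X] F := rfl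
  constructor
  · intro h
    have h' : ((algebraMap (Algebra.adjoin K {t}) F).comp φ).IsIntegralElem f := h
    exact RingHom.IsIntegralElem.of_comp h'
  · intro h
    exact isIntegralElem_comp_of_surjective φ hφ _ h

end Poly

section Main

variable {K k F Fk : Type*} [Field K] [Field k] [Field F] [Field Fk] [Algebra K F] [Algebra k Fk]

/-- the subring `A[t] ⊆ F` generated by the image of `A` and `t` -/
def polySubring (A : ValuationSubring K) (t : F) : Subring F :=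
  A.toSubring.map (algebraMap K F) ⊔ Subring.closure {t}

theorem aeval_map_mem_polySubring (A : ValuationSubring K) (t : F) (p : A[X]) :
    aeval t (p.map A.subtype) ∈ polySubring A t := by
  induction p using Polynomial.induction_on with
  | C a =>
    rw [Polynomial.map_C, aeval_C]
    exact (le_sup_left : _ ≤ polySubring A t) (Subring.mem_map.mpr ⟨a, a.2, rfl⟩)
  | add p q hp hq =>
    rw [Polynomial.map_add, map_add]
    exact Subring.add_mem _ hp hq
  | monomial n a _ =>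
    rw [Polynomial.map_mul, Polynomial.map_C, Polynomial.map_pow, Polynomial.map_X, map_mul,
      aeval_C, map_pow, aeval_X]
    refine Subring.mul_mem _ ?_ (Subring.pow_mem _ ?_ _)
    · exact (le_sup_left : _ ≤ polySubring A t) (Subring.mem_map.mpr ⟨a, a.2, rfl⟩)
    · exact (le_sup_right : _ ≤ polySubring A t) (Subring.subset_closure rfl)

variable [IsAlgClosed K] [CharZero K] [IsAlgClosed k]

/-- **THEOREM M**, concrete form (see the module docstring). -/
theorem lift_integral_adjoin (A : ValuationSubring K) (π : A →+* k)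
    (hπ : Function.Surjective π) (O : ValuationSubring F) (ρ : O →+* Fk)
    (hρ : Function.Surjective ρ) (hc : ∀ a : A, algebraMap K F (a : K) ∈ O)
    (hρc : ∀ a : A, ρ ⟨algebraMap K F (a : K), hc a⟩ = algebraMap k Fk (π a))
    (t : F) (ht : t ∈ O) (htr : Transcendental k (ρ ⟨t, ht⟩))
    [FiniteDimensional K⟮t⟯ F] [FiniteDimensional k⟮ρ ⟨t, ht⟩⟯ Fk]
    [Algebra.IsSeparable k⟮ρ ⟨t, ht⟩⟯ Fk]
    (hdeg : Module.finrank K⟮t⟯ F = Module.finrank k⟮ρ ⟨t, ht⟩⟯ Fk)
    (S : Finset A) (hS : Set.InjOn π (S : Set A))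
    (hNC : ∀ c : A, c ∉ S → ∀ f : F, IsIntegral (Algebra.adjoin K {t}) f →
      IsIntegral (Algebra.adjoin K {t}) (f ^ 2 / (t - algebraMap K F (c : K))) →
      IsIntegral (Algebra.adjoin K {t}) (f / (t - algebraMap K F (c : K))))
    (z : Fk) (hz : IsIntegral (Algebra.adjoin k {ρ ⟨t, ht⟩}) z) :
    ∃ (b : F) (hb : b ∈ O), IsIntegral (polySubring A t) b ∧ ρ ⟨b, hb⟩ = z := by
  classical
  letI algF : Algebra K[X] F := polyAlg K t
  letI algFk : Algebra k[X] Fk := polyAlg k (ρ ⟨t, ht⟩)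
  letI algL : Algebra K[X] K⟮t⟯ := polyAlgAdjoin K t
  letI algLk : Algebra k[X] k⟮ρ ⟨t, ht⟩⟯ := polyAlgAdjoin k (ρ ⟨t, ht⟩)
  haveI : IsScalarTower K[X] K⟮t⟯ F := isScalarTower_polyAlg K t
  haveI : IsScalarTower k[X] k⟮ρ ⟨t, ht⟩⟯ Fk := isScalarTower_polyAlg k (ρ ⟨t, ht⟩)
  haveI : IsFractionRing k[X] k⟮ρ ⟨t, ht⟩⟯ := isFractionRing_polyAlg k (ρ ⟨t, ht⟩) htr
  have hinjk : Function.Injective (algebraMap k[X] Fk) := transcendental_iff_injective.mp htr
  -- evaluation `A[X] → O`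
  let constO : A →+* O := RingHom.codRestrict ((algebraMap K F).comp A.subtype) O hc
  let evalO : A[X] →+* O := Polynomial.eval₂RingHom constO ⟨t, ht⟩
  have hev1 : O.subtype.comp evalO = (aeval t).toRingHom.comp (mapRingHom A.subtype) := by
    refine Polynomial.ringHom_ext (fun a => ?_) ?_
    · show ((Polynomial.eval₂ constO ⟨t, ht⟩ (C a) : O) : F) =
        aeval t ((C a : A[X]).map A.subtype)
      rw [Polynomial.eval₂_C, Polynomial.map_C, aeval_C]
      rfl
    · show ((Polynomial.eval₂ constO ⟨t, ht⟩ X : O) : F) = aeval t ((X : A[X]).map A.subtype)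
      rw [Polynomial.eval₂_X, Polynomial.map_X, aeval_X]
  have hev2 : ρ.comp evalO = (aeval (ρ ⟨t, ht⟩)).toRingHom.comp (mapRingHom π) := by
    refine Polynomial.ringHom_ext (fun a => ?_) ?_
    · show ρ (Polynomial.eval₂ constO ⟨t, ht⟩ (C a)) = aeval (ρ ⟨t, ht⟩) ((C a : A[X]).map π)
      rw [Polynomial.eval₂_C, Polynomial.map_C, aeval_C]
      exact hρc a
    · show ρ (Polynomial.eval₂ constO ⟨t, ht⟩ X) = aeval (ρ ⟨t, ht⟩) ((X : A[X]).map π)
      rw [Polynomial.eval₂_X, Polynomial.map_X, aeval_X]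
  have hcoe : ∀ p : A[X], ((evalO p : O) : F) = algebraMap K[X] F (p.map A.subtype) := fun p =>
    congrArg (fun g : A[X] →+* F => g p) hev1
  let G : RedCtx A k F Fk :=
    { π := π
      π_surj := hπ
      O := O
      ρ := ρ
      ρ_surj := hρ
      mem := fun p => by rw [← hcoe p]; exact (evalO p).2
      ρ_poly := fun p => by
        have h1 := congrArg (fun g : A[X] →+* Fk => g p) hev2
        have h2 : (⟨algebraMap K[X] F (p.map A.subtype), by rw [← hcoe p]; exact (evalO p).2⟩ : O)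
            = evalO p := Subtype.ext (hcoe p).symm
        rw [h2]
        exact h1 }
  -- `t` is transcendental over `K`
  have httr : Transcendental K t := by
    rw [transcendental_iff]
    intro P hP
    by_contra hP0
    obtain ⟨lam, P₀, m, hlam, hm, hPeq⟩ := exists_primitive A P hP0
    have hne := G.map_π_ne_zero_of_coeff_eq_one P₀ m hm
    have h1 := G.ne_zero_of_map_ne_zero hinjk P₀ hne
    apply h1
    have h2 : aeval t P = algebraMap K F lam * algebraMap K[X] F (P₀.map A.subtype) := by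
      conv_lhs => rw [hPeq]
      rw [map_mul, aeval_C]
      rfl
    rw [hP] at h2
    rcases mul_eq_zero.mp h2.symm with h | h
    · exact absurd ((_root_.map_eq_zero _).mp h) hlam
    · exact h
  haveI : IsFractionRing K[X] K⟮t⟯ := isFractionRing_polyAlg K t httr
  -- (NC) in ring form
  have hNC' : ∀ c : A, c ∉ S → (Ideal.span
      {algebraMap K[X] (integralClosure K[X] F) (X - C (c : K))}).IsRadical := by
    intro c hcS
    rw [Ideal.isRadical_iff_pow_one_lt 2 one_lt_two]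
    intro r hr
    rw [Ideal.mem_span_singleton] at hr ⊢
    obtain ⟨h, hh⟩ := hr
    have ha : ((algebraMap K[X] (integralClosure K[X] F) (X - C (c : K)) :
        integralClosure K[X] F) : F) = t - algebraMap K F (c : K) := by
      show aeval t (X - C (c : K)) = _
      rw [map_sub, aeval_X, aeval_C]
    have ha0 : t - algebraMap K F (c : K) ≠ 0 := by
      intro h0
      have h1 : aeval t (X - C (c : K)) = 0 := by rw [map_sub, aeval_X, aeval_C, h0]
      exact Polynomial.X_sub_C_ne_zero _ ((transcendental_iff.mp httr) _ h1)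
    have h1 : IsIntegral (Algebra.adjoin K {t}) (r : F) := (isIntegral_polyAlg_iff K t _).mp r.2
    have hh' : (r : F) ^ 2 = (t - algebraMap K F (c : K)) * (h : F) := by
      have := congrArg (fun w : integralClosure K[X] F => (w : F)) hh
      simp only [SubmonoidClass.coe_pow, MulMemClass.coe_mul] at this
      rw [this, ha]
    have h2 : IsIntegral (Algebra.adjoin K {t}) ((r : F) ^ 2 / (t - algebraMap K F (c : K))) := by
      have : (r : F) ^ 2 / (t - algebraMap K F (c : K)) = (h : F) := by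
        rw [hh', mul_div_assoc, mul_comm, div_mul_cancel₀ _ ha0]
      rw [this]
      exact (isIntegral_polyAlg_iff K t _).mp h.2
    have h3 := hNC c hcS (r : F) h1 h2
    refine ⟨⟨(r : F) / (t - algebraMap K F (c : K)), (isIntegral_polyAlg_iff K t _).mpr h3⟩,
      Subtype.ext ?_⟩
    show (r : F) = ((algebraMap K[X] (integralClosure K[X] F) (X - C (c : K)) :
        integralClosure K[X] F) : F) * ((r : F) / (t - algebraMap K F (c : K)))
    rw [ha, mul_div_cancel₀ _ ha0]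
  have hz' : IsIntegral k[X] z := (isIntegral_polyAlg_iff k (ρ ⟨t, ht⟩) z).mpr hz
  obtain ⟨f, hf, hfz⟩ := G.lift_integral K⟮t⟯ k⟮ρ ⟨t, ht⟩⟯ hdeg S hS hNC' z hz'
  refine ⟨f, f.2, ?_, hfz⟩
  let ψ : A[X] →+* polySubring A t :=
    RingHom.codRestrict (RedCtx.polyF (A := A) (F := F)) (polySubring A t)
      (fun p => aeval_map_mem_polySubring A t p)
  have hψ : (polySubring A t).subtype.comp ψ = RedCtx.polyF (A := A) (F := F) := rfl
  have hf' : ((polySubring A t).subtype.comp ψ).IsIntegralElem (f : F) := hf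
  exact RingHom.IsIntegralElem.of_comp hf'

end Main

end Fermat.Agent.S37.H159

end
-- ===== PACK-END S37/H159/MAdapt.lean

-- ===== PACK-BEGIN Lib/FF398/Hecke.lean
section




/-!
# Lib/FF398 — the Hecke correspondence `T_ℓ` on `J₀(N)` is the genuine one

`ModularCurve.heckeOperatorAlong L N ℓ` is defined by `dite` on `HeckeInputsAlong L N ℓ`
(junk value `0` if the inputs fail).  We prove the inputs for `L = ℚ̄`:

* `heckeInputs_general` : for ANY two `K`-embeddings `α β : F → F'` of function fields of one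
  variable over an algebraically closed field of characteristic zero, all six inputs hold;
* `heckeInputsAlong N ℓ : HeckeInputsAlong ℚ̄ N ℓ`;
* `heckeOperatorBar_eq` : `heckeOperatorBar N ℓ` is `Pic0.correspondence β α` (norm ∘ conorm).
(helper398)
-/

set_option autoImplicit false
set_option linter.unusedSectionVars false

open AlgebraicCurve IsDedekindDomain IntermediateField ModularCurve

namespace Fermat.Agent.Lib.FF398

section General

variable {K F F' : Type*} [Field K] [Field F] [Field F'] [Algebra K F] [Algebra K F']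
  [IsAlgClosed K] [CharZero K]

/-- A `K`-embedding of function fields of one variable is finite. -/
theorem finiteAlong_of_functionField (φ : F →ₐ[K] F') (j : F) (hj : Transcendental K j)
    (j' : F') (hj' : Transcendental K j') [FiniteDimensional K⟮j'⟯ F'] :
    FiniteAlong K φ := by
  letI := algebraAlong φ
  show Module.Finite F F'
  have hy : Transcendental K (φ j) := by
    intro h
    exact hj ((isAlgebraic_algHom_iff φ φ.injective).mp h)
  haveI : FiniteDimensional K⟮φ j⟯ F' :=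
    Fermat.Agent.S24.FF.finiteDimensional_adjoin_of_transcendental hj' hy
  obtain ⟨S, hS⟩ := (Module.finite_def (R := K⟮φ j⟯) (M := F')).mp inferInstance
  refine Module.finite_def.mpr ⟨S, ?_⟩
  have hle : K⟮φ j⟯ ≤ φ.fieldRange := by
    rw [adjoin_le_iff]
    rintro _ rfl
    exact ⟨j, rfl⟩
  have key : ∀ x : F', x ∈ Submodule.span K⟮φ j⟯ (S : Set F') →
      x ∈ Submodule.span F (S : Set F') := by
    intro x hx
    induction hx using Submodule.span_induction with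
    | mem x hx => exact Submodule.subset_span hx
    | zero => exact zero_mem _
    | add x y _ _ hx hy => exact add_mem hx hy
    | smul e x _ hx =>
      obtain ⟨f, hf⟩ := hle e.2
      have : e • x = f • x := by
        rw [Algebra.smul_def, Algebra.smul_def]
        show (e : F') * x = φ f * x
        rw [← hf]
        rfl
      rw [this]
      exact Submodule.smul_mem _ _ hx
  rw [eq_top_iff]
  intro x _
  exact key x (by rw [hS]; trivial)

/-- **All six inputs of the Hecke correspondence** for two embeddings of function fields. -/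
theorem heckeInputs_general (α β : F →ₐ[K] F') (j : F) (hj : Transcendental K j)
    (j' : F') (hj' : Transcendental K j') [FiniteDimensional K⟮j'⟯ F'] :
    ∃ (_ : α.toRingHom.IsIntegral) (hβ : β.toRingHom.IsIntegral)
      (_ : HasPrincipalDivisors K F') (hfin : FiniteAlong K α),
      FundamentalIdentityAlong K β hβ ∧ NormFormulaAlong K α hfin := by
  haveI hP : HasPrincipalDivisors K F' := hasPrincipalDivisors j' hj'
  haveI : CharZero F := charZero_of_injective_algebraMap (algebraMap K F).injective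
  have hdeg' : ∀ w : Place K F', w.deg = 1 := fun w => Fermat.Agent.S24.FF.deg_eq_one w hj'
  have hfinα : FiniteAlong K α := finiteAlong_of_functionField α j hj j' hj'
  have hfinβ : FiniteAlong K β := finiteAlong_of_functionField β j hj j' hj'
  have hα : α.toRingHom.IsIntegral := by
    letI := algebraAlong α
    haveI : Module.Finite F F' := hfinα
    exact fun x => Algebra.IsIntegral.isIntegral (R := F) x
  have hβ : β.toRingHom.IsIntegral := by
    letI := algebraAlong β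
    haveI : Module.Finite F F' := hfinβ
    exact fun x => Algebra.IsIntegral.isIntegral (R := F) x
  refine ⟨hα, hβ, hP, hfinα, ?_, ?_⟩
  · letI := algebraAlong β
    haveI := isScalarTower_along β
    haveI : Module.Finite F F' := hfinβ
    exact fundamentalIdentity (K := K) (F := F) (F' := F') hdeg'
  · letI := algebraAlong α
    haveI := isScalarTower_along α
    haveI : Module.Finite F F' := hfinα
    exact pushforwardNormFormula (K := K) (F := F) (F' := F') hdeg'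

end General

section Modular

open Fermat.Agent.S24

theorem transcendental_jF (N : ℕ) [NeZero N] : Transcendental Kbar (jF N) := by
  intro halg
  obtain ⟨p, hp0, hp⟩ := halg
  apply Deg457.aeval_JK_ne_zero Kbar hp0
  have h2 := congrArg (algebraMap (FF N) (LaurentSeries Kbar)) hp
  rw [← Polynomial.aeval_algebraMap_apply, map_zero] at h2
  exact h2

instance finiteDimensional_FF (N : ℕ) [NeZero N] :
    FiniteDimensional ↥(IntermediateField.adjoin Kbar {jF N}) (FF N) :=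
  (Deg457.degree_fields N).1

/-- The function field of `X₀(N)` over `ℚ̄` has principal divisors. -/
theorem hasPrincipalDivisors_FF (N : ℕ) [NeZero N] :
    HasPrincipalDivisors Kbar (FF N) :=
  hasPrincipalDivisors (jF N) (transcendental_jF N)

/-- Every place of the function field of `X₀(N)` over `ℚ̄` has degree one. -/
theorem deg_eq_one_FF (N : ℕ) [NeZero N] (v : Place Kbar (FF N)) : v.deg = 1 :=
  Fermat.Agent.S24.FF.deg_eq_one v (transcendental_jF N)

/-- **The Hecke correspondence `T_ℓ` on `J₀(N)` over `ℚ̄` is the genuine one.** -/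
theorem heckeInputsAlong (N ℓ : ℕ) [NeZero N] [NeZero ℓ] :
    HeckeInputsAlong (AlgebraicClosure ℚ) N ℓ :=
  heckeInputs_general (heckeAlphaBar (AlgebraicClosure ℚ) N ℓ)
    (heckeBetaBar (AlgebraicClosure ℚ) N ℓ) (jF N) (transcendental_jF N)
    (jF (N * ℓ)) (transcendental_jF (N * ℓ))

/-! ### Named components (for unfolding `T_ℓ`) -/

variable (N ℓ : ℕ) [NeZero N] [NeZero ℓ]

/-- The function field of `X₀(M)` over `ℚ̄` has principal divisors (instance form). -/
instance instHasPrincipalDivisorsFF (M : ℕ) [NeZero M] :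
    HasPrincipalDivisors (AlgebraicClosure ℚ)
      (laurentBaseChange (AlgebraicClosure ℚ) (modularFunctionFieldFull M)) :=
  hasPrincipalDivisors_FF M

theorem heckeAlphaBarIntegral : HeckeAlphaBarIntegral (AlgebraicClosure ℚ) N ℓ :=
  (heckeInputsAlong N ℓ).1

theorem heckeBetaBarIntegral : HeckeBetaBarIntegral (AlgebraicClosure ℚ) N ℓ :=
  (heckeInputsAlong N ℓ).2.1

theorem finiteAlong_alpha : FiniteAlong (AlgebraicClosure ℚ) (heckeAlphaBar (AlgebraicClosure ℚ) N ℓ) :=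
  finiteAlong_of_functionField _ (jF N) (transcendental_jF N) (jF (N * ℓ))
    (transcendental_jF (N * ℓ))

theorem finiteAlong_beta : FiniteAlong (AlgebraicClosure ℚ) (heckeBetaBar (AlgebraicClosure ℚ) N ℓ) :=
  finiteAlong_of_functionField _ (jF N) (transcendental_jF N) (jF (N * ℓ))
    (transcendental_jF (N * ℓ))

theorem fundamentalIdentityAlong_beta :
    FundamentalIdentityAlong (AlgebraicClosure ℚ) (heckeBetaBar (AlgebraicClosure ℚ) N ℓ)
      (heckeBetaBarIntegral N ℓ) := by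
  letI := algebraAlong (heckeBetaBar (AlgebraicClosure ℚ) N ℓ)
  haveI := isScalarTower_along (heckeBetaBar (AlgebraicClosure ℚ) N ℓ)
  haveI : Module.Finite (FF N) (FF (N * ℓ)) := finiteAlong_beta N ℓ
  haveI : CharZero (FF N) :=
    charZero_of_injective_algebraMap (algebraMap (AlgebraicClosure ℚ) (FF N)).injective
  exact fundamentalIdentity (K := AlgebraicClosure ℚ) (F := FF N) (F' := FF (N * ℓ))
    (deg_eq_one_FF (N * ℓ))

theorem fundamentalIdentityAlong_alpha :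
    FundamentalIdentityAlong (AlgebraicClosure ℚ) (heckeAlphaBar (AlgebraicClosure ℚ) N ℓ)
      (heckeAlphaBarIntegral N ℓ) := by
  letI := algebraAlong (heckeAlphaBar (AlgebraicClosure ℚ) N ℓ)
  haveI := isScalarTower_along (heckeAlphaBar (AlgebraicClosure ℚ) N ℓ)
  haveI : Module.Finite (FF N) (FF (N * ℓ)) := finiteAlong_alpha N ℓ
  haveI : CharZero (FF N) :=
    charZero_of_injective_algebraMap (algebraMap (AlgebraicClosure ℚ) (FF N)).injective
  exact fundamentalIdentity (K := AlgebraicClosure ℚ) (F := FF N) (F' := FF (N * ℓ))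
    (deg_eq_one_FF (N * ℓ))

theorem normFormulaAlong_alpha :
    NormFormulaAlong (AlgebraicClosure ℚ) (heckeAlphaBar (AlgebraicClosure ℚ) N ℓ)
      (finiteAlong_alpha N ℓ) := by
  letI := algebraAlong (heckeAlphaBar (AlgebraicClosure ℚ) N ℓ)
  haveI := isScalarTower_along (heckeAlphaBar (AlgebraicClosure ℚ) N ℓ)
  haveI : Module.Finite (FF N) (FF (N * ℓ)) := finiteAlong_alpha N ℓ
  haveI : CharZero (FF N) :=
    charZero_of_injective_algebraMap (algebraMap (AlgebraicClosure ℚ) (FF N)).injective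
  exact pushforwardNormFormula (K := AlgebraicClosure ℚ) (F := FF N) (F' := FF (N * ℓ))
    (deg_eq_one_FF (N * ℓ))

theorem normFormulaAlong_beta :
    NormFormulaAlong (AlgebraicClosure ℚ) (heckeBetaBar (AlgebraicClosure ℚ) N ℓ)
      (finiteAlong_beta N ℓ) := by
  letI := algebraAlong (heckeBetaBar (AlgebraicClosure ℚ) N ℓ)
  haveI := isScalarTower_along (heckeBetaBar (AlgebraicClosure ℚ) N ℓ)
  haveI : Module.Finite (FF N) (FF (N * ℓ)) := finiteAlong_beta N ℓ
  haveI : CharZero (FF N) :=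
    charZero_of_injective_algebraMap (algebraMap (AlgebraicClosure ℚ) (FF N)).injective
  exact pushforwardNormFormula (K := AlgebraicClosure ℚ) (F := FF N) (F' := FF (N * ℓ))
    (deg_eq_one_FF (N * ℓ))

/-- `T_ℓ` on `Pic⁰` is `α_* ∘ β^*` (norm ∘ conorm), not the junk value. -/
theorem heckeOperatorAlong_eq_heckePic0Bar :
    heckeOperatorAlong (AlgebraicClosure ℚ) N ℓ
      = heckePic0Bar (heckeAlphaBarIntegral N ℓ) (heckeBetaBarIntegral N ℓ)
          (fundamentalIdentityAlong_beta N ℓ) (finiteAlong_alpha N ℓ)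
          (normFormulaAlong_alpha N ℓ) :=
  heckeOperatorAlong_eq _ _ _ _ _

/-- `T_ℓ` on a divisor class: `T_ℓ [D] = [α_* β^* D]`. -/
theorem heckeOperatorAlong_mk
    (D : Divisor.degZero (K := AlgebraicClosure ℚ)
      (F := laurentBaseChange (AlgebraicClosure ℚ) (modularFunctionFieldFull N))) :
    heckeOperatorAlong (AlgebraicClosure ℚ) N ℓ (Pic0.mk D)
      = Pic0.mk (Pic0.degZeroCorrespondence (heckeBetaBar (AlgebraicClosure ℚ) N ℓ)
          (heckeAlphaBar (AlgebraicClosure ℚ) N ℓ) (heckeBetaBarIntegral N ℓ)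
          (heckeAlphaBarIntegral N ℓ) (fundamentalIdentityAlong_beta N ℓ) D) := by
  rw [heckeOperatorAlong_eq_heckePic0Bar]
  rfl

/-- `T_ℓ` (as `heckeOperatorBar`) on a divisor class. -/
theorem heckeOperatorBar_mk (p : Nat.Primes)
    (D : Divisor.degZero (K := AlgebraicClosure ℚ)
      (F := laurentBaseChange (AlgebraicClosure ℚ) (modularFunctionFieldFull N))) :
    haveI : NeZero (p : ℕ) := ⟨p.2.ne_zero⟩
    heckeOperatorBar N p (Pic0.mk D)
      = Pic0.mk (Pic0.degZeroCorrespondence (heckeBetaBar (AlgebraicClosure ℚ) N p)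
          (heckeAlphaBar (AlgebraicClosure ℚ) N p) (heckeBetaBarIntegral N p)
          (heckeAlphaBarIntegral N p) (fundamentalIdentityAlong_beta N p) D) := by
  haveI : NeZero (p : ℕ) := ⟨p.2.ne_zero⟩
  rw [heckeOperatorBar_apply]
  exact heckeOperatorAlong_mk N p D

end Modular

end Fermat.Agent.Lib.FF398

end
-- ===== PACK-END Lib/FF398/Hecke.lean

-- ===== PACK-BEGIN Ribet/H913/WPSmooth.lean
section





/-!
# RIBET wall-p, W-ALGP, leaf **WPS** (helper913): `wpSmoothLeaf : H495.AlgP.WPSmoothLeaf`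

Wild purity at a closed point `n` of the special fibre lying on exactly ONE component `P` of the
chart (`P'` the other one).  With `O = B_n`, `V = B_P`, `V' = B_{P'}`:

* A2 purity (`A2.Alg.H754.purity_smooth_aux`, exponent `p`) gives `d₀` with
  `ε = u d₀ ^ p ∈ Oˣ`, `d₀ ∈ Vˣ`;
* climbing (`Climb.lean`, `wps_abs913`): `(H1)` `O ∩ w V = w O` (`h1_chart913`), `(H2)`
  `O / w O = (B / P)_n` is integrally closed in `V / w V = Frac (B / P)` (`h2_chart913`,
  from `IsIntegrallyClosed (B ⧸ P)`);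
* density of `O` in `F` for the `P'`-adic topology (`dens_chart913`, `P' ⊄ n`), using the
  normal form `A2.Alg.H348.CompData.exists_pow_mul` in the discrete valuation ring `V'`.

The sheet labels are `j = 0` on both components.
-/

set_option autoImplicit false
set_option linter.unusedSectionVars false
set_option linter.unusedVariables false
set_option linter.style.haveILetI false

namespace Fermat.Agent.Ribet.H913

open Fermat.Agent.A2 Fermat.Agent.A2.Alg Fermat.Agent.Ribet.H495.AlgP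

section Loc

variable {R F : Type*} [CommRing R] [Field F] [Algebra R F]

theorem locSub_mono913 {B : Subalgebra R F} {P n : Ideal B} (hP : P.IsPrime) (hn : n.IsPrime)
    (hPn : P ≤ n) : locSub B n hn ≤ locSub B P hP := by
  rintro f ⟨a, b, hb, hab⟩
  exact ⟨a, b, fun h => hb (hPn h), hab⟩

theorem coe_mem_locSub913 {B : Subalgebra R F} {n : Ideal B} (hn : n.IsPrime) (b : B) :
    (b : F) ∈ locSub B n hn :=
  ⟨b, 1, fun h => hn.ne_top ((Ideal.eq_top_iff_one n).2 h), by simp⟩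

theorem div_mem_locSub913 {B : Subalgebra R F} {n : Ideal B} (hn : n.IsPrime) (a : B) {b : B}
    (hb : b ∉ n) : (a : F) * (b : F)⁻¹ ∈ locSub B n hn := by
  have hb0 : (b : F) ≠ 0 := coe_ne_zero_of_notMem495 hb
  exact ⟨a, b, hb, by field_simp⟩

theorem inv_mem_locSub913 {B : Subalgebra R F} {n : Ideal B} (hn : n.IsPrime) {b : B}
    (hb : b ∉ n) : ((b : F))⁻¹ ∈ locSub B n hn := by
  have := div_mem_locSub913 (F := F) hn (1 : B) hb
  simpa using this

theorem mem_locAt_iff913 {B : Subalgebra R F} {P : Ideal B} [hP : P.IsPrime] {f : F} :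
    f ∈ Fermat.Agent.A2.H348.locAt B P ↔ f ∈ locSub B P hP := by
  constructor
  · rintro ⟨s, hs, hsf⟩
    exact ⟨⟨_, hsf⟩, s, hs, mul_comm _ _⟩
  · rintro ⟨a, b, hb, hab⟩
    exact ⟨b, hb, by rw [mul_comm, hab]; exact a.2⟩

theorem w_mem_left913 {B : Subalgebra R F} {P P' : Ideal B} {w : R}
    (hinf : P ⊓ P' = Ideal.span {algebraMap R B w}) : algebraMap R B w ∈ P := by
  have h : algebraMap R B w ∈ P ⊓ P' := by
    rw [hinf]; exact Ideal.mem_span_singleton_self _
  exact h.1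

/-- `P B_P ⊆ w B_P`. -/
theorem exists_eq_w_mul913 {B : Subalgebra R F} {P P' : Ideal B} (hP : P.IsPrime) {w : R}
    (hinf : P ⊓ P' = Ideal.span {algebraMap R B w}) (hP'P : ¬ P' ≤ P) {a : B} (ha : a ∈ P) :
    ∃ v ∈ locSub B P hP, (a : F) = algebraMap R F w * v := by
  obtain ⟨s, hs', hs⟩ := SetLike.not_le_iff_exists.1 hP'P
  have h : a * s ∈ P ⊓ P' := ⟨P.mul_mem_right _ ha, P'.mul_mem_left _ hs'⟩
  rw [hinf, Ideal.mem_span_singleton'] at h
  obtain ⟨m, hm⟩ := h
  have hmF : (m : F) * algebraMap R F w = (a : F) * (s : F) := congrArg Subtype.val hm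
  have hs0 : (s : F) ≠ 0 := coe_ne_zero_of_notMem495 hs
  refine ⟨(m : F) * (s : F)⁻¹, div_mem_locSub913 hP m hs, ?_⟩
  field_simp
  linear_combination -hmF

/-- `B ∩ w B_P ⊆ P`. -/
theorem mem_of_eq_w_mul913 {B : Subalgebra R F} {P : Ideal B} (hP : P.IsPrime) {w : R}
    (hwP : algebraMap R B w ∈ P) {b : B} {v : F} (hv : v ∈ locSub B P hP)
    (h : (b : F) = algebraMap R F w * v) : b ∈ P := by
  obtain ⟨a, s, hs, hvs⟩ := hv
  have h1 : b * s = algebraMap R B w * a := by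
    apply Subtype.ext
    show (b : F) * (s : F) = algebraMap R F w * (a : F)
    rw [h, mul_assoc, hvs]
  have h2 : b * s ∈ P := by rw [h1]; exact P.mul_mem_right _ hwP
  exact (hP.mem_or_mem h2).resolve_right hs

/-- `(H1)`: `B_n ∩ w B_P = w B_n` when `n` is not on the other component. -/
theorem h1_chart913 {B : Subalgebra R F} {P P' n : Ideal B} (hP : P.IsPrime) (hn : n.IsPrime)
    {w : R} (hinf : P ⊓ P' = Ideal.span {algebraMap R B w}) (hP'n : ¬ P' ≤ n) :
    ∀ z ∈ locSub B n hn, (∃ v ∈ locSub B P hP, z = algebraMap R F w * v) →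
      ∃ o ∈ locSub B n hn, z = algebraMap R F w * o := by
  rintro z ⟨a, b, hb, hab⟩ ⟨v, hv, hzv⟩
  have hwP : algebraMap R B w ∈ P := w_mem_left913 hinf
  have haP : a ∈ P := mem_of_eq_w_mul913 hP hwP (v := v * (b : F))
    ((locSub B P hP).mul_mem hv (coe_mem_locSub913 hP b)) (by rw [← hab, hzv]; ring)
  obtain ⟨s, hs', hs⟩ := SetLike.not_le_iff_exists.1 hP'n
  have h : a * s ∈ P ⊓ P' := ⟨P.mul_mem_right _ haP, P'.mul_mem_left _ hs'⟩
  rw [hinf, Ideal.mem_span_singleton'] at h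
  obtain ⟨m, hm⟩ := h
  have hmF : (m : F) * algebraMap R F w = (a : F) * (s : F) := congrArg Subtype.val hm
  have hsb : s * b ∉ n := fun h => (hn.mem_or_mem h).elim hs hb
  have hb0 : (b : F) ≠ 0 := coe_ne_zero_of_notMem495 hb
  have hs0 : (s : F) ≠ 0 := coe_ne_zero_of_notMem495 hs
  refine ⟨(m : F) * ((s * b : B) : F)⁻¹, div_mem_locSub913 hn m hsb, ?_⟩
  have hz : z = (a : F) * (b : F)⁻¹ := by
    field_simp
    exact hab
  rw [hz]
  push_cast
  field_simp
  linear_combination -hmF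

/-- `(H2)`: a `p`-th root modulo `w B_P` of an element of `B_n` is congruent to an element of
`B_n` (`B ⧸ P` integrally closed). -/
theorem h2_chart913 {B : Subalgebra R F} {P P' n : Ideal B} (hP : P.IsPrime) (hn : n.IsPrime)
    {w : R} (hinf : P ⊓ P' = Ideal.span {algebraMap R B w}) (hP'P : ¬ P' ≤ P) (hPn : P ≤ n)
    (hnorm : IsIntegrallyClosed (B ⧸ P)) {p : ℕ} (hp0 : p ≠ 0) :
    ∀ γ ∈ locSub B P hP, ∀ c ∈ locSub B n hn,
      (∃ v ∈ locSub B P hP, γ ^ p - c = algebraMap R F w * v) →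
      ∃ γ₀ ∈ locSub B n hn, ∃ v ∈ locSub B P hP, γ - γ₀ = algebraMap R F w * v := by
  rintro γ ⟨a, b, hb, hab⟩ c ⟨ac, bc, hbc, hac⟩ ⟨v, ⟨av, bv, hbv, hav⟩, hγc⟩
  haveI := hP
  haveI := hnorm
  have hwP : algebraMap R B w ∈ P := w_mem_left913 hinf
  have hbcP : bc ∉ P := fun h => hbc (hPn h)
  have hb0 : (b : F) ≠ 0 := coe_ne_zero_of_notMem495 hb
  have hbc0 : (bc : F) ≠ 0 := coe_ne_zero_of_notMem495 hbc
  have hbv0 : (bv : F) ≠ 0 := coe_ne_zero_of_notMem495 hbv
  -- the relation in `B`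
  have hrel : (a ^ p * bc - ac * b ^ p) * bv = algebraMap R B w * (av * b ^ p * bc) := by
    apply Subtype.ext
    show ((a : F) ^ p * (bc : F) - (ac : F) * (b : F) ^ p) * (bv : F) =
      algebraMap R F w * ((av : F) * (b : F) ^ p * (bc : F))
    rw [← hab, ← hac, ← hav, mul_pow]
    linear_combination ((b : F) ^ p * (bc : F) * (bv : F)) * hγc
  have hmemP : a ^ p * bc - ac * b ^ p ∈ P := by
    have h2 : (a ^ p * bc - ac * b ^ p) * bv ∈ P := by
      rw [hrel]; exact P.mul_mem_right _ hwP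
    exact (hP.mem_or_mem h2).resolve_right hbv
  -- in `D = B ⧸ P`
  have hD : (Ideal.Quotient.mk P a) ^ p * Ideal.Quotient.mk P bc =
      Ideal.Quotient.mk P ac * (Ideal.Quotient.mk P b) ^ p := by
    have := (Ideal.Quotient.eq (I := P)).2 hmemP
    simpa using this
  obtain ⟨p', rfl⟩ : ∃ p', p = p' + 1 := ⟨p - 1, by omega⟩
  have hdvd : (Ideal.Quotient.mk P b) ^ (p' + 1) ∣ (Ideal.Quotient.mk P (a * bc)) ^ (p' + 1) := by
    refine ⟨Ideal.Quotient.mk P ac * (Ideal.Quotient.mk P bc) ^ p', ?_⟩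
    rw [map_mul, mul_pow, pow_succ (Ideal.Quotient.mk P bc) p']
    linear_combination (Ideal.Quotient.mk P bc) ^ p' * hD
  obtain ⟨a₀', ha₀'⟩ := (IsIntegrallyClosed.pow_dvd_pow_iff (Nat.succ_ne_zero p')).1 hdvd
  obtain ⟨a₀, rfl⟩ := Ideal.Quotient.mk_surjective a₀'
  have hmem2 : a * bc - b * a₀ ∈ P := by
    rw [← Ideal.Quotient.eq, ha₀', map_mul]
  obtain ⟨v₂, hv₂, hv₂e⟩ := exists_eq_w_mul913 (F := F) hP hinf hP'P hmem2
  have hbbc : b * bc ∉ P := fun h => (hP.mem_or_mem h).elim hb hbcP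
  refine ⟨(a₀ : F) * (bc : F)⁻¹, div_mem_locSub913 hn a₀ hbc,
    v₂ * ((b * bc : B) : F)⁻¹,
    (locSub B P hP).mul_mem hv₂ (inv_mem_locSub913 hP hbbc), ?_⟩
  have hγ : γ = (a : F) * (b : F)⁻¹ := by
    field_simp
    exact hab
  have hv₂e' : (a : F) * (bc : F) - (b : F) * (a₀ : F) = algebraMap R F w * v₂ := by
    rw [← hv₂e]; rfl
  rw [hγ]
  push_cast
  field_simp
  linear_combination hv₂e'

end Loc

section Arith

/-- The arithmetic of `λ = ζ - 1` in a discrete valuation ring of residue characteristic `p`: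
`λ = w ^ e υ` with `e ≥ 1`, `υ` a unit, and `p = λ ^ (p - 1) z`. -/
theorem zeta_arith913 {R : Type*} [CommRing R] [IsDomain R] [IsDiscreteValuationRing R]
    {p : ℕ} (hp : p.Prime) (hpR : (p : R) ∈ IsLocalRing.maximalIdeal R) {ζ : R}
    (hζ : IsPrimitiveRoot ζ p) {w : R} (hw : Irreducible w) :
    ∃ (e : ℕ) (υ υ' z : R), 1 ≤ e ∧ ζ - 1 = w ^ e * υ ∧ υ * υ' = 1 ∧
      (p : R) = (ζ - 1) ^ (p - 1) * z := by
  have hlam0 : ζ - 1 ≠ 0 := sub_ne_zero.2 (hζ.ne_one hp.one_lt)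
  have hlamp : (ζ - 1) ^ p ∈ IsLocalRing.maximalIdeal R := by
    have h1 := add_pow_prime_eq hp (ζ - 1) (1 : R)
    rw [sub_add_cancel, hζ.pow_eq_one, one_pow] at h1
    have h2 : (ζ - 1) ^ p = -((p : R) * ((ζ - 1) * 1 *
        ∑ k ∈ Finset.Ioo 0 p, (ζ - 1) ^ (k - 1) * 1 ^ (p - k - 1) * ((p.choose k / p : ℕ) : R))) := by
      linear_combination -h1
    rw [h2]
    exact neg_mem (Ideal.mul_mem_right _ _ hpR)
  have hlam : ζ - 1 ∈ IsLocalRing.maximalIdeal R :=
    (IsLocalRing.maximalIdeal.isMaximal R).isPrime.mem_of_pow_mem p hlamp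
  obtain ⟨e, υ, hυ⟩ := IsDiscreteValuationRing.eq_unit_mul_pow_irreducible hlam0 hw
  obtain ⟨z, -, hz⟩ := hζ.self_sub_one_pow_dvd_order (Nat.sub_lt hp.pos one_pos)
  refine ⟨e, (υ : R), ((υ⁻¹ : Rˣ) : R), z, ?_, ?_, ?_, ?_⟩
  · rcases Nat.eq_zero_or_pos e with h0 | h0
    · exfalso
      rw [h0, pow_zero, mul_one] at hυ
      rw [hυ] at hlam
      exact (IsLocalRing.mem_maximalIdeal _).1 hlam υ.isUnit
    · exact h0
  · rw [hυ]; ring
  · exact υ.mul_inv
  · rw [hz]; ring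

end Arith

section Chart

variable {R E F : Type*} [CommRing R] [IsDomain R] [IsDiscreteValuationRing R]
  [Field E] [Algebra R E] [IsFractionRing R E]
  [Field F] [Algebra E F] [Algebra R F] [IsScalarTower R E F]

/-- `1 + w B_n ⊆ (B_n)ˣ`. -/
theorem one_add_w_mul913 {w : R} {B : Subalgebra R F} {n : Ideal B} (hn : n.IsPrime)
    (hwn : algebraMap R B w ∈ n) :
    ∀ o ∈ locSub B n hn, 1 + algebraMap R F w * o ≠ 0 ∧
      (1 + algebraMap R F w * o)⁻¹ ∈ locSub B n hn :=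
  (tauLoc_locSub w B (RingEquiv.refl F)
    (fun b hb => ⟨0, B.zero_mem, by simp⟩) n hn hwn).inv_mem

/-- **Density**: `B_n + f⁻¹ B_{P'} = F` when the closed point `n` is not on the component `P'`. -/
theorem dens_chart913 {w : R} {x : F} {B : Subalgebra R F} (hB : ChartCtx E w x B)
    {P P' n : Ideal B} (hP' : P'.IsPrime) (hn : n.IsPrime)
    (hinf : P' ⊓ P = Ideal.span {algebraMap R B w}) (hPP' : ¬ P ≤ P') (hP'n : ¬ P' ≤ n) :
    ∀ g f : F, ∃ b ∈ locSub B n hn, f * (b - g) ∈ locSub B P' hP' := by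
  intro g f
  haveI := hP'
  have D := Fermat.Agent.A2.Alg.H348.compData_of_inf hB hinf hPP'
  have hAB := Fermat.Agent.A2.Alg.H348.adjoin_le_of_ctx hB
  have hW0 : algebraMap R F w ≠ 0 := D.w_ne
  have hwP' : algebraMap R B w ∈ P' := w_mem_left913 hinf
  obtain ⟨s, hsA, hs0, hsB, hsg⟩ := D.frac g
  by_cases hsn : (⟨s, hsB⟩ : B) ∈ n
  · obtain ⟨y, hy', hy⟩ := SetLike.not_le_iff_exists.1 hP'n
    obtain ⟨k, hk⟩ := D.exists_mul_pow_mem hAB (f * g)
    rw [mem_locAt_iff913] at hk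
    obtain ⟨m, ε, hε, hε', hsε⟩ := D.exists_pow_mul hAB hsB hs0
    rw [mem_locAt_iff913] at hε hε'
    have hε0 : ε ≠ 0 := by
      rintro rfl
      exact hs0 (by rw [hsε, mul_zero])
    obtain ⟨y', hy'V, hyy'⟩ := exists_eq_w_mul913 (F := F) hP' hinf hPP' hy'
    set K : ℕ := k + m + 1 with hK
    have hsK : (⟨s, hsB⟩ : B) + y ^ K ∉ n := by
      intro h
      have h2 : y ^ K ∈ n := by
        have := n.sub_mem h hsn
        simpa using this
      exact hy (hn.mem_of_pow_mem K h2)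
    have hsK0 : (((⟨s, hsB⟩ : B) + y ^ K : B) : F) ≠ 0 := coe_ne_zero_of_notMem495 hsK
    have hsKF : (((⟨s, hsB⟩ : B) + y ^ K : B) : F) = s + (y : F) ^ K := by
      push_cast; rfl
    rw [hsKF] at hsK0
    set η : F := 1 + algebraMap R F w * (algebraMap R F w ^ k * ε⁻¹ * y' ^ K) with hη
    obtain ⟨hη0, hηinv⟩ := one_add_w_mul913 hP' hwP' (algebraMap R F w ^ k * ε⁻¹ * y' ^ K)
      ((locSub B P' hP').mul_mem ((locSub B P' hP').mul_mem
        ((locSub B P' hP').pow_mem ((locSub B P' hP').algebraMap_mem w) k) hε')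
        ((locSub B P' hP').pow_mem hy'V K))
    have hsKη : s + (y : F) ^ K = algebraMap R F w ^ m * ε * η := by
      rw [hη, hyy', hsε, hK, mul_pow]
      have h1 : ε * ε⁻¹ = 1 := mul_inv_cancel₀ hε0
      have h2 : algebraMap R F w ^ (k + m + 1) =
          algebraMap R F w ^ m * algebraMap R F w * algebraMap R F w ^ k := by
        rw [pow_add, pow_add, pow_one]; ring
      rw [h2]
      linear_combination
        (-(algebraMap R F w ^ m * algebraMap R F w * algebraMap R F w ^ k * y' ^ (k + m + 1))) * h1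
    refine ⟨(⟨s * g, hsg⟩ : B) * ((((⟨s, hsB⟩ : B) + y ^ K : B) : F))⁻¹,
      div_mem_locSub913 hn _ hsK, ?_⟩
    have hval : f * ((⟨s * g, hsg⟩ : B) * ((((⟨s, hsB⟩ : B) + y ^ K : B) : F))⁻¹ - g) =
        -(f * g * algebraMap R F w ^ k) * algebraMap R F w * y' ^ K * ε⁻¹ * η⁻¹ := by
      rw [hsKF]
      show f * (s * g * (s + (y : F) ^ K)⁻¹ - g) = _
      have h3 : s * g * (s + (y : F) ^ K)⁻¹ - g = -(g * (y : F) ^ K) * (s + (y : F) ^ K)⁻¹ := by
        field_simp
        ring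
      rw [h3, hsKη, hyy', hK, mul_pow]
      have hWm : algebraMap R F w ^ m ≠ 0 := pow_ne_zero _ hW0
      field_simp
      ring
    rw [hval]
    exact (locSub B P' hP').mul_mem ((locSub B P' hP').mul_mem ((locSub B P' hP').mul_mem
      ((locSub B P' hP').mul_mem ((locSub B P' hP').neg_mem hk)
        ((locSub B P' hP').algebraMap_mem w)) ((locSub B P' hP').pow_mem hy'V K)) hε') hηinv
  · refine ⟨g, ⟨⟨s * g, hsg⟩, ⟨s, hsB⟩, hsn, mul_comm _ _⟩, ?_⟩
    rw [sub_self, mul_zero]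
    exact (locSub B P' hP').zero_mem

theorem locUnit_mem913 {B : Subalgebra R F} {n : Ideal B} (hn : n.IsPrime) {u : F}
    (h : LocUnit B n u) : u ∈ locSub B n hn ∧ u⁻¹ ∈ locSub B n hn := by
  obtain ⟨a, b, ha, hb, hab⟩ := h
  have ha0 : (a : F) ≠ 0 := coe_ne_zero_of_notMem495 ha
  have hb0 : (b : F) ≠ 0 := coe_ne_zero_of_notMem495 hb
  have hu0 : u ≠ 0 := by
    rintro rfl
    rw [zero_mul] at hab
    exact ha0 hab.symm
  refine ⟨⟨a, b, hb, hab⟩, ⟨b, a, ha, ?_⟩⟩
  rw [← hab]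
  field_simp

theorem constAt_of_locOneR913 {B : Subalgebra R F} {P : Ideal B} {r : R} {u : F}
    (hr : algebraMap R B r ∈ P) (h : LocOneR B P r u) : ConstAt B P u := by
  obtain ⟨a, b, hb, hab, e⟩ := h
  refine ⟨1, isUnit_one, a, b, hb, ?_, e⟩
  rw [map_one, one_mul]
  exact (Ideal.span_singleton_le_iff_mem (I := P)).2 hr hab

/-- One-sided form of WPS: `n` lies on `P` and not on `P'`. -/
theorem wps_aux913 [CharZero E] (p : ℕ) (hp : p.Prime)
    (hpR : (p : R) ∈ IsLocalRing.maximalIdeal R) (ζ : R) (hζ : IsPrimitiveRoot ζ p)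
    (w : R) (x : F) (B : Subalgebra R F) (hB : ChartCtx E w x B) (c : SSChart w B)
    (u : F) (hu : u ≠ 0) (hdiv : DivisibleDiv E p u) (hdeep : DeepOne B c p (ζ - 1) u)
    (P P' : Ideal B) (hP : P.IsPrime) (hP' : P'.IsPrime)
    (hinf : P ⊓ P' = Ideal.span {algebraMap R B w}) (h12 : ¬ P ≤ P') (h21 : ¬ P' ≤ P)
    (hnorm : IsIntegrallyClosed (B ⧸ P)) (huP : LocOneR B P ((ζ - 1) ^ p * w) u)
    (n : Ideal B) (hn : n.IsMaximal) (hPn : P ≤ n) (hP'n : ¬ P' ≤ n) :
    ∃ d : F, d ≠ 0 ∧ LocOneR B n ((ζ - 1) ^ p) (u * d ^ p) ∧ LocOneR B P (ζ - 1) d ∧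
      LocOneR B P' (ζ - 1) d := by
  have hnp : n.IsPrime := hn.isPrime
  have hwP : algebraMap R B w ∈ P := w_mem_left913 hinf
  have hwn : algebraMap R B w ∈ n := hPn hwP
  have hw1 : algebraMap R B w ∈ c.p₁ := w_mem_left913 c.inf_eq
  have hw2 : algebraMap R B w ∈ c.p₂ :=
    w_mem_left913 (P := c.p₂) (P' := c.p₁) (by rw [inf_comm]; exact c.inf_eq)
  have hW0 : algebraMap R F w ≠ 0 := fun h0 =>
    hB.hw.ne_zero (Fermat.Agent.A2.Alg.H348.injective_algebraMap_RF R E F (by rw [h0, map_zero]))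
  -- A2 purity
  have hsplit : IsSplit B c u := by
    refine ⟨constAt_of_locOneR913 ?_ hdeep.1, constAt_of_locOneR913 ?_ hdeep.2⟩
    · rw [map_mul]; exact Ideal.mul_mem_left _ _ hw1
    · rw [map_mul]; exact Ideal.mul_mem_left _ _ hw2
  have hconstP : ConstAt B P u :=
    constAt_of_locOneR913 (by rw [map_mul]; exact Ideal.mul_mem_left _ _ hwP) huP
  obtain ⟨d₀, hd₀, hd₀n, hd₀P, -⟩ := Fermat.Agent.A2.Alg.H754.purity_smooth_aux p hp.pos w x B hB
    c u hu hdiv hsplit P P' hP hP' hinf h12 h21 hnorm hconstP n hn hPn hP'n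
  obtain ⟨hεO, hεO'⟩ := locUnit_mem913 hnp hd₀n
  obtain ⟨hd₀V, -⟩ := locUnit_mem913 hP hd₀P
  -- arithmetic
  obtain ⟨e, υ, υ', z, he, hlam, hυ, hpz⟩ := zeta_arith913 hp hpR hζ hB.hw
  obtain ⟨v, hv, huv⟩ := (locOneR_iff hP).1 huP
  set O := locSub B n hnp with hO
  set V := locSub B P hP with hV
  set V' := locSub B P' hP' with hV'
  obtain ⟨d, hd0, ⟨o, ho, hdo⟩, ⟨v₁, hv₁, hdv₁⟩, ⟨v₂, hv₂, hdv₂⟩⟩ :=
    wps_abs913 O V V' (locSub_mono913 hP hnp hPn) (W := algebraMap R F w)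
      (Lam := algebraMap R F (ζ - 1)) (ρ := algebraMap R F υ) (ρ' := algebraMap R F υ')
      (z := algebraMap R F z) hW0 (O.algebraMap_mem w) hp e he
      (by rw [hlam, map_mul, map_pow]) (O.algebraMap_mem υ) (O.algebraMap_mem υ')
      (by rw [← map_mul, hυ, map_one]) (O.algebraMap_mem z)
      (by rw [← map_pow, ← map_mul, ← hpz, map_natCast])
      (h1_chart913 hP hnp hinf hP'n)
      (h2_chart913 hP hnp hinf h21 hPn hnorm hp.ne_zero)
      (one_add_w_mul913 hnp hwn)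
      (dens_chart913 hB hP' hnp (by rw [inf_comm]; exact hinf) h12 hP'n)
      hu hd₀ hd₀V hεO hεO'
      ⟨v, hv, by rw [huv, map_mul, map_pow]⟩
  refine ⟨d, hd0, (locOneR_iff hnp).2 ⟨o, ho, ?_⟩, (locOneR_iff hP).2 ⟨v₁, hv₁, hdv₁⟩,
    (locOneR_iff hP').2 ⟨v₂, hv₂, hdv₂⟩⟩
  rw [hdo, map_pow]

end Chart

/-- **Leaf WPS** (wild purity at a closed point lying on ONE component), VERBATIM statement of
`Ribet/H495/AlgPSpec.lean`. -/
theorem wpSmoothLeaf : WPSmoothLeaf := by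
  intro R E F _ _ _ _ _ _ _ _ _ _ _ _ _ p hp hp2 hpR ζ hζ w x B hB c hc u hu hdiv hdeep n hn hwn h1
  have hle : c.p₁ * c.p₂ ≤ n := by
    refine le_trans Ideal.mul_le_inf ?_
    rw [c.inf_eq, Ideal.span_singleton_le_iff_mem]
    exact hwn
  rcases (Ideal.IsPrime.mul_le hn.isPrime).1 hle with h | h
  · have h2 : ¬ c.p₂ ≤ n := fun h2 => h1 ⟨h, h2⟩
    obtain ⟨d, hd0, hdn, hd1, hd2⟩ := wps_aux913 p hp hpR ζ hζ w x B hB c u hu hdiv hdeep
      c.p₁ c.p₂ c.prime₁ c.prime₂ c.inf_eq hc.1 hc.2 c.normal₁ hdeep.1 n hn h h2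
    exact ⟨d, hd0, hdn, ⟨0, by simpa using hd1⟩, ⟨0, by simpa using hd2⟩⟩
  · have h2 : ¬ c.p₁ ≤ n := fun h2 => h1 ⟨h2, h⟩
    obtain ⟨d, hd0, hdn, hd2, hd1⟩ := wps_aux913 p hp hpR ζ hζ w x B hB c u hu hdiv hdeep
      c.p₂ c.p₁ c.prime₂ c.prime₁ (by rw [inf_comm]; exact c.inf_eq) hc.2 hc.1 c.normal₂
      hdeep.2 n hn h h2
    exact ⟨d, hd0, hdn, ⟨0, by simpa using hd1⟩, ⟨0, by simpa using hd2⟩⟩

end Fermat.Agent.Ribet.H913

end
-- ===== PACK-END Ribet/H913/WPSmooth.lean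

-- ===== PACK-BEGIN Ribet/H883/DKCore.lean
section



/-!
# RIBET / WALL-p / (S2) / leaf DK: the abstract core   (helper883)

`H220.DeepKummerStatement` = level descent + MOD at `p` + THIS FILE.

Setting of `H495.AlgP.AlgPStatement` (henselian DVR `R`, two semistable charts `Bf`, `Bi`), the two
components cut out by two valuation rings `V₁`, `V₂` of `F` on BOTH charts (`S35.G.CutBy`, in
explicit form here).  Then for `f ≠ 0` with `p ∣ div f` and

  `f = g₁ ^ p * (1 + r y₁)`, `y₁ ∈ V₁`,   `f = g₂ ^ p * (1 + r y₂)`, `y₂ ∈ V₂`,   `λ^p w ∣ r`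

(`Deep V_i p r f` of `H220/S2Spec.lean`, e.g. `r = p²`) the conclusion of ALG-p gives
`τ f = h ^ p * f ^ c`.

Steps:
* `exists_sep`     : `e ≡ 1 mod w^N W₁`, `e ≡ 0 mod w^N W₂` (two discrete valuation rings);
* `merge_deep`     : weak approximation: ONE `g` with `f = g^p (1 + r z_i)`, `z_i ∈ W_i`;
* `valuationSubring_eq_of_common` : the local rings `B_{p_i}` of the two charts coincide (both
  contain `V_i`);
* `locOneR_of_mem_locAt` : `u ∈ 1 + r B_n ⟹ LocOneR B n r u`;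
* `sq_natCast_eq_mul`    : `p² = (ζ-1)^p w e`;
* `dkCore`, `dkCore_sq`.
-/

set_option autoImplicit false
set_option linter.unusedSectionVars false
set_option linter.unusedVariables false
set_option linter.style.haveILetI false

namespace Fermat.Agent.Ribet.H883.DK

open Fermat.Agent.A2 Fermat.Agent.A2.Alg Fermat.Agent.A2.H348 Fermat.Agent.A2.Alg.H348
open Fermat.Agent.Ribet.H495.AlgP

/-! ## 1. Weak approximation for two valuation rings -/

section Merge

variable {F : Type*} [Field F]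

theorem val_eq_one_of_unit (W : ValuationSubring F) {t : F} (ht0 : t ≠ 0) (ht : t ∈ W)
    (ht' : t⁻¹ ∈ W) : W.valuation t = 1 := by
  have h1 : W.valuation t ≤ 1 := (W.valuation_le_one_iff t).2 ht
  have h2 : W.valuation t⁻¹ ≤ 1 := (W.valuation_le_one_iff _).2 ht'
  rw [map_inv₀] at h2
  have h3 : W.valuation t ≠ 0 := (Valuation.ne_zero_iff _).2 ht0
  have h4 : 1 ≤ W.valuation t := by
    have := (inv_le_one₀ (zero_lt_iff.2 h3)).1 h2
    exact this
  exact le_antisymm h1 h4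

theorem val_lt_one_of_mul_inv (W : ValuationSubring F) {w s : F} (hw0 : w ≠ 0)
    (hw : W.valuation w < 1) (hs : s * w⁻¹ ∈ W) : W.valuation s < 1 := by
  have h1 : W.valuation (s * w⁻¹) ≤ 1 := (W.valuation_le_one_iff _).2 hs
  have e : s = (s * w⁻¹) * w := by field_simp
  rw [e, map_mul]
  calc W.valuation (s * w⁻¹) * W.valuation w ≤ 1 * W.valuation w := by gcongr
    _ = W.valuation w := one_mul _
    _ < 1 := hw

/-- `e ≡ 1 mod w^N W₁`, `e ≡ 0 mod w^N W₂`. -/
theorem exists_sep (W₁ W₂ : ValuationSubring F) (w t s : F) (hw0 : w ≠ 0)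
    (hw₁ : W₁.valuation w < 1) (hw₂ : W₂.valuation w < 1)
    (ht0 : t ≠ 0) (ht₁ : t ∈ W₁) (ht₁' : t⁻¹ ∈ W₁) (ht₂ : t * w⁻¹ ∈ W₂)
    (hs0 : s ≠ 0) (hs₂ : s ∈ W₂) (hs₂' : s⁻¹ ∈ W₂) (hs₁ : s * w⁻¹ ∈ W₁) (N : ℕ) :
    ∃ e : F, (e - 1) * (w ^ N)⁻¹ ∈ W₁ ∧ e * (w ^ N)⁻¹ ∈ W₂ := by
  rcases Nat.eq_zero_or_pos N with rfl | hN
  · exact ⟨1, by simp [W₁.zero_mem], by simp [W₂.one_mem]⟩
  have hN0 : N ≠ 0 := hN.ne'
  have hvt₁ : W₁.valuation t = 1 := val_eq_one_of_unit W₁ ht0 ht₁ ht₁'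
  have hvs₂ : W₂.valuation s = 1 := val_eq_one_of_unit W₂ hs0 hs₂ hs₂'
  have hvs₁ : W₁.valuation s < 1 := val_lt_one_of_mul_inv W₁ hw0 hw₁ hs₁
  have hvt₂ : W₂.valuation t < 1 := val_lt_one_of_mul_inv W₂ hw0 hw₂ ht₂
  have hd₁ : W₁.valuation (t ^ N + s ^ N) = 1 := by
    have h1 : W₁.valuation (s ^ N) < W₁.valuation (t ^ N) := by
      rw [map_pow, map_pow, hvt₁, one_pow]
      exact pow_lt_one₀ zero_le hvs₁ hN0
    rw [Valuation.map_add_eq_of_lt_left _ h1, map_pow, hvt₁, one_pow]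
  have hd₂ : W₂.valuation (t ^ N + s ^ N) = 1 := by
    have h1 : W₂.valuation (t ^ N) < W₂.valuation (s ^ N) := by
      rw [map_pow, map_pow, hvs₂, one_pow]
      exact pow_lt_one₀ zero_le hvt₂ hN0
    rw [Valuation.map_add_eq_of_lt_right _ h1, map_pow, hvs₂, one_pow]
  have hd0 : t ^ N + s ^ N ≠ 0 := by
    intro h
    rw [h, map_zero] at hd₁
    exact zero_ne_one hd₁
  refine ⟨t ^ N / (t ^ N + s ^ N), ?_, ?_⟩
  · have e : (t ^ N / (t ^ N + s ^ N) - 1) * (w ^ N)⁻¹ =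
        -((s * w⁻¹) ^ N * (t ^ N + s ^ N)⁻¹) := by
      rw [mul_pow, inv_pow]
      field_simp
      ring
    rw [e, ← W₁.valuation_le_one_iff, Valuation.map_neg, map_mul, map_pow, map_inv₀, hd₁,
      inv_one, mul_one]
    exact pow_le_one₀ zero_le ((W₁.valuation_le_one_iff _).2 hs₁)
  · have e : t ^ N / (t ^ N + s ^ N) * (w ^ N)⁻¹ = (t * w⁻¹) ^ N * (t ^ N + s ^ N)⁻¹ := by
      rw [mul_pow, inv_pow]
      field_simp
    rw [e, ← W₂.valuation_le_one_iff, map_mul, map_pow, map_inv₀, hd₂, inv_one, mul_one]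
    exact pow_le_one₀ zero_le ((W₂.valuation_le_one_iff _).2 ht₂)

/-- One approximation step: replacing the root `g'` by `g = g' (1 + r w a)`. -/
theorem approx_step (W : ValuationSubring F) (w : F) (hw : W.valuation w < 1)
    (r : F) (hr : r ∈ W) (p : ℕ) (f g g' y a : F) (hg' : g' ≠ 0) (ha : a ∈ W)
    (hgg : g = g' * (1 + r * w * a)) (hy : y ∈ W) (hf : f = g' ^ p * (1 + r * y)) :
    g ≠ 0 ∧ ∃ z ∈ W, f = g ^ p * (1 + r * z) := by
  have hrwa : W.valuation (r * w * a) < 1 := by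
    rw [mul_comm r w, mul_assoc, map_mul]
    have h1 : W.valuation (r * a) ≤ 1 := (W.valuation_le_one_iff _).2 (W.mul_mem _ _ hr ha)
    calc W.valuation w * W.valuation (r * a) ≤ W.valuation w * 1 := by gcongr
      _ = W.valuation w := mul_one _
      _ < 1 := hw
  have hη : W.valuation (1 + r * w * a) = 1 := Valuation.map_one_add_of_lt _ hrwa
  have hη0 : (1 + r * w * a) ≠ 0 := by
    intro h
    rw [h, map_zero] at hη
    exact zero_ne_one hη
  have hηinv : (1 + r * w * a)⁻¹ ∈ W := by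
    rw [← W.valuation_le_one_iff, map_inv₀, hη, inv_one]
  have hwW : w ∈ W := (W.valuation_le_one_iff _).1 hw.le
  have hg0 : g ≠ 0 := by
    rw [hgg]
    exact mul_ne_zero hg' hη0
  refine ⟨hg0, ?_⟩
  -- `η⁻¹ = 1 + r b`
  set b : F := -(w * a * (1 + r * w * a)⁻¹) with hb
  have hbW : b ∈ W := W.neg_mem _ (W.mul_mem _ _ (W.mul_mem _ _ hwW ha) hηinv)
  have hηb : (1 + r * w * a)⁻¹ = 1 + r * b := by
    rw [hb]
    field_simp
    ring
  -- `(η⁻¹)^p = 1 + r b'`
  set b' : F := b * ∑ k ∈ Finset.range p, ((1 + r * w * a)⁻¹) ^ k with hb'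
  have hb'W : b' ∈ W :=
    W.mul_mem _ _ hbW (W.toSubring.sum_mem fun k _ => W.pow_mem hηinv k)
  have hpow : ((1 + r * w * a)⁻¹) ^ p = 1 + r * b' := by
    have h1 := mul_geom_sum ((1 + r * w * a)⁻¹) p
    have h2 : (1 + r * w * a)⁻¹ - 1 = r * b := by rw [hηb]; ring
    rw [h2] at h1
    rw [hb']
    linear_combination -h1
  refine ⟨b' + y + r * b' * y, ?_, ?_⟩
  · exact W.add_mem _ _ (W.add_mem _ _ hb'W hy) (W.mul_mem _ _ (W.mul_mem _ _ hr hb'W) hy)
  · have hg'eq : g' = g * (1 + r * w * a)⁻¹ := by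
      rw [hgg]
      field_simp
    rw [hf, hg'eq, mul_pow, hpow]
    ring

/-- **Merge** (weak approximation at two discrete valuation rings): a function which is a `p`-th
power times an element of `1 + r W_i` at `W₁` and at `W₂`, with roots `g₁`, `g₂`, is so with ONE
root `g`. -/
theorem merge_deep (W₁ W₂ : ValuationSubring F) (w t s : F) (hw0 : w ≠ 0)
    (hw₁ : W₁.valuation w < 1) (hw₂ : W₂.valuation w < 1)
    (ht0 : t ≠ 0) (ht₁ : t ∈ W₁) (ht₁' : t⁻¹ ∈ W₁) (ht₂ : t * w⁻¹ ∈ W₂)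
    (hs0 : s ≠ 0) (hs₂ : s ∈ W₂) (hs₂' : s⁻¹ ∈ W₂) (hs₁ : s * w⁻¹ ∈ W₁)
    (harch₁ : ∀ f : F, f ≠ 0 → ∃ N : ℕ, w ^ N * f⁻¹ ∈ W₁)
    (harch₂ : ∀ f : F, f ≠ 0 → ∃ N : ℕ, w ^ N * f⁻¹ ∈ W₂)
    (p : ℕ) (r : F) (hr₁ : r ∈ W₁) (hr₂ : r ∈ W₂)
    (f g₁ g₂ y₁ y₂ : F) (hg₁ : g₁ ≠ 0) (hg₂ : g₂ ≠ 0) (hy₁ : y₁ ∈ W₁) (hy₂ : y₂ ∈ W₂)
    (h₁ : f = g₁ ^ p * (1 + r * y₁)) (h₂ : f = g₂ ^ p * (1 + r * y₂)) :
    ∃ g z₁ z₂ : F, g ≠ 0 ∧ z₁ ∈ W₁ ∧ z₂ ∈ W₂ ∧ f = g ^ p * (1 + r * z₁) ∧
      f = g ^ p * (1 + r * z₂) := by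
  rcases eq_or_ne r 0 with rfl | hr0
  · refine ⟨g₁, 0, 0, hg₁, W₁.zero_mem, W₂.zero_mem, ?_, ?_⟩ <;> simpa using h₁
  have hwW₁ : w ∈ W₁ := (W₁.valuation_le_one_iff _).1 hw₁.le
  have hwW₂ : w ∈ W₂ := (W₂.valuation_le_one_iff _).1 hw₂.le
  -- the two error terms
  set c₁ : F := (g₂ - g₁) / (g₁ * r * w) with hc₁
  set c₂ : F := (g₁ - g₂) / (g₂ * r * w) with hc₂
  have hN₁ : ∃ N : ℕ, ∀ M : ℕ, N ≤ M → w ^ M * c₁ ∈ W₁ := by
    rcases eq_or_ne c₁ 0 with h | h
    · exact ⟨0, fun M _ => by rw [h, mul_zero]; exact W₁.zero_mem⟩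
    · obtain ⟨N, hN⟩ := harch₁ c₁⁻¹ (inv_ne_zero h)
      rw [inv_inv] at hN
      refine ⟨N, fun M hM => ?_⟩
      obtain ⟨d, rfl⟩ := Nat.exists_eq_add_of_le hM
      rw [pow_add, mul_comm (w ^ N), mul_assoc]
      exact W₁.mul_mem _ _ (W₁.pow_mem hwW₁ d) hN
  have hN₂ : ∃ N : ℕ, ∀ M : ℕ, N ≤ M → w ^ M * c₂ ∈ W₂ := by
    rcases eq_or_ne c₂ 0 with h | h
    · exact ⟨0, fun M _ => by rw [h, mul_zero]; exact W₂.zero_mem⟩
    · obtain ⟨N, hN⟩ := harch₂ c₂⁻¹ (inv_ne_zero h)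
      rw [inv_inv] at hN
      refine ⟨N, fun M hM => ?_⟩
      obtain ⟨d, rfl⟩ := Nat.exists_eq_add_of_le hM
      rw [pow_add, mul_comm (w ^ N), mul_assoc]
      exact W₂.mul_mem _ _ (W₂.pow_mem hwW₂ d) hN
  obtain ⟨N₁, hN₁⟩ := hN₁
  obtain ⟨N₂, hN₂⟩ := hN₂
  obtain ⟨e, he₁, he₂⟩ := exists_sep W₁ W₂ w t s hw0 hw₁ hw₂ ht0 ht₁ ht₁' ht₂ hs0 hs₂ hs₂' hs₁
    (max N₁ N₂)
  have hwN : w ^ (max N₁ N₂) ≠ 0 := pow_ne_zero _ hw0
  set g : F := e * g₁ + (1 - e) * g₂ with hg
  have hgg₁ : g = g₁ * (1 + r * w *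
      (-((e - 1) * (w ^ (max N₁ N₂))⁻¹) * (w ^ (max N₁ N₂) * c₁))) := by
    rw [hg, hc₁]
    field_simp
    ring
  have hgg₂ : g = g₂ * (1 + r * w *
      ((e * (w ^ (max N₁ N₂))⁻¹) * (w ^ (max N₁ N₂) * c₂))) := by
    rw [hg, hc₂]
    field_simp
    ring
  obtain ⟨hg0, z₁, hz₁, hfz₁⟩ := approx_step W₁ w hw₁ r hr₁ p f g g₁ y₁ _ hg₁
    (W₁.mul_mem _ _ (W₁.neg_mem _ he₁) (hN₁ _ (le_max_left _ _))) hgg₁ hy₁ h₁
  obtain ⟨-, z₂, hz₂, hfz₂⟩ := approx_step W₂ w hw₂ r hr₂ p f g g₂ y₂ _ hg₂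
    (W₂.mul_mem _ _ he₂ (hN₂ _ (le_max_right _ _))) hgg₂ hy₂ h₂
  exact ⟨g, z₁, z₂, hg0, hz₁, hz₂, hfz₁, hfz₂⟩

/-- Two discrete valuation rings (uniformiser `w`) containing a common valuation ring coincide,
one inclusion. -/
theorem le_of_le_of_disc (W W' : ValuationSubring F) (w : F) (hw0 : w ≠ 0) (hle : W ≤ W')
    (hwW : w ∈ W) (hW' : w⁻¹ ∉ W')
    (hd : ∀ f : F, f ≠ 0 → ∃ (k l : ℕ) (ε : F), ε ∈ W ∧ ε⁻¹ ∈ W ∧ f * w ^ k = w ^ l * ε) :
    W' ≤ W := by
  intro z hz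
  rcases eq_or_ne z 0 with rfl | hz0
  · exact W.zero_mem
  obtain ⟨k, l, ε, hε, hε', h⟩ := hd z hz0
  rcases le_or_gt k l with hkl | hkl
  · obtain ⟨d, rfl⟩ := Nat.exists_eq_add_of_le hkl
    have : z = w ^ d * ε := by
      have h2 : z * w ^ k = (w ^ d * ε) * w ^ k := by rw [h, pow_add]; ring
      exact mul_right_cancel₀ (pow_ne_zero _ hw0) h2
    rw [this]
    exact W.mul_mem _ _ (W.pow_mem hwW d) hε
  · exfalso
    obtain ⟨d, rfl⟩ := Nat.exists_eq_add_of_le hkl.le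
    have hd0 : d ≠ 0 := by
      rintro rfl
      exact lt_irrefl _ hkl
    obtain ⟨d', rfl⟩ := Nat.exists_eq_succ_of_ne_zero hd0
    apply hW'
    have e : w⁻¹ = w ^ d' * (z * ε⁻¹) := by
      have hε0 : ε ≠ 0 := by
        rintro rfl
        rw [mul_zero] at h
        exact (mul_ne_zero hz0 (pow_ne_zero _ hw0)) h
      have h2 : z * w ^ (d' + 1) * w ^ l = ε * w ^ l := by
        rw [mul_assoc, ← pow_add, add_comm (d' + 1) l, h]; ring
      have h3 : z * w ^ (d' + 1) = ε := mul_right_cancel₀ (pow_ne_zero _ hw0) h2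
      rw [← h3]
      field_simp
      ring
    rw [e]
    exact W'.mul_mem _ _ (W'.pow_mem (hle hwW) d') (W'.mul_mem _ _ hz (hle hε'))

/-- Two discrete valuation rings (uniformiser `w`) containing a common valuation ring coincide. -/
theorem valuationSubring_eq_of_common (V W W' : ValuationSubring F) (w : F) (hw0 : w ≠ 0)
    (hVW : V ≤ W) (hVW' : V ≤ W') (hwW : w ∈ W) (hwW' : w ∈ W') (hW : w⁻¹ ∉ W)
    (hW' : w⁻¹ ∉ W')
    (hd : ∀ f : F, f ≠ 0 → ∃ (k l : ℕ) (ε : F), ε ∈ W ∧ ε⁻¹ ∈ W ∧ f * w ^ k = w ^ l * ε)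
    (hd' : ∀ f : F, f ≠ 0 → ∃ (k l : ℕ) (ε : F), ε ∈ W' ∧ ε⁻¹ ∈ W' ∧ f * w ^ k = w ^ l * ε) :
    W = W' := by
  by_cases hle : W ≤ W'
  · exact le_antisymm hle (le_of_le_of_disc W W' w hw0 hle hwW hW' hd)
  · have hle' : W' ≤ W := by
      obtain ⟨z, hzW, hzW'⟩ := SetLike.not_le_iff_exists.1 hle
      intro z' hz'
      by_contra hz'W
      have hz0 : z ≠ 0 := by
        rintro rfl
        exact hzW' W'.zero_mem
      have hz'0 : z' ≠ 0 := by
        rintro rfl
        exact hz'W W.zero_mem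
      rcases V.mem_or_inv_mem (z / z') with h | h
      · apply hzW'
        have e : z = (z / z') * z' := by field_simp
        rw [e]
        exact W'.mul_mem _ _ (hVW' h) hz'
      · apply hz'W
        have e : z' = (z / z')⁻¹ * z := by field_simp
        rw [e]
        exact W.mul_mem _ _ (hVW h) hzW
    exact le_antisymm (le_of_le_of_disc W' W w hw0 hle' hwW' hW hd') hle'

end Merge

/-! ## 2. Charts: the local rings of the components -/

section Chart

variable {R F : Type*} [CommRing R] [Field F] [Algebra R F]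

/-- A valuation ring cutting out the component `p` is contained in `B_p`. -/
theorem mem_locAt_of_cut {w : R} {B A : Subalgebra R F} {p p' : Ideal B}
    [hp : p.IsPrime] (D : CompData A B p p' w) (hAB : A ≤ B) (V : ValuationSubring F)
    (hle : ∀ b ∈ B, b ∈ V) (hcut : ∀ b : B, b ∈ p ↔ (b : F) * (algebraMap R F w)⁻¹ ∈ V)
    (z : F) (hz : z ∈ V) : z ∈ locAt B p := by
  rcases D.mem_or_inv_mem hAB z with h | h
  · exact h
  · by_contra hz'
    obtain ⟨s, hs, hsz⟩ := D.mul_inv_mem h (by rwa [inv_inv])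
    apply hs
    rw [hcut]
    have hz0 : z ≠ 0 := by
      rintro rfl
      exact hz' (locAt B p).zero_mem
    have hw0 := D.w_ne
    have e : (s : F) * (algebraMap R F w)⁻¹ = (s : F) * (z⁻¹ * (algebraMap R F w)⁻¹) * z := by
      field_simp
    rw [e]
    exact V.mul_mem _ _ (hle _ hsz) hz

/-- `u ∈ 1 + r B_n ⟹ LocOneR B n r u`. -/
theorem locOneR_of_mem_locAt (B : Subalgebra R F) (n : Ideal B) [n.IsPrime] (r : R) (u z : F)
    (hz : z ∈ locAt B n) (hu : u = 1 + algebraMap R F r * z) : LocOneR B n r u := by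
  obtain ⟨s, hs, hsz⟩ := hz
  refine ⟨s + algebraMap R B r * ⟨(s : F) * z, hsz⟩, s, hs, ?_, ?_⟩
  · rw [add_sub_cancel_left]
    exact Ideal.mul_mem_right _ _ (Ideal.mem_span_singleton_self _)
  · rw [hu]
    push_cast
    ring

/-- The valuation of the uniformiser at a component. -/
theorem val_w_lt_one {w : R} {B A : Subalgebra R F} {p p' : Ideal B}
    [hp : p.IsPrime] (D : CompData A B p p' w) (hAB : A ≤ B) :
    (D.valuationSubring hAB).valuation (algebraMap R F w) < 1 := by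
  have h1 : (D.valuationSubring hAB).valuation (algebraMap R F w) ≤ 1 :=
    ((D.valuationSubring hAB).valuation_le_one_iff _).2 ((locAt B p).algebraMap_mem w)
  rcases h1.lt_or_eq with h | h
  · exact h
  · exfalso
    apply D.w_inv_notMem
    have : (algebraMap R F w)⁻¹ ∈ D.valuationSubring hAB := by
      rw [← ValuationSubring.valuation_le_one_iff, map_inv₀, h, inv_one]
    exact this

/-- The local ring of a component is archimedean with respect to `w`. -/
theorem arch_locAt {w : R} {B A : Subalgebra R F} {p p' : Ideal B}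
    [hp : p.IsPrime] (D : CompData A B p p' w) (hAB : A ≤ B) (f : F) (hf : f ≠ 0) :
    ∃ N : ℕ, algebraMap R F w ^ N * f⁻¹ ∈ D.valuationSubring hAB := by
  obtain ⟨k, l, ε, hε, hε', h⟩ := D.exists_zpow_mul hAB hf
  refine ⟨l, ?_⟩
  have hw0 := D.w_ne
  have hε0 : ε ≠ 0 := by
    rintro rfl
    rw [mul_zero] at h
    exact (mul_ne_zero hf (pow_ne_zero _ hw0)) h
  have e : algebraMap R F w ^ l * f⁻¹ = algebraMap R F w ^ k * ε⁻¹ := by
    have h2 : algebraMap R F w ^ l = f * algebraMap R F w ^ k * ε⁻¹ := by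
      rw [h]
      field_simp
    rw [h2]
    field_simp
  rw [e]
  exact (locAt B p).mul_mem ((locAt B p).pow_mem ((locAt B p).algebraMap_mem w) k) hε'

end Chart

/-! ## 3. `p² ∈ λ^p w R` -/

section Lam

variable {R : Type*} [CommRing R] [IsDomain R]

/-- `p = (ζ - 1) ^ (p - 1) · unit` for a primitive `p`-th root of unity `ζ` of a domain. -/
theorem natCast_eq_lam_pow_mul {p : ℕ} (hp : p.Prime) {ζ : R} (hζ : IsPrimitiveRoot ζ p) :
    ∃ u : R, IsUnit u ∧ (p : R) = (ζ - 1) ^ (p - 1) * u := by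
  classical
  have : Fact p.Prime := ⟨hp⟩
  have h1 : (p : R) = ∏ μ ∈ primitiveRoots p R, (1 - μ) := by
    have h2 := congrArg (Polynomial.eval 1)
      (Polynomial.cyclotomic_eq_prod_X_sub_primitiveRoots (K := R) hζ)
    rw [Polynomial.eval_one_cyclotomic_prime] at h2
    rw [h2, Polynomial.eval_prod]
    simp
  have h3 : ∀ μ ∈ primitiveRoots p R, ∃ v : R, IsUnit v ∧ 1 - μ = (ζ - 1) * v := by
    intro μ hμ
    have hμ' : IsPrimitiveRoot μ p := (mem_primitiveRoots hp.pos).1 hμ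
    have : NeZero p := ⟨hp.ne_zero⟩
    obtain ⟨j, -, rfl⟩ := hζ.eq_pow_of_pow_eq_one hμ'.pow_eq_one
    have hj : ζ ^ j ≠ 1 := hμ'.ne_one hp.one_lt
    have hcop : j.Coprime p := by
      rw [Nat.coprime_comm, hp.coprime_iff_not_dvd]
      intro hdvd
      obtain ⟨k, rfl⟩ := hdvd
      exact hj (by rw [pow_mul, hζ.pow_eq_one, one_pow])
    obtain ⟨ε, hε⟩ := hζ.associated_sub_one_pow_sub_one_of_coprime hcop
    refine ⟨-ε, ε.isUnit.neg, ?_⟩
    rw [mul_neg, hε]
    ring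
  choose! v hv using h3
  refine ⟨∏ μ ∈ primitiveRoots p R, v μ, ?_, ?_⟩
  · refine Finset.prod_induction v IsUnit (fun a b ha hb => ha.mul hb) isUnit_one ?_
    intro μ hμ
    exact (hv μ hμ).1
  · rw [h1, Finset.prod_congr rfl (fun μ hμ => (hv μ hμ).2), Finset.prod_mul_distrib,
      Finset.prod_const, hζ.card_primitiveRoots, Nat.totient_prime hp]

/-- `p² = (ζ - 1)^p · w · e` in a discrete valuation ring of residue characteristic `p ≥ 3`
containing a primitive `p`-th root of unity `ζ`. -/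
theorem sq_natCast_eq_mul [IsDiscreteValuationRing R] (w : R) (hw : Irreducible w) (p : ℕ)
    (hp : p.Prime) (hp2 : p ≠ 2) (hpR : (p : R) ∈ IsLocalRing.maximalIdeal R) (ζ : R)
    (hζ : IsPrimitiveRoot ζ p) : ∃ e : R, (p : R) ^ 2 = ((ζ - 1) ^ p * w) * e := by
  obtain ⟨u, hu, hpu⟩ := natCast_eq_lam_pow_mul hp hζ
  have hlam : (ζ - 1) ∈ IsLocalRing.maximalIdeal R := by
    have h1 : (ζ - 1) ^ (p - 1) ∈ IsLocalRing.maximalIdeal R := by
      obtain ⟨u', rfl⟩ := hu
      have : (ζ - 1) ^ (p - 1) = (p : R) * ((u'⁻¹ : Rˣ) : R) := by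
        rw [hpu, mul_assoc, Units.mul_inv, mul_one]
      rw [this]
      exact Ideal.mul_mem_right _ _ hpR
    exact (IsLocalRing.maximalIdeal.isMaximal R).isPrime.mem_of_pow_mem _ h1
  rw [hw.maximalIdeal_eq, Ideal.mem_span_singleton'] at hlam
  obtain ⟨k, hk⟩ := hlam
  have h3 : 3 ≤ p := by
    have := hp.two_le
    omega
  obtain ⟨q, rfl⟩ := Nat.exists_eq_add_of_le h3
  refine ⟨k * (ζ - 1) ^ q * u ^ 2, ?_⟩
  have e1 : 3 + q - 1 = q + 2 := by omega
  rw [e1] at hpu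
  rw [hpu]
  have e2 : ((ζ - 1) ^ (q + 2) * u) ^ 2 =
      (ζ - 1) ^ (3 + q) * (ζ - 1) * ((ζ - 1) ^ q * u ^ 2) := by ring
  rw [e2, ← hk]
  ring

end Lam

/-! ## 4. The core -/

section Core

variable {R E F : Type*} [CommRing R] [IsDomain R] [IsDiscreteValuationRing R]
  [Field E] [Algebra R E] [IsFractionRing R E]
  [Field F] [Algebra E F] [Algebra R F] [IsScalarTower R E F]

theorem divisibleDiv_of_mul_pow {m : ℕ} {f g u : F} (hg : g ≠ 0) (hfu : f = g ^ m * u)
    (h : DivisibleDiv E m f) : DivisibleDiv E m u := by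
  intro V hV hE
  obtain ⟨h', ε, hh', hε, hε', hf⟩ := h V hV hE
  refine ⟨h' * g⁻¹, ε, mul_ne_zero hh' (inv_ne_zero hg), hε, hε', ?_⟩
  have hgm : g ^ m ≠ 0 := pow_ne_zero _ hg
  have : u = f * (g ^ m)⁻¹ := by
    rw [hfu]
    field_simp
  rw [this, hf, mul_pow, inv_pow]
  ring

/-- **DK, abstract core.**  The two components of both charts are cut out by the valuation rings
`V₁`, `V₂`; `f` is a `p`-th power times an element of `1 + r V_i` at `V₁` and at `V₂`, with
`λ^p w ∣ r`, and `p ∣ div f`.  Then the conclusion of ALG-p applies to `f`: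
`τ f = h ^ p * f ^ c`. -/
theorem dkCore (w : R) (p : ℕ) (lam : R) (x : F) (Bf Bi : Subalgebra R F)
    (hCf : ChartCtx E w x Bf) (hCi : ChartCtx E w x⁻¹ Bi)
    (cf : SSChart w Bf) (ci : SSChart w Bi) (V₁ V₂ : ValuationSubring F)
    (hfle₁ : ∀ b ∈ Bf, b ∈ V₁) (hfle₂ : ∀ b ∈ Bf, b ∈ V₂)
    (hfcut₁ : ∀ b : Bf, b ∈ cf.p₁ ↔ (b : F) * (algebraMap R F w)⁻¹ ∈ V₁)
    (hfcut₂ : ∀ b : Bf, b ∈ cf.p₂ ↔ (b : F) * (algebraMap R F w)⁻¹ ∈ V₂)
    (hile₁ : ∀ b ∈ Bi, b ∈ V₁) (hile₂ : ∀ b ∈ Bi, b ∈ V₂)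
    (hicut₁ : ∀ b : Bi, b ∈ ci.p₁ ↔ (b : F) * (algebraMap R F w)⁻¹ ∈ V₁)
    (hicut₂ : ∀ b : Bi, b ∈ ci.p₂ ↔ (b : F) * (algebraMap R F w)⁻¹ ∈ V₂)
    (c : ℕ) (τ : F ≃+* F) (hAlg : AlgPConclusion E Bf Bi cf ci p lam c τ)
    (r : R) (hr : lam ^ p * w ∣ r)
    (f : F) (hf : f ≠ 0) (hdiv : DivisibleDiv E p f)
    (h₁ : ∃ g y : F, g ≠ 0 ∧ y ∈ V₁ ∧ f = g ^ p * (1 + algebraMap R F r * y))
    (h₂ : ∃ g y : F, g ≠ 0 ∧ y ∈ V₂ ∧ f = g ^ p * (1 + algebraMap R F r * y)) :
    ∃ h : F, h ≠ 0 ∧ τ f = h ^ p * f ^ c := by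
  haveI := cf.prime₁
  haveI := cf.prime₂
  haveI := ci.prime₁
  haveI := ci.prime₂
  have hABf := adjoin_le_of_ctx hCf
  have hABi := adjoin_le_of_ctx hCi
  have D1f := compData₁ hCf cf
  have D2f := compData₂ hCf cf
  have D1i := compData₁ hCi ci
  have D2i := compData₂ hCi ci
  have hw0 : algebraMap R F w ≠ 0 := D1f.w_ne
  -- the local rings of the components
  set W₁ : ValuationSubring F := D1f.valuationSubring hABf with hW₁
  set W₂ : ValuationSubring F := D2f.valuationSubring hABf with hW₂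
  have hV₁W₁ : V₁ ≤ W₁ := fun z hz => mem_locAt_of_cut D1f hABf V₁ hfle₁ hfcut₁ z hz
  have hV₂W₂ : V₂ ≤ W₂ := fun z hz => mem_locAt_of_cut D2f hABf V₂ hfle₂ hfcut₂ z hz
  have hV₁W₁i : V₁ ≤ D1i.valuationSubring hABi :=
    fun z hz => mem_locAt_of_cut D1i hABi V₁ hile₁ hicut₁ z hz
  have hV₂W₂i : V₂ ≤ D2i.valuationSubring hABi :=
    fun z hz => mem_locAt_of_cut D2i hABi V₂ hile₂ hicut₂ z hz
  have hE₁ : W₁ = D1i.valuationSubring hABi :=
    valuationSubring_eq_of_common V₁ W₁ _ (algebraMap R F w) hw0 hV₁W₁ hV₁W₁i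
      ((locAt Bf cf.p₁).algebraMap_mem w) ((locAt Bi ci.p₁).algebraMap_mem w)
      D1f.w_inv_notMem D1i.w_inv_notMem (fun f hf => D1f.exists_zpow_mul hABf hf)
      (fun f hf => D1i.exists_zpow_mul hABi hf)
  have hE₂ : W₂ = D2i.valuationSubring hABi :=
    valuationSubring_eq_of_common V₂ W₂ _ (algebraMap R F w) hw0 hV₂W₂ hV₂W₂i
      ((locAt Bf cf.p₂).algebraMap_mem w) ((locAt Bi ci.p₂).algebraMap_mem w)
      D2f.w_inv_notMem D2i.w_inv_notMem (fun f hf => D2f.exists_zpow_mul hABf hf)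
      (fun f hf => D2i.exists_zpow_mul hABi hf)
  -- separating elements
  obtain ⟨t, ht₂, ht₁⟩ := D1f.exists_notMem
  obtain ⟨s, hs₁, hs₂⟩ := D2f.exists_notMem
  have ht0 : (t : F) ≠ 0 := coe_ne_zero_of_notMem cf.p₁ ht₁
  have hs0 : (s : F) ≠ 0 := coe_ne_zero_of_notMem cf.p₂ hs₂
  obtain ⟨g₁, y₁, hg₁, hy₁, hf₁⟩ := h₁
  obtain ⟨g₂, y₂, hg₂, hy₂, hf₂⟩ := h₂
  obtain ⟨g, z₁, z₂, hg0, hz₁, hz₂, hfz₁, hfz₂⟩ :=
    merge_deep W₁ W₂ (algebraMap R F w) (t : F) (s : F) hw0 (val_w_lt_one D1f hABf)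
      (val_w_lt_one D2f hABf) ht0 (le_locAt cf.p₁ t.2) (inv_mem_locAt cf.p₁ ht₁)
      (hV₂W₂ ((hfcut₂ t).1 ht₂)) hs0 (le_locAt cf.p₂ s.2) (inv_mem_locAt cf.p₂ hs₂)
      (hV₁W₁ ((hfcut₁ s).1 hs₁)) (arch_locAt D1f hABf) (arch_locAt D2f hABf) p
      (algebraMap R F r) ((locAt Bf cf.p₁).algebraMap_mem r) ((locAt Bf cf.p₂).algebraMap_mem r)
      f g₁ g₂ y₁ y₂ hg₁ hg₂ (hV₁W₁ hy₁) (hV₂W₂ hy₂) hf₁ hf₂
  -- the normalised function
  obtain ⟨e, rfl⟩ := hr
  have hgp : g ^ p ≠ 0 := pow_ne_zero _ hg0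
  have hz₁' : algebraMap R F e * z₁ ∈ W₁ := W₁.mul_mem _ _ ((locAt Bf cf.p₁).algebraMap_mem e) hz₁
  have hz₂' : algebraMap R F e * z₂ ∈ W₂ := W₂.mul_mem _ _ ((locAt Bf cf.p₂).algebraMap_mem e) hz₂
  have hu₁ : 1 + algebraMap R F (lam ^ p * w * e) * z₁ =
      1 + algebraMap R F (lam ^ p * w) * (algebraMap R F e * z₁) := by
    rw [map_mul (algebraMap R F) (lam ^ p * w) e]
    ring
  have hu₂ : 1 + algebraMap R F (lam ^ p * w * e) * z₁ =
      1 + algebraMap R F (lam ^ p * w) * (algebraMap R F e * z₂) := by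
    have h12 : 1 + algebraMap R F (lam ^ p * w * e) * z₁ =
        1 + algebraMap R F (lam ^ p * w * e) * z₂ :=
      mul_left_cancel₀ hgp (hfz₁.symm.trans hfz₂)
    rw [h12, map_mul (algebraMap R F) (lam ^ p * w) e]
    ring
  have hu0 : 1 + algebraMap R F (lam ^ p * w * e) * z₁ ≠ 0 := by
    intro h
    rw [h, mul_zero] at hfz₁
    exact hf hfz₁
  have hdivu : DivisibleDiv E p (1 + algebraMap R F (lam ^ p * w * e) * z₁) :=
    divisibleDiv_of_mul_pow hg0 hfz₁ hdiv
  have hDf : DeepOne Bf cf p lam (1 + algebraMap R F (lam ^ p * w * e) * z₁) :=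
    ⟨locOneR_of_mem_locAt Bf cf.p₁ _ _ _ hz₁' hu₁, locOneR_of_mem_locAt Bf cf.p₂ _ _ _ hz₂' hu₂⟩
  have hDi : DeepOne Bi ci p lam (1 + algebraMap R F (lam ^ p * w * e) * z₁) := by
    rw [hE₁] at hz₁'
    rw [hE₂] at hz₂'
    exact ⟨locOneR_of_mem_locAt Bi ci.p₁ _ _ _ hz₁' hu₁,
      locOneR_of_mem_locAt Bi ci.p₂ _ _ _ hz₂' hu₂⟩
  obtain ⟨h, hh0, hτ⟩ := hAlg _ hu0 hdivu hDf hDi
  refine ⟨τ g * h * (g ^ c)⁻¹, ?_, ?_⟩
  · exact mul_ne_zero (mul_ne_zero ((map_ne_zero_iff τ τ.injective).2 hg0) hh0)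
      (inv_ne_zero (pow_ne_zero _ hg0))
  · have hgc : g ^ c ≠ 0 := pow_ne_zero _ hg0
    have e1 : τ f = τ g ^ p * τ (1 + algebraMap R F (lam ^ p * w * e) * z₁) := by
      conv_lhs => rw [hfz₁]
      rw [map_mul, map_pow]
    rw [e1, hτ]
    conv_rhs => rw [hfz₁]
    have hgpc : g ^ (p * c) ≠ 0 := pow_ne_zero _ hg0
    rw [mul_pow, mul_pow, mul_pow, inv_pow, ← pow_mul, ← pow_mul, mul_comm c p]
    field_simp

/-- **DK, abstract core at depth `p²`** (`λ = ζ - 1`, `p ≥ 3`). -/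
theorem dkCore_sq (w : R) (hw : Irreducible w) (p : ℕ)
    (hp : p.Prime) (hp2 : p ≠ 2) (hpR : (p : R) ∈ IsLocalRing.maximalIdeal R) (ζ : R)
    (hζ : IsPrimitiveRoot ζ p) (x : F) (Bf Bi : Subalgebra R F)
    (hCf : ChartCtx E w x Bf) (hCi : ChartCtx E w x⁻¹ Bi)
    (cf : SSChart w Bf) (ci : SSChart w Bi) (V₁ V₂ : ValuationSubring F)
    (hfle₁ : ∀ b ∈ Bf, b ∈ V₁) (hfle₂ : ∀ b ∈ Bf, b ∈ V₂)
    (hfcut₁ : ∀ b : Bf, b ∈ cf.p₁ ↔ (b : F) * (algebraMap R F w)⁻¹ ∈ V₁)
    (hfcut₂ : ∀ b : Bf, b ∈ cf.p₂ ↔ (b : F) * (algebraMap R F w)⁻¹ ∈ V₂)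
    (hile₁ : ∀ b ∈ Bi, b ∈ V₁) (hile₂ : ∀ b ∈ Bi, b ∈ V₂)
    (hicut₁ : ∀ b : Bi, b ∈ ci.p₁ ↔ (b : F) * (algebraMap R F w)⁻¹ ∈ V₁)
    (hicut₂ : ∀ b : Bi, b ∈ ci.p₂ ↔ (b : F) * (algebraMap R F w)⁻¹ ∈ V₂)
    (c : ℕ) (τ : F ≃+* F) (hAlg : AlgPConclusion E Bf Bi cf ci p (ζ - 1) c τ)
    (f : F) (hf : f ≠ 0) (hdiv : DivisibleDiv E p f)
    (h₁ : ∃ g y : F, g ≠ 0 ∧ y ∈ V₁ ∧ f = g ^ p * (1 + (p : F) ^ 2 * y))
    (h₂ : ∃ g y : F, g ≠ 0 ∧ y ∈ V₂ ∧ f = g ^ p * (1 + (p : F) ^ 2 * y)) :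
    ∃ h : F, h ≠ 0 ∧ τ f = h ^ p * f ^ c := by
  obtain ⟨e, he⟩ := sq_natCast_eq_mul w hw p hp hp2 hpR ζ hζ
  have hcast : algebraMap R F ((p : R) ^ 2) = (p : F) ^ 2 := by
    rw [map_pow, map_natCast]
  refine dkCore w p (ζ - 1) x Bf Bi hCf hCi cf ci V₁ V₂ hfle₁ hfle₂ hfcut₁ hfcut₂ hile₁ hile₂
    hicut₁ hicut₂ c τ hAlg ((p : R) ^ 2) ⟨e, he⟩ f hf hdiv ?_ ?_
  · rw [hcast]
    exact h₁
  · rw [hcast]
    exact h₂

end Core

end Fermat.Agent.Ribet.H883.DK

end
-- ===== PACK-END Ribet/H883/DKCore.lean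

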