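import Fermat.Statements.S20
import Mathlib.RingTheory.Polynomial.ScaleRoots
import Mathlib.RingTheory.Valuation.LocalSubring
import Mathlib.RingTheory.Localization.AtPrime.Basic
import Mathlib.RingTheory.IntegralClosure.GoingDown
import Mathlib.RingTheory.Polynomial.Basic
import Fermat.Agent.Pack.S44C.G0E20L3
import Fermat.Agent.Pack.S44C.G0E10L3
import Fermat.Agent.Pack.S44C.G0E20L1
import Fermat.Agent.Pack.S44C.G0E15L3
import Fermat.Agent.Pack.S44C.G0E19L0
import Fermat.Agent.Pack.S44C.G0E20L2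
import Fermat.Agent.Pack.S44C.G0E3L2
import Fermat.Agent.Pack.S44C.G0E8L3
import Fermat.Agent.Pack.S44C.G0E8L0
import Fermat.Agent.Pack.S44C.G0E9L1
import Fermat.Agent.Pack.S44C.G0E9L0
import Fermat.Agent.Pack.S44C.G0E12L1
import Fermat.Agent.Pack.S44C.G0E20L0
import Fermat.Agent.Pack.S44C.G0E18L2
import Fermat.Agent.Pack.S44C.G0E18L3
import Fermat.Agent.Pack.S44C.G0E4L0
import Fermat.Agent.Pack.S44C.G0E17L1
import Fermat.Agent.Pack.S44C.G0E5L1
import Fermat.Agent.Pack.S44C.G0E5L3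
import Fermat.Agent.Pack.Fast891

-- ===== PACK-BEGIN Ribet/H823/EmbedAbs.lean
section



/-!
# Row RIBET, piece R1-GLUE, part 2 (helper823): the abstract embedding lemma

`h823_embed_abstract`: let `ρ` be an irreducible odd two-dimensional `𝔽_p`-representation of
`Gal(ℚ̄/ℚ)` of finite level (`p` odd), and `𝓔` a nonzero Galois-stable subgroup, killed by `p`, of a
smooth Galois module `J`, on which every Frobenius `τ` at a prime `ℓ ∉ S` satisfies
`τ² - tr ρ(τ) τ + det ρ(τ) = 0`.  Then there is an injective Galois-equivariant additive map from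
the space of `ρ` into `𝓔`.

Proof: `Orb` (helper449) gives a nonzero finite stable `𝔽_p`-subspace `V ⊆ 𝓔` of finite level;
Boston–Lenstra–Ribet (`H223.blr_frobenius`, helper223) embeds `ρ` in `V`.
-/

set_option autoImplicit false
set_option linter.style.haveILetI false

namespace Fermat.Agent.Ribet.H823

open Fermat.Agent.Lib.Cheb.Spec

/-- The Galois action on a stable subgroup killed by `p`, as `𝔽_p`-linear endomorphisms. -/
noncomputable def h823_galEnd {p : ℕ} {J : Type} [AddCommGroup J] [DistribMulAction GQ J]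
    (𝓔 : AddSubgroup J) (h𝓔G : ∀ (σ : GQ), ∀ z ∈ 𝓔, σ • z ∈ 𝓔)
    [Module (ZMod p) 𝓔] : GQ →* Module.End (ZMod p) 𝓔 where
  toFun σ := AddMonoidHom.toZModLinearMap p
    { toFun := fun z => ⟨σ • (z : J), h𝓔G σ z z.2⟩
      map_zero' := Subtype.ext (smul_zero σ)
      map_add' := fun x y => Subtype.ext (smul_add σ (x : J) (y : J)) }
  map_one' := by
    ext z
    exact one_smul GQ (z : J)
  map_mul' σ τ := by
    ext z
    exact mul_smul σ τ (z : J)

theorem h823_galEnd_coe {p : ℕ} {J : Type} [AddCommGroup J] [DistribMulAction GQ J]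
    (𝓔 : AddSubgroup J) (h𝓔G : ∀ (σ : GQ), ∀ z ∈ 𝓔, σ • z ∈ 𝓔)
    [Module (ZMod p) 𝓔] (σ : GQ) (z : 𝓔) :
    ((h823_galEnd (p := p) 𝓔 h𝓔G σ z : 𝓔) : J) = σ • (z : J) := rfl

/-- **Abstract embedding lemma** (BLR + Orb). -/
theorem h823_embed_abstract {p : ℕ} [Fact p.Prime] (hp2 : (2 : ZMod p) ≠ 0)
    {W₀ : Type} [AddCommGroup W₀] [Module (ZMod p) W₀]
    (h2 : Module.finrank (ZMod p) W₀ = 2)
    (ρ : GQ →* Module.End (ZMod p) W₀) (hρfin : GaloisFactorsThroughFiniteLevel ρ)
    (hirr : ∀ W : Submodule (ZMod p) W₀, (∀ g, W ≤ W.comap (ρ g)) → W = ⊥ ∨ W = ⊤)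
    (c : GQ) (hc : ρ c * ρ c = 1) (hc1 : ρ c ≠ 1) (hc2 : ρ c ≠ -1)
    {J : Type} [AddCommGroup J] [DistribMulAction GQ J]
    (𝓔 : AddSubgroup J) (h𝓔p : ∀ z ∈ 𝓔, p • z = 0)
    (h𝓔G : ∀ (σ : GQ), ∀ z ∈ 𝓔, σ • z ∈ 𝓔)
    (hsm : ∀ z ∈ 𝓔, ∃ L : IntermediateField ℚ Qb, FiniteDimensional ℚ L ∧
      ∀ σ : GQ, (∀ y ∈ L, σ y = y) → σ • z = z)
    (hne : ∃ z ∈ 𝓔, z ≠ 0) (S : Finset ℕ)
    (hfrob : ∀ (ℓ : ℕ) (A : ValuationSubring Qb) (τ : GQ), ℓ.Prime → ℓ ∉ S →
      A.LiesOverPrime ℓ → A.IsFrobeniusAt τ ℓ →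
      ∃ t d : ℤ, LinearMap.trace (ZMod p) W₀ (ρ τ) = (t : ZMod p) ∧
        LinearMap.det (ρ τ) = (d : ZMod p) ∧
        ∀ z ∈ 𝓔, τ • τ • z - t • (τ • z) + d • z = 0) :
    ∃ ι : W₀ →+ J, Function.Injective ι ∧ (∀ (σ : GQ) (w : W₀), ι (ρ σ w) = σ • ι w) ∧
      ∀ w, ι w ∈ 𝓔 := by
  classical
  haveI instM : Module (ZMod p) ↥𝓔 := AddCommGroup.zmodModule (n := p) (fun z =>
    Subtype.ext (by rw [AddSubgroup.coe_nsmul, h𝓔p z z.2]; rfl))
  let ρM : GQ →* Module.End (ZMod p) ↥𝓔 := h823_galEnd (p := p) 𝓔 h𝓔G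
  have hρM : ∀ (σ : GQ) (z : 𝓔), ((ρM σ z : 𝓔) : J) = σ • (z : J) := fun _ _ => rfl
  have hsmM : Fermat.Agent.S29.IsSmoothRep ρM := by
    intro z
    obtain ⟨L, hL, hfix⟩ := hsm z z.2
    exact ⟨L, hL, fun σ hσ => Subtype.ext (hfix σ hσ)⟩
  haveI : Nontrivial 𝓔 := by
    obtain ⟨z, hz, hz0⟩ := hne
    exact ⟨⟨⟨z, hz⟩, 0, fun h => hz0 (congrArg Subtype.val h)⟩⟩
  obtain ⟨V, hV0, -, hVst, L, hL, hLfix⟩ :=
    Fermat.Agent.S29.exists_finite_stable_submodule ρM hsmM
  let π : GQ →* Module.End (ZMod p) ↥V :=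
    { toFun := fun σ => (ρM σ).restrict (hVst σ)
      map_one' := by
        ext x
        simp
      map_mul' := fun σ τ => by
        ext x
        simp [LinearMap.restrict_apply] }
  have hπ : ∀ (σ : GQ) (x : V), ((π σ x : V) : 𝓔) = ρM σ (x : 𝓔) := fun _ _ => rfl
  haveI : Nontrivial V := (Submodule.nontrivial_iff_ne_bot).mpr hV0
  have hπfin : GaloisFactorsThroughFiniteLevel π := by
    refine ⟨L, hL, fun σ hσ => ?_⟩
    ext x
    rw [hπ, hLfix σ hσ x x.2]
    rfl
  have hfrob' : ∀ (ℓ : ℕ) (A : ValuationSubring Qb) (τ : GQ), ℓ.Prime → ℓ ∉ S →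
      A.LiesOverPrime ℓ → A.IsFrobeniusAt τ ℓ →
      π τ * π τ - LinearMap.trace (ZMod p) W₀ (ρ τ) • π τ + LinearMap.det (ρ τ) • 1 = 0 := by
    intro ℓ A τ hℓ hℓS hA hτ
    obtain ⟨t, d, ht, hd, hrel⟩ := hfrob ℓ A τ hℓ hℓS hA hτ
    rw [ht, hd]
    ext x
    have h1 := hrel (x : 𝓔) (x : 𝓔).2
    simp only [LinearMap.add_apply, LinearMap.sub_apply, Module.End.mul_apply,
      LinearMap.smul_apply, Module.End.one_apply, LinearMap.zero_apply,
      Int.cast_smul_eq_zsmul]
    simp only [Submodule.coe_add, Submodule.coe_sub, Submodule.coe_smul_of_tower,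
      AddSubgroup.coe_add, AddSubgroup.coe_sub, AddSubgroup.coe_zsmul, hπ, hρM,
      Submodule.coe_zero, AddSubgroup.coe_zero]
    exact h1
  obtain ⟨φ, hφinj, hφeq⟩ := Fermat.Agent.Lib.Ribet.H223.blr_frobenius hp2 h2 ρ π hρfin hπfin
    hirr c hc hc1 hc2 S hfrob'
  refine ⟨(𝓔.subtype).comp ((V.subtype.toAddMonoidHom).comp φ.toAddMonoidHom), ?_, ?_, ?_⟩
  · intro x y hxy
    apply hφinj
    apply Subtype.ext
    apply Subtype.ext
    exact hxy
  · intro σ w
    show (((φ (ρ σ w) : V) : 𝓔) : J) = σ • (((φ w : V) : 𝓔) : J)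
    rw [hφeq]
    rfl
  · intro w
    exact ((φ w : V) : 𝓔).2

end Fermat.Agent.Ribet.H823

end
-- ===== PACK-END Ribet/H823/EmbedAbs.lean

-- ===== PACK-BEGIN S37/Red/H160/RatFibre.lean
section




/-!
# S37-RED, piece A (helper160): fibre sums over a rational point of the `t`-line

`K` algebraically closed (any characteristic), `F / K(t)` finite separable.  For `f ∈ Fˣ` with
`N_{F/K(t)}(f) = p(t)/q(t)` and `a ∈ K`:

  `∑_{P : t(P) = a} ord_P f = mult_a(p) - mult_a(q)`            (`sum_ord_fibre`)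

(sum over any finite set of places over `t = a` containing the zeros and poles of `f` there).
Uses the separable local norm formula `SepFF.sum_ord_eq_ord_norm` and the description of the
places of `K(t)`.
-/

set_option autoImplicit false
set_option linter.unusedSectionVars false

noncomputable section

namespace Fermat.Agent.S37.Red.H160

open AlgebraicCurve Polynomial IntermediateField
open Fermat.Agent.S37.H160

variable {K F : Type*} [Field K] [Field F] [Algebra K F]

section RatPlace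

variable {t : F}

/-- Every element of `K(t)` is a quotient of polynomials in `t`. -/
theorem exists_aeval_div (ht : Transcendental K t) (g : K⟮t⟯) :
    ∃ r s : K[X], s ≠ 0 ∧ g * aeval (AdjoinSimple.gen K t) s = aeval (AdjoinSimple.gen K t) r := by
  obtain ⟨r, s, hrs⟩ := (mem_adjoin_simple_iff K (g : F)).mp g.2
  have hcoe : ∀ p : K[X], ((aeval (AdjoinSimple.gen K t) p : K⟮t⟯) : F) = aeval t p := fun p => by
    rw [← AdjoinSimple.algebraMap_gen K t, aeval_algebraMap_apply]
    rfl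
  by_cases hs : s = 0
  · refine ⟨0, 1, one_ne_zero, ?_⟩
    apply Subtype.ext
    rw [hs, map_zero, div_zero] at hrs
    simp [hrs]
  · refine ⟨r, s, hs, ?_⟩
    have hs' : aeval t s ≠ 0 := fun h => hs ((transcendental_iff.mp ht) s h)
    apply Subtype.ext
    rw [MulMemClass.coe_mul, hcoe, hcoe, hrs, div_mul_cancel₀ _ hs']

theorem aeval_gen_ne_zero (ht : Transcendental K t) {p : K[X]} (hp : p ≠ 0) :
    aeval (AdjoinSimple.gen K t) p ≠ 0 := by
  intro h
  have h1 : ((aeval (AdjoinSimple.gen K t) p : K⟮t⟯) : F) = aeval t p := by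
    rw [← AdjoinSimple.algebraMap_gen K t, aeval_algebraMap_apply]
    rfl
  rw [h] at h1
  exact hp ((transcendental_iff.mp ht) p h1.symm)

variable (v : Place K K⟮t⟯) (a : K)

/-- At a place of `K(t)` over `t = a`, `t - a` is a uniformizer. -/
theorem ord_gen_sub_eq_one (ht : Transcendental K t)
    (hv : 0 < v.ord (AdjoinSimple.gen K t - algebraMap K K⟮t⟯ a)) :
    v.ord (AdjoinSimple.gen K t - algebraMap K K⟮t⟯ a) = 1 := by
  obtain ⟨π, hπ, hπ1⟩ := Fermat.Agent.S24.FF.exists_irreducible_coe v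
  obtain ⟨r, s, hs, hrs⟩ := exists_aeval_div ht (π : K⟮t⟯)
  have hπ0 : (π : K⟮t⟯) ≠ 0 := by
    intro h
    rw [h, v.ord_zero] at hπ1
    exact zero_ne_one hπ1
  have hs0 := aeval_gen_ne_zero ht hs
  have hr : r ≠ 0 := by
    rintro rfl
    rw [map_zero] at hrs
    rcases mul_eq_zero.mp hrs with h | h
    · exact hπ0 h
    · exact hs0 h
  have h1 := (Fermat.Agent.S24.H324.ord_aeval_at v _ a hv r hr).2
  have h2 := (Fermat.Agent.S24.H324.ord_aeval_at v _ a hv s hs).2
  have h3 := congrArg v.ord hrs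
  rw [v.ord_mul hπ0 hs0, hπ1, h1, h2] at h3
  set e := v.ord (AdjoinSimple.gen K t - algebraMap K K⟮t⟯ a) with he
  have h4 : ((r.rootMultiplicity a : ℤ) - s.rootMultiplicity a) * e = 1 := by linarith
  have h5 : e ∣ 1 := Dvd.intro_left _ h4
  have h6 := Int.eq_one_or_neg_one_of_mul_eq_one' h4
  rcases Int.isUnit_iff.mp (isUnit_of_dvd_one h5) with h | h
  · exact h
  · omega

/-- Order of a rational function at a place of `K(t)` over `t = a`. -/
theorem ord_of_mul_aeval (ht : Transcendental K t)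
    (hv : 0 < v.ord (AdjoinSimple.gen K t - algebraMap K K⟮t⟯ a))
    {g : K⟮t⟯} (hg : g ≠ 0) {r s : K[X]} (hs : s ≠ 0)
    (hrs : g * aeval (AdjoinSimple.gen K t) s = aeval (AdjoinSimple.gen K t) r) :
    v.ord g = (r.rootMultiplicity a : ℤ) - s.rootMultiplicity a := by
  have hs0 := aeval_gen_ne_zero ht hs
  have hr : r ≠ 0 := by
    rintro rfl
    rw [map_zero] at hrs
    rcases mul_eq_zero.mp hrs with h | h
    · exact hg h
    · exact hs0 h
  have h1 := (Fermat.Agent.S24.H324.ord_aeval_at v _ a hv r hr).2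
  have h2 := (Fermat.Agent.S24.H324.ord_aeval_at v _ a hv s hs).2
  have h3 := congrArg v.ord hrs
  rw [v.ord_mul hg hs0, h1, h2, ord_gen_sub_eq_one v a ht hv] at h3
  linarith

/-- A place of `K(t)` is determined by the value of `t`. -/
theorem ratPlace_unique (ht : Transcendental K t) {v v' : Place K K⟮t⟯} {a : K}
    (hv : 0 < v.ord (AdjoinSimple.gen K t - algebraMap K K⟮t⟯ a))
    (hv' : 0 < v'.ord (AdjoinSimple.gen K t - algebraMap K K⟮t⟯ a)) : v = v' := by
  apply Place.ext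
  ext g
  rw [Fermat.Agent.S24.FF.mem_iff_ord_nonneg, Fermat.Agent.S24.FF.mem_iff_ord_nonneg]
  rcases eq_or_ne g 0 with rfl | hg
  · simp
  obtain ⟨r, s, hs, hrs⟩ := exists_aeval_div ht g
  rw [ord_of_mul_aeval v a ht hv hg hs hrs, ord_of_mul_aeval v' a ht hv' hg hs hrs]

end RatPlace

section Fibre

variable [IsAlgClosed K] {t : F} [FiniteDimensional K⟮t⟯ F] [Algebra.IsSeparable K⟮t⟯ F]

theorem coe_gen_sub (a : K) :
    algebraMap K⟮t⟯ F (AdjoinSimple.gen K t - algebraMap K K⟮t⟯ a) = t - algebraMap K F a := by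
  rw [map_sub, AdjoinSimple.algebraMap_gen, ← IsScalarTower.algebraMap_apply]

/-- A place of `F` lies over `t = a` iff its restriction to `K(t)` does. -/
theorem ord_restrict_gen_sub_pos_iff (w : Place K F) (a : K) :
    0 < (w.restrict K⟮t⟯).ord (AdjoinSimple.gen K t - algebraMap K K⟮t⟯ a) ↔
      0 < w.ord (t - algebraMap K F a) := by
  have h := w.ord_restrict (F := K⟮t⟯) (AdjoinSimple.gen K t - algebraMap K K⟮t⟯ a)
  rw [coe_gen_sub] at h
  have he : 0 < (w.ramificationIndex K⟮t⟯ : ℤ) := by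
    exact_mod_cast w.ramificationIndex_pos (F := K⟮t⟯)
  rw [h]
  constructor
  · intro h1
    exact mul_pos he h1
  · intro h1
    exact (mul_pos_iff_of_pos_left he).mp h1

/-- **Fibre sum over a rational point.** -/
theorem sum_ord_fibre (ht : Transcendental K t) (a : K) (f : F) (hf : f ≠ 0)
    (p q : K[X]) (hq : q ≠ 0)
    (hN : algebraMap K⟮t⟯ F (Algebra.norm K⟮t⟯ f) * aeval t q = aeval t p)
    (S : Finset (Place K F)) (hS1 : ∀ P ∈ S, 0 < P.ord (t - algebraMap K F a))
    (hS2 : ∀ P : Place K F, P.ord f ≠ 0 → 0 < P.ord (t - algebraMap K F a) → P ∈ S) :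
    ∑ P ∈ S, P.ord f = (p.rootMultiplicity a : ℤ) - q.rootMultiplicity a := by
  classical
  have hta : Transcendental K (t - algebraMap K F a) := by
    intro halg
    apply ht
    have := halg.add (isAlgebraic_algebraMap (R := K) (A := F) a)
    simpa using this
  obtain ⟨P₀, hP₀⟩ := Fermat.Agent.Lib.RR.H443.exists_place_ord_pos' ht hta
  set v := P₀.restrict K⟮t⟯ with hvdef
  have hv : 0 < v.ord (AdjoinSimple.gen K t - algebraMap K K⟮t⟯ a) :=
    (ord_restrict_gen_sub_pos_iff P₀ a).mpr hP₀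
  have hfib : ∀ w : Place K F, w.restrict K⟮t⟯ = v ↔ 0 < w.ord (t - algebraMap K F a) := by
    intro w
    constructor
    · intro h
      rw [← ord_restrict_gen_sub_pos_iff, h]
      exact hv
    · intro h
      exact ratPlace_unique ht ((ord_restrict_gen_sub_pos_iff w a).mpr h) hv
  have hfin := SepFF.finite_fibre (F' := F) v
  set s := hfin.toFinset with hsdef
  have hs : ∀ w, w ∈ s ↔ w.restrict K⟮t⟯ = v := fun w => by
    rw [hsdef, Set.Finite.mem_toFinset]
    rfl
  have hdeg : ∀ w : Place K F, w.deg = 1 := fun w => Fermat.Agent.S24.FF.deg_eq_one w ht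
  have hsum := SepFF.sum_ord_eq_ord_norm v hdeg s hs f hf
  have hSs : S ⊆ s := fun P hP => (hs P).mpr ((hfib P).mpr (hS1 P hP))
  have h1 : ∑ P ∈ S, P.ord f = ∑ P ∈ s, P.ord f := by
    refine Finset.sum_subset hSs fun P hPs hPS => ?_
    by_contra hne
    exact hPS (hS2 P hne ((hfib P).mp ((hs P).mp hPs)))
  rw [h1, hsum]
  have hNne : Algebra.norm K⟮t⟯ f ≠ 0 := Algebra.norm_ne_zero_iff.mpr hf
  refine ord_of_mul_aeval v a ht hv hNne hq ?_
  apply (algebraMap K⟮t⟯ F).injective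
  rw [map_mul, ← aeval_algebraMap_apply, ← aeval_algebraMap_apply, AdjoinSimple.algebraMap_gen]
  exact hN

end Fibre

end Fermat.Agent.S37.Red.H160

end
end
-- ===== PACK-END S37/Red/H160/RatFibre.lean

-- ===== PACK-BEGIN A3/H499/OrthGood.lean
section


/-!
# A3 / GR-ORTH, route D (helper499): orthonormal bases from a degree equality (Deuring)

Abstract, instance-free; no places, no `div_red`, no uniformiser.

Setting = the first fields of `A3.H799.GoodRed` (`V`, `O`, `res`, `red`), a coordinate `x ∈ O`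
with transcendental reduction and elements `w i ∈ O` such that the reductions of `x ^ j * w i`
are `k`-linearly independent and every `f ∈ F` has a denominator `h ∈ K[x]` with
`h * f ∈ ∑ K x ^ j w i`  (i.e. the `w i` are a `K(x)`-basis of `F` whose reductions are
`k(x̄)`-independent: the situation `[F : K(x)] = [F_k : k(x̄)]` of `S37.Red.Datum.Good`).

* `exists_orthBasis_of_span` : every finitely generated `K`-subspace `M` of `F` has an
  orthonormal basis; if `x` and the `w i` are fixed by a group `I` of semilinear automorphisms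
  and `M` is `I`-stable, the basis can be chosen `I`-fixed.  (The monic denominator of `M` of
  minimal degree is unique, hence `I`-fixed.)
-/

set_option autoImplicit false
set_option linter.unusedSectionVars false
set_option linter.style.longLine false

noncomputable section

open AlgebraicCurve Polynomial

namespace Fermat.Agent.A3.H499

variable {K F : Type*} [Field K] [Field F] [Algebra K F]
variable {k : Type*} {Fk : Type*} [Field k] [Field Fk] [Algebra k Fk]

section PolyAction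

/-- A semilinear automorphism fixing `x` acts on `K[x]` through the coefficients. -/
theorem smul_aeval (g : SemilinearAut K F) (x : F) (hx : g • x = x) (p : K[X]) :
    g • (aeval x p) = aeval x (p.map (SemilinearAut.baseAut g : K →+* K)) := by
  induction p using Polynomial.induction_on' with
  | add p q hp hq => rw [map_add, smul_add, hp, hq, Polynomial.map_add, map_add]
  | monomial n a =>
    rw [Polynomial.map_monomial, aeval_monomial, aeval_monomial, smul_mul', smul_pow', hx,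
      SemilinearAut.smul_algebraMap]
    rfl

/-- semilinearity on scalar multiples -/
theorem smul_smul_semilinear (g : SemilinearAut K F) (a : K) (f : F) :
    g • (a • f) = (SemilinearAut.baseAut g a) • (g • f) := by
  rw [Algebra.smul_def, Algebra.smul_def, smul_mul', SemilinearAut.smul_algebraMap]

end PolyAction

section Twist

variable (V : ValuationSubring K) (O : ValuationSubring F) (res : V →+* k) (red : O →+* Fk)
variable (algebraMap_mem : ∀ a : K, a ∈ V → algebraMap K F a ∈ O)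
variable (red_algebraMap : ∀ (a : V) (h : algebraMap K F (a : K) ∈ O),
    red ⟨algebraMap K F (a : K), h⟩ = algebraMap k Fk (res a))
variable (red_surjective : Function.Surjective red)

include algebraMap_mem red_algebraMap red_surjective in
/-- **Twist.**  If `h ∈ O` has non-zero reduction and `h • M` lies in the span of an orthonormal
family, then `M` has an orthonormal basis (fixed by `J` if everything is). -/
theorem exists_orthBasis_of_mul_le {n : ℕ} (e : Fin n → O)
    (he : LinearIndependent k (fun i => red (e i)))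
    (h : O) (hh_red : red h ≠ 0) (M : Submodule K F)
    (hM : M.map (LinearMap.mulLeft K ((h : O) : F)) ≤
      Submodule.span K (Set.range fun i => ((e i : O) : F)))
    (J : Set (SemilinearAut K F)) (heJ : ∀ g ∈ J, ∀ i, g • ((e i : O) : F) = e i)
    (hhJ : ∀ g ∈ J, g • ((h : O) : F) = h)
    (hMJ : ∀ g ∈ J, ∀ f ∈ M, g • f ∈ M) :
    ∃ (d : ℕ) (b : Fin d → O), IsOrthBasis k O red M b ∧
      ∀ g ∈ J, ∀ i, g • ((b i : O) : F) = b i := by
  classical
  have hh0 : ((h : O) : F) ≠ 0 := by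
    intro h0
    apply hh_red
    have : h = 0 := Subtype.ext h0
    rw [this, map_zero]
  have hh_inv : ((h : O) : F)⁻¹ ∈ O := inv_mem_of_red_ne_zero O red red_surjective h hh_red
  set U₂ : Submodule K F := M.map (LinearMap.mulLeft K ((h : O) : F)) with hU₂
  have hU₂J : ∀ g ∈ J, ∀ f ∈ U₂, g • f ∈ U₂ := by
    rintro g hg _ ⟨f, hf', rfl⟩
    have hf : f ∈ M := hf'
    refine ⟨g • f, hMJ g hg f hf, ?_⟩
    show ((h : O) : F) * (g • f) = g • (((h : O) : F) * f)
    rw [smul_mul', hhJ g hg]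
  obtain ⟨d₂, u₂, ⟨hu₂_ind, hu₂_mem, hu₂_span⟩, hu₂J⟩ :=
    exists_orthBasis_of_le V O res red algebraMap_mem red_algebraMap e he U₂ hM J heJ hU₂J
  -- untwist
  set hinv : O := ⟨((h : O) : F)⁻¹, hh_inv⟩ with hhinv
  have hmul : h * hinv = 1 := Subtype.ext (mul_inv_cancel₀ hh0)
  have hred_inv : red hinv ≠ 0 := by
    intro h0
    have := congrArg red hmul
    rw [map_mul, h0, mul_zero, map_one] at this
    exact zero_ne_one this
  have hb_coe : ∀ i, (((u₂ i * hinv : O) : O) : F) = ((u₂ i : O) : F) * ((h : O) : F)⁻¹ :=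
    fun i => rfl
  have hb_mem : ∀ i, (((u₂ i * hinv : O) : O) : F) ∈ M := by
    intro i
    obtain ⟨f, hf, hfi⟩ := hu₂_mem i
    have hfi' : ((h : O) : F) * f = ((u₂ i : O) : F) := hfi
    rw [hb_coe, ← hfi', mul_comm, ← mul_assoc, inv_mul_cancel₀ hh0, one_mul]
    exact hf
  refine ⟨d₂, fun i => u₂ i * hinv, ⟨?_, hb_mem, ?_⟩, ?_⟩
  · have h1 : (fun i => red (u₂ i * hinv)) =
        (LinearMap.mulRight k (red hinv)) ∘ (fun i => red (u₂ i)) := by
      funext i
      simp [map_mul]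
    rw [h1]
    refine hu₂_ind.map' _ ?_
    rw [LinearMap.ker_eq_bot]
    exact mul_left_injective₀ hred_inv
  · apply le_antisymm
    · rw [Submodule.span_le]
      rintro _ ⟨i, rfl⟩
      exact hb_mem i
    · intro f hf
      have h1 : ((h : O) : F) * f ∈ U₂ := ⟨f, hf, rfl⟩
      rw [← hu₂_span] at h1
      obtain ⟨c, hc⟩ := (Submodule.mem_span_range_iff_exists_fun K).mp h1
      have h2 : f = ∑ i, c i • (((u₂ i * hinv : O) : O) : F) := by
        have h3 : f = ((h : O) : F)⁻¹ * (((h : O) : F) * f) := by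
          rw [← mul_assoc, inv_mul_cancel₀ hh0, one_mul]
        rw [h3, ← hc, Finset.mul_sum]
        refine Finset.sum_congr rfl fun i _ => ?_
        rw [hb_coe, Algebra.smul_def, Algebra.smul_def]
        ring
      rw [h2]
      refine Submodule.sum_mem _ fun i _ => Submodule.smul_mem _ _ ?_
      exact Submodule.subset_span ⟨i, rfl⟩
  · intro g hg i
    show g • (((u₂ i * hinv : O) : O) : F) = ((u₂ i * hinv : O) : F)
    rw [hb_coe, smul_mul', smul_inv'', hu₂J g hg i, hhJ g hg]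

end Twist

section Core

variable {O : ValuationSubring F} (x : O) {n : ℕ} (w : Fin n → O)

/-- the `K`-span of the `x ^ j * w i`, `j ∈ ℕ` -/
def polySpan {O : ValuationSubring F} (x : O) {n : ℕ} (w : Fin n → O) : Submodule K F :=
  Submodule.span K (Set.range fun p : ℕ × Fin n => ((x : O) : F) ^ p.1 * ((w p.2 : O) : F))

/-- the `K`-span of the `x ^ j * w i`, `j < d` -/
def polySpanLt {O : ValuationSubring F} (x : O) {n : ℕ} (w : Fin n → O) (d : ℕ) :
    Submodule K F :=
  Submodule.span K (Set.range fun p : Fin d × Fin n =>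
    ((x : O) : F) ^ (p.1 : ℕ) * ((w p.2 : O) : F))

theorem polySpanLt_mono {d d' : ℕ} (h : d ≤ d') :
    polySpanLt (K := K) x w d ≤ polySpanLt (K := K) x w d' := by
  unfold polySpanLt
  rw [Submodule.span_le]
  rintro _ ⟨p, rfl⟩
  exact Submodule.subset_span ⟨(⟨p.1, lt_of_lt_of_le p.1.2 h⟩, p.2), rfl⟩

theorem exists_mem_polySpanLt {r : F} (hr : r ∈ polySpan (K := K) x w) :
    ∃ d, r ∈ polySpanLt (K := K) x w d := by
  unfold polySpan at hr
  induction hr using Submodule.span_induction with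
  | mem r hr =>
    obtain ⟨p, rfl⟩ := hr
    exact ⟨p.1 + 1, Submodule.subset_span ⟨(⟨p.1, Nat.lt_succ_self _⟩, p.2), rfl⟩⟩
  | zero => exact ⟨0, Submodule.zero_mem _⟩
  | add a b _ _ ha hb =>
    obtain ⟨d₁, h₁⟩ := ha
    obtain ⟨d₂, h₂⟩ := hb
    exact ⟨max d₁ d₂, Submodule.add_mem _ (polySpanLt_mono x w (le_max_left _ _) h₁)
      (polySpanLt_mono x w (le_max_right _ _) h₂)⟩
  | smul c a _ ha =>
    obtain ⟨d, hd⟩ := ha
    exact ⟨d, Submodule.smul_mem _ _ hd⟩

theorem exists_le_polySpanLt (M : Submodule K F) (hMfg : M.FG)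
    (hM : M ≤ polySpan (K := K) x w) : ∃ d, M ≤ polySpanLt (K := K) x w d := by
  classical
  obtain ⟨S, hS⟩ := hMfg
  have h1 : ∀ s ∈ S, ∃ d, s ∈ polySpanLt (K := K) x w d := fun s hs =>
    exists_mem_polySpanLt x w (hM (hS ▸ Submodule.subset_span hs))
  choose! dfun hdfun using h1
  refine ⟨S.sup dfun, ?_⟩
  rw [← hS, Submodule.span_le]
  intro s hs
  exact polySpanLt_mono x w (Finset.le_sup (f := dfun) hs) (hdfun s hs)

theorem mul_x_mem_polySpan {r : F} (hr : r ∈ polySpan (K := K) x w) :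
    ((x : O) : F) * r ∈ polySpan (K := K) x w := by
  unfold polySpan at hr ⊢
  induction hr using Submodule.span_induction with
  | mem r hr =>
    obtain ⟨p, rfl⟩ := hr
    refine Submodule.subset_span ⟨(p.1 + 1, p.2), ?_⟩
    show ((x : O) : F) ^ (p.1 + 1) * ((w p.2 : O) : F) = _
    rw [pow_succ']
    ring
  | zero => rw [mul_zero]; exact Submodule.zero_mem _
  | add a b _ _ ha hb => rw [mul_add]; exact Submodule.add_mem _ ha hb
  | smul c a _ ha => rw [mul_smul_comm]; exact Submodule.smul_mem _ _ ha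

theorem x_pow_mul_mem_polySpan (j : ℕ) {r : F} (hr : r ∈ polySpan (K := K) x w) :
    ((x : O) : F) ^ j * r ∈ polySpan (K := K) x w := by
  induction j with
  | zero => rw [pow_zero, one_mul]; exact hr
  | succ j ih =>
    rw [pow_succ', mul_assoc]
    exact mul_x_mem_polySpan x w ih

theorem aeval_mul_mem_polySpan (p : K[X]) {r : F} (hr : r ∈ polySpan (K := K) x w) :
    aeval ((x : O) : F) p * r ∈ polySpan (K := K) x w := by
  induction p using Polynomial.induction_on' with
  | add p q hp hq => rw [map_add, add_mul]; exact Submodule.add_mem _ hp hq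
  | monomial j a =>
    rw [aeval_monomial, mul_assoc, ← Algebra.smul_def]
    exact Submodule.smul_mem _ _ (x_pow_mul_mem_polySpan x w j hr)

theorem smul_mem_polySpan (g : SemilinearAut K F) (hgx : g • ((x : O) : F) = x)
    (hgw : ∀ i, g • ((w i : O) : F) = w i) {r : F} (hr : r ∈ polySpan (K := K) x w) :
    g • r ∈ polySpan (K := K) x w := by
  unfold polySpan at hr ⊢
  induction hr using Submodule.span_induction with
  | mem r hr =>
    obtain ⟨p, rfl⟩ := hr
    refine Submodule.subset_span ⟨p, ?_⟩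
    show _ = g • (((x : O) : F) ^ p.1 * ((w p.2 : O) : F))
    rw [smul_mul', smul_pow', hgx, hgw]
  | zero => rw [smul_zero]; exact Submodule.zero_mem _
  | add a b _ _ ha hb => rw [smul_add]; exact Submodule.add_mem _ ha hb
  | smul c a _ ha => rw [smul_smul_semilinear]; exact Submodule.smul_mem _ _ ha

/-- `h` is a common denominator of `M` -/
def IsDen {O : ValuationSubring F} (x : O) {n : ℕ} (w : Fin n → O) (M : Submodule K F)
    (h : K[X]) : Prop :=
  ∀ f ∈ M, aeval ((x : O) : F) h * f ∈ polySpan (K := K) x w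

variable {x w}

theorem IsDen.sub {M : Submodule K F} {h h' : K[X]} (hh : IsDen x w M h) (hh' : IsDen x w M h') :
    IsDen x w M (h - h') := by
  intro f hf
  rw [map_sub, sub_mul]
  exact Submodule.sub_mem _ (hh f hf) (hh' f hf)

theorem IsDen.mul_left {M : Submodule K F} {h : K[X]} (hh : IsDen x w M h) (p : K[X]) :
    IsDen x w M (p * h) := by
  intro f hf
  rw [map_mul, mul_assoc]
  exact aeval_mul_mem_polySpan x w p (hh f hf)

theorem IsDen.map {M : Submodule K F} {h : K[X]} (hh : IsDen x w M h)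
    (g : SemilinearAut K F) (hgx : g • ((x : O) : F) = x)
    (hgw : ∀ i, g • ((w i : O) : F) = w i) (hgM : ∀ f ∈ M, g⁻¹ • f ∈ M) :
    IsDen x w M (h.map (SemilinearAut.baseAut g : K →+* K)) := by
  intro f hf
  have h1 := smul_mem_polySpan x w g hgx hgw (hh _ (hgM f hf))
  rw [smul_mul', smul_aeval g _ hgx, smul_inv_smul] at h1
  exact h1

theorem exists_isDen_ne_zero (M : Submodule K F) (hMfg : M.FG)
    (hspan : ∀ f : F, ∃ h : K[X], h ≠ 0 ∧ aeval ((x : O) : F) h * f ∈ polySpan (K := K) x w) :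
    ∃ h : K[X], h ≠ 0 ∧ IsDen x w M h := by
  classical
  obtain ⟨S, hS⟩ := hMfg
  choose hfun hfun0 hfun_mem using hspan
  refine ⟨∏ s ∈ S, hfun s, Finset.prod_ne_zero_iff.mpr fun s _ => hfun0 s, ?_⟩
  intro f hf
  rw [← hS] at hf
  induction hf using Submodule.span_induction with
  | mem s hs =>
    have hs' : s ∈ S := hs
    rw [← Finset.mul_prod_erase S hfun hs', mul_comm (hfun s), map_mul, mul_assoc]
    exact aeval_mul_mem_polySpan x w _ (hfun_mem s)
  | zero => rw [mul_zero]; exact Submodule.zero_mem _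
  | add a b _ _ ha hb => rw [mul_add]; exact Submodule.add_mem _ ha hb
  | smul c a _ ha => rw [mul_smul_comm]; exact Submodule.smul_mem _ _ ha

end Core

section Main

variable (V : ValuationSubring K) (O : ValuationSubring F) (res : V →+* k) (red : O →+* Fk)
variable (algebraMap_mem : ∀ a : K, a ∈ V → algebraMap K F a ∈ O)
variable (red_algebraMap : ∀ (a : V) (h : algebraMap K F (a : K) ∈ O),
    red ⟨algebraMap K F (a : K), h⟩ = algebraMap k Fk (res a))
variable (red_surjective : Function.Surjective red)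

include algebraMap_mem red_algebraMap red_surjective in
/-- **Route D, core.**  Every finitely generated `K`-subspace `M` of `F` has an orthonormal
basis, which is `I`-fixed if `x`, the `w i` are `I`-fixed and `M` is `I`-stable. -/
theorem exists_orthBasis_of_span
    (x : O) (hxtr : Transcendental k (red x)) {n : ℕ} (w : Fin n → O)
    (horth : LinearIndependent k (fun p : ℕ × Fin n => red (x ^ p.1 * w p.2)))
    (hspan : ∀ f : F, ∃ h : K[X], h ≠ 0 ∧ aeval ((x : O) : F) h * f ∈ polySpan (K := K) x w)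
    (I : Subgroup (SemilinearAut K F))
    (hIx : ∀ g ∈ I, g • ((x : O) : F) = x)
    (hIw : ∀ g ∈ I, ∀ i, g • ((w i : O) : F) = w i)
    (M : Submodule K F) (hMfg : M.FG) (hMI : ∀ g ∈ I, ∀ f ∈ M, g • f ∈ M) :
    ∃ (d : ℕ) (u : Fin d → O), IsOrthBasis k O red M u ∧
      ∀ g ∈ I, ∀ a, g • ((u a : O) : F) = u a := by
  classical
  -- Step 1: a non-zero denominator of minimal degree
  obtain ⟨h₀', hh₀'0, hh₀'den⟩ := exists_isDen_ne_zero M hMfg hspan
  have hex : ∃ d, ∃ h : K[X], h ≠ 0 ∧ IsDen x w M h ∧ h.natDegree = d :=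
    ⟨_, h₀', hh₀'0, hh₀'den, rfl⟩
  obtain ⟨h₀, hh₀0, hh₀den, hh₀deg⟩ := Nat.find_spec hex
  have hmin : ∀ h : K[X], h ≠ 0 → IsDen x w M h → Nat.find hex ≤ h.natDegree :=
    fun h h0 hd => Nat.find_min' hex ⟨h, h0, hd, rfl⟩
  -- Step 2: the monic one
  have hlc : h₀.leadingCoeff ≠ 0 := leadingCoeff_ne_zero.mpr hh₀0
  set h₁ : K[X] := C h₀.leadingCoeff⁻¹ * h₀ with hh₁
  have hh₁monic : h₁.Monic := monic_C_mul_of_mul_leadingCoeff_eq_one (inv_mul_cancel₀ hlc)
  have hh₁den : IsDen x w M h₁ := hh₀den.mul_left _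
  have hh₁deg : h₁.natDegree = Nat.find hex := by
    rw [hh₁, natDegree_C_mul (inv_ne_zero hlc), hh₀deg]
  -- Step 3: it is `I`-fixed
  have hh₁I : ∀ g ∈ I, h₁.map (SemilinearAut.baseAut g : K →+* K) = h₁ := by
    intro g hg
    by_contra hne
    have hden' : IsDen x w M (h₁.map (SemilinearAut.baseAut g : K →+* K)) :=
      hh₁den.map g (hIx g hg) (hIw g hg) (fun f hf => hMI g⁻¹ (I.inv_mem hg) f hf)
    have hsub := hh₁den.sub hden'
    have hne' : h₁ - h₁.map (SemilinearAut.baseAut g : K →+* K) ≠ 0 :=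
      sub_ne_zero.mpr (Ne.symm hne)
    have h1 := hmin _ hne' hsub
    have hmonic' : (h₁.map (SemilinearAut.baseAut g : K →+* K)).Monic := hh₁monic.map _
    have hlt : (h₁ - h₁.map (SemilinearAut.baseAut g : K →+* K)).degree < h₁.degree :=
      degree_sub_lt_left (by rw [degree_map]) hh₁monic.ne_zero
        (by rw [hh₁monic.leadingCoeff, hmonic'.leadingCoeff])
    have h2 := natDegree_lt_natDegree hne' hlt
    omega
  -- Step 4: normalise to Gauss norm one
  have hsupp : h₁.support.Nonempty := ⟨h₁.natDegree, by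
    rw [mem_support_iff, coeff_natDegree, hh₁monic.leadingCoeff]; exact one_ne_zero⟩
  obtain ⟨m, hm_mem, hm_max⟩ :=
    Finset.exists_max_image h₁.support (fun i => V.valuation (h₁.coeff i)) hsupp
  set c : K := h₁.coeff m with hc
  have hc0 : c ≠ 0 := mem_support_iff.mp hm_mem
  set h : K[X] := C c⁻¹ * h₁ with hh
  have hcoeff : ∀ i, h.coeff i = c⁻¹ * h₁.coeff i := fun i => by rw [hh, coeff_C_mul]
  have hcoeffV : ∀ i, h.coeff i ∈ V := by
    intro i
    rw [hcoeff, ← ValuationSubring.valuation_le_one_iff, map_mul, map_inv₀]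
    have hv : V.valuation c ≠ 0 := (_root_.map_ne_zero _).mpr hc0
    rw [inv_mul_le_iff₀ (zero_lt_iff.mpr hv), mul_one]
    by_cases hi : i ∈ h₁.support
    · exact hm_max i hi
    · rw [notMem_support_iff.mp hi, map_zero]
      exact zero_le
  have hcoeffm : h.coeff m = 1 := by rw [hcoeff, ← hc, inv_mul_cancel₀ hc0]
  have hden : IsDen x w M h := hh₁den.mul_left _
  have hcI : ∀ g ∈ I, SemilinearAut.baseAut g c = c := by
    intro g hg
    have := congrArg (fun q : K[X] => q.coeff m) (hh₁I g hg)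
    simpa [coeff_map] using this
  have hhI : ∀ g ∈ I, h.map (SemilinearAut.baseAut g : K →+* K) = h := by
    intro g hg
    rw [hh, Polynomial.map_mul, map_C, hh₁I g hg]
    congr 2
    show SemilinearAut.baseAut g c⁻¹ = c⁻¹
    rw [map_inv₀, hcI g hg]
  -- the value `H = h(x) ∈ O`
  set H : O := ∑ i ∈ Finset.range (h.natDegree + 1),
    (⟨algebraMap K F (h.coeff i), algebraMap_mem _ (hcoeffV i)⟩ : O) * x ^ i with hH
  have hHcoe : ((H : O) : F) = aeval ((x : O) : F) h := by
    rw [aeval_eq_sum_range, hH]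
    push_cast
    refine Finset.sum_congr rfl fun i _ => ?_
    rw [Algebra.smul_def]
  set hbar : k[X] := ∑ i ∈ Finset.range (h.natDegree + 1),
    monomial i (res ⟨h.coeff i, hcoeffV i⟩) with hhbar
  have hHred : red H = aeval (red x) hbar := by
    rw [hH, hhbar, map_sum, map_sum]
    refine Finset.sum_congr rfl fun i _ => ?_
    rw [map_mul, map_pow, red_algebraMap ⟨h.coeff i, hcoeffV i⟩, aeval_monomial]
  have hmle : m ≤ h.natDegree := le_natDegree_of_ne_zero (by rw [hcoeffm]; exact one_ne_zero)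
  have hbar_ne : hbar ≠ 0 := by
    intro h0
    have h1 := congrArg (fun q : k[X] => q.coeff m) h0
    simp only [hhbar, finsetSum_coeff, coeff_monomial, coeff_zero] at h1
    rw [Finset.sum_ite_eq' (Finset.range (h.natDegree + 1)) m, if_pos (by
      rw [Finset.mem_range]; omega)] at h1
    have h2 : (⟨h.coeff m, hcoeffV m⟩ : V) = 1 := Subtype.ext hcoeffm
    rw [h2, map_one] at h1
    exact one_ne_zero h1
  have hHred0 : red H ≠ 0 := by
    rw [hHred]
    intro h0
    exact hbar_ne (transcendental_iff.mp hxtr hbar h0)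
  -- Step 5: `H • M` lies in a finite level
  have hU : M.map (LinearMap.mulLeft K ((H : O) : F)) ≤ polySpan (K := K) x w := by
    rintro _ ⟨f, hf, rfl⟩
    show ((H : O) : F) * f ∈ polySpan (K := K) x w
    rw [hHcoe]
    exact hden f hf
  obtain ⟨d, hd⟩ := exists_le_polySpanLt x w _ (hMfg.map _) hU
  -- Step 6: reindex by `Fin (d * n)`
  set ι : Fin (d * n) → ℕ × Fin n := fun a =>
    (((finProdFinEquiv.symm a).1 : ℕ), (finProdFinEquiv.symm a).2) with hι
  have hιinj : Function.Injective ι := by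
    intro a b hab
    have h1 : ((finProdFinEquiv.symm a).1 : ℕ) = ((finProdFinEquiv.symm b).1 : ℕ) :=
      congrArg (fun q : ℕ × Fin n => q.1) hab
    have h2 : (finProdFinEquiv.symm a).2 = (finProdFinEquiv.symm b).2 :=
      congrArg (fun q : ℕ × Fin n => q.2) hab
    exact finProdFinEquiv.symm.injective (Prod.ext (Fin.ext h1) h2)
  set e : Fin (d * n) → O := fun a => x ^ (ι a).1 * w (ι a).2 with he
  have he_ind : LinearIndependent k (fun a => red (e a)) := horth.comp ι hιinj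
  have hle : polySpanLt (K := K) x w d ≤
      Submodule.span K (Set.range fun a => ((e a : O) : F)) := by
    unfold polySpanLt
    rw [Submodule.span_le]
    rintro _ ⟨p, rfl⟩
    refine Submodule.subset_span ⟨finProdFinEquiv p, ?_⟩
    show ((x ^ (ι (finProdFinEquiv p)).1 * w (ι (finProdFinEquiv p)).2 : O) : F) = _
    simp only [hι, Equiv.symm_apply_apply]
    rfl
  have heI : ∀ g ∈ (I : Set (SemilinearAut K F)), ∀ a, g • ((e a : O) : F) = e a := by
    intro g hg a
    show g • (((x : O) : F) ^ (ι a).1 * ((w (ι a).2 : O) : F)) = _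
    rw [smul_mul', smul_pow', hIx g hg, hIw g hg]
    rfl
  have hHI : ∀ g ∈ (I : Set (SemilinearAut K F)), g • ((H : O) : F) = H := by
    intro g hg
    rw [hHcoe, smul_aeval g _ (hIx g hg), hhI g hg]
  exact exists_orthBasis_of_mul_le V O res red algebraMap_mem red_algebraMap red_surjective
    e he_ind H hHred0 M (hd.trans hle) (I : Set (SemilinearAut K F)) heI hHI hMI

end Main

end Fermat.Agent.A3.H499

end

end
-- ===== PACK-END A3/H499/OrthGood.lean

-- ===== PACK-BEGIN S20.lean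
section
-- Statement S20 (row 19): dim S₂(Γ₀(N)) = genus formula.
-- Frame route (captain helper20): fundamental system (unimodular frame) of ⊕ₖ M_k(Γ₀(N)) over ℂ[E₄,E₆],
-- class counts of the weights mod 4 / mod 6, degree relation, Cramer duality, numerics.











set_option autoImplicit false
open CuspForm

namespace Fermat.Agent.S20

open UpperHalfPlane ModularForm CongruenceSubgroup MatrixGroups Filter Module in
theorem result (N : ℕ) [NeZero N] :
    (Module.finrank ℂ (CuspForm (CongruenceSubgroup.Gamma0 N) 2) : ℚ) = ModularCurve.genusFormula N := by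
  have hneg := H800.neg_one_mem_Gamma0 N
  obtain ⟨𝔉⟩ := H800.exists_fundSystem_Gamma0 N
  have hP20 : ∀ j, 0 ≤ 𝔉.wt j ∧ Even (𝔉.wt j) := fun j =>
    P2h280.FundSystem.wt_even_nonneg (fun hk => C0h516.MF_eq_bot_of_neg _ hk) hneg 𝔉 j
  have hSF : ∀ k : ℤ, k ≤ 0 → SF (Gamma0 N) k = ⊥ := fun k hk => C980.SF_eq_bot_of_nonpos _ hk
  have hΔ : ∀ (k : ℤ) (f : ℍ → ℂ), f ∈ SF (⊤ : Subgroup SL(2, ℤ)) k →
      ∃ g ∈ MF (⊤ : Subgroup SL(2, ℤ)) (k - 12), f = ModularForm.discriminant * g :=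
    fun k f hf => C980.exists_eq_discriminant_mul_top hf
  have hnegtop : ∀ k : ℤ, k < 0 → MF (⊤ : Subgroup SL(2, ℤ)) k = ⊥ :=
    fun k hk => C980.MF_eq_bot_of_neg _ hk
  have hconst : ∀ f ∈ MF (⊤ : Subgroup SL(2, ℤ)) 0, ∃ c : ℂ, f = fun _ => c :=
    fun f hf => C980.MF_zero_eq_const _ hf
  refine P5helper398.S20_of_core N (C0h516.SFequiv (Gamma0 N) 2) 𝔉 ?_ ?_ ?_ ?_ ?_ ?_ ?_
  · -- P2.0
    exact hP20
  · -- P2.1
    exact P2h280.FundSystem.card_wt_mod_four (fun hk => C0h516.MF_eq_bot_of_neg _ hk)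
      (fun hf γ τ x => C0h516.ev_smul hf γ τ x)
      (fun σ hσ ε hε => P1h225.finrank_invariants_of_sq_eq_one σ hσ ε hε) hneg 𝔉
  · -- P2.2
    exact P2h280.FundSystem.card_wt_mod_six (fun hk => C0h516.MF_eq_bot_of_neg _ hk)
      (fun hf γ τ x => C0h516.ev_smul hf γ τ x)
      (fun σ hσ ε hε => P1h225.finrank_invariants_of_cube_eq_one σ hσ ε hε) hneg 𝔉
  · -- P3
    exact P3helper361.sum_wt_of (fun hf γ τ x => C0h516.ev_smul hf γ τ x)
      (P1h225.det_Theta _) (P1h225.Theta_add _) (P1h225.Theta_zero _)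
      (fun hf h0 hinf => C980.weight_eq_zero_of_nonvanishing hf h0 hinf) 𝔉
  · -- P4.1
    exact fun j => P4h479.wt_le_ten 𝔉 hSF (fun j => (hP20 j).2) j
  · -- P4.2
    exact P4h479.finrank_SF_two 𝔉 hΔ hnegtop hconst hSF (fun j => (hP20 j).2)
  · -- P4.3
    exact P4h479.card_wt_zero 𝔉 (fun k hk => C980.MF_eq_bot_of_neg _ hk)
      (fun f hf => C980.MF_zero_eq_const _ hf) hnegtop

end Fermat.Agent.S20

end
-- ===== PACK-END S20.lean

-- ===== PACK-BEGIN A2/H729/GaussClosed.lean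
section



/-!
# A2 (helper729): the canonical Gauss ring is integrally closed in `F`

* `mem_chart_of_isIntegral_chart` : the charts are integrally closed in `F`.
* `mem_gaussO_of_isIntegral` : the Gauss ring `gaussO hw x` is integrally closed in `F`.
* `inv_not_mem_gaussO` : `w⁻¹ ∉ gaussO`.
-/

set_option autoImplicit false
set_option linter.unusedSectionVars false
set_option linter.style.haveILetI false

namespace Fermat.Agent.A2.H729

open Polynomial Fermat.Agent.S18.H138

variable {R : Type*} [CommRing R] {F : Type*} [Field F] [Algebra R F]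

/-- An element integral over a chart lies in the chart. -/
theorem mem_chart_of_isIntegral_chart {S : Set F} {y : F} (hy : IsIntegral (chart R S) y) :
    y ∈ chart R S := by
  rw [mem_chart]
  have h1 : IsIntegral (integralClosure (Algebra.adjoin R S) F) y := hy
  exact isIntegral_trans (R := Algebra.adjoin R S) (A := integralClosure (Algebra.adjoin R S) F)
    y h1

theorem IsGaussDenom.prod {w : R} (hw : Prime w) (x : F) {ι : Type*} (s : Finset ι)
    (g : ι → F) (h : ∀ i ∈ s, IsGaussDenom w x (g i)) : IsGaussDenom w x (∏ i ∈ s, g i) := by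
  classical
  induction s using Finset.induction_on with
  | empty => simpa using isGaussDenom_one hw x
  | insert a s ha ih =>
    rw [Finset.prod_insert ha]
    exact (h a (Finset.mem_insert_self a s)).mul hw
      (ih fun i hi => h i (Finset.mem_insert_of_mem hi))

/-- The Gauss ring is integrally closed in `F`. -/
theorem mem_gaussO_of_isIntegral {w : R} (hw : Prime w) {x f : F}
    (hf : IsIntegral (gaussO hw x) f) : f ∈ gaussO hw x := by
  classical
  obtain ⟨p, hpm, hp⟩ := hf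
  have hden : ∀ i : ℕ, ∃ s, IsGaussDenom w x s ∧
      s * ((p.coeff i : gaussO hw x) : F) ∈ chart R ({x} : Set F) := fun i => (p.coeff i).2
  choose s hs hsc using hden
  have hS : IsGaussDenom w x (∏ i ∈ Finset.range p.natDegree, s i) :=
    IsGaussDenom.prod hw x _ _ (fun i _ => hs i)
  have hSch : (∏ i ∈ Finset.range p.natDegree, s i) ∈ chart R ({x} : Set F) :=
    adjoin_le_chart _ hS.mem_adjoin
  have hSmem : (∏ i ∈ Finset.range p.natDegree, s i) ∈ gaussO hw x :=
    chart_fin_le_gaussO hw x hSch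
  have hScoeff : ∀ i < p.natDegree,
      (∏ i ∈ Finset.range p.natDegree, s i) * ((p.coeff i : gaussO hw x) : F) ∈
        chart R ({x} : Set F) := by
    intro i hi
    have h1 : (∏ j ∈ Finset.range p.natDegree, s j) =
        s i * ∏ j ∈ (Finset.range p.natDegree).erase i, s j :=
      (Finset.mul_prod_erase _ _ (Finset.mem_range.2 hi)).symm
    rw [h1, mul_right_comm]
    exact Subalgebra.mul_mem _ (hsc i)
      (Subalgebra.prod_mem _ fun j _ => adjoin_le_chart _ (hs j).mem_adjoin)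
  generalize hSdef : (∏ i ∈ Finset.range p.natDegree, s i) = S at hS hSch hSmem hScoeff
  -- the scaled polynomial
  have hroot : eval₂ (algebraMap (gaussO hw x) F) (S * f)
      (scaleRoots p (⟨S, hSmem⟩ : gaussO hw x)) = 0 := by
    have h1 := scaleRoots_eval₂_mul (p := p) (algebraMap (gaussO hw x) F) f
      (⟨S, hSmem⟩ : gaussO hw x)
    have h2 : algebraMap (gaussO hw x) F (⟨S, hSmem⟩ : gaussO hw x) = S := rfl
    rw [h2] at h1
    rw [h1, hp, mul_zero]
  have hlift : scaleRoots p (⟨S, hSmem⟩ : gaussO hw x) ∈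
      lifts (Subalgebra.inclusion (chart_fin_le_gaussO hw x)).toRingHom := by
    rw [lifts_iff_coeff_lifts]
    intro i
    rw [coeff_scaleRoots]
    rcases lt_trichotomy i p.natDegree with hi | hi | hi
    · have h1 : ((p.coeff i : gaussO hw x) : F) * S ^ (p.natDegree - i) ∈
          chart R ({x} : Set F) := by
        have h2 : S ^ (p.natDegree - i) = S * S ^ (p.natDegree - i - 1) := by
          rw [← pow_succ']; congr 1; omega
        have h3 : ((p.coeff i : gaussO hw x) : F) * S ^ (p.natDegree - i) =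
            (S * ((p.coeff i : gaussO hw x) : F)) * S ^ (p.natDegree - i - 1) := by
          rw [h2]; ring
        rw [h3]
        exact Subalgebra.mul_mem _ (hScoeff i hi) (Subalgebra.pow_mem _ hSch _)
      exact ⟨⟨_, h1⟩, Subtype.ext rfl⟩
    · rw [hi, hpm.coeff_natDegree, Nat.sub_self, pow_zero, mul_one]
      exact ⟨1, map_one _⟩
    · rw [coeff_eq_zero_of_natDegree_lt hi, zero_mul]
      exact ⟨0, map_zero _⟩
  obtain ⟨q, hq, -, hqm⟩ := lifts_and_degree_eq_and_monic hlift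
    ((monic_scaleRoots_iff (⟨S, hSmem⟩ : gaussO hw x)).2 hpm)
  have hint : IsIntegral (chart R ({x} : Set F)) (S * f) := by
    refine ⟨q, hqm, ?_⟩
    have h1 : (algebraMap (gaussO hw x) F).comp
        (Subalgebra.inclusion (chart_fin_le_gaussO hw x)).toRingHom =
        algebraMap (chart R ({x} : Set F)) F := rfl
    rw [← h1, ← eval₂_map, hq]
    exact hroot
  exact ⟨S, hS, mem_chart_of_isIntegral_chart hint⟩

section Dom

variable [IsDomain R] [IsIntegrallyClosed (Polynomial R)]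

/-- `w` is not a unit of the Gauss ring. -/
theorem inv_not_mem_gaussO (hinjR : Function.Injective (algebraMap R F)) {w : R}
    (hw : Prime w) {x : F} (hx : Transcendental R x) :
    (algebraMap R F w)⁻¹ ∉ gaussO hw x := by
  intro h
  have hw0 : algebraMap R F w ≠ 0 := fun h0 => hw.ne_zero (hinjR (by rw [h0, map_zero]))
  have h1 : InW (gaussO hw x) w (algebraMap R F 1) := by
    refine ⟨_, h, ?_⟩
    rw [map_one, mul_inv_cancel₀ hw0]
  obtain ⟨t, ht, htt⟩ := qep_fin hw hx _ (Subalgebra.algebraMap_mem _ (1 : R)) h1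
  have h2 : w ∣ (1 : R) := dvd_of_algebraMap_eq_mul hinjR hx w 1 ht htt
  exact hw.not_isUnit (isUnit_of_dvd_one h2)

end Dom

end Fermat.Agent.A2.H729

end
-- ===== PACK-END A2/H729/GaussClosed.lean

-- ===== PACK-BEGIN A2/Alg/H729/CompVal.lean
section


/-!
# WALL A2 / ALG (helper729): the local ring of a component as a valuation subring

`B ⊆ F` a noetherian chart with fraction field `F`, `p, q` ideals with `p` prime,
`p ⊓ q = (w)`, `¬ q ≤ p`, `w ≠ 0`.  Then `B_p ⊆ F` is a valuation subring (`compVal`) with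
uniformiser `w`:

* `algebraMap_mem_compVal`  : `R ⊆ B_p`;
* `inv_not_mem_compVal`     : `w⁻¹ ∉ B_p`;
* `mul_inv_mem_compVal`     : every non-unit of `B_p` is divisible by `w`;
* `exists_pow_mul_mem_compVal` : `F = B_p[1/w]`;
* `exists_mem_compVal_of_oneAt` : `OneAt B p u → u = 1 + w t`, `t ∈ B_p`.
-/

set_option autoImplicit false
set_option linter.unusedSectionVars false
set_option linter.style.haveILetI false

namespace Fermat.Agent.A2.Alg.H729

open Fermat.Agent.A2 Fermat.Agent.A2.Alg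

variable {R F : Type*} [CommRing R] [Field F] [Algebra R F]

theorem one_not_mem_of_prime {B : Type*} [CommRing B] {p : Ideal B} (hp : p.IsPrime) :
    (1 : B) ∉ p := fun h => hp.ne_top ((Ideal.eq_top_iff_one p).2 h)

theorem coe_ne_zero_of_not_mem {B : Subalgebra R F} {p : Ideal B} {b : B} (hb : b ∉ p) :
    (b : F) ≠ 0 := by
  intro h
  apply hb
  have : b = 0 := Subtype.ext h
  rw [this]
  exact p.zero_mem

/-- A normal form: `z * D = w ^ k * A` or `z⁻¹ * A = w ^ k * D`, `A, D ∉ p`. -/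
theorem exists_normal_form (w : R) (B : Subalgebra R F) [IsNoetherianRing B]
    [IsFractionRing B F] (p q : Ideal B) (hp : p.IsPrime)
    (hpq : p ⊓ q = Ideal.span {algebraMap R B w}) (hqp : ¬ q ≤ p)
    (hw0 : algebraMap R F w ≠ 0) (z : F) (hz : z ≠ 0) :
    ∃ (k : ℕ) (A D : B), A ∉ p ∧ D ∉ p ∧
      (z * (D : F) = algebraMap R F w ^ k * (A : F) ∨
        (0 < k ∧ z⁻¹ * (A : F) = algebraMap R F w ^ k * (D : F))) := by
  obtain ⟨k₁, k₂, A, D, hA, hD, e⟩ := H34.exists_decomp w B p q hp hpq hqp z hz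
  have hA0 := coe_ne_zero_of_not_mem hA
  have hD0 := coe_ne_zero_of_not_mem hD
  rcases le_or_gt k₂ k₁ with h | h
  · refine ⟨k₁ - k₂, A, D, hA, hD, Or.inl ?_⟩
    have h1 : algebraMap R F w ^ k₁ = algebraMap R F w ^ k₂ * algebraMap R F w ^ (k₁ - k₂) := by
      rw [← pow_add]; congr 1; omega
    rw [h1] at e
    have h2 : algebraMap R F w ^ k₂ * (z * (D : F)) =
        algebraMap R F w ^ k₂ * (algebraMap R F w ^ (k₁ - k₂) * (A : F)) := by
      rw [← mul_assoc _ _ (A : F), ← e]; ring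
    exact mul_left_cancel₀ (pow_ne_zero _ hw0) h2
  · refine ⟨k₂ - k₁, A, D, hA, hD, Or.inr ⟨by omega, ?_⟩⟩
    have h1 : algebraMap R F w ^ k₂ = algebraMap R F w ^ k₁ * algebraMap R F w ^ (k₂ - k₁) := by
      rw [← pow_add]; congr 1; omega
    rw [h1] at e
    have h2 : z * (algebraMap R F w ^ (k₂ - k₁) * (D : F)) = (A : F) := by
      have h3 : algebraMap R F w ^ k₁ * (z * (algebraMap R F w ^ (k₂ - k₁) * (D : F))) =
          algebraMap R F w ^ k₁ * (A : F) := by
        rw [← e]; ring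
      exact mul_left_cancel₀ (pow_ne_zero _ hw0) h3
    rw [← h2]
    field_simp

/-- The local ring `B_p ⊆ F` of a component of the special fibre, as a valuation subring. -/
noncomputable def compVal (w : R) (B : Subalgebra R F) [IsNoetherianRing B]
    [IsFractionRing B F] (p q : Ideal B) (hp : p.IsPrime)
    (hpq : p ⊓ q = Ideal.span {algebraMap R B w}) (hqp : ¬ q ≤ p)
    (hw0 : algebraMap R F w ≠ 0) : ValuationSubring F where
  carrier := {z | ∃ a b : B, b ∉ p ∧ z * (b : F) = (a : F)}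
  mul_mem' := by
    rintro y z ⟨a, b, hb, e⟩ ⟨a', b', hb', e'⟩
    refine ⟨a * a', b * b', fun h => ?_, ?_⟩
    · rcases hp.mem_or_mem h with h | h
      · exact hb h
      · exact hb' h
    · push_cast
      rw [← e, ← e']
      ring
  one_mem' := ⟨1, 1, one_not_mem_of_prime hp, by simp⟩
  add_mem' := by
    rintro y z ⟨a, b, hb, e⟩ ⟨a', b', hb', e'⟩
    refine ⟨a * b' + a' * b, b * b', fun h => ?_, ?_⟩
    · rcases hp.mem_or_mem h with h | h
      · exact hb h
      · exact hb' h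
    · push_cast
      rw [← e, ← e']
      ring
  zero_mem' := ⟨0, 1, one_not_mem_of_prime hp, by simp⟩
  neg_mem' := by
    rintro y ⟨a, b, hb, e⟩
    refine ⟨-a, b, hb, ?_⟩
    push_cast
    rw [← e]
    ring
  mem_or_inv_mem' := by
    intro z
    by_cases hz : z = 0
    · left
      subst hz
      exact ⟨0, 1, one_not_mem_of_prime hp, by simp⟩
    obtain ⟨k, A, D, hA, hD, e | ⟨-, e⟩⟩ := exists_normal_form w B p q hp hpq hqp hw0 z hz
    · left
      exact ⟨algebraMap R B w ^ k * A, D, hD, by rw [e]; rfl⟩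
    · right
      exact ⟨algebraMap R B w ^ k * D, A, hA, by rw [e]; rfl⟩

section Props

variable (w : R) (B : Subalgebra R F) [IsNoetherianRing B] [IsFractionRing B F]
  (p q : Ideal B) (hp : p.IsPrime) (hpq : p ⊓ q = Ideal.span {algebraMap R B w})
  (hqp : ¬ q ≤ p) (hw0 : algebraMap R F w ≠ 0)

theorem mem_compVal {z : F} :
    z ∈ compVal w B p q hp hpq hqp hw0 ↔ ∃ a b : B, b ∉ p ∧ z * (b : F) = (a : F) := Iff.rfl

theorem algebraMap_mem_compVal (r : R) : algebraMap R F r ∈ compVal w B p q hp hpq hqp hw0 :=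
  ⟨algebraMap R B r, 1, one_not_mem_of_prime hp, by
    rw [OneMemClass.coe_one, mul_one]; rfl⟩

omit [IsNoetherianRing B] [IsFractionRing B F] in
include hpq in
theorem algebraMap_mem_p : algebraMap R B w ∈ p := by
  have : algebraMap R B w ∈ p ⊓ q := by
    rw [hpq]; exact Ideal.mem_span_singleton_self _
  exact this.1

theorem inv_not_mem_compVal : (algebraMap R F w)⁻¹ ∉ compVal w B p q hp hpq hqp hw0 := by
  rintro ⟨a, b, hb, e⟩
  apply hb
  have h1 : (b : F) = algebraMap R F w * (a : F) := by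
    rw [← e]; field_simp
  have h2 : b = algebraMap R B w * a := Subtype.ext h1
  rw [h2]
  exact p.mul_mem_right _ (algebraMap_mem_p w B p q hpq)

theorem mul_inv_mem_compVal (a : F) (ha : a ∈ compVal w B p q hp hpq hqp hw0)
    (hinv : a⁻¹ ∉ compVal w B p q hp hpq hqp hw0) :
    a * (algebraMap R F w)⁻¹ ∈ compVal w B p q hp hpq hqp hw0 := by
  by_cases hz : a = 0
  · subst hz
    rw [zero_mul]
    exact (compVal w B p q hp hpq hqp hw0).zero_mem
  obtain ⟨k, A, D, hA, hD, e | ⟨-, e⟩⟩ := exists_normal_form w B p q hp hpq hqp hw0 a hz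
  · rcases Nat.eq_zero_or_pos k with hk | hk
    · exfalso
      apply hinv
      subst hk
      rw [pow_zero, one_mul] at e
      refine ⟨D, A, hA, ?_⟩
      rw [← e]
      field_simp
    · refine ⟨algebraMap R B w ^ (k - 1) * A, D, hD, ?_⟩
      have h1 : algebraMap R F w ^ k = algebraMap R F w * algebraMap R F w ^ (k - 1) := by
        rw [← pow_succ']; congr 1; omega
      have h2 : ((algebraMap R B w ^ (k - 1) * A : B) : F) =
          algebraMap R F w ^ (k - 1) * (A : F) := rfl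
      rw [h2]
      have h3 : a * (algebraMap R F w)⁻¹ * (D : F) = (a * (D : F)) * (algebraMap R F w)⁻¹ := by
        ring
      rw [h3, e, h1]
      field_simp
  · exfalso
    apply hinv
    exact ⟨algebraMap R B w ^ k * D, A, hA, by rw [e]; rfl⟩

theorem exists_pow_mul_mem_compVal (c : F) :
    ∃ k : ℕ, algebraMap R F w ^ k * c ∈ compVal w B p q hp hpq hqp hw0 := by
  by_cases hz : c = 0
  · subst hz
    exact ⟨0, by rw [mul_zero]; exact (compVal w B p q hp hpq hqp hw0).zero_mem⟩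
  obtain ⟨k, A, D, hA, hD, e | ⟨-, e⟩⟩ := exists_normal_form w B p q hp hpq hqp hw0 c hz
  · exact ⟨0, by
      rw [pow_zero, one_mul]
      exact ⟨algebraMap R B w ^ k * A, D, hD, by rw [e]; rfl⟩⟩
  · refine ⟨k, A, D, hD, ?_⟩
    have hA0 := coe_ne_zero_of_not_mem hA
    have h1 : (A : F) = c * (algebraMap R F w ^ k * (D : F)) := by
      rw [← e]; field_simp
    rw [h1]
    ring

theorem exists_mem_compVal_of_oneAt {u : F} (hu : OneAt B p u) :
    ∃ t ∈ compVal w B p q hp hpq hqp hw0, u = 1 + algebraMap R F w * t := by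
  obtain ⟨a, b, hb, hab, e⟩ := hu
  obtain ⟨s, hsq, hsp⟩ := SetLike.not_le_iff_exists.1 hqp
  have h1 : (a - b) * s ∈ p ⊓ q := ⟨p.mul_mem_right _ hab, q.mul_mem_left _ hsq⟩
  rw [hpq, Ideal.mem_span_singleton'] at h1
  obtain ⟨a', ha'⟩ := h1
  have hbs : b * s ∉ p := fun h => by
    rcases hp.mem_or_mem h with h | h
    · exact hb h
    · exact hsp h
  have hb0 := coe_ne_zero_of_not_mem hb
  have hs0 := coe_ne_zero_of_not_mem hsp
  have ha'F : (a' : F) * algebraMap R F w = ((a : F) - (b : F)) * (s : F) :=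
    congrArg (fun t : B => (t : F)) ha'
  refine ⟨(a' : F) * ((b : F) * (s : F))⁻¹, ⟨a', b * s, hbs, ?_⟩, ?_⟩
  · push_cast
    field_simp
  · have h2 : u = (a : F) * (b : F)⁻¹ := by
      rw [← e]; field_simp
    rw [h2]
    have h3 : algebraMap R F w * ((a' : F) * ((b : F) * (s : F))⁻¹) =
        ((a' : F) * algebraMap R F w) * ((b : F) * (s : F))⁻¹ := by ring
    rw [h3, ha'F]
    field_simp
    ring

end Props

end Fermat.Agent.A2.Alg.H729

end
-- ===== PACK-END A2/Alg/H729/CompVal.lean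

-- ===== PACK-BEGIN A2/H12/AlgLeavesU.lean
section



/-!
# Cell A2 — route G: the CORRECTED leaves of ALG (helper12, v2)

Same as `AlgLeaves.lean` with `IsKummerSplitU` / `SplitAtU` / `CoverConclusionU` (see `GSpecU.lean`
for the bug that made the v1 leaves `SheetsLeaf`, `RedLeaf`, `CountLeaf` too strong).
`BaseLeaf` and `RootLeaf` are unchanged.  **Leaf owners: target the `U` statements.**
`H12/AlgSSU.lean` : `algSS_of_leavesU : BaseLeaf → RootLeaf → SheetsLeafU → RedLeafU → ConstLeafU →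
CountLeafU → CoverLeafU → A2.AlgSSStatement`.
-/

set_option autoImplicit false

namespace Fermat.Agent.A2.H12

open Fermat.Agent.A2

/-- Leaf **SHEETS** (corrected). -/
def SheetsLeafU : Prop :=
  ∀ {R E F : Type} [CommRing R] [IsDomain R] [IsDiscreteValuationRing R]
    [HenselianLocalRing R] [IsAlgClosed (IsLocalRing.ResidueField R)]
    [Field E] [CharZero E] [Algebra R E] [IsFractionRing R E]
    [Field F] [Algebra E F] [Algebra R F] [IsScalarTower R E F]
    (w : R) (q m : ℕ) (x : F) (Bf Bi : Subalgebra R F)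
    (τ : F ≃+* F) (τE : E ≃+* E) (τR : R ≃+* R),
    SSCtx w q m x Bf Bi τ τE τR →
    ∀ (L : Type) [Field L] [Algebra F L] [Algebra R L] [IsScalarTower R F L],
      IsKummerSplitU L w x m → SheetsConclusion L w x

/-- Leaf **RED** (corrected). -/
def RedLeafU : Prop :=
  ∀ {R E F : Type} [CommRing R] [IsDomain R] [IsDiscreteValuationRing R]
    [HenselianLocalRing R] [IsAlgClosed (IsLocalRing.ResidueField R)]
    [Field E] [CharZero E] [Algebra R E] [IsFractionRing R E]
    [Field F] [Algebra E F] [Algebra R F] [IsScalarTower R E F]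
    (w : R) (q m : ℕ) (x : F) (Bf Bi : Subalgebra R F)
    (τ : F ≃+* F) (τE : E ≃+* E) (τR : R ≃+* R),
    SSCtx w q m x Bf Bi τ τE τR →
    ∀ (L : Type) [Field L] [Algebra F L] [Algebra R L] [IsScalarTower R F L],
      IsKummerSplitU L w x m → RedConclusion L w x

/-- Leaf **CONST** (corrected). -/
def ConstLeafU : Prop :=
  ∀ {R E F : Type} [CommRing R] [IsDomain R] [IsDiscreteValuationRing R]
    [HenselianLocalRing R] [IsAlgClosed (IsLocalRing.ResidueField R)]
    [Field E] [CharZero E] [Algebra R E] [IsFractionRing R E]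
    [Field F] [Algebra E F] [Algebra R F] [IsScalarTower R E F]
    (w : R) (q m : ℕ) (x : F) (Bf Bi : Subalgebra R F)
    (τ : F ≃+* F) (τE : E ≃+* E) (τR : R ≃+* R),
    SSCtx w q m x Bf Bi τ τE τR →
    ∀ (L : Type) [Field L] [Algebra F L] [Algebra R L] [IsScalarTower R F L],
      IsKummerSplitU L w x m → ConstConclusion (R := R) L x

/-- Leaf **COUNT** (corrected). -/
def CountLeafU : Prop :=
  ∀ {R E F : Type} [CommRing R] [IsDomain R] [IsDiscreteValuationRing R]
    [HenselianLocalRing R] [IsAlgClosed (IsLocalRing.ResidueField R)]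
    [Field E] [CharZero E] [Algebra R E] [IsFractionRing R E]
    [Field F] [Algebra E F] [Algebra R F] [IsScalarTower R E F]
    (w : R) (q m : ℕ) (x : F) (Bf Bi : Subalgebra R F)
    (τ : F ≃+* F) (τE : E ≃+* E) (τR : R ≃+* R),
    SSCtx w q m x Bf Bi τ τE τR →
    ∀ (L : Type) [Field L] [Algebra F L] [Algebra R L] [IsScalarTower R F L],
      IsKummerSplitU L w x m → CountConclusion L w x

/-- Leaf **COVER** (corrected). -/
def CoverLeafU : Prop :=
  ∀ {R E F : Type} [CommRing R] [IsDomain R] [IsDiscreteValuationRing R]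
    [HenselianLocalRing R] [IsAlgClosed (IsLocalRing.ResidueField R)]
    [Field E] [CharZero E] [Algebra R E] [IsFractionRing R E]
    [Field F] [Algebra E F] [Algebra R F] [IsScalarTower R E F]
    (w : R) (q m : ℕ) (x : F) (Bf Bi : Subalgebra R F)
    (τ : F ≃+* F) (τE : E ≃+* E) (τR : R ≃+* R),
    SSCtx w q m x Bf Bi τ τE τR →
    ∀ g : F, g ≠ 0 → HorDiv R m g →
      (∀ V : ValuationSubring F, IsSheet w x V → SplitAtU m V g) →
      CoverConclusionU w x m τ g

end Fermat.Agent.A2.H12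

end
-- ===== PACK-END A2/H12/AlgLeavesU.lean

-- ===== PACK-BEGIN A2/H373/SheetsCover.lean
section





/-!
# Cell A2 — route G, leaf SHEETS: sheets of a Kummer-split cover (helper373)

* `exists_valuationSubring_comap_eq` : a valuation subring of `F` extends to any field
  extension `L` of `F`;
* `isSheet_of_comap` : a valuation subring of `L` lying over a sheet of `F` is a sheet of `L`;
* `coverSplit_of_sheet` : the hypotheses `H93.CoverSplit` of COVER-SPLIT hold for every
  valuation subring `W` of a Kummer-split cover lying over a discrete sheet `V` of `F`.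
-/

set_option autoImplicit false
set_option linter.style.haveILetI false
set_option linter.unusedSectionVars false

namespace Fermat.Agent.A2.H373

open Polynomial
open Fermat.Agent.A2
open Fermat.Agent.A2.H12 (IsSheet SSCtx BaseConclusion)

section Ext

variable {F L : Type*} [Field F] [Field L] [Algebra F L]

/-- a valuation subring extends to every field extension -/
theorem exists_valuationSubring_comap_eq (V : ValuationSubring F) :
    ∃ W : ValuationSubring L, W.comap (algebraMap F L) = V := by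
  obtain ⟨W, hle, hloc⟩ :=
    IsLocalRing.exists_factor_valuationRing ((algebraMap F L).comp V.subtype)
  refine ⟨W, ?_⟩
  have h1 : ∀ f : F, f ∈ V → algebraMap F L f ∈ W := fun f hf => hle ⟨f, hf⟩
  ext f
  rw [ValuationSubring.mem_comap]
  constructor
  · intro hf
    by_contra hfV
    have hf0 : f ≠ 0 := by
      rintro rfl
      exact hfV V.zero_mem
    have hinv : f⁻¹ ∈ V := by
      rcases V.mem_or_inv_mem f with h | h
      · exact absurd h hfV
      · exact h
    -- `f⁻¹` is a unit of `W`, hence of `V`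
    have hunit : IsUnit (((algebraMap F L).comp V.subtype).codRestrict W.toSubring hle
        ⟨f⁻¹, hinv⟩) := by
      refine isUnit_iff_exists_inv.2 ⟨⟨algebraMap F L f, hf⟩, ?_⟩
      apply Subtype.ext
      show algebraMap F L f⁻¹ * algebraMap F L f = 1
      rw [← map_mul, inv_mul_cancel₀ hf0, map_one]
    have hunit' : IsUnit (⟨f⁻¹, hinv⟩ : V) := hloc.map_nonunit _ hunit
    obtain ⟨⟨t, ht⟩, htt⟩ := isUnit_iff_exists_inv.1 hunit'
    have h2 : f⁻¹ * t = 1 := congrArg (fun z : V => (z : F)) htt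
    have h3 : t = f := by
      have := congrArg (fun z => f * z) h2
      simp only [mul_one] at this
      rw [← this, ← mul_assoc, mul_inv_cancel₀ hf0, one_mul]
    exact hfV (h3 ▸ ht)
  · exact h1 f

end Ext

section SheetOver

variable {R F L : Type} [CommRing R] [Field F] [Algebra R F]
  [Field L] [Algebra F L] [Algebra R L] [IsScalarTower R F L]

/-- a valuation subring lying over a sheet is a sheet -/
theorem isSheet_of_comap {w : R} {x : F} {W : ValuationSubring L}
    (h : IsSheet w x (W.comap (algebraMap F L))) : IsSheet w (algebraMap F L x) W := by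
  refine ⟨?_, ?_, ?_, ?_⟩
  · intro r
    have := h.1 r
    rwa [ValuationSubring.mem_comap, ← IsScalarTower.algebraMap_apply] at this
  · have := h.2.1
    rwa [ValuationSubring.mem_comap] at this
  · have := h.2.2.1
    rwa [H12.mem_nonunits_comap, ← IsScalarTower.algebraMap_apply] at this
  · intro P hP
    have := h.2.2.2 P hP
    rwa [ValuationSubring.mem_comap, map_inv₀, ← aeval_algebraMap_apply] at this

theorem exists_sheet_over {w : R} {x : F} {V : ValuationSubring F} (hV : IsSheet w x V) :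
    ∃ W : ValuationSubring L, IsSheet w (algebraMap F L x) W ∧ W.comap (algebraMap F L) = V := by
  obtain ⟨W, hW⟩ := exists_valuationSubring_comap_eq (L := L) V
  exact ⟨W, isSheet_of_comap (by rw [hW]; exact hV), hW⟩

end SheetOver

section Bridge

variable {R F L : Type} [CommRing R] [Field F] [Algebra R F]
  [Field L] [Algebra F L] [Algebra R L] [IsScalarTower R F L]

theorem mem_of_mem_nonunits (V : ValuationSubring F) {a : F} (ha : a ∈ V.nonunits) : a ∈ V :=
  ValuationSubring.nonunits_subset ha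

theorem sub_mem_nonunits (V : ValuationSubring F) {a b : F} (ha : a ∈ V.nonunits)
    (hb : b ∈ V.nonunits) : a - b ∈ V.nonunits := by
  rw [ValuationSubring.mem_nonunits_iff] at ha hb ⊢
  exact lt_of_le_of_lt (Valuation.map_sub _ _ _) (max_lt ha hb)

/-- a nonunit of a discrete sheet is divisible by the uniformiser -/
theorem mul_inv_mem_of_disc {V : ValuationSubring F} {W : F} (hW : W ∈ V.nonunits)
    (hdisc : ∀ f : F, f ≠ 0 → ∃ (n : ℤ) (u : F), u ∈ V ∧ u⁻¹ ∈ V ∧ f = W ^ n * u)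
    {f : F} (hf : f ∈ V) (hf' : f⁻¹ ∉ V) : f * W⁻¹ ∈ V := by
  have hf0 : f ≠ 0 := by
    rintro rfl
    rw [inv_zero] at hf'
    exact hf' V.zero_mem
  obtain ⟨n, u, hu, hu', hu0, hfu⟩ := exists_nat_pow_mul V hW hdisc hf hf0
  have hW0 : W ≠ 0 := by
    rintro rfl
    rcases n with _ | n
    · rw [pow_zero, one_mul] at hfu
      rw [hfu] at hf'
      exact hf' hu'
    · rw [pow_succ, mul_zero, zero_mul] at hfu
      exact hf0 hfu
  rcases n with _ | n
  · rw [pow_zero, one_mul] at hfu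
    rw [hfu] at hf'
    exact absurd hu' hf'
  · have : f * W⁻¹ = W ^ n * u := by
      rw [hfu, pow_succ]
      field_simp
    rw [this]
    exact V.mul_mem _ _ (pow_mem (mem_of_mem_nonunits V hW) n) hu

theorem exists_mul_pow_mem_of_disc {V : ValuationSubring F} {W : F} (hW : W ∈ V.nonunits)
    (hdisc : ∀ f : F, f ≠ 0 → ∃ (n : ℤ) (u : F), u ∈ V ∧ u⁻¹ ∈ V ∧ f = W ^ n * u)
    (f : F) : ∃ k : ℕ, f * W ^ k ∈ V := by
  by_cases hf0 : f = 0
  · exact ⟨0, by rw [hf0, zero_mul]; exact V.zero_mem⟩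
  obtain ⟨n, u, hu, hu', hfu⟩ := hdisc f hf0
  have hWV : W ∈ V := mem_of_mem_nonunits V hW
  rcases le_or_gt 0 n with hn | hn
  · obtain ⟨k, rfl⟩ := Int.eq_ofNat_of_zero_le hn
    refine ⟨0, ?_⟩
    rw [pow_zero, mul_one, hfu, zpow_natCast]
    exact V.mul_mem _ _ (pow_mem hWV k) hu
  · have hW0 : W ≠ 0 := by
      rintro rfl
      rw [zero_zpow n hn.ne, zero_mul] at hfu
      exact hf0 hfu
    obtain ⟨k, hk⟩ : ∃ k : ℕ, n = -(k : ℤ) := ⟨(-n).toNat, by omega⟩
    refine ⟨k, ?_⟩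
    have : f * W ^ k = u := by
      rw [hfu, hk, zpow_neg, zpow_natCast]
      field_simp
    rw [this]
    exact hu

/-- **Bridge to COVER-SPLIT**: the hypotheses of `H93.CoverSplit` at a valuation subring of a
Kummer cover lying over a discrete sheet at which the Kummer generators split. -/
theorem coverSplit_of_sheet {w : R} {x : F} {m : ℕ} (hm : 0 < m) (hmu : IsUnit (m : R))
    {ζ : R} (hζ : IsPrimitiveRoot (algebraMap R F ζ) m)
    {V : ValuationSubring F} (hV : IsSheet w x V)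
    (hdisc : ∀ f : F, f ≠ 0 →
      ∃ (n : ℤ) (u : F), u ∈ V ∧ u⁻¹ ∈ V ∧ f = algebraMap R F w ^ n * u)
    (hw0 : algebraMap R F w ≠ 0)
    {n : ℕ} {y : Fin n → L} {g c : Fin n → F} (hg0 : ∀ i, g i ≠ 0)
    (hy : ∀ i, y i ^ m = algebraMap F L (g i))
    (hgen : Algebra.adjoin F (Set.range y) = ⊤)
    (hc : ∀ i, c i ≠ 0 ∧ c i ∈ V ∧ (c i)⁻¹ ∈ V ∧ g i - c i ^ m ∈ V.nonunits)
    {W : ValuationSubring L} (hW : W.comap (algebraMap F L) = V) :
    H93.CoverSplit V W (algebraMap R F w) m (algebraMap R F ζ) y g c := by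
  have hwnu : algebraMap R F w ∈ V.nonunits := hV.2.2.1
  have hcm : ∀ i, c i ^ m ∈ V := fun i => pow_mem (hc i).2.1 m
  have hgV : ∀ i, g i ∈ V := by
    intro i
    have : g i = (g i - c i ^ m) + c i ^ m := by ring
    rw [this]
    exact V.add_mem _ _ (mem_of_mem_nonunits V (hc i).2.2.2) (hcm i)
  refine
    { ext := fun f => by rw [← hW, ValuationSubring.mem_comap]
      w_inv_notMem := ?_
      w_gen := fun f hf hf' => mul_inv_mem_of_disc hwnu hdisc hf hf'
      w_disc := fun f => exists_mul_pow_mem_of_disc hwnu hdisc f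
      zeta := hζ
      m_pos := hm
      m_inv := ?_
      pow_eq := hy
      g_mem := hgV
      g_ne_zero := hg0
      g_inv := ?_
      c_mem := fun i => (hc i).2.1
      cong := ?_
      gen := hgen }
  · have := hwnu
    rw [ValuationSubring.mem_nonunits_iff_or] at this
    rcases this with h | h
    · exact absurd h hw0
    · exact h
  · obtain ⟨u, hu⟩ := hmu
    have h1 : (m : F) = algebraMap R F (u : R) := by rw [hu, map_natCast]
    have h2 : (m : F)⁻¹ = algebraMap R F ((u⁻¹ : Rˣ) : R) := by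
      rw [h1]
      apply inv_eq_of_mul_eq_one_left
      rw [← map_mul, Units.inv_mul, map_one]
    rw [h2]
    exact hV.1 _
  · intro i
    apply inv_mem_of_not_nonunit
    intro hgnu
    have h1 : c i ^ m ∈ V.nonunits := by
      have : c i ^ m = g i - (g i - c i ^ m) := by ring
      rw [this]
      exact sub_mem_nonunits V hgnu (hc i).2.2.2
    refine isUnitV_ne_nonunit V (pow_ne_zero m (hc i).1) ?_ h1
    rw [← inv_pow]
    exact pow_mem (hc i).2.2.1 m
  · intro i
    by_cases h0 : g i - c i ^ m = 0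
    · rw [h0, zero_mul]; exact V.zero_mem
    · refine mul_inv_mem_of_disc hwnu hdisc (mem_of_mem_nonunits V (hc i).2.2.2) ?_
      have := (hc i).2.2.2
      rw [ValuationSubring.mem_nonunits_iff_or] at this
      rcases this with h | h
      · exact absurd h h0
      · exact h

end Bridge

end Fermat.Agent.A2.H373

end
-- ===== PACK-END A2/H373/SheetsCover.lean

-- ===== PACK-BEGIN A2/H652/RedBase.lean
section







/-!
# Cell A2, route G — leaf RED, base step (helper652)

`baseRed_of_ssChart` : for the two semistable charts `Bf`, `Bi` (`SSChart`, frozen `A2/Spec.lean`)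
of the base `F`, the special fibre of each of the three charts of `F` is reduced and all its
components are sheets (`BaseRed w x`).

Ingredients:
* `exists_valuationSubring_center` : a valuation subring centred at a given prime of a
  subalgebra (Mathlib: `LocalSubring.exists_le_valuationSubring`);
* `coeff_dvd_of_mem_of_inf_eq` : going down (`R[x]` is integrally closed): both components
  `p₁`, `p₂` of the special fibre lie over the generic point `(w)` of the special fibre of `R[x]`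
  (here the incomparability fields of `SSChart` are used);
* hence the valuation subrings centred at `p₁`, `p₂` are sheets (`isSheet_of_center`), and
  `a ∈ p₁ ⊓ p₂ = (w)`.
-/

set_option autoImplicit false
set_option linter.style.haveILetI false
set_option linter.unusedSectionVars false

namespace Fermat.Agent.A2.H652

open Polynomial
open Fermat.Agent.A2 Fermat.Agent.A2.H12
open Fermat.Agent.S18.H138 (chart mem_chart mem_adjoin_singleton_iff
  isIntegrallyClosed_adjoin_singleton)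

section Center

variable {F : Type*} [Field F]

/-- A valuation subring centred at a given prime of a subring. -/
theorem exists_valuationSubring_center_subring (A : Subring F) (P : Ideal A) [P.IsPrime] :
    ∃ V : ValuationSubring F, (∀ b ∈ A, b ∈ V) ∧ ∀ b : A, (b : F) ∈ V.nonunits ↔ b ∈ P := by
  obtain ⟨V, hle, hloc⟩ := (LocalSubring.ofPrime A P).exists_le_valuationSubring
  have hAV : ∀ b ∈ A, b ∈ V := fun b hb => hle (LocalSubring.le_ofPrime A P hb)
  refine ⟨V, hAV, fun b => ⟨fun hb => ?_, fun hb => ?_⟩⟩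
  · by_contra hbP
    have hu : IsUnit (algebraMap A (LocalSubring.ofPrime A P).toSubring b) :=
      IsLocalization.map_units (M := P.primeCompl) _ ⟨b, hbP⟩
    obtain ⟨c, hc⟩ := hu.exists_right_inv
    have hc' : (b : F) * (c : F) = 1 := congrArg Subtype.val hc
    have hcV : (c : F) ∈ V := hle c.2
    have h1 : (b : F) * (c : F) ∈ V.nonunits := mul_mem_nonunits_right V hb hcV
    rw [hc'] at h1
    exact one_not_mem_nonunits V h1
  · have hnu : ¬ IsUnit (algebraMap A (LocalSubring.ofPrime A P).toSubring b) := by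
      rw [IsLocalization.AtPrime.isUnit_to_map_iff (LocalSubring.ofPrime A P).toSubring P]
      exact fun h => h hb
    have hnu' : ¬ IsUnit (Subring.inclusion hle (algebraMap A _ b)) := fun h =>
      hnu (hloc.map_nonunit _ h)
    have hbV : (b : F) ∈ V := hAV b b.2
    rw [ValuationSubring.mem_nonunits_iff_exists_mem_maximalIdeal]
    refine ⟨hbV, ?_⟩
    rw [IsLocalRing.mem_maximalIdeal, mem_nonunits_iff]
    exact hnu'

variable {R : Type*} [CommRing R] [Algebra R F]

/-- A valuation subring centred at a given prime of a subalgebra. -/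
theorem exists_valuationSubring_center (B : Subalgebra R F) (p : Ideal B) [p.IsPrime] :
    ∃ V : ValuationSubring F, (∀ b ∈ B, b ∈ V) ∧ ∀ b : B, (b : F) ∈ V.nonunits ↔ b ∈ p := by
  let φ : B.toSubring →+* B := (B.toSubring.subtype).codRestrict B (fun y => y.2)
  obtain ⟨V, h1, h2⟩ := exists_valuationSubring_center_subring B.toSubring (p.comap φ)
  refine ⟨V, fun b hb => h1 b hb, fun b => ?_⟩
  have := h2 ⟨b.1, b.2⟩
  rw [Ideal.mem_comap] at this
  exact this

end Center

section GoingDown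

variable {R : Type*} [CommRing R] [IsDomain R] {F : Type*} [Field F] [Algebra R F]

/-- `w` is a prime element of `R[x]`. -/
theorem prime_algebraMap_adjoin (w : R) (hw : Prime w) {x : F} (hx : Transcendental R x) :
    Prime (algebraMap R (Algebra.adjoin R ({x} : Set F)) w) := by
  have hinj : Function.Injective (aeval (R := R) x) :=
    (injective_iff_map_eq_zero _).2 (transcendental_iff.1 hx)
  let e : R[X] ≃ₐ[R] Algebra.adjoin R ({x} : Set F) :=
    (AlgEquiv.ofInjective (aeval (R := R) x) hinj).trans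
      (Subalgebra.equivOfEq _ _ (Algebra.adjoin_singleton_eq_range_aeval R x).symm)
  have h1 : algebraMap R (Algebra.adjoin R ({x} : Set F)) w = e (C w) := by
    rw [← e.commutes]
    rfl
  rw [h1, MulEquiv.prime_iff]
  exact prime_C_iff.2 hw

/-- **Going down.**  `B` the integral closure of `R[x]` in `F`, `p`, `p'` primes of `B` with
`p ∩ p' = (w)` and `p' ⊄ p`: then `p ∩ R[x] = w R[x]`. -/
theorem coeff_dvd_of_mem_of_inf_eq [IsIntegrallyClosed R[X]] (w : R) (hw : Prime w) {x : F}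
    (hx : Transcendental R x) (B : Subalgebra R F)
    (hB : ∀ f : F, f ∈ B ↔ IsIntegral (Algebra.adjoin R ({x} : Set F)) f)
    (p p' : Ideal B) [hp : p.IsPrime] (hinf : p ⊓ p' = Ideal.span {algebraMap R B w})
    (hnle : ¬ p' ≤ p) (b : B) (hb : b ∈ p) (P : R[X]) (hbP : (b : F) = aeval x P) (i : ℕ) :
    w ∣ P.coeff i := by
  have hAB : Algebra.adjoin R ({x} : Set F) ≤ B := fun y hy =>
    (hB y).2 (isIntegral_algebraMap (R := Algebra.adjoin R ({x} : Set F)) (x := ⟨y, hy⟩))
  letI : Algebra (Algebra.adjoin R ({x} : Set F)) B :=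
    (Subalgebra.inclusion hAB).toRingHom.toAlgebra
  haveI : IsScalarTower (Algebra.adjoin R ({x} : Set F)) B F :=
    IsScalarTower.of_algebraMap_eq (fun _ => rfl)
  have hinjAB : Function.Injective (algebraMap (Algebra.adjoin R ({x} : Set F)) B) :=
    Subalgebra.inclusion_injective hAB
  haveI : FaithfulSMul (Algebra.adjoin R ({x} : Set F)) B :=
    (faithfulSMul_iff_algebraMap_injective _ _).2 hinjAB
  haveI : Algebra.IsIntegral (Algebra.adjoin R ({x} : Set F)) B := ⟨fun y => by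
    have := (hB y).1 y.2
    exact (isIntegral_algebraMap_iff (B := F) Subtype.val_injective).1 this⟩
  haveI : IsIntegrallyClosed (Algebra.adjoin R ({x} : Set F)) :=
    isIntegrallyClosed_adjoin_singleton hx
  have hwA : Prime (algebraMap R (Algebra.adjoin R ({x} : Set F)) w) :=
    prime_algebraMap_adjoin w hw hx
  haveI hq : (Ideal.span {algebraMap R (Algebra.adjoin R ({x} : Set F)) w}).IsPrime :=
    (Ideal.span_singleton_prime hwA.ne_zero).2 hwA
  have hwB : algebraMap (Algebra.adjoin R ({x} : Set F)) B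
      (algebraMap R (Algebra.adjoin R ({x} : Set F)) w) = algebraMap R B w := rfl
  have hwp : algebraMap R B w ∈ p := by
    have : algebraMap R B w ∈ p ⊓ p' := by
      rw [hinf]
      exact Ideal.subset_span rfl
    exact this.1
  have hle : Ideal.span {algebraMap R (Algebra.adjoin R ({x} : Set F)) w} ≤
      p.under (Algebra.adjoin R ({x} : Set F)) := by
    rw [Ideal.span_le, Set.singleton_subset_iff]
    change algebraMap _ B _ ∈ p
    rw [hwB]
    exact hwp
  obtain ⟨P', hP'le, hP'prime, hP'over⟩ := Ideal.exists_ideal_le_liesOver_of_le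
    (p := Ideal.span {algebraMap R (Algebra.adjoin R ({x} : Set F)) w})
    (q := p.under (Algebra.adjoin R ({x} : Set F))) p hle
  have hwP' : algebraMap R B w ∈ P' := by
    rw [← hwB, ← Ideal.mem_of_liesOver P'
      (Ideal.span {algebraMap R (Algebra.adjoin R ({x} : Set F)) w})]
    exact Ideal.subset_span rfl
  have hinfle : p ⊓ p' ≤ P' := by
    rw [hinf, Ideal.span_le, Set.singleton_subset_iff]
    exact hwP'
  have hpP' : p ≤ P' := by
    rcases (hP'prime.inf_le).1 hinfle with h | h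
    · exact h
    · exact absurd (h.trans hP'le) hnle
  have hPp : P' = p := le_antisymm hP'le hpP'
  -- `b ∈ p ∩ R[x] = (w)`
  have hbA : (b : F) ∈ Algebra.adjoin R ({x} : Set F) := by
    rw [hbP]
    exact mem_adjoin_singleton_iff.2 ⟨P, rfl⟩
  have hbq : (⟨(b : F), hbA⟩ : Algebra.adjoin R ({x} : Set F)) ∈
      Ideal.span {algebraMap R (Algebra.adjoin R ({x} : Set F)) w} := by
    rw [Ideal.mem_of_liesOver P' (Ideal.span {algebraMap R (Algebra.adjoin R ({x} : Set F)) w}),
      hPp]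
    have : algebraMap (Algebra.adjoin R ({x} : Set F)) B ⟨(b : F), hbA⟩ = b := Subtype.ext rfl
    rw [this]
    exact hb
  obtain ⟨c, hc⟩ := Ideal.mem_span_singleton'.1 hbq
  obtain ⟨Q, hQ⟩ := mem_adjoin_singleton_iff.1 c.2
  have h2 : aeval x (Q * C w) = aeval x P := by
    rw [map_mul, aeval_C, hQ, ← hbP]
    exact congrArg Subtype.val hc
  have h3 : Q * C w = P := by
    have := (transcendental_iff.1 hx) (Q * C w - P) (by rw [map_sub, h2, sub_self])
    exact sub_eq_zero.1 this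
  rw [← h3, coeff_mul_C]
  exact dvd_mul_left _ _

end GoingDown

section Sheets

universe u

variable {R : Type u} [CommRing R] [IsDomain R] {F : Type u} [Field F] [Algebra R F]

/-- A valuation subring of `F` centred at a component of the special fibre of a semistable chart
is a sheet. -/
theorem isSheet_of_center [IsIntegrallyClosed R[X]] (w : R) (hw : Prime w) {x : F}
    (hx : Transcendental R x) (B : Subalgebra R F)
    (hB : ∀ f : F, f ∈ B ↔ IsIntegral (Algebra.adjoin R ({x} : Set F)) f)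
    (p p' : Ideal B) [hp : p.IsPrime] (hinf : p ⊓ p' = Ideal.span {algebraMap R B w})
    (hnle : ¬ p' ≤ p) (V : ValuationSubring F) (hBV : ∀ b ∈ B, b ∈ V)
    (hV : ∀ b : B, (b : F) ∈ V.nonunits ↔ b ∈ p) : IsSheet w x V := by
  have hAB : Algebra.adjoin R ({x} : Set F) ≤ B := fun y hy =>
    (hB y).2 (isIntegral_algebraMap (R := Algebra.adjoin R ({x} : Set F)) (x := ⟨y, hy⟩))
  have hwp : algebraMap R B w ∈ p := by
    have : algebraMap R B w ∈ p ⊓ p' := by
      rw [hinf]
      exact Ideal.subset_span rfl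
    exact this.1
  refine ⟨fun r => hBV _ (B.algebraMap_mem r), hBV _ (hAB (Algebra.subset_adjoin rfl)),
    (hV (algebraMap R B w)).2 hwp, ?_⟩
  intro P hP
  have hyB : aeval x P ∈ B := hAB (mem_adjoin_singleton_iff.2 ⟨P, rfl⟩)
  have hnot : aeval x P ∉ V.nonunits := by
    intro h
    have h1 : (⟨aeval x P, hyB⟩ : B) ∈ p := (hV ⟨aeval x P, hyB⟩).1 h
    obtain ⟨i, hi⟩ := hP
    exact hi (coeff_dvd_of_mem_of_inf_eq w hw hx B hB p p' hinf hnle _ h1 P rfl i)
  rw [ValuationSubring.mem_nonunits_iff_or] at hnot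
  by_contra h
  exact hnot (Or.inr h)

/-- **Base RED for one semistable chart.** -/
theorem baseRed_of_ssChart_one [IsIntegrallyClosed R[X]] (w : R) (hw : Prime w) {x : F}
    (hx : Transcendental R x) (B : Subalgebra R F)
    (hB : ∀ f : F, f ∈ B ↔ IsIntegral (Algebra.adjoin R ({x} : Set F)) f)
    (c : SSChart w B) (a : F) (ha : a ∈ B)
    (haV : ∀ V : ValuationSubring F, IsSheet w x V → a ∈ V.nonunits) :
    ∃ t ∈ B, a = algebraMap R F w * t := by
  haveI := c.prime₁
  haveI := c.prime₂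
  obtain ⟨V₁, hBV₁, hV₁⟩ := exists_valuationSubring_center B c.p₁
  obtain ⟨V₂, hBV₂, hV₂⟩ := exists_valuationSubring_center B c.p₂
  have hS₁ : IsSheet w x V₁ :=
    isSheet_of_center w hw hx B hB c.p₁ c.p₂ c.inf_eq c.not_le₂₁ V₁ hBV₁ hV₁
  have hS₂ : IsSheet w x V₂ :=
    isSheet_of_center w hw hx B hB c.p₂ c.p₁ (by rw [inf_comm]; exact c.inf_eq) c.not_le₁₂
      V₂ hBV₂ hV₂
  have h1 : (⟨a, ha⟩ : B) ∈ c.p₁ := (hV₁ ⟨a, ha⟩).1 (haV V₁ hS₁)
  have h2 : (⟨a, ha⟩ : B) ∈ c.p₂ := (hV₂ ⟨a, ha⟩).1 (haV V₂ hS₂)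
  have h3 : (⟨a, ha⟩ : B) ∈ c.p₁ ⊓ c.p₂ := ⟨h1, h2⟩
  rw [c.inf_eq] at h3
  obtain ⟨t, ht⟩ := Ideal.mem_span_singleton'.1 h3
  refine ⟨t, t.2, ?_⟩
  have := congrArg Subtype.val ht
  rw [mul_comm]
  exact this.symm

/-- A sheet for the coordinate `x⁻¹` is a sheet for the coordinate `x`. -/
theorem isSheet_of_isSheet_inv (w : R) {x : F} (hx0 : x ≠ 0) {V : ValuationSubring F}
    (hV : IsSheet w x⁻¹ V) : IsSheet w x V := by
  have hxV : x ∈ V := by
    have := hV.inv_mem
    rwa [inv_inv] at this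
  refine ⟨hV.1, hxV, hV.2.2.1, ?_⟩
  intro P hP
  have h1 : x ^ P.natDegree * aeval x⁻¹ (reflect P.natDegree P) = aeval x P := by
    have := Fermat.Agent.S18.H138.pow_mul_aeval_inv (R := R) hx0 (reflect P.natDegree P)
      (d := P.natDegree) (le_trans natDegree_reflect_le (by simp))
    rw [reflect_reflect] at this
    exact this
  have h2 : (aeval x⁻¹ (reflect P.natDegree P))⁻¹ ∈ V := by
    apply hV.2.2.2
    obtain ⟨i, hi⟩ := hP
    refine ⟨revAt P.natDegree i, ?_⟩
    rw [coeff_reflect, revAt_invol]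
    exact hi
  rw [← h1, mul_inv, ← inv_pow]
  exact V.mul_mem _ _ (pow_mem hV.2.1 _) h2

/-- **Base RED** from the two semistable charts. -/
theorem baseRed_of_ssChart [IsIntegrallyClosed R[X]] (w : R) (hw : Prime w) {x : F}
    (hx : Transcendental R x) (Bf Bi : Subalgebra R F)
    (hBf : ∀ f : F, f ∈ Bf ↔ IsIntegral (Algebra.adjoin R ({x} : Set F)) f)
    (hBi : ∀ f : F, f ∈ Bi ↔ IsIntegral (Algebra.adjoin R ({x⁻¹} : Set F)) f)
    (cf : SSChart w Bf) (ci : SSChart w Bi) : BaseRed w x := by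
  have hx0 : x ≠ 0 := Fermat.Agent.S18.H138.ne_zero_of_transcendental hx
  have hfin : ∀ a ∈ chart R ({x} : Set F),
      (∀ V : ValuationSubring F, IsSheet w x V → a ∈ V.nonunits) →
      ∃ t ∈ chart R ({x} : Set F), a = algebraMap R F w * t := by
    intro a ha haV
    obtain ⟨t, ht, hat⟩ := baseRed_of_ssChart_one w hw hx Bf hBf cf a ((hBf a).2 ha) haV
    exact ⟨t, (hBf t).1 ht, hat⟩
  intro T hT a ha haV
  rcases hT with rfl | rfl | rfl
  · exact hfin a ha haV
  · obtain ⟨t, ht, hat⟩ := baseRed_of_ssChart_one w hw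
      (Fermat.Agent.S18.H138.transcendental_inv hx) Bi hBi ci a ((hBi a).2 ha)
      (fun V hV => haV V (isSheet_of_isSheet_inv w hx0 hV))
    exact ⟨t, (hBi t).1 ht, hat⟩
  · obtain ⟨K, hK⟩ := Fermat.Agent.S18.H138.exists_pow_mul_mem_chart (R := R) hx0 ha
    obtain ⟨t, ht, hat⟩ := hfin _ hK (fun V hV =>
      mul_mem_nonunits_left V (pow_mem hV.2.1 K) (haV V hV))
    refine ⟨x⁻¹ ^ K * t, ?_, ?_⟩
    · refine Subalgebra.mul_mem _ (Subalgebra.pow_mem _ ?_ K) ?_
      · exact Fermat.Agent.S18.H138.mem_chart_of_mem (by simp)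
      · exact Fermat.Agent.S18.H138.chart_mono (by simp) ht
    · have hxK : x ^ K ≠ 0 := pow_ne_zero _ hx0
      have : a = x⁻¹ ^ K * (x ^ K * a) := by
        rw [inv_pow, ← mul_assoc, inv_mul_cancel₀ hxK, one_mul]
      rw [this, hat]
      ring

end Sheets

end Fermat.Agent.A2.H652

end
-- ===== PACK-END A2/H652/RedBase.lean

-- ===== PACK-BEGIN A2/Mod/H489/S1.lean
section



/-!
# WALL A2 / MODASM — sub-assembly S1 (helper489): the two components of both charts

`s1_of_leaves : L2 → L6 → L8 → L9 → L10 → S1Statement P E M q w`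
(`Fermat/Agent/A2/Mod/Asm.lean`, statement VERBATIM; the leaves are the `…Statement`s of
`Fermat/Agent/A2/Mod/Spec.lean`, VERBATIM; L3 is not needed: the Gauss property of `V∞` and `V₀`
on `E(x)` follows from the residue independence L9 / L10).

Proof: `H489.frame_exists_components` (chart of `x`) and `H489.frame_exists_components_inv`
(chart of `x⁻¹`), i.e. helper48's `GaussPairLe.qep2` + incomparability by weak approximation.
-/

set_option autoImplicit false
set_option linter.unusedSectionVars false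
set_option linter.style.haveILetI false
set_option synthInstance.maxHeartbeats 400000
set_option maxHeartbeats 1600000

noncomputable section

namespace Fermat.Agent.A2.Mod.H489

open ModularCurve HahnSeries Polynomial IsLocalRing
open Fermat.Agent.A2 Fermat.Agent.A2.Mod

variable (P : ValuationSubring _root_.Fermat.Agent.A2.Mod.Qb) (E : IntermediateField ℚ _root_.Fermat.Agent.A2.Mod.Qb) (N : ℕ)

/-- `ev` is `aeval`. -/
theorem ev_eq_aeval (x : _root_.Fermat.Agent.A2.Mod.FE E N) (a : Polynomial (_root_.Fermat.Agent.A2.Mod.RE P E)) :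
    ev P E N x a = aeval x a := rfl

/-- `cE` is the structure map. -/
theorem cE_eq_algebraMap (r : _root_.Fermat.Agent.A2.Mod.RE P E) : cE P E N r = algebraMap (_root_.Fermat.Agent.A2.Mod.RE P E) (_root_.Fermat.Agent.A2.Mod.FE E N) r := rfl

variable {P E N}

/-- `InW` in terms of the maximal ideal. -/
theorem inW_iff_mem_nonunits {V : ValuationSubring (_root_.Fermat.Agent.A2.Mod.FE E N)} {w : _root_.Fermat.Agent.A2.Mod.RE P E}
    (hu : H48.IsUnif V (algebraMap (_root_.Fermat.Agent.A2.Mod.RE P E) (_root_.Fermat.Agent.A2.Mod.FE E N) w)) (f : _root_.Fermat.Agent.A2.Mod.FE E N) :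
    InW P E N V w f ↔ f ∈ V.nonunits := by
  rw [ValuationSubring.mem_nonunits_iff, ← hu.mul_inv_mem_iff]
  rfl

/-- the uniformiser is a uniformiser of `V ∘ W` for every `E`-automorphism `W` -/
theorem isUnif_comap {V : ValuationSubring (_root_.Fermat.Agent.A2.Mod.FE E N)} {w : _root_.Fermat.Agent.A2.Mod.RE P E}
    (hu : H48.IsUnif V (algebraMap (_root_.Fermat.Agent.A2.Mod.RE P E) (_root_.Fermat.Agent.A2.Mod.FE E N) w)) (W : _root_.Fermat.Agent.A2.Mod.FE E N ≃ₐ[E] _root_.Fermat.Agent.A2.Mod.FE E N) :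
    H48.IsUnif (V.comap (W : _root_.Fermat.Agent.A2.Mod.FE E N →+* _root_.Fermat.Agent.A2.Mod.FE E N)) (algebraMap (_root_.Fermat.Agent.A2.Mod.RE P E) (_root_.Fermat.Agent.A2.Mod.FE E N) w) := by
  have hW : W (algebraMap (_root_.Fermat.Agent.A2.Mod.RE P E) (_root_.Fermat.Agent.A2.Mod.FE E N) w) = algebraMap (_root_.Fermat.Agent.A2.Mod.RE P E) (_root_.Fermat.Agent.A2.Mod.FE E N) w :=
    W.commutes (w : E)
  refine ⟨?_, ?_, ?_⟩
  · show W _ ∈ V
    rw [hW]
    exact hu.mem
  · show ¬ W _ ∈ V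
    rw [map_inv₀, hW]
    exact hu.inv_not_mem
  · intro f hf hfinv
    show W _ ∈ V
    rw [map_mul, map_inv₀, hW]
    refine hu.gen (W f) hf ?_
    intro h
    apply hfinv
    show W _ ∈ V
    rw [map_inv₀]
    exact h

/-- `V` lies over `R_E`. -/
theorem isOver_of_unif [IsDiscreteValuationRing (_root_.Fermat.Agent.A2.Mod.RE P E)] {V : ValuationSubring (_root_.Fermat.Agent.A2.Mod.FE E N)}
    {w : _root_.Fermat.Agent.A2.Mod.RE P E} (hw : Irreducible w)
    (hu : H48.IsUnif V (algebraMap (_root_.Fermat.Agent.A2.Mod.RE P E) (_root_.Fermat.Agent.A2.Mod.FE E N) w))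
    (hmem : ∀ r : _root_.Fermat.Agent.A2.Mod.RE P E, algebraMap (_root_.Fermat.Agent.A2.Mod.RE P E) (_root_.Fermat.Agent.A2.Mod.FE E N) r ∈ V) :
    Fermat.Agent.A2.H489.IsOver (_root_.Fermat.Agent.A2.Mod.RE P E) V where
  mem := hmem
  nonunit := by
    intro r hr
    rw [hw.maximalIdeal_eq, Ideal.mem_span_singleton] at hr
    obtain ⟨r', rfl⟩ := hr
    rw [map_mul, mul_comm]
    exact Fermat.Agent.A2.H489.mem_mul_nonunits (hmem r')
      ((ValuationSubring.mem_nonunits_iff V).mpr hu.val_lt_one)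

/-- `IndepMod` (Spec) gives `PolyIndepMod` (frame). -/
theorem polyIndepMod_of_indepMod [IsDiscreteValuationRing (_root_.Fermat.Agent.A2.Mod.RE P E)]
    {V : ValuationSubring (_root_.Fermat.Agent.A2.Mod.FE E N)} {w : _root_.Fermat.Agent.A2.Mod.RE P E} (hw : Irreducible w)
    (hu : H48.IsUnif V (algebraMap (_root_.Fermat.Agent.A2.Mod.RE P E) (_root_.Fermat.Agent.A2.Mod.FE E N) w)) {x : _root_.Fermat.Agent.A2.Mod.FE E N} {n : ℕ}
    {b : Fin n → _root_.Fermat.Agent.A2.Mod.FE E N} (hI : IndepMod P E N V w x b) :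
    Fermat.Agent.A2.H489.PolyIndepMod (_root_.Fermat.Agent.A2.Mod.RE P E) V x b := by
  intro a ha i
  rw [← Fermat.Agent.A2.H489.C_dvd_iff_map_residue_eq_zero hw]
  exact hI a ((inW_iff_mem_nonunits hu _).mpr ha) i

/-- `p = B ∩ 𝔪_V` is `IsCut`. -/
theorem isCut_of_mem_iff {V : ValuationSubring (_root_.Fermat.Agent.A2.Mod.FE E N)} {w : _root_.Fermat.Agent.A2.Mod.RE P E}
    (hu : H48.IsUnif V (algebraMap (_root_.Fermat.Agent.A2.Mod.RE P E) (_root_.Fermat.Agent.A2.Mod.FE E N) w))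
    {B : Subalgebra (_root_.Fermat.Agent.A2.Mod.RE P E) (_root_.Fermat.Agent.A2.Mod.FE E N)} {p : Ideal B}
    (hp : ∀ b : B, b ∈ p ↔ (b : _root_.Fermat.Agent.A2.Mod.FE E N) ∈ V.nonunits) : IsCut P E N w V B p :=
  fun b => (hp b).trans (inW_iff_mem_nonunits hu _).symm

/-- **MODASM sub-assembly S1** from the leaves L2, L6, L8, L9, L10 (all VERBATIM). -/
theorem s1_of_leaves (P : ValuationSubring _root_.Fermat.Agent.A2.Mod.Qb) (E : IntermediateField ℚ _root_.Fermat.Agent.A2.Mod.Qb) (M q : ℕ)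
    [NeZero M] [NeZero q] (w : _root_.Fermat.Agent.A2.Mod.RE P E)
    (hL2 : VinfBasicStatement P E w) (hL6 : VzeroNeStatement P E M q w)
    (hL8 : DegStatement E M q) (hL9 : IndInfStatement P E M q w)
    (hL10 : IndZeroStatement P E M q w) : S1Statement P E M q w := by
  intro hS V W hV hW y hy
  haveI hdvr : IsDiscreteValuationRing (_root_.Fermat.Agent.A2.Mod.RE P E) := hS.dvr
  have hw := hS.unif
  have hN : M * q ≠ 0 := mul_ne_zero hS.M_ne_zero hS.q_prime.ne_zero
  obtain ⟨hu, hconst, hj⟩ := hL2 (M * q) hN hdvr hw V hV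
  have hu₂ := isUnif_comap hu W
  have hmem₁ : ∀ r : _root_.Fermat.Agent.A2.Mod.RE P E, algebraMap (_root_.Fermat.Agent.A2.Mod.RE P E) (_root_.Fermat.Agent.A2.Mod.FE E (M * q)) r ∈ V :=
    fun r => (hconst (r : E)).mpr r.2
  have hmem₂ : ∀ r : _root_.Fermat.Agent.A2.Mod.RE P E, algebraMap (_root_.Fermat.Agent.A2.Mod.RE P E) (_root_.Fermat.Agent.A2.Mod.FE E (M * q)) r ∈
      V.comap (W : _root_.Fermat.Agent.A2.Mod.FE E (M * q) →+* _root_.Fermat.Agent.A2.Mod.FE E (M * q)) := by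
    intro r
    show W (algebraMap E (_root_.Fermat.Agent.A2.Mod.FE E (M * q)) (r : E)) ∈ V
    rw [W.commutes]
    exact hmem₁ r
  have ho₁ := isOver_of_unif hw hu hmem₁
  have ho₂ := isOver_of_unif hw hu₂ hmem₂
  obtain ⟨b, hb, hIb⟩ := hL9 hS V hV
  obtain ⟨c, hc, hIc⟩ := hL10 hS V W hV hW
  have hx₁ : xE E M q ∈ V := mul_mem (hj 1 (one_dvd _)).1 (hj q (dvd_mul_left q M)).1
  have hx₂ : xE E M q ∈ V.comap (W : _root_.Fermat.Agent.A2.Mod.FE E (M * q) →+* _root_.Fermat.Agent.A2.Mod.FE E (M * q)) := by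
    show W (xE E M q) ∈ V
    unfold xE
    rw [map_mul, hW.1 1 (M * q) (one_dvd _) (dvd_refl _) (one_mul _),
      hW.1 q M (dvd_mul_left q M) (dvd_mul_right M q) (mul_comm q M)]
    exact mul_mem (hj _ _).1 (hj _ _).1
  have hpos : 0 < (q + 1) * dedekindPsi M :=
    Nat.mul_pos (Nat.succ_pos q) (dedekindPsi_pos_of_ne_zero M hS.M_ne_zero)
  have hP₁ := polyIndepMod_of_indepMod hw hu hIb
  have hP₂ := polyIndepMod_of_indepMod hw hu₂ hIc
  have hG₁ := Fermat.Agent.A2.H489.IsGaussOver.of_polyIndepMod ho₁ hx₁ hpos hb hP₁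
  have hG₂ := Fermat.Agent.A2.H489.IsGaussOver.of_polyIndepMod ho₂ hx₂ hpos hc hP₂
  have hne : V ≠ V.comap (W : _root_.Fermat.Agent.A2.Mod.FE E (M * q) →+* _root_.Fermat.Agent.A2.Mod.FE E (M * q)) :=
    fun h => hL6 hS V W hV hW h.symm
  obtain ⟨-, hdeg, -⟩ := hL8 hS.q_prime hS.q_not_dvd
  haveI hfin : FiniteDimensional
      (IntermediateField.adjoin E ({xE E M q} : Set (_root_.Fermat.Agent.A2.Mod.FE E (M * q)))) (_root_.Fermat.Agent.A2.Mod.FE E (M * q)) :=
    Module.finite_of_finrank_pos (by rw [hdeg]; omega)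
  have hdeg' : Module.finrank
      (IntermediateField.adjoin E ({xE E M q} : Set (_root_.Fermat.Agent.A2.Mod.FE E (M * q)))) (_root_.Fermat.Agent.A2.Mod.FE E (M * q)) ≤
      (q + 1) * dedekindPsi M + (q + 1) * dedekindPsi M := by
    rw [hdeg]
    omega
  rcases hy with rfl | rfl
  · obtain ⟨p₁, p₂, hp₁, hp₂, hpr₁, hpr₂, -, h12, h21, hinf⟩ :=
      Fermat.Agent.A2.H489.frame_exists_components (E := E) hw hG₁ hG₂ hu hu₂ hne hb hc
        hP₁ hP₂ hdeg' (chartAlg P E (M * q) (xE E M q)) (fun _ => Iff.rfl)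
    exact ⟨p₁, p₂, isCut_of_mem_iff hu hp₁, isCut_of_mem_iff hu₂ hp₂, hpr₁, hpr₂, h12, h21,
      hinf⟩
  · obtain ⟨p₁, p₂, hp₁, hp₂, hpr₁, hpr₂, -, h12, h21, hinf⟩ :=
      Fermat.Agent.A2.H489.frame_exists_components_inv (E := E) hw hG₁ hG₂ hu hu₂ hne hb hc
        hP₁ hP₂ hdeg' (chartAlg P E (M * q) (xE E M q)⁻¹) (fun _ => Iff.rfl)
    exact ⟨p₁, p₂, isCut_of_mem_iff hu hp₁, isCut_of_mem_iff hu₂ hp₂, hpr₁, hpr₂, h12, h21,
      hinf⟩

end Fermat.Agent.A2.Mod.H489

end
end
-- ===== PACK-END A2/Mod/H489/S1.lean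

-- ===== PACK-BEGIN A2/Alg/H34/Asm.lean
section


/-!
# WALL A2 / ALG — route S assembly (helper34): `AlgSSStatement` from three leaves

`algSS_of_leaves : PuritySmoothLeaf → PurityNodeLeaf → GlueLeaf → AlgSSStatement`
(`AlgSSStatement` = frozen interface of `Fermat/Agent/A2/Spec.lean` v2).

The three leaf `Prop`s are VERBATIM the statements `purity_smooth`, `purity_node`, `glue` of
`origin/helper34:Fermat/Agent/A2/Alg/Skel.lean`, at universe level `0`.  Everything else (Step I,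
`DivisibleDiv` transport, the passage `PureAt u ⇒ LocalFactor (τ u / u)`) is proved in
`Alg/H34/{StepI,Basic,Base,Val}.lean`.  Neither `τ x = x` nor the finite order of `τ` is used.
-/

set_option autoImplicit false

namespace Fermat.Agent.A2.Alg.H34

open Fermat.Agent.A2 Fermat.Agent.A2.Alg

/-- **Leaf P-S** (purity at a closed point lying on ONE component). -/
def PuritySmoothLeaf : Prop :=
  ∀ {R E F : Type} [CommRing R] [IsDomain R] [IsDiscreteValuationRing R]
    [HenselianLocalRing R] [IsAlgClosed (IsLocalRing.ResidueField R)]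
    [Field E] [CharZero E] [Algebra R E] [IsFractionRing R E]
    [Field F] [Algebra E F] [Algebra R F] [IsScalarTower R E F]
    (q m : ℕ) (_ : q.Prime) (_ : (q : R) ∈ IsLocalRing.maximalIdeal R)
    (_ : 0 < m) (_ : ¬ q ∣ m)
    (w : R) (x : F) (B : Subalgebra R F) (_ : ChartCtx E w x B)
    (c : SSChart w B) (_ : Incomparable c)
    (u : F) (_ : u ≠ 0) (_ : DivisibleDiv E m u) (_ : IsSplit B c u)
    (n : Ideal B) (_ : n.IsMaximal) (_ : algebraMap R B w ∈ n)
    (_ : ¬ (c.p₁ ≤ n ∧ c.p₂ ≤ n)), PureAt B c m u n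

/-- **Leaf P-N** (purity at a crossing point). -/
def PurityNodeLeaf : Prop :=
  ∀ {R E F : Type} [CommRing R] [IsDomain R] [IsDiscreteValuationRing R]
    [HenselianLocalRing R] [IsAlgClosed (IsLocalRing.ResidueField R)]
    [Field E] [CharZero E] [Algebra R E] [IsFractionRing R E]
    [Field F] [Algebra E F] [Algebra R F] [IsScalarTower R E F]
    (q m : ℕ) (_ : q.Prime) (_ : (q : R) ∈ IsLocalRing.maximalIdeal R)
    (_ : 0 < m) (_ : ¬ q ∣ m)
    (w : R) (x : F) (B : Subalgebra R F) (_ : ChartCtx E w x B)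
    (c : SSChart w B) (_ : Incomparable c) (_ : SepCoord R E x B)
    (u : F) (_ : u ≠ 0) (_ : DivisibleDiv E m u) (_ : IsSplit B c u)
    (n : Ideal B) (_ : n.IsMaximal) (_ : algebraMap R B w ∈ n)
    (_ : c.p₁ ≤ n) (_ : c.p₂ ≤ n), PureAt B c m u n

/-- **Leaf GLUE** (a Kummer class locally factored at every closed point of the special fibre of
both charts is trivial). -/
def GlueLeaf : Prop :=
  ∀ {R E F : Type} [CommRing R] [IsDomain R] [IsDiscreteValuationRing R]
    [HenselianLocalRing R] [IsAlgClosed (IsLocalRing.ResidueField R)]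
    [Field E] [CharZero E] [Algebra R E] [IsFractionRing R E]
    [Field F] [Algebra E F] [Algebra R F] [IsScalarTower R E F]
    (q m : ℕ) (_ : q.Prime) (_ : (q : R) ∈ IsLocalRing.maximalIdeal R)
    (_ : 0 < m) (_ : ¬ q ∣ m)
    (w : R) (x : F) (Bf Bi : Subalgebra R F)
    (_ : ChartCtx E w x Bf) (_ : ChartCtx E w x⁻¹ Bi)
    (cf : SSChart w Bf) (ci : SSChart w Bi) (_ : Incomparable cf) (_ : Incomparable ci)
    (u : F) (_ : u ≠ 0) (_ : DivisibleDiv E m u)
    (_ : LocallyFactored Bf cf m u) (_ : LocallyFactored Bi ci m u),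
    ∃ y : F, y ≠ 0 ∧ u = y ^ m

theorem incomparable_of_ssChart {R F : Type*} [CommRing R] [Field F] [Algebra R F] {w : R}
    {B : Subalgebra R F} (c : SSChart w B) : Incomparable c :=
  ⟨c.not_le₁₂, c.not_le₂₁⟩

section Asm

variable {R E F : Type} [CommRing R] [IsDomain R] [IsDiscreteValuationRing R]
  [HenselianLocalRing R] [IsAlgClosed (IsLocalRing.ResidueField R)]
  [Field E] [CharZero E] [Algebra R E] [IsFractionRing R E]
  [Field F] [Algebra E F] [Algebra R F] [IsScalarTower R E F]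

/-- Purity at every closed point of the special fibre. -/
theorem purity_of_leaves (hPS : PuritySmoothLeaf) (hPN : PurityNodeLeaf)
    (q m : ℕ) (hq : q.Prime) (hqR : (q : R) ∈ IsLocalRing.maximalIdeal R)
    (hm : 0 < m) (hqm : ¬ q ∣ m)
    (w : R) (x : F) (B : Subalgebra R F) (hB : ChartCtx E w x B)
    (c : SSChart w B) (s : SepCoord R E x B)
    (u : F) (hu : u ≠ 0) (hdiv : DivisibleDiv E m u) (hs : IsSplit B c u)
    (n : Ideal B) (hn : n.IsMaximal) (hwn : algebraMap R B w ∈ n) : PureAt B c m u n := by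
  by_cases h1 : c.p₁ ≤ n ∧ c.p₂ ≤ n
  · exact hPN q m hq hqR hm hqm w x B hB c (incomparable_of_ssChart c) s u hu hdiv hs n hn hwn
      h1.1 h1.2
  · exact hPS q m hq hqR hm hqm w x B hB c (incomparable_of_ssChart c) u hu hdiv hs n hn hwn h1

/-- **Step II.**  A split Kummer class is fixed by `τ`. -/
theorem stepII_of_leaves (hPS : PuritySmoothLeaf) (hPN : PurityNodeLeaf) (hG : GlueLeaf)
    (q m : ℕ) (hq : q.Prime) (hqR : (q : R) ∈ IsLocalRing.maximalIdeal R)
    (hm : 0 < m) (hqm : ¬ q ∣ m)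
    (w : R) (x : F) (Bf Bi : Subalgebra R F)
    (hBf : ChartCtx E w x Bf) (hBi : ChartCtx E w x⁻¹ Bi)
    (cf : SSChart w Bf) (ci : SSChart w Bi)
    (sf : SepCoord R E x Bf) (si : SepCoord R E x⁻¹ Bi)
    (τ : F ≃+* F) (τE : E ≃+* E) (τR : R ≃+* R)
    (hτf : TauCtx w Bf τ τE τR) (hτi : TauCtx w Bi τ τE τR)
    (u : F) (hu : u ≠ 0) (hdiv : DivisibleDiv E m u)
    (hsf : IsSplit Bf cf u) (hsi : IsSplit Bi ci u) :
    ∃ h : F, h ≠ 0 ∧ τ u = h ^ m * u := by
  have hτu : τ u ≠ 0 := (map_ne_zero τ).2 hu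
  have hu' : τ u * u⁻¹ ≠ 0 := mul_ne_zero hτu (inv_ne_zero hu)
  have hdiv' : DivisibleDiv E m (τ u * u⁻¹) :=
    divisibleDiv_mul_inv m _ _ (divisibleDiv_tau τ τE hτf.hτE m u hdiv) hdiv
  have hf : LocallyFactored Bf cf m (τ u * u⁻¹) := fun n hn hwn =>
    localFactor_of_pureAt w Bf cf τ τE τR hτf m u hu n hn.isPrime hwn
      (purity_of_leaves hPS hPN q m hq hqR hm hqm w x Bf hBf cf sf u hu hdiv hsf n hn hwn)
  have hi : LocallyFactored Bi ci m (τ u * u⁻¹) := fun n hn hwn =>
    localFactor_of_pureAt w Bi ci τ τE τR hτi m u hu n hn.isPrime hwn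
      (purity_of_leaves hPS hPN q m hq hqR hm hqm w x⁻¹ Bi hBi ci si u hu hdiv hsi n hn hwn)
  obtain ⟨y, hy, hyu⟩ := hG q m hq hqR hm hqm w x Bf Bi hBf hBi cf ci
    (incomparable_of_ssChart cf) (incomparable_of_ssChart ci) _ hu' hdiv' hf hi
  refine ⟨y, hy, ?_⟩
  rw [← hyu, mul_assoc, inv_mul_cancel₀ hu, mul_one]

end Asm

/-- **ALG, route S**: the frozen interface `AlgSSStatement` from the three leaves. -/
theorem algSS_of_leaves (hPS : PuritySmoothLeaf) (hPN : PurityNodeLeaf) (hG : GlueLeaf) :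
    AlgSSStatement := by
  intro R E F _ _ _ _ _ _ _ _ _ _ _ _ _ w hw q m hq hqR hm hqm x hx hfin hconst Bf Bi hBf hBi
    cf ci sf si τ τE τR hτE hτR _ _ hτf hτi
  have hCf : ChartCtx E w x Bf := ⟨hw, hx, hfin, hconst, hBf⟩
  have hCi : ChartCtx E w x⁻¹ Bi := chartCtx_inv w hw x hx hfin hconst Bi hBi
  have hTf : TauCtx w Bf τ τE τR := ⟨hτE, hτR, hτf⟩
  have hTi : TauCtx w Bi τ τE τR := ⟨hτE, hτR, hτi⟩
  intro f hf hdiv
  have hτf0 : τ f ≠ 0 := (map_ne_zero τ).2 hf
  have hu : τ f * f⁻¹ ≠ 0 := mul_ne_zero hτf0 (inv_ne_zero hf)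
  have hdivu : DivisibleDiv E m (τ f * f⁻¹) :=
    divisibleDiv_mul_inv m _ _ (divisibleDiv_tau τ τE hτE m f hdiv) hdiv
  obtain ⟨h, hh, hh2⟩ := stepII_of_leaves hPS hPN hG q m hq hqR hm hqm w x Bf Bi hCf hCi cf ci
    sf si τ τE τR hTf hTi (τ f * f⁻¹) hu hdivu
    (stepI w x Bf hCf cf (incomparable_of_ssChart cf) τ τE τR hTf f hf)
    (stepI w x⁻¹ Bi hCi ci (incomparable_of_ssChart ci) τ τE τR hTi f hf)
  refine ⟨h, hh, ?_⟩
  rw [map_mul, map_inv₀] at hh2
  have h3 : τ (τ f) = h ^ m * (τ f * f⁻¹) * τ f := by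
    rw [← hh2, mul_assoc, inv_mul_cancel₀ hτf0, mul_one]
  rw [h3]
  field_simp

end Fermat.Agent.A2.Alg.H34

end
-- ===== PACK-END A2/Alg/H34/Asm.lean

-- ===== PACK-BEGIN Ribet/H524/WildPurity.lean
section
/-
# RIBET row 38, WALL-p, (I6) leaf WPUR = `H704.I6.WildPurityStatement`  (helper524)

`wildPurity524 : Fermat.Agent.Ribet.H704.I6.WildPurityStatement`, verbatim.

Proof.
0. `IsNode` gives discrete valuation rings `R ⧸ 𝔭ᵢ`; the branch hypotheses at `k = 1` give that
   `g` is a `p`-th power modulo `𝔭ᵢ`; node purity (`A2/H609 exists_unit_mul_pow_of_node`,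
   thickness-free) gives `g = ε₀ f ^ p` with `ε₀` a unit.
1. Successive approximation: for `j ≤ p e`, `ε₀ = s ^ p (1 + π ^ j z)` with `s` a unit.
   Step `j → j + 1`: `branch_step524` on both branches (hypotheses at `k = j + 1`) shows that
   `z` is a `p`-th power modulo `𝔭₁` and modulo `𝔭₂` (and `z ∈ 𝔭₁ ⊓ 𝔭₂ = (π)` if `p ∤ j`);
   the roots glue at the node (`glue_pow524`): `z = w ^ p + π z'`; divide by
   `(1 + π ^ (j / p) w) ^ p`.
2. At `j = p e`: `π ^ (p e) = λ ^ p η ^ (-p)`.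
The witness has `d₂ = 1`, `d₁ = f`.
-/




set_option autoImplicit false

namespace Fermat.Agent.Ribet.H524

open Ideal Fermat.Agent.Ribet.H704.I6

/-- In a domain, a nonzero nonunit `X` such that every nonzero element is associated to a power
of `X` is irreducible. -/
theorem irreducible_of_assoc_pow524 {D : Type*} [CommRing D] [IsDomain D] {X : D}
    (hX0 : X ≠ 0) (hnu : ¬ IsUnit X)
    (hass : ∀ a : D, a ≠ 0 → ∃ n : ℕ, Associated (X ^ n) a) : Irreducible X := by
  refine ⟨hnu, ?_⟩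
  intro a b hab
  have ha0 : a ≠ 0 := fun h0 => hX0 (by rw [hab, h0, zero_mul])
  have hb0 : b ≠ 0 := fun h0 => hX0 (by rw [hab, h0, mul_zero])
  obtain ⟨α, hα⟩ := hass a ha0
  obtain ⟨β, hβ⟩ := hass b hb0
  have h1 : Associated (X ^ (α + β)) X := by
    have h2 : Associated (X ^ α * X ^ β) (a * b) := hα.mul_mul hβ
    rw [← pow_add, ← hab] at h2
    exact h2
  rcases Nat.eq_zero_or_pos α with h0 | hαpos
  · left
    rw [h0, pow_zero] at hα
    exact (associated_one_iff_isUnit.mp hα.symm)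
  rcases Nat.eq_zero_or_pos β with h0 | hβpos
  · right
    rw [h0, pow_zero] at hβ
    exact (associated_one_iff_isUnit.mp hβ.symm)
  exfalso
  -- `α + β ≥ 2`: then `X` would be a unit
  obtain ⟨n, hn⟩ : ∃ n, α + β = n + 2 := ⟨α + β - 2, by omega⟩
  rw [hn] at h1
  obtain ⟨u, hu⟩ := h1
  have h2 : X * (X ^ (n + 1) * u) = X * 1 := by
    rw [mul_one]
    calc X * (X ^ (n + 1) * u) = X ^ (n + 2) * u := by ring
      _ = X := hu
  have h3 := mul_left_cancel₀ hX0 h2
  have h4 : IsUnit (X ^ (n + 1)) := IsUnit.of_mul_eq_one _ h3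
  exact hnu ((isUnit_pow_iff (Nat.succ_ne_zero n)).mp h4)

/-- A quotient by a prime in which every nonzero element is associated to a power of a nonzero
nonunit `x` is a discrete valuation ring. -/
theorem isDVR_quot_of_unif524 {R : Type*} [CommRing R] (𝔭 : Ideal R) [h𝔭 : 𝔭.IsPrime]
    (x : R) (hx : x ∉ 𝔭) (hnu : ¬ IsUnit (Ideal.Quotient.mk 𝔭 x))
    (hunif : ∀ a : R, a ∉ 𝔭 → ∃ s : ℕ, OrdOn 𝔭 x a s) :
    IsDiscreteValuationRing (R ⧸ 𝔭) := by
  apply IsDiscreteValuationRing.ofHasUnitMulPowIrreducibleFactorization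
  have hx0 : Ideal.Quotient.mk 𝔭 x ≠ 0 := fun h0 => hx (Ideal.Quotient.eq_zero_iff_mem.mp h0)
  have hass : ∀ a : R ⧸ 𝔭, a ≠ 0 → ∃ n : ℕ, Associated ((Ideal.Quotient.mk 𝔭 x) ^ n) a := by
    intro a ha
    obtain ⟨a, rfl⟩ := Ideal.Quotient.mk_surjective a
    have ha' : a ∉ 𝔭 := fun h0 => ha (Ideal.Quotient.eq_zero_iff_mem.mpr h0)
    obtain ⟨s, hs⟩ := hunif a ha'
    exact ⟨s, hs.symm⟩
  exact ⟨Ideal.Quotient.mk 𝔭 x, irreducible_of_assoc_pow524 hx0 hnu hass,
    fun {a} ha => hass a ha⟩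

section Node

variable {R : Type*} [CommRing R] [IsLocalRing R]

/-- The uniformiser `π` of a node ring (domain) is nonzero. -/
theorem isNode_pi_ne_zero524 [IsDomain R] {𝔭₁ 𝔭₂ : Ideal R} {π x y : R} (hN : IsNode 𝔭₁ 𝔭₂ π x y) :
    π ≠ 0 := by
  rintro rfl
  have h1 : x * y ∈ 𝔭₁ ⊓ 𝔭₂ := ⟨𝔭₁.mul_mem_left _ hN.hy, 𝔭₂.mul_mem_right _ hN.hx⟩
  rw [hN.inf_eq, Ideal.mem_span_singleton'] at h1
  obtain ⟨a, ha⟩ := h1
  rw [mul_zero] at ha
  rcases mul_eq_zero.mp ha.symm with h0 | h0
  · exact hN.hx₁ (h0 ▸ 𝔭₁.zero_mem)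
  · exact hN.hy₂ (h0 ▸ 𝔭₂.zero_mem)

theorem isNode_pi_mem_left524 {𝔭₁ 𝔭₂ : Ideal R} {π x y : R} (hN : IsNode 𝔭₁ 𝔭₂ π x y) :
    π ∈ 𝔭₁ :=
  (inf_le_left : 𝔭₁ ⊓ 𝔭₂ ≤ 𝔭₁) (hN.inf_eq ▸ Ideal.mem_span_singleton_self π)

theorem isNode_pi_mem_right524 {𝔭₁ 𝔭₂ : Ideal R} {π x y : R} (hN : IsNode 𝔭₁ 𝔭₂ π x y) :
    π ∈ 𝔭₂ :=
  (inf_le_right : 𝔭₁ ⊓ 𝔭₂ ≤ 𝔭₂) (hN.inf_eq ▸ Ideal.mem_span_singleton_self π)

theorem isNode_x_mul524 {𝔭₁ 𝔭₂ : Ideal R} {π x y : R} (hN : IsNode 𝔭₁ 𝔭₂ π x y) :
    ∀ a ∈ 𝔭₁, ∃ b, x * a = π * b := by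
  intro a ha
  have h1 : x * a ∈ 𝔭₁ ⊓ 𝔭₂ := ⟨𝔭₁.mul_mem_left _ ha, 𝔭₂.mul_mem_right _ hN.hx⟩
  rw [hN.inf_eq, Ideal.mem_span_singleton'] at h1
  obtain ⟨b, hb⟩ := h1
  exact ⟨b, by rw [← hb, mul_comm]⟩

theorem isNode_y_mul524 {𝔭₁ 𝔭₂ : Ideal R} {π x y : R} (hN : IsNode 𝔭₁ 𝔭₂ π x y) :
    ∀ a ∈ 𝔭₂, ∃ b, y * a = π * b := by
  intro a ha
  have h1 : y * a ∈ 𝔭₁ ⊓ 𝔭₂ := ⟨𝔭₁.mul_mem_right _ hN.hy, 𝔭₂.mul_mem_left _ ha⟩
  rw [hN.inf_eq, Ideal.mem_span_singleton'] at h1
  obtain ⟨b, hb⟩ := h1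
  exact ⟨b, by rw [← hb, mul_comm]⟩

/-- **Successive approximation** of a unit which is a `p`-th power along both branches. -/
theorem approx524 [IsDomain R] {𝔭₁ 𝔭₂ : Ideal R} {π x y : R} (hN : IsNode 𝔭₁ 𝔭₂ π x y)
    [IsIntegrallyClosed (R ⧸ 𝔭₁)] [IsIntegrallyClosed (R ⧸ 𝔭₂)]
    {p e : ℕ} (hp : p.Prime) (he : 0 < e) {υ : R} (hpυ : (p : R) = υ * π ^ (e * (p - 1)))
    {ε₀ : R} (hε₀ : IsUnit ε₀)
    (hb₁ : ∀ k : ℕ, ∃ h r t : R, r ∉ 𝔭₁ ∧ ε₀ * r ^ p - h ^ p = π ^ k * t)
    (hb₂ : ∀ k : ℕ, ∃ h r t : R, r ∉ 𝔭₂ ∧ ε₀ * r ^ p - h ^ p = π ^ k * t) :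
    ∀ j : ℕ, j ≤ p * e → ∃ s z : R, IsUnit s ∧ ε₀ = s ^ p * (1 + π ^ j * z) := by
  have := hN.prime₁
  have := hN.prime₂
  have hπ0 := (isNode_pi_ne_zero524 hN)
  have hπ₁ := (isNode_pi_mem_left524 hN)
  have hπ₂ := (isNode_pi_mem_right524 hN)
  have h𝔭₁𝔪 : 𝔭₁ ≤ IsLocalRing.maximalIdeal R := hN.sup_eq ▸ le_sup_left
  have hπ𝔪 : π ∈ IsLocalRing.maximalIdeal R := h𝔭₁𝔪 hπ₁
  have hp2 : 2 ≤ p := hp.two_le
  have hpm : (p : R) ∈ IsLocalRing.maximalIdeal R := by
    rw [hpυ]
    apply Ideal.mul_mem_left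
    obtain ⟨n, hn⟩ : ∃ n, e * (p - 1) = n + 1 := by
      have : 0 < e * (p - 1) := Nat.mul_pos he (by omega)
      exact ⟨e * (p - 1) - 1, by omega⟩
    rw [hn, pow_succ]
    exact Ideal.mul_mem_left _ _ hπ𝔪
  intro j
  induction j with
  | zero =>
    intro _
    exact ⟨1, ε₀ - 1, isUnit_one, by ring⟩
  | succ j ih =>
    intro hj
    have hj' : j < p * e := hj
    obtain ⟨s, z, hs, hsz⟩ := ih hj'.le
    have hs₁ : s ∉ 𝔭₁ := fun h0 => hN.prime₁.ne_top (Ideal.eq_top_of_isUnit_mem _ h0 hs)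
    have hs₂ : s ∉ 𝔭₂ := fun h0 => hN.prime₂.ne_top (Ideal.eq_top_of_isUnit_mem _ h0 hs)
    obtain ⟨h₁, r₁, t₁, hr₁, e₁⟩ := hb₁ (j + 1)
    obtain ⟨h₂, r₂, t₂, hr₂, e₂⟩ := hb₂ (j + 1)
    have hsr₁ : s * r₁ ∉ 𝔭₁ := fun h0 => (hN.prime₁.mem_or_mem h0).elim hs₁ hr₁
    have hsr₂ : s * r₂ ∉ 𝔭₂ := fun h0 => (hN.prime₂.mem_or_mem h0).elim hs₂ hr₂
    have e₁' : (1 + π ^ j * z) * (s * r₁) ^ p - h₁ ^ p = π ^ (j + 1) * t₁ := by
      rw [← e₁, hsz]; ring
    have e₂' : (1 + π ^ j * z) * (s * r₂) ^ p - h₂ ^ p = π ^ (j + 1) * t₂ := by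
      rw [← e₂, hsz]; ring
    obtain ⟨⟨b₁, c₁, hc₁, hbc₁⟩, hnd₁⟩ :=
      branch_step524 𝔭₁ hp hπ₁ hπ0 hN.hx₁ (isNode_x_mul524 hN) hpυ hj' hsr₁ e₁'
    obtain ⟨⟨b₂, c₂, hc₂, hbc₂⟩, hnd₂⟩ :=
      branch_step524 𝔭₂ hp hπ₂ hπ0 hN.hy₂ (isNode_y_mul524 hN) hpυ hj' hsr₂ e₂'
    by_cases hdiv : p ∣ j
    · -- `j = p i`
      obtain ⟨i, rfl⟩ := hdiv
      have hie : i < e := by
        by_contra hcon
        have := Nat.mul_le_mul_left p (not_lt.mp hcon)
        omega
      obtain ⟨w₁, hw₁⟩ := exists_pow_sub_mem524 𝔭₁ hp.ne_zero hc₁ hbc₁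
      obtain ⟨w₂, hw₂⟩ := exists_pow_sub_mem524 𝔭₂ hp.ne_zero hc₂ hbc₂
      obtain ⟨w, z', hz'⟩ := glue_pow524 𝔭₁ 𝔭₂ hp hpm hN.inf_eq hN.sup_eq hw₁ hw₂
      obtain ⟨q, hq⟩ := exists_add_pow_prime_eq hp (1 : R) (π ^ i * w)
      obtain ⟨M, hM⟩ := exists_exponent_gap524 hp2 hie
      have hpow : π ^ (e * (p - 1)) * π ^ i = π ^ (p * i) * π * π ^ M := by
        rw [← pow_add, hM]
        have : i * p = p * i := mul_comm _ _
        rw [this]; ring
      -- `v ^ p = 1 + π ^ j w ^ p + π ^ (j + 1) Q`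
      have hv : (1 + π ^ i * w) ^ p
          = 1 + π ^ (p * i) * w ^ p + π ^ (p * i + 1) * (υ * π ^ M * w * q) := by
        rw [hq, hpυ]
        linear_combination (υ * w * q) * hpow
      -- `1 + π ^ j z` is a unit
      have hu1 : IsUnit (1 + π ^ (p * i) * z) := by
        have : IsUnit (s ^ p * (1 + π ^ (p * i) * z)) := hsz ▸ hε₀
        exact isUnit_of_mul_isUnit_right this
      -- `v` is a unit
      have hvu : IsUnit (1 + π ^ i * w) := by
        rw [← isUnit_pow_iff hp.ne_zero, ← IsLocalRing.notMem_maximalIdeal]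
        intro hmem
        have h5 : 1 + π ^ (p * i) * z
            = (1 + π ^ i * w) ^ p + π * (π ^ (p * i) * (z' - υ * π ^ M * w * q)) := by
          rw [hv, hz']; ring
        have h6 : 1 + π ^ (p * i) * z ∈ IsLocalRing.maximalIdeal R := by
          rw [h5]
          exact Ideal.add_mem _ hmem (Ideal.mul_mem_right _ _ hπ𝔪)
        exact (IsLocalRing.notMem_maximalIdeal.mpr hu1) h6
      obtain ⟨v', hv'⟩ := hvu.exists_right_inv
      have hv'p : (1 + π ^ i * w) ^ p * v' ^ p = 1 := by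
        rw [← mul_pow, hv', one_pow]
      refine ⟨s * (1 + π ^ i * w), (z' - υ * π ^ M * w * q) * v' ^ p, hs.mul hvu, ?_⟩
      rw [mul_pow, hsz, hz']
      have h7 : 1 + π ^ (p * i) * (w ^ p + π * z')
          = (1 + π ^ i * w) ^ p + π ^ (p * i + 1) * (z' - υ * π ^ M * w * q) := by
        rw [hv]; ring
      rw [h7]
      linear_combination (-(s ^ p * π ^ (p * i + 1) * (z' - υ * π ^ M * w * q))) * hv'p
    · -- `p ∤ j`: `z ∈ (π)`
      have hz : z ∈ 𝔭₁ ⊓ 𝔭₂ := ⟨hnd₁ hdiv, hnd₂ hdiv⟩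
      rw [hN.inf_eq, Ideal.mem_span_singleton'] at hz
      obtain ⟨z', hz'⟩ := hz
      refine ⟨s, z', hs, ?_⟩
      rw [hsz, ← hz']; ring

end Node

/-- **WPUR**, verbatim. -/
theorem wildPurity524 : WildPurityStatement := by
  intro R _ _ _ _ _ 𝔭₁ 𝔭₂ π x y hN p hp lam ε η e hε hlam hη he hlamη g hg₁ hg₂ hH1 hb₁ hb₂
  have := hN.prime₁
  have := hN.prime₂
  have : IsDiscreteValuationRing (R ⧸ 𝔭₁) :=
    isDVR_quot_of_unif524 𝔭₁ x hN.hx₁ hN.nonunit₁ hN.unif₁
  have : IsDiscreteValuationRing (R ⧸ 𝔭₂) :=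
    isDVR_quot_of_unif524 𝔭₂ y hN.hy₂ hN.nonunit₂ hN.unif₂
  have hπ₁ := (isNode_pi_mem_left524 hN)
  have hπ₂ := (isNode_pi_mem_right524 hN)
  -- (H2): `g` is a `p`-th power modulo each branch
  have H2 : ∀ (𝔭 : Ideal R) [𝔭.IsPrime] [IsIntegrallyClosed (R ⧸ 𝔭)], π ∈ 𝔭 →
      (∀ k : ℕ, ∃ h r t : R, r ∉ 𝔭 ∧ g * r ^ p - h ^ p = π ^ k * t) →
      ∃ v : R ⧸ 𝔭, Associated (v ^ p) (Ideal.Quotient.mk 𝔭 g) := by
    intro 𝔭 _ _ hπ hb
    obtain ⟨h, r, t, hr, heq⟩ := hb 1
    have hmem : g * r ^ p - h ^ p ∈ 𝔭 := by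
      rw [heq, pow_one]; exact 𝔭.mul_mem_right _ hπ
    obtain ⟨w, hw⟩ := exists_pow_sub_mem524 𝔭 hp.ne_zero hr hmem
    refine ⟨Ideal.Quotient.mk 𝔭 w, ?_⟩
    have : Ideal.Quotient.mk 𝔭 g = (Ideal.Quotient.mk 𝔭 w) ^ p := by
      rw [← map_pow, ← sub_eq_zero, ← map_sub]
      exact Ideal.Quotient.eq_zero_iff_mem.mpr hw
    rw [this]
  obtain ⟨f, ε₀, hgf⟩ := Fermat.Agent.A2.H609.exists_unit_mul_pow_of_node hp.ne_zero 𝔭₁ 𝔭₂
    hN.inf_eq hN.sup_eq hg₁ hg₂ hH1 (H2 𝔭₁ hπ₁ hb₁) (H2 𝔭₂ hπ₂ hb₂)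
  have hf₁ : f ∉ 𝔭₁ := fun h0 => hg₁ (by
    rw [hgf]; exact 𝔭₁.mul_mem_left _ (𝔭₁.pow_mem_of_mem h0 p hp.pos))
  have hf₂ : f ∉ 𝔭₂ := fun h0 => hg₂ (by
    rw [hgf]; exact 𝔭₂.mul_mem_left _ (𝔭₂.pow_mem_of_mem h0 p hp.pos))
  have hf0 : f ≠ 0 := fun h0 => hf₁ (h0 ▸ 𝔭₁.zero_mem)
  -- branch hypotheses for `ε₀`
  have hb₁' : ∀ k : ℕ, ∃ h r t : R, r ∉ 𝔭₁ ∧ (ε₀ : R) * r ^ p - h ^ p = π ^ k * t := by
    intro k
    obtain ⟨h, r, t, hr, heq⟩ := hb₁ k
    refine ⟨h, f * r, t, fun h0 => (hN.prime₁.mem_or_mem h0).elim hf₁ hr, ?_⟩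
    rw [← heq, hgf]; ring
  have hb₂' : ∀ k : ℕ, ∃ h r t : R, r ∉ 𝔭₂ ∧ (ε₀ : R) * r ^ p - h ^ p = π ^ k * t := by
    intro k
    obtain ⟨h, r, t, hr, heq⟩ := hb₂ k
    refine ⟨h, f * r, t, fun h0 => (hN.prime₂.mem_or_mem h0).elim hf₂ hr, ?_⟩
    rw [← heq, hgf]; ring
  -- `p = υ π ^ (e (p - 1))`
  obtain ⟨ε', hε'⟩ := hε.exists_right_inv
  obtain ⟨η', hη'⟩ := hη.exists_right_inv
  have hpυ : (p : R) = (η ^ (p - 1) * ε') * π ^ (e * (p - 1)) := by
    have h1 : (p : R) = lam ^ (p - 1) * ε' := by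
      rw [hlam, mul_assoc, hε', mul_one]
    rw [h1, hlamη, mul_pow, ← pow_mul]; ring
  obtain ⟨s, z, hs, hsz⟩ := approx524 hN hp he hpυ ε₀.isUnit hb₁' hb₂' (p * e) le_rfl
  have hπpe : π ^ (p * e) = lam ^ p * η' ^ p := by
    rw [hlamη, mul_pow, ← pow_mul, mul_comm e p]
    have : η ^ p * η' ^ p = 1 := by rw [← mul_pow, hη', one_pow]
    linear_combination (-(π ^ (p * e))) * this
  refine ⟨f, 1, s, η' ^ p * z, hf0, one_ne_zero, hs, ?_⟩
  rw [hgf, hsz, hπpe]; ring

end Fermat.Agent.Ribet.H524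

end
-- ===== PACK-END Ribet/H524/WildPurity.lean

-- ===== PACK-BEGIN Ribet/H819/PerDesc.lean
section



/-!
# Row 38, WALL-p, (S4) WILD: descent of functions to a level (helper819)

`K` a field of characteristic `0` (`ℚ̄`), `F₀ ⊆ ℚ((t))`, `E ⊆ K` an intermediate field.

* `mem_imBC_of_coeff_mem` : `z ∈ K·F₀` (`= FF N`) with all coefficients in `E` lies in the image
  `imBC F₀ E` of `F_E = E·F₀` (`= A2.Mod.FE E N`);
* `exists_FE_of_coeff_mem` : the same, producing the element of `F_E`;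
* `mem_imBC_of_fixed`, `exists_FE_of_fixed` : `z ∈ K·F₀` fixed (coefficientwise) by a set `H` of
  automorphisms of `K` whose fixed elements lie in `E`;
* `imBC_le_BC` : `imBC F₀ E ⊆ K·F₀`.

Use: the Kummer generators `f_x, G` (fixed by `Stab_{I₁}(x)`) and `f_t` (fixed by `I₁`) of KD
are elements of `K₂ = FE E₂ N`, `K₁ = FE E₁ N`.
-/

set_option autoImplicit false
set_option linter.unusedSectionVars false
set_option linter.style.haveILetI false

noncomputable section

namespace Fermat.Agent.Ribet.H819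

open ModularCurve

section Desc

variable {K : Type} [Field K] [Algebra ℚ K] (F₀ : IntermediateField ℚ (LaurentSeries ℚ))

/-- A Laurent series with coefficients in `E`, as a Laurent series over `E`. -/
def liftCoeff (E : IntermediateField ℚ K) (z : LaurentSeries K) (hc : ∀ n : ℤ, z.coeff n ∈ E) :
    LaurentSeries ↥E where
  coeff n := ⟨z.coeff n, hc n⟩
  isPWO_support' := z.isPWO_support.mono (by
    intro n hn
    rw [Function.mem_support] at hn
    rw [HahnSeries.mem_support]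
    intro h0
    exact hn (Subtype.ext h0))

theorem coeffMap_liftCoeff (E : IntermediateField ℚ K) (z : LaurentSeries K)
    (hc : ∀ n : ℤ, z.coeff n ∈ E) :
    coeffMap (algebraMap ↥E K) (liftCoeff E z hc) = z := by
  ext n
  rfl

theorem liftCoeff_mem (E : IntermediateField ℚ K) {z : LaurentSeries K}
    (hz : z ∈ laurentBaseChange K F₀) (hc : ∀ n : ℤ, z.coeff n ∈ E) :
    liftCoeff E z hc ∈ laurentBaseChange ↥E F₀ := by
  apply Fermat.Agent.S29.H991.mem_laurentBaseChange_of_coeffMap_mem (algebraMap ↥E K) (F₀ := F₀)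
  rw [coeffMap_liftCoeff]
  exact hz

/-- **Descent to the level `E`**, producing the element of `F_E`. -/
theorem exists_FE_of_coeff_mem (E : IntermediateField ℚ K) {z : LaurentSeries K}
    (hz : z ∈ laurentBaseChange K F₀) (hc : ∀ n : ℤ, z.coeff n ∈ E) :
    ∃ x : ↥(laurentBaseChange ↥E F₀), embBC F₀ E x = z :=
  ⟨⟨liftCoeff E z hc, liftCoeff_mem F₀ E hz hc⟩, coeffMap_liftCoeff E z hc⟩

theorem mem_imBC_of_coeff_mem (E : IntermediateField ℚ K) {z : LaurentSeries K}
    (hz : z ∈ laurentBaseChange K F₀) (hc : ∀ n : ℤ, z.coeff n ∈ E) : z ∈ imBC F₀ E :=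
  (mem_imBC_iff F₀ E z).mpr (exists_FE_of_coeff_mem F₀ E hz hc)

/-- Descent for functions fixed by a set of automorphisms with fixed field in `E`. -/
theorem exists_FE_of_fixed (E : IntermediateField ℚ K) (H : Set (K ≃+* K))
    (hE : ∀ a : K, (∀ ρ ∈ H, ρ a = a) → a ∈ E) {z : LaurentSeries K}
    (hz : z ∈ laurentBaseChange K F₀)
    (hfix : ∀ ρ ∈ H, coeffMap (ρ : K →+* K) z = z) :
    ∃ x : ↥(laurentBaseChange ↥E F₀), embBC F₀ E x = z := by
  refine exists_FE_of_coeff_mem F₀ E hz (fun n => hE _ (fun ρ hρ => ?_))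
  have := congrArg (fun w : LaurentSeries K => w.coeff n) (hfix ρ hρ)
  simpa using this

theorem mem_imBC_of_fixed (E : IntermediateField ℚ K) (H : Set (K ≃+* K))
    (hE : ∀ a : K, (∀ ρ ∈ H, ρ a = a) → a ∈ E) {z : LaurentSeries K}
    (hz : z ∈ laurentBaseChange K F₀)
    (hfix : ∀ ρ ∈ H, coeffMap (ρ : K →+* K) z = z) : z ∈ imBC F₀ E :=
  (mem_imBC_iff F₀ E z).mpr (exists_FE_of_fixed F₀ E H hE hz hfix)

/-- The image of `F_E` lies in `K·F₀`. -/
theorem imBC_le_BC (E : IntermediateField ℚ K) {z : LaurentSeries K} (hz : z ∈ imBC F₀ E) :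
    z ∈ laurentBaseChange K F₀ := by
  have h : imBC F₀ E ≤ (laurentBaseChange K F₀).toSubfield := by
    rw [imBC_eq_closure, Subfield.closure_le]
    rintro _ (⟨c, -, rfl⟩ | ⟨y, hy, rfl⟩)
    · show (HahnSeries.C c : LaurentSeries K) ∈ laurentBaseChange K F₀
      have : (HahnSeries.C c : LaurentSeries K) = algebraMap K (LaurentSeries K) c := by
        rw [algebraMap_laurentSeries_eq_single, HahnSeries.C_apply]
      rw [this]
      exact (laurentBaseChange K F₀).algebraMap_mem c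
    · exact coeffEmb_mem_laurentBaseChange K hy
  exact h hz

end Desc

end Fermat.Agent.Ribet.H819

end

end
-- ===== PACK-END Ribet/H819/PerDesc.lean

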