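import Mathlib
import Fermat.Prelude.Def_ModularCurve_ArithmeticGalois
import Fermat.Statements.S13
import Fermat.Prelude.Def_AlgebraicCurve_DivisorClassGroup
import Fermat.Prelude.Def_AlgebraicCurve_BaseChangeGalois
import Fermat.Agent.Pack.S44C.G0E21L2
import Fermat.Agent.Pack.S44C.G0E20L2
import Fermat.Agent.Pack.S44C.G0E21L1
import Fermat.Agent.Pack.S44C.G0E16L1
import Fermat.Agent.Pack.S44C.G0E6L2
import Fermat.Agent.Pack.S44C.G0E19L2
import Fermat.Agent.Pack.S44C.G0E1L2
import Fermat.Agent.Pack.S44C.G0E16L2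
import Fermat.Agent.Pack.S44C.G0E18L2
import Fermat.Agent.Pack.S44C.G0E10L3
import Fermat.Agent.Pack.S44C.G0E19L1
import Fermat.Agent.Pack.S44C.G0E0L3
import Fermat.Agent.Pack.S44C.G1E0L0
import Fermat.Agent.Pack.S44C.G0E7L1
import Fermat.Agent.Pack.S44C.G0E20L0
import Fermat.Agent.Pack.S44C.G0E21L3
import Fermat.Agent.Pack.S44C.G0E14L2
import Fermat.Agent.Pack.S44C.G0E7L2
import Fermat.Agent.Pack.S44C.G0E2L2
import Fermat.Agent.Pack.S44C.G0E0L0
import Fermat.Agent.Pack.S44C.G0E0L1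
import Fermat.Agent.Pack.S44C.G0E20L1
import Fermat.Agent.Pack.S44C.G0E14L3
import Fermat.Agent.Pack.S44C.G0E15L1
import Fermat.Agent.Pack.S44C.G0E13L1
import Fermat.Agent.Pack.S44C.G0E21L0
import Fermat.Agent.Pack.S44C.G0E4L1
import Fermat.Agent.Pack.Fast891

-- ===== PACK-BEGIN A2/H528/Fricke.lean
section


/-!
# A2 / W — the Fricke (Atkin–Lehner) involution `w_N` of the function field of `X₀(N)`

* `fricke N τ = -1/(Nτ)` on `ℍ`, `Jd d ∘ fricke N = Jd (N/d)` for `d ∣ N`;
* `wR N : RN N →+* RN N`, the induced involution of `ℚ̄[j(q^d) : d ∣ N] ⊆ ℚ̄((q))`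
  (`j(q^d) ↦ j(q^{N/d})`, identity on the constants);
* `wF N : FF N ≃ₐ[ℚ̄] FF N`, its extension to `FF N = modularFunctionFieldBar N`.
-/

set_option autoImplicit false

noncomputable section

open ModularCurve HahnSeries UpperHalfPlane
open scoped MatrixGroups

namespace Fermat.Agent.A2.H528

open Fermat.Agent.S24 Fermat.Agent.S24.H997

variable (N : ℕ) [NeZero N]

/-- The Fricke map `τ ↦ -1/(Nτ)` of the upper half plane. -/
def fricke (τ : ℍ) : ℍ := ModularGroup.S • infAff N 0 1 τ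

theorem fricke_coe (τ : ℍ) : (fricke N τ : ℂ) = -1 / ((N : ℂ) * τ) := by
  have hN : 0 < N := Nat.pos_of_ne_zero (NeZero.ne N)
  rw [fricke, UpperHalfPlane.modular_S_smul]
  show (-(infAff N 0 1 τ : ℂ))⁻¹ = _
  rw [infAff_coe hN one_pos]
  simp only [Int.cast_zero, add_zero, Nat.cast_one, div_one]
  rw [inv_neg, neg_div, one_div]

theorem fricke_fricke (τ : ℍ) : fricke N (fricke N τ) = τ := by
  apply UpperHalfPlane.ext
  rw [fricke_coe, fricke_coe]
  have hN : (N : ℂ) ≠ 0 := by exact_mod_cast NeZero.ne N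
  have hτ : (τ : ℂ) ≠ 0 := UpperHalfPlane.ne_zero τ
  field_simp

theorem Jd_fricke {d : ℕ} (hd : d ∣ N) (τ : ℍ) : Jd d (fricke N τ) = Jd (N / d) τ := by
  have hN : 0 < N := Nat.pos_of_ne_zero (NeZero.ne N)
  have hd0 : 0 < d := Nat.pos_of_dvd_of_pos hd hN
  have hd1 : 0 < N / d := Nat.div_pos (Nat.le_of_dvd hN hd) hd0
  have key : infAff d 0 1 (fricke N τ) = ModularGroup.S • infAff (N / d) 0 1 τ := by
    apply UpperHalfPlane.ext
    rw [infAff_coe hd0 one_pos, fricke_coe, UpperHalfPlane.modular_S_smul]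
    show _ = (-(infAff (N / d) 0 1 τ : ℂ))⁻¹
    rw [infAff_coe hd1 one_pos]
    have hNd : (N : ℂ) = (d : ℂ) * ((N / d : ℕ) : ℂ) := by
      rw [← Nat.cast_mul, Nat.mul_div_cancel' hd]
    have hdc : (d : ℂ) ≠ 0 := by exact_mod_cast hd0.ne'
    have hd1c : ((N / d : ℕ) : ℂ) ≠ 0 := by exact_mod_cast hd1.ne'
    have hτ : (τ : ℂ) ≠ 0 := UpperHalfPlane.ne_zero τ
    rw [hNd]
    simp only [Int.cast_zero, add_zero, Nat.cast_one, div_one]
    field_simp
  unfold Jd
  rw [key, jFun_smul']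

/-- Precomposition with the Fricke map, as a ring endomorphism of `ℍ → ℂ`. -/
def compW : (ℍ → ℂ) →+* (ℍ → ℂ) where
  toFun f := fun τ => f (fricke N τ)
  map_one' := rfl
  map_mul' _ _ := rfl
  map_zero' := rfl
  map_add' _ _ := rfl

omit [NeZero N] in
@[simp] theorem compW_apply (f : ℍ → ℂ) (τ : ℍ) : compW N f τ = f (fricke N τ) := rfl

theorem compW_compW (f : ℍ → ℂ) : compW N (compW N f) = f := by
  funext τ
  simp [fricke_fricke]

/-- The analytic realisation `R_N → (ℍ → ℂ)` of the polynomial ring. -/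
def toFun : RN N →+* (ℍ → ℂ) := (holBase N).Hol.subtype.comp (holBase N).bridge

theorem toFun_injective : Function.Injective (toFun N) := by
  intro r r' h
  exact (holBase N).bridge_injective (Subtype.ext h)

theorem toFun_jR (d : ℕ) [NeZero d] (hd : d ∣ N) : toFun N (jR N d hd) = Jd d := by
  show (((holBase N).bridge (jR N d hd) : (holBase N).Hol) : ℍ → ℂ) = _
  rw [(holBase N).bridge_jR d hd]
  rfl

theorem toFun_algebraMap (c : Kbar) :
    toFun N (algebraMap Kbar (RN N) c) = fun _ => ιK c := by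
  show (((holBase N).bridge (algebraMap Kbar (RN N) c) : (holBase N).Hol) : ℍ → ℂ) = _
  rw [(holBase N).bridge_algebraMap c]
  rfl

theorem neZero_div {d : ℕ} (hd : d ∣ N) : NeZero (N / d) := by
  have hN : 0 < N := Nat.pos_of_ne_zero (NeZero.ne N)
  have hd0 : 0 < d := Nat.pos_of_dvd_of_pos hd hN
  exact ⟨(Nat.div_pos (Nat.le_of_dvd hN hd) hd0).ne'⟩

theorem compW_toFun_mem (r : RN N) : compW N (toFun N r) ∈ (toFun N).range := by
  obtain ⟨r, hr⟩ := r
  induction hr using Algebra.adjoin_induction with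
  | mem x hx =>
      obtain ⟨y, ⟨d, hne, hd, rfl⟩, rfl⟩ := hx
      have := hne
      have := neZero_div N hd
      have h1 : (⟨coeffEmb Kbar (qExpand ℚ d jq), Algebra.subset_adjoin
          ⟨_, ⟨d, hne, hd, rfl⟩, rfl⟩⟩ : RN N) = jR N d hd := rfl
      rw [h1, toFun_jR]
      refine ⟨jR N (N / d) (Nat.div_dvd_of_dvd hd), ?_⟩
      rw [toFun_jR]
      funext τ
      exact (Jd_fricke N hd τ).symm
  | algebraMap c =>
      have h1 : (⟨algebraMap Kbar (LaurentSeries Kbar) c, Subalgebra.algebraMap_mem _ c⟩ : RN N)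
          = algebraMap Kbar (RN N) c := rfl
      rw [h1, toFun_algebraMap]
      exact ⟨algebraMap Kbar (RN N) c, toFun_algebraMap N c⟩
  | add x y hx hy ihx ihy =>
      have h1 : (⟨x + y, add_mem hx hy⟩ : RN N) = ⟨x, hx⟩ + ⟨y, hy⟩ := rfl
      rw [h1, map_add, map_add]
      exact add_mem ihx ihy
  | mul x y hx hy ihx ihy =>
      have h1 : (⟨x * y, mul_mem hx hy⟩ : RN N) = ⟨x, hx⟩ * ⟨y, hy⟩ := rfl
      rw [h1, map_mul, map_mul]
      exact mul_mem ihx ihy

/-- `R_N ≃ range toFun`. -/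
def toFunEquiv : RN N ≃+* (toFun N).range :=
  RingEquiv.ofBijective (toFun N).rangeRestrict
    ⟨fun x y h => by
      have h' : ((toFun N).rangeRestrict x : ℍ → ℂ) = ((toFun N).rangeRestrict y : ℍ → ℂ) := by
        rw [h]
      exact toFun_injective N h', (toFun N).rangeRestrict_surjective⟩

/-- **The Fricke involution on `R_N = ℚ̄[j(q^d) : d ∣ N]`.** -/
def wR : RN N →+* RN N :=
  ((toFunEquiv N).symm : (toFun N).range →+* RN N).comp
    (((compW N).comp (toFun N)).codRestrict (toFun N).range fun r => compW_toFun_mem N r)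

theorem toFun_wR (r : RN N) : toFun N (wR N r) = compW N (toFun N r) := by
  have h := (toFunEquiv N).apply_symm_apply
    ((((compW N).comp (toFun N)).codRestrict (toFun N).range
      fun r => compW_toFun_mem N r) r)
  exact congrArg Subtype.val h

theorem wR_wR (r : RN N) : wR N (wR N r) = r := by
  apply toFun_injective N
  rw [toFun_wR, toFun_wR, compW_compW]

theorem wR_injective : Function.Injective (wR N) :=
  Function.LeftInverse.injective (wR_wR N)

theorem wR_algebraMap (c : Kbar) : wR N (algebraMap Kbar (RN N) c) = algebraMap Kbar (RN N) c := by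
  apply toFun_injective N
  rw [toFun_wR, toFun_algebraMap]
  rfl

theorem wR_jR (d : ℕ) [NeZero d] (hd : d ∣ N) :
    haveI := neZero_div N hd
    wR N (jR N d hd) = jR N (N / d) (Nat.div_dvd_of_dvd hd) := by
  have := neZero_div N hd
  apply toFun_injective N
  rw [toFun_wR, toFun_jR, toFun_jR]
  funext τ
  exact Jd_fricke N hd τ

/-- The Fricke involution on `FF N`, as a ring homomorphism. -/
def wFHom : FF N →+* FF N :=
  liftF ((inclRN N).toRingHom.comp (wR N))
    ((inclRN_injective N).comp (wR_injective N))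

theorem wFHom_inclRN (r : RN N) : wFHom N (inclRN N r) = inclRN N (wR N r) :=
  liftF_inclRN _ _ r

theorem wFHom_wFHom (f : FF N) : wFHom N (wFHom N f) = f := by
  obtain ⟨r, t, -, rfl⟩ := exists_div_inclRN N f
  rw [map_div₀, map_div₀, wFHom_inclRN, wFHom_inclRN, wFHom_inclRN, wFHom_inclRN, wR_wR, wR_wR]

theorem wFHom_algebraMap (c : Kbar) :
    wFHom N (algebraMap Kbar (FF N) c) = algebraMap Kbar (FF N) c := by
  have h : algebraMap Kbar (FF N) c = inclRN N (algebraMap Kbar (RN N) c) :=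
    ((inclRN N).commutes c).symm
  rw [h, wFHom_inclRN, wR_algebraMap]

/-- **The Fricke involution `w_N` of the function field of `X₀(N)` over `ℚ̄`.** -/
def wF : FF N ≃ₐ[Kbar] FF N :=
  AlgEquiv.ofAlgHom
    { toRingHom := wFHom N, commutes' := wFHom_algebraMap N }
    { toRingHom := wFHom N, commutes' := wFHom_algebraMap N }
    (AlgHom.ext fun f => wFHom_wFHom N f)
    (AlgHom.ext fun f => wFHom_wFHom N f)

@[simp] theorem wF_apply (f : FF N) : wF N f = wFHom N f := rfl

theorem wF_wF (f : FF N) : wF N (wF N f) = f := wFHom_wFHom N f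

theorem wF_symm : (wF N).symm = wF N := by
  refine AlgEquiv.ext fun f => ?_
  apply (wF N).injective
  rw [AlgEquiv.apply_symm_apply, wF_wF]

/-- `j(q^d)` as an element of `FF N`. -/
def jFd (d : ℕ) [NeZero d] (hd : d ∣ N) : FF N := inclRN N (jR N d hd)

omit [NeZero N] in
@[simp] theorem coe_jFd (d : ℕ) [NeZero d] (hd : d ∣ N) :
    ((jFd N d hd : FF N) : LaurentSeries Kbar) = coeffEmb Kbar (qExpand ℚ d jq) := rfl

/-- `w_N (j(q^d)) = j(q^{N/d})`. -/
theorem wF_jFd (d : ℕ) [NeZero d] (hd : d ∣ N) :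
    haveI := neZero_div N hd
    wF N (jFd N d hd) = jFd N (N / d) (Nat.div_dvd_of_dvd hd) := by
  have := neZero_div N hd
  show wFHom N (inclRN N (jR N d hd)) = _
  rw [wFHom_inclRN, wR_jR]
  rfl

end Fermat.Agent.A2.H528

end
end
-- ===== PACK-END A2/H528/Fricke.lean

-- ===== PACK-BEGIN S28/H988/Degree.lean
section
/-
S28 degree API (helper988), UNCONDITIONAL, for consumers in rows S18 / S37 / A2.
`E_N(k) := modularFunctionFieldFullC k N = k(j(q^d) : d ∣ N) ⊂ k((q))`.

* `relfinrank_jField_full_eq`  : `[E_N(k) : k(j)] = ψ(N)`            (all primes `p ∣ N` invertible in `k`)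
* `relfinrank_full_mul_prime`  : `[E_{Np}(k) : E_N(k)] = p + 1` (`p ∤ N`), `= p` (`p ∣ N`)
* `modularFunctionFieldBar_eq_fullC` : the Prelude's `ℚ̄`-function field of `X₀(N)` is `E_N(ℚ̄)`
* `relfinrank_bar_mul_prime`, `relfinrank_jField_bar_eq` : the same for `modularFunctionFieldBar`.
-/







set_option autoImplicit false

noncomputable section

open ModularCurve IntermediateField

namespace Fermat.Agent.S28.H988

section AnyField

variable (k : Type*) [Field k]

/-- All hypotheses of helper867's degree theory hold as soon as the primes dividing `N` are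
invertible in `k`. -/
theorem good_of_char (N : ℕ) (hN : N ≠ 0) (hchar : ∀ p : ℕ, p.Prime → p ∣ N → (p : k) ≠ 0) :
    H867.Good k N :=
  H867.good_of_inputs k N hN (fun p hp _ _ => H807.nonempty_modPolyData p hp)
    (fun p hp _ _ => H807.nonempty_unitPolyData p hp) H25.theta_identity hchar

/-- **Degree formula.** `[k(j(q^d) : d ∣ N) : k(j)] = ψ(N)`. -/
theorem relfinrank_jField_full_eq (N : ℕ) (hN : N ≠ 0)
    (hchar : ∀ p : ℕ, p.Prime → p ∣ N → (p : k) ≠ 0) :
    (jField k).relfinrank (modularFunctionFieldFullC k N) = dedekindPsi N := by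
  have h := (good_of_char k N hN hchar).degE_eq
  rw [H867.gFun_eq_dedekindPsi hN] at h
  exact h

theorem dedekindPsi_pos (N : ℕ) (hN : N ≠ 0) : 0 < dedekindPsi N := by
  rw [← H867.gFun_eq_dedekindPsi hN]
  exact H867.gFun_pos N

/-- **Degree of the tower step.** `[E_{Np} : E_N] = p + 1` if `p ∤ N`, `= p` if `p ∣ N`. -/
theorem relfinrank_full_mul_prime (N p : ℕ) (hN : N ≠ 0) (hp : p.Prime)
    (hchar : ∀ r : ℕ, r.Prime → r ∣ N * p → (r : k) ≠ 0) :
    (modularFunctionFieldFullC k N).relfinrank (modularFunctionFieldFullC k (N * p)) =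
      if p ∣ N then p else p + 1 := by
  have hNp : N * p ≠ 0 := Nat.mul_ne_zero hN hp.ne_zero
  have hdvd : N ∣ N * p := Dvd.intro p rfl
  have hG := good_of_char k (N * p) hNp hchar
  have htower := hG.tower hdvd
  have h1 : H867.degE k N = dedekindPsi N :=
    relfinrank_jField_full_eq k N hN (fun r hr hrN => hchar r hr (hrN.trans hdvd))
  have h2 : H867.degE k (N * p) = dedekindPsi (N * p) :=
    relfinrank_jField_full_eq k (N * p) hNp hchar
  rw [h1, h2] at htower
  have hpos := dedekindPsi_pos N hN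
  by_cases hpN : p ∣ N
  · rw [if_pos hpN]
    rw [H626.psi_mul_prime_of_dvd hN hp hpN, mul_comm p] at htower
    exact Nat.eq_of_mul_eq_mul_left hpos htower
  · rw [if_neg hpN]
    rw [H626.psi_mul_prime_of_not_dvd hN hp hpN, mul_comm (p + 1)] at htower
    exact Nat.eq_of_mul_eq_mul_left hpos htower

end AnyField

section Bar

variable (L : Type*) [Field L] [Algebra ℚ L]

theorem image_divisorExpansions_eq (N : ℕ) :
    ⇑(coeffEmb L) '' divisorExpansions N = divisorExpansionsC L N := by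
  ext x
  constructor
  · rintro ⟨y, ⟨d, hne, hd, rfl⟩, rfl⟩
    refine ⟨d, hne, hd, ?_⟩
    rw [coeffEmb, ← jqModC_rat, coeffMap_qExpand, coeffMap_jqModC]
  · rintro ⟨d, hne, hd, rfl⟩
    refine ⟨qExpand ℚ d jq, ⟨d, hne, hd, rfl⟩, ?_⟩
    rw [coeffEmb, ← jqModC_rat, coeffMap_qExpand, coeffMap_jqModC]

/-- The base change of the Prelude's `ℚ`-function field is `L(j(q^d) : d ∣ N)`. -/
theorem laurentBaseChange_full_eq_fullC (N : ℕ) :
    laurentBaseChange L (modularFunctionFieldFull N) = modularFunctionFieldFullC L N := by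
  rw [modularFunctionFieldFull, Fermat.Agent.S24.H368.laurentBaseChange_adjoin,
    image_divisorExpansions_eq]
  rfl

end Bar

/-- The Prelude's function field of `X₀(N)` over `ℚ̄` is `ℚ̄(j(q^d) : d ∣ N)`. -/
theorem modularFunctionFieldBar_eq_fullC (N : ℕ) :
    modularFunctionFieldBar N = modularFunctionFieldFullC (AlgebraicClosure ℚ) N :=
  laurentBaseChange_full_eq_fullC _ N

theorem natCast_ne_zero_bar {p : ℕ} (hp : p ≠ 0) : ((p : ℕ) : AlgebraicClosure ℚ) ≠ 0 :=
  Nat.cast_ne_zero.mpr hp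

/-- `[ℚ̄(X₀(N)) : ℚ̄(j)] = ψ(N)`. -/
theorem relfinrank_jField_bar_eq (N : ℕ) (hN : N ≠ 0) :
    (jField (AlgebraicClosure ℚ)).relfinrank (modularFunctionFieldBar N) = dedekindPsi N := by
  rw [modularFunctionFieldBar_eq_fullC]
  exact relfinrank_jField_full_eq _ N hN (fun p hp _ => natCast_ne_zero_bar hp.ne_zero)

/-- `[ℚ̄(X₀(Np)) : ℚ̄(X₀(N))] = p + 1` if `p ∤ N`, `= p` if `p ∣ N`. -/
theorem relfinrank_bar_mul_prime (N p : ℕ) (hN : N ≠ 0) (hp : p.Prime) :
    (modularFunctionFieldBar N).relfinrank (modularFunctionFieldBar (N * p)) =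
      if p ∣ N then p else p + 1 := by
  rw [modularFunctionFieldBar_eq_fullC, modularFunctionFieldBar_eq_fullC]
  exact relfinrank_full_mul_prime _ N p hN hp (fun r hr _ => natCast_ne_zero_bar hr.ne_zero)

end Fermat.Agent.S28.H988

end

end
-- ===== PACK-END S28/H988/Degree.lean

-- ===== PACK-BEGIN S13.lean
section
-- S13 (row 12): a reducible mod-p representation of the Frey curve has a Galois-stable
-- cofixed line.  Elementary route (helper673 / helper13): characters on the stable line and on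
-- the quotient, inertia analysis at every prime (S05 away from 2 and p; node law at 2;
-- Gauss bound on the division polynomial at p), Minkowski, and the 2-adic exclusion of a
-- rational point of order p.
-- Pieces: T1 helper891, T3 = S05, T4 helper129, T5 helper64 (+ helper290, helper429,
-- helper575), T6 helper175, T7 helper11 + helper511 (node law) + helper187 (descent),
-- glue and integration helper13.









set_option autoImplicit false
open WeierstrassCurve WeierstrassCurve.Affine WeierstrassCurve.Affine.Point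
open CuspForm ModularFormClass UpperHalfPlane
open FreyPackage

namespace Fermat.Agent.S13

theorem result (P : FreyPackage) (hred : ¬ GaloisRepIsIrreducible (K := AlgebraicClosure ℚ) ℚ P.freyCurve P.p) : HasGaloisStableCofixedLine (K := AlgebraicClosure ℚ) ℚ P.freyCurve P.p := by
  exact Skel.result_of_parts P (H891.T1_frey P)
    (fun q hq hq2 hqp => Fermat.Agent.S05.result P hq hq2 hqp)
    (H129.T4 P)
    (H64.T5 P)
    (Skel.minkowski_subgroup_of_character
      (fun _ _ χ hopen hunr => H175.minkowski_character χ hopen hunr))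
    (H13.frey_T7 P)
    Fermat.Agent.S54.exists_valuationSubring_liesOver
    hred

end Fermat.Agent.S13

end
-- ===== PACK-END S13.lean

-- ===== PACK-BEGIN S24/Alg/Sub.lean
section






/-!
# S24 / ALG — sub-interface (statements needed by the global assembly in `Alg.lean`)

Adapters (helper984) from the FF layer (helper804), the KD layer (helper84) and the local
theorem (helper117) to the shapes used by the assembly.
-/

set_option autoImplicit false

noncomputable section

open AlgebraicCurve KaehlerDifferential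

namespace Fermat.Agent.S24

variable {K F : Type*} [Field K] [Field F] [Algebra K F] [IsAlgClosed K] [CharZero K]
variable {C : Type*} [Field C] [CharZero C] {X : Type*} [Finite X]

/-- The places of `F/K` at which `t` vanishes. -/
def zeroPlaces (K : Type*) {F : Type*} [Field K] [Field F] [Algebra K F] (t : F) :
    Set (Place K F) := {v | 0 < v.ord t}

/-! ### FF (function-field generalities) -/

omit [CharZero K] in
/-- FF2: all places have degree one. -/
theorem sub_deg_eq_one (j : F) (hj : Transcendental K j)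
    [FiniteDimensional ↥(IntermediateField.adjoin K {j}) F] (v : Place K F) : v.deg = 1 :=
  FF.deg_eq_one v hj

/-- FF3: a principal divisor has degree zero. -/
theorem sub_degree_principal (j : F) (hj : Transcendental K j)
    [FiniteDimensional ↥(IntermediateField.adjoin K {j}) F] (f : F) (hf : f ≠ 0)
    (D : Divisor K F) (hD : ∀ v : Place K F, D v = v.ord f) : Divisor.degree D = 0 :=
  degree_principal j hj f hf D hD

omit [CharZero K] in
/-- FF4: every place lies over a point of `ℙ¹_j`. -/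
theorem sub_exists_point (j : F)
    [FiniteDimensional ↥(IntermediateField.adjoin K {j}) F] (v : Place K F) :
    v.ord j < 0 ∨ ∃ a : K, 0 < v.ord (j - algebraMap K F a) := by
  rcases lt_or_ge (v.ord j) 0 with h | h
  · exact Or.inl h
  · haveI : Algebra.IsAlgebraic ↥(IntermediateField.adjoin K {j}) F :=
      Algebra.IsAlgebraic.of_finite _ _
    exact Or.inr (FF.exists_ord_sub_pos v j h)

/-! ### KD (Kähler differentials) -/

omit [IsAlgClosed K] in
/-- KD1: `Ω[F/K]` is spanned by `D j`. -/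
theorem sub_exists_smul_D (j : F)
    [FiniteDimensional ↥(IntermediateField.adjoin K {j}) F] (ω : Ω[F⁄K]) :
    ∃ f : F, ω = f • D K F j := by
  haveI : Algebra.IsAlgebraic ↥(IntermediateField.adjoin K {j}) F :=
    Algebra.IsAlgebraic.of_finite _ _
  have h : ω ∈ Submodule.span F {D K F j} := by
    rw [H84.span_D_eq_top j]; exact Submodule.mem_top
  obtain ⟨f, hf⟩ := Submodule.mem_span_singleton.mp h
  exact ⟨f, hf.symm⟩

/-- KD2: `ordDifferential` is additive in the coefficient. -/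
theorem sub_ordDifferential_smul (j : F)
    [FiniteDimensional ↥(IntermediateField.adjoin K {j}) F] (v : Place K F)
    (f : F) (hf : f ≠ 0) (ω : Ω[F⁄K]) (hω : ω ≠ 0) :
    v.ordDifferential (f • ω) = v.ord f + v.ordDifferential ω := by
  haveI : v.DCoordGenerates := H84.place_dCoordGenerates j v
  haveI : Nontrivial Ω[F⁄K] := ⟨⟨ω, 0, hω⟩⟩
  refine v.ordDifferential_smul hf ?_
  intro h0
  apply hω
  rw [← v.differentialCoeff_smul_dCoord ω, h0, zero_smul]

/-! ### LT (local theorem) -/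

/-- LT: the places over the zero of `t` are finite in number, in bijection with the orbits of
`perm`, and the ramification indices add up to the degree. -/
theorem sub_local_count (t : F)
    [FiniteDimensional ↥(IntermediateField.adjoin K {t}) F]
    (hrank : Module.finrank ↥(IntermediateField.adjoin K {t}) F = Nat.card X)
    (d : LocalData K F C X t) :
    (zeroPlaces K t).Finite ∧ Nat.card ↥(zeroPlaces K t) = numOrbits d.perm ∧
      ∑ᶠ v ∈ zeroPlaces K t, v.ord t = (Nat.card X : ℤ) := by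
  classical
  have hfin : (zeroPlaces K t).Finite :=
    H117.finite_places_over d (IntermediateField.adjoin K {t}) le_rfl hrank
  have hs : ∀ v : Place K F, v ∈ hfin.toFinset ↔ 0 < v.ord t := fun v => by
    simp [zeroPlaces]
  have ht : Transcendental K t := by
    have hpos : 0 < Nat.card X := hrank ▸ Module.finrank_pos
    obtain ⟨x⟩ := (Nat.card_pos_iff.mp hpos).1
    refine FF.transcendental_of_not_mem_range ?_
    rintro ⟨c, hc⟩
    have h1 := d.σ_t_order x
    have h3 : d.σ x t = HahnSeries.C (d.ι c) := by rw [← d.σ_const x c, hc]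
    rw [h3] at h1
    have h2 : (HahnSeries.C (d.ι c) : LaurentSeries C).order = 0 := by
      rw [HahnSeries.C_apply]
      by_cases h0 : d.ι c = 0
      · simp [h0]
      · exact HahnSeries.order_single h0
    rw [h2] at h1
    have := d.m_pos
    omega
  have hle : (Nat.card X : ℤ) ≤ ∑ v ∈ hfin.toFinset, v.ord t := by
    rw [← hrank]
    exact fundamental_le t ht hfin.toFinset hs
  obtain ⟨h1, -, h3⟩ :=
    H117.localThm d (IntermediateField.adjoin K {t}) le_rfl hrank hfin.toFinset hs hle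
  refine ⟨hfin, ?_, ?_⟩
  · rw [Nat.card_coe_set_eq, Set.ncard_eq_toFinset_card _ hfin]
    exact h1
  · rw [finsum_mem_eq_finite_toFinset_sum _ hfin]
    exact h3

/-- LT + KD4: order of `dt` at a zero of `t`. -/
theorem sub_ordDifferential_D (t : F)
    [FiniteDimensional ↥(IntermediateField.adjoin K {t}) F]
    (hrank : Module.finrank ↥(IntermediateField.adjoin K {t}) F = Nat.card X)
    (d : LocalData K F C X t) (v : Place K F) (hv : 0 < v.ord t) :
    v.ordDifferential (D K F t) = v.ord t - 1 := by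
  obtain ⟨x, rfl⟩ :=
    H117.exists_placeOf_eq d (IntermediateField.adjoin K {t}) le_rfl hrank v hv
  haveI : (H117.placeOf d x).DCoordGenerates := H84.place_dCoordGenerates t _
  exact H84.place_ordDifferential_D_of_ord_ne_zero (H117.placeOf d x) (d.σ x) d.ι (d.σ_const x)
    (H117.mult d x) (H117.mult_pos d x) (fun f _ => H117.order_eq d x f) t hv.ne'

end Fermat.Agent.S24

end
end
-- ===== PACK-END S24/Alg/Sub.lean

-- ===== PACK-BEGIN S18/H24/GaussFields.lean
section


/-!
# S18 / node_mod, part G-V (helper24) — HAND-IN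

All `V`-fields of `Alg.GoodModel` (v4 on main) for the concrete objects of `S18/Mod/Defs.lean`:

`gv_fields` : for every subring `V` with underlying set `VcSet M A E`, every `w` satisfying the
`w`-fields of G-R (`w_mem, w_ne_zero, w_inv_not_mem, w_gen, w_discrete` for `Rc M A E`), and every
coordinate `x` with an integral expansion `q⁻¹ + …` (`H456.HasIntExp`, e.g. from `IsCoordinate`):

    V_le ∧ V_total ∧ R_le_V ∧ x_mem_V ∧ w_inv_not_mem_V ∧ V_gen ∧ gauss

in exactly the field types of `Alg.GoodModel (Lc M) (Ec M E) (Fc M E) (Rc M A E) V w x S`.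
No hypothesis on `ℓ`, `M`, or finiteness of `E` is needed here (they enter through G-R).
-/

set_option autoImplicit false

noncomputable section

namespace Fermat.Agent.S18.H24

open ModularCurve AlgebraicCurve HahnSeries Fermat.Agent.S18 Fermat.Agent.S18.Mod
open Fermat.Agent.S18.H456

variable {M : ℕ} {A : ValuationSubring Qb} {E : IntermediateField ℚ Qb}

/-- The `w`-fields of G-R give a uniformiser in the sense of `IsUnif`. -/
theorem exists_isUnif {w : Om M} (hwR : w ∈ Rc M A E) (hw0 : w ≠ 0) (hwinv : w⁻¹ ∉ Rc M A E)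
    (hgen : ∀ r ∈ Rc M A E, r⁻¹ ∉ Rc M A E → r * w⁻¹ ∈ Rc M A E)
    (hdisc : ∀ r ∈ Rc M A E, r ≠ 0 →
      ∃ n : ℕ, r * (w⁻¹) ^ n ∈ Rc M A E ∧ (r * (w⁻¹) ^ n)⁻¹ ∈ Rc M A E) :
    ∃ w₀ : Qb, w = cst M w₀ ∧ _root_.Fermat.Agent.S18.H24.IsUnif A E w₀ := by
  obtain ⟨w₀, hw₀A, hw₀E, rfl⟩ := (mem_Rc_iff M A E).mp hwR
  have hw₀0 : w₀ ≠ 0 := by
    rintro rfl
    exact hw0 (map_zero _)
  have hninv : w₀⁻¹ ∉ A := by
    intro h
    apply hwinv
    rw [← map_inv₀]
    exact cst_mem_Rc M A E h (inv_mem hw₀E)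
  refine ⟨w₀, rfl, hw₀A, hw₀E, hw₀0, hninv, ?_, ?_⟩
  · intro c hcA hcE hcinv
    have h1 : (cst M c)⁻¹ ∉ Rc M A E := by
      intro h
      rw [← map_inv₀] at h
      exact hcinv ((cst_mem_Rc_iff M A E).mp h).1
    have h2 := hgen _ (cst_mem_Rc M A E hcA hcE) h1
    rw [← map_inv₀, ← map_mul] at h2
    exact ((cst_mem_Rc_iff M A E).mp h2).1
  · intro c hcA hcE hc0
    have h1 : cst M c ≠ 0 := fun h => hc0 (cst_injective M (by rw [h]; exact (map_zero _).symm))
    obtain ⟨n, hn1, hn2⟩ := hdisc _ (cst_mem_Rc M A E hcA hcE) h1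
    refine ⟨n, ?_, ?_⟩
    · rw [← map_inv₀, ← map_pow, ← map_mul] at hn1
      exact ((cst_mem_Rc_iff M A E).mp hn1).1
    · rw [← map_inv₀, ← map_pow, ← map_mul, ← map_inv₀] at hn2
      exact ((cst_mem_Rc_iff M A E).mp hn2).1

/-- **G-V hand-in**: all `V`-fields of `GoodModel` for the concrete Gauss valuation ring. -/
theorem gv_fields [NeZero M] (V : Subring (Om M)) (hV : (V : Set (Om M)) = VcSet M A E)
    {w : Om M} (hwR : w ∈ Rc M A E) (hw0 : w ≠ 0) (hwinv : w⁻¹ ∉ Rc M A E)
    (hgen : ∀ r ∈ Rc M A E, r⁻¹ ∉ Rc M A E → r * w⁻¹ ∈ Rc M A E)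
    (hdisc : ∀ r ∈ Rc M A E, r ≠ 0 →
      ∃ n : ℕ, r * (w⁻¹) ^ n ∈ Rc M A E ∧ (r * (w⁻¹) ^ n)⁻¹ ∈ Rc M A E)
    {x : Om M} (hx : HasIntExp M x) :
    ((V : Set (Om M)) ⊆ Fc M E) ∧
    (∀ f ∈ Fc M E, f ∈ V ∨ f⁻¹ ∈ V) ∧
    (Rc M A E ≤ V) ∧
    (x ∈ V) ∧
    (w⁻¹ ∉ V) ∧
    (∀ f ∈ V, f⁻¹ ∉ V → f * w⁻¹ ∈ V) ∧
    (∀ P : Polynomial (Om M), (∀ i, P.coeff i ∈ Rc M A E) →
      (∃ i, P.coeff i ≠ 0 ∧ (P.coeff i)⁻¹ ∈ Rc M A E) → (P.eval x)⁻¹ ∈ V) := by
  have hVeq : V = Vc M A E := SetLike.coe_injective (by rw [hV, coe_Vc])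
  subst hVeq
  obtain ⟨w₀, rfl, hw⟩ := _root_.Fermat.Agent.S18.H24.exists_isUnif hwR hw0 hwinv hgen hdisc
  exact ⟨field_V_le M A E, field_V_total M hw, field_R_le_V M A E, coord_mem_Vc hx,
    field_w_inv_not_mem_V hw.ne_zero hw.inv_not_mem, field_V_gen M hw, field_gauss hx⟩

/-- The same for a coordinate in the sense of `Mod.IsCoordinate`. -/
theorem gv_fields_of_isCoordinate [NeZero M] (V : Subring (Om M))
    (hV : (V : Set (Om M)) = VcSet M A E)
    {w : Om M} (hwR : w ∈ Rc M A E) (hw0 : w ≠ 0) (hwinv : w⁻¹ ∉ Rc M A E)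
    (hgen : ∀ r ∈ Rc M A E, r⁻¹ ∉ Rc M A E → r * w⁻¹ ∈ Rc M A E)
    (hdisc : ∀ r ∈ Rc M A E, r ≠ 0 →
      ∃ n : ℕ, r * (w⁻¹) ^ n ∈ Rc M A E ∧ (r * (w⁻¹) ^ n)⁻¹ ∈ Rc M A E)
    {ℓ : ℕ} {x : Om M} {S : Finset (Om M)} (hx : IsCoordinate M ℓ x S) :
    ((V : Set (Om M)) ⊆ Fc M E) ∧
    (∀ f ∈ Fc M E, f ∈ V ∨ f⁻¹ ∈ V) ∧
    (Rc M A E ≤ V) ∧
    (x ∈ V) ∧
    (w⁻¹ ∉ V) ∧
    (∀ f ∈ V, f⁻¹ ∉ V → f * w⁻¹ ∈ V) ∧
    (∀ P : Polynomial (Om M), (∀ i, P.coeff i ∈ Rc M A E) →
      (∃ i, P.coeff i ≠ 0 ∧ (P.coeff i)⁻¹ ∈ Rc M A E) → (P.eval x)⁻¹ ∈ V) :=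
  gv_fields V hV hwR hw0 hwinv hgen hdisc (hasIntExp_of_isCoordinate M hx)

end Fermat.Agent.S18.H24

end
end
-- ===== PACK-END S18/H24/GaussFields.lean

-- ===== PACK-BEGIN S18/B12/H33/RegChart.lean
section






/-!
# S18 b2 (helper33): REG-CHART — `b2Regular` instantiated on the charts of helper138

Setting (the one of `H138.connected_special_fibre`): `R` a discrete valuation ring, `F` a field of
characteristic `0` which is an `R`-algebra, `x : F` transcendental over `R`,
`[FiniteDimensional (H138.baseField R x) F]`, and the chart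
`B := H138.chart R {x} : Subalgebra R F` (the integral closure of `R[x]` in `F`).

Main result `regularAlong_chart`:

    H754.RegularAlong (algebraMap R (H138.chart R {x}) w)

from
* `hdom` : `w` is prime in the chart (QEP),
* `hsep` : elementwise separability of the special fibre (shape of `H425.hsep_poly`),
* `S`, `hS` : the branch values, pairwise distinct mod `w`,
* `hNC` : for every prime `π` of `R[X]` not associated to `w` or to some `X - c` (`c ∈ S`), the
  ideal `π(x) B` is radical (unramifiedness away from `S`, from `GoodModel.unramified`).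

All the instance plumbing (`R[X]`-algebra structure through `aeval x`, finiteness, torsion-freeness,
integral closedness) is done here.  `regularAlong_chart_field` is the same theorem with the
hypotheses `hsep`, `hNC` stated by elements of `F`.
-/

set_option autoImplicit false
set_option linter.style.haveILetI false

noncomputable section

namespace Fermat.Agent.S18.B12.H33

open Polynomial

universe u v

section RegChart

variable (R : Type u) [CommRing R] {F : Type v} [Field F] [Algebra R F]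

/-- The coordinate `x` as an element of the chart. -/
def chartX (x : F) : H138.chart R ({x} : Set F) := ⟨x, H138.mem_chart_of_mem rfl⟩

/-- The structure map `R[X] → B`, `X ↦ x`. -/
def chartPolyHom (x : F) : R[X] →ₐ[R] H138.chart R ({x} : Set F) := aeval (chartX R x)

variable {R}

@[simp] theorem coe_chartX (x : F) : ((chartX R x : H138.chart R ({x} : Set F)) : F) = x := rfl

theorem chartPolyHom_apply (x : F) (p : R[X]) : chartPolyHom R x p = aeval (chartX R x) p := rfl

theorem coe_chartPolyHom (x : F) (p : R[X]) :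
    ((chartPolyHom R x p : H138.chart R ({x} : Set F)) : F) = aeval x p := by
  have h := Polynomial.aeval_algHom_apply (H138.chart R ({x} : Set F)).val (chartX R x) p
  rw [chartPolyHom_apply]
  exact h.symm

theorem chartPolyHom_C (x : F) (r : R) :
    chartPolyHom R x (C r) = algebraMap R (H138.chart R ({x} : Set F)) r := by
  rw [chartPolyHom_apply, aeval_C]

theorem chartPolyHom_injective {x : F} (hx : Transcendental R x) :
    Function.Injective (chartPolyHom R x) := by
  rw [injective_iff_map_eq_zero]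
  intro p hp
  have h : aeval x p = 0 := by
    rw [← coe_chartPolyHom, hp]; rfl
  exact transcendental_iff.1 hx p h

theorem algebraMap_injective_of_transcendental {x : F} (hx : Transcendental R x) :
    Function.Injective (algebraMap R F) := by
  rw [injective_iff_map_eq_zero]
  intro r hr
  have h : aeval x (C r : R[X]) = 0 := by rw [aeval_C, hr]
  have := transcendental_iff.1 hx _ h
  exact C_eq_zero.1 this

end RegChart

section Package

variable {R : Type u} [CommRing R] {F : Type v} [Field F] [Algebra R F]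

/-- The `R[X]`-algebra structure of the chart (`X ↦ x`).  Not an instance. -/
@[reducible] def chartAlgebra (R : Type u) [CommRing R] {F : Type v} [Field F] [Algebra R F]
    (x : F) : Algebra R[X] (H138.chart R ({x} : Set F)) :=
  (chartPolyHom R x).toRingHom.toAlgebra

/-- The chart is (tautologically) the integral closure of `R[x]` in `F`. -/
def chartEquiv (x : F) :
    integralClosure (Algebra.adjoin R ({x} : Set F)) F ≃+* H138.chart R ({x} : Set F) where
  toFun c := ⟨c.1, c.2⟩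
  invFun c := ⟨c.1, c.2⟩
  left_inv _ := rfl
  right_inv _ := rfl
  map_mul' _ _ := rfl
  map_add' _ _ := rfl

/-- `R[X] ≃ R[x]` for transcendental `x`. -/
def polyEquivAdjoin {x : F} (hx : Transcendental R x) :
    R[X] ≃ₐ[R] Algebra.adjoin R ({x} : Set F) :=
  (AlgEquiv.ofInjective (aeval (R := R) x)
    ((injective_iff_map_eq_zero _).2 (transcendental_iff.1 hx))).trans
      (Subalgebra.equivOfEq _ _ (Algebra.adjoin_singleton_eq_range_aeval R x).symm)

theorem coe_polyEquivAdjoin {x : F} (hx : Transcendental R x) (p : R[X]) :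
    ((polyEquivAdjoin hx p : Algebra.adjoin R ({x} : Set F)) : F) = aeval x p := rfl

/-- The chart is integrally closed and finite over `R[X]`. -/
theorem chart_package [IsDomain R] [IsNoetherianRing R] [IsIntegrallyClosed R[X]] [CharZero F]
    {x : F} (hx : Transcendental R x) [FiniteDimensional (H138.baseField R x) F] :
    IsIntegrallyClosed (H138.chart R ({x} : Set F)) ∧
      @Module.Finite R[X] (H138.chart R ({x} : Set F)) _ _ (chartAlgebra R x).toModule := by
  classical
  set A : Subalgebra R F := Algebra.adjoin R ({x} : Set F) with hA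
  set K : Subfield F := H138.baseField R x with hK
  haveI := H138.isIntegrallyClosed_adjoin_singleton (R := R) hx
  haveI := H138.isNoetherianRing_adjoin_singleton (R := R) hx
  let φ : A →+* K :=
    { toFun := fun a => ⟨a, H138.adjoin_le_baseField x a.2⟩
      map_one' := rfl
      map_mul' := fun _ _ => rfl
      map_zero' := rfl
      map_add' := fun _ _ => rfl }
  letI : Algebra A K := φ.toAlgebra
  haveI : IsScalarTower A K F := IsScalarTower.of_algebraMap_eq (fun _ => rfl)
  have hinj : Function.Injective (algebraMap A K) := by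
    intro a b hab
    have : (a : F) = b := congrArg (fun t : K => (t : F)) hab
    exact Subtype.ext this
  haveI : FaithfulSMul A K := (faithfulSMul_iff_algebraMap_injective A K).2 hinj
  haveI : IsFractionRing A K := by
    refine IsFractionRing.of_field A K (fun z => ?_)
    obtain ⟨a, ha, b, hb, h⟩ := H138.exists_div_of_mem_baseField (R := R) x z.2
    exact ⟨⟨a, ha⟩, ⟨b, hb⟩, Subtype.ext h⟩
  haveI : CharZero K := (algebraMap K F).charZero
  haveI hfinA : Module.Finite A (integralClosure A F) :=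
    IsIntegralClosure.finite A K F (integralClosure A F)
  haveI hic : IsIntegrallyClosed (integralClosure A F) :=
    integralClosure.isIntegrallyClosedOfFiniteExtension K
  refine ⟨IsIntegrallyClosed.of_equiv (chartEquiv x), ?_⟩
  letI := chartAlgebra R x
  refine Module.Finite.of_equiv_equiv (A₁ := A) (B₁ := integralClosure A F)
    (polyEquivAdjoin hx).symm.toRingEquiv (chartEquiv x) ?_
  refine RingHom.ext (fun a => ?_)
  obtain ⟨p, rfl⟩ := (polyEquivAdjoin hx).surjective a
  apply Subtype.ext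
  simp only [RingHom.comp_apply, RingHom.coe_coe,
    AlgEquiv.coe_ringEquiv, AlgEquiv.symm_apply_apply]
  change ((chartPolyHom R x p : H138.chart R ({x} : Set F)) : F) = _
  rw [coe_chartPolyHom]
  rfl

end Package

section Coe

variable {R : Type u} [CommRing R] {F : Type v} [Field F] [Algebra R F]

/-- Divisibility by `w` in the chart, in terms of elements of `F`. -/
theorem algebraMap_dvd_chart_iff {x : F} (w : R) (z : H138.chart R ({x} : Set F)) :
    algebraMap R (H138.chart R ({x} : Set F)) w ∣ z ↔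
      ∃ t ∈ H138.chart R ({x} : Set F), (z : F) = algebraMap R F w * t := by
  constructor
  · rintro ⟨t, rfl⟩
    exact ⟨t, t.2, rfl⟩
  · rintro ⟨t, ht, h⟩
    exact ⟨⟨t, ht⟩, Subtype.ext h⟩

/-- Divisibility by `π(x)` in the chart, in terms of elements of `F`. -/
theorem chartPolyHom_dvd_chart_iff {x : F} (π : R[X]) (z : H138.chart R ({x} : Set F)) :
    chartPolyHom R x π ∣ z ↔
      ∃ t ∈ H138.chart R ({x} : Set F), (z : F) = aeval x π * t := by
  constructor
  · rintro ⟨t, rfl⟩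
    exact ⟨t, t.2, by rw [Subalgebra.coe_mul, coe_chartPolyHom]⟩
  · rintro ⟨t, ht, h⟩
    exact ⟨⟨t, ht⟩, Subtype.ext (by rw [Subalgebra.coe_mul, coe_chartPolyHom]; exact h)⟩

/-- Evaluation of a lifted polynomial, in terms of elements of `F`. -/
theorem coe_eval₂_chartPolyHom {x : F} (Q : R[X][X]) (b : H138.chart R ({x} : Set F)) :
    ((Q.eval₂ (chartPolyHom R x : R[X] →+* H138.chart R ({x} : Set F)) b :
      H138.chart R ({x} : Set F)) : F)
      = (Q.map (aeval x : R[X] →ₐ[R] F).toRingHom).eval (b : F) := by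
  have h := Polynomial.hom_eval₂ Q (chartPolyHom R x : R[X] →+* H138.chart R ({x} : Set F))
    (H138.chart R ({x} : Set F)).val.toRingHom b
  rw [eval_map]
  have hcomp : ((H138.chart R ({x} : Set F)).val.toRingHom.comp
      (chartPolyHom R x : R[X] →+* H138.chart R ({x} : Set F)))
      = (aeval x : R[X] →ₐ[R] F).toRingHom := by
    refine RingHom.ext (fun p => ?_)
    exact coe_chartPolyHom x p
  rw [hcomp] at h
  exact h

end Coe

section Main

variable {R : Type u} [CommRing R] [IsDomain R] [IsDiscreteValuationRing R]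
  {F : Type v} [Field F] [CharZero F] [Algebra R F]

/-- **REG-CHART.**  `b2Regular` on the chart `H138.chart R {x}`: the special fibre of the chart is
regular at every closed point. -/
theorem regularAlong_chart
    {x : F} (hx : Transcendental R x) [FiniteDimensional (H138.baseField R x) F]
    (w : R) (hw : Irreducible w)
    (hdom : Prime (algebraMap R (H138.chart R ({x} : Set F)) w))
    (hsep : ∀ b : H138.chart R ({x} : Set F), ∃ P : R[X][X],
        algebraMap R (H138.chart R ({x} : Set F)) w ∣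
          P.eval₂ (chartPolyHom R x : R[X] →+* H138.chart R ({x} : Set F)) b ∧
        ¬ algebraMap R (H138.chart R ({x} : Set F)) w ∣
          (derivative P).eval₂ (chartPolyHom R x : R[X] →+* H138.chart R ({x} : Set F)) b)
    (S : Finset R) (hS : ∀ c ∈ S, ∀ c' ∈ S, c ≠ c' → IsUnit (c - c'))
    (hNC : ∀ π : R[X], Prime π → ¬ Associated π (C w) → (∀ c ∈ S, ¬ Associated π (X - C c)) →
        (Ideal.span {chartPolyHom R x π}).IsRadical) :
    H754.RegularAlong (algebraMap R (H138.chart R ({x} : Set F)) w) := by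
  classical
  haveI : CharZero R := (algebraMap R F).charZero
  obtain ⟨hic, hfin⟩ := chart_package (R := R) hx
  letI := chartAlgebra R x
  haveI := hic
  haveI := hfin
  haveI : Module.IsTorsionFree R[X] (H138.chart R ({x} : Set F)) :=
    Module.isTorsionFree_iff_algebraMap_injective.2 (chartPolyHom_injective hx)
  have hCw : algebraMap R[X] (H138.chart R ({x} : Set F)) (C w)
      = algebraMap R (H138.chart R ({x} : Set F)) w := chartPolyHom_C x w
  have hdom' : Prime (algebraMap R[X] (H138.chart R ({x} : Set F)) (C w)) := by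
    rw [hCw]; exact hdom
  have hsep' := H425.hsep_poly R w hw (H138.chart R ({x} : Set F)) hdom' (by
    intro b
    obtain ⟨P, h1, h2⟩ := hsep b
    refine ⟨P, ?_, ?_⟩
    · rw [hCw]; exact h1
    · rw [hCw]; exact h2)
  have hreg := b2Regular.{u, v} R w hw (H138.chart R ({x} : Set F)) hdom' hsep' S hS hNC
  intro 𝔪 h𝔪 hw𝔪
  have := hreg 𝔪 h𝔪 (by rw [hCw]; exact hw𝔪)
  rwa [hCw] at this

/-- **REG-CHART, field form.**  Same as `regularAlong_chart`, with `hsep` and `hNC` stated by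
elements of `F`:
* `hsep` : for every `b` in the chart there is a polynomial `P` with coefficients in `R[x]` with
  `P(b) ∈ w B` and `P'(b) ∉ w B`;
* `hNC`  : for the primes `π` of `R[X]` away from `w` and the `X - c`, `c ∈ S`:
  `b ∈ B`, `b² ∈ π(x) B` ⟹ `b ∈ π(x) B`. -/
theorem regularAlong_chart_field
    {x : F} (hx : Transcendental R x) [FiniteDimensional (H138.baseField R x) F]
    (w : R) (hw : Irreducible w)
    (hdom : Prime (algebraMap R (H138.chart R ({x} : Set F)) w))
    (hsep : ∀ b ∈ H138.chart R ({x} : Set F), ∃ P : F[X],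
        (∀ i, P.coeff i ∈ Algebra.adjoin R ({x} : Set F)) ∧
        (∃ t ∈ H138.chart R ({x} : Set F), P.eval b = algebraMap R F w * t) ∧
        ¬ ∃ t ∈ H138.chart R ({x} : Set F), (derivative P).eval b = algebraMap R F w * t)
    (S : Finset R) (hS : ∀ c ∈ S, ∀ c' ∈ S, c ≠ c' → IsUnit (c - c'))
    (hNC : ∀ π : R[X], Prime π → ¬ Associated π (C w) → (∀ c ∈ S, ¬ Associated π (X - C c)) →
        ∀ b ∈ H138.chart R ({x} : Set F),
          (∃ t ∈ H138.chart R ({x} : Set F), b ^ 2 = aeval x π * t) →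
          ∃ t ∈ H138.chart R ({x} : Set F), b = aeval x π * t) :
    H754.RegularAlong (algebraMap R (H138.chart R ({x} : Set F)) w) := by
  refine regularAlong_chart hx w hw hdom ?_ S hS ?_
  · intro b
    obtain ⟨P, hP, h1, h2⟩ := hsep b b.2
    have hlift : P ∈ Polynomial.lifts (aeval x : R[X] →ₐ[R] F).toRingHom := by
      rw [Polynomial.lifts_iff_coeff_lifts]
      intro n
      have := hP n
      rw [Algebra.adjoin_singleton_eq_range_aeval] at this
      obtain ⟨q, hq⟩ := this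
      exact ⟨q, hq⟩
    obtain ⟨Q, hQ⟩ := (Polynomial.mem_lifts P).1 hlift
    refine ⟨Q, ?_, ?_⟩
    · rw [algebraMap_dvd_chart_iff, coe_eval₂_chartPolyHom, hQ]
      exact h1
    · rw [algebraMap_dvd_chart_iff, coe_eval₂_chartPolyHom, ← derivative_map, hQ]
      exact h2
  · intro π hπ h1 h2
    rw [Ideal.isRadical_iff_pow_one_lt 2 one_lt_two]
    intro r hr
    rw [Ideal.mem_span_singleton] at hr ⊢
    rw [chartPolyHom_dvd_chart_iff] at hr ⊢
    obtain ⟨t, ht, h⟩ := hr
    refine hNC π hπ h1 h2 r r.2 ⟨t, ht, ?_⟩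
    rw [← h]
    rfl

omit [IsDomain R] [IsDiscreteValuationRing R] [CharZero F] in
/-- The finiteness instance for the chart at infinity. -/
theorem finiteDimensional_baseField_inv (x : F) [h : FiniteDimensional (H138.baseField R x) F] :
    FiniteDimensional (H138.baseField R x⁻¹) F := by
  rw [H138.baseField_inv]
  exact h

/-- **REG-CHART at infinity** (field form): `regularAlong_chart_field` for the chart
`H138.chart R {x⁻¹}`, with the finiteness instance of the finite chart. -/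
theorem regularAlong_chart_inv_field
    {x : F} (hx : Transcendental R x) [FiniteDimensional (H138.baseField R x) F]
    (w : R) (hw : Irreducible w)
    (hdom : Prime (algebraMap R (H138.chart R ({x⁻¹} : Set F)) w))
    (hsep : ∀ b ∈ H138.chart R ({x⁻¹} : Set F), ∃ P : F[X],
        (∀ i, P.coeff i ∈ Algebra.adjoin R ({x⁻¹} : Set F)) ∧
        (∃ t ∈ H138.chart R ({x⁻¹} : Set F), P.eval b = algebraMap R F w * t) ∧
        ¬ ∃ t ∈ H138.chart R ({x⁻¹} : Set F), (derivative P).eval b = algebraMap R F w * t)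
    (S : Finset R) (hS : ∀ c ∈ S, ∀ c' ∈ S, c ≠ c' → IsUnit (c - c'))
    (hNC : ∀ π : R[X], Prime π → ¬ Associated π (C w) → (∀ c ∈ S, ¬ Associated π (X - C c)) →
        ∀ b ∈ H138.chart R ({x⁻¹} : Set F),
          (∃ t ∈ H138.chart R ({x⁻¹} : Set F), b ^ 2 = aeval x⁻¹ π * t) →
          ∃ t ∈ H138.chart R ({x⁻¹} : Set F), b = aeval x⁻¹ π * t) :
    H754.RegularAlong (algebraMap R (H138.chart R ({x⁻¹} : Set F)) w) := by
  haveI := finiteDimensional_baseField_inv (R := R) x
  exact regularAlong_chart_field (H138.transcendental_inv hx) w hw hdom hsep S hS hNC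

end Main

end Fermat.Agent.S18.B12.H33

end
end
-- ===== PACK-END S18/B12/H33/RegChart.lean

-- ===== PACK-BEGIN Ribet/H584/IncAnGood.lean
section
/-
RIBET row 38, WALL-p, I3 leaf INC-AN (analytic half), piece GOOD — helper584.

For a cusp form `f` of weight 2 on `Γ₀(M)` the weight-0 functions
  `H₁ = f·E₄·E₆/Δ`,  `H₂ = f²·E₄²/Δ`,  `H₃ = f³·E₆³/Δ²`
belong to `S24.H648.goodRing M` (holomorphic, `Γ₀(M)`-invariant, all `SL₂(ℤ)`-translates of at
most exponential growth), and `H₁ ∘ g · q → 0` at `i∞` for every `g ∈ SL₂(ℤ)`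
(pole order `< 1` in `q` at every cusp).
-/





set_option autoImplicit false

noncomputable section

open UpperHalfPlane ModularForm EisensteinSeries CongruenceSubgroup Filter
open scoped MatrixGroups Manifold Real Modular

namespace Fermat.Agent.Ribet.H584

open Fermat.Agent.S24 Fermat.Agent.S24.H648 Fermat.Agent.S24.H708

local notation "Δ" => ModularForm.discriminant

/-- `A` transforms with weight `k` under `Γ₀(M)`. -/
def WtInv (M : ℕ) (k : ℕ) (A : ℍ → ℂ) : Prop :=
  ∀ γ ∈ Gamma0 M, ∀ τ : ℍ, A (γ • τ) = denom γ τ ^ k * A τ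

/-- All `SL₂(ℤ)`-slashes of weight `k` of `A` are bounded on `im τ ≥ 1`. -/
def SlashBdd (k : ℕ) (A : ℍ → ℂ) : Prop :=
  ∀ g : SL(2, ℤ), ∃ C : ℝ, ∀ τ : ℍ, 1 ≤ τ.im → ‖A (g • τ)‖ ≤ C * ‖denom g τ‖ ^ k

theorem WtInv.mul {M k l : ℕ} {A B : ℍ → ℂ} (hA : WtInv M k A) (hB : WtInv M l B) :
    WtInv M (k + l) (A * B) := by
  intro γ hγ τ
  rw [Pi.mul_apply, Pi.mul_apply, hA γ hγ τ, hB γ hγ τ, pow_add]
  ring

theorem WtInv.pow {M k : ℕ} {A : ℍ → ℂ} (hA : WtInv M k A) (n : ℕ) :
    WtInv M (k * n) (A ^ n) := by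
  intro γ hγ τ
  rw [Pi.pow_apply, Pi.pow_apply, hA γ hγ τ, mul_pow, pow_mul]

theorem SlashBdd.mul {k l : ℕ} {A B : ℍ → ℂ} (hA : SlashBdd k A) (hB : SlashBdd l B) :
    SlashBdd (k + l) (A * B) := by
  intro g
  obtain ⟨C, hC⟩ := hA g
  obtain ⟨C', hC'⟩ := hB g
  refine ⟨C * C', fun τ hτ => ?_⟩
  rw [Pi.mul_apply, norm_mul, pow_add]
  have h1 := hC τ hτ
  have h2 := hC' τ hτ
  calc ‖A (g • τ)‖ * ‖B (g • τ)‖ ≤ (C * ‖denom g τ‖ ^ k) * (C' * ‖denom g τ‖ ^ l) :=
        mul_le_mul h1 h2 (norm_nonneg _) ((norm_nonneg _).trans h1)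
    _ = _ := by ring

theorem SlashBdd.pow {k : ℕ} {A : ℍ → ℂ} (hA : SlashBdd k A) (n : ℕ) :
    SlashBdd (k * n) (A ^ n) := by
  intro g
  obtain ⟨C, hC⟩ := hA g
  refine ⟨C ^ n, fun τ hτ => ?_⟩
  rw [Pi.pow_apply, norm_pow, pow_mul, ← mul_pow]
  exact pow_le_pow_left₀ (norm_nonneg _) (hC τ hτ) n

/-- Level-one modular forms are slash-bounded. -/
theorem slashBdd_levelOne {k : ℕ} (F : ModularForm 𝒮ℒ k) : SlashBdd k F := by
  intro g
  obtain ⟨C, hC⟩ := ModularFormClass.exists_bound (k := k) (Γ := 𝒮ℒ) (Int.natCast_nonneg k) F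
  have hC0 : 0 ≤ C := by
    have h := hC UpperHalfPlane.I
    have h1 : (0 : ℝ) < max 1 (1 / UpperHalfPlane.I.im ^ (k : ℤ)) :=
      lt_max_of_lt_left one_pos
    by_contra hneg
    rw [not_le] at hneg
    have : C * max 1 (1 / UpperHalfPlane.I.im ^ (k : ℤ)) < 0 := mul_neg_of_neg_of_pos hneg h1
    exact absurd ((norm_nonneg _).trans h) (not_le.mpr this)
  refine ⟨C, fun τ hτ => ?_⟩
  have hsl : F (g • τ) = denom g τ ^ (k : ℤ) * F τ :=
    SlashInvariantForm.slash_action_eqn'' F
      (show ((g : SL(2, ℤ)) : GL (Fin 2) ℝ) ∈ 𝒮ℒ from ⟨g, rfl⟩) τ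
  rw [hsl, norm_mul, norm_zpow, zpow_natCast, mul_comm]
  have h := hC τ
  have hmax : max 1 (1 / τ.im ^ (k : ℤ)) = 1 := by
    apply max_eq_left
    rw [zpow_natCast, div_le_one (by positivity)]
    exact one_le_pow₀ hτ
  rw [hmax, mul_one] at h
  exact mul_le_mul_of_nonneg_right h (by positivity)

theorem wtInv_levelOne (M : ℕ) {k : ℕ} (F : ModularForm 𝒮ℒ k) : WtInv M k F := by
  intro γ _ τ
  have hsl : F (γ • τ) = denom γ τ ^ (k : ℤ) * F τ :=
    SlashInvariantForm.slash_action_eqn'' F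
      (show ((γ : SL(2, ℤ)) : GL (Fin 2) ℝ) ∈ 𝒮ℒ from ⟨γ, rfl⟩) τ
  rw [hsl, zpow_natCast]

variable {M : ℕ} [NeZero M]

omit [NeZero M] in
theorem wtInv_cusp (f : CuspForm (Gamma0 M) 2) : WtInv M 2 f := by
  intro γ hγ τ
  have h := SlashInvariantForm.slash_action_eqn_SL'' f hγ τ
  rw [h]
  norm_cast

/-- Cusp forms of weight 2 are slash-bounded (Hecke's bound `‖f τ‖ ≤ C / im τ`). -/
theorem slashBdd_cusp (f : CuspForm (Gamma0 M) 2) : SlashBdd 2 f := by
  intro g
  obtain ⟨C, hC⟩ := CuspFormClass.exists_bound (k := 2) f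
  have hC' : ∀ τ : ℍ, ‖f τ‖ * τ.im ≤ C := by
    intro τ
    have h := hC τ
    have hpow : τ.im ^ (((2 : ℤ) : ℝ) / 2) = τ.im := by
      have : (((2 : ℤ) : ℝ) / 2) = 1 := by norm_num
      rw [this, Real.rpow_one]
    rw [hpow] at h
    rwa [le_div_iff₀ τ.im_pos] at h
  have hC0 : 0 ≤ C := le_trans (by positivity) (hC' UpperHalfPlane.I)
  refine ⟨C, fun τ hτ => ?_⟩
  have h := hC' (g • τ)
  rw [ModularGroup.im_smul_eq_div_normSq, Complex.normSq_eq_norm_sq] at h
  have hd : denom g τ ≠ 0 := denom_ne_zero _ _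
  have hn : 0 < ‖denom g τ‖ ^ 2 := by positivity
  have h1 : ‖f (g • τ)‖ * τ.im ≤ C * ‖denom g τ‖ ^ 2 := by
    rw [← div_le_iff₀ hn]
    calc ‖f (g • τ)‖ * τ.im / ‖denom g τ‖ ^ 2 = ‖f (g • τ)‖ * (τ.im / ‖denom g τ‖ ^ 2) := by
          ring
      _ ≤ C := h
  calc ‖f (g • τ)‖ = ‖f (g • τ)‖ * 1 := (mul_one _).symm
    _ ≤ ‖f (g • τ)‖ * τ.im := mul_le_mul_of_nonneg_left hτ (norm_nonneg _)
    _ ≤ _ := h1


omit [NeZero M] in
theorem mdiff_discriminant_pow (k : ℕ) : MDiff (fun τ : ℍ => Δ τ ^ k) :=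
  CuspForm.discriminant.holo'.pow k

omit [NeZero M] in
/-- **GOOD, general form**: a holomorphic function of weight `12 k` for `Γ₀(M)`, slash-bounded,
divided by `Δ ^ k`, is a good function. -/
theorem mem_goodRing_div {A : ℍ → ℂ} (k : ℕ) (hA : MDiff A) (hinv : WtInv M (12 * k) A)
    (hbd : SlashBdd (12 * k) A) : (fun τ => A τ / Δ τ ^ k) ∈ goodRing M := by
  have hΔk : ∀ (g : SL(2, ℤ)) (τ : ℍ), Δ (g • τ) ^ k = denom g τ ^ (12 * k) * Δ τ ^ k := by
    intro g τ
    rw [JFun.discriminant_smul, mul_pow, pow_mul]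
    norm_cast
  refine ⟨hA.div (mdiff_discriminant_pow k) fun τ => pow_ne_zero k (discriminant_ne_zero τ),
    fun γ hγ τ => ?_, fun g => ?_⟩
  · show A (γ • τ) / Δ (γ • τ) ^ k = A τ / Δ τ ^ k
    rw [hinv γ hγ τ, hΔk]
    have hd : denom γ τ ^ (12 * k) ≠ 0 := pow_ne_zero _ (denom_ne_zero _ _)
    rw [mul_div_mul_left _ _ hd]
  · obtain ⟨C, hC⟩ := hbd g
    obtain ⟨C₂, hC₂⟩ := Fermat.Agent.S28.H589.exists_inv_discriminant_bound
    refine ⟨C * C₂ ^ k, k, fun τ hτ => ?_⟩
    show ‖A (g • τ) / Δ (g • τ) ^ k‖ ≤ _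
    have hd : (0 : ℝ) < ‖denom g τ‖ ^ (12 * k) :=
      pow_pos (norm_pos_iff.mpr (denom_ne_zero _ _)) _
    have hΔ0 : (0 : ℝ) < ‖Δ τ‖ := norm_pos_iff.mpr (discriminant_ne_zero τ)
    have h1 := hC τ hτ
    have h2 := hC₂ τ hτ
    have hC0 : 0 ≤ C := by
      by_contra hneg
      rw [not_le] at hneg
      exact absurd ((norm_nonneg _).trans h1) (not_le.mpr (mul_neg_of_neg_of_pos hneg hd))
    rw [norm_div, hΔk, norm_mul, norm_pow, norm_pow]
    have h3 : ‖A (g • τ)‖ / (‖denom g τ‖ ^ (12 * k) * ‖Δ τ‖ ^ k) ≤ C * (‖Δ τ‖⁻¹) ^ k := by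
      rw [div_le_iff₀ (by positivity)]
      calc ‖A (g • τ)‖ ≤ C * ‖denom g τ‖ ^ (12 * k) := h1
        _ = C * (‖Δ τ‖⁻¹) ^ k * (‖denom g τ‖ ^ (12 * k) * ‖Δ τ‖ ^ k) := by
            rw [inv_pow]
            field_simp
    refine h3.trans ?_
    rw [norm_inv] at h2
    have h4 : (‖Δ τ‖⁻¹) ^ k ≤ (C₂ * Real.exp (2 * π * τ.im)) ^ k :=
      pow_le_pow_left₀ (by positivity) h2 k
    calc C * (‖Δ τ‖⁻¹) ^ k ≤ C * (C₂ * Real.exp (2 * π * τ.im)) ^ k :=
          mul_le_mul_of_nonneg_left h4 hC0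
      _ = C * C₂ ^ k * Real.exp (2 * π * k * τ.im) := by
          rw [mul_pow, ← Real.exp_nat_mul]
          ring_nf

/-! ### The three functions attached to a cusp form of weight 2 -/

/-- `H₁ = f E₄ E₆ / Δ`. -/
def H1 (f : ℍ → ℂ) (τ : ℍ) : ℂ := f τ * E₄ τ * E₆ τ / Δ τ

/-- `H₂ = f² E₄² / Δ`. -/
def H2 (f : ℍ → ℂ) (τ : ℍ) : ℂ := f τ ^ 2 * E₄ τ ^ 2 / Δ τ

/-- `H₃ = f³ E₆³ / Δ²`. -/
def H3 (f : ℍ → ℂ) (τ : ℍ) : ℂ := f τ ^ 3 * E₆ τ ^ 3 / Δ τ ^ 2

theorem H1_mem_goodRing (f : CuspForm (Gamma0 M) 2) : H1 f ∈ goodRing M := by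
  have h := mem_goodRing_div (M := M) (A := (f : ℍ → ℂ) * E₄ * E₆) 1
    ((CuspFormClass.holo f).mul (ModularFormClass.holo E₄) |>.mul (ModularFormClass.holo E₆))
    (((wtInv_cusp f).mul (wtInv_levelOne M E₄)).mul (wtInv_levelOne M E₆))
    (((slashBdd_cusp f).mul (slashBdd_levelOne E₄)).mul (slashBdd_levelOne E₆))
  convert h using 1
  funext τ
  simp [H1]

theorem H2_mem_goodRing (f : CuspForm (Gamma0 M) 2) : H2 f ∈ goodRing M := by
  have h := mem_goodRing_div (M := M) (A := (f : ℍ → ℂ) ^ 2 * (E₄ : ℍ → ℂ) ^ 2) 1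
    (((CuspFormClass.holo f).pow 2).mul ((ModularFormClass.holo E₄).pow 2))
    (((wtInv_cusp f).pow 2).mul ((wtInv_levelOne M E₄).pow 2))
    (((slashBdd_cusp f).pow 2).mul ((slashBdd_levelOne E₄).pow 2))
  convert h using 1
  funext τ
  simp [H2]

theorem H3_mem_goodRing (f : CuspForm (Gamma0 M) 2) : H3 f ∈ goodRing M := by
  have h := mem_goodRing_div (M := M) (A := (f : ℍ → ℂ) ^ 3 * (E₆ : ℍ → ℂ) ^ 3) 2
    (((CuspFormClass.holo f).pow 3).mul ((ModularFormClass.holo E₆).pow 3))
    (((wtInv_cusp f).pow 3).mul ((wtInv_levelOne M E₆).pow 3))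
    (((slashBdd_cusp f).pow 3).mul ((slashBdd_levelOne E₆).pow 3))
  convert h using 1
  funext τ
  simp [H3]

/-! ### Relations -/

omit [NeZero M] in
theorem H1_sq (f : ℍ → ℂ) (τ : ℍ) : H1 f τ ^ 2 = H2 f τ * (JFun.jFun τ - 1728) := by
  rw [JFun.jFun_sub_1728, H1, H2]
  have := discriminant_ne_zero τ
  field_simp

omit [NeZero M] in
theorem H1_cube (f : ℍ → ℂ) (τ : ℍ) : H1 f τ ^ 3 = H3 f τ * JFun.jFun τ := by
  rw [JFun.jFun_def, H1, H3]
  have := discriminant_ne_zero τ
  field_simp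


/-! ### Decay at the cusps -/

omit [NeZero M] in
/-- `q / Δ` is bounded at `i∞`. -/
theorem isBoundedAtImInfty_q_div_discriminant :
    IsBoundedAtImInfty (fun τ : ℍ => qh 1 τ / Δ τ) := by
  obtain ⟨C, hC⟩ := Fermat.Agent.S28.H589.exists_inv_discriminant_bound
  rw [UpperHalfPlane.isBoundedAtImInfty_iff]
  refine ⟨C, 1, fun τ hτ => ?_⟩
  have h := hC τ hτ
  have hq : ‖qh 1 τ‖ = Real.exp (-(2 * π * τ.im)) := by
    rw [qh_apply, Function.Periodic.norm_qParam]
    congr 1
    simp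
  rw [div_eq_mul_inv, norm_mul, hq]
  calc Real.exp (-(2 * π * τ.im)) * ‖(Δ τ)⁻¹‖
      ≤ Real.exp (-(2 * π * τ.im)) * (C * Real.exp (2 * π * τ.im)) :=
        mul_le_mul_of_nonneg_left h (Real.exp_pos _).le
    _ = C := by
        rw [mul_comm C, ← mul_assoc, ← Real.exp_add, neg_add_cancel, Real.exp_zero, one_mul]

omit [NeZero M] in
theorem H1_smul_mul_q (f : ℍ → ℂ) (g : SL(2, ℤ)) (τ : ℍ) :
    H1 f (g • τ) * qh 1 τ = (f ∣[(2 : ℤ)] g) τ * (E₄ τ * E₆ τ * (qh 1 τ / Δ τ)) := by
  rw [H1, ModularForm.SL_slash_apply, JFun.E₄_smul, JFun.E₆_smul, JFun.discriminant_smul]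
  have hd : denom g τ ≠ 0 := denom_ne_zero _ _
  have hΔ := discriminant_ne_zero τ
  have e4 : denom g τ ^ (4 : ℤ) = denom g τ ^ 4 := by norm_cast
  have e6 : denom g τ ^ (6 : ℤ) = denom g τ ^ 6 := by norm_cast
  have e12 : denom g τ ^ (12 : ℤ) = denom g τ ^ 12 := by norm_cast
  have e2 : denom g τ ^ (-(2 : ℤ)) = (denom g τ ^ 2)⁻¹ := by
    rw [zpow_neg]
    norm_cast
  rw [e4, e6, e12, e2]
  field_simp

/-- **Cusp decay**: `H₁ ∘ g` has pole order `< 1` in `q` at `i∞`, for every `g ∈ SL₂(ℤ)`. -/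
theorem isZeroAtImInfty_H1_smul_mul_q (f : CuspForm (Gamma0 M) 2) (g : SL(2, ℤ)) :
    IsZeroAtImInfty (fun τ => H1 f (g • τ) * qh 1 τ) := by
  have h0 : IsZeroAtImInfty ((f : ℍ → ℂ) ∣[(2 : ℤ)] g) := CuspFormClass.zero_at_infty_slash f g
  have h4 : IsBoundedAtImInfty (E₄ : ℍ → ℂ) := ModularFormClass.bdd_at_infty E₄
  have h6 : IsBoundedAtImInfty (E₆ : ℍ → ℂ) := ModularFormClass.bdd_at_infty E₆
  have hb : IsBoundedAtImInfty
      ((E₄ : ℍ → ℂ) * (E₆ : ℍ → ℂ) * (fun τ : ℍ => qh 1 τ / Δ τ)) :=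
    (h4.mul h6).mul isBoundedAtImInfty_q_div_discriminant
  have := Filter.ZeroAtFilter.mul_boundedAtFilter h0 hb
  refine this.congr ?_
  exact fun τ => (H1_smul_mul_q f g τ).symm

end Fermat.Agent.Ribet.H584

end
end
-- ===== PACK-END Ribet/H584/IncAnGood.lean

-- ===== PACK-BEGIN S37/H940/Chart.lean
section





/-!
# S37 / RIM (helper940): the atlas of a coordinate

Setting: a reduction context `C : Ctx K F k Fk` (constants `A ⊆ K`, `π : A ↠ k`, `V ⊆ F` with
`ρ : V → F_k`), `K` and `k` algebraically closed (any characteristics), and a coordinate `x ∈ V`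
with `x̄ = ρ x` transcendental, `F / K(x)` and `F_k / k(x̄)` finite.

For a local coordinate `t ∈ V` (`t = x` or `t = x⁻¹`) and `c̄ ∈ k` the hypothesis
`LocalCoord C t c̄` consists of
* `FC`   : conservation of number over the residue disc `t ≡ c̄`
  (`∑_{P : t(P) ≡ c̄} ord_P u = ∑_{Q : t̄(Q) = c̄} ord_Q (ρ u)` for `u ∈ V`, `ρ u ≠ 0`);
* `LIFT` : every element of `F_k` integral over `k[t̄]` is the reduction of some `b ∈ V` which is
  regular wherever `t` is regular  (normality of the special fibre).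

Main results:
* `fibreOf`            : the fibre (in the sense of `Core.lean`) over `c̄`;
* `atlasOf`            : the atlas indexed by `Option k` (`none` = the point at infinity);
* `exists_red_of_coord`: the place reduction map `r` with (i) degrees, (ii) specialisation of
  principal divisors, and value compatibility on both charts.

Only `FC` for the two local coordinates `x`, `x⁻¹` is needed: no auxiliary separating
coordinates, no degree computations, no Dedekind domains.
-/

set_option autoImplicit false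

noncomputable section

namespace Fermat.Agent.S37.H940

open AlgebraicCurve IntermediateField Polynomial

variable {K F k Fk : Type*} [Field K] [Field F] [Algebra K F] [Field k] [Field Fk]
  [Algebra k Fk]

namespace Ctx

variable (C : Ctx K F k Fk)

/-- the residue disc `t ≡ c̄` -/
def tube (t : F) (c : k) : Set (Place K F) :=
  {P | ∃ a : C.A, C.π a = c ∧ InMax P (t - algebraMap K F (a : K))}

/-- the points of the special fibre with `s = c̄` -/
def pts (_C : Ctx K F k Fk) (s : Fk) (c : k) : Set (Place k Fk) :=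
  {Q | InMax Q (s - algebraMap k Fk c)}

theorem ord_nonneg_of_mem_tube {t : F} {c : k} {P : Place K F} (h : P ∈ C.tube t c) :
    0 ≤ P.ord t := by
  obtain ⟨a, -, ha⟩ := h
  exact ord_nonneg_of_inMax_sub ha

/-- an element of `V` whose reduction is transcendental is transcendental -/
theorem transcendental_of_ρ [IsAlgClosed K] {t : C.V} (ht : Transcendental k (C.ρ t)) :
    Transcendental K (t : F) := by
  intro halg
  obtain ⟨c, hc⟩ := Fermat.Agent.S24.FF.mem_range_of_isAlgebraic halg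
  by_cases hcA : c ∈ C.A
  · apply ht
    have e : t = C.const ⟨c, hcA⟩ := Subtype.ext hc.symm
    rw [e, C.ρ_const]
    exact isAlgebraic_algebraMap _
  · obtain ⟨a, ha, hπ⟩ := C.exists_inv_of_not_mem hcA
    have hc0 : c ≠ 0 := by
      rintro rfl
      exact hcA (zero_mem _)
    have e : t * C.const a = 1 := by
      apply Subtype.ext
      show (t : F) * algebraMap K F (a : K) = 1
      rw [← hc, ha, ← map_mul, mul_inv_cancel₀ hc0, map_one]
    have := congrArg C.ρ e
    rw [map_mul, C.ρ_const, hπ, map_zero, mul_zero, map_one] at this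
    exact zero_ne_one this

end Ctx

/-- The hypotheses on a local coordinate `t` over the point `c̄`. -/
structure LocalCoord (C : Ctx K F k Fk) (t : C.V) (c : k) : Prop where
  /-- conservation of number over the residue disc -/
  FC : ∀ u : C.V, C.ρ u ≠ 0 → ∀ (S : Finset (Place K F)) (T : Finset (Place k Fk)),
    (∀ P ∈ C.tube (t : F) c, P.ord (u : F) ≠ 0 → P ∈ S) → (∀ P ∈ S, P ∈ C.tube (t : F) c) →
    (∀ Q ∈ C.pts (C.ρ t) c, Q.ord (C.ρ u) ≠ 0 → Q ∈ T) → (∀ Q ∈ T, Q ∈ C.pts (C.ρ t) c) →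
    ∑ P ∈ S, P.ord (u : F) = ∑ Q ∈ T, Q.ord (C.ρ u)
  /-- normality of the special fibre: integral functions lift to regular functions -/
  LIFT : ∀ τ ∈ integralClosure (Algebra.adjoin k {C.ρ t}) Fk,
    ∃ b : C.V, C.ρ b = τ ∧ ∀ P : Place K F, 0 ≤ P.ord (t : F) → 0 ≤ P.ord (b : F)

section Fibre

variable [IsAlgClosed K] [IsAlgClosed k] (C : Ctx K F k Fk) (t : C.V)
  (ht : Transcendental k (C.ρ t)) [FiniteDimensional K⟮(t : F)⟯ F]
  [FiniteDimensional k⟮C.ρ t⟯ Fk] (c : k) (h : LocalCoord C t c)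

/-- **The fibre over `c̄`** of a local coordinate. -/
def fibreOf : Fibre C where
  𝔉 := C.tube (t : F) c
  𝔊 := (Line.finite_fibre ht c).toFinset
  ne := by
    obtain ⟨Q, hQ⟩ := Line.exists_mem_fibre ht c
    exact ⟨Q, by rw [Set.Finite.mem_toFinset]; exact hQ⟩
  res := fun P _ f hf => Line.exists_value (C.transcendental_of_ρ ht) P hf
  fin := fun u _ =>
    (Line.finite_ord_ne_zero (C.transcendental_of_ρ ht) u).subset fun P hP => hP.2
  FC := by
    intro u hu
    have hu0 : (u : F) ≠ 0 := C.ne_zero_of_ρ_ne_zero hu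
    have hfin : {P : Place K F | P ∈ C.tube (t : F) c ∧ P.ord (u : F) ≠ 0}.Finite :=
      (Line.finite_ord_ne_zero (C.transcendental_of_ρ ht) (u : F)).subset fun P hP => hP.2
    rw [← h.FC u hu hfin.toFinset (Line.finite_fibre ht c).toFinset
      (fun P hP hne => by rw [Set.Finite.mem_toFinset]; exact ⟨hP, hne⟩)
      (fun P hP => by rw [Set.Finite.mem_toFinset] at hP; exact hP.1)
      (fun Q hQ _ => by rw [Set.Finite.mem_toFinset]; exact hQ)
      (fun Q hQ => by rw [Set.Finite.mem_toFinset] at hQ; exact hQ)]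
    apply finsum_mem_eq_sum_of_inter_support_eq
    ext P
    simp only [Set.mem_inter_iff, Function.mem_support, ne_eq, Set.Finite.coe_toFinset,
      Set.mem_ofPred_eq]
    constructor
    · rintro ⟨h1, h2⟩
      exact ⟨⟨h1, h2⟩, h2⟩
    · rintro ⟨⟨h1, h2⟩, -⟩
      exact ⟨h1, h2⟩
  LP := by
    intro Q hQ
    rw [Set.Finite.mem_toFinset] at hQ
    obtain ⟨τ, hτ, h1, h2⟩ := Line.exists_localParam ht c Q hQ
    obtain ⟨b, hb, hreg⟩ := h.LIFT τ hτ
    refine ⟨b, fun P hP => hreg P (C.ord_nonneg_of_mem_tube hP), by rw [hb]; exact h1, ?_⟩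
    intro Q' hQ' hne
    rw [Set.Finite.mem_toFinset] at hQ'
    rw [hb]
    exact h2 Q' hQ' hne
  SEP := by
    obtain ⟨σ, hσ, hsep⟩ := Line.exists_separating ht c
    obtain ⟨b, hb, hreg⟩ := h.LIFT σ hσ
    refine ⟨b, fun P hP => hreg P (C.ord_nonneg_of_mem_tube hP), ?_⟩
    intro Q hQ Q' hQ' a ha ha'
    rw [Set.Finite.mem_toFinset] at hQ hQ'
    rw [hb] at ha ha'
    exact hsep Q Q' hQ hQ' a ha ha'

@[simp] theorem fibreOf_𝔉 : (fibreOf C t ht c h).𝔉 = C.tube (t : F) c := rfl

theorem mem_fibreOf_𝔊 (Q : Place k Fk) :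
    Q ∈ (fibreOf C t ht c h).𝔊 ↔ InMax Q (C.ρ t - algebraMap k Fk c) := by
  show Q ∈ (Line.finite_fibre ht c).toFinset ↔ _
  rw [Set.Finite.mem_toFinset]
  rfl

end Fibre

section Atlas

variable (C : Ctx K F k Fk) (x : C.V)

theorem ρ_ne_zero_of_transcendental (hx : Transcendental k (C.ρ x)) : C.ρ x ≠ 0 :=
  fun h => hx (h ▸ isAlgebraic_zero)

/-- the inverse of the coordinate -/
def xinv (hx : Transcendental k (C.ρ x)) : C.V := C.inv x (ρ_ne_zero_of_transcendental C x hx)

@[simp] theorem coe_xinv (hx : Transcendental k (C.ρ x)) :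
    ((xinv C x hx : C.V) : F) = ((x : F))⁻¹ := rfl

@[simp] theorem ρ_xinv (hx : Transcendental k (C.ρ x)) : C.ρ (xinv C x hx) = (C.ρ x)⁻¹ :=
  C.ρ_inv x _

theorem transcendental_ρ_xinv (hx : Transcendental k (C.ρ x)) :
    Transcendental k (C.ρ (xinv C x hx)) := by
  rw [ρ_xinv]
  intro h
  apply hx
  simpa using h.inv

theorem finiteDimensional_xinv [IsAlgClosed K] (hx : Transcendental k (C.ρ x))
    [FiniteDimensional K⟮(x : F)⟯ F] :
    FiniteDimensional K⟮((xinv C x hx : C.V) : F)⟯ F :=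
  Fermat.Agent.S24.FF.finiteDimensional_adjoin_of_transcendental (C.transcendental_of_ρ hx)
    (C.transcendental_of_ρ (transcendental_ρ_xinv C x hx))

theorem finiteDimensional_ρ_xinv (hx : Transcendental k (C.ρ x))
    [FiniteDimensional k⟮C.ρ x⟯ Fk] :
    FiniteDimensional k⟮C.ρ (xinv C x hx)⟯ Fk :=
  Fermat.Agent.S24.FF.finiteDimensional_adjoin_of_transcendental hx
    (transcendental_ρ_xinv C x hx)

theorem coe_x_ne_zero (hx : Transcendental k (C.ρ x)) : (x : F) ≠ 0 :=
  C.ne_zero_of_ρ_ne_zero (ρ_ne_zero_of_transcendental C x hx)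

/-- every place of `F` lies in a finite tube or in the tube at infinity -/
theorem cover_tube [IsAlgClosed K] (hx : Transcendental k (C.ρ x))
    [FiniteDimensional K⟮(x : F)⟯ F] (P : Place K F) :
    (∃ c : k, P ∈ C.tube (x : F) c) ∨ P ∈ C.tube ((x : F))⁻¹ 0 := by
  have hx0 : (x : F) ≠ 0 := coe_x_ne_zero C x hx
  by_cases h : 0 ≤ P.ord (x : F)
  · obtain ⟨c, hc⟩ := Line.exists_value (C.transcendental_of_ρ hx) P h
    by_cases hcA : c ∈ C.A
    · exact Or.inl ⟨C.π ⟨c, hcA⟩, ⟨c, hcA⟩, rfl, hc⟩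
    · right
      obtain ⟨a, ha, hπ⟩ := C.exists_inv_of_not_mem hcA
      have hc0 : c ≠ 0 := by
        rintro rfl
        exact hcA (zero_mem _)
      refine ⟨a, hπ, ?_⟩
      have hord : P.ord (x : F) = 0 := ord_eq_zero_of_inMax_sub hc hc0
      have hreg : 0 ≤ P.ord ((x : F)⁻¹ * algebraMap K F c⁻¹) := by
        refine Line.regular_mul P ?_ (ord_nonneg_const P _)
        rw [P.ord_inv, hord]; simp
      have e : (x : F)⁻¹ - algebraMap K F (a : K)
          = -((x : F) - algebraMap K F c) * ((x : F)⁻¹ * algebraMap K F c⁻¹) := by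
        have hcF : algebraMap K F c ≠ 0 := by simpa using hc0
        rw [ha, map_inv₀]
        field_simp
        ring
      rw [e]
      exact hc.neg.mul_of_ord_nonneg hreg
  · right
    refine ⟨0, map_zero _, ?_⟩
    have : 0 < P.ord ((x : F))⁻¹ := by
      rw [P.ord_inv]
      omega
    simpa using inMax_of_ord_pos this

theorem disj_tube_fin (P : Place K F) {c c' : k} (h : P ∈ C.tube (x : F) c)
    (h' : P ∈ C.tube (x : F) c') : c = c' := by
  obtain ⟨a, rfl, ha⟩ := h
  obtain ⟨a', rfl, ha'⟩ := h'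
  have := value_unique ha ha'
  rw [Subtype.ext this]

theorem disj_tube_inf (hx : Transcendental k (C.ρ x)) (P : Place K F) {c : k}
    (h : P ∈ C.tube (x : F) c) (h' : P ∈ C.tube ((x : F))⁻¹ 0) : False := by
  have hx0 : (x : F) ≠ 0 := coe_x_ne_zero C x hx
  obtain ⟨a, -, ha⟩ := h
  obtain ⟨a', hπ, ha'⟩ := h'
  have hreg : 0 ≤ P.ord ((x : F))⁻¹ := ord_nonneg_of_inMax_sub ha'
  have h1 : InMax P (((x : F) - algebraMap K F (a : K)) * (x : F)⁻¹
      + algebraMap K F (a : K) * ((x : F)⁻¹ - algebraMap K F (a' : K))) :=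
    (ha.mul_of_ord_nonneg hreg).add (ha'.const_mul _)
  have e : ((x : F) - algebraMap K F (a : K)) * (x : F)⁻¹
      + algebraMap K F (a : K) * ((x : F)⁻¹ - algebraMap K F (a' : K))
      = algebraMap K F (1 - (a : K) * (a' : K)) := by
    rw [map_sub, map_mul, map_one]
    field_simp
    ring
  rw [e, inMax_algebraMap_iff] at h1
  have h2 : a * a' = 1 := by
    apply Subtype.ext
    show (a : K) * (a' : K) = 1
    exact (sub_eq_zero.mp h1).symm
  have := congrArg C.π h2
  rw [map_mul, hπ, mul_zero, map_one] at this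
  exact zero_ne_one this

/-- every place of `F_k` lies over a finite point or over infinity -/
theorem cover_pts [IsAlgClosed k] (hx : Transcendental k (C.ρ x))
    [FiniteDimensional k⟮C.ρ x⟯ Fk] (Q : Place k Fk) :
    (∃ c : k, Q ∈ C.pts (C.ρ x) c) ∨ Q ∈ C.pts (C.ρ x)⁻¹ 0 := by
  by_cases h : 0 ≤ Q.ord (C.ρ x)
  · obtain ⟨c, hc⟩ := Line.exists_value hx Q h
    exact Or.inl ⟨c, hc⟩
  · right
    have : 0 < Q.ord (C.ρ x)⁻¹ := by
      rw [Q.ord_inv]
      omega
    show InMax Q ((C.ρ x)⁻¹ - algebraMap k Fk 0)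
    simpa using inMax_of_ord_pos this

theorem disj_pts_fin (Q : Place k Fk) {c c' : k} (h : Q ∈ C.pts (C.ρ x) c)
    (h' : Q ∈ C.pts (C.ρ x) c') : c = c' :=
  value_unique h h'

theorem disj_pts_inf (hx : Transcendental k (C.ρ x)) (Q : Place k Fk) {c : k}
    (h : Q ∈ C.pts (C.ρ x) c) (h' : Q ∈ C.pts (C.ρ x)⁻¹ 0) : False := by
  have hx0 : C.ρ x ≠ 0 := ρ_ne_zero_of_transcendental C x hx
  have h1 : 0 ≤ Q.ord (C.ρ x) := ord_nonneg_of_inMax_sub h
  have h2 : InMax Q (C.ρ x)⁻¹ := by
    have : InMax Q ((C.ρ x)⁻¹ - algebraMap k Fk 0) := h'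
    simpa using this
  have h3 := h2.ord_pos (inv_ne_zero hx0)
  rw [Q.ord_inv] at h3
  omega

variable [IsAlgClosed K] [IsAlgClosed k] (hx : Transcendental k (C.ρ x))
  [FiniteDimensional K⟮(x : F)⟯ F] [FiniteDimensional k⟮C.ρ x⟯ Fk]
  (hfin : ∀ c : k, LocalCoord C x c) (hinf : LocalCoord C (xinv C x hx) 0)

/-- the fibre at infinity -/
def fibreInf : Fibre C :=
  haveI := finiteDimensional_xinv C x hx
  haveI := finiteDimensional_ρ_xinv C x hx
  fibreOf C (xinv C x hx) (transcendental_ρ_xinv C x hx) 0 hinf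

theorem fibreInf_𝔉 : (fibreInf C x hx hinf).𝔉 = C.tube ((x : F))⁻¹ 0 := rfl

theorem mem_fibreInf_𝔊 (Q : Place k Fk) :
    Q ∈ (fibreInf C x hx hinf).𝔊 ↔ Q ∈ C.pts (C.ρ x)⁻¹ 0 := by
  have i1 := finiteDimensional_xinv C x hx
  have i2 := finiteDimensional_ρ_xinv C x hx
  have := mem_fibreOf_𝔊 C (xinv C x hx) (transcendental_ρ_xinv C x hx) 0 hinf Q
  rw [ρ_xinv] at this
  exact this

/-- **The atlas of a coordinate**, indexed by the points of the projective line over `k`. -/
def atlasOf : Atlas C (Option k) where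
  Φ := fun i => match i with
    | some c => fibreOf C x hx c (hfin c)
    | none => fibreInf C x hx hinf
  cover := fun P => by
    rcases cover_tube C x hx P with ⟨c, hc⟩ | h
    · exact ⟨some c, hc⟩
    · exact ⟨none, h⟩
  disj := fun i j P hi hj => by
    match i, j with
    | some c, some c' => exact congrArg some (disj_tube_fin C x P hi hj)
    | some c, none => exact (disj_tube_inf C x hx P hi hj).elim
    | none, some c => exact (disj_tube_inf C x hx P hj hi).elim
    | none, none => rfl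
  cover' := fun Q => by
    rcases cover_pts C x hx Q with ⟨c, hc⟩ | h
    · exact ⟨some c, (mem_fibreOf_𝔊 C x hx c (hfin c) Q).mpr hc⟩
    · exact ⟨none, (mem_fibreInf_𝔊 C x hx hinf Q).mpr h⟩
  disj' := fun i j Q hi hj => by
    match i, j with
    | some c, some c' =>
      exact congrArg some (disj_pts_fin C x Q ((mem_fibreOf_𝔊 C x hx c (hfin c) Q).mp hi)
        ((mem_fibreOf_𝔊 C x hx c' (hfin c') Q).mp hj))
    | some c, none =>
      exact (disj_pts_inf C x hx Q ((mem_fibreOf_𝔊 C x hx c (hfin c) Q).mp hi)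
        ((mem_fibreInf_𝔊 C x hx hinf Q).mp hj)).elim
    | none, some c =>
      exact (disj_pts_inf C x hx Q ((mem_fibreOf_𝔊 C x hx c (hfin c) Q).mp hj)
        ((mem_fibreInf_𝔊 C x hx hinf Q).mp hi)).elim
    | none, none => rfl

include hfin hinf in
/-- **Existence of the place reduction map over a coordinate line.**

`K`, `k` algebraically closed; `x ∈ V` with `x̄` transcendental, `F / K(x)` and `F_k / k(x̄)`
finite; conservation of number and normality for the local coordinates `x` (all `c̄ ∈ k`) and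
`x⁻¹` (at `0`).  Then there is `r : Pl(F) → Pl(F_k)` with
(i) `deg (r P) = deg P`, (ii) `r_* div u = div (ρ u)` for `u ∈ V`, `ρ u ≠ 0`,
(EC) value compatibility on both charts. -/
theorem exists_red_of_coord :
    ∃ r : Place K F → Place k Fk,
      (∀ P, (r P).deg = P.deg) ∧
      (∀ u : C.V, C.ρ u ≠ 0 → ∀ D : Divisor K F, (∀ P, D P = P.ord (u : F)) →
        ∀ Q, Finsupp.mapDomain r D Q = Q.ord (C.ρ u)) ∧
      (∀ b : C.V, (∀ P : Place K F, 0 ≤ P.ord (x : F) → 0 ≤ P.ord (b : F)) →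
        ∀ (P : Place K F) (a c : C.A), InMax P ((x : F) - algebraMap K F (a : K)) →
          InMax P ((b : F) - algebraMap K F (c : K)) →
          InMax (r P) (C.ρ b - algebraMap k Fk (C.π c))) ∧
      (∀ b : C.V, (∀ P : Place K F, 0 ≤ P.ord ((x : F))⁻¹ → 0 ≤ P.ord (b : F)) →
        ∀ (P : Place K F) (a c : C.A), InMax P ((x : F)⁻¹ - algebraMap K F (a : K)) →
          InMax P ((b : F) - algebraMap K F (c : K)) →
          InMax (r P) (C.ρ b - algebraMap k Fk (C.π c))) := by
  have hInf : Infinite k := IsAlgClosed.instInfinite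
  set 𝔄 := atlasOf C x hx hfin hinf with h𝔄
  have hresK : ∀ (P : Place K F) (f : F), 0 ≤ P.ord f →
      ∃ c : K, InMax P (f - algebraMap K F c) :=
    fun P f hf => Line.exists_value (C.transcendental_of_ρ hx) P hf
  have hresk : ∀ (Q : Place k Fk) (g : Fk), 0 ≤ Q.ord g →
      ∃ a : k, InMax Q (g - algebraMap k Fk a) :=
    fun Q g hg => Line.exists_value hx Q hg
  refine ⟨𝔄.red, fun P => ?_, fun u hu D hD Q => 𝔄.mapDomain_red u hu D hD Q, ?_, ?_⟩
  · rw [deg_eq_one_of_res P (hresK P), deg_eq_one_of_res (𝔄.red P) (hresk _)]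
  · intro b hreg P a c ha hc
    have hP : P ∈ (𝔄.Φ (some (C.π a))).𝔉 := ⟨a, rfl, ha⟩
    exact 𝔄.red_value (i := some (C.π a)) b
      (fun P' hP' => hreg P' (C.ord_nonneg_of_mem_tube (t := (x : F)) hP')) hP hc
  · intro b hreg P a c ha hc
    by_cases hπ : C.π a = 0
    · have hP : P ∈ (𝔄.Φ none).𝔉 := ⟨a, hπ, ha⟩
      exact 𝔄.red_value (i := none) b
        (fun P' hP' => hreg P' (C.ord_nonneg_of_mem_tube (t := ((x : F))⁻¹) hP')) hP hc
    · -- `a` is a unit: `P` lies in the finite tube over `1 / ā`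
      have hau : IsUnit a := by
        by_contra hnu
        exact hπ ((C.π_eq_zero a).mpr hnu)
      obtain ⟨a', ha'⟩ := hau.exists_right_inv
      have ha0 : (a : K) ≠ 0 := by
        intro h0
        have : a = 0 := Subtype.ext h0
        rw [this, zero_mul] at ha'
        exact zero_ne_one ha'
      have haa' : (a : K) * (a' : K) = 1 := congrArg Subtype.val ha'
      have hx0 : (x : F) ≠ 0 := coe_x_ne_zero C x hx
      have hordinv : P.ord ((x : F))⁻¹ = 0 := ord_eq_zero_of_inMax_sub ha ha0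
      have hordx : P.ord (x : F) = 0 := by
        rw [P.ord_inv] at hordinv
        omega
      have hval : InMax P ((x : F) - algebraMap K F (a' : K)) := by
        have e : (x : F) - algebraMap K F (a' : K)
            = -((x : F)⁻¹ - algebraMap K F (a : K)) * ((x : F) * algebraMap K F (a' : K)) := by
          have h1 : algebraMap K F (a : K) * algebraMap K F (a' : K) = 1 := by
            rw [← map_mul, haa', map_one]
          have : -((x : F)⁻¹ - algebraMap K F (a : K)) * ((x : F) * algebraMap K F (a' : K))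
              = (algebraMap K F (a : K) * algebraMap K F (a' : K)) * (x : F)
                - ((x : F)⁻¹ * (x : F)) * algebraMap K F (a' : K) := by ring
          rw [this, h1, inv_mul_cancel₀ hx0, one_mul, one_mul]
        rw [e]
        refine ha.neg.mul_of_ord_nonneg (Line.regular_mul P ?_ (ord_nonneg_const P _))
        rw [hordx]
      have hP : P ∈ (𝔄.Φ (some (C.π a'))).𝔉 := ⟨a', rfl, hval⟩
      refine 𝔄.red_value (i := some (C.π a')) b (fun P' hP' => hreg P' ?_) hP hc
      -- on the tube over `1 / ā` the function `x⁻¹` is regular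
      obtain ⟨a'', ha''π, ha''⟩ := hP'
      have ha''0 : (a'' : K) ≠ 0 := by
        intro h0
        have h1 : a'' = 0 := Subtype.ext h0
        rw [h1, map_zero] at ha''π
        have h2 := congrArg C.π ha'
        rw [map_mul, ← ha''π, mul_zero, map_one] at h2
        exact zero_ne_one h2
      have := ord_eq_zero_of_inMax_sub ha'' ha''0
      rw [P'.ord_inv, this]
      simp

end Atlas

end Fermat.Agent.S37.H940

end
end
-- ===== PACK-END S37/H940/Chart.lean

-- ===== PACK-BEGIN A3/H799/GoodRed.lean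
section




/-!
# A3 / LOCAL — the FROZEN input interface `GoodRed`  (architect helper799)

`GoodRed K F k Fk` = abstract good reduction of a function field `F / K` at a valuation ring `V` of
the (algebraically closed) constant field `K`, with special fibre `Fk / k`.  It is helper979's
`RedDatum` (origin/helper979:Fermat/Agent/S19/H979/Spec.lean) VERBATIM; only the name is changed to
the one used on the A3 board.

Instance wanted (block GOODRED-INST): `K = ℚ̄`, `F = modularFunctionFieldBar M`,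
`Fk = modularFunctionFieldFullC k M`, `O` = functions with `V`-integral `q`-expansion, `red` =
reduction of `q`-expansions, `r` = the place map of `ReductionInputsModL`, `I` = image of the
inertia group of `V` under `arithmeticGalois`; level `M = N` (`ℓ ≥ 5`), `lcm(N,2)` (`ℓ = 3`),
`lcm(N,3)` (`ℓ = 2`).

Output of block LOCAL: `LocalStatement` below (= helper979's `disc_localCoords`).
-/

set_option autoImplicit false

noncomputable section

open AlgebraicCurve

namespace Fermat.Agent.A3.H799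

/-- Abstract good reduction of a function field `F/K` at a valuation ring `V` of `K`. -/
structure GoodRed (K F k Fk : Type*) [Field K] [Field F] [Algebra K F]
    [Field k] [Field Fk] [Algebra k Fk] where
  /-- the valuation ring of the constants -/
  V : ValuationSubring K
  /-- the Gauss valuation ring of `F` -/
  O : ValuationSubring F
  /-- the residue map of `V` -/
  res : V →+* k
  /-- reduction of functions -/
  red : O →+* Fk
  /-- reduction of places -/
  r : Place K F → Place k Fk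
  /-- the inertia group, acting semilinearly -/
  I : Subgroup (SemilinearAut K F)
  res_surjective : Function.Surjective res
  res_eq_zero : ∀ a : V, res a = 0 ↔ (a : K) ∈ V.nonunits
  algebraMap_mem : ∀ a : K, algebraMap K F a ∈ O ↔ a ∈ V
  red_algebraMap : ∀ (a : V) (h : algebraMap K F (a : K) ∈ O),
    red ⟨algebraMap K F (a : K), h⟩ = algebraMap k Fk (res a)
  red_surjective : Function.Surjective red
  /-- Gauss: every nonzero function is a constant times a function of norm one. -/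
  gauss : ∀ f : F, f ≠ 0 → ∃ a : K, a ≠ 0 ∧ ∃ h : algebraMap K F a * f ∈ O,
    red ⟨algebraMap K F a * f, h⟩ ≠ 0
  /-- the reduction of the divisor of a function of norm one is the divisor of its reduction -/
  div_red : ∀ f : O, red f ≠ 0 → ∀ D : Divisor K F, (∀ P, D P = P.ord (f : F)) →
    ∀ Q : Place k Fk, Finsupp.mapDomain r D Q = Q.ord (red f)
  /-- Riemann-Roch on both fibres, equal genus -/
  ff1 : Lib.RR.FF1 K F
  ff1k : Lib.RR.FF1 k Fk
  genus_eq : genusFF K F = genusFF k Fk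
  /-- every Riemann-Roch space has an orthonormal basis; for an inertia-invariant divisor the
  basis can be chosen inertia-invariant -/
  orthonormal : ∀ D : Divisor K F, ∃ (n : ℕ) (b : Fin n → O),
    LinearIndependent k (fun i => red (b i)) ∧
    (∀ i, ((b i : O) : F) ∈ riemannRochSpace D) ∧
    Submodule.span K (Set.range fun i => ((b i : O) : F)) = riemannRochSpace D ∧
    ((∀ g ∈ I, g • D = D) → ∀ i, ∀ g ∈ I, g • ((b i : O) : F) = ((b i : O) : F))
  /-- inertia acts trivially on everything residual -/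
  I_base : ∀ g ∈ I, ∀ a : V, ∃ h : SemilinearAut.baseAut g (a : K) ∈ V,
    res ⟨SemilinearAut.baseAut g (a : K), h⟩ = res a
  I_red : ∀ g ∈ I, ∀ f : O, ∃ h : g • (f : F) ∈ O, red ⟨g • (f : F), h⟩ = red f
  I_place : ∀ g ∈ I, ∀ P : Place K F, r (g • P) = r P
  /-- every residue constant has an inertia-invariant lift -/
  I_lift_const : ∀ c : k, ∃ a : V, res a = c ∧ ∀ g ∈ I, SemilinearAut.baseAut g (a : K) = (a : K)
  /-- there is an inertia-invariant place (the cusp `∞`) -/
  I_fixed_place : ∃ P : Place K F, ∀ g ∈ I, g • P = P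

/-- **Output of block LOCAL** (frozen; = helper979's `disc_localCoords`).  For a finite
inertia-stable subgroup `T` of `Pic0` there are `V`-integral, inertia-equivariant, injective
coordinates on `T` whose addition is polynomial with `V`-coefficients. -/
def LocalStatement (K F k Fk : Type*) [Field K] [Field F] [Algebra K F]
    [Field k] [Field Fk] [Algebra k Fk] [IsAlgClosed K] [IsAlgClosed k] [CharZero K] : Prop :=
  ∀ (𝓡 : GoodRed K F k Fk),
    (∀ a b : K, a ∈ 𝓡.V.nonunits → b ≠ 0 → ∃ n : ℕ, a ^ n / b ∈ 𝓡.V) →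
    ∀ (T : AddSubgroup (Pic0 K F)) [Finite T]
      (hT : ∀ g ∈ 𝓡.I, ∀ x ∈ T, g • x ∈ T),
      ∃ (ι : Type) (_ : Finite ι) (Ψ : T → ι → K),
        Function.Injective Ψ ∧ (∀ x i, Ψ x i ∈ 𝓡.V) ∧
        (∀ (g : SemilinearAut K F) (hg : g ∈ 𝓡.I) (x : T) (i : ι),
          Ψ ⟨g • (x : Pic0 K F), hT g hg x x.2⟩ i = SemilinearAut.baseAut g (Ψ x i)) ∧
        ∀ i, (fun p : T × T => Ψ (p.1 + p.2) i) ∈
          Algebra.adjoin 𝓡.V ({f | ∃ j, f = fun p : T × T => Ψ p.1 j} ∪
            {f | ∃ j, f = fun p : T × T => Ψ p.2 j})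

end Fermat.Agent.A3.H799

end
end
-- ===== PACK-END A3/H799/GoodRed.lean

-- ===== PACK-BEGIN A2/H912/CoverLeaf.lean
section



/-!
# Cell A2, route G: the leaf COVER in the frozen shape `H12.CoverLeaf` — helper912

`coverLeaf : Fermat.Agent.A2.H12.CoverLeaf` (hypothesis `hCover` of `H12.algSS_of_leaves`).

Proof: `coverConclusion` (`CoverG.lean`: the cover is the splitting field of
`∏_{i<r} (X^m - τ^i g)` inside an algebraic closure of `F`, `r` the order of `τ`), with the
primitive `m`-th root of unity of `R` from `H12.rootLeaf`.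
-/

set_option autoImplicit false

namespace Fermat.Agent.A2.H912

open Fermat.Agent.A2 Fermat.Agent.A2.H12

theorem ringAut_pow_eq_one_of_iterate {F : Type*} [Field F] (τ : F ≃+* F) {r : ℕ}
    (h : ∀ f : F, (⇑τ)^[r] f = f) : τ ^ r = 1 := by
  have key : ∀ (n : ℕ) (f : F), (τ ^ n) f = (⇑τ)^[n] f := by
    intro n
    induction n with
    | zero => intro f; simp
    | succ n ih =>
      intro f
      rw [pow_succ, RingAut.mul_apply, ih, Function.iterate_succ_apply]
  ext f
  rw [key, h]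
  rfl

/-- **Leaf COVER** of route G. -/
theorem coverLeaf : CoverLeaf := by
  intro R E F _ _ _ _ _ _ _ _ _ _ _ _ _ w q m x Bf Bi τ τE τR ctx g hg hdiv hsplit
  have Rt := rootLeaf w q m x Bf Bi τ τE τR ctx
  have hinjRE : Function.Injective (algebraMap R E) := IsFractionRing.injective R E
  have hinj : Function.Injective (algebraMap R F) := by
    rw [IsScalarTower.algebraMap_eq R E F]
    exact (algebraMap E F).injective.comp hinjRE
  have : CharZero F := charZero_of_injective_algebraMap (algebraMap E F).injective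
  have hτRF : ∀ r, τ (algebraMap R F r) = algebraMap R F (τR r) := by
    intro r
    rw [IsScalarTower.algebraMap_apply R E F, ctx.hτE, ctx.hτR,
      ← IsScalarTower.algebraMap_apply]
  have hdvd : ∀ r : R, w ∣ r ↔ ¬ IsUnit r := by
    intro r
    rw [← Ideal.mem_span_singleton, ← ctx.irr.maximalIdeal_eq, IsLocalRing.mem_maximalIdeal,
      mem_nonunits_iff]
  have hτw : ∀ r, w ∣ r ↔ w ∣ τR r := by
    intro r
    rw [hdvd, hdvd]
    exact not_congr (MulEquiv.isUnit_map (τR : R ≃* R)).symm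
  obtain ⟨r, hr, hfo⟩ := ctx.hfo
  exact coverConclusion w x m τ τR hinj ctx.mpos (Rt.root.imp fun _ h => h.1) ctx.hτx hτRF hτw hr
    (ringAut_pow_eq_one_of_iterate τ hfo) g hg hdiv hsplit

end Fermat.Agent.A2.H912

end
-- ===== PACK-END A2/H912/CoverLeaf.lean

-- ===== PACK-BEGIN Ribet/H868/NodeSymLen.lean
section



/-!
# RIBET row 38, WALL-p, leaf SYM: the symmetric node relation, element form (helper868)

`R` a noetherian local integrally closed domain, `(𝔭₁, 𝔭₂, π, x, y)` a node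
(`H704.I6.IsNode`).  For `G ∈ R ∖ (𝔭₁ ∪ 𝔭₂)`:

* `length_span_pair_node` : `ℓ(R / (G, π)) = ord₁ G + ord₂ G` (intersection number of `div G`
  with the principal special fibre `π = 0`; NO thickness, NO unit pair);
* `dvd_ord_add_ord` : if `G` is horizontally `M`-divisible then `M ∣ ord₁ G + ord₂ G`
  (multiplicity identity `A2.H672.length_eq_mul_length` with `Y := π`).
-/

set_option autoImplicit false
set_option linter.unusedSectionVars false
set_option linter.style.haveILetI false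

namespace Fermat.Agent.Ribet.H868

open IsLocalRing Fermat.Agent.Ribet.H704 Fermat.Agent.A2

section Length

variable {R : Type*} [CommRing R] [IsLocalRing R]
variable (𝔭₁ 𝔭₂ : Ideal R) [𝔭₁.IsPrime] [𝔭₂.IsPrime]

/-- Multiplication by the uniformiser `y` of the second branch identifies `R / ((u) + 𝔭₂)` with
`((u) + 𝔭₁) / (u, π)`. -/
theorem relLen_pair_branch {π y u : R} (hπ : Ideal.span {π} = 𝔭₁ ⊓ 𝔭₂)
    (hy₁ : y ∈ 𝔭₁) (hy₂ : y ∉ 𝔭₂) (h𝔭₁ : 𝔭₁ ≤ Ideal.span {y} ⊔ Ideal.span {π})
    (hu₁ : u ∉ 𝔭₁) :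
    H672.relLen (Ideal.span {u, π}) (Ideal.span {u} ⊔ 𝔭₁) =
      H672.relLen (Ideal.span {u} ⊔ 𝔭₂) (⊤ : Ideal R) := by
  have hπ₁ : π ∈ 𝔭₁ := by
    have : π ∈ 𝔭₁ ⊓ 𝔭₂ := hπ ▸ Ideal.mem_span_singleton_self π
    exact this.1
  have hπ₂ : π ∈ 𝔭₂ := by
    have : π ∈ 𝔭₁ ⊓ 𝔭₂ := hπ ▸ Ideal.mem_span_singleton_self π
    exact this.2
  have hu_mem : u ∈ Ideal.span ({u, π} : Set R) := Ideal.subset_span (by simp)
  have hπ_mem : π ∈ Ideal.span ({u, π} : Set R) := Ideal.subset_span (by simp)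
  symm
  refine H672.relLen_eq_of_map (LinearMap.mulLeft R y) ?_ ?_ ?_
  · intro b _
    rw [LinearMap.mulLeft_apply]
    exact Ideal.mem_sup_right (𝔭₁.mul_mem_right _ hy₁)
  · intro b _
    rw [LinearMap.mulLeft_apply]
    constructor
    · intro h
      obtain ⟨a, c, hac⟩ := Ideal.mem_span_pair.mp h
      -- `a u + c π = y b`
      have ha : a ∈ 𝔭₁ := by
        have h1 : a * u ∈ 𝔭₁ := by
          have : a * u = y * b - c * π := by rw [← hac]; ring
          rw [this]
          exact 𝔭₁.sub_mem (𝔭₁.mul_mem_right _ hy₁) (𝔭₁.mul_mem_left _ hπ₁)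
        exact (Ideal.IsPrime.mem_or_mem inferInstance h1).resolve_right hu₁
      obtain ⟨p, hp, q, hq, hpq⟩ := Submodule.mem_sup.mp (h𝔭₁ ha)
      obtain ⟨a', rfl⟩ := Ideal.mem_span_singleton'.mp hp
      obtain ⟨a'', rfl⟩ := Ideal.mem_span_singleton'.mp hq
      have h2 : y * (b - a' * u) ∈ 𝔭₂ := by
        have : y * (b - a' * u) = (a'' * u + c) * π := by
          have e : y * b = (a' * y + a'' * π) * u + c * π := by rw [hpq, hac]
          linear_combination e
        rw [this]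
        exact 𝔭₂.mul_mem_left _ hπ₂
      have h3 : b - a' * u ∈ 𝔭₂ :=
        (Ideal.IsPrime.mem_or_mem inferInstance h2).resolve_left hy₂
      have : b = a' * u + (b - a' * u) := by ring
      rw [this]
      exact Ideal.add_mem _
        (Ideal.mem_sup_left (Ideal.mul_mem_left _ _ (Ideal.mem_span_singleton_self u)))
        (Ideal.mem_sup_right h3)
    · intro h
      obtain ⟨p, hp, q, hq, rfl⟩ := Submodule.mem_sup.mp h
      obtain ⟨a, rfl⟩ := Ideal.mem_span_singleton'.mp hp
      have h1 : y * q ∈ Ideal.span ({u, π} : Set R) := by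
        have h2 : y * q ∈ 𝔭₁ ⊓ 𝔭₂ := ⟨𝔭₁.mul_mem_right _ hy₁, 𝔭₂.mul_mem_left _ hq⟩
        rw [← hπ] at h2
        obtain ⟨c, hc⟩ := Ideal.mem_span_singleton'.mp h2
        rw [← hc]
        exact Ideal.mul_mem_left _ _ hπ_mem
      have : y * (a * u + q) = (y * a) * u + y * q := by ring
      rw [this]
      exact Ideal.add_mem _ (Ideal.mul_mem_left _ _ hu_mem) h1
  · intro b' hb'
    obtain ⟨p, hp, q, hq, rfl⟩ := Submodule.mem_sup.mp hb'
    obtain ⟨a, rfl⟩ := Ideal.mem_span_singleton'.mp hp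
    obtain ⟨p', hp', q', hq', rfl⟩ := Submodule.mem_sup.mp (h𝔭₁ hq)
    obtain ⟨r, rfl⟩ := Ideal.mem_span_singleton'.mp hp'
    obtain ⟨c, rfl⟩ := Ideal.mem_span_singleton'.mp hq'
    refine ⟨r, Submodule.mem_top, ?_⟩
    rw [LinearMap.mulLeft_apply]
    have : a * u + (r * y + c * π) - y * r = a * u + c * π := by ring
    rw [this]
    exact Ideal.add_mem _ (Ideal.mul_mem_left _ _ hu_mem) (Ideal.mul_mem_left _ _ hπ_mem)

variable [IsDiscreteValuationRing (R ⧸ 𝔭₁)] [IsDiscreteValuationRing (R ⧸ 𝔭₂)]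

/-- **Intersection number with the special fibre at a node**:
`ℓ(R / (u, π)) = ord₁ u + ord₂ u`. -/
theorem length_span_pair_node {π x y u : R} (hπ : Ideal.span {π} = 𝔭₁ ⊓ 𝔭₂)
    (hx : Irreducible (Ideal.Quotient.mk 𝔭₁ x)) (hy : Irreducible (Ideal.Quotient.mk 𝔭₂ y))
    (hy₁ : y ∈ 𝔭₁) (h𝔭₁ : 𝔭₁ ≤ Ideal.span {y} ⊔ Ideal.span {π})
    {i j : ℕ} {ε₁ : (R ⧸ 𝔭₁)ˣ} {ε₂ : (R ⧸ 𝔭₂)ˣ}
    (h₁ : Ideal.Quotient.mk 𝔭₁ u = ε₁ * (Ideal.Quotient.mk 𝔭₁ x) ^ i)
    (h₂ : Ideal.Quotient.mk 𝔭₂ u = ε₂ * (Ideal.Quotient.mk 𝔭₂ y) ^ j) :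
    Module.length R (R ⧸ Ideal.span {u, π}) = ((i + j : ℕ) : ℕ∞) := by
  have hπ₁ : π ∈ 𝔭₁ := by
    have : π ∈ 𝔭₁ ⊓ 𝔭₂ := hπ ▸ Ideal.mem_span_singleton_self π
    exact this.1
  have hy₂ : y ∉ 𝔭₂ := fun h => hy.ne_zero (Ideal.Quotient.eq_zero_iff_mem.mpr h)
  have hu₁ : u ∉ 𝔭₁ := by
    intro h
    have h0 : Ideal.Quotient.mk 𝔭₁ u = 0 := Ideal.Quotient.eq_zero_iff_mem.mpr h
    rw [h₁] at h0
    rcases mul_eq_zero.mp h0 with h1 | h1
    · exact ε₁.ne_zero h1
    · exact hx.ne_zero (H403.eq_zero_of_pow_eq_zero_403 h1)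
  have hle : Ideal.span ({u, π} : Set R) ≤ Ideal.span {u} ⊔ 𝔭₁ := by
    rw [Ideal.span_le]
    intro z hz
    simp only [Set.mem_insert_iff, Set.mem_singleton_iff] at hz
    rcases hz with rfl | rfl
    · exact Ideal.mem_sup_left (Ideal.mem_span_singleton_self _)
    · exact Ideal.mem_sup_right hπ₁
  rw [← H672.relLen_top, H672.relLen_add hle le_top,
    relLen_pair_branch 𝔭₁ 𝔭₂ hπ hy₁ hy₂ h𝔭₁ hu₁,
    H403.relLen_span_sup_branch_403 𝔭₂ hy h₂, H403.relLen_span_sup_branch_403 𝔭₁ hx h₁]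
  push_cast
  ring

end Length

section Main

variable {R : Type*} [CommRing R] [IsDomain R] [IsIntegrallyClosed R] [IsNoetherianRing R]
  [IsLocalRing R]

/-- **Symmetric node relation, element form.**  In a node ring, an element `G` outside both
branches which is horizontally `M`-divisible satisfies `M ∣ ord₁ G + ord₂ G`. -/
theorem dvd_ord_add_ord {𝔭₁ 𝔭₂ : Ideal R} {π x y : R} (hN : I6.IsNode 𝔭₁ 𝔭₂ π x y)
    {M : ℕ} (hM : 0 < M) {G : R} (hG₁ : G ∉ 𝔭₁) (hG₂ : G ∉ 𝔭₂) (hhor : I6.HorDiv π M G)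
    {i j : ℕ} (hi : I6.OrdOn 𝔭₁ x G i) (hj : I6.OrdOn 𝔭₂ y G j) : M ∣ i + j := by
  haveI := hN.prime₁
  haveI := hN.prime₂
  haveI : IsDiscreteValuationRing (R ⧸ 𝔭₁) :=
    H403.isDVR_of_unif_403 𝔭₁ hN.hx₁ hN.nonunit₁ hN.unif₁
  haveI : IsDiscreteValuationRing (R ⧸ 𝔭₂) :=
    H403.isDVR_of_unif_403 𝔭₂ hN.hy₂ hN.nonunit₂ hN.unif₂
  have hirr₁ := H403.irreducible_mk_of_unif_403 𝔭₁ hN.hx₁ hN.nonunit₁ hN.unif₁
  have hirr₂ := H403.irreducible_mk_of_unif_403 𝔭₂ hN.hy₂ hN.nonunit₂ hN.unif₂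
  have hπ : Ideal.span {π} = 𝔭₁ ⊓ 𝔭₂ := hN.inf_eq.symm
  have hπ0 : π ≠ 0 := H132.isNode_pi_ne_zero hN
  have hπmem : π ∈ 𝔭₁ ⊓ 𝔭₂ := hπ ▸ Ideal.mem_span_singleton_self π
  have h𝔭₁m : 𝔭₁ ≤ maximalIdeal R :=
    IsLocalRing.le_maximalIdeal (Ideal.IsPrime.ne_top inferInstance)
  have hπm : π ∈ maximalIdeal R := h𝔭₁m hπmem.1
  have hG0 : G ≠ 0 := by
    rintro rfl
    exact hG₁ 𝔭₁.zero_mem
  have h𝔭₁ : 𝔭₁ ≤ Ideal.span {y} ⊔ Ideal.span {π} := by
    intro b hb
    have h1 := H403.mem_span_pair_of_unif_403 𝔭₂ 𝔭₁ (π := π) (x := y)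
      (by rw [inf_comm]; exact hN.inf_eq) hN.hy hN.unif₂ hb
    rw [Ideal.span_insert] at h1
    exact h1
  obtain ⟨ε₁, hε₁⟩ := H403.ordOn_unit_form_403 𝔭₁ hi rfl
  obtain ⟨ε₂, hε₂⟩ := H403.ordOn_unit_form_403 𝔭₂ hj rfl
  have hlen := length_span_pair_node 𝔭₁ 𝔭₂ hπ hirr₁ hirr₂ hN.hy h𝔭₁ hε₁ hε₂
  have hreg : ∀ z : R, π ∣ G * z → π ∣ z := by
    intro z hz
    rw [← Ideal.mem_span_singleton, hπ] at hz ⊢
    exact ⟨(Ideal.IsPrime.mem_or_mem inferInstance hz.1).resolve_left hG₁,
      (Ideal.IsPrime.mem_or_mem inferInstance hz.2).resolve_left hG₂⟩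
  obtain ⟨k, hk⟩ := H672.exists_pow_le_span_pair 𝔭₁ 𝔭₂ hπ hG₁ hG₂
  have hloc : ∀ P : Ideal R, P.IsPrime → G ∈ P → π ∉ P → ∃ z σ : R, σ ∉ P ∧ z ^ M = σ * G := by
    intro P hP hGP hπP
    obtain ⟨f, r, hr, hf⟩ := hhor P hP hGP hπP
    exact ⟨f, r, hr, by rw [hf, mul_comm]⟩
  have hmul := H672.length_eq_mul_length G hG0 M hM π hπ0 hπm hreg k hk hloc
  rw [hlen] at hmul
  generalize Module.length R (R ⧸ (H969.powRootIdeal G hG0 M hM 1 ⊔ Ideal.span {π})) = L at hmul
  cases L with
  | top =>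
    exfalso
    rw [ENat.mul_top (by exact_mod_cast hM.ne')] at hmul
    exact ENat.natCast_ne_top (i + j) (by exact_mod_cast hmul)
  | coe l =>
    refine ⟨l, ?_⟩
    exact_mod_cast hmul

end Main

end Fermat.Agent.Ribet.H868

end
-- ===== PACK-END Ribet/H868/NodeSymLen.lean

-- ===== PACK-BEGIN Ribet/H132/CoverNode.lean
section





/-!
# RIBET wall-p, I6 spec v3: leaf COVER-NODE, VERBATIM (helper132)

`coverNode : I6.CoverNodeStatement` (frozen in `Ribet/H704/I6Inst.lean`).

Route: WPUR (`H524.wildPurity524`) gives `g d₂^p = d₁^p s^p (1 + λ^p z)`.  Put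
`Y := (h d₂ / (d₁ s) - 1) / λ ∈ L`; it is a root of the Artin–Schreier type polynomial `P`
(`exists_asPoly`: `λ^p P = (1 + λ X)^p - 1 - λ^p z`, `P` monic, `P' = ε⁻¹ (1 + λ X)^(p-1)`), and
`P'(Y)` is a unit of `A := R[Y]` because `(1 + λ Y)^p = 1 + λ^p z ∈ Rˣ`.  `R'` := the localisation
of `A` at a maximal ideal `𝔫`, as a subalgebra of `L` (`A2.H348.locAt`).  The residue field of
`R'` is algebraic over the algebraically closed residue field of `R`, hence equal to it.
ETNODE (`H600.etaleNode`) shows that `R'` is a normal noetherian node ring with the same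
`π, x, y`; extended primes contract to themselves (`H600.mem_of_algebraMap_mem_map`).
-/

set_option autoImplicit false
set_option linter.unusedSectionVars false
set_option linter.style.haveILetI false

open Polynomial

namespace Fermat.Agent.Ribet.H132

open Fermat.Agent.Ribet.H704

/-! ## The Artin–Schreier type polynomial -/

/-- The binomial expansion of `(1 + t) ^ p`, `p` prime: the middle terms are divisible by `p t`. -/
theorem one_add_pow_prime_eq {A : Type*} [CommRing A] {p : ℕ} (hp : p.Prime) (t : A) :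
    (1 + t) ^ p = 1 + t ^ p +
      (p : A) * t * ∑ k ∈ Finset.range (p - 1), ((p.choose (k + 1) / p : ℕ) : A) * t ^ k := by
  obtain ⟨n, rfl⟩ : ∃ n, p = n + 1 := ⟨p - 1, by have := hp.one_lt; omega⟩
  rw [Nat.add_sub_cancel, add_comm (1 : A) t, add_pow]
  simp only [one_pow, mul_one]
  rw [Finset.sum_range_succ, Finset.sum_range_succ']
  simp only [Nat.choose_self, Nat.cast_one, mul_one, pow_zero, Nat.choose_zero_right]
  have hsum : ∑ k ∈ Finset.range n, t ^ (k + 1) * (((n + 1).choose (k + 1) : ℕ) : A) =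
      ((n + 1 : ℕ) : A) * t *
        ∑ k ∈ Finset.range n, (((n + 1).choose (k + 1) / (n + 1) : ℕ) : A) * t ^ k := by
    rw [Finset.mul_sum]
    refine Finset.sum_congr rfl fun k hk => ?_
    rw [Finset.mem_range] at hk
    have hdvd : (n + 1) ∣ (n + 1).choose (k + 1) :=
      hp.dvd_choose_self (Nat.succ_ne_zero k) (by omega)
    have hc : ((n + 1).choose (k + 1) : ℕ) = (n + 1) * ((n + 1).choose (k + 1) / (n + 1)) :=
      (Nat.mul_div_cancel' hdvd).symm
    conv_lhs => rw [hc]
    push_cast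
    ring
  rw [hsum]
  ring

/-- **The Artin–Schreier type polynomial** of a wild Kummer equation:
`λ ^ p · P = (1 + λ X) ^ p - 1 - λ ^ p z`, `P` monic of degree `p`, `P' = ε' (1 + λ X) ^ (p - 1)`,
where `p = λ ^ (p - 1) ε'`. -/
theorem exists_asPoly {R : Type*} [CommRing R] [IsDomain R] {p : ℕ} (hp : p.Prime)
    (lam ε' z : R) (hlam : lam ≠ 0) (hpl : (p : R) = lam ^ (p - 1) * ε') :
    ∃ P : R[X], P.Monic ∧
      C (lam ^ p) * P = (1 + C lam * X) ^ p - 1 - C (lam ^ p * z) ∧
      derivative P = C ε' * (1 + C lam * X) ^ (p - 1) := by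
  have hp1 : 1 ≤ p := hp.one_lt.le
  have hidx : p - 1 + 1 = p := by omega
  set S : R[X] := ∑ k ∈ Finset.range (p - 1),
    ((p.choose (k + 1) / p : ℕ) : R[X]) * (C lam * X) ^ k with hS
  set q : R[X] := C ε' * X * S - C z with hq
  have hSdeg : S.degree < (p - 1 : ℕ) := by
    rw [Polynomial.degree_lt_iff_coeff_zero]
    intro m hm
    rw [hS, Polynomial.finsetSum_coeff]
    refine Finset.sum_eq_zero fun k hk => ?_
    rw [Finset.mem_range] at hk
    rw [mul_pow, ← C_pow, coeff_natCast_mul, coeff_C_mul, coeff_X_pow, if_neg (by omega),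
      mul_zero, mul_zero]
  have hqdeg : q.degree < (p : ℕ) := by
    rw [hq]
    refine lt_of_le_of_lt (degree_sub_le _ _) (max_lt ?_ ?_)
    · refine lt_of_le_of_lt (degree_mul_le _ _) ?_
      have h1 : (C ε' * X : R[X]).degree ≤ 1 :=
        (degree_mul_le _ _).trans (by
          have := degree_C_le (a := ε')
          have h2 : (X : R[X]).degree ≤ 1 := degree_X_le
          calc (C ε').degree + (X : R[X]).degree ≤ 0 + 1 := add_le_add this h2
            _ = 1 := by simp)
      by_cases hS0 : S = 0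
      · rw [hS0, degree_zero]
        simp
      have hSn : S.degree = (S.natDegree : WithBot ℕ) := degree_eq_natDegree hS0
      rw [hSn] at hSdeg ⊢
      have hlt : S.natDegree < p - 1 := by exact_mod_cast hSdeg
      calc (C ε' * X : R[X]).degree + (S.natDegree : WithBot ℕ)
          ≤ 1 + (S.natDegree : WithBot ℕ) := add_le_add h1 le_rfl
        _ < (p : ℕ) := by
          have : 1 + S.natDegree < p := by omega
          exact_mod_cast this
    · refine lt_of_le_of_lt degree_C_le ?_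
      exact_mod_cast hp.pos
  set P : R[X] := X ^ p + q with hP
  have hmonic : P.Monic := monic_X_pow_add hqdeg
  have hbin := one_add_pow_prime_eq (A := R[X]) hp (C lam * X)
  have hpC : (p : R[X]) = C (lam ^ (p - 1)) * C ε' := by
    rw [← C_mul, ← hpl]
    simp
  have hlp : lam ^ p = lam ^ (p - 1) * lam := by
    conv_lhs => rw [← hidx]
    rw [pow_succ]
  have hmain : C (lam ^ p) * P = (1 + C lam * X) ^ p - 1 - C (lam ^ p * z) := by
    rw [hbin, hP, hq, ← hS, hpC, mul_pow, ← C_pow, C_mul, hlp, C_mul]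
    ring
  clear_value P
  refine ⟨P, hmonic, hmain, ?_⟩
  have hC0 : C (lam ^ p) ≠ (0 : R[X]) := by
    rw [Ne, C_eq_zero]
    exact pow_ne_zero _ hlam
  have hder := congrArg derivative hmain
  have hL : derivative (C (lam ^ p) * P) = C (lam ^ p) * derivative P := by
    rw [derivative_mul, derivative_C, zero_mul, zero_add]
  have hR : derivative ((1 + C lam * X) ^ p - 1 - C (lam ^ p * z)) =
      C (p : R) * (1 + C lam * X) ^ (p - 1) * C lam := by
    rw [derivative_sub, derivative_sub, derivative_C, derivative_one, sub_zero, sub_zero,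
      derivative_pow, derivative_add, derivative_one, zero_add, derivative_mul, derivative_C,
      zero_mul, zero_add, derivative_X, mul_one]
  rw [hL, hR] at hder
  apply mul_left_cancel₀ hC0
  rw [hder, hpl, hlp, C_mul, C_mul]
  ring

/-! ## The local ring `A_𝔫 ⊆ L` of a subalgebra at a maximal ideal -/

section SubLoc

variable {R L : Type*} [CommRing R] [Field L] [Algebra R L]

/-- `A_𝔫 = A2.H348.locAt A 𝔫` is the localisation of `A` at `𝔫`. -/
theorem isLocalization_subLoc (A : Subalgebra R L) (𝔫 : Ideal A) [h𝔫 : 𝔫.IsPrime] :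
    letI : Algebra A (Fermat.Agent.A2.H348.locAt A 𝔫) :=
      (Subalgebra.inclusion (Fermat.Agent.A2.H348.le_locAt 𝔫)).toRingHom.toAlgebra
    IsLocalization.AtPrime (Fermat.Agent.A2.H348.locAt A 𝔫) 𝔫 := by
  letI : Algebra A (Fermat.Agent.A2.H348.locAt A 𝔫) :=
    (Subalgebra.inclusion (Fermat.Agent.A2.H348.le_locAt 𝔫)).toRingHom.toAlgebra
  show IsLocalization 𝔫.primeCompl _
  rw [isLocalization_iff]
  refine ⟨?_, ?_, ?_⟩
  · intro y
    refine IsUnit.of_mul_eq_one
      (⟨((y : A) : L)⁻¹, Fermat.Agent.A2.H348.inv_mem_locAt 𝔫 y.2⟩ :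
        Fermat.Agent.A2.H348.locAt A 𝔫) ?_
    apply Subtype.ext
    show ((y : A) : L) * ((y : A) : L)⁻¹ = 1
    exact mul_inv_cancel₀ (Fermat.Agent.A2.H348.coe_ne_zero_of_notMem 𝔫 y.2)
  · intro z
    obtain ⟨s, hs, hsz⟩ := z.2
    refine ⟨(⟨(s : L) * z, hsz⟩, ⟨s, hs⟩), ?_⟩
    apply Subtype.ext
    show (z : L) * (s : L) = (s : L) * z
    exact mul_comm _ _
  · intro a b hab
    refine ⟨1, ?_⟩
    have : (a : L) = (b : L) := congrArg (fun t : Fermat.Agent.A2.H348.locAt A 𝔫 => (t : L)) hab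
    rw [Subtype.ext this]

end SubLoc

/-! ## The abstract construction -/

section Etale

variable {R L : Type} [CommRing R] [IsDomain R] [IsIntegrallyClosed R] [IsNoetherianRing R]
  [IsLocalRing R] [Field L] [Algebra R L]

/-- **Étale local extension inside a field.**  `R` a node ring with algebraically closed residue
field, `R ⊆ L` a field, `Y ∈ L` a root of a monic `P ∈ R[X]` with `P'(Y)` a unit of `R[Y]`, and
`L = Frac R[Y]`.  Then the localisation `R'` of `R[Y]` at any maximal ideal is a normal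
noetherian node ring with fraction field `L`, with the same `π, x, y`. -/
theorem exists_nodeRing_of_etale (hinj : Function.Injective (algebraMap R L))
    (hk : IsAlgClosed (IsLocalRing.ResidueField R))
    {𝔭₁ 𝔭₂ : Ideal R} {π x y : R} (hN : I6.IsNode 𝔭₁ 𝔭₂ π x y)
    (Y : L) (P : R[X]) (hP : P.Monic) (hPY : aeval Y P = 0)
    (hP' : ∃ w ∈ Algebra.adjoin R ({Y} : Set L), aeval Y (derivative P) * w = 1)
    (hfrac : ∀ z : L, ∃ a b : L, a ∈ Algebra.adjoin R ({Y} : Set L) ∧
      b ∈ Algebra.adjoin R ({Y} : Set L) ∧ b ≠ 0 ∧ z * b = a) :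
    ∃ (R' : Subalgebra R L) (_ : IsLocalRing R'),
      IsIntegrallyClosed R' ∧ IsNoetherianRing R' ∧ IsFractionRing R' L ∧
      I6.IsNode (𝔭₁.map (algebraMap R R')) (𝔭₂.map (algebraMap R R')) (algebraMap R R' π)
        (algebraMap R R' x) (algebraMap R R' y) ∧
      (∀ a : R, algebraMap R R' a ∈ 𝔭₁.map (algebraMap R R') → a ∈ 𝔭₁) ∧
      (∀ a : R, algebraMap R R' a ∈ 𝔭₂.map (algebraMap R R') → a ∈ 𝔭₂) := by
  classical
  set A : Subalgebra R L := Algebra.adjoin R ({Y} : Set L) with hA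
  have hYA : Y ∈ A := Algebra.subset_adjoin (Set.mem_singleton Y)
  have hYint : IsIntegral R Y := ⟨P, hP, by rwa [← aeval_def]⟩
  haveI hAint : Algebra.IsIntegral R A :=
    Algebra.IsIntegral.adjoin (fun z hz => by rw [Set.mem_singleton_iff.1 hz]; exact hYint)
  -- a maximal ideal of `A`
  obtain ⟨𝔫, h𝔫⟩ := Ideal.exists_maximal A
  haveI := h𝔫
  haveI h𝔫p : 𝔫.IsPrime := h𝔫.isPrime
  set R' : Subalgebra R L := Fermat.Agent.A2.H348.locAt A 𝔫 with hR'
  have hle : A ≤ R' := Fermat.Agent.A2.H348.le_locAt 𝔫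
  letI algAR' : Algebra A R' := (Subalgebra.inclusion hle).toRingHom.toAlgebra
  haveI hloc : IsLocalization.AtPrime R' 𝔫 := isLocalization_subLoc A 𝔫
  haveI hlocal : IsLocalRing R' := IsLocalization.AtPrime.isLocalRing R' 𝔫
  haveI htower : IsScalarTower R A R' := IsScalarTower.of_algebraMap_eq fun r => rfl
  have hmaxR' : ∀ a : A, algebraMap A R' a ∈ IsLocalRing.maximalIdeal R' ↔ a ∈ 𝔫 := fun a =>
    IsLocalization.AtPrime.to_map_mem_maximal_iff R' 𝔫 a
  -- (1) `𝔫` lies over the maximal ideal of `R`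
  have hcomap : 𝔫.comap (algebraMap R A) = IsLocalRing.maximalIdeal R := by
    haveI : (𝔫.comap (algebraMap R A)).IsMaximal :=
      Ideal.isMaximal_comap_of_isIntegral_of_isMaximal (R := R) (S := A) 𝔫
    exact IsLocalRing.eq_maximalIdeal inferInstance
  have hm𝔫 : ∀ r : R, r ∈ IsLocalRing.maximalIdeal R → algebraMap R A r ∈ 𝔫 := by
    intro r hr
    rw [← hcomap] at hr
    exact hr
  -- (2) the structure map is local
  haveI hlh : IsLocalHom (algebraMap R R') := by
    constructor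
    intro r hr
    by_contra hnu
    have h1 : algebraMap R A r ∈ 𝔫 := hm𝔫 r ((IsLocalRing.mem_maximalIdeal r).2 hnu)
    have h2 : algebraMap A R' (algebraMap R A r) ∈ IsLocalRing.maximalIdeal R' := (hmaxR' _).2 h1
    rw [← IsScalarTower.algebraMap_apply] at h2
    exact (IsLocalRing.mem_maximalIdeal _).1 h2 hr
  -- (3) injectivity
  have hinj' : Function.Injective (algebraMap R R') := by
    intro a b hab
    apply hinj
    exact congrArg (fun t : R' => (t : L)) hab
  haveI : Module.IsTorsionFree R R' := Module.isTorsionFree_iff_algebraMap_injective.2 hinj'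
  -- (4) the root
  set Y' : R' := ⟨Y, hle hYA⟩ with hY'
  have hcoe : ∀ Q : R[X], ((aeval Y' Q : R') : L) = aeval Y Q := fun Q =>
    aeval_subalgebra_coe Q R' Y'
  have hPY' : aeval Y' P = 0 := by
    apply Subtype.ext
    rw [hcoe, hPY]
    rfl
  have hYint' : IsIntegral R Y' := ⟨P, hP, by rwa [← aeval_def]⟩
  -- (5) the derivative is a unit
  have hP'u : IsUnit (aeval Y' (derivative P)) := by
    obtain ⟨w, hw, hPw⟩ := hP'
    refine IsUnit.of_mul_eq_one (⟨w, hle hw⟩ : R') ?_
    apply Subtype.ext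
    show ((aeval Y' (derivative P) : R') : L) * w = 1
    rw [hcoe, hPw]
  -- (6) fractions
  have hadj : ∀ a₀ : L, ∀ ha₀ : a₀ ∈ A, (⟨a₀, hle ha₀⟩ : R') ∈ Algebra.adjoin R ({Y'} : Set R') := by
    intro a₀ ha₀
    have hmap : (Algebra.adjoin R ({Y'} : Set R')).map R'.val = A := by
      rw [AlgHom.map_adjoin, Set.image_singleton]
      rfl
    have : a₀ ∈ (Algebra.adjoin R ({Y'} : Set R')).map R'.val := by rw [hmap]; exact ha₀
    obtain ⟨a', ha', hval⟩ := this
    have : a' = ⟨a₀, hle ha₀⟩ := Subtype.ext hval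
    rw [← this]
    exact ha'
  have hfracE : ∀ z : R', ∃ (a : R') (s : R'), a ∈ Algebra.adjoin R ({Y'} : Set R') ∧
      s ∈ Algebra.adjoin R ({Y'} : Set R') ∧ IsUnit s ∧ z * s = a := by
    intro z
    obtain ⟨s₀, hs₀, hsz⟩ := z.2
    refine ⟨⟨(s₀ : L) * z, hle hsz⟩, ⟨(s₀ : L), hle s₀.2⟩, hadj _ hsz, hadj _ s₀.2, ?_, ?_⟩
    · exact IsLocalization.map_units R' (⟨s₀, hs₀⟩ : 𝔫.primeCompl)
    · apply Subtype.ext
      show (z : L) * (s₀ : L) = (s₀ : L) * z
      exact mul_comm _ _
  -- (7) the residue field is trivial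
  have hresA : ∀ a : A, ∃ r : R, a - algebraMap R A r ∈ 𝔫 := by
    intro a
    letI : Field (A ⧸ 𝔫) := Ideal.Quotient.field 𝔫
    set φ : R →+* (A ⧸ 𝔫) := (Ideal.Quotient.mk 𝔫).comp (algebraMap R A) with hφ
    have hφint : φ.IsIntegral :=
      RingHom.IsIntegral.trans _ _ (fun a => Algebra.IsIntegral.isIntegral (R := R) a)
        (RingHom.isIntegral_of_surjective _ Ideal.Quotient.mk_surjective)
    have hkill : ∀ r ∈ IsLocalRing.maximalIdeal R, φ r = 0 := by
      intro r hr
      rw [hφ, RingHom.comp_apply, Ideal.Quotient.eq_zero_iff_mem]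
      exact hm𝔫 r hr
    let ρ : IsLocalRing.ResidueField R →+* (A ⧸ 𝔫) :=
      Ideal.Quotient.lift (IsLocalRing.maximalIdeal R) φ hkill
    have hρ : ∀ r : R, ρ (IsLocalRing.residue R r) = φ r := fun r => rfl
    have hρint : ρ.IsIntegral := by
      refine RingHom.IsIntegral.tower_top (IsLocalRing.residue R) ρ ?_
      have : ρ.comp (IsLocalRing.residue R) = φ := RingHom.ext hρ
      rw [this]
      exact hφint
    obtain ⟨c, hc⟩ := (IsAlgClosed.ringHom_bijective_of_isIntegral ρ hρint).2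
      (Ideal.Quotient.mk 𝔫 a)
    obtain ⟨r, rfl⟩ := IsLocalRing.residue_surjective c
    refine ⟨r, ?_⟩
    rw [← Ideal.Quotient.eq, ← hc, hρ]
    rfl
  have hres : ∀ z : R', ∃ r : R, z - algebraMap R R' r ∈ IsLocalRing.maximalIdeal R' := by
    intro z
    obtain ⟨⟨a, s⟩, hz⟩ := IsLocalization.surj 𝔫.primeCompl z
    obtain ⟨r₁, hr₁⟩ := hresA a
    obtain ⟨r₂, hr₂⟩ := hresA (s : A)
    have hr₂u : IsUnit r₂ := by
      by_contra hnu
      have h1 : algebraMap R A r₂ ∈ 𝔫 := hm𝔫 r₂ ((IsLocalRing.mem_maximalIdeal r₂).2 hnu)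
      have h2 : (s : A) ∈ 𝔫 := by
        have : (s : A) = ((s : A) - algebraMap R A r₂) + algebraMap R A r₂ := by ring
        rw [this]
        exact 𝔫.add_mem hr₂ h1
      exact s.2 h2
    obtain ⟨r₂', hr₂'⟩ := hr₂u.exists_right_inv
    refine ⟨r₁ * r₂', ?_⟩
    set ι := algebraMap A R' with hι
    have hsu : IsUnit (ι (s : A)) := IsLocalization.map_units R' s
    have e0 : algebraMap R R' (r₁ * r₂') = ι (algebraMap R A (r₁ * r₂')) :=
      IsScalarTower.algebraMap_apply R A R' _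
    have key : (z - ι (algebraMap R A (r₁ * r₂'))) * ι (s : A) =
        ι (a - algebraMap R A r₁) -
          ι (algebraMap R A (r₁ * r₂')) * ι ((s : A) - algebraMap R A r₂) := by
      have e1 : ι (algebraMap R A (r₁ * r₂')) * ι (algebraMap R A r₂) =
          ι (algebraMap R A r₁) := by
        rw [← map_mul, ← map_mul]
        congr 2
        rw [mul_assoc, mul_comm r₂' r₂, hr₂', mul_one]
      simp only [map_sub, sub_mul, mul_sub]
      rw [hz, e1]
      ring
    have hmem : (z - ι (algebraMap R A (r₁ * r₂'))) * ι (s : A) ∈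
        IsLocalRing.maximalIdeal R' := by
      rw [key]
      exact Ideal.sub_mem _ ((hmaxR' _).2 hr₁) (Ideal.mul_mem_left _ _ ((hmaxR' _).2 hr₂))
    obtain ⟨t, ht⟩ := hsu.exists_right_inv
    have : z - algebraMap R R' (r₁ * r₂') =
        (z - ι (algebraMap R A (r₁ * r₂'))) * ι (s : A) * t := by
      rw [mul_assoc, ht, mul_one, e0]
    rw [this]
    exact Ideal.mul_mem_right _ _ hmem
  -- (8) ETNODE
  obtain ⟨hIC, hNoeth, hNode⟩ := Fermat.Agent.Ribet.H600.etaleNode R R' 𝔭₁ 𝔭₂ π x y hN hinj'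
    Y' P hP hPY' hP'u hfracE hres
  -- (9) the fraction field
  have hFrac : IsFractionRing R' L := by
    haveI : FaithfulSMul R' L :=
      (faithfulSMul_iff_algebraMap_injective R' L).2 Subtype.val_injective
    refine IsFractionRing.of_field (R := R') (K := L) ?_
    intro z
    obtain ⟨a, b, ha, hb, hb0, hzb⟩ := hfrac z
    refine ⟨⟨a, hle ha⟩, ⟨b, hle hb⟩, ?_⟩
    show z = a / b
    rw [eq_div_iff hb0, hzb]
  exact ⟨R', hlocal, hIC, hNoeth, hFrac, hNode,
    fun a ha => Fermat.Agent.Ribet.H600.mem_of_algebraMap_mem_map Y' hYint' hfracE hN.prime₁ ha,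
    fun a ha => Fermat.Agent.Ribet.H600.mem_of_algebraMap_mem_map Y' hYint' hfracE hN.prime₂ ha⟩

end Etale

/-! ## The leaf -/

/-- **COVER-NODE** (verbatim). -/
theorem coverNode : I6.CoverNodeStatement := by
  intro R K L _ _ _ _ _ _ _ _ _ _ _ _ 𝔭₁ 𝔭₂ π x y hN hk p hp ζ hζ lam ε η e hlamζ hε hlam_p hη he
    hlam g hg₁ hg₂ hdiv hs₁ hs₂ h hh hadj
  -- WPUR
  obtain ⟨d₁, d₂, s, z, hd₁, hd₂, hs, hgd⟩ := Fermat.Agent.Ribet.H524.wildPurity524 R 𝔭₁ 𝔭₂ π x y
    hN p hp lam ε η e hε hlam_p hη he hlam g hg₁ hg₂ hdiv hs₁ hs₂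
  set ι : R →+* L := algebraMap R L with hι
  have hinj : Function.Injective ι := by
    rw [hι, IsScalarTower.algebraMap_eq R K L]
    exact (algebraMap K L).injective.comp (IsFractionRing.injective R K)
  have hι0 : ∀ r : R, r ≠ 0 → ι r ≠ 0 := fun r hr h0 => hr (hinj (by rw [h0, map_zero]))
  -- `π ≠ 0`, `λ ≠ 0`, `λ ∈ 𝔪`
  have hπ0 : π ≠ 0 := by
    rintro rfl
    have hxy : x * y ∈ 𝔭₁ ⊓ 𝔭₂ := ⟨𝔭₁.mul_mem_left _ hN.hy, 𝔭₂.mul_mem_right _ hN.hx⟩
    rw [hN.inf_eq, Ideal.mem_span_singleton, zero_dvd_iff] at hxy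
    rcases mul_eq_zero.1 hxy with h0 | h0
    · exact hN.hx₁ (h0 ▸ 𝔭₁.zero_mem)
    · exact hN.hy₂ (h0 ▸ 𝔭₂.zero_mem)
  have hlam0 : lam ≠ 0 := by
    rw [hlam]
    exact mul_ne_zero hη.ne_zero (pow_ne_zero _ hπ0)
  have hπm : π ∈ IsLocalRing.maximalIdeal R := by
    have h1 : π ∈ 𝔭₁ := (inf_le_left : 𝔭₁ ⊓ 𝔭₂ ≤ 𝔭₁) (hN.inf_eq ▸ Ideal.mem_span_singleton_self π)
    exact IsLocalRing.le_maximalIdeal hN.prime₁.ne_top h1
  have hlamm : lam ∈ IsLocalRing.maximalIdeal R := by
    rw [hlam]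
    exact Ideal.mul_mem_left _ _ (Ideal.pow_mem_of_mem _ hπm e he)
  -- the inverse of `ε`
  obtain ⟨ε', hεε'⟩ := hε.exists_right_inv
  have hpl : (p : R) = lam ^ (p - 1) * ε' := by
    rw [hlam_p, mul_assoc, hεε', mul_one]
  obtain ⟨P, hP, hPmain, hPder⟩ := exists_asPoly hp lam ε' z hlam0 hpl
  -- the unit `1 + λ^p z`
  have hunit : IsUnit (1 + lam ^ p * z) := by
    by_contra hnu
    have h1 : 1 + lam ^ p * z ∈ IsLocalRing.maximalIdeal R := (IsLocalRing.mem_maximalIdeal _).2 hnu
    have h2 : lam ^ p * z ∈ IsLocalRing.maximalIdeal R :=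
      Ideal.mul_mem_right _ _ (Ideal.pow_mem_of_mem _ hlamm p hp.pos)
    have h3 : (1 : R) ∈ IsLocalRing.maximalIdeal R := by
      have : (1 : R) = (1 + lam ^ p * z) - lam ^ p * z := by ring
      rw [this]
      exact Ideal.sub_mem _ h1 h2
    exact (Ideal.ne_top_iff_one _).1 (IsLocalRing.maximalIdeal.isMaximal R).ne_top h3
  obtain ⟨v, hv⟩ := hunit.exists_right_inv
  -- the Kummer generator in Artin–Schreier form
  have hd₁L : ι d₁ ≠ 0 := hι0 d₁ hd₁
  have hd₂L : ι d₂ ≠ 0 := hι0 d₂ hd₂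
  have hsL : ι s ≠ 0 := hι0 s hs.ne_zero
  have hlamL : ι lam ≠ 0 := hι0 lam hlam0
  set u : L := h * ι d₂ / (ι d₁ * ι s) with hu
  have hup : u ^ p = ι (1 + lam ^ p * z) := by
    have e1 : h ^ p * ι d₂ ^ p = ι d₁ ^ p * ι s ^ p * ι (1 + lam ^ p * z) := by
      rw [hh]
      show ι g * ι d₂ ^ p = _
      rw [← map_pow, ← map_pow, ← map_pow, ← map_mul, ← map_mul, ← map_mul, hgd]
    rw [hu, div_pow, mul_pow, mul_pow, e1]
    field_simp
  set Y : L := (u - 1) / ι lam with hY
  have huY : 1 + ι lam * Y = u := by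
    rw [hY]
    field_simp
    ring
  have haevalC : ∀ r : R, aeval Y (C r) = ι r := fun r => aeval_C Y r
  have hPY : aeval Y P = 0 := by
    have h1 : aeval Y (C (lam ^ p) * P) = 0 := by
      rw [hPmain]
      simp only [map_sub, map_pow, map_add, map_one, map_mul, aeval_X, haevalC]
      rw [huY, hup]
      simp only [map_add, map_one, map_mul, map_pow]
      ring
    rw [map_mul, haevalC] at h1
    exact (mul_eq_zero.1 h1).resolve_left (hι0 _ (pow_ne_zero _ hlam0))
  have hder : aeval Y (derivative P) = ι ε' * u ^ (p - 1) := by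
    rw [hPder]
    simp only [map_mul, map_pow, map_add, map_one, aeval_X, haevalC]
    rw [huY]
  -- `P'(Y)` is a unit of `R[Y]`
  have hYA : Y ∈ Algebra.adjoin R ({Y} : Set L) := Algebra.subset_adjoin (Set.mem_singleton Y)
  have huA : u ∈ Algebra.adjoin R ({Y} : Set L) := by
    rw [← huY]
    exact Subalgebra.add_mem _ (Subalgebra.one_mem _)
      (Subalgebra.mul_mem _ (Subalgebra.algebraMap_mem _ lam) hYA)
  have hP' : ∃ w ∈ Algebra.adjoin R ({Y} : Set L), aeval Y (derivative P) * w = 1 := by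
    refine ⟨ι ε * u * ι v, Subalgebra.mul_mem _ (Subalgebra.mul_mem _
      (Subalgebra.algebraMap_mem _ ε) huA) (Subalgebra.algebraMap_mem _ v), ?_⟩
    rw [hder]
    have hidx : p - 1 + 1 = p := by have := hp.one_lt; omega
    have e1 : ι ε' * u ^ (p - 1) * (ι ε * u * ι v) = ι (ε * ε') * (u ^ (p - 1 + 1)) * ι v := by
      rw [map_mul, pow_succ]
      ring
    rw [e1, hidx, hup, hεε', map_one, one_mul, ← map_mul, hv, map_one]
  -- `L = Frac R[Y]`
  have hfrac : ∀ z' : L, ∃ a b : L, a ∈ Algebra.adjoin R ({Y} : Set L) ∧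
      b ∈ Algebra.adjoin R ({Y} : Set L) ∧ b ≠ 0 ∧ z' * b = a := by
    set A : Subalgebra R L := Algebra.adjoin R ({Y} : Set L) with hA
    set Q : Subfield L := Subfield.closure (A : Set L) with hQ
    have hAQ : ∀ a ∈ A, a ∈ Q := fun a ha => Subfield.subset_closure ha
    have hKQ : ∀ k : K, algebraMap K L k ∈ Q := by
      intro k
      obtain ⟨a, b, -, rfl⟩ := IsFractionRing.div_surjective (A := R) k
      rw [map_div₀, ← IsScalarTower.algebraMap_apply, ← IsScalarTower.algebraMap_apply]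
      exact div_mem (hAQ _ (Subalgebra.algebraMap_mem _ a)) (hAQ _ (Subalgebra.algebraMap_mem _ b))
    have hhQ : h ∈ Q := by
      have : h = u * (ι d₁ * ι s) / ι d₂ := by
        rw [hu]
        field_simp
      rw [this]
      exact div_mem (mul_mem (hAQ _ huA) (mul_mem (hAQ _ (Subalgebra.algebraMap_mem _ d₁))
        (hAQ _ (Subalgebra.algebraMap_mem _ s)))) (hAQ _ (Subalgebra.algebraMap_mem _ d₂))
    have htop : IntermediateField.adjoin K ({h} : Set L) ≤ Subfield.toIntermediateField Q hKQ := by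
      rw [IntermediateField.adjoin_le_iff]
      intro t ht
      rw [Set.mem_singleton_iff] at ht
      subst ht
      exact hhQ
    intro z'
    have hz' : z' ∈ Q := htop (by rw [hadj]; trivial)
    rw [hQ, Subfield.mem_closure_iff] at hz'
    obtain ⟨a, ha, b, hb, hab⟩ := hz'
    have hcl : Subring.closure (A : Set L) ≤ A.toSubring := Subring.closure_le.2 (fun t ht => ht)
    by_cases hb0 : b = 0
    · refine ⟨0, 1, Subalgebra.zero_mem _, Subalgebra.one_mem _, one_ne_zero, ?_⟩
      rw [← hab, hb0, div_zero, zero_mul]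
    · refine ⟨a, b, hcl ha, hcl hb, hb0, ?_⟩
      rw [← hab]
      field_simp
  exact exists_nodeRing_of_etale hinj hk hN Y P hP hPY hP' hfrac

end Fermat.Agent.Ribet.H132

end
-- ===== PACK-END Ribet/H132/CoverNode.lean

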