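import Mathlib
import Fermat.Prelude.Thm_CuspForm_mem_intLattice_of_mem_heckeAlgebra
import Fermat.Agent.Pack.S44C.G0E19L3
import Fermat.Agent.Pack.S44C.G0E22L3
import Fermat.Agent.Pack.S44C.G0E10L3
import Fermat.Agent.Pack.S44C.G0E19L0
import Fermat.Agent.Pack.S44C.G0E0L3
import Fermat.Agent.Pack.S44C.G0E7L2
import Fermat.Agent.Pack.S44C.G0E7L0
import Fermat.Agent.Pack.S44C.G0E22L2
import Fermat.Agent.Pack.S44C.G0E22L1
import Fermat.Agent.Pack.S44C.G0E1L2
import Fermat.Agent.Pack.S44C.G0E11L0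
import Fermat.Agent.Pack.S44C.G0E7L1
import Fermat.Agent.Pack.S44C.G0E18L3
import Fermat.Agent.Pack.S44C.G0E14L2
import Fermat.Agent.Pack.S44C.G0E16L3
import Fermat.Agent.Pack.S44C.G0E8L3
import Fermat.Agent.Pack.S44C.G0E15L0
import Fermat.Agent.Pack.S44C.G0E17L0
import Fermat.Agent.Pack.S44C.G0E19L1
import Fermat.Agent.Pack.S44C.G0E22L0
import Fermat.Agent.Pack.S44C.G0E13L2
import Fermat.Agent.Pack.Fast891

-- ===== PACK-BEGIN Lib/Frob/Small/All.lean
section





/-!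
# Shared library `Frob`: the Frobenius relation at ALL good primes, including `ℓ = 2, 3` (helper545)

`Lib.Frob.FrobRelation` / `FrobRelationFin` are stated for primes `ℓ ≥ 5`.  Here the same
statements without the restriction `5 ≤ ℓ`:

* `frobRelationFinAll : FrobRelationFinAll` — over `𝔽_ℓ`, every prime `ℓ`, every Weierstrass curve
  `E` with `Δ ≠ 0`, every field `k ⊇ 𝔽_ℓ`:  `Φ² − a_ℓ Φ + ℓ = 0` on `E(k)`.
* `frobRelationAll : FrobRelationAll` — for an integral model `W`, EVERY prime `ℓ ∤ Δ(W)`, every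
  valuation subring `A` of `ℚ̄` above `ℓ`, every Frobenius element `σ` at `A` and every torsion
  point `P ∈ W(ℚ̄)` of order prime to `ℓ`:  `σ²P − a_ℓ(W)·σP + ℓ·P = 0`.

(`ℓ` odd: helper297's exact-height proof + completing the square; `ℓ = 2`: `Two.lean`;
reduction of torsion: landed piece A1, which has no restriction on `ℓ`.)
-/

set_option autoImplicit false

open WeierstrassCurve WeierstrassCurve.Affine WeierstrassCurve.Affine.Point

namespace Fermat.Agent.Lib.Frob.Small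

open Fermat.Agent.Lib.Frob

/-- Piece A2 without the restriction `5 ≤ ℓ`. -/
def FrobRelationFinAll : Prop :=
  ∀ (ℓ : ℕ) [Fact ℓ.Prime] (E : WeierstrassCurve (ZMod ℓ)), E.Δ ≠ 0 →
    ∀ (k : Type) [Field k] [Algebra (ZMod ℓ) k] [DecidableEq k] (P : (E⁄k).Point),
      frobPt ℓ E k (frobPt ℓ E k P) - E.traceOfFrobenius • frobPt ℓ E k P + (ℓ : ℤ) • P = 0

/-- **The Hasse–Weil Frobenius relation over `𝔽_ℓ` for every prime `ℓ`.** -/
theorem frobRelationFinAll : FrobRelationFinAll := by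
  intro ℓ _ E hΔ k _ _ _ P
  by_cases h2 : ℓ = 2
  · subst h2
    exact frobRelationFin_two E hΔ k P
  · exact frobRel_of_odd ℓ h2 E hΔ k P

/-- `Lib.Frob.FrobRelation` without the restriction `5 ≤ ℓ`. -/
def FrobRelationAll : Prop :=
  ∀ (W : WeierstrassCurve ℤ) (ℓ : ℕ), ℓ.Prime → W.IsGoodPrimeFor ℓ →
    ∀ (A : ValuationSubring Qb) (σ : Qb ≃ₐ[ℚ] Qb), A.LiesOverPrime ℓ → A.IsFrobeniusAt σ ℓ →
      ∀ (n : ℕ), 0 < n → ¬ ℓ ∣ n → ∀ P : Pts W, n • P = 0 →
        σ • σ • P - W.apOfModel ℓ • σ • P + (ℓ : ℤ) • P = 0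

/-- **The Frobenius relation `σ² − a_ℓ σ + ℓ = 0` on prime-to-`ℓ` torsion of `W(ℚ̄)`, for every
prime `ℓ` of good reduction (including `ℓ = 2, 3`).** -/
theorem frobRelationAll : FrobRelationAll := by
  intro W ℓ hℓ hgood A σ hA hσ n hn hℓn P hP
  have : Fact ℓ.Prime := ⟨hℓ⟩
  obtain ⟨k, hk1, hk2, hk3, red, hinj, hcomm⟩ := reductionData W ℓ hgood A σ hA hσ n hn hℓn
  have hmem : P ∈ Submodule.torsionBy ℤ (Pts W) n := by
    rw [Submodule.mem_torsionBy_iff]
    rw [← hP]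
    exact (natCast_zsmul P n)
  set P' : Submodule.torsionBy ℤ (Pts W) n := ⟨P, hmem⟩ with hP'
  have key : σ • σ • P' - W.apOfModel ℓ • σ • P' + (ℓ : ℤ) • P' = 0 := by
    apply hinj
    rw [_root_.map_zero, map_add, map_sub, map_zsmul, map_zsmul, hcomm, hcomm]
    exact frobRelationFinAll ℓ (W.reductionMod ℓ) (reductionMod_Δ_ne_zero W ℓ hgood) k (red P')
  have h2 := congrArg Subtype.val key
  simp only [Submodule.coe_add, Submodule.coe_sub, Submodule.coe_smul_of_tower,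
    coe_galois_smul_torsion, ZeroMemClass.coe_zero] at h2
  exact h2

/-- `frobRelationAll` restricted to `ℓ ≥ 5` is the frozen `FrobRelation`. -/
theorem frobRelation_of_all : FrobRelation :=
  fun W ℓ hℓ _ hgood A σ hA hσ n hn hℓn P hP =>
    frobRelationAll W ℓ hℓ hgood A σ hA hσ n hn hℓn P hP

end Fermat.Agent.Lib.Frob.Small

end
-- ===== PACK-END Lib/Frob/Small/All.lean

-- ===== PACK-BEGIN S24/Alg.lean
section





/-!
# S24 — algebraic side (Riemann–Hurwitz for `F / K(j)` from local embedding data)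

Global assembly (helper984): the two frozen interface theorems
`exists_differential_ne_zero` and `degree_eq_of_localData`, proved from the sub-interface
in `Alg/Sub.lean`.
-/

set_option autoImplicit false

noncomputable section

open AlgebraicCurve KaehlerDifferential

namespace Fermat.Agent.S24

variable {K F : Type*} [Field K] [Field F] [Algebra K F] [IsAlgClosed K] [CharZero K]
variable {C : Type*} [Field C] [CharZero C] {X : Type*} [Finite X]

omit [CharZero K] in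
theorem exists_algebraMap_eq_of_isAlgebraic {x : F} (hx : IsAlgebraic K x) :
    ∃ c : K, algebraMap K F c = x := by
  have hint : IsIntegral K x := hx.isIntegral
  refine ⟨-(minpoly K x).coeff 0, ?_⟩
  have hq : (minpoly K x).leadingCoeff = 1 := minpoly.monic hint
  have h : (minpoly K x).degree = 1 :=
    IsAlgClosed.degree_eq_one_of_irreducible K (minpoly.irreducible hint)
  have : Polynomial.aeval x (minpoly K x) = 0 := minpoly.aeval K x
  rw [Polynomial.eq_X_add_C_of_degree_eq_one h, hq, Polynomial.C_1, one_mul,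
    Polynomial.aeval_add, Polynomial.aeval_X, Polynomial.aeval_C,
    add_eq_zero_iff_eq_neg] at this
  exact (map_neg (algebraMap K F) ((minpoly K x).coeff 0)).symm ▸ this.symm

omit [IsAlgClosed K] [CharZero K] [CharZero C] [Finite X] in
theorem not_mem_range_of_localData {t : F} [Nonempty X] (d : LocalData K F C X t) (c : K) :
    t ≠ algebraMap K F c := by
  intro h
  obtain ⟨x⟩ := ‹Nonempty X›
  have h1 := d.σ_t_order x
  have h3 : d.σ x t = HahnSeries.C (d.ι c) := (congrArg (d.σ x) h).trans (d.σ_const x c)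
  rw [h3] at h1
  have h2 : (HahnSeries.C (d.ι c) : LaurentSeries C).order = 0 := by
    rw [HahnSeries.C_apply]
    by_cases hc : d.ι c = 0
    · simp [hc]
    · exact HahnSeries.order_single hc
  rw [h2] at h1
  have := d.m_pos
  omega

omit [CharZero K] [CharZero C] [Finite X] in
theorem transcendental_of_localData_inv (j : F) [Nonempty X]
    (dataInf : LocalData K F C X j⁻¹) : Transcendental K j := by
  intro halg
  obtain ⟨c, hc⟩ := exists_algebraMap_eq_of_isAlgebraic halg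
  refine not_mem_range_of_localData dataInf c⁻¹ ?_
  rw [map_inv₀, hc]

omit [Finite X] in
theorem numOrbits_one : numOrbits (1 : Equiv.Perm X) = Nat.card X := by
  unfold numOrbits
  refine Nat.card_congr (Equiv.ofBijective (Quotient.mk'' (s₁ := MulAction.orbitRel _ X)) ?_).symm
  constructor
  · intro x y hxy
    have h := Quotient.exact' hxy
    change x ∈ MulAction.orbit _ y at h
    obtain ⟨⟨g, hg⟩, hgx⟩ := h
    rw [Subgroup.zpowers_one_eq_bot, Subgroup.mem_bot] at hg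
    subst hg
    simpa using hgx.symm
  · exact Quotient.mk''_surjective

end Fermat.Agent.S24

namespace Fermat.Agent.S24

variable {K F : Type*} [Field K] [Field F] [Algebra K F] [IsAlgClosed K] [CharZero K]
variable {C : Type*} [Field C] [CharZero C] {X : Type*} [Finite X]

omit [IsAlgClosed K] [CharZero K] [Finite X] in
/-- `dt ≠ 0` if there is local data at `t` (helper240). -/
theorem D_ne_zero_of_localData {t : F} [Nonempty X] (d : LocalData K F C X t) :
    D K F t ≠ 0 := by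
  obtain ⟨x⟩ := ‹Nonempty X›
  apply H240.exists_embDerivation (d.σ x) d.ι (d.σ_const x)
  apply H240.lsD_ne_zero_of_order_ne_zero
  rw [d.σ_t_order x]
  exact_mod_cast d.m_pos.ne'

omit [IsAlgClosed K] [CharZero K] [Finite X] in
/-- If `F` admits local data at `j⁻¹`, then `Ω[F/K] ≠ 0` (helper240). -/
theorem exists_differential_ne_zero (j : F) [Nonempty X]
    (dataInf : LocalData K F C X j⁻¹) :
    ∃ ω : Ω[F⁄K], ω ≠ 0 :=
  ⟨D K F j⁻¹, D_ne_zero_of_localData dataInf⟩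

section LocalConsequences

variable (t : F) [FiniteDimensional ↥(IntermediateField.adjoin K {t}) F]
  (hrank : Module.finrank ↥(IntermediateField.adjoin K {t}) F = Nat.card X)
  (d : LocalData K F C X t)

include hrank d in
theorem zeroPlaces_finite : (zeroPlaces K t).Finite := (sub_local_count t hrank d).1

include hrank in
theorem card_zeroPlaces_toFinset :
    ((zeroPlaces_finite t hrank d).toFinset.card : ℤ) = numOrbits d.perm := by
  have h := (sub_local_count t hrank d).2.1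
  rw [Nat.card_coe_set_eq, Set.ncard_eq_toFinset_card _ (zeroPlaces_finite t hrank d)] at h
  exact_mod_cast h

include hrank in
theorem sum_ord_zeroPlaces :
    ∑ v ∈ (zeroPlaces_finite t hrank d).toFinset, v.ord t = (Nat.card X : ℤ) := by
  have h := (sub_local_count t hrank d).2.2
  rwa [finsum_mem_eq_finite_toFinset_sum _ (zeroPlaces_finite t hrank d)] at h

include hrank in
theorem sum_ord_sub_one_zeroPlaces :
    ∑ v ∈ (zeroPlaces_finite t hrank d).toFinset, (v.ord t - 1)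
      = (Nat.card X : ℤ) - numOrbits d.perm := by
  rw [Finset.sum_sub_distrib, sum_ord_zeroPlaces t hrank d, Finset.sum_const,
    ← card_zeroPlaces_toFinset t hrank d]
  simp

include hrank in
theorem sum_neg_ord_sub_one_zeroPlaces :
    ∑ v ∈ (zeroPlaces_finite t hrank d).toFinset, (-(v.ord t) - 1)
      = -(Nat.card X : ℤ) - numOrbits d.perm := by
  rw [Finset.sum_sub_distrib, Finset.sum_neg_distrib, sum_ord_zeroPlaces t hrank d,
    Finset.sum_const, ← card_zeroPlaces_toFinset t hrank d]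
  simp

include hrank in
/-- If the monodromy is trivial, `t` is unramified: every zero of `t` is simple. -/
theorem ord_eq_one_of_perm_eq_one (hperm : d.perm = 1) (v : Place K F) (hv : 0 < v.ord t) :
    v.ord t = 1 := by
  have hsum := sum_ord_sub_one_zeroPlaces t hrank d
  rw [hperm, numOrbits_one, sub_self] at hsum
  have hnonneg : ∀ w ∈ (zeroPlaces_finite t hrank d).toFinset, 0 ≤ w.ord t - 1 := by
    intro w hw
    have : 0 < w.ord t := by simpa [zeroPlaces] using hw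
    omega
  have hz := (Finset.sum_eq_zero_iff_of_nonneg hnonneg).mp hsum v
    (by simpa [zeroPlaces] using hv)
  omega

end LocalConsequences

section Global

variable (j : F) [FiniteDimensional ↥(IntermediateField.adjoin K {j}) F]
  (hrank : Module.finrank ↥(IntermediateField.adjoin K {j}) F = Nat.card X)

include hrank in
/-- Local package at a finite point, with all instance transport done. -/
theorem local_fin (a : K) (d : LocalData K F C X (j - algebraMap K F a)) :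
    ∃ Z : Finset (Place K F), (∀ v : Place K F, v ∈ Z ↔ 0 < v.ord (j - algebraMap K F a)) ∧
      ∑ v ∈ Z, (v.ord (j - algebraMap K F a) - 1) = (Nat.card X : ℤ) - numOrbits d.perm ∧
      (∀ v : Place K F, 0 < v.ord (j - algebraMap K F a) →
        v.ordDifferential (D K F (j - algebraMap K F a)) = v.ord (j - algebraMap K F a) - 1) ∧
      (d.perm = 1 → ∀ v : Place K F, 0 < v.ord (j - algebraMap K F a) →
        v.ord (j - algebraMap K F a) = 1) := by
  obtain ⟨hfd, hfr⟩ := finiteDimensional_and_finrank_of_eq (adjoin_sub_algebraMap K j a)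
  have hr := hfr.trans hrank
  refine ⟨(zeroPlaces_finite _ hr d).toFinset, fun v => by simp [zeroPlaces],
    sum_ord_sub_one_zeroPlaces _ hr d, fun v hv => sub_ordDifferential_D _ hr d v hv,
    fun h v hv => ord_eq_one_of_perm_eq_one _ hr d h v hv⟩

include hrank in
/-- Local package at infinity, with all instance transport done. -/
theorem local_inf (d : LocalData K F C X j⁻¹) :
    ∃ Z : Finset (Place K F), (∀ v : Place K F, v ∈ Z ↔ 0 < v.ord j⁻¹) ∧
      ∑ v ∈ Z, (-(v.ord j⁻¹) - 1) = -(Nat.card X : ℤ) - numOrbits d.perm ∧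
      (∀ v : Place K F, 0 < v.ord j⁻¹ → v.ordDifferential (D K F j⁻¹) = v.ord j⁻¹ - 1) := by
  obtain ⟨hfd, hfr⟩ := finiteDimensional_and_finrank_of_eq (adjoin_inv K j)
  have hr := hfr.trans hrank
  exact ⟨(zeroPlaces_finite _ hr d).toFinset, fun v => by simp [zeroPlaces],
    sum_neg_ord_sub_one_zeroPlaces _ hr d, fun v hv => sub_ordDifferential_D _ hr d v hv⟩

omit [IsAlgClosed K] [CharZero K] in
theorem degree_eq_sum_of_deg_one (hdeg : ∀ v : Place K F, v.deg = 1) (E : Divisor K F)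
    (T : Finset (Place K F)) (hT : E.support ⊆ T) :
    Divisor.degree E = ∑ v ∈ T, E v := by
  have h1 : Divisor.degree E = E.sum fun v n => n * (v.deg : ℤ) := by
    simp [Divisor.degree, Finsupp.liftAddHom_apply]
  rw [h1, Finsupp.sum_of_support_subset E hT _ (fun v _ => by simp)]
  refine Finset.sum_congr rfl fun v _ => ?_
  rw [hdeg v]; simp

include hrank in
/-- **Riemann–Hurwitz from embeddings.**  Degree of the divisor of any nonzero differential. -/
theorem degree_eq_of_localData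
    (dataFin : ∀ a : K, LocalData K F C X (j - algebraMap K F a))
    (dataInf : LocalData K F C X j⁻¹)
    (S₀ : Finset K) (hgen : ∀ a : K, a ∉ S₀ → (dataFin a).perm = 1)
    (ω : Ω[F⁄K]) (hω : ω ≠ 0) (E : Divisor K F)
    (hE : ∀ v : Place K F, E v = v.ordDifferential ω) :
    Divisor.degree E =
      (∑ a ∈ S₀, ((Nat.card X : ℤ) - numOrbits (dataFin a).perm))
        - Nat.card X - numOrbits dataInf.perm := by
  classical
  have hpos : 0 < Nat.card X := hrank ▸ Module.finrank_pos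
  have hne : Nonempty X := (Nat.card_pos_iff.mp hpos).1
  have hj : Transcendental K j := transcendental_of_localData_inv j dataInf
  have hj0 : j ≠ 0 := fun h => hj (h ▸ isAlgebraic_zero)
  have hdeg : ∀ v : Place K F, v.deg = 1 := sub_deg_eq_one j hj
  -- `ω = f • dj`
  obtain ⟨f, rfl⟩ := sub_exists_smul_D j ω
  have hf : f ≠ 0 := by rintro rfl; simp at hω
  have hDinv : D K F j = (-(j ^ 2)) • D K F j⁻¹ := by
    have h := Derivation.leibniz_inv (D K F) (j⁻¹)
    rw [inv_inv] at h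
    exact h
  have hDjinv : D K F j⁻¹ ≠ 0 := D_ne_zero_of_localData dataInf
  have hc : (-(j ^ 2)) ≠ 0 := neg_ne_zero.mpr (pow_ne_zero 2 hj0)
  have hDj : D K F j ≠ 0 := by
    rw [hDinv]
    exact smul_ne_zero hc hDjinv
  -- local packages
  choose Zf hZf_mem hZf_sum hZf_ord hZf_unr using fun a => local_fin j hrank a (dataFin a)
  obtain ⟨Zi, hZi_mem, hZi_sum, hZi_ord⟩ := local_inf j hrank dataInf
  -- the ramification function
  set R : Place K F → ℤ := fun v => v.ordDifferential (D K F j) with hR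
  have hDv : ∀ v : Place K F, E v = v.ord f + R v := fun v => by
    rw [hE, sub_ordDifferential_smul j v f hf _ hDj]
  have hRfin : ∀ (a : K) (v : Place K F), 0 < v.ord (j - algebraMap K F a) →
      R v = v.ord (j - algebraMap K F a) - 1 := by
    intro a v hv
    have : D K F (j - algebraMap K F a) = D K F j := by simp
    rw [← hZf_ord a v hv, this]
  have hRinf : ∀ v : Place K F, 0 < v.ord j⁻¹ → R v = -(v.ord j⁻¹) - 1 := by
    intro v hv
    show v.ordDifferential (D K F j) = _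
    rw [hDinv, sub_ordDifferential_smul j v _ hc _ hDjinv, hZi_ord v hv, ord_neg, pow_two,
      v.ord_mul hj0 hj0]
    have := v.ord_inv j
    omega
  -- the finite set of special places
  set T : Finset (Place K F) := S₀.biUnion Zf ∪ Zi with hT
  have hRT : ∀ v : Place K F, R v ≠ 0 → v ∈ T := by
    intro v hv
    rcases sub_exists_point j v with h | ⟨a, ha⟩
    · refine Finset.mem_union_right _ ((hZi_mem v).mpr ?_)
      have := v.ord_inv j
      omega
    · by_cases haS : a ∈ S₀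
      · exact Finset.mem_union_left _ (Finset.mem_biUnion.mpr ⟨a, haS, (hZf_mem a v).mpr ha⟩)
      · exfalso
        apply hv
        rw [hRfin a v ha, hZf_unr a (hgen a haS) v ha]
        simp
  let Rfs : Divisor K F := Finsupp.onFinset T R hRT
  have hRfs : ∀ v : Place K F, Rfs v = R v := fun v => rfl
  have hprinc : Divisor.degree (E - Rfs) = 0 :=
    sub_degree_principal j hj f hf (E - Rfs) fun v => by
      rw [Finsupp.sub_apply, hRfs, hDv]; ring
  have hsplit : Divisor.degree E = Divisor.degree Rfs := by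
    have := map_sub (Divisor.degree (K := K) (F := F)) E Rfs
    rw [hprinc] at this
    linarith
  rw [hsplit, degree_eq_sum_of_deg_one hdeg Rfs T Finsupp.support_onFinset_subset]
  simp only [hRfs]
  -- split the sum
  have hdisj1 : Disjoint (S₀.biUnion Zf) Zi := by
    rw [Finset.disjoint_left]
    intro v hv hvi
    obtain ⟨a, -, hva⟩ := Finset.mem_biUnion.mp hv
    exact not_pos_ord_sub_of_pos_ord_inv v j a ((hZi_mem v).mp hvi) ((hZf_mem a v).mp hva)
  have hdisj2 : (S₀ : Set K).PairwiseDisjoint Zf := by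
    intro a _ b _ hab
    rw [Function.onFun, Finset.disjoint_left]
    intro v hva hvb
    exact hab (point_unique v j ((hZf_mem a v).mp hva) ((hZf_mem b v).mp hvb))
  rw [hT, Finset.sum_union hdisj1, Finset.sum_biUnion hdisj2]
  have h1 : ∀ a ∈ S₀, ∑ v ∈ Zf a, R v = (Nat.card X : ℤ) - numOrbits (dataFin a).perm := by
    intro a _
    rw [← hZf_sum a]
    exact Finset.sum_congr rfl fun v hv => hRfin a v ((hZf_mem a v).mp hv)
  have h2 : ∑ v ∈ Zi, R v = -(Nat.card X : ℤ) - numOrbits dataInf.perm := by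
    rw [← hZi_sum]
    exact Finset.sum_congr rfl fun v hv => hRinf v ((hZi_mem v).mp hv)
  rw [Finset.sum_congr rfl h1, h2]
  ring

end Global

end Fermat.Agent.S24

end
end
-- ===== PACK-END S24/Alg.lean

-- ===== PACK-BEGIN S29/H509/KummerHom.lean
section


/-!
# The Kummer function of an additive character `Γ₀(N) → ℤ/p` (helper509, S29 piece K1-full)

`chiOfHom c γ = exp (2πi c(γ) / p)` turns `c : Additive Γ →+ ZMod p` into a character
`Γ →* ℂˣ`; `exists_kummerFun_of_hom` is the packaged statement for consumers (DICT / DESC / NORM).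
-/

set_option autoImplicit false

namespace Fermat.Agent.S29.H509

open ModularForm UpperHalfPlane Matrix CongruenceSubgroup EisensteinSeries Filter Topology
open scoped MatrixGroups Manifold Real

open Fermat.Agent.S24.H648 (goodRing ExpGrowth)

noncomputable section

variable {Γ : Subgroup SL(2, ℤ)} {p : ℕ} [NeZero p]

/-- The character `γ ↦ exp (2πi c(γ) / p)` attached to `c : Γ → ℤ/p`. -/
def chiOfHom (c : Additive Γ →+ ZMod p) : Γ →* ℂˣ :=
  MonoidHom.toHomUnits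
    { toFun := fun γ => ZMod.stdAddChar (N := p) (c (Additive.ofMul γ))
      map_one' := by simp
      map_mul' := fun a b => by
        rw [ofMul_mul, map_add, AddChar.map_add_eq_mul] }

@[simp] lemma chiOfHom_apply (c : Additive Γ →+ ZMod p) (γ : Γ) :
    ((chiOfHom c γ : ℂˣ) : ℂ) = ZMod.stdAddChar (N := p) (c (Additive.ofMul γ)) := rfl

lemma chiOfHom_eq_one_iff (c : Additive Γ →+ ZMod p) (γ : Γ) :
    chiOfHom c γ = 1 ↔ c (Additive.ofMul γ) = 0 := by
  rw [← Units.val_inj, chiOfHom_apply, Units.val_one,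
    ← (ZMod.stdAddChar (N := p)).map_zero_eq_one, ZMod.injective_stdAddChar.eq_iff]

lemma chiOfHom_pow (c : Additive Γ →+ ZMod p) (γ : Γ) : chiOfHom c γ ^ p = 1 := by
  rw [← Units.val_inj, Units.val_pow_eq_pow_val, chiOfHom_apply, Units.val_one,
    ← AddChar.map_nsmul_eq_pow]
  simp

lemma chiOfHom_add (c c' : Additive Γ →+ ZMod p) (γ : Γ) :
    chiOfHom (c + c') γ = chiOfHom c γ * chiOfHom c' γ := by
  rw [← Units.val_inj, Units.val_mul, chiOfHom_apply, chiOfHom_apply, chiOfHom_apply,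
    AddMonoidHom.add_apply, AddChar.map_add_eq_mul]

lemma chiOfHom_zero : chiOfHom (0 : Additive Γ →+ ZMod p) = 1 := by
  ext γ
  simp

lemma trivOnStabInfty_chiOfHom {c : Additive Γ →+ ZMod p}
    (hc : ∀ γ : Γ, (γ : SL(2, ℤ)) 1 0 = 0 → c (Additive.ofMul γ) = 0) :
    TrivOnStabInfty (chiOfHom c) :=
  fun γ hγ => (chiOfHom_eq_one_iff c γ).mpr (hc γ hγ)

/-- An element of `SL(2, ℤ)` with lower left entry `0` has trace `±2`. -/
lemma trace_sq_of_lower_left_eq_zero (γ : SL(2, ℤ)) (h : γ 1 0 = 0) :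
    (γ : Matrix (Fin 2) (Fin 2) ℤ).trace ^ 2 = 4 := by
  have hdet := γ.det_coe
  rw [Matrix.det_fin_two] at hdet
  have h' : (γ : Matrix (Fin 2) (Fin 2) ℤ) 1 0 = 0 := h
  rw [h', mul_zero, sub_zero] at hdet
  rw [Matrix.trace_fin_two]
  rcases Int.eq_one_or_neg_one_of_mul_eq_one' hdet with ⟨h1, h2⟩ | ⟨h1, h2⟩
  · rw [h1, h2]; norm_num
  · rw [h1, h2]; norm_num

/-- **K1 (packaged).**  For an additive character `c : Γ₀(N) → ℤ/p` vanishing on the elements
fixing `∞` (e.g. on all elements with `trace ^ 2 = 4`), the Kummer function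
`h = kumH (chiOfHom c)` is holomorphic, nonzero, transforms by
`h (γ • τ) = exp (2πi c(γ)/p) * h τ` under `Γ₀(N)`, all its `SL(2, ℤ)`-translates have at most
exponential growth, and `h ^ p` is a good function for `Γ₀(N)`. -/
theorem exists_kummerFun_of_hom (N : ℕ) (c : Additive (Gamma0 N) →+ ZMod p)
    (hc : ∀ γ : Gamma0 N, (γ : SL(2, ℤ)) 1 0 = 0 → c (Additive.ofMul γ) = 0) :
    ∃ h : ℍ → ℂ, MDiff h ∧ h ≠ 0 ∧
      (∀ (γ : Gamma0 N) (τ : ℍ),
        h ((γ : SL(2, ℤ)) • τ) = ZMod.stdAddChar (N := p) (c (Additive.ofMul γ)) * h τ) ∧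
      (∀ g : SL(2, ℤ), ExpGrowth (fun τ => h (g • τ))) ∧
      h ^ p ∈ goodRing N := by
  have hp : p ≠ 0 := NeZero.ne p
  have hstab := trivOnStabInfty_chiOfHom hc
  have hnorm : ∀ γ, ‖((chiOfHom c γ : ℂˣ) : ℂ)‖ = 1 :=
    fun γ => norm_eq_one_of_pow_eq_one' hp (chiOfHom_pow c γ)
  refine ⟨kumH (chiOfHom c), kumH_mdifferentiable hnorm, kumH_ne_zero hnorm hstab,
    fun γ τ => ?_, kumH_expGrowth hnorm, kumH_pow_mem_goodRing hstab.trivOnUnip hp
      (chiOfHom_pow c)⟩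
  rw [kumH_smul hstab.trivOnUnip, chiOfHom_apply]

end

end Fermat.Agent.S29.H509

end
-- ===== PACK-END S29/H509/KummerHom.lean

-- ===== PACK-BEGIN S18/H694/CoreMul.lean
section






/-!
# S18 / helper694 — the hub `CoreStatement N A m` is multiplicative in `m`

The S18 interfaces (v4) prove `CoreStatement N A p` only for PRIME `p ≠ ℓ`.  Row S29 (ES-KUM,
`S29/H222/ESKFamily.lean`, `CoreFamily`) consumes `CoreStatement N A (p ^ n)`.  This file is the
bridge:

* `laurent_const_of_pow_eq_C` : in `k((q))`, `z ^ a = C γ`, `γ ≠ 0`, `(a : k) ≠ 0` ⟹ `z = C δ`.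
* `gauss_unit`      : `incl W₁ = C γ * incl W₂` with `W̄₁ ≠ 0 ≠ W̄₂` ⟹ `γ` is a unit of `A`.
* `core_mul`        : `CoreStatement N A a → CoreStatement N A b → CoreStatement N A (a * b)`
                      (given `CoreData N k` for the residue field `k` and `(a : k) ≠ 0`).
* `coreStatement_one`, `coreStatement_of_prime`, `coreFamily_of_prime` (exact body of
  `S29.H222.CoreFamily`).
-/

set_option autoImplicit false

noncomputable section

namespace Fermat.Agent.S18.H694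

open ModularCurve AlgebraicCurve HahnSeries

/-! ## 1. Constants of `k((q))` -/

section Const

variable {k : Type*} [Field k]

/-- In a power series ring over a field: `p ^ a = C γ` with `(a : k) ≠ 0`, `γ ≠ 0` forces `p`
to be constant. -/
theorem powerSeries_const_of_pow_eq_C {a : ℕ} (ha : (a : k) ≠ 0) {p : PowerSeries k} {γ : k}
    (hγ : γ ≠ 0) (h : p ^ a = PowerSeries.C γ) :
    p = PowerSeries.C (PowerSeries.constantCoeff p) := by
  set p₀ : k := PowerSeries.constantCoeff p with hp₀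
  have h0 : p₀ ^ a = γ := by
    have := congrArg PowerSeries.constantCoeff h
    rwa [map_pow, PowerSeries.constantCoeff_C] at this
  have hp₀ne : p₀ ≠ 0 := by
    intro h'
    rw [h'] at h0
    have ha0 : a ≠ 0 := by
      rintro rfl
      exact ha (by simp)
    rw [zero_pow ha0] at h0
    exact hγ h0.symm
  have hgeom := geom_sum₂_mul p (PowerSeries.C p₀) a
  have hrhs : p ^ a - (PowerSeries.C p₀) ^ a = 0 := by
    rw [h, ← map_pow, h0, sub_self]
  rw [hrhs] at hgeom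
  have hsum : (∑ i ∈ Finset.range a, p ^ i * (PowerSeries.C p₀) ^ (a - 1 - i)) ≠ 0 := by
    intro hs
    have := congrArg PowerSeries.constantCoeff hs
    rw [map_sum, map_zero] at this
    have h2 : ∀ i ∈ Finset.range a,
        PowerSeries.constantCoeff (p ^ i * (PowerSeries.C p₀) ^ (a - 1 - i)) = p₀ ^ (a - 1) := by
      intro i hi
      rw [map_mul, map_pow, map_pow, PowerSeries.constantCoeff_C, ← hp₀, ← _root_.pow_add]
      congr 1
      have := Finset.mem_range.mp hi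
      omega
    rw [Finset.sum_congr rfl h2, Finset.sum_const, Finset.card_range, nsmul_eq_mul] at this
    rcases mul_eq_zero.mp this with h3 | h3
    · exact ha h3
    · exact hp₀ne (pow_eq_zero_iff (n := a - 1) (by
        intro h4
        rw [h4, pow_zero] at h3
        exact one_ne_zero h3) |>.mp h3)
  rcases mul_eq_zero.mp hgeom with h1 | h1
  · exact absurd h1 hsum
  · exact sub_eq_zero.mp h1

/-- In `k((q))`: `z ^ a = C γ` with `(a : k) ≠ 0`, `γ ≠ 0` forces `z` to be a nonzero constant. -/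
theorem laurent_const_of_pow_eq_C {a : ℕ} (ha : (a : k) ≠ 0) {z : LaurentSeries k} {γ : k}
    (hγ : γ ≠ 0) (h : z ^ a = HahnSeries.C γ) :
    ∃ δ : k, δ ≠ 0 ∧ z = HahnSeries.C δ := by
  have ha0 : a ≠ 0 := by
    rintro rfl
    exact ha (by simp)
  have hz : z ≠ 0 := by
    rintro rfl
    rw [zero_pow ha0] at h
    exact hγ (HahnSeries.C_injective (by rw [← h, map_zero]))
  have hord : z.order = 0 := by
    have h1 := congrArg HahnSeries.order h
    rw [HahnSeries.order_pow, HahnSeries.order_C, nsmul_eq_mul] at h1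
    rcases mul_eq_zero.mp h1 with h2 | h2
    · exact absurd (by exact_mod_cast h2) ha0
    · exact h2
  have hp : HahnSeries.ofPowerSeries ℤ k z.powerSeriesPart = z := by
    rw [LaurentSeries.ofPowerSeries_powerSeriesPart, hord, neg_zero]
    show (1 : LaurentSeries k) * z = z
    rw [one_mul]
  have hpa : z.powerSeriesPart ^ a = PowerSeries.C γ := by
    apply HahnSeries.ofPowerSeries_injective (Γ := ℤ)
    rw [map_pow, hp, h, HahnSeries.ofPowerSeries_C]
  have hconst := powerSeries_const_of_pow_eq_C ha hγ hpa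
  refine ⟨PowerSeries.constantCoeff z.powerSeriesPart, ?_, ?_⟩
  · intro h0
    rw [h0, map_zero] at hconst
    rw [hconst, map_zero] at hp
    exact hz hp.symm
  · rw [← HahnSeries.ofPowerSeries_C, ← hconst, hp]

end Const

/-! ## 2. The Gauss unit lemma -/

section Gauss

variable {L : Type*} [Field L] (A : ValuationSubring L)

/-- If two series over `A` with nonzero reductions differ by a constant `γ` of `L`, then `γ` is
(the image of) a unit of `A`. -/
theorem gauss_unit {W₁ W₂ : LaurentSeries A} {γ : L}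
    (h1 : coeffMap (IsLocalRing.residue A) W₁ ≠ 0)
    (h2 : coeffMap (IsLocalRing.residue A) W₂ ≠ 0)
    (h : coeffMap A.subtype W₁ = HahnSeries.C γ * coeffMap A.subtype W₂) :
    ∃ g : A, (g : L) = γ ∧ IsLocalRing.residue A g ≠ 0 ∧ W₁ = HahnSeries.C g * W₂ := by
  have key : ∀ hγ : γ ∈ A, ∃ g : A, (g : L) = γ ∧ IsLocalRing.residue A g ≠ 0 ∧
      W₁ = HahnSeries.C g * W₂ := by
    intro hγ
    have hW : W₁ = HahnSeries.C (⟨γ, hγ⟩ : A) * W₂ := by
      apply H516.incl_injective A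
      rw [map_mul, H516.coeffMap_C, h]
      rfl
    refine ⟨⟨γ, hγ⟩, rfl, ?_, hW⟩
    intro h0
    apply h1
    rw [hW, map_mul, H516.coeffMap_C, h0, map_zero, zero_mul]
  rcases A.mem_or_inv_mem γ with hγ | hγ
  · exact key hγ
  · have hγ0 : γ ≠ 0 := by
      rintro rfl
      apply h1
      have : W₁ = 0 := by
        apply H516.incl_injective A
        rw [h, map_zero, zero_mul, map_zero]
      rw [this, map_zero]
    have hW : HahnSeries.C (⟨γ⁻¹, hγ⟩ : A) * W₁ = W₂ := by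
      apply H516.incl_injective A
      rw [map_mul, H516.coeffMap_C, h]
      show HahnSeries.C γ⁻¹ * (HahnSeries.C γ * _) = _
      rw [← mul_assoc, ← map_mul, inv_mul_cancel₀ hγ0, map_one, one_mul]
    have hres : IsLocalRing.residue A (⟨γ⁻¹, hγ⟩ : A) ≠ 0 := by
      intro h0
      apply h2
      rw [← hW, map_mul, H516.coeffMap_C, h0, map_zero, zero_mul]
    have hu : IsUnit (⟨γ⁻¹, hγ⟩ : A) := by
      by_contra hnu
      exact hres ((IsLocalRing.residue_eq_zero_iff _).mpr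
        ((IsLocalRing.mem_maximalIdeal _).mpr (mem_nonunits_iff.mpr hnu)))
    obtain ⟨u, hu⟩ := hu
    have hmem : γ ∈ A := by
      have h3 : ((u⁻¹ : Aˣ) : A) * (⟨γ⁻¹, hγ⟩ : A) = 1 := by
        rw [← hu]
        exact u.inv_mul
      have h4 : (((u⁻¹ : Aˣ) : A) : L) * γ⁻¹ = 1 := by
        have := congrArg (Subtype.val) h3
        simpa using this
      have h5 : (((u⁻¹ : Aˣ) : A) : L) = γ := by
        field_simp at h4
        exact h4
      rw [← h5]
      exact ((u⁻¹ : Aˣ) : A).2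
    exact key hmem

end Gauss

/-! ## 3. Multiplicativity of the hub -/

section Core

variable (N : ℕ) [NeZero N] (A : ValuationSubring Qb)

omit [NeZero N] in
theorem coe_algebraMap_bar (c : Qb) :
    ((algebraMap Qb (modularFunctionFieldBar N) c : modularFunctionFieldBar N) :
      LaurentSeries Qb) = HahnSeries.C c := by
  show algebraMap Qb (LaurentSeries Qb) c = HahnSeries.C c
  rw [algebraMap_laurentSeries_eq_single, ← HahnSeries.C_apply]

variable {N A}

omit [NeZero N] in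
theorem toF_ne_zero {U : LaurentSeries A} (h : IsInt A N U) : toF h ≠ 0 := by
  intro h0
  have h1 : coeffMap A.subtype U = 0 := congrArg Subtype.val h0
  have h2 : U = 0 := H516.incl_injective A (by rw [h1, map_zero])
  exact h.2.2 (by rw [h2, map_zero])

theorem isInt_C_mul {U : LaurentSeries A} (h : IsInt A N U) {g : A}
    (hg : IsLocalRing.residue A g ≠ 0) : IsInt A N (HahnSeries.C g * U) := by
  refine ⟨?_, ?_, ?_⟩
  · rw [map_mul, H516.coeffMap_C]
    exact mul_mem (H516.C_mem_baseChange N _) h.1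
  · rw [map_mul, H516.coeffMap_C]
    exact mul_mem (H516.C_mem_fullC N _ _) h.2.1
  · rw [map_mul, H516.coeffMap_C]
    refine mul_ne_zero ?_ h.2.2
    intro h0
    exact hg (HahnSeries.C_injective (by rw [h0, map_zero]))

omit [NeZero N] in
theorem toF_C_mul {U : LaurentSeries A} (h : IsInt A N U) {g : A}
    (hg : IsInt A N (HahnSeries.C g * U)) :
    toF hg = algebraMap Qb (modularFunctionFieldBar N) (g : Qb) * toF h := by
  apply Subtype.ext
  show coeffMap A.subtype (HahnSeries.C g * U) = _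
  rw [map_mul, H516.coeffMap_C]
  show _ = ((algebraMap Qb (modularFunctionFieldBar N) (g : Qb) : modularFunctionFieldBar N) :
      LaurentSeries Qb) * coeffMap A.subtype U
  rw [coe_algebraMap_bar]
  rfl

/-- **Multiplicativity of the hub.**  `CORE(a)` and `CORE(b)` imply `CORE(a * b)`, provided `a` is
invertible in the residue field of `A` (and the S28 core data for the residue field). -/
theorem core_mul (core : Fermat.Agent.S28.CoreData N (IsLocalRing.ResidueField A)) {a b : ℕ}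
    (ha : ((a : ℕ) : IsLocalRing.ResidueField A) ≠ 0)
    (hCa : CoreStatement N A a) (hCb : CoreStatement N A b) : CoreStatement N A (a * b) := by
  intro U₁ U₂ h₁ h₂ hred hdiv
  have ha0 : a ≠ 0 := by
    rintro rfl
    exact ha (by simp)
  have hdiv_a : ∀ v : Place Qb (modularFunctionFieldBar N),
      (a : ℤ) ∣ v.ord (toF h₁) - v.ord (toF h₂) := by
    intro v
    refine dvd_trans ?_ (hdiv v)
    push_cast
    exact dvd_mul_right _ _
  obtain ⟨c, y, hc, hy, hcy⟩ := hCa U₁ U₂ h₁ h₂ hred hdiv_a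
  have h₂ne := toF_ne_zero h₂
  have hcne : ∀ {c : Qb}, c ≠ 0 → algebraMap Qb (modularFunctionFieldBar N) c ≠ 0 := by
    intro c hc
    exact (map_ne_zero _).mpr hc
  have hord : ∀ v : Place Qb (modularFunctionFieldBar N),
      v.ord (toF h₁) - v.ord (toF h₂) = a * v.ord y := by
    intro v
    rw [hcy, v.ord_mul (mul_ne_zero (hcne hc) (pow_ne_zero _ hy)) h₂ne,
      v.ord_mul (hcne hc) (pow_ne_zero _ hy), Lib.RR.ord_algebraMap, Lib.RR.ord_pow]
    ring
  have hb : ∀ v : Place Qb (modularFunctionFieldBar N), (b : ℤ) ∣ v.ord y := by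
    intro v
    have := hdiv v
    rw [hord v] at this
    push_cast at this
    exact (mul_dvd_mul_iff_left (by exact_mod_cast ha0)).mp this
  -- Gauss decomposition of `y`
  have hyL : (y : LaurentSeries Qb) ≠ 0 := fun h => hy (Subtype.ext h)
  obtain ⟨c', Y₁, Y₂, hc', hY₁, hY₂, hdec⟩ :=
    H516.exists_gauss_decomp A (IsLocalRing.residue A) N core y.2 hyL
  have hY₁' : IsInt A N Y₁ := hY₁
  have hY₂' : IsInt A N Y₂ := hY₂
  -- the identity of series
  have hcyL : coeffMap A.subtype U₁ =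
      HahnSeries.C c * (y : LaurentSeries Qb) ^ a * coeffMap A.subtype U₂ := by
    have h := congrArg (Subtype.val) hcy
    rw [← coe_algebraMap_bar N c]
    exact h
  have hW : coeffMap A.subtype (U₁ * Y₂ ^ a) =
      HahnSeries.C (c * c' ^ a) * coeffMap A.subtype (Y₁ ^ a * U₂) := by
    rw [map_mul, map_pow, map_mul, map_pow, hcyL, map_mul, map_pow]
    calc HahnSeries.C c * (y : LaurentSeries Qb) ^ a * coeffMap A.subtype U₂ *
          coeffMap A.subtype Y₂ ^ a
        = HahnSeries.C c * ((y : LaurentSeries Qb) * coeffMap A.subtype Y₂) ^ a *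
          coeffMap A.subtype U₂ := by ring
      _ = HahnSeries.C c * (HahnSeries.C c' * coeffMap A.subtype Y₁) ^ a *
          coeffMap A.subtype U₂ := by rw [hdec]
      _ = _ := by ring
  have hW₁ : coeffMap (IsLocalRing.residue A) (U₁ * Y₂ ^ a) ≠ 0 := by
    rw [map_mul, map_pow]
    exact mul_ne_zero h₁.2.2 (pow_ne_zero _ hY₂'.2.2)
  have hW₂ : coeffMap (IsLocalRing.residue A) (Y₁ ^ a * U₂) ≠ 0 := by
    rw [map_mul, map_pow]
    exact mul_ne_zero (pow_ne_zero _ hY₁'.2.2) h₂.2.2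
  obtain ⟨g, -, hgres, hWA⟩ := gauss_unit A hW₁ hW₂ hW
  -- reduce mod the maximal ideal
  have hWk := congrArg (coeffMap (IsLocalRing.residue A)) hWA
  rw [map_mul, map_pow, map_mul, map_mul, map_pow, H516.coeffMap_C, ← hred] at hWk
  have hY₁ne := hY₁'.2.2
  have hz : (coeffMap (IsLocalRing.residue A) Y₂ * (coeffMap (IsLocalRing.residue A) Y₁)⁻¹) ^ a =
      HahnSeries.C (IsLocalRing.residue A g) := by
    have h3 : coeffMap (IsLocalRing.residue A) Y₂ ^ a =
        HahnSeries.C (IsLocalRing.residue A g) * coeffMap (IsLocalRing.residue A) Y₁ ^ a := by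
      apply mul_left_cancel₀ h₁.2.2
      rw [hWk]
      ring
    rw [mul_pow, h3, inv_pow, mul_assoc, mul_inv_cancel₀ (pow_ne_zero _ hY₁ne), mul_one]
  obtain ⟨δ', hδ', hzδ⟩ := laurent_const_of_pow_eq_C ha hgres hz
  obtain ⟨δ, rfl⟩ := IsLocalRing.residue_surjective δ'
  have hY₁'' : IsInt A N (HahnSeries.C δ * Y₁) := isInt_C_mul hY₁' hδ'
  have hredY : coeffMap (IsLocalRing.residue A) (HahnSeries.C δ * Y₁) =
      coeffMap (IsLocalRing.residue A) Y₂ := by
    rw [map_mul, H516.coeffMap_C, ← hzδ, mul_assoc, inv_mul_cancel₀ hY₁ne, mul_one]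
  have hδne : (δ : Qb) ≠ 0 := by
    intro h0
    apply hδ'
    have : δ = 0 := Subtype.ext h0
    rw [this, map_zero]
  have hF1 := toF_C_mul hY₁' hY₁''
  have hF2 : y * toF hY₂' = algebraMap Qb (modularFunctionFieldBar N) c' * toF hY₁' := by
    apply Subtype.ext
    show (y : LaurentSeries Qb) * coeffMap A.subtype Y₂ =
      ((algebraMap Qb (modularFunctionFieldBar N) c' : modularFunctionFieldBar N) :
        LaurentSeries Qb) * coeffMap A.subtype Y₁
    rw [coe_algebraMap_bar, hdec]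
  have hY₁F := toF_ne_zero hY₁'
  have hY₂F := toF_ne_zero hY₂'
  have hdivb : ∀ v : Place Qb (modularFunctionFieldBar N),
      (b : ℤ) ∣ v.ord (toF hY₁'') - v.ord (toF hY₂') := by
    intro v
    have e1 : v.ord (toF hY₁'') = v.ord (toF hY₁') := by
      rw [hF1, v.ord_mul (hcne hδne) hY₁F, Lib.RR.ord_algebraMap, zero_add]
    have e2 : v.ord y + v.ord (toF hY₂') = v.ord (toF hY₁') := by
      have := congrArg v.ord hF2
      rw [v.ord_mul hy hY₂F, v.ord_mul (hcne hc') hY₁F, Lib.RR.ord_algebraMap, zero_add] at this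
      exact this
    have e3 : v.ord (toF hY₁'') - v.ord (toF hY₂') = v.ord y := by
      rw [e1, ← e2]
      ring
    rw [e3]
    exact hb v
  obtain ⟨c'', t, hc'', ht, hct⟩ := hCb (HahnSeries.C δ * Y₁) Y₂ hY₁'' hY₂' hredY hdivb
  have hyt : y = algebraMap Qb (modularFunctionFieldBar N) (c' * (δ : Qb)⁻¹ * c'') * t ^ b := by
    apply mul_right_cancel₀ hY₂F
    rw [hF2]
    have h4 : toF hY₁' = algebraMap Qb (modularFunctionFieldBar N) (δ : Qb)⁻¹ * toF hY₁'' := by
      rw [hF1, ← mul_assoc, ← map_mul, inv_mul_cancel₀ hδne, map_one, one_mul]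
    rw [h4, hct]
    simp only [map_mul]
    ring
  refine ⟨c * (c' * (δ : Qb)⁻¹ * c'') ^ a, t, ?_, ht, ?_⟩
  · exact mul_ne_zero hc
      (pow_ne_zero _ (mul_ne_zero (mul_ne_zero hc' (inv_ne_zero hδne)) hc''))
  · rw [hcy, hyt]
    simp only [map_mul, map_pow]
    rw [mul_comm a b, pow_mul]
    ring

omit [NeZero N] in
/-- `CORE(1)` is trivial. -/
theorem coreStatement_one : CoreStatement N A 1 := by
  intro U₁ U₂ h₁ h₂ _ _
  have h₁ne := toF_ne_zero h₁
  have h₂ne := toF_ne_zero h₂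
  refine ⟨1, toF h₁ * (toF h₂)⁻¹, one_ne_zero, mul_ne_zero h₁ne (inv_ne_zero h₂ne), ?_⟩
  rw [map_one, one_mul, pow_one, mul_assoc, inv_mul_cancel₀ h₂ne, mul_one]

/-- **From prime `m` to all `m`.**  If the hub holds for all primes `p ≠ ℓ`, it holds for all `m`
prime to `ℓ` (`A` over `ℓ ∤ N`). -/
theorem coreStatement_of_prime {ℓ : ℕ} [Fact ℓ.Prime] (hℓN : ¬ ℓ ∣ N)
    (hA : A.LiesOverPrime ℓ)
    (h : ∀ p : ℕ, p.Prime → ¬ ℓ ∣ p → CoreStatement N A p) :
    ∀ m : ℕ, ¬ ℓ ∣ m → CoreStatement N A m := by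
  have core := H516.coreData_residue N hℓN A hA
  have := H516.charP_residue A hA
  intro m
  induction m using Nat.recOnMul with
  | zero => intro h0; exact absurd (dvd_zero ℓ) h0
  | one => intro _; exact coreStatement_one
  | prime p hp => intro hp'; exact h p hp hp'
  | mul a b iha ihb =>
    intro hab
    have ha' : ¬ ℓ ∣ a := fun h' => hab (Dvd.dvd.mul_right h' b)
    have hb' : ¬ ℓ ∣ b := fun h' => hab (Dvd.dvd.mul_left h' a)
    refine core_mul core ?_ (iha ha') (ihb hb')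
    rw [Ne, CharP.cast_eq_zero_iff (IsLocalRing.ResidueField A) ℓ]
    exact ha'

end Core

/-- The bridge S18 → S29 in the exact shape of `Fermat.Agent.S29.H222.CoreFamily`: the hub for
all primes `p ≠ ℓ` gives the hub for all `m` prime to `ℓ`. -/
theorem coreFamily_of_prime
    (h : ∀ (N : ℕ) [NeZero N] (ℓ : ℕ), ℓ.Prime → ¬ ℓ ∣ N → ∀ p : ℕ, p.Prime → ¬ ℓ ∣ p →
      ∀ A : ValuationSubring Qb, A.LiesOverPrime ℓ → CoreStatement N A p) :
    ∀ (N : ℕ) [NeZero N] (ℓ : ℕ), ℓ.Prime → ¬ ℓ ∣ N → ∀ m : ℕ, ¬ ℓ ∣ m →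
      ∀ A : ValuationSubring Qb, A.LiesOverPrime ℓ → CoreStatement N A m := by
  intro N _ ℓ hℓ hℓN m hm A hA
  have : Fact ℓ.Prime := ⟨hℓ⟩
  exact coreStatement_of_prime hℓN hA (fun p hp hp' => h N ℓ hℓ hℓN p hp hp' A hA) m hm

end Fermat.Agent.S18.H694

end
end
-- ===== PACK-END S18/H694/CoreMul.lean

-- ===== PACK-BEGIN S18/H438/Front/Regular.lean
section




/-!
# S18 / ALG-FRONT (helper438), part 10: `H754.RegularAlong` on the chart of a good model

For `G : Alg.GoodModel Lc Ec Fc R V w x S`, `B := H138.chart (Rf Fc R) {xf G}`: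

* `GoodModelFront.hsep_chart`  : elementwise separability (field form of
  `B12.H33.regularAlong_chart_field`), from `G.separable` and the `q`-expansion principle;
* `GoodModelFront.hNC_chart`   : `(span {π(x)}).IsRadical` for the primes `π` of `R[X]` not
  associated to `w`, `X - c` (`c ∈ S`), from `G.unramified` via `H754.hNC_typed`;
* `GoodModelFront.regularAlong_chart` : `H754.RegularAlong (algebraMap R B w)`  (b2 on the chart).
-/

set_option autoImplicit false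
set_option linter.style.haveILetI false
set_option linter.unusedSectionVars false

noncomputable section

namespace Fermat.Agent.S18.H438

open Alg Polynomial

variable {Ω : Type*} [Field Ω] {Lc Ec Fc : Subfield Ω} {R V : Subring Ω} {w x : Ω}
  {S : Finset Ω}

namespace GoodModelFront

/-- the branch values, as a finite subset of the ring `R` -/
def SR (Fc : Subfield Ω) (R : Subring Ω) (S : Finset Ω) : Finset (Rf Fc R) :=
  S.preimage (fun r : Rf Fc R => ((r : Fc) : Ω))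
    (fun _ _ _ _ h => Subtype.ext (Subtype.ext h))

theorem mem_SR {c : Rf Fc R} : c ∈ SR Fc R S ↔ ((c : Fc) : Ω) ∈ S := Finset.mem_preimage

variable (G : GoodModel Lc Ec Fc R V w x S)

include G in
theorem SR_isUnit_sub :
    ∀ c ∈ SR Fc R S, ∀ c' ∈ SR Fc R S, c ≠ c' → IsUnit (c - c') := by
  intro c hc c' hc' hne
  rw [isUnit_subring_iff]
  have h1 : ((c : Fc) : Ω) ≠ ((c' : Fc) : Ω) := fun h => hne (Subtype.ext (Subtype.ext h))
  refine ⟨fun h => hne (sub_eq_zero.1 (Subtype.ext h)), ?_⟩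
  exact G.S_distinct _ (mem_SR.1 hc) _ (mem_SR.1 hc') h1

/-- evaluation of polynomials over `Fc`, seen in `Ω` -/
theorem coe_eval_Fc (Q : Polynomial Fc) (b : Fc) :
    ((Q.eval b : Fc) : Ω) = (Q.map Fc.subtype).eval (b : Ω) := by
  rw [Polynomial.eval_map]
  exact (Polynomial.eval₂_at_apply Fc.subtype b).symm

include G in
/-- **Elementwise separability of the special fibre of the chart** (field form). -/
theorem hsep_chart : ∀ b ∈ H138.chart (Rf Fc R) ({xf G} : Set Fc), ∃ P : Polynomial Fc,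
    (∀ i, P.coeff i ∈ Algebra.adjoin (Rf Fc R) ({xf G} : Set Fc)) ∧
    (∃ t ∈ H138.chart (Rf Fc R) ({xf G} : Set Fc),
      P.eval b = algebraMap (Rf Fc R) Fc (wR G) * t) ∧
    ¬ ∃ t ∈ H138.chart (Rf Fc R) ({xf G} : Set Fc),
      (derivative P).eval b = algebraMap (Rf Fc R) Fc (wR G) * t := by
  intro b hb
  have hb' : b ∈ chartRing (Rf Fc R) (xf G) := hb
  have hbV : b ∈ Vf G :=
    chartRing_le_valuationSubring (Rf Fc R) (xf G) (Vf G) (Rf_le_Vf G) (xf_mem_Vf G) hb'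
  obtain ⟨P₀, hc, h1, h2, h3⟩ := G.separable (b : Ω) hbV
  have hRF : ∀ r ∈ R, r ∈ Fc := fun r hr => R_le_Fc G hr
  -- lift `P₀` to `Fc[X]`
  have hlift : P₀ ∈ Polynomial.lifts Fc.subtype := by
    rw [Polynomial.lifts_iff_coeff_lifts]
    intro n
    obtain ⟨a, -, h⟩ := exists_mem_baseRing_of_mem_polyRing Fc R (xf G) hRF (hc n)
    exact ⟨a, h⟩
  obtain ⟨P, hP⟩ := (Polynomial.mem_lifts _).1 hlift
  have hcoe : ∀ i, ((P.coeff i : Fc) : Ω) = P₀.coeff i := fun i => by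
    rw [← hP, Polynomial.coeff_map]; rfl
  have hcoeff : ∀ i, P.coeff i ∈ baseRing (Rf Fc R) (xf G) := fun i =>
    (mem_baseRing_iff Fc R (xf G) hRF).2 (by rw [hcoe]; exact hc i)
  have hw0 : wf G ≠ 0 := wf_ne_zero G
  -- values of polynomials with coefficients in `R[x]` at `b` lie in the chart
  have hmem : ∀ Q : Polynomial Fc, (∀ i, Q.coeff i ∈ baseRing (Rf Fc R) (xf G)) →
      Q.eval b ∈ chartRing (Rf Fc R) (xf G) := by
    intro Q hQ
    rw [Polynomial.eval_eq_sum_range]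
    refine Subalgebra.sum_mem _ fun i _ => ?_
    exact Subalgebra.mul_mem _
      ((chartRing (Rf Fc R) (xf G)).algebraMap_mem ⟨Q.coeff i, hQ i⟩)
      (Subalgebra.pow_mem _ hb' i)
  refine ⟨P, hcoeff, ?_, ?_⟩
  · refine ⟨P.eval b * (wf G)⁻¹, ?_, ?_⟩
    · refine qep_fin' G _ (hmem P hcoeff) ?_
      show ((P.eval b : Fc) : Ω) * w⁻¹ ∈ V
      rw [coe_eval_Fc, hP]
      exact h1
    · show P.eval b = wf G * (P.eval b * (wf G)⁻¹)
      field_simp
  · rintro ⟨t, ht, h⟩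
    have htV : t ∈ Vf G :=
      chartRing_le_valuationSubring (Rf Fc R) (xf G) (Vf G) (Rf_le_Vf G) (xf_mem_Vf G) ht
    have hd : (((derivative P).eval b : Fc) : Ω) = (derivative P₀).eval (b : Ω) := by
      rw [coe_eval_Fc, ← Polynomial.derivative_map, hP]
    have h' : (derivative P₀).eval (b : Ω) = w * (t : Ω) := by
      rw [← hd, h]; rfl
    have hw0' : w ≠ 0 := G.w_ne_zero
    have ht0 : (t : Ω) ≠ 0 := by
      intro ht0
      rw [ht0, mul_zero] at h'
      exact h2 h'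
    apply G.w_inv_not_mem_V
    have : w⁻¹ = (t : Ω) * ((derivative P₀).eval (b : Ω))⁻¹ := by
      rw [h']
      field_simp
    rw [this]
    exact V.mul_mem htV h3

include G in
/-- every element of `Lc` is algebraic over the ring `R` -/
theorem exists_poly_of_mem_Lc (a : Ω) (ha : a ∈ Lc) :
    ∃ p : Polynomial (Rf Fc R), p ≠ 0 ∧
      Polynomial.eval₂ (Fc.subtype.comp (Rf Fc R).subtype) a p = 0 := by
  have halg : IsAlgebraic Ec a := G.L_algebraic a ha
  letI : Algebra (Re G) Ω := ((algebraMap Ec Ω).comp (algebraMap (Re G) Ec)).toAlgebra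
  haveI : IsScalarTower (Re G) Ec Ω := IsScalarTower.of_algebraMap_eq (fun _ => rfl)
  obtain ⟨q, hq0, hq⟩ := (IsFractionRing.isAlgebraic_iff (Re G) Ec Ω).2 halg
  let j : Re G →+* Rf Fc R :=
    { toFun := fun e => ⟨⟨((e : Ec) : Ω), G.E_le_F (e : Ec).2⟩, e.2⟩
      map_one' := rfl
      map_mul' := fun _ _ => rfl
      map_zero' := rfl
      map_add' := fun _ _ => rfl }
  have hj : Function.Injective j := fun a b h =>
    Subtype.ext (Subtype.ext (congrArg (fun t : Rf Fc R => ((t : Fc) : Ω)) h))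
  refine ⟨q.map j, (Polynomial.map_ne_zero_iff hj).2 hq0, ?_⟩
  rw [Polynomial.eval₂_map]
  rw [Polynomial.aeval_def] at hq
  exact hq

include G in
/-- **hNC on the chart**: for every prime `π` of `R[X]` not associated to `w` or to `X - c`,
`c ∈ S`, the ideal `π(x) B` is radical. -/
theorem hNC_chart :
    ∀ π : Polynomial (Rf Fc R), Prime π → ¬ Associated π (C (wR G)) →
      (∀ c ∈ SR Fc R S, ¬ Associated π (X - C c)) →
      (Ideal.span {(B12.H33.chartPolyHom (Rf Fc R) (xf G) π :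
        H138.chart (Rf Fc R) ({xf G} : Set Fc))}).IsRadical := by
  haveI := charZero_Fc G
  haveI := isDiscreteValuationRing_Rf G
  haveI := finiteDimensional_baseField G
  haveI : CharZero (Rf Fc R) := RingHom.charZero (Rf Fc R).subtype
  have hx := transcendental_xf G
  obtain ⟨hic, hfin⟩ := B12.H33.chart_package (R := Rf Fc R) hx
  letI := B12.H33.chartAlgebra (Rf Fc R) (xf G)
  haveI := hic
  haveI := hfin
  haveI : Module.IsTorsionFree (Polynomial (Rf Fc R)) (H138.chart (Rf Fc R) ({xf G} : Set Fc)) :=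
    Module.isTorsionFree_iff_algebraMap_injective.2 (B12.H33.chartPolyHom_injective hx)
  haveI : FaithfulSMul (H138.chart (Rf Fc R) ({xf G} : Set Fc)) Ω :=
    (faithfulSMul_iff_algebraMap_injective (H138.chart (Rf Fc R) ({xf G} : Set Fc)) Ω).2
      (fun a b h => Subtype.ext (Subtype.ext h))
  have hC : ∀ r : Rf Fc R,
      algebraMap (H138.chart (Rf Fc R) ({xf G} : Set Fc)) Ω
        (algebraMap (Polynomial (Rf Fc R)) (H138.chart (Rf Fc R) ({xf G} : Set Fc)) (C r)) =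
        ((r : Fc) : Ω) := by
    intro r
    show ((B12.H33.chartPolyHom (Rf Fc R) (xf G) (C r) : H138.chart (Rf Fc R) ({xf G} : Set Fc)) :
      Fc).1 = _
    rw [B12.H33.coe_chartPolyHom, Polynomial.aeval_C]
    rfl
  have hX : algebraMap (H138.chart (Rf Fc R) ({xf G} : Set Fc)) Ω
        (algebraMap (Polynomial (Rf Fc R)) (H138.chart (Rf Fc R) ({xf G} : Set Fc)) X) = x := by
    show ((B12.H33.chartPolyHom (Rf Fc R) (xf G) X : H138.chart (Rf Fc R) ({xf G} : Set Fc)) :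
      Fc).1 = _
    rw [B12.H33.coe_chartPolyHom, Polynomial.aeval_X]
    rfl
  have hwB : Prime (algebraMap (Polynomial (Rf Fc R)) (H138.chart (Rf Fc R) ({xf G} : Set Fc))
      (C (wR G))) := by
    show Prime (B12.H33.chartPolyHom (Rf Fc R) (xf G) (C (wR G)))
    rw [B12.H33.chartPolyHom_C]
    exact prime_chart G
  refine H754.hNC_typed (Rf Fc R) (H138.chart (Rf Fc R) ({xf G} : Set Fc)) (Ω := Ω) (wR G)
    (irreducible_wf G) hwB Lc G.L_algClosed ?_ ?_ (SR Fc R S) S ?_ ?_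
  · intro r
    rw [hC]
    exact G.E_le_L (G.R_le r.2)
  · intro a ha
    obtain ⟨p, hp0, hp⟩ := exists_poly_of_mem_Lc G a ha
    refine ⟨p, hp0, ?_⟩
    have hhom : ((algebraMap (H138.chart (Rf Fc R) ({xf G} : Set Fc)) Ω).comp
        ((algebraMap (Polynomial (Rf Fc R)) (H138.chart (Rf Fc R) ({xf G} : Set Fc))).comp C)) =
        Fc.subtype.comp (Rf Fc R).subtype := RingHom.ext fun r => hC r
    rw [hhom]
    exact hp
  · intro c hc
    refine ⟨⟨⟨c, R_le_Fc G (G.S_mem c hc)⟩, G.S_mem c hc⟩, mem_SR.2 hc, ?_⟩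
    rw [hC]
  · rw [hX]
    exact G.unramified

include G in
/-- **b2 on the chart of a good model**: the chart is regular along `w`. -/
theorem regularAlong_chart :
    H754.RegularAlong
      (algebraMap (Rf Fc R) (H138.chart (Rf Fc R) ({xf G} : Set Fc)) (wR G)) := by
  haveI := charZero_Fc G
  haveI := isDiscreteValuationRing_Rf G
  haveI := finiteDimensional_baseField G
  refine B12.H33.regularAlong_chart_field (transcendental_xf G) (wR G) (irreducible_wf G)
    (prime_chart G) (hsep_chart G) (SR Fc R S) (SR_isUnit_sub G) ?_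
  intro π hπ hπw hπS b hb hb2
  have hrad := hNC_chart G π hπ hπw hπS
  have h1 : (⟨b, hb⟩ : H138.chart (Rf Fc R) ({xf G} : Set Fc)) ^ 2 ∈
      Ideal.span {(B12.H33.chartPolyHom (Rf Fc R) (xf G) π :
        H138.chart (Rf Fc R) ({xf G} : Set Fc))} := by
    rw [Ideal.mem_span_singleton, B12.H33.chartPolyHom_dvd_chart_iff]
    obtain ⟨t, ht, h⟩ := hb2
    exact ⟨t, ht, h⟩
  have h2 := hrad (Ideal.mem_radical_iff.2 ⟨2, h1⟩)
  rw [Ideal.mem_span_singleton, B12.H33.chartPolyHom_dvd_chart_iff] at h2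
  exact h2

end GoodModelFront

end Fermat.Agent.S18.H438

end
end
-- ===== PACK-END S18/H438/Front/Regular.lean

-- ===== PACK-BEGIN Ribet/H764/I3Lift.lean
section




/-!
# I3 leaf (L1) LIFT (helper764): `FormsModP ⇒ EigenAway`

A nonzero Hecke eigenvector of `L / pL` (`L = intLattice M 2`) gives a normalised eigenform of
level `M` congruent to the eigensystem: the ideal `(p, T_ℓ - a_ℓ)` of the Hecke algebra is proper
(it maps `f` into `pL`), and Deligne-Serre lifting (`Lib/Ribet/H584`) applies to a maximal ideal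
containing it.
-/

set_option autoImplicit false
set_option linter.style.haveILetI false

open CuspForm ModularFormClass CongruenceSubgroup

namespace Fermat.Agent.Ribet.H764.I3

open Fermat.Agent.Ribet.H944.Wall

/-- **(L1) LIFT.** -/
theorem lift_proved : LiftStatement := by
  classical
  intro p M _ hp S a hF
  obtain ⟨f₀, hf₀L, hf₀p, heig⟩ := hF
  haveI : NeZero p := ⟨hp.ne_zero⟩
  -- the excluded set
  set S' : Set ℕ := {ℓ | ℓ ∈ S ∨ ℓ ∣ M} with hS'def
  -- the ideal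
  set gens : Set (heckeAlgebra M 2 S') :=
    insert ((p : ℕ) : heckeAlgebra M 2 S')
      {t | ∃ (ℓ : ℕ) (hℓ : ℓ.Prime) (hℓM : ¬ ℓ ∣ M) (hℓS : ℓ ∉ S'),
        t = heckeAlgebra.T hℓ hℓM hℓS - ((a ℓ : ℤ) : heckeAlgebra M 2 S')} with hgens
  have hkey : ∀ t ∈ Ideal.span gens, ∃ f' ∈ intLattice M 2,
      (t : Module.End ℂ (CuspForm (Gamma0 M) 2)) f₀ = p • f' := by
    intro t ht
    induction ht using Submodule.span_induction with
    | mem x hx =>
      rcases hx with rfl | ⟨ℓ, hℓ, hℓM, hℓS, rfl⟩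
      · refine ⟨f₀, hf₀L, ?_⟩
        show ((heckeAlgebra M 2 S').val ((p : ℕ) : heckeAlgebra M 2 S')) f₀ = p • f₀
        rw [map_natCast, Module.End.natCast_apply]
      · have hℓS0 : ℓ ∉ S := fun h => hℓS (Or.inl h)
        obtain ⟨f', hf', e⟩ := heig ℓ hℓ hℓM hℓS0
        refine ⟨f', hf', ?_⟩
        have hcoe : ((heckeAlgebra.T hℓ hℓM hℓS - ((a ℓ : ℤ) : heckeAlgebra M 2 S') :
            heckeAlgebra M 2 S') : Module.End ℂ (CuspForm (Gamma0 M) 2)) f₀ =
            heckeTLin 2 hℓ hℓM f₀ - (a ℓ : ℤ) • f₀ := by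
          show ((heckeAlgebra M 2 S').val (heckeAlgebra.T hℓ hℓM hℓS -
            ((a ℓ : ℤ) : heckeAlgebra M 2 S'))) f₀ = _
          rw [map_sub, map_intCast, LinearMap.sub_apply, Module.End.intCast_apply]
          rfl
        rw [hcoe]
        exact e
    | zero =>
      refine ⟨0, (intLattice M 2).zero_mem, ?_⟩
      simp
    | add x y _ _ hx hy =>
      obtain ⟨f₁, hf₁, e₁⟩ := hx
      obtain ⟨f₂, hf₂, e₂⟩ := hy
      refine ⟨f₁ + f₂, (intLattice M 2).add_mem hf₁ hf₂, ?_⟩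
      rw [Subalgebra.coe_add, LinearMap.add_apply, e₁, e₂, smul_add]
    | smul b x _ hx =>
      obtain ⟨f₁, hf₁, e₁⟩ := hx
      refine ⟨(b : Module.End ℂ (CuspForm (Gamma0 M) 2)) f₁,
        CuspForm.mem_intLattice_of_mem_heckeAlgebra (by norm_num) b.2 hf₁, ?_⟩
      rw [smul_eq_mul, Subalgebra.coe_mul, Module.End.mul_apply, e₁, map_nsmul]
  -- the ideal is proper
  have hne : Ideal.span gens ≠ ⊤ := by
    intro htop
    obtain ⟨f', hf', e⟩ := hkey 1 (htop ▸ Submodule.mem_top)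
    rw [Subalgebra.coe_one, Module.End.one_apply] at e
    exact hf₀p f' hf' e
  obtain ⟨𝔫, h𝔫max, h𝔫le⟩ := Ideal.exists_le_maximal _ hne
  letI : Field (heckeAlgebra M 2 S' ⧸ 𝔫) := Ideal.Quotient.field 𝔫
  have hpk : ((p : ℕ) : heckeAlgebra M 2 S' ⧸ 𝔫) = 0 := by
    have h1 : ((p : ℕ) : heckeAlgebra M 2 S') ∈ 𝔫 :=
      h𝔫le (Ideal.subset_span (Set.mem_insert _ _))
    have h2 := Ideal.Quotient.eq_zero_iff_mem.mpr h1
    rwa [map_natCast] at h2
  haveI : CharP (heckeAlgebra M 2 S' ⧸ 𝔫) p := (CharP.charP_iff_prime_eq_zero hp).mpr hpk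
  obtain ⟨g, 𝔪, hg, h𝔪, hp𝔪, hcongr⟩ :=
    Fermat.Agent.Lib.Ribet.H584.exists_eigenform_congr_of_ringHom S' p
      (Ideal.Quotient.mk 𝔫) a (fun ℓ hℓ hℓM hℓS => by
        have h1 : heckeAlgebra.T hℓ hℓM hℓS - ((a ℓ : ℤ) : heckeAlgebra M 2 S') ∈ 𝔫 :=
          h𝔫le (Ideal.subset_span (Set.mem_insert_of_mem _ ⟨ℓ, hℓ, hℓM, hℓS, rfl⟩))
        have h2 := Ideal.Quotient.eq_zero_iff_mem.mpr h1
        rw [map_sub, map_intCast, sub_eq_zero] at h2
        exact h2)
  refine ⟨S ∪ M.primeFactors, Finset.subset_union_left, g, 𝔪, hg, h𝔪, hp𝔪, ?_⟩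
  intro ℓ hℓ hℓS
  rw [Finset.mem_union, not_or] at hℓS
  have hℓM : ¬ ℓ ∣ M := fun hd =>
    hℓS.2 (Nat.mem_primeFactors.mpr ⟨hℓ, hd, NeZero.ne M⟩)
  refine hcongr ℓ hℓ hℓM ?_
  rintro (h | h)
  · exact hℓS.1 h
  · exact hℓM h

end Fermat.Agent.Ribet.H764.I3

end
-- ===== PACK-END Ribet/H764/I3Lift.lean

-- ===== PACK-BEGIN S37/Red/H160/FibreSumMain.lean
section



/-!
# S37-RED, piece A (helper160): `FibreSumStatement G`, unconditional

`fibreSumStatement G : FibreSumStatement G` = `fibreSum` (this directory) applied to RED-A1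
`H399.normRed` (helper399, on main).
-/

set_option autoImplicit false

namespace Fermat.Agent.S37.Red.H160

open Fermat.Agent.S37.Red

universe u

/-- **RED-A** (`Red/Spec.lean`): fibre sums. -/
theorem fibreSumStatement {K k F Fk : Type u} [Field K] [Field k] [Field F] [Field Fk]
    [Algebra K F] [Algebra k Fk] [IsAlgClosed K] [CharZero K] [IsAlgClosed k]
    {A : ValuationSubring K} {π : A →+* k} (G : Datum A π F Fk) : FibreSumStatement G :=
  fibreSum G (H399.normRed G)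

end Fermat.Agent.S37.Red.H160

end
-- ===== PACK-END S37/Red/H160/FibreSumMain.lean

-- ===== PACK-BEGIN S19/H195/PencilLift.lean
section


/-!
# A3 / GR-GENUS (helper195), part 1: the pencil lifting lemma on the special fibre

Setting: a function field `Fk / k` with `[FF1 k Fk]`, a function `x ∈ Fk` and a divisor `D` of
positive degree such that `(1, x)` is a base-point-free pencil in `L(D)` (`D` = the polar divisor
of `x`), and an increasing family of `k`-subspaces `U 0 ≤ U 1 ≤ ⋯` of `Fk` with `x • U m ≤ U (m+1)`.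

`L_le_of_torsion`: if every `ψ ∈ L(m D)` lies in some `U j` ("`T₀`-torsion") and for every
`ψ ∈ L(m D)` some `x ^ (j - m) ψ` lies in `U j`, `j ≥ m` ("`T₁`-torsion"), then `L(M D) ≤ U M`
for all large `M`.

This is the graded Serre argument for `⊕ U m ⊆ ⊕ L(m D)` over `k[T₀, T₁]`, made elementary by the
base-point-free pencil trick `L((m+1) D) = L(m D) + x L(m D)` (`Lib.RR.H259.pencil_trick`).

Application (`GenusGood.lean`): `U m = ρ (B_fin ∩ x ^ m B_inf)` for a reduction datum with normal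
special fibre; the conclusion is integral Riemann–Roch surjectivity for the multiples of the polar
divisor of the coordinate, WITHOUT saturation or finiteness of the Čech `H¹` over the valuation
ring.
-/

set_option autoImplicit false

noncomputable section

open AlgebraicCurve

namespace Fermat.Agent.S19.H195

open Fermat.Agent.Lib.RR

variable {k Fk : Type*} [Field k] [Field Fk] [Algebra k Fk]

/-- an increasing family -/
theorem filt_mono (U : ℕ → Submodule k Fk) (hmono : ∀ m, U m ≤ U (m + 1)) {a b : ℕ}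
    (h : a ≤ b) : U a ≤ U b :=
  monotone_nat_of_le_succ hmono h

/-- `x ^ i • U a ≤ U (a + i)` -/
theorem filt_pow_mul_mem (x : Fk) (U : ℕ → Submodule k Fk)
    (hmul : ∀ m, ∀ f ∈ U m, x * f ∈ U (m + 1)) (i a : ℕ) {f : Fk} (hf : f ∈ U a) :
    x ^ i * f ∈ U (a + i) := by
  induction i with
  | zero => simpa using hf
  | succ i ih =>
    have h := hmul (a + i) _ ih
    rw [← mul_assoc, ← pow_succ'] at h
    exact h

/-- `(m + 1) D = m D + D` -/
theorem natCast_succ_smul (D : Divisor k Fk) (m : ℕ) :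
    ((m + 1 : ℕ) : ℤ) • D = (m : ℤ) • D + D := by
  rw [Nat.cast_succ, add_smul, one_smul]

/-- the span of `x ^ i L(m₀ D)`, `i ≤ j` -/
def pencilSpan (x : Fk) (D : Divisor k Fk) (m₀ j : ℕ) : Submodule k Fk :=
  Submodule.span k {f | ∃ i ≤ j, ∃ ψ ∈ riemannRochSpace ((m₀ : ℤ) • D), f = x ^ i * ψ}

theorem pencilSpan_mono (x : Fk) (D : Divisor k Fk) (m₀ : ℕ) {j j' : ℕ} (h : j ≤ j') :
    pencilSpan x D m₀ j ≤ pencilSpan x D m₀ j' := by
  refine Submodule.span_mono ?_
  rintro f ⟨i, hi, ψ, hψ, rfl⟩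
  exact ⟨i, hi.trans h, ψ, hψ, rfl⟩

theorem mul_mem_pencilSpan (x : Fk) (D : Divisor k Fk) (m₀ j : ℕ) {f : Fk}
    (hf : f ∈ pencilSpan x D m₀ j) : x * f ∈ pencilSpan x D m₀ (j + 1) := by
  unfold pencilSpan at hf
  induction hf using Submodule.span_induction with
  | mem f hf =>
    obtain ⟨i, hi, ψ, hψ, rfl⟩ := hf
    refine Submodule.subset_span ⟨i + 1, by omega, ψ, hψ, ?_⟩
    rw [pow_succ', mul_assoc]
  | zero => simp
  | add f g _ _ hf hg =>
    rw [mul_add]
    exact Submodule.add_mem _ hf hg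
  | smul c f _ hf =>
    rw [mul_smul_comm]
    exact Submodule.smul_mem _ c hf

/-- **Pencil decomposition**: `L((m₀ + j) D) ≤ ∑_{i ≤ j} x ^ i L(m₀ D)` as soon as the pencil trick
applies from `m₀` on. -/
theorem L_le_pencilSpan [FF1 k Fk] (x : Fk) (D : Divisor k Fk)
    (hpen : H259.IsBpfPencil D 1 x) (m₀ : ℕ)
    (hm₀ : Divisor.degree D + 2 * (genusFF k Fk : ℤ) - 1 ≤ (m₀ : ℤ) * Divisor.degree D)
    (j : ℕ) : riemannRochSpace (((m₀ + j : ℕ) : ℤ) • D) ≤ pencilSpan x D m₀ j := by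
  have hD0 : 0 ≤ Divisor.degree D := hpen.degree_nonneg
  induction j with
  | zero =>
    intro f hf
    refine Submodule.subset_span ⟨0, le_rfl, f, ?_, by simp⟩
    simpa using hf
  | succ j ih =>
    intro f hf
    have hf' : f ∈ riemannRochSpace (((m₀ + j : ℕ) : ℤ) • D + D) := by
      rw [← natCast_succ_smul]
      exact hf
    have hdeg : Divisor.degree D + 2 * (genusFF k Fk : ℤ) - 1 ≤
        Divisor.degree (((m₀ + j : ℕ) : ℤ) • D) := by
      rw [map_zsmul, smul_eq_mul]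
      have h1 : (m₀ : ℤ) * Divisor.degree D ≤ ((m₀ + j : ℕ) : ℤ) * Divisor.degree D := by
        apply mul_le_mul_of_nonneg_right _ hD0
        exact_mod_cast Nat.le_add_right m₀ j
      omega
    obtain ⟨a, ha, b, hb, hab⟩ := H259.pencil_trick hpen hdeg hf'
    rw [hab, one_mul]
    exact Submodule.add_mem _ (pencilSpan_mono x D m₀ (Nat.le_succ j) (ih ha))
      (mul_mem_pencilSpan x D m₀ j (ih hb))

/-- **The pencil lifting lemma.** -/
theorem L_le_of_torsion [FF1 k Fk] (x : Fk) (D : Divisor k Fk)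
    (hpen : H259.IsBpfPencil D 1 x) (hdeg : 0 < Divisor.degree D)
    (U : ℕ → Submodule k Fk) (hmono : ∀ m, U m ≤ U (m + 1))
    (hmul : ∀ m, ∀ f ∈ U m, x * f ∈ U (m + 1))
    (hT0 : ∀ m : ℕ, ∀ ψ ∈ riemannRochSpace ((m : ℤ) • D), ∃ j, ψ ∈ U j)
    (hT1 : ∀ m : ℕ, ∀ ψ ∈ riemannRochSpace ((m : ℤ) • D), ∃ j, m ≤ j ∧ x ^ (j - m) * ψ ∈ U j) :
    ∃ M₀ : ℕ, ∀ M : ℕ, M₀ ≤ M → riemannRochSpace ((M : ℤ) • D) ≤ U M := by
  classical
  -- the level from which the pencil trick applies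
  set m₀ : ℕ := 2 * genusFF k Fk + 1 with hm₀def
  have hm₀ : Divisor.degree D + 2 * (genusFF k Fk : ℤ) - 1 ≤ (m₀ : ℤ) * Divisor.degree D := by
    rw [hm₀def]
    push_cast
    nlinarith
  -- a basis of `L(m₀ D)`
  let bs := Module.finBasis k (riemannRochSpace ((m₀ : ℤ) • D))
  have h0 : ∀ l, ∃ j, ((bs l : riemannRochSpace ((m₀ : ℤ) • D)) : Fk) ∈ U j :=
    fun l => hT0 m₀ _ (bs l).2
  have h1 : ∀ l, ∃ j, m₀ ≤ j ∧
      x ^ (j - m₀) * ((bs l : riemannRochSpace ((m₀ : ℤ) • D)) : Fk) ∈ U j :=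
    fun l => hT1 m₀ _ (bs l).2
  choose a ha using h0
  choose c hc hc' using h1
  -- a common bound
  obtain ⟨J, hJ⟩ : ∃ J : ℕ, ∀ l, a l ≤ J ∧ c l ≤ J := by
    refine ⟨(Finset.univ.sup a) ⊔ (Finset.univ.sup c), fun l => ⟨?_, ?_⟩⟩
    · exact le_sup_of_le_left (Finset.le_sup (f := a) (Finset.mem_univ l))
    · exact le_sup_of_le_right (Finset.le_sup (f := c) (Finset.mem_univ l))
  -- every element of `L(m₀ D)` is a combination of the basis
  have hrepr : ∀ ψ ∈ riemannRochSpace ((m₀ : ℤ) • D),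
      ψ ∈ Submodule.span k (Set.range fun l => ((bs l : riemannRochSpace ((m₀ : ℤ) • D)) : Fk)) := by
    intro ψ hψ
    have h2 : (⟨ψ, hψ⟩ : riemannRochSpace ((m₀ : ℤ) • D)) ∈
        Submodule.span k (Set.range bs) := by
      rw [bs.span_eq]; exact Submodule.mem_top
    have h3 := Submodule.mem_map_of_mem (f := (riemannRochSpace ((m₀ : ℤ) • D)).subtype) h2
    rw [Submodule.map_span, ← Set.range_comp] at h3
    exact h3
  -- (α) `L(m₀ D) ≤ U J`
  have hα : ∀ ψ ∈ riemannRochSpace ((m₀ : ℤ) • D), ψ ∈ U J := by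
    intro ψ hψ
    refine (Submodule.span_le (p := U J)).mpr ?_ (hrepr ψ hψ)
    rintro _ ⟨l, rfl⟩
    exact filt_mono U hmono (hJ l).1 (ha l)
  -- (β) `x ^ (j - m₀) L(m₀ D) ≤ U j` for `j ≥ J`, `j ≥ m₀`
  have hβ : ∀ j, J ≤ j → ∀ ψ ∈ riemannRochSpace ((m₀ : ℤ) • D), x ^ (j - m₀) * ψ ∈ U j := by
    intro j hj ψ hψ
    have hsub : Submodule.span k
        (Set.range fun l => ((bs l : riemannRochSpace ((m₀ : ℤ) • D)) : Fk)) ≤
        (U j).comap (LinearMap.mulLeft k (x ^ (j - m₀))) := by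
      rw [Submodule.span_le]
      rintro _ ⟨l, rfl⟩
      show x ^ (j - m₀) * ((bs l : riemannRochSpace ((m₀ : ℤ) • D)) : Fk) ∈ U j
      have hcl : c l ≤ j := (hJ l).2.trans hj
      have h4 := filt_pow_mul_mem x U hmul (j - c l) (c l) (hc' l)
      rw [← mul_assoc, ← pow_add] at h4
      have e1 : j - c l + (c l - m₀) = j - m₀ := by have := hc l; omega
      have e2 : c l + (j - c l) = j := by omega
      rw [e1, e2] at h4
      exact h4
    exact hsub (hrepr ψ hψ)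
  refine ⟨max (2 * J) m₀, fun M hM => ?_⟩
  have hM1 : 2 * J ≤ M := (le_max_left _ _).trans hM
  have hM2 : m₀ ≤ M := (le_max_right _ _).trans hM
  have hMeq : M = m₀ + (M - m₀) := by omega
  have hL := L_le_pencilSpan x D hpen m₀ hm₀ (M - m₀)
  rw [← hMeq] at hL
  refine hL.trans ?_
  unfold pencilSpan
  rw [Submodule.span_le]
  rintro _ ⟨i, hi, ψ, hψ, rfl⟩
  by_cases hcase : i + J ≤ M
  · -- route `T₀`
    have h5 := filt_pow_mul_mem x U hmul i J (hα ψ hψ)
    exact filt_mono U hmono (by omega) h5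
  · -- route `T₁`
    have hJi : J ≤ m₀ + i := by omega
    have h6 := hβ (m₀ + i) hJi ψ hψ
    rw [Nat.add_sub_cancel_left] at h6
    exact filt_mono U hmono (by omega) h6

end Fermat.Agent.S19.H195

end

end
-- ===== PACK-END S19/H195/PencilLift.lean

-- ===== PACK-BEGIN A2/Mod/H872/FrickeStable.lean
section





/-!
# A2 / MOD leaf L7 `FrickeStable` (helper872)

`frickeStable : FrickeStableStatement P E M q w` — EXACT statement of the leaf L7 of
`Fermat/Agent/A2/Mod/Spec.lean` (architect helper994): at level `M` prime to `q` the Fricke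
involution `W` preserves the Gauss valuation ring `V∞`.

Proof.  `V₁ := V∞` and `V₂ := V∞ ∘ W` are valuation rings of `F_M` with uniformiser `w`; both
contain `R[j]` and induce the Gauss valuation on `E(j)` (for `V₂`: `W j = j_M` is again a polar
integral series).  By `S28.CoreData M k` (row S28, on main) there are `n` integral monomials
`y_i` spanning `F_M` over `E(j)` whose reductions are linearly independent over `k(j̄)`.
Hence `[F_M : E(j)] ≤ n ≤ f(V₁ / Gauss)`, and the fundamental inequality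
(`H48.GaussPairLe.card`, via `eq_of_gauss_indep`) leaves no room for a second extension:
`V₂ = V₁`.
-/

set_option autoImplicit false
set_option synthInstance.maxHeartbeats 400000
set_option maxHeartbeats 1600000
set_option linter.unusedSectionVars false
set_option linter.style.haveILetI false

noncomputable section

namespace Fermat.Agent.A2.Mod.H872

open ModularCurve HahnSeries Polynomial Fermat.Agent.A2.H708 Fermat.Agent.A2.H48
open Fermat.Agent.S28 (CoreData jField intDivisorExpansions)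
open Fermat.Agent.S37 (H700.evalJ)

variable (P : ValuationSubring _root_.Fermat.Agent.A2.Mod.Qb) (E : IntermediateField ℚ _root_.Fermat.Agent.A2.Mod.Qb) (M : ℕ) [NeZero M]

/-- Evaluation `R_E[X] → F_M`, `X ↦ x`, as a ring homomorphism (`= Mod.ev`). -/
def phiJ (x : _root_.Fermat.Agent.A2.Mod.FE E M) : Polynomial (_root_.Fermat.Agent.A2.Mod.RE P E) →+* _root_.Fermat.Agent.A2.Mod.FE E M :=
  Polynomial.eval₂RingHom ((algebraMap E (_root_.Fermat.Agent.A2.Mod.FE E M)).comp (_root_.Fermat.Agent.A2.Mod.RE P E).subtype) x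

theorem phiJ_apply (x : _root_.Fermat.Agent.A2.Mod.FE E M) (p : Polynomial (_root_.Fermat.Agent.A2.Mod.RE P E)) :
    phiJ P E M x p = ev P E M x p := rfl

theorem phiJ_C (x : _root_.Fermat.Agent.A2.Mod.FE E M) (r : _root_.Fermat.Agent.A2.Mod.RE P E) :
    phiJ P E M x (Polynomial.C r) = algebraMap E (_root_.Fermat.Agent.A2.Mod.FE E M) (r : E) := by
  unfold phiJ
  rw [Polynomial.coe_eval₂RingHom, Polynomial.eval₂_C]
  rfl

/-- the series of `j_d` -/
theorem coe_jE (d : ℕ) [NeZero d] (hd : d ∣ M) :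
    ((jE E M d hd : _root_.Fermat.Agent.A2.Mod.FE E M) : LaurentSeries E) = qExpand E d (jqModC E) :=
  coeffEmb_qExpand_jq d

theorem coe_phiJ (d : ℕ) [NeZero d] (hd : d ∣ M) (p : Polynomial (_root_.Fermat.Agent.A2.Mod.RE P E)) :
    ((phiJ P E M (jE E M d hd) p : _root_.Fermat.Agent.A2.Mod.FE E M) : LaurentSeries E) =
      incl (_root_.Fermat.Agent.A2.Mod.RE P E) (polyJ (_root_.Fermat.Agent.A2.Mod.RE P E) d p) :=
  coe_eval₂_eq_incl_polyJ (_root_.Fermat.Agent.A2.Mod.RE P E) (_root_.Fermat.Agent.A2.Mod.FE E M) d (coe_jE E M d hd) p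

variable {P E M}

theorem phiJ_mem {V : ValuationSubring (_root_.Fermat.Agent.A2.Mod.FE E M)} (hV : IsVinf P E M V)
    (d : ℕ) [NeZero d] (hd : d ∣ M) (p : Polynomial (_root_.Fermat.Agent.A2.Mod.RE P E)) :
    phiJ P E M (jE E M d hd) p ∈ V :=
  mem_of_incl hV (coe_phiJ P E M d hd p)

theorem phiJ_inv_mem [IsDiscreteValuationRing (_root_.Fermat.Agent.A2.Mod.RE P E)] {V : ValuationSubring (_root_.Fermat.Agent.A2.Mod.FE E M)}
    (hV : IsVinf P E M V) {w : _root_.Fermat.Agent.A2.Mod.RE P E} (hw : Irreducible w)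
    (d : ℕ) [NeZero d] (hd : d ∣ M) {p : Polynomial (_root_.Fermat.Agent.A2.Mod.RE P E)} (hp : ¬ Polynomial.C w ∣ p) :
    (phiJ P E M (jE E M d hd) p)⁻¹ ∈ V :=
  inv_mem_of_incl hV (coe_phiJ P E M d hd p)
    (red_polyJ_ne_zero (_root_.Fermat.Agent.A2.Mod.RE P E) d (map_residue_ne_zero_of_not_C_dvd (_root_.Fermat.Agent.A2.Mod.RE P E) hw hp))

theorem phiJ_injective (d : ℕ) [NeZero d] (hd : d ∣ M) :
    Function.Injective (phiJ P E M (jE E M d hd)) := by
  rw [injective_iff_map_eq_zero]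
  intro p hp
  have h1 : ((phiJ P E M (jE E M d hd) p : _root_.Fermat.Agent.A2.Mod.FE E M) : LaurentSeries E) = 0 := by
    rw [hp]; rfl
  rw [coe_phiJ] at h1
  exact (polyJ_eq_zero_iff (_root_.Fermat.Agent.A2.Mod.RE P E) d p).mp h1

/-- `W` commutes with evaluation of polynomials with constant coefficients. -/
theorem map_phiJ (W : _root_.Fermat.Agent.A2.Mod.FE E M ≃ₐ[E] _root_.Fermat.Agent.A2.Mod.FE E M) (x : _root_.Fermat.Agent.A2.Mod.FE E M) (p : Polynomial (_root_.Fermat.Agent.A2.Mod.RE P E)) :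
    W (phiJ P E M x p) = phiJ P E M (W x) p := by
  unfold phiJ
  rw [Polynomial.coe_eval₂RingHom, Polynomial.coe_eval₂RingHom]
  have := Polynomial.hom_eval₂ p ((algebraMap E (_root_.Fermat.Agent.A2.Mod.FE E M)).comp (_root_.Fermat.Agent.A2.Mod.RE P E).subtype)
    (W : _root_.Fermat.Agent.A2.Mod.FE E M →+* _root_.Fermat.Agent.A2.Mod.FE E M) x
  rw [show (W : _root_.Fermat.Agent.A2.Mod.FE E M →+* _root_.Fermat.Agent.A2.Mod.FE E M) (Polynomial.eval₂ _ x p) = W (Polynomial.eval₂ _ x p) from rfl]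
    at this
  rw [this]
  congr 1
  ext r : 1
  show W (algebraMap E (_root_.Fermat.Agent.A2.Mod.FE E M) (r : E)) = algebraMap E (_root_.Fermat.Agent.A2.Mod.FE E M) (r : E)
  exact W.commutes _

theorem liesOverPrime_RE {q : ℕ} (hq : q.Prime) (hP : P.LiesOverPrime q) :
    (_root_.Fermat.Agent.A2.Mod.RE P E).LiesOverPrime q := by
  have h1 : ((q : ℕ) : _root_.Fermat.Agent.A2.Mod.Qb) ∈ P.nonunits := hP
  rw [ValuationSubring.mem_nonunits_iff_or] at h1
  have hq0 : ((q : ℕ) : _root_.Fermat.Agent.A2.Mod.Qb) ≠ 0 := by exact_mod_cast hq.ne_zero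
  have h2 : ((q : ℕ) : _root_.Fermat.Agent.A2.Mod.Qb)⁻¹ ∉ P := h1.resolve_left hq0
  show ((q : ℕ) : E) ∈ (_root_.Fermat.Agent.A2.Mod.RE P E).nonunits
  rw [ValuationSubring.mem_nonunits_iff_or]
  right
  intro h3
  apply h2
  have h4 : algebraMap E _root_.Fermat.Agent.A2.Mod.Qb (((q : ℕ) : E)⁻¹) ∈ P := h3
  rwa [map_inv₀, map_natCast] at h4

/-- The integral monomials of `S28.CoreData` as elements of `F_M`. -/
def bE {n : ℕ} (y : Fin n → LaurentSeries ℤ)
    (hy_mem : ∀ i, y i ∈ Subring.closure (intDivisorExpansions M)) (i : Fin n) : _root_.Fermat.Agent.A2.Mod.FE E M :=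
  ⟨coeffMap (Int.castRingHom E) (y i), by
    rw [← Fermat.Agent.S37.H700.coeffEmb_intCast E (y i)]
    refine coeffEmb_mem_laurentBaseChange E ?_
    rw [← modularFunctionFieldFullC_rat]
    exact Fermat.Agent.S37.H700.coeffMap_intCast_mem_fullC ℚ M (hy_mem i)⟩

theorem coe_bE {n : ℕ} (y : Fin n → LaurentSeries ℤ)
    (hy_mem : ∀ i, y i ∈ Subring.closure (intDivisorExpansions M)) (i : Fin n) :
    ((bE (E := E) y hy_mem i : _root_.Fermat.Agent.A2.Mod.FE E M) : LaurentSeries E) =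
      incl (_root_.Fermat.Agent.A2.Mod.RE P E) (coeffMap (Int.castRingHom (_root_.Fermat.Agent.A2.Mod.RE P E)) (y i)) := by
  show coeffMap (Int.castRingHom E) (y i) = _
  rw [incl, coeffMap_coeffMap]
  exact coeffMap_congr (RingHom.ext_int _ _) (y i)

theorem red_intCast (y : LaurentSeries ℤ) :
    red (_root_.Fermat.Agent.A2.Mod.RE P E) (coeffMap (Int.castRingHom (_root_.Fermat.Agent.A2.Mod.RE P E)) y) =
      coeffMap (Int.castRingHom (IsLocalRing.ResidueField (_root_.Fermat.Agent.A2.Mod.RE P E))) y := by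
  rw [red, coeffMap_coeffMap]
  exact coeffMap_congr (RingHom.ext_int _ _) y

/-- residues of the monomials are independent over `k[j̄]` (polynomial form). -/
theorem bE_indep [IsDiscreteValuationRing (_root_.Fermat.Agent.A2.Mod.RE P E)] {V : ValuationSubring (_root_.Fermat.Agent.A2.Mod.FE E M)}
    (hV : IsVinf P E M V) {w : _root_.Fermat.Agent.A2.Mod.RE P E} (hw : Irreducible w)
    {n : ℕ} (y : Fin n → LaurentSeries ℤ)
    (hy_mem : ∀ i, y i ∈ Subring.closure (intDivisorExpansions M))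
    (hy_ind : LinearIndependent (jField (IsLocalRing.ResidueField (_root_.Fermat.Agent.A2.Mod.RE P E)))
      (fun i => coeffMap (Int.castRingHom (IsLocalRing.ResidueField (_root_.Fermat.Agent.A2.Mod.RE P E))) (y i)))
    (a : Fin n → Polynomial (_root_.Fermat.Agent.A2.Mod.RE P E))
    (ha : (∑ i, phiJ P E M (jE E M 1 (one_dvd M)) (a i) * bE (E := E) y hy_mem i) *
      (algebraMap E (_root_.Fermat.Agent.A2.Mod.FE E M) (w : E))⁻¹ ∈ V) (i : Fin n) : Polynomial.C w ∣ a i := by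
  classical
  set U : LaurentSeries (_root_.Fermat.Agent.A2.Mod.RE P E) :=
    ∑ i, polyJ (_root_.Fermat.Agent.A2.Mod.RE P E) 1 (a i) * coeffMap (Int.castRingHom (_root_.Fermat.Agent.A2.Mod.RE P E)) (y i) with hU
  have hcoe : ((∑ i, phiJ P E M (jE E M 1 (one_dvd M)) (a i) * bE (E := E) y hy_mem i :
      _root_.Fermat.Agent.A2.Mod.FE E M) : LaurentSeries E) = incl (_root_.Fermat.Agent.A2.Mod.RE P E) U := by
    rw [hU, map_sum]
    have h1 : ((∑ i, phiJ P E M (jE E M 1 (one_dvd M)) (a i) * bE (E := E) y hy_mem i :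
        _root_.Fermat.Agent.A2.Mod.FE E M) : LaurentSeries E) =
        ∑ i, (((phiJ P E M (jE E M 1 (one_dvd M)) (a i) * bE (E := E) y hy_mem i : _root_.Fermat.Agent.A2.Mod.FE E M)) :
          LaurentSeries E) := map_sum (_root_.Fermat.Agent.A2.Mod.FE E M).val _ _
    rw [h1]
    refine Finset.sum_congr rfl fun i _ => ?_
    rw [map_mul, ← coe_phiJ P E M 1 (one_dvd M), ← coe_bE (P := P) y hy_mem i]
    rfl
  have hw0 : ((w : _root_.Fermat.Agent.A2.Mod.RE P E) : E) ≠ 0 := fun h => hw.ne_zero (Subtype.ext h)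
  have hwres : IsLocalRing.residue (_root_.Fermat.Agent.A2.Mod.RE P E) w = 0 := by
    rw [IsLocalRing.residue_eq_zero_iff, IsLocalRing.mem_maximalIdeal, mem_nonunits_iff]
    exact hw.not_isUnit
  have hred : red (_root_.Fermat.Agent.A2.Mod.RE P E) U = 0 := red_eq_zero_of_mul_inv_mem hV hcoe hw0 hwres ha
  have hred' : ∑ i, H700.evalJ (IsLocalRing.ResidueField (_root_.Fermat.Agent.A2.Mod.RE P E))
      ((a i).map (IsLocalRing.residue (_root_.Fermat.Agent.A2.Mod.RE P E))) *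
        coeffMap (Int.castRingHom (IsLocalRing.ResidueField (_root_.Fermat.Agent.A2.Mod.RE P E))) (y i) = 0 := by
    rw [← hred, hU, map_sum]
    refine Finset.sum_congr rfl fun i _ => ?_
    rw [map_mul, red_polyJ, qExpand_one_apply, red_intCast]
  have hall := Fermat.Agent.S37.H700.eq_zero_of_sum_evalJ_eq_zero _ hy_ind _ hred'
  exact C_dvd_of_map_residue_eq_zero (_root_.Fermat.Agent.A2.Mod.RE P E) hw (hall i)

/-- the monomials span `F_M` over `E(j)` (denominator form over `R_E[j]`). -/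
theorem bE_span {n : ℕ} (y : Fin n → LaurentSeries ℤ)
    (hy_mem : ∀ i, y i ∈ Subring.closure (intDivisorExpansions M))
    (hy_span : ∀ x ∈ modularFunctionFieldFull M,
      x ∈ Submodule.span (jField ℚ) (Set.range fun i => coeffMap (Int.castRingHom ℚ) (y i)))
    (f : _root_.Fermat.Agent.A2.Mod.FE E M) :
    ∃ (Q : Polynomial (_root_.Fermat.Agent.A2.Mod.RE P E)) (Pl : Fin n → Polynomial (_root_.Fermat.Agent.A2.Mod.RE P E)), Q ≠ 0 ∧
      phiJ P E M (jE E M 1 (one_dvd M)) Q * f =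
        ∑ i, phiJ P E M (jE E M 1 (one_dvd M)) (Pl i) * bE (E := E) y hy_mem i := by
  classical
  obtain ⟨Q₀, P₀, hQ₀, h₀⟩ := Fermat.Agent.S37.H700.exists_denominator E y
    (Fermat.Agent.S37.H700.mem_spanL_of_mem_baseChange E y M hy_mem hy_span f.2)
  obtain ⟨c, hc, P', hP', -⟩ := Fermat.Agent.S37.H700.normalize_family (_root_.Fermat.Agent.A2.Mod.RE P E)
    (fun o : Option (Fin n) => o.elim Q₀ P₀) ⟨none, hQ₀⟩
  have hQ' : (P' none).map (_root_.Fermat.Agent.A2.Mod.RE P E).subtype = Polynomial.C c * Q₀ := hP' none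
  have hPi : ∀ i, (P' (some i)).map (_root_.Fermat.Agent.A2.Mod.RE P E).subtype = Polynomial.C c * P₀ i :=
    fun i => hP' (some i)
  refine ⟨P' none, fun i => P' (some i), ?_, ?_⟩
  · intro h0
    rw [h0, Polynomial.map_zero] at hQ'
    rcases mul_eq_zero.mp hQ'.symm with h1 | h1
    · exact hc (Polynomial.C_eq_zero.mp h1)
    · exact hQ₀ h1
  · apply Subtype.ext
    have h1 : ((∑ i, phiJ P E M (jE E M 1 (one_dvd M)) (P' (some i)) * bE (E := E) y hy_mem i :
        _root_.Fermat.Agent.A2.Mod.FE E M) : LaurentSeries E) =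
        ∑ i, (((phiJ P E M (jE E M 1 (one_dvd M)) (P' (some i)) * bE (E := E) y hy_mem i :
          _root_.Fermat.Agent.A2.Mod.FE E M)) : LaurentSeries E) := map_sum (_root_.Fermat.Agent.A2.Mod.FE E M).val _ _
    rw [h1]
    show ((phiJ P E M (jE E M 1 (one_dvd M)) (P' none) : _root_.Fermat.Agent.A2.Mod.FE E M) : LaurentSeries E) *
      (f : LaurentSeries E) = _
    rw [coe_phiJ, incl_polyJ, qExpand_one_apply, hQ', Fermat.Agent.S37.H700.evalJ_mul,
      mul_assoc, h₀, Finset.mul_sum]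
    refine Finset.sum_congr rfl fun i _ => ?_
    show _ = ((phiJ P E M (jE E M 1 (one_dvd M)) (P' (some i)) : _root_.Fermat.Agent.A2.Mod.FE E M) : LaurentSeries E) *
      ((bE (E := E) y hy_mem i : _root_.Fermat.Agent.A2.Mod.FE E M) : LaurentSeries E)
    rw [coe_phiJ, incl_polyJ, qExpand_one_apply, hPi, Fermat.Agent.S37.H700.evalJ_mul,
      mul_assoc]
    rfl

/-- `w` generates the maximal ideal of `V∞ ∘ W`. -/
theorem isUnif_comap {V : ValuationSubring (_root_.Fermat.Agent.A2.Mod.FE E M)} (W : _root_.Fermat.Agent.A2.Mod.FE E M ≃ₐ[E] _root_.Fermat.Agent.A2.Mod.FE E M) {c : E}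
    (h : IsUnif V (algebraMap E (_root_.Fermat.Agent.A2.Mod.FE E M) c)) :
    IsUnif (V.comap (W : _root_.Fermat.Agent.A2.Mod.FE E M →+* _root_.Fermat.Agent.A2.Mod.FE E M)) (algebraMap E (_root_.Fermat.Agent.A2.Mod.FE E M) c) := by
  have hWc : W (algebraMap E (_root_.Fermat.Agent.A2.Mod.FE E M) c) = algebraMap E (_root_.Fermat.Agent.A2.Mod.FE E M) c := W.commutes c
  refine ⟨?_, ?_, ?_⟩
  · rw [ValuationSubring.mem_comap]
    show W (algebraMap E (_root_.Fermat.Agent.A2.Mod.FE E M) c) ∈ V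
    rw [hWc]; exact h.mem
  · rw [ValuationSubring.mem_comap]
    show ¬ W ((algebraMap E (_root_.Fermat.Agent.A2.Mod.FE E M) c)⁻¹) ∈ V
    rw [map_inv₀, hWc]; exact h.inv_not_mem
  · intro f hf hfinv
    rw [ValuationSubring.mem_comap] at hf hfinv ⊢
    have hf' : W f ∈ V := hf
    have hfinv' : (W f)⁻¹ ∉ V := by
      intro h1
      apply hfinv
      show W f⁻¹ ∈ V
      rw [map_inv₀]; exact h1
    have := h.gen (W f) hf' hfinv'
    show W (f * (algebraMap E (_root_.Fermat.Agent.A2.Mod.FE E M) c)⁻¹) ∈ V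
    rw [map_mul, map_inv₀, hWc]
    exact this

/-- **Leaf L7 of A2/MOD** (exact statement of `Mod.FrickeStableStatement`): at level `M` prime
to `q` the Fricke involution preserves the Gauss valuation ring `V∞`. -/
theorem frickeStable (P : ValuationSubring _root_.Fermat.Agent.A2.Mod.Qb) (E : IntermediateField ℚ _root_.Fermat.Agent.A2.Mod.Qb) (M q : ℕ)
    [NeZero M] [NeZero q] (w : _root_.Fermat.Agent.A2.Mod.RE P E) : FrickeStableStatement P E M q w := by
  intro hS V W hV hW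
  haveI : IsDiscreteValuationRing (_root_.Fermat.Agent.A2.Mod.RE P E) := hS.dvr
  haveI : Fact q.Prime := ⟨hS.q_prime⟩
  have hw : Irreducible w := hS.unif
  haveI : CharP (IsLocalRing.ResidueField (_root_.Fermat.Agent.A2.Mod.RE P E)) q :=
    Fermat.Agent.S18.H516.charP_residue (_root_.Fermat.Agent.A2.Mod.RE P E) (liesOverPrime_RE hS.q_prime hS.lies_over)
  have hcore : CoreData M (IsLocalRing.ResidueField (_root_.Fermat.Agent.A2.Mod.RE P E)) :=
    Fermat.Agent.S18.H516.coreData_of_charP M q hS.q_not_dvd _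
  obtain ⟨n, y, hy_mem, hy_span, hy_ind⟩ := hcore.exists_basis
  -- the generators
  have hWj : W (jE E M 1 (one_dvd M)) = jE E M M dvd_rfl :=
    hW.1 1 M (one_dvd M) dvd_rfl (one_mul M)
  -- the algebra structure `R_E[X] → F_M`, `X ↦ j`
  letI : Algebra (Polynomial (_root_.Fermat.Agent.A2.Mod.RE P E)) (_root_.Fermat.Agent.A2.Mod.FE E M) :=
    (phiJ P E M (jE E M 1 (one_dvd M))).toAlgebra
  haveI : FaithfulSMul (Polynomial (_root_.Fermat.Agent.A2.Mod.RE P E)) (_root_.Fermat.Agent.A2.Mod.FE E M) :=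
    (faithfulSMul_iff_algebraMap_injective _ _).mpr (phiJ_injective 1 (one_dvd M))
  have halg : ∀ p : Polynomial (_root_.Fermat.Agent.A2.Mod.RE P E),
      algebraMap (Polynomial (_root_.Fermat.Agent.A2.Mod.RE P E)) (_root_.Fermat.Agent.A2.Mod.FE E M) p = phiJ P E M (jE E M 1 (one_dvd M)) p :=
    fun _ => rfl
  have hCw : algebraMap (Polynomial (_root_.Fermat.Agent.A2.Mod.RE P E)) (_root_.Fermat.Agent.A2.Mod.FE E M) (Polynomial.C w) =
      algebraMap E (_root_.Fermat.Agent.A2.Mod.FE E M) (w : E) := by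
    rw [halg, phiJ_C]
  have hunif : IsUnif V (algebraMap E (_root_.Fermat.Agent.A2.Mod.FE E M) (w : E)) :=
    isUnif_of_isGauss hV (intGen_full M) hw
  have key : V = V.comap (W : _root_.Fermat.Agent.A2.Mod.FE E M →+* _root_.Fermat.Agent.A2.Mod.FE E M) := by
    refine eq_of_gauss_indep (R := _root_.Fermat.Agent.A2.Mod.RE P E) (ϖ := w)
      (b := bE (E := E) y hy_mem)
      (UniqueFactorizationMonoid.irreducible_iff_prime.mp hw) ?_ ?_ ?_ ?_ ?_ ?_ ?_ ?_ ?_
    · rw [hCw]; exact hunif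
    · rw [hCw]; exact isUnif_comap W hunif
    · intro p
      rw [halg]
      exact phiJ_mem hV 1 (one_dvd M) p
    · intro p
      rw [halg, ValuationSubring.mem_comap]
      show W (phiJ P E M (jE E M 1 (one_dvd M)) p) ∈ V
      rw [map_phiJ, hWj]
      exact phiJ_mem hV M dvd_rfl p
    · intro p hp
      rw [halg]
      exact phiJ_inv_mem hV hw 1 (one_dvd M) hp
    · intro p hp
      rw [halg, ValuationSubring.mem_comap]
      show W (phiJ P E M (jE E M 1 (one_dvd M)) p)⁻¹ ∈ V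
      rw [map_inv₀, map_phiJ, hWj]
      exact phiJ_inv_mem hV hw M dvd_rfl hp
    · intro i
      exact mem_of_incl hV (coe_bE (P := P) y hy_mem i)
    · intro a ha i
      rw [hCw] at ha
      exact bE_indep hV hw y hy_mem hy_ind a ha i
    · intro f
      exact bE_span y hy_mem hy_span f
  intro f hf
  have h1 : f ∈ V.comap (W : _root_.Fermat.Agent.A2.Mod.FE E M →+* _root_.Fermat.Agent.A2.Mod.FE E M) := key ▸ hf
  exact h1

end Fermat.Agent.A2.Mod.H872

end
end
-- ===== PACK-END A2/Mod/H872/FrickeStable.lean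

-- ===== PACK-BEGIN Ribet/H463/NodeSlope.lean
section


/-!
# RIBET / WALL-p, leaf CT2 = P-NODE: the node-slope relation (core, ring form)

`R` a noetherian local integrally closed domain, `𝔭₁ 𝔭₂` primes with `𝔭₁ ⊓ 𝔭₂ = (π)`,
`𝔭₁ ⊔ 𝔭₂ = 𝔪`, `R ⧸ 𝔭ᵢ` discrete valuation rings, `x ∈ 𝔭₂` a uniformiser of the branch `R ⧸ 𝔭₁`,
`y ∈ 𝔭₁` a uniformiser of the branch `R ⧸ 𝔭₂`, and `x y = ε π ^ N` (a node of thickness `N`;
no completion, no hypothesis on the residue characteristic): `IsNode463 𝔭₁ 𝔭₂ π x y N`.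

Core statement (`IsNode463.dvd_thickness_mul_ord_right`, `..._left`): if `u ∉ 𝔭₁ ∪ 𝔭₂` has
`m ∣ ord_𝔓 u` at every horizontal prime `𝔓` (hypothesis (H1) in the form of `A2.H609`), then
`m ∣ N * ord (u mod 𝔭ᵢ)` for both branches.  In particular for `gcd(m, N) = 1` the orders of `u`
on the two branches at the node are divisible by `m`.

Proof: the multiplicity identity `ℓ(R/(u, x)) = m • ℓ(R/(I₁ + (x)))` of `A2.H609` applied to the
pair `(u, x)`, and `ℓ(R/(u, x)) = N * ord (u mod 𝔭₂)` by the filtration `(u, x, π ^ i)`.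
Mathlib + `A2.H609`.
-/

set_option autoImplicit false

namespace Fermat.Agent.Ribet.H463

open Ideal Fermat.Agent.A2.H609

variable {R : Type*} [CommRing R] [IsLocalRing R]

/-- A node of thickness `N`: two branches `𝔭₁`, `𝔭₂` through the closed point, `(π) = 𝔭₁ ⊓ 𝔭₂`,
`x ∈ 𝔭₂` a uniformiser along `𝔭₁`, `y ∈ 𝔭₁` a uniformiser along `𝔭₂`, `x y = unit * π ^ N`. -/
structure IsNode463 (𝔭₁ 𝔭₂ : Ideal R) (π x y : R) (N : ℕ) : Prop where
  inf_eq : 𝔭₁ ⊓ 𝔭₂ = Ideal.span {π}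
  sup_eq : 𝔭₁ ⊔ 𝔭₂ = IsLocalRing.maximalIdeal R
  x_mem : x ∈ 𝔭₂
  x_irr : Irreducible (Ideal.Quotient.mk 𝔭₁ x)
  y_mem : y ∈ 𝔭₁
  y_irr : Irreducible (Ideal.Quotient.mk 𝔭₂ y)
  mul_eq : ∃ ε : Rˣ, x * y = ε * π ^ N

namespace IsNode463

section Basic

variable {𝔭₁ 𝔭₂ : Ideal R} {π x y : R} {N : ℕ}

theorem symm (h : IsNode463 𝔭₁ 𝔭₂ π x y N) : IsNode463 𝔭₂ 𝔭₁ π y x N where
  inf_eq := by rw [inf_comm]; exact h.inf_eq
  sup_eq := by rw [sup_comm]; exact h.sup_eq
  x_mem := h.y_mem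
  x_irr := h.y_irr
  y_mem := h.x_mem
  y_irr := h.x_irr
  mul_eq := by
    obtain ⟨ε, hε⟩ := h.mul_eq
    exact ⟨ε, by rw [mul_comm]; exact hε⟩

theorem pi_mem_left (h : IsNode463 𝔭₁ 𝔭₂ π x y N) : π ∈ 𝔭₁ :=
  (inf_le_left : 𝔭₁ ⊓ 𝔭₂ ≤ 𝔭₁) (h.inf_eq ▸ Ideal.mem_span_singleton_self π)

theorem pi_mem_right (h : IsNode463 𝔭₁ 𝔭₂ π x y N) : π ∈ 𝔭₂ :=
  (inf_le_right : 𝔭₁ ⊓ 𝔭₂ ≤ 𝔭₂) (h.inf_eq ▸ Ideal.mem_span_singleton_self π)

theorem x_notMem (h : IsNode463 𝔭₁ 𝔭₂ π x y N) : x ∉ 𝔭₁ := fun hx =>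
  h.x_irr.ne_zero (Ideal.Quotient.eq_zero_iff_mem.mpr hx)

theorem y_notMem (h : IsNode463 𝔭₁ 𝔭₂ π x y N) : y ∉ 𝔭₂ := fun hy =>
  h.y_irr.ne_zero (Ideal.Quotient.eq_zero_iff_mem.mpr hy)

theorem left_le (h : IsNode463 𝔭₁ 𝔭₂ π x y N) : 𝔭₁ ≤ IsLocalRing.maximalIdeal R :=
  h.sup_eq ▸ le_sup_left

theorem right_le (h : IsNode463 𝔭₁ 𝔭₂ π x y N) : 𝔭₂ ≤ IsLocalRing.maximalIdeal R :=
  h.sup_eq ▸ le_sup_right

theorem exists_eq_mul_pi (h : IsNode463 𝔭₁ 𝔭₂ π x y N) {z : R} (h1 : z ∈ 𝔭₁) (h2 : z ∈ 𝔭₂) :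
    ∃ c : R, z = c * π := by
  have hz : z ∈ 𝔭₁ ⊓ 𝔭₂ := ⟨h1, h2⟩
  rw [h.inf_eq] at hz
  exact (Ideal.mem_span_singleton'.mp hz).imp fun c hc => hc.symm

theorem thickness_ne_zero (h : IsNode463 𝔭₁ 𝔭₂ π x y N) : N ≠ 0 := by
  rintro rfl
  obtain ⟨ε, hε⟩ := h.mul_eq
  rw [pow_zero, mul_one] at hε
  have hxu : IsUnit x := isUnit_of_mul_isUnit_left (hε ▸ ε.isUnit)
  exact (IsLocalRing.mem_maximalIdeal x).mp (h.right_le h.x_mem) hxu

theorem pi_ne_zero [IsDomain R] (h : IsNode463 𝔭₁ 𝔭₂ π x y N) : π ≠ 0 := by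
  rintro rfl
  obtain ⟨ε, hε⟩ := h.mul_eq
  rw [zero_pow h.thickness_ne_zero, mul_zero] at hε
  rcases mul_eq_zero.mp hε with h0 | h0
  · exact h.x_notMem (h0 ▸ 𝔭₁.zero_mem)
  · exact h.y_notMem (h0 ▸ 𝔭₂.zero_mem)

theorem x_ne_zero (h : IsNode463 𝔭₁ 𝔭₂ π x y N) : x ≠ 0 := fun h0 =>
  h.x_notMem (h0 ▸ 𝔭₁.zero_mem)

theorem y_ne_zero (h : IsNode463 𝔭₁ 𝔭₂ π x y N) : y ≠ 0 := fun h0 =>
  h.y_notMem (h0 ▸ 𝔭₂.zero_mem)

/-- `π ^ N ∈ (x)`. -/
theorem pi_pow_eq (h : IsNode463 𝔭₁ 𝔭₂ π x y N) : ∃ c : R, π ^ N = c * x := by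
  obtain ⟨ε, hε⟩ := h.mul_eq
  refine ⟨(ε⁻¹ : Rˣ) * y, ?_⟩
  calc π ^ N = (ε⁻¹ : Rˣ) * (ε * π ^ N) := by rw [← mul_assoc, Units.inv_mul, one_mul]
    _ = (ε⁻¹ : Rˣ) * y * x := by rw [← hε]; ring

/-- `𝔭₂ = (x, π)`. -/
theorem right_eq [𝔭₁.IsPrime] [IsDiscreteValuationRing (R ⧸ 𝔭₁)]
    (h : IsNode463 𝔭₁ 𝔭₂ π x y N) : 𝔭₂ = Ideal.span {x, π} := by
  have hspan : Ideal.span {x, π} = Ideal.span {x} ⊔ Ideal.span {π} := by
    rw [← Ideal.span_union]
    rfl
  rw [hspan]
  refine le_antisymm ?_ (sup_le ((Ideal.span_singleton_le_iff_mem _).mpr h.x_mem)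
    ((Ideal.span_singleton_le_iff_mem _).mpr h.pi_mem_right))
  rw [← h.inf_eq]
  exact le_span_sup_inf 𝔭₁ 𝔭₂ h.x_mem h.x_irr h.right_le

/-- `𝔭₁ = (y, π)`. -/
theorem left_eq [𝔭₂.IsPrime] [IsDiscreteValuationRing (R ⧸ 𝔭₂)]
    (h : IsNode463 𝔭₁ 𝔭₂ π x y N) : 𝔭₁ = Ideal.span {y, π} :=
  h.symm.right_eq

end Basic

section Regular

variable {𝔭₁ 𝔭₂ : Ideal R} [𝔭₁.IsPrime] [𝔭₂.IsPrime] {π x y : R} {N : ℕ}

/-- `u ∉ 𝔭₁ ∪ 𝔭₂` is regular modulo `π`. -/
theorem pi_dvd_of_dvd_mul (h : IsNode463 𝔭₁ 𝔭₂ π x y N) {u : R} (hu₁ : u ∉ 𝔭₁) (hu₂ : u ∉ 𝔭₂)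
    {z : R} (hz : π ∣ u * z) : π ∣ z := by
  have h1 : u * z ∈ 𝔭₁ ⊓ 𝔭₂ := by
    rw [h.inf_eq]
    exact Ideal.mem_span_singleton.mpr hz
  have h2 : z ∈ 𝔭₁ := (Ideal.IsPrime.mem_or_mem inferInstance h1.1).resolve_left hu₁
  have h3 : z ∈ 𝔭₂ := (Ideal.IsPrime.mem_or_mem inferInstance h1.2).resolve_left hu₂
  obtain ⟨c, hc⟩ := h.exists_eq_mul_pi h2 h3
  exact ⟨c, by rw [hc, mul_comm]⟩

/-- `u ∉ 𝔭₁ ∪ 𝔭₂` is regular modulo `π ^ k`. -/
theorem pi_pow_dvd_of_dvd_mul [IsDomain R] (h : IsNode463 𝔭₁ 𝔭₂ π x y N) {u : R}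
    (hu₁ : u ∉ 𝔭₁) (hu₂ : u ∉ 𝔭₂) (k : ℕ) : ∀ {z : R}, π ^ k ∣ u * z → π ^ k ∣ z := by
  induction k with
  | zero =>
    intro z _
    rw [pow_zero]
    exact one_dvd z
  | succ k ih =>
    intro z hz
    have h1 : π ∣ u * z := Dvd.dvd.trans (Dvd.intro_left (π ^ k) (pow_succ π k).symm) hz
    obtain ⟨z', rfl⟩ := h.pi_dvd_of_dvd_mul hu₁ hu₂ h1
    have h2 : π * π ^ k ∣ π * (u * z') := by
      rw [← pow_succ']
      have : π * (u * z') = u * (π * z') := by ring
      rw [this]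
      exact hz
    have h3 : π ^ k ∣ u * z' := (mul_dvd_mul_iff_left h.pi_ne_zero).mp h2
    rw [pow_succ']
    exact mul_dvd_mul_left π (ih h3)

/-- `u ∉ 𝔭₁ ∪ 𝔭₂` is regular modulo `x`. -/
theorem x_dvd_of_dvd_mul [IsDomain R] (h : IsNode463 𝔭₁ 𝔭₂ π x y N) {u : R}
    (hu₁ : u ∉ 𝔭₁) (hu₂ : u ∉ 𝔭₂) {z : R} (hz : x ∣ u * z) : x ∣ z := by
  obtain ⟨ε, hε⟩ := h.mul_eq
  obtain ⟨c, hc⟩ := hz
  have h1 : π ^ N ∣ u * (z * y) := by
    refine ⟨ε * c, ?_⟩
    calc u * (z * y) = (u * z) * y := by ring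
      _ = x * c * y := by rw [hc]
      _ = (x * y) * c := by ring
      _ = π ^ N * (ε * c) := by rw [hε]; ring
  obtain ⟨d, hd⟩ := h.pi_pow_dvd_of_dvd_mul hu₁ hu₂ N h1
  refine ⟨(ε⁻¹ : Rˣ) * d, ?_⟩
  apply mul_right_cancel₀ h.y_ne_zero
  calc z * y = π ^ N * d := hd
    _ = (ε⁻¹ : Rˣ) * (ε * π ^ N) * d := by rw [← mul_assoc, Units.inv_mul, one_mul]
    _ = x * ((ε⁻¹ : Rˣ) * d) * y := by rw [← hε]; ring

omit [𝔭₁.IsPrime] in
/-- (L1) `π ^ i w ∈ (x)`, `i < N` forces `w ∈ 𝔭₂`. -/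
theorem mem_right_of_pow_mul_eq [IsDomain R] (h : IsNode463 𝔭₁ 𝔭₂ π x y N) {i : ℕ}
    (hi : i < N) {w d : R} (hw : π ^ i * w = d * x) : w ∈ 𝔭₂ := by
  obtain ⟨ε, hε⟩ := h.mul_eq
  obtain ⟨j, rfl⟩ : ∃ j, N = i + (j + 1) := ⟨N - i - 1, by omega⟩
  have h1 : π ^ i * (w * y) = π ^ i * (d * ε * π ^ j * π) := by
    calc π ^ i * (w * y) = (π ^ i * w) * y := by ring
      _ = d * (x * y) := by rw [hw]; ring
      _ = π ^ i * (d * ε * π ^ j * π) := by rw [hε, pow_add, pow_succ]; ring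
  have h2 : w * y = d * ε * π ^ j * π := mul_left_cancel₀ (pow_ne_zero i h.pi_ne_zero) h1
  have h3 : w * y ∈ 𝔭₂ := by
    rw [h2]
    exact 𝔭₂.mul_mem_left _ h.pi_mem_right
  exact (Ideal.IsPrime.mem_or_mem inferInstance h3).resolve_right h.y_notMem

end Regular

section Length

variable {𝔭₁ 𝔭₂ : Ideal R} [𝔭₁.IsPrime] [𝔭₂.IsPrime]
  [IsDiscreteValuationRing (R ⧸ 𝔭₁)] [IsDiscreteValuationRing (R ⧸ 𝔭₂)] {π x y : R} {N : ℕ}

omit [IsDiscreteValuationRing (R ⧸ 𝔭₂)] in
/-- (L2) `u ∉ 𝔭₂` is regular modulo `(x, π ^ i)`, `i ≤ N`. -/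
theorem mem_span_pair_of_mul_mem [IsDomain R] (h : IsNode463 𝔭₁ 𝔭₂ π x y N) {u : R}
    (hu₂ : u ∉ 𝔭₂) (i : ℕ) (hi : i ≤ N) :
    ∀ a : R, a * u ∈ Ideal.span {x, π ^ i} → a ∈ Ideal.span {x, π ^ i} := by
  induction i with
  | zero =>
    intro a _
    rw [pow_zero]
    exact Ideal.mem_span_pair.mpr ⟨0, a, by ring⟩
  | succ i ih =>
    intro a ha
    obtain ⟨e, f, hef⟩ := Ideal.mem_span_pair.mp ha
    have ha' : a * u ∈ Ideal.span {x, π ^ i} :=
      Ideal.mem_span_pair.mpr ⟨e, f * π, by rw [← hef, pow_succ]; ring⟩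
    obtain ⟨a', a'', haa⟩ := Ideal.mem_span_pair.mp (ih (by omega) a ha')
    have h1 : π ^ i * (a'' * u - f * π) = (e - a' * u) * x := by
      have h2 : a * u = a' * x * u + a'' * π ^ i * u := by rw [← haa]; ring
      rw [pow_succ] at hef
      linear_combination -hef - h2
    have h3 : a'' * u - f * π ∈ 𝔭₂ := h.mem_right_of_pow_mul_eq (by omega) h1
    have h4 : a'' * u ∈ 𝔭₂ := by
      have : a'' * u = (a'' * u - f * π) + f * π := by ring
      rw [this]
      exact 𝔭₂.add_mem h3 (𝔭₂.mul_mem_left _ h.pi_mem_right)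
    have h5 : a'' ∈ 𝔭₂ := (Ideal.IsPrime.mem_or_mem inferInstance h4).resolve_right hu₂
    rw [h.right_eq] at h5
    obtain ⟨g, k, hgk⟩ := Ideal.mem_span_pair.mp h5
    refine Ideal.mem_span_pair.mpr ⟨a' + g * π ^ i, k, ?_⟩
    rw [← haa, ← hgk, pow_succ]
    ring

omit [IsDiscreteValuationRing (R ⧸ 𝔭₂)] in
/-- One step of the filtration `(u, x, π ^ i)`: multiplication by `π ^ i` identifies
`R / (u, x, π)` with `(u, x, π ^ i) / (u, x, π ^ (i + 1))` for `i < N`. -/
theorem relLen_step [IsDomain R] (h : IsNode463 𝔭₁ 𝔭₂ π x y N) {u : R} (hu₂ : u ∉ 𝔭₂)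
    {i : ℕ} (hi : i < N) :
    relLen (Ideal.span {u, x, π ^ (i + 1)}) (Ideal.span {u, x, π ^ i}) =
      relLen (Ideal.span {u, x, π}) (⊤ : Ideal R) := by
  symm
  refine relLen_eq_of_map (LinearMap.mulLeft R (π ^ i)) ?_ ?_ ?_ ?_
  · intro z _
    rw [LinearMap.mulLeft_apply]
    exact Ideal.mul_mem_right _ _ (Ideal.subset_span (by simp))
  · intro z hz
    rw [LinearMap.mulLeft_apply]
    obtain ⟨a, b, c, rfl⟩ := Submodule.mem_span_triple.mp hz
    refine Submodule.mem_span_triple.mpr ⟨π ^ i * a, π ^ i * b, c, ?_⟩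
    simp only [smul_eq_mul]
    rw [pow_succ]
    ring
  · intro z _ hz
    rw [LinearMap.mulLeft_apply] at hz
    obtain ⟨a, b, c, habc⟩ := Submodule.mem_span_triple.mp hz
    simp only [smul_eq_mul] at habc
    -- `π ^ i * (z - c π) = a u + b x`
    have h1 : a * u ∈ Ideal.span {x, π ^ i} :=
      Ideal.mem_span_pair.mpr ⟨-b, z - c * π, by rw [pow_succ] at habc; linear_combination -habc⟩
    obtain ⟨a', a'', haa⟩ := Ideal.mem_span_pair.mp (h.mem_span_pair_of_mul_mem hu₂ i hi.le a h1)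
    have h2 : π ^ i * (z - c * π - a'' * u) = (a' * u + b) * x := by
      rw [pow_succ] at habc
      have h3 : a * u = a' * x * u + a'' * π ^ i * u := by rw [← haa]; ring
      linear_combination -habc + h3
    have h4 : z - c * π - a'' * u ∈ 𝔭₂ := h.mem_right_of_pow_mul_eq hi h2
    rw [h.right_eq] at h4
    obtain ⟨e, f, hef⟩ := Ideal.mem_span_pair.mp h4
    refine Submodule.mem_span_triple.mpr ⟨a'', e, f + c, ?_⟩
    simp only [smul_eq_mul]
    linear_combination hef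
  · intro w hw
    obtain ⟨a, b, c, rfl⟩ := Submodule.mem_span_triple.mp hw
    refine ⟨c, trivial, ?_⟩
    rw [LinearMap.mulLeft_apply]
    refine Submodule.mem_span_triple.mpr ⟨a, b, 0, ?_⟩
    simp only [smul_eq_mul]
    ring

omit [IsDiscreteValuationRing (R ⧸ 𝔭₂)] in
/-- The filtration `(u, x, π ^ i)`, `i ≤ N`: `ℓ(R / (u, x, π ^ i)) = i • ℓ(R / (u, x, π))`. -/
theorem relLen_chain [IsDomain R] (h : IsNode463 𝔭₁ 𝔭₂ π x y N) {u : R} (hu₂ : u ∉ 𝔭₂)
    (i : ℕ) (hi : i ≤ N) :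
    relLen (Ideal.span {u, x, π ^ i}) (⊤ : Ideal R) =
      i • relLen (Ideal.span {u, x, π}) (⊤ : Ideal R) := by
  induction i with
  | zero =>
    have htop : Ideal.span {u, x, π ^ 0} = (⊤ : Ideal R) := by
      rw [Ideal.eq_top_iff_one]
      exact Ideal.subset_span (by simp)
    rw [htop, relLen_self, zero_smul]
  | succ i ih =>
    have hle : Ideal.span {u, x, π ^ (i + 1)} ≤ Ideal.span {u, x, π ^ i} := by
      rw [Ideal.span_le]
      intro z hz
      simp only [Set.mem_insert_iff, Set.mem_singleton_iff] at hz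
      rcases hz with rfl | rfl | rfl
      · exact Ideal.subset_span (by simp)
      · exact Ideal.subset_span (by simp)
      · rw [pow_succ]
        exact Ideal.mul_mem_right _ _ (Ideal.subset_span (by simp))
    rw [relLen_add hle le_top, h.relLen_step hu₂ (by omega), ih (by omega), succ_nsmul, add_comm]

omit [𝔭₁.IsPrime] [𝔭₂.IsPrime] [IsDiscreteValuationRing (R ⧸ 𝔭₁)]
  [IsDiscreteValuationRing (R ⧸ 𝔭₂)] in
/-- `(u, x, π ^ N) = (u, x)`. -/
theorem span_triple_eq (h : IsNode463 𝔭₁ 𝔭₂ π x y N) (u : R) :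
    Ideal.span {u, x, π ^ N} = Ideal.span {u, x} := by
  obtain ⟨c, hc⟩ := h.pi_pow_eq
  apply le_antisymm
  · rw [Ideal.span_le]
    intro z hz
    simp only [Set.mem_insert_iff, Set.mem_singleton_iff] at hz
    rcases hz with rfl | rfl | rfl
    · exact Ideal.subset_span (by simp)
    · exact Ideal.subset_span (by simp)
    · rw [hc]
      exact Ideal.mul_mem_left _ _ (Ideal.subset_span (by simp))
  · exact Ideal.span_mono (by
      intro z hz
      simp only [Set.mem_insert_iff, Set.mem_singleton_iff] at hz ⊢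
      rcases hz with rfl | rfl
      · exact Or.inl rfl
      · exact Or.inr (Or.inl rfl))

/-- `ℓ(R / (u, x, π)) = ord (u mod 𝔭₂)`. -/
theorem relLen_span_triple (h : IsNode463 𝔭₁ 𝔭₂ π x y N) {u : R} {n : ℕ}
    {ε : (R ⧸ 𝔭₂)ˣ} (hu : Ideal.Quotient.mk 𝔭₂ u = ε * (Ideal.Quotient.mk 𝔭₂ y) ^ n) :
    relLen (Ideal.span {u, x, π}) (⊤ : Ideal R) = n := by
  have hI : Ideal.span {u, x, π} = Ideal.span {y ^ n} ⊔ 𝔭₂ := by
    have h2 : 𝔭₂ ≤ Ideal.span {u, x, π} := by
      rw [h.right_eq]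
      exact Ideal.span_mono (by
        intro z hz
        simp only [Set.mem_insert_iff, Set.mem_singleton_iff] at hz ⊢
        exact Or.inr hz)
    apply le_antisymm
    · rw [Ideal.span_le]
      intro z hz
      simp only [Set.mem_insert_iff, Set.mem_singleton_iff] at hz
      rcases hz with rfl | rfl | rfl
      · obtain ⟨e, he⟩ := Ideal.Quotient.mk_surjective (ε : R ⧸ 𝔭₂)
        have h3 : z - e * y ^ n ∈ 𝔭₂ := by
          rw [← Ideal.Quotient.eq, hu, map_mul, map_pow, he]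
        have h4 : z = y ^ n * e + (z - e * y ^ n) := by ring
        rw [h4]
        exact Ideal.add_mem _
          (Ideal.mem_sup_left (Ideal.mem_span_singleton.mpr (Dvd.intro e rfl)))
          (Ideal.mem_sup_right h3)
      · exact Ideal.mem_sup_right h.x_mem
      · exact Ideal.mem_sup_right h.pi_mem_right
    · refine sup_le ?_ h2
      rw [Ideal.span_singleton_le_iff_mem]
      obtain ⟨e, he⟩ := exists_pow_sub_mul_mem 𝔭₂ hu
      have h4 : y ^ n = (y ^ n - u * e) + e * u := by ring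
      rw [h4]
      exact Ideal.add_mem _ (h2 he) (Ideal.mul_mem_left _ _ (Ideal.subset_span (by simp)))
  rw [hI]
  exact relLen_branch_pow 𝔭₂ h.y_irr n

/-- **Length of the intersection with the thick branch**: `ℓ(R / (u, x)) = N * ord (u mod 𝔭₂)`. -/
theorem relLen_span_pair [IsDomain R] (h : IsNode463 𝔭₁ 𝔭₂ π x y N) {u : R} (hu₂ : u ∉ 𝔭₂)
    {n : ℕ} {ε : (R ⧸ 𝔭₂)ˣ}
    (hu : Ideal.Quotient.mk 𝔭₂ u = ε * (Ideal.Quotient.mk 𝔭₂ y) ^ n) :
    relLen (Ideal.span {u, x}) (⊤ : Ideal R) = ((N * n : ℕ) : ℕ∞) := by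
  rw [← h.span_triple_eq u, h.relLen_chain hu₂ N le_rfl, h.relLen_span_triple hu]
  rw [nsmul_eq_mul]
  push_cast
  rfl

end Length

section Main

variable [IsDomain R] [IsIntegrallyClosed R] [IsNoetherianRing R]
variable {𝔭₁ 𝔭₂ : Ideal R} [𝔭₁.IsPrime] [𝔭₂.IsPrime]
  [IsDiscreteValuationRing (R ⧸ 𝔭₁)] [IsDiscreteValuationRing (R ⧸ 𝔭₂)] {π x y : R} {N : ℕ}

omit [IsDomain R] [IsIntegrallyClosed R] [IsNoetherianRing R] [𝔭₂.IsPrime]
  [IsDiscreteValuationRing (R ⧸ 𝔭₂)] in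
/-- A prime containing `𝔭₁` and `u ∉ 𝔭₁` is the maximal ideal. -/
theorem eq_maximalIdeal_of_left_le (h : IsNode463 𝔭₁ 𝔭₂ π x y N) {u : R} (hu₁ : u ∉ 𝔭₁)
    {𝔮 : Ideal R} (h𝔮 : 𝔮.IsPrime) (hu𝔮 : u ∈ 𝔮) (hle : 𝔭₁ ≤ 𝔮) :
    𝔮 = IsLocalRing.maximalIdeal R := by
  refine le_antisymm (IsLocalRing.le_maximalIdeal h𝔮.ne_top) ?_
  rw [← h.sup_eq]
  have hu0 : Ideal.Quotient.mk 𝔭₁ u ≠ 0 := by
    rwa [Ne, Ideal.Quotient.eq_zero_iff_mem]
  obtain ⟨n, ε, hε⟩ := IsDiscreteValuationRing.eq_unit_mul_pow_irreducible hu0 h.x_irr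
  have hx𝔮 : x ∈ 𝔮 := mem_of_le_of_mk_eq 𝔭₁ hε h𝔮 hle hu𝔮
  refine sup_le hle ?_
  rw [h.right_eq, Ideal.span_le]
  intro z hz
  simp only [Set.mem_insert_iff, Set.mem_singleton_iff] at hz
  rcases hz with rfl | rfl
  · exact hx𝔮
  · exact hle h.pi_mem_left

omit [IsDomain R] [IsIntegrallyClosed R] [IsNoetherianRing R] in
/-- The maximal ideal is the only prime containing `π` and `u ∉ 𝔭₁ ∪ 𝔭₂`. -/
theorem eq_maximalIdeal_of_mem (h : IsNode463 𝔭₁ 𝔭₂ π x y N) {u : R} (hu₁ : u ∉ 𝔭₁)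
    (hu₂ : u ∉ 𝔭₂) {𝔮 : Ideal R} (h𝔮 : 𝔮.IsPrime) (hu𝔮 : u ∈ 𝔮) (hπ𝔮 : π ∈ 𝔮) :
    𝔮 = IsLocalRing.maximalIdeal R := by
  have hle : 𝔭₁ ⊓ 𝔭₂ ≤ 𝔮 := by
    rw [h.inf_eq, Ideal.span_singleton_le_iff_mem]
    exact hπ𝔮
  rcases h𝔮.inf_le.mp hle with h1 | h2
  · exact h.eq_maximalIdeal_of_left_le hu₁ h𝔮 hu𝔮 h1
  · exact h.symm.eq_maximalIdeal_of_left_le hu₂ h𝔮 hu𝔮 h2

/-- **Node-slope relation, core form (branch `𝔭₂`).**  If `u ∉ 𝔭₁ ∪ 𝔭₂` has `m ∣ ord_𝔓 u` at
every horizontal prime, then `m ∣ N * ord (u mod 𝔭₂)`. -/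
theorem dvd_thickness_mul_ord_right (h : IsNode463 𝔭₁ 𝔭₂ π x y N) {u : R} {m : ℕ}
    (hm : m ≠ 0) (hu₁ : u ∉ 𝔭₁) (hu₂ : u ∉ 𝔭₂)
    (H1 : ∀ 𝔓 ∈ (Ideal.span {u}).minimalPrimes, π ∉ 𝔓 → ∃ f r : R, r ∉ 𝔓 ∧ f ^ m = u * r)
    {n : ℕ} {ε : (R ⧸ 𝔭₂)ˣ}
    (hu : Ideal.Quotient.mk 𝔭₂ u = ε * (Ideal.Quotient.mk 𝔭₂ y) ^ n) :
    m ∣ N * n := by
  have hu0 : u ≠ 0 := fun h0 => hu₁ (h0 ▸ 𝔭₁.zero_mem)
  have hx𝔪 : x ∈ IsLocalRing.maximalIdeal R := h.right_le h.x_mem
  have huπ : ∀ 𝔮 : Ideal R, 𝔮.IsPrime → u ∈ 𝔮 → π ∈ 𝔮 → 𝔮 = IsLocalRing.maximalIdeal R :=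
    fun 𝔮 h𝔮 hu𝔮 hπ𝔮 => h.eq_maximalIdeal_of_mem hu₁ hu₂ h𝔮 hu𝔮 hπ𝔮
  have hπ_of_x : ∀ 𝔮 : Ideal R, 𝔮.IsPrime → x ∈ 𝔮 → π ∈ 𝔮 := by
    intro 𝔮 h𝔮 hx𝔮
    obtain ⟨ε', hε'⟩ := h.mul_eq
    have h1 : (ε' : R) * π ^ N ∈ 𝔮 := hε' ▸ 𝔮.mul_mem_right _ hx𝔮
    rcases h𝔮.mem_or_mem h1 with h2 | h2
    · exact absurd (𝔮.eq_top_of_isUnit_mem h2 ε'.isUnit) h𝔮.ne_top
    · exact h𝔮.mem_of_pow_mem N h2
  have hux : ∀ 𝔮 : Ideal R, 𝔮.IsPrime → u ∈ 𝔮 → x ∈ 𝔮 → 𝔮 = IsLocalRing.maximalIdeal R :=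
    fun 𝔮 h𝔮 hu𝔮 hx𝔮 => huπ 𝔮 h𝔮 hu𝔮 (hπ_of_x 𝔮 h𝔮 hx𝔮)
  have H1x : ∀ 𝔓 : Ideal R, 𝔓.IsPrime → u ∈ 𝔓 → x ∉ 𝔓 →
      ∃ f r : R, r ∉ 𝔓 ∧ f ^ m = u * r := by
    intro 𝔓 h𝔓 hu𝔓 hx𝔓
    have hπ𝔓 : π ∉ 𝔓 := fun hπ => hx𝔓 (by rw [huπ 𝔓 h𝔓 hu𝔓 hπ]; exact hx𝔪)
    exact H1 𝔓 (mem_minimalPrimes_of_mem_of_notMem hu0 (h.left_le h.pi_mem_left) huπ h𝔓
      hu𝔓 hπ𝔓) hπ𝔓
  obtain ⟨t, r, k, ht, hk⟩ := exists_generator hm hu0 hx𝔪 hux H1x
  have hlen := h.relLen_span_pair hu₂ hu
  have hfin : relLen (Ideal.span {u, x}) (⊤ : Ideal R) ≠ ⊤ := by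
    rw [hlen]
    exact ENat.natCast_ne_top _
  have hmul := relLen_span_pair_eq_nsmul (hm := hm) hu0 h.x_ne_zero
    (fun z hz => h.x_dvd_of_dvd_mul hu₁ hu₂ hz) ht hk hfin
  rw [hlen, nsmul_eq_mul] at hmul
  rcases eq_or_ne (relLen (rootIdeal u m hm 1 ⊔ Ideal.span {x}) (⊤ : Ideal R)) ⊤ with hL | hL
  · rw [hL, ENat.mul_top (Nat.cast_ne_zero.mpr hm)] at hmul
    exact absurd hmul (ENat.natCast_ne_top _)
  · lift relLen (rootIdeal u m hm 1 ⊔ Ideal.span {x}) (⊤ : Ideal R) to ℕ using hL with l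
    exact ⟨l, by exact_mod_cast hmul⟩

/-- **Node-slope relation, core form (branch `𝔭₁`).** -/
theorem dvd_thickness_mul_ord_left (h : IsNode463 𝔭₁ 𝔭₂ π x y N) {u : R} {m : ℕ}
    (hm : m ≠ 0) (hu₁ : u ∉ 𝔭₁) (hu₂ : u ∉ 𝔭₂)
    (H1 : ∀ 𝔓 ∈ (Ideal.span {u}).minimalPrimes, π ∉ 𝔓 → ∃ f r : R, r ∉ 𝔓 ∧ f ^ m = u * r)
    {n : ℕ} {ε : (R ⧸ 𝔭₁)ˣ}
    (hu : Ideal.Quotient.mk 𝔭₁ u = ε * (Ideal.Quotient.mk 𝔭₁ x) ^ n) :
    m ∣ N * n :=
  h.symm.dvd_thickness_mul_ord_right hm hu₂ hu₁ H1 hu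

end Main

end IsNode463

end Fermat.Agent.Ribet.H463

end
-- ===== PACK-END Ribet/H463/NodeSlope.lean

-- ===== PACK-BEGIN S28/H589/UnitPoly.lean
section



/-!
# S28 / [A-W] (helper589): `p¹² Δ(q^p)/Δ(q)` is integral over `ℤ[j]`

Same route as `[A-Φ]` (`ModPoly.lean`): helper648's conjugate product for the good function
`u(τ) = p¹² Δ(pτ)/Δ(τ)` gives `W ∈ ℂ[Y][X]`, monic of degree `p + 1`, with
`W(u(τ), j(τ)) = 0` and `W(Δ(τ)/Δ(pτ), j(pτ)) = 0`; `descent` shows `W ∈ ℤ[Y][X]`.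
-/

set_option autoImplicit false

noncomputable section

open UpperHalfPlane ModularCurve CongruenceSubgroup Function
open scoped MatrixGroups Manifold Real Modular

namespace Fermat.Agent.S28.H589

open Fermat.Agent.S28.H565 (HasTExp deltaSeriesC deltaInvSeriesC)
open Fermat.Agent.S24.H648 (goodRing ExpGrowth)

local notation "Δ" => ModularForm.discriminant

/-! ### Formal identifications -/

theorem map_map_intCast (x : PowerSeries ℤ) :
    (x.map (Int.castRingHom ℤ)).map (Int.castRingHom ℂ) = x.map (Int.castRingHom ℂ) := by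
  ext n
  simp

theorem iotaC_deltaL : iotaC (deltaL ℤ) = deltaSeriesC := by
  rw [deltaL, map_mul, iotaC, coeffMap_single, coeffMap_ofPowerSeries, map_map_intCast,
    Fermat.Agent.S28.H565.map_dedekindEtaUnit, deltaSeriesC]
  simp

theorem iotaC_deltaInvL : iotaC (deltaInvL ℤ) = deltaInvSeriesC := by
  rw [deltaInvL, map_mul, iotaC, coeffMap_single, coeffMap_ofPowerSeries, map_map_intCast,
    deltaInvSeriesC, Fermat.Agent.S28.H565.etaInvC]
  simp

theorem iotaC_unit (p : ℕ) [NeZero p] :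
    iotaC ((p : LaurentSeries ℤ) ^ 12 * unitL ℤ p) = unitSeriesC p := by
  rw [unitL, map_mul, map_mul, map_pow, map_natCast, iotaC, coeffMap_qExpand]
  change _ * (qExpand ℂ p (iotaC (deltaL ℤ)) * iotaC (deltaInvL ℤ)) = _
  rw [iotaC_deltaL, iotaC_deltaInvL, unitSeriesC, map_pow, map_natCast]
  ring

/-- The integral series `Δ(q)/Δ(q^p)`. -/
def unitL' (p : ℕ) [NeZero p] : LaurentSeries ℤ := deltaL ℤ * qExpand ℤ p (deltaInvL ℤ)

theorem iotaC_unit' (p : ℕ) [NeZero p] : iotaC (unitL' p) = unitSeriesC' p := by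
  rw [unitL', map_mul, iotaC, coeffMap_qExpand]
  change iotaC (deltaL ℤ) * qExpand ℂ p (iotaC (deltaInvL ℤ)) = _
  rw [iotaC_deltaL, iotaC_deltaInvL, unitSeriesC']

theorem deltaSeriesC_ne_zero : deltaSeriesC ≠ 0 := by
  intro h
  have := Fermat.Agent.S28.H565.deltaSeriesC_mul_inv
  rw [h, zero_mul] at this
  exact zero_ne_one this

theorem order_deltaSeriesC : deltaSeriesC.order = 1 := by
  have hc : ∀ n : ℤ, deltaSeriesC.coeff n =
      (HahnSeries.ofPowerSeries ℤ ℂ (Fermat.Agent.S28.H565.etaProdC ^ 24)).coeff (n - 1) := by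
    intro n
    rw [deltaSeriesC, HahnSeries.coeff_single_mul, one_mul]
  have h1 : deltaSeriesC.coeff 1 ≠ 0 := by
    rw [hc]
    have : ((1 : ℤ) - 1) = ((0 : ℕ) : ℤ) := by norm_num
    rw [this, HahnSeries.ofPowerSeries_apply_coeff]
    have h2 : PowerSeries.constantCoeff (Fermat.Agent.S28.H565.etaProdC ^ 24) = 1 := by
      rw [map_pow, Fermat.Agent.S28.H565.etaProdC]
      have : PowerSeries.constantCoeff (PowerSeries.map (Int.castRingHom ℂ) ModularCurve.etaProd)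
          = 1 := by
        rw [← PowerSeries.coeff_zero_eq_constantCoeff_apply, PowerSeries.coeff_map,
          PowerSeries.coeff_zero_eq_constantCoeff_apply, ModularCurve.constantCoeff_etaProd]
        simp
      rw [this, one_pow]
    rw [PowerSeries.coeff_zero_eq_constantCoeff_apply, h2]
    exact one_ne_zero
  refine le_antisymm (HahnSeries.order_le_of_coeff_ne_zero h1) ?_
  by_contra hlt
  rw [not_le] at hlt
  refine (HahnSeries.coeff_order_eq_zero.not.mpr deltaSeriesC_ne_zero) ?_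
  rw [hc]
  exact ModularCurve.ofPowerSeries_coeff_of_neg _ (by omega)

theorem unitSeriesC'_mul (p : ℕ) [NeZero p] :
    unitSeriesC' p * qExpand ℂ p deltaSeriesC = deltaSeriesC := by
  rw [unitSeriesC', mul_assoc, ← map_mul, mul_comm deltaInvSeriesC,
    Fermat.Agent.S28.H565.deltaSeriesC_mul_inv, map_one, mul_one]

theorem unitSeriesC'_ne_zero (p : ℕ) [NeZero p] : unitSeriesC' p ≠ 0 := by
  intro h
  have := unitSeriesC'_mul p
  rw [h, zero_mul] at this
  exact deltaSeriesC_ne_zero this.symm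

/-- `ord (Δ(q)/Δ(q^p)) ≡ 1 mod p`. -/
theorem exists_order_unitSeriesC' (p : ℕ) [NeZero p] :
    ∃ m : ℤ, (unitSeriesC' p).order = 1 - p * m := by
  have hV : qExpand ℂ p deltaSeriesC ≠ 0 := by
    intro h
    have := unitSeriesC'_mul p
    rw [h, mul_zero] at this
    exact deltaSeriesC_ne_zero this.symm
  have hdvd : (p : ℤ) ∣ (qExpand ℂ p deltaSeriesC).order :=
    Fermat.Agent.S28.H145.dvd_order_qExpand (k := ℂ) p deltaSeriesC
  obtain ⟨m, hm⟩ := hdvd
  have h1 : (unitSeriesC' p * qExpand ℂ p deltaSeriesC).order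
      = (unitSeriesC' p).order + (qExpand ℂ p deltaSeriesC).order :=
    HahnSeries.order_mul (unitSeriesC'_ne_zero p) hV
  have h2 : (unitSeriesC' p * qExpand ℂ p deltaSeriesC).order = 1 := by
    rw [unitSeriesC'_mul p]
    exact order_deltaSeriesC
  refine ⟨m, ?_⟩
  rw [h2, hm] at h1
  generalize (unitSeriesC' p).order = o at h1
  omega

/-- The complex polynomial of the unit with its two formal vanishing relations. -/
theorem exists_unitPoly_complex (p : ℕ) [NeZero p] (hp : p.Prime) :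
    ∃ W : Polynomial (Polynomial ℂ), W.Monic ∧ W.natDegree = p + 1 ∧
      W.eval₂ (evC (jqModC ℂ)) (unitSeriesC p) = 0 ∧
      W.eval₂ (evC (qExpand ℂ p (jqModC ℂ))) (unitSeriesC' p) = 0 := by
  letI := fintypeQuot p
  have hu := unitFun_mem_goodRing p hp.pos
  obtain ⟨P, hPm, hPd, hP⟩ := Fermat.Agent.S24.H648.exists_charPoly_jFun hu
  have hj : HasTExp 1 Fermat.Agent.S24.H648.jFun (jqModC ℂ) := by
    rw [jFun648_eq]; exact Fermat.Agent.S28.H565.hasTExp_jFun
  have hjp : HasTExp 1 (fun τ => Fermat.Agent.S24.H648.jFun (scaleH p hp.pos τ))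
      (qExpand ℂ p (jqModC ℂ)) := hasTExp_comp_scaleH p hp.pos hj
  refine ⟨P, hPm, ?_, ?_, ?_⟩
  · rw [hPd]; exact card_quot_prime p hp
  · refine eval₂_eq_zero_of_forall P hj (hasTExp_unitFun p hp.pos) fun τ => ?_
    rw [hP]
    exact Fermat.Agent.S24.H648.charPolyAt_eval_self hu.2.1 τ
  · refine eval₂_eq_zero_of_forall P hjp (hasTExp_unitFun' p hp.pos) fun w => ?_
    show (P.map (Polynomial.evalRingHom
      (Fermat.Agent.S24.H648.jFun (scaleH p hp.pos w)))).eval (unitFun' p hp.pos w) = 0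
    rw [hP]
    have hconj : Fermat.Agent.S24.H648.conj p (unitFun p hp.pos)
        (((ModularGroup.S)⁻¹ : SL(2, ℤ)) : SL(2, ℤ) ⧸ Gamma0 p) (scaleH p hp.pos w)
        = unitFun' p hp.pos w := by
      rw [Fermat.Agent.S24.H648.conj_mk hu.2.1, inv_inv]
      exact unitFun_S_scaleH p hp.pos w
    rw [← hconj]
    exact Fermat.Agent.S24.H648.charPolyAt_eval_conj (unitFun p hp.pos) _ _

/-- **[A-W]** -/
theorem nonempty_unitPolyData (p : ℕ) [NeZero p] (hp : p.Prime) :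
    Nonempty (UnitPolyData p) := by
  obtain ⟨W, hWm, hWd, h1, h2⟩ := exists_unitPoly_complex p hp
  obtain ⟨m, hm⟩ := exists_order_unitSeriesC' p
  have hord : (unitL' p).order = 1 - p * m := by
    rw [← order_iotaC, iotaC_unit', hm]
  have hf0 : unitL' p ≠ 0 := by
    intro h
    apply unitSeriesC'_ne_zero p
    rw [← iotaC_unit', h, map_zero]
  have hcop : IsCoprime (unitL' p).order (p : ℤ) := by
    rw [hord]
    exact ⟨1, m, by ring⟩
  have hne : unitL' p ≠ qExpand ℤ p ((p : LaurentSeries ℤ) ^ 12 * unitL ℤ p) := by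
    intro h
    have h3 := congrArg iotaC h
    rw [iotaC_unit', iotaC, coeffMap_qExpand] at h3
    obtain ⟨k, hk⟩ := Fermat.Agent.S28.H145.dvd_order_qExpand (k := ℂ) p
      (coeffMap (Int.castRingHom ℂ) ((p : LaurentSeries ℤ) ^ 12 * unitL ℤ p))
    rw [← h3, hm] at hk
    have hp2 : (2 : ℤ) ≤ p := by exact_mod_cast hp.two_le
    have hdvd : (p : ℤ) ∣ 1 := ⟨k + m, by linarith⟩
    have := Int.le_of_dvd one_pos hdvd
    omega
  obtain ⟨Ψ, hΨm, -, hΨ1, -⟩ := descent p W hWm (p + 1) hWd rfl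
    ((p : LaurentSeries ℤ) ^ 12 * unitL ℤ p) (unitL' p) hf0 hcop hne
    (by rw [iotaC_unit]; exact h1)
    (by rw [iotaC_unit']; exact h2)
  exact ⟨⟨Ψ, hΨm, hΨ1⟩⟩

end Fermat.Agent.S28.H589

end

end
-- ===== PACK-END S28/H589/UnitPoly.lean

-- ===== PACK-BEGIN Ribet/H785/PeuWall.lean
section



/-!
# RIBET row 38, WALL-p, bridging lemma PEU (helper785) — part 4: `WallSpec` vocabulary

The results of `PeuCore.lean` stated with `Wall.PeuFixes` and `Wall.CycloAt`
of `Fermat/Agent/Ribet/H944/WallSpec.lean` (the hypothesis `∀ σ, PeuFixes A p σ → σ • x = x` of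
the crux (S4) of `AtPFiltrationStatement`, and the third clause of `ELOCOrdAt`).

Consumers (S4, any route): from `hx : ∀ σ, PeuFixes A p σ → σ • x = x` and a "period" `c` which
is rational over the field of definition of `x` over `K₁`
(`∀ σ ∈ I, CycloAt p σ 1 → σ • x = x → σ c = c`) with `c ^ p = κ * p ^ m`, `κ ∈ K₁` a unit of `A`:
`dvd_of_peuFixes_of_rational` gives `p ∣ m`.

Producers (ELOC-ord): to prove `∀ σ, PeuFixes A p σ → σ c = c` it is enough to write
`c = z * y`, `z ∈ K₁`, `y` a unit of `A` with `y ^ p ∈ K₁` (`peuFixes_apply_mul`), or to put `c`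
in the field generated by such elements (`PeuFixes` elements are ring automorphisms).
-/

set_option autoImplicit false
set_option linter.style.haveILetI false

namespace Fermat.Agent.Ribet.H785

open Fermat.Agent.Ribet.Spec Fermat.Agent.Ribet.H944.Wall

local notation "Qb" => AlgebraicClosure ℚ

variable {A : ValuationSubring Qb} {p : ℕ}

/-- `IsPeuFixing` is `Wall.PeuFixes`, unfolded. -/
theorem isPeuFixing_iff_peuFixes (σ : GQ) : IsPeuFixing A p σ ↔ PeuFixes A p σ := Iff.rfl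

/-- `InK1` is the `K₁`-membership condition of `Wall.PeuFixes`. -/
theorem inK1_iff_cycloAt (x : Qb) :
    InK1 A p x ↔ ∀ τ ∈ A.inertiaSubgroupIn ℚ, CycloAt p τ 1 → τ x = x := Iff.rfl

/-- An element of the peu ramifiée subgroup acts trivially on `μ_p`. -/
theorem PeuFixes_cycloAt_one (hp : p ≠ 0) {σ : GQ} (hσ : PeuFixes A p σ) : CycloAt p σ 1 := by
  intro ζ hζ
  rw [pow_one]
  exact IsPeuFixing.apply_eq_of_inK1 hp hσ (InK1.of_rootOfUnity hζ)

/-- An element of the peu ramifiée subgroup fixes `K₁` pointwise. -/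
theorem PeuFixes_apply_eq (hp : p ≠ 0) {σ : GQ} (hσ : PeuFixes A p σ) {x : Qb}
    (hx : ∀ τ ∈ A.inertiaSubgroupIn ℚ, CycloAt p τ 1 → τ x = x) : σ x = x :=
  IsPeuFixing.apply_eq_of_inK1 hp hσ hx

/-- (for producers) products `z * y`, `z ∈ K₁`, `y` a unit of `A` with `y ^ p ∈ K₁`, are fixed by
the peu ramifiée subgroup. -/
theorem peuFixes_apply_mul (hp : p ≠ 0) {σ : GQ} (hσ : PeuFixes A p σ) {y z : Qb}
    (hy : y ∈ A) (hy' : y⁻¹ ∈ A)
    (hyp : ∀ τ ∈ A.inertiaSubgroupIn ℚ, CycloAt p τ 1 → τ (y ^ p) = y ^ p)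
    (hz : ∀ τ ∈ A.inertiaSubgroupIn ℚ, CycloAt p τ 1 → τ z = z) : σ (z * y) = z * y := by
  rw [map_mul, PeuFixes_apply_eq hp hσ hz, hσ.2 y hy hy' hyp]

/-- **PEU-KUM** in `WallSpec` vocabulary: a `p`-th root `c` of an element of `K₁` which is fixed
by the peu ramifiée subgroup is `z * y`, `z ∈ K₁`, `y` a unit of `A` with `y ^ p ∈ K₁`. -/
theorem exists_mul_of_peuFixes {c : Qb}
    (hc : ∀ τ ∈ A.inertiaSubgroupIn ℚ, CycloAt p τ 1 → τ (c ^ p) = c ^ p)
    (hpeu : ∀ σ : GQ, PeuFixes A p σ → σ c = c) :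
    ∃ y z : Qb, y ∈ A ∧ y⁻¹ ∈ A ∧ y ≠ 0 ∧
      (∀ τ ∈ A.inertiaSubgroupIn ℚ, CycloAt p τ 1 → τ (y ^ p) = y ^ p) ∧
      (∀ τ ∈ A.inertiaSubgroupIn ℚ, CycloAt p τ 1 → τ z = z) ∧ c = z * y := by
  obtain ⟨y, z, hy, hyp, hz, hcz⟩ := peu_kummer A p hc hpeu
  obtain ⟨h1, h2, h3⟩ := valuation_eq_one_iff_mem.mp hy
  exact ⟨y, z, h1, h2, h3, hyp, hz, hcz⟩

/-- **PEU-VAL** in `WallSpec` vocabulary: `c ^ p = κ * p ^ m`, `κ ∈ K₁` a unit of `A`, `c` fixed
by the peu ramifiée subgroup of inertia at `A ∣ p`  ⟹  `p ∣ m`. -/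
theorem dvd_of_peuFixes (hp : p.Prime) (hA : A.LiesOverPrime p) {c κ : Qb} {m : ℤ}
    (hκ : κ ∈ A) (hκ' : κ⁻¹ ∈ A) (hκ0 : κ ≠ 0)
    (hκ1 : ∀ τ ∈ A.inertiaSubgroupIn ℚ, CycloAt p τ 1 → τ κ = κ)
    (hcp : c ^ p = κ * (p : Qb) ^ m)
    (hpeu : ∀ σ : GQ, PeuFixes A p σ → σ c = c) : (p : ℤ) ∣ m :=
  dvd_of_pow_eq_unit_mul_zpow hp hA (valuation_eq_one_iff_mem.mpr ⟨hκ, hκ', hκ0⟩) hκ1 hcp hpeu

/-- **PEU-VAL for a class `x`** (shape of the crux (S4)): `x` any object with a `G_ℚ`-action fixed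
by the peu ramifiée subgroup; `c` rational over the field of definition of `x` over `K₁`;
`c ^ p = κ * p ^ m` with `κ ∈ K₁` a unit of `A`.  Then `p ∣ m`. -/
theorem dvd_of_peuFixes_of_rational {X : Type*} [MulAction GQ X] (hp : p.Prime)
    (hA : A.LiesOverPrime p) (x : X) (hx : ∀ σ : GQ, PeuFixes A p σ → σ • x = x)
    {c κ : Qb} {m : ℤ}
    (hc : ∀ σ ∈ A.inertiaSubgroupIn ℚ, CycloAt p σ 1 → σ • x = x → σ c = c)
    (hκ : κ ∈ A) (hκ' : κ⁻¹ ∈ A) (hκ0 : κ ≠ 0)
    (hκ1 : ∀ τ ∈ A.inertiaSubgroupIn ℚ, CycloAt p τ 1 → τ κ = κ)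
    (hcp : c ^ p = κ * (p : Qb) ^ m) : (p : ℤ) ∣ m :=
  dvd_of_peuFixes hp hA hκ hκ' hκ0 hκ1 hcp fun σ hσ =>
    hc σ hσ.1 (PeuFixes_cycloAt_one hp.ne_zero hσ) (hx σ hσ)

/-- The same with an auxiliary uniformiser `ϖ`, `v ϖ ^ e = v p ^ f` (e.g. `ϖ = 1 - ζ_p`,
`e = p - 1`, `f = 1`): `c ^ p = κ * ϖ ^ m ∈ K₁`  ⟹  `p ∣ m * f`. -/
theorem dvd_mul_of_peuFixes_of_rational {X : Type*} [MulAction GQ X] (hp : p.Prime)
    (hA : A.LiesOverPrime p) (x : X) (hx : ∀ σ : GQ, PeuFixes A p σ → σ • x = x)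
    {c κ ϖ : Qb} {m f : ℤ} {e : ℕ}
    (hϖ : A.valuation ϖ ^ e = A.valuation (p : Qb) ^ f) (hϖ0 : ϖ ≠ 0)
    (hc : ∀ σ ∈ A.inertiaSubgroupIn ℚ, CycloAt p σ 1 → σ • x = x → σ c = c)
    (hκ : κ ∈ A) (hκ' : κ⁻¹ ∈ A) (hκ0 : κ ≠ 0)
    (hcK : ∀ τ ∈ A.inertiaSubgroupIn ℚ, CycloAt p τ 1 → τ (c ^ p) = c ^ p)
    (hcp : c ^ p = κ * ϖ ^ m) : (p : ℤ) ∣ m * f :=
  dvd_mul_of_pow_eq_unit_mul_zpow hp hA hϖ (valuation_eq_one_iff_mem.mpr ⟨hκ, hκ', hκ0⟩) hϖ0 hcp
    hcK fun σ hσ => hc σ hσ.1 (PeuFixes_cycloAt_one hp.ne_zero hσ) (hx σ hσ)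

end Fermat.Agent.Ribet.H785

end
-- ===== PACK-END Ribet/H785/PeuWall.lean

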