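import Mathlib
import Fermat.Prelude.Def_ModularCurve_HeckeModule
import Fermat.Prelude.Thm_ModularCurve_coeffMap_qExpand
import Fermat.Prelude.Def_AlgebraicCurve_Correspondence
import Fermat.Statements.S24
import Fermat.Prelude.Def_ModularCurve_HeckeOperator
import Fermat.Agent.Pack.S44C.G0E23L2
import Fermat.Agent.Pack.S44C.G0E23L3
import Fermat.Agent.Pack.S44C.G0E0L1
import Fermat.Agent.Pack.S44C.G0E6L3
import Fermat.Agent.Pack.S44C.G0E0L3
import Fermat.Agent.Pack.S44C.G0E23L0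
import Fermat.Agent.Pack.S44C.G0E0L0
import Fermat.Agent.Pack.S44C.G0E19L1
import Fermat.Agent.Pack.S44C.G0E19L2
import Fermat.Agent.Pack.S44C.G0E1L2
import Fermat.Agent.Pack.S44C.G0E2L1
import Fermat.Agent.Pack.S44C.G0E22L2
import Fermat.Agent.Pack.S44C.G0E18L2
import Fermat.Agent.Pack.S44C.G0E3L3
import Fermat.Agent.Pack.S44C.G0E3L1
import Fermat.Agent.Pack.S44C.G0E23L1
import Fermat.Agent.Pack.S44C.G0E22L1
import Fermat.Agent.Pack.S44C.G0E17L2
import Fermat.Agent.Pack.S44C.G0E8L2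
import Fermat.Agent.Pack.S44C.G0E15L0
import Fermat.Agent.Pack.S44C.G1E0L0
import Fermat.Agent.Pack.S44C.G0E17L1
import Fermat.Agent.Pack.S44C.G0E17L0
import Fermat.Agent.Pack.S44C.G0E9L0
import Fermat.Agent.Pack.S44C.G0E13L2
import Fermat.Agent.Pack.Fast891

-- ===== PACK-BEGIN Lib/X0Deg/Alpha.lean
section


/-!
# X0DEG (helper760): the degree of the Prelude degeneracy map `heckeAlphaBar`

* `finrankAlong_inclusion`, `finiteAlong_inclusion` : abstract (any tower of intermediate fields);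
* `finrankAlong_heckeAlphaBar_mul_psi` : `[F̄_{Nℓ} : α F̄_N] * ψ(N) = ψ(Nℓ)` (any `ℓ ≠ 0`);
* `finrankAlong_heckeAlphaBar_of_not_dvd` : `= ℓ + 1` for a prime `ℓ ∤ N`;
* `finrankAlong_heckeAlphaBar_of_dvd` : `= ℓ` for a prime `ℓ ∣ N`;
* `finiteAlong_heckeAlphaBar` : `FiniteAlong ℚ̄ (heckeAlphaBar ℚ̄ N ℓ)` (one of the six fields of
  the Prelude `HeckeInputsAlong`);
* `finrankAlong_heckeAlphaBar_square` : equal degrees in the square used for the commutation of
  Hecke operators: `[F̄_{Nℓℓ'} : F̄_{Nℓ}] = [F̄_{Nℓ'} : F̄_N]` for primes `ℓ ≠ ℓ'`.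
-/

set_option autoImplicit false

noncomputable section

open ModularCurve AlgebraicCurve IntermediateField
open Fermat.Agent.S24

namespace Fermat.Agent.Lib.X0Deg

section Abstract

variable {K E : Type*} [Field K] [Field E] [Algebra K E]

/-- For intermediate fields `A ≤ B`, the `A`-module `B` (via the inclusion) is linearly
equivalent to `extendScalars`. -/
def inclusionLinearEquiv {A B : IntermediateField K E} (h : A ≤ B) :
    letI := algebraAlong (IntermediateField.inclusion h)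
    ↥B ≃ₗ[↥A] ↥(extendScalars h) :=
  letI := algebraAlong (IntermediateField.inclusion h)
  { toFun := fun x => ⟨x.1, x.2⟩
    invFun := fun y => ⟨y.1, y.2⟩
    map_add' := fun _ _ => rfl
    map_smul' := fun _ _ => rfl
    left_inv := fun _ => rfl
    right_inv := fun _ => rfl }

theorem finrankAlong_inclusion {A B : IntermediateField K E} (h : A ≤ B) :
    finrankAlong K (IntermediateField.inclusion h) = A.relfinrank B := by
  rw [relfinrank_eq_finrank_of_le h]
  let _ := algebraAlong (IntermediateField.inclusion h)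
  exact (inclusionLinearEquiv h).finrank_eq

theorem finiteAlong_inclusion {A B : IntermediateField K E} (h : A ≤ B)
    (hpos : 0 < A.relfinrank B) : FiniteAlong K (IntermediateField.inclusion h) := by
  let _ := algebraAlong (IntermediateField.inclusion h)
  show Module.Finite ↥A ↥B
  apply Module.finite_of_finrank_pos
  have := finrankAlong_inclusion h
  rw [finrankAlong] at this
  rw [this]
  exact hpos

end Abstract

section Modular

variable (N ℓ : ℕ) [NeZero N] [NeZero ℓ]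

theorem le_mul : modularFunctionFieldBar N ≤ modularFunctionFieldBar (N * ℓ) :=
  modularFunctionFieldBar_mono (dvd_mul_right N ℓ)

theorem finrankAlong_heckeAlphaBar :
    finrankAlong Kbar (heckeAlphaBar Kbar N ℓ)
      = (modularFunctionFieldBar N).relfinrank (modularFunctionFieldBar (N * ℓ)) := by
  rw [heckeAlphaBar_eq_inclusion N ℓ (le_mul N ℓ)]
  exact finrankAlong_inclusion _

/-- `[F̄_{Nℓ} : α F̄_N] * ψ(N) = ψ(Nℓ)`. -/
theorem finrankAlong_heckeAlphaBar_mul_psi :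
    finrankAlong Kbar (heckeAlphaBar Kbar N ℓ) * dedekindPsi N = dedekindPsi (N * ℓ) := by
  rw [finrankAlong_heckeAlphaBar]
  exact relfinrank_mul_psi (dvd_mul_right N ℓ)

/-- For a prime `ℓ ∤ N` the degeneracy map `α : F̄_N → F̄_{Nℓ}` has degree `ℓ + 1`. -/
theorem finrankAlong_heckeAlphaBar_of_not_dvd (hℓ : ℓ.Prime) (h : ¬ ℓ ∣ N) :
    finrankAlong Kbar (heckeAlphaBar Kbar N ℓ) = ℓ + 1 := by
  have h1 := finrankAlong_heckeAlphaBar_mul_psi N ℓ
  have h2 : dedekindPsi (N * ℓ) = (ℓ + 1) * dedekindPsi N := by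
    rw [mul_comm N ℓ]
    exact Fermat.Agent.S20.Comb694.dedekindPsi_prime_mul_of_not_dvd ℓ N hℓ (NeZero.ne N) h
  exact Nat.eq_of_mul_eq_mul_right (dedekindPsi_pos N) (h1.trans h2)

/-- For a prime `ℓ ∣ N` the degeneracy map `α : F̄_N → F̄_{Nℓ}` has degree `ℓ`. -/
theorem finrankAlong_heckeAlphaBar_of_dvd (hℓ : ℓ.Prime) (h : ℓ ∣ N) :
    finrankAlong Kbar (heckeAlphaBar Kbar N ℓ) = ℓ := by
  have h1 := finrankAlong_heckeAlphaBar_mul_psi N ℓ
  have h2 : dedekindPsi (N * ℓ) = ℓ * dedekindPsi N := by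
    rw [mul_comm N ℓ]
    exact Fermat.Agent.S20.Comb694.dedekindPsi_prime_mul_of_dvd ℓ N hℓ (NeZero.ne N) h
  exact Nat.eq_of_mul_eq_mul_right (dedekindPsi_pos N) (h1.trans h2)

theorem finrankAlong_heckeAlphaBar_pos : 0 < finrankAlong Kbar (heckeAlphaBar Kbar N ℓ) := by
  have h1 := finrankAlong_heckeAlphaBar_mul_psi N ℓ
  have h2 := dedekindPsi_pos (N * ℓ)
  rw [← h1] at h2
  exact Nat.pos_of_mul_pos_right h2

/-- The degeneracy map `α` is finite (a field of the Prelude `HeckeInputsAlong`). -/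
theorem finiteAlong_heckeAlphaBar : FiniteAlong Kbar (heckeAlphaBar Kbar N ℓ) := by
  have hpos := finrankAlong_heckeAlphaBar_pos N ℓ
  rw [finrankAlong_heckeAlphaBar] at hpos
  rw [heckeAlphaBar_eq_inclusion N ℓ (le_mul N ℓ)]
  exact finiteAlong_inclusion _ hpos

/-- Equal degrees in the commutation square: for primes `ℓ ≠ ℓ'`,
`[F̄_{Nℓℓ'} : F̄_{Nℓ}] = [F̄_{Nℓ'} : F̄_N]`. -/
theorem finrankAlong_heckeAlphaBar_square (ℓ' : ℕ) [NeZero ℓ'] (hℓ : ℓ.Prime) (hℓ' : ℓ'.Prime)
    (hne : ℓ ≠ ℓ') :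
    finrankAlong Kbar (heckeAlphaBar Kbar (N * ℓ) ℓ')
      = finrankAlong Kbar (heckeAlphaBar Kbar N ℓ') := by
  by_cases h : ℓ' ∣ N
  · rw [finrankAlong_heckeAlphaBar_of_dvd N ℓ' hℓ' h,
      finrankAlong_heckeAlphaBar_of_dvd (N * ℓ) ℓ' hℓ' (h.mul_right ℓ)]
  · have h' : ¬ ℓ' ∣ N * ℓ := by
      intro hd
      rcases (Nat.Prime.dvd_mul hℓ').mp hd with h1 | h1
      · exact h h1
      · exact hne ((Nat.prime_dvd_prime_iff_eq hℓ' hℓ).mp h1).symm
    rw [finrankAlong_heckeAlphaBar_of_not_dvd N ℓ' hℓ' h,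
      finrankAlong_heckeAlphaBar_of_not_dvd (N * ℓ) ℓ' hℓ' h']

end Modular

end Fermat.Agent.Lib.X0Deg

end
end
-- ===== PACK-END Lib/X0Deg/Alpha.lean

-- ===== PACK-BEGIN Ribet/H801/DegGen.lean
section
/-
RIBET / W-DEG (helper801), part 3: the function field of level `N ℓ p` is generated by the two
"`β`-images":

    F̄_{Nℓp} = V_p(F̄_{Nℓ}) ⊔ V_ℓ(F̄_{Np})        (`p ≠ ℓ` primes)

(degree count: `[F̄_{Nℓp} : V_p F̄_{Nℓ}] ≤ p + 1` by helper218, and `1, x, …, x^{p-1}` with
`x = j(q^ℓ)` are linearly independent over every subfield of `ℚ̄((q^p))`, helper145).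
-/






set_option autoImplicit false
set_option linter.style.haveILetI false

noncomputable section

namespace Fermat.Agent.Ribet.H801

open ModularCurve HahnSeries IntermediateField AlgebraicCurve
open Fermat.Agent.S28 Fermat.Agent.S37

section Generic

variable {K E : Type*} [Field K] [Field E] [Algebra K E]

/-- Elements of `T` are algebraic over `A` when `[T : A]` is finite. -/
theorem isAlgebraic_of_relfinrank_ne_zero {A T : IntermediateField K E} (hAT : A ≤ T)
    (h : A.relfinrank T ≠ 0) {x : E} (hx : x ∈ T) : IsAlgebraic A x := by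
  rw [relfinrank_eq_finrank_of_le hAT] at h
  haveI : FiniteDimensional A (extendScalars hAT) :=
    Module.finite_of_finrank_pos (Nat.pos_of_ne_zero h)
  have h1 : IsAlgebraic A (⟨x, hx⟩ : extendScalars hAT) :=
    Algebra.IsAlgebraic.isAlgebraic _
  exact (IntermediateField.isAlgebraic_iff (S := extendScalars hAT) (x := ⟨x, hx⟩)).mp h1

end Generic

theorem modularFunctionFieldBar_congr {a b : ℕ} [NeZero a] [NeZero b] (h : a = b) :
    modularFunctionFieldBar a = modularFunctionFieldBar b := by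
  subst h
  rfl

/-- `j ∈ F̄_N`. -/
theorem jqModC_mem_bar (N : ℕ) [NeZero N] :
    jqModC (AlgebraicClosure ℚ) ∈ modularFunctionFieldBar N := by
  have h : jq ∈ modularFunctionFieldFull N := by
    have h := jqd_mem_full N (one_dvd N)
    rwa [qExpand_one_apply] at h
  have h2 := coeffEmb_mem_laurentBaseChange (AlgebraicClosure ℚ) h
  have h3 : coeffEmb (AlgebraicClosure ℚ) jq = jqModC (AlgebraicClosure ℚ) := by
    rw [← jqModC_rat]
    exact coeffMap_jqModC (algebraMap ℚ (AlgebraicClosure ℚ))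
  rwa [h3] at h2

/-- `1, x, …, x^{p-1}`, `x = j(q^ℓ)`, are linearly independent over every subfield of
`k((q^p))` when `ℓ` is prime to `p`. -/
theorem linearIndependent_pow_qExpand_j (k : Type*) [Field k] (p ℓ : ℕ) [NeZero p] [NeZero ℓ]
    (hcop : Nat.Coprime ℓ p) (B : IntermediateField k (LaurentSeries k))
    (hB : B ≤ (qExpandAlgHomC k p).fieldRange) :
    LinearIndependent B (fun i : Fin p => (qExpand k ℓ (jqModC k)) ^ (i : ℕ)) := by
  rw [Fintype.linearIndependent_iff]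
  intro g hg i
  have hc : ∀ i, ∃ c : LaurentSeries k, qExpand k p c = (g i : LaurentSeries k) := by
    intro i
    obtain ⟨c, hc⟩ := hB (g i).2
    exact ⟨c, hc⟩
  choose c hc using hc
  have h : ∑ i : Fin p, qExpand k p (c i) * (qExpand k ℓ (jqModC k)) ^ (i : ℕ) = 0 := by
    rw [← hg]
    refine Finset.sum_congr rfl fun i _ => ?_
    rw [hc i]
    rfl
  have hx : qExpand k ℓ (jqModC k) ≠ 0 := by
    intro h0
    exact H145.jqModC_ne_zero' k
      ((Fermat.Agent.S24.inf_qExpand_eq_zero_iff ℓ (jqModC k)).mp h0)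
  have hord : IsCoprime (qExpand k ℓ (jqModC k)).order (p : ℤ) := by
    rw [Fermat.Agent.S24.inf_qExpand_order, H145.order_jqModC, mul_neg, mul_one]
    exact (Nat.isCoprime_iff_coprime.mpr hcop).neg_left
  have := H145.eq_zero_of_sum_qExpand_mul_pow_eq_zero p _ hx hord c h i
  apply Subtype.ext
  rw [← hc i, this, map_zero]
  rfl

/-- **Generation by the two `β`-images.** -/
theorem bar_eq_sup_map_map (N p ℓ : ℕ) [NeZero N] [NeZero p] [NeZero ℓ] (hp : p.Prime)
    (hℓ : ℓ.Prime) (hne : ℓ ≠ p) :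
    modularFunctionFieldBar (N * ℓ * p) =
      (modularFunctionFieldBar (N * ℓ)).map (qExpandAlgHomC (AlgebraicClosure ℚ) p) ⊔
        (modularFunctionFieldBar (N * p)).map (qExpandAlgHomC (AlgebraicClosure ℚ) ℓ) := by
  set A := (modularFunctionFieldBar (N * ℓ)).map (qExpandAlgHomC (AlgebraicClosure ℚ) p) with hA
  set B := (modularFunctionFieldBar (N * p)).map (qExpandAlgHomC (AlgebraicClosure ℚ) ℓ) with hB
  set T := modularFunctionFieldBar (N * ℓ * p) with hT
  have hAT : A ≤ T := H218.map_qExpand_bar_le (N * ℓ) p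
  have hBT : B ≤ T := by
    have h := H218.map_qExpand_bar_le (N * p) ℓ
    rwa [modularFunctionFieldBar_congr (Nat.mul_right_comm N p ℓ)] at h
  have hCT : A ⊔ B ≤ T := sup_le hAT hBT
  have hAC : A ≤ A ⊔ B := le_sup_left
  have hd : A.relfinrank T = if p ∣ N * ℓ then p else p + 1 :=
    H218.relfinrank_map_qExpand_bar_mul_prime (N * ℓ) p (NeZero.ne _) hp
  have hd_le : A.relfinrank T ≤ p + 1 := by
    rw [hd]; split_ifs <;> omega
  have hd_ne : A.relfinrank T ≠ 0 := by
    rw [hd]; split_ifs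
    · exact hp.ne_zero
    · omega
  have htower : A.relfinrank (A ⊔ B) * (A ⊔ B).relfinrank T = A.relfinrank T :=
    relfinrank_mul_relfinrank hAC hCT
  have hAC_ne : A.relfinrank (A ⊔ B) ≠ 0 := by
    intro h0; rw [h0, zero_mul] at htower; exact hd_ne htower.symm
  have hCT_ne : (A ⊔ B).relfinrank T ≠ 0 := by
    intro h0; rw [h0, mul_zero] at htower; exact hd_ne htower.symm
  have hcop : Nat.Coprime ℓ p := (Nat.coprime_primes hℓ hp).mpr hne
  have hxB : qExpand (AlgebraicClosure ℚ) ℓ (jqModC (AlgebraicClosure ℚ)) ∈ B :=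
    ⟨jqModC (AlgebraicClosure ℚ), jqModC_mem_bar (N * p), rfl⟩
  have h4 : p ≤ A.relfinrank (A ⊔ B) := by
    refine H867.le_relfinrank_of_linearIndependent hAC hAC_ne _ ?_
      (linearIndependent_pow_qExpand_j (AlgebraicClosure ℚ) p ℓ hcop A ?_)
    · intro i
      exact pow_mem ((le_sup_right : B ≤ A ⊔ B) hxB) _
    · intro x hx
      obtain ⟨y, -, rfl⟩ := hx
      exact ⟨y, rfl⟩
  have h1 : (A ⊔ B).relfinrank T = 1 := by
    by_contra hne1
    have h2 : 2 ≤ (A ⊔ B).relfinrank T := by omega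
    have h3 : p * 2 ≤ A.relfinrank (A ⊔ B) * (A ⊔ B).relfinrank T := Nat.mul_le_mul h4 h2
    have hp2 := hp.two_le
    omega
  exact le_antisymm (relfinrank_eq_one_iff.mp h1) hCT

end Fermat.Agent.Ribet.H801

end

end
-- ===== PACK-END Ribet/H801/DegGen.lean

-- ===== PACK-BEGIN Lib/NormL/Main.lean
section





/-!
# `NormL`: main theorem (assembly)

If `χ(N I₀) ∉ {0, 1}` for some nonzero ideal `I₀`, then `s ↦ ∑_I χ(N I) N(I)^(-s)` extends to a
continuous function on `[1, 2]`; in particular it is bounded on `(1, 2]` and has a limit as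
`s → 1⁺`.
-/

namespace Fermat.Agent.Lib.NormL

open NumberField NumberField.mixedEmbedding
open scoped nonZeroDivisors Classical

variable (K : Type*) [Field K] [NumberField K]

theorem absNorm_pos_of_mem_nonZeroDivisors (I : (Ideal (𝓞 K))⁰) :
    0 < Ideal.absNorm (I : Ideal (𝓞 K)) := by
  rw [Nat.pos_iff_ne_zero, Ne, Ideal.absNorm_eq_zero_iff]
  exact nonZeroDivisors.coe_ne_zero I

/-- The denominator `χ(q) q^(1-s) - 1` does not vanish on `[1, 2]`. -/
theorem main_denominator_ne_zero {q : ℕ} (hq2 : (1 : ℝ) < q) {z : ℂ} (hz : ‖z‖ ≤ 1) (hz1 : z ≠ 1)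
    {s : ℝ} (hs : 1 ≤ s) : z * (((q : ℝ) ^ (1 - s) : ℝ) : ℂ) - 1 ≠ 0 := by
  intro h
  have h' : z * (((q : ℝ) ^ (1 - s) : ℝ) : ℂ) = 1 := sub_eq_zero.mp h
  have hq0 : (0 : ℝ) < q := by linarith
  rcases eq_or_lt_of_le hs with rfl | hs1
  · apply hz1
    simpa using h'
  · have hlt : (q : ℝ) ^ (1 - s) < 1 := Real.rpow_lt_one_of_one_lt_of_neg hq2 (by linarith)
    have hnn : 0 ≤ (q : ℝ) ^ (1 - s) := (Real.rpow_pos_of_pos hq0 _).le
    have hn : ‖z * (((q : ℝ) ^ (1 - s) : ℝ) : ℂ)‖ < 1 := by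
      rw [norm_mul, Complex.norm_real, Real.norm_of_nonneg hnn]
      calc ‖z‖ * (q : ℝ) ^ (1 - s) ≤ 1 * (q : ℝ) ^ (1 - s) := by gcongr
        _ < 1 := by linarith
    rw [h', norm_one] at hn
    exact lt_irrefl _ hn

/-- Pure algebra used in the assembly. -/
theorem main_algebra (a b w x y Q z r c c' ainv winv : ℂ) (ha : a * ainv = 1)
    (hw : w * winv = 1) (hxy : x * y = 1) (hQz : Q * z = r) :
    (Q * (w * (a * b * (x * z) * c')) - w * (a * x * c)) * ainv * y * winv = b * r * c' - c := by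
  calc (Q * (w * (a * b * (x * z) * c')) - w * (a * x * c)) * ainv * y * winv
      = (a * ainv) * (w * winv) * (x * y) * (Q * z) * b * c' -
          (a * ainv) * (w * winv) * (x * y) * c := by ring
    _ = b * r * c' - c := by rw [ha, hw, hxy, hQz]; ring

theorem exists_continuousOn_normL {m : ℕ} [NeZero m] (χ : DirichletCharacter ℂ m)
    (I₀ : (Ideal (𝓞 K))⁰)
    (h0 : χ ((Ideal.absNorm (I₀ : Ideal (𝓞 K)) : ℕ) : ZMod m) ≠ 0)
    (h1 : χ ((Ideal.absNorm (I₀ : Ideal (𝓞 K)) : ℕ) : ZMod m) ≠ 1) :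
    ∃ F : ℝ → ℂ, ContinuousOn F (Set.Icc 1 2) ∧
      ∀ s : ℝ, 1 < s → s ≤ 2 → F s = normL K χ s := by
  set q : ℕ := Ideal.absNorm (I₀ : Ideal (𝓞 K)) with hq
  have hq0 : 0 < q := absNorm_pos_of_mem_nonZeroDivisors K I₀
  have hqu : IsUnit ((q : ℕ) : ZMod m) := by
    by_contra hu
    exact h0 (χ.map_nonunit hu)
  have hqm : q.Coprime m := (ZMod.isUnit_iff_coprime q m).mp hqu
  have hq1 : q ≠ 1 := by
    intro h
    apply h1
    rw [h]
    simp
  have hq2 : (1 : ℝ) < q := by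
    have : 2 ≤ q := by omega
    exact_mod_cast this
  have hqpos : (0 : ℝ) < q := by linarith
  -- representatives
  choose J hJC hJm using fun C : ClassGroup (𝓞 K) ↦ exists_mk0_eq_and_coprime K m C⁻¹
  set ε : Bool := decide (χ (-1) = -1) with hε
  choose Δ hΔc hΔ using fun C : ClassGroup (𝓞 K) ↦
    exists_continuousOn_elemSum_sub K χ ε (J C) I₀ (hJm C) hqm
  set w : ℂ := (Units.torsionOrder K : ℂ) with hw
  have hw0 : w ≠ 0 := by
    rw [hw]
    exact_mod_cast (Units.torsionOrder_pos K).ne'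
  set nJ : ClassGroup (𝓞 K) → ℕ := fun C ↦ Ideal.absNorm (J C : Ideal (𝓞 K)) with hnJ
  have hnJpos : ∀ C, (0 : ℝ) < nJ C := fun C ↦ by
    have := absNorm_pos_of_mem_nonZeroDivisors K (J C)
    exact_mod_cast this
  have hχJ : ∀ C, χ ((nJ C : ℕ) : ZMod m) ≠ 0 := by
    intro C
    have hu : IsUnit ((nJ C : ℕ) : ZMod m) := (ZMod.isUnit_iff_coprime _ m).mpr (hJm C)
    exact (IsUnit.map χ hu).ne_zero
  have hχq : ‖χ ((q : ℕ) : ZMod m)‖ ≤ 1 := DirichletCharacter.norm_le_one χ _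
  set E : ℝ → ℂ := fun s ↦ ∑ C : ClassGroup (𝓞 K),
    Δ C s * (χ ((nJ C : ℕ) : ZMod m))⁻¹ * ((((nJ C : ℝ) ^ s : ℝ) : ℂ)) / w with hE
  set D : ℝ → ℂ := fun s ↦ χ ((q : ℕ) : ZMod m) * (((q : ℝ) ^ (1 - s) : ℝ) : ℂ) - 1 with hD
  have hDne : ∀ s ∈ Set.Icc (1 : ℝ) 2, D s ≠ 0 := fun s hs ↦
    main_denominator_ne_zero hq2 hχq h1 hs.1
  have hDc : ContinuousOn D (Set.Icc 1 2) := by
    apply Continuous.continuousOn
    have : Continuous fun s : ℝ ↦ (q : ℝ) ^ (1 - s) :=
      Real.continuous_const_rpow hqpos.ne' |>.comp (continuous_const.sub continuous_id)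
    exact (continuous_const.mul (Complex.continuous_ofReal.comp this)).sub continuous_const
  have hEc : ContinuousOn E (Set.Icc 1 2) := by
    apply continuousOn_finsetSum
    intro C _
    have h1 : Continuous fun s : ℝ ↦ (((nJ C : ℝ) ^ s : ℝ) : ℂ) :=
      Complex.continuous_ofReal.comp (Real.continuous_const_rpow (hnJpos C).ne')
    exact (((hΔc C).mul continuousOn_const).mul h1.continuousOn).div_const _
  refine ⟨fun s ↦ E s / D s, hEc.div hDc hDne, fun s hs1 hs2 ↦ ?_⟩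
  have hDs : D s ≠ 0 := hDne s ⟨hs1.le, hs2⟩
  rw [div_eq_iff hDs]
  -- the identity `E s = normL s * D s`
  have key : ∀ C : ClassGroup (𝓞 K),
      Δ C s * (χ ((nJ C : ℕ) : ZMod m))⁻¹ * ((((nJ C : ℝ) ^ s : ℝ) : ℂ)) / w =
        χ ((q : ℕ) : ZMod m) * (((q : ℝ) ^ (1 - s) : ℝ) : ℂ) *
          classL K χ (C * (ClassGroup.mk0 I₀)⁻¹) s - classL K χ C s := by
    intro C
    have e1 := elemSum_eq_torsionOrder_mul_prinL K χ (J C) hs1
    have e2 := elemSum_eq_torsionOrder_mul_prinL K χ (J C * I₀) hs1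
    have c1 := prinL_eq_mul_classL K χ C (J C) (hJC C) hs1
    have c2 := prinL_eq_mul_classL K χ (C * (ClassGroup.mk0 I₀)⁻¹) (J C * I₀)
      (by rw [map_mul, hJC C, mul_inv_rev, inv_inv, mul_comm]) hs1
    have hd := hΔ C s hs1 hs2
    have hcoe : ((J C * I₀ : (Ideal (𝓞 K))⁰) : Ideal (𝓞 K)) =
        (J C : Ideal (𝓞 K)) * (I₀ : Ideal (𝓞 K)) := rfl
    rw [hcoe] at e2 c2
    rw [← hε] at e1 e2
    rw [e1, e2, c1, c2] at hd
    have hN : Ideal.absNorm ((J C : Ideal (𝓞 K)) * (I₀ : Ideal (𝓞 K))) = nJ C * q := by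
      rw [map_mul]
    rw [hN] at hd
    have hcast : (((nJ C * q : ℕ) : ℕ) : ZMod m) = ((nJ C : ℕ) : ZMod m) * ((q : ℕ) : ZMod m) := by
      push_cast; ring
    have hpow : (((nJ C * q : ℕ) : ℝ)) ^ (-s) = (nJ C : ℝ) ^ (-s) * (q : ℝ) ^ (-s) := by
      push_cast
      rw [Real.mul_rpow (hnJpos C).le hqpos.le]
    rw [hcast, map_mul, hpow] at hd
    have hJs : (((nJ C : ℝ) ^ (-s) : ℝ) : ℂ) * (((nJ C : ℝ) ^ s : ℝ) : ℂ) = 1 := by
      rw [← Complex.ofReal_mul, ← Real.rpow_add (hnJpos C), neg_add_cancel, Real.rpow_zero]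
      simp
    have hqs : ((q : ℕ) : ℂ) * (((q : ℝ) ^ (-s) : ℝ) : ℂ) = (((q : ℝ) ^ (1 - s) : ℝ) : ℂ) := by
      rw [show (1 - s) = 1 + (-s) by ring, Real.rpow_add hqpos, Real.rpow_one]
      push_cast
      ring
    rw [← hd, div_eq_mul_inv]
    have hx := hχJ C
    have hcq : ((Ideal.absNorm (I₀ : Ideal (𝓞 K)) : ℕ) : ℂ) = ((q : ℕ) : ℂ) := rfl
    rw [hcq, Complex.ofReal_mul]
    exact main_algebra _ _ _ _ _ _ _ _ _ _ _ _ (mul_inv_cancel₀ hx) (mul_inv_cancel₀ hw0) hJs hqs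
  simp only [hE, hD]
  rw [Finset.sum_congr rfl fun C _ ↦ key C, Finset.sum_sub_distrib, ← Finset.mul_sum]
  have hre : ∑ C : ClassGroup (𝓞 K), classL K χ (C * (ClassGroup.mk0 I₀)⁻¹) s =
      ∑ C : ClassGroup (𝓞 K), classL K χ C s :=
    Fintype.sum_equiv (Equiv.mulRight (ClassGroup.mk0 I₀)⁻¹) _ _ fun _ ↦ rfl
  rw [hre, ← normL_eq_sum_classL K χ hs1]
  ring

end Fermat.Agent.Lib.NormL

end
-- ===== PACK-END Lib/NormL/Main.lean

-- ===== PACK-BEGIN S37/H819/Emb.lean
section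




/-!
# S37 / NORM (helper819) — the embeddings `σ_g` of `ℚ̄(X₀(Nℓ))` for `g ∈ Γ₀(N)`

`M = N ℓ`, `σ_g := sigmaG (holBase M) qexp g : FF M →+* ℂ((z))`, `z = q^{1/M}`
(S24, helper997).  For `h ∈ Γ₀(N)`:
* `σ_{h⁻¹} ∘ α = Φ_M` on `FF N`                                  (`sig_alpha`)
* `σ_{h⁻¹} ∘ β = (y ↦ y(ζ^b q^{1/ℓ}))` if `ℓ ∣ h₁₁ - b h₁₀`       (`sig_beta`)
* `σ_1 = Φ_M`                                                      (`sig_one`)
where `α, β : FF N → FF M` are the Prelude degeneracy maps `heckeAlphaBar`, `heckeBetaBar`.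
-/

set_option autoImplicit false

noncomputable section

open ModularCurve HahnSeries UpperHalfPlane AlgebraicCurve
open scoped MatrixGroups

namespace Fermat.Agent.S37.H819

open Fermat.Agent.S24 Fermat.Agent.S24.H997

/-! ### Formal lemmas on `infTwist`, `qExpand`, `coeffMap` -/

section Formal

variable {R : Type*} [CommRing R]

theorem infTwist_qExpand (u : Rˣ) (d : ℕ) [NeZero d] (x : LaurentSeries R) :
    infTwist u (qExpand R d x) = qExpand R d (infTwist (u ^ d) x) := by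
  ext k
  rw [infTwist_coeff]
  by_cases hk : (d : ℤ) ∣ k
  · obtain ⟨m, rfl⟩ := hk
    rw [qExpand_coeff_mul, qExpand_coeff_mul, infTwist_coeff]
    congr 2
    rw [zpow_mul, zpow_natCast]
  · rw [qExpand_coeff_of_not_dvd d _ hk, qExpand_coeff_of_not_dvd d _ hk, zero_mul]

theorem coeffMap_infTwist {S : Type*} [CommRing S] (f : R →+* S) (u : Rˣ)
    (x : LaurentSeries R) :
    coeffMap f (infTwist u x) = infTwist (Units.map (f : R →* S) u) (coeffMap f x) := by
  ext k
  rw [coeffMap_coeff, infTwist_coeff, infTwist_coeff, coeffMap_coeff, map_mul]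
  congr 1
  rw [← map_zpow]
  rfl

theorem coeffMap_C' {S : Type*} [CommRing S] (f : R →+* S) (r : R) :
    coeffMap f (HahnSeries.C r) = HahnSeries.C (f r) := by
  rw [C_apply, coeffMap_single, C_apply]

end Formal

theorem coeffMap_ιK_coeffEmb (s : LaurentSeries ℚ) :
    coeffMap ιK (coeffEmb Kbar s) = coeffEmb ℂ s := by
  rw [coeffEmb, coeffMap_coeffMap, coeffEmb]
  refine coeffMap_congr (RingHom.ext fun c => ?_) s
  rw [RingHom.comp_apply, ιK_algebraMap]
  simp

theorem infRoot_pow (b : ℤ) (n d : ℕ) : (infRoot b n) ^ d = infRoot ((d : ℤ) * b) n := by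
  apply Units.ext
  rw [Units.val_pow_eq_pow_val, infRoot_coe, infRoot_coe, ← Complex.exp_nat_mul]
  congr 1
  push_cast
  ring

/-- the expansion of `j(d(τ+b)/ℓ)` is `j_d(ζ^b q^{1/ℓ})`, in the variable `z = q^{1/(Nℓ)}` -/
theorem infGenExp_eq_twist (N ℓ d : ℕ) [NeZero N] [NeZero d] (b : ℤ) :
    haveI : NeZero (d * N) := ⟨Nat.mul_ne_zero (NeZero.ne d) (NeZero.ne N)⟩
    infGenExp (d * N) ((d : ℤ) * b) ℓ
      = qExpand ℂ N (infTwist (infRoot b ℓ) (coeffMap ιK (coeffEmb Kbar (qExpand ℚ d jq)))) := by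
  have : NeZero (d * N) := ⟨Nat.mul_ne_zero (NeZero.ne d) (NeZero.ne N)⟩
  rw [coeffMap_ιK_coeffEmb, coeffEmb, coeffMap_qExpand, infTwist_qExpand, qExpand_qExpand,
    infRoot_pow, infGenExp]
  have : coeffMap (algebraMap ℚ ℂ) jq = infJq := rfl
  rw [this]
  exact qExpand_congr (Nat.mul_comm d N) _

variable (N ℓ : ℕ) [NeZero N] [NeZero ℓ]

/-- the embedding `σ_g` at level `N ℓ` -/
def sig (g : SL(2, ℤ)) : FF (N * ℓ) →+* LaurentSeries ℂ :=
  (holBase (N * ℓ)).sigmaG (holBase (N * ℓ)).qexpExpansion g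

theorem sig_inclRN (g : SL(2, ℤ)) (r : RN (N * ℓ)) :
    sig N ℓ g (inclRN (N * ℓ) r)
      = (holBase (N * ℓ)).qexp ((holBase (N * ℓ)).compH g⁻¹ ((holBase (N * ℓ)).bridge r)) :=
  (holBase (N * ℓ)).sigmaG_inclRN _ g r

theorem sig_algebraMap (g : SL(2, ℤ)) (c : Kbar) :
    sig N ℓ g (algebraMap Kbar (FF (N * ℓ)) c) = HahnSeries.C (ιK c) :=
  (holBase (N * ℓ)).sigmaG_algebraMap _ g c

/-- the value of `qexp` from a convergent expansion -/
theorem qexp_eq_of_infExp {M : ℕ} [NeZero M] (h : (holBase M).Hol) {φ : LaurentSeries ℂ}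
    (hφ : InfExp M (h : ℍ → ℂ) φ) : (holBase M).qexp h = φ :=
  (expInf_spec (holToExp M h)).unique hφ

/-- `σ_1` is the formal comparison map `Φ_M`. -/
theorem sig_one (x : FF (N * ℓ)) :
    sig N ℓ 1 x = HolBase.Φ (N * ℓ) (x : LaurentSeries Kbar) := by
  obtain ⟨r, t, -, rfl⟩ := exists_div_inclRN (N * ℓ) x
  rw [map_div₀, sig_inclRN, sig_inclRN, inv_one, HolBase.compH_one, HolBase.compH_one,
    HolBase.qexp_bridge, HolBase.qexp_bridge]
  rw [IntermediateField.coe_div, map_div₀]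
  rfl

/-- Two ring homs out of `FF N` into a field agree if they agree on constants and on the
generators `j(q^d)`, `d ∣ N`. -/
theorem ringHom_ext_FF {E : Type*} [Field E] (f g : FF N →+* E)
    (hc : ∀ c : Kbar, f (algebraMap Kbar (FF N) c) = g (algebraMap Kbar (FF N) c))
    (hgen : ∀ (d : ℕ) [NeZero d] (hd : d ∣ N),
      f (inclRN N (jR N d hd)) = g (inclRN N (jR N d hd))) : f = g := by
  let f' : RN N →+* E := f.comp (inclRN N).toRingHom
  let g' : RN N →+* E := g.comp (inclRN N).toRingHom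
  have key' : ∀ r : RN N, f' r = g' r := by
    rintro ⟨r, hr⟩
    induction hr using Algebra.adjoin_induction with
    | mem x hx =>
        obtain ⟨y, ⟨d, hne, hd, rfl⟩, rfl⟩ := hx
        have : (⟨coeffEmb Kbar (qExpand ℚ d jq), Algebra.subset_adjoin
            ⟨_, ⟨d, hne, hd, rfl⟩, rfl⟩⟩ : RN N) = jR N d hd := rfl
        rw [this]
        exact hgen d hd
    | algebraMap c =>
        have : (⟨algebraMap Kbar (LaurentSeries Kbar) c, Subalgebra.algebraMap_mem _ c⟩ : RN N)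
            = algebraMap Kbar (RN N) c := rfl
        rw [this]
        show f (inclRN N (algebraMap Kbar (RN N) c)) = g (inclRN N (algebraMap Kbar (RN N) c))
        have e : inclRN N (algebraMap Kbar (RN N) c) = algebraMap Kbar (FF N) c := rfl
        rw [e]
        exact hc c
    | add x y hx hy ihx ihy =>
        have : (⟨x + y, add_mem hx hy⟩ : RN N) = ⟨x, hx⟩ + ⟨y, hy⟩ := rfl
        rw [this, map_add, map_add, ihx, ihy]
    | mul x y hx hy ihx ihy =>
        have : (⟨x * y, mul_mem hx hy⟩ : RN N) = ⟨x, hx⟩ * ⟨y, hy⟩ := rfl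
        rw [this, map_mul, map_mul, ihx, ihy]
  have key : ∀ r : RN N, f (inclRN N r) = g (inclRN N r) := key'
  ext x
  obtain ⟨r, t, -, rfl⟩ := exists_div_inclRN N x
  rw [map_div₀, map_div₀, key, key]

/-- the coercion `FF N → ℚ̄((q))` as a ring hom -/
def coeHom : FF N →+* LaurentSeries Kbar where
  toFun x := (x : LaurentSeries Kbar)
  map_one' := rfl
  map_mul' _ _ := rfl
  map_zero' := rfl
  map_add' _ _ := rfl

@[simp] theorem coeHom_apply (x : FF N) : coeHom N x = (x : LaurentSeries Kbar) := rfl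

theorem coe_inclRN_jR (d : ℕ) [NeZero d] (hd : d ∣ N) :
    ((inclRN N (jR N d hd) : FF N) : LaurentSeries Kbar) = coeffEmb Kbar (qExpand ℚ d jq) := rfl

theorem coe_algebraMap_FF (c : Kbar) :
    ((algebraMap Kbar (FF N) c : FF N) : LaurentSeries Kbar)
      = algebraMap Kbar (LaurentSeries Kbar) c := rfl

theorem alpha_inclRN_jR (d : ℕ) [NeZero d] (hd : d ∣ N) (hd' : d ∣ N * ℓ) :
    heckeAlphaBar Kbar N ℓ (inclRN N (jR N d hd)) = inclRN (N * ℓ) (jR (N * ℓ) d hd') := by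
  apply Subtype.ext
  rw [coe_heckeAlphaBar, coe_inclRN_jR, coe_inclRN_jR]

theorem beta_inclRN_jR (d : ℕ) [NeZero d] (hd : d ∣ N) [NeZero (d * ℓ)]
    (hdℓ : d * ℓ ∣ N * ℓ) :
    heckeBetaBar Kbar N ℓ (inclRN N (jR N d hd)) = inclRN (N * ℓ) (jR (N * ℓ) (d * ℓ) hdℓ) := by
  apply Subtype.ext
  rw [coe_heckeBetaBar, coe_inclRN_jR, coe_inclRN_jR, coeffEmb, ← coeffMap_qExpand,
    qExpand_qExpand]
  congr 1
  exact qExpand_congr (Nat.mul_comm ℓ d) _

theorem compH_JH_of_mem_gamma0 {h : SL(2, ℤ)} (hh : h ∈ CongruenceSubgroup.Gamma0 N)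
    (d : ℕ) (hd : d ∣ N) (hd' : d ∣ N * ℓ) :
    (holBase (N * ℓ)).compH h ((holBase (N * ℓ)).JH d hd') = (holBase (N * ℓ)).JH d hd' := by
  apply Subtype.ext
  funext τ
  exact Jd_inv N d hd h hh τ

/-- For `h ∈ Γ₀(N)` the embedding `σ_{h⁻¹}` restricts to `Φ_M` on `α(FF N)`. -/
theorem sig_alpha {h : SL(2, ℤ)} (hh : h ∈ CongruenceSubgroup.Gamma0 N) (y : FF N) :
    sig N ℓ h⁻¹ (heckeAlphaBar Kbar N ℓ y) = HolBase.Φ (N * ℓ) (y : LaurentSeries Kbar) := by
  have key := ringHom_ext_FF N ((sig N ℓ h⁻¹).comp (heckeAlphaBar Kbar N ℓ).toRingHom)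
    ((HolBase.Φ (N * ℓ)).comp (coeHom N)) ?_ ?_
  · exact RingHom.congr_fun key y
  · intro c
    rw [RingHom.comp_apply, RingHom.comp_apply, coeHom_apply, coe_algebraMap_FF,
      HolBase.Φ_algebraMap]
    have e : (heckeAlphaBar Kbar N ℓ).toRingHom (algebraMap Kbar (FF N) c)
        = algebraMap Kbar (FF (N * ℓ)) c := (heckeAlphaBar Kbar N ℓ).commutes c
    rw [e, sig_algebraMap]
  · intro d _ hd
    have hd' : d ∣ N * ℓ := Dvd.dvd.mul_right hd ℓ
    rw [RingHom.comp_apply, RingHom.comp_apply, coeHom_apply, coe_inclRN_jR]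
    have e : (heckeAlphaBar Kbar N ℓ).toRingHom (inclRN N (jR N d hd))
        = inclRN (N * ℓ) (jR (N * ℓ) d hd') := alpha_inclRN_jR N ℓ d hd hd'
    rw [e, sig_inclRN, HolBase.bridge_jR, inv_inv, (holBase (N * ℓ)).Φ_gen d hd',
      compH_JH_of_mem_gamma0 N ℓ hh d hd hd']

/-- For `h ∈ Γ₀(N)` with `h₁₁ ≡ b h₁₀ mod ℓ`, the embedding `σ_{h⁻¹}` is
`y ↦ y(ζ_ℓ^b q^{1/ℓ})` on `β(FF N)`. -/
theorem sig_beta {h : SL(2, ℤ)} (hh : h ∈ CongruenceSubgroup.Gamma0 N) {b : ℤ}
    (hb : (ℓ : ℤ) ∣ h 1 1 - b * h 1 0) (y : FF N) :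
    sig N ℓ h⁻¹ (heckeBetaBar Kbar N ℓ y)
      = qExpand ℂ N (infTwist (infRoot b ℓ) (coeffMap ιK (y : LaurentSeries Kbar))) := by
  have key := ringHom_ext_FF N ((sig N ℓ h⁻¹).comp (heckeBetaBar Kbar N ℓ).toRingHom)
    (((qExpand ℂ N).comp (infTwist (infRoot b ℓ))).comp ((coeffMap ιK).comp (coeHom N))) ?_ ?_
  · exact RingHom.congr_fun key y
  · intro c
    rw [RingHom.comp_apply, RingHom.comp_apply, RingHom.comp_apply, RingHom.comp_apply,
      coeHom_apply, coe_algebraMap_FF]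
    have e : (heckeBetaBar Kbar N ℓ).toRingHom (algebraMap Kbar (FF N) c)
        = algebraMap Kbar (FF (N * ℓ)) c := (heckeBetaBar Kbar N ℓ).commutes c
    rw [e, sig_algebraMap, algebraMap_laurentSeries_eq_single, coeffMap_single,
      infTwist_single, qExpand_single]
    simp [HahnSeries.C_apply]
  · intro d _ hd
    have hN0 : 0 < N := Nat.pos_of_ne_zero (NeZero.ne N)
    have hℓ0 : 0 < ℓ := Nat.pos_of_ne_zero (NeZero.ne ℓ)
    have hd0 : 0 < d := Nat.pos_of_dvd_of_pos hd hN0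
    have hdℓ : d * ℓ ∣ N * ℓ := Nat.mul_dvd_mul_right hd ℓ
    haveI hne1 : NeZero (d * ℓ) := ⟨Nat.mul_ne_zero (NeZero.ne d) (NeZero.ne ℓ)⟩
    haveI hne2 : NeZero (d * N) := ⟨Nat.mul_ne_zero (NeZero.ne d) (NeZero.ne N)⟩
    rw [RingHom.comp_apply, RingHom.comp_apply, RingHom.comp_apply, RingHom.comp_apply,
      coeHom_apply, coe_inclRN_jR]
    have e : (heckeBetaBar Kbar N ℓ).toRingHom (inclRN N (jR N d hd))
        = inclRN (N * ℓ) (jR (N * ℓ) (d * ℓ) hdℓ) := beta_inclRN_jR N ℓ d hd hdℓ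
    rw [e, sig_inclRN, HolBase.bridge_jR, inv_inv, ← infGenExp_eq_twist N ℓ d b]
    have hdvd : ((d : ℕ) : ℤ) ∣ h 1 0 := by
      rw [gamma0_mem_iff_dvd] at hh
      exact dvd_trans (by exact_mod_cast hd) hh
    obtain ⟨γ', h00, h01, h10, h11⟩ := exists_hnf_twist d ℓ b h hdvd hb
    have hexp : InfExp (N * ℓ) (fun τ => Fermat.Agent.S20.L1.jFun (infAff d ((d : ℤ) * b) ℓ τ))
        (infGenExp (d * N) ((d : ℤ) * b) ℓ) :=
      inf_J_infAff_exp infExp_jFun (e := d * N) (N := N * ℓ) ((d : ℤ) * b) hd0 hℓ0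
        (Nat.mul_pos hN0 hℓ0) (by ring)
    refine qexp_eq_of_infExp _ (hexp.congr fun τ => ?_)
    have hJ : (((holBase (N * ℓ)).compH h ((holBase (N * ℓ)).JH (d * ℓ) hdℓ) :
        (holBase (N * ℓ)).Hol) : ℍ → ℂ) τ = Jd (d * ℓ) (h • τ) := rfl
    rw [hJ]
    unfold Jd
    rw [inf_aff_smul_eq (Nat.mul_pos hd0 hℓ0) hd0 hℓ0 h γ' h00 h01 h10 h11 τ, jFun_smul']

end Fermat.Agent.S37.H819

end
end
-- ===== PACK-END S37/H819/Emb.lean

-- ===== PACK-BEGIN S18/H568/D2.lean
section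






/-!
# S18 / node D2 (helper568): transfer `CORE(M) → CORE(N)`

EXACT node statement of `origin/helper18:Fermat/Agent/S18/Integ/Skeleton.lean` (`node_d2`), with
`levelM N ℓ` unfolded (`levelM` lives in the skeleton file, which contains `sorry`):

    theorem node_d2 (N : ℕ) [NeZero N] {ℓ : ℕ} [Fact ℓ.Prime] (hℓN : ¬ ℓ ∣ N)
        (A : ValuationSubring Qb) (hA : A.LiesOverPrime ℓ) (m : ℕ) (hm : ¬ ℓ ∣ m) :
        CoreStatement (if ℓ = 3 then Nat.lcm N 2 else if ℓ = 2 then Nat.lcm N 3 else N) A m →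
          CoreStatement N A m

General form: `coreStatement_of_dvd` (any `N ∣ M` with `[F_M : F_N]` nonzero and prime to `m`).

Proof: (1) `IsInt A N U → IsInt A M U` (monotonicity of the function fields);
(2) for a place `w` of `F_M`, `ord_w(f) = e(w) · ord_{w|F_N}(f)` for `f ∈ F_N` (Prelude
`Place.ord_restrictAlong`), so `m ∣ div` is inherited; (3) norm trick
(`exists_pow_of_norm_coprime`); (4) degree `[F_{Np} : F_N] = p + 1` for `p ∤ N`
(helper988, `relfinrank_bar_mul_prime`, on main).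
-/

set_option autoImplicit false

noncomputable section

namespace Fermat.Agent.S18.H568

open ModularCurve AlgebraicCurve HahnSeries IntermediateField Module

section Generic

variable {K Ω : Type*} [Field K] [Field Ω] [Algebra K Ω] {E F : IntermediateField K Ω}

/-- `extendScalars h` and `F` (with the `E`-algebra structure along the inclusion) are the same
`E`-vector space. -/
def extendScalarsLinearEquiv568 (hEF : E ≤ F) :
    letI := (IntermediateField.inclusion hEF).toRingHom.toAlgebra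
    ↥(extendScalars hEF) ≃ₗ[E] F :=
  letI := (IntermediateField.inclusion hEF).toRingHom.toAlgebra
  { toFun := fun x => ⟨x.1, (mem_extendScalars hEF).mp x.2⟩
    invFun := fun x => ⟨x.1, (mem_extendScalars hEF).mpr x.2⟩
    map_add' := fun _ _ => rfl
    map_smul' := fun _ _ => rfl
    left_inv := fun _ => rfl
    right_inv := fun _ => rfl }

theorem finrank_inclusion_eq_relfinrank (hEF : E ≤ F) :
    letI := (IntermediateField.inclusion hEF).toRingHom.toAlgebra
    finrank E F = E.relfinrank F := by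
  letI := (IntermediateField.inclusion hEF).toRingHom.toAlgebra
  rw [relfinrank_eq_finrank_of_le hEF]
  exact (extendScalarsLinearEquiv568 hEF).finrank_eq.symm

theorem finiteDimensional_inclusion (hEF : E ≤ F) (h0 : E.relfinrank F ≠ 0) :
    letI := (IntermediateField.inclusion hEF).toRingHom.toAlgebra
    FiniteDimensional E F := by
  letI := (IntermediateField.inclusion hEF).toRingHom.toAlgebra
  apply FiniteDimensional.of_finrank_pos
  rw [finrank_inclusion_eq_relfinrank hEF]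
  exact Nat.pos_of_ne_zero h0

end Generic

/-- Monotonicity of `ℚ̄(X₀(N))` in the level. -/
theorem bar_le_of_dvd {N M : ℕ} [NeZero N] [NeZero M] (h : N ∣ M) :
    modularFunctionFieldBar N ≤ modularFunctionFieldBar M := by
  rw [Fermat.Agent.S28.H988.modularFunctionFieldBar_eq_fullC,
    Fermat.Agent.S28.H988.modularFunctionFieldBar_eq_fullC]
  exact full_degeneracyC_le _ h

theorem isInt_of_dvd {N M : ℕ} [NeZero N] [NeZero M] (h : N ∣ M) {A : ValuationSubring Qb}
    {U : LaurentSeries A} (hU : IsInt A N U) : IsInt A M U :=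
  ⟨bar_le_of_dvd h hU.1, full_degeneracyC_le _ h hU.2.1, hU.2.2⟩

theorem toF_ne_zero {N : ℕ} {A : ValuationSubring Qb} {U : LaurentSeries A}
    (hU : IsInt A N U) : toF hU ≠ 0 := by
  intro h0
  have h1 : coeffMap A.subtype U = 0 := congrArg Subtype.val h0
  have h2 : U = 0 := by
    ext n
    have := congrArg (fun f : LaurentSeries Qb => f.coeff n) h1
    simpa [coeffMap_coeff] using this
  exact hU.2.2 (by rw [h2]; exact map_zero _)

/-- **General transfer**: `CORE(M) → CORE(N)` for `N ∣ M` when `[F_M : F_N]` is finite and prime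
to `m`. -/
theorem coreStatement_of_dvd (N M : ℕ) [NeZero N] [NeZero M] (hNM : N ∣ M)
    (A : ValuationSubring Qb) (m : ℕ)
    (hd0 : (modularFunctionFieldBar N).relfinrank (modularFunctionFieldBar M) ≠ 0)
    (hcop : Nat.Coprime ((modularFunctionFieldBar N).relfinrank (modularFunctionFieldBar M)) m) :
    CoreStatement M A m → CoreStatement N A m := by
  intro hM U₁ U₂ h₁ h₂ hred hord
  have hle := bar_le_of_dvd hNM
  set φ : modularFunctionFieldBar N →ₐ[Qb] modularFunctionFieldBar M :=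
    IntermediateField.inclusion hle with hφdef
  letI : Algebra (modularFunctionFieldBar N) (modularFunctionFieldBar M) := algebraAlong φ
  haveI : IsScalarTower Qb (modularFunctionFieldBar N) (modularFunctionFieldBar M) :=
    isScalarTower_along φ
  haveI hfd : FiniteDimensional (modularFunctionFieldBar N) (modularFunctionFieldBar M) :=
    finiteDimensional_inclusion hle hd0
  have hfr : finrank (modularFunctionFieldBar N) (modularFunctionFieldBar M) =
      (modularFunctionFieldBar N).relfinrank (modularFunctionFieldBar M) :=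
    finrank_inclusion_eq_relfinrank hle
  have hφint : φ.toRingHom.IsIntegral := fun x =>
    (Algebra.IsIntegral.of_finite (modularFunctionFieldBar N) (modularFunctionFieldBar M)).isIntegral x
  have h₁' : IsInt A M U₁ := isInt_of_dvd hNM h₁
  have h₂' : IsInt A M U₂ := isInt_of_dvd hNM h₂
  have e₁ : toF h₁' = φ (toF h₁) := rfl
  have e₂ : toF h₂' = φ (toF h₂) := rfl
  obtain ⟨c, y, hc, hy, hcy⟩ := hM U₁ U₂ h₁' h₂' hred (fun w => by
    rw [e₁, e₂, Place.ord_restrictAlong φ hφint w, Place.ord_restrictAlong φ hφint w, ← mul_sub]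
    exact Dvd.dvd.mul_left (hord _) _)
  have hn₁ := toF_ne_zero h₁
  have hn₂ := toF_ne_zero h₂
  -- descend `u = toF h₁ / toF h₂`
  have hu : toF h₁ / toF h₂ ≠ 0 := div_ne_zero hn₁ hn₂
  have hkey : algebraMap (modularFunctionFieldBar N) (modularFunctionFieldBar M)
      (toF h₁ / toF h₂) = algebraMap Qb (modularFunctionFieldBar M) c * y ^ m := by
    have hn₂' : toF h₂' ≠ 0 := toF_ne_zero h₂'
    show φ (toF h₁ / toF h₂) = _
    rw [map_div₀, ← e₁, ← e₂, hcy, mul_div_assoc, div_self hn₂', mul_one]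
  obtain ⟨c', y', hc', hy', hfin⟩ :=
    exists_pow_of_norm_coprime m (by rw [hfr]; exact hcop) (toF h₁ / toF h₂) hu c hc y hy hkey
  refine ⟨c', y', hc', hy', ?_⟩
  rw [← hfin, div_mul_cancel₀ _ hn₂]

/-- Transfer along `N ∣ N * p`, `p` prime not dividing `N`, when `p + 1` is prime to `m`. -/
theorem coreStatement_of_mul_prime (N p : ℕ) [NeZero N] (hp : p.Prime) (hpN : ¬ p ∣ N)
    (A : ValuationSubring Qb) (m : ℕ) (h2 : Nat.Coprime (p + 1) m) :
    CoreStatement (N * p) A m → CoreStatement N A m := by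
  haveI : NeZero (N * p) := ⟨Nat.mul_ne_zero (NeZero.ne N) hp.ne_zero⟩
  have hdeg := Fermat.Agent.S28.H988.relfinrank_bar_mul_prime N p (NeZero.ne N) hp
  rw [if_neg hpN] at hdeg
  refine coreStatement_of_dvd N (N * p) (Dvd.intro p rfl) A m ?_ ?_
  · rw [hdeg]; exact Nat.succ_ne_zero p
  · rw [hdeg]; exact h2

/-- **NODE D2** (statement of `Integ/Skeleton.lean`, `levelM N ℓ` unfolded). -/
theorem node_d2 (N : ℕ) [NeZero N] {ℓ : ℕ} [Fact ℓ.Prime] (_hℓN : ¬ ℓ ∣ N)
    (A : ValuationSubring Qb) (_hA : A.LiesOverPrime ℓ) (m : ℕ) (hm : ¬ ℓ ∣ m) :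
    CoreStatement (if ℓ = 3 then Nat.lcm N 2 else if ℓ = 2 then Nat.lcm N 3 else N) A m →
      CoreStatement N A m := by
  split_ifs with h3 h2
  · -- ℓ = 3, M = lcm N 2
    subst h3
    by_cases h : 2 ∣ N
    · rw [Nat.lcm_eq_left h]; exact id
    · have hc : Nat.Coprime N 2 :=
        (Nat.coprime_comm.mp ((Nat.Prime.coprime_iff_not_dvd Nat.prime_two).mpr h))
      rw [hc.lcm_eq_mul]
      have hm3 : Nat.Coprime 3 m := (Nat.Prime.coprime_iff_not_dvd Nat.prime_three).mpr hm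
      exact coreStatement_of_mul_prime N 2 Nat.prime_two h A m hm3
  · -- ℓ = 2, M = lcm N 3
    subst h2
    by_cases h : 3 ∣ N
    · rw [Nat.lcm_eq_left h]; exact id
    · have hc : Nat.Coprime N 3 :=
        (Nat.coprime_comm.mp ((Nat.Prime.coprime_iff_not_dvd Nat.prime_three).mpr h))
      rw [hc.lcm_eq_mul]
      have hm2 : Nat.Coprime 2 m := (Nat.Prime.coprime_iff_not_dvd Nat.prime_two).mpr hm
      have hm4 : Nat.Coprime (3 + 1) m := by
        have : (3 + 1 : ℕ) = 2 ^ 2 := by norm_num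
        rw [this]
        exact Nat.Coprime.pow_left 2 hm2
      exact coreStatement_of_mul_prime N 3 Nat.prime_three h A m hm4
  · exact id

end Fermat.Agent.S18.H568

end

end
-- ===== PACK-END S18/H568/D2.lean

-- ===== PACK-BEGIN S18/H383/FF1Modular.lean
section






/-!
# S18 / "FF1 instances" (helper383): the standing hypotheses `Lib.RR.FF1` of the shared
Riemann–Roch library for the modular function fields in characteristic `ℓ`

Exact statements (sorry-free; from the characteristic-free bridge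
`Fermat.Agent.Lib.RR.H383.ff1_of_finite` and MOD.1 of helper739):

* `ff1_fullC k N hchar : Lib.RR.FF1 k (modularFunctionFieldFullC k N)` for every algebraically
  closed field `k` in which the primes dividing `N` are invertible (any characteristic);
* `ff1_residue N ℓ hℓ hℓN A hA : Lib.RR.FF1 (A/𝔪) (modularFunctionFieldFullC (A/𝔪) N)` for a
  valuation subring `A` of `ℚ̄` over `ℓ ∤ N`;
* `hasPrincipalDivisors_fullC`, `deg_eq_one_fullC`, `constStatement_fullC`, `t3Statement`;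
* `hpdStatement : Sq05.HpdStatement` (the product formula, characteristic-free, frozen shape).
-/

set_option autoImplicit false

open AlgebraicCurve ModularCurve IntermediateField

namespace Fermat.Agent.S18.H383

open Fermat.Agent.Lib.RR

section Generic

/-- **HPD.k** in the frozen shape of `Sq05/Spec.lean`. -/
theorem hpdStatement : Fermat.Agent.S18.Sq05.HpdStatement := by
  intro K F _ _ _ _ x hx hfin
  exact Fermat.Agent.Lib.RR.H383.hasPrincipalDivisors_of_finite hx

end Generic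

section Modular

variable (k : Type*) [Field k] [IsAlgClosed k] (N : ℕ) [NeZero N]

/-- `FF1` for `k(j(q^d) : d ∣ N)` over an algebraically closed field `k` in which the primes
dividing `N` are invertible. -/
theorem ff1_fullC (hchar : ∀ p : ℕ, p.Prime → p ∣ N → (p : k) ≠ 0) :
    FF1 k (modularFunctionFieldFullC k N) := by
  have := Fermat.Agent.S18.H739.finiteDimensional_adjoin_jC k N hchar
  exact Fermat.Agent.Lib.RR.H383.ff1_of_finite (Fermat.Agent.S18.H739.transcendental_jC k N)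

theorem hasPrincipalDivisors_fullC (hchar : ∀ p : ℕ, p.Prime → p ∣ N → (p : k) ≠ 0) :
    HasPrincipalDivisors k (modularFunctionFieldFullC k N) :=
  (ff1_fullC k N hchar).hpd

theorem deg_eq_one_fullC (hchar : ∀ p : ℕ, p.Prime → p ∣ N → (p : k) ≠ 0)
    (v : Place k (modularFunctionFieldFullC k N)) : v.deg = 1 :=
  (ff1_fullC k N hchar).deg_eq_one v

/-- CONST_Fk: a modular function over `k` without zeros and poles is constant. -/
theorem constStatement_fullC (hchar : ∀ p : ℕ, p.Prime → p ∣ N → (p : k) ≠ 0) :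
    Fermat.Agent.S18.Sq05.ConstStatement k (modularFunctionFieldFullC k N) := by
  intro u _ hu
  have := Fermat.Agent.S18.H739.finiteDimensional_adjoin_jC k N hchar
  obtain ⟨c, hc⟩ := Fermat.Agent.Lib.RR.H383.eq_algebraMap_of_forall_ord_eq_zero
    (Fermat.Agent.S18.H739.transcendental_jC k N) hu
  exact ⟨c, hc.symm⟩

end Modular

section Residue

variable (N : ℕ) [NeZero N] (ℓ : ℕ)

set_option synthInstance.maxHeartbeats 400000 in
/-- `FF1` for the function field of `X₀(N)` over the residue field of a valuation subring of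
`ℚ̄` above `ℓ ∤ N`. -/
theorem ff1_residue (hℓ : ℓ.Prime) (hℓN : ¬ ℓ ∣ N) (A : ValuationSubring (AlgebraicClosure ℚ))
    (hA : A.LiesOverPrime ℓ) :
    FF1 (IsLocalRing.ResidueField A)
      (modularFunctionFieldFullC (IsLocalRing.ResidueField A) N) := by
  have := Fermat.Agent.S18.H9.resAlgClosed _ A
  refine ff1_fullC _ N fun p hp hpN =>
    Fermat.Agent.S18.H9.resChar _ A ℓ p hℓ hp hA ?_
  rintro rfl
  exact hℓN hpN

/-- **T3** in the frozen shape of `Sq05/Spec.lean`. -/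
theorem t3Statement : Fermat.Agent.S18.Sq05.T3Statement := by
  intro N _ ℓ hℓ hℓN A hA
  have := Fermat.Agent.S18.H9.resAlgClosed _ A
  refine constStatement_fullC _ N fun p hp hpN =>
    Fermat.Agent.S18.H9.resChar _ A ℓ p hℓ hp hA ?_
  rintro rfl
  exact hℓN hpN

end Residue

end Fermat.Agent.S18.H383

end
-- ===== PACK-END S18/H383/FF1Modular.lean

-- ===== PACK-BEGIN S37/Red/H940/MainStatement.lean
section



/-!
# S37-RED (helper940): `MainStatement` is PROVED

`Fermat.Agent.S37.Red.H940.mainStatement : MainStatement` (interface `Red/Spec.lean`, helper40):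
over algebraically closed constants (`K` of characteristic `0`), every reduction datum with good
charts has a place reduction map `r` with (i), (ii) (`IsRed`) and (EC) (`EvalCompat`).

Proof: `mainStatement_of_fibreSum` (`Red/H940/Main.lean`, on the fibre-local core
`S37/H940/{Core,Assembly,Line,Chart}.lean`) applied to RED-A
`H160.fibreSumStatement` (helper160, on RED-A1 `H399.normRed` of helper399).
-/

set_option autoImplicit false

namespace Fermat.Agent.S37.Red.H940

open AlgebraicCurve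

universe u

/-- **RED-MAIN.** -/
theorem mainStatement : MainStatement.{u} :=
  mainStatement_of_fibreSum fun _ _ _ _ _ _ _ _ _ _ _ _ _ _ _ G _ => H160.fibreSumStatement G

/-- **RED-MAIN**, unbundled: a reduction datum with good charts has a place reduction map with
(i), (ii) and (EC). -/
theorem exists_isRed {K k F Fk : Type u} [Field K] [Field k] [Field F] [Field Fk]
    [Algebra K F] [Algebra k Fk] [IsAlgClosed K] [CharZero K] [IsAlgClosed k]
    {A : ValuationSubring K} {π : A →+* k} (G : Datum A π F Fk) (hG : G.Good) :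
    ∃ r : Place K F → Place k Fk, IsRed G r ∧ EvalCompat G r :=
  mainStatement K k F Fk A π G hG

end Fermat.Agent.S37.Red.H940

end
-- ===== PACK-END S37/Red/H940/MainStatement.lean

-- ===== PACK-BEGIN S24.lean
section







set_option autoImplicit false
open ModularCurve

namespace Fermat.Agent.S24

theorem result (N : ℕ) [NeZero N]
    [AlgebraicCurve.HasCanonicalDivisor (K := AlgebraicClosure ℚ) (F := ↥(ModularCurve.modularFunctionFieldBar N))] :
    (AlgebraicCurve.genus (AlgebraicClosure ℚ) ↥(ModularCurve.modularFunctionFieldBar N) : ℚ)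
      = ModularCurve.genusFormula N := by
  classical
  obtain ⟨P⟩ := nonempty_modularPackage N
  haveI := P.finiteDimensional
  haveI : Finite (XX N) := inferInstance
  have hex : ∃ ω : Ω[↥(modularFunctionFieldBar N)⁄AlgebraicClosure ℚ], ω ≠ 0 :=
    exists_differential_ne_zero (jF N) P.dataInf
  have h1728 : (0 : Kbar) ≠ 1728 := by norm_num
  have hdeg := degree_eq_of_localData (jF N) P.finrank_eq P.dataFin P.dataInf
    ({0, 1728} : Finset Kbar)
    (fun a ha => P.perm_generic a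
      (fun h => ha (by simp [h])) (fun h => ha (by simp [h])))
    hex.choose hex.choose_spec
    (AlgebraicCurve.canonicalDivisorOf hex.choose_spec)
    (fun v => AlgebraicCurve.canonicalDivisorOf_apply hex.choose_spec v)
  rw [Finset.sum_pair h1728, P.orbits_zero, P.orbits_1728, P.orbits_inf] at hdeg
  obtain ⟨g, hg⟩ := exists_genus_nat N
  have hc := card_XX N
  have hS := two_mul_numOrbits_S N
  have hST := three_mul_numOrbits_ST N
  have hT := numOrbits_T N
  have hgenus : AlgebraicCurve.genus (AlgebraicClosure ℚ) ↥(modularFunctionFieldBar N) = g := by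
    unfold AlgebraicCurve.genus
    rw [dif_pos hex]
    have : AlgebraicCurve.Divisor.degree (AlgebraicCurve.canonicalDivisorOf hex.choose_spec) + 2
        = 2 * (g : ℤ) := by
      rw [hdeg, ← hg]; ring
    rw [this]
    omega
  rw [hgenus]
  unfold genusFormula
  have hgQ : (2 : ℚ) * g = (Nat.card (XX N) : ℚ) + 2 - numOrbits (permOf N ModularGroup.S)
        - numOrbits (permOf N (ModularGroup.S * ModularGroup.T))
        - numOrbits (permOf N ModularGroup.T) := by
    have := congrArg (Int.cast : ℤ → ℚ) hg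
    push_cast at this
    linarith
  have hSQ : (2 : ℚ) * numOrbits (permOf N ModularGroup.S) = dedekindPsi N + nuTwo N := by
    exact_mod_cast hS
  have hSTQ : (3 : ℚ) * numOrbits (permOf N (ModularGroup.S * ModularGroup.T))
      = dedekindPsi N + 2 * nuThree N := by
    exact_mod_cast hST
  have hTQ : (numOrbits (permOf N ModularGroup.T) : ℚ) = cuspCount N := by
    exact_mod_cast hT
  have hcQ : (Nat.card (XX N) : ℚ) = dedekindPsi N := by
    exact_mod_cast hc
  linarith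

end Fermat.Agent.S24

end
-- ===== PACK-END S24.lean

-- ===== PACK-BEGIN A2/Mod/H751/Fricke.lean
section




/-!
# A2 / MOD, leaves L4 (`FrickeExists`) and L5 (`FrickeCompat`)  (helper751)

* `FE_induction` : induction principle for the function field `F_{N,K} = K(j_d : d ∣ N)`
  (any field `K ⊇ ℚ`): a predicate holding on the constants and on the generators `j_d`, stable
  under `+`, `*`, `⁻¹`, holds everywhere;
* `ringHom_ext_FE` : two ring homomorphisms out of `F_{N,K}` agreeing on constants and generators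
  are equal;
* `frickeCompat : FrickeCompatStatement E M q`  (**L5**);
* `frickeExists : FrickeExistsStatement E`  (**L4**), by descent of `H528.wF` (the Fricke
  involution over `ℚ̄`) along the coefficientwise inclusion `ι : F_{N,E} → F_{N,ℚ̄}`;
  `frickeE`, `iotaE_frickeE : ι (W_E f) = w_N (ι f)`.
-/

set_option autoImplicit false
set_option synthInstance.maxHeartbeats 400000
set_option maxHeartbeats 1600000

noncomputable section

namespace Fermat.Agent.A2.Mod.H751

open ModularCurve HahnSeries Polynomial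

/-! ### Induction on the function field `K(j_d : d ∣ N)` -/

section Induction

variable {K : Type*} [Field K] [Algebra ℚ K] (N : ℕ)

/-- The generator `j_d = j(t^d)` of `F_{N,K}`. -/
def jK (K : Type*) [Field K] [Algebra ℚ K] (N d : ℕ) [NeZero d] (hd : d ∣ N) :
    ↥(laurentBaseChange K (modularFunctionFieldFull N)) :=
  ⟨coeffEmb K (qExpand ℚ d jq), coeffEmb_mem_laurentBaseChange K (jqd_mem_full N hd)⟩

theorem coeffEmb_algebraMap (c : ℚ) :
    coeffEmb K (algebraMap ℚ (LaurentSeries ℚ) c)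
      = algebraMap K (LaurentSeries K) (algebraMap ℚ K c) := by
  rw [algebraMap_apply_eq_single, algebraMap_laurentSeries_eq_single, coeffEmb, coeffMap_single]

/-- **Induction principle for `F_{N,K}`.** -/
theorem FE_induction
    (p : ↥(laurentBaseChange K (modularFunctionFieldFull N)) → Prop)
    (hc : ∀ e : K, p (algebraMap K _ e))
    (hj : ∀ (d : ℕ) [NeZero d] (hd : d ∣ N), p (jK K N d hd))
    (hadd : ∀ x y, p x → p y → p (x + y))
    (hmul : ∀ x y, p x → p y → p (x * y))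
    (hinv : ∀ x, p x → p x⁻¹) :
    ∀ x, p x := by
  -- step 1: the rational functions
  have key1 : ∀ y ∈ modularFunctionFieldFull N,
      ∀ h : coeffEmb K y ∈ laurentBaseChange K (modularFunctionFieldFull N),
        p ⟨coeffEmb K y, h⟩ := by
    intro y hy
    have hy0 : y ∈ IntermediateField.adjoin ℚ (divisorExpansions N) := hy
    induction hy0 using IntermediateField.adjoin_induction with
    | mem z hz =>
        intro h
        obtain ⟨d, hne, hd, rfl⟩ := hz
        haveI := hne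
        exact hj d hd
    | algebraMap c =>
        intro h
        have h1 : (⟨coeffEmb K (algebraMap ℚ (LaurentSeries ℚ) c), h⟩ :
            ↥(laurentBaseChange K (modularFunctionFieldFull N)))
            = algebraMap K _ (algebraMap ℚ K c) := Subtype.ext (coeffEmb_algebraMap c)
        rw [h1]
        exact hc _
    | add a b ha hb iha ihb =>
        intro h
        have ha' := coeffEmb_mem_laurentBaseChange K (F₀ := modularFunctionFieldFull N) ha
        have hb' := coeffEmb_mem_laurentBaseChange K (F₀ := modularFunctionFieldFull N) hb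
        have h1 : (⟨coeffEmb K (a + b), h⟩ :
            ↥(laurentBaseChange K (modularFunctionFieldFull N)))
            = ⟨coeffEmb K a, ha'⟩ + ⟨coeffEmb K b, hb'⟩ := Subtype.ext (map_add _ _ _)
        rw [h1]
        exact hadd _ _ (iha ha ha') (ihb hb hb')
    | inv a ha iha =>
        intro h
        have ha' := coeffEmb_mem_laurentBaseChange K (F₀ := modularFunctionFieldFull N) ha
        have h1 : (⟨coeffEmb K (a⁻¹), h⟩ :
            ↥(laurentBaseChange K (modularFunctionFieldFull N)))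
            = (⟨coeffEmb K a, ha'⟩ : ↥(laurentBaseChange K (modularFunctionFieldFull N)))⁻¹ :=
          Subtype.ext (map_inv₀ _ _)
        rw [h1]
        exact hinv _ (iha ha ha')
    | mul a b ha hb iha ihb =>
        intro h
        have ha' := coeffEmb_mem_laurentBaseChange K (F₀ := modularFunctionFieldFull N) ha
        have hb' := coeffEmb_mem_laurentBaseChange K (F₀ := modularFunctionFieldFull N) hb
        have h1 : (⟨coeffEmb K (a * b), h⟩ :
            ↥(laurentBaseChange K (modularFunctionFieldFull N)))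
            = ⟨coeffEmb K a, ha'⟩ * ⟨coeffEmb K b, hb'⟩ := Subtype.ext (map_mul _ _ _)
        rw [h1]
        exact hmul _ _ (iha ha ha') (ihb hb hb')
  -- step 2: the whole field
  have key2 : ∀ x (h : x ∈ laurentBaseChange K (modularFunctionFieldFull N)), p ⟨x, h⟩ := by
    intro x hx
    have hx0 : x ∈ IntermediateField.adjoin K
        (⇑(coeffEmb K) '' ((modularFunctionFieldFull N : IntermediateField ℚ (LaurentSeries ℚ)) :
          Set (LaurentSeries ℚ))) := hx
    induction hx0 using IntermediateField.adjoin_induction with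
    | mem z hz =>
        obtain ⟨y, hy, rfl⟩ := hz
        exact key1 y hy hx
    | algebraMap c =>
        have h1 : (⟨algebraMap K (LaurentSeries K) c, hx⟩ :
            ↥(laurentBaseChange K (modularFunctionFieldFull N))) = algebraMap K _ c := rfl
        rw [h1]
        exact hc c
    | add a b ha hb iha ihb =>
        have h1 : (⟨a + b, hx⟩ : ↥(laurentBaseChange K (modularFunctionFieldFull N)))
            = ⟨a, ha⟩ + ⟨b, hb⟩ := rfl
        rw [h1]
        exact hadd ⟨a, ha⟩ ⟨b, hb⟩ (iha ha) (ihb hb)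
    | inv a ha iha =>
        have h1 : (⟨a⁻¹, hx⟩ : ↥(laurentBaseChange K (modularFunctionFieldFull N)))
            = (⟨a, ha⟩ : ↥(laurentBaseChange K (modularFunctionFieldFull N)))⁻¹ := rfl
        rw [h1]
        exact hinv ⟨a, ha⟩ (iha ha)
    | mul a b ha hb iha ihb =>
        have h1 : (⟨a * b, hx⟩ : ↥(laurentBaseChange K (modularFunctionFieldFull N)))
            = ⟨a, ha⟩ * ⟨b, hb⟩ := rfl
        rw [h1]
        exact hmul ⟨a, ha⟩ ⟨b, hb⟩ (iha ha) (ihb hb)
  intro x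
  exact key2 x.1 x.2

/-- Two ring homomorphisms out of `F_{N,K}` which agree on the constants and on the generators
`j_d`, `d ∣ N`, are equal. -/
theorem ringHom_ext_FE {T : Type*} [DivisionRing T]
    (φ ψ : ↥(laurentBaseChange K (modularFunctionFieldFull N)) →+* T)
    (hc : ∀ e : K, φ (algebraMap K _ e) = ψ (algebraMap K _ e))
    (hj : ∀ (d : ℕ) [NeZero d] (hd : d ∣ N), φ (jK K N d hd) = ψ (jK K N d hd)) :
    ∀ x, φ x = ψ x := by
  refine FE_induction N (fun x => φ x = ψ x) hc hj ?_ ?_ ?_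
  · intro x y hx hy
    show φ (x + y) = ψ (x + y)
    rw [map_add, map_add, hx, hy]
  · intro x y hx hy
    show φ (x * y) = ψ (x * y)
    rw [map_mul, map_mul, hx, hy]
  · intro x hx
    show φ x⁻¹ = ψ x⁻¹
    rw [map_inv₀, map_inv₀, hx]

end Induction

/-! ### L5: compatibility of the Fricke involutions with `α`, `β` -/

section L5

variable (E : IntermediateField ℚ _root_.Fermat.Agent.A2.Mod.Qb) (M q : ℕ) [NeZero M] [NeZero q]

theorem jE_eq_jK (N d : ℕ) [NeZero d] (hd : d ∣ N) : jE E N d hd = jK E N d hd := rfl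

/-- `α j_d = j_d`. -/
theorem alpha_jE (d : ℕ) [NeZero d] (hd : d ∣ M) :
    αE E M q (jE E M d hd) = jE E (M * q) d (hd.trans (dvd_mul_right M q)) :=
  Subtype.ext (coe_heckeAlphaBar M q _)

/-- `β j_d = j_{qd}`. -/
theorem beta_jE (d : ℕ) [NeZero d] (hd : d ∣ M) :
    βE E M q (jE E M d hd)
      = jE E (M * q) (q * d) (by rw [mul_comm M q]; exact mul_dvd_mul_left q hd) := by
  apply Subtype.ext
  show qExpand E q (coeffEmb E (qExpand ℚ d jq)) = coeffEmb E (qExpand ℚ (q * d) jq)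
  rw [coeffEmb, ← ModularCurve.coeffMap_qExpand, qExpand_qExpand]

theorem jE_congr (N : ℕ) {d d' : ℕ} [NeZero d] [NeZero d'] (h : d = d') (hd : d ∣ N)
    (hd' : d' ∣ N) : jE E N d hd = jE E N d' hd' := by
  subst h
  rfl

/-- **L5** (`FrickeCompat`). -/
theorem frickeCompat : FrickeCompatStatement E M q := by
  intro WM WN hWM hWN
  have hM0 : 0 < M := Nat.pos_of_ne_zero (NeZero.ne M)
  have key1 : ∀ f : _root_.Fermat.Agent.A2.Mod.FE E M, WN (αE E M q f) = βE E M q (WM f) := by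
    refine ringHom_ext_FE M
      ((WN : _root_.Fermat.Agent.A2.Mod.FE E (M * q) →+* _root_.Fermat.Agent.A2.Mod.FE E (M * q)).comp (αE E M q : _root_.Fermat.Agent.A2.Mod.FE E M →+* _root_.Fermat.Agent.A2.Mod.FE E (M * q)))
      ((βE E M q : _root_.Fermat.Agent.A2.Mod.FE E M →+* _root_.Fermat.Agent.A2.Mod.FE E (M * q)).comp (WM : _root_.Fermat.Agent.A2.Mod.FE E M →+* _root_.Fermat.Agent.A2.Mod.FE E M)) ?_ ?_
    · intro e
      show WN (αE E M q (algebraMap E _ e)) = βE E M q (WM (algebraMap E _ e))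
      rw [AlgHom.commutes, AlgEquiv.commutes, AlgEquiv.commutes, AlgHom.commutes]
    · intro d _ hd
      show WN (αE E M q (jE E M d hd)) = βE E M q (WM (jE E M d hd))
      have hd0 : 0 < d := Nat.pos_of_dvd_of_pos hd hM0
      haveI : NeZero (M / d) := ⟨(Nat.div_pos (Nat.le_of_dvd hM0 hd) hd0).ne'⟩
      have h1 : WM (jE E M d hd) = jE E M (M / d) (Nat.div_dvd_of_dvd hd) :=
        hWM.1 d (M / d) hd (Nat.div_dvd_of_dvd hd) (Nat.mul_div_cancel' hd)
      have hdvd : q * (M / d) ∣ M * q := by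
        rw [mul_comm M q]; exact mul_dvd_mul_left q (Nat.div_dvd_of_dvd hd)
      have h2 : WN (jE E (M * q) d (hd.trans (dvd_mul_right M q)))
          = jE E (M * q) (q * (M / d)) hdvd :=
        hWN.1 d (q * (M / d)) _ hdvd (by
          rw [mul_left_comm, Nat.mul_div_cancel' hd, mul_comm])
      rw [alpha_jE, h2, h1, beta_jE]
  have key2 : ∀ f : _root_.Fermat.Agent.A2.Mod.FE E M, WN (βE E M q f) = αE E M q (WM f) := by
    refine ringHom_ext_FE M
      ((WN : _root_.Fermat.Agent.A2.Mod.FE E (M * q) →+* _root_.Fermat.Agent.A2.Mod.FE E (M * q)).comp (βE E M q : _root_.Fermat.Agent.A2.Mod.FE E M →+* _root_.Fermat.Agent.A2.Mod.FE E (M * q)))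
      ((αE E M q : _root_.Fermat.Agent.A2.Mod.FE E M →+* _root_.Fermat.Agent.A2.Mod.FE E (M * q)).comp (WM : _root_.Fermat.Agent.A2.Mod.FE E M →+* _root_.Fermat.Agent.A2.Mod.FE E M)) ?_ ?_
    · intro e
      show WN (βE E M q (algebraMap E _ e)) = αE E M q (WM (algebraMap E _ e))
      rw [AlgHom.commutes, AlgEquiv.commutes, AlgEquiv.commutes, AlgHom.commutes]
    · intro d _ hd
      show WN (βE E M q (jE E M d hd)) = αE E M q (WM (jE E M d hd))
      have hd0 : 0 < d := Nat.pos_of_dvd_of_pos hd hM0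
      haveI : NeZero (M / d) := ⟨(Nat.div_pos (Nat.le_of_dvd hM0 hd) hd0).ne'⟩
      have h1 : WM (jE E M d hd) = jE E M (M / d) (Nat.div_dvd_of_dvd hd) :=
        hWM.1 d (M / d) hd (Nat.div_dvd_of_dvd hd) (Nat.mul_div_cancel' hd)
      have hdvd : q * d ∣ M * q := by
        rw [mul_comm M q]; exact mul_dvd_mul_left q hd
      have hdvd' : M / d ∣ M * q := (Nat.div_dvd_of_dvd hd).trans (dvd_mul_right M q)
      have h2 : WN (jE E (M * q) (q * d) hdvd) = jE E (M * q) (M / d) hdvd' :=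
        hWN.1 (q * d) (M / d) hdvd hdvd' (by
          rw [mul_assoc, Nat.mul_div_cancel' hd, mul_comm])
      rw [beta_jE, h2, h1, alpha_jE]
  exact fun f => ⟨key1 f, key2 f⟩

end L5

/-! ### L4: the Fricke involution over `E`, by descent from `ℚ̄` -/

section L4

open Fermat.Agent.S24 Fermat.Agent.A2.H528

variable (E : IntermediateField ℚ _root_.Fermat.Agent.A2.Mod.Qb) (N : ℕ)

/-- The comparison map `ι : F_{N,E} → F_{N,ℚ̄}` (inclusion of the coefficients). -/
def iotaE : _root_.Fermat.Agent.A2.Mod.FE E N →+* FF N where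
  toFun y := ⟨coeffMap (algebraMap E _root_.Fermat.Agent.A2.Mod.Qb) (y : LaurentSeries E),
    Fermat.Agent.S18.H602.coeffMap_mem_laurentBaseChange _ (algebraMap E _root_.Fermat.Agent.A2.Mod.Qb) y.2⟩
  map_one' := Subtype.ext (map_one (coeffMap (algebraMap E _root_.Fermat.Agent.A2.Mod.Qb)))
  map_mul' _ _ := Subtype.ext (map_mul (coeffMap (algebraMap E _root_.Fermat.Agent.A2.Mod.Qb)) _ _)
  map_zero' := Subtype.ext (map_zero (coeffMap (algebraMap E _root_.Fermat.Agent.A2.Mod.Qb)))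
  map_add' _ _ := Subtype.ext (map_add (coeffMap (algebraMap E _root_.Fermat.Agent.A2.Mod.Qb)) _ _)

theorem coe_iotaE (y : _root_.Fermat.Agent.A2.Mod.FE E N) :
    ((iotaE E N y : FF N) : LaurentSeries Kbar)
      = coeffMap (algebraMap E _root_.Fermat.Agent.A2.Mod.Qb) (y : LaurentSeries E) := rfl

theorem iotaE_injective : Function.Injective (iotaE E N) := (iotaE E N).injective

theorem iotaE_algebraMap (e : E) :
    iotaE E N (algebraMap E (_root_.Fermat.Agent.A2.Mod.FE E N) e) = algebraMap Kbar (FF N) (e : _root_.Fermat.Agent.A2.Mod.Qb) := by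
  apply Subtype.ext
  show coeffMap (algebraMap E _root_.Fermat.Agent.A2.Mod.Qb) (algebraMap E (LaurentSeries E) e) = _
  rw [Fermat.Agent.S18.H602.coeffMap_algebraMap']
  rfl

theorem iotaE_jE (d : ℕ) [NeZero d] (hd : d ∣ N) : iotaE E N (jE E N d hd) = jFd N d hd := by
  apply Subtype.ext
  show coeffMap (algebraMap E _root_.Fermat.Agent.A2.Mod.Qb) (coeffEmb E (qExpand ℚ d jq)) = coeffEmb Kbar (qExpand ℚ d jq)
  exact Fermat.Agent.S18.H602.coeffMap_coeffEmb' _ _

variable [NeZero N]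

/-- `w_N` preserves the `E`-rational functions. -/
theorem exists_iotaE_eq_wF (f : _root_.Fermat.Agent.A2.Mod.FE E N) : ∃ g : _root_.Fermat.Agent.A2.Mod.FE E N, iotaE E N g = wF N (iotaE E N f) := by
  refine FE_induction N (fun f => ∃ g : _root_.Fermat.Agent.A2.Mod.FE E N, iotaE E N g = wF N (iotaE E N f)) ?_ ?_ ?_ ?_ ?_ f
  · intro e
    refine ⟨algebraMap E (_root_.Fermat.Agent.A2.Mod.FE E N) e, ?_⟩
    rw [iotaE_algebraMap, AlgEquiv.commutes]
  · intro d _ hd
    haveI := neZero_div N hd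
    refine ⟨jE E N (N / d) (Nat.div_dvd_of_dvd hd), ?_⟩
    show iotaE E N (jE E N (N / d) (Nat.div_dvd_of_dvd hd)) = wF N (iotaE E N (jE E N d hd))
    rw [iotaE_jE, iotaE_jE, wF_jFd]
  · rintro x y ⟨a, ha⟩ ⟨b, hb⟩
    exact ⟨a + b, by rw [map_add, map_add, map_add, ha, hb]⟩
  · rintro x y ⟨a, ha⟩ ⟨b, hb⟩
    exact ⟨a * b, by rw [map_mul, map_mul, map_mul, ha, hb]⟩
  · rintro x ⟨a, ha⟩
    exact ⟨a⁻¹, by rw [map_inv₀, map_inv₀, map_inv₀, ha]⟩

/-- The Fricke involution of `F_{N,E}`, as a function. -/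
def frickeFun (f : _root_.Fermat.Agent.A2.Mod.FE E N) : _root_.Fermat.Agent.A2.Mod.FE E N := Classical.choose (exists_iotaE_eq_wF E N f)

theorem iotaE_frickeFun (f : _root_.Fermat.Agent.A2.Mod.FE E N) : iotaE E N (frickeFun E N f) = wF N (iotaE E N f) :=
  Classical.choose_spec (exists_iotaE_eq_wF E N f)

/-- The Fricke involution of `F_{N,E}`, as an `E`-algebra homomorphism. -/
def frickeHom : _root_.Fermat.Agent.A2.Mod.FE E N →ₐ[E] _root_.Fermat.Agent.A2.Mod.FE E N where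
  toFun := frickeFun E N
  map_one' := iotaE_injective E N (by rw [iotaE_frickeFun, map_one, map_one])
  map_mul' x y := iotaE_injective E N (by
    rw [iotaE_frickeFun, map_mul, map_mul, map_mul, iotaE_frickeFun, iotaE_frickeFun])
  map_zero' := iotaE_injective E N (by rw [iotaE_frickeFun, map_zero, map_zero])
  map_add' x y := iotaE_injective E N (by
    rw [iotaE_frickeFun, map_add, map_add, map_add, iotaE_frickeFun, iotaE_frickeFun])
  commutes' e := iotaE_injective E N (by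
    rw [iotaE_frickeFun, iotaE_algebraMap, AlgEquiv.commutes])

theorem iotaE_frickeHom (f : _root_.Fermat.Agent.A2.Mod.FE E N) : iotaE E N (frickeHom E N f) = wF N (iotaE E N f) :=
  iotaE_frickeFun E N f

theorem frickeHom_frickeHom (f : _root_.Fermat.Agent.A2.Mod.FE E N) : frickeHom E N (frickeHom E N f) = f :=
  iotaE_injective E N (by rw [iotaE_frickeHom, iotaE_frickeHom, wF_wF])

/-- **The Fricke involution `W_E` of `F_{N,E}` over `E`.** -/
def frickeE : _root_.Fermat.Agent.A2.Mod.FE E N ≃ₐ[E] _root_.Fermat.Agent.A2.Mod.FE E N :=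
  AlgEquiv.ofAlgHom (frickeHom E N) (frickeHom E N)
    (AlgHom.ext fun f => frickeHom_frickeHom E N f)
    (AlgHom.ext fun f => frickeHom_frickeHom E N f)

/-- `ι (W_E f) = w_N (ι f)`. -/
theorem iotaE_frickeE (f : _root_.Fermat.Agent.A2.Mod.FE E N) : iotaE E N (frickeE E N f) = wF N (iotaE E N f) :=
  iotaE_frickeFun E N f

theorem frickeE_frickeE (f : _root_.Fermat.Agent.A2.Mod.FE E N) : frickeE E N (frickeE E N f) = f :=
  frickeHom_frickeHom E N f

theorem frickeE_jE (d : ℕ) [NeZero d] (hd : d ∣ N) :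
    haveI := neZero_div N hd
    frickeE E N (jE E N d hd) = jE E N (N / d) (Nat.div_dvd_of_dvd hd) := by
  haveI := neZero_div N hd
  apply iotaE_injective E N
  rw [iotaE_frickeE, iotaE_jE, iotaE_jE, wF_jFd]

theorem isFricke_frickeE : IsFricke E N (frickeE E N) := by
  refine ⟨?_, frickeE_frickeE E N⟩
  intro d d' _ _ hd hd' hdd
  have hN : 0 < N := Nat.pos_of_ne_zero (NeZero.ne N)
  have hd0 : 0 < d := Nat.pos_of_dvd_of_pos hd hN
  have h : N / d = d' := Nat.div_eq_of_eq_mul_right hd0 hdd.symm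
  haveI := neZero_div N hd
  rw [frickeE_jE]
  exact jE_congr E N h _ _

end L4

/-- **L4** (`FrickeExists`). -/
theorem frickeExists (E : IntermediateField ℚ _root_.Fermat.Agent.A2.Mod.Qb) : FrickeExistsStatement E := by
  intro N hN
  haveI : NeZero N := ⟨hN⟩
  exact ⟨frickeE E N, isFricke_frickeE E N⟩

end Fermat.Agent.A2.Mod.H751

end
end
-- ===== PACK-END A2/Mod/H751/Fricke.lean

-- ===== PACK-BEGIN S18/H144/ConstF.lean
section



/-!
# S18 / T2 (CONST_F): a function without zeros and poles is constant (characteristic `0`)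

* `constOfOrdZero_of_finite` : generic version, `K` algebraically closed of characteristic `0`,
  `F / K(x)` finite for some transcendental `x`.
* `constOfOrdZero_modularFunctionFieldBar` : the instance `F = modularFunctionFieldBar N`,
  i.e. `H94.ConstOfOrdZero (AlgebraicClosure ℚ) (modularFunctionFieldBar N)` unfolded.
-/

set_option autoImplicit false

noncomputable section

open AlgebraicCurve IntermediateField ModularCurve

namespace Fermat.Agent.S18.H144

open Fermat.Agent.S24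

/-- A nonconstant function has a zero; hence a function without zeros is constant. -/
theorem constOfOrdZero_of_finite {K F : Type*} [Field K] [Field F] [Algebra K F]
    [IsAlgClosed K] [CharZero K] {x : F} (hx : Transcendental K x) [FiniteDimensional K⟮x⟯ F]
    (u : F) (hu : ∀ v : Place K F, v.ord u ≤ 0) : ∃ c : K, u = algebraMap K F c := by
  by_contra hcon
  have hnot : u ∉ (algebraMap K F).range := by
    rintro ⟨c, hc⟩
    exact hcon ⟨c, hc.symm⟩
  have htr : Transcendental K u := FF.transcendental_of_not_mem_range hnot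
  have : FiniteDimensional K⟮u⟯ F := FF.finiteDimensional_adjoin_of_transcendental hx htr
  have hsum := FF.sum_ord_eq_finrank htr (∅ : Finset (Place K F))
    (fun v => by
      simp only [Finset.notMem_empty, false_iff, not_lt]
      exact hu v)
  rw [Finset.sum_empty] at hsum
  have hpos : 0 < Module.finrank K⟮u⟯ F := Module.finrank_pos
  have : (0 : ℤ) < (Module.finrank K⟮u⟯ F : ℤ) := by exact_mod_cast hpos
  omega

/-- The `j`-function is transcendental over `ℚ̄`. -/
theorem transcendental_jF (N : ℕ) [NeZero N] : Transcendental Kbar (jF N) := by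
  obtain ⟨P⟩ := nonempty_modularPackage N
  apply FF.transcendental_of_not_mem_range
  rintro ⟨c, hc⟩
  have x : XX N := ((1 : Matrix.SpecialLinearGroup (Fin 2) ℤ) : XX N)
  have h1 := P.dataInf.σ_t_order x
  have h2 : (jF N)⁻¹ = algebraMap Kbar (FF N) c⁻¹ := by rw [map_inv₀, hc]
  have h3 : (P.dataInf.σ x (jF N)⁻¹).order = 0 := by
    have := P.dataInf.σ_const x c⁻¹
    rw [← h2] at this
    rw [this, HahnSeries.order_C]
  have := P.dataInf.m_pos
  omega

/-- **T2 (CONST_F).** In the function field of `X₀(N)` over `ℚ̄`, a function without zeros and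
poles is constant. -/
theorem constOfOrdZero_modularFunctionFieldBar (N : ℕ) [NeZero N]
    (u : modularFunctionFieldBar N) (_hu0 : u ≠ 0)
    (hu : ∀ v : Place (AlgebraicClosure ℚ) (modularFunctionFieldBar N), v.ord u = 0) :
    ∃ c : AlgebraicClosure ℚ, u = algebraMap (AlgebraicClosure ℚ) (modularFunctionFieldBar N) c := by
  obtain ⟨P⟩ := nonempty_modularPackage N
  have := P.finiteDimensional
  exact constOfOrdZero_of_finite (transcendental_jF N) u (fun v => (hu v).le)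

end Fermat.Agent.S18.H144

end
end
-- ===== PACK-END S18/H144/ConstF.lean

-- ===== PACK-BEGIN A2/Mod/H372/S3Base.lean
section







/-!
# A2 / MODASM S3, concrete base (helper372)

Mod/Spec language (`FE E N`, `IsVinf`, `InW`, `chartAlg`, `αE`, `βE`).

* `alpha_mem`, `alpha_jE`, `beta_jE`, `alpha_cE`, `beta_cE` : the degeneracy maps on generators,
  constants and the Gauss valuation rings;
* `inW_jE_sub_pow` : **Kronecker congruence for the generators** `j_{dq} ≡ j_d ^ q mod w V∞`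
  (`H528.exists_frobCong`);
* `mem_chartAlg_iff` : `chartAlg` (helper13 `Asm.lean`) = `chart` (helper994 `Spec.lean`)
  = integrality along `R_E[X] → F`, `X ↦ y`;
* `isIntegralElem_trans`, `mem_of_alpha_mem`, `isUnif_comap`, ...
-/

set_option autoImplicit false
set_option synthInstance.maxHeartbeats 400000
set_option maxHeartbeats 1600000
set_option linter.unusedSectionVars false
set_option linter.style.haveILetI false

noncomputable section

namespace Fermat.Agent.A2.Mod.H372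

open ModularCurve HahnSeries Polynomial

/-! ## Generalities -/

section General

variable {F : Type*} [Field F]

/-- elements integral over `R[y]`, `R, y ⊆ V`, lie in the valuation ring `V`. -/
theorem mem_of_isIntegralElem (V : ValuationSubring F) {R : Type*} [CommRing R] (c : R →+* F)
    (y : F) (hcV : ∀ r, c r ∈ V) (hyV : y ∈ V) {b : F}
    (hb : (Polynomial.eval₂RingHom c y).IsIntegralElem b) : b ∈ V := by
  set cV : R →+* V := c.codRestrict V hcV with hcV'
  set yV : V := ⟨y, hyV⟩ with hyV'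
  have hcomp : (V.subtype).comp (Polynomial.eval₂RingHom cV yV) = Polynomial.eval₂RingHom c y := by
    apply Polynomial.ringHom_ext
    · intro r
      simp [cV]
    · simp [yV]
  have hint : IsIntegral V b := by
    obtain ⟨p, hp, hpb⟩ := hb
    refine ⟨p.map (Polynomial.eval₂RingHom cV yV), hp.map _, ?_⟩
    rw [Polynomial.eval₂_map]
    have : (algebraMap V F).comp (Polynomial.eval₂RingHom cV yV) =
        Polynomial.eval₂RingHom c y := hcomp
    rw [this]
    exact hpb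
  obtain ⟨v, hv⟩ := (IsIntegrallyClosed.isIntegral_iff (R := V) (K := F)).mp hint
  rw [← hv]
  exact v.2

/-- transitivity of integrality over `R[y]`. -/
theorem isIntegralElem_trans {R : Type*} [CommRing R] (c : R →+* F) {y z b : F}
    (hz : (Polynomial.eval₂RingHom c y).IsIntegralElem z)
    (hb : (Polynomial.eval₂RingHom c z).IsIntegralElem b) :
    (Polynomial.eval₂RingHom c y).IsIntegralElem b := by
  letI : Algebra (Polynomial R) F := (Polynomial.eval₂RingHom c y).toAlgebra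
  have hzT : z ∈ integralClosure (Polynomial R) F := hz
  have hcT : ∀ r, c r ∈ integralClosure (Polynomial R) F := by
    intro r
    have : c r = algebraMap (Polynomial R) F (Polynomial.C r) := by
      show c r = Polynomial.eval₂RingHom c y (Polynomial.C r)
      simp
    rw [this]
    exact Subalgebra.algebraMap_mem _ _
  have h1 : IsIntegral (integralClosure (Polynomial R) F) b := by
    refine isIntegralElem_of_forall_exists (Polynomial.eval₂RingHom c z) _ (fun p => ?_) hb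
    refine ⟨⟨Polynomial.eval₂ c z p, ?_⟩, rfl⟩
    rw [Polynomial.eval₂_eq_sum_range]
    refine Subalgebra.sum_mem _ (fun i _ => ?_)
    exact Subalgebra.mul_mem _ (hcT _) (Subalgebra.pow_mem _ hzT _)
  exact isIntegral_trans (R := Polynomial R) (A := integralClosure (Polynomial R) F) b h1

/-- `a - b ∈ ϖ V` with `a, b` units of `V` ⟹ `a⁻¹ - b⁻¹ ∈ ϖ V`. -/
theorem inv_sub_inv_mul_mem (V : ValuationSubring F) {ϖ a b : F} (ha0 : a ≠ 0) (hb0 : b ≠ 0)
    (ha : a⁻¹ ∈ V) (hb : b⁻¹ ∈ V) (h : (a - b) * ϖ⁻¹ ∈ V) : (a⁻¹ - b⁻¹) * ϖ⁻¹ ∈ V := by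
  have : (a⁻¹ - b⁻¹) * ϖ⁻¹ = -((a - b) * ϖ⁻¹ * a⁻¹ * b⁻¹) := by
    field_simp
    ring
  rw [this]
  exact V.neg_mem _ (V.mul_mem _ _ (V.mul_mem _ _ h ha) hb)

/-- transport of a uniformiser along an automorphism fixing it. -/
theorem isUnif_comap {V : ValuationSubring F} {ϖ : F} (hu : H48.IsUnif V ϖ) (W : F →+* F)
    (hW : W ϖ = ϖ) : H48.IsUnif (V.comap W) ϖ where
  mem := by
    rw [ValuationSubring.mem_comap, hW]
    exact hu.mem
  inv_not_mem := by
    rw [ValuationSubring.mem_comap, map_inv₀, hW]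
    exact hu.inv_not_mem
  gen := by
    intro f hf hfinv
    rw [ValuationSubring.mem_comap] at hf hfinv ⊢
    rw [map_mul, map_inv₀, hW]
    rw [map_inv₀] at hfinv
    exact hu.gen _ hf hfinv

end General

/-! ## Levels -/

section Levels

variable (P : ValuationSubring _root_.Fermat.Agent.A2.Mod.Qb) (E : IntermediateField ℚ _root_.Fermat.Agent.A2.Mod.Qb) (M q : ℕ) [NeZero M] [NeZero q]
  (w : _root_.Fermat.Agent.A2.Mod.RE P E)

theorem alpha_cE (r : _root_.Fermat.Agent.A2.Mod.RE P E) : αE E M q (cE P E M r) = cE P E (M * q) r :=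
  (αE E M q).commutes (r : E)

theorem beta_cE (r : _root_.Fermat.Agent.A2.Mod.RE P E) : βE E M q (cE P E M r) = cE P E (M * q) r :=
  (βE E M q).commutes (r : E)

variable {P E M q}

/-- `α` maps `V∞_M` into `V∞_{Mq}`. -/
theorem alpha_mem {VM : ValuationSubring (_root_.Fermat.Agent.A2.Mod.FE E M)} {V : ValuationSubring (_root_.Fermat.Agent.A2.Mod.FE E (M * q))}
    (hVM : IsVinf P E M VM) (hV : IsVinf P E (M * q) V) {f : _root_.Fermat.Agent.A2.Mod.FE E M} (hf : f ∈ VM) :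
    αE E M q f ∈ V := by
  rw [hV, coe_heckeAlphaBar]
  obtain ⟨U₁, U₂, hred, hmem, he⟩ := (hVM f).mp hf
  refine ⟨U₁, U₂, hred, ?_, he⟩
  have h := (αE E M q ⟨_, hmem⟩).2
  rwa [coe_heckeAlphaBar] at h

theorem alpha_jE (d : ℕ) [NeZero d] (hd : d ∣ M) :
    αE E M q (jE E M d hd) = jE E (M * q) d (hd.mul_right q) := by
  apply Subtype.ext
  rw [coe_heckeAlphaBar]
  rfl

theorem beta_jE (d : ℕ) [NeZero d] (hd : d ∣ M) :
    βE E M q (jE E M d hd) = jE E (M * q) (d * q) (mul_dvd_mul_right hd q) := by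
  apply Subtype.ext
  rw [coe_heckeBetaBar]
  show qExpand E q (coeffEmb E (qExpand ℚ d jq)) = coeffEmb E (qExpand ℚ (d * q) jq)
  rw [coeffEmb, ← coeffMap_qExpand, qExpand_qExpand, qExpand_congr (mul_comm q d)]

/-- `q = w r` in `R_E`. -/
theorem exists_q_eq (hS : Setting P E M q w) : ∃ r : _root_.Fermat.Agent.A2.Mod.RE P E, (q : _root_.Fermat.Agent.A2.Mod.RE P E) = w * r := by
  have hnu : ¬ IsUnit ((q : ℕ) : _root_.Fermat.Agent.A2.Mod.RE P E) := by
    intro hu
    obtain ⟨s, hs⟩ := isUnit_iff_exists_inv.mp hu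
    have h1 : ((q : ℕ) : _root_.Fermat.Agent.A2.Mod.Qb) * ((s : E) : _root_.Fermat.Agent.A2.Mod.Qb) = 1 := by
      have := congrArg (fun t : _root_.Fermat.Agent.A2.Mod.RE P E => ((t : E) : _root_.Fermat.Agent.A2.Mod.Qb)) hs
      simpa using this
    have hq : ((q : ℕ) : _root_.Fermat.Agent.A2.Mod.Qb) ∈ P.nonunits := hS.lies_over
    rw [ValuationSubring.mem_nonunits_iff] at hq
    have hs' : ((s : E) : _root_.Fermat.Agent.A2.Mod.Qb) ∈ P := s.2
    have hv : P.valuation ((s : E) : _root_.Fermat.Agent.A2.Mod.Qb) ≤ 1 := (P.valuation_le_one_iff _).mpr hs'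
    have h2 := congrArg P.valuation h1
    rw [map_mul, map_one] at h2
    have h3 : P.valuation ((q : ℕ) : _root_.Fermat.Agent.A2.Mod.Qb) * P.valuation ((s : E) : _root_.Fermat.Agent.A2.Mod.Qb) < 1 :=
      lt_of_le_of_lt (mul_le_of_le_one_right' hv) hq
    exact absurd h2 (ne_of_lt h3)
  have := hS.dvr
  have hmem : ((q : ℕ) : _root_.Fermat.Agent.A2.Mod.RE P E) ∈ IsLocalRing.maximalIdeal (_root_.Fermat.Agent.A2.Mod.RE P E) :=
    (IsLocalRing.mem_maximalIdeal _).mpr hnu
  rw [hS.unif.maximalIdeal_eq, Ideal.mem_span_singleton'] at hmem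
  obtain ⟨r, hr⟩ := hmem
  exact ⟨r, by rw [← hr, mul_comm]⟩

theorem cE_mem (hS : Setting P E M q w) {N : ℕ} {V : ValuationSubring (_root_.Fermat.Agent.A2.Mod.FE E N)}
    (hV : IsVinf P E N V) (r : _root_.Fermat.Agent.A2.Mod.RE P E) : cE P E N r ∈ V := by
  have := hS.dvr
  exact (H553.algebraMap_mem_iff P E hV _).mpr r.2

theorem cE_ne_zero (hS : Setting P E M q w) (N : ℕ) : cE P E N w ≠ 0 := by
  have hw0 : (w : E) ≠ 0 := fun h0 => hS.unif.ne_zero (Subtype.ext h0)
  exact (map_ne_zero_iff _ (algebraMap E (_root_.Fermat.Agent.A2.Mod.FE E N)).injective).mpr hw0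

/-- **Kronecker congruence for the generators**: `j_{dq} ≡ j_d ^ q mod w V∞`. -/
theorem inW_jE_sub_pow (hS : Setting P E M q w) {V : ValuationSubring (_root_.Fermat.Agent.A2.Mod.FE E (M * q))}
    (hV : IsVinf P E (M * q) V) (d : ℕ) [NeZero d] (hd : d ∣ M) :
    InW P E (M * q) V w (jE E (M * q) (d * q) (mul_dvd_mul_right hd q) -
      (jE E (M * q) d (hd.mul_right q)) ^ q) := by
  haveI : Fact q.Prime := ⟨hS.q_prime⟩
  obtain ⟨g, hg⟩ := H528.exists_frobCong q (H708.jInt d)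
  have hj : H708.jInt (d * q) = qExpand ℤ q (H708.jInt d) := by
    unfold H708.jInt jqNModC
    rw [qExpand_qExpand, qExpand_congr (mul_comm q d)]
  obtain ⟨r, hr⟩ := exists_q_eq w hS
  set D : _root_.Fermat.Agent.A2.Mod.FE E (M * q) := jE E (M * q) (d * q) (mul_dvd_mul_right hd q) -
      (jE E (M * q) d (hd.mul_right q)) ^ q with hD
  have hqC : HahnSeries.C ((q : ℕ) : ℤ) = ((q : ℕ) : LaurentSeries ℤ) := map_natCast _ q
  have hcoe : (D : LaurentSeries E) = ((q : ℕ) : LaurentSeries E) * coeffEmb E (H708.castQ g) := by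
    have h1 : (D : LaurentSeries E) = coeffEmb E (H708.castQ (H708.jInt (d * q))) -
        (coeffEmb E (H708.castQ (H708.jInt d))) ^ q := by
      rw [← H553.coe_jE (E := E) (M * q) (d * q) (mul_dvd_mul_right hd q),
        ← H553.coe_jE (E := E) (M * q) d (hd.mul_right q)]
      rfl
    rw [h1, hj, ← map_pow, ← map_pow, ← map_sub, ← map_sub, hg, hqC, map_mul, map_mul,
      map_natCast, map_natCast]
  have hq0 : ((q : ℕ) : _root_.Fermat.Agent.A2.Mod.FE E (M * q)) ≠ 0 := by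
    exact_mod_cast hS.q_prime.ne_zero
  set G : _root_.Fermat.Agent.A2.Mod.FE E (M * q) := D * ((q : ℕ) : _root_.Fermat.Agent.A2.Mod.FE E (M * q))⁻¹ with hG
  have hGcoe : (G : LaurentSeries E) = coeffEmb E (H708.castQ g) := by
    have hqcoe : (((q : ℕ) : _root_.Fermat.Agent.A2.Mod.FE E (M * q)) : LaurentSeries E) = ((q : ℕ) : LaurentSeries E) :=
      rfl
    have hq0' : ((q : ℕ) : LaurentSeries E) ≠ 0 := by
      rw [← hqcoe]
      exact fun h => hq0 (Subtype.ext h)
    have h2 : (G : LaurentSeries E) = (D : LaurentSeries E) * ((q : ℕ) : LaurentSeries E)⁻¹ := by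
      rw [hG, IntermediateField.coe_mul, IntermediateField.coe_inv, hqcoe]
    rw [h2, hcoe, mul_comm, ← mul_assoc, inv_mul_cancel₀ hq0', one_mul]
  have hGV : G ∈ V := H553.mem_of_int hV hGcoe
  have hqF : ((q : ℕ) : _root_.Fermat.Agent.A2.Mod.FE E (M * q)) = cE P E (M * q) w * cE P E (M * q) r := by
    have := congrArg (algebraMap (_root_.Fermat.Agent.A2.Mod.RE P E) (_root_.Fermat.Agent.A2.Mod.FE E (M * q))) hr
    rw [map_natCast, map_mul] at this
    exact this
  have hfin : D * (cE P E (M * q) w)⁻¹ = G * cE P E (M * q) r := by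
    have hw0 := cE_ne_zero w hS (M * q)
    have hDG : D = G * ((q : ℕ) : _root_.Fermat.Agent.A2.Mod.FE E (M * q)) := by
      rw [hG, mul_assoc, inv_mul_cancel₀ hq0, mul_one]
    rw [hDG, hqF]
    field_simp
  show D * (cE P E (M * q) w)⁻¹ ∈ V
  rw [hfin]
  exact V.mul_mem _ _ hGV (cE_mem w hS hV r)


/-- `w` is a uniformiser of `V∞` (leaf L2, `H553.vinfBasic`). -/
theorem unifE (hS : Setting P E M q w) {N : ℕ} (hN : N ≠ 0) {V : ValuationSubring (_root_.Fermat.Agent.A2.Mod.FE E N)}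
    (hV : IsVinf P E N V) : H48.IsUnif V (cE P E N w) :=
  (H553.vinfBasic P E w N hN hS.dvr hS.unif V hV).1

theorem jE_mem (hS : Setting P E M q w) {N : ℕ} (hN : N ≠ 0) {V : ValuationSubring (_root_.Fermat.Agent.A2.Mod.FE E N)}
    (hV : IsVinf P E N V) (d : ℕ) [NeZero d] (hd : d ∣ N) : jE E N d hd ∈ V :=
  ((H553.vinfBasic P E w N hN hS.dvr hS.unif V hV).2.2 d hd).1

theorem jE_inv_mem (hS : Setting P E M q w) {N : ℕ} (hN : N ≠ 0) {V : ValuationSubring (_root_.Fermat.Agent.A2.Mod.FE E N)}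
    (hV : IsVinf P E N V) (d : ℕ) [NeZero d] (hd : d ∣ N) : (jE E N d hd)⁻¹ ∈ V :=
  ((H553.vinfBasic P E w N hN hS.dvr hS.unif V hV).2.2 d hd).2

theorem jE_congr {N d d' : ℕ} [NeZero d] [NeZero d'] (h : d = d') (hd : d ∣ N) (hd' : d' ∣ N) :
    jE E N d hd = jE E N d' hd' := by
  subst h
  rfl

theorem level_ne_zero (hS : Setting P E M q w) : M * q ≠ 0 :=
  mul_ne_zero hS.M_ne_zero hS.q_prime.ne_zero

/-- `q ∈ w V∞`. -/
theorem q_mul_inv_mem (hS : Setting P E M q w) {V : ValuationSubring (_root_.Fermat.Agent.A2.Mod.FE E (M * q))}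
    (hV : IsVinf P E (M * q) V) :
    ((q : ℕ) : _root_.Fermat.Agent.A2.Mod.FE E (M * q)) * (cE P E (M * q) w)⁻¹ ∈ V := by
  obtain ⟨r, hr⟩ := exists_q_eq w hS
  have hqF : ((q : ℕ) : _root_.Fermat.Agent.A2.Mod.FE E (M * q)) = cE P E (M * q) w * cE P E (M * q) r := by
    have := congrArg (algebraMap (_root_.Fermat.Agent.A2.Mod.RE P E) (_root_.Fermat.Agent.A2.Mod.FE E (M * q))) hr
    rw [map_natCast, map_mul] at this
    exact this
  have hw0 := cE_ne_zero w hS (M * q)
  have : ((q : ℕ) : _root_.Fermat.Agent.A2.Mod.FE E (M * q)) * (cE P E (M * q) w)⁻¹ = cE P E (M * q) r := by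
    rw [hqF]
    field_simp
  rw [this]
  exact cE_mem w hS hV r

/-- `α` reflects membership in the Gauss valuation rings: `V∞_{Mq} ∩ F_M = V∞_M`. -/
theorem mem_of_alpha_mem (hS : Setting P E M q w) {VM : ValuationSubring (_root_.Fermat.Agent.A2.Mod.FE E M)}
    {V : ValuationSubring (_root_.Fermat.Agent.A2.Mod.FE E (M * q))} (hVM : IsVinf P E M VM) (hV : IsVinf P E (M * q) V)
    {x : _root_.Fermat.Agent.A2.Mod.FE E M} (hx : αE E M q x ∈ V) : x ∈ VM := by
  by_contra hxV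
  have hx0 : x ≠ 0 := fun h0 => hxV (h0 ▸ VM.zero_mem)
  have hinv : x⁻¹ ∈ VM := (VM.mem_or_inv_mem x).resolve_left hxV
  have huM := unifE w hS hS.M_ne_zero hVM
  have huN := unifE w hS (level_ne_zero w hS) hV
  have h1 : x⁻¹ * (cE P E M w)⁻¹ ∈ VM := huM.gen _ hinv (by rwa [inv_inv])
  have h2 := alpha_mem hVM hV h1
  rw [map_mul, map_inv₀, map_inv₀, alpha_cE] at h2
  apply huN.inv_not_mem
  have hαx0 : αE E M q x ≠ 0 := (map_ne_zero_iff _ (αE E M q).toRingHom.injective).mpr hx0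
  have : (cE P E (M * q) w)⁻¹ = αE E M q x * ((αE E M q x)⁻¹ * (cE P E (M * q) w)⁻¹) := by
    rw [← mul_assoc, mul_inv_cancel₀ hαx0, one_mul]
  rw [this]
  exact V.mul_mem _ _ hx h2

/-- `chartAlg` in terms of integrality along `R_E[X] → F`, `X ↦ y` (= `chart` of `Spec.lean`). -/
theorem mem_chartAlg_iff {N : ℕ} {y f : _root_.Fermat.Agent.A2.Mod.FE E N} :
    f ∈ chartAlg P E N y ↔
      (Polynomial.eval₂RingHom (algebraMap (_root_.Fermat.Agent.A2.Mod.RE P E) (_root_.Fermat.Agent.A2.Mod.FE E N)) y).IsIntegralElem f := by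
  rw [mem_chartAlg]
  constructor
  · intro h
    refine isIntegralElem_of_forall_exists
      (algebraMap (Algebra.adjoin (_root_.Fermat.Agent.A2.Mod.RE P E) ({y} : Set (_root_.Fermat.Agent.A2.Mod.FE E N))) (_root_.Fermat.Agent.A2.Mod.FE E N)) _ (fun c => ?_) h
    obtain ⟨p, hp⟩ := Algebra.adjoin_mem_exists_aeval (_root_.Fermat.Agent.A2.Mod.RE P E) y c.2
    exact ⟨p, hp⟩
  · intro h
    refine isIntegralElem_of_forall_exists _
      (algebraMap (Algebra.adjoin (_root_.Fermat.Agent.A2.Mod.RE P E) ({y} : Set (_root_.Fermat.Agent.A2.Mod.FE E N))) (_root_.Fermat.Agent.A2.Mod.FE E N)) (fun p => ?_) h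
    exact ⟨⟨Polynomial.aeval y p, Polynomial.aeval_mem_adjoin_singleton (_root_.Fermat.Agent.A2.Mod.RE P E) y⟩, rfl⟩

theorem mem_chart_iff {N : ℕ} {y f : _root_.Fermat.Agent.A2.Mod.FE E N} : f ∈ chart P E N y ↔ f ∈ chartAlg P E N y :=
  mem_chartAlg_iff.symm

end Levels

end Fermat.Agent.A2.Mod.H372

end
end
-- ===== PACK-END A2/Mod/H372/S3Base.lean

-- ===== PACK-BEGIN Ribet/H785/KummerGen.lean
section


/-!
# RIBET row 38, WALL-p, leaf INST-F (helper785), part (b): the Kummer generator of a class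

Setting of the crux (S4) (`H944.Wall.S4For`): `A ∣ p` a place of `ℚ̄`, `I` its inertia group,
`I₁ ⊆ I` the subgroup acting trivially on `μ_p` (so `K₁ = ℚ̄^{I₁}`), `x, t` two classes with
`σ t = χ(σ) t`, `σ x = x + n(σ) t` for `σ ∈ I`, `p t = 0`, and `x` fixed by the peu ramifiée
subgroup.  Then the field of definition `E' = K₁(x)` of `x` over `K₁` is `K₁(u)` for a UNIT `u`
of `A` with `u ^ p ∈ K₁`, and `σ u = ζ ^ n(σ) u` for `σ ∈ I₁` (`ζ` any primitive `p`-th root of
unity): `exists_kummer_unit`.  Since `u` is a unit, `c := u ^ p` has `v(c) = 0`, in particular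
`p ∣ v(c)`: this is the hypothesis `hpeu` of `I6.sheet_shift` and `u` is the element `u` of
`I6.PeriodStatement` (with `ζ⁻¹` in place of `ζ`).

Proof: Lagrange resolvents of an element `θ` of the field of definition which is moved by a
generator `σ₁` (`σ₁ x = x + t`) give `u₀ ≠ 0` with `σ u₀ = ζ ^ n(σ) u₀`; `u₀` is fixed by the peu
ramifiée subgroup, so `u₀ = z · y` with `z ∈ K₁` and `y` a unit by `peu_kummer` (`PeuCore.lean`).
-/

set_option autoImplicit false
set_option linter.style.haveILetI false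

namespace Fermat.Agent.Ribet.H785

section Resolvent

variable {K L : Type*} [Field K] [Field L] [Algebra K L]

/-- The Lagrange resolvent `∑_{i<p} w ^ i · σ ^ i θ`. -/
noncomputable def resolventSum (p : ℕ) (σ : L ≃ₐ[K] L) (w θ : L) : L :=
  ∑ i ∈ Finset.range p, w ^ i * (σ ^ i) θ

/-- `w · σ R = R` for the resolvent `R` of `θ` w.r.t. the `p`-th root of unity `w`. -/
theorem mul_apply_resolventSum (p : ℕ) (σ : L ≃ₐ[K] L) {w θ : L} (hw : w ^ p = 1)
    (hσw : σ w = w) (hθ : (σ ^ p) θ = θ) :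
    w * σ (resolventSum p σ w θ) = resolventSum p σ w θ := by
  unfold resolventSum
  rw [map_sum, Finset.mul_sum]
  have h1 : ∀ i ∈ Finset.range p,
      w * σ (w ^ i * (σ ^ i) θ) = w ^ (i + 1) * (σ ^ (i + 1)) θ := by
    intro i _
    rw [map_mul, map_pow, hσw, pow_succ' σ i, AlgEquiv.mul_apply, ← mul_assoc, ← pow_succ']
  rw [Finset.sum_congr rfl h1]
  have h2 := Finset.sum_range_succ' (fun i => w ^ i * (σ ^ i) θ) p
  have h3 := Finset.sum_range_succ (fun i => w ^ i * (σ ^ i) θ) p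
  rw [h2] at h3
  simp only [pow_zero, one_mul, hw, hθ, AlgEquiv.one_apply] at h3
  exact add_right_cancel h3

/-- The resolvent is fixed by every automorphism fixing `w` and the conjugates `σ ^ i θ`. -/
theorem apply_resolventSum_eq (p : ℕ) (σ ν : L ≃ₐ[K] L) {w θ : L} (hνw : ν w = w)
    (hν : ∀ i : ℕ, ν ((σ ^ i) θ) = (σ ^ i) θ) :
    ν (resolventSum p σ w θ) = resolventSum p σ w θ := by
  unfold resolventSum
  rw [map_sum]
  refine Finset.sum_congr rfl fun i _ => ?_
  rw [map_mul, map_pow, hνw, hν i]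

/-- The resolvents of `θ` w.r.t. all `p`-th roots of unity add up to `p · θ`. -/
theorem sum_resolventSum {p : ℕ} (hp : p.Prime) {ζ : L} (hζ : IsPrimitiveRoot ζ p)
    (σ : L ≃ₐ[K] L) (θ : L) :
    ∑ j ∈ Finset.range p, resolventSum p σ (ζ ^ j) θ = p * θ := by
  unfold resolventSum
  rw [Finset.sum_comm]
  have h1 : ∀ i ∈ Finset.range p, ∑ j ∈ Finset.range p, (ζ ^ j) ^ i * (σ ^ i) θ
      = if i = 0 then (p : L) * θ else 0 := by
    intro i hi
    rw [← Finset.sum_mul]
    split_ifs with h0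
    · subst h0
      simp
    · have hi' : i < p := Finset.mem_range.mp hi
      have hcop : i.Coprime p := (Nat.coprime_of_lt_prime h0 hi' hp).symm
      have h2 : ∑ j ∈ Finset.range p, (ζ ^ j) ^ i = ∑ j ∈ Finset.range p, (ζ ^ i) ^ j :=
        Finset.sum_congr rfl fun j _ => by rw [← pow_mul, ← pow_mul, mul_comm]
      rw [h2, (hζ.pow_of_coprime i hcop).geom_sum_eq_zero hp.one_lt, zero_mul]
  rw [Finset.sum_congr rfl h1, Finset.sum_ite_eq' (Finset.range p) 0]
  simp [hp.pos]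

/-- Some resolvent w.r.t. a NONTRIVIAL `p`-th root of unity of an element moved by `σ` does not
vanish. -/
theorem exists_resolventSum_ne_zero {p : ℕ} (hp : p.Prime) (hpL : (p : L) ≠ 0) {ζ : L}
    (hζ : IsPrimitiveRoot ζ p) (σ : L ≃ₐ[K] L) {θ : L} (hθp : (σ ^ p) θ = θ) (hθ : σ θ ≠ θ) :
    ∃ j : ℕ, 0 < j ∧ j < p ∧ resolventSum p σ (ζ ^ j) θ ≠ 0 := by
  by_contra hcon
  push Not at hcon
  have h1 : ∀ j ∈ Finset.range p, resolventSum p σ (ζ ^ j) θ
      = if j = 0 then resolventSum p σ 1 θ else 0 := by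
    intro j hj
    split_ifs with h0
    · rw [h0, pow_zero]
    · exact hcon j (Nat.pos_of_ne_zero h0) (Finset.mem_range.mp hj)
  have h2 := sum_resolventSum hp hζ σ θ
  rw [Finset.sum_congr rfl h1, Finset.sum_ite_eq' (Finset.range p) 0,
    if_pos (Finset.mem_range.mpr hp.pos)] at h2
  have h3 := mul_apply_resolventSum p σ (w := 1) (one_pow p) (map_one σ) hθp
  rw [one_mul, h2, map_mul, map_natCast] at h3
  exact hθ (mul_left_cancel₀ hpL h3)

/-- **Lagrange resolvent.**  If `σ` fixes the primitive `p`-th root of unity `ζ` and moves `θ`,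
`σ ^ p θ = θ`, there is `u ≠ 0` with `σ u = ζ u`, fixed by every automorphism fixing `ζ` and the
conjugates `σ ^ i θ`. -/
theorem exists_eigen_of_not_fixed {p : ℕ} (hp : p.Prime) (hpL : (p : L) ≠ 0) {ζ : L}
    (hζ : IsPrimitiveRoot ζ p) (σ : L ≃ₐ[K] L) (hσζ : σ ζ = ζ) {θ : L}
    (hθp : (σ ^ p) θ = θ) (hθ : σ θ ≠ θ) :
    ∃ u : L, u ≠ 0 ∧ σ u = ζ * u ∧
      ∀ ν : L ≃ₐ[K] L, ν ζ = ζ → (∀ i : ℕ, ν ((σ ^ i) θ) = (σ ^ i) θ) → ν u = u := by
  haveI : NeZero p := ⟨hp.ne_zero⟩
  obtain ⟨j, hj0, hjp, hR⟩ := exists_resolventSum_ne_zero hp hpL hζ σ hθp hθ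
  set w : L := ζ ^ j with hw
  set R : L := resolventSum p σ w θ with hRdef
  have hwp : w ^ p = 1 := by rw [hw, ← pow_mul, mul_comm, pow_mul, hζ.pow_eq_one, one_pow]
  have hσw : σ w = w := by rw [hw, map_pow, hσζ]
  have hw0 : w ≠ 0 := pow_ne_zero _ (hζ.ne_zero hp.ne_zero)
  have hσR : σ R = w⁻¹ * R := by
    have h := mul_apply_resolventSum p σ hwp hσw hθp
    rw [eq_inv_mul_iff_mul_eq₀ hw0]
    exact h
  have hwprim : IsPrimitiveRoot w⁻¹ p :=
    (hζ.pow_of_coprime j (Nat.coprime_of_lt_prime hj0.ne' hjp hp).symm).inv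
  obtain ⟨m, -, hm⟩ := hwprim.eq_pow_of_pow_eq_one hζ.pow_eq_one
  refine ⟨R ^ m, pow_ne_zero _ hR, ?_, ?_⟩
  · rw [map_pow, hσR, mul_pow, hm]
  · intro ν hνζ hν
    rw [map_pow, apply_resolventSum_eq p σ ν (by rw [hw, map_pow, hνζ]) hν]

end Resolvent

open Fermat.Agent.Ribet.Spec Fermat.Agent.Ribet.H944.Wall Fermat.Agent.S55.Bridge
  Fermat.Agent.A2.IF

attribute [local instance] isAlgebraic_Qbar isGalois_Qbar

local notation "Qb" => AlgebraicClosure ℚ

section Closed

variable (A : ValuationSubring Qb) (p : ℕ)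

/-- `I₁` is closed. -/
theorem isClosed_inertiaOne : IsClosed ((inertiaOne A p : Subgroup GQ) : Set GQ) := by
  have h : ((inertiaOne A p : Subgroup GQ) : Set GQ)
      = ((A.inertiaSubgroupIn ℚ : Subgroup GQ) : Set GQ) ∩
        ⋂ ζ : Qb, ⋂ (_ : ζ ^ p = 1), {σ : GQ | σ ζ ∈ ({ζ ^ 1} : Set Qb)} := by
    ext σ
    simp only [SetLike.mem_coe, mem_inertiaOne_iff, Set.mem_inter_iff, Set.mem_iInter,
      Set.mem_ofPred_eq, Set.mem_singleton_iff]
  rw [h]
  exact (H9.isClosed_inertiaSubgroupIn A).inter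
    (isClosed_iInter fun ζ => isClosed_iInter fun _ => H9.isClosed_setOf_apply_mem ζ _)

/-- Galois correspondence for closed subgroups: an automorphism outside a closed subgroup `N`
moves some element of the fixed field of `N`. -/
theorem exists_fixed_not_fixed (N : Subgroup GQ) (hN : IsClosed (N : Set GQ)) {σ : GQ}
    (hσ : σ ∉ N) : ∃ θ : Qb, (∀ ν ∈ N, ν θ = θ) ∧ σ θ ≠ θ := by
  by_contra hcon
  push Not at hcon
  let H : ClosedSubgroup GQ := ⟨N, hN⟩
  have hH := InfiniteGalois.fixingSubgroup_fixedField H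
  have hσ' : σ ∈ (IntermediateField.fixedField (H : Subgroup GQ)).fixingSubgroup := by
    rw [IntermediateField.mem_fixingSubgroup_iff]
    intro θ hθ
    exact hcon θ ((IntermediateField.mem_fixedField_iff _ _).mp hθ)
  rw [hH] at hσ'
  exact hσ hσ'

end Closed

section Action

variable {A : ValuationSubring Qb} {p : ℕ} {X : Type*} [AddCommGroup X] [DistribMulAction GQ X]

/-- The stabiliser of a class defined over a number field is closed. -/
theorem isClosed_stabilizer (x : X)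
    (hopen : ∃ K : IntermediateField ℚ Qb, FiniteDimensional ℚ K ∧
      ∀ σ : GQ, (∀ a ∈ K, σ a = a) → σ • x = x) :
    IsClosed ((MulAction.stabilizer GQ x : Subgroup GQ) : Set GQ) := by
  obtain ⟨K, hK, hKx⟩ := hopen
  apply Subgroup.isClosed_of_isOpen
  refine Subgroup.isOpen_mono (H₁ := K.fixingSubgroup) ?_ K.fixingSubgroup_isOpen
  intro σ hσ
  rw [MulAction.mem_stabilizer_iff]
  exact hKx σ ((IntermediateField.mem_fixingSubgroup_iff K σ).mp hσ)

/-- `N = I₁ ∩ Stab(x)` is closed. -/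
theorem isClosed_inertiaOne_inf_stabilizer (A : ValuationSubring Qb) (p : ℕ) (x : X)
    (hopen : ∃ K : IntermediateField ℚ Qb, FiniteDimensional ℚ K ∧
      ∀ σ : GQ, (∀ a ∈ K, σ a = a) → σ • x = x) :
    IsClosed ((inertiaOne A p ⊓ MulAction.stabilizer GQ x : Subgroup GQ) : Set GQ) := by
  rw [Subgroup.coe_inf]
  exact (isClosed_inertiaOne A p).inter (isClosed_stabilizer x hopen)

/-- `I₁` fixes `t`. -/
theorem smul_eq_of_mem_inertiaOne {t : X}
    (ht : ∀ σ ∈ A.inertiaSubgroupIn ℚ, ∀ c : ℕ, CycloAt p σ c → σ • t = c • t)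
    {σ : GQ} (hσ : σ ∈ inertiaOne A p) : σ • t = t := by
  rw [ht σ hσ.1 1 hσ.2, one_nsmul]

/-- `σ x = x + s`, `σ s = s`  ⟹  `σ ^ i x = x + i s`. -/
theorem pow_smul_eq_add_nsmul {x s : X} {σ : GQ} (hx : σ • x = x + s) (hs : σ • s = s)
    (i : ℕ) : (σ ^ i) • x = x + i • s := by
  have hs' : ∀ j : ℕ, (σ ^ j) • s = s := by
    intro j
    induction j with
    | zero => rw [pow_zero, one_smul]
    | succ j ih => rw [pow_succ, mul_smul, hs, ih]
  induction i with
  | zero => rw [pow_zero, one_smul, zero_nsmul, add_zero]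
  | succ i ih => rw [pow_succ, mul_smul, hx, smul_add, ih, hs', succ_nsmul, add_assoc]

/-- `σ u = ζ u`, `σ ζ = ζ`  ⟹  `σ ^ i u = ζ ^ i u`. -/
theorem pow_apply_eq_pow_mul {u ζ : Qb} {σ : GQ} (hu : σ u = ζ * u) (hζ : σ ζ = ζ) (i : ℕ) :
    (σ ^ i) u = ζ ^ i * u := by
  induction i with
  | zero => rw [pow_zero, pow_zero, one_mul]; rfl
  | succ i ih =>
    rw [pow_succ, AlgEquiv.mul_apply, hu, map_mul, ih, ← mul_assoc, pow_succ]
    congr 1
    have : ∀ j : ℕ, (σ ^ j) ζ = ζ := by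
      intro j
      induction j with
      | zero => rw [pow_zero]; rfl
      | succ j ihj => rw [pow_succ, AlgEquiv.mul_apply, hζ, ihj]
    rw [this, mul_comm]

omit [DistribMulAction GQ X] in
/-- A nonzero `p`-torsion element has order exactly `p`. -/
theorem dvd_of_nsmul_eq_zero (hp : p.Prime) {t : X} (hpt : p • t = 0) (ht0 : t ≠ 0) {n : ℕ}
    (hn : n • t = 0) : p ∣ n := by
  have h1 : addOrderOf t ∣ p := addOrderOf_dvd_iff_nsmul_eq_zero.mpr hpt
  have h2 : addOrderOf t ∣ n := addOrderOf_dvd_iff_nsmul_eq_zero.mpr hn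
  rcases (Nat.dvd_prime hp).mp h1 with h | h
  · exact absurd (AddMonoid.addOrderOf_eq_one_iff.mp h) ht0
  · rwa [h] at h2

/-- If some element of `I₁` moves `x`, some element `σ₁` of `I₁` has `σ₁ x = x + t`. -/
theorem exists_smul_eq_add (hp : p.Prime) (x t : X)
    (ht : ∀ σ ∈ A.inertiaSubgroupIn ℚ, ∀ c : ℕ, CycloAt p σ c → σ • t = c • t)
    (hxt : ∀ σ ∈ A.inertiaSubgroupIn ℚ, ∃ n : ℕ, σ • x = x + n • t) (hpt : p • t = 0)
    {σ₀ : GQ} (hσ₀ : σ₀ ∈ inertiaOne A p) (hσ₀x : σ₀ • x ≠ x) :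
    ∃ σ₁ ∈ inertiaOne A p, σ₁ • x = x + t := by
  obtain ⟨n₀, hn₀⟩ := hxt σ₀ hσ₀.1
  have hI₁t : ∀ σ ∈ inertiaOne A p, σ • t = t :=
    fun σ hσ => smul_eq_of_mem_inertiaOne ht hσ
  have hn₀p : ¬ p ∣ n₀ := by
    rintro ⟨k, rfl⟩
    apply hσ₀x
    rw [hn₀, mul_nsmul, hpt, nsmul_zero, add_zero]
  have hcop : Nat.Coprime n₀ p := ((Nat.Prime.coprime_iff_not_dvd hp).mpr hn₀p).symm
  obtain ⟨m, -, hm⟩ := Nat.exists_mul_mod_eq_one_of_coprime hcop hp.one_lt
  refine ⟨σ₀ ^ m, pow_mem hσ₀ m, ?_⟩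
  have h1 : σ₀ • (n₀ • t) = n₀ • t := by rw [smul_comm, hI₁t σ₀ hσ₀]
  have h2 := pow_smul_eq_add_nsmul hn₀ h1 m
  rw [h2]
  congr 1
  have h3 : n₀ * m = p * (n₀ * m / p) + 1 := by
    have := Nat.div_add_mod (n₀ * m) p
    omega
  rw [← mul_nsmul, h3, add_nsmul, one_nsmul, mul_nsmul, hpt, nsmul_zero, zero_add]

/-- **Kummer generator of a class (INST-F (b)).**  In the setting of the crux (S4)
(`H944.Wall.S4For`; `t ≠ 0`): there is a unit `u` of `A` with `u ^ p ∈ K₁` such that every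
`σ ∈ I₁` with `σ x = x + n t` has `σ u = ζ ^ n u`. -/
theorem exists_kummer_unit (hp : p.Prime) (x t : X)
    (hopen : ∃ K : IntermediateField ℚ Qb, FiniteDimensional ℚ K ∧
      ∀ σ : GQ, (∀ a ∈ K, σ a = a) → σ • x = x)
    (ht : ∀ σ ∈ A.inertiaSubgroupIn ℚ, ∀ c : ℕ, CycloAt p σ c → σ • t = c • t)
    (hxt : ∀ σ ∈ A.inertiaSubgroupIn ℚ, ∃ n : ℕ, σ • x = x + n • t)
    (hpeu : ∀ σ : GQ, PeuFixes A p σ → σ • x = x) (hpt : p • t = 0) (ht0 : t ≠ 0)
    {ζ : Qb} (hζ : IsPrimitiveRoot ζ p) :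
    ∃ u : Qb, u ∈ A ∧ u⁻¹ ∈ A ∧ u ≠ 0 ∧
      (∀ τ ∈ A.inertiaSubgroupIn ℚ, CycloAt p τ 1 → τ (u ^ p) = u ^ p) ∧
      ∀ σ ∈ A.inertiaSubgroupIn ℚ, CycloAt p σ 1 →
        ∀ n : ℕ, σ • x = x + n • t → σ u = ζ ^ n * u := by
  classical
  by_cases hfix : ∀ σ ∈ inertiaOne A p, σ • x = x
  · -- tame case: `u = 1`
    refine ⟨1, A.one_mem, by rw [inv_one]; exact A.one_mem, one_ne_zero,
      fun τ _ _ => by rw [one_pow, map_one], ?_⟩
    intro σ hσ hσ1 n hn
    have h0 : n • t = 0 := by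
      have h := hfix σ ⟨hσ, hσ1⟩
      rw [h] at hn
      exact left_eq_add.mp hn
    obtain ⟨k, rfl⟩ := dvd_of_nsmul_eq_zero hp hpt ht0 h0
    rw [map_one, pow_mul, hζ.pow_eq_one, one_pow, one_mul]
  · push Not at hfix
    obtain ⟨σ₀, hσ₀, hσ₀x⟩ := hfix
    have hI₁t : ∀ σ ∈ inertiaOne A p, σ • t = t :=
      fun σ hσ => smul_eq_of_mem_inertiaOne ht hσ
    -- the generator `σ₁`, `σ₁ x = x + t`
    obtain ⟨σ₁, hσ₁, hσ₁x⟩ := exists_smul_eq_add hp x t ht hxt hpt hσ₀ hσ₀x
    have hσ₁pow : ∀ i : ℕ, (σ₁ ^ i) • x = x + i • t :=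
      pow_smul_eq_add_nsmul hσ₁x (hI₁t σ₁ hσ₁)
    -- the closed subgroup `N = I₁ ∩ Stab(x)`
    set N : Subgroup GQ := inertiaOne A p ⊓ MulAction.stabilizer GQ x with hNdef
    have hN : IsClosed (N : Set GQ) := isClosed_inertiaOne_inf_stabilizer A p x hopen
    have hmemN : ∀ ν : GQ, ν ∈ N ↔ ν ∈ inertiaOne A p ∧ ν • x = x := by
      intro ν
      rw [hNdef, Subgroup.mem_inf, MulAction.mem_stabilizer_iff]
    have hσ₁N : σ₁ ∉ N := by
      intro h
      have h1 := ((hmemN σ₁).mp h).2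
      rw [hσ₁x] at h1
      exact ht0 (add_eq_left.mp h1)
    obtain ⟨θ, hθN, hθσ₁⟩ := exists_fixed_not_fixed N hN hσ₁N
    have hσ₁p : σ₁ ^ p ∈ N :=
      (hmemN _).mpr ⟨pow_mem hσ₁ p, by rw [hσ₁pow, hpt, add_zero]⟩
    have hθp : (σ₁ ^ p) θ = θ := hθN _ hσ₁p
    have hσ₁ζ : σ₁ ζ = ζ := by
      have := hσ₁.2 ζ hζ.pow_eq_one
      rwa [pow_one] at this
    have hpQ : ((p : ℕ) : Qb) ≠ 0 := Nat.cast_ne_zero.mpr hp.ne_zero
    obtain ⟨u₀, hu₀0, hu₀σ₁, hu₀N⟩ :=
      exists_eigen_of_not_fixed hp hpQ hζ σ₁ hσ₁ζ hθp hθσ₁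
    -- `u₀` is fixed by `N`
    have hNu₀ : ∀ ν ∈ N, ν u₀ = u₀ := by
      intro ν hν
      obtain ⟨hν1, hνx⟩ := (hmemN ν).mp hν
      have hνζ : ν ζ = ζ := by
        have := hν1.2 ζ hζ.pow_eq_one
        rwa [pow_one] at this
      refine hu₀N ν hνζ fun i => ?_
      have hconj : (σ₁ ^ i)⁻¹ * ν * σ₁ ^ i ∈ N := by
        refine (hmemN _).mpr ⟨mul_mem (mul_mem (inv_mem (pow_mem hσ₁ i)) hν1)
          (pow_mem hσ₁ i), ?_⟩
        rw [mul_smul, mul_smul, hσ₁pow i, smul_add, hνx, smul_comm ν i t, hI₁t ν hν1,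
          ← hσ₁pow i, inv_smul_smul]
      have h1 := hθN _ hconj
      rw [AlgEquiv.mul_apply, AlgEquiv.mul_apply] at h1
      have h2 := congrArg (σ₁ ^ i) h1
      rwa [← AlgEquiv.mul_apply, mul_inv_cancel, AlgEquiv.one_apply] at h2
    -- the eigen-relation for all of `I₁`
    have hkey : ∀ σ ∈ inertiaOne A p, ∀ n : ℕ, σ • x = x + n • t → σ u₀ = ζ ^ n * u₀ := by
      intro σ hσ n hn
      have hν : (σ₁ ^ n)⁻¹ * σ ∈ N := by
        refine (hmemN _).mpr ⟨mul_mem (inv_mem (pow_mem hσ₁ n)) hσ, ?_⟩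
        rw [mul_smul, hn, ← hσ₁pow n, inv_smul_smul]
      have h1 := hNu₀ _ hν
      rw [AlgEquiv.mul_apply] at h1
      have h2 := congrArg (σ₁ ^ n) h1
      rw [← AlgEquiv.mul_apply, mul_inv_cancel, AlgEquiv.one_apply] at h2
      rw [h2, pow_apply_eq_pow_mul hu₀σ₁ hσ₁ζ]
    have hu₀p : InK1 A p (u₀ ^ p) := by
      intro τ hτ hτ1
      obtain ⟨n, hn⟩ := hxt τ hτ
      rw [map_pow, hkey τ ⟨hτ, hτ1⟩ n hn, mul_pow, ← pow_mul, mul_comm n p, pow_mul,
        hζ.pow_eq_one, one_pow, one_mul]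
    have hu₀peu : ∀ σ, IsPeuFixing A p σ → σ u₀ = u₀ := by
      intro σ hσ
      have hσ1 : CycloAt p σ 1 := PeuFixes_cycloAt_one hp.ne_zero hσ
      have h := hkey σ ⟨hσ.1, hσ1⟩ 0 (by rw [zero_nsmul, add_zero]; exact hpeu σ hσ)
      rwa [pow_zero, one_mul] at h
    obtain ⟨y, z, hy, hyp, hz, hu₀zy⟩ := peu_kummer A p hu₀p hu₀peu
    have hz0 : z ≠ 0 := by
      rintro rfl
      rw [zero_mul] at hu₀zy
      exact hu₀0 hu₀zy
    obtain ⟨h1, h2, h3⟩ := valuation_eq_one_iff_mem.mp hy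
    refine ⟨y, h1, h2, h3, hyp, ?_⟩
    intro σ hσ hσ1 n hn
    have h := hkey σ ⟨hσ, hσ1⟩ n hn
    rw [hu₀zy, map_mul, hz σ hσ hσ1, ← mul_assoc, mul_comm (ζ ^ n) z, mul_assoc] at h
    exact mul_left_cancel₀ hz0 h

/-- **Kummer generator, full package.**  As `exists_kummer_unit`, together with
`K₁(x) = K₁(u)`: an element of `I₁` fixes `x` iff it fixes `u`. -/
theorem exists_kummer_gen (hp : p.Prime) (x t : X)
    (hopen : ∃ K : IntermediateField ℚ Qb, FiniteDimensional ℚ K ∧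
      ∀ σ : GQ, (∀ a ∈ K, σ a = a) → σ • x = x)
    (ht : ∀ σ ∈ A.inertiaSubgroupIn ℚ, ∀ c : ℕ, CycloAt p σ c → σ • t = c • t)
    (hxt : ∀ σ ∈ A.inertiaSubgroupIn ℚ, ∃ n : ℕ, σ • x = x + n • t)
    (hpeu : ∀ σ : GQ, PeuFixes A p σ → σ • x = x) (hpt : p • t = 0) (ht0 : t ≠ 0)
    {ζ : Qb} (hζ : IsPrimitiveRoot ζ p) :
    ∃ u : Qb, u ∈ A ∧ u⁻¹ ∈ A ∧ u ≠ 0 ∧
      (∀ τ ∈ A.inertiaSubgroupIn ℚ, CycloAt p τ 1 → τ (u ^ p) = u ^ p) ∧
      (∀ σ ∈ A.inertiaSubgroupIn ℚ, CycloAt p σ 1 →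
        ∀ n : ℕ, σ • x = x + n • t → σ u = ζ ^ n * u) ∧
      (∀ σ ∈ A.inertiaSubgroupIn ℚ, CycloAt p σ 1 → (σ • x = x ↔ σ u = u)) ∧
      (∀ σ : GQ, PeuFixes A p σ → σ u = u) := by
  obtain ⟨u, h1, h2, h3, h4, h5⟩ := exists_kummer_unit hp x t hopen ht hxt hpeu hpt ht0 hζ
  refine ⟨u, h1, h2, h3, h4, h5, ?_, ?_⟩
  · intro σ hσ hσ1
    constructor
    · intro hx
      have h := h5 σ hσ hσ1 0 (by rw [zero_nsmul, add_zero]; exact hx)
      rwa [pow_zero, one_mul] at h
    · intro hu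
      obtain ⟨n, hn⟩ := hxt σ hσ
      have h := h5 σ hσ hσ1 n hn
      rw [hu] at h
      have h6 : ζ ^ n = 1 := by
        have h7 : 1 * u = ζ ^ n * u := by rw [one_mul]; exact h
        exact (mul_right_cancel₀ h3 h7).symm
      obtain ⟨k, rfl⟩ := (hζ.pow_eq_one_iff_dvd n).mp h6
      rw [hn, mul_nsmul, hpt, nsmul_zero, add_zero]
  · intro σ hσ
    have h := h5 σ hσ.1 (PeuFixes_cycloAt_one hp.ne_zero hσ) 0
      (by rw [zero_nsmul, add_zero]; exact hpeu σ hσ)
    rwa [pow_zero, one_mul] at h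

/-- **Kummer generator with a generator of the Galois group.**  If `x` is NOT defined over
`K₁`, there are `σ₁ ∈ I₁` and a unit `u` of `A` with `u ^ p ∈ K₁`, `σ₁ x = x + t`, `σ₁ u = ζ u`,
`K₁(x) = K₁(u)`. -/
theorem exists_kummer_gen_of_not_fixed (hp : p.Prime) (x t : X)
    (hopen : ∃ K : IntermediateField ℚ Qb, FiniteDimensional ℚ K ∧
      ∀ σ : GQ, (∀ a ∈ K, σ a = a) → σ • x = x)
    (ht : ∀ σ ∈ A.inertiaSubgroupIn ℚ, ∀ c : ℕ, CycloAt p σ c → σ • t = c • t)
    (hxt : ∀ σ ∈ A.inertiaSubgroupIn ℚ, ∃ n : ℕ, σ • x = x + n • t)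
    (hpeu : ∀ σ : GQ, PeuFixes A p σ → σ • x = x) (hpt : p • t = 0)
    {σ₀ : GQ} (hσ₀ : σ₀ ∈ A.inertiaSubgroupIn ℚ) (hσ₀1 : CycloAt p σ₀ 1) (hσ₀x : σ₀ • x ≠ x)
    {ζ : Qb} (hζ : IsPrimitiveRoot ζ p) :
    ∃ (σ₁ : GQ) (u : Qb), σ₁ ∈ A.inertiaSubgroupIn ℚ ∧ CycloAt p σ₁ 1 ∧ σ₁ • x = x + t ∧
      σ₁ u = ζ * u ∧ u ∈ A ∧ u⁻¹ ∈ A ∧ u ≠ 0 ∧
      (∀ τ ∈ A.inertiaSubgroupIn ℚ, CycloAt p τ 1 → τ (u ^ p) = u ^ p) ∧
      (∀ σ ∈ A.inertiaSubgroupIn ℚ, CycloAt p σ 1 →
        ∀ n : ℕ, σ • x = x + n • t → σ u = ζ ^ n * u) ∧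
      (∀ σ ∈ A.inertiaSubgroupIn ℚ, CycloAt p σ 1 → (σ • x = x ↔ σ u = u)) ∧
      (∀ σ : GQ, PeuFixes A p σ → σ u = u) := by
  have ht0 : t ≠ 0 := by
    rintro rfl
    obtain ⟨n, hn⟩ := hxt σ₀ hσ₀
    rw [nsmul_zero, add_zero] at hn
    exact hσ₀x hn
  obtain ⟨σ₁, hσ₁, hσ₁x⟩ := exists_smul_eq_add hp x t ht hxt hpt
    (σ₀ := σ₀) ⟨hσ₀, hσ₀1⟩ hσ₀x
  obtain ⟨u, h1, h2, h3, h4, h5, h6, h7⟩ :=
    exists_kummer_gen hp x t hopen ht hxt hpeu hpt ht0 hζ
  refine ⟨σ₁, u, hσ₁.1, hσ₁.2, hσ₁x, ?_, h1, h2, h3, h4, h5, h6, h7⟩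
  have h := h5 σ₁ hσ₁.1 hσ₁.2 1 (by rw [one_nsmul]; exact hσ₁x)
  rwa [pow_one] at h

end Action

end Fermat.Agent.Ribet.H785

end
-- ===== PACK-END Ribet/H785/KummerGen.lean

-- ===== PACK-BEGIN S37/H988/BetaDeg.lean
section
/-
S37 NORM-ID (helper988), part 1: degree counting for the `β`-structure.

`L` a field of characteristic `0`, `E_M = L(j(q^d) : d ∣ M) ⊂ L((q))`, `V = (q ↦ q^ℓ)`,
`ℓ` prime, `ℓ ∤ N`, `K₀ = V(E_N) ⊂ K₁ = E_{Nℓ}`.

* `relfinrank_map_full` : `[E_{Nℓ} : V(E_N)] = ℓ + 1`.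
* `minpoly_j_eq`        : the minimal polynomial of `j` over `V(E_N)` is `Φ_ℓ(X, j(q^ℓ))`.

Only the degree formula `[E_M : L(j)] = ψ(M)` and the two vanishing properties of `Φ_ℓ` are used.
-/





set_option autoImplicit false
set_option linter.unusedSectionVars false
set_option linter.style.haveILetI false

noncomputable section

open ModularCurve IntermediateField Polynomial

namespace Fermat.Agent.S37.H988

open Fermat.Agent.S28.H988

/-! ### Generalities on intermediate fields -/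

section General

variable {F Ω : Type*} [Field F] [Field Ω] [Algebra F Ω]

/-- `A ⊔ F(x)`, as an intermediate field over `A`, is `A(x)`. -/
theorem extendScalars_sup_adjoin (A : IntermediateField F Ω) (x : Ω) :
    extendScalars (le_sup_left : A ≤ A ⊔ F⟮x⟯) = A⟮x⟯ := by
  apply restrictScalars_injective F
  rw [extendScalars_restrictScalars, restrictScalars_adjoin_eq_sup]

/-- The degree of a simple extension inside the lattice of intermediate fields. -/
theorem relfinrank_sup_adjoin (A : IntermediateField F Ω) (x : Ω) (hx : IsIntegral A x) :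
    A.relfinrank (A ⊔ F⟮x⟯) = (minpoly A x).natDegree := by
  rw [relfinrank_eq_finrank_of_le le_sup_left, extendScalars_sup_adjoin, adjoin.finrank hx]

/-- A monic polynomial over `A` of degree `[A(x) : A]` killing `x` is the minimal polynomial. -/
theorem minpoly_eq_of_relfinrank (A : IntermediateField F Ω) (x : Ω) (P : Polynomial A)
    (hP : P.Monic) (hroot : aeval x P = 0) (hdeg : P.natDegree ≤ A.relfinrank (A ⊔ F⟮x⟯)) :
    minpoly A x = P := by
  have hint : IsIntegral A x := ⟨P, hP, by rwa [← aeval_def]⟩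
  rw [relfinrank_sup_adjoin A x hint] at hdeg
  exact (Polynomial.eq_of_monic_of_dvd_of_natDegree_le (minpoly.monic hint) hP
    (minpoly.dvd _ _ hroot) hdeg).symm

end General

/-! ### `V` as an algebra homomorphism -/

section VAlg

variable (L : Type*) [Field L]

/-- `q ↦ q^m` as an `L`-algebra endomorphism of `L((q))`. -/
def VAlg (m : ℕ) : LaurentSeries L →ₐ[L] LaurentSeries L :=
  { Vm L m with
    commutes' := fun c => by
      show Vm L m (algebraMap L (LaurentSeries L) c) = algebraMap L (LaurentSeries L) c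
      by_cases h : m = 0
      · subst h
        unfold Vm
        rw [dif_pos rfl]
        rfl
      · rw [Vm_of_ne L h, algebraMap_laurentSeries_eq_single]
        have : NeZero m := ⟨h⟩
        rw [qExpand_single, mul_zero] }

@[simp]
theorem VAlg_apply (m : ℕ) (f : LaurentSeries L) : VAlg L m f = Vm L m f := rfl

theorem VAlg_jd {m e : ℕ} (hm : m ≠ 0) (he : e ≠ 0) : VAlg L m (jd L e) = jd L (m * e) :=
  Vm_jd L hm he

/-- `V_ℓ(E_N) ≤ E_{Nℓ}`. -/
theorem map_full_le {N ℓ : ℕ} (hN : N ≠ 0) (hℓ : ℓ ≠ 0) :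
    (modularFunctionFieldFullC L N).map (VAlg L ℓ) ≤ modularFunctionFieldFullC L (N * ℓ) := by
  rw [IntermediateField.map_le_iff_le_comap, full_le_iff L hN]
  intro d hd
  have hd0 : d ≠ 0 := fun h => hN (by rw [h] at hd; exact Nat.eq_zero_of_zero_dvd hd)
  show VAlg L ℓ (jd L d) ∈ modularFunctionFieldFullC L (N * ℓ)
  rw [VAlg_jd L hℓ hd0, mul_comm ℓ d]
  exact jd_mem_full L (Nat.mul_ne_zero hN hℓ) (Nat.mul_dvd_mul_right hd ℓ)

theorem jd_mul_mem_map {N ℓ d : ℕ} (hN : N ≠ 0) (hℓ : ℓ ≠ 0) (hd : d ∣ N) :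
    jd L (ℓ * d) ∈ (modularFunctionFieldFullC L N).map (VAlg L ℓ) := by
  have hd0 : d ≠ 0 := fun h => hN (by rw [h] at hd; exact Nat.eq_zero_of_zero_dvd hd)
  rw [← VAlg_jd L hℓ hd0]
  exact ⟨jd L d, jd_mem_full L hN hd, rfl⟩

end VAlg

/-! ### Modular polynomials over every field -/

section PhiFam

variable (k : Type*) [Field k]

theorem exists_phiRel (r : ℕ) (hr : r.Prime) : ∃ Φ : Polynomial (Polynomial ℤ), PhiRel k r Φ := by
  haveI : NeZero r := ⟨hr.ne_zero⟩
  obtain ⟨D⟩ := Fermat.Agent.S28.H807.nonempty_modPolyData r hr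
  exact ⟨D.Φ, phiRel_of_modPolyData k r D⟩

open Classical in
/-- A choice of modular polynomials `Φ_r`, `r` prime. -/
def PhiFam (r : ℕ) : Polynomial (Polynomial ℤ) :=
  if h : r.Prime then (exists_phiRel k r h).choose else 0

theorem phiFam_spec {r : ℕ} (hr : r.Prime) : PhiRel k r (PhiFam k r) := by
  unfold PhiFam
  rw [dif_pos hr]
  exact (exists_phiRel k r hr).choose_spec

/-- `E_{Nℓ} = E_N ⊔ k(j(q^ℓ))` for `ℓ ∤ N`. -/
theorem full_mul_eq_sup {ℓ N : ℕ} (hℓ : ℓ.Prime) (hN : N ≠ 0) (hℓN : ¬ ℓ ∣ N) :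
    modularFunctionFieldFullC k (N * ℓ) = modularFunctionFieldFullC k N ⊔ k⟮jd k ℓ⟯ := by
  have h := full_mul_eq (k := k) (PhiFam k) hN hℓ (fun r hr _ => phiFam_spec k hr)
  have ht : topGen k N ℓ = jd k ℓ := by
    unfold topGen topExp
    rw [Nat.factorization_eq_zero_of_not_dvd hℓN, zero_add, pow_one]
  rw [h, restrictScalars_adjoin_eq_sup, ht]

end PhiFam

/-! ### The degree of `E_{Nℓ}` over `V(E_N)` -/

section Degree

variable (L : Type*) [Field L] [CharZero L]
variable {ℓ : ℕ} {Φ : Polynomial (Polynomial ℤ)}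

theorem natCast_prime_ne_zero (r : ℕ) (hr : r.Prime) : (r : L) ≠ 0 :=
  Nat.cast_ne_zero.mpr hr.ne_zero

theorem jd_mem_map {N : ℕ} (hN : N ≠ 0) (hℓ : ℓ ≠ 0) :
    jd L ℓ ∈ (modularFunctionFieldFullC L N).map (VAlg L ℓ) := by
  have := jd_mul_mem_map L hN hℓ (one_dvd N)
  rwa [mul_one] at this

/-- `[V(E_N)(j(q^{ℓ²})) : V(E_N)] = ℓ + 1`. -/
theorem relfinrank_map_sup (hℓ : ℓ.Prime) {N : ℕ} (hN : N ≠ 0) (hℓN : ¬ ℓ ∣ N) :
    ((modularFunctionFieldFullC L N).map (VAlg L ℓ)).relfinrank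
      ((modularFunctionFieldFullC L N).map (VAlg L ℓ) ⊔ L⟮jd L (ℓ * ℓ)⟯) = ℓ + 1 := by
  have h1 : (modularFunctionFieldFullC L N).map (VAlg L ℓ) ⊔ L⟮jd L (ℓ * ℓ)⟯ =
      (modularFunctionFieldFullC L (N * ℓ)).map (VAlg L ℓ) := by
    rw [full_mul_eq_sup L hℓ hN hℓN, IntermediateField.map_sup, adjoin_map, Set.image_singleton,
      VAlg_jd L hℓ.ne_zero hℓ.ne_zero]
  rw [h1, relfinrank_map_map,
    relfinrank_full_mul_prime L N ℓ hN hℓ (fun r hr _ => natCast_prime_ne_zero L r hr),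
    if_neg hℓN]

variable {L}

/-- The polynomial `Φ(X, y)` over an intermediate field containing `y`. -/
theorem PhiAt_subtype_map (A : IntermediateField L (LaurentSeries L)) (y : LaurentSeries L)
    (hy : y ∈ A) :
    (PhiAt Φ (⟨y, hy⟩ : A)).map (algebraMap A (LaurentSeries L)) = PhiAt Φ y := by
  rw [PhiAt_map]
  rfl

theorem aeval_PhiAt_subtype (A : IntermediateField L (LaurentSeries L)) (y : LaurentSeries L)
    (hy : y ∈ A) (x : LaurentSeries L) :
    aeval x (PhiAt Φ (⟨y, hy⟩ : A)) = (PhiAt Φ y).eval x := by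
  rw [aeval_def, eval₂_eq_eval_map, PhiAt_subtype_map]

/-- **The minimal polynomial of `j` over `V(E_N)`** is `Φ_ℓ(X, j(q^ℓ))`. -/
theorem minpoly_j_eq (hℓ : ℓ.Prime) (hΦ : PhiRel L ℓ Φ) {N : ℕ} (hN : N ≠ 0) (hℓN : ¬ ℓ ∣ N) :
    minpoly ((modularFunctionFieldFullC L N).map (VAlg L ℓ)) (jqModC L) =
      PhiAt Φ (⟨jd L ℓ, jd_mem_map L hN hℓ.ne_zero⟩ :
        (modularFunctionFieldFullC L N).map (VAlg L ℓ)) := by
  set A := (modularFunctionFieldFullC L N).map (VAlg L ℓ) with hA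
  set P : Polynomial A := PhiAt Φ (⟨jd L ℓ, jd_mem_map L hN hℓ.ne_zero⟩ : A) with hP
  have hPm : P.Monic := PhiAt_monic hΦ.monic _
  have hPd : P.natDegree = ℓ + 1 := by rw [hP, PhiAt_natDegree hΦ.monic, hΦ.natDegree_eq]
  have h0 : aeval (jd L (ℓ * ℓ)) P = 0 := by
    rw [hP, aeval_PhiAt_subtype]
    exact hΦ.root1 hℓ.ne_zero hℓ.ne_zero
  have hx : aeval (jqModC L) P = 0 := by
    rw [hP, aeval_PhiAt_subtype]
    exact hΦ.root_j
  have h1 : minpoly A (jd L (ℓ * ℓ)) = P :=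
    minpoly_eq_of_relfinrank A _ P hPm h0 (by rw [hPd, relfinrank_map_sup L hℓ hN hℓN])
  have hirr : Irreducible P := by
    rw [← h1]
    exact minpoly.irreducible ⟨P, hPm, by rwa [← aeval_def]⟩
  exact (minpoly.eq_of_irreducible_of_monic hirr hx hPm).symm

theorem isIntegral_j (hℓ : ℓ.Prime) {N : ℕ} (hN : N ≠ 0) :
    IsIntegral ((modularFunctionFieldFullC L N).map (VAlg L ℓ)) (jqModC L) := by
  obtain ⟨Φ, hΦ⟩ := exists_phiRel L ℓ hℓ
  refine ⟨PhiAt Φ (⟨jd L ℓ, jd_mem_map L hN hℓ.ne_zero⟩ :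
        (modularFunctionFieldFullC L N).map (VAlg L ℓ)), PhiAt_monic hΦ.monic _, ?_⟩
  rw [← aeval_def, aeval_PhiAt_subtype]
  exact hΦ.root_j

/-- `[V(E_N)(j) : V(E_N)] = ℓ + 1`. -/
theorem relfinrank_map_sup_j (hℓ : ℓ.Prime) {N : ℕ} (hN : N ≠ 0) (hℓN : ¬ ℓ ∣ N) :
    ((modularFunctionFieldFullC L N).map (VAlg L ℓ)).relfinrank
      ((modularFunctionFieldFullC L N).map (VAlg L ℓ) ⊔ L⟮jqModC L⟯) = ℓ + 1 := by
  obtain ⟨Φ, hΦ⟩ := exists_phiRel L ℓ hℓ
  rw [relfinrank_sup_adjoin _ _ (isIntegral_j hℓ hN), minpoly_j_eq hℓ hΦ hN hℓN,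
    PhiAt_natDegree hΦ.monic, hΦ.natDegree_eq]

variable (L)

/-- **Degree of the `β`-structure**: `[E_{Nℓ} : V(E_N)] = ℓ + 1` for `ℓ ∤ N`. -/
theorem relfinrank_map_full (hℓ : ℓ.Prime) {N : ℕ} (hN : N ≠ 0) (hℓN : ¬ ℓ ∣ N) :
    ((modularFunctionFieldFullC L N).map (VAlg L ℓ)).relfinrank
      (modularFunctionFieldFullC L (N * ℓ)) = ℓ + 1 := by
  have hℓ0 : ℓ ≠ 0 := hℓ.ne_zero
  have hNℓ : N * ℓ ≠ 0 := Nat.mul_ne_zero hN hℓ0
  have hchar : ∀ (M : ℕ) (r : ℕ), r.Prime → r ∣ M → (r : L) ≠ 0 :=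
    fun _ r hr _ => natCast_prime_ne_zero L r hr
  set J := modularFunctionFieldFullC L 1 with hJ
  set Jl := J.map (VAlg L ℓ) with hJl
  set El := modularFunctionFieldFullC L ℓ with hEl
  set K0 := (modularFunctionFieldFullC L N).map (VAlg L ℓ) with hK0
  set K1 := modularFunctionFieldFullC L (N * ℓ) with hK1
  have hJeq : J = Fermat.Agent.S28.jField L := full_one L
  -- inclusions
  have i1 : J ≤ El := full_mono L hℓ0 (one_dvd ℓ)
  have i2 : El ≤ K1 := full_mono L hNℓ (Dvd.intro_left N rfl)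
  have i3 : Jl ≤ El := by
    have := map_full_le L (N := 1) one_ne_zero hℓ0
    rwa [one_mul] at this
  have i4 : Jl ≤ K0 := IntermediateField.map_mono _ (full_mono L hN (one_dvd N))
  have i5 : K0 ≤ K1 := map_full_le L hN hℓ0
  -- degrees over `L(j)`
  have d1 : J.relfinrank El = ℓ + 1 := by
    rw [hJeq, relfinrank_jField_full_eq L ℓ hℓ0 (hchar ℓ)]
    have := Fermat.Agent.S28.H626.psi_mul_prime_of_not_dvd (N := 1) one_ne_zero hℓ
      (by simpa using hℓ.one_lt.ne')
    rw [one_mul] at this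
    rw [this]
    have h1 : dedekindPsi 1 = 1 := by
      have := relfinrank_jField_full_eq L 1 one_ne_zero (hchar 1)
      rw [← hJeq, relfinrank_self] at this
      exact this.symm
    rw [h1, mul_one]
  have d2 : J.relfinrank K1 = dedekindPsi N * (ℓ + 1) := by
    rw [hJeq, relfinrank_jField_full_eq L (N * ℓ) hNℓ (hchar _),
      Fermat.Agent.S28.H626.psi_mul_prime_of_not_dvd hN hℓ hℓN, mul_comm]
  have d3 : El.relfinrank K1 = dedekindPsi N := by
    have h := relfinrank_mul_relfinrank i1 i2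
    rw [d1, d2, mul_comm] at h
    exact Nat.eq_of_mul_eq_mul_right (Nat.succ_pos ℓ) h
  -- degrees over `L(j(q^ℓ))`
  have d4 : Jl.relfinrank El = ℓ + 1 := by
    have h := relfinrank_map_sup_j (L := L) hℓ (N := 1) one_ne_zero
      (by simpa using hℓ.one_lt.ne')
    have e1 : (modularFunctionFieldFullC L 1).map (VAlg L ℓ) ⊔ L⟮jqModC L⟯ = El := by
      rw [hEl, ← one_mul ℓ, full_mul_eq_sup L hℓ one_ne_zero (by simpa using hℓ.one_lt.ne'),
        one_mul, sup_comm]
      congr 1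
      · rw [full_one]
      · rw [full_one, adjoin_map, Set.image_singleton, VAlg_apply]
        rfl
    rw [e1] at h
    exact h
  have d5 : Jl.relfinrank K0 = dedekindPsi N := by
    rw [hJl, hK0, relfinrank_map_map, hJeq, relfinrank_jField_full_eq L N hN (hchar N)]
  have d6 : Jl.relfinrank K1 = (ℓ + 1) * dedekindPsi N := by
    rw [← relfinrank_mul_relfinrank i3 i2, d4, d3]
  have h := relfinrank_mul_relfinrank i4 i5
  rw [d5, d6, mul_comm] at h
  exact Nat.eq_of_mul_eq_mul_right (dedekindPsi_pos N hN) h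

end Degree

end Fermat.Agent.S37.H988

end

end
-- ===== PACK-END S37/H988/BetaDeg.lean

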