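import Mathlib
import Fermat.Prelude.Def_FLTPrelim_Ramification
import Fermat.Prelude.Def_ModularCurve_ReductionModL
import Fermat.Prelude.Def_ModularCurve_HeckeOperatorTotal
import Fermat.Agent.Pack.S44C.G0E10L3
import Fermat.Agent.Pack.S44C.G0E10L1
import Fermat.Agent.Pack.S44C.G0E24L2
import Fermat.Agent.Pack.S44C.G0E16L0
import Fermat.Agent.Pack.S44C.G0E10L0
import Fermat.Agent.Pack.S44C.G0E24L1
import Fermat.Agent.Pack.S44C.G0E24L0
import Fermat.Agent.Pack.S44C.G0E16L3
import Fermat.Agent.Pack.S44C.G0E14L1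
import Fermat.Agent.Pack.S44C.G1E0L0
import Fermat.Agent.Pack.S44C.G0E23L0
import Fermat.Agent.Pack.S44C.G0E23L1
import Fermat.Agent.Pack.S44C.G0E14L0
import Fermat.Agent.Pack.S44C.G0E12L2
import Fermat.Agent.Pack.S44C.G0E3L1
import Fermat.Agent.Pack.S44C.G0E20L2
import Fermat.Agent.Pack.S44C.G0E21L1
import Fermat.Agent.Pack.S44C.G0E16L1
import Fermat.Agent.Pack.S44C.G0E23L2
import Fermat.Agent.Pack.S44C.G0E22L2
import Fermat.Agent.Pack.S44C.G0E7L1
import Fermat.Agent.Pack.S44C.G0E18L1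
import Fermat.Agent.Pack.S44C.G0E18L3
import Fermat.Agent.Pack.S44C.G0E7L3
import Fermat.Agent.Pack.S44C.G0E4L2
import Fermat.Agent.Pack.S44C.G0E11L1
import Fermat.Agent.Pack.S44C.G0E21L2
import Fermat.Agent.Pack.S44C.G0E4L1
import Fermat.Agent.Pack.S44C.G0E23L3
import Fermat.Agent.Pack.S44C.G0E17L0
import Fermat.Agent.Pack.S44C.G0E17L3
import Fermat.Agent.Pack.S44C.G0E5L1
import Fermat.Agent.Pack.S44C.G0E5L3
import Fermat.Agent.Pack.S44C.G0E5L2
import Fermat.Agent.Pack.Fast891

-- ===== PACK-BEGIN A2/H708/GaussLevel.lean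
section




/-!
# A2 (helper708): the two Gauss valuations `V∞`, `V₀` of `ℚ̄(X₀(N))` and the K2 conclusion

`N ≥ 1`, `A` a valuation subring of `ℚ̄` over a prime `ℓ`, `FF N = modularFunctionFieldBar N`.

* `Vinf N A hℓ hA : ValuationSubring (FF N)` : Gauss valuation of the `t`-expansion at `∞`;
* `Vzero N A hℓ hA := H528.comapW N (Vinf ..)` : its pull back by the Fricke involution `w_N`;
* `Vzero_ne_Vinf` (for `ℓ ∣ N`);
* for `σ ∈ A.inertiaSubgroupIn ℚ`, `τ = H528.gal N σ` (action on coefficients) and EVERY `f ≠ 0`: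
  `oneAddNonunits_twice_Vinf`, `oneAddNonunits_twice_Vzero` :
  `(τ - 1)² f ∈ 1 + 𝔪_V` for `V = V∞` and for `V = V₀` (no constant needed);
  `isUnitOf_once_Vinf`, `isUnitOf_once_Vzero` : `(τ - 1) f` is a unit of `V∞` and of `V₀`.

This is the complete step K2 of the board (`origin/helper34:coord/A2.md`) in concrete form.
-/

set_option autoImplicit false
set_option linter.unusedSectionVars false
set_option synthInstance.maxHeartbeats 400000
set_option maxHeartbeats 1000000

noncomputable section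

namespace Fermat.Agent.A2.H708

open ModularCurve HahnSeries AlgebraicCurve Fermat.Agent.S24 Fermat.Agent.A2.H129
  Fermat.Agent.A2.H528

variable (N : ℕ) [NeZero N] (A : ValuationSubring Kbar)
variable {ℓ : ℕ} (hℓ : ℓ ≠ 0) (hA : (ℓ : Kbar) ∈ A.nonunits)

/-- **`V∞`**: the Gauss valuation ring of the `t`-expansion at `∞` on `ℚ̄(X₀(N))`. -/
def Vinf : ValuationSubring (FF N) :=
  gaussInfBar A hℓ hA (modularFunctionFieldFull N) (intGen_full N)

/-- **`V₀ = V∞ ∘ w_N`**. -/
def Vzero : ValuationSubring (FF N) := comapW N (Vinf N A hℓ hA)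

/-- the constants of `FF N`. -/
abbrev constFF : Subfield (FF N) := constField (modularFunctionFieldFull N)

/-! ### generalities on valuation subrings -/

section general

variable {F : Type*} [Field F] (V : ValuationSubring F)

theorem valuation_eq_one_iff_mem {f : F} (hf : f ≠ 0) :
    V.valuation f = 1 ↔ f ∈ V ∧ f⁻¹ ∈ V := by
  rw [← V.valuation_le_one_iff, ← V.valuation_le_one_iff, map_inv₀]
  have h0 : V.valuation f ≠ 0 := (Valuation.ne_zero_iff _).mpr hf
  constructor
  · intro h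
    rw [h, inv_one]
    exact ⟨le_rfl, le_rfl⟩
  · rintro ⟨h1, h2⟩
    rw [inv_le_one₀ (zero_lt_iff.mpr h0)] at h2
    exact le_antisymm h1 h2

theorem valuation_lt_one_iff_mem {f : F} : V.valuation f < 1 ↔ f = 0 ∨ f⁻¹ ∉ V := by
  rw [← V.valuation_le_one_iff, map_inv₀]
  by_cases h0 : f = 0
  · simp [h0]
  · have hv : V.valuation f ≠ 0 := (Valuation.ne_zero_iff _).mpr h0
    rw [inv_le_one₀ (zero_lt_iff.mpr hv), not_le]
    simp [h0]

end general

/-! ### K2 at `V∞` -/

theorem hasConstValues_Vinf : HasConstValues (constFF N) (Vinf N A hℓ hA) :=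
  hasConstValues hℓ hA (intGen_full N)

variable {N A}

theorem inInertia_Vinf {σ : Kbar ≃ₐ[ℚ] Kbar} (hσ : σ ∈ A.inertiaSubgroupIn ℚ) :
    InInertia (Vinf N A hℓ hA) (gal N σ) :=
  inInertia hℓ hA (intGen_full N) hσ

theorem preservesConstValues_Vinf {σ : Kbar ≃ₐ[ℚ] Kbar} (hσ : σ ∈ A.inertiaSubgroupIn ℚ) :
    PreservesConstValues (constFF N) (Vinf N A hℓ hA) (gal N σ) :=
  preservesConstValues hℓ hA (intGen_full N) hσ

theorem constants_stable_FF (σ : Kbar ≃ₐ[ℚ] Kbar) :
    ∀ c ∈ constFF N, gal N σ c ∈ constFF N :=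
  constants_stable σ

/-- **`(τ - 1)² f ∈ 1 + 𝔪_{V∞}`.** -/
theorem oneAddNonunits_twice_Vinf {σ : Kbar ≃ₐ[ℚ] Kbar} (hσ : σ ∈ A.inertiaSubgroupIn ℚ)
    {f : FF N} (hf : f ≠ 0) :
    OneAddNonunits (Vinf N A hℓ hA) (tauSubOne (gal N σ) (tauSubOne (gal N σ) f)) :=
  oneAddNonunits_twice (hasConstValues_Vinf N A hℓ hA) (inInertia_Vinf hℓ hA hσ)
    (preservesConstValues_Vinf hℓ hA hσ) hf

/-- **`(τ - 1) f` is a unit of `V∞`.** -/
theorem isUnitOf_once_Vinf {σ : Kbar ≃ₐ[ℚ] Kbar} (hσ : σ ∈ A.inertiaSubgroupIn ℚ)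
    {f : FF N} (hf : f ≠ 0) :
    IsUnitOf (Vinf N A hℓ hA) (tauSubOne (gal N σ) f) :=
  isUnitOf_once (hasConstValues_Vinf N A hℓ hA) (inInertia_Vinf hℓ hA hσ)
    (preservesConstValues_Vinf hℓ hA hσ) hf

/-! ### transfer to `V₀` -/

theorem wF_tauSubOne (σ : Kbar ≃ₐ[ℚ] Kbar) (f : FF N) :
    wF N (tauSubOne (gal N σ) f) = tauSubOne (gal N σ) (wF N f) := by
  unfold tauSubOne
  rw [map_mul, map_inv₀, wF_gal]

theorem oneAddNonunits_Vzero_iff {g : FF N} :
    OneAddNonunits (Vzero N A hℓ hA) g ↔ OneAddNonunits (Vinf N A hℓ hA) (wF N g) := by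
  unfold OneAddNonunits
  rw [valuation_lt_one_iff_mem, valuation_lt_one_iff_mem]
  have h1 : wF N g - 1 = wF N (g - 1) := by rw [map_sub, map_one]
  rw [h1]
  constructor
  · rintro (h | h)
    · left; rw [h, map_zero]
    · right
      intro hmem
      apply h
      show wF N (g - 1)⁻¹ ∈ Vinf N A hℓ hA
      rw [map_inv₀]
      exact hmem
  · rintro (h | h)
    · left
      exact (map_eq_zero_iff _ (wF N).injective).mp h
    · right
      intro hmem
      apply h
      have : wF N (g - 1)⁻¹ ∈ Vinf N A hℓ hA := hmem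
      rwa [map_inv₀] at this

theorem isUnitOf_Vzero_iff {g : FF N} :
    IsUnitOf (Vzero N A hℓ hA) g ↔ IsUnitOf (Vinf N A hℓ hA) (wF N g) := by
  unfold IsUnitOf
  by_cases hg : g = 0
  · rw [hg, map_zero, map_zero, map_zero]
    simp
  · have hg' : wF N g ≠ 0 := fun h => hg ((map_eq_zero_iff _ (wF N).injective).mp h)
    rw [valuation_eq_one_iff_mem _ hg, valuation_eq_one_iff_mem _ hg', ← map_inv₀]
    rfl

/-- **`(τ - 1)² f ∈ 1 + 𝔪_{V₀}`.** -/
theorem oneAddNonunits_twice_Vzero {σ : Kbar ≃ₐ[ℚ] Kbar} (hσ : σ ∈ A.inertiaSubgroupIn ℚ)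
    {f : FF N} (hf : f ≠ 0) :
    OneAddNonunits (Vzero N A hℓ hA) (tauSubOne (gal N σ) (tauSubOne (gal N σ) f)) := by
  rw [oneAddNonunits_Vzero_iff, wF_tauSubOne, wF_tauSubOne]
  exact oneAddNonunits_twice_Vinf hℓ hA hσ
    (fun h => hf ((map_eq_zero_iff _ (wF N).injective).mp h))

/-- **`(τ - 1) f` is a unit of `V₀`.** -/
theorem isUnitOf_once_Vzero {σ : Kbar ≃ₐ[ℚ] Kbar} (hσ : σ ∈ A.inertiaSubgroupIn ℚ)
    {f : FF N} (hf : f ≠ 0) :
    IsUnitOf (Vzero N A hℓ hA) (tauSubOne (gal N σ) f) := by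
  rw [isUnitOf_Vzero_iff, wF_tauSubOne]
  exact isUnitOf_once_Vinf hℓ hA hσ
    (fun h => hf ((map_eq_zero_iff _ (wF N).injective).mp h))

/-! ### `V₀ ≠ V∞` -/

theorem coe_eq_incl_of_intEmb {f : FF N} {g : LaurentSeries ℤ}
    (h : ((f : FF N) : LaurentSeries Kbar) = intEmb g) :
    ((f : FF N) : LaurentSeries Kbar) = incl A (castA A g) := by
  rw [h, intEmb, incl, castA, coeffMap_coeffMap]
  exact coeffMap_congr (RingHom.ext_int _ _) g

/-- **The two Gauss valuations are different** (`ℓ ∣ N`). -/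
theorem Vzero_ne_Vinf [Fact ℓ.Prime] (h : ℓ ∣ N) : Vzero N A hℓ hA ≠ Vinf N A hℓ hA := by
  refine comapW_ne N ℓ h (Vinf N A hℓ hA) ?_ ?_ ?_
  · intro f g hg
    exact mem_gaussInfBar_of_incl hℓ hA (intGen_full N) (castA A g) (coe_eq_incl_of_intEmb hg)
  · intro f g k hg hk
    refine inv_mem_gaussInfBar_of_incl hℓ hA (intGen_full N) (castA A g)
      (coe_eq_incl_of_intEmb hg) ?_
    rw [red_ne_zero_iff]
    refine ⟨k, ?_⟩
    have : (((castA A g).coeff k : A) : Kbar) = -1 := by
      show (((Int.castRingHom A) (g.coeff k) : A) : Kbar) = -1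
      rw [hk]
      simp
    rw [this, Valuation.map_neg, map_one]
  · exact inv_prime_not_mem_gaussInfBar hℓ hA (intGen_full N)

end Fermat.Agent.A2.H708

end
end
-- ===== PACK-END A2/H708/GaussLevel.lean

-- ===== PACK-BEGIN S29/H801/M1NC.lean
section
/-
S29 / M1 (helper801), part 5: the norm compatibility `nc` of the mixed square

      F_N   --α_{ℓ'}-->  F_{Nℓ'}
       |β_ℓ               |β_ℓ
       v                  v
      F_{Nℓ} --α_{ℓ'}--> F_{Nℓℓ'}

from `F_{Nℓℓ'} = F_{Nℓ} ⊔ V_ℓ(F_{Nℓ'})` and `[F_{Nℓ'} : F_N] ≤ [F_{Nℓℓ'} : F_{Nℓ}]`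
(general coefficient field `L`); over `ℚ̄` both inputs are in the shared library X0DEG (helper760).
-/






set_option autoImplicit false
set_option linter.style.haveILetI false

noncomputable section

namespace Fermat.Agent.S29.H801

open AlgebraicCurve ModularCurve Fermat.Agent.S37.H818

section General

variable (L : Type*) [Field L] [Algebra ℚ L]

theorem algebraMap_along_apply (M k : ℕ) [NeZero M] [NeZero k] (a : _root_.Fermat.Agent.S29.H801.FB L M) :
    letI := algebraAlong (heckeAlphaBar L M k)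
    algebraMap (_root_.Fermat.Agent.S29.H801.FB L M) (_root_.Fermat.Agent.S29.H801.FB L (M * k)) a = heckeAlphaBar L M k a := rfl

theorem algebraMap_level_apply (M : ℕ) [NeZero M] (a : _root_.Fermat.Agent.S29.H801.FB L M) :
    algebraMap (laurentBaseChange L (modularFunctionFieldFull M)) (LaurentSeries L) a
      = (a : LaurentSeries L) := rfl

theorem smul_along_coe (M k : ℕ) [NeZero M] [NeZero k] (a : _root_.Fermat.Agent.S29.H801.FB L M) (x : _root_.Fermat.Agent.S29.H801.FB L (M * k)) :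
    letI := algebraAlong (heckeAlphaBar L M k)
    ((a • x : _root_.Fermat.Agent.S29.H801.FB L (M * k)) : LaurentSeries L) = (a : LaurentSeries L) * (x : LaurentSeries L) := by
  letI := algebraAlong (heckeAlphaBar L M k)
  rw [Algebra.smul_def, algebraMap_along_apply, MulMemClass.coe_mul, coe_heckeAlphaBar]

theorem smul_level_eq (M : ℕ) [NeZero M] (a : _root_.Fermat.Agent.S29.H801.FB L M) (x : LaurentSeries L) :
    a • x = (a : LaurentSeries L) * x := by
  rw [Algebra.smul_def, algebraMap_level_apply]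

/-- Elements of `F_{Mk}` are algebraic over `F_M`. -/
theorem isAlgebraic_level (M k : ℕ) [NeZero M] [NeZero k]
    (hfin : FiniteAlong L (heckeAlphaBar L M k)) (x : LaurentSeries L)
    (hx : x ∈ laurentBaseChange L (modularFunctionFieldFull (M * k))) :
    IsAlgebraic (laurentBaseChange L (modularFunctionFieldFull M)) x := by
  letI := algebraAlong (heckeAlphaBar L M k)
  haveI : Module.Finite (_root_.Fermat.Agent.S29.H801.FB L M) (_root_.Fermat.Agent.S29.H801.FB L (M * k)) := hfin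
  have hint : IsIntegral (_root_.Fermat.Agent.S29.H801.FB L M) (⟨x, hx⟩ : _root_.Fermat.Agent.S29.H801.FB L (M * k)) := IsIntegral.of_finite _ _
  obtain ⟨p, hp, hpx⟩ := hint
  refine ⟨p, hp.ne_zero, ?_⟩
  have h := Polynomial.hom_eval₂ p (algebraMap (_root_.Fermat.Agent.S29.H801.FB L M) (_root_.Fermat.Agent.S29.H801.FB L (M * k)))
    ((laurentBaseChange L (modularFunctionFieldFull (M * k))).val :
      _root_.Fermat.Agent.S29.H801.FB L (M * k) →+* LaurentSeries L) ⟨x, hx⟩
  rw [hpx, map_zero] at h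
  have hcomp : ((laurentBaseChange L (modularFunctionFieldFull (M * k))).val :
      _root_.Fermat.Agent.S29.H801.FB L (M * k) →+* LaurentSeries L).comp (algebraMap (_root_.Fermat.Agent.S29.H801.FB L M) (_root_.Fermat.Agent.S29.H801.FB L (M * k)))
      = algebraMap (laurentBaseChange L (modularFunctionFieldFull M)) (LaurentSeries L) := by
    refine RingHom.ext fun a => ?_
    rw [RingHom.comp_apply, algebraMap_along_apply, algebraMap_level_apply]
    exact coe_heckeAlphaBar M k a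
  rw [hcomp] at h
  rw [Polynomial.aeval_def]
  exact h.symm

/-- The image of `β_ℓ : F_{Nℓ'} → F_{Nℓℓ'}` spans `F_{Nℓℓ'}` over `F_{Nℓ}`. -/
theorem span_range_betaTo (N ℓ ℓ' : ℕ) [NeZero N] [NeZero ℓ] [NeZero ℓ']
    (hfin : FiniteAlong L (heckeAlphaBar L (N * ℓ) ℓ'))
    (hsup : laurentBaseChange L (modularFunctionFieldFull (N * ℓ * ℓ'))
      = laurentBaseChange L (modularFunctionFieldFull (N * ℓ))
        ⊔ (laurentBaseChange L (modularFunctionFieldFull (N * ℓ'))).map (qExpandAlgHomC L ℓ)) :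
    letI := algebraAlong (heckeAlphaBar L (N * ℓ) ℓ')
    Submodule.span (_root_.Fermat.Agent.S29.H801.FB L (N * ℓ))
      (Set.range (betaTo L (N * ℓ') ℓ (N * ℓ * ℓ') (Nat.mul_right_comm N ℓ' ℓ))) = ⊤ := by
  letI := algebraAlong (heckeAlphaBar L (N * ℓ) ℓ')
  rw [eq_top_iff]
  rintro t -
  have ht : (t : LaurentSeries L) ∈ laurentBaseChange L (modularFunctionFieldFull (N * ℓ))
      ⊔ (laurentBaseChange L (modularFunctionFieldFull (N * ℓ'))).map (qExpandAlgHomC L ℓ) := by
    rw [← hsup]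
    exact t.2
  have halg : ∀ x ∈ (laurentBaseChange L (modularFunctionFieldFull (N * ℓ'))).map
      (qExpandAlgHomC L ℓ),
      IsAlgebraic (laurentBaseChange L (modularFunctionFieldFull (N * ℓ))) x := by
    intro x hx
    refine isAlgebraic_level L (N * ℓ) ℓ' hfin x ?_
    rw [hsup]
    exact (le_sup_right : (laurentBaseChange L (modularFunctionFieldFull (N * ℓ'))).map
      (qExpandAlgHomC L ℓ) ≤ _) hx
  have hs := mem_span_of_mem_sup _ _ halg ht
  -- transport the span statement from `L((q))` to `F_{Nℓℓ'}`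
  have key : ∀ x : LaurentSeries L,
      x ∈ Submodule.span (laurentBaseChange L (modularFunctionFieldFull (N * ℓ)))
        (((laurentBaseChange L (modularFunctionFieldFull (N * ℓ'))).map (qExpandAlgHomC L ℓ) :
          IntermediateField L (LaurentSeries L)) : Set (LaurentSeries L)) →
      ∃ y : _root_.Fermat.Agent.S29.H801.FB L (N * ℓ * ℓ'),
        y ∈ Submodule.span (_root_.Fermat.Agent.S29.H801.FB L (N * ℓ))
          (Set.range (betaTo L (N * ℓ') ℓ (N * ℓ * ℓ') (Nat.mul_right_comm N ℓ' ℓ))) ∧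
        (y : LaurentSeries L) = x := by
    intro x hx
    induction hx using Submodule.span_induction with
    | mem x hx =>
      obtain ⟨z, hz, rfl⟩ := hx
      refine ⟨betaTo L (N * ℓ') ℓ (N * ℓ * ℓ') (Nat.mul_right_comm N ℓ' ℓ) ⟨z, hz⟩,
        Submodule.subset_span ⟨_, rfl⟩, ?_⟩
      rw [coe_betaTo]
      rfl
    | zero => exact ⟨0, Submodule.zero_mem _, rfl⟩
    | add x y _ _ hx hy =>
      obtain ⟨x', hx', rfl⟩ := hx
      obtain ⟨y', hy', rfl⟩ := hy
      exact ⟨x' + y', Submodule.add_mem _ hx' hy', rfl⟩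
    | smul a x _ hx =>
      obtain ⟨x', hx', rfl⟩ := hx
      refine ⟨a • x', Submodule.smul_mem _ a hx', ?_⟩
      rw [smul_along_coe, smul_level_eq]
  obtain ⟨y, hy, hyt⟩ := key _ hs
  have : y = t := Subtype.ext hyt
  rw [← this]
  exact hy

/-- The norm compatibility `nc` from the cartesian square and the degrees. -/
theorem normCompat_of_square (N ℓ ℓ' : ℕ) [NeZero N] [NeZero ℓ] [NeZero ℓ']
    (hfin : FiniteAlong L (heckeAlphaBar L N ℓ'))
    (hfin' : FiniteAlong L (heckeAlphaBar L (N * ℓ) ℓ'))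
    (hrk : finrankAlong L (heckeAlphaBar L N ℓ') ≤ finrankAlong L (heckeAlphaBar L (N * ℓ) ℓ'))
    (hsup : laurentBaseChange L (modularFunctionFieldFull (N * ℓ * ℓ'))
      = laurentBaseChange L (modularFunctionFieldFull (N * ℓ))
        ⊔ (laurentBaseChange L (modularFunctionFieldFull (N * ℓ'))).map (qExpandAlgHomC L ℓ)) :
    NormCompat (heckeAlphaBar L N ℓ') (heckeBetaBar L N ℓ) (heckeAlphaBar L (N * ℓ) ℓ')
      (betaTo L (N * ℓ') ℓ (N * ℓ * ℓ') (Nat.mul_right_comm N ℓ' ℓ)) :=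
  normCompat_of_span _ _ _ _ (rel_sq₁ N ℓ ℓ') hfin hfin' hrk
    (span_range_betaTo L N ℓ ℓ' hfin' hsup)

end General

/-- **The norm compatibility `nc` over `ℚ̄`.** -/
theorem normCompat_bar (N ℓ ℓ' : ℕ) [NeZero N] [NeZero ℓ] [NeZero ℓ'] (hℓ : ℓ.Prime)
    (hℓ' : ℓ'.Prime) (hne : ℓ ≠ ℓ') :
    NormCompat (heckeAlphaBar (AlgebraicClosure ℚ) N ℓ') (heckeBetaBar (AlgebraicClosure ℚ) N ℓ)
      (heckeAlphaBar (AlgebraicClosure ℚ) (N * ℓ) ℓ')
      (betaTo (AlgebraicClosure ℚ) (N * ℓ') ℓ (N * ℓ * ℓ') (Nat.mul_right_comm N ℓ' ℓ)) :=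
  normCompat_of_square (AlgebraicClosure ℚ) N ℓ ℓ'
    (Fermat.Agent.Lib.X0Deg.finiteAlong_heckeAlphaBar N ℓ')
    (Fermat.Agent.Lib.X0Deg.finiteAlong_heckeAlphaBar (N * ℓ) ℓ')
    (le_of_eq (Fermat.Agent.Lib.X0Deg.finrankAlong_heckeAlphaBar_square N ℓ ℓ' hℓ hℓ' hne).symm)
    (Fermat.Agent.Lib.X0Deg.modularFunctionFieldBar_square N ℓ ℓ')

end Fermat.Agent.S29.H801

end

end
-- ===== PACK-END S29/H801/M1NC.lean

-- ===== PACK-BEGIN Lib/Cheb/H44/DirichletLimit.lean
section



/-!
# CHEB, Tier 2, piece (AN): `Spec.DirichletLimitStatement`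

For a number field `F` and a Dirichlet character `χ` mod `m` with `χ(N I) ∉ {0, 1}` for some
ideal `I`, the series `L_F(s, χ ∘ N) = ∑_I χ(N I) N(I)^(-s)` has a limit as `s → 1⁺`.

Assembly: `NormL.exists_continuousOn_normL` (helper44: multiplier trick; blocks KEY/DS by
helper44, ORB by helper941, CLS by helper584, COP by helper704, tent toolkit by helper74) and the
bridge to the `LSeries` form of `Spec` by helper941.
-/

namespace Fermat.Agent.Lib.Cheb.H44

open NumberField

/-- **(AN)** in the frozen `Spec` shape. -/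
theorem dirichletLimit : Fermat.Agent.Lib.Cheb.Spec.DirichletLimitStatement :=
  Fermat.Agent.Lib.Cheb.H941.dirichletLimit_of_continuousOn fun F _ _ _ _ χ I₀ h0 h1 =>
    Fermat.Agent.Lib.NormL.exists_continuousOn_normL F χ I₀ h0 h1

end Fermat.Agent.Lib.Cheb.H44

end
-- ===== PACK-END Lib/Cheb/H44/DirichletLimit.lean

-- ===== PACK-BEGIN Ribet/H751/LogHol.lean
section





/-!
# RIBET row 38, WALL-p, I3 leaf LOGHOL (helper751): `dh / h` is holomorphic when `p ∣ div h`

`logHol : Fermat.Agent.Ribet.H764.I3.LogHolStatement` (frozen shape of `Ribet/H764/I3Spec.lean`,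
verbatim).

For a place `Q` of `F = modularFunctionFieldFullC k M` with uniformiser `t` we take `t' = θ t`
(`θ = q d/dq`) and `u = (dh/dt) / h ∈ F`; the abstract core `exists_integral_logDer`
(`LogHolCore.lean`) gives `u ∈ O_Q` and `d/dq h = u · h · d/dq t`, hence `g = θh / h = u · θt`.
Inputs: `FF1` for `F` (helper383, `S18/H383/FF1Modular.lean`) and the exchange lemma of S24.
-/

set_option autoImplicit false

open CuspForm ModularFormClass ModularCurve AlgebraicCurve

namespace Fermat.Agent.Ribet.H751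

open Fermat.Agent.Ribet.H764.I3 Fermat.Agent.Lib.RR Fermat.Agent.S18.H602

/-- `θ = q d/dq` in terms of `d/dq`. -/
theorem isTheta_single_mul_dq {k : Type} [Field k] (f : LaurentSeries k) :
    IsTheta f (HahnSeries.single 1 1 * dq f) := by
  intro n
  rw [HahnSeries.coeff_single_mul, one_mul, dq_coeff, sub_add_cancel, zsmul_eq_mul]

theorem eq_of_isTheta {k : Type} [Field k] {f f₁ f₂ : LaurentSeries k} (h₁ : IsTheta f f₁)
    (h₂ : IsTheta f f₂) : f₁ = f₂ := by
  ext n
  rw [h₁ n, h₂ n]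

/-- **LOGHOL**: `dh/h` is holomorphic when `p ∣ div h`. -/
theorem logHol : LogHolStatement := by
  intro p M _ hp hpM k _ _ _ h h0 hdiv g hg Q t ht
  haveI : Fact p.Prime := ⟨hp⟩
  have hchar : ∀ ℓ : ℕ, ℓ.Prime → ℓ ∣ M → (ℓ : k) ≠ 0 := by
    intro ℓ hℓ hℓM h0
    have h1 : p ∣ ℓ := (CharP.cast_eq_zero_iff k p ℓ).mp h0
    have h2 : p = ℓ := (Nat.prime_dvd_prime_iff_eq hp hℓ).mp h1
    exact hpM (h2 ▸ hℓM)
  have hFF : FF1 k (modularFunctionFieldFullC k M) :=
    Fermat.Agent.S18.H383.ff1_fullC k M hchar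
  have hdeg : Q.deg = 1 := hFF.deg_eq_one Q
  have httr : Transcendental k t := by
    apply Fermat.Agent.S24.FF.transcendental_of_not_mem_range
    rintro ⟨c, hc⟩
    have := ord_algebraMap Q c
    rw [hc, ht] at this
    exact one_ne_zero this
  obtain ⟨x, hx, hfin⟩ := hFF.exists_finite
  have hfin' : FiniteDimensional (IntermediateField.adjoin k {t}) (modularFunctionFieldFullC k M) :=
    Fermat.Agent.S24.FF.finiteDimensional_adjoin_of_transcendental hx httr
  have halg : ∀ f : modularFunctionFieldFullC k M,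
      IsIntegral (IntermediateField.adjoin k {t}) f := fun f => IsIntegral.of_finite _ f
  obtain ⟨u, hu, hD⟩ := exists_integral_logDer p (modularFunctionFieldFullC k M).val
    (dqDerAlg k) Q hdeg ht halg h0 (hdiv Q)
  refine ⟨u, HahnSeries.single 1 1 * dq (t : LaurentSeries k), isTheta_single_mul_dq _, hu, ?_⟩
  have hD' : dq (h : LaurentSeries k) = (u : LaurentSeries k) * (h : LaurentSeries k) *
      dq (t : LaurentSeries k) := hD
  have h1 : HahnSeries.ofPowerSeries ℤ k g * (h : LaurentSeries k) =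
      HahnSeries.single 1 1 * dq (h : LaurentSeries k) :=
    eq_of_isTheta hg (isTheta_single_mul_dq _)
  have hh0 : (h : LaurentSeries k) ≠ 0 := fun hh => h0 (Subtype.ext hh)
  apply mul_right_cancel₀ hh0
  rw [h1, hD']
  ring

end Fermat.Agent.Ribet.H751

end
-- ===== PACK-END Ribet/H751/LogHol.lean

-- ===== PACK-BEGIN S37/Core/RimGlue.lean
section







/-!
# S37 row-lead (helper37): `node_rim` from ONE concrete reduction datum      (BOARD v3)

The abstract reduction theorem is complete on `main`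
(`Red.H940.main_of_fibreSum` + `Red.H160.fibreSumStatement` + `Red.H399.normRed`):
a reduction datum `G : Red.Datum A π F Fk` with good charts has a place map `r` with (i), (ii).

This file is the last formal step: for a datum on `(F_M, F_{M,k})` which is *linked* to the
`q`-expansion integrality of the Prelude (`Red.H759.Link`, helper759), the abstract (i), (ii) are the Prelude's
`IsPlaceReductionModL`, and with PGI (`H98.gen`, on main) we get

  `node_rim_of_datum : G.Good → Red.H759.Link G → ReductionInputsModL A M`.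

So `node_rim` of the S37 board == existence of `G` with `G.Good` and `H759.Link G`
(= `Red.ModDatum` without its two Galois fields, which are no longer needed).
The coordinate `G.x` is arbitrary (`j`, `t₂`, `t₃`, …).
-/

set_option autoImplicit false
set_option synthInstance.maxHeartbeats 400000

noncomputable section

namespace Fermat.Agent.S37.Core

open ModularCurve AlgebraicCurve HahnSeries IsLocalRing Fermat.Agent.S37.Red

/-- **RED-E1**: the abstract (i), (ii) of a linked datum are the Prelude's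
`IsPlaceReductionModL`. -/
theorem isPlaceReductionModL_of_isRed {M : ℕ} {A : ValuationSubring (AlgebraicClosure ℚ)}
    (G : Datum A (residue A) (modularFunctionFieldBar M)
      (modularFunctionFieldFullC (ResidueField A) M))
    (hlink : H759.Link G)
    (r : Place (AlgebraicClosure ℚ) (modularFunctionFieldBar M) →
      Place (ResidueField A) (modularFunctionFieldFullC (ResidueField A) M))
    (hr : IsRed G r) : IsPlaceReductionModL A M r := by
  refine ⟨hr.1, ?_⟩
  intro y hy hyk hne D hD Q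
  obtain ⟨h, hρ⟩ := hlink y hy hyk hne
  have hne' : G.ρ ⟨⟨coeffMap A.subtype y, hy⟩, h⟩ ≠ 0 := by
    rw [hρ]
    intro h0
    exact hne (congrArg Subtype.val h0)
  have := hr.2 ⟨coeffMap A.subtype y, hy⟩ h hne' D hD Q
  rw [this, hρ]

/-- **`node_rim` from a linked datum with good charts.** -/
theorem node_rim_of_datum (M : ℕ) [NeZero M] (ℓ : ℕ) (hℓ : ℓ.Prime) (hℓM : ¬ ℓ ∣ M)
    (A : ValuationSubring (AlgebraicClosure ℚ)) (hA : A.LiesOverPrime ℓ)
    (G : Datum A (residue A) (modularFunctionFieldBar M)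
      (modularFunctionFieldFullC (ResidueField A) M))
    (hgood : G.Good) (hlink : H759.Link G) : ReductionInputsModL A M := by
  haveI : IsAlgClosed (ResidueField A) := Fermat.Agent.S18.H9.resAlgClosed _ A
  obtain ⟨r, hr, -⟩ := H940.main_of_fibreSum G hgood (H160.fibreSumStatement G)
  exact ⟨r, isPlaceReductionModL_of_isRed G hlink r hr, H98.gen M ℓ hℓ hℓM A hA⟩

/-- The same with (H4') removed: (H1) + (H3) + link. -/
theorem node_rim_of_datum' (M : ℕ) [NeZero M] (ℓ : ℕ) (hℓ : ℓ.Prime) (hℓM : ¬ ℓ ∣ M)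
    (A : ValuationSubring (AlgebraicClosure ℚ)) (hA : A.LiesOverPrime ℓ)
    (G : Datum A (residue A) (modularFunctionFieldBar M)
      (modularFunctionFieldFullC (ResidueField A) M))
    (finite : FiniteDimensional (IntermediateField.adjoin (AlgebraicClosure ℚ) {G.x})
      (modularFunctionFieldBar M))
    (finite_k : FiniteDimensional (IntermediateField.adjoin (ResidueField A) {G.xk})
      (modularFunctionFieldFullC (ResidueField A) M))
    (sep_k : Algebra.IsSeparable (IntermediateField.adjoin (ResidueField A) {G.xk})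
      (modularFunctionFieldFullC (ResidueField A) M))
    (finrank_eq : Module.finrank (IntermediateField.adjoin (AlgebraicClosure ℚ) {G.x})
        (modularFunctionFieldBar M) =
      Module.finrank (IntermediateField.adjoin (ResidueField A) {G.xk})
        (modularFunctionFieldFullC (ResidueField A) M))
    (lift_fin : ∀ c ∈ G.chartk G.xk, ∃ b ∈ G.chart G.x, ∃ hb : b ∈ G.O, G.ρ ⟨b, hb⟩ = c)
    (lift_inf : ∀ c ∈ G.chartk G.xk⁻¹, ∃ b ∈ G.chart G.x⁻¹, ∃ hb : b ∈ G.O, G.ρ ⟨b, hb⟩ = c)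
    (hlink : H759.Link G) : ReductionInputsModL A M :=
  node_rim_of_datum M ℓ hℓ hℓM A hA G
    (H217.good_of G finite finite_k sep_k finrank_eq lift_fin lift_inf) hlink

end Fermat.Agent.S37.Core

end
end
-- ===== PACK-END S37/Core/RimGlue.lean

-- ===== PACK-BEGIN S37/H448/Gen.lean
section







/-!
# S37 / piece R-f [GEN] (helper448): unconditional `PrincipalGeneratedByIntegral`

Glue of landed pieces:
* `S28.H867.coreData_of_inputs` + `S28.H807` + `S28.H25` : `CoreData N K` for every field `K`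
  of characteristic `ℓ ∤ N`;
* `Lib.RR.H864.hasPrincipalDivisors_modularFunctionFieldBar`;
* `S37.H700.pgi`, `S37.H700.reduction_mem`.

Exports (all hypothesis-free beyond `ℓ` prime, `ℓ ∤ N`, `A` over `ℓ`):
* `charP_residueField_of_liesOverPrime`
* `coreData_residueField`
* `principalGeneratedByIntegral` : the field `gen` of `Core.GeoRed` / `Core.PlaceRed`
* `reduction_mem_fullC` : the reduction of `u ∈ A((q)) ∩ F̄_N` lies in `F_k`
-/

set_option autoImplicit false

noncomputable section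

namespace Fermat.Agent.S37.H448

open ModularCurve HahnSeries AlgebraicCurve

/-- the residue field of a valuation subring of `ℚ̄` over `ℓ` has characteristic `ℓ` -/
theorem charP_residueField_of_liesOverPrime {ℓ : ℕ} (hℓ : ℓ.Prime)
    (A : ValuationSubring (AlgebraicClosure ℚ)) (hA : A.LiesOverPrime ℓ) :
    CharP (IsLocalRing.ResidueField A) ℓ := by
  refine (CharP.charP_iff_prime_eq_zero hℓ).mpr ?_
  have h1 : ((ℓ : A) : AlgebraicClosure ℚ) ∈ A.nonunits := by
    have : ((ℓ : A) : AlgebraicClosure ℚ) = (ℓ : AlgebraicClosure ℚ) := by push_cast; rfl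
    rw [this]; exact hA
  have h2 : (ℓ : A) ∈ IsLocalRing.maximalIdeal A := ValuationSubring.coe_mem_nonunits_iff.mp h1
  have h3 := (IsLocalRing.residue_eq_zero_iff (ℓ : A)).mpr h2
  rwa [map_natCast] at h3

/-- `CoreData N k` for the residue field `k` of a valuation subring of `ℚ̄` over `ℓ ∤ N` -/
theorem coreData_residueField (N : ℕ) [NeZero N] {ℓ : ℕ} (hℓ : ℓ.Prime) (hℓN : ¬ ℓ ∣ N)
    (A : ValuationSubring (AlgebraicClosure ℚ)) (hA : A.LiesOverPrime ℓ) :
    Fermat.Agent.S28.CoreData N (IsLocalRing.ResidueField A) := by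
  have : Fact ℓ.Prime := ⟨hℓ⟩
  have : CharP (IsLocalRing.ResidueField A) ℓ := charP_residueField_of_liesOverPrime hℓ A hA
  exact Fermat.Agent.S28.H867.coreData_of_inputs N ℓ hℓN (IsLocalRing.ResidueField A)
    (fun p hp _ _ => Fermat.Agent.S28.H807.nonempty_modPolyData p hp)
    (fun p hp _ _ => Fermat.Agent.S28.H807.nonempty_unitPolyData p hp)
    Fermat.Agent.S28.H25.theta_identity

/-- **R-f [GEN]**: every principal divisor of `ℚ̄(X₀(N))` is generated by divisors of
`A`-integral functions with nonzero reduction in `F_k`. -/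
theorem principalGeneratedByIntegral (N : ℕ) [NeZero N] {ℓ : ℕ} (hℓ : ℓ.Prime) (hℓN : ¬ ℓ ∣ N)
    (A : ValuationSubring (AlgebraicClosure ℚ)) (hA : A.LiesOverPrime ℓ) :
    PrincipalGeneratedByIntegral A (IsLocalRing.residue A) N := by
  have := Fermat.Agent.Lib.RR.H864.hasPrincipalDivisors_modularFunctionFieldBar N
  exact Fermat.Agent.S37.H700.pgi (coreData_residueField N hℓ hℓN A hA)

/-- the coefficientwise reduction of `u ∈ A((q)) ∩ F̄_N` lies in `F_k` (so the field `memk` of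
`Core.IntElt` is automatic) -/
theorem reduction_mem_fullC (N : ℕ) [NeZero N] {ℓ : ℕ} (hℓ : ℓ.Prime) (hℓN : ¬ ℓ ∣ N)
    (A : ValuationSubring (AlgebraicClosure ℚ)) (hA : A.LiesOverPrime ℓ)
    (u : LaurentSeries A) (hu : coeffMap A.subtype u ∈ modularFunctionFieldBar N) :
    coeffMap (IsLocalRing.residue A) u ∈
      modularFunctionFieldFullC (IsLocalRing.ResidueField A) N :=
  Fermat.Agent.S37.H700.reduction_mem (coreData_residueField N hℓ hℓN A hA) u hu

end Fermat.Agent.S37.H448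

end
end
-- ===== PACK-END S37/H448/Gen.lean

-- ===== PACK-BEGIN S37/H628/E2Degree.lean
section






/-!
# S37 / RED-E2 (helper628): the four (H1) fields of `Red.Datum.Good` for the modular datum

`Red.Datum.Good` (helper40, `Fermat/Agent/S37/Red/Spec.lean`) asks for
* `finite     : FiniteDimensional K⟮G.x⟯ F`
* `finite_k   : FiniteDimensional k⟮G.xk⟯ Fk`
* `sep_k      : Algebra.IsSeparable k⟮G.xk⟯ Fk`
* `finrank_eq : Module.finrank K⟮G.x⟯ F = Module.finrank k⟮G.xk⟯ Fk`

Here they are proved for `F = ℚ̄(X₀(N))`, `F_k = k(j(q^d) : d ∣ N)`, `k = A/𝔪`, `A` over `ℓ ∤ N`,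
for ANY coordinate whose `q`-expansion is `j` (`jqModC`), so that they plug into any construction
of the datum with `x = j`:

* general field `k` with the primes of `N` invertible:
  `finrank_adjoin_fullC`, `finiteDimensional_adjoin_fullC`, `isSeparable_adjoin_fullC`;
* `ℚ̄`: `finrank_adjoin_bar`, `finiteDimensional_adjoin_bar`;
* `good_H1` : the four fields at once for a `Red.Datum` with `G.x = j`, `G.xk = j̄`
  (hypotheses on the `q`-expansions of `G.x` and `G.xk` only).
Both degrees are `ψ(N)` (S28 degree theory, helper988/helper867); separability is helper264's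
`algebra_isSeparable_full`.
-/

set_option autoImplicit false
set_option synthInstance.maxHeartbeats 400000
set_option linter.style.haveILetI false
set_option linter.unusedSectionVars false

noncomputable section

namespace Fermat.Agent.S37.H628

open ModularCurve IntermediateField AlgebraicCurve

section General

variable {K L : Type*} [Field K] [Field L] [Algebra K L]

/-- the subfield `K(x)` of the field `↥E` corresponds to the subfield `K(x)` of the ambient
field -/
theorem comap_val_adjoin_singleton (E : IntermediateField K L) (x : E) :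
    (K⟮(x : L)⟯).comap E.val = K⟮x⟯ := by
  have h1 : (K⟮x⟯).map E.val = K⟮(x : L)⟯ := by
    rw [adjoin_map, Set.image_singleton]
    rfl
  rw [← h1]
  exact comap_map _ _

/-- degree of `↥E` over `K(x)` as a relative degree in the ambient field -/
theorem finrank_adjoin_subtype_eq_relfinrank (E : IntermediateField K L) (x : E) :
    Module.finrank K⟮x⟯ E = (K⟮(x : L)⟯).relfinrank E := by
  have h1 := relfinrank_comap (K⟮(x : L)⟯) E.val ⊤
  rw [relfinrank_top_right, ← AlgHom.fieldRange_eq_map, fieldRange_val,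
    comap_val_adjoin_singleton] at h1
  exact h1

/-- the same for an element given by its value in the ambient field -/
theorem finrank_adjoin_subtype_eq_relfinrank' (E : IntermediateField K L) (x : E) {y : L}
    (hxy : (x : L) = y) : Module.finrank K⟮x⟯ E = (K⟮y⟯).relfinrank E := by
  rw [finrank_adjoin_subtype_eq_relfinrank, hxy]

end General

section AnyField

variable (k : Type*) [Field k] (N : ℕ) [NeZero N]

/-- **degree**: `[F_{N,k} : k(x)] = ψ(N)` for every `x ∈ F_{N,k}` with `q`-expansion `j`. -/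
theorem finrank_adjoin_fullC (hchar : ∀ p : ℕ, p.Prime → p ∣ N → (p : k) ≠ 0)
    (x : modularFunctionFieldFullC k N) (hx : (x : LaurentSeries k) = jqModC k) :
    Module.finrank k⟮x⟯ (modularFunctionFieldFullC k N) = dedekindPsi N := by
  rw [finrank_adjoin_subtype_eq_relfinrank' _ x hx]
  exact Fermat.Agent.S28.H988.relfinrank_jField_full_eq k N (NeZero.ne N) hchar

/-- **finiteness** of `F_{N,k}` over `k(x)`. -/
theorem finiteDimensional_adjoin_fullC (hchar : ∀ p : ℕ, p.Prime → p ∣ N → (p : k) ≠ 0)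
    (x : modularFunctionFieldFullC k N) (hx : (x : LaurentSeries k) = jqModC k) :
    FiniteDimensional k⟮x⟯ (modularFunctionFieldFullC k N) := by
  apply Module.finite_of_finrank_pos
  rw [finrank_adjoin_fullC k N hchar x hx]
  exact Fermat.Agent.S28.H988.dedekindPsi_pos N (NeZero.ne N)

/-- **separability** of `F_{N,k}` over `k(x)`, `k` perfect of characteristic `p`. -/
theorem isSeparable_adjoin_fullC [PerfectField k] (p : ℕ) [Fact p.Prime] [CharP k p]
    (hchar : ∀ r : ℕ, r.Prime → r ∣ N → (r : k) ≠ 0)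
    (x : modularFunctionFieldFullC k N) (hx : (x : LaurentSeries k) = jqModC k) :
    Algebra.IsSeparable k⟮x⟯ (modularFunctionFieldFullC k N) := by
  have hx' : x = (⟨jqModC k, jqModC_mem_full k N⟩ : modularFunctionFieldFullC k N) :=
    Subtype.ext hx
  subst hx'
  haveI := finiteDimensional_adjoin_fullC k N hchar
    (⟨jqModC k, jqModC_mem_full k N⟩ : modularFunctionFieldFullC k N) rfl
  exact Fermat.Agent.S18.H264.algebra_isSeparable_full k p N

end AnyField

section Bar

variable (N : ℕ) [NeZero N]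

/-- **degree**: `[ℚ̄(X₀(N)) : ℚ̄(x)] = ψ(N)` for every `x` with `q`-expansion `j`. -/
theorem finrank_adjoin_bar (x : modularFunctionFieldBar N)
    (hx : (x : LaurentSeries (AlgebraicClosure ℚ)) = jqModC (AlgebraicClosure ℚ)) :
    Module.finrank (AlgebraicClosure ℚ)⟮x⟯ (modularFunctionFieldBar N) = dedekindPsi N := by
  rw [finrank_adjoin_subtype_eq_relfinrank' _ x hx]
  exact Fermat.Agent.S28.H988.relfinrank_jField_bar_eq N (NeZero.ne N)

/-- **finiteness** of `ℚ̄(X₀(N))` over `ℚ̄(x)`. -/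
theorem finiteDimensional_adjoin_bar (x : modularFunctionFieldBar N)
    (hx : (x : LaurentSeries (AlgebraicClosure ℚ)) = jqModC (AlgebraicClosure ℚ)) :
    FiniteDimensional (AlgebraicClosure ℚ)⟮x⟯ (modularFunctionFieldBar N) := by
  apply Module.finite_of_finrank_pos
  rw [finrank_adjoin_bar N x hx]
  exact Fermat.Agent.S28.H988.dedekindPsi_pos N (NeZero.ne N)

end Bar

section Residue

variable (N : ℕ) [NeZero N] {ℓ : ℕ} (hℓ : ℓ.Prime) (hℓN : ¬ ℓ ∣ N)
  (A : ValuationSubring (AlgebraicClosure ℚ)) (hA : A.LiesOverPrime ℓ)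

include hℓ hℓN hA in
/-- the primes dividing `N` are invertible in the residue field of `A` -/
theorem natCast_ne_zero_residueField (p : ℕ) (hp : p.Prime) (hpN : p ∣ N) :
    ((p : ℕ) : IsLocalRing.ResidueField A) ≠ 0 := by
  haveI : CharP (IsLocalRing.ResidueField A) ℓ :=
    Fermat.Agent.S37.H448.charP_residueField_of_liesOverPrime hℓ A hA
  intro h
  rw [CharP.cast_eq_zero_iff (IsLocalRing.ResidueField A) ℓ] at h
  have : ℓ = p := (Nat.prime_dvd_prime_iff_eq hℓ hp).mp h
  exact hℓN (this ▸ hpN)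

include hℓ hℓN hA in
/-- **RED-E2**: the four (H1) fields of `Red.Datum.Good` for every reduction datum on
`(ℚ̄(X₀(N)), F_{N,k})` whose coordinate is `j`. -/
theorem good_H1 (G : Red.Datum A (IsLocalRing.residue A) (Red.FN N) (Red.FNk A N))
    (hx : ((G.x : Red.FN N) : LaurentSeries (AlgebraicClosure ℚ)) =
      jqModC (AlgebraicClosure ℚ))
    (hxk : ((G.xk : Red.FNk A N) : LaurentSeries (IsLocalRing.ResidueField A)) =
      jqModC (IsLocalRing.ResidueField A)) :
    FiniteDimensional (AlgebraicClosure ℚ)⟮G.x⟯ (Red.FN N) ∧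
      FiniteDimensional (IsLocalRing.ResidueField A)⟮G.xk⟯ (Red.FNk A N) ∧
      Algebra.IsSeparable (IsLocalRing.ResidueField A)⟮G.xk⟯ (Red.FNk A N) ∧
      Module.finrank (AlgebraicClosure ℚ)⟮G.x⟯ (Red.FN N) =
        Module.finrank (IsLocalRing.ResidueField A)⟮G.xk⟯ (Red.FNk A N) := by
  have hchar := natCast_ne_zero_residueField N hℓ hℓN A hA
  haveI : Fact ℓ.Prime := ⟨hℓ⟩
  haveI : CharP (IsLocalRing.ResidueField A) ℓ :=
    Fermat.Agent.S37.H448.charP_residueField_of_liesOverPrime hℓ A hA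
  haveI : IsAlgClosed (IsLocalRing.ResidueField A) :=
    Fermat.Agent.S18.H9.resAlgClosed (AlgebraicClosure ℚ) A
  refine ⟨finiteDimensional_adjoin_bar N G.x hx,
    finiteDimensional_adjoin_fullC _ N hchar G.xk hxk,
    isSeparable_adjoin_fullC _ N ℓ hchar G.xk hxk, ?_⟩
  rw [finrank_adjoin_bar N G.x hx]
  exact (finrank_adjoin_fullC _ N hchar G.xk hxk).symm

end Residue

end Fermat.Agent.S37.H628

end
end
-- ===== PACK-END S37/H628/E2Degree.lean

-- ===== PACK-BEGIN A3/GR/Leaves.lean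
section







/-!
# A3 / GOODRED-INST — frozen LEAVES and the (proved) assembly   (lead: helper19)

Target: an instance of `Fermat.Agent.A3.H799.GoodRed` for
`K = ℚ̄`, `F = F_M = ℚ̄(X₀(M))`, `k = A/𝔪`, `Fk = F_{M,k} = k(X₀(M))`,
built on the CANONICAL objects of helper940 (`S37/H940/QSeries.lean`, `S37/Rim/Spec.lean`):

* `V`   = `A`;   `O` = the ring of fractions `a/b` of integral `q`-series with `b̄ ≠ 0`
          (`(Rim.ctx A M).V`; a valuation ring by leaf GAUSS);
* `red` = coefficientwise reduction (`(Rim.ctx A M).ρ`);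
* `r`   = the place map of the Prelude's `ReductionInputsModL A M` (node_rim of row S37);
* `I`   = image of the inertia group of `A` under `arithmeticGalois`.

`goodRed_of_leaves` is PROVED here from the leaves below; each leaf is a `def … : Prop`.
A leaf `X` is DONE when `theorem … : XStatement A M` (with the hypotheses it needs: `ℓ ∤ M`,
`A.LiesOverPrime ℓ`, good level) is on main, sorry-free.
-/

set_option autoImplicit false
set_option synthInstance.maxHeartbeats 400000

noncomputable section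

namespace Fermat.Agent.A3.GR

open AlgebraicCurve ModularCurve HahnSeries IsLocalRing
open Fermat.Agent.S37.Rim Fermat.Agent.S37.H940 Fermat.Agent.A3.H799

variable (A : ValuationSubring Qb) (M : ℕ)

/-- the inertia group of `A`, acting on `F_M` -/
def inertia : Subgroup (SemilinearAut Qb (FM M)) :=
  (A.inertiaSubgroupIn ℚ).map (arithmeticGalois (modularFunctionFieldFull M))

/-- **LEAF GAUSS**: every nonzero function is a constant times a fraction of integral
`q`-series with nonzero reductions (= helper940's `ValueGroupHyp`). -/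
def GaussStatement : Prop :=
  ValueGroupHyp A (residue A) (FM M) (FkM A M)

/-- **LEAF RSURJ**: reduction of functions is onto. -/
def RedSurjStatement : Prop :=
  Function.Surjective (ctx A M).ρ

/-- **LEAF RIM** (node_rim of row S37 in the fraction form of helper940's `Atlas.exists_red`,
together with the pointwise inertia invariance): the place reduction map. -/
def RimStatement : Prop :=
  ∃ r : Place Qb (FM M) → Place (kA A) (FkM A M),
    (∀ P, (r P).deg = P.deg) ∧
    (∀ u : (ctx A M).V, (ctx A M).ρ u ≠ 0 → ∀ D : Divisor Qb (FM M),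
      (∀ P, D P = P.ord (u : FM M)) → ∀ Q, Finsupp.mapDomain r D Q = Q.ord ((ctx A M).ρ u)) ∧
    ∀ σ ∈ A.inertiaSubgroupIn ℚ, ∀ P : Place Qb (FM M),
      r (arithmeticGalois (modularFunctionFieldFull M) σ • P) = r P

/-- **LEAF GENUS**: equal genus. -/
def GenusStatement : Prop :=
  genusFF Qb (FM M) = genusFF (kA A) (FkM A M)

/-- **LEAF ORTHO**: orthonormal bases of Riemann–Roch spaces, inertia-invariant for
inertia-invariant divisors. -/
def OrthoStatement : Prop :=
  ∀ D : Divisor Qb (FM M), ∃ (n : ℕ) (b : Fin n → (ctx A M).V),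
    LinearIndependent (kA A) (fun i => (ctx A M).ρ (b i)) ∧
    (∀ i, ((b i : (ctx A M).V) : FM M) ∈ riemannRochSpace D) ∧
    Submodule.span Qb (Set.range fun i => ((b i : (ctx A M).V) : FM M)) = riemannRochSpace D ∧
    ((∀ g ∈ inertia A M, g • D = D) →
      ∀ i, ∀ g ∈ inertia A M, g • ((b i : (ctx A M).V) : FM M) = ((b i : (ctx A M).V) : FM M))

/-- **LEAF IBASE**: inertia preserves `A` and acts trivially on the residue field. -/
def IBaseStatement : Prop :=
  ∀ σ ∈ A.inertiaSubgroupIn ℚ, ∀ a : A, ∃ h : σ (a : Qb) ∈ A,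
    residue A ⟨σ (a : Qb), h⟩ = residue A a

/-- **LEAF IRED**: inertia preserves `O` and acts trivially on reductions. -/
def IRedStatement : Prop :=
  ∀ σ ∈ A.inertiaSubgroupIn ℚ, ∀ f : (ctx A M).V,
    ∃ h : arithmeticGalois (modularFunctionFieldFull M) σ • (f : FM M) ∈ (ctx A M).V,
      (ctx A M).ρ ⟨arithmeticGalois (modularFunctionFieldFull M) σ • (f : FM M), h⟩ =
        (ctx A M).ρ f

/-- **LEAF ILIFT**: every residue constant has an inertia-invariant lift. -/
def ILiftStatement : Prop :=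
  ∀ c : kA A, ∃ a : A, residue A a = c ∧ ∀ σ ∈ A.inertiaSubgroupIn ℚ, σ (a : Qb) = (a : Qb)

/-- **LEAF IFIXED**: there is an inertia-invariant place (the cusp `∞`). -/
def IFixedStatement : Prop :=
  ∃ P : Place Qb (FM M), ∀ σ ∈ A.inertiaSubgroupIn ℚ,
    arithmeticGalois (modularFunctionFieldFull M) σ • P = P

end Fermat.Agent.A3.GR

end

end
-- ===== PACK-END A3/GR/Leaves.lean

-- ===== PACK-BEGIN S37/H88/ALEmbed.lean
section




/-!
# S37 / E-a (helper88): the `ℓ + 1` embeddings of `F_{Nℓ}` over `V(F_N)`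

`k` a field with a primitive `ℓ`-th root of unity `ζ`, primes dividing `N ℓ` invertible, `ℓ ∤ N`.
The `ℓ` twists `q ↦ ζ^b q` restrict to `V(F_N)`-embeddings of `F_{Nℓ}` into `k((q))`; there is
exactly one more, `tauInf`, and it satisfies `tauInf (f) = f(q^{ℓ²})` for `f ∈ F_N`.
-/

set_option autoImplicit false
set_option linter.unusedSectionVars false

noncomputable section

namespace Fermat.Agent.S37.H88

open ModularCurve Polynomial IntermediateField Fermat.Agent.S28 Fermat.Agent.S37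

section Twist

variable (k : Type*) [Field k]

/-- the generators `j(q^d)` -/
abbrev gd (d : ℕ) [NeZero d] : LaurentSeries k := qExpand k d (jqModC k)

theorem gd_coeff_neg (d : ℕ) [NeZero d] : (gd k d).coeff (-(d : ℤ)) = 1 := by
  have h := qExpand_coeff_mul (R := k) d (jqModC k) (-1)
  rw [mul_neg, mul_one] at h
  rw [gd, h, coeff_jqModC_neg_one]

variable {k} {ℓ : ℕ} [NeZero ℓ] {ζ : k}

theorem tw_gd_coeff (b : ℕ) (d : ℕ) [NeZero d] :
    (H340.tw ℓ (ζ ^ b) (gd k d)).coeff (-(d : ℤ)) =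
      (ζ ^ ((-(d : ℤ)) % (ℓ : ℤ)).toNat) ^ b := by
  rw [H340.tw_coeff, gd_coeff_neg, mul_one, H340.zpw, ← pow_mul, ← pow_mul, mul_comm]

theorem toNat_emod_coprime (hℓ : ℓ.Prime) {d : ℕ} (hd : ¬ ℓ ∣ d) :
    Nat.Coprime ((-(d : ℤ)) % (ℓ : ℤ)).toNat ℓ := by
  have hℓpos : (0 : ℤ) < ℓ := by exact_mod_cast hℓ.pos
  have h0 : 0 ≤ (-(d : ℤ)) % (ℓ : ℤ) := Int.emod_nonneg _ hℓpos.ne'
  rw [Nat.coprime_comm, Nat.Prime.coprime_iff_not_dvd hℓ]
  intro h
  have h1 : (ℓ : ℤ) ∣ (((-(d : ℤ)) % (ℓ : ℤ)).toNat : ℤ) := by exact_mod_cast h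
  rw [Int.toNat_of_nonneg h0] at h1
  have h2 : (ℓ : ℤ) ∣ -(d : ℤ) := (Int.dvd_iff_emod_eq_zero ..).mpr
    (Int.emod_emod_of_dvd _ (dvd_refl _) ▸ (Int.dvd_iff_emod_eq_zero ..).mp h1)
  rw [Int.dvd_neg] at h2
  exact hd (by exact_mod_cast h2)

/-- the twists of `j(q^d)`, `ℓ ∤ d`, are pairwise distinct -/
theorem tw_gd_injective (hζ : IsPrimitiveRoot ζ ℓ) (hℓ : ℓ.Prime) {d : ℕ} [NeZero d]
    (hd : ¬ ℓ ∣ d) :
    Function.Injective (fun b : Fin ℓ => H340.tw ℓ (ζ ^ (b : ℕ)) (gd k d)) := by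
  intro b b' h
  have h1 := congrArg (fun f : LaurentSeries k => f.coeff (-(d : ℤ))) h
  simp only [tw_gd_coeff] at h1
  have hprim := hζ.pow_of_coprime _ (toNat_emod_coprime hℓ hd)
  exact Fin.ext (hprim.pow_inj b.2 b'.2 h1)

/-- `j(q^{dℓ²})` is not a twist of `j(q^d)` -/
theorem qExpand_qExpand_gd_ne_tw (hζ : IsPrimitiveRoot ζ ℓ) (hℓ : ℓ.Prime) {d : ℕ} [NeZero d]
    (hd : ¬ ℓ ∣ d) (b : ℕ) :
    qExpand k ℓ (qExpand k ℓ (gd k d)) ≠ H340.tw ℓ (ζ ^ b) (gd k d) := by
  intro h
  have h1 := congrArg (fun f : LaurentSeries k => f.coeff (-(d : ℤ))) h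
  simp only [tw_gd_coeff] at h1
  rw [qExpand_coeff_of_not_dvd] at h1
  · exact (pow_ne_zero _ (pow_ne_zero _ (hζ.ne_zero hℓ.ne_zero))) h1.symm
  · rw [Int.dvd_neg]
    exact fun h2 => hd (by exact_mod_cast h2)

end Twist

section Fields

variable (k : Type*) [Field k] (N ℓ : ℕ) [NeZero ℓ]

/-- `F_{Nℓ}` as an extension of `V(F_N)`. -/
abbrev E1 : IntermediateField (K0 k N ℓ) (LaurentSeries k) := extendScalars (K0_le k N ℓ)

theorem mem_E1 {x : LaurentSeries k} :
    x ∈ E1 k N ℓ ↔ x ∈ modularFunctionFieldFullC k (N * ℓ) := Iff.rfl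

theorem tw_K0 (ζ : k) {x : LaurentSeries k} (hx : x ∈ K0 k N ℓ) : H340.tw ℓ ζ x = x := by
  obtain ⟨y, -, rfl⟩ := hx
  exact H340.tw_qExpand ζ y

/-- the twist `q ↦ ζ q` as a `V(F_N)`-embedding of `F_{Nℓ}` -/
def twE (ζ : k) (hζ : ζ ^ ℓ = 1) : E1 k N ℓ →ₐ[K0 k N ℓ] LaurentSeries k :=
  { (H340.twHom ℓ ζ hζ).comp (algebraMap (E1 k N ℓ) (LaurentSeries k)) with
    commutes' := fun c => tw_K0 k N ℓ ζ c.2 }

@[simp]
theorem twE_apply (ζ : k) (hζ : ζ ^ ℓ = 1) (x : E1 k N ℓ) :
    twE k N ℓ ζ hζ x = H340.tw ℓ ζ (x : LaurentSeries k) := rfl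

variable {k N ℓ}

theorem finrank_E1 (hN : N ≠ 0) (hℓ : ℓ.Prime) (hℓN : ¬ ℓ ∣ N)
    (hchar : ∀ r : ℕ, r.Prime → r ∣ N * ℓ → (r : k) ≠ 0) :
    Module.finrank (K0 k N ℓ) (E1 k N ℓ) = ℓ + 1 := by
  rw [← relfinrank_eq_finrank_of_le]
  exact relfinrank_K0 k N ℓ hN hℓ hℓN hchar

theorem finiteDimensional_E1 (hN : N ≠ 0) (hℓ : ℓ.Prime) (hℓN : ¬ ℓ ∣ N)
    (hchar : ∀ r : ℕ, r.Prime → r ∣ N * ℓ → (r : k) ≠ 0) :
    FiniteDimensional (K0 k N ℓ) (E1 k N ℓ) :=
  FiniteDimensional.of_finrank_pos (by rw [finrank_E1 hN hℓ hℓN hchar]; omega)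

theorem isIntegral_K0 (hN : N ≠ 0) (hℓ : ℓ.Prime) (hℓN : ¬ ℓ ∣ N)
    (hchar : ∀ r : ℕ, r.Prime → r ∣ N * ℓ → (r : k) ≠ 0)
    {g : LaurentSeries k} (hg : g ∈ modularFunctionFieldFullC k (N * ℓ)) :
    IsIntegral (K0 k N ℓ) g := by
  have := finiteDimensional_E1 hN hℓ hℓN hchar
  have h : IsIntegral (K0 k N ℓ) (⟨g, hg⟩ : E1 k N ℓ) := IsIntegral.of_finite _ _
  exact h.map (E1 k N ℓ).val

/-- an element of `F_{Nℓ}` whose `ℓ` twists are pairwise distinct generates `F_{Nℓ}` over
`V(F_N)` -/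
theorem adjoin_eq_E1 (hN : N ≠ 0) (hℓ : ℓ.Prime) (hℓN : ¬ ℓ ∣ N)
    (hchar : ∀ r : ℕ, r.Prime → r ∣ N * ℓ → (r : k) ≠ 0) {ζ : k} (hζ : IsPrimitiveRoot ζ ℓ)
    {g : LaurentSeries k} (hg : g ∈ modularFunctionFieldFullC k (N * ℓ))
    (hinj : Function.Injective (fun b : Fin ℓ => H340.tw ℓ (ζ ^ (b : ℕ)) g)) :
    adjoin (K0 k N ℓ) {g} = E1 k N ℓ := by
  classical
  have := finiteDimensional_E1 hN hℓ hℓN hchar
  have hle : adjoin (K0 k N ℓ) {g} ≤ E1 k N ℓ := by
    rw [adjoin_le_iff]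
    rintro x hx
    rw [Set.mem_singleton_iff] at hx
    subst hx
    exact hg
  have hint := isIntegral_K0 hN hℓ hℓN hchar hg
  have hroot : ∀ b : Fin ℓ, aeval (H340.tw ℓ (ζ ^ (b : ℕ)) g) (minpoly (K0 k N ℓ) g) = 0 := by
    intro b
    have h1 : aeval (⟨g, hg⟩ : E1 k N ℓ) (minpoly (K0 k N ℓ) g) = 0 := by
      apply (algebraMap (E1 k N ℓ) (LaurentSeries k)).injective
      rw [map_zero, ← aeval_algebraMap_apply]
      exact minpoly.aeval _ _
    have h2 := congrArg (twE k N ℓ (ζ ^ (b : ℕ)) (H340.pow_pow_eq_one hζ.pow_eq_one b)) h1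
    rw [← aeval_algHom_apply, map_zero] at h2
    exact h2
  have hm0 : (minpoly (K0 k N ℓ) g).map (algebraMap (K0 k N ℓ) (LaurentSeries k)) ≠ 0 :=
    (Polynomial.map_ne_zero_iff (algebraMap (K0 k N ℓ) (LaurentSeries k)).injective).mpr
      (minpoly.ne_zero hint)
  have hdeg : ℓ ≤ (minpoly (K0 k N ℓ) g).natDegree := by
    have hsub : (Finset.univ.image (fun b : Fin ℓ => H340.tw ℓ (ζ ^ (b : ℕ)) g)).val ⊆
        ((minpoly (K0 k N ℓ) g).map (algebraMap (K0 k N ℓ) (LaurentSeries k))).roots := by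
      intro z hz
      rw [Finset.mem_val, Finset.mem_image] at hz
      obtain ⟨b, -, rfl⟩ := hz
      rw [Polynomial.mem_roots hm0, Polynomial.IsRoot, Polynomial.eval_map_algebraMap]
      exact hroot b
    have h := Polynomial.card_le_degree_of_subset_roots hsub
    rw [Finset.card_image_of_injective _ hinj, Finset.card_univ, Fintype.card_fin,
      Polynomial.natDegree_map] at h
    exact h
  have hfin : Module.finrank (K0 k N ℓ) (adjoin (K0 k N ℓ) {g}) =
      (minpoly (K0 k N ℓ) g).natDegree := adjoin.finrank hint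
  have hdvd := IntermediateField.finrank_dvd_of_le_right hle
  rw [hfin, finrank_E1 hN hℓ hℓN hchar] at hdvd
  have hd1 : (minpoly (K0 k N ℓ) g).natDegree = ℓ + 1 := by
    have hle' := Nat.le_of_dvd (Nat.succ_pos ℓ) hdvd
    rcases Nat.lt_or_ge (minpoly (K0 k N ℓ) g).natDegree (ℓ + 1) with h | h
    · exfalso
      have heq : (minpoly (K0 k N ℓ) g).natDegree = ℓ := by omega
      rw [heq] at hdvd
      have h1 : ℓ ∣ 1 := (Nat.dvd_add_right (dvd_refl ℓ)).mp hdvd
      exact hℓ.one_lt.ne' (Nat.dvd_one.mp h1)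
    · omega
  exact IntermediateField.eq_of_le_of_finrank_eq hle
    (by rw [hfin, hd1, finrank_E1 hN hℓ hℓN hchar])

end Fields

section Roots

variable (k : Type*) [Field k] (ℓ : ℕ) [NeZero ℓ]

theorem qExpand_congr' {a b : ℕ} [NeZero a] [NeZero b] (h : a = b) (f : LaurentSeries k) :
    qExpand k a f = qExpand k b f := by
  subst h
  rfl

theorem qExpand_comm' (a b : ℕ) [NeZero a] [NeZero b] (f : LaurentSeries k) :
    qExpand k a (qExpand k b f) = qExpand k b (qExpand k a f) := by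
  rw [qExpand_qExpand, qExpand_qExpand]
  exact qExpand_congr' k (mul_comm a b) f

/-- `Φ(j_d, j_{dℓ}) = 0` -/
theorem modPoly_eval_gd (Φ : ModPolyData ℓ) (d : ℕ) [NeZero d] :
    Φ.Φ.eval₂ (evalAt (qExpand k ℓ (gd k d))) (gd k d) = 0 := by
  have h := congrArg (qExpand k d) (h88_modPoly_eval_j k ℓ Φ)
  rw [Polynomial.hom_eval₂, map_zero, h88_comp_evalAt, qExpand_comm'] at h
  exact h

/-- `Φ(j_{dℓ²}, j_{dℓ}) = 0` -/
theorem modPoly_eval_VVgd (Φ : ModPolyData ℓ) (d : ℕ) [NeZero d] :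
    Φ.Φ.eval₂ (evalAt (qExpand k ℓ (gd k d))) (qExpand k ℓ (qExpand k ℓ (gd k d))) = 0 := by
  have h := congrArg (qExpand k d) (h88_modPoly_eval_jpp k ℓ Φ)
  rw [Polynomial.hom_eval₂, map_zero, h88_comp_evalAt, qExpand_comm' k d ℓ,
    qExpand_comm' k d ℓ, qExpand_comm' k d ℓ] at h
  exact h

/-- `Φ(j_d(ζ q), j_{dℓ}) = 0` -/
theorem modPoly_eval_tw_gd (Φ : ModPolyData ℓ) (d : ℕ) [NeZero d] (ζ : k) (hζ : ζ ^ ℓ = 1) :
    Φ.Φ.eval₂ (evalAt (qExpand k ℓ (gd k d))) (H340.tw ℓ ζ (gd k d)) = 0 := by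
  have h := congrArg (H340.twHom ℓ ζ hζ) (modPoly_eval_gd k ℓ Φ d)
  rw [Polynomial.hom_eval₂, map_zero, h88_comp_evalAt, H340.twHom_apply, H340.twHom_apply,
    H340.tw_qExpand] at h
  exact h

variable {k ℓ}

/-- the roots of `Φ(X, j_{dℓ})` in `k((q))` are `j_{dℓ²}` and the `ℓ` twists of `j_d` -/
theorem modPoly_root_cases (Φ : ModPolyData ℓ) {ζ : k} (hζ : IsPrimitiveRoot ζ ℓ)
    (hℓ : ℓ.Prime) {d : ℕ} [NeZero d] (hd : ¬ ℓ ∣ d) {r : LaurentSeries k}
    (hr : Φ.Φ.eval₂ (evalAt (qExpand k ℓ (gd k d))) r = 0) :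
    r = qExpand k ℓ (qExpand k ℓ (gd k d)) ∨ ∃ b : Fin ℓ, r = H340.tw ℓ (ζ ^ (b : ℕ)) (gd k d) := by
  classical
  set P : (LaurentSeries k)[X] := Φ.Φ.map (evalAt (qExpand k ℓ (gd k d))) with hP
  have hPm : P.Monic := Φ.monic.map _
  have hPd : P.natDegree = ℓ + 1 := by rw [hP, Φ.monic.natDegree_map, Φ.natDegree_eq]
  have hev : ∀ x : LaurentSeries k, P.IsRoot x ↔
      Φ.Φ.eval₂ (evalAt (qExpand k ℓ (gd k d))) x = 0 := by
    intro x
    rw [Polynomial.IsRoot, hP, Polynomial.eval_map]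
  set T : Finset (LaurentSeries k) :=
    Finset.univ.image (fun b : Fin ℓ => H340.tw ℓ (ζ ^ (b : ℕ)) (gd k d)) with hT
  set S : Finset (LaurentSeries k) := insert (qExpand k ℓ (qExpand k ℓ (gd k d))) T with hS
  have hnot : qExpand k ℓ (qExpand k ℓ (gd k d)) ∉ T := by
    rw [hT, Finset.mem_image]
    rintro ⟨b, -, hb⟩
    exact qExpand_qExpand_gd_ne_tw hζ hℓ hd b hb.symm
  have hcard : S.card = ℓ + 1 := by
    rw [hS, Finset.card_insert_of_notMem hnot, hT,
      Finset.card_image_of_injective _ (tw_gd_injective hζ hℓ hd), Finset.card_univ,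
      Fintype.card_fin]
  have hsub : S.val ⊆ P.roots := by
    intro z hz
    rw [Finset.mem_val, hS, Finset.mem_insert] at hz
    rw [Polynomial.mem_roots hPm.ne_zero, hev]
    rcases hz with rfl | hz
    · exact modPoly_eval_VVgd k ℓ Φ d
    · rw [hT, Finset.mem_image] at hz
      obtain ⟨b, -, rfl⟩ := hz
      exact modPoly_eval_tw_gd k ℓ Φ d _ (H340.pow_pow_eq_one hζ.pow_eq_one b)
  have hle : S.val ≤ P.roots := (Multiset.le_iff_subset S.nodup).mpr hsub
  have hcard2 : Multiset.card P.roots ≤ Multiset.card S.val := by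
    rw [Finset.card_val, hcard, ← hPd]
    exact Polynomial.card_roots' P
  have heq : S.val = P.roots := Multiset.eq_of_le_of_card_le hle hcard2
  have hrmem : r ∈ S.val := by
    rw [heq, Polynomial.mem_roots hPm.ne_zero, hev]
    exact hr
  rw [Finset.mem_val, hS, Finset.mem_insert] at hrmem
  rcases hrmem with h | h
  · exact Or.inl h
  · rw [hT, Finset.mem_image] at h
    obtain ⟨b, -, hb⟩ := h
    exact Or.inr ⟨b, hb.symm⟩

end Roots

section TauInf

variable {k : Type*} [Field k] {N ℓ : ℕ} [NeZero ℓ]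

theorem Vgd_mem_K0 {d : ℕ} [NeZero d] (hd : d ∣ N) : qExpand k ℓ (gd k d) ∈ K0 k N ℓ :=
  ⟨gd k d, jd_mem_fullC k hd, rfl⟩

theorem gd_mem_K1 {d : ℕ} [NeZero d] (hd : d ∣ N) :
    gd k d ∈ modularFunctionFieldFullC k (N * ℓ) :=
  jd_mem_fullC k (hd.trans (dvd_mul_right N ℓ))

theorem not_dvd_of_dvd {d : ℕ} (hℓN : ¬ ℓ ∣ N) (hd : d ∣ N) : ¬ ℓ ∣ d :=
  fun h => hℓN (h.trans hd)

/-- two `V(F_N)`-embeddings of `F_{Nℓ}` which agree on a generator are equal -/
theorem algHom_ext_of_adjoin_eq {g : LaurentSeries k}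
    (h : adjoin (K0 k N ℓ) {g} = E1 k N ℓ) (hint : IsIntegral (K0 k N ℓ) g)
    (hg : g ∈ modularFunctionFieldFullC k (N * ℓ))
    (f₁ f₂ : E1 k N ℓ →ₐ[K0 k N ℓ] LaurentSeries k)
    (heq : f₁ ⟨g, hg⟩ = f₂ ⟨g, hg⟩) : f₁ = f₂ := by
  let e : adjoin (K0 k N ℓ) {g} ≃ₐ[K0 k N ℓ] E1 k N ℓ := IntermediateField.equivOfEq h
  have hgen : e (adjoin.powerBasis hint).gen = ⟨g, hg⟩ := Subtype.ext rfl
  have h1 : f₁.comp e.toAlgHom = f₂.comp e.toAlgHom := by
    apply (adjoin.powerBasis hint).algHom_ext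
    show f₁ (e (adjoin.powerBasis hint).gen) = f₂ (e (adjoin.powerBasis hint).gen)
    rw [hgen, heq]
  apply AlgHom.ext
  intro x
  have h2 := congrArg
    (fun f : adjoin (K0 k N ℓ) {g} →ₐ[K0 k N ℓ] LaurentSeries k => f (e.symm x)) h1
  simpa using h2

variable (hN : N ≠ 0) (hℓ : ℓ.Prime) (hℓN : ¬ ℓ ∣ N)
  (hchar : ∀ r : ℕ, r.Prime → r ∣ N * ℓ → (r : k) ≠ 0) {ζ : k} (hζ : IsPrimitiveRoot ζ ℓ)

include hN hℓ hℓN hchar hζ

theorem adjoin_gd_eq_E1 {d : ℕ} [NeZero d] (hd : d ∣ N) :
    adjoin (K0 k N ℓ) {gd k d} = E1 k N ℓ :=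
  adjoin_eq_E1 hN hℓ hℓN hchar hζ (gd_mem_K1 hd)
    (tw_gd_injective hζ hℓ (not_dvd_of_dvd hℓN hd))

/-- the minimal polynomial of `j(q^d)` over `V(F_N)` is `Φ_ℓ(X, j(q^{dℓ}))` -/
theorem minpoly_gd (Φ : ModPolyData ℓ) {d : ℕ} [NeZero d] (hd : d ∣ N) :
    minpoly (K0 k N ℓ) (gd k d) = Φ.Φ.map (h88_evalSub k (K0 k N ℓ) (Vgd_mem_K0 hd)) := by
  have hint := isIntegral_K0 hN hℓ hℓN hchar (gd_mem_K1 (ℓ := ℓ) (k := k) hd)
  have hdvd : minpoly (K0 k N ℓ) (gd k d) ∣
      Φ.Φ.map (h88_evalSub k (K0 k N ℓ) (Vgd_mem_K0 hd)) := by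
    apply minpoly.dvd
    rw [h88_aeval_map_evalSub]
    exact modPoly_eval_gd k ℓ Φ d
  have hfin : Module.finrank (K0 k N ℓ) (adjoin (K0 k N ℓ) {gd k d}) =
      (minpoly (K0 k N ℓ) (gd k d)).natDegree := adjoin.finrank hint
  rw [adjoin_gd_eq_E1 hN hℓ hℓN hchar hζ hd, finrank_E1 hN hℓ hℓN hchar] at hfin
  refine (Polynomial.eq_of_monic_of_dvd_of_natDegree_le (minpoly.monic hint) (Φ.monic.map _)
    hdvd ?_).symm
  rw [Φ.monic.natDegree_map, Φ.natDegree_eq, ← hfin]

/-- **The last embedding.** There is a `V(F_N)`-embedding `τ` of `F_{Nℓ}` into `k((q))` with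
`τ(j(q^d)) = j(q^{dℓ²})` for all `d ∣ N`. -/
theorem exists_tauInf :
    ∃ τ : E1 k N ℓ →ₐ[K0 k N ℓ] LaurentSeries k,
      ∀ (d : ℕ) [NeZero d] (hd : d ∣ N),
        τ ⟨gd k d, gd_mem_K1 hd⟩ = qExpand k ℓ (qExpand k ℓ (gd k d)) := by
  obtain ⟨Φ⟩ := H807.nonempty_modPolyData ℓ hℓ
  have h1N : (1 : ℕ) ∣ N := one_dvd N
  have hint1 := isIntegral_K0 hN hℓ hℓN hchar (gd_mem_K1 (ℓ := ℓ) (k := k) h1N)
  have hadj1 := adjoin_gd_eq_E1 hN hℓ hℓN hchar hζ h1N
  have hroot : aeval (qExpand k ℓ (qExpand k ℓ (gd k 1)))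
      (minpoly (K0 k N ℓ) (adjoin.powerBasis hint1).gen) = 0 := by
    rw [adjoin.powerBasis_gen, minpoly_gen, minpoly_gd hN hℓ hℓN hchar hζ Φ h1N,
      h88_aeval_map_evalSub]
    exact modPoly_eval_VVgd k ℓ Φ 1
  let e : E1 k N ℓ ≃ₐ[K0 k N ℓ] adjoin (K0 k N ℓ) {gd k 1} :=
    IntermediateField.equivOfEq hadj1.symm
  let τ : E1 k N ℓ →ₐ[K0 k N ℓ] LaurentSeries k :=
    ((adjoin.powerBasis hint1).lift _ hroot).comp e.toAlgHom
  have hτ1 : τ ⟨gd k 1, gd_mem_K1 h1N⟩ = qExpand k ℓ (qExpand k ℓ (gd k 1)) := by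
    have he : e ⟨gd k 1, gd_mem_K1 h1N⟩ = (adjoin.powerBasis hint1).gen := Subtype.ext rfl
    show (adjoin.powerBasis hint1).lift _ hroot (e ⟨gd k 1, gd_mem_K1 h1N⟩) = _
    rw [he, PowerBasis.lift_gen]
  refine ⟨τ, fun d _ hd => ?_⟩
  have hℓd := not_dvd_of_dvd hℓN hd
  have hintd := isIntegral_K0 hN hℓ hℓN hchar (gd_mem_K1 (ℓ := ℓ) (k := k) hd)
  -- `τ(g_d)` is a root of `Φ(X, V g_d)`
  have h0 : aeval (⟨gd k d, gd_mem_K1 hd⟩ : E1 k N ℓ)
      (Φ.Φ.map (h88_evalSub k (K0 k N ℓ) (Vgd_mem_K0 hd))) = 0 := by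
    apply (algebraMap (E1 k N ℓ) (LaurentSeries k)).injective
    rw [map_zero, ← aeval_algebraMap_apply]
    show aeval (gd k d) _ = 0
    rw [h88_aeval_map_evalSub]
    exact modPoly_eval_gd k ℓ Φ d
  have h2 := congrArg τ h0
  rw [← aeval_algHom_apply, map_zero, h88_aeval_map_evalSub] at h2
  rcases modPoly_root_cases Φ hζ hℓ hℓd h2 with h | ⟨b, hb⟩
  · exact h
  · exfalso
    have hext : τ = twE k N ℓ (ζ ^ (b : ℕ)) (H340.pow_pow_eq_one hζ.pow_eq_one b) :=
      algHom_ext_of_adjoin_eq (adjoin_gd_eq_E1 hN hℓ hℓN hchar hζ hd) hintd (gd_mem_K1 hd) _ _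
        (by rw [hb, twE_apply])
    have h3 := congrArg (fun f : E1 k N ℓ →ₐ[K0 k N ℓ] LaurentSeries k =>
      f ⟨gd k 1, gd_mem_K1 h1N⟩) hext
    simp only [twE_apply] at h3
    rw [hτ1] at h3
    exact qExpand_qExpand_gd_ne_tw hζ hℓ (not_dvd_of_dvd hℓN h1N) b h3

end TauInf

end Fermat.Agent.S37.H88

end
end
-- ===== PACK-END S37/H88/ALEmbed.lean

-- ===== PACK-BEGIN S37/H88/KronCharpoly.lean
section






/-!
# S37 / E-a KRON + NORM-ID (helper88): the Hecke characteristic polynomial is the Kronecker polynomial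

`L` a field of characteristic `0` with a primitive `ℓ`-th root of unity (e.g. `L = ℚ̄`), `ℓ ∤ N` prime,
`F_M = laurentBaseChange L (modularFunctionFieldFull M) ⊆ L((q))`,
`α = heckeAlphaBar L N ℓ` (inclusion), `β = heckeBetaBar L N ℓ` (`q ↦ q^ℓ`).

* `finrankAlong_heckeBetaBar` : `[F_{Nℓ} : β F_N] = ℓ + 1`;
* `charpoly_beta_alpha` : for `y ∈ F_N` the characteristic polynomial of `α y` with respect to
  the `β`-structure, with coefficients read in `L((q))`, is `H400.kronPoly ℓ y`
  `= (X - y(q^ℓ)) · ∏_b (X - y(ζ^b q^{1/ℓ}))`.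
-/

set_option autoImplicit false
set_option linter.unusedSectionVars false
set_option linter.style.haveILetI false
set_option synthInstance.maxHeartbeats 400000

noncomputable section

namespace Fermat.Agent.S37.H88

open ModularCurve Polynomial IntermediateField Fermat.Agent.S28 Fermat.Agent.S37 AlgebraicCurve

section General

variable {k : Type*} [Field k] {N ℓ : ℕ} [NeZero ℓ]
variable (hN : N ≠ 0) (hℓ : ℓ.Prime) (hℓN : ¬ ℓ ∣ N)
  (hchar : ∀ r : ℕ, r.Prime → r ∣ N * ℓ → (r : k) ≠ 0) {ζ : k} (hζ : IsPrimitiveRoot ζ ℓ)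

include hN hℓ hℓN hchar hζ

/-- **The last embedding on `F_N`.** -/
theorem exists_tauInf_fullC :
    ∃ τ : E1 k N ℓ →ₐ[K0 k N ℓ] LaurentSeries k,
      ∀ (y : LaurentSeries k) (hy : y ∈ modularFunctionFieldFullC k N),
        τ ⟨y, fullC_mono k (dvd_mul_right N ℓ) hy⟩ = qExpand k ℓ (qExpand k ℓ y) := by
  obtain ⟨τ, hτ⟩ := exists_tauInf hN hℓ hℓN hchar hζ
  refine ⟨τ, fun y hy => ?_⟩
  have hle := fullC_mono k (dvd_mul_right N ℓ)
  induction hy using IntermediateField.adjoin_induction with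
  | mem x hx =>
    obtain ⟨d, hd0, hd, rfl⟩ := hx
    exact @hτ d hd0 hd
  | algebraMap c =>
    have h1 : (⟨algebraMap k (LaurentSeries k) c,
        hle (IntermediateField.algebraMap_mem _ c)⟩ : E1 k N ℓ) =
        algebraMap (K0 k N ℓ) (E1 k N ℓ) (algebraMap k (K0 k N ℓ) c) := Subtype.ext rfl
    rw [h1, τ.commutes]
    have h2 : qExpand k ℓ (qExpand k ℓ (algebraMap k (LaurentSeries k) c)) =
        algebraMap k (LaurentSeries k) c := by
      rw [← qExpandAlgHomC_apply, ← qExpandAlgHomC_apply, AlgHom.commutes, AlgHom.commutes]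
    rw [h2]
    rfl
  | add x y hx hy ihx ihy =>
    have h1 : (⟨x + y, hle (add_mem hx hy)⟩ : E1 k N ℓ) =
        (⟨x, hle hx⟩ : E1 k N ℓ) + ⟨y, hle hy⟩ := Subtype.ext rfl
    rw [h1, map_add, ihx, ihy, map_add, map_add]
  | inv x hx ihx =>
    have h1 : (⟨x⁻¹, hle (inv_mem hx)⟩ : E1 k N ℓ) =
        (⟨x, hle hx⟩ : E1 k N ℓ)⁻¹ := Subtype.ext rfl
    rw [h1, map_inv₀, ihx, map_inv₀, map_inv₀]
  | mul x y hx hy ihx ihy =>
    have h1 : (⟨x * y, hle (mul_mem hx hy)⟩ : E1 k N ℓ) =
        (⟨x, hle hx⟩ : E1 k N ℓ) * ⟨y, hle hy⟩ := Subtype.ext rfl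
    rw [h1, map_mul, ihx, ihy, map_mul, map_mul]

end General

section Main

variable (L : Type*) [Field L] [Algebra ℚ L] (N ℓ : ℕ) [NeZero N] [NeZero ℓ]

theorem secMat_eq_kronMat {R : Type*} [CommRing R] (f : LaurentSeries R) :
    H400.secMat ℓ f = H340.kronMat ℓ f := by
  ext i j n
  rw [H400.secMat_apply', H340.kronMat_apply, H400.secL_coeff, H340.sect_coeff]

theorem kronPoly_eq {R : Type*} [CommRing R] (f : LaurentSeries R) :
    H400.kronPoly ℓ f = (X - C (qExpand R ℓ f)) * H340.kron ℓ f := by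
  rw [H400.kronPoly, H340.kron, secMat_eq_kronMat]

/-- `V (Ψ_f) = (X - f(q^{ℓ²})) ∏_b (X - f(ζ^b q))` -/
theorem kronPoly_map_qExpand {R : Type*} [CommRing R] [IsDomain R] {ζ : R}
    (hζ : IsPrimitiveRoot ζ ℓ) (f : LaurentSeries R) :
    (H400.kronPoly ℓ f).map (qExpand R ℓ) =
      (X - C (qExpand R ℓ (qExpand R ℓ f))) *
        ∏ b : Fin ℓ, (X - C (H340.tw ℓ (ζ ^ (b : ℕ)) f)) := by
  rw [kronPoly_eq, Polynomial.map_mul, H340.kron_map_qExpand_eq_prod hζ, Polynomial.map_sub,
    Polynomial.map_X, Polynomial.map_C]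

theorem natCast_ne_zero_of_algebraRat {r : ℕ} (hr : r ≠ 0) : (r : L) ≠ 0 := by
  have : CharZero L := algebraRat.charZero L
  exact Nat.cast_ne_zero.mpr hr

theorem FB_eq (M : ℕ) :
    laurentBaseChange L (modularFunctionFieldFull M) = modularFunctionFieldFullC L M :=
  H988.laurentBaseChange_full_eq_fullC L M

/-- `F_{Nℓ} → E1`, the identity on underlying series -/
def inclE : laurentBaseChange L (modularFunctionFieldFull (N * ℓ)) →+* E1 L N ℓ where
  toFun x := ⟨x.1, (FB_eq L (N * ℓ)).le x.2⟩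
  map_one' := rfl
  map_mul' _ _ := rfl
  map_zero' := rfl
  map_add' _ _ := rfl

/-- `F_N → V(F_N)`, `y ↦ y(q^ℓ)` -/
def toK0 : laurentBaseChange L (modularFunctionFieldFull N) →+* K0 L N ℓ where
  toFun y := ⟨qExpand L ℓ y.1, ⟨y.1, (FB_eq L N).le y.2, rfl⟩⟩
  map_one' := Subtype.ext (map_one _)
  map_mul' _ _ := Subtype.ext (map_mul _ _ _)
  map_zero' := Subtype.ext (map_zero _)
  map_add' _ _ := Subtype.ext (map_add _ _ _)

theorem inclE_bijective : Function.Bijective (inclE L N ℓ) := by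
  constructor
  · intro x y h
    have h' : ((inclE L N ℓ x : E1 L N ℓ) : LaurentSeries L) = (inclE L N ℓ y : E1 L N ℓ) :=
      congrArg (fun e : E1 L N ℓ => (e : LaurentSeries L)) h
    exact Subtype.ext h'
  · intro e
    exact ⟨⟨e.1, (FB_eq L (N * ℓ)).ge e.2⟩, rfl⟩

theorem toK0_bijective : Function.Bijective (toK0 L N ℓ) := by
  constructor
  · intro x y h
    exact Subtype.ext (qExpand_injective ℓ (congrArg Subtype.val h))
  · rintro ⟨_, ⟨y, hy, rfl⟩⟩
    exact ⟨⟨y, (FB_eq L N).ge hy⟩, rfl⟩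

variable {L N ℓ}

/-- **Degree of the second degeneracy map**: `[F_{Nℓ} : β F_N] = ℓ + 1` for `ℓ ∤ N`. -/
theorem finrankAlong_heckeBetaBar (hℓ : ℓ.Prime) (hℓN : ¬ ℓ ∣ N) :
    finrankAlong L (heckeBetaBar L N ℓ) = ℓ + 1 := by
  have hN : N ≠ 0 := NeZero.ne N
  have hchar : ∀ r : ℕ, r.Prime → r ∣ N * ℓ → (r : L) ≠ 0 :=
    fun r hr _ => natCast_ne_zero_of_algebraRat L hr.ne_zero
  rw [← finrank_E1 hN hℓ hℓN hchar]
  unfold finrankAlong
  letI := algebraAlong (heckeBetaBar L N ℓ)
  exact Algebra.finrank_eq_of_equiv_equiv (RingEquiv.ofBijective _ (toK0_bijective L N ℓ))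
    (RingEquiv.ofBijective _ (inclE_bijective L N ℓ)) (by
      ext y
      rfl)

theorem finiteAlong_heckeBetaBar (hℓ : ℓ.Prime) (hℓN : ¬ ℓ ∣ N) :
    FiniteAlong L (heckeBetaBar L N ℓ) := by
  have h := finrankAlong_heckeBetaBar (L := L) hℓ hℓN
  unfold finrankAlong at h
  unfold FiniteAlong
  letI := algebraAlong (heckeBetaBar L N ℓ)
  exact FiniteDimensional.of_finrank_pos (by rw [h]; omega)

/-- **The last embedding** `τ = V ∘ w_ℓ : F_{Nℓ} → L((q))`: `τ ∘ β = V`, `τ ∘ α = V²`. -/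
theorem exists_lastEmbedding (hℓ : ℓ.Prime) (hℓN : ¬ ℓ ∣ N) {ζ : L} (hζ : IsPrimitiveRoot ζ ℓ) :
    ∃ τ : laurentBaseChange L (modularFunctionFieldFull (N * ℓ)) →+* LaurentSeries L,
      (∀ a : laurentBaseChange L (modularFunctionFieldFull N),
        τ (heckeBetaBar L N ℓ a) = qExpand L ℓ (a : LaurentSeries L)) ∧
      (∀ a : laurentBaseChange L (modularFunctionFieldFull N),
        τ (heckeAlphaBar L N ℓ a) = qExpand L ℓ (qExpand L ℓ (a : LaurentSeries L))) := by
  have hN : N ≠ 0 := NeZero.ne N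
  have hchar : ∀ r : ℕ, r.Prime → r ∣ N * ℓ → (r : L) ≠ 0 :=
    fun r hr _ => natCast_ne_zero_of_algebraRat L hr.ne_zero
  obtain ⟨τE, hτE⟩ := exists_tauInf_fullC hN hℓ hℓN hchar hζ
  refine ⟨(τE : E1 L N ℓ →+* LaurentSeries L).comp (inclE L N ℓ), fun a => ?_, fun a => ?_⟩
  · have h1 : inclE L N ℓ (heckeBetaBar L N ℓ a) =
        algebraMap (K0 L N ℓ) (E1 L N ℓ) (toK0 L N ℓ a) :=
      Subtype.ext (coe_heckeBetaBar N ℓ a)
    rw [RingHom.comp_apply, h1]
    exact τE.commutes _
  · have h1 : inclE L N ℓ (heckeAlphaBar L N ℓ a) =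
        ⟨a.1, fullC_mono L (dvd_mul_right N ℓ) ((FB_eq L N).le a.2)⟩ :=
      Subtype.ext (coe_heckeAlphaBar N ℓ a)
    rw [RingHom.comp_apply, h1]
    exact hτE a.1 ((FB_eq L N).le a.2)

/-- the family of `ℓ + 1` embeddings: `none ↦ τ`, `some b ↦ (q ↦ ζ^b q)` -/
def sigmaFam {ζ : L} (hζ : ζ ^ ℓ = 1)
    (τ : laurentBaseChange L (modularFunctionFieldFull (N * ℓ)) →+* LaurentSeries L) :
    Option (Fin ℓ) → laurentBaseChange L (modularFunctionFieldFull (N * ℓ)) →+* LaurentSeries L
  | none => τ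
  | some b => (H340.twHom ℓ (ζ ^ (b : ℕ)) (H340.pow_pow_eq_one hζ b)).comp
      (algebraMap (laurentBaseChange L (modularFunctionFieldFull (N * ℓ))) (LaurentSeries L))

theorem sigmaFam_none {ζ : L} (hζ : ζ ^ ℓ = 1)
    (τ : laurentBaseChange L (modularFunctionFieldFull (N * ℓ)) →+* LaurentSeries L) :
    sigmaFam hζ τ none = τ := rfl

theorem sigmaFam_some {ζ : L} (hζ : ζ ^ ℓ = 1)
    (τ : laurentBaseChange L (modularFunctionFieldFull (N * ℓ)) →+* LaurentSeries L)
    (b : Fin ℓ) (x : laurentBaseChange L (modularFunctionFieldFull (N * ℓ))) :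
    sigmaFam hζ τ (some b) x = H340.tw ℓ (ζ ^ (b : ℕ)) (x : LaurentSeries L) := rfl

theorem sigmaFam_injective (hℓ : ℓ.Prime) {ζ : L} (hζ : IsPrimitiveRoot ζ ℓ)
    (τ : laurentBaseChange L (modularFunctionFieldFull (N * ℓ)) →+* LaurentSeries L)
    (hτα : ∀ a : laurentBaseChange L (modularFunctionFieldFull N),
      τ (heckeAlphaBar L N ℓ a) = qExpand L ℓ (qExpand L ℓ (a : LaurentSeries L))) :
    Function.Injective (sigmaFam hζ.pow_eq_one τ) := by
  have h1N : gd L 1 ∈ modularFunctionFieldFullC L N := jd_mem_fullC L (one_dvd N)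
  let j1 : laurentBaseChange L (modularFunctionFieldFull N) := ⟨gd L 1, (FB_eq L N).ge h1N⟩
  have hℓ1 : ¬ ℓ ∣ 1 := fun h => hℓ.one_lt.ne' (Nat.dvd_one.mp h)
  have hj1 : ((heckeAlphaBar L N ℓ j1 : laurentBaseChange L (modularFunctionFieldFull (N * ℓ))) :
      LaurentSeries L) = gd L 1 := coe_heckeAlphaBar N ℓ j1
  intro i i' h
  have hj : sigmaFam hζ.pow_eq_one τ i (heckeAlphaBar L N ℓ j1) =
      sigmaFam hζ.pow_eq_one τ i' (heckeAlphaBar L N ℓ j1) := by rw [h]
  cases i with
  | none =>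
    cases i' with
    | none => rfl
    | some b' =>
      rw [sigmaFam_none, sigmaFam_some, hτα, hj1] at hj
      exact absurd hj (qExpand_qExpand_gd_ne_tw hζ hℓ hℓ1 b')
  | some b =>
    cases i' with
    | none =>
      rw [sigmaFam_none, sigmaFam_some, hτα, hj1] at hj
      exact absurd hj.symm (qExpand_qExpand_gd_ne_tw hζ hℓ hℓ1 b)
    | some b' =>
      rw [sigmaFam_some, sigmaFam_some, hj1] at hj
      exact congrArg some (tw_gd_injective hζ hℓ hℓ1 hj)

theorem sigmaFam_algebraMap {ζ : L} (hζ : ζ ^ ℓ = 1)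
    (τ : laurentBaseChange L (modularFunctionFieldFull (N * ℓ)) →+* LaurentSeries L)
    (hτβ : ∀ a : laurentBaseChange L (modularFunctionFieldFull N),
      τ (heckeBetaBar L N ℓ a) = qExpand L ℓ (a : LaurentSeries L))
    (i : Option (Fin ℓ)) (a : laurentBaseChange L (modularFunctionFieldFull N)) :
    sigmaFam hζ τ i (heckeBetaBar L N ℓ a) =
      ((qExpand L ℓ).comp (algebraMap (laurentBaseChange L (modularFunctionFieldFull N))
        (LaurentSeries L))) a := by
  rw [RingHom.comp_apply]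
  cases i with
  | none => exact hτβ a
  | some b =>
    rw [sigmaFam_some, coe_heckeBetaBar, H340.tw_qExpand]
    rfl

/-- **Characteristic polynomial along `β`.**  For every `x ∈ F_{Nℓ}` the characteristic
polynomial of `x` with respect to the `β`-structure is `(X - τ x) ∏_b (X - x(ζ^b q))`
(coefficients pushed along `V`), `τ` being a last embedding. -/
theorem charpoly_beta_of_lastEmbedding (hℓ : ℓ.Prime) (hℓN : ¬ ℓ ∣ N) {ζ : L}
    (hζ : IsPrimitiveRoot ζ ℓ)
    (τ : laurentBaseChange L (modularFunctionFieldFull (N * ℓ)) →+* LaurentSeries L)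
    (hτβ : ∀ a : laurentBaseChange L (modularFunctionFieldFull N),
      τ (heckeBetaBar L N ℓ a) = qExpand L ℓ (a : LaurentSeries L))
    (hτα : ∀ a : laurentBaseChange L (modularFunctionFieldFull N),
      τ (heckeAlphaBar L N ℓ a) = qExpand L ℓ (qExpand L ℓ (a : LaurentSeries L)))
    (x : laurentBaseChange L (modularFunctionFieldFull (N * ℓ))) :
    letI := algebraAlong (heckeBetaBar L N ℓ)
    haveI : Module.Finite (laurentBaseChange L (modularFunctionFieldFull N))
      (laurentBaseChange L (modularFunctionFieldFull (N * ℓ))) :=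
      finiteAlong_heckeBetaBar hℓ hℓN
    ((Algebra.lmul (laurentBaseChange L (modularFunctionFieldFull N)) _ x).charpoly).map
        ((qExpand L ℓ).comp (algebraMap (laurentBaseChange L (modularFunctionFieldFull N))
          (LaurentSeries L))) =
      (X - C (τ x)) *
        ∏ b : Fin ℓ, (X - C (H340.tw ℓ (ζ ^ (b : ℕ)) (x : LaurentSeries L))) := by
  classical
  letI := algebraAlong (heckeBetaBar L N ℓ)
  haveI : Module.Finite (laurentBaseChange L (modularFunctionFieldFull N))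
      (laurentBaseChange L (modularFunctionFieldFull (N * ℓ))) :=
    finiteAlong_heckeBetaBar hℓ hℓN
  have hcard : Module.finrank (laurentBaseChange L (modularFunctionFieldFull N))
      (laurentBaseChange L (modularFunctionFieldFull (N * ℓ))) =
      Fintype.card (Option (Fin ℓ)) := by
    rw [Fintype.card_option, Fintype.card_fin]
    exact finrankAlong_heckeBetaBar hℓ hℓN
  have h := charpoly_map_eq_prod_embeddings
    ((qExpand L ℓ).comp (algebraMap (laurentBaseChange L (modularFunctionFieldFull N))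
        (LaurentSeries L))) (sigmaFam hζ.pow_eq_one τ)
    (fun i a => sigmaFam_algebraMap hζ.pow_eq_one τ hτβ i a)
    (sigmaFam_injective hℓ hζ τ hτα) hcard x
  rw [h, Fintype.prod_option, sigmaFam_none]
  simp only [sigmaFam_some]

/-- **E-a (KRON).**  For `y ∈ F_N` the characteristic polynomial of `α y` with respect to the
`β`-structure of `F_{Nℓ}`, with coefficients read in `L((q))`, is the Kronecker polynomial
`Ψ_y = (X - y(q^ℓ)) · ∏_b (X - y(ζ^b q^{1/ℓ}))` (`H400.kronPoly ℓ y`). -/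
theorem charpoly_beta_alpha (hℓ : ℓ.Prime) (hℓN : ¬ ℓ ∣ N) {ζ : L} (hζ : IsPrimitiveRoot ζ ℓ)
    (y : laurentBaseChange L (modularFunctionFieldFull N)) :
    letI := algebraAlong (heckeBetaBar L N ℓ)
    haveI : Module.Finite (laurentBaseChange L (modularFunctionFieldFull N))
      (laurentBaseChange L (modularFunctionFieldFull (N * ℓ))) :=
      finiteAlong_heckeBetaBar hℓ hℓN
    ((Algebra.lmul (laurentBaseChange L (modularFunctionFieldFull N)) _
        (heckeAlphaBar L N ℓ y)).charpoly).map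
        (algebraMap (laurentBaseChange L (modularFunctionFieldFull N)) (LaurentSeries L)) =
      H400.kronPoly ℓ (y : LaurentSeries L) := by
  obtain ⟨τ, hτβ, hτα⟩ := exists_lastEmbedding (L := L) (N := N) hℓ hℓN hζ
  have h := charpoly_beta_of_lastEmbedding hℓ hℓN hζ τ hτβ hτα (heckeAlphaBar L N ℓ y)
  simp only [coe_heckeAlphaBar] at h
  rw [hτα, ← kronPoly_map_qExpand ℓ hζ, ← Polynomial.map_map] at h
  exact Polynomial.map_injective _ (qExpand_injective ℓ) h

/-- **Norm along `β`**: `Nm_β(α y) = y(q^ℓ) · ∏_b y(ζ^b q^{1/ℓ})` (`H400.kronNorm ℓ y`). -/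
theorem norm_beta_alpha (hℓ : ℓ.Prime) (hℓN : ¬ ℓ ∣ N) {ζ : L} (hζ : IsPrimitiveRoot ζ ℓ)
    (y : laurentBaseChange L (modularFunctionFieldFull N)) :
    letI := algebraAlong (heckeBetaBar L N ℓ)
    ((Algebra.norm (laurentBaseChange L (modularFunctionFieldFull N))
        (heckeAlphaBar L N ℓ y) : laurentBaseChange L (modularFunctionFieldFull N)) :
        LaurentSeries L) = H400.kronNorm ℓ (y : LaurentSeries L) := by
  letI := algebraAlong (heckeBetaBar L N ℓ)
  haveI : Module.Finite (laurentBaseChange L (modularFunctionFieldFull N))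
      (laurentBaseChange L (modularFunctionFieldFull (N * ℓ))) :=
    finiteAlong_heckeBetaBar hℓ hℓN
  have h := charpoly_beta_alpha hℓ hℓN hζ y
  have h0 := congrArg (fun p : Polynomial (LaurentSeries L) => p.coeff 0) h
  simp only [Polynomial.coeff_map, IntermediateField.algebraMap_apply] at h0
  have hfr : Module.finrank (laurentBaseChange L (modularFunctionFieldFull N))
      (laurentBaseChange L (modularFunctionFieldFull (N * ℓ))) = ℓ + 1 :=
    finrankAlong_heckeBetaBar hℓ hℓN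
  rw [Algebra.norm_apply, LinearMap.det_eq_sign_charpoly_coeff, hfr, IntermediateField.coe_mul,
    IntermediateField.coe_pow, IntermediateField.coe_neg, IntermediateField.coe_one, h0,
    H400.kronPoly_coeff_zero, ← mul_assoc, ← mul_pow]
  simp

section Bar

variable (N ℓ)

/-- a primitive `ℓ`-th root of unity in `ℚ̄` -/
theorem exists_primitiveRoot_bar : ∃ ζ : AlgebraicClosure ℚ, IsPrimitiveRoot ζ ℓ :=
  HasEnoughRootsOfUnity.exists_primitiveRoot (AlgebraicClosure ℚ) ℓ

variable {N ℓ}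

/-- **E-a (KRON) over `ℚ̄`.** -/
theorem charpoly_beta_alpha_bar (hℓ : ℓ.Prime) (hℓN : ¬ ℓ ∣ N) (y : modularFunctionFieldBar N) :
    letI := algebraAlong (heckeBetaBar (AlgebraicClosure ℚ) N ℓ)
    haveI : Module.Finite (modularFunctionFieldBar N) (modularFunctionFieldBar (N * ℓ)) :=
      finiteAlong_heckeBetaBar hℓ hℓN
    ((Algebra.lmul (modularFunctionFieldBar N) (modularFunctionFieldBar (N * ℓ))
        (heckeAlphaBar (AlgebraicClosure ℚ) N ℓ y)).charpoly).map
        (algebraMap (modularFunctionFieldBar N) (LaurentSeries (AlgebraicClosure ℚ))) =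
      H400.kronPoly ℓ (y : LaurentSeries (AlgebraicClosure ℚ)) := by
  obtain ⟨ζ, hζ⟩ := exists_primitiveRoot_bar ℓ
  exact charpoly_beta_alpha hℓ hℓN hζ y

/-- **Norm along `β` over `ℚ̄`.** -/
theorem norm_beta_alpha_bar (hℓ : ℓ.Prime) (hℓN : ¬ ℓ ∣ N) (y : modularFunctionFieldBar N) :
    letI := algebraAlong (heckeBetaBar (AlgebraicClosure ℚ) N ℓ)
    ((Algebra.norm (modularFunctionFieldBar N)
        (heckeAlphaBar (AlgebraicClosure ℚ) N ℓ y) : modularFunctionFieldBar N) :
        LaurentSeries (AlgebraicClosure ℚ)) =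
      H400.kronNorm ℓ (y : LaurentSeries (AlgebraicClosure ℚ)) := by
  obtain ⟨ζ, hζ⟩ := exists_primitiveRoot_bar ℓ
  exact norm_beta_alpha hℓ hℓN hζ y

end Bar

end Main

end Fermat.Agent.S37.H88

end
end
-- ===== PACK-END S37/H88/KronCharpoly.lean

-- ===== PACK-BEGIN Lib/FF460/Hecke.lean
section




/-!
# `HeckeInputsAlong ℚ̄ N ℓ` holds  (helper460)

The Prelude's Hecke operator `heckeOperatorAlong L N ℓ` on `Pic⁰` of the function field of
`X₀(N)` is defined by a `dite` on `HeckeInputsAlong L N ℓ` (junk value `0` otherwise).  Here we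
prove `HeckeInputsAlong (AlgebraicClosure ℚ) N ℓ` for all `N`, `ℓ`, so that
`heckeOperatorAlong = heckePic0Bar …` is the genuine correspondence `α_* ∘ β^*`.
-/

set_option autoImplicit false
set_option linter.unusedSectionVars false
set_option linter.style.haveILetI false

open AlgebraicCurve ModularCurve IntermediateField

namespace Fermat.Agent.Lib.FF460

section Tower

variable {K F F' : Type*} [Field K] [Field F] [Field F'] [Algebra K F] [Algebra K F']
  [Algebra F F'] [IsScalarTower K F F']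

/-- If `F'` is finite over `K(x')` with `x'` the image of some `x ∈ F`, then `F'` is finite
over `F`. -/
theorem finiteDimensional_of_adjoin (x : F)
    [h : FiniteDimensional (IntermediateField.adjoin K {algebraMap F F' x}) F'] :
    FiniteDimensional F F' := by
  classical
  have hle : IntermediateField.adjoin K {algebraMap F F' x} ≤
      (IsScalarTower.toAlgHom K F F').fieldRange := by
    rw [IntermediateField.adjoin_le_iff, Set.singleton_subset_iff]
    exact ⟨x, rfl⟩
  obtain ⟨S, hS⟩ := h.fg_top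
  refine ⟨⟨S, ?_⟩⟩
  rw [eq_top_iff]
  rintro y -
  have hy : y ∈ Submodule.span (IntermediateField.adjoin K {algebraMap F F' x}) (S : Set F') := by
    rw [hS]
    trivial
  induction hy using Submodule.span_induction with
  | mem z hz => exact Submodule.subset_span hz
  | zero => exact zero_mem _
  | add a b _ _ ha hb => exact add_mem ha hb
  | smul c z _ hz =>
    obtain ⟨f, hf⟩ := hle c.2
    have : c • z = f • z := by
      rw [Algebra.smul_def, Algebra.smul_def]
      congr 1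
      exact hf.symm
    rw [this]
    exact Submodule.smul_mem _ _ hz

end Tower

section Modular

variable (N ℓ : ℕ) [NeZero N] [NeZero ℓ]

open Fermat.Agent.S24 Fermat.Agent.Lib.RR.H804

/-- The image of `j` under the degeneracy map `α` is `j`. -/
theorem heckeAlphaBar_jF :
    heckeAlphaBar (AlgebraicClosure ℚ) N ℓ (jF N) = jF (N * ℓ) :=
  Subtype.ext rfl

/-- The image of `j` under the degeneracy map `β` is transcendental. -/
theorem transcendental_heckeBetaBar_jF :
    Transcendental (AlgebraicClosure ℚ) (heckeBetaBar (AlgebraicClosure ℚ) N ℓ (jF N)) := by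
  intro h
  apply transcendental_jF N
  exact (isAlgebraic_algHom_iff (heckeBetaBar (AlgebraicClosure ℚ) N ℓ)
    (heckeBetaBar (AlgebraicClosure ℚ) N ℓ).injective).mp h

theorem finiteAlong_heckeAlphaBar :
    FiniteAlong (AlgebraicClosure ℚ) (heckeAlphaBar (AlgebraicClosure ℚ) N ℓ) := by
  letI := algebraAlong (heckeAlphaBar (AlgebraicClosure ℚ) N ℓ)
  haveI := isScalarTower_along (heckeAlphaBar (AlgebraicClosure ℚ) N ℓ)
  show Module.Finite _ _
  haveI : FiniteDimensional (IntermediateField.adjoin (AlgebraicClosure ℚ)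
      {algebraMap ↥(modularFunctionFieldBar N) ↥(modularFunctionFieldBar (N * ℓ)) (jF N)})
      ↥(modularFunctionFieldBar (N * ℓ)) := by
    have : algebraMap ↥(modularFunctionFieldBar N) ↥(modularFunctionFieldBar (N * ℓ)) (jF N)
        = jF (N * ℓ) := heckeAlphaBar_jF N ℓ
    rw [this]
    exact finiteDimensional_jF (N * ℓ)
  exact finiteDimensional_of_adjoin (K := AlgebraicClosure ℚ) (jF N)

theorem finiteAlong_heckeBetaBar :
    FiniteAlong (AlgebraicClosure ℚ) (heckeBetaBar (AlgebraicClosure ℚ) N ℓ) := by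
  letI := algebraAlong (heckeBetaBar (AlgebraicClosure ℚ) N ℓ)
  haveI := isScalarTower_along (heckeBetaBar (AlgebraicClosure ℚ) N ℓ)
  show Module.Finite _ _
  haveI := finiteDimensional_jF (N * ℓ)
  haveI : FiniteDimensional (IntermediateField.adjoin (AlgebraicClosure ℚ)
      {algebraMap ↥(modularFunctionFieldBar N) ↥(modularFunctionFieldBar (N * ℓ)) (jF N)})
      ↥(modularFunctionFieldBar (N * ℓ)) :=
    Fermat.Agent.S24.FF.finiteDimensional_adjoin_of_transcendental
      (transcendental_jF (N * ℓ)) (transcendental_heckeBetaBar_jF N ℓ)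
  exact finiteDimensional_of_adjoin (K := AlgebraicClosure ℚ) (jF N)

theorem heckeAlphaBarIntegral : HeckeAlphaBarIntegral (AlgebraicClosure ℚ) N ℓ := by
  letI := algebraAlong (heckeAlphaBar (AlgebraicClosure ℚ) N ℓ)
  haveI : Module.Finite ↥(modularFunctionFieldBar N) ↥(modularFunctionFieldBar (N * ℓ)) :=
    finiteAlong_heckeAlphaBar N ℓ
  exact fun y => Algebra.IsIntegral.isIntegral (R := ↥(modularFunctionFieldBar N)) y

theorem heckeBetaBarIntegral : HeckeBetaBarIntegral (AlgebraicClosure ℚ) N ℓ := by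
  letI := algebraAlong (heckeBetaBar (AlgebraicClosure ℚ) N ℓ)
  haveI : Module.Finite ↥(modularFunctionFieldBar N) ↥(modularFunctionFieldBar (N * ℓ)) :=
    finiteAlong_heckeBetaBar N ℓ
  exact fun y => Algebra.IsIntegral.isIntegral (R := ↥(modularFunctionFieldBar N)) y

theorem fundamentalIdentityAlong_heckeBetaBar :
    FundamentalIdentityAlong (AlgebraicClosure ℚ) (heckeBetaBar (AlgebraicClosure ℚ) N ℓ)
      (heckeBetaBarIntegral N ℓ) := by
  letI := algebraAlong (heckeBetaBar (AlgebraicClosure ℚ) N ℓ)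
  haveI := isScalarTower_along (heckeBetaBar (AlgebraicClosure ℚ) N ℓ)
  haveI : Module.Finite ↥(modularFunctionFieldBar N) ↥(modularFunctionFieldBar (N * ℓ)) :=
    finiteAlong_heckeBetaBar N ℓ
  haveI := finiteDimensional_jF (N * ℓ)
  exact fundamentalIdentity (K := AlgebraicClosure ℚ) (F := ↥(modularFunctionFieldBar N))
    (transcendental_jF (N * ℓ))

theorem normFormulaAlong_heckeAlphaBar :
    NormFormulaAlong (AlgebraicClosure ℚ) (heckeAlphaBar (AlgebraicClosure ℚ) N ℓ)
      (finiteAlong_heckeAlphaBar N ℓ) := by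
  letI := algebraAlong (heckeAlphaBar (AlgebraicClosure ℚ) N ℓ)
  haveI := isScalarTower_along (heckeAlphaBar (AlgebraicClosure ℚ) N ℓ)
  haveI : Module.Finite ↥(modularFunctionFieldBar N) ↥(modularFunctionFieldBar (N * ℓ)) :=
    finiteAlong_heckeAlphaBar N ℓ
  haveI := finiteDimensional_jF (N * ℓ)
  exact pushforwardNormFormula (K := AlgebraicClosure ℚ) (F := ↥(modularFunctionFieldBar N))
    (transcendental_jF (N * ℓ))

/-- **The Hecke inputs hold over `ℚ̄`**: the Prelude's `heckeOperatorAlong ℚ̄ N ℓ` is the genuine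
Hecke correspondence. -/
theorem heckeInputsAlong_bar : HeckeInputsAlong (AlgebraicClosure ℚ) N ℓ :=
  heckeInputsAlong_intro (heckeAlphaBarIntegral N ℓ) (heckeBetaBarIntegral N ℓ)
    (fundamentalIdentityAlong_heckeBetaBar N ℓ) (finiteAlong_heckeAlphaBar N ℓ)
    (normFormulaAlong_heckeAlphaBar N ℓ)

end Modular

end Fermat.Agent.Lib.FF460

end
-- ===== PACK-END Lib/FF460/Hecke.lean

-- ===== PACK-BEGIN A2/IF/H429/IF.lean
section



/-!
# A2 / IF (helper429): good levels exist

`ifStatement : IFStatement` is the interface IF of `Fermat/Agent/A2/Spec.lean` (v2, row-lead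
helper13); `exists_goodField` is the same statement with explicit binders (Skel form).
The good level is `level P S = ℚ̄^{I_P}(all ℚ-conjugates of S)`:

* stable under `I_P` (`level_stable_inertia`);
* `P ∩ E` is a discrete valuation ring (`isDiscreteValuationRing_level`: the inertia field is
  unramified — Hilbert theory at finite level, `Hilbert.lean` — and `[E : E_I] < ∞`);
* henselian (`henselian_RE`: a simple root is fixed by `Gal(ℚ̄/E)`);
* algebraically closed residue field (`isAlgClosed_residueField_RE`: Teichmüller lifts);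
* inertia acts trivially modulo the maximal ideal (definition of inertia);
* every inertia element has finite order on `E` (`level_finite_order`).
-/

set_option autoImplicit false

namespace Fermat.Agent.A2.IF.H429

open Fermat.Agent.A2

theorem goodField_level (q : ℕ) (hq : q.Prime) (P : ValuationSubring Qb)
    (hP : P.LiesOverPrime q) (S : Finset Qb) : GoodField P (level P S) where
  stable := fun _ hτ _ he => level_stable_inertia P S hτ he
  dvr := isDiscreteValuationRing_level P q hq hP S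
  henselian := henselian_RE P (level P S) (inertiaField_le_level P S)
  algClosed := isAlgClosed_residueField_RE P (level P S) q hq hP (inertiaField_le_level P S)
  trivial_mod := fun _ hτ _ _ heP => sub_mem_nonunits_of_inertia P hτ heP
  finite_order := fun _ hτ => level_finite_order P S hτ

/-- **IF** (Skel form).  Every finite set of algebraic numbers lies in a good level for `P`. -/
theorem exists_goodField (q : ℕ) (hq : q.Prime) (P : ValuationSubring Qb)
    (hP : P.LiesOverPrime q) (S : Finset Qb) :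
    ∃ E : IntermediateField ℚ Qb, (∀ s ∈ S, s ∈ E) ∧ GoodField P E :=
  ⟨level P S, fun _ hs => mem_level_of_mem P S hs, goodField_level q hq P hP S⟩

/-- **IF** (interface statement of `Spec.lean`). -/
theorem ifStatement : IFStatement :=
  fun q hq P hP S => exists_goodField q hq P hP S

end Fermat.Agent.A2.IF.H429

end
-- ===== PACK-END A2/IF/H429/IF.lean

-- ===== PACK-BEGIN A2/Mod/H753/IndZero.lean
section






/-!
# A2 / MOD leaf L10 `IndZero` (helper753): residue independence on `C₀`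

`V₀ = V∞ ∘ W` at level `N = M q`.  With `W x = j_M · j_{Mq}` (`x = j j_q`), reduction
`J^(q+1)`, `J = j̄(t^M)`, the family `d (a, i) = α(Z i · j_M^a)` (`Z i` = Fricke dual at level `M`
of the S28 monomial `Y i`, `0 ≤ a ≤ q`) lies in `V∞` and is independent modulo `w` over `R[W x]`;
`c := W ∘ d`.

* `inW_of_red_eq_zero` : converse of `red_eq_zero_of_inW`;
* `map_ev`, `inW_comap_iff` : transport along an `E`-automorphism;
* `polyIndep_dual` : `PolyIndep J (Z̄ i)` from `PolyIndep j̄ (Ȳ i)` and L7 (level `M`);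
* `indZero_of`, `indZero : IndZeroStatement P E M q w`;
* `indepMod_inv` : `IndepMod` for the coordinate `x⁻¹` from `IndepMod` for `x` (`x` a unit of `V`).
-/

set_option autoImplicit false
set_option synthInstance.maxHeartbeats 400000
set_option maxHeartbeats 1600000

noncomputable section

namespace Fermat.Agent.A2.Mod.H753

open ModularCurve HahnSeries Polynomial
open Fermat.Agent.S28 (intDivisorExpansions jField)
open Fermat.Agent.S28.H325 (castL PolyIndep)

section Gen

variable (P : ValuationSubring _root_.Fermat.Agent.A2.Mod.Qb) (E : IntermediateField ℚ _root_.Fermat.Agent.A2.Mod.Qb)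

/-- an integral series with zero reduction lies in `w V∞`. -/
theorem inW_of_red_eq_zero {N : ℕ} {V : ValuationSubring (_root_.Fermat.Agent.A2.Mod.FE E N)} (hV : IsVinf P E N V)
    {w : _root_.Fermat.Agent.A2.Mod.RE P E} (hdvr : IsDiscreteValuationRing (_root_.Fermat.Agent.A2.Mod.RE P E)) (hw : Irreducible w) {f : _root_.Fermat.Agent.A2.Mod.FE E N}
    {S : LaurentSeries (_root_.Fermat.Agent.A2.Mod.RE P E)} (hS : (f : LaurentSeries E) = H708.incl (_root_.Fermat.Agent.A2.Mod.RE P E) S)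
    (hred : H708.red (_root_.Fermat.Agent.A2.Mod.RE P E) S = 0) : InW P E N V w f := by
  have hw0 : w ≠ 0 := hw.ne_zero
  have hdiv : ∀ n, w ∣ S.coeff n := by
    intro n
    have h1 : IsLocalRing.residue (_root_.Fermat.Agent.A2.Mod.RE P E) (S.coeff n) = 0 := by
      have := congrArg (fun z => z.coeff n) hred
      simpa using this
    rw [IsLocalRing.residue_eq_zero_iff, hw.maximalIdeal_eq, Ideal.mem_span_singleton] at h1
    exact h1
  obtain ⟨U', hU'⟩ := H549.exists_cstA_mul_eq w hw0 S hdiv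
  have hwE : ((w : E)) ≠ 0 := fun h0 => hw0 (Subtype.ext h0)
  have hc : H708.cst (w : E) ≠ 0 := H708.cst_ne_zero hwE
  have hcoe : (((f * (cE P E N w)⁻¹ : _root_.Fermat.Agent.A2.Mod.FE E N)) : LaurentSeries E) = H708.incl (_root_.Fermat.Agent.A2.Mod.RE P E) U' := by
    rw [IntermediateField.coe_mul, IntermediateField.coe_inv, hS, ← hU', map_mul, H708.incl_cstA]
    show H708.cst (w : E) * _ * (H708.cst (w : E))⁻¹ = _
    field_simp
  show f * (cE P E N w)⁻¹ ∈ V
  rw [hV, hcoe]
  exact H708.IsGaussInt.of_incl _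

variable {P E}

theorem map_ev {N : ℕ} (W : _root_.Fermat.Agent.A2.Mod.FE E N ≃ₐ[E] _root_.Fermat.Agent.A2.Mod.FE E N) (x : _root_.Fermat.Agent.A2.Mod.FE E N) (p : Polynomial (_root_.Fermat.Agent.A2.Mod.RE P E)) :
    W (ev P E N x p) = ev P E N (W x) p := by
  have h := Polynomial.hom_eval₂ p ((algebraMap E (_root_.Fermat.Agent.A2.Mod.FE E N)).comp (_root_.Fermat.Agent.A2.Mod.RE P E).subtype)
    (W : _root_.Fermat.Agent.A2.Mod.FE E N →+* _root_.Fermat.Agent.A2.Mod.FE E N) x
  have h2 : ((W : _root_.Fermat.Agent.A2.Mod.FE E N →+* _root_.Fermat.Agent.A2.Mod.FE E N).comp ((algebraMap E (_root_.Fermat.Agent.A2.Mod.FE E N)).comp (_root_.Fermat.Agent.A2.Mod.RE P E).subtype))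
      = (algebraMap E (_root_.Fermat.Agent.A2.Mod.FE E N)).comp (_root_.Fermat.Agent.A2.Mod.RE P E).subtype :=
    RingHom.ext fun r => W.commutes _
  rw [h2] at h
  exact h

theorem inW_comap_iff {N : ℕ} (V : ValuationSubring (_root_.Fermat.Agent.A2.Mod.FE E N)) (W : _root_.Fermat.Agent.A2.Mod.FE E N ≃ₐ[E] _root_.Fermat.Agent.A2.Mod.FE E N)
    (w : _root_.Fermat.Agent.A2.Mod.RE P E) (f : _root_.Fermat.Agent.A2.Mod.FE E N) :
    InW P E N (V.comap (W : _root_.Fermat.Agent.A2.Mod.FE E N →+* _root_.Fermat.Agent.A2.Mod.FE E N)) w f ↔ InW P E N V w (W f) := by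
  have h1 : W (f * (cE P E N w)⁻¹) = W f * (cE P E N w)⁻¹ := by
    rw [map_mul, map_inv₀]
    congr 2
    exact W.commutes _
  show (W : _root_.Fermat.Agent.A2.Mod.FE E N →+* _root_.Fermat.Agent.A2.Mod.FE E N) (f * (cE P E N w)⁻¹) ∈ V ↔ W f * (cE P E N w)⁻¹ ∈ V
  rw [← h1]
  rfl

theorem coe_jE_incl (N d : ℕ) [NeZero d] (hd : d ∣ N) :
    ((jE E N d hd : _root_.Fermat.Agent.A2.Mod.FE E N) : LaurentSeries E)
      = H708.incl (_root_.Fermat.Agent.A2.Mod.RE P E) (H708.castA (_root_.Fermat.Agent.A2.Mod.RE P E) (qExpand ℤ d (jqModC ℤ))) := by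
  rw [H708.incl_castA, H708.castQ, coeffMap_qExpand, ← H708.castQ, castQ_jqModC]
  rfl

end Gen

/-! ## relations of integral series and their reductions -/

section Rel

variable (P : ValuationSubring _root_.Fermat.Agent.A2.Mod.Qb) (E : IntermediateField ℚ _root_.Fermat.Agent.A2.Mod.Qb)

/-- the series of `∑ aᵢ(u) hᵢ` for integer series `u`, `hᵢ`. -/
theorem coe_sum_ev {N n : ℕ} (u : _root_.Fermat.Agent.A2.Mod.FE E N) (U : LaurentSeries ℤ)
    (hu : (u : LaurentSeries E) = H708.incl (_root_.Fermat.Agent.A2.Mod.RE P E) (H708.castA (_root_.Fermat.Agent.A2.Mod.RE P E) U))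
    (h : Fin n → _root_.Fermat.Agent.A2.Mod.FE E N) (Z : Fin n → LaurentSeries ℤ)
    (hh : ∀ i, (h i : LaurentSeries E) = H708.incl (_root_.Fermat.Agent.A2.Mod.RE P E) (H708.castA (_root_.Fermat.Agent.A2.Mod.RE P E) (Z i)))
    (a : Fin n → Polynomial (_root_.Fermat.Agent.A2.Mod.RE P E)) :
    ((∑ i, ev P E N u (a i) * h i : _root_.Fermat.Agent.A2.Mod.FE E N) : LaurentSeries E)
      = H708.incl (_root_.Fermat.Agent.A2.Mod.RE P E)
        (∑ i, aeval (H708.castA (_root_.Fermat.Agent.A2.Mod.RE P E) U) (a i) * H708.castA (_root_.Fermat.Agent.A2.Mod.RE P E) (Z i)) := by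
  rw [map_sum, IntermediateField.coe_sum]
  refine Finset.sum_congr rfl fun i _ => ?_
  rw [IntermediateField.coe_mul, coe_ev P E u _ hu (a i), hh i, map_mul]

theorem red_sum_aeval {n : ℕ} (U : LaurentSeries ℤ) (Z : Fin n → LaurentSeries ℤ)
    (a : Fin n → Polynomial (_root_.Fermat.Agent.A2.Mod.RE P E)) :
    H708.red (_root_.Fermat.Agent.A2.Mod.RE P E)
        (∑ i, aeval (H708.castA (_root_.Fermat.Agent.A2.Mod.RE P E) U) (a i) * H708.castA (_root_.Fermat.Agent.A2.Mod.RE P E) (Z i))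
      = ∑ i, aeval (castL (IsLocalRing.ResidueField (_root_.Fermat.Agent.A2.Mod.RE P E)) U)
          ((a i).map (IsLocalRing.residue (_root_.Fermat.Agent.A2.Mod.RE P E))) *
          castL (IsLocalRing.ResidueField (_root_.Fermat.Agent.A2.Mod.RE P E)) (Z i) := by
  rw [map_sum]
  refine Finset.sum_congr rfl fun i _ => ?_
  rw [map_mul, H708.red, Fermat.Agent.S28.H325.coeffMap_aeval, ← H708.red, red_castA, red_castA]

/-- a relation in `w V∞` between integer series reduces to a relation over `k`. -/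
theorem relation_red {N n : ℕ} {V : ValuationSubring (_root_.Fermat.Agent.A2.Mod.FE E N)} (hV : IsVinf P E N V)
    {w : _root_.Fermat.Agent.A2.Mod.RE P E} (hw : Irreducible w)
    (u : _root_.Fermat.Agent.A2.Mod.FE E N) (U : LaurentSeries ℤ)
    (hu : (u : LaurentSeries E) = H708.incl (_root_.Fermat.Agent.A2.Mod.RE P E) (H708.castA (_root_.Fermat.Agent.A2.Mod.RE P E) U))
    (h : Fin n → _root_.Fermat.Agent.A2.Mod.FE E N) (Z : Fin n → LaurentSeries ℤ)
    (hh : ∀ i, (h i : LaurentSeries E) = H708.incl (_root_.Fermat.Agent.A2.Mod.RE P E) (H708.castA (_root_.Fermat.Agent.A2.Mod.RE P E) (Z i)))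
    (a : Fin n → Polynomial (_root_.Fermat.Agent.A2.Mod.RE P E))
    (hin : InW P E N V w (∑ i, ev P E N u (a i) * h i)) :
    ∑ i, aeval (castL (IsLocalRing.ResidueField (_root_.Fermat.Agent.A2.Mod.RE P E)) U)
        ((a i).map (IsLocalRing.residue (_root_.Fermat.Agent.A2.Mod.RE P E))) *
        castL (IsLocalRing.ResidueField (_root_.Fermat.Agent.A2.Mod.RE P E)) (Z i) = 0 := by
  have hwm : w ∈ IsLocalRing.maximalIdeal (_root_.Fermat.Agent.A2.Mod.RE P E) := by
    rw [IsLocalRing.mem_maximalIdeal, mem_nonunits_iff]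
    exact hw.not_isUnit
  rw [← red_sum_aeval]
  exact red_eq_zero_of_inW hV hw.ne_zero hwm (coe_sum_ev P E u U hu h Z hh a) hin

/-- a relation over `k` between reductions of integer series lifts to a relation in `w V∞`. -/
theorem relation_inW {N n : ℕ} {V : ValuationSubring (_root_.Fermat.Agent.A2.Mod.FE E N)} (hV : IsVinf P E N V)
    {w : _root_.Fermat.Agent.A2.Mod.RE P E} (hdvr : IsDiscreteValuationRing (_root_.Fermat.Agent.A2.Mod.RE P E)) (hw : Irreducible w)
    (u : _root_.Fermat.Agent.A2.Mod.FE E N) (U : LaurentSeries ℤ)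
    (hu : (u : LaurentSeries E) = H708.incl (_root_.Fermat.Agent.A2.Mod.RE P E) (H708.castA (_root_.Fermat.Agent.A2.Mod.RE P E) U))
    (h : Fin n → _root_.Fermat.Agent.A2.Mod.FE E N) (Z : Fin n → LaurentSeries ℤ)
    (hh : ∀ i, (h i : LaurentSeries E) = H708.incl (_root_.Fermat.Agent.A2.Mod.RE P E) (H708.castA (_root_.Fermat.Agent.A2.Mod.RE P E) (Z i)))
    (a : Fin n → Polynomial (_root_.Fermat.Agent.A2.Mod.RE P E))
    (hrel : ∑ i, aeval (castL (IsLocalRing.ResidueField (_root_.Fermat.Agent.A2.Mod.RE P E)) U)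
        ((a i).map (IsLocalRing.residue (_root_.Fermat.Agent.A2.Mod.RE P E))) *
        castL (IsLocalRing.ResidueField (_root_.Fermat.Agent.A2.Mod.RE P E)) (Z i) = 0) :
    InW P E N V w (∑ i, ev P E N u (a i) * h i) := by
  rw [← red_sum_aeval] at hrel
  exact inW_of_red_eq_zero P E hV hdvr hw (coe_sum_ev P E u U hu h Z hh a) hrel

end Rel

/-! ## the Fricke-dual family at level `M` -/

section Dual

variable (P : ValuationSubring _root_.Fermat.Agent.A2.Mod.Qb) (E : IntermediateField ℚ _root_.Fermat.Agent.A2.Mod.Qb) (M q : ℕ) [NeZero M] [NeZero q]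

/-- **dual independence.**  If `W_M hᵢ = gᵢ` (integer series `Zᵢ`, `Yᵢ`) and the `Ȳᵢ` are
polynomially independent over `k[j̄]`, then the `Z̄ᵢ` are polynomially independent over
`k[j̄_M]`. -/
theorem polyIndep_dual (w : _root_.Fermat.Agent.A2.Mod.RE P E) (hS : Setting P E M q w)
    (WM : _root_.Fermat.Agent.A2.Mod.FE E M ≃ₐ[E] _root_.Fermat.Agent.A2.Mod.FE E M) (hWM : IsFricke E M WM)
    (VM : ValuationSubring (_root_.Fermat.Agent.A2.Mod.FE E M)) (hVM : IsVinf P E M VM)
    {n : ℕ} (g h : Fin n → _root_.Fermat.Agent.A2.Mod.FE E M) (Y Z : Fin n → LaurentSeries ℤ)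
    (hg : ∀ i, (g i : LaurentSeries E) = H708.incl (_root_.Fermat.Agent.A2.Mod.RE P E) (H708.castA (_root_.Fermat.Agent.A2.Mod.RE P E) (Y i)))
    (hh : ∀ i, (h i : LaurentSeries E) = H708.incl (_root_.Fermat.Agent.A2.Mod.RE P E) (H708.castA (_root_.Fermat.Agent.A2.Mod.RE P E) (Z i)))
    (hgh : ∀ i, WM (h i) = g i)
    (hY : PolyIndep (jqModC (IsLocalRing.ResidueField (_root_.Fermat.Agent.A2.Mod.RE P E)))
      (fun i => castL (IsLocalRing.ResidueField (_root_.Fermat.Agent.A2.Mod.RE P E)) (Y i))) :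
    PolyIndep (castL (IsLocalRing.ResidueField (_root_.Fermat.Agent.A2.Mod.RE P E)) (qExpand ℤ M (jqModC ℤ)))
      (fun i => castL (IsLocalRing.ResidueField (_root_.Fermat.Agent.A2.Mod.RE P E)) (Z i)) := by
  intro Pb hPb
  have hsurj : ∀ i, ∃ p : Polynomial (_root_.Fermat.Agent.A2.Mod.RE P E), p.map (IsLocalRing.residue (_root_.Fermat.Agent.A2.Mod.RE P E)) = Pb i :=
    fun i => Polynomial.map_surjective _ IsLocalRing.residue_surjective (Pb i)
  choose p hp using hsurj
  have hrel : ∑ i, aeval (castL (IsLocalRing.ResidueField (_root_.Fermat.Agent.A2.Mod.RE P E)) (qExpand ℤ M (jqModC ℤ)))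
      ((p i).map (IsLocalRing.residue (_root_.Fermat.Agent.A2.Mod.RE P E))) *
      castL (IsLocalRing.ResidueField (_root_.Fermat.Agent.A2.Mod.RE P E)) (Z i) = 0 := by
    rw [← hPb]
    exact Finset.sum_congr rfl fun i _ => by rw [hp i]
  have h1 := relation_inW P E hVM hS.dvr hS.unif (jE E M M dvd_rfl) _
    (coe_jE_incl M M dvd_rfl) h Z hh p hrel
  have h2 : InW P E M VM w (WM (∑ i, ev P E M (jE E M M dvd_rfl) (p i) * h i)) := by
    rw [← inW_comap_iff]
    exact H900.frickeStable P E M q w hS VM WM hVM hWM _ h1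
  have h3 : WM (∑ i, ev P E M (jE E M M dvd_rfl) (p i) * h i)
      = ∑ i, ev P E M (jE E M 1 (one_dvd M)) (p i) * g i := by
    rw [map_sum]
    refine Finset.sum_congr rfl fun i _ => ?_
    rw [map_mul, map_ev, hgh i, hWM.1 M 1 dvd_rfl (one_dvd M) (mul_one M)]
  rw [h3] at h2
  have h4 := relation_red P E hVM hS.unif (jE E M 1 (one_dvd M)) _
    (coe_jE_incl M 1 (one_dvd M)) g Y hg p h2
  rw [qExpand_one_apply, Fermat.Agent.S28.H325.castL_jqModC] at h4
  intro i
  rw [← hp i]
  exact hY _ h4 i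

end Dual

/-! ## the leaf L10 -/

section MainZero

variable (P : ValuationSubring _root_.Fermat.Agent.A2.Mod.Qb) (E : IntermediateField ℚ _root_.Fermat.Agent.A2.Mod.Qb) (M q : ℕ) [NeZero q]

theorem incl_castA_eq (y : LaurentSeries ℤ) :
    H708.incl (_root_.Fermat.Agent.A2.Mod.RE P E) (H708.castA (_root_.Fermat.Agent.A2.Mod.RE P E) y) = coeffMap (Int.castRingHom E) y := by
  rw [H708.incl, H708.castA, coeffMap_coeffMap]
  exact coeffMap_congr (RingHom.ext_int _ _) y

/-- Frobenius for an arbitrary integer series: `x̄(t^q) = x̄(t)^q` in characteristic `q`. -/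
theorem castL_qExpand_pow (hq : q.Prime) (k : Type*) [Field k] [CharP k q]
    (x : LaurentSeries ℤ) : castL k (qExpand ℤ q x) = castL k x ^ q := by
  have : Fact q.Prime := ⟨hq⟩
  obtain ⟨g, hg⟩ := H528.exists_frobCong q x
  have h1 : qExpand ℤ q x = x ^ q + HahnSeries.C (q : ℤ) * g := by
    rw [← hg]; ring
  have h2 : castL k (HahnSeries.C (q : ℤ)) = 0 := by
    ext n
    rw [castL, coeffMap_coeff, HahnSeries.coeff_zero, HahnSeries.C_apply,
      HahnSeries.coeff_single]
    split_ifs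
    · rw [eq_intCast, Int.cast_natCast, CharP.cast_eq_zero k q]
    · rw [map_zero]
  rw [h1, map_add, map_mul, h2, zero_mul, add_zero, map_pow]

/-- **L10, strong form**: the family `d` lies in `V∞`, is independent modulo `w` over `R[W x]`,
and `c = W ∘ d`. -/
theorem indZero_strong (w : _root_.Fermat.Agent.A2.Mod.RE P E) (hS : Setting P E M q w)
    (V : ValuationSubring (_root_.Fermat.Agent.A2.Mod.FE E (M * q))) (W : _root_.Fermat.Agent.A2.Mod.FE E (M * q) ≃ₐ[E] _root_.Fermat.Agent.A2.Mod.FE E (M * q))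
    (hV : IsVinf P E (M * q) V) (hW : IsFricke E (M * q) W) :
    ∃ d : Fin ((q + 1) * dedekindPsi M) → _root_.Fermat.Agent.A2.Mod.FE E (M * q),
      (∀ i, d i ∈ V) ∧ IndepMod P E (M * q) V w (W (xE E M q)) d ∧
      IndepMod P E (M * q) (V.comap (W : _root_.Fermat.Agent.A2.Mod.FE E (M * q) →+* _root_.Fermat.Agent.A2.Mod.FE E (M * q))) w (xE E M q)
        (fun i => W (d i)) := by
  have hM : NeZero M := ⟨hS.M_ne_zero⟩
  have hMq : NeZero (M * q) := ⟨mul_ne_zero hS.M_ne_zero (NeZero.ne q)⟩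
  have hchar : CharP (IsLocalRing.ResidueField (_root_.Fermat.Agent.A2.Mod.RE P E)) q :=
    charP_residueField P E hS.q_prime hS.lies_over
  obtain ⟨Y, hY, hYi⟩ := exists_monomials M q hS.q_prime hS.q_not_dvd
    (IsLocalRing.ResidueField (_root_.Fermat.Agent.A2.Mod.RE P E))
  obtain ⟨VM, hVM⟩ := H553.vinfExists P E M hS.M_ne_zero hS.dvr
  obtain ⟨WM, hWM⟩ := H751.frickeExists E M hS.M_ne_zero
  have hW' : H900.FrickeOnGens M WM := fun d d' _ _ hd hd' h => hWM.1 d d' hd hd' h
  have hsub : Submonoid.closure (intDivisorExpansions M) ≤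
      (Subring.closure (intDivisorExpansions M)).toSubmonoid := by
    rw [Submonoid.closure_le]
    exact Subring.subset_closure
  have hex : ∀ i, ∃ (g : _root_.Fermat.Agent.A2.Mod.FE E M) (Z : LaurentSeries ℤ),
      (g : LaurentSeries E) = H900.castL E (Y i) ∧
      ((WM g : _root_.Fermat.Agent.A2.Mod.FE E M) : LaurentSeries E) = H900.castL E Z :=
    fun i => H900.exists_int_of_closure hW' (hsub (hY i))
  choose g Z hg hZ using hex
  have hgi : ∀ i, (g i : LaurentSeries E)
      = H708.incl (_root_.Fermat.Agent.A2.Mod.RE P E) (H708.castA (_root_.Fermat.Agent.A2.Mod.RE P E) (Y i)) := fun i => by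
    rw [incl_castA_eq]; exact hg i
  have hhi : ∀ i, ((WM (g i) : _root_.Fermat.Agent.A2.Mod.FE E M) : LaurentSeries E)
      = H708.incl (_root_.Fermat.Agent.A2.Mod.RE P E) (H708.castA (_root_.Fermat.Agent.A2.Mod.RE P E) (Z i)) := fun i => by
    rw [incl_castA_eq]; exact hZ i
  have hdual := polyIndep_dual P E M q w hS WM hWM VM hVM g (fun i => WM (g i)) Y Z hgi hhi
    (fun i => hWM.2 (g i)) hYi
  -- the family at level `M q`
  set d : Fin ((q + 1) * dedekindPsi M) → _root_.Fermat.Agent.A2.Mod.FE E (M * q) := fun i =>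
    αE E M q (WM (g (finProdFinEquiv.symm i).2) *
      (jE E M M dvd_rfl) ^ ((finProdFinEquiv.symm i).1 : ℕ)) with hd
  have hdcoe : ∀ i, (d i : LaurentSeries E) = H708.incl (_root_.Fermat.Agent.A2.Mod.RE P E) (H708.castA (_root_.Fermat.Agent.A2.Mod.RE P E)
      (Z (finProdFinEquiv.symm i).2 *
        (qExpand ℤ M (jqModC ℤ)) ^ ((finProdFinEquiv.symm i).1 : ℕ))) := fun i => by
    rw [hd, coe_heckeAlphaBar, IntermediateField.coe_mul, IntermediateField.coe_pow, hhi,
      coe_jE_incl (P := P) M M dvd_rfl, map_mul, map_mul, map_pow, map_pow]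
  have hdV : ∀ i, d i ∈ V := fun i => by
    rw [hV, hdcoe]
    exact H708.IsGaussInt.of_incl _
  have hWx : W (xE E M q) = jE E (M * q) (M * q) dvd_rfl * jE E (M * q) M (dvd_mul_right M q) := by
    rw [xE, map_mul, hW.1 1 (M * q) (one_dvd _) dvd_rfl (one_mul _),
      hW.1 q M (dvd_mul_left q M) (dvd_mul_right M q) (mul_comm q M)]
  have hWxcoe : ((W (xE E M q) : _root_.Fermat.Agent.A2.Mod.FE E (M * q)) : LaurentSeries E)
      = H708.incl (_root_.Fermat.Agent.A2.Mod.RE P E) (H708.castA (_root_.Fermat.Agent.A2.Mod.RE P E)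
        (qExpand ℤ (M * q) (jqModC ℤ) * qExpand ℤ M (jqModC ℤ))) := by
    rw [hWx, IntermediateField.coe_mul, coe_jE_incl (P := P) (M * q) (M * q) dvd_rfl,
      coe_jE_incl (P := P) (M * q) M (dvd_mul_right M q), map_mul, map_mul]
  have hXW : castL (IsLocalRing.ResidueField (_root_.Fermat.Agent.A2.Mod.RE P E))
      (qExpand ℤ (M * q) (jqModC ℤ) * qExpand ℤ M (jqModC ℤ))
      = castL (IsLocalRing.ResidueField (_root_.Fermat.Agent.A2.Mod.RE P E)) (qExpand ℤ M (jqModC ℤ)) ^ (q + 1) := by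
    have h1 : qExpand ℤ (M * q) (jqModC ℤ) = qExpand ℤ q (qExpand ℤ M (jqModC ℤ)) := by
      rw [qExpand_qExpand]
      exact qExpand_congr (mul_comm M q) _
    rw [map_mul, h1, castL_qExpand_pow q hS.q_prime, pow_succ]
  have hind : IndepMod P E (M * q) V w (W (xE E M q)) d := by
    intro a ha i
    have h1 := relation_red P E hV hS.unif (W (xE E M q)) _ hWxcoe d _ hdcoe a ha
    rw [hXW] at h1
    have h2 : ∑ i, aeval (castL (IsLocalRing.ResidueField (_root_.Fermat.Agent.A2.Mod.RE P E))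
          (qExpand ℤ M (jqModC ℤ)) ^ (q + 1))
        ((a i).map (IsLocalRing.residue (_root_.Fermat.Agent.A2.Mod.RE P E))) *
        (castL (IsLocalRing.ResidueField (_root_.Fermat.Agent.A2.Mod.RE P E)) (Z (finProdFinEquiv.symm i).2) *
          castL (IsLocalRing.ResidueField (_root_.Fermat.Agent.A2.Mod.RE P E)) (qExpand ℤ M (jqModC ℤ))
            ^ ((finProdFinEquiv.symm i).1 : ℕ)) = 0 := by
      rw [← h1]
      refine Finset.sum_congr rfl fun i _ => ?_
      rw [map_mul, map_pow]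
    have hzero := polyIndep_tower (q + 1) (Nat.succ_pos q) _ _ hdual
      (fun i => (a i).map (IsLocalRing.residue (_root_.Fermat.Agent.A2.Mod.RE P E))) h2 i
    exact C_dvd_of_map_residue_eq_zero P E hS.dvr hS.unif hzero
  refine ⟨d, hdV, hind, ?_⟩
  intro a ha i
  rw [inW_comap_iff] at ha
  have h3 : W (∑ i, ev P E (M * q) (xE E M q) (a i) * W (d i))
      = ∑ i, ev P E (M * q) (W (xE E M q)) (a i) * d i := by
    rw [map_sum]
    refine Finset.sum_congr rfl fun i _ => ?_
    rw [map_mul, map_ev, hW.2]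
  rw [h3] at ha
  exact hind a ha i

/-- **L10** `IndZero` (exact shape of `Spec.IndZeroStatement`). -/
theorem indZero (w : _root_.Fermat.Agent.A2.Mod.RE P E) : IndZeroStatement P E M q w := by
  intro hS V W hV hW
  obtain ⟨d, hdV, -, hc⟩ := indZero_strong P E M q w hS V W hV hW
  refine ⟨fun i => W (d i), fun i => ?_, hc⟩
  rw [hW.2]
  exact hdV i

end MainZero

/-! ## the coordinate `x⁻¹` (chart at infinity): the reverse trick -/

section Inv

variable (P : ValuationSubring _root_.Fermat.Agent.A2.Mod.Qb) (E : IntermediateField ℚ _root_.Fermat.Agent.A2.Mod.Qb)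

theorem ev_reflect {N : ℕ} (x : _root_.Fermat.Agent.A2.Mod.FE E N) (hx : x ≠ 0) (D : ℕ) (p : Polynomial (_root_.Fermat.Agent.A2.Mod.RE P E))
    (hp : p.natDegree ≤ D) :
    ev P E N x (p.reflect D) = ev P E N x⁻¹ p * x ^ D := by
  letI : Invertible (x⁻¹) := ⟨x, mul_inv_cancel₀ hx, inv_mul_cancel₀ hx⟩
  have h := Polynomial.eval₂_reflect_mul_pow
    ((algebraMap E (_root_.Fermat.Agent.A2.Mod.FE E N)).comp (_root_.Fermat.Agent.A2.Mod.RE P E).subtype) (x⁻¹) D p hp
  have h2 : ⅟(x⁻¹) = x := rfl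
  rw [h2] at h
  have h3 : ev P E N x (p.reflect D) * (x⁻¹) ^ D * x ^ D = ev P E N x⁻¹ p * x ^ D := by
    rw [ev, ev, h]
  rw [← h3, mul_assoc, ← mul_pow, inv_mul_cancel₀ hx, one_pow, mul_one]

theorem C_dvd_of_C_dvd_reflect {w : _root_.Fermat.Agent.A2.Mod.RE P E} {D : ℕ} {p : Polynomial (_root_.Fermat.Agent.A2.Mod.RE P E)}
    (h : Polynomial.C w ∣ p.reflect D) : Polynomial.C w ∣ p := by
  rw [Polynomial.C_dvd_iff_dvd_coeff] at h ⊢
  intro j
  have := h (Polynomial.revAt D j)
  rwa [Polynomial.coeff_reflect, Polynomial.revAt_invol] at this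

/-- **reverse trick.**  Independence modulo `w` over `R[x]` implies independence modulo `w` over
`R[x⁻¹]`, for `x ∈ V`. -/
theorem indepMod_inv {N n : ℕ} (V : ValuationSubring (_root_.Fermat.Agent.A2.Mod.FE E N)) (w : _root_.Fermat.Agent.A2.Mod.RE P E) (x : _root_.Fermat.Agent.A2.Mod.FE E N)
    (hx : x ∈ V) (b : Fin n → _root_.Fermat.Agent.A2.Mod.FE E N) (h : IndepMod P E N V w x b) :
    IndepMod P E N V w x⁻¹ b := by
  by_cases hx0 : x = 0
  · rw [hx0, inv_zero]
    rw [hx0] at h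
    exact h
  intro a ha i
  set D : ℕ := Finset.univ.sup (fun i => (a i).natDegree) with hD
  have hdeg : ∀ i, (a i).natDegree ≤ D := fun i =>
    Finset.le_sup (f := fun i => (a i).natDegree) (Finset.mem_univ i)
  have h1 : ∑ i, ev P E N x ((a i).reflect D) * b i
      = (∑ i, ev P E N x⁻¹ (a i) * b i) * x ^ D := by
    rw [Finset.sum_mul]
    refine Finset.sum_congr rfl fun i _ => ?_
    rw [ev_reflect P E x hx0 D (a i) (hdeg i)]
    ring
  have h2 : InW P E N V w (∑ i, ev P E N x ((a i).reflect D) * b i) := by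
    rw [h1]
    show (∑ i, ev P E N x⁻¹ (a i) * b i) * x ^ D * (cE P E N w)⁻¹ ∈ V
    have h3 : (∑ i, ev P E N x⁻¹ (a i) * b i) * x ^ D * (cE P E N w)⁻¹
        = ((∑ i, ev P E N x⁻¹ (a i) * b i) * (cE P E N w)⁻¹) * x ^ D := by ring
    rw [h3]
    exact mul_mem ha (pow_mem hx D)
  exact C_dvd_of_C_dvd_reflect P E (h _ h2 i)

end Inv

end Fermat.Agent.A2.Mod.H753

end

end
-- ===== PACK-END A2/Mod/H753/IndZero.lean

-- ===== PACK-BEGIN A2/Mod/H398/L8Core.lean
section






/-!
# A2 / MOD leaf L8 (helper398) — `[k(j, j_q) : k(j j_q)] = 2 (q + 1)`, core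

For every field `k` of characteristic `0` (inside `k((t))`):

* `[k(j,j_q) : k(j)] = [k(j,j_q) : k(j_q)] = q + 1`, `[F_{Mq} : k(j,j_q)] = ψ(M)`  (S28 / S37 H988);
* over `ℚ̄`: `[ℚ̄(j,j_q) : ℚ̄(j j_q)] = 2 (q+1)` (poles of `j j_q`: `PoleSum`);
* descent to any `E ⊆ K` (`LinDisj`): the degree of `j` over `E(x)` equals that over `K(x)`.
-/

set_option autoImplicit false
set_option linter.style.haveILetI false
set_option linter.unusedSectionVars false

noncomputable section

namespace Fermat.Agent.A2.Mod.H398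

open ModularCurve HahnSeries Polynomial IntermediateField
open Fermat.Agent.S28 Fermat.Agent.S28.H988 Fermat.Agent.S37.H988

/-! ### Part A: the tower over any field of characteristic zero -/

section Order

variable (k : Type*) [Field k] (q : ℕ)

/-- The coordinate `x = j · j_q` as a Laurent series. -/
def xL : LaurentSeries k := jqModC k * jd k q

theorem jqModC_ne_zero' : jqModC k ≠ 0 := by
  intro h
  have := orderTop_jq k
  rw [h, HahnSeries.orderTop_zero] at this
  exact WithTop.top_ne_coe this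

theorem jd_ne_zero' {e : ℕ} (he : e ≠ 0) : jd k e ≠ 0 := by
  intro h
  have := orderTop_jd k he
  rw [h, HahnSeries.orderTop_zero] at this
  exact WithTop.top_ne_coe this

theorem order_xL {q : ℕ} (hq : q ≠ 0) : (xL k q).order = -(1 + q : ℤ) := by
  have h1 : (jqModC k).order = -1 := by
    have := orderTop_jq k
    rw [← HahnSeries.order_eq_orderTop_of_ne_zero (jqModC_ne_zero' k)] at this
    exact_mod_cast this
  have h2 : (jd k q).order = -(q : ℤ) := by
    have := orderTop_jd k hq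
    rw [← HahnSeries.order_eq_orderTop_of_ne_zero (jd_ne_zero' k hq)] at this
    exact_mod_cast this
  rw [xL, HahnSeries.order_mul (jqModC_ne_zero' k) (jd_ne_zero' k hq), h1, h2]
  ring

theorem transcendental_jqModC' : Transcendental k (jqModC k) := by
  apply laurent_transcendental_of_order_ne_zero
  have := orderTop_jq k
  rw [← HahnSeries.order_eq_orderTop_of_ne_zero (jqModC_ne_zero' k)] at this
  have h1 : (jqModC k).order = -1 := by exact_mod_cast this
  rw [h1]
  decide

theorem transcendental_xL {q : ℕ} (hq : q ≠ 0) : Transcendental k (xL k q) := by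
  apply laurent_transcendental_of_order_ne_zero
  rw [order_xL k hq]
  omega

end Order

section Level

variable (k : Type*) [Field k] [CharZero k] (q : ℕ)

theorem full_prime_eq_sup {q : ℕ} (hq : q.Prime) :
    modularFunctionFieldFullC k q = k⟮jqModC k⟯ ⊔ k⟮jd k q⟯ := by
  have h := full_mul_eq_sup k hq one_ne_zero (by simpa using hq.one_lt.ne')
  rwa [one_mul, full_one] at h

theorem adjoin_x_sup_adjoin_j {q : ℕ} (hq : q.Prime) :
    k⟮xL k q⟯ ⊔ k⟮jqModC k⟯ = modularFunctionFieldFullC k q := by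
  rw [full_prime_eq_sup k hq]
  apply le_antisymm
  · refine sup_le ?_ le_sup_left
    rw [adjoin_simple_le_iff]
    exact mul_mem (le_sup_left (a := k⟮jqModC k⟯) (mem_adjoin_simple_self k _))
      (le_sup_right (b := k⟮jd k q⟯) (mem_adjoin_simple_self k _))
  · refine sup_le le_sup_right ?_
    rw [adjoin_simple_le_iff]
    have h1 : jd k q = xL k q * (jqModC k)⁻¹ := by
      rw [xL, mul_comm (jqModC k), mul_assoc, mul_inv_cancel₀ (jqModC_ne_zero' k), mul_one]
    rw [h1]
    exact mul_mem (le_sup_left (a := k⟮xL k q⟯) (mem_adjoin_simple_self k _))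
      (inv_mem (le_sup_right (b := k⟮jqModC k⟯) (mem_adjoin_simple_self k _)))

theorem charHyp (N r : ℕ) (hr : r.Prime) (_h : r ∣ N) : (r : k) ≠ 0 :=
  Nat.cast_ne_zero.mpr hr.ne_zero

theorem relfinrank_j_full_prime {q : ℕ} (hq : q.Prime) :
    (k⟮jqModC k⟯).relfinrank (modularFunctionFieldFullC k q) = q + 1 := by
  have h := relfinrank_full_mul_prime k 1 q one_ne_zero hq (charHyp k (1 * q))
  rw [one_mul, full_one, if_neg (by simpa using hq.one_lt.ne')] at h
  exact h

theorem map_VAlg_adjoin_j (q : ℕ) :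
    (k⟮jqModC k⟯).map (VAlg k q) = k⟮jd k q⟯ := by
  rw [adjoin_map, Set.image_singleton, VAlg_apply]
  rfl

theorem relfinrank_jq_full_prime {q : ℕ} (hq : q.Prime) :
    (k⟮jd k q⟯).relfinrank (modularFunctionFieldFullC k q) = q + 1 := by
  have h := relfinrank_map_full k hq (N := 1) one_ne_zero (by simpa using hq.one_lt.ne')
  rw [one_mul, full_one, map_VAlg_adjoin_j] at h
  exact h

theorem relfinrank_full_prime_full {q : ℕ} (hq : q.Prime) {M : ℕ} (hM : M ≠ 0)
    (hqM : ¬ q ∣ M) :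
    (modularFunctionFieldFullC k q).relfinrank (modularFunctionFieldFullC k (M * q)) =
      dedekindPsi M := by
  have hMq : M * q ≠ 0 := Nat.mul_ne_zero hM hq.ne_zero
  have i1 : k⟮jqModC k⟯ ≤ modularFunctionFieldFullC k q := by
    rw [← full_one]
    exact full_mono k hq.ne_zero (one_dvd q)
  have i2 : modularFunctionFieldFullC k q ≤ modularFunctionFieldFullC k (M * q) :=
    full_mono k hMq (Dvd.intro_left M rfl)
  have d2 : (k⟮jqModC k⟯).relfinrank (modularFunctionFieldFullC k (M * q)) =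
      dedekindPsi M * (q + 1) := by
    have := relfinrank_jField_full_eq k (M * q) hMq (charHyp k (M * q))
    rw [Fermat.Agent.S28.H626.psi_mul_prime_of_not_dvd hM hq hqM] at this
    exact this.trans (mul_comm _ _)
  have h := relfinrank_mul_relfinrank i1 i2
  rw [relfinrank_j_full_prime k hq, d2, mul_comm] at h
  exact Nat.eq_of_mul_eq_mul_right (Nat.succ_pos q) h

end Level

/-! ### Part B: the degree over an algebraically closed field (poles of `j j_q`) -/

section Bar

theorem isIntegral_adjoin_of_isRoot_PhiAt {K L : Type*} [Field K] [Field L] [Algebra K L]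
    (F : IntermediateField K L) {Φ : Polynomial (Polynomial ℤ)} (hΦ : Φ.Monic) (y z : F)
    (h : (PhiAt Φ (y : L)).IsRoot (z : L)) : IsIntegral (Algebra.adjoin K {y}) z := by
  set A := Algebra.adjoin K {y} with hA
  let yA : A := ⟨y, Algebra.self_mem_adjoin_singleton K y⟩
  refine ⟨PhiAt Φ yA, PhiAt_monic hΦ yA, ?_⟩
  have hinj : Function.Injective (algebraMap F L) := (algebraMap F L).injective
  apply hinj
  rw [map_zero, Polynomial.hom_eval₂, ← Polynomial.eval_map, PhiAt_map]
  exact h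

variable (K : Type*) [Field K] [CharZero K] [IsAlgClosed K] {q : ℕ}

/-- **`[K(j, j_q) : K(j j_q)] = 2 (q + 1)`** over an algebraically closed field. -/
theorem relfinrank_x_full_prime_algClosed (hq : q.Prime) :
    (K⟮xL K q⟯).relfinrank (modularFunctionFieldFullC K q) = 2 * (q + 1) := by
  set F := modularFunctionFieldFullC K q with hF
  have hjmem : jqModC K ∈ F := by
    have := jd_mem_full K hq.ne_zero (one_dvd q)
    rwa [jd_one] at this
  have hjqmem : jd K q ∈ F := jd_mem_full K hq.ne_zero (dvd_refl q)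
  set y : F := ⟨jqModC K, hjmem⟩ with hy_def
  set z : F := ⟨jd K q, hjqmem⟩ with hz_def
  have hy : Transcendental K y := by
    intro halg
    exact transcendental_jqModC' K ((isAlgebraic_algHom_iff F.val F.val.injective).mpr halg)
  have hfy : (K⟮((y : F) : LaurentSeries K)⟯).relfinrank F = q + 1 :=
    relfinrank_j_full_prime K hq
  have hfz : (K⟮((z : F) : LaurentSeries K)⟯).relfinrank F = q + 1 :=
    relfinrank_jq_full_prime K hq
  haveI : FiniteDimensional K⟮y⟯ F :=
    finiteDimensional_adjoin_simple_of_relfinrank_ne_zero F y (by rw [hfy]; omega)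
  obtain ⟨Φ, hΦ⟩ := exists_phiRel K q hq
  have hzy : IsIntegral (Algebra.adjoin K {y}) z :=
    isIntegral_adjoin_of_isRoot_PhiAt F hΦ.monic y z hΦ.root_jp
  have hyz : IsIntegral (Algebra.adjoin K {z}) y :=
    isIntegral_adjoin_of_isRoot_PhiAt F hΦ.monic z y hΦ.root_j
  obtain ⟨-, -, -, -, h⟩ := finrank_mul_of_mutually_integral hy hzy hyz
  rw [finrank_adjoin_simple_eq_relfinrank, finrank_adjoin_simple_eq_relfinrank,
    finrank_adjoin_simple_eq_relfinrank, hfy, hfz] at h
  have hx : (((y * z : F)) : LaurentSeries K) = xL K q := rfl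
  rw [hx] at h
  rw [h]
  ring

end Bar

/-! ### Part C: descent of the degree along a field extension `E ⊆ K` -/

section Descent

theorem isIntegral_of_relfinrank_sup_ne_zero {F Ω : Type*} [Field F] [Field Ω] [Algebra F Ω]
    (A : IntermediateField F Ω) (x : Ω) (h : A.relfinrank (A ⊔ F⟮x⟯) ≠ 0) : IsIntegral A x := by
  rw [relfinrank_eq_finrank_of_le le_sup_left, extendScalars_sup_adjoin] at h
  haveI : FiniteDimensional A A⟮x⟯ := Module.finite_of_finrank_pos (Nat.pos_of_ne_zero h)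
  have h1 : IsIntegral A (AdjoinSimple.gen A x) :=
    Algebra.IsIntegral.isIntegral (R := A) (AdjoinSimple.gen A x)
  have h2 := h1.map (A⟮x⟯.val)
  exact h2

variable {E K : Type*} [Field E] [Field K] [Algebra E K]

theorem linearIndependent_iotaL_iff' (x : LaurentSeries E) (x' : LaurentSeries K)
    (hx : iotaL E K x = x') {n : ℕ} (b : Fin n → LaurentSeries E) (b' : Fin n → LaurentSeries K)
    (hb : ∀ i, iotaL E K (b i) = b' i) :
    LinearIndependent K⟮x'⟯ b' ↔ LinearIndependent E⟮x⟯ b := by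
  subst hx
  obtain rfl : b' = fun i => iotaL E K (b i) := funext fun i => (hb i).symm
  exact linearIndependent_iotaL_iff x b

theorem iotaL_jqModC : iotaL E K (jqModC E) = jqModC K := coeffMap_jqModC _

theorem iotaL_jd {q : ℕ} (hq : q ≠ 0) : iotaL E K (jd E q) = jd K q := by
  haveI : NeZero q := ⟨hq⟩
  rw [jd_eq, jd_eq, iotaL, coeffMap_qExpand, coeffMap_jqModC]

theorem iotaL_xL {q : ℕ} (hq : q ≠ 0) : iotaL E K (xL E q) = xL K q := by
  rw [xL, map_mul, iotaL_jqModC, iotaL_jd hq]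
  rfl

variable [CharZero E] [CharZero K]

/-- **Descent**: `[E(j,j_q) : E(x)] = [K(j,j_q) : K(x)]` for `E ⊆ K`. -/
theorem relfinrank_x_full_prime_descent {q : ℕ} (hq : q.Prime) {D : ℕ} (hD : D ≠ 0)
    (hK : (K⟮xL K q⟯).relfinrank (modularFunctionFieldFullC K q) = D) :
    (E⟮xL E q⟯).relfinrank (modularFunctionFieldFullC E q) = D := by
  -- the `K`-side
  rw [← adjoin_x_sup_adjoin_j K hq] at hK
  have hintK : IsIntegral K⟮xL K q⟯ (jqModC K) :=
    isIntegral_of_relfinrank_sup_ne_zero _ _ (by rw [hK]; exact hD)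
  have hdegK : (minpoly K⟮xL K q⟯ (jqModC K)).natDegree = D := by
    rw [← relfinrank_sup_adjoin _ _ hintK, hK]
  have hQ : LinearIndependent K⟮xL K q⟯ (fun i : Fin D => jqModC K ^ (i : ℕ)) :=
    linearIndependent_pow_of_le (le_of_eq hdegK.symm)
  have hQ' : ¬ LinearIndependent K⟮xL K q⟯ (fun i : Fin (D + 1) => jqModC K ^ (i : ℕ)) := by
    intro h
    have := le_natDegree_of_linearIndependent_pow hintK h
    omega
  -- transfer
  have hP : LinearIndependent E⟮xL E q⟯ (fun i : Fin D => jqModC E ^ (i : ℕ)) :=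
    (linearIndependent_iotaL_iff' (xL E q) (xL K q) (iotaL_xL hq.ne_zero) _ _
      (fun i => by rw [map_pow, iotaL_jqModC])).mp hQ
  have hP' : ¬ LinearIndependent E⟮xL E q⟯ (fun i : Fin (D + 1) => jqModC E ^ (i : ℕ)) :=
    fun h => hQ' ((linearIndependent_iotaL_iff' (xL E q) (xL K q) (iotaL_xL hq.ne_zero) _ _
      (fun i => by rw [map_pow, iotaL_jqModC])).mpr h)
  -- the `E`-side
  have hintE : IsIntegral E⟮xL E q⟯ (jqModC E) := isIntegral_of_not_linearIndependent_pow hP'
  have hdegE : (minpoly E⟮xL E q⟯ (jqModC E)).natDegree = D := by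
    apply le_antisymm
    · by_contra hlt
      rw [not_le] at hlt
      exact hP' (linearIndependent_pow_of_le hlt)
    · exact le_natDegree_of_linearIndependent_pow hintE hP
  rw [← adjoin_x_sup_adjoin_j E hq, relfinrank_sup_adjoin _ _ hintE, hdegE]

end Descent

end Fermat.Agent.A2.Mod.H398

end

end
-- ===== PACK-END A2/Mod/H398/L8Core.lean

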