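import Fermat.Prelude.Def_ModularCurve_HeckeOperatorTotal
import Fermat.Prelude.Def_FLTPrelim_Ramification
import Mathlib
import Fermat.Prelude.Def_ModularCurve_HeckeOperator
import Mathlib.LinearAlgebra.Lagrange
import Mathlib.Data.Int.GCD
import Fermat.Agent.Pack.S44C.G0E24L3
import Fermat.Agent.Pack.S44C.G0E23L2
import Fermat.Agent.Pack.S44C.G0E7L1
import Fermat.Agent.Pack.S44C.G0E24L2
import Fermat.Agent.Pack.S44C.G0E16L2
import Fermat.Agent.Pack.S44C.G0E18L1
import Fermat.Agent.Pack.S44C.G0E22L1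
import Fermat.Agent.Pack.S44C.G0E14L2
import Fermat.Agent.Pack.S44C.G0E3L3
import Fermat.Agent.Pack.S44C.G0E11L3
import Fermat.Agent.Pack.S44C.G0E11L0
import Fermat.Agent.Pack.S44C.G0E23L3
import Fermat.Agent.Pack.S44C.G0E18L3
import Fermat.Agent.Pack.S44C.G0E24L0
import Fermat.Agent.Pack.S44C.G0E22L3
import Fermat.Agent.Pack.S44C.G0E22L0
import Fermat.Agent.Pack.S44C.G0E24L1
import Fermat.Agent.Pack.S44C.G0E20L3
import Fermat.Agent.Pack.S44C.G0E21L0
import Fermat.Agent.Pack.S44C.G0E20L1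
import Fermat.Agent.Pack.Fast891

-- ===== PACK-BEGIN S29/H812/HeckeInputs.lean
section




/-!
# S29 / H812 — the Prelude Hecke operator on `J₀(N)(ℚ̄)` is the genuine correspondence

All six inputs of `ModularCurve.HeckeInputsAlong (AlgebraicClosure ℚ) N ℓ` hold, for every `N ≠ 0`
and every `ℓ ≠ 0` (prime or not, dividing `N` or not); consequently
`heckeOperatorAlong = heckePic0Bar …` (Prelude `heckeOperatorAlong_eq`).

Generic part (`Fermat/Agent/S29/H812/*.lean`): for a finite extension `F'/F` of function fields of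
one variable over an algebraically closed field of characteristic zero,
`∑_{w | v} e(w | v) = [F' : F]` and `ord_v (N_{F'/F} f) = ∑_{w | v} ord_w f`.
-/

set_option autoImplicit false

noncomputable section

namespace Fermat.Agent.S29.H812

open ModularCurve AlgebraicCurve IntermediateField

/-- The modular function field has a coordinate. -/
theorem exists_coord_modular (M : ℕ) [NeZero M] :
    ∃ x : ↥(modularFunctionFieldBar M), Transcendental (AlgebraicClosure ℚ) x ∧
      FiniteDimensional (AlgebraicClosure ℚ)⟮x⟯ ↥(modularFunctionFieldBar M) :=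
  (Fermat.Agent.Lib.RR.H864.ff1_modularFunctionFieldBar M).exists_finite

/-- The degeneracy map `α` (inclusion) is finite. -/
theorem finiteAlong_heckeAlphaBar (N : ℕ) [NeZero N] (ℓ : ℕ) [NeZero ℓ] :
    FiniteAlong (AlgebraicClosure ℚ) (heckeAlphaBar (AlgebraicClosure ℚ) N ℓ) := by
  haveI : NeZero (N * ℓ) := ⟨Nat.mul_ne_zero (NeZero.ne N) (NeZero.ne ℓ)⟩
  exact finiteAlong (exists_coord_modular N) (exists_coord_modular (N * ℓ)) _

/-- The degeneracy map `β` (`q ↦ q^ℓ`) is finite. -/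
theorem finiteAlong_heckeBetaBar (N : ℕ) [NeZero N] (ℓ : ℕ) [NeZero ℓ] :
    FiniteAlong (AlgebraicClosure ℚ) (heckeBetaBar (AlgebraicClosure ℚ) N ℓ) := by
  haveI : NeZero (N * ℓ) := ⟨Nat.mul_ne_zero (NeZero.ne N) (NeZero.ne ℓ)⟩
  exact finiteAlong (exists_coord_modular N) (exists_coord_modular (N * ℓ)) _

/-- `HeckeInputsAlong` for every `ℓ ≠ 0`. -/
theorem heckeInputsAlong (N : ℕ) [NeZero N] (ℓ : ℕ) [NeZero ℓ] :
    HeckeInputsAlong (AlgebraicClosure ℚ) N ℓ := by
  haveI : NeZero (N * ℓ) := ⟨Nat.mul_ne_zero (NeZero.ne N) (NeZero.ne ℓ)⟩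
  haveI hP : HasPrincipalDivisors (AlgebraicClosure ℚ)
      (laurentBaseChange (AlgebraicClosure ℚ) (modularFunctionFieldFull (N * ℓ))) :=
    Fermat.Agent.Lib.RR.H864.hasPrincipalDivisors_modularFunctionFieldBar (N * ℓ)
  have hF := exists_coord_modular N
  have hfinα := finiteAlong_heckeAlphaBar N ℓ
  have hfinβ := finiteAlong_heckeBetaBar N ℓ
  have hα : HeckeAlphaBarIntegral (AlgebraicClosure ℚ) N ℓ := isIntegral_of_finiteAlong hfinα
  have hβ : HeckeBetaBarIntegral (AlgebraicClosure ℚ) N ℓ := isIntegral_of_finiteAlong hfinβ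
  exact heckeInputsAlong_intro hα hβ
    (fundamentalIdentityAlong hF (heckeBetaBar (AlgebraicClosure ℚ) N ℓ) hfinβ hβ)
    hfinα
    (normFormulaAlong hF (heckeAlphaBar (AlgebraicClosure ℚ) N ℓ) hfinα)

end Fermat.Agent.S29.H812

end
end
-- ===== PACK-END S29/H812/HeckeInputs.lean

-- ===== PACK-BEGIN S18/H965/Glue.lean
section


/-!
# S18 / NODE GLUE (helper965)

`node_glue : Mod.GlueStatement M ℓ A m` (for PRIME `m`) — exactly the type of `node_glue` in
`Fermat/Agent/S18/Integ/Skeleton.lean` (interfaces v4 = FINAL, on main b6b9cd58):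

    CoordinateStatement M ℓ → GoodModelStatement M ℓ A → AlgStatement M → CoreStatement M A m.

Proof: given integral `U₁, U₂` with the same reduction, put `u = U₁/U₂ ∈ Ω`.
* descent: `U₁, U₂ ∈ Fc M E` as soon as `E ⊇ T` (`exists_finset_mem_Fc`); MOD supplies a member
  `p = (Ec M E, Fc M E, Rc M A E, V, w)` of the good family with `E ⊇ T`;
* `m⁻¹ ∈ Rc M A E` since `ℓ ∤ m` (`natCast_inv_mem_Rc`);
* `(u - 1)/w ∈ V = VcSet M A E` (`sub_one_mul_inv_mem_VcSet`, uses only `w_mem`, `w_gen`);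
* every valuation subring `O ⊇ Q̄` of `Ω` is `⊤` or a place (`H443.exists_place_eq`), whence the
  divisor hypothesis in the form required by ALG (`exists_unit_twist`);
* ALG gives `u = c y^m`.
-/

set_option autoImplicit false

noncomputable section

namespace Fermat.Agent.S18.H965

open ModularCurve AlgebraicCurve HahnSeries Fermat.Agent.S18 Fermat.Agent.S18.Mod

/-- **NODE GLUE (d1).** -/
theorem node_glue (M : ℕ) [NeZero M] {ℓ : ℕ} [Fact ℓ.Prime] (_hℓM : ¬ ℓ ∣ M)
    (A : ValuationSubring Qb) (hA : A.LiesOverPrime ℓ) (m : ℕ) (hmp : m.Prime) (hm : ¬ ℓ ∣ m) :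
    Mod.GlueStatement M ℓ A m := by
  classical
  intro hcoord hmod halg U₁ U₂ h₁ h₂ hred hdiv
  obtain ⟨x, S, hxS⟩ := hcoord
  obtain ⟨𝓕, -, hfam, hT⟩ := hmod x S hxS
  obtain ⟨T₁, hT₁⟩ := exists_finset_mem_Fc M (toF h₁)
  obtain ⟨T₂, hT₂⟩ := exists_finset_mem_Fc M (toF h₂)
  obtain ⟨E, V, w, -, hTE, hV, hp⟩ := hT (T₁ ∪ T₂)
  have hf₁ : toF h₁ ∈ Fc M E := hT₁ E (fun a ha => hTE a (Finset.mem_union_left _ ha))
  have hf₂ : toF h₂ ∈ Fc M E := hT₂ E (fun a ha => hTE a (Finset.mem_union_right _ ha))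
  have hgood : Alg.GoodModel (Lc M) (Ec M E) (Fc M E) (Rc M A E) V w x S := hfam.good _ hp
  have hm0 : m ≠ 0 := hmp.ne_zero
  have hu0 : toF h₁ / toF h₂ ≠ 0 := div_ne_zero (toF_ne_zero h₁) (toF_ne_zero h₂)
  have huV : (toF h₁ / toF h₂ - 1) * w⁻¹ ∈ V := by
    have h := sub_one_mul_inv_mem_VcSet A h₁ h₂ hred hf₁ hf₂ hgood.w_mem hgood.w_gen
    rw [← hV] at h
    exact h
  obtain ⟨y, c, hcL, hc0, huy⟩ := halg (Lc M) x S 𝓕 hfam _ hp m
    hmp (natCast_inv_mem_Rc Fact.out A hA hm) (toF h₁ / toF h₂) (div_mem hf₁ hf₂) hu0 huV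
    (exists_unit_twist (toF_ne_zero h₁) (toF_ne_zero h₂) hdiv)
  obtain ⟨c', rfl⟩ := hcL
  refine ⟨c', y, ?_, ?_, ?_⟩
  · rintro rfl
    exact hc0 (map_zero _)
  · rintro rfl
    rw [zero_pow hm0, mul_zero] at huy
    exact hu0 huy
  · rw [← huy, div_mul_cancel₀ _ (toF_ne_zero h₂)]

end Fermat.Agent.S18.H965

end
end
-- ===== PACK-END S18/H965/Glue.lean

-- ===== PACK-BEGIN S18/H107/M3T.lean
section






/-!
# helper107 — S18 / node_mod, piece M3-T at the CONCRETE objects of `Mod/Defs.lean`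

`goodModel_of_isCoordinate107` : for `ℓ ∈ {2, 3}` (`¬ 5 ≤ ℓ`), every admissible coordinate `x`
(`Mod.IsCoordinate M ℓ x S`), every intermediate field `E` and every `V`, `w`:

    BaseModel107 (Lc M) (Ec M E) (Fc M E) (Rc M A E) V w (jOm M)      -- the j-model minus S-fields
    + x ∈ Fc M E + x ∈ V + gauss for x
    ⟹  Alg.GoodModel (Lc M) (Ec M E) (Fc M E) (Rc M A E) V w x S.

The branch data (`branchJ_concrete107`) and the units `2⁻¹` resp. `3⁻¹ ∈ Rc M A E` are proved here.
-/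

set_option autoImplicit false

noncomputable section

namespace Fermat.Agent.S18.H107

open AlgebraicCurve ModularCurve IntermediateField HahnSeries
open Fermat.Agent.S18 Fermat.Agent.S18.Mod Fermat.Agent.S18.Alg

/-- If `A` lies over `ℓ` and `n ≡ 1 mod ℓ`-like: `n = ℓ * k + 1` then `n` is a unit of `A`.
We only need: `ℓ ∈ 𝔪_A`, `n - 1 ∈ ℓ ℤ` ⟹ `n⁻¹ ∈ A`. -/
theorem inv_natCast_mem_of_liesOver107 {L : Type*} [Field L] (A : ValuationSubring L) {ℓ : ℕ}
    (hA : A.LiesOverPrime ℓ) (n k : ℕ) (hn : n = ℓ * k + 1) : ((n : L))⁻¹ ∈ A := by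
  have hℓ : A.valuation (ℓ : L) < 1 := by
    have h : (ℓ : L) ∈ A.nonunits := hA
    exact (A.mem_nonunits_iff).1 h
  have hk : A.valuation ((ℓ : L) * (k : L)) < 1 := by
    rw [map_mul]
    calc A.valuation (ℓ : L) * A.valuation (k : L) ≤ A.valuation (ℓ : L) * 1 := by
          gcongr
          exact (A.valuation_le_one_iff _).2 (_root_.natCast_mem A k)
      _ = A.valuation (ℓ : L) := mul_one _
      _ < 1 := hℓ
  have hval : A.valuation (n : L) = 1 := by
    have e : (n : L) = 1 + (ℓ : L) * (k : L) := by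
      rw [hn]
      push_cast
      ring
    rw [e, ← map_one A.valuation]
    exact Valuation.map_add_eq_of_lt_left _ (by rw [map_one]; exact hk)
  refine (A.valuation_le_one_iff _).1 ?_
  rw [map_inv₀, hval, inv_one]

variable (M : ℕ)

theorem inv_natCast_mem_Rc107 (A : ValuationSubring Qb) (E : IntermediateField ℚ Qb) {ℓ : ℕ}
    (hA : A.LiesOverPrime ℓ) (n k : ℕ) (hn : n = ℓ * k + 1) :
    ((n : Om M))⁻¹ ∈ Rc M A E := by
  refine ⟨((n : Qb))⁻¹, ⟨inv_natCast_mem_of_liesOver107 A hA n k hn, ?_⟩, ?_⟩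
  · exact E.toSubfield.inv_mem (_root_.natCast_mem E.toSubfield n)
  · rw [map_inv₀, map_natCast]

variable [NeZero M]

/-- **M3-T, concrete form.** -/
theorem goodModel_of_isCoordinate107 {ℓ : ℕ} (A : ValuationSubring Qb) (hA : A.LiesOverPrime ℓ)
    (h5 : ¬ 5 ≤ ℓ) {x : Om M} {S : Finset (Om M)} (hx : IsCoordinate M ℓ x S)
    (E : IntermediateField ℚ Qb) {V : Subring (Om M)} {w : Om M}
    (hb : BaseModel107 (Lc M) (Ec M E) (Fc M E) (Rc M A E) V w (jOm M))
    (hxF : x ∈ Fc M E) (hxV : x ∈ V)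
    (hgauss : ∀ P : Polynomial (Om M), (∀ i, P.coeff i ∈ Rc M A E) →
      (∃ i, P.coeff i ≠ 0 ∧ (P.coeff i)⁻¹ ∈ Rc M A E) → (P.eval x)⁻¹ ∈ V) :
    GoodModel (Lc M) (Ec M E) (Fc M E) (Rc M A E) V w x S := by
  rcases hx with ⟨h, -⟩ | ⟨h | h, -⟩
  · exact absurd h h5
  · obtain ⟨hℓ, hrel, hS⟩ := h
    subst hℓ
    have h2 : (2 : Om M)⁻¹ ∈ Rc M A E := by
      have h4 := inv_natCast_mem_Rc107 M A E hA 4 1 (by norm_num)
      have e : (2 : Om M)⁻¹ = 2 * ((4 : ℕ) : Om M)⁻¹ := by
        push_cast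
        norm_num
      rw [e]
      exact (Rc M A E).mul_mem (ofNat_mem _ 2) h4
    exact goodModel_t2_107 hb (branchJ_concrete107 M) hrel hxF hxV h2 hgauss hS
  · obtain ⟨hℓ, hrel, hS⟩ := h
    subst hℓ
    have h3 : (3 : Om M)⁻¹ ∈ Rc M A E := by
      have := inv_natCast_mem_Rc107 M A E hA 3 1 (by norm_num)
      simpa using this
    exact goodModel_t3_107 hb (branchJ_concrete107 M) hrel hxF hxV h3 hgauss hS

end Fermat.Agent.S18.H107

end
end
-- ===== PACK-END S18/H107/M3T.lean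

-- ===== PACK-BEGIN Ribet/H940/IncRedCore.lean
section



/-!
# RIBET wall-p, leaf I3 / INC-RED (helper940): the core

Setting: `F ⊆ L((q))`, `F_k ⊆ k((q))`, `A ⊆ L` a valuation ring with residue map `π`, a reduction
datum `G` on `(F, F_k)` with the `link` property, the value-group hypothesis, a place reduction
map `r` with the sum formula (`IsRed`).

`holo_red` : if `G₀ ∈ A((q))` is such that `G₀ dq/q` is holomorphic on `F` (for every place `P`
and every uniformiser `t` at `P`: `G₀ = u · θt`, `u ∈ F` regular at `P`), then `Ḡ₀ dq/q` is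
holomorphic on `F_k`, PROVIDED

* `LiftProp G r` : every uniformiser `t̄` at a place `Q` of `F_k` has a lift `t ∈ G.O` which is,
  up to an additive constant, a uniformiser at every `P` over `Q`;
* `θ t̄ ≠ 0` for uniformisers `t̄` of `F_k`.
-/

set_option autoImplicit false
set_option synthInstance.maxHeartbeats 400000
set_option linter.unusedSectionVars false
set_option linter.style.haveILetI false

noncomputable section

namespace Fermat.Agent.Ribet.H940

open AlgebraicCurve ModularCurve HahnSeries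
open Fermat.Agent.S37.H940 Fermat.Agent.S37.Red

universe u

section Abstract

variable {K k F Fk : Type u} [Field K] [Field k] [Field F] [Field Fk]
  [Algebra K F] [Algebra k Fk] {A : ValuationSubring K} {π : A →+* k}

/-- **LIFT**: every uniformiser `t̄` at a place `Q` of `F_k` has a lift `t ∈ O` which is, up to an
additive constant, a uniformiser at every place `P` of `F` over `Q`. -/
def LiftProp (G : Datum A π F Fk) (r : Place K F → Place k Fk) : Prop :=
  ∀ (Q : Place k Fk) (tb : Fk), Q.ord tb = 1 →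
    ∃ (t : F) (ht : t ∈ G.O), G.ρ ⟨t, ht⟩ = tb ∧
      ∀ P : Place K F, r P = Q → ∃ c : K, P.ord (t - algebraMap K F c) = 1

/-- the sum formula at a single point, as an inequality: a function of `O` regular at all places
over `Q` has regular reduction at `Q`. -/
theorem ord_ρ_nonneg_of_isRed (G : Datum A π F Fk) (r : Place K F → Place k Fk)
    (hred : IsRed G r)
    (hdiv : ∀ y : F, y ≠ 0 → ∃ D : Divisor K F, ∀ P, D P = P.ord y)
    (y : F) (hy : y ∈ G.O) (Q : Place k Fk) (hreg : ∀ P, r P = Q → 0 ≤ P.ord y) :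
    0 ≤ Q.ord (G.ρ ⟨y, hy⟩) := by
  classical
  by_cases h0 : G.ρ ⟨y, hy⟩ = 0
  · rw [h0, Place.ord_zero]
  have hy0 : y ≠ 0 := by
    rintro rfl
    apply h0
    have : (⟨0, hy⟩ : G.O) = 0 := rfl
    rw [this, map_zero]
  obtain ⟨D, hD⟩ := hdiv y hy0
  rw [← hred.2 y hy h0 D hD Q, mapDomain_apply_eq_sum]
  refine Finset.sum_nonneg fun P _ => ?_
  split_ifs with h
  · rw [hD]
    exact hreg P h
  · exact le_rfl

/-- surjectivity of `r` at the points where some reduction has nonzero order -/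
theorem exists_over_of_isRed (G : Datum A π F Fk) (r : Place K F → Place k Fk)
    (hred : IsRed G r)
    (hdiv : ∀ y : F, y ≠ 0 → ∃ D : Divisor K F, ∀ P, D P = P.ord y)
    (y : F) (hy : y ∈ G.O) (Q : Place k Fk) (hQ : Q.ord (G.ρ ⟨y, hy⟩) ≠ 0) :
    ∃ P, r P = Q := by
  classical
  have h0 : G.ρ ⟨y, hy⟩ ≠ 0 := by
    intro h
    rw [h, Place.ord_zero] at hQ
    exact hQ rfl
  have hy0 : y ≠ 0 := by
    rintro rfl
    apply h0
    have : (⟨0, hy⟩ : G.O) = 0 := rfl
    rw [this, map_zero]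
  obtain ⟨D, hD⟩ := hdiv y hy0
  have hsum := hred.2 y hy h0 D hD Q
  rw [mapDomain_apply_eq_sum] at hsum
  by_contra hne
  rw [not_exists] at hne
  apply hQ
  rw [← hsum]
  exact Finset.sum_eq_zero fun P _ => if_neg (hne P)

end Abstract

section QSeries

variable {L : Type u} [Field L] {A : ValuationSubring L} {k : Type u} [Field k] {π : A →+* k}
variable {F : IntermediateField L (LaurentSeries L)} {Fk : IntermediateField k (LaurentSeries k)}
variable (hsurj : Function.Surjective π) (hker : ∀ a : A, π a = 0 ↔ ¬ IsUnit a)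

/-- the numerator of `θ(a/b) = (θa · b - a · θb) / b²` -/
def thetaNum {R : Type*} [CommRing R] (a b : LaurentSeries R) : LaurentSeries R :=
  thetaL a * b - a * thetaL b

theorem coeffMap_thetaNum {R S : Type*} [CommRing R] [CommRing S] (φ : R →+* S)
    (a b : LaurentSeries R) :
    coeffMap φ (thetaNum a b) = thetaNum (coeffMap φ a) (coeffMap φ b) := by
  unfold thetaNum
  rw [map_sub, map_mul, map_mul, thetaL_coeffMap, thetaL_coeffMap]

/-- `θt · b² = θa · b - a · θb` if `t · b = a` -/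
theorem thetaNum_eq {R : Type*} [CommRing R] {t a b : LaurentSeries R} (h : t * b = a) :
    thetaNum a b = thetaL t * b ^ 2 := by
  unfold thetaNum
  rw [← h, thetaL_mul]
  ring

include hsurj hker in
/-- **INC-RED, core.** -/
theorem holo_red (G : Datum A π F Fk) (r : Place L F → Place k Fk)
    (hVG : ValueGroupHyp A π F Fk) (hlink : LinkQ G) (hred : IsRed G r) (hlift : LiftProp G r)
    (hdiv : ∀ y : F, y ≠ 0 → ∃ D : Divisor L F, ∀ P, D P = P.ord y)
    (hθ : ∀ (Q : Place k Fk) (tb : Fk), Q.ord tb = 1 → thetaL (tb : LaurentSeries k) ≠ 0)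
    (G₀ : LaurentSeries A)
    (hholo : ∀ (P : Place L F) (t : F), P.ord t = 1 →
      ∃ u : F, u ∈ P.toValuationSubring ∧
        coeffMap A.subtype G₀ = (u : LaurentSeries L) * thetaL (t : LaurentSeries L))
    (Q : Place k Fk) (tb : Fk) (hQ : Q.ord tb = 1) :
    ∃ ub : Fk, ub ∈ Q.toValuationSubring ∧
      coeffMap π G₀ = (ub : LaurentSeries k) * thetaL (tb : LaurentSeries k) := by
  classical
  -- the lift
  obtain ⟨t, ht, hρt, hunif⟩ := hlift Q tb hQ
  -- `t = a / b`
  have htV := mem_V_of_mem_O hsurj hker hVG hlink ht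
  obtain ⟨a, b, hb, hab⟩ := htV
  obtain ⟨ht', hρt'⟩ := link_frac hsurj hker hlink t ⟨a, b, hb, hab⟩
  have hρtV := (qData A π F Fk hsurj hker).ρ_apply ⟨t, ⟨a, b, hb, hab⟩⟩ (a := a) (b := b) hb hab
  have htb : tb = redQ A π F Fk a / redQ A π F Fk b := by
    rw [← hρt, hρt', hρtV]
    rfl
  set Ya := series A π F Fk a with hYa
  set Yb := series A π F Fk b with hYb
  have ea : coeffMap A.subtype Ya = ((a : F) : LaurentSeries L) := coeffMap_series A π F Fk a
  have eb : coeffMap A.subtype Yb = ((b : F) : LaurentSeries L) := coeffMap_series A π F Fk b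
  have ra : ((redQ A π F Fk a : Fk) : LaurentSeries k) = coeffMap π Ya := coe_redQ A π F Fk a ea
  have rb : ((redQ A π F Fk b : Fk) : LaurentSeries k) = coeffMap π Yb := coe_redQ A π F Fk b eb
  have hbk0 : coeffMap π Yb ≠ 0 := by
    rw [← rb]
    exact fun h0 => hb (Subtype.ext h0)
  -- the relations `t b = a`, `t̄ b̄ = ā`
  have hrelL : (t : LaurentSeries L) * coeffMap A.subtype Yb = coeffMap A.subtype Ya := by
    rw [ea, eb]
    exact congrArg (fun z : F => (z : LaurentSeries L)) hab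
  have hrelk : (tb : LaurentSeries k) * coeffMap π Yb = coeffMap π Ya := by
    rw [← ra, ← rb, htb]
    show ((redQ A π F Fk a : Fk) : LaurentSeries k) / ((redQ A π F Fk b : Fk) : LaurentSeries k) *
      ((redQ A π F Fk b : Fk) : LaurentSeries k) = _
    rw [div_mul_cancel₀]
    rw [rb]
    exact hbk0
  -- the integral series `B = θa b - a θb`
  set B : LaurentSeries A := thetaNum Ya Yb with hB
  have hBL : coeffMap A.subtype B = thetaL (t : LaurentSeries L) * coeffMap A.subtype Yb ^ 2 := by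
    rw [hB, coeffMap_thetaNum, thetaNum_eq hrelL]
  have hBk : coeffMap π B = thetaL (tb : LaurentSeries k) * coeffMap π Yb ^ 2 := by
    rw [hB, coeffMap_thetaNum, thetaNum_eq hrelk]
  have hBk0 : coeffMap π B ≠ 0 := by
    rw [hBk]
    exact mul_ne_zero (hθ Q tb hQ) (pow_ne_zero 2 hbk0)
  have hθt : thetaL (t : LaurentSeries L) ≠ 0 := by
    intro h0
    apply hBk0
    have : B = 0 := by
      apply coeffMap_subtype_injective A
      rw [hBL, h0, zero_mul, map_zero]
    rw [this, map_zero]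
  -- a place over `Q`
  have hQ' : Q.ord (G.ρ ⟨t, ht⟩) ≠ 0 := by
    rw [hρt, hQ]
    exact one_ne_zero
  obtain ⟨P₀, hP₀⟩ := exists_over_of_isRed G r hred hdiv t ht Q hQ'
  -- the function `u = G₀ / θt`
  have hthc : ∀ c : L, thetaL (((t - algebraMap L F c : F)) : LaurentSeries L) =
      thetaL (t : LaurentSeries L) := by
    intro c
    show thetaL ((t : LaurentSeries L) - algebraMap L (LaurentSeries L) c) = _
    rw [thetaL_sub, thetaL_algebraMap, sub_zero]
  obtain ⟨c₀, hc₀⟩ := hunif P₀ hP₀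
  obtain ⟨u, -, hu⟩ := hholo P₀ _ hc₀
  rw [hthc] at hu
  have hureg : ∀ P, r P = Q → 0 ≤ P.ord u := by
    intro P hP
    obtain ⟨c, hc⟩ := hunif P hP
    obtain ⟨u', hu'mem, hu'⟩ := hholo P _ hc
    rw [hthc, hu] at hu'
    have : u = u' := by
      apply Subtype.ext
      exact mul_right_cancel₀ hθt hu'
    rw [this]
    exact Fermat.Agent.Lib.RR.ord_nonneg_of_mem P hu'mem
  -- the Gauss lemma
  have hGauss : (u : LaurentSeries L) * coeffMap A.subtype B = coeffMap A.subtype (G₀ * Yb ^ 2) := by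
    rw [hBL, map_mul, map_pow, hu]
    ring
  obtain ⟨huV, hρu⟩ := gauss_ratio A π F Fk hsurj hker hVG u B (G₀ * Yb ^ 2) hGauss hBk0
  obtain ⟨huO, hρu'⟩ := link_frac hsurj hker hlink u huV
  refine ⟨G.ρ ⟨u, huO⟩, ?_, ?_⟩
  · exact Fermat.Agent.Lib.RR.mem_of_ord_nonneg Q
      (ord_ρ_nonneg_of_isRed G r hred hdiv u huO Q hureg)
  · rw [hρu']
    rw [hBk, map_mul, map_pow] at hρu
    have h2 : coeffMap π Yb ^ 2 ≠ 0 := pow_ne_zero 2 hbk0
    apply mul_right_cancel₀ h2
    rw [← hρu]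
    ring

end QSeries

end Fermat.Agent.Ribet.H940

end
end
-- ===== PACK-END Ribet/H940/IncRedCore.lean

-- ===== PACK-BEGIN Ribet/H940/Lift.lean
section



/-!
# RIBET wall-p, leaf I3 / INC-RED (helper940): LIFT of uniformisers

For a reduction datum `G` with good charts and a place reduction map `r` with the sum formula
(`IsRed`) and evaluation compatibility (`EvalCompat`):

* `ord_le_of_isRed`       : a function of `O` regular on `r⁻¹(Q)` has `ord_P y ≤ ord_Q (ρ y)`;
* `value_mem_of_isRed`    : its values on `r⁻¹(Q)` lie in `A`;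
* `value_compat_of_isRed` : and `(ρ y)(Q) = π (y(P))`;
* `exists_regular_lift`   : every function regular at `Q` has a lift regular on `r⁻¹(Q)`
                            (fractions of the chart + normality `lift_fin`/`lift_inf`);
* `liftProp_of_good`      : `LiftProp G r`.
-/

set_option autoImplicit false
set_option synthInstance.maxHeartbeats 400000
set_option linter.unusedSectionVars false
set_option linter.style.haveILetI false

noncomputable section

namespace Fermat.Agent.Ribet.H940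

open AlgebraicCurve IntermediateField
open Fermat.Agent.S37.H940 Fermat.Agent.S37.Red Fermat.Agent.S37.Red.H940

universe u

variable {K k F Fk : Type u} [Field K] [Field k] [Field F] [Field Fk]
  [Algebra K F] [Algebra k Fk] {A : ValuationSubring K} {π : A →+* k}
  (G : Datum A π F Fk) (r : Place K F → Place k Fk)

/-- (S) the sum formula at one point, as an inequality -/
theorem ord_le_of_isRed (hred : IsRed G r)
    (hdiv : ∀ y : F, y ≠ 0 → ∃ D : Divisor K F, ∀ P, D P = P.ord y)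
    (y : F) (hy : y ∈ G.O) (hρ : G.ρ ⟨y, hy⟩ ≠ 0) (Q : Place k Fk)
    (hreg : ∀ P, r P = Q → 0 ≤ P.ord y) (P : Place K F) (hP : r P = Q) :
    P.ord y ≤ Q.ord (G.ρ ⟨y, hy⟩) := by
  classical
  have hy0 : y ≠ 0 := by
    rintro rfl
    apply hρ
    have : (⟨0, hy⟩ : G.O) = 0 := rfl
    rw [this, map_zero]
  obtain ⟨D, hD⟩ := hdiv y hy0
  rw [← hred.2 y hy hρ D hD Q, mapDomain_apply_eq_sum]
  have hnn : ∀ P' ∈ D.support, 0 ≤ (if r P' = Q then D P' else 0) := by
    intro P' _
    split_ifs with h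
    · rw [hD]
      exact hreg P' h
    · exact le_rfl
  by_cases hPs : P ∈ D.support
  · have := Finset.single_le_sum hnn hPs
    rw [if_pos hP, hD] at this
    exact this
  · have h0 : D P = 0 := Finsupp.notMem_support_iff.mp hPs
    rw [← hD, h0]
    exact Finset.sum_nonneg hnn

/-- (V1) values on `r⁻¹(Q)` of functions of `O` regular on `r⁻¹(Q)` lie in `A` -/
theorem value_mem_of_isRed (hred : IsRed G r)
    (hdiv : ∀ y : F, y ≠ 0 → ∃ D : Divisor K F, ∀ P, D P = P.ord y)
    (y : F) (hy : y ∈ G.O) (Q : Place k Fk)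
    (hreg : ∀ P, r P = Q → 0 ≤ P.ord y) (P : Place K F) (hP : r P = Q) (β : K)
    (hβ : InMax P (y - algebraMap K F β)) : β ∈ A := by
  by_contra hβA
  obtain ⟨a, ha, hπ⟩ : ∃ a : A, (a : K) = β⁻¹ ∧ π a = 0 := (ctx G).exists_inv_of_not_mem hβA
  have hβ0 : β ≠ 0 := by
    rintro rfl
    exact hβA (zero_mem _)
  -- `z = 1 - β⁻¹ y`
  have hz : 1 - algebraMap K F (a : K) * y ∈ G.O :=
    sub_mem (one_mem _) (mul_mem (G.const_mem a) hy)
  have hzρ : G.ρ ⟨1 - algebraMap K F (a : K) * y, hz⟩ = 1 := by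
    have e : (⟨1 - algebraMap K F (a : K) * y, hz⟩ : G.O) =
        1 - ⟨algebraMap K F (a : K), G.const_mem a⟩ * ⟨y, hy⟩ := rfl
    rw [e, map_sub, map_mul, map_one, G.ρ_const]
    have hπ' : π a = 0 := hπ
    rw [hπ', map_zero, zero_mul, sub_zero]
  have hzρ0 : G.ρ ⟨1 - algebraMap K F (a : K) * y, hz⟩ ≠ 0 := by
    rw [hzρ]
    exact one_ne_zero
  have hzreg : ∀ P', r P' = Q → 0 ≤ P'.ord (1 - algebraMap K F (a : K) * y) := by
    intro P' hP'
    refine ord_nonneg_sub ?_ (ord_nonneg_mul (ord_nonneg_const P' _) (hreg P' hP'))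
    rw [Place.ord_one]
  have hzmax : InMax P (1 - algebraMap K F (a : K) * y) := by
    have e : 1 - algebraMap K F (a : K) * y =
        algebraMap K F (-(a : K)) * (y - algebraMap K F β) := by
      rw [ha, map_neg, map_inv₀]
      have hβ' : algebraMap K F β ≠ 0 := by
        rwa [Ne, map_eq_zero_iff _ (algebraMap K F).injective]
      field_simp
      ring
    rw [e]
    exact hβ.const_mul _
  have hz0 : 1 - algebraMap K F (a : K) * y ≠ 0 := by
    intro h0
    apply hzρ0
    have : (⟨1 - algebraMap K F (a : K) * y, hz⟩ : G.O) = 0 := Subtype.ext h0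
    rw [this, map_zero]
  have h1 := ord_le_of_isRed G r hred hdiv _ hz hzρ0 Q hzreg P hP
  rw [hzρ, Place.ord_one] at h1
  have h2 := hzmax.ord_pos hz0
  omega

/-- (V2) value compatibility on `r⁻¹(Q)` -/
theorem value_compat_of_isRed (hred : IsRed G r)
    (hdiv : ∀ y : F, y ≠ 0 → ∃ D : Divisor K F, ∀ P, D P = P.ord y)
    (y : F) (hy : y ∈ G.O) (Q : Place k Fk)
    (hreg : ∀ P, r P = Q → 0 ≤ P.ord y) (P : Place K F) (hP : r P = Q) (β : A)
    (hβ : InMax P (y - algebraMap K F (β : K))) :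
    InMax Q (G.ρ ⟨y, hy⟩ - algebraMap k Fk (π β)) := by
  have hz : y - algebraMap K F (β : K) ∈ G.O := sub_mem hy (G.const_mem β)
  have hzρ : G.ρ ⟨y - algebraMap K F (β : K), hz⟩ = G.ρ ⟨y, hy⟩ - algebraMap k Fk (π β) := by
    have e : (⟨y - algebraMap K F (β : K), hz⟩ : G.O) =
        ⟨y, hy⟩ - ⟨algebraMap K F (β : K), G.const_mem β⟩ := rfl
    rw [e, map_sub, G.ρ_const]
  rw [← hzρ]
  by_cases h0 : G.ρ ⟨y - algebraMap K F (β : K), hz⟩ = 0
  · rw [h0]
    exact inMax_zero Q
  · have hz0 : y - algebraMap K F (β : K) ≠ 0 := by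
      intro h
      apply h0
      have : (⟨y - algebraMap K F (β : K), hz⟩ : G.O) = 0 := Subtype.ext h
      rw [this, map_zero]
    have h1 := ord_le_of_isRed G r hred hdiv _ hz h0 Q
      (fun P' hP' => ord_nonneg_sub (hreg P' hP') (ord_nonneg_const P' _)) P hP
    have h2 := hβ.ord_pos hz0
    exact inMax_of_ord_pos (by omega)

/-- `t` lies in its own chart -/
theorem mem_chart_self (t : F) : t ∈ G.chart t := by
  have ht : t ∈ G.polyRing t :=
    (le_sup_right : Subring.closure {t} ≤ G.polyRing t) (Subring.subset_closure rfl)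
  exact isIntegral_algebraMap (R := G.polyRing t) (A := F) (x := ⟨t, ht⟩)

/-- (L3) the chart coordinate is regular on `r⁻¹(Q)` if its reduction is regular at `Q` -/
theorem regular_of_evalCompat {T : F} (hT : T ∈ G.O) (hTi : T⁻¹ ∈ G.O)
    (hec : EvalCompatAt G r T⁻¹) (Q : Place k Fk) (hQ : 0 ≤ Q.ord (G.ρ ⟨T, hT⟩))
    (P : Place K F) (hP : r P = Q) : 0 ≤ P.ord T := by
  by_contra hneg
  rw [not_le] at hneg
  have hT0 : T ≠ 0 := by
    rintro rfl
    rw [Place.ord_zero] at hneg
    exact lt_irrefl _ hneg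
  have hinv : InMax P (T⁻¹ - algebraMap K F ((0 : A) : K)) := by
    rw [ZeroMemClass.coe_zero, map_zero, sub_zero]
    refine inMax_of_ord_pos ?_
    rw [Place.ord_inv]
    omega
  have hval : ValAt P T⁻¹ ((0 : A) : K) := (valAt_iff_inMax P _ _).mpr hinv
  have h1 := hec P 0 hval T⁻¹ (mem_chart_self G T⁻¹) hTi 0 hval
  rw [hP, valAt_iff_inMax, map_zero, map_zero, sub_zero] at h1
  have hmul : (⟨T, hT⟩ : G.O) * ⟨T⁻¹, hTi⟩ = 1 := Subtype.ext (mul_inv_cancel₀ hT0)
  have h2 := congrArg G.ρ hmul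
  rw [map_mul, map_one] at h2
  have h3 : G.ρ ⟨T⁻¹, hTi⟩ = (G.ρ ⟨T, hT⟩)⁻¹ := eq_inv_of_mul_eq_one_right h2
  have h4 : G.ρ ⟨T⁻¹, hTi⟩ ≠ 0 := right_ne_zero_of_mul_eq_one h2
  have h5 := h1.ord_pos h4
  rw [h3, Place.ord_inv] at h5
  omega

section Lift

variable [IsAlgClosed k]

/-- (L5) **regular lifts**: on a chart, every function regular at `Q` has a lift in `O` which is
regular at all places over `Q`. -/
theorem exists_regular_lift {T : F} (hT : T ∈ G.O) (hTi : T⁻¹ ∈ G.O) {Tk : Fk}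
    (hTk : G.ρ ⟨T, hT⟩ = Tk) (htr : Transcendental k Tk) [FiniteDimensional k⟮Tk⟯ Fk]
    (hlift : ∀ c ∈ G.chartk Tk, ∃ b ∈ G.chart T, ∃ hb : b ∈ G.O, G.ρ ⟨b, hb⟩ = c)
    (hec : EvalCompatAt G r T⁻¹) (hred : IsRed G r)
    (hdiv : ∀ y : F, y ≠ 0 → ∃ D : Divisor K F, ∀ P, D P = P.ord y)
    (hval : ∀ (P : Place K F) (f : F), 0 ≤ P.ord f → ∃ c : K, InMax P (f - algebraMap K F c))
    (Q : Place k Fk) (hQ : 0 ≤ Q.ord Tk) (w : Fk) (hw : 0 ≤ Q.ord w) :
    ∃ (t : F) (ht : t ∈ G.O), G.ρ ⟨t, ht⟩ = w ∧ ∀ P, r P = Q → 0 ≤ P.ord t := by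
  obtain ⟨c₁, hc₁, c₂, hc₂, hc₂0, hc₂Q, hwc⟩ := exists_frac htr Q hQ w hw
  obtain ⟨b₁, hb₁, hb₁O, hρ₁⟩ := hlift c₁ hc₁
  obtain ⟨b₂, hb₂, hb₂O, hρ₂⟩ := hlift c₂ hc₂
  have hTreg : ∀ P, r P = Q → 0 ≤ P.ord T := fun P hP =>
    regular_of_evalCompat G r hT hTi hec Q (by rw [hTk]; exact hQ) P hP
  have hreg₁ : ∀ P, r P = Q → 0 ≤ P.ord b₁ := fun P hP =>
    regular_of_mem_chart G hb₁ P (hTreg P hP)
  have hreg₂ : ∀ P, r P = Q → 0 ≤ P.ord b₂ := fun P hP =>
    regular_of_mem_chart G hb₂ P (hTreg P hP)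
  have hρ₂0 : G.ρ ⟨b₂, hb₂O⟩ ≠ 0 := by
    rw [hρ₂]
    exact hc₂0
  have hb₂inv : b₂⁻¹ ∈ G.O := (ctx G).inv_mem ⟨b₂, hb₂O⟩ hρ₂0
  have hρinv : G.ρ ⟨b₂⁻¹, hb₂inv⟩ = c₂⁻¹ := by
    have := (ctx G).ρ_inv ⟨b₂, hb₂O⟩ hρ₂0
    rw [← hρ₂]
    exact this
  refine ⟨b₁ * b₂⁻¹, mul_mem hb₁O hb₂inv, ?_, fun P hP => ?_⟩
  · have e : (⟨b₁ * b₂⁻¹, mul_mem hb₁O hb₂inv⟩ : G.O) = ⟨b₁, hb₁O⟩ * ⟨b₂⁻¹, hb₂inv⟩ := rfl
    rw [e, map_mul, hρ₁, hρinv, ← hwc, mul_assoc, mul_inv_cancel₀ hc₂0, mul_one]
  · -- `b₂` is a unit at `P`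
    obtain ⟨β₂, hβ₂⟩ := hval P b₂ (hreg₂ P hP)
    have hβ₂A : β₂ ∈ A := value_mem_of_isRed G r hred hdiv b₂ hb₂O Q hreg₂ P hP β₂ hβ₂
    have hcompat := value_compat_of_isRed G r hred hdiv b₂ hb₂O Q hreg₂ P hP ⟨β₂, hβ₂A⟩ hβ₂
    rw [hρ₂] at hcompat
    have hβ₂0 : β₂ ≠ 0 := by
      rintro rfl
      have h0 : (⟨0, hβ₂A⟩ : A) = 0 := rfl
      rw [h0, map_zero, map_zero, sub_zero] at hcompat
      exact not_inMax_of_ord_eq_zero hc₂0 hc₂Q hcompat
    have hord₂ : P.ord b₂ = 0 := ord_eq_zero_of_inMax_sub hβ₂ hβ₂0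
    refine ord_nonneg_mul (hreg₁ P hP) ?_
    rw [Place.ord_inv, hord₂, neg_zero]

variable [IsAlgClosed K]

/-- **LIFT on one chart.** -/
theorem liftProp_chart {T : F} (hT : T ∈ G.O) (hTi : T⁻¹ ∈ G.O) {Tk : Fk}
    (hTk : G.ρ ⟨T, hT⟩ = Tk) (htr : Transcendental k Tk) [FiniteDimensional k⟮Tk⟯ Fk]
    (hlift : ∀ c ∈ G.chartk Tk, ∃ b ∈ G.chart T, ∃ hb : b ∈ G.O, G.ρ ⟨b, hb⟩ = c)
    (hec : EvalCompatAt G r T⁻¹) (hred : IsRed G r)
    (hdiv : ∀ y : F, y ≠ 0 → ∃ D : Divisor K F, ∀ P, D P = P.ord y)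
    (hval : ∀ (P : Place K F) (f : F), 0 ≤ P.ord f → ∃ c : K, InMax P (f - algebraMap K F c))
    (Q : Place k Fk) (hQ : 0 ≤ Q.ord Tk) (tb : Fk) (htb : Q.ord tb = 1) :
    ∃ (t : F) (ht : t ∈ G.O), G.ρ ⟨t, ht⟩ = tb ∧
      ∀ P : Place K F, r P = Q → ∃ c : K, P.ord (t - algebraMap K F c) = 1 := by
  obtain ⟨t, ht, hρt, hreg⟩ := exists_regular_lift G r hT hTi hTk htr hlift hec hred hdiv hval
    Q hQ tb (by rw [htb]; norm_num)
  refine ⟨t, ht, hρt, fun P hP => ?_⟩
  have htb0 : tb ≠ 0 := Fermat.Agent.Lib.RR.ne_zero_of_ord_ne_zero Q (by rw [htb]; norm_num)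
  obtain ⟨β, hβ⟩ := hval P t (hreg P hP)
  have hβA : β ∈ A := value_mem_of_isRed G r hred hdiv t ht Q hreg P hP β hβ
  have hcompat := value_compat_of_isRed G r hred hdiv t ht Q hreg P hP ⟨β, hβA⟩ hβ
  rw [hρt] at hcompat
  have hπ : π ⟨β, hβA⟩ = 0 := by
    have h1 : InMax Q tb := inMax_of_ord_pos (by rw [htb]; norm_num)
    have h2 := h1.sub hcompat
    rw [sub_sub_cancel, inMax_algebraMap_iff] at h2
    exact h2
  have hz : t - algebraMap K F β ∈ G.O := sub_mem ht (G.const_mem ⟨β, hβA⟩)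
  have hzρ : G.ρ ⟨t - algebraMap K F β, hz⟩ = tb := by
    have e : (⟨t - algebraMap K F β, hz⟩ : G.O) =
        ⟨t, ht⟩ - ⟨algebraMap K F ((⟨β, hβA⟩ : A) : K), G.const_mem ⟨β, hβA⟩⟩ := rfl
    rw [e, map_sub, G.ρ_const, hρt, hπ, map_zero, sub_zero]
  have hzρ0 : G.ρ ⟨t - algebraMap K F β, hz⟩ ≠ 0 := by
    rw [hzρ]
    exact htb0
  have hz0 : t - algebraMap K F β ≠ 0 := by
    intro h
    apply hzρ0
    have : (⟨t - algebraMap K F β, hz⟩ : G.O) = 0 := Subtype.ext h
    rw [this, map_zero]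
  have h1 := ord_le_of_isRed G r hred hdiv _ hz hzρ0 Q
    (fun P' hP' => ord_nonneg_sub (hreg P' hP') (ord_nonneg_const P' _)) P hP
  rw [hzρ, htb] at h1
  have h2 := hβ.ord_pos hz0
  exact ⟨β, by omega⟩

/-- **LIFT** for a reduction datum with good charts. -/
theorem liftProp_of_good (hG : G.Good) (hred : IsRed G r) (hEC : EvalCompat G r)
    (hdiv : ∀ y : F, y ≠ 0 → ∃ D : Divisor K F, ∀ P, D P = P.ord y) : LiftProp G r := by
  intro Q tb htb
  have htrK : Transcendental K G.x := (ctx G).transcendental_of_ρ (t := cx G) (transc_cx G)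
  haveI : FiniteDimensional K⟮G.x⟯ F := hG.finite
  have hval : ∀ (P : Place K F) (f : F), 0 ≤ P.ord f →
      ∃ c : K, InMax P (f - algebraMap K F c) := fun P f hf => Line.exists_value htrK P hf
  by_cases hQ : 0 ≤ Q.ord G.xk
  · -- the finite chart
    haveI : FiniteDimensional k⟮G.xk⟯ Fk := hG.finite_k
    exact liftProp_chart G r G.x_mem (xinv_mem G) (Tk := G.xk) rfl G.xk_transc hG.lift_fin
      hEC.2 hred hdiv hval Q hQ tb htb
  · -- the chart at infinity
    rw [not_le] at hQ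
    have hxi : (G.x⁻¹)⁻¹ ∈ G.O := by
      rw [inv_inv]
      exact G.x_mem
    have hTk : G.ρ ⟨G.x⁻¹, xinv_mem G⟩ = G.xk⁻¹ := (ctx G).ρ_inv (cx G) (xk_ne_zero G)
    have htr : Transcendental k G.xk⁻¹ := by
      have := transcendental_ρ_xinv (ctx G) (cx G) (transc_cx G)
      rwa [ρ_xinv] at this
    haveI : FiniteDimensional k⟮G.xk⟯ Fk := hG.finite_k
    have hxtr : Transcendental k G.xk := G.xk_transc
    haveI : FiniteDimensional k⟮G.xk⁻¹⟯ Fk :=
      Fermat.Agent.S24.FF.finiteDimensional_adjoin_of_transcendental hxtr htr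
    have hec : EvalCompatAt G r (G.x⁻¹)⁻¹ := by
      rw [inv_inv]
      exact hEC.1
    exact liftProp_chart G r (xinv_mem G) hxi hTk htr hG.lift_inf hec hred hdiv hval Q
      (by rw [Place.ord_inv]; omega) tb htb

end Lift

end Fermat.Agent.Ribet.H940

end
end
-- ===== PACK-END Ribet/H940/Lift.lean

-- ===== PACK-BEGIN S37/H28/NCMod.lean
section






/-!
# S37 / node_rim, NC producer (helper28), part 2: the modular function field

`F = Om M = F_M = ℚ̄(X₀(M))`, `K = ℚ̄`, `x` an admissible coordinate (`Mod.IsCoordinate M ℓ x S`: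
`x = j`, `S = {0, 1728}` for `ℓ ≥ 5`; `x = t₂`, `S = {0, -64}` for `ℓ = 3`; `x = t₃`,
`S = {0, -27}` for `ℓ = 2`), `A ⊆ ℚ̄` a valuation subring over `ℓ`.

For ANY `[Algebra ℚ̄[X] F_M]` with `X ↦ x` (resp. `X ↦ x⁻¹`) and `C a ↦ a`:

* `nc_fin` / `nc_inf` : hypothesis `hNC` of Theorem M (`S37.H159.RedCtx.lift_integral`), verbatim:
  `∀ c : A, c ∉ branchA A S → (Ideal.span {algebraMap K[X] (integralClosure K[X] F) (X - C c)}).IsRadical`
  with `S` resp. `H278.invBranch S`;
* `injOn_branchA` / `injOn_branchA_inv` : hypothesis `hS` of Theorem M (the branch values stay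
  distinct modulo the maximal ideal of `A`), for any ring hom `π` on `A` with kernel `𝔪_A`.
-/

set_option autoImplicit false
set_option linter.unusedSectionVars false
set_option linter.style.haveILetI false

noncomputable section

namespace Fermat.Agent.S37.H28

open Polynomial

section Branch

variable {K : Type*} [Field K] {F : Type*} [Field F] [Algebra K F]

/-- the elements of `A` whose image lies in the finite set `S ⊆ F` -/
def branchA (A : ValuationSubring K) (S : Finset F) : Finset A :=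
  S.preimage (fun c : A => algebraMap K F (c : K))
    (((algebraMap K F).injective.comp Subtype.coe_injective).injOn)

theorem mem_branchA {A : ValuationSubring K} {S : Finset F} {c : A} :
    c ∈ branchA (F := F) A S ↔ algebraMap K F (c : K) ∈ S := by
  rw [branchA, Finset.mem_preimage]

end Branch

section Generic

variable {K : Type*} [Field K] [CharZero K] {F : Type*} [Field F] [Algebra K F] [Algebra K[X] F]
variable (L₀ : Type*) [Field L₀] [Algebra K[X] L₀] [IsFractionRing K[X] L₀] [Algebra L₀ F]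
  [IsScalarTower K[X] L₀ F] [FiniteDimensional L₀ F]

include L₀ in
/-- **NC from `Unramified`**, in the shape `hNC` of Theorem M. -/
theorem nc_of_unramified (hC : ∀ a : K, algebraMap K[X] F (C a) = algebraMap K F a)
    (S : Finset F)
    (hunr : Fermat.Agent.S18.H278.Unramified (algebraMap K F).fieldRange
      (algebraMap K[X] F X) S)
    (A : ValuationSubring K) (c : A) (hc : c ∉ branchA (F := F) A S) :
    (Ideal.span {algebraMap K[X] (integralClosure K[X] F) (X - C (c : K))}).IsRadical := by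
  refine isRadical_span_X_sub_C L₀ (algebraMap K F).fieldRange ?_ S hunr (c : K) ?_ ?_
  · rintro a ⟨a₀, rfl⟩
    exact ⟨a₀, hC a₀⟩
  · rw [hC]
    exact ⟨_, rfl⟩
  · rw [hC]
    exact fun h => hc (mem_branchA.2 h)

end Generic

section Units

variable {K : Type*} [Field K] [CharZero K]

/-- an integer prime to `ℓ` is a unit of a valuation ring over `ℓ` -/
theorem int_inv_mem_of_coprime (A : ValuationSubring K) {ℓ : ℕ} (hA : (ℓ : K) ∈ A.nonunits)
    (n : ℤ) (hn : IsCoprime n (ℓ : ℤ)) : ((n : K))⁻¹ ∈ A := by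
  obtain ⟨a, b, hab⟩ := hn
  have hℓv : A.valuation (ℓ : K) < 1 := A.mem_nonunits_iff.1 hA
  have hint : ∀ m : ℤ, A.valuation (m : K) ≤ 1 := fun m =>
    (A.valuation_le_one_iff _).2 (intCast_mem A m)
  have h1 : (a : K) * (n : K) + (b : K) * (ℓ : K) = 1 := by
    have := congrArg (Int.cast : ℤ → K) hab
    push_cast at this
    exact this
  have hbℓ : A.valuation ((b : K) * (ℓ : K)) < 1 := by
    rw [map_mul]
    exact lt_of_le_of_lt (mul_le_of_le_one_left' (hint b)) hℓv
  have han : A.valuation ((a : K) * (n : K)) = 1 := by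
    have h2 : (a : K) * (n : K) = 1 + -((b : K) * (ℓ : K)) := by
      rw [← h1]; ring
    rw [h2]
    have h3 : A.valuation (-((b : K) * (ℓ : K))) < A.valuation (1 : K) := by
      rw [Valuation.map_neg, map_one]
      exact hbℓ
    rw [Valuation.map_add_eq_of_lt_left _ h3, map_one]
  rw [map_mul] at han
  have hn1 : A.valuation (n : K) = 1 := by
    refine le_antisymm (hint n) ?_
    by_contra hlt
    have hlt' : A.valuation (n : K) < 1 := lt_of_not_ge hlt
    have : A.valuation (a : K) * A.valuation (n : K) < 1 :=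
      lt_of_le_of_lt (mul_le_of_le_one_left' (hint a)) hlt'
    rw [han] at this
    exact lt_irrefl _ this
  rw [← A.valuation_le_one_iff, map_inv₀, hn1, inv_one]

/-- a finite set of elements of `A` with values in `{0, u}`, `u` a unit of `A`, stays injective
under every ring homomorphism to a nontrivial ring -/
theorem injOn_of_pair (A : ValuationSubring K) {k : Type*} [Semiring k] [Nontrivial k]
    (π : A →+* k) (T : Finset A) (u : K) (hu : u ∈ A) (hu' : u⁻¹ ∈ A) (hu0 : u ≠ 0)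
    (hT : ∀ c ∈ T, (c : K) = 0 ∨ (c : K) = u) : Set.InjOn π (T : Set A) := by
  have hπu : π ⟨u, hu⟩ ≠ 0 := by
    intro h0
    have h1 : (⟨u, hu⟩ : A) * ⟨u⁻¹, hu'⟩ = 1 := Subtype.ext (mul_inv_cancel₀ hu0)
    have h2 := congrArg π h1
    rw [map_mul, h0, zero_mul, map_one] at h2
    exact zero_ne_one h2
  intro c₁ h₁ c₂ h₂ h
  rcases hT c₁ h₁ with e₁ | e₁ <;> rcases hT c₂ h₂ with e₂ | e₂
  · exact Subtype.ext (e₁.trans e₂.symm)
  · exfalso
    have hc₁ : c₁ = 0 := Subtype.ext e₁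
    have hc₂ : c₂ = ⟨u, hu⟩ := Subtype.ext e₂
    rw [hc₁, hc₂, map_zero] at h
    exact hπu h.symm
  · exfalso
    have hc₁ : c₁ = ⟨u, hu⟩ := Subtype.ext e₁
    have hc₂ : c₂ = 0 := Subtype.ext e₂
    rw [hc₁, hc₂, map_zero] at h
    exact hπu h
  · exact Subtype.ext (e₁.trans e₂.symm)

end Units

section Modular

open Fermat.Agent.S18 Fermat.Agent.S18.Mod Fermat.Agent.S18.H278 Fermat.Agent.S18.H107

variable {M : ℕ} [NeZero M]

/-- an admissible coordinate is unramified outside its branch set -/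
theorem unramified_of_isCoordinate {ℓ : ℕ} {x : Om M} {S : Finset (Om M)}
    (hx : IsCoordinate M ℓ x S) : Unramified (Lc M) x S := by
  rcases hx with ⟨-, rfl, hS⟩ | ⟨⟨-, hrel, hS⟩ | ⟨-, hrel, hS⟩, -⟩
  · exact unramified_j_concrete107 M S hS
  · intro O hL c hc hcS hz hz'
    exact unramified_t2_107 (Lc M) (jOm M) x hrel (branchJ_concrete107 M) O hL c hc
      (fun h => hcS ((hS c).2 (Or.inr h))) (fun h => hcS ((hS c).2 (Or.inl h))) hz hz'
  · intro O hL c hc hcS hz hz'
    exact unramified_t3_107 (Lc M) (jOm M) x hrel (branchJ_concrete107 M) O hL c hc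
      (fun h => hcS ((hS c).2 (Or.inr h))) (fun h => hcS ((hS c).2 (Or.inl h))) hz hz'

omit [NeZero M] in
/-- the branch set of an admissible coordinate is `{0, n}` with `n` an integer prime to `ℓ` -/
theorem exists_int_of_isCoordinate {ℓ : ℕ} (hℓ : ℓ.Prime) {x : Om M} {S : Finset (Om M)}
    (hx : IsCoordinate M ℓ x S) :
    ∃ n : ℤ, IsCoprime n (ℓ : ℤ) ∧ ∀ s, s ∈ S ↔ s = 0 ∨ s = (n : Om M) := by
  rcases hx with ⟨h5, -, hS⟩ | ⟨⟨h3, -, hS⟩ | ⟨h2, -, hS⟩, -⟩
  · refine ⟨1728, ?_, fun s => by rw [hS]; norm_num⟩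
    have hnd : ¬ ℓ ∣ 1728 := by
      intro h
      have h' : ℓ ∣ 2 ^ 6 * 3 ^ 3 := by norm_num; exact h
      rcases (Nat.Prime.dvd_mul hℓ).1 h' with h2 | h3
      · have := Nat.le_of_dvd (by norm_num) (hℓ.dvd_of_dvd_pow h2)
        omega
      · have := Nat.le_of_dvd (by norm_num) (hℓ.dvd_of_dvd_pow h3)
        omega
    have hc : Nat.Coprime 1728 ℓ := (Nat.Prime.coprime_iff_not_dvd hℓ).2 hnd |>.symm
    exact_mod_cast Nat.isCoprime_iff_coprime.2 hc
  · subst h3
    refine ⟨-64, ?_, fun s => by rw [hS]; norm_num⟩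
    exact ⟨-1, -21, by norm_num⟩
  · subst h2
    refine ⟨-27, ?_, fun s => by rw [hS]; norm_num⟩
    exact ⟨-1, -13, by norm_num⟩

omit [NeZero M] in
theorem coe_eq_of_algebraMap_eq_intCast {c : Qb} {n : ℤ}
    (h : algebraMap Qb (Om M) c = (n : Om M)) : c = (n : Qb) := by
  apply (algebraMap Qb (Om M)).injective
  rw [h, map_intCast]

omit [NeZero M] in
theorem ne_zero_of_isCoprime_prime {ℓ : ℕ} (hℓ : ℓ.Prime) {n : ℤ} (hn : IsCoprime n (ℓ : ℤ)) :
    n ≠ 0 := by
  rintro rfl
  have h1 : IsUnit (ℓ : ℤ) := isCoprime_zero_left.1 hn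
  have h2 := Int.isUnit_iff.1 h1
  have h3 := hℓ.two_le
  rcases h2 with h | h <;> omega

section Inj

variable {ℓ : ℕ} {x : Om M} {S : Finset (Om M)} (A : ValuationSubring Qb)
  {k : Type*} [Semiring k] [Nontrivial k] (π : A →+* k)

omit [NeZero M] in
/-- **`hS` of Theorem M, finite chart**: the branch values stay distinct after reduction. -/
theorem injOn_branchA (hℓ : ℓ.Prime) (hx : IsCoordinate M ℓ x S)
    (hA : (ℓ : Qb) ∈ A.nonunits) : Set.InjOn π (branchA (F := Om M) A S : Set A) := by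
  obtain ⟨n, hn, hS⟩ := exists_int_of_isCoordinate hℓ hx
  have hn0 : (n : Qb) ≠ 0 := by
    exact_mod_cast ne_zero_of_isCoprime_prime hℓ hn
  refine injOn_of_pair A π _ (n : Qb) (intCast_mem A n) (int_inv_mem_of_coprime A hA n hn) hn0 ?_
  intro c hc
  rw [mem_branchA, hS] at hc
  rcases hc with h | h
  · left
    apply (algebraMap Qb (Om M)).injective
    rw [h, map_zero]
  · right
    exact coe_eq_of_algebraMap_eq_intCast h

open Classical in
omit [NeZero M] in
/-- **`hS` of Theorem M, chart at infinity.** -/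
theorem injOn_branchA_inv (hℓ : ℓ.Prime) (hx : IsCoordinate M ℓ x S)
    (hA : (ℓ : Qb) ∈ A.nonunits) :
    Set.InjOn π (branchA (F := Om M) A (invBranch S) : Set A) := by
  obtain ⟨n, hn, hS⟩ := exists_int_of_isCoordinate hℓ hx
  have hn0 : (n : Qb) ≠ 0 := by
    exact_mod_cast ne_zero_of_isCoprime_prime hℓ hn
  refine injOn_of_pair A π _ ((n : Qb))⁻¹ (int_inv_mem_of_coprime A hA n hn) ?_
    (inv_ne_zero hn0) ?_
  · rw [inv_inv]
    exact intCast_mem A n
  intro c hc
  rw [mem_branchA, invBranch, Finset.mem_insert, Finset.mem_image] at hc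
  rcases hc with h | ⟨s, hs, h⟩
  · left
    apply (algebraMap Qb (Om M)).injective
    rw [h, map_zero]
  · rw [hS] at hs
    rcases hs with rfl | rfl
    · left
      apply (algebraMap Qb (Om M)).injective
      rw [← h, inv_zero, map_zero]
    · right
      apply (algebraMap Qb (Om M)).injective
      rw [← h, map_inv₀, map_intCast]

end Inj

section NC

variable [Algebra Qb[X] (Om M)]
variable (L₀ : Type*) [Field L₀] [Algebra Qb[X] L₀] [IsFractionRing Qb[X] L₀] [Algebra L₀ (Om M)]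
  [IsScalarTower Qb[X] L₀ (Om M)] [FiniteDimensional L₀ (Om M)]
variable {ℓ : ℕ} {x : Om M} {S : Finset (Om M)}

include L₀ in
/-- **`hNC` of Theorem M, finite chart** (`X ↦ x`), verbatim. -/
theorem nc_fin (hx : IsCoordinate M ℓ x S) (hX : algebraMap Qb[X] (Om M) X = x)
    (hC : ∀ a : Qb, algebraMap Qb[X] (Om M) (C a) = algebraMap Qb (Om M) a)
    (A : ValuationSubring Qb) (c : A) (hc : c ∉ branchA (F := Om M) A S) :
    (Ideal.span {algebraMap Qb[X] (integralClosure Qb[X] (Om M)) (X - C (c : Qb))}).IsRadical := by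
  refine nc_of_unramified L₀ hC S ?_ A c hc
  rw [hX]
  exact unramified_of_isCoordinate hx

open Classical in
include L₀ in
/-- **`hNC` of Theorem M, chart at infinity** (`X ↦ x⁻¹`), verbatim. -/
theorem nc_inf (hx : IsCoordinate M ℓ x S) (hX : algebraMap Qb[X] (Om M) X = x⁻¹)
    (hC : ∀ a : Qb, algebraMap Qb[X] (Om M) (C a) = algebraMap Qb (Om M) a)
    (A : ValuationSubring Qb) (c : A) (hc : c ∉ branchA (F := Om M) A (invBranch S)) :
    (Ideal.span {algebraMap Qb[X] (integralClosure Qb[X] (Om M)) (X - C (c : Qb))}).IsRadical := by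
  refine nc_of_unramified L₀ hC (invBranch S) ?_ A c hc
  rw [hX]
  exact (unramified_of_isCoordinate hx).inv

end NC

end Modular

end Fermat.Agent.S37.H28

end
end
-- ===== PACK-END S37/H28/NCMod.lean

-- ===== PACK-BEGIN S37/H28/NoRam.lean
section



/-!
# S37 / node_rim (helper28): `NoRamOutside` from `Unramified`  (input (NC) of Theorem M)

For a reduction datum `G : Red.Datum A π F Fk` and a coordinate `t : F`:
`H278.Unramified (constants) t S`  ⟹  `Red.H159.NoRamOutside G t (branchA A S)`.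

Proof: `β = f / (t - c)` lies in every valuation subring `V ⊇ K ∪ {t}` of `F`
(if `t - c` is a nonunit of `V` it is a uniformiser; `f` is a nonunit of `V` because
`f² / (t - c) ∈ V`), and the integral closure of `K[t]` is the intersection of these `V`
(Mathlib `iInf_valuationSubring_superset`).
-/

set_option autoImplicit false
set_option linter.unusedSectionVars false
set_option linter.style.haveILetI false

noncomputable section

namespace Fermat.Agent.S37.H28

open Polynomial Fermat.Agent.S37.Red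

section Mono

variable {F : Type*} [Field F]

/-- integrality over a subring passes to a larger subalgebra -/
theorem isIntegral_adjoin_of_isIntegral_closure {K : Type*} [Field K] [Algebra K F] (t : F)
    {z : F}
    (hz : IsIntegral (Subring.closure (Set.range (algebraMap K F) ∪ {t})) z) :
    IsIntegral (Algebra.adjoin K {t}) z := by
  have hle : Subring.closure (Set.range (algebraMap K F) ∪ {t}) ≤
      (Algebra.adjoin K ({t} : Set F)).toSubring := by
    rw [Subring.closure_le]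
    rintro y (⟨a, rfl⟩ | hy)
    · exact (Algebra.adjoin K ({t} : Set F)).algebraMap_mem a
    · rw [Set.mem_singleton_iff] at hy
      subst hy
      exact Algebra.self_mem_adjoin_singleton K y
  obtain ⟨P, hP, hPz⟩ := hz
  let ι : Subring.closure (Set.range (algebraMap K F) ∪ {t}) →+* Algebra.adjoin K ({t} : Set F) :=
    Subring.inclusion hle
  refine ⟨P.map ι, hP.map ι, ?_⟩
  rw [Polynomial.eval₂_map]
  exact hPz

/-- elements integral over `K[t]` lie in every valuation subring containing `K` and `t` -/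
theorem mem_valuationSubring_of_isIntegral_adjoin {K : Type*} [Field K] [Algebra K F] (t : F)
    (V : ValuationSubring F) (hK : ∀ a : K, algebraMap K F a ∈ V) (ht : t ∈ V) {z : F}
    (hz : IsIntegral (Algebra.adjoin K {t}) z) : z ∈ V := by
  have hle : (Algebra.adjoin K ({t} : Set F)).toSubring ≤ V.toSubring := by
    rw [Algebra.adjoin_eq_ring_closure, Subring.closure_le]
    rintro y (⟨a, rfl⟩ | hy)
    · exact hK a
    · rw [Set.mem_singleton_iff] at hy
      subst hy
      exact ht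
  obtain ⟨P, hP, hPz⟩ := hz
  let g : Algebra.adjoin K ({t} : Set F) →+* V :=
    (Algebra.adjoin K ({t} : Set F)).val.toRingHom.codRestrict V.toSubring (fun b => hle b.2)
  have hint : IsIntegral V z := by
    refine ⟨P.map g, hP.map g, ?_⟩
    rw [Polynomial.eval₂_map]
    exact hPz
  obtain ⟨y, hy⟩ := IsIntegrallyClosed.isIntegral_iff.1 hint
  rw [← hy]
  exact y.2

/-- the integral closure of `K[t]` is the intersection of the valuation subrings containing
`K` and `t` -/
theorem isIntegral_adjoin_of_forall_mem {K : Type*} [Field K] [Algebra K F] (t : F) {z : F}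
    (h : ∀ V : ValuationSubring F, (∀ a : K, algebraMap K F a ∈ V) → t ∈ V → z ∈ V) :
    IsIntegral (Algebra.adjoin K {t}) z := by
  apply isIntegral_adjoin_of_isIntegral_closure
  have hmem : z ∈ (⨅ V : {V : ValuationSubring F //
      (Set.range (algebraMap K F) ∪ {t}) ⊆ V.toSubring}, V.1.toSubring) := by
    rw [Subring.mem_iInf]
    rintro ⟨V, hV⟩
    exact h V (fun a => hV (Or.inl ⟨a, rfl⟩)) (hV (Or.inr rfl))
  rw [iInf_valuationSubring_superset] at hmem
  exact hmem

end Mono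

section NoRam

universe u

variable {K k F Fk : Type u} [Field K] [Field k] [Field F] [Field Fk] [Algebra K F]
  [Algebra k Fk] {A : ValuationSubring K} {π : A →+* k}

/-- **(NC) of Theorem M from `Unramified`.** -/
theorem noRamOutside_of_unramified (G : Datum A π F Fk) (t : F) (S : Finset F)
    (hunr : Fermat.Agent.S18.H278.Unramified (algebraMap K F).fieldRange t S) :
    H159.NoRamOutside G t (branchA (F := F) A S) := by
  intro c hc f hf hf2
  have hcS : algebraMap K F (c : K) ∉ S := fun h => hc (mem_branchA.2 h)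
  have hf' : IsIntegral (Algebra.adjoin K {t}) f := hf
  have hf2' : IsIntegral (Algebra.adjoin K {t}) (f ^ 2 / (t - algebraMap K F (c : K))) := hf2
  show IsIntegral (Algebra.adjoin K {t}) (f / (t - algebraMap K F (c : K)))
  apply isIntegral_adjoin_of_forall_mem
  intro V hK ht
  set z := t - algebraMap K F (c : K) with hz
  have hfV : f ∈ V := mem_valuationSubring_of_isIntegral_adjoin t V hK ht hf'
  have hf2V : f ^ 2 / z ∈ V := mem_valuationSubring_of_isIntegral_adjoin t V hK ht hf2'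
  have hzV : z ∈ V := sub_mem ht (hK _)
  rcases eq_or_ne f 0 with hf0 | hf0
  · rw [hf0, zero_div]
    exact V.zero_mem
  by_cases hzu : z⁻¹ ∈ V
  · rw [div_eq_mul_inv]
    exact mul_mem hfV hzu
  by_cases hfu : f⁻¹ ∈ V
  · exfalso
    apply hzu
    have hz0 : z ≠ 0 := by
      intro h0
      apply hzu
      rw [h0, inv_zero]
      exact V.zero_mem
    have h1 : z⁻¹ = f⁻¹ * f⁻¹ * (f ^ 2 / z) := by
      field_simp
    rw [h1]
    exact mul_mem (mul_mem hfu hfu) hf2V
  · have hL : ∀ a ∈ (algebraMap K F).fieldRange, a ∈ V := by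
      rintro a ⟨a₀, rfl⟩
      exact hK a₀
    have := hunr V hL (algebraMap K F (c : K)) ⟨_, rfl⟩ hcS hzV hzu f hfV hfu
    rw [div_eq_mul_inv]
    exact this

end NoRam

end Fermat.Agent.S37.H28

end
end
-- ===== PACK-END S37/H28/NoRam.lean

-- ===== PACK-BEGIN S37/H98/RiemannBound.lean
section



/-!
# S37 (helper98): the Riemann bound from Riemann's inequality

Input (I5)/(c) of the bounded-homomorphism route (origin/helper697:coord/S37-e-route-helper697.md):
every divisor of degree `0` of a function field `F/K` (standing hypotheses `FF1 K F` of the shared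
library `Lib/RR`) is linearly equivalent to a divisor `E - g • P₀` with `E ≥ 0` of degree
`g = genusR K F`; in particular to a divisor of `ℓ¹`-norm `≤ 2 g`.

* `exists_effective_sub_mem_principal` : the representative `E - g • P₀`.
* `riemannBound` : `∃ B, ∀ D, deg D = 0 → ∃ E, ‖E‖₁ ≤ B ∧ D - E ∈ principal`, stated with the
  `ℓ¹`-norm unfolded (`E.sum fun _ n => n.natAbs`), so that it is definitionally
  `Fermat.Agent.S37.H697.RiemannBound K F` (`exact riemannBound` closes that goal).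
* `riemannBound_modularFunctionFieldBar N` : the instance for `ℚ̄(X₀(N))`.
-/

set_option autoImplicit false

noncomputable section

open AlgebraicCurve

namespace Fermat.Agent.S37.H98

open Fermat.Agent.Lib.RR

variable {K F : Type*} [Field K] [Field F] [Algebra K F]

/-- The `ℓ¹`-norm is subadditive (raw `Finsupp.sum` form). -/
theorem sum_natAbs_add_le {X : Type*} (D E : X →₀ ℤ) :
    ((D + E).sum fun _ n => n.natAbs) ≤ (D.sum fun _ n => n.natAbs) + E.sum fun _ n => n.natAbs := by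
  classical
  have h1 : (D + E).sum (fun _ n => n.natAbs)
      = ∑ x ∈ D.support ∪ E.support, ((D + E) x).natAbs :=
    Finsupp.sum_of_support_subset _ Finsupp.support_add _ (fun _ _ => rfl)
  have h2 : D.sum (fun _ n => n.natAbs) = ∑ x ∈ D.support ∪ E.support, (D x).natAbs :=
    Finsupp.sum_of_support_subset _ Finset.subset_union_left _ (fun _ _ => rfl)
  have h3 : E.sum (fun _ n => n.natAbs) = ∑ x ∈ D.support ∪ E.support, (E x).natAbs :=
    Finsupp.sum_of_support_subset _ Finset.subset_union_right _ (fun _ _ => rfl)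
  rw [h1, h2, h3, ← Finset.sum_add_distrib]
  exact Finset.sum_le_sum fun x _ => by
    rw [Finsupp.add_apply]; exact Int.natAbs_add_le _ _

/-- For an effective divisor on a curve all of whose places have degree one, the `ℓ¹`-norm is
the degree. -/
theorem sum_natAbs_eq_degree [FF1 K F] {E : Divisor K F} (hE : 0 ≤ E) :
    ((E.sum fun _ n => n.natAbs : ℕ) : ℤ) = Divisor.degree E := by
  rw [degree_eq_sum, Finsupp.sum, Nat.cast_sum]
  refine Finset.sum_congr rfl fun v _ => ?_
  have h0 : 0 ≤ E v := by simpa using Finsupp.le_def.mp hE v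
  rw [deg_eq_one v, Nat.cast_one, mul_one]
  exact Int.natAbs_of_nonneg h0

/-- Every divisor `D` is linearly equivalent to `E - (g + deg D) • P₀`... in the form needed:
if `deg D = 0` then `D ~ E - g • P₀` with `E ≥ 0` of degree `g`, for ANY `g` satisfying Riemann's
inequality. -/
theorem exists_effective_sub_mem_principal_of [FF1 K F] (g : ℕ)
    (hR : ∀ D : Divisor K F, Divisor.degree D + 1 - (g : ℤ) ≤ ell D)
    (P₀ : Place K F) (D : Divisor K F) (hD : Divisor.degree D = 0) :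
    ∃ E : Divisor K F, 0 ≤ E ∧ Divisor.degree E = g ∧
      D - (E - (g : ℤ) • prim P₀) ∈ Divisor.principal (K := K) (F := F) := by
  have hdeg : Divisor.degree (D + (g : ℤ) • prim P₀) = g := by
    rw [map_add, map_zsmul, hD, degree_prim', zero_add, smul_eq_mul, mul_one]
  have hpos : 0 < ell (D + (g : ℤ) • prim P₀) := by
    have h := hR (D + (g : ℤ) • prim P₀)
    rw [hdeg] at h
    have : (0 : ℤ) < ell (D + (g : ℤ) • prim P₀) := by omega
    exact_mod_cast this
  obtain ⟨z, hz, hmem⟩ := Fermat.Agent.Lib.RR.H98.exists_ne_zero_mem_L_of_ell_pos hpos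
  refine ⟨D + (g : ℤ) • prim P₀ + divOf (K := K) z hz, ?_, ?_, ?_⟩
  · rw [Finsupp.le_def]
    intro v
    rw [mem_L_iff] at hmem
    rcases hmem v with h0 | h
    · exact absurd h0 hz
    · rw [Finsupp.add_apply, divOf_apply, Finsupp.zero_apply]
      omega
  · rw [map_add, hdeg, degree_divOf, add_zero]
  · have : D - (D + (g : ℤ) • prim P₀ + divOf (K := K) z hz - (g : ℤ) • prim P₀)
        = -divOf (K := K) z hz := by abel
    rw [this]
    exact (Divisor.principal (K := K) (F := F)).neg_mem ⟨z, hz, fun v => divOf_apply z hz v⟩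

/-- Every divisor of degree `0` is linearly equivalent to `E - g • P₀` with `E ≥ 0` of degree
`g = genusR K F`. -/
theorem exists_effective_sub_mem_principal [FF1 K F] (P₀ : Place K F) (D : Divisor K F)
    (hD : Divisor.degree D = 0) :
    ∃ E : Divisor K F, 0 ≤ E ∧ Divisor.degree E = genusR K F ∧
      D - (E - (genusR K F : ℤ) • prim P₀) ∈ Divisor.principal (K := K) (F := F) :=
  exists_effective_sub_mem_principal_of (genusR K F) (fun D' => riemann_inequality D') P₀ D hD

/-- **Riemann bound**: every divisor of degree `0` is linearly equivalent to a divisor of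
`ℓ¹`-norm at most `2 g`.  (Definitionally `Fermat.Agent.S37.H697.RiemannBound K F`.) -/
theorem riemannBound [FF1 K F] :
    ∃ B : ℕ, ∀ D : Divisor K F, Divisor.degree D = 0 →
      ∃ E : Divisor K F, (E.sum fun _ n => n.natAbs) ≤ B ∧
        D - E ∈ Divisor.principal (K := K) (F := F) := by
  obtain ⟨P₀⟩ := (inferInstance : FF1 K F).nonempty_place
  refine ⟨2 * genusR K F, fun D hD => ?_⟩
  obtain ⟨E, hE, hEdeg, hmem⟩ := exists_effective_sub_mem_principal P₀ D hD
  refine ⟨E - (genusR K F : ℤ) • prim P₀, ?_, hmem⟩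
  have h1 : ((E.sum fun _ n => n.natAbs : ℕ) : ℤ) = genusR K F := by
    rw [sum_natAbs_eq_degree hE, hEdeg]
  have h1' : (E.sum fun _ n => n.natAbs) = genusR K F := by exact_mod_cast h1
  have h2 : ((-((genusR K F : ℤ) • prim P₀) : Divisor K F).sum fun _ n => n.natAbs)
      ≤ genusR K F := by
    have : (-((genusR K F : ℤ) • prim P₀) : Divisor K F)
        = Finsupp.single P₀ (-(genusR K F : ℤ)) := by
      rw [prim, Finsupp.smul_single, smul_eq_mul, mul_one, Finsupp.single_neg]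
    rw [this, Finsupp.sum_single_index (by simp)]
    simp
  have h3 := sum_natAbs_add_le E (-((genusR K F : ℤ) • prim P₀))
  rw [← sub_eq_add_neg] at h3
  omega

/-- The Riemann bound for the function field of `X₀(N)` over `ℚ̄`. -/
theorem riemannBound_modularFunctionFieldBar (N : ℕ) [NeZero N] :
    ∃ B : ℕ, ∀ D : Divisor (AlgebraicClosure ℚ) ↥(ModularCurve.modularFunctionFieldBar N),
      Divisor.degree D = 0 →
      ∃ E : Divisor (AlgebraicClosure ℚ) ↥(ModularCurve.modularFunctionFieldBar N),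
        (E.sum fun _ n => n.natAbs) ≤ B ∧
        D - E ∈ Divisor.principal (K := AlgebraicClosure ℚ)
          (F := ↥(ModularCurve.modularFunctionFieldBar N)) := by
  have := Fermat.Agent.Lib.RR.H864.ff1_modularFunctionFieldBar N
  exact riemannBound

end Fermat.Agent.S37.H98

end
end
-- ===== PACK-END S37/H98/RiemannBound.lean

-- ===== PACK-BEGIN S37/H697/Final.lean
section




/-!
# S37 (helper697): the frozen statement S37 from THREE named inputs (route B)

With `HeckeInputsAlong` (helper398, `Lib/FF398`), the Riemann bound (helper98) and `deg = 1`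
on `main`, the bounded-homomorphism route reduces S37 to

* `hRed : ReductionInputsModL A N`   — existence of a place reduction with conservation
  `r_* div y = div ȳ` (Prelude `IsPlaceReductionAlong`) and `PrincipalGeneratedByIntegral`;
* `hS18 : Core.InjTorsionModL N ℓ A` — the conclusion of the frozen statement S18;
* `hK   : KroneckerNorm A (residue A) N ℓ φ` for the Frobenius `φ` of the residue field —
  the norm of `y(q^ℓ)` along `α` is integral with reduction `(Φ⁻¹ ȳ)^ℓ · Φ ȳ`.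

No pointwise statement about the reduction of places (`inertia`, `es` of `Core.PlaceRed`,
value compatibility, separation) is needed.
-/

set_option autoImplicit false
set_option synthInstance.maxHeartbeats 400000
set_option maxHeartbeats 1600000

noncomputable section

open HahnSeries IntermediateField AlgebraicCurve ModularCurve ValuationSubring

namespace Fermat.Agent.S37.H697

/-- The Riemann bound for `ℚ̄(X₀(N))` (helper98). -/
theorem riemannBound_modular (N : ℕ) [NeZero N] :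
    RiemannBound (AlgebraicClosure ℚ) (modularFunctionFieldBar N) :=
  H98.riemannBound_modularFunctionFieldBar N

/-- **`Core.WeakRedData` from a place reduction, S18 and the Kronecker congruence.** -/
def weakRedData_of_kronecker (N : ℕ) [NeZero N] (A : ValuationSubring (AlgebraicClosure ℚ))
    (ℓ : ℕ) [NeZero ℓ]
    (h : ReductionInputsModL A N)
    (hinj : Core.InjTorsionModL N ℓ A)
    (hK : ∀ φ : IsLocalRing.ResidueField A ≃+* IsLocalRing.ResidueField A, (∀ x, φ x = x ^ ℓ) →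
        KroneckerNorm A (IsLocalRing.residue A) N ℓ φ)
    (σ₀ : AlgebraicClosure ℚ ≃ₐ[ℚ] AlgebraicClosure ℚ) (hσ₀ : A.IsFrobeniusAt σ₀ ℓ) :
    Core.WeakRedData N A ℓ σ₀ :=
  weakRedData_of N A ℓ h hinj (riemannBound_modular N)
    (fun P => Fermat.Agent.Lib.FF398.deg_eq_one_FF N P)
    (Fermat.Agent.Lib.FF398.heckeInputsAlong N ℓ) hK σ₀ hσ₀

/-- **The frozen statement S37 from a place reduction, S18 and the Kronecker congruence.** -/
theorem result_of_kronecker (N p : ℕ) [NeZero N]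
    (hRed : ∀ ℓ : ℕ, ℓ.Prime → ¬ ℓ ∣ N →
      ∀ A : ValuationSubring (AlgebraicClosure ℚ), A.LiesOverPrime ℓ → ReductionInputsModL A N)
    (hS18 : ∀ ℓ : ℕ, ℓ.Prime → ¬ ℓ ∣ N →
      ∀ A : ValuationSubring (AlgebraicClosure ℚ), A.LiesOverPrime ℓ → Core.InjTorsionModL N ℓ A)
    (hK : ∀ (ℓ : ℕ) (hℓ : ℓ.Prime), ¬ ℓ ∣ N →
      ∀ A : ValuationSubring (AlgebraicClosure ℚ), A.LiesOverPrime ℓ →
        haveI : NeZero ℓ := ⟨hℓ.ne_zero⟩
        ∀ φ : IsLocalRing.ResidueField A ≃+* IsLocalRing.ResidueField A, (∀ x, φ x = x ^ ℓ) →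
          KroneckerNorm A (IsLocalRing.residue A) N ℓ φ)
    (hcomm : ModularCurve.HeckeOperatorsCommuteBar N) :
    letI := ModularCurve.heckeModuleBar N
    ∀ (_ : SMulCommClass (AlgebraicClosure ℚ ≃ₐ[ℚ] AlgebraicClosure ℚ) ModularCurve.HeckeAlg
      (ModularCurve.JZero N)),
      ModularCurve.SpecializationExists (K := ℚ) (L := AlgebraicClosure ℚ) N p
        (ModularCurve.JZero N) :=
  H99.result_of_redData N p
    (fun ℓ hℓ hℓN A hA =>
      haveI : NeZero ℓ := ⟨hℓ.ne_zero⟩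
      redData_of N A ℓ hℓ (hRed ℓ hℓ hℓN A hA) (hS18 ℓ hℓ hℓN A hA) (riemannBound_modular N)
        (fun P => Fermat.Agent.Lib.FF398.deg_eq_one_FF N P)
        (Fermat.Agent.Lib.FF398.heckeInputsAlong N ℓ) (hK ℓ hℓ hℓN A hA))
    hcomm

end Fermat.Agent.S37.H697

end
end
-- ===== PACK-END S37/H697/Final.lean

-- ===== PACK-BEGIN S19/H195/GenusDatum.lean
section



/-!
# A3 / GR-GENUS (helper195), part 3: equal genus for a reduction datum with good charts

For `G : S37.Red.Datum A π F Fk` over algebraically closed constants, with `[FF1 K F]`,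
`[FF1 k Fk]`:

* `GenusGood.redDatumOfDatum`  : the abstract `S19.H195.RedDatum` of `(G.O, G.ρ, r)`;
* `GenusGood.genusFF_ge_of_datum` : `g(F_k) ≤ g(F)` from a place map `r` with
  `r_* div u = div (ρ u)` and orthonormal bases of the `L(D)` (upper semicontinuity);
* `GenusGood.genusFF_eq_of_good`  : **`genusFF K F = genusFF k Fk`** from `G.Good`, `r`, and the
  orthonormal bases.  This is the field `genus_eq` of `A3.H799.GoodRed` for ANY assembly whose
  `O`, `red` are those of a datum (`S37.Red.ModDatum`, `modO`/`modρ`, ...).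
-/

set_option autoImplicit false
set_option linter.unusedSectionVars false

noncomputable section

open AlgebraicCurve

namespace Fermat.Agent.S19.H195

open Fermat.Agent.Lib.RR Fermat.Agent.S37.Red

namespace GenusGood

universe u

variable {K k F Fk : Type u} [Field K] [Field k] [Field F] [Field Fk]
  [Algebra K F] [Algebra k Fk] {A : ValuationSubring K} {π : A →+* k} (G : Datum A π F Fk)

/-- the abstract reduction datum of `RedDatum.lean` attached to `(G.O, G.ρ, r)` -/
def redDatumOfDatum (r : Place K F → Place k Fk)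
    (hr : ∀ (y : F) (hy : y ∈ G.O), G.ρ ⟨y, hy⟩ ≠ 0 → ∀ D : Divisor K F,
      (∀ P, D P = P.ord y) → ∀ Q, Finsupp.mapDomain r D Q = Q.ord (G.ρ ⟨y, hy⟩)) :
    RedDatum K F k Fk where
  V := G.O.toSubring
  red := G.ρ
  r := r
  const_total a := by
    rcases A.mem_or_inv_mem a with h | h
    · exact Or.inl (G.const_mem ⟨a, h⟩)
    · exact Or.inr (G.const_mem ⟨a⁻¹, h⟩)
  red_const a h := ⟨π ⟨a, H160.mem_of_algebraMap_mem G h⟩,
    G.ρ_const ⟨a, H160.mem_of_algebraMap_mem G h⟩⟩
  red_const_surj b := by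
    obtain ⟨a, rfl⟩ := G.π_surj b
    exact ⟨(a : K), G.const_mem a, G.ρ_const a⟩
  red_const_unit a h hne := by
    have := H160.inv_mem G h hne
    rwa [← map_inv₀] at this
  ord_red u hu hne D hD Q := hr u hu hne D hD Q

/-- **Upper semicontinuity of the genus** for a datum. -/
theorem genusFF_ge_of_datum [FF1 K F] [FF1 k Fk] (r : Place K F → Place k Fk)
    (hr : ∀ (y : F) (hy : y ∈ G.O), G.ρ ⟨y, hy⟩ ≠ 0 → ∀ D : Divisor K F,
      (∀ P, D P = P.ord y) → ∀ Q, Finsupp.mapDomain r D Q = Q.ord (G.ρ ⟨y, hy⟩))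
    (horth : ∀ D : Divisor K F, ∃ (n : ℕ) (b : Fin n → G.O),
      LinearIndependent k (fun i => G.ρ (b i)) ∧
      (∀ i, ((b i : G.O) : F) ∈ riemannRochSpace D) ∧
      Submodule.span K (Set.range fun i => ((b i : G.O) : F)) = riemannRochSpace D) :
    genusFF k Fk ≤ genusFF K F := by
  refine (redDatumOfDatum G r hr).genusFF_le fun D => ?_
  obtain ⟨n, b, h1, h2, h3⟩ := horth D
  exact ⟨n, fun i => ((b i : G.O) : F), fun i => (b i).2, h2, h3.ge, h1⟩

/-- **GR-GENUS**: equal genus for a reduction datum with good charts, a place map compatible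
with divisors, and orthonormal bases of the Riemann–Roch spaces. -/
theorem genusFF_eq_of_good [IsAlgClosed K] [IsAlgClosed k] [FF1 K F] [FF1 k Fk] (hG : G.Good)
    (r : Place K F → Place k Fk)
    (hr : ∀ (y : F) (hy : y ∈ G.O), G.ρ ⟨y, hy⟩ ≠ 0 → ∀ D : Divisor K F,
      (∀ P, D P = P.ord y) → ∀ Q, Finsupp.mapDomain r D Q = Q.ord (G.ρ ⟨y, hy⟩))
    (horth : ∀ D : Divisor K F, ∃ (n : ℕ) (b : Fin n → G.O),
      LinearIndependent k (fun i => G.ρ (b i)) ∧
      (∀ i, ((b i : G.O) : F) ∈ riemannRochSpace D) ∧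
      Submodule.span K (Set.range fun i => ((b i : G.O) : F)) = riemannRochSpace D) :
    genusFF K F = genusFF k Fk :=
  le_antisymm (genusFF_le_of_good G hG) (genusFF_ge_of_datum G r hr horth)

/-- The same with the place map in the form `S37.Red.IsRed`. -/
theorem genusFF_eq_of_good_isRed [IsAlgClosed K] [IsAlgClosed k] [FF1 K F] [FF1 k Fk]
    (hG : G.Good) (r : Place K F → Place k Fk) (hr : IsRed G r)
    (horth : ∀ D : Divisor K F, ∃ (n : ℕ) (b : Fin n → G.O),
      LinearIndependent k (fun i => G.ρ (b i)) ∧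
      (∀ i, ((b i : G.O) : F) ∈ riemannRochSpace D) ∧
      Submodule.span K (Set.range fun i => ((b i : G.O) : F)) = riemannRochSpace D) :
    genusFF K F = genusFF k Fk :=
  genusFF_eq_of_good G hG r hr.2 horth

end GenusGood

end Fermat.Agent.S19.H195

end

end
-- ===== PACK-END S19/H195/GenusDatum.lean

-- ===== PACK-BEGIN S19/H195/GenusFinal.lean
section




/-!
# A3 / GR-GENUS (helper195), part 4: equal genus from `G.Good` ALONE

`GenusGood.genusFF_eq` : for a reduction datum `G : S37.Red.Datum A π F Fk` with good charts over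
algebraically closed constants (`K` of characteristic `0`), with `[FF1 K F]`, `[FF1 k Fk]`:

    genusFF K F = genusFF k Fk.

No further input: the place map comes from `S37.Red.H940.exists_isRed` (RED-MAIN), the
orthonormal bases from `A3.H499.orthonormal_of_good'` (with the trivial group), the inequality
`≤` from `genusFF_le_of_good` (pencil lifting), the inequality `≥` from upper semicontinuity.

So the leaf GENUS of every GOODRED-INST assembly is a consequence of the datum leaf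
(`S37.Core.DatumStatement` / `S37.Red.ModDatum`).
-/

set_option autoImplicit false
set_option linter.unusedSectionVars false

noncomputable section

open AlgebraicCurve

namespace Fermat.Agent.S19.H195

open Fermat.Agent.Lib.RR Fermat.Agent.S37.Red

namespace GenusGood

universe u

variable {K k F Fk : Type u} [Field K] [Field k] [Field F] [Field Fk]
  [Algebra K F] [Algebra k Fk] {A : ValuationSubring K} {π : A →+* k} (G : Datum A π F Fk)

/-- **GR-GENUS from `G.Good` alone.** -/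
theorem genusFF_eq [IsAlgClosed K] [CharZero K] [IsAlgClosed k] [FF1 K F] [FF1 k Fk]
    (hG : G.Good) : genusFF K F = genusFF k Fk := by
  obtain ⟨r, hr, -⟩ := H940.exists_isRed G hG
  have horth := Fermat.Agent.A3.H499.orthonormal_of_good' G hG inferInstance ⊥
    (fun g hg => by rw [Subgroup.mem_bot.mp hg, one_smul])
    (fun c => by
      obtain ⟨f, hf⟩ := G.ρ_surj c
      exact ⟨f, hf, fun g hg => by rw [Subgroup.mem_bot.mp hg, one_smul]⟩)
  refine genusFF_eq_of_good_isRed G hG r hr fun D => ?_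
  obtain ⟨n, b, h1, h2, h3, -⟩ := horth D
  exact ⟨n, b, h1, h2, h3⟩

end GenusGood

end Fermat.Agent.S19.H195

end

end
-- ===== PACK-END S19/H195/GenusFinal.lean

-- ===== PACK-BEGIN S37/H157/NormBar.lean
section
/-
S37 helper (helper157), piece NORM-ID, part F: Prelude form.

`norm_heckeBetaBar` : for a prime `ℓ ∤ N` and `y ∈ ℚ̄(X₀(N)) = modularFunctionFieldBar N`,
the norm of `β y = y(q^ℓ)` along `α : ℚ̄(X₀(N)) ⊆ ℚ̄(X₀(Nℓ))` (Prelude `heckeAlphaBar`,
`heckeBetaBar`, `algebraAlong`) has `q`-expansion the formal Kronecker norm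
`kronNorm ℓ y = y(q^ℓ) · det (secMat ℓ y)` of `Fermat.Agent.S37.H400`.
This is input (I4) of the norm route to the Eichler–Shimura relation:
`T_ℓ (div y) = α_* β^* (div y) = div (Nm_α (β y))`.
-/




set_option autoImplicit false
set_option linter.unusedSectionVars false
set_option linter.style.haveILetI false

noncomputable section

open ModularCurve HahnSeries Polynomial IntermediateField AlgebraicCurve
open Fermat.Agent.S28.H626

namespace Fermat.Agent.S37.H157

section Transport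

variable {K : Type*} [Field K] [CharZero K] {N ℓ : ℕ} [NeZero N] [NeZero ℓ]

/-- NORM-ID for any pair of intermediate fields equal to the two modular function fields. -/
theorem norm_eq_kronNorm_of_eq (F₁ F₁' : IntermediateField K (LaurentSeries K))
    (h : F₁ = modularFunctionFieldFullC K N) (h' : F₁' = modularFunctionFieldFullC K (N * ℓ))
    (hle : F₁ ≤ F₁') (hℓ : ℓ.Prime) (hℓN : ¬ ℓ ∣ N) (ζ : Kˣ) (hζ : IsPrimitiveRoot ζ ℓ)
    (y : F₁) (hy : qExpand K ℓ (y : LaurentSeries K) ∈ F₁') :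
    ((@Algebra.norm ↥F₁ ↥F₁' _ _ (IntermediateField.inclusion hle).toRingHom.toAlgebra
        ⟨qExpand K ℓ (y : LaurentSeries K), hy⟩ : F₁) : LaurentSeries K)
      = Fermat.Agent.S37.H400.kronNorm ℓ (y : LaurentSeries K) := by
  subst h h'
  exact norm_betaHom_eq_kronNorm hℓ hℓN ζ hζ y

end Transport

section Prelude

variable (L : Type*) [Field L] [Algebra ℚ L] (N ℓ : ℕ) [NeZero N] [NeZero ℓ]

/-- **NORM-ID, Prelude form** (any field `L ⊇ ℚ` with a primitive `ℓ`-th root of unity). -/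
theorem norm_heckeBetaBar_of_primitiveRoot (hℓ : ℓ.Prime) (hℓN : ¬ ℓ ∣ N)
    (ζ : Lˣ) (hζ : IsPrimitiveRoot ζ ℓ)
    (y : laurentBaseChange L (modularFunctionFieldFull N)) :
    ((@Algebra.norm ↥(laurentBaseChange L (modularFunctionFieldFull N))
        ↥(laurentBaseChange L (modularFunctionFieldFull (N * ℓ))) _ _
        (algebraAlong (heckeAlphaBar L N ℓ)) (heckeBetaBar L N ℓ y) :
          laurentBaseChange L (modularFunctionFieldFull N)) : LaurentSeries L)
      = Fermat.Agent.S37.H400.kronNorm ℓ (y : LaurentSeries L) := by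
  haveI : CharZero L := algebraRat.charZero L
  exact norm_eq_kronNorm_of_eq _ _
    (Fermat.Agent.S28.H988.laurentBaseChange_full_eq_fullC L N)
    (Fermat.Agent.S28.H988.laurentBaseChange_full_eq_fullC L (N * ℓ)) _ hℓ hℓN ζ hζ y _

end Prelude

section Bar

variable (N ℓ : ℕ) [NeZero N] [NeZero ℓ]

/-- **NORM-ID over `ℚ̄`.**  `Nm_α (β y) = kronNorm ℓ y` in `ℚ̄((q))`. -/
theorem norm_heckeBetaBar (hℓ : ℓ.Prime) (hℓN : ¬ ℓ ∣ N) (y : modularFunctionFieldBar N) :
    ((@Algebra.norm ↥(modularFunctionFieldBar N) ↥(modularFunctionFieldBar (N * ℓ)) _ _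
        (algebraAlong (heckeAlphaBar (AlgebraicClosure ℚ) N ℓ))
        (heckeBetaBar (AlgebraicClosure ℚ) N ℓ y) : modularFunctionFieldBar N) :
          LaurentSeries (AlgebraicClosure ℚ))
      = Fermat.Agent.S37.H400.kronNorm ℓ (y : LaurentSeries (AlgebraicClosure ℚ)) := by
  haveI : NeZero ((ℓ : ℕ) : AlgebraicClosure ℚ) := ⟨Nat.cast_ne_zero.mpr hℓ.ne_zero⟩
  obtain ⟨ζ, hζ⟩ := exists_primitiveRoot_unit (AlgebraicClosure ℚ) ℓ hℓ.ne_zero
  exact norm_heckeBetaBar_of_primitiveRoot (AlgebraicClosure ℚ) N ℓ hℓ hℓN ζ hζ y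

end Bar

end Fermat.Agent.S37.H157

end

end
-- ===== PACK-END S37/H157/NormBar.lean

-- ===== PACK-BEGIN S37/H157/NodeNormId.lean
section


/-!
# S37 board v2, node `node_normid` (helper157): CLOSED

`NormIdStatement` is copied verbatim from `origin/helper37:Fermat/Agent/S37/Core/Skeleton3.lean`
(only the namespace differs); `node_normid` is the exact node statement, proved from
`norm_heckeBetaBar` (`NormBar.lean`).
-/

set_option autoImplicit false
set_option synthInstance.maxHeartbeats 400000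

noncomputable section

namespace Fermat.Agent.S37.H157

open ModularCurve ValuationSubring AlgebraicCurve HahnSeries

/-- NODE [NORMID] statement: the norm of `β f` over `α F_M` is the formal Kronecker norm. -/
def NormIdStatement (M ℓ : ℕ) [NeZero M] [NeZero ℓ] : Prop :=
  ∀ f : modularFunctionFieldBar M,
    (((letI := algebraAlong (heckeAlphaBar (AlgebraicClosure ℚ) M ℓ)
       Algebra.norm (modularFunctionFieldBar M) (heckeBetaBar (AlgebraicClosure ℚ) M ℓ f)) :
        modularFunctionFieldBar M) : LaurentSeries (AlgebraicClosure ℚ)) =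
      Fermat.Agent.S37.H400.kronNorm ℓ (f : LaurentSeries (AlgebraicClosure ℚ))

/-- NODE [NORMID], exact board statement. -/
theorem node_normid (M ℓ : ℕ) [NeZero M] [NeZero ℓ] (hℓ : ℓ.Prime) (hℓM : ¬ ℓ ∣ M) :
    NormIdStatement M ℓ :=
  fun f => norm_heckeBetaBar M ℓ hℓ hℓM f

end Fermat.Agent.S37.H157

end
end
-- ===== PACK-END S37/H157/NodeNormId.lean

-- ===== PACK-BEGIN Ribet/H552/ASIdem.lean
section




/-!
# RIBET wall-p, leaf GLUE-p (helper552), part 1: the sheet idempotents of an Artin–Schreier cover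

`R` a domain, `ζ ∈ R` a primitive `p`-th root of unity (`p` prime), `λ = ζ - 1`,
`g_k = 1 + ζ + ⋯ + ζ^(k-1) = (ζ^k - 1)/λ` (`geomS`): the differences `g_k - g_l`, `k ≠ l < p`, are
units of `R` (cyclotomic units).

For `y = 1 + λ Y` one has `y ^ p - 1 = λ ^ p ∏_{k<p} (Y - g_k)` (`pow_sub_one_eq_prod_geomS`):
the Artin–Schreier form of the Kummer equation.  If `∏_k (Y - g_k) ≡ 0 mod w O`, the Lagrange
idempotents `sheetIdem k = ∏_{l ≠ k} (Y - g_l)/(g_k - g_l)` are orthogonal idempotents modulo `w O`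
with sum `1` (`inW_sheetIdem_sq_sub`, `sum_sheetIdem`).

`as_trivial_of_local` (**version B-p** of `A2.H729.kummer_trivial_of_local`): on a two-chart model
with connected reduced special fibre, if `Y` has local integral models at every closed point of
the special fibre, then `Y ≡ g_k mod w O` for ONE `k`, globally.
-/

set_option autoImplicit false
set_option linter.unusedSectionVars false

namespace Fermat.Agent.Ribet.H552

open Polynomial Fermat.Agent.S18.H138 Fermat.Agent.A2.H729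

section CycUnits

variable {R : Type*} [CommRing R]

/-- The geometric sum `1 + ζ + ⋯ + ζ ^ (j - 1)`. -/
def geomS (ζ : R) (j : ℕ) : R := ∑ l ∈ Finset.range j, ζ ^ l

theorem geomS_zero (ζ : R) : geomS ζ 0 = 0 := by simp [geomS]

theorem geomS_mul (ζ : R) (j : ℕ) : geomS ζ j * (ζ - 1) = ζ ^ j - 1 := geom_sum_mul ζ j

variable [IsDomain R]

/-- Cyclotomic units. -/
theorem exists_geomS_inv {p : ℕ} (hp : p.Prime) {ζ : R} (hζ : IsPrimitiveRoot ζ p) {j : ℕ}
    (hj0 : 0 < j) (hjp : j < p) : ∃ r : R, geomS ζ j * r = 1 := by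
  have hcop : Nat.Coprime j p := (Nat.coprime_of_lt_prime hj0.ne' hjp hp).symm
  obtain ⟨j', -, hj'⟩ := Nat.exists_mul_mod_eq_one_of_coprime hcop hp.one_lt
  refine ⟨geomS (ζ ^ j) j', ?_⟩
  have hlam : ζ - 1 ≠ 0 := sub_ne_zero.2 (hζ.ne_one hp.one_lt)
  have h1 := geomS_mul ζ j
  have h2 := geomS_mul (ζ ^ j) j'
  have h3 : (ζ ^ j) ^ j' = ζ := by
    rw [← pow_mul, pow_eq_pow_mod (j * j') hζ.pow_eq_one, hj', pow_one]
  rw [h3, ← h1] at h2
  apply mul_right_cancel₀ hlam
  rw [one_mul]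
  linear_combination h2

theorem geomS_sub_of_le {ζ : R} (hζ1 : ζ - 1 ≠ 0) {k l : ℕ} (hlk : l ≤ k) :
    geomS ζ k - geomS ζ l = ζ ^ l * geomS ζ (k - l) := by
  apply mul_right_cancel₀ hζ1
  have h1 := geomS_mul ζ k
  have h2 := geomS_mul ζ l
  have h3 := geomS_mul ζ (k - l)
  have h4 : ζ ^ k = ζ ^ l * ζ ^ (k - l) := by rw [← pow_add]; congr 1; omega
  rw [h4] at h1
  linear_combination h1 - h2 - ζ ^ l * h3

/-- The differences of the sheet values are units. -/
theorem exists_geomS_sub_inv {p : ℕ} (hp : p.Prime) {ζ : R} (hζ : IsPrimitiveRoot ζ p) {k l : ℕ}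
    (hk : k < p) (hl : l < p) (hkl : k ≠ l) : ∃ r : R, (geomS ζ k - geomS ζ l) * r = 1 := by
  have hlam : ζ - 1 ≠ 0 := sub_ne_zero.2 (hζ.ne_one hp.one_lt)
  have key : ∀ a b : ℕ, a < p → b < a → ∃ r : R, (geomS ζ a - geomS ζ b) * r = 1 := by
    intro a b ha hba
    obtain ⟨r, hr⟩ := exists_geomS_inv hp hζ (j := a - b) (by omega) (by omega)
    refine ⟨ζ ^ (p - b) * r, ?_⟩
    rw [geomS_sub_of_le hlam hba.le]
    have h1 : ζ ^ b * ζ ^ (p - b) = 1 := by
      rw [← pow_add, show b + (p - b) = p by omega, hζ.pow_eq_one]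
    linear_combination geomS ζ (a - b) * r * h1 + hr
  rcases lt_or_gt_of_ne hkl with h | h
  · obtain ⟨r, hr⟩ := key l k hl h
    exact ⟨-r, by linear_combination hr⟩
  · exact key k l hk h

end CycUnits

section Sheet

variable {R : Type*} [CommRing R] {F : Type*} [Field F] [Algebra R F]

/-- The Lagrange idempotent of the sheet `Y ≡ g k` (`d k l` is the inverse of `g k - g l`). -/
noncomputable def sheetIdem (s : Finset ℕ) (g : ℕ → R) (d : ℕ → ℕ → R) (Y : F) (k : ℕ) : F :=
  ∏ l ∈ s.erase k, (algebraMap R F (d k l) * (Y - algebraMap R F (g l)))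

theorem sheetIdem_mem {O : Subalgebra R F} (s : Finset ℕ) (g : ℕ → R) (d : ℕ → ℕ → R) {Y : F}
    (hY : Y ∈ O) (k : ℕ) : sheetIdem s g d Y k ∈ O :=
  Subalgebra.prod_mem _ fun _ _ =>
    O.mul_mem (O.algebraMap_mem _) (O.sub_mem hY (O.algebraMap_mem _))

theorem sub_mul_sheetIdem (s : Finset ℕ) (g : ℕ → R) (d : ℕ → ℕ → R) (Y : F) {k : ℕ}
    (hk : k ∈ s) :
    (Y - algebraMap R F (g k)) * sheetIdem s g d Y k =
      (∏ l ∈ s.erase k, algebraMap R F (d k l)) * ∏ l ∈ s, (Y - algebraMap R F (g l)) := by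
  rw [sheetIdem, Finset.prod_mul_distrib,
    ← Finset.mul_prod_erase s (fun l => Y - algebraMap R F (g l)) hk]
  ring

theorem inW_sub_mul_sheetIdem {O : Subalgebra R F} {w : R} (s : Finset ℕ) (g : ℕ → R)
    (d : ℕ → ℕ → R) {Y : F} (hA : InW O w (∏ l ∈ s, (Y - algebraMap R F (g l)))) {k : ℕ}
    (hk : k ∈ s) : InW O w ((Y - algebraMap R F (g k)) * sheetIdem s g d Y k) := by
  rw [sub_mul_sheetIdem s g d Y hk]
  exact hA.mul_left (Subalgebra.prod_mem _ fun _ _ => O.algebraMap_mem _)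

theorem inW_sheetIdem_mul {O : Subalgebra R F} {w : R} (s : Finset ℕ) (g : ℕ → R)
    (d : ℕ → ℕ → R) {Y : F} (hY : Y ∈ O)
    (hA : InW O w (∏ l ∈ s, (Y - algebraMap R F (g l)))) {k l : ℕ}
    (hk : k ∈ s) (hkl : k ≠ l) :
    InW O w (sheetIdem s g d Y k * sheetIdem s g d Y l) := by
  have hkl' : k ∈ s.erase l := Finset.mem_erase.2 ⟨hkl, hk⟩
  have h1 : sheetIdem s g d Y l = (algebraMap R F (d l k) * (Y - algebraMap R F (g k))) *
      ∏ j ∈ (s.erase l).erase k, (algebraMap R F (d l j) * (Y - algebraMap R F (g j))) := by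
    rw [sheetIdem, Finset.mul_prod_erase (s.erase l)
      (fun j => algebraMap R F (d l j) * (Y - algebraMap R F (g j))) hkl']
  have h2 : sheetIdem s g d Y k * sheetIdem s g d Y l =
      ((Y - algebraMap R F (g k)) * sheetIdem s g d Y k) * (algebraMap R F (d l k) *
        ∏ j ∈ (s.erase l).erase k, (algebraMap R F (d l j) * (Y - algebraMap R F (g j)))) := by
    rw [h1]; ring
  rw [h2]
  exact (inW_sub_mul_sheetIdem s g d hA hk).mul_right (O.mul_mem (O.algebraMap_mem _)
    (Subalgebra.prod_mem _ fun _ _ =>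
      O.mul_mem (O.algebraMap_mem _) (O.sub_mem hY (O.algebraMap_mem _))))

/-- Lagrange interpolation of the constant `1`. -/
theorem sum_sheetIdem (s : Finset ℕ) (hs : s.Nonempty) (g : ℕ → R) (d : ℕ → ℕ → R)
    (hd : ∀ k ∈ s, ∀ l ∈ s, k ≠ l → (g k - g l) * d k l = 1) (Y : F) :
    ∑ k ∈ s, sheetIdem s g d Y k = 1 := by
  classical
  set v : ℕ → F := fun k => algebraMap R F (g k) with hv
  have hdF : ∀ k ∈ s, ∀ l ∈ s, k ≠ l → (v k - v l) * algebraMap R F (d k l) = 1 := by
    intro k hk l hl hkl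
    have := congrArg (algebraMap R F) (hd k hk l hl hkl)
    rwa [map_mul, map_sub, map_one] at this
  have hinj : Set.InjOn v s := by
    intro k hk l hl hkl
    by_contra hne
    have := hdF k hk l hl hne
    rw [hkl, sub_self, zero_mul] at this
    exact zero_ne_one this
  have h := congrArg (eval Y) (Lagrange.sum_basis hinj hs)
  rw [eval_finsetSum, eval_one] at h
  rw [← h]
  refine Finset.sum_congr rfl fun k hk => ?_
  rw [sheetIdem, Lagrange.basis, eval_prod]
  refine Finset.prod_congr rfl fun l hl => ?_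
  rw [Lagrange.basisDivisor, eval_mul, eval_C, eval_sub, eval_X, eval_C]
  have hl' := Finset.mem_erase.1 hl
  rw [eq_inv_of_mul_eq_one_right (hdF k hk l hl'.2 (Ne.symm hl'.1))]

/-- The sheet idempotents are idempotent modulo `w O`. -/
theorem inW_sheetIdem_sq_sub {O : Subalgebra R F} {w : R} (s : Finset ℕ) (g : ℕ → R)
    (d : ℕ → ℕ → R) (hd : ∀ k ∈ s, ∀ l ∈ s, k ≠ l → (g k - g l) * d k l = 1) {Y : F}
    (hY : Y ∈ O) (hA : InW O w (∏ l ∈ s, (Y - algebraMap R F (g l)))) {k : ℕ} (hk : k ∈ s) :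
    InW O w (sheetIdem s g d Y k ^ 2 - sheetIdem s g d Y k) := by
  classical
  have hsum := sum_sheetIdem (F := F) s ⟨k, hk⟩ g d hd Y
  rw [← Finset.add_sum_erase s _ hk] at hsum
  have h1 : sheetIdem s g d Y k ^ 2 - sheetIdem s g d Y k =
      -(∑ l ∈ s.erase k, sheetIdem s g d Y k * sheetIdem s g d Y l) := by
    rw [← Finset.mul_sum]
    have : ∑ l ∈ s.erase k, sheetIdem s g d Y l = 1 - sheetIdem s g d Y k := by
      linear_combination hsum
    rw [this]; ring
  rw [h1]
  exact (InW.sum _ _ fun l hl =>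
    inW_sheetIdem_mul s g d hY hA hk (Finset.ne_of_mem_erase hl).symm).neg

theorem inW_sub_of_inW_one_sub_sheetIdem {O : Subalgebra R F} {w : R} (s : Finset ℕ)
    (g : ℕ → R) (d : ℕ → ℕ → R) {Y : F} (hY : Y ∈ O)
    (hA : InW O w (∏ l ∈ s, (Y - algebraMap R F (g l)))) {k : ℕ} (hk : k ∈ s)
    (h : InW O w (1 - sheetIdem s g d Y k)) : InW O w (Y - algebraMap R F (g k)) := by
  have : Y - algebraMap R F (g k) = (Y - algebraMap R F (g k)) * sheetIdem s g d Y k +
      (Y - algebraMap R F (g k)) * (1 - sheetIdem s g d Y k) := by ring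
  rw [this]
  exact (inW_sub_mul_sheetIdem s g d hA hk).add
    (h.mul_left (O.sub_mem hY (O.algebraMap_mem _)))

/-- Products of congruent factors are congruent. -/
theorem inW_prod_sub_prod {O : Subalgebra R F} {w : R} (t : Finset ℕ) (a b : ℕ → F)
    (ha : ∀ l ∈ t, a l ∈ O) (hb : ∀ l ∈ t, b l ∈ O) (hab : ∀ l ∈ t, InW O w (a l - b l)) :
    InW O w (∏ l ∈ t, a l - ∏ l ∈ t, b l) := by
  classical
  induction t using Finset.induction_on with
  | empty => simpa using InW.zero O w
  | insert j t hj ih =>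
    rw [Finset.prod_insert hj, Finset.prod_insert hj]
    have e : a j * ∏ l ∈ t, a l - b j * ∏ l ∈ t, b l =
        a j * (∏ l ∈ t, a l - ∏ l ∈ t, b l) + (a j - b j) * ∏ l ∈ t, b l := by ring
    rw [e]
    exact ((ih (fun l hl => ha l (Finset.mem_insert_of_mem hl))
      (fun l hl => hb l (Finset.mem_insert_of_mem hl))
      (fun l hl => hab l (Finset.mem_insert_of_mem hl))).mul_left
        (ha j (Finset.mem_insert_self j t))).add
      ((hab j (Finset.mem_insert_self j t)).mul_right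
        (Subalgebra.prod_mem _ fun l hl => hb l (Finset.mem_insert_of_mem hl)))

/-- Local regularity of the sheet idempotents from a local integral model of `Y`. -/
theorem sheetIdem_locally_regular {C O : Subalgebra R F} (hCO : C ≤ O) {w : R} (s : Finset ℕ)
    (g : ℕ → R) (d : ℕ → ℕ → R) {Y : F} (hY : Y ∈ O) (k : ℕ) (𝔫 : Ideal C) [h𝔫 : 𝔫.IsPrime]
    {S : C} (hS : S ∉ 𝔫) {Y₁ : F} (h₁ : InW O w (Y - Y₁)) (hSY : (S : F) * Y₁ ∈ C) :
    ∃ S' : C, S' ∉ 𝔫 ∧ ∃ e ∈ C, InW O w ((S' : F) * sheetIdem s g d Y k - e) := by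
  classical
  have hY₁ : Y₁ ∈ O := by
    have : Y₁ = Y - (Y - Y₁) := by ring
    rw [this]
    exact O.sub_mem hY h₁.mem
  refine ⟨S ^ (s.erase k).card, fun h => hS (h𝔫.mem_of_pow_mem _ h),
    (S : F) ^ (s.erase k).card * sheetIdem s g d Y₁ k, ?_, ?_⟩
  · have : (S : F) ^ (s.erase k).card * sheetIdem s g d Y₁ k =
        ∏ l ∈ s.erase k, (algebraMap R F (d k l) *
          ((S : F) * Y₁ - (S : F) * algebraMap R F (g l))) := by
      rw [sheetIdem, ← Finset.prod_const, ← Finset.prod_mul_distrib]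
      exact Finset.prod_congr rfl fun l _ => by ring
    rw [this]
    exact Subalgebra.prod_mem _ fun l _ => C.mul_mem (C.algebraMap_mem _)
      (C.sub_mem hSY (C.mul_mem S.2 (C.algebraMap_mem _)))
  · have hdiff : InW O w (sheetIdem s g d Y k - sheetIdem s g d Y₁ k) := by
      refine inW_prod_sub_prod (s.erase k) _ _
        (fun l _ => O.mul_mem (O.algebraMap_mem _) (O.sub_mem hY (O.algebraMap_mem _)))
        (fun l _ => O.mul_mem (O.algebraMap_mem _) (O.sub_mem hY₁ (O.algebraMap_mem _)))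
        (fun l _ => ?_)
      have : algebraMap R F (d k l) * (Y - algebraMap R F (g l)) -
          algebraMap R F (d k l) * (Y₁ - algebraMap R F (g l)) =
          algebraMap R F (d k l) * (Y - Y₁) := by ring
      rw [this]
      exact h₁.mul_left (O.algebraMap_mem _)
    have : ((S ^ (s.erase k).card : C) : F) * sheetIdem s g d Y k -
        (S : F) ^ (s.erase k).card * sheetIdem s g d Y₁ k =
        (S : F) ^ (s.erase k).card * (sheetIdem s g d Y k - sheetIdem s g d Y₁ k) := by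
      push_cast
      ring
    rw [this]
    exact hdiff.mul_left (O.pow_mem (hCO S.2) _)

end Sheet

section Main

variable {R : Type*} [CommRing R] [IsDomain R] [IsNoetherianRing R]
  [IsIntegrallyClosed (Polynomial R)] {F : Type*} [Field F] [Algebra R F] [CharZero F]

/-- **GLUE-p, version B-p.**  `Y` an Artin–Schreier coordinate (`∏_{k ∈ s} (Y - g k) ≡ 0` modulo
`w O`, the `g k` with unit differences) having local integral models at every closed point of the
special fibre of both charts: then `Y ≡ g k mod w O` for one `k`. -/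
theorem as_trivial_of_local
    (hinjR : Function.Injective (algebraMap R F))
    (hRF : ∀ y : F, IsIntegral R y → y ∈ Set.range (algebraMap R F))
    {x : F} (hx : Transcendental R x) [FiniteDimensional (baseField R x) F]
    (w : R) (hw : Prime w)
    (O : Subalgebra R F)
    (hfin : chart R ({x} : Set F) ≤ O) (hinf : chart R ({x⁻¹} : Set F) ≤ O)
    (qep_fin : ∀ b ∈ chart R ({x} : Set F), InW O w b →
      ∃ t ∈ chart R ({x} : Set F), b = algebraMap R F w * t)
    (qep_inf : ∀ b ∈ chart R ({x⁻¹} : Set F), InW O w b →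
      ∃ t ∈ chart R ({x⁻¹} : Set F), b = algebraMap R F w * t)
    (qep_mid : ∀ b ∈ chart R ({x, x⁻¹} : Set F), InW O w b →
      ∃ t ∈ chart R ({x, x⁻¹} : Set F), b = algebraMap R F w * t)
    (h1 : ¬ InW O w 1)
    (s : Finset ℕ) (hs : s.Nonempty) (g : ℕ → R) (d : ℕ → ℕ → R)
    (hd : ∀ k ∈ s, ∀ l ∈ s, k ≠ l → (g k - g l) * d k l = 1)
    {Y : F} (hY : Y ∈ O) (hA : InW O w (∏ l ∈ s, (Y - algebraMap R F (g l))))
    (hloc_fin : ∀ 𝔫 : Ideal (chart R ({x} : Set F)), 𝔫.IsMaximal →
      algebraMap R (chart R ({x} : Set F)) w ∈ 𝔫 →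
      ∃ S : chart R ({x} : Set F), S ∉ 𝔫 ∧
        ∃ Y₁ : F, InW O w (Y - Y₁) ∧ (S : F) * Y₁ ∈ chart R ({x} : Set F))
    (hloc_inf : ∀ 𝔫 : Ideal (chart R ({x⁻¹} : Set F)), 𝔫.IsMaximal →
      algebraMap R (chart R ({x⁻¹} : Set F)) w ∈ 𝔫 →
      ∃ S : chart R ({x⁻¹} : Set F), S ∉ 𝔫 ∧
        ∃ Y₁ : F, InW O w (Y - Y₁) ∧ (S : F) * Y₁ ∈ chart R ({x⁻¹} : Set F)) :
    ∃ k ∈ s, InW O w (Y - algebraMap R F (g k)) := by
  by_contra hcon
  have hall : ∀ k ∈ s, InW O w (sheetIdem s g d Y k) := by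
    intro k hk
    have h := generic_idempotent_trivial hinjR hRF hx w hw O hfin hinf qep_fin qep_inf qep_mid
      (sheetIdem_mem s g d hY k) (inW_sheetIdem_sq_sub s g d hd hY hA hk)
      (fun 𝔫 h𝔫 hw𝔫 => by
        obtain ⟨S, hS, Y₁, h₁, hSY⟩ := hloc_fin 𝔫 h𝔫 hw𝔫
        have := h𝔫.isPrime
        exact sheetIdem_locally_regular hfin s g d hY k 𝔫 hS h₁ hSY)
      (fun 𝔫 h𝔫 hw𝔫 => by
        obtain ⟨S, hS, Y₁, h₁, hSY⟩ := hloc_inf 𝔫 h𝔫 hw𝔫
        have := h𝔫.isPrime
        exact sheetIdem_locally_regular hinf s g d hY k 𝔫 hS h₁ hSY)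
    rcases h with h | h
    · exact h
    · exact absurd ⟨k, hk, inW_sub_of_inW_one_sub_sheetIdem s g d hY hA hk h⟩ hcon
  have := InW.sum s _ hall
  rw [sum_sheetIdem s hs g d hd Y] at this
  exact h1 this

end Main

end Fermat.Agent.Ribet.H552

end
-- ===== PACK-END Ribet/H552/ASIdem.lean

-- ===== PACK-BEGIN Ribet/H223/HeckeFunNorm.lean
section



/-!
# Row 38, WALL-p, leaf HECKE-FUN (helper223), part 1: NORM-ID in every characteristic

`k` ANY field, `ℓ ∤ N` a prime, the primes dividing `N ℓ` invertible in `k`, `ζ ∈ k` a primitive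
`ℓ`-th root of unity.  `F = k(j(q^d) : d ∣ N) ⊆ F' = k(j(q^d) : d ∣ N ℓ)` inside `k((q))`.

* `isSeparable_of_embeddings` : a finite field extension with `[E : F]` pairwise distinct
  embeddings over a fixed embedding of `F` is separable (Mathlib only);
* `hasModPolys_of_char`, `finrank_algIncl_of_char` : the two inputs of helper157's NORM-ID from
  the landed S28 degree theory, in every admissible characteristic;
* `isSeparable_algIncl` : `F' / F` is separable;
* `norm_betaHom_of_char` : `(N_{F'/F}(y(q^ℓ)))(q^ℓ) = y(q^{ℓ²}) ∏_b y(ζ^b q)`;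
* `norm_betaHom_eq_kronNorm_of_char` : **NORM-ID** `N_{F'/F}(y(q^ℓ)) = kronNorm ℓ y` in `k((q))`
  (the characteristic-zero case is helper157's `norm_betaHom_eq_kronNorm`).
-/

set_option autoImplicit false
set_option linter.unusedSectionVars false
set_option linter.style.haveILetI false

noncomputable section

open ModularCurve HahnSeries Polynomial IntermediateField
open Fermat.Agent.S28.H626 Fermat.Agent.S37.H157

namespace Fermat.Agent.Ribet.H223.HF

/-- A finite field extension `E / F` admitting `[E : F]` pairwise distinct ring homomorphisms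
`E → Ω` with the same restriction to `F` is separable. -/
theorem isSeparable_of_embeddings {F E Ω : Type*} [Field F] [Field E] [Field Ω] [Algebra F E]
    [FiniteDimensional F E] (ι : F →+* Ω) {n : ℕ} (hn : Module.finrank F E = n)
    (σ : Fin n → (E →+* Ω)) (hσ : ∀ i (a : F), σ i (algebraMap F E a) = ι a)
    (hinj : Function.Injective σ) : Algebra.IsSeparable F E := by
  classical
  letI : Algebra F (AlgebraicClosure Ω) := ((algebraMap Ω (AlgebraicClosure Ω)).comp ι).toAlgebra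
  have halg : ∀ a : F, algebraMap F (AlgebraicClosure Ω) a
      = algebraMap Ω (AlgebraicClosure Ω) (ι a) := fun a => rfl
  let τ : Fin n → (E →ₐ[F] AlgebraicClosure Ω) := fun i =>
    { toRingHom := (algebraMap Ω (AlgebraicClosure Ω)).comp (σ i)
      commutes' := fun a => by
        show algebraMap Ω (AlgebraicClosure Ω) (σ i (algebraMap F E a)) = _
        rw [hσ i a, halg] }
  have hτ : ∀ i (y : E), τ i y = algebraMap Ω (AlgebraicClosure Ω) (σ i y) := fun i y => rfl
  have hτinj : Function.Injective τ := by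
    intro i j hij
    apply hinj
    ext y
    have := congrArg (fun f : E →ₐ[F] AlgebraicClosure Ω => f y) hij
    simp only [hτ] at this
    exact (algebraMap Ω (AlgebraicClosure Ω)).injective this
  rw [← Field.finSepDegree_eq_finrank_iff]
  apply le_antisymm (Field.finSepDegree_le_finrank F E)
  rw [Field.finSepDegree_eq_of_isAlgClosed F E (AlgebraicClosure Ω), hn]
  have h := Nat.card_le_card_of_injective τ hτinj
  rwa [Nat.card_eq_fintype_card, Fintype.card_fin] at h

section Inputs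

variable (k : Type*) [Field k]

/-- Modular polynomials at the primes dividing `M`, all invertible in `k`. -/
theorem hasModPolys_of_char (M : ℕ) (hchar : ∀ r : ℕ, r.Prime → r ∣ M → (r : k) ≠ 0) :
    HasModPolys k M :=
  Fermat.Agent.S28.H867.hasModPolys k M
    (fun p hp _ _ => Fermat.Agent.S28.H807.nonempty_modPolyData p hp) hchar

/-- `[F' : F] = ℓ + 1`. -/
theorem finrank_algIncl_of_char (N ℓ : ℕ) [NeZero N] [NeZero ℓ] (hℓ : ℓ.Prime) (hℓN : ¬ ℓ ∣ N)
    (hchar : ∀ r : ℕ, r.Prime → r ∣ N * ℓ → (r : k) ≠ 0) :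
    @Module.finrank ↥(modularFunctionFieldFullC k N)
      ↥(modularFunctionFieldFullC k (N * ℓ)) _ _ (algIncl k N ℓ).toModule = ℓ + 1 := by
  have h := Fermat.Agent.S28.H988.relfinrank_full_mul_prime k N ℓ (NeZero.ne N) hℓ hchar
  rw [if_neg hℓN, relfinrank_eq_finrank_of_le (full_le_full_mul k N ℓ)] at h
  rw [← h]
  letI := algIncl k N ℓ
  let e : ↥(modularFunctionFieldFullC k (N * ℓ)) ≃ₗ[↥(modularFunctionFieldFullC k N)]
      ↥(extendScalars (full_le_full_mul k N ℓ)) :=
    { toFun := fun x => ⟨x.1, x.2⟩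
      invFun := fun y => ⟨y.1, y.2⟩
      map_add' := fun _ _ => rfl
      map_smul' := fun _ _ => rfl
      left_inv := fun _ => rfl
      right_inv := fun _ => rfl }
  exact e.finrank_eq

end Inputs

section Norm

variable {k : Type*} [Field k] {N ℓ : ℕ} [NeZero N] [NeZero ℓ]

/-- `F' / F` is finite. -/
theorem finiteDimensional_algIncl
    (hfin : @Module.finrank ↥(modularFunctionFieldFullC k N)
      ↥(modularFunctionFieldFullC k (N * ℓ)) _ _ (algIncl k N ℓ).toModule = ℓ + 1) :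
    @FiniteDimensional ↥(modularFunctionFieldFullC k N)
      ↥(modularFunctionFieldFullC k (N * ℓ)) _ _ (algIncl k N ℓ).toModule := by
  letI := algIncl k N ℓ
  exact Module.finite_of_finrank_pos (by rw [hfin]; omega)

/-- `F' / F` is separable (in every characteristic). -/
theorem isSeparable_algIncl {Φ : Polynomial (Polynomial ℤ)} (hℓ : ℓ.Prime) (hℓN : ¬ ℓ ∣ N)
    (H : HasModPolys k (N * ℓ)) (hΦ : IsModPoly ℓ Φ) (ζ : kˣ) (hζ : IsPrimitiveRoot ζ ℓ)
    (hfin : @Module.finrank ↥(modularFunctionFieldFullC k N)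
      ↥(modularFunctionFieldFullC k (N * ℓ)) _ _ (algIncl k N ℓ).toModule = ℓ + 1) :
    @Algebra.IsSeparable ↥(modularFunctionFieldFullC k N)
      ↥(modularFunctionFieldFullC k (N * ℓ)) _ _ (algIncl k N ℓ) := by
  letI := algIncl k N ℓ
  haveI := finiteDimensional_algIncl hfin
  exact isSeparable_of_embeddings (baseHom k N ℓ) hfin
    (embFamily hℓ hℓN H hΦ (natDegree_minpoly_jdl hℓ hℓN H hΦ hfin) ζ)
    (fun i a => embFamily_algebraMap hℓ hℓN H hΦ _ ζ hζ.pow_eq_one i a)
    (embFamily_injective hℓ hℓN H hΦ _ ζ hζ)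

/-- **Norm formula, general element**, every characteristic. -/
theorem norm_eq_swap_of_char {Φ : Polynomial (Polynomial ℤ)} (hℓ : ℓ.Prime) (hℓN : ¬ ℓ ∣ N)
    (H : HasModPolys k (N * ℓ)) (hΦ : IsModPoly ℓ Φ) (ζ : kˣ) (hζ : IsPrimitiveRoot ζ ℓ)
    (hfin : @Module.finrank ↥(modularFunctionFieldFullC k N)
      ↥(modularFunctionFieldFullC k (N * ℓ)) _ _ (algIncl k N ℓ).toModule = ℓ + 1)
    (x : modularFunctionFieldFullC k (N * ℓ)) :
    qExpand k ℓ ((@Algebra.norm ↥(modularFunctionFieldFullC k N) _ _ _ (algIncl k N ℓ) x :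
        modularFunctionFieldFullC k N) : LaurentSeries k)
      = qExpand k ℓ (x : LaurentSeries k) *
          ∏ b ∈ Finset.range ℓ, twist (ζ ^ b)
            (swapHom hℓ hℓN H hΦ (natDegree_minpoly_jdl hℓ hℓN H hΦ hfin) x) := by
  letI := algIncl k N ℓ
  haveI := finiteDimensional_algIncl hfin
  haveI := isSeparable_algIncl hℓ hℓN H hΦ ζ hζ hfin
  have key := norm_eq_prod_of_embeddings (baseHom k N ℓ) hfin
    (embFamily hℓ hℓN H hΦ (natDegree_minpoly_jdl hℓ hℓN H hΦ hfin) ζ)
    (fun i a => embFamily_algebraMap hℓ hℓN H hΦ _ ζ hζ.pow_eq_one i a)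
    (embFamily_injective hℓ hℓN H hΦ _ ζ hζ) x
  rw [baseHom_apply] at key
  rw [key, Fin.prod_univ_castSucc, embFamily_last, mul_comm]
  congr 1
  simp_rw [embFamily_castSucc]
  exact Fin.prod_univ_eq_prod_range
    (fun b => twist (ζ ^ b) (swapHom hℓ hℓN H hΦ (natDegree_minpoly_jdl hℓ hℓN H hΦ hfin) x)) ℓ

/-- **NORM-ID**, every characteristic. -/
theorem norm_betaHom_of_char (hℓ : ℓ.Prime) (hℓN : ¬ ℓ ∣ N)
    (H : HasModPolys k (N * ℓ)) (ζ : kˣ) (hζ : IsPrimitiveRoot ζ ℓ)
    (hfin : @Module.finrank ↥(modularFunctionFieldFullC k N)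
      ↥(modularFunctionFieldFullC k (N * ℓ)) _ _ (algIncl k N ℓ).toModule = ℓ + 1)
    (y : modularFunctionFieldFullC k N) :
    qExpand k ℓ ((@Algebra.norm ↥(modularFunctionFieldFullC k N) _ _ _ (algIncl k N ℓ)
        (betaHom k N ℓ y) : modularFunctionFieldFullC k N) : LaurentSeries k)
      = qExpand k (ℓ * ℓ) (y : LaurentSeries k) *
          ∏ b ∈ Finset.range ℓ, twist (ζ ^ b) (y : LaurentSeries k) := by
  obtain ⟨-, Φ, hΦ⟩ := H ℓ hℓ (Dvd.intro_left N rfl)
  rw [norm_eq_swap_of_char hℓ hℓN H hΦ ζ hζ hfin, coe_betaHom, qExpand_qExpand]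
  simp_rw [swapHom_betaHom]

/-- **NORM-ID (closed form)**, every characteristic: `N_{F'/F}(y(q^ℓ)) = kronNorm ℓ y`. -/
theorem norm_betaHom_eq_kronNorm_of_char (hℓ : ℓ.Prime) (hℓN : ¬ ℓ ∣ N)
    (hchar : ∀ r : ℕ, r.Prime → r ∣ N * ℓ → (r : k) ≠ 0)
    (ζ : kˣ) (hζ : IsPrimitiveRoot ζ ℓ) (y : modularFunctionFieldFullC k N) :
    ((@Algebra.norm ↥(modularFunctionFieldFullC k N) _ _ _ (algIncl k N ℓ)
        (betaHom k N ℓ y) : modularFunctionFieldFullC k N) : LaurentSeries k)
      = Fermat.Agent.S37.H400.kronNorm ℓ (y : LaurentSeries k) := by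
  apply qExpand_injective (R := k) ℓ
  rw [norm_betaHom_of_char hℓ hℓN (hasModPolys_of_char k (N * ℓ) hchar) ζ hζ
    (finrank_algIncl_of_char k N ℓ hℓ hℓN hchar), Fermat.Agent.S37.H400.kronNorm, map_mul,
    qExpand_qExpand, qExpand_det_secMat ζ hζ]

end Norm

end Fermat.Agent.Ribet.H223.HF

end
end
-- ===== PACK-END Ribet/H223/HeckeFunNorm.lean

-- ===== PACK-BEGIN A2/Mod/H142/S2.lean
section




/-!
# A2 / MODASM sub-assembly S2 (components normal) (helper142)

`s2_of_leaves : FrickeStableStatement P E M q w → ResInfStatement P E M q w → S2Statement P E M q w`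

The leaves L2 (H553), L4/L5 (H751), L13 (H873) are taken from main; L7 and L11 are hypotheses
(VERBATIM `Mod/Spec.lean` statements).

Route: `normal_side` (`S2Side.lean`) with `(V', γ) = (V∞, α)` for `p₁` and
`(V', γ) = (V₀ = V∞ ∘ W, β)` for `p₂`; the coordinate congruences
`x ≡ α(j)^(q+1) mod w V∞`, `W x ≡ α(j_M)^(q+1) mod w V∞` are Frobenius congruences of integer
series (`frobCong`).
-/

set_option autoImplicit false
set_option synthInstance.maxHeartbeats 400000
set_option maxHeartbeats 1600000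
set_option linter.unusedSectionVars false
set_option linter.style.haveILetI false

noncomputable section

namespace Fermat.Agent.A2.Mod.H142

open ModularCurve HahnSeries Polynomial

variable (P : ValuationSubring _root_.Fermat.Agent.A2.Mod.Qb) (E : IntermediateField ℚ _root_.Fermat.Agent.A2.Mod.Qb)
variable (M q : ℕ) [NeZero M] [NeZero q] (w : _root_.Fermat.Agent.A2.Mod.RE P E)

/-- `α` maps `V∞` of level `M` into `V∞` of level `M q`. -/
theorem alpha_mem {VM : ValuationSubring (_root_.Fermat.Agent.A2.Mod.FE E M)} {V : ValuationSubring (_root_.Fermat.Agent.A2.Mod.FE E (M * q))}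
    (hVM : IsVinf P E M VM) (hV : IsVinf P E (M * q) V) {g : _root_.Fermat.Agent.A2.Mod.FE E M} (hg : g ∈ VM) :
    αE E M q g ∈ V := by
  obtain ⟨U₁, U₂, h0, hm, he⟩ := (hVM g).1 hg
  refine (hV _).2 ⟨U₁, U₂, h0, ?_, ?_⟩
  · have h := (αE E M q ⟨_, hm⟩).2
    rwa [coe_heckeAlphaBar] at h
  · rw [coe_heckeAlphaBar]
    exact he

/-- The frame of the two coordinates. -/
theorem xE_eq : xE E M q = jE E (M * q) 1 (one_dvd _) * jE E (M * q) q (dvd_mul_left q M) := rfl

/-- **S2 on `C∞`.** -/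
theorem normal_inf (hL11 : ResInfStatement P E M q w) (hS : Setting P E M q w)
    (VM : ValuationSubring (_root_.Fermat.Agent.A2.Mod.FE E M)) (V : ValuationSubring (_root_.Fermat.Agent.A2.Mod.FE E (M * q)))
    (hVM : IsVinf P E M VM) (hV : IsVinf P E (M * q) V)
    (yM : _root_.Fermat.Agent.A2.Mod.FE E M) (y : _root_.Fermat.Agent.A2.Mod.FE E (M * q)) (hy : IsCoordPair E M q yM y)
    (hgood : GoodRedAt P E M w VM yM)
    (p : Ideal (chartAlg P E (M * q) y))
    (hp : IsCut P E (M * q) w V (chartAlg P E (M * q) y) p) :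
    IsIntegrallyClosed (chartAlg P E (M * q) y ⧸ p) := by
  have hN : M * q ≠ 0 := Nat.mul_ne_zero hS.M_ne_zero hS.q_prime.ne_zero
  haveI : NeZero (M * q) := ⟨hN⟩
  haveI : NeZero (1 * q) := ⟨by rw [one_mul]; exact hS.q_prime.ne_zero⟩
  have hL2 := H553.vinfBasic P E w (M * q) hN hS.dvr hS.unif V hV
  have hL2M := H553.vinfBasic P E w M hS.M_ne_zero hS.dvr hS.unif VM hVM
  have hL13 := H873.chartCompat P E M q hS.q_prime
  have hRV : ∀ r : _root_.Fermat.Agent.A2.Mod.RE P E, algebraMap (_root_.Fermat.Agent.A2.Mod.RE P E) (_root_.Fermat.Agent.A2.Mod.FE E (M * q)) r ∈ V := fun r =>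
    (hL2.2.1 (r : E)).mpr r.2
  -- notation
  obtain ⟨j, hj⟩ : ∃ j : _root_.Fermat.Agent.A2.Mod.FE E (M * q), j = jE E (M * q) 1 (one_dvd _) := ⟨_, rfl⟩
  obtain ⟨jq, hjq⟩ : ∃ jq : _root_.Fermat.Agent.A2.Mod.FE E (M * q), jq = jE E (M * q) q (dvd_mul_left q M) := ⟨_, rfl⟩
  have hjV : j ∈ V ∧ j⁻¹ ∈ V := hj ▸ hL2.2.2 1 (one_dvd _)
  have hjqV : jq ∈ V ∧ jq⁻¹ ∈ V := hjq ▸ hL2.2.2 q (dvd_mul_left q M)
  have hx : xE E M q = j * jq := by rw [hj, hjq]; rfl
  have hαj : αE E M q (jE E M 1 (one_dvd _)) = j := by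
    rw [hj]
    exact H751.alpha_jE E M q 1 (one_dvd M)
  have hfrob : InW P E (M * q) V w (jq - j ^ q) := by
    have h := frobCong (P := P) (E := E) (w := w) hS.q_prime hS.dvr hS.unif hS.lies_over hN hV 1
      (one_dvd _) (by rw [one_mul]; exact dvd_mul_left q M)
    rw [hj, hjq]
    have h1 : jE E (M * q) (1 * q) (by rw [one_mul]; exact dvd_mul_left q M) =
        jE E (M * q) q (dvd_mul_left q M) := H751.jE_congr E (M * q) (one_mul q) _ _
    rwa [h1] at h
  have hj0 : j ≠ 0 := hj ▸ H873.jE_ne_zero E (M * q) 1 (one_dvd _)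
  have hjq0 : jq ≠ 0 := hjq ▸ H873.jE_ne_zero E (M * q) q (dvd_mul_left q M)
  have hcinv : (j * jq)⁻¹ - j⁻¹ ^ (q + 1) = -(jq - j ^ q) * (j⁻¹ * jq⁻¹ * j⁻¹ ^ q) := by
    have hjqb : jq * jq⁻¹ = 1 := mul_inv_cancel₀ hjq0
    have hpow : j ^ q * j⁻¹ ^ q = 1 := by rw [← mul_pow, mul_inv_cancel₀ hj0, one_pow]
    have h1 : -(jq - j ^ q) * (j⁻¹ * jq⁻¹ * j⁻¹ ^ q) =
        (j ^ q * j⁻¹ ^ q) * (j⁻¹ * jq⁻¹) - (jq * jq⁻¹) * j⁻¹ ^ (q + 1) := by ring
    rw [h1, hpow, hjqb, mul_inv]
    ring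
  rcases hy with ⟨rfl, rfl⟩ | ⟨rfl, rfl⟩
  · -- finite chart
    refine normal_side P E M q w hS VM hVM V hL2.1 hRV (αE E M q)
      (fun g hg => alpha_mem P E M q hVM hV hg) (hL11 hS VM V hVM hV) _ _
      (hL2M.2.2 1 (one_dvd M)).1 ?_ ?_ ?_ hgood p hp
    · rw [hx]
      exact V.mul_mem _ _ hjV.1 hjqV.1
    · rw [map_pow, hαj, hx]
      have : j * jq - j ^ (q + 1) = (jq - j ^ q) * j := by ring
      rw [this]
      exact inW_mul_right hfrob hjV.1
    · rw [hαj, hj]
      exact (mem_chart_iff P E (M * q) _ _).1 hL13.1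
  · -- chart at infinity
    refine normal_side P E M q w hS VM hVM V hL2.1 hRV (αE E M q)
      (fun g hg => alpha_mem P E M q hVM hV hg) (hL11 hS VM V hVM hV) _ _
      (hL2M.2.2 1 (one_dvd M)).2 ?_ ?_ ?_ hgood p hp
    · rw [hx, mul_inv]
      exact V.mul_mem _ _ hjV.2 hjqV.2
    · rw [map_pow, map_inv₀, hαj, hx]
      rw [hcinv]
      exact inW_mul_right (inW_neg hfrob)
        (V.mul_mem _ _ (V.mul_mem _ _ hjV.2 hjqV.2) (pow_mem hjV.2 q))
    · rw [map_inv₀, hαj, hj]
      exact (mem_chart_iff P E (M * q) _ _).1 hL13.2.2.1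

section Comap

variable {P E} {N : ℕ} {V : ValuationSubring (_root_.Fermat.Agent.A2.Mod.FE E N)} {w}

theorem isUnif_comap (W : _root_.Fermat.Agent.A2.Mod.FE E N ≃ₐ[E] _root_.Fermat.Agent.A2.Mod.FE E N) (hU : H48.IsUnif V (cE P E N w)) :
    H48.IsUnif (V.comap (W : _root_.Fermat.Agent.A2.Mod.FE E N →+* _root_.Fermat.Agent.A2.Mod.FE E N)) (cE P E N w) := by
  have hWc : W (cE P E N w) = cE P E N w := W.commutes _
  refine ⟨?_, ?_, ?_⟩
  · rw [ValuationSubring.mem_comap]
    show W (cE P E N w) ∈ V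
    rw [hWc]
    exact hU.mem
  · rw [ValuationSubring.mem_comap]
    show ¬ W (cE P E N w)⁻¹ ∈ V
    rw [map_inv₀, hWc]
    exact hU.inv_not_mem
  · intro f hf hfinv
    rw [ValuationSubring.mem_comap] at hf hfinv ⊢
    show W (f * (cE P E N w)⁻¹) ∈ V
    rw [map_mul, map_inv₀, hWc]
    refine hU.gen _ hf ?_
    have : (W f)⁻¹ = W f⁻¹ := (map_inv₀ W f).symm
    rw [this]
    exact hfinv

theorem inW_comap_iff (W : _root_.Fermat.Agent.A2.Mod.FE E N ≃ₐ[E] _root_.Fermat.Agent.A2.Mod.FE E N) (f : _root_.Fermat.Agent.A2.Mod.FE E N) :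
    InW P E N (V.comap (W : _root_.Fermat.Agent.A2.Mod.FE E N →+* _root_.Fermat.Agent.A2.Mod.FE E N)) w f ↔ InW P E N V w (W f) := by
  have hWc : W (cE P E N w) = cE P E N w := W.commutes _
  unfold InW
  rw [ValuationSubring.mem_comap]
  show W (f * (cE P E N w)⁻¹) ∈ V ↔ _
  rw [map_mul, map_inv₀, hWc]

end Comap

/-- **S2 on `C₀`.** -/
theorem normal_zero (hL7 : FrickeStableStatement P E M q w) (hL11 : ResInfStatement P E M q w)
    (hS : Setting P E M q w)
    (VM : ValuationSubring (_root_.Fermat.Agent.A2.Mod.FE E M)) (V : ValuationSubring (_root_.Fermat.Agent.A2.Mod.FE E (M * q)))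
    (W : _root_.Fermat.Agent.A2.Mod.FE E (M * q) ≃ₐ[E] _root_.Fermat.Agent.A2.Mod.FE E (M * q))
    (hVM : IsVinf P E M VM) (hV : IsVinf P E (M * q) V) (hW : IsFricke E (M * q) W)
    (yM : _root_.Fermat.Agent.A2.Mod.FE E M) (y : _root_.Fermat.Agent.A2.Mod.FE E (M * q)) (hy : IsCoordPair E M q yM y)
    (hgood : GoodRedAt P E M w VM yM)
    (p : Ideal (chartAlg P E (M * q) y))
    (hp : IsCut P E (M * q) w (V.comap (W : _root_.Fermat.Agent.A2.Mod.FE E (M * q) →+* _root_.Fermat.Agent.A2.Mod.FE E (M * q)))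
      (chartAlg P E (M * q) y) p) :
    IsIntegrallyClosed (chartAlg P E (M * q) y ⧸ p) := by
  have hN : M * q ≠ 0 := Nat.mul_ne_zero hS.M_ne_zero hS.q_prime.ne_zero
  haveI : NeZero (M * q) := ⟨hN⟩
  have hL2 := H553.vinfBasic P E w (M * q) hN hS.dvr hS.unif V hV
  have hL2M := H553.vinfBasic P E w M hS.M_ne_zero hS.dvr hS.unif VM hVM
  have hL13 := H873.chartCompat P E M q hS.q_prime
  have hU0 := isUnif_comap W hL2.1
  have hWM := H751.isFricke_frickeE E M
  have hL5 := H751.frickeCompat E M q (H751.frickeE E M) W hWM hW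
  have hRV0 : ∀ r : _root_.Fermat.Agent.A2.Mod.RE P E, algebraMap (_root_.Fermat.Agent.A2.Mod.RE P E) (_root_.Fermat.Agent.A2.Mod.FE E (M * q)) r ∈
      V.comap (W : _root_.Fermat.Agent.A2.Mod.FE E (M * q) →+* _root_.Fermat.Agent.A2.Mod.FE E (M * q)) := fun r => by
    rw [ValuationSubring.mem_comap]
    show W (algebraMap E (_root_.Fermat.Agent.A2.Mod.FE E (M * q)) (r : E)) ∈ V
    rw [W.commutes]
    exact (hL2.2.1 (r : E)).mpr r.2
  -- notation
  obtain ⟨j, hj⟩ : ∃ j : _root_.Fermat.Agent.A2.Mod.FE E (M * q), j = jE E (M * q) 1 (one_dvd _) := ⟨_, rfl⟩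
  obtain ⟨jq, hjq⟩ : ∃ jq : _root_.Fermat.Agent.A2.Mod.FE E (M * q), jq = jE E (M * q) q (dvd_mul_left q M) := ⟨_, rfl⟩
  obtain ⟨jM, hjM⟩ : ∃ jM : _root_.Fermat.Agent.A2.Mod.FE E (M * q), jM = jE E (M * q) M (dvd_mul_right M q) := ⟨_, rfl⟩
  obtain ⟨jN, hjN⟩ : ∃ jN : _root_.Fermat.Agent.A2.Mod.FE E (M * q), jN = jE E (M * q) (M * q) dvd_rfl := ⟨_, rfl⟩
  have hjMV : jM ∈ V ∧ jM⁻¹ ∈ V := hjM ▸ hL2.2.2 M (dvd_mul_right M q)
  have hjNV : jN ∈ V ∧ jN⁻¹ ∈ V := hjN ▸ hL2.2.2 (M * q) dvd_rfl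
  have hx : xE E M q = j * jq := by rw [hj, hjq]; rfl
  have hWj : W j = jN := by
    rw [hj, hjN]
    exact hW.1 1 (M * q) (one_dvd _) dvd_rfl (one_mul _)
  have hWjq : W jq = jM := by
    rw [hjq, hjM]
    exact hW.1 q M (dvd_mul_left q M) (dvd_mul_right M q) (mul_comm q M)
  have hWx : W (xE E M q) = jN * jM := by rw [hx, map_mul, hWj, hWjq]
  have hβj : βE E M q (jE E M 1 (one_dvd _)) = jq := by
    rw [hjq, H751.beta_jE E M q 1 (one_dvd M)]
    exact H751.jE_congr E (M * q) (mul_one q) _ _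
  have hWβj : W (βE E M q (jE E M 1 (one_dvd _))) = jM := by rw [hβj, hWjq]
  have hfrob : InW P E (M * q) V w (jN - jM ^ q) := by
    have h := frobCong (P := P) (E := E) (w := w) hS.q_prime hS.dvr hS.unif hS.lies_over hN hV M
      (dvd_mul_right M q) dvd_rfl
    rw [hjN, hjM]
    exact h
  have hjM0 : jM ≠ 0 := hjM ▸ H873.jE_ne_zero E (M * q) M (dvd_mul_right M q)
  have hjN0 : jN ≠ 0 := hjN ▸ H873.jE_ne_zero E (M * q) (M * q) dvd_rfl
  have hcinv : (jN * jM)⁻¹ - jM⁻¹ ^ (q + 1) = -(jN - jM ^ q) * (jM⁻¹ * jN⁻¹ * jM⁻¹ ^ q) := by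
    have hb : jN * jN⁻¹ = 1 := mul_inv_cancel₀ hjN0
    have hpow : jM ^ q * jM⁻¹ ^ q = 1 := by rw [← mul_pow, mul_inv_cancel₀ hjM0, one_pow]
    have h1 : -(jN - jM ^ q) * (jM⁻¹ * jN⁻¹ * jM⁻¹ ^ q) =
        (jM ^ q * jM⁻¹ ^ q) * (jM⁻¹ * jN⁻¹) - (jN * jN⁻¹) * jM⁻¹ ^ (q + 1) := by ring
    rw [h1, hpow, hb, mul_inv]
    ring
  -- `β` maps `V∞_M` into `V₀`
  have hβV : ∀ g ∈ VM, βE E M q g ∈ V.comap (W : _root_.Fermat.Agent.A2.Mod.FE E (M * q) →+* _root_.Fermat.Agent.A2.Mod.FE E (M * q)) := by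
    intro g hg
    rw [ValuationSubring.mem_comap]
    show W (βE E M q g) ∈ V
    rw [(hL5 g).2]
    exact alpha_mem P E M q hVM hV (hL7 hS VM (H751.frickeE E M) hVM hWM g hg)
  -- residue degree one on `C₀`
  have hres : ∀ f ∈ V.comap (W : _root_.Fermat.Agent.A2.Mod.FE E (M * q) →+* _root_.Fermat.Agent.A2.Mod.FE E (M * q)), ∃ g ∈ VM,
      InW P E (M * q) (V.comap (W : _root_.Fermat.Agent.A2.Mod.FE E (M * q) →+* _root_.Fermat.Agent.A2.Mod.FE E (M * q))) w (f - βE E M q g) := by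
    intro f hf
    rw [ValuationSubring.mem_comap] at hf
    obtain ⟨g', hg', h⟩ := hL11 hS VM V hVM hV (W f) hf
    refine ⟨H751.frickeE E M g', hL7 hS VM (H751.frickeE E M) hVM hWM g' hg', ?_⟩
    rw [inW_comap_iff, map_sub, (hL5 _).2, hWM.2]
    exact h
  rcases hy with ⟨rfl, rfl⟩ | ⟨rfl, rfl⟩
  · -- finite chart
    refine normal_side P E M q w hS VM hVM _ hU0 hRV0 (βE E M q) hβV hres _ _
      (hL2M.2.2 1 (one_dvd M)).1 ?_ ?_ ?_ hgood p hp
    · rw [ValuationSubring.mem_comap]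
      show W (xE E M q) ∈ V
      rw [hWx]
      exact V.mul_mem _ _ hjNV.1 hjMV.1
    · rw [inW_comap_iff, map_sub, hWx, map_pow, map_pow, hWβj]
      have : jN * jM - jM ^ (q + 1) = (jN - jM ^ q) * jM := by ring
      rw [this]
      exact inW_mul_right hfrob hjMV.1
    · rw [hβj, hjq]
      exact (mem_chart_iff P E (M * q) _ _).1 hL13.2.1
  · -- chart at infinity
    refine normal_side P E M q w hS VM hVM _ hU0 hRV0 (βE E M q) hβV hres _ _
      (hL2M.2.2 1 (one_dvd M)).2 ?_ ?_ ?_ hgood p hp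
    · rw [ValuationSubring.mem_comap]
      show W (xE E M q)⁻¹ ∈ V
      rw [map_inv₀, hWx, mul_inv]
      exact V.mul_mem _ _ hjNV.2 hjMV.2
    · rw [inW_comap_iff, map_sub, map_inv₀, hWx, map_pow, map_pow, map_inv₀, map_inv₀, hWβj, hcinv]
      exact inW_mul_right (inW_neg hfrob)
        (V.mul_mem _ _ (V.mul_mem _ _ hjMV.2 hjNV.2) (pow_mem hjMV.2 q))
    · rw [map_inv₀, hβj, hjq]
      exact (mem_chart_iff P E (M * q) _ _).1 hL13.2.2.2

/-- **MODASM sub-assembly S2** from the leaves L7 (`FrickeStable`) and L11 (`ResInf`);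
the leaves L2, L4, L5, L13 are taken from main (H553, H751, H873). -/
theorem s2_of_leaves (hL7 : FrickeStableStatement P E M q w)
    (hL11 : ResInfStatement P E M q w) : S2Statement P E M q w := by
  intro hS VM V W hVM hV hW yM y hy hgood p₁ p₂ hc₁ hc₂
  exact ⟨normal_inf P E M q w hL11 hS VM V hVM hV yM y hy hgood p₁ hc₁,
    normal_zero P E M q w hL7 hL11 hS VM V W hVM hV hW yM y hy hgood p₂ hc₂⟩

end Fermat.Agent.A2.Mod.H142

end
end
-- ===== PACK-END A2/Mod/H142/S2.lean

-- ===== PACK-BEGIN A2/Alg/H609/PurityNode.lean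
section




/-!
# WALL A2 / ALG — leaf P-N `purity_node` (helper609)

`purityNodeLeaf : Alg.H34.PurityNodeLeaf`, VERBATIM the leaf of the assembly
`Alg.H34.algSS_of_leaves`.

Proof: node purity `A2.H609.exists_pureAt_node` (length count in the local ring `B_n`; no
`δ`-count, the hypothesis `SepCoord` is not used, no hypothesis on the thickness of the node),
with
* `B` noetherian, integrally closed, `Frac B = F` (`Alg.H34.chart_instances'`),
* `B ⧸ pᵢ` Dedekind (`isDedekindDomain_quotient_chart`),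
* (H1) from `DivisibleDiv` (`algebraMap_field_mem`), (H2) from `IsSplit`.
-/

set_option autoImplicit false

namespace Fermat.Agent.A2.Alg.H609

open Fermat.Agent.A2 Fermat.Agent.A2.Alg

section Node

variable {R E F : Type*} [CommRing R] [IsDomain R] [IsDiscreteValuationRing R]
  [Field E] [CharZero E] [Algebra R E] [IsFractionRing R E]
  [Field F] [Algebra E F] [Algebra R F] [IsScalarTower R E F]

omit [CharZero E] in
/-- The hypothesis `hdiv` of the core purity theorems from `DivisibleDiv`. -/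
theorem hdiv_of_divisibleDiv (w : R) (hw : Irreducible w) (B : Subalgebra R F) (m : ℕ) (u : F)
    (hdiv : DivisibleDiv E m u) :
    ∀ V : ValuationSubring F, IsDiscreteValuationRing V →
      (∀ b : B, algebraMap B F b ∈ V) → (algebraMap B F (algebraMap R B w))⁻¹ ∈ V →
      ∃ h u₀ : F, u₀ ∈ V ∧ u₀⁻¹ ∈ V ∧ u = u₀ * h ^ m := by
  intro V hV hB hwV
  have hR : ∀ r : R, algebraMap R F r ∈ V := fun r => hB (algebraMap R B r)
  obtain ⟨h, u₀, -, hu₀, hu₀', huh⟩ := hdiv V hV (algebraMap_field_mem hw V hR hwV)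
  exact ⟨h, u₀, hu₀, hu₀', huh⟩

omit [IsDomain R] [IsDiscreteValuationRing R] [Field E] [CharZero E] [Algebra R E]
  [IsFractionRing R E] [Algebra E F] [IsScalarTower R E F] in
/-- The hypothesis `hs` of the core purity theorems from `ConstAt`. -/
theorem hs_of_constAt (B : Subalgebra R F) (p : Ideal B) (u : F) (h : ConstAt B p u) :
    ∃ c a b : B, IsUnit c ∧ b ∉ p ∧ a - c * b ∈ p ∧ u * algebraMap B F b = algebraMap B F a := by
  obtain ⟨c, hc, a, b, hb, hab, hu⟩ := h
  exact ⟨algebraMap R B c, a, b, hc.map _, hb, hab, hu⟩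

/-- **Leaf P-N**, universe polymorphic. -/
theorem purity_node (m : ℕ) (hm : 0 < m)
    (w : R) (x : F) (B : Subalgebra R F) (hB : ChartCtx E w x B)
    (c : SSChart w B)
    (u : F) (hdiv : DivisibleDiv E m u) (hs : IsSplit B c u)
    (n : Ideal B) (hn : n.IsPrime)
    (h1 : c.p₁ ≤ n) (h2 : c.p₂ ≤ n) : PureAt B c m u n := by
  obtain ⟨hnoeth, hic, hfrac⟩ := H34.chart_instances' w x B hB
  have hp₁ : c.p₁.IsPrime := c.prime₁
  have hp₂ : c.p₂.IsPrime := c.prime₂
  have hn₁ : IsIntegrallyClosed (B ⧸ c.p₁) := c.normal₁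
  have hn₂ : IsIntegrallyClosed (B ⧸ c.p₂) := c.normal₂
  have hw : algebraMap R B w ∈ c.p₁ ⊓ c.p₂ := by
    rw [c.inf_eq]
    exact Ideal.mem_span_singleton_self _
  have hd₁ : IsDedekindDomain (B ⧸ c.p₁) := isDedekindDomain_quotient_chart w x B hB c.p₁ hw.1
  have hd₂ : IsDedekindDomain (B ⧸ c.p₂) := isDedekindDomain_quotient_chart w x B hB c.p₂ hw.2
  exact Fermat.Agent.A2.H609.exists_pureAt_node (B := B) (F := F) hm.ne' c.p₁ c.p₂ n c.inf_eq
    c.not_le₁₂ c.not_le₂₁ c.transversal h1 h2 u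
    (hdiv_of_divisibleDiv w hB.hw B m u hdiv)
    (hs_of_constAt B c.p₁ u hs.1) (hs_of_constAt B c.p₂ u hs.2)

end Node

/-- **Leaf P-N** `purity_node`, VERBATIM (`Alg.H34.PurityNodeLeaf`). -/
theorem purityNodeLeaf : H34.PurityNodeLeaf := by
  intro R E F _ _ _ _ _ _ _ _ _ _ _ _ _ q m _ _ hm _ w x B hB c _ _ u _ hdiv hs n hn _ h1 h2
  exact purity_node m hm w x B hB c u hdiv hs n hn.isPrime h1 h2

end Fermat.Agent.A2.Alg.H609

end
-- ===== PACK-END A2/Alg/H609/PurityNode.lean

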