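import Mathlib
import Mathlib.FieldTheory.Galois.Basic
import Fermat.Agent.Pack.S44C.G0E6L0
import Fermat.Agent.Pack.S44C.G0E25L2
import Fermat.Agent.Pack.S44C.G0E25L3
import Fermat.Agent.Pack.S44C.G0E10L1
import Fermat.Agent.Pack.S44C.G0E11L0
import Fermat.Agent.Pack.S44C.G0E24L2
import Fermat.Agent.Pack.S44C.G0E19L0
import Fermat.Agent.Pack.S44C.G0E23L2
import Fermat.Agent.Pack.S44C.G0E19L1
import Fermat.Agent.Pack.S44C.G0E2L0
import Fermat.Agent.Pack.S44C.G0E25L0
import Fermat.Agent.Pack.S44C.G0E24L1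
import Fermat.Agent.Pack.S44C.G0E9L3
import Fermat.Agent.Pack.S44C.G0E21L0
import Fermat.Agent.Pack.S44C.G0E12L1
import Fermat.Agent.Pack.S44C.G0E21L3
import Fermat.Agent.Pack.S44C.G0E25L1
import Fermat.Agent.Pack.S44C.G0E20L3
import Fermat.Agent.Pack.S44C.G0E22L0
import Fermat.Agent.Pack.S44C.G0E20L2
import Fermat.Agent.Pack.S44C.G0E23L0
import Fermat.Agent.Pack.S44C.G0E16L3
import Fermat.Agent.Pack.Fast891

-- ===== PACK-BEGIN S29/HI.lean
section



/-!
# S29, layer M, piece `HI` (helper812): exact `SkeletonM` statement.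
Proof in `Fermat/Agent/S29/H812/HeckeInputs.lean` (holds for every `ℓ ≠ 0`).
-/

set_option autoImplicit false

noncomputable section

namespace Fermat.Agent.S29

open ModularCurve AlgebraicCurve

variable (N : ℕ) [NeZero N]

/-- PIECE `HI`: the Prelude Hecke operator is the genuine correspondence (all six inputs hold). -/
theorem heckeInputsAlong_bar (ℓ : ℕ) [NeZero ℓ] (_hℓ : ℓ.Prime) :
    HeckeInputsAlong (AlgebraicClosure ℚ) N ℓ :=
  H812.heckeInputsAlong N ℓ

end Fermat.Agent.S29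

end
end
-- ===== PACK-END S29/HI.lean

-- ===== PACK-BEGIN S37/H819/Norm.lean
section


/-!
# S37 / NORM (helper819) — the norm of `β y` over `α(FF N)` is the Kronecker product

Main results (`K = ℚ̄`, `ℓ` prime, `ℓ ∤ N`, `α = heckeAlphaBar`, `β = heckeBetaBar`,
`FF N = ℚ̄(j(q^d) : d ∣ N) ⊆ ℚ̄((q))`, the norm is taken for the Prelude algebra structure
`algebraAlong α` on `FF (N ℓ)`):

* `norm_heckeBeta` :
  `V_ℓ (Nm_α (β y)) = V_{ℓ²} y * ∏_{b < ℓ} y(ζ^b u)`   in `ℚ̄((u))`, `u = q^{1/ℓ}`,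
  i.e. `Nm_α(β y)(q) = y(q^ℓ) ∏_b y(ζ^b q^{1/ℓ})`, for any primitive `ℓ`-th root of unity `ζ`.
-/

set_option autoImplicit false

noncomputable section

open ModularCurve HahnSeries UpperHalfPlane AlgebraicCurve
open scoped MatrixGroups

namespace Fermat.Agent.S37.H819

open Fermat.Agent.S24 Fermat.Agent.S24.H997

variable (N ℓ : ℕ) [NeZero N] [NeZero ℓ]

section Internal

attribute [local instance] instAlgAlpha instAlgOm instFiniteAlpha

/-- The norm formula over `ℂ((z))`, `z = q^{1/(N ℓ)}`. -/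
theorem norm_complex (hℓ : ℓ.Prime) (hℓN : ¬ ℓ ∣ N) (y : FF N) :
    HolBase.Φ (N * ℓ)
        ((Algebra.norm (FF N) (heckeBetaBar Kbar N ℓ y) : FF N) : LaurentSeries Kbar)
      = HolBase.Φ (N * ℓ) (qExpand Kbar ℓ (y : LaurentSeries Kbar))
        * ∏ b : Fin ℓ, qExpand ℂ N (infTwist (infRoot ((b : ℕ) : ℤ) ℓ)
            (coeffMap ιK (y : LaurentSeries Kbar))) := by
  have h := Algebra.norm_eq_prod_embeddings (FF N) (Om N ℓ) (heckeBetaBar Kbar N ℓ y)
  rw [algebraMap_Om, sig_one, coe_heckeAlphaBar] at h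
  have he := embList_bijective N ℓ hℓ hℓN
  rw [← he.prod_comp (fun σ : FF (N * ℓ) →ₐ[FF N] Om N ℓ => σ (heckeBetaBar Kbar N ℓ y)),
    Fintype.prod_option, embList_none_beta] at h
  simp only [embList_some_beta] at h
  rw [← map_prod, ← map_mul] at h
  exact incOm_injective N ℓ h

/-- Products over the powers of a primitive root do not depend on the primitive root. -/
theorem prod_range_pow_primitive {R M : Type*} [CommRing R] [IsDomain R] [CommMonoid M] {n : ℕ}
    {ω ε : R} (hω : IsPrimitiveRoot ω n) (hε : IsPrimitiveRoot ε n) (T : R → M) :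
    ∏ b ∈ Finset.range n, T (ω ^ b) = ∏ b ∈ Finset.range n, T (ε ^ b) := by
  classical
  rcases Nat.eq_zero_or_pos n with rfl | hn
  · simp
  have key : ∀ {ξ : R}, IsPrimitiveRoot ξ n →
      ∏ b ∈ Finset.range n, T (ξ ^ b) = ∏ u ∈ Polynomial.nthRootsFinset n (1 : R), T u := by
    intro ξ hξ
    have himg : (Finset.range n).image (fun b => ξ ^ b) = Polynomial.nthRootsFinset n (1 : R) := by
      apply Finset.eq_of_subset_of_card_le
      · intro u hu
        obtain ⟨b, -, rfl⟩ := Finset.mem_image.mp hu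
        rw [Polynomial.mem_nthRootsFinset hn, ← pow_mul, mul_comm, pow_mul, hξ.pow_eq_one, one_pow]
      · rw [hξ.card_nthRootsFinset, Finset.card_image_of_injOn hξ.injOn_pow, Finset.card_range]
    rw [← himg, Finset.prod_image]
    intro a ha b hb hab
    exact hξ.injOn_pow ha hb hab
  rw [key hω, key hε]

omit [NeZero N] in
theorem coe_infRoot_one_isPrimitiveRoot : IsPrimitiveRoot ((infRoot 1 ℓ : ℂˣ) : ℂ) ℓ := by
  have h := Complex.isPrimitiveRoot_exp ℓ (NeZero.ne ℓ)
  have e : ((infRoot 1 ℓ : ℂˣ) : ℂ) = Complex.exp (2 * Real.pi * Complex.I / ℓ) := by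
    rw [infRoot_coe]
    congr 1
    push_cast
    ring
  rw [e]
  exact h

/-- `Φ_N ∘ V_ℓ = Φ_{N ℓ}` -/
theorem Φ_qExpand (x : LaurentSeries Kbar) :
    HolBase.Φ N (qExpand Kbar ℓ x) = HolBase.Φ (N * ℓ) x := by
  show qExpand ℂ N (coeffMap ιK (qExpand Kbar ℓ x)) = qExpand ℂ (N * ℓ) (coeffMap ιK x)
  rw [coeffMap_qExpand, qExpand_qExpand]

/-- **The norm of `β y` over `α(FF N)`** (Kronecker product formula): for `ℓ ∤ N` prime and
any primitive `ℓ`-th root of unity `ζ ∈ ℚ̄`,
`Nm(β y)(u^ℓ) = y(u^{ℓ²}) · ∏_{b<ℓ} y(ζ^b u)`. -/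
theorem norm_heckeBeta_aux (hℓ : ℓ.Prime) (hℓN : ¬ ℓ ∣ N) (ζ : Kbarˣ)
    (hζ : IsPrimitiveRoot (ζ : Kbar) ℓ) (y : FF N) :
    qExpand Kbar ℓ
        ((Algebra.norm (FF N) (heckeBetaBar Kbar N ℓ y) : FF N) : LaurentSeries Kbar)
      = qExpand Kbar (ℓ * ℓ) (y : LaurentSeries Kbar)
        * ∏ b ∈ Finset.range ℓ, infTwist (ζ ^ b) (y : LaurentSeries Kbar) := by
  apply HolBase.Φ_injective (N := N)
  have e2 : HolBase.Φ N (qExpand Kbar (ℓ * ℓ) (y : LaurentSeries Kbar))
      = HolBase.Φ (N * ℓ) (qExpand Kbar ℓ (y : LaurentSeries Kbar)) := by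
    rw [← Φ_qExpand, qExpand_qExpand]
  rw [map_mul, map_prod, Φ_qExpand, norm_complex N ℓ hℓ hℓN y, e2]
  congr 1
  rw [Fin.prod_univ_eq_prod_range (fun b : ℕ => qExpand ℂ N (infTwist (infRoot ((b : ℕ) : ℤ) ℓ)
    (coeffMap ιK (y : LaurentSeries Kbar)))) ℓ]
  -- both sides are products of `T (ξ ^ b)`
  let T : ℂ → LaurentSeries ℂ := fun u =>
    if h : u = 0 then 1
    else qExpand ℂ N (infTwist (Units.mk0 u h) (coeffMap ιK (y : LaurentSeries Kbar)))
  have hT : ∀ v : ℂˣ, T (v : ℂ)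
      = qExpand ℂ N (infTwist v (coeffMap ιK (y : LaurentSeries Kbar))) := by
    intro v
    simp only [T]
    rw [dif_neg v.ne_zero]
    congr 3
    exact Units.ext rfl
  have hε := coe_infRoot_one_isPrimitiveRoot ℓ
  have hω : IsPrimitiveRoot (ιK (ζ : Kbar)) ℓ := hζ.map_of_injective ιK_injective
  have hL : ∀ b ∈ Finset.range ℓ,
      qExpand ℂ N (infTwist (infRoot ((b : ℕ) : ℤ) ℓ) (coeffMap ιK (y : LaurentSeries Kbar)))
        = T (((infRoot 1 ℓ : ℂˣ) : ℂ) ^ b) := by
    intro b _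
    rw [← Units.val_pow_eq_pow_val, hT, infRoot_pow, mul_one]
  have hR : ∀ b ∈ Finset.range ℓ,
      HolBase.Φ N (infTwist (ζ ^ b) (y : LaurentSeries Kbar)) = T ((ιK (ζ : Kbar)) ^ b) := by
    intro b _
    have e : (ιK (ζ : Kbar)) ^ b = ((Units.map (ιK : Kbar →* ℂ) (ζ ^ b) : ℂˣ) : ℂ) := by
      simp
    rw [e, hT]
    show qExpand ℂ N (coeffMap ιK (infTwist (ζ ^ b) (y : LaurentSeries Kbar))) = _
    rw [coeffMap_infTwist]
  rw [Finset.prod_congr rfl hL, Finset.prod_congr rfl hR]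
  exact prod_range_pow_primitive hε hω T

/-- the degree of `FF (N ℓ)` over `α(FF N)` is `ℓ + 1` -/
theorem finrank_alpha_aux (hℓ : ℓ.Prime) (hℓN : ¬ ℓ ∣ N) :
    Module.finrank (FF N) (FF (N * ℓ)) = ℓ + 1 := by
  rw [← AlgHom.card (FF N) (FF (N * ℓ)) (Om N ℓ),
    ← Fintype.card_of_bijective (embList_bijective N ℓ hℓ hℓN)]
  simp

omit [NeZero N] in
theorem coe_sub_FF (a b : FF N) :
    ((a - b : FF N) : LaurentSeries Kbar) = (a : LaurentSeries Kbar) - (b : LaurentSeries Kbar) :=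
  rfl

set_option maxHeartbeats 1000000 in
set_option synthInstance.maxHeartbeats 200000 in
/-- the characteristic polynomial of `β y` over `α(FF N)` is the Kronecker polynomial -/
theorem charpoly_heckeBeta_aux (hℓ : ℓ.Prime) (hℓN : ¬ ℓ ∣ N) (ζ : Kbarˣ)
    (hζ : IsPrimitiveRoot (ζ : Kbar) ℓ) (y : FF N) :
    (((Algebra.lmul (FF N) (FF (N * ℓ)) (heckeBetaBar Kbar N ℓ y)).charpoly.map
        (coeHom N)).map (qExpand Kbar ℓ))
      = (Polynomial.X - Polynomial.C (qExpand Kbar (ℓ * ℓ) (y : LaurentSeries Kbar)))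
        * ∏ b ∈ Finset.range ℓ,
            (Polynomial.X - Polynomial.C (infTwist (ζ ^ b) (y : LaurentSeries Kbar))) := by
  apply Polynomial.eq_of_infinite_eval_eq
  refine Set.infinite_of_injective_forall_mem
    (f := fun c : Kbar => algebraMap Kbar (LaurentSeries Kbar) c)
    (algebraMap Kbar (LaurentSeries Kbar)).injective ?_
  intro c
  show Polynomial.eval _ _ = Polynomial.eval _ _
  -- the constant `c` as an element of `FF N`
  set t : FF N := algebraMap Kbar (FF N) c with ht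
  have hc : algebraMap Kbar (LaurentSeries Kbar) c = qExpand Kbar ℓ (coeHom N t) := by
    rw [coeHom_apply, ht, coe_algebraMap_FF, algebraMap_laurentSeries_eq_single, qExpand_single,
      mul_zero]
  -- left side
  have hL : Polynomial.eval (algebraMap Kbar (LaurentSeries Kbar) c)
      (((Algebra.lmul (FF N) (FF (N * ℓ)) (heckeBetaBar Kbar N ℓ y)).charpoly.map
        (coeHom N)).map (qExpand Kbar ℓ))
      = qExpand Kbar ℓ ((Algebra.norm (FF N)
          (heckeBetaBar Kbar N ℓ (t - y)) : FF N) : LaurentSeries Kbar) := by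
    rw [hc, Polynomial.eval_map, Polynomial.eval₂_hom, Polynomial.eval_map,
      Polynomial.eval₂_hom, LinearMap.eval_charpoly, coeHom_apply]
    congr 2
    rw [Algebra.norm_apply]
    congr 1
    rw [map_sub, map_sub]
    congr 1
    refine LinearMap.ext fun z => ?_
    show heckeAlphaBar Kbar N ℓ t * z = heckeBetaBar Kbar N ℓ t * z
    rw [ht, AlgHom.commutes, AlgHom.commutes]
  rw [hL, norm_heckeBeta_aux N ℓ hℓ hℓN ζ hζ (t - y)]
  have hsub : ((t - y : FF N) : LaurentSeries Kbar)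
      = algebraMap Kbar (LaurentSeries Kbar) c - (y : LaurentSeries Kbar) := by
    rw [coe_sub_FF, ht, coe_algebraMap_FF]
  have hV : ∀ (n : ℕ) [NeZero n], qExpand Kbar n (algebraMap Kbar (LaurentSeries Kbar) c)
      = algebraMap Kbar (LaurentSeries Kbar) c := by
    intro n _
    rw [algebraMap_laurentSeries_eq_single, qExpand_single, mul_zero]
  have hT : ∀ u : Kbarˣ, infTwist u (algebraMap Kbar (LaurentSeries Kbar) c)
      = algebraMap Kbar (LaurentSeries Kbar) c := by
    intro u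
    rw [algebraMap_laurentSeries_eq_single, infTwist_single]
    simp
  rw [hsub, map_sub, hV, Polynomial.eval_mul, Polynomial.eval_sub, Polynomial.eval_X,
    Polynomial.eval_C, Polynomial.eval_prod]
  congr 1
  refine Finset.prod_congr rfl fun b _ => ?_
  rw [map_sub, hT, Polynomial.eval_sub, Polynomial.eval_X, Polynomial.eval_C]

end Internal

/-! ### Public statements (with the Prelude's `algebraAlong`) -/

/-- `FF (N ℓ)` is a finite extension of `α(FF N)`: the Prelude's `FiniteAlong`. -/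
theorem finiteAlong_heckeAlphaBar :
    FiniteAlong Kbar (heckeAlphaBar Kbar N ℓ) :=
  finite_alpha N ℓ

/-- `[FF (N ℓ) : α(FF N)] = ℓ + 1` for a prime `ℓ ∤ N`. -/
theorem finrankAlong_heckeAlphaBar (hℓ : ℓ.Prime) (hℓN : ¬ ℓ ∣ N) :
    finrankAlong Kbar (heckeAlphaBar Kbar N ℓ) = ℓ + 1 :=
  finrank_alpha_aux N ℓ hℓ hℓN

/-- **NORM.** For a prime `ℓ ∤ N`, a primitive `ℓ`-th root of unity `ζ ∈ ℚ̄` and `y ∈ FF N`:
`Nm_{FF(Nℓ)/α(FF N)}(β y)(u^ℓ) = y(u^{ℓ²}) · ∏_{b<ℓ} y(ζ^b u)` in `ℚ̄((u))`. -/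
theorem norm_heckeBeta (hℓ : ℓ.Prime) (hℓN : ¬ ℓ ∣ N) (ζ : Kbarˣ)
    (hζ : IsPrimitiveRoot (ζ : Kbar) ℓ) (y : FF N) :
    letI := algebraAlong (heckeAlphaBar Kbar N ℓ)
    qExpand Kbar ℓ
        ((Algebra.norm (FF N) (heckeBetaBar Kbar N ℓ y) : FF N) : LaurentSeries Kbar)
      = qExpand Kbar (ℓ * ℓ) (y : LaurentSeries Kbar)
        * ∏ b ∈ Finset.range ℓ, infTwist (ζ ^ b) (y : LaurentSeries Kbar) :=
  norm_heckeBeta_aux N ℓ hℓ hℓN ζ hζ y

set_option maxHeartbeats 1000000 in
set_option synthInstance.maxHeartbeats 200000 in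
/-- **CHARPOLY.** The characteristic polynomial of `β y` over `α(FF N)` is the Kronecker
polynomial `(X - y(q^ℓ)) ∏_b (X - y(ζ^b q^{1/ℓ}))` (written in `u = q^{1/ℓ}`). -/
theorem charpoly_heckeBeta (hℓ : ℓ.Prime) (hℓN : ¬ ℓ ∣ N) (ζ : Kbarˣ)
    (hζ : IsPrimitiveRoot (ζ : Kbar) ℓ) (y : FF N) :
    letI := algebraAlong (heckeAlphaBar Kbar N ℓ)
    haveI : Module.Finite (FF N) (FF (N * ℓ)) := finiteAlong_heckeAlphaBar N ℓ
    (((Algebra.lmul (FF N) (FF (N * ℓ)) (heckeBetaBar Kbar N ℓ y)).charpoly.map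
        (coeHom N)).map (qExpand Kbar ℓ))
      = (Polynomial.X - Polynomial.C (qExpand Kbar (ℓ * ℓ) (y : LaurentSeries Kbar)))
        * ∏ b ∈ Finset.range ℓ,
            (Polynomial.X - Polynomial.C (infTwist (ζ ^ b) (y : LaurentSeries Kbar))) :=
  charpoly_heckeBeta_aux N ℓ hℓ hℓN ζ hζ y

end Fermat.Agent.S37.H819

end
end
-- ===== PACK-END S37/H819/Norm.lean

-- ===== PACK-BEGIN S29/M4b/Top.lean
section
/-
S29 row, LAYER M, SUB-LAYER M4b (the Kummer map) — TOP ASSEMBLY over the seven pieces of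
helper822's sub-skeleton (`origin/helper822:Fermat/Agent/S29/M4b/Skeleton.lean`), with the pieces
as `Prop`s (row-lead helper269; the assembly proof is helper822's `exists_kummerMap_of`).

A piece is DONE when it proves one of the `Prop`s `PieceK1 N p`, ..., `PieceHecke N p` below
(they are the EXACT statements of the skeleton, for a fixed level `N` and modulus `p`).

`M4b_of_pieces` : the seven pieces for `(N, p)`, `p` prime ⟹ the Kummer bridge for `(N, p)`;
`M4bStatement_of_pieces` : the seven pieces for all `N` and all primes `p` ⟹ `M4bStatement`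
(the `Prop` of `Fermat/Agent/S29/Parts.lean` consumed by `Main.S29_of_parts`).
The two group-theoretic facts about Hecke factorisations come from the landed `H149/HCoh.lean`.
-/




set_option autoImplicit false

noncomputable section

open ModularCurve AlgebraicCurve CongruenceSubgroup UpperHalfPlane
open scoped MatrixGroups Manifold

namespace Fermat.Agent.S29.M4b

open Fermat.Agent.S24 Fermat.Agent.S29

section Pieces

variable (N : ℕ) [NeZero N] (p : ℕ)

/-- PIECE `K1` (twisted Eisenstein series). -/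
def PieceK1 : Prop :=
  ∀ {c : G0 N → ZMod p}, IsParHom c → ∃ U : ℍ → ℂ, IsTwisted N p c U

/-- PIECE `K3` (descent `ℂ → ℚ̄`). -/
def PieceK3 : Prop :=
  ∀ {c : G0 N → ZMod p}, IsParHom c → ∀ {U : ℍ → ℂ}, IsTwisted N p c U →
    ∃ (U' : ℍ → ℂ) (u : FF N), IsTwisted N p c U' ∧ Realises N u (fun τ => U' τ ^ p)

/-- PIECE `K2` (dictionary over `ℚ̄`). -/
def PieceK2 : Prop :=
  ∀ {c : G0 N → ZMod p}, IsParHom c → ∀ {U : ℍ → ℂ} {u : FF N}, IsTwisted N p c U →
    Realises N u (fun τ => U τ ^ p) → ∃ x : JZero N, H455.IsKummerClass (p : ℤ) u x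

/-- PIECE `K4-UNIQ`. -/
def PieceUniq : Prop :=
  ∀ {c : G0 N → ZMod p} {x x' : JZero N}, IsKum N p c x → IsKum N p c x' → x = x'

/-- PIECE `K4-INJ`. -/
def PieceInj : Prop :=
  ∀ {c : G0 N → ZMod p}, IsKum N p c (0 : JZero N) → c = 0

/-- PIECE `K4-ADD`. -/
def PieceAdd : Prop :=
  ∀ {c c' : G0 N → ZMod p} {x x' : JZero N},
    IsKum N p c x → IsKum N p c' x' → IsKum N p (c + c') (x + x')

/-- PIECE `K4-HECKE`. -/
def PieceHecke : Prop :=
  ∀ (ℓ : Nat.Primes), ¬ (ℓ : ℕ) ∣ N * p →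
    (∀ γ : G0 N, ∃ (π : Equiv.Perm (Option (Fin (ℓ : ℕ)))) (δ : Option (Fin (ℓ : ℕ)) → G0 N),
      ∀ i, IsHeckeFactor (ℓ : ℕ) γ i (π i, δ i)) →
    ∀ {c c' : G0 N → ZMod p}, IsParHom c → IsTransfer N (ℓ : ℕ) c c' →
      ∀ {x : JZero N}, IsKum N p c x → IsKum N p c' (heckeOperatorBar N ℓ x)

end Pieces

section Assembly

variable {N : ℕ} [NeZero N] {p : ℕ}

theorem top_isKum_exists (h1 : PieceK1 N p) (h3 : PieceK3 N p) (h2 : PieceK2 N p)
    {c : G0 N → ZMod p} (hc : IsParHom c) : ∃ x : JZero N, IsKum N p c x := by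
  obtain ⟨U, hU⟩ := h1 hc
  obtain ⟨U', u, hU', hu⟩ := h3 hc hU
  obtain ⟨x, hx⟩ := h2 hc hU' hu
  refine ⟨x, u, 1, U', one_ne_zero, hx, hU', ?_⟩
  simpa using hu

theorem top_isKum_mem_Jp {c : G0 N → ZMod p} {x : JZero N} (h : IsKum N p c x) :
    x ∈ Jp N p := by
  obtain ⟨f, t, U, -, hx, -, -⟩ := h
  rw [Submodule.mem_torsionBy_iff]
  exact hx.zsmul_eq_zero

open Classical in
/-- The Kummer map: `κ c` is THE Kummer class of `c` (and `0` if there is none). -/
def topKummerMap (N : ℕ) [NeZero N] (p : ℕ) (c : G0 N → ZMod p) : Jp N p :=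
  if h : ∃ x : JZero N, IsKum N p c x then ⟨h.choose, top_isKum_mem_Jp h.choose_spec⟩ else 0

theorem top_isKum_kummerMap (h1 : PieceK1 N p) (h3 : PieceK3 N p) (h2 : PieceK2 N p)
    {c : G0 N → ZMod p} (hc : IsParHom c) :
    IsKum N p c (topKummerMap N p c : JZero N) := by
  have h := top_isKum_exists h1 h3 h2 hc
  rw [topKummerMap, dif_pos h]
  exact h.choose_spec

theorem top_kummerMap_eq (hu : PieceUniq N p) {c : G0 N → ZMod p} {x : JZero N}
    (h : IsKum N p c x) : (topKummerMap N p c : JZero N) = x := by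
  have h' : ∃ x : JZero N, IsKum N p c x := ⟨x, h⟩
  rw [topKummerMap, dif_pos h']
  exact hu h'.choose_spec h

/-- The transfer of `c` is `heckeCoh N ℓ c` (`ℓ ∤ N` prime). -/
theorem top_isTransfer_heckeCoh {ℓ : ℕ} (hℓ : ℓ.Prime) (hℓN : ¬ ℓ ∣ N) (c : G0 N → ZMod p) :
    IsTransfer N ℓ c (heckeCoh N ℓ c) := by
  intro γ π δ hfac
  unfold heckeCoh
  refine Finset.sum_congr rfl fun i _ => ?_
  rw [H149.HCoh_heckeFac_unique hℓ hℓN (hfac i)]

/-- Existence of the Hecke factorisation, with the index map a permutation. -/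
theorem top_exists_factor {ℓ : ℕ} (hℓ : ℓ.Prime) (hℓN : ¬ ℓ ∣ N) (γ : G0 N) :
    ∃ (π : Equiv.Perm (Option (Fin ℓ))) (δ : Option (Fin ℓ) → G0 N),
      ∀ i, IsHeckeFactor ℓ γ i (π i, δ i) :=
  ⟨H149.HCoh_perm (H149.HCoh_isFactorSystem hℓ hℓN) γ, fun i => (heckeFac N ℓ γ i).2,
    fun i => H149.HCoh_heckeFac_spec hℓ hℓN γ i⟩

/-- **Output of sub-layer M4b** for a fixed level and modulus, from the seven pieces. -/
theorem M4b_of_pieces (N : ℕ) [NeZero N] (p : ℕ)
    (h1 : PieceK1 N p) (h3 : PieceK3 N p) (h2 : PieceK2 N p) (hu : PieceUniq N p)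
    (hi : PieceInj N p) (ha : PieceAdd N p) (hh : PieceHecke N p) :
    ∃ κ : (G0 N → ZMod p) → Jp N p,
      (∀ c c', IsParHom c → IsParHom c' → κ (c + c') = κ c + κ c') ∧
      (∀ c, IsParHom c → κ c = 0 → c = 0) ∧
      (∀ ℓ : Nat.Primes, ¬ (ℓ : ℕ) ∣ N * p → ∀ c, IsParHom c →
        κ (heckeCoh N ℓ c) = heckeJp N p ℓ (κ c)) := by
  refine ⟨topKummerMap N p, fun c c' hc hc' => ?_, fun c hc h0 => ?_, fun ℓ hℓ c hc => ?_⟩
  · apply Subtype.ext
    rw [Submodule.coe_add]
    exact top_kummerMap_eq hu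
      (ha (top_isKum_kummerMap h1 h3 h2 hc) (top_isKum_kummerMap h1 h3 h2 hc'))
  · have h := top_isKum_kummerMap h1 h3 h2 hc
    rw [h0] at h
    exact hi h
  · apply Subtype.ext
    rw [coe_heckeJp]
    have hℓN : ¬ (ℓ : ℕ) ∣ N := fun h => hℓ (Dvd.dvd.mul_right h p)
    exact top_kummerMap_eq hu (hh ℓ hℓ (top_exists_factor ℓ.2 hℓN) hc
      (top_isTransfer_heckeCoh ℓ.2 hℓN c) (top_isKum_kummerMap h1 h3 h2 hc))

/-- The seven pieces for all levels and all PRIME moduli give `M4bStatement`. -/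
theorem M4bStatement_of_pieces
    (h1 : ∀ (N : ℕ) [NeZero N] (p : ℕ), p.Prime → PieceK1 N p)
    (h3 : ∀ (N : ℕ) [NeZero N] (p : ℕ), p.Prime → PieceK3 N p)
    (h2 : ∀ (N : ℕ) [NeZero N] (p : ℕ), p.Prime → PieceK2 N p)
    (hu : ∀ (N : ℕ) [NeZero N] (p : ℕ), p.Prime → PieceUniq N p)
    (hi : ∀ (N : ℕ) [NeZero N] (p : ℕ), p.Prime → PieceInj N p)
    (ha : ∀ (N : ℕ) [NeZero N] (p : ℕ), p.Prime → PieceAdd N p)
    (hh : ∀ (N : ℕ) [NeZero N] (p : ℕ), p.Prime → PieceHecke N p) :
    M4bStatement := by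
  intro N _ p hp
  exact M4b_of_pieces N p (h1 N p hp.out) (h3 N p hp.out) (h2 N p hp.out) (hu N p hp.out)
    (hi N p hp.out) (ha N p hp.out) (hh N p hp.out)

end Assembly

end Fermat.Agent.S29.M4b

end
end
-- ===== PACK-END S29/M4b/Top.lean

-- ===== PACK-BEGIN S29/H389/K2.lean
section





/-!
# S29 / M4b / PIECE K2 (DICT) — `exists_isKummerClass_of_realised` (helper389)

The piece `K2` of helper822's M4b sub-skeleton, in the EXACT type of `M4b/Skeleton.lean`
(general modulus `p`, `[NeZero p]`):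

if `u ∈ FF N` is realised by `U ^ p`, `U` a twisted function whose character kills the parabolic
and the elliptic elements of `Γ₀(N)`, then `u` has a `p`-Kummer class in `J₀(N)(ℚ̄)`.

Proof: direct route over `ℚ̄` on the landed S24 package.
* `U ∈ holN N` (S24 ring of the concrete analytic core): every `SL₂(ℤ)`-translate of `U` is
  holomorphic, `N`-periodic (`g T^N g⁻¹ ∈ Γ₀(N)` has trace `2`) and of exponential growth (because
  its `p`-th power is), so it has a convergent expansion in `exp(2πiτ/N)`;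
* `e(r) = U ^ p · e(s)` for `u = r / s` (equality of expansions at `i∞`);
* `U` is invariant under the elliptic and parabolic elements of `Γ₀(N)`;
* conclude by the landed `H389.exists_isKummerClass_of_analytic_pow` (BR-DICT).
-/

set_option autoImplicit false

noncomputable section

open ModularCurve AlgebraicCurve CongruenceSubgroup UpperHalfPlane HahnSeries
open scoped MatrixGroups Manifold Real

namespace Fermat.Agent.S29.H389

open Fermat.Agent.S24 Fermat.Agent.S24.H997 Fermat.Agent.S24.H648 Fermat.Agent.S24.H708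
  Fermat.Agent.S24.H624 Fermat.Agent.S29 Fermat.Agent.S29.M4b

/-- A function whose `p`-th power (`p ≠ 0`) has exponential growth has exponential growth. -/
theorem K2_expGrowth_of_pow {f : ℍ → ℂ} {p : ℕ} (hp : p ≠ 0)
    (h : ExpGrowth (fun τ => f τ ^ p)) : ExpGrowth f := by
  obtain ⟨C, m, hC⟩ := h
  refine ⟨max C 1, m, fun τ hτ => ?_⟩
  have h1 := hC τ hτ
  rw [norm_pow] at h1
  have him : 0 < τ.im := τ.im_pos
  have hpi := Real.pi_pos
  have hE : 1 ≤ Real.exp (2 * π * m * τ.im) := Real.one_le_exp (by positivity)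
  have hmax : (1 : ℝ) ≤ max C 1 := le_max_right _ _
  have hB : 1 ≤ max C 1 * Real.exp (2 * π * m * τ.im) := by
    calc (1 : ℝ) = 1 * 1 := (one_mul 1).symm
      _ ≤ max C 1 * Real.exp (2 * π * m * τ.im) :=
        mul_le_mul hmax hE zero_le_one (zero_le_one.trans hmax)
  have hle : ‖f τ‖ ^ p ≤ max C 1 * Real.exp (2 * π * m * τ.im) :=
    h1.trans (mul_le_mul_of_nonneg_right (le_max_left _ _) (Real.exp_pos _).le)
  by_cases h0 : ‖f τ‖ ≤ 1
  · exact h0.trans hB
  · have : ‖f τ‖ ≤ ‖f τ‖ ^ p := le_self_pow₀ (le_of_lt (not_le.mp h0)) hp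
    exact this.trans hle

/-- `qh N ^ N = qh 1`. -/
theorem K2_qh_pow (N : ℕ) [NeZero N] (M : ℕ) : qh N ^ (N * M) = qh 1 ^ M := by
  funext τ
  have hN : (N : ℂ) ≠ 0 := by exact_mod_cast NeZero.ne N
  simp only [Pi.pow_apply, qh_apply, pow_mul]
  congr 1
  simp only [Function.Periodic.qParam]
  rw [← Complex.exp_nat_mul]
  congr 1
  push_cast
  field_simp

section Twisted

variable (N : ℕ) [NeZero N] (p : ℕ) [NeZero p]

omit [NeZero N] [NeZero p] in
/-- All translates of a function with a parabolic character are `N`-periodic. -/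
theorem K2_compSL_vadd {c : G0 N → ZMod p} (hc : IsParHom c) {U : ℍ → ℂ}
    (hU : HasChar N p c U) (g : SL(2, ℤ)) (τ : ℍ) :
    compSL g U (((N : ℤ) : ℝ) +ᵥ τ) = compSL g U τ := by
  have hmem := H332.conj_T_zpow_mem_Gamma0 N g 1
  rw [mul_one] at hmem
  have htr := H332.trace_conj_T_zpow g (N : ℤ)
  have hc0 : c ⟨_, hmem⟩ = 0 := hc.parabolic ⟨_, hmem⟩ (Or.inl htr)
  have h2 := hU ⟨_, hmem⟩ (g • τ)
  rw [hc0] at h2
  simp only [ZMod.val_zero, pow_zero, one_mul] at h2
  rw [← UpperHalfPlane.modular_T_zpow_smul]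
  simp only [compSL_apply]
  rw [← h2]
  congr 1
  rw [← mul_smul, ← mul_smul, mul_assoc, mul_assoc, inv_mul_cancel, mul_one]

/-- Every translate of a twisted function is meromorphic at `i∞` of width `N`. -/
theorem K2_isMerInf {c : G0 N → ZMod p} (hc : IsParHom c) {U : ℍ → ℂ}
    (hU : IsTwisted N p c U) (g : SL(2, ℤ)) : IsMerInf N (compSL g U) := by
  refine ⟨H648.mdifferentiable_comp_smul hU.mdiff g,
    H332.periodic_comp_ofComplex_of_vadd (K2_compSL_vadd N p hc hU.hasChar g), ?_⟩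
  have hg : ExpGrowth (compSL g U) :=
    K2_expGrowth_of_pow (NeZero.ne p) (hU.pow_mem.2.2 g)
  obtain ⟨M, hM⟩ := H882.isBounded_mul_qh_pow_of_expGrowth hg
  exact ⟨N * M, by rw [K2_qh_pow]; exact hM⟩

/-- A twisted function lies in the S24 ring `holN N`. -/
theorem K2_mem_holN {c : G0 N → ZMod p} (hc : IsParHom c) {U : ℍ → ℂ}
    (hU : IsTwisted N p c U) : U ∈ holN N :=
  ⟨hU.mdiff, fun g => ⟨qexpFun N (compSL g U), fun τ => hasSum_qexpFun (K2_isMerInf N p hc hU g) τ⟩⟩

end Twisted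

/-- The two fixed embeddings `ℚ̄ → ℂ` of S24 agree. -/
theorem K2_iotaC_eq : Deg457.iotaC = ιK := rfl

/-- An expansion in `q` is an expansion in `q^{1/N}`. -/
theorem K2_infExp_of_one (N : ℕ) [NeZero N] {f : ℍ → ℂ} {φ : LaurentSeries ℂ}
    (h : InfExp 1 f φ) : InfExp N f (qExpand ℂ N φ) := by
  have hN : 0 < N := Nat.pos_of_ne_zero (NeZero.ne N)
  have h1 := h.comp_infAff (N := N) (e := N) 0 one_pos one_pos one_pos hN (by ring)
  rw [mul_one, infRoot_zero, infTwist_one] at h1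
  refine h1.congr fun τ => ?_
  rw [infAff_one_zero_one]

section Main

variable (N : ℕ) [NeZero N] (p : ℕ) [NeZero p]

/-- **PIECE `K2`** of the M4b sub-skeleton (EXACT type of `M4b/Skeleton.lean`). -/
theorem exists_isKummerClass_of_realised {c : G0 N → ZMod p} (hc : IsParHom c) {U : ℍ → ℂ}
    {u : FF N} (hU : IsTwisted N p c U) (hu : Realises N u (fun τ => U τ ^ p)) :
    ∃ x : JZero N, H455.IsKummerClass (p : ℤ) u x := by
  classical
  set A : AnalyticCore N := analyticCore N with hA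
  -- `U` as an element of `Hol`
  have hmem : U ∈ holN N := K2_mem_holN N p hc hU
  let Uh : A.toHolBase.Hol := ⟨U, hmem⟩
  have hUh : Uh ≠ 0 := by
    intro h0
    obtain ⟨τ, hτ⟩ := hU.ne_zero
    apply hτ
    have := congrArg (fun f : A.toHolBase.Hol => (f : ℍ → ℂ) τ) h0
    simpa [Uh] using this
  -- the expansion of `U ^ p`
  have hmer : IsMerInf 1 (fun τ => U τ ^ p) := H882.isMerInf_of_mem_goodRing hu.1
  have hexp1 : InfExp 1 (fun τ => U τ ^ p)
      (coeffMap ιK ((u : FF N) : LaurentSeries Kbar)) := by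
    intro τ
    have := hasSum_qexpFun hmer τ
    rw [hu.2, K2_iotaC_eq] at this
    exact this
  have hexpN := K2_infExp_of_one N hexp1
  have hqU : A.toHolBase.qexp (Uh ^ p) = HolBase.Φ N ((u : FF N) : LaurentSeries Kbar) := by
    have hs : InfExp N (((Uh ^ p : A.toHolBase.Hol) : ℍ → ℂ)) (A.toHolBase.qexp (Uh ^ p)) :=
      expInf_spec (holToExp N (Uh ^ p))
    exact hs.unique' hexpN (fun τ => rfl)
  -- `u = r / s`
  obtain ⟨r, s, hs, hrs⟩ := exists_div_inclRN N u
  have hs' : inclRN N s ≠ 0 := fun h => hs (inclRN_injective N (by rw [h, map_zero]))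
  have hus : ((u : FF N) : LaurentSeries Kbar) * (s : LaurentSeries Kbar)
      = (r : LaurentSeries Kbar) := by
    have h1 : u * inclRN N s = inclRN N r := by rw [hrs, div_mul_cancel₀ _ hs']
    have := congrArg (fun f : FF N => (f : LaurentSeries Kbar)) h1
    simpa using this
  have hrel : A.toHolBase.bridge r * (1 : A.toHolBase.Hol) ^ p
      = A.toHolBase.constH 1 * Uh ^ p * A.toHolBase.bridge s := by
    apply A.toHolBase.qexp_injective
    have h1 : A.toHolBase.qexp (A.toHolBase.constH 1) = 1 := by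
      have := A.toHolBase.qexp_const 1
      rw [HahnSeries.C_one] at this
      exact this
    rw [one_pow, mul_one, map_mul, map_mul, HolBase.qexp_bridge, HolBase.qexp_bridge, hqU,
      h1, one_mul, ← map_mul, hus]
  have hr : r ≠ 0 := by
    intro hr0
    rw [hr0, map_zero, zero_mul] at hrel
    have h1 : A.toHolBase.constH 1 * Uh ^ p * A.toHolBase.bridge s = 0 := hrel.symm
    have hb : A.toHolBase.bridge s ≠ 0 := fun h =>
      hs (HolBase.bridge_injective A.toHolBase (by rw [h, map_zero]))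
    have hc1 : A.toHolBase.constH 1 ≠ 0 := by
      intro h
      have := congrArg A.toHolBase.qexp h
      rw [map_zero] at this
      have h2 := A.toHolBase.qexp_const 1
      rw [HahnSeries.C_one] at h2
      rw [HolBase.constH, h2] at this
      exact one_ne_zero this
    have : IsDomain A.toHolBase.Hol :=
      Function.Injective.isDomain A.toHolBase.qexp A.toHolBase.qexp_injective
    exact mul_ne_zero (mul_ne_zero hc1 (pow_ne_zero p hUh)) hb h1
  have hinv : ∀ δ : SL(2, ℤ), δ ∈ CongruenceSubgroup.Gamma0 N → Nice δ →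
      A.toHolBase.compH δ Uh * 1 = Uh * A.toHolBase.compH δ 1 := by
    intro δ hδ hnice
    rw [map_one, mul_one, mul_one]
    have hc0 : c ⟨δ, hδ⟩ = 0 := by
      rcases hnice with hfin | htr
      · obtain ⟨n, hn, hpow⟩ := isOfFinOrder_iff_pow_eq_one.mp hfin
        exact hc.elliptic ⟨δ, hδ⟩ n hn (Subtype.ext (by simpa using hpow))
      · exact hc.parabolic ⟨δ, hδ⟩ (Or.inl htr)
    apply Subtype.ext
    funext τ
    have h2 := hU.hasChar ⟨δ, hδ⟩ τ
    rw [hc0] at h2
    simp only [ZMod.val_zero, pow_zero, one_mul] at h2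
    exact h2
  obtain ⟨x, hx⟩ := exists_isKummerClass_of_analytic_pow A p (NeZero.ne p) r s hr hs Uh 1 hUh
    one_ne_zero 1 one_ne_zero hrel hinv
  exact ⟨x, by rw [hrs]; exact hx⟩

end Main

end Fermat.Agent.S29.H389

end
end
-- ===== PACK-END S29/H389/K2.lean

-- ===== PACK-BEGIN S29/H332/K1.lean
section



/-!
# S29 / M4b — PIECE `K1` (exact skeleton type)

`exists_isTwisted` : for a parabolic character `c : Γ₀(N) → ℤ/p` (any modulus `p ≥ 1`) there is a
twisted function `U` of character `c`; `U = E^χ₁₂ / (2Δ)`, `χ = ζ_p ^ c`.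
-/

set_option autoImplicit false
set_option linter.unusedSectionVars false

noncomputable section

open ModularCurve AlgebraicCurve CongruenceSubgroup UpperHalfPlane
open scoped MatrixGroups Manifold

namespace Fermat.Agent.S29.H332

open Fermat.Agent.S24 Fermat.Agent.S29 Fermat.Agent.S29.M4b

variable {N : ℕ} {p : ℕ} [NeZero p]

/-- `ζ_p ^ (a.val) = stdAddChar a`. -/
theorem zetaP_pow_val (a : ZMod p) : zetaP p ^ a.val = ZMod.stdAddChar a := by
  have h := ZMod.stdAddChar_coe (N := p) (a.val : ℤ)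
  rw [Int.cast_natCast, ZMod.natCast_zmod_val] at h
  rw [h, zetaP, ← Complex.exp_nat_mul]
  congr 1
  push_cast
  ring

/-- A parabolic character in the sense of `DefsM` is one in the sense of `H332`. -/
theorem isParAdd_of_isParHom {c : G0 N → ZMod p} (hc : IsParHom c) : IsParAdd c where
  map_mul := hc.map_mul
  parabolic := hc.parabolic

variable (N p) in
/-- **PIECE `K1`** of the M4b skeleton (exact type). -/
theorem exists_isTwisted [NeZero N] {c : G0 N → ZMod p} (hc : IsParHom c) :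
    ∃ U : ℍ → ℂ, IsTwisted N p c U := by
  have hc' : IsParAdd c := isParAdd_of_isParHom hc
  refine ⟨hc'.kfun N, ?_, ?_, ?_, ?_⟩
  · exact (hc'.kfun_mem_holN).1
  · by_contra hne
    exact hc'.kfun_ne_zero (funext fun τ => by_contra fun h => hne ⟨τ, h⟩)
  · intro γ τ
    rw [zetaP_pow_val]
    exact hc'.kfun_smul γ τ
  · exact hc'.kfun_pow_mem_goodRing

end Fermat.Agent.S29.H332

end
end
-- ===== PACK-END S29/H332/K1.lean

-- ===== PACK-BEGIN S29/H102/KBasic.lean
section
/-
S29 / M4b / K4 (helper102) — basic lemmas shared by the K4 pieces.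

* `KBasic_zetaP_pow`            : `zetaP p ^ p = 1`;
* `KBasic_expGrowth_of_pow`     : `ExpGrowth (F ^ p) → ExpGrowth F` (`p ≠ 0`);
* `KBasic_mem_goodRing_of_pow`  : a holomorphic `Γ₀(N)`-invariant `V` with `V ^ p` good is good;
* `KBasic_realises_hasQExp`     : `Realises N u G → HasQExp 1 G (coeffMap iotaC u)`;
* `KBasic_exists_root`          : a good function `V` whose `p`-th power realises `w ∈ FF N`
                                  realises a `p`-th root `v ∈ FF N` of `w`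
                                  (MERO + root descent + `F_ℂ ∩ ℚ̄((q)) = FF N`).
-/




set_option autoImplicit false

noncomputable section

open ModularCurve AlgebraicCurve CongruenceSubgroup UpperHalfPlane
open scoped MatrixGroups Manifold

namespace Fermat.Agent.S29.H102

open Fermat.Agent.S24 Fermat.Agent.S29 Fermat.Agent.S29.M4b
open Fermat.Agent.S24.H648 Fermat.Agent.S24.H708

theorem KBasic_zetaP_pow (p : ℕ) [NeZero p] : zetaP p ^ p = 1 := by
  have hp : (p : ℂ) ≠ 0 := Nat.cast_ne_zero.mpr (NeZero.ne p)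
  rw [zetaP, ← Complex.exp_nat_mul, mul_div_cancel₀ _ hp]
  exact Complex.exp_two_pi_mul_I

theorem KBasic_zetaP_ne_zero (p : ℕ) : zetaP p ≠ 0 := Complex.exp_ne_zero _

/-- `ζ_p ^ a = 1` iff `p ∣ a`. -/
theorem KBasic_zetaP_pow_eq_one_iff (p : ℕ) [NeZero p] (a : ℕ) : zetaP p ^ a = 1 ↔ p ∣ a := by
  have h : IsPrimitiveRoot (zetaP p) p := by
    have := Complex.isPrimitiveRoot_exp p (NeZero.ne p)
    simpa [zetaP] using this
  exact h.pow_eq_one_iff_dvd a

/-- The character value only depends on the class mod `p`. -/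
theorem KBasic_zetaP_pow_val_add (p : ℕ) [NeZero p] (a b : ZMod p) :
    zetaP p ^ (a + b).val = zetaP p ^ a.val * zetaP p ^ b.val := by
  rw [← pow_add, ZMod.val_add]
  conv_rhs => rw [← Nat.mod_add_div (a.val + b.val) p]
  rw [pow_add, pow_mul, KBasic_zetaP_pow, one_pow, mul_one]

theorem KBasic_expGrowth_of_pow {F : ℍ → ℂ} {p : ℕ} (hp : p ≠ 0)
    (h : ExpGrowth (fun τ => F τ ^ p)) : ExpGrowth F := by
  obtain ⟨C, m, hC⟩ := h
  refine ⟨max C 1, m, fun τ hτ => ?_⟩
  have hexp : (1 : ℝ) ≤ Real.exp (2 * Real.pi * m * τ.im) := by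
    apply Real.one_le_exp
    have := Real.pi_pos
    have := τ.im_pos
    positivity
  have hmax1 : (1 : ℝ) ≤ max C 1 := le_max_right _ _
  by_cases h1 : ‖F τ‖ ≤ 1
  · calc ‖F τ‖ ≤ 1 := h1
      _ = 1 * 1 := (one_mul 1).symm
      _ ≤ max C 1 * Real.exp (2 * Real.pi * m * τ.im) :=
          mul_le_mul hmax1 hexp zero_le_one (le_trans zero_le_one hmax1)
  · have h1' : 1 ≤ ‖F τ‖ := le_of_lt (not_le.mp h1)
    have h2 : ‖F τ‖ ≤ ‖F τ‖ ^ p := le_self_pow₀ h1' hp
    have h3 : ‖F τ‖ ^ p ≤ C * Real.exp (2 * Real.pi * m * τ.im) := by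
      have := hC τ hτ
      rwa [norm_pow] at this
    calc ‖F τ‖ ≤ ‖F τ‖ ^ p := h2
      _ ≤ C * Real.exp (2 * Real.pi * m * τ.im) := h3
      _ ≤ max C 1 * Real.exp (2 * Real.pi * m * τ.im) :=
          mul_le_mul_of_nonneg_right (le_max_left _ _) (Real.exp_pos _).le

theorem KBasic_mem_goodRing_of_pow {N : ℕ} {V : ℍ → ℂ} {p : ℕ} (hp : p ≠ 0)
    (hV : MDifferentiable 𝓘(ℂ) 𝓘(ℂ) V)
    (hinv : ∀ γ ∈ Gamma0 N, ∀ τ : ℍ, V (γ • τ) = V τ)
    (hpow : (fun τ => V τ ^ p) ∈ goodRing N) : V ∈ goodRing N := by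
  refine ⟨hV, hinv, fun g => ?_⟩
  exact KBasic_expGrowth_of_pow hp (hpow.2.2 g)

variable {N : ℕ} [NeZero N]

theorem KBasic_realises_hasQExp {u : FF N} {G : ℍ → ℂ} (h : Realises N u G) :
    HasQExp 1 G (coeffMap Deg457.iotaC ((u : FF N) : LaurentSeries Kbar)) :=
  ⟨H882.isMerInf_of_mem_goodRing h.1, h.2⟩

theorem KBasic_coeffMap_iotaC_injective :
    Function.Injective (coeffMap Deg457.iotaC : LaurentSeries Kbar → LaurentSeries ℂ) := by
  intro x y h
  ext k
  have := congrArg (fun z : LaurentSeries ℂ => z.coeff k) h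
  simp only [coeffMap_coeff] at this
  exact Deg457.iotaC.injective this

/-- **Analytic `p`-th roots are algebraic.**  If `V` is good of level `N` and `V ^ p` realises
`w ∈ FF N`, then `V` realises some `v ∈ FF N` with `v ^ p = w`. -/
theorem KBasic_exists_root {p : ℕ} (hp : p ≠ 0) {V : ℍ → ℂ} (hV : V ∈ goodRing N) {w : FF N}
    (hw : Realises N w (fun τ => V τ ^ p)) :
    ∃ v : FF N, v ^ p = w ∧ Realises N v V := by
  have hVq : HasQExp 1 V (qexpFun 1 V) := H882.hasQExp_of_mem_goodRing hV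
  have hVp : HasQExp 1 (fun τ => V τ ^ p) (qexpFun 1 V ^ p) := hVq.pow p
  have hwq := KBasic_realises_hasQExp hw
  have heq : qexpFun 1 V ^ p = coeffMap Deg457.iotaC ((w : FF N) : LaurentSeries Kbar) :=
    hVp.unique hwq
  obtain ⟨v₀, hv₀⟩ := RootDesc_laurent Deg457.iotaC hp (qexpFun 1 V)
    ((w : FF N) : LaurentSeries Kbar) heq
  have hmem : v₀ ∈ modularFunctionFieldBar N := by
    apply H882.mem_laurentBaseChange_of_coeffMap_mem Deg457.iotaC (modularFunctionFieldFull N)
    rw [hv₀]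
    exact H882.qexpFun_mem_FC hV
  refine ⟨⟨v₀, hmem⟩, ?_, hV, hv₀.symm⟩
  apply Subtype.ext
  apply KBasic_coeffMap_iotaC_injective
  show coeffMap Deg457.iotaC (v₀ ^ p) = _
  rw [map_pow, hv₀, heq]

end Fermat.Agent.S29.H102

end
end
-- ===== PACK-END S29/H102/KBasic.lean

-- ===== PACK-BEGIN S37/H88/ALSwap.lean
section




/-!
# S37 / NORM-ID (helper88): the Atkin–Lehner swap and the norm along `α`

`L` a field of characteristic `0` with a primitive `ℓ`-th root of unity, `ℓ ∤ N` prime.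

* `exists_swap` : a ring endomorphism `w` of `F_{Nℓ}` with `w ∘ α = β`, `w ∘ β = α`
  (the Atkin–Lehner involution `w_ℓ`), constructed formally as `V⁻¹ ∘ τ`;
* `finrankAlong_heckeAlphaBar'` : `[F_{Nℓ} : α F_N] = ℓ + 1`;
* `charpoly_alpha_beta` : the characteristic polynomial of `β y` with respect to the `α`-structure
  (coefficients read in `L((q))`) is `H400.kronPoly ℓ y`;
* `norm_alpha_beta` (**NORM-ID**) : `Nm_α(β y) = H400.kronNorm ℓ y = y(q^ℓ) ∏_b y(ζ^b q^{1/ℓ})`.
-/

set_option autoImplicit false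
set_option linter.unusedSectionVars false
set_option linter.style.haveILetI false
set_option synthInstance.maxHeartbeats 400000

noncomputable section

namespace Fermat.Agent.S37.H88

open ModularCurve Polynomial IntermediateField Fermat.Agent.S28 Fermat.Agent.S37 AlgebraicCurve

section Swap

variable {L : Type*} [Field L] [Algebra ℚ L] {N ℓ : ℕ} [NeZero N] [NeZero ℓ]

/-- every generator `j(q^d)`, `d ∣ Nℓ`, of `F_{Nℓ}` lies in `α F_N` or in `β F_N` -/
theorem gd_eq_alpha_or_beta (hℓ : ℓ.Prime) {d : ℕ} [NeZero d] (hd : d ∣ N * ℓ) :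
    ∃ a : laurentBaseChange L (modularFunctionFieldFull N),
      ((heckeAlphaBar L N ℓ a : laurentBaseChange L (modularFunctionFieldFull (N * ℓ))) :
        LaurentSeries L) = gd L d ∨
      ((heckeBetaBar L N ℓ a : laurentBaseChange L (modularFunctionFieldFull (N * ℓ))) :
        LaurentSeries L) = gd L d := by
  by_cases hℓd : ℓ ∣ d
  · obtain ⟨d', rfl⟩ := hℓd
    have hd' : d' ∣ N := by
      rw [mul_comm N ℓ] at hd
      exact Nat.dvd_of_mul_dvd_mul_left hℓ.pos hd
    haveI : NeZero d' := ⟨fun h => by subst h; exact (NeZero.ne (ℓ * 0)) (mul_zero ℓ)⟩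
    refine ⟨⟨gd L d', (FB_eq L N).ge (jd_mem_fullC L hd')⟩, Or.inr ?_⟩
    rw [coe_heckeBetaBar]
    show qExpand L ℓ (qExpand L d' (jqModC L)) = qExpand L (ℓ * d') (jqModC L)
    rw [qExpand_qExpand]
  · have hd' : d ∣ N :=
      (Nat.Coprime.dvd_of_dvd_mul_right
        ((Nat.coprime_comm.mp ((Nat.Prime.coprime_iff_not_dvd hℓ).mpr hℓd))) hd)
    refine ⟨⟨gd L d, (FB_eq L N).ge (jd_mem_fullC L hd')⟩, Or.inl ?_⟩
    rw [coe_heckeAlphaBar]

/-- the last embedding takes values in `V(F_{Nℓ})` -/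
theorem lastEmbedding_mem (hℓ : ℓ.Prime)
    (τ : laurentBaseChange L (modularFunctionFieldFull (N * ℓ)) →+* LaurentSeries L)
    (hτβ : ∀ a : laurentBaseChange L (modularFunctionFieldFull N),
      τ (heckeBetaBar L N ℓ a) = qExpand L ℓ (a : LaurentSeries L))
    (hτα : ∀ a : laurentBaseChange L (modularFunctionFieldFull N),
      τ (heckeAlphaBar L N ℓ a) = qExpand L ℓ (qExpand L ℓ (a : LaurentSeries L)))
    (x : laurentBaseChange L (modularFunctionFieldFull (N * ℓ))) :
    ∃ z : laurentBaseChange L (modularFunctionFieldFull (N * ℓ)),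
      qExpand L ℓ (z : LaurentSeries L) = τ x := by
  obtain ⟨x, hx⟩ := x
  have hx' : x ∈ modularFunctionFieldFullC L (N * ℓ) := (FB_eq L (N * ℓ)).le hx
  have key : ∀ (y : LaurentSeries L) (hy : y ∈ modularFunctionFieldFullC L (N * ℓ)),
      ∃ z : laurentBaseChange L (modularFunctionFieldFull (N * ℓ)),
        qExpand L ℓ (z : LaurentSeries L) = τ ⟨y, (FB_eq L (N * ℓ)).ge hy⟩ := by
    intro y hy
    induction hy using IntermediateField.adjoin_induction with
    | mem y hy =>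
      obtain ⟨d, hd0, hd, rfl⟩ := hy
      obtain ⟨a, ha | ha⟩ := gd_eq_alpha_or_beta (L := L) hℓ hd
      · refine ⟨heckeBetaBar L N ℓ a, ?_⟩
        have h1 : (⟨qExpand L d (jqModC L), (FB_eq L (N * ℓ)).ge
            (subset_adjoin L _ ⟨d, hd0, hd, rfl⟩)⟩ :
            laurentBaseChange L (modularFunctionFieldFull (N * ℓ))) = heckeAlphaBar L N ℓ a :=
          Subtype.ext ha.symm
        rw [h1, hτα, coe_heckeBetaBar]
      · refine ⟨heckeAlphaBar L N ℓ a, ?_⟩
        have h1 : (⟨qExpand L d (jqModC L), (FB_eq L (N * ℓ)).ge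
            (subset_adjoin L _ ⟨d, hd0, hd, rfl⟩)⟩ :
            laurentBaseChange L (modularFunctionFieldFull (N * ℓ))) = heckeBetaBar L N ℓ a :=
          Subtype.ext ha.symm
        rw [h1, hτβ, coe_heckeAlphaBar]
    | algebraMap c =>
      refine ⟨algebraMap L _ c, ?_⟩
      have h1 : (⟨algebraMap L (LaurentSeries L) c, (FB_eq L (N * ℓ)).ge
          (IntermediateField.algebraMap_mem _ c)⟩ :
          laurentBaseChange L (modularFunctionFieldFull (N * ℓ))) = algebraMap L _ c :=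
        Subtype.ext rfl
      rw [h1]
      have h2 : τ (algebraMap L _ c) = algebraMap L (LaurentSeries L) c := by
        have h3 : (algebraMap L (laurentBaseChange L (modularFunctionFieldFull (N * ℓ))) c) =
            heckeBetaBar L N ℓ (algebraMap L _ c) := ((heckeBetaBar L N ℓ).commutes c).symm
        rw [h3, hτβ]
        show qExpand L ℓ (algebraMap L (LaurentSeries L) c) = _
        rw [← qExpandAlgHomC_apply, AlgHom.commutes]
      rw [h2]
      show qExpand L ℓ (algebraMap L (LaurentSeries L) c) = _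
      rw [← qExpandAlgHomC_apply, AlgHom.commutes]
    | add y y' hy hy' ih ih' =>
      obtain ⟨z, hz⟩ := ih
      obtain ⟨z', hz'⟩ := ih'
      refine ⟨z + z', ?_⟩
      have h1 : (⟨y + y', (FB_eq L (N * ℓ)).ge (add_mem hy hy')⟩ :
          laurentBaseChange L (modularFunctionFieldFull (N * ℓ))) =
          ⟨y, (FB_eq L (N * ℓ)).ge hy⟩ + ⟨y', (FB_eq L (N * ℓ)).ge hy'⟩ := Subtype.ext rfl
      rw [h1, map_add, ← hz, ← hz', IntermediateField.coe_add, map_add]
    | inv y hy ih =>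
      obtain ⟨z, hz⟩ := ih
      refine ⟨z⁻¹, ?_⟩
      have h1 : (⟨y⁻¹, (FB_eq L (N * ℓ)).ge (inv_mem hy)⟩ :
          laurentBaseChange L (modularFunctionFieldFull (N * ℓ))) =
          (⟨y, (FB_eq L (N * ℓ)).ge hy⟩ :
            laurentBaseChange L (modularFunctionFieldFull (N * ℓ)))⁻¹ := Subtype.ext rfl
      rw [h1, map_inv₀, ← hz, IntermediateField.coe_inv, map_inv₀]
    | mul y y' hy hy' ih ih' =>
      obtain ⟨z, hz⟩ := ih
      obtain ⟨z', hz'⟩ := ih'
      refine ⟨z * z', ?_⟩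
      have h1 : (⟨y * y', (FB_eq L (N * ℓ)).ge (mul_mem hy hy')⟩ :
          laurentBaseChange L (modularFunctionFieldFull (N * ℓ))) =
          ⟨y, (FB_eq L (N * ℓ)).ge hy⟩ * ⟨y', (FB_eq L (N * ℓ)).ge hy'⟩ := Subtype.ext rfl
      rw [h1, map_mul, ← hz, ← hz', IntermediateField.coe_mul, map_mul]
  exact key x hx'

theorem eq_of_qExpand_eq {M : ℕ}
    {z z' : laurentBaseChange L (modularFunctionFieldFull M)}
    (h : qExpand L ℓ (z : LaurentSeries L) = qExpand L ℓ (z' : LaurentSeries L)) : z = z' :=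
  Subtype.ext (qExpand_injective ℓ h)

/-- the swap `w = V⁻¹ ∘ τ` attached to a last embedding `τ` -/
def swapOfTau (hℓ : ℓ.Prime)
    (τ : laurentBaseChange L (modularFunctionFieldFull (N * ℓ)) →+* LaurentSeries L)
    (hτβ : ∀ a : laurentBaseChange L (modularFunctionFieldFull N),
      τ (heckeBetaBar L N ℓ a) = qExpand L ℓ (a : LaurentSeries L))
    (hτα : ∀ a : laurentBaseChange L (modularFunctionFieldFull N),
      τ (heckeAlphaBar L N ℓ a) = qExpand L ℓ (qExpand L ℓ (a : LaurentSeries L))) :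
    laurentBaseChange L (modularFunctionFieldFull (N * ℓ)) →+*
      laurentBaseChange L (modularFunctionFieldFull (N * ℓ)) where
  toFun x := Classical.choose (lastEmbedding_mem hℓ τ hτβ hτα x)
  map_one' := by
    apply eq_of_qExpand_eq (ℓ := ℓ)
    rw [Classical.choose_spec (lastEmbedding_mem hℓ τ hτβ hτα 1), map_one,
      IntermediateField.coe_one, map_one]
  map_mul' x y := by
    apply eq_of_qExpand_eq (ℓ := ℓ)
    rw [Classical.choose_spec (lastEmbedding_mem hℓ τ hτβ hτα (x * y)), map_mul,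
      IntermediateField.coe_mul, map_mul,
      Classical.choose_spec (lastEmbedding_mem hℓ τ hτβ hτα x),
      Classical.choose_spec (lastEmbedding_mem hℓ τ hτβ hτα y)]
  map_zero' := by
    apply eq_of_qExpand_eq (ℓ := ℓ)
    rw [Classical.choose_spec (lastEmbedding_mem hℓ τ hτβ hτα 0), map_zero,
      IntermediateField.coe_zero, map_zero]
  map_add' x y := by
    apply eq_of_qExpand_eq (ℓ := ℓ)
    rw [Classical.choose_spec (lastEmbedding_mem hℓ τ hτβ hτα (x + y)), map_add,
      IntermediateField.coe_add, map_add,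
      Classical.choose_spec (lastEmbedding_mem hℓ τ hτβ hτα x),
      Classical.choose_spec (lastEmbedding_mem hℓ τ hτβ hτα y)]

theorem swapOfTau_spec (hℓ : ℓ.Prime)
    (τ : laurentBaseChange L (modularFunctionFieldFull (N * ℓ)) →+* LaurentSeries L)
    (hτβ : ∀ a : laurentBaseChange L (modularFunctionFieldFull N),
      τ (heckeBetaBar L N ℓ a) = qExpand L ℓ (a : LaurentSeries L))
    (hτα : ∀ a : laurentBaseChange L (modularFunctionFieldFull N),
      τ (heckeAlphaBar L N ℓ a) = qExpand L ℓ (qExpand L ℓ (a : LaurentSeries L)))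
    (x : laurentBaseChange L (modularFunctionFieldFull (N * ℓ))) :
    qExpand L ℓ ((swapOfTau hℓ τ hτβ hτα x : laurentBaseChange L
      (modularFunctionFieldFull (N * ℓ))) : LaurentSeries L) = τ x :=
  Classical.choose_spec (lastEmbedding_mem hℓ τ hτβ hτα x)

/-- **The Atkin–Lehner swap.**  There is a ring endomorphism `w` of `F_{Nℓ}` with
`w ∘ α = β` and `w ∘ β = α`. -/
theorem exists_swap (hℓ : ℓ.Prime) (hℓN : ¬ ℓ ∣ N) {ζ : L} (hζ : IsPrimitiveRoot ζ ℓ) :
    ∃ w : laurentBaseChange L (modularFunctionFieldFull (N * ℓ)) →+*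
        laurentBaseChange L (modularFunctionFieldFull (N * ℓ)),
      (∀ a : laurentBaseChange L (modularFunctionFieldFull N),
        w (heckeAlphaBar L N ℓ a) = heckeBetaBar L N ℓ a) ∧
      (∀ a : laurentBaseChange L (modularFunctionFieldFull N),
        w (heckeBetaBar L N ℓ a) = heckeAlphaBar L N ℓ a) := by
  obtain ⟨τ, hτβ, hτα⟩ := exists_lastEmbedding (L := L) (N := N) hℓ hℓN hζ
  refine ⟨swapOfTau hℓ τ hτβ hτα, fun a => ?_, fun a => ?_⟩
  · apply eq_of_qExpand_eq (ℓ := ℓ)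
    rw [swapOfTau_spec, hτα, coe_heckeBetaBar]
  · apply eq_of_qExpand_eq (ℓ := ℓ)
    rw [swapOfTau_spec, hτβ, coe_heckeAlphaBar]

end Swap

section AlphaSide

variable {L : Type*} [Field L] [Algebra ℚ L] {N ℓ : ℕ} [NeZero N] [NeZero ℓ]

/-- `[F_{Nℓ} : α F_N] = ℓ + 1` for `ℓ ∤ N` (any field `L` of characteristic `0`). -/
theorem finrankAlong_heckeAlphaBar' (hℓ : ℓ.Prime) (hℓN : ¬ ℓ ∣ N) :
    finrankAlong L (heckeAlphaBar L N ℓ) = ℓ + 1 := by
  have h1 : finrankAlong L (heckeAlphaBar L N ℓ) =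
      (laurentBaseChange L (modularFunctionFieldFull N)).relfinrank
        (laurentBaseChange L (modularFunctionFieldFull (N * ℓ))) :=
    Fermat.Agent.Lib.X0Deg.finrankAlong_inclusion _
  rw [h1, FB_eq, FB_eq, H988.relfinrank_full_mul_prime L N ℓ (NeZero.ne N) hℓ
    (fun r hr _ => natCast_ne_zero_of_algebraRat L hr.ne_zero), if_neg hℓN]

theorem finiteAlong_heckeAlphaBar' (hℓ : ℓ.Prime) (hℓN : ¬ ℓ ∣ N) :
    FiniteAlong L (heckeAlphaBar L N ℓ) := by
  have h := finrankAlong_heckeAlphaBar' (L := L) hℓ hℓN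
  unfold finrankAlong at h
  unfold FiniteAlong
  letI := algebraAlong (heckeAlphaBar L N ℓ)
  exact FiniteDimensional.of_finrank_pos (by rw [h]; omega)

theorem sigmaFam_eq_of_apply_eq (hℓ : ℓ.Prime) {ζ : L} (hζ : IsPrimitiveRoot ζ ℓ)
    (τ : laurentBaseChange L (modularFunctionFieldFull (N * ℓ)) →+* LaurentSeries L)
    (hτα : ∀ a : laurentBaseChange L (modularFunctionFieldFull N),
      τ (heckeAlphaBar L N ℓ a) = qExpand L ℓ (qExpand L ℓ (a : LaurentSeries L)))
    {i i' : Option (Fin ℓ)}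
    (hj : sigmaFam hζ.pow_eq_one τ i (heckeAlphaBar L N ℓ
        ⟨gd L 1, (FB_eq L N).ge (jd_mem_fullC L (one_dvd N))⟩) =
      sigmaFam hζ.pow_eq_one τ i' (heckeAlphaBar L N ℓ
        ⟨gd L 1, (FB_eq L N).ge (jd_mem_fullC L (one_dvd N))⟩)) : i = i' := by
  have hℓ1 : ¬ ℓ ∣ 1 := fun h => hℓ.one_lt.ne' (Nat.dvd_one.mp h)
  have hj1 : ((heckeAlphaBar L N ℓ (⟨gd L 1, (FB_eq L N).ge (jd_mem_fullC L (one_dvd N))⟩ :
      laurentBaseChange L (modularFunctionFieldFull N)) :
      laurentBaseChange L (modularFunctionFieldFull (N * ℓ))) :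
      LaurentSeries L) = gd L 1 := coe_heckeAlphaBar N ℓ _
  cases i with
  | none =>
    cases i' with
    | none => rfl
    | some b' =>
      rw [sigmaFam_none, sigmaFam_some, hτα, hj1] at hj
      exact absurd hj (qExpand_qExpand_gd_ne_tw hζ hℓ hℓ1 b')
  | some b =>
    cases i' with
    | none =>
      rw [sigmaFam_none, sigmaFam_some, hτα, hj1] at hj
      exact absurd hj.symm (qExpand_qExpand_gd_ne_tw hζ hℓ hℓ1 b)
    | some b' =>
      rw [sigmaFam_some, sigmaFam_some, hj1] at hj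
      exact congrArg some (tw_gd_injective hζ hℓ hℓ1 hj)

/-- **Characteristic polynomial along `α`** of `β y`, read in `L((q))`, is the Kronecker
polynomial `Ψ_y = (X - y(q^ℓ)) ∏_b (X - y(ζ^b q^{1/ℓ}))`. -/
theorem charpoly_alpha_beta (hℓ : ℓ.Prime) (hℓN : ¬ ℓ ∣ N) {ζ : L} (hζ : IsPrimitiveRoot ζ ℓ)
    (y : laurentBaseChange L (modularFunctionFieldFull N)) :
    letI := algebraAlong (heckeAlphaBar L N ℓ)
    haveI : Module.Finite (laurentBaseChange L (modularFunctionFieldFull N))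
      (laurentBaseChange L (modularFunctionFieldFull (N * ℓ))) :=
      finiteAlong_heckeAlphaBar' hℓ hℓN
    ((Algebra.lmul (laurentBaseChange L (modularFunctionFieldFull N)) _
        (heckeBetaBar L N ℓ y)).charpoly).map
        (algebraMap (laurentBaseChange L (modularFunctionFieldFull N)) (LaurentSeries L)) =
      H400.kronPoly ℓ (y : LaurentSeries L) := by
  classical
  obtain ⟨τ, hτβ, hτα⟩ := exists_lastEmbedding (L := L) (N := N) hℓ hℓN hζ
  set w := swapOfTau hℓ τ hτβ hτα with hw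
  have hwα : ∀ a : laurentBaseChange L (modularFunctionFieldFull N),
      w (heckeAlphaBar L N ℓ a) = heckeBetaBar L N ℓ a := by
    intro a
    apply eq_of_qExpand_eq (ℓ := ℓ)
    rw [hw, swapOfTau_spec, hτα, coe_heckeBetaBar]
  have hwβ : ∀ a : laurentBaseChange L (modularFunctionFieldFull N),
      w (heckeBetaBar L N ℓ a) = heckeAlphaBar L N ℓ a := by
    intro a
    apply eq_of_qExpand_eq (ℓ := ℓ)
    rw [hw, swapOfTau_spec, hτβ, coe_heckeAlphaBar]
  letI := algebraAlong (heckeAlphaBar L N ℓ)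
  haveI : Module.Finite (laurentBaseChange L (modularFunctionFieldFull N))
      (laurentBaseChange L (modularFunctionFieldFull (N * ℓ))) :=
    finiteAlong_heckeAlphaBar' hℓ hℓN
  have hcard : Module.finrank (laurentBaseChange L (modularFunctionFieldFull N))
      (laurentBaseChange L (modularFunctionFieldFull (N * ℓ))) =
      Fintype.card (Option (Fin ℓ)) := by
    rw [Fintype.card_option, Fintype.card_fin]
    exact finrankAlong_heckeAlphaBar' hℓ hℓN
  have hσ : ∀ (i : Option (Fin ℓ)) (a : laurentBaseChange L (modularFunctionFieldFull N)),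
      ((sigmaFam hζ.pow_eq_one τ i).comp w) (heckeAlphaBar L N ℓ a) =
        ((qExpand L ℓ).comp (algebraMap (laurentBaseChange L (modularFunctionFieldFull N))
          (LaurentSeries L))) a := by
    intro i a
    rw [RingHom.comp_apply, hwα]
    exact sigmaFam_algebraMap hζ.pow_eq_one τ hτβ i a
  have hinj : Function.Injective (fun i : Option (Fin ℓ) =>
      (sigmaFam hζ.pow_eq_one τ i).comp w) := by
    intro i i' h
    have h1 := congrArg (fun f : laurentBaseChange L (modularFunctionFieldFull (N * ℓ)) →+*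
      LaurentSeries L => f (heckeBetaBar L N ℓ
        ⟨gd L 1, (FB_eq L N).ge (jd_mem_fullC L (one_dvd N))⟩)) h
    simp only [RingHom.comp_apply, hwβ] at h1
    exact sigmaFam_eq_of_apply_eq hℓ hζ τ hτα h1
  have h := charpoly_map_eq_prod_embeddings
    ((qExpand L ℓ).comp (algebraMap (laurentBaseChange L (modularFunctionFieldFull N))
        (LaurentSeries L))) (fun i : Option (Fin ℓ) => (sigmaFam hζ.pow_eq_one τ i).comp w)
    hσ hinj hcard (heckeBetaBar L N ℓ y)
  simp only [RingHom.comp_apply, hwβ] at h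
  rw [Fintype.prod_option, sigmaFam_none, hτα] at h
  simp only [sigmaFam_some, coe_heckeAlphaBar] at h
  rw [← kronPoly_map_qExpand ℓ hζ, ← Polynomial.map_map] at h
  exact Polynomial.map_injective _ (qExpand_injective ℓ) h

/-- **NORM-ID.** `Nm_α(β y) = y(q^ℓ) · ∏_b y(ζ^b q^{1/ℓ})` (`H400.kronNorm ℓ y`). -/
theorem norm_alpha_beta (hℓ : ℓ.Prime) (hℓN : ¬ ℓ ∣ N) {ζ : L} (hζ : IsPrimitiveRoot ζ ℓ)
    (y : laurentBaseChange L (modularFunctionFieldFull N)) :
    letI := algebraAlong (heckeAlphaBar L N ℓ)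
    ((Algebra.norm (laurentBaseChange L (modularFunctionFieldFull N))
        (heckeBetaBar L N ℓ y) : laurentBaseChange L (modularFunctionFieldFull N)) :
        LaurentSeries L) = H400.kronNorm ℓ (y : LaurentSeries L) := by
  letI := algebraAlong (heckeAlphaBar L N ℓ)
  haveI : Module.Finite (laurentBaseChange L (modularFunctionFieldFull N))
      (laurentBaseChange L (modularFunctionFieldFull (N * ℓ))) :=
    finiteAlong_heckeAlphaBar' hℓ hℓN
  have h := charpoly_alpha_beta hℓ hℓN hζ y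
  have h0 := congrArg (fun p : Polynomial (LaurentSeries L) => p.coeff 0) h
  simp only [Polynomial.coeff_map, IntermediateField.algebraMap_apply] at h0
  have hfr : Module.finrank (laurentBaseChange L (modularFunctionFieldFull N))
      (laurentBaseChange L (modularFunctionFieldFull (N * ℓ))) = ℓ + 1 :=
    finrankAlong_heckeAlphaBar' hℓ hℓN
  rw [Algebra.norm_apply, LinearMap.det_eq_sign_charpoly_coeff, hfr, IntermediateField.coe_mul,
    IntermediateField.coe_pow, IntermediateField.coe_neg, IntermediateField.coe_one, h0,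
    H400.kronPoly_coeff_zero, ← mul_assoc, ← mul_pow]
  simp

section Bar

/-- **The Atkin–Lehner swap over `ℚ̄`.** -/
theorem exists_swap_bar (hℓ : ℓ.Prime) (hℓN : ¬ ℓ ∣ N) :
    ∃ w : modularFunctionFieldBar (N * ℓ) →+* modularFunctionFieldBar (N * ℓ),
      (∀ a : modularFunctionFieldBar N,
        w (heckeAlphaBar (AlgebraicClosure ℚ) N ℓ a) = heckeBetaBar (AlgebraicClosure ℚ) N ℓ a) ∧
      (∀ a : modularFunctionFieldBar N,
        w (heckeBetaBar (AlgebraicClosure ℚ) N ℓ a) = heckeAlphaBar (AlgebraicClosure ℚ) N ℓ a) := by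
  obtain ⟨ζ, hζ⟩ := exists_primitiveRoot_bar ℓ
  exact exists_swap hℓ hℓN hζ

/-- **Characteristic polynomial along `α` over `ℚ̄`.** -/
theorem charpoly_alpha_beta_bar (hℓ : ℓ.Prime) (hℓN : ¬ ℓ ∣ N) (y : modularFunctionFieldBar N) :
    letI := algebraAlong (heckeAlphaBar (AlgebraicClosure ℚ) N ℓ)
    haveI : Module.Finite (modularFunctionFieldBar N) (modularFunctionFieldBar (N * ℓ)) :=
      finiteAlong_heckeAlphaBar' hℓ hℓN
    ((Algebra.lmul (modularFunctionFieldBar N) (modularFunctionFieldBar (N * ℓ))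
        (heckeBetaBar (AlgebraicClosure ℚ) N ℓ y)).charpoly).map
        (algebraMap (modularFunctionFieldBar N) (LaurentSeries (AlgebraicClosure ℚ))) =
      H400.kronPoly ℓ (y : LaurentSeries (AlgebraicClosure ℚ)) := by
  obtain ⟨ζ, hζ⟩ := exists_primitiveRoot_bar ℓ
  exact charpoly_alpha_beta hℓ hℓN hζ y

/-- **NORM-ID over `ℚ̄`**: the q-expansion of `Nm_α(β y)` is `H400.kronNorm ℓ y`. -/
theorem norm_alpha_beta_bar (hℓ : ℓ.Prime) (hℓN : ¬ ℓ ∣ N) (y : modularFunctionFieldBar N) :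
    letI := algebraAlong (heckeAlphaBar (AlgebraicClosure ℚ) N ℓ)
    ((Algebra.norm (modularFunctionFieldBar N)
        (heckeBetaBar (AlgebraicClosure ℚ) N ℓ y) : modularFunctionFieldBar N) :
        LaurentSeries (AlgebraicClosure ℚ)) =
      H400.kronNorm ℓ (y : LaurentSeries (AlgebraicClosure ℚ)) := by
  obtain ⟨ζ, hζ⟩ := exists_primitiveRoot_bar ℓ
  exact norm_alpha_beta hℓ hℓN hζ y

end Bar

end AlphaSide

end Fermat.Agent.S37.H88

end
end
-- ===== PACK-END S37/H88/ALSwap.lean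

-- ===== PACK-BEGIN Ribet/H552/ASGlue.lean
section





/-!
# RIBET wall-p, leaf GLUE-p (helper552), part 2: the wild form of `A2.H729.alg_ss`

Setting of `A2.H729.alg_ss` (`R` noetherian domain with `R[X]` integrally closed, `w ∈ R` prime,
`F₀ ⊆ F` fields over `R`, `x₀ ∈ F₀` a coordinate, `R` integrally closed in `F`, `F / F₀` finite
Galois), but the exponent is a prime `p` WITHOUT the assumption that `p` is invertible in `R`:
`ζ ∈ R` a primitive `p`-th root of unity, `λ = ζ - 1`.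

* `as_ss` : `y ∈ F`, `y ^ p = u ∈ F₀`, `u ∈ 1 + λ^p w O₀`, and at every closed point `𝔫₀ ∋ w` of
  the two charts of `F₀` a local factorisation `u = ε * h ^ p`, `h ∈ 1 + λ w O₀`,
  `ε ∈ 1 + λ^p w (B₀)_{𝔫₀}`.  Then `u` is a `p`-th power in `F₀`.

Proof: `Y = (y - 1)/λ` satisfies `∏_{k<p} (Y - g_k) = (u - 1)/λ^p ≡ 0 mod w O`; the local models
`Y₁ = (y/h - 1)/λ` are integral at `𝔫₀`; `as_trivial_of_local` gives `Y ≡ g_k mod w O` for one
`k`, i.e. `y' = ζ^{-k} y ∈ 1 + λ w O`; for `σ ∈ Gal(F/F₀)`, `σ y' = ζ^j y'` forces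
`g_j ∈ w O ∩ R = w R`, so `j = 0`.
-/

set_option autoImplicit false
set_option linter.unusedSectionVars false

namespace Fermat.Agent.Ribet.H552

open Polynomial Fermat.Agent.S18.H138 Fermat.Agent.A2.H729

section ASEq

variable {R : Type*} [CommRing R] {F : Type*} [Field F] [Algebra R F]

/-- **Artin–Schreier form of the Kummer equation**: for `z = 1 + λ Z`,
`z ^ p - 1 = λ ^ p ∏_{k<p} (Z - g_k)`. -/
theorem pow_sub_one_eq_prod_geomS {p : ℕ} (hp : 0 < p) {ζ : R}
    (hζF : IsPrimitiveRoot (algebraMap R F ζ) p) {z Z : F}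
    (hz : z = 1 + algebraMap R F (ζ - 1) * Z) :
    z ^ p - 1 = algebraMap R F (ζ - 1) ^ p *
      ∏ k ∈ Finset.range p, (Z - algebraMap R F (geomS ζ k)) := by
  rw [← prod_range_sub_pow hp hζF z]
  have h : ∀ k ∈ Finset.range p, z - algebraMap R F ζ ^ k =
      algebraMap R F (ζ - 1) * (Z - algebraMap R F (geomS ζ k)) := by
    intro k _
    have h1 : algebraMap R F (geomS ζ k) * algebraMap R F (ζ - 1) = algebraMap R F ζ ^ k - 1 := by
      rw [← map_mul, geomS_mul, map_sub, map_pow, map_one]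
    rw [hz]
    linear_combination h1
  rw [Finset.prod_congr rfl h, Finset.prod_mul_distrib, Finset.prod_const, Finset.card_range]

/-- An element `Y` with `∏_{k ∈ s} (Y - a k) = b` is integral. -/
theorem isIntegral_of_prod_sub_eq {A : Type*} [CommRing A] [Nontrivial A] [Algebra A F]
    (s : Finset ℕ) (hs : s.Nonempty) (a : ℕ → A) (b : A) {Y : F}
    (h : ∏ k ∈ s, (Y - algebraMap A F (a k)) = algebraMap A F b) : IsIntegral A Y := by
  have hm : (∏ k ∈ s, (X - C (a k))).Monic := monic_prod_X_sub_C a s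
  have hdeg : (∏ k ∈ s, (X - C (a k))).natDegree = s.card := by
    rw [natDegree_prod_of_monic _ _ fun k _ => monic_X_sub_C (a k)]
    simp
  refine ⟨∏ k ∈ s, (X - C (a k)) - C b, hm.sub_of_left ?_, ?_⟩
  · rw [degree_eq_natDegree hm.ne_zero, hdeg]
    refine lt_of_le_of_lt degree_C_le ?_
    exact_mod_cast Finset.card_pos.2 hs
  · rw [eval₂_sub, eval₂_finsetProd, eval₂_C]
    simp only [eval₂_sub, eval₂_X, eval₂_C]
    rw [h, sub_self]

end ASEq

section Loc

variable {R : Type*} [CommRing R] [IsDomain R] [IsIntegrallyClosed (Polynomial R)]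
  {F₀ : Type*} [Field F₀] [Algebra R F₀]
  {F : Type*} [Field F] [Algebra R F] [Algebra F₀ F] [IsScalarTower R F₀ F]

/-- The local hypothesis of `as_trivial_of_local` from wild local factorisations on the base. -/
theorem hloc_of_localFactorisationP {w : R} (hw : Prime w) {x₀ : F₀}
    (hx : Transcendental R (algebraMap F₀ F x₀)) {p : ℕ} (hp : p.Prime) {ζ : R}
    (hζF : IsPrimitiveRoot (algebraMap R F ζ) p) {u : F₀} {y Y : F}
    (hyu : y ^ p = algebraMap F₀ F u) (hyY : y = 1 + algebraMap R F (ζ - 1) * Y)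
    (hYO : Y ∈ gaussO hw (algebraMap F₀ F x₀))
    (hLF : ∀ 𝔫₀ : Ideal (chart R ({x₀} : Set F₀)), 𝔫₀.IsMaximal →
      algebraMap R (chart R ({x₀} : Set F₀)) w ∈ 𝔫₀ →
      ∃ s : chart R ({x₀} : Set F₀), s ∉ 𝔫₀ ∧ ∃ h ε : F₀,
        (∃ t ∈ gaussO hw x₀, h - 1 = algebraMap R F₀ ((ζ - 1) * w) * t) ∧ u = ε * h ^ p ∧
        ∃ c ∈ chart R ({x₀} : Set F₀), (s : F₀) * (ε - 1) = algebraMap R F₀ ((ζ - 1) ^ p * w) * c) :
    ∀ 𝔫 : Ideal (chart R ({algebraMap F₀ F x₀} : Set F)), 𝔫.IsMaximal →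
      algebraMap R (chart R ({algebraMap F₀ F x₀} : Set F)) w ∈ 𝔫 →
      ∃ S : chart R ({algebraMap F₀ F x₀} : Set F), S ∉ 𝔫 ∧
        ∃ Y₁ : F, InW (gaussO hw (algebraMap F₀ F x₀)) w (Y - Y₁) ∧
          (S : F) * Y₁ ∈ chart R ({algebraMap F₀ F x₀} : Set F) := by
  intro 𝔫 h𝔫 hw𝔫
  have := h𝔫
  set O := gaussO hw (algebraMap F₀ F x₀) with hO
  have hmax := isMaximal_comap_chartMap (R := R) (F := F) x₀ 𝔫
  have hw₀ : algebraMap R (chart R ({x₀} : Set F₀)) w ∈
      Ideal.comap (chartMap (R := R) (F := F) x₀) 𝔫 := by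
    rw [Ideal.mem_comap, chartMap_algebraMap]
    exact hw𝔫
  obtain ⟨s₀, hs₀, h, ε, ⟨t, ht, hht⟩, huε, c, hc, hsc⟩ := hLF _ hmax hw₀
  set lam : F := algebraMap R F (ζ - 1) with hlam
  have hlam0 : lam ≠ 0 := by
    rw [hlam, map_sub, map_one]
    exact sub_ne_zero.2 (hζF.ne_one hp.one_lt)
  set hF : F := algebraMap F₀ F h with hhF
  have htO : algebraMap F₀ F t ∈ O := algebraMap_mem_gaussO (F := F) hw ht
  have hhF1 : hF - 1 = lam * algebraMap R F w * algebraMap F₀ F t := by
    rw [hhF, ← map_one (algebraMap F₀ F), ← map_sub, hht, map_mul,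
      ← IsScalarTower.algebraMap_apply R F₀ F, map_mul]
  have hInW : InW O w (hF - 1) := by
    refine ⟨lam * algebraMap F₀ F t, O.mul_mem (O.algebraMap_mem _) htO, ?_⟩
    rw [hhF1]; ring
  obtain ⟨hne, hinv, -⟩ := inW_inv_sub_one hw hx hInW
  have hh0 : h ≠ 0 := fun h0 => hne (by rw [hhF, h0, map_zero])
  have hyO : y ∈ O := by
    rw [hyY]
    exact O.add_mem O.one_mem (O.mul_mem (O.algebraMap_mem _) hYO)
  set Y₁ : F := (y * hF⁻¹ - 1) * lam⁻¹ with hY₁
  have hz₁ : y * hF⁻¹ = 1 + lam * Y₁ := by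
    rw [hY₁]
    have e0 : lam * lam⁻¹ = 1 := mul_inv_cancel₀ hlam0
    linear_combination (-(y * hF⁻¹ - 1)) * e0
  refine ⟨chartMap (R := R) (F := F) x₀ s₀, fun hs => hs₀ (Ideal.mem_comap.2 hs), Y₁, ?_, ?_⟩
  · refine ⟨y * hF⁻¹ * algebraMap F₀ F t, O.mul_mem (O.mul_mem hyO hinv) htO, ?_⟩
    apply mul_left_cancel₀ hlam0
    have e1 : hF * hF⁻¹ = 1 := mul_inv_cancel₀ hne
    linear_combination -hyY + hz₁ + (y * hF⁻¹) * hhF1 - y * e1
  · have hSc : ((chartMap (R := R) (F := F) x₀ s₀ : chart R ({algebraMap F₀ F x₀} : Set F)) : F)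
        = algebraMap F₀ F s₀ := rfl
    rw [hSc]
    set S : F := algebraMap F₀ F s₀ with hS
    -- the Artin–Schreier equation of `Y₁`
    have hAS := pow_sub_one_eq_prod_geomS hp.pos hζF hz₁
    have hε : algebraMap F₀ F ε = (y * hF⁻¹) ^ p := by
      rw [mul_pow, hyu, huε, map_mul, map_pow, inv_pow, mul_assoc,
        mul_inv_cancel₀ (pow_ne_zero p hne), mul_one]
    have hSε : S * (algebraMap F₀ F ε - 1) = lam ^ p * algebraMap R F w * algebraMap F₀ F c := by
      rw [hS, ← map_one (algebraMap F₀ F), ← map_sub, ← map_mul, hsc, map_mul,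
        ← IsScalarTower.algebraMap_apply R F₀ F, map_mul, map_pow]
    have hp1 : S ^ p = S ^ (p - 1) * S := by
      rw [← pow_succ]
      congr 1
      have := hp.pos
      omega
    have hprod : ∏ k ∈ Finset.range p, (S * Y₁ - S * algebraMap R F (geomS ζ k)) =
        S ^ (p - 1) * algebraMap R F w * algebraMap F₀ F c := by
      have e1 : ∏ k ∈ Finset.range p, (S * Y₁ - S * algebraMap R F (geomS ζ k)) =
          S ^ p * ∏ k ∈ Finset.range p, (Y₁ - algebraMap R F (geomS ζ k)) := by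
        rw [← Finset.card_range p, ← Finset.prod_const, Finset.card_range,
          ← Finset.prod_mul_distrib]
        exact Finset.prod_congr rfl fun k _ => by ring
      rw [e1]
      apply mul_left_cancel₀ (pow_ne_zero p hlam0)
      rw [← hε] at hAS
      linear_combination (-(S ^ p)) * hAS + S ^ (p - 1) * hSε + (algebraMap F₀ F ε - 1) * hp1
    -- integrality over the chart
    let C' := chart R ({algebraMap F₀ F x₀} : Set F)
    have hSC : S ∈ C' := algebraMap_mem_chart_singleton s₀.2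
    have hcC : algebraMap F₀ F c ∈ C' := algebraMap_mem_chart_singleton hc
    have hint : IsIntegral C' (S * Y₁) := by
      refine isIntegral_of_prod_sub_eq (A := C') (Finset.range p)
        ⟨0, Finset.mem_range.2 hp.pos⟩
        (fun k => (⟨S, hSC⟩ : C') * algebraMap R C' (geomS ζ k))
        ((⟨S, hSC⟩ : C') ^ (p - 1) * algebraMap R C' w * ⟨algebraMap F₀ F c, hcC⟩) ?_
      exact hprod
    exact mem_chart_of_isIntegral_chart hint

end Loc

section Main

variable {R : Type*} [CommRing R] [IsDomain R] [IsNoetherianRing R]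
  [IsIntegrallyClosed (Polynomial R)]
  {F₀ : Type*} [Field F₀] [Algebra R F₀]
  {F : Type*} [Field F] [Algebra R F] [Algebra F₀ F] [IsScalarTower R F₀ F] [CharZero F]

/-- **GLUE-p, field form (wild `alg_ss`).**  A Kummer class `u ∈ F₀` of prime order `p` with
`u ∈ 1 + λ^p w O₀` and local factorisations `u = ε * h ^ p` (`h ∈ 1 + λ w O₀`,
`ε ∈ 1 + λ^p w (B₀)_{𝔫₀}`) at every closed point of the special fibre of both charts is a `p`-th
power in `F₀`, provided its Kummer extension `F` is regular over `R` (`hRF`). -/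
theorem as_ss [IsGalois F₀ F] [FiniteDimensional F₀ F]
    (hinjR : Function.Injective (algebraMap R F))
    (hRF : ∀ y : F, IsIntegral R y → y ∈ Set.range (algebraMap R F))
    {x₀ : F₀} (hx : Transcendental R (algebraMap F₀ F x₀))
    [FiniteDimensional (baseField R (algebraMap F₀ F x₀)) F]
    {w : R} (hw : Prime w) {p : ℕ} (hp : p.Prime) {ζ : R} (hζ : IsPrimitiveRoot ζ p)
    {u : F₀} {y : F} (hyu : y ^ p = algebraMap F₀ F u)
    (hgen : ∃ t ∈ gaussO hw x₀, u - 1 = algebraMap R F₀ ((ζ - 1) ^ p * w) * t)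
    (hLF_fin : ∀ 𝔫₀ : Ideal (chart R ({x₀} : Set F₀)), 𝔫₀.IsMaximal →
      algebraMap R (chart R ({x₀} : Set F₀)) w ∈ 𝔫₀ →
      ∃ s : chart R ({x₀} : Set F₀), s ∉ 𝔫₀ ∧ ∃ h ε : F₀,
        (∃ t ∈ gaussO hw x₀, h - 1 = algebraMap R F₀ ((ζ - 1) * w) * t) ∧ u = ε * h ^ p ∧
        ∃ c ∈ chart R ({x₀} : Set F₀), (s : F₀) * (ε - 1) = algebraMap R F₀ ((ζ - 1) ^ p * w) * c)
    (hLF_inf : ∀ 𝔫₀ : Ideal (chart R ({x₀⁻¹} : Set F₀)), 𝔫₀.IsMaximal →
      algebraMap R (chart R ({x₀⁻¹} : Set F₀)) w ∈ 𝔫₀ →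
      ∃ s : chart R ({x₀⁻¹} : Set F₀), s ∉ 𝔫₀ ∧ ∃ h ε : F₀,
        (∃ t ∈ gaussO hw x₀, h - 1 = algebraMap R F₀ ((ζ - 1) * w) * t) ∧ u = ε * h ^ p ∧
        ∃ c ∈ chart R ({x₀⁻¹} : Set F₀),
          (s : F₀) * (ε - 1) = algebraMap R F₀ ((ζ - 1) ^ p * w) * c) :
    ∃ y₀ : F₀, y₀ ^ p = u := by
  classical
  set x : F := algebraMap F₀ F x₀ with hxdef
  have hx0 : x ≠ 0 := ne_zero_of_transcendental hx
  have hx₀0 : x₀ ≠ 0 := fun h => hx0 (by rw [hxdef, h, map_zero])
  set O := gaussO hw x with hO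
  have hζF : IsPrimitiveRoot (algebraMap R F ζ) p := hζ.map_of_injective hinjR
  set lam : F := algebraMap R F (ζ - 1) with hlam
  have hlam0 : lam ≠ 0 := by
    rw [hlam, map_sub, map_one]
    exact sub_ne_zero.2 (hζF.ne_one hp.one_lt)
  set Y : F := (y - 1) * lam⁻¹ with hY
  have hyY : y = 1 + lam * Y := by
    rw [hY]
    have e0 : lam * lam⁻¹ = 1 := mul_inv_cancel₀ hlam0
    linear_combination (-(y - 1)) * e0
  obtain ⟨t, ht, hut⟩ := hgen
  have htO : algebraMap F₀ F t ∈ O := algebraMap_mem_gaussO (F := F) hw ht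
  have hAS := pow_sub_one_eq_prod_geomS hp.pos hζF hyY
  have hprodY : ∏ k ∈ Finset.range p, (Y - algebraMap R F (geomS ζ k)) =
      algebraMap R F w * algebraMap F₀ F t := by
    apply mul_left_cancel₀ (pow_ne_zero p hlam0)
    rw [← hAS, hyu, ← map_one (algebraMap F₀ F), ← map_sub, hut, map_mul,
      ← IsScalarTower.algebraMap_apply R F₀ F, map_mul, map_pow]
    ring
  have hYO : Y ∈ O := by
    apply mem_gaussO_of_isIntegral hw
    refine isIntegral_of_prod_sub_eq (A := O) (Finset.range p) ⟨0, Finset.mem_range.2 hp.pos⟩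
      (fun k => algebraMap R O (geomS ζ k)) (algebraMap R O w * ⟨algebraMap F₀ F t, htO⟩) ?_
    exact hprodY
  have hA : InW O w (∏ k ∈ Finset.range p, (Y - algebraMap R F (geomS ζ k))) :=
    ⟨_, htO, hprodY⟩
  -- inverses of the differences of the sheet values
  have hex : ∀ k l : ℕ, ∃ r : R, k < p → l < p → k ≠ l →
      (geomS ζ k - geomS ζ l) * r = 1 := by
    intro k l
    by_cases h : k < p ∧ l < p ∧ k ≠ l
    · obtain ⟨r, hr⟩ := exists_geomS_sub_inv hp hζ h.1 h.2.1 h.2.2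
      exact ⟨r, fun _ _ _ => hr⟩
    · exact ⟨0, fun h1 h2 h3 => absurd ⟨h1, h2, h3⟩ h⟩
  choose d hd using hex
  have hd' : ∀ k ∈ Finset.range p, ∀ l ∈ Finset.range p, k ≠ l →
      (geomS ζ k - geomS ζ l) * d k l = 1 :=
    fun k hk l hl hkl => hd k l (Finset.mem_range.1 hk) (Finset.mem_range.1 hl) hkl
  -- local integral models
  have hxinv : algebraMap F₀ F x₀⁻¹ = x⁻¹ := by rw [map_inv₀]
  have hxi : Transcendental R (algebraMap F₀ F x₀⁻¹) := by
    rw [hxinv]; exact transcendental_inv hx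
  have hloc_fin := hloc_of_localFactorisationP (F := F) hw hx hp hζF hyu hyY hYO hLF_fin
  have hYO' : Y ∈ gaussO hw (algebraMap F₀ F x₀⁻¹) := by
    rw [hxinv, gaussO_inv hw hx0]; exact hYO
  have hLF_inf' : ∀ 𝔫₀ : Ideal (chart R ({x₀⁻¹} : Set F₀)), 𝔫₀.IsMaximal →
      algebraMap R (chart R ({x₀⁻¹} : Set F₀)) w ∈ 𝔫₀ →
      ∃ s : chart R ({x₀⁻¹} : Set F₀), s ∉ 𝔫₀ ∧ ∃ h ε : F₀,
        (∃ t ∈ gaussO hw x₀⁻¹, h - 1 = algebraMap R F₀ ((ζ - 1) * w) * t) ∧ u = ε * h ^ p ∧
        ∃ c ∈ chart R ({x₀⁻¹} : Set F₀),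
          (s : F₀) * (ε - 1) = algebraMap R F₀ ((ζ - 1) ^ p * w) * c := by
    rw [gaussO_inv hw hx₀0]
    exact hLF_inf
  have hloc_inf := hloc_of_localFactorisationP (F := F) hw hxi hp hζF hyu hyY hYO' hLF_inf'
  rw [hxinv, gaussO_inv hw hx0] at hloc_inf
  obtain ⟨k₀, hk₀, T, hT, hYT⟩ := as_trivial_of_local hinjR hRF hx w hw O
    (chart_fin_le_gaussO hw x) (chart_inf_le_gaussO hw hx0) (qep_fin hw hx) (qep_inf hw hx)
    (qep_mid hw hx) (not_inW_one hinjR hw hx) (Finset.range p)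
    ⟨0, Finset.mem_range.2 hp.pos⟩ (geomS ζ) d hd' hYO hA hloc_fin hloc_inf
  rw [Finset.mem_range] at hk₀
  -- the normalised root `y' = ζ^{-k₀} y ∈ 1 + λ w O`
  set ζi : R := ζ ^ (p - k₀) with hζi
  have hζζ : ζ ^ k₀ * ζi = 1 := by
    rw [hζi, ← pow_add, show k₀ + (p - k₀) = p by omega, hζ.pow_eq_one]
  set y' : F := algebraMap R F ζi * y with hy'
  have hy'p : y' ^ p = algebraMap F₀ F u := by
    rw [hy', mul_pow, ← map_pow, hζi, ← pow_mul, mul_comm (p - k₀) p, pow_mul, hζ.pow_eq_one,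
      one_pow, map_one, one_mul, hyu]
  set T' : F := algebraMap R F ζi * T with hT'
  have hT'O : T' ∈ O := O.mul_mem (O.algebraMap_mem _) hT
  have hy'1 : y' = 1 + lam * algebraMap R F w * T' := by
    have h1 : algebraMap R F (geomS ζ k₀) * lam = algebraMap R F ζ ^ k₀ - 1 := by
      rw [hlam, ← map_mul, geomS_mul, map_sub, map_pow, map_one]
    have h2 : algebraMap R F ζ ^ k₀ * algebraMap R F ζi = 1 := by
      rw [← map_pow, ← map_mul, hζζ, map_one]
    rw [hy', hT']
    linear_combination (algebraMap R F ζi) * hyY + (algebraMap R F ζi * lam) * hYT +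
      (algebraMap R F ζi) * h1 + h2
  have hy'0 : y' ≠ 0 := by
    intro h0
    apply not_inW_one hinjR hw hx
    refine ⟨-(lam * T'), O.neg_mem (O.mul_mem (O.algebraMap_mem _) hT'O), ?_⟩
    rw [h0] at hy'1
    linear_combination -hy'1
  have hfix : ∀ σ : F ≃ₐ[F₀] F, σ y' = y' := by
    intro σ
    set ξ : F := σ y' * y'⁻¹ with hξ
    have hσy : σ y' = ξ * y' := by rw [hξ, mul_assoc, inv_mul_cancel₀ hy'0, mul_one]
    have hξp : ξ ^ p = 1 := by
      rw [hξ, mul_pow, ← map_pow, hy'p, σ.commutes, ← hy'p, inv_pow,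
        mul_inv_cancel₀ (pow_ne_zero _ hy'0)]
    have : NeZero p := ⟨hp.ne_zero⟩
    obtain ⟨j, hj, hjξ⟩ := hζF.eq_pow_of_pow_eq_one hξp
    have hσR : ∀ r : R, σ (algebraMap R F r) = algebraMap R F r := fun r => by
      rw [IsScalarTower.algebraMap_apply R F₀ F, σ.commutes]
    have hσT : σ T' ∈ O := algEquiv_mem_gaussO hw σ hT'O
    have hσlam : σ lam = lam := by
      rw [hlam]
      exact hσR _
    have h3 : σ y' = 1 + lam * algebraMap R F w * σ T' :=
      calc σ y' = σ (1 + lam * algebraMap R F w * T') := congrArg σ hy'1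
        _ = 1 + lam * algebraMap R F w * σ T' := by
          rw [map_add, map_one, map_mul, map_mul, hσlam, hσR]
    have h4 : algebraMap R F (geomS ζ j) * lam = ξ - 1 := by
      rw [← hjξ, hlam, ← map_mul, geomS_mul, map_sub, map_pow, map_one]
    have h5 : algebraMap R F (geomS ζ j) = algebraMap R F w * (σ T' - ξ * T') := by
      apply mul_left_cancel₀ hlam0
      linear_combination h4 + h3 - hσy - ξ * hy'1
    have hξO : ξ ∈ O := by
      rw [← hjξ, ← map_pow]
      exact O.algebraMap_mem _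
    have h6 : InW O w (algebraMap R F (geomS ζ j)) :=
      ⟨_, O.sub_mem hσT (O.mul_mem hξO hT'O), h5⟩
    have h7 : w ∣ geomS ζ j := dvd_of_inW_algebraMap hinjR hw hx h6
    have hj0 : j = 0 := by
      by_contra hne
      obtain ⟨r, hr⟩ := exists_geomS_inv hp hζ (Nat.pos_of_ne_zero hne) hj
      have h8 : w ∣ (1 : R) := by
        rw [← hr]
        exact h7.mul_right r
      exact hw.not_isUnit (isUnit_of_dvd_one h8)
    rw [hσy, ← hjξ, hj0, pow_zero, one_mul]
  obtain ⟨y₀, hy₀⟩ := (IsGalois.mem_range_algebraMap_iff_fixed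
    (F := F₀) (E := F) y').2 hfix
  refine ⟨y₀, ?_⟩
  apply (algebraMap F₀ F).injective
  rw [map_pow, hy₀, hy'p]

end Main

end Fermat.Agent.Ribet.H552

end
-- ===== PACK-END Ribet/H552/ASGlue.lean

-- ===== PACK-BEGIN Ribet/H552/ASBridge.lean
section




/-!
# RIBET wall-p, leaf GLUE-p (helper552), part 3: from `LocOneR` to the Gauss ring

Toolkit for the elementwise local conditions `A2.Alg.LocOne` / `H495.AlgP.LocOneR`:

* `locOne_mul`, `locOne_inv`, `locOne_of_le` : `1 + I B_n` is a group, monotone in `n`;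
* `locOneR_pow_prime` : `h ∈ 1 + λ w B_n ⟹ h ^ p ∈ 1 + λ^p w B_n` (`λ = ζ - 1`; via
  `a^p - b^p = ∏_k (a - ζ^k b)`, no binomial coefficients);
* `exists_gaussO_of_locOneR` (**bridge**): `h ∈ 1 + r B_{p₁}` and `h ∈ 1 + r B_{p₂}` on the two
  components of a reduced special fibre `⟹ h ∈ 1 + r · gaussO`, for every `r ∈ R`.
-/

set_option autoImplicit false
set_option linter.unusedSectionVars false

namespace Fermat.Agent.Ribet.H552

open Polynomial Fermat.Agent.S18.H138 Fermat.Agent.A2.H729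
open Fermat.Agent.A2 Fermat.Agent.A2.Alg Fermat.Agent.Ribet.H495.AlgP

section LocOne

variable {R F : Type*} [CommRing R] [Field F] [Algebra R F] {B : Subalgebra R F}

theorem locOne_mul {n I : Ideal B} (hn : n.IsPrime) {g g' : F}
    (h : LocOne B n I g) (h' : LocOne B n I g') : LocOne B n I (g * g') := by
  obtain ⟨a, b, hb, hab, e⟩ := h
  obtain ⟨a', b', hb', hab', e'⟩ := h'
  refine ⟨a * a', b * b', fun hmem => ?_, ?_, ?_⟩
  · rcases hn.mem_or_mem hmem with h1 | h1
    · exact hb h1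
    · exact hb' h1
  · have : a * a' - b * b' = a * (a' - b') + (a - b) * b' := by ring
    rw [this]
    exact I.add_mem (I.mul_mem_left _ hab') (I.mul_mem_right _ hab)
  · push_cast
    rw [← e, ← e']
    ring

theorem locOne_inv {n I : Ideal B} (hIn : I ≤ n) {g : F} (h : LocOne B n I g) :
    LocOne B n I g⁻¹ := by
  obtain ⟨a, b, hb, hab, e⟩ := h
  have ha : a ∉ n := by
    intro ha
    apply hb
    have : b = a - (a - b) := by ring
    rw [this]
    exact n.sub_mem ha (hIn hab)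
  have hg : g ≠ 0 := by
    rintro rfl
    rw [zero_mul] at e
    apply ha
    have : a = 0 := Subtype.ext e.symm
    rw [this]
    exact n.zero_mem
  refine ⟨b, a, ha, ?_, ?_⟩
  · have : b - a = -(a - b) := by ring
    rw [this]
    exact I.neg_mem hab
  · rw [← e, ← mul_assoc, inv_mul_cancel₀ hg, one_mul]

theorem locOne_of_le {n n' I : Ideal B} (hn : n' ≤ n) {g : F} (h : LocOne B n I g) :
    LocOne B n' I g := by
  obtain ⟨a, b, hb, hab, e⟩ := h
  exact ⟨a, b, fun hmem => hb (hn hmem), hab, e⟩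

theorem locOne_ne_zero {n I : Ideal B} (hIn : I ≤ n) {g : F} (h : LocOne B n I g) : g ≠ 0 := by
  obtain ⟨a, b, hb, hab, e⟩ := h
  rintro rfl
  rw [zero_mul] at e
  apply hb
  have ha : a = 0 := Subtype.ext e.symm
  have hb' : b = -(a - b) := by rw [ha]; ring
  rw [hb']
  exact n.neg_mem (hIn hab)

/-- `a ^ p - b ^ p = ∏_{k<p} (a - ζ ^ k b)`. -/
theorem prod_range_sub_mul {p : ℕ} (hp : 0 < p) {ζ : F} (hζ : IsPrimitiveRoot ζ p) (a b : F) :
    ∏ k ∈ Finset.range p, (a - ζ ^ k * b) = a ^ p - b ^ p := by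
  by_cases hb : b = 0
  · subst hb
    simp [zero_pow hp.ne']
  · have h := prod_range_sub_pow hp hζ (a * b⁻¹)
    have h2 : ∏ k ∈ Finset.range p, (a - ζ ^ k * b) =
        b ^ p * ∏ k ∈ Finset.range p, (a * b⁻¹ - ζ ^ k) := by
      rw [← Finset.card_range p, ← Finset.prod_const, Finset.card_range,
        ← Finset.prod_mul_distrib]
      refine Finset.prod_congr rfl fun k _ => ?_
      field_simp
    rw [h2, h, mul_pow, inv_pow]
    field_simp

/-- `h ∈ 1 + λ w B_n ⟹ h ^ p ∈ 1 + λ ^ p w B_n`. -/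
theorem locOneR_pow_prime (hinj : Function.Injective (algebraMap R F)) {n : Ideal B}
    (hn : n.IsPrime) {p : ℕ} (hp : p.Prime) {ζ : R} (hζ : IsPrimitiveRoot ζ p) (w : R) {h : F}
    (hh : LocOneR B n ((ζ - 1) * w) h) : LocOneR B n ((ζ - 1) ^ p * w) (h ^ p) := by
  classical
  obtain ⟨a, b, hb, hab, e⟩ := hh
  obtain ⟨c, hc⟩ := Ideal.mem_span_singleton'.1 hab
  have hζF : IsPrimitiveRoot (algebraMap R F ζ) p := hζ.map_of_injective hinj
  refine ⟨a ^ p, b ^ p, fun hmem => hb (hn.mem_of_pow_mem _ hmem), ?_, ?_⟩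
  · rw [Ideal.mem_span_singleton']
    refine ⟨c * ∏ k ∈ Finset.Ico 1 p,
      (algebraMap R B w * c - algebraMap R B (geomS ζ k) * b), ?_⟩
    apply Subtype.ext
    have hcF : (c : F) * (algebraMap R F (ζ - 1) * algebraMap R F w) = (a : F) - (b : F) := by
      have := congrArg (fun t : B => (t : F)) hc
      simpa [map_mul] using this
    have hfac : ∀ k, (a : F) - algebraMap R F ζ ^ k * (b : F) =
        algebraMap R F (ζ - 1) * (algebraMap R F w * (c : F) -
          algebraMap R F (geomS ζ k) * (b : F)) := by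
      intro k
      have h1 : algebraMap R F (geomS ζ k) * algebraMap R F (ζ - 1) =
          algebraMap R F ζ ^ k - 1 := by
        rw [← map_mul, geomS_mul, map_sub, map_pow, map_one]
      linear_combination -hcF + (b : F) * h1
    have hprod := prod_range_sub_mul hp.pos hζF (a : F) (b : F)
    rw [Finset.range_eq_Ico, Finset.prod_eq_prod_Ico_succ_bot hp.pos, pow_zero, one_mul,
      zero_add, Finset.prod_congr rfl (fun k _ => hfac k), Finset.prod_mul_distrib,
      Finset.prod_const, Nat.card_Ico] at hprod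
    have hpp : algebraMap R F (ζ - 1) ^ p =
        algebraMap R F (ζ - 1) ^ (p - 1) * algebraMap R F (ζ - 1) := by
      rw [← pow_succ]
      congr 1
      have := hp.pos
      omega
    have hgoal : ((c * ∏ k ∈ Finset.Ico 1 p,
        (algebraMap R B w * c - algebraMap R B (geomS ζ k) * b) : B) : F) *
        ((algebraMap R B ((ζ - 1) ^ p * w) : B) : F) = ((a ^ p - b ^ p : B) : F) := by
      have e1 : ((algebraMap R B ((ζ - 1) ^ p * w) : B) : F) =
          algebraMap R F (ζ - 1) ^ p * algebraMap R F w := by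
        rw [← map_pow, ← map_mul]
        rfl
      have e2 : ((c * ∏ k ∈ Finset.Ico 1 p,
          (algebraMap R B w * c - algebraMap R B (geomS ζ k) * b) : B) : F) =
          (c : F) * ∏ k ∈ Finset.Ico 1 p,
            (algebraMap R F w * (c : F) - algebraMap R F (geomS ζ k) * (b : F)) := by
        push_cast
        rfl
      have e3 : ((a ^ p - b ^ p : B) : F) = (a : F) ^ p - (b : F) ^ p := by
        push_cast
        rfl
      rw [e1, e2, e3, ← hprod, hpp]
      linear_combination (algebraMap R F (ζ - 1) ^ (p - 1) * ∏ k ∈ Finset.Ico 1 p,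
        (algebraMap R F w * (c : F) - algebraMap R F (geomS ζ k) * (b : F))) * hcF
    exact hgoal
  · push_cast
    rw [← e, mul_pow]

end LocOne

section Bridge

variable {R : Type*} [CommRing R] [IsDomain R] {F : Type*} [Field F] [Algebra R F]

/-- **Bridge, depth `r`.**  `h ∈ 1 + r B_{p₁}` and `h ∈ 1 + r B_{p₂}` imply
`h ∈ 1 + r · gaussO`. -/
theorem exists_gaussO_of_locOneR {w : R} (hw : Prime w) {x : F}
    (hx : Transcendental R x) {p₁ p₂ : Ideal (chart R ({x} : Set F))}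
    (hp₁ : p₁.IsPrime) (hp₂ : p₂.IsPrime)
    (hinf : p₁ ⊓ p₂ = Ideal.span {algebraMap R (chart R ({x} : Set F)) w})
    (h₁₂ : ¬ p₁ ≤ p₂) (h₂₁ : ¬ p₂ ≤ p₁) (r : R) {h : F}
    (hone₁ : LocOneR (chart R ({x} : Set F)) p₁ r h)
    (hone₂ : LocOneR (chart R ({x} : Set F)) p₂ r h) :
    ∃ t ∈ gaussO hw x, h - 1 = algebraMap R F r * t := by
  obtain ⟨a₁, b₁, hb₁, hab₁, e₁⟩ := hone₁
  obtain ⟨a₂, b₂, hb₂, hab₂, e₂⟩ := hone₂
  obtain ⟨d₁, hd₁⟩ := Ideal.mem_span_singleton'.1 hab₁
  obtain ⟨d₂, hd₂⟩ := Ideal.mem_span_singleton'.1 hab₂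
  obtain ⟨c₂, hc₂p₁, hc₂p₂⟩ := SetLike.not_le_iff_exists.1 h₁₂
  obtain ⟨c₁, hc₁p₂, hc₁p₁⟩ := SetLike.not_le_iff_exists.1 h₂₁
  -- `c₁ ∈ p₂ ∖ p₁`, `c₂ ∈ p₁ ∖ p₂`
  set b := b₁ * c₁ + b₂ * c₂ with hb
  have hbp₁ : b ∉ p₁ := by
    intro hmem
    have h1 : b₂ * c₂ ∈ p₁ := p₁.mul_mem_left _ hc₂p₁
    have h2 : b₁ * c₁ ∈ p₁ := by
      have := p₁.sub_mem hmem h1
      rwa [hb, add_sub_cancel_right] at this
    rcases hp₁.mem_or_mem h2 with h3 | h3
    · exact hb₁ h3
    · exact hc₁p₁ h3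
  have hbp₂ : b ∉ p₂ := by
    intro hmem
    have h1 : b₁ * c₁ ∈ p₂ := p₂.mul_mem_left _ hc₁p₂
    have h2 : b₂ * c₂ ∈ p₂ := by
      have := p₂.sub_mem hmem h1
      rwa [hb, add_sub_cancel_left] at this
    rcases hp₂.mem_or_mem h2 with h3 | h3
    · exact hb₂ h3
    · exact hc₂p₂ h3
  have hbinv := inv_mem_gaussO_of_not_mem hw hx hp₁ hp₂ hinf hbp₁ hbp₂
  have hb0 : (b : F) ≠ 0 := by
    intro h0
    apply hbp₁
    have : b = 0 := Subtype.ext h0
    rw [this]
    exact p₁.zero_mem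
  have hd₁F : (d₁ : F) * algebraMap R F r = (a₁ : F) - (b₁ : F) :=
    congrArg (fun t : chart R ({x} : Set F) => (t : F)) hd₁
  have hd₂F : (d₂ : F) * algebraMap R F r = (a₂ : F) - (b₂ : F) :=
    congrArg (fun t : chart R ({x} : Set F) => (t : F)) hd₂
  have hbF : (b : F) = (b₁ : F) * c₁ + (b₂ : F) * c₂ := by rw [hb]; rfl
  refine ⟨((d₁ : F) * c₁ + (d₂ : F) * c₂) * (b : F)⁻¹,
    Subalgebra.mul_mem _ (chart_fin_le_gaussO hw x
      (Subalgebra.add_mem _ (Subalgebra.mul_mem _ d₁.2 c₁.2) (Subalgebra.mul_mem _ d₂.2 c₂.2)))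
      hbinv, ?_⟩
  have key : (h - 1) * (b : F) = algebraMap R F r * ((d₁ : F) * c₁ + (d₂ : F) * c₂) := by
    rw [hbF]
    linear_combination (c₁ : F) * e₁ + (c₂ : F) * e₂ - (c₁ : F) * hd₁F - (c₂ : F) * hd₂F
  have : h - 1 = ((h - 1) * (b : F)) * (b : F)⁻¹ := by
    rw [mul_assoc, mul_inv_cancel₀ hb0, mul_one]
  rw [this, key]
  ring

end Bridge

end Fermat.Agent.Ribet.H552

end
-- ===== PACK-END Ribet/H552/ASBridge.lean

-- ===== PACK-BEGIN Ribet/H883/AlgPG.lean
section










/-!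
# RIBET / S2 / W-ALGP: the route G-p ASSEMBLY   (helper883)

`W-ALGP` (`τ u = h ^ p * u ^ c` for the deeply split Kummer classes of order `p`, `τ ζ = ζ ^ c`)
by the WILD route G, from ONE open leaf, **COUNT-W** (`CountWFor`, owner helper733 by
discriminants / helper12 by wild purity):

* COVER-W   : `H912.coverWild`                                   (on main);
* SHEETS-W  : `H883.sheetsW`                                     (on main);
* RED-W     : `A2.H652.redConclusion_of_baseRed` (exponent-free) (on main);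
* CONST-W   : `A2.H552.constConclusion_of_sheet` (exponent-free) (on main);
* BASE      : `A2.H643.baseLeaf` for the context `SSCtx w p 1 …` (auxiliary exponent `1`);
* hub       : `H883.algG_core_wild`.

Results:
* `algP_routeG_split` : for `u` wildly split at every sheet (`H912.SplitAtLam (ζ - 1) p`);
* `splitAtLam_of_deepOne` : `H495.AlgP.DeepOne` on the finite chart gives the wild splitting;
* `algP_routeG` : the conclusion `H495.AlgP.AlgPConclusion` (frozen by helper495), in the setting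
  of `A2.AlgSSStatement` with `q = p` (i.e. WITH separating coordinates, `τ x = x` and `τ` of
  finite order — the hypotheses route G needs and `AlgPStatement` omits).
-/

set_option autoImplicit false
set_option linter.style.haveILetI false
set_option linter.unusedSectionVars false

namespace Fermat.Agent.Ribet.H883

open Polynomial
open Fermat.Agent.A2 Fermat.Agent.A2.H12 Fermat.Agent.A2.Alg

/-- **Leaf COUNT-W**, in the shape consumed by the route G-p assembly. -/
def CountWFor {R F : Type} [CommRing R] [Field F] [Algebra R F] (w : R) (x : F) (p : ℕ)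
    (lam : F) : Prop :=
  ∀ (L : Type) [Field L] [Algebra F L] [Algebra R L] [IsScalarTower R F L],
    H912.IsKummerCover (R := R) L w x p (H912.SplitAtLam lam p) →
    SheetsConclusion L w x → RedConclusion L w x → CountConclusion L w x

section Aux

variable {R : Type*} [CommRing R]

/-- a ring automorphism with `τ ζ = ζ ^ c` multiplies `ζ - 1` by an element of `R`, and so do its
powers -/
theorem exists_mul_sub_one_of_pow (τR : R ≃+* R) {ζ : R} {c : ℕ} (hc : τR ζ = ζ ^ c) (i : ℕ) :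
    ∃ ε : R, (τR ^ i) (ζ - 1) = ε * (ζ - 1) := by
  have key : ∃ k : ℕ, (τR ^ i) ζ = ζ ^ k := by
    induction i with
    | zero => exact ⟨1, by simp⟩
    | succ i ih =>
      obtain ⟨k, hk⟩ := ih
      refine ⟨c * k, ?_⟩
      rw [pow_succ', RingAut.mul_apply, hk, map_pow, hc, ← pow_mul]
  obtain ⟨k, hk⟩ := key
  refine ⟨∑ j ∈ Finset.range k, ζ ^ j, ?_⟩
  rw [map_sub, map_one, hk, mul_comm, mul_geom_sum]

end Aux

section Main

variable {R E F : Type} [CommRing R] [IsDomain R] [IsDiscreteValuationRing R]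
    [HenselianLocalRing R] [IsAlgClosed (IsLocalRing.ResidueField R)]
    [Field E] [CharZero E] [Algebra R E] [IsFractionRing R E]
    [Field F] [Algebra E F] [Algebra R F] [IsScalarTower R E F]
    {w : R} {p : ℕ} {x : F} {Bf Bi : Subalgebra R F}
    {τ : F ≃+* F} {τE : E ≃+* E} {τR : R ≃+* R}

/-- **W-ALGP by route G-p, split form.** -/
theorem algP_routeG_split (ctx : SSCtx w p 1 x Bf Bi τ τE τR)
    {ζ : R} (hζ : IsPrimitiveRoot ζ p) {c : ℕ} (hc : τR ζ = ζ ^ c)
    (hCount : CountWFor w x p (algebraMap R F (ζ - 1)))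
    (u : F) (hu : u ≠ 0) (hdiv : DivisibleDiv E p u)
    (hsplit : ∀ V : ValuationSubring F, IsSheet w x V →
      H912.SplitAtLam (algebraMap R F (ζ - 1)) p V u) :
    ∃ h : F, h ≠ 0 ∧ τ u = h ^ p * u ^ c := by
  have hp : p.Prime := ctx.qprime
  have B := Fermat.Agent.A2.H643.baseLeaf w p 1 x Bf Bi τ τE τR ctx
  have hinjRE : Function.Injective (algebraMap R E) := IsFractionRing.injective R E
  have hinj : Function.Injective (algebraMap R F) := by
    rw [IsScalarTower.algebraMap_eq R E F]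
    exact (algebraMap E F).injective.comp hinjRE
  have : CharZero F := charZero_of_injective_algebraMap (algebraMap E F).injective
  have hxR : Transcendental R x := ctx.transc.restrictScalars hinjRE
  have hw : Prime w := ctx.irr.prime
  have hτRF : ∀ r, τ (algebraMap R F r) = algebraMap R F (τR r) := by
    intro r
    rw [IsScalarTower.algebraMap_apply R E F, ctx.hτE, ctx.hτR,
      ← IsScalarTower.algebraMap_apply]
  have hdvd : ∀ r : R, w ∣ r ↔ ¬ IsUnit r := by
    intro r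
    rw [← Ideal.mem_span_singleton, ← ctx.irr.maximalIdeal_eq, IsLocalRing.mem_maximalIdeal,
      mem_nonunits_iff]
  have hτw : ∀ r, w ∣ r ↔ w ∣ τR r := by
    intro r
    rw [hdvd, hdvd]
    exact not_congr (MulEquiv.isUnit_map (τR : R ≃* R)).symm
  have hW0 : algebraMap R F w ≠ 0 := by
    intro h0
    exact ctx.irr.ne_zero (hinj (by rw [h0, map_zero]))
  have hHor : HorDiv R p u := horDiv_of_divisibleDiv hdiv
  obtain ⟨r, hr, hfo⟩ := ctx.hfo
  -- the cover
  obtain ⟨L, _, _, _, _, hKS, τ₀, y, hτ₀, hy⟩ :=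
    H912.coverWild w x p τ τR hinj hp.pos ⟨ζ, hζ⟩ ctx.hτx hτRF hτw hr
      (Fermat.Agent.A2.H912.ringAut_pow_eq_one_of_iterate τ hfo) (ζ - 1)
      (exists_mul_sub_one_of_pow τR hc) u hu hHor hsplit
  haveI := hKS.finite
  haveI := hKS.galois
  -- the leaves
  have S1 : SheetsConclusion L w x := sheetsW ctx B hp hζ L hKS
  obtain ⟨cf⟩ := ctx.cf
  obtain ⟨ci⟩ := ctx.ci
  have hRed : RedConclusion L w x :=
    Fermat.Agent.A2.H652.redConclusion_of_baseRed w x hW0 S1
      (Fermat.Agent.A2.H652.baseRed_of_ssChart w hw hxR Bf Bi ctx.hBf ctx.hBi cf ci)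
  obtain ⟨V₀, hV₀⟩ := B.exists_sheet
  obtain ⟨W₀, hW₀, -⟩ := S1.exists_over V₀ hV₀
  have hConst : ConstConclusion (R := R) L x :=
    Fermat.Agent.A2.H552.constConclusion_of_sheet (E := E) w ctx.irr x ctx.fin L W₀ hW₀
      (S1.unif W₀ hW₀)
  have hCnt : CountConclusion L w x := hCount L hKS S1 hRed
  -- the lift fixing the sheet `W₀`
  have hW₁ : IsSheet w (algebraMap F L x) (W₀.comap (τ₀.symm : L →+* L)) :=
    lift_isSheet w x τ τR ctx.hτx hτRF hτw τ₀ hτ₀ hW₀
  have hcol : (W₀.comap (τ₀.symm : L →+* L)).comap (algebraMap F L) =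
      W₀.comap (algebraMap F L) := by
    ext f
    have h2 := (B.stable _ (IsSheet.comap_algebraMap hW₀) (τ.symm f)).1
    rw [RingEquiv.apply_symm_apply] at h2
    rw [ValuationSubring.mem_comap, ValuationSubring.mem_comap]
    change τ₀.symm (algebraMap F L f) ∈ W₀ ↔ _
    rw [lift_symm_algebraMap τ τ₀ hτ₀, ← ValuationSubring.mem_comap, h2]
  obtain ⟨σ, hσ⟩ := S1.trans _ W₀ hW₁ hW₀ hcol
  obtain ⟨z, hz⟩ := algG_core_wild (L := L) w x p τ τR hinj hxR hw hp.pos c ⟨ζ, hζ, hc⟩
    ctx.hτx hτRF hτw B.stable S1 hRed hConst hCnt (τ₀.trans (σ : L ≃+* L))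
    (fun f => by
      change σ (τ₀ (algebraMap F L f)) = _
      rw [hτ₀, σ.commutes])
    W₀ hW₀
    (fun b => by
      change b ∈ W₀ ↔ σ (τ₀ b) ∈ W₀
      rw [← hσ, ValuationSubring.mem_comap]
      change _ ↔ τ₀.symm (τ₀ b) ∈ W₀
      rw [RingEquiv.symm_apply_apply])
    u hu y hy
  refine ⟨z, ?_, hz⟩
  rintro rfl
  rw [zero_pow hp.ne_zero, zero_mul] at hz
  exact hu ((map_eq_zero_iff τ τ.injective).1 hz)

/-- `DeepOne` on the finite chart gives the wild splitting at every sheet. -/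
theorem splitAtLam_of_deepOne (ctx : SSCtx w p 1 x Bf Bi τ τE τR) (cf : SSChart w Bf)
    (lam : R) {u : F} (hdeep : H495.AlgP.DeepOne Bf cf p lam u)
    (V : ValuationSubring F) (hV : IsSheet w x V) :
    H912.SplitAtLam (algebraMap R F lam) p V u := by
  have B := Fermat.Agent.A2.H643.baseLeaf w p 1 x Bf Bi τ τE τR ctx
  haveI := ctx.fin
  obtain ⟨V₁, V₂, -, -, hV₁, hV₂, hcls, -, -⟩ :=
    Fermat.Agent.A2.H733.exists_base_sheets (E := E) w ctx.irr x ctx.transc Bf ctx.hBf cf
      B.discrete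
  have key : ∀ (q : Ideal Bf), (∀ b : Bf, (b : F) ∈ V.nonunits ↔ b ∈ q) →
      H495.AlgP.LocOneR Bf q (lam ^ p * w) u → H912.SplitAtLam (algebraMap R F lam) p V u := by
    rintro q hq ⟨a, b, hb, hab, hub⟩
    obtain ⟨t, ht⟩ := Ideal.mem_span_singleton.1 hab
    have hbV : (b : F) ∈ V := Fermat.Agent.A2.H373.sheet_mem_of_mem ctx.hBf hV _ b.2
    have htV : (t : F) ∈ V := Fermat.Agent.A2.H373.sheet_mem_of_mem ctx.hBf hV _ t.2
    have hbnu : (b : F) ∉ V.nonunits := fun h => hb ((hq b).1 h)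
    have hbinv : (b : F)⁻¹ ∈ V := Fermat.Agent.A2.H373.inv_mem_of_not_nonunit V hbnu
    have hb0 : (b : F) ≠ 0 := Fermat.Agent.A2.H373.ne_zero_of_not_nonunit V hbnu
    have htF : (a : F) - (b : F) = algebraMap R F lam ^ p * algebraMap R F w * (t : F) := by
      have := congrArg (fun z : Bf => (z : F)) ht
      simp only [Subalgebra.coe_sub, Subalgebra.coe_mul, Subalgebra.coe_algebraMap, map_mul,
        map_pow] at this
      exact this
    refine ⟨1, algebraMap R F w * (t : F) * (b : F)⁻¹, one_ne_zero, V.one_mem, ?_, ?_, ?_⟩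
    · rw [inv_one]; exact V.one_mem
    · have h1 : algebraMap R F w * (t : F) * (b : F)⁻¹ =
          ((t : F) * (b : F)⁻¹) * algebraMap R F w := by ring
      rw [h1]
      exact mul_mem_nonunits V hV.2.2.1 (V.mul_mem _ _ htV hbinv)
    · have hu' : u = (a : F) * (b : F)⁻¹ := by
        rw [← hub, mul_assoc, mul_inv_cancel₀ hb0, mul_one]
      rw [one_pow, hu']
      have : (a : F) * (b : F)⁻¹ - 1 = ((a : F) - (b : F)) * (b : F)⁻¹ := by
        field_simp
      rw [this, htF]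
      ring
  rcases hcls V hV with rfl | rfl
  · exact key cf.p₁ hV₁ hdeep.1
  · exact key cf.p₂ hV₂ hdeep.2

/-- **W-ALGP by route G-p**: the conclusion frozen in `Ribet/H495/AlgPSpec.lean`, in the context
`SSCtx w p 1 …` (= the setting of `A2.AlgSSStatement` with `q = p`, auxiliary exponent `1`), from
the leaf COUNT-W. -/
theorem algP_routeG (ctx : SSCtx w p 1 x Bf Bi τ τE τR) (cf : SSChart w Bf) (ci : SSChart w Bi)
    {ζ : R} (hζ : IsPrimitiveRoot ζ p) {c : ℕ} (hc : τR ζ = ζ ^ c)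
    (hCount : CountWFor w x p (algebraMap R F (ζ - 1))) :
    H495.AlgP.AlgPConclusion E Bf Bi cf ci p (ζ - 1) c τ := by
  intro u hu hdiv hdf _
  exact algP_routeG_split ctx hζ hc hCount u hu hdiv
    (fun V hV => splitAtLam_of_deepOne ctx cf (ζ - 1) hdf V hV)

end Main

end Fermat.Agent.Ribet.H883

end
-- ===== PACK-END Ribet/H883/AlgPG.lean

-- ===== PACK-BEGIN Ribet/H883/AlgPGStatement.lean
section


/-!
# RIBET / S2 / W-ALGP: the interface statement BOTH routes prove   (helper883)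

* `AlgPStatementG` : `H495.AlgP.AlgPStatement` (frozen by helper495) with the three extra
  hypotheses of `A2.AlgSSStatement` which the modular instance provides anyway
  (`A2.ModSSData`: `sf`, `si`, `hτx`; finite order of `τ` from the good level):
  separating coordinates on both charts, `τ x = x`, `τ` of finite order.
* `algPStatementG_of_algPStatement` : route S-p (`AlgPStatement`) gives it (forget hypotheses);
* `CountWLeaf` : the leaf COUNT-W in closed form;
* `algPStatementG_of_countW` : route G-p gives it from COUNT-W ALONE.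

A consumer which applies ALG-p only to the modular model (`A2.ModSSData` at `q = p`) should take
`AlgPStatementG` as hypothesis: then either route closes (S2).
-/

set_option autoImplicit false
set_option linter.style.haveILetI false
set_option linter.unusedSectionVars false

namespace Fermat.Agent.Ribet.H883

open Fermat.Agent.A2 Fermat.Agent.A2.H12 Fermat.Agent.A2.Alg
open Fermat.Agent.Ribet.H495.AlgP

/-- **ALG-p, interface statement with the hypotheses of `A2.AlgSSStatement` at `q = p`.** -/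
def AlgPStatementG : Prop :=
  ∀ {R E F : Type} [CommRing R] [IsDomain R] [IsDiscreteValuationRing R] [HenselianLocalRing R]
    [IsAlgClosed (IsLocalRing.ResidueField R)]
    [Field E] [CharZero E] [Algebra R E] [IsFractionRing R E]
    [Field F] [Algebra E F] [Algebra R F] [IsScalarTower R E F]
    (w : R) (_ : Irreducible w) (p : ℕ) (_ : p.Prime) (_ : p ≠ 2)
    (_ : (p : R) ∈ IsLocalRing.maximalIdeal R)
    (ζ : R) (_ : IsPrimitiveRoot ζ p)
    (x : F) (_ : Transcendental E x)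
    (_ : FiniteDimensional (IntermediateField.adjoin E ({x} : Set F)) F)
    (_ : ∀ f : F, IsAlgebraic E f → f ∈ (algebraMap E F).range)
    (Bf Bi : Subalgebra R F)
    (_ : ∀ f : F, f ∈ Bf ↔ IsIntegral (Algebra.adjoin R ({x} : Set F)) f)
    (_ : ∀ f : F, f ∈ Bi ↔ IsIntegral (Algebra.adjoin R ({x⁻¹} : Set F)) f)
    (cf : SSChart w Bf) (ci : SSChart w Bi)
    (_ : SepCoord R E x Bf) (_ : SepCoord R E x⁻¹ Bi)
    (τ : F ≃+* F) (τE : E ≃+* E) (τR : R ≃+* R)
    (_ : ∀ e : E, τ (algebraMap E F e) = algebraMap E F (τE e))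
    (_ : ∀ r : R, τE (algebraMap R E r) = algebraMap R E (τR r))
    (_ : τ x = x)
    (_ : ∃ r : ℕ, 0 < r ∧ ∀ f : F, (⇑τ)^[r] f = f)
    (_ : ∀ b ∈ Bf, ∃ c ∈ Bf, τ b - b = algebraMap R F w * c)
    (_ : ∀ b ∈ Bi, ∃ c ∈ Bi, τ b - b = algebraMap R F w * c)
    (c : ℕ) (_ : τR ζ = ζ ^ c),
    AlgPConclusion E Bf Bi cf ci p (ζ - 1) c τ

/-- Route S-p gives `AlgPStatementG`. -/
theorem algPStatementG_of_algPStatement (h : AlgPStatement) : AlgPStatementG := by
  intro R E F _ _ _ _ _ _ _ _ _ _ _ _ _ w hw p hp hp2 hpR ζ hζ x hx hfin hconst Bf Bi hBf hBi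
    cf ci _ _ τ τE τR hτE hτR _ _ hτf hτi c hc
  exact h w hw p hp hp2 hpR ζ hζ x hx hfin hconst Bf Bi hBf hBi cf ci τ τE τR hτE hτR hτf hτi
    c hc

/-- **Leaf COUNT-W** (closed form): in the context `SSCtx w p 1 …`, with `ζ ∈ R` a primitive
`p`-th root of unity, every wild Kummer cover (`H912.IsKummerCover` for `SplitAtLam (ζ - 1) p`)
with `SheetsConclusion` and `RedConclusion` satisfies `CountConclusion`. -/
def CountWLeaf : Prop :=
  ∀ {R E F : Type} [CommRing R] [IsDomain R] [IsDiscreteValuationRing R] [HenselianLocalRing R]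
    [IsAlgClosed (IsLocalRing.ResidueField R)]
    [Field E] [CharZero E] [Algebra R E] [IsFractionRing R E]
    [Field F] [Algebra E F] [Algebra R F] [IsScalarTower R E F]
    (w : R) (p : ℕ) (x : F) (Bf Bi : Subalgebra R F)
    (τ : F ≃+* F) (τE : E ≃+* E) (τR : R ≃+* R),
    SSCtx w p 1 x Bf Bi τ τE τR → ∀ ζ : R, IsPrimitiveRoot ζ p →
      CountWFor w x p (algebraMap R F (ζ - 1))

/-- **Route G-p gives `AlgPStatementG` from COUNT-W alone.** -/
theorem algPStatementG_of_countW (h : CountWLeaf) : AlgPStatementG := by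
  intro R E F _ _ _ _ _ _ _ _ _ _ _ _ _ w hw p hp _ hpR ζ hζ x hx hfin hconst Bf Bi hBf hBi
    cf ci sf si τ τE τR hτE hτR hτx hfo hτf hτi c hc
  have ctx : SSCtx w p 1 x Bf Bi τ τE τR :=
    ⟨hw, hp, hpR, one_pos, fun hd => hp.one_lt.ne' (Nat.dvd_one.1 hd), hx, hfin, hconst, hBf,
      hBi, ⟨cf⟩, ⟨ci⟩, sf, si, hτE, hτR, hτx, hfo, hτf, hτi⟩
  exact algP_routeG ctx cf ci hζ hc (h w p x Bf Bi τ τE τR ctx ζ hζ)

end Fermat.Agent.Ribet.H883

end
-- ===== PACK-END Ribet/H883/AlgPGStatement.lean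

-- ===== PACK-BEGIN A2/Mod/H372/S3Sides.lean
section



/-!
# A2 / MODASM sub-assembly S3 (helper372): the two sides on the charts

`s3_of_leaves : (leaves L4, L5, L7, L8, L11, L12 + sub-assembly S2) → S3Statement P E M q w`
(`Fermat/Agent/A2/Mod/Asm.lean`, VERBATIM).  The leaves L2 (`H553.vinfBasic`) and L13
(`H873.chartCompat`) are used directly (on main).

Proof: `H372.KronCong.sup_isRadical` applied to the restrictions `α, β : B_M → B` of the two
degeneracy maps to the charts (`B_M` = chart of `j^{±1}` at level `M`, `B` = chart of `x^{±1}`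
at level `Mq`):

* `KronCong` : L12 gives the Kronecker twist `a'` only in `V∞_M`; `GoodRedAt.normal` brings it
  back into the chart (`SideData.cong`); on `C₀` one transports by the Fricke involutions
  (L4, L5, L7);
* `α` is onto `B ⧸ p∞` : L11 + `GoodRedAt.normal` (`SideData.surj`);
* the branch `B ⧸ p∞` is a Dedekind domain : S2 (normal), `B` noetherian (L8), dimension one.
-/

set_option autoImplicit false
set_option synthInstance.maxHeartbeats 400000
set_option maxHeartbeats 1600000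
set_option linter.unusedSectionVars false
set_option linter.style.haveILetI false

noncomputable section

namespace Fermat.Agent.A2.Mod.H372

open ModularCurve HahnSeries Polynomial

variable {P : ValuationSubring _root_.Fermat.Agent.A2.Mod.Qb} {E : IntermediateField ℚ _root_.Fermat.Agent.A2.Mod.Qb} {M q : ℕ} [NeZero M] [NeZero q]
  (w : _root_.Fermat.Agent.A2.Mod.RE P E)

section Sides

variable (hS : Setting P E M q w) {VM : ValuationSubring (_root_.Fermat.Agent.A2.Mod.FE E M)}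
  {V : ValuationSubring (_root_.Fermat.Agent.A2.Mod.FE E (M * q))} {W : _root_.Fermat.Agent.A2.Mod.FE E (M * q) ≃ₐ[E] _root_.Fermat.Agent.A2.Mod.FE E (M * q)}
  (hVM : IsVinf P E M VM) (hV : IsVinf P E (M * q) V) (hW : IsFricke E (M * q) W)
  {yM : _root_.Fermat.Agent.A2.Mod.FE E M} {y : _root_.Fermat.Agent.A2.Mod.FE E (M * q)}

include hS hVM in
theorem chartM_le (hyM : yM ∈ VM) {a : _root_.Fermat.Agent.A2.Mod.FE E M} (ha : a ∈ chartAlg P E M yM) : a ∈ VM :=
  mem_of_isIntegralElem VM (algebraMap (_root_.Fermat.Agent.A2.Mod.RE P E) (_root_.Fermat.Agent.A2.Mod.FE E M)) yM (fun r => cE_mem w hS hVM r) hyM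
    (mem_chartAlg_iff.mp ha)

theorem self_mem_chartAlg (N : ℕ) (y : _root_.Fermat.Agent.A2.Mod.FE E N) : y ∈ chartAlg P E N y := by
  rw [mem_chartAlg_iff]
  have := (Polynomial.eval₂RingHom (algebraMap (_root_.Fermat.Agent.A2.Mod.RE P E) (_root_.Fermat.Agent.A2.Mod.FE E N)) y).isIntegralElem_map
    (x := Polynomial.X)
  simpa using this

include hS hVM hV in
/-- `β` maps `V∞_M` into `V∞_{Mq}` (consequence of L12). -/
theorem beta_mem (hL12 : KronStatement P E M q w) {a : _root_.Fermat.Agent.A2.Mod.FE E M} (ha : a ∈ VM) :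
    βE E M q a ∈ V := by
  obtain ⟨a', ha', h⟩ := hL12 hS VM V hVM hV a ha
  have h1 := mem_of_mul_inv_mem (unifE w hS (level_ne_zero w hS) hV) h
  have h2 : (αE E M q a') ^ q ∈ V := V.pow_mem (alpha_mem hVM hV ha') q
  have := V.add_mem _ _ h1 h2
  simpa using this

include hS hVM hV in
/-- The side `C∞`. -/
theorem side₁ (hyM : yM ∈ VM) (hgood : GoodRedAt P E M w VM yM) :
    SideData VM V (cE P E M w) (cE P E (M * q) w) (αE E M q : _root_.Fermat.Agent.A2.Mod.FE E M →+* _root_.Fermat.Agent.A2.Mod.FE E (M * q)) q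
      (chartAlg P E M yM).toSubring where
  unif₁ := unifE w hS hS.M_ne_zero hVM
  unif₂ := unifE w hS (level_ne_zero w hS) hV
  map_mem := fun x hx => alpha_mem hVM hV hx
  map_unif := alpha_cE P E M q w
  refl := fun x hx => mem_of_alpha_mem w hS hVM hV hx
  prime := hS.q_prime
  q_mem := q_mul_inv_mem w hS hV
  le := fun a ha => chartM_le w hS hVM hyM ha
  normal := by
    rintro f hf ⟨n, c, hc, hrel⟩
    obtain ⟨b, hb, hfb⟩ := hgood.normal f hf ⟨n, c, fun i => mem_chart_iff.mpr (hc i), hrel⟩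
    exact ⟨b, mem_chart_iff.mp hb, hfb⟩

include hS hVM hV hW in
/-- The side `C₀`. -/
theorem side₂ (hL5 : FrickeCompatStatement E M q) (hL7 : FrickeStableStatement P E M q w)
    {WM : _root_.Fermat.Agent.A2.Mod.FE E M ≃ₐ[E] _root_.Fermat.Agent.A2.Mod.FE E M} (hWM : IsFricke E M WM)
    (hyM : yM ∈ VM) (hgood : GoodRedAt P E M w VM yM) :
    SideData VM (V.comap (W : _root_.Fermat.Agent.A2.Mod.FE E (M * q) →+* _root_.Fermat.Agent.A2.Mod.FE E (M * q))) (cE P E M w) (cE P E (M * q) w)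
      (βE E M q : _root_.Fermat.Agent.A2.Mod.FE E M →+* _root_.Fermat.Agent.A2.Mod.FE E (M * q)) q (chartAlg P E M yM).toSubring where
  unif₁ := unifE w hS hS.M_ne_zero hVM
  unif₂ := isUnif_comap (unifE w hS (level_ne_zero w hS) hV) _ (W.commutes (w : E))
  map_mem := fun x hx => by
    rw [ValuationSubring.mem_comap]
    show W (βE E M q x) ∈ V
    rw [(hL5 WM W hWM hW x).2]
    exact alpha_mem hVM hV (hL7 hS VM WM hVM hWM x hx)
  map_unif := beta_cE P E M q w
  refl := fun x hx => by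
    rw [ValuationSubring.mem_comap] at hx
    have hx' : W (βE E M q x) ∈ V := hx
    rw [(hL5 WM W hWM hW x).2] at hx'
    have h1 := mem_of_alpha_mem w hS hVM hV hx'
    have h2 := hL7 hS VM WM hVM hWM _ h1
    rwa [hWM.2] at h2
  prime := hS.q_prime
  q_mem := by
    rw [ValuationSubring.mem_comap]
    show W (((q : ℕ) : _root_.Fermat.Agent.A2.Mod.FE E (M * q)) * (cE P E (M * q) w)⁻¹) ∈ V
    have hWc : W (cE P E (M * q) w) = cE P E (M * q) w := W.commutes (w : E)
    rw [map_mul, map_inv₀, map_natCast, hWc]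
    exact q_mul_inv_mem w hS hV
  le := fun a ha => chartM_le w hS hVM hyM ha
  normal := by
    rintro f hf ⟨n, c, hc, hrel⟩
    obtain ⟨b, hb, hfb⟩ := hgood.normal f hf ⟨n, c, fun i => mem_chart_iff.mpr (hc i), hrel⟩
    exact ⟨b, mem_chart_iff.mp hb, hfb⟩

end Sides

section Congruences

variable (hS : Setting P E M q w) {VM : ValuationSubring (_root_.Fermat.Agent.A2.Mod.FE E M)}
  {V : ValuationSubring (_root_.Fermat.Agent.A2.Mod.FE E (M * q))} {W : _root_.Fermat.Agent.A2.Mod.FE E (M * q) ≃ₐ[E] _root_.Fermat.Agent.A2.Mod.FE E (M * q)}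
  (hVM : IsVinf P E M VM) (hV : IsVinf P E (M * q) V) (hW : IsFricke E (M * q) W)
  {yM : _root_.Fermat.Agent.A2.Mod.FE E M} {y : _root_.Fermat.Agent.A2.Mod.FE E (M * q)} (hC : CoordFacts w VM V W yM y)
  (hgood : GoodRedAt P E M w VM yM)

include hS hVM hV hC hgood in
/-- **Kronecker congruence on `C∞` inside the charts.** -/
theorem chart_cong₁ (hL12 : KronStatement P E M q w) :
    ∀ a ∈ chartAlg P E M yM, ∃ a' ∈ chartAlg P E M yM,
      InW P E (M * q) V w (βE E M q a - (αE E M q a') ^ q) :=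
  (side₁ w hS hVM hV hC.mem hgood).cong (βE E M q : _root_.Fermat.Agent.A2.Mod.FE E M →+* _root_.Fermat.Agent.A2.Mod.FE E (M * q))
    (fun _ hx => beta_mem w hS hVM hV hL12 hx)
    (fun a ha => hL12 hS VM V hVM hV a ha)
    (algebraMap (_root_.Fermat.Agent.A2.Mod.RE P E) (_root_.Fermat.Agent.A2.Mod.FE E M)) yM
    (fun _ ha => mem_chartAlg_iff.mp ha)
    (fun r => (chartAlg P E M yM).algebraMap_mem r)
    (self_mem_chartAlg M yM)
    (fun r => by
      show βE E M q (cE P E M r) = αE E M q (cE P E M r)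
      rw [beta_cE, alpha_cE])
    hC.cong₁

include hS hVM hV hW hC hgood in
/-- **Kronecker congruence on `C₀` inside the charts.** -/
theorem chart_cong₂ (hL5 : FrickeCompatStatement E M q) (hL7 : FrickeStableStatement P E M q w)
    (hL12 : KronStatement P E M q w) {WM : _root_.Fermat.Agent.A2.Mod.FE E M ≃ₐ[E] _root_.Fermat.Agent.A2.Mod.FE E M} (hWM : IsFricke E M WM) :
    ∀ a ∈ chartAlg P E M yM, ∃ a' ∈ chartAlg P E M yM,
      InW P E (M * q) (V.comap (W : _root_.Fermat.Agent.A2.Mod.FE E (M * q) →+* _root_.Fermat.Agent.A2.Mod.FE E (M * q))) w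
        (αE E M q a - (βE E M q a') ^ q) := by
  refine (side₂ w hS hVM hV hW hL5 hL7 hWM hC.mem hgood).cong
    (αE E M q : _root_.Fermat.Agent.A2.Mod.FE E M →+* _root_.Fermat.Agent.A2.Mod.FE E (M * q)) ?_ ?_
    (algebraMap (_root_.Fermat.Agent.A2.Mod.RE P E) (_root_.Fermat.Agent.A2.Mod.FE E M)) yM
    (fun _ ha => mem_chartAlg_iff.mp ha)
    (fun r => (chartAlg P E M yM).algebraMap_mem r)
    (self_mem_chartAlg M yM)
    (fun r => by
      show αE E M q (cE P E M r) = βE E M q (cE P E M r)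
      rw [beta_cE, alpha_cE]) ?_
  · intro x hx
    rw [ValuationSubring.mem_comap]
    show W (αE E M q x) ∈ V
    rw [(hL5 WM W hWM hW x).1]
    exact beta_mem w hS hVM hV hL12 (hL7 hS VM WM hVM hWM x hx)
  · intro a ha
    obtain ⟨c, hc, hac⟩ := hL12 hS VM V hVM hV (WM a) (hL7 hS VM WM hVM hWM a ha)
    refine ⟨WM c, hL7 hS VM WM hVM hWM c hc, ?_⟩
    show InW P E (M * q) (V.comap (W : _root_.Fermat.Agent.A2.Mod.FE E (M * q) →+* _root_.Fermat.Agent.A2.Mod.FE E (M * q))) w
      (αE E M q a - (βE E M q (WM c)) ^ q)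
    rw [inW_comap_iff, map_sub, map_pow, (hL5 WM W hWM hW a).1, (hL5 WM W hWM hW (WM c)).2,
      hWM.2]
    exact hac
  · show InW P E (M * q) (V.comap (W : _root_.Fermat.Agent.A2.Mod.FE E (M * q) →+* _root_.Fermat.Agent.A2.Mod.FE E (M * q))) w
      (αE E M q yM - (βE E M q yM) ^ q)
    rw [inW_comap_iff, map_sub, map_pow]
    exact hC.cong₂

include hS hVM hV hC hgood in
/-- **`α` is onto the branch `C∞`.** -/
theorem chart_surj (hL11 : ResInfStatement P E M q w) :
    ∀ b ∈ chartAlg P E (M * q) y, b ∈ V ∧ ∃ a ∈ chartAlg P E M yM,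
      InW P E (M * q) V w (b - αE E M q a) := by
  have hyV : y ∈ V := by
    rw [hC.eq_mul]
    exact V.mul_mem _ _ (alpha_mem hVM hV hC.mem) hC.beta_mem
  have h := (side₁ w hS hVM hV hC.mem hgood).surj
    (fun b hb => hL11 hS VM V hVM hV b hb)
    (algebraMap (_root_.Fermat.Agent.A2.Mod.RE P E) (_root_.Fermat.Agent.A2.Mod.FE E (M * q))) y
    (fun r => cE_mem w hS hV r) hyV
    (fun r => ⟨cE P E M r, (chartAlg P E M yM).algebraMap_mem r, by
      show (cE P E (M * q) r - αE E M q (cE P E M r)) * (cE P E (M * q) w)⁻¹ ∈ V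
      rw [alpha_cE, sub_self, zero_mul]
      exact V.zero_mem⟩)
    ⟨yM ^ (q + 1), Subalgebra.pow_mem _ (self_mem_chartAlg M yM) _, by
      have e : y - αE E M q (yM ^ (q + 1)) =
          αE E M q yM * (βE E M q yM - (αE E M q yM) ^ q) := by
        rw [hC.eq_mul, map_pow]
        ring
      show (y - αE E M q (yM ^ (q + 1))) * (cE P E (M * q) w)⁻¹ ∈ V
      rw [e, mul_assoc]
      exact V.mul_mem _ _ (alpha_mem hVM hV hC.mem) hC.cong₁⟩
  intro b hb
  exact h b (mem_chartAlg_iff.mp hb)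

end Congruences

section Charts

variable (hS : Setting P E M q w) {VM : ValuationSubring (_root_.Fermat.Agent.A2.Mod.FE E M)}
  {V : ValuationSubring (_root_.Fermat.Agent.A2.Mod.FE E (M * q))} {W : _root_.Fermat.Agent.A2.Mod.FE E (M * q) ≃ₐ[E] _root_.Fermat.Agent.A2.Mod.FE E (M * q)}
  {yM : _root_.Fermat.Agent.A2.Mod.FE E M} {y : _root_.Fermat.Agent.A2.Mod.FE E (M * q)} (hC : CoordFacts w VM V W yM y)

include hC in
/-- `α` maps the level-`M` chart into the level-`Mq` chart. -/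
theorem alpha_chart_mem {a : _root_.Fermat.Agent.A2.Mod.FE E M} (ha : a ∈ chartAlg P E M yM) :
    αE E M q a ∈ chartAlg P E (M * q) y := by
  rw [mem_chartAlg_iff]
  have h1 := isIntegralElem_map _ (αE E M q : _root_.Fermat.Agent.A2.Mod.FE E M →+* _root_.Fermat.Agent.A2.Mod.FE E (M * q)) (mem_chartAlg_iff.mp ha)
  have hcomp : (αE E M q : _root_.Fermat.Agent.A2.Mod.FE E M →+* _root_.Fermat.Agent.A2.Mod.FE E (M * q)).comp
      (Polynomial.eval₂RingHom (algebraMap (_root_.Fermat.Agent.A2.Mod.RE P E) (_root_.Fermat.Agent.A2.Mod.FE E M)) yM) =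
      Polynomial.eval₂RingHom (algebraMap (_root_.Fermat.Agent.A2.Mod.RE P E) (_root_.Fermat.Agent.A2.Mod.FE E (M * q))) (αE E M q yM) := by
    apply Polynomial.ringHom_ext
    · intro r
      simp only [RingHom.comp_apply, Polynomial.coe_eval₂RingHom, Polynomial.eval₂_C]
      exact alpha_cE P E M q r
    · simp
  rw [hcomp] at h1
  exact isIntegralElem_trans _ (mem_chartAlg_iff.mp hC.alpha_chart) h1

include hC in
/-- `β` maps the level-`M` chart into the level-`Mq` chart. -/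
theorem beta_chart_mem {a : _root_.Fermat.Agent.A2.Mod.FE E M} (ha : a ∈ chartAlg P E M yM) :
    βE E M q a ∈ chartAlg P E (M * q) y := by
  rw [mem_chartAlg_iff]
  have h1 := isIntegralElem_map _ (βE E M q : _root_.Fermat.Agent.A2.Mod.FE E M →+* _root_.Fermat.Agent.A2.Mod.FE E (M * q)) (mem_chartAlg_iff.mp ha)
  have hcomp : (βE E M q : _root_.Fermat.Agent.A2.Mod.FE E M →+* _root_.Fermat.Agent.A2.Mod.FE E (M * q)).comp
      (Polynomial.eval₂RingHom (algebraMap (_root_.Fermat.Agent.A2.Mod.RE P E) (_root_.Fermat.Agent.A2.Mod.FE E M)) yM) =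
      Polynomial.eval₂RingHom (algebraMap (_root_.Fermat.Agent.A2.Mod.RE P E) (_root_.Fermat.Agent.A2.Mod.FE E (M * q))) (βE E M q yM) := by
    apply Polynomial.ringHom_ext
    · intro r
      simp only [RingHom.comp_apply, Polynomial.coe_eval₂RingHom, Polynomial.eval₂_C]
      exact beta_cE P E M q r
    · simp
  rw [hcomp] at h1
  exact isIntegralElem_trans _ (mem_chartAlg_iff.mp hC.beta_chart) h1

/-- A cut of a chart contained in the valuation ring is a prime ideal. -/
theorem isPrime_of_isCut {N : ℕ} {V : ValuationSubring (_root_.Fermat.Agent.A2.Mod.FE E N)}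
    (hu : H48.IsUnif V (cE P E N w)) (B : Subalgebra (_root_.Fermat.Agent.A2.Mod.RE P E) (_root_.Fermat.Agent.A2.Mod.FE E N))
    (hBV : ∀ b ∈ B, b ∈ V) (p : Ideal B) (hp : IsCut P E N w V B p) : p.IsPrime := by
  let incB : B →+* V := ((B.val : B →ₐ[_root_.Fermat.Agent.A2.Mod.RE P E] _root_.Fermat.Agent.A2.Mod.FE E N) : B →+* _root_.Fermat.Agent.A2.Mod.FE E N).codRestrict V
    (fun b => hBV b b.2)
  let ρ : B →+* IsLocalRing.ResidueField V := (IsLocalRing.residue V).comp incB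
  have hker : p = RingHom.ker ρ := by
    ext b
    rw [hp b, RingHom.mem_ker]
    show _ ↔ IsLocalRing.residue V (incB b) = 0
    rw [residue_eq_zero_iff hu]
    rfl
  rw [hker]
  exact RingHom.ker_isPrime ρ

end Charts

end Fermat.Agent.A2.Mod.H372

end
end
-- ===== PACK-END A2/Mod/H372/S3Sides.lean

-- ===== PACK-BEGIN A2/Mod/H372/S3.lean
section



/-!
# A2 / MODASM sub-assembly S3 (helper372): ordinary double points

`s3_of_leaves : (leaves L4, L5, L7, L8, L11, L12 + sub-assembly S2) → S3Statement P E M q w`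
(`Fermat/Agent/A2/Mod/Asm.lean`, VERBATIM).  The leaves L2 (`H553.vinfBasic`) and L13
(`H873.chartCompat`) are used directly (on main).

Proof: `H372.KronCong.sup_isRadical` applied to the restrictions `α, β : B_M → B` of the two
degeneracy maps to the charts (`B_M` = chart of `j^{±1}` at level `M`, `B` = chart of `x^{±1}`
at level `Mq`):

* `KronCong` : L12 gives the Kronecker twist `a'` only in `V∞_M`; `GoodRedAt.normal` brings it
  back into the chart (`SideData.cong`); on `C₀` one transports by the Fricke involutions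
  (L4, L5, L7);
* `α` is onto `B ⧸ p∞` : L11 + `GoodRedAt.normal` (`SideData.surj`);
* the branch `B ⧸ p∞` is a Dedekind domain : S2 (normal), `B` noetherian (L8), dimension one.
-/

set_option autoImplicit false
set_option synthInstance.maxHeartbeats 400000
set_option maxHeartbeats 1600000
set_option linter.unusedSectionVars false
set_option linter.style.haveILetI false

noncomputable section

namespace Fermat.Agent.A2.Mod.H372

open ModularCurve HahnSeries Polynomial

variable (P : ValuationSubring _root_.Fermat.Agent.A2.Mod.Qb) (E : IntermediateField ℚ _root_.Fermat.Agent.A2.Mod.Qb) (M q : ℕ) [NeZero M] [NeZero q]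
  (w : _root_.Fermat.Agent.A2.Mod.RE P E)

/-- **S3 (ordinary double points)** from the leaves and S2. -/
theorem s3_of_leaves (hL4 : FrickeExistsStatement E) (hL5 : FrickeCompatStatement E M q)
    (hL7 : FrickeStableStatement P E M q w) (hL8 : DegStatement E M q)
    (hL11 : ResInfStatement P E M q w) (hL12 : KronStatement P E M q w)
    (hS2 : S2Statement P E M q w) : S3Statement P E M q w := by
  intro hS VM V W hVM hV hW yM y hy hgood p₁ p₂ hc₁ hc₂
  have hC := coordFacts_of_isCoordPair w hS hVM hV hW hy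
  obtain ⟨WM, hWM⟩ := hL4 M hS.M_ne_zero
  have hN := level_ne_zero w hS
  have hu := unifE w hS hN hV
  -- the restrictions of `α`, `β` to the charts
  let α' : chartAlg P E M yM →+* chartAlg P E (M * q) y :=
    ((αE E M q : _root_.Fermat.Agent.A2.Mod.FE E M →+* _root_.Fermat.Agent.A2.Mod.FE E (M * q)).comp
      ((chartAlg P E M yM).val : chartAlg P E M yM →+* _root_.Fermat.Agent.A2.Mod.FE E M)).codRestrict
      (chartAlg P E (M * q) y) (fun a => alpha_chart_mem w hC a.2)
  let β' : chartAlg P E M yM →+* chartAlg P E (M * q) y :=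
    ((βE E M q : _root_.Fermat.Agent.A2.Mod.FE E M →+* _root_.Fermat.Agent.A2.Mod.FE E (M * q)).comp
      ((chartAlg P E M yM).val : chartAlg P E M yM →+* _root_.Fermat.Agent.A2.Mod.FE E M)).codRestrict
      (chartAlg P E (M * q) y) (fun a => beta_chart_mem w hC a.2)
  have hKC : Fermat.Agent.A2.H372.KronCong q α' β' p₁ p₂ := by
    refine ⟨fun a => ?_, fun a => ?_⟩
    · obtain ⟨a', ha', h⟩ := chart_cong₁ w hS hVM hV hC hgood hL12 a a.2
      exact ⟨⟨a', ha'⟩, (hc₁ _).mpr h⟩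
    · obtain ⟨a', ha', h⟩ := chart_cong₂ w hS hVM hV hW hC hgood hL5 hL7 hL12 hWM a a.2
      exact ⟨⟨a', ha'⟩, (hc₂ _).mpr h⟩
  have hsurj := chart_surj w hS hVM hV hC hgood hL11
  have hα : ∀ b : chartAlg P E (M * q) y, ∃ a : chartAlg P E M yM, b - α' a ∈ p₁ := by
    intro b
    obtain ⟨-, a, ha, h⟩ := hsurj b b.2
    exact ⟨⟨a, ha⟩, (hc₁ _).mpr h⟩
  -- the branch is Dedekind
  haveI hp₁ : p₁.IsPrime :=
    isPrime_of_isCut w hu (chartAlg P E (M * q) y) (fun b hb => (hsurj b hb).1) p₁ hc₁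
  obtain ⟨hx, hfr, -⟩ := hL8 hS.q_prime hS.q_not_dvd
  have hpos : 0 < Module.finrank (IntermediateField.adjoin E ({xE E M q} : Set (_root_.Fermat.Agent.A2.Mod.FE E (M * q))))
      (_root_.Fermat.Agent.A2.Mod.FE E (M * q)) := by
    rw [hfr]
    have h1 := dedekindPsi_pos_of_ne_zero M hS.M_ne_zero
    positivity
  haveI hfin : FiniteDimensional (IntermediateField.adjoin E ({xE E M q} : Set (_root_.Fermat.Agent.A2.Mod.FE E (M * q))))
      (_root_.Fermat.Agent.A2.Mod.FE E (M * q)) := Module.finite_of_finrank_pos hpos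
  obtain ⟨hn₁, hn₂⟩ := isNoetherianRing_chartAlg_of_transcendental (P := P) hS.dvr (xE E M q) hx
  haveI hnoeth : IsNoetherianRing (chartAlg P E (M * q) y) := by
    rcases hy with ⟨-, rfl⟩ | ⟨-, rfl⟩
    · exact hn₁
    · exact hn₂
  haveI hic : IsIntegrallyClosed (chartAlg P E (M * q) y ⧸ p₁) :=
    (hS2 hS VM V W hVM hV hW yM y hy hgood p₁ p₂ hc₁ hc₂).1
  haveI := hS.dvr
  have hint : ∀ b : chartAlg P E (M * q) y,
      (Polynomial.eval₂RingHom (algebraMap (_root_.Fermat.Agent.A2.Mod.RE P E) (chartAlg P E (M * q) y))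
        (⟨y, self_mem_chartAlg (M * q) y⟩ : chartAlg P E (M * q) y)).IsIntegralElem b := by
    intro b
    obtain ⟨p, hp, hpb⟩ := mem_chartAlg_iff.mp b.2
    refine ⟨p, hp, Subtype.ext ?_⟩
    have hcomp : ((chartAlg P E (M * q) y).val : chartAlg P E (M * q) y →+* _root_.Fermat.Agent.A2.Mod.FE E (M * q)).comp
        (Polynomial.eval₂RingHom (algebraMap (_root_.Fermat.Agent.A2.Mod.RE P E) (chartAlg P E (M * q) y))
          (⟨y, self_mem_chartAlg (M * q) y⟩ : chartAlg P E (M * q) y)) =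
        Polynomial.eval₂RingHom (algebraMap (_root_.Fermat.Agent.A2.Mod.RE P E) (_root_.Fermat.Agent.A2.Mod.FE E (M * q))) y := by
      apply Polynomial.ringHom_ext
      · intro r
        simp only [RingHom.comp_apply, Polynomial.coe_eval₂RingHom, Polynomial.eval₂_C]
        rfl
      · simp
    have := Polynomial.hom_eval₂ p (Polynomial.eval₂RingHom (algebraMap (_root_.Fermat.Agent.A2.Mod.RE P E)
      (chartAlg P E (M * q) y)) (⟨y, self_mem_chartAlg (M * q) y⟩ : chartAlg P E (M * q) y))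
      ((chartAlg P E (M * q) y).val : chartAlg P E (M * q) y →+* _root_.Fermat.Agent.A2.Mod.FE E (M * q)) b
    rw [hcomp] at this
    rw [ZeroMemClass.coe_zero, ← hpb]
    exact this
  have hpR : ∀ r ∈ IsLocalRing.maximalIdeal (_root_.Fermat.Agent.A2.Mod.RE P E),
      algebraMap (_root_.Fermat.Agent.A2.Mod.RE P E) (chartAlg P E (M * q) y) r ∈ p₁ := by
    intro r hr
    rw [hS.unif.maximalIdeal_eq, Ideal.mem_span_singleton'] at hr
    obtain ⟨s, rfl⟩ := hr
    rw [hc₁]
    show cE P E (M * q) (s * w) * (cE P E (M * q) w)⁻¹ ∈ V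
    have hw0 := cE_ne_zero w hS (M * q)
    have e : cE P E (M * q) (s * w) * (cE P E (M * q) w)⁻¹ = cE P E (M * q) s := by
      have : cE P E (M * q) (s * w) = cE P E (M * q) s * cE P E (M * q) w :=
        map_mul (algebraMap (_root_.Fermat.Agent.A2.Mod.RE P E) (_root_.Fermat.Agent.A2.Mod.FE E (M * q))) s w
      rw [this, mul_assoc, mul_inv_cancel₀ hw0, mul_one]
    rw [e]
    exact cE_mem w hS hV s
  haveI : IsDedekindDomain (chartAlg P E (M * q) y ⧸ p₁) :=
    isDedekindDomain_quotient_of_integral _ _ hint p₁ hpR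
  exact sup_isRadical_of_quotient hS.q_prime.two_le hKC hα

end Fermat.Agent.A2.Mod.H372

end
end
-- ===== PACK-END A2/Mod/H372/S3.lean

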