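import Fermat.Prelude.Def_FLTPrelim_Ramification
import Mathlib
import Fermat.Prelude.Def_AlgebraicCurve_Correspondence
import Fermat.Agent.Pack.S44C.G0E17L2
import Fermat.Agent.Pack.S44C.G0E25L0
import Fermat.Agent.Pack.S44C.G0E25L3
import Fermat.Agent.Pack.S44C.G0E23L1
import Fermat.Agent.Pack.S44C.G0E7L1
import Fermat.Agent.Pack.S44C.G0E24L2
import Fermat.Agent.Pack.S44C.G0E25L1
import Fermat.Agent.Pack.S44C.G0E25L2
import Fermat.Agent.Pack.S44C.G0E20L1
import Fermat.Agent.Pack.S44C.G0E24L1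
import Fermat.Agent.Pack.S44C.G1E0L0
import Fermat.Agent.Pack.S44C.G0E15L1
import Fermat.Agent.Pack.S44C.G0E24L0
import Fermat.Agent.Pack.S44C.G0E21L2
import Fermat.Agent.Pack.S44C.G0E17L0
import Fermat.Agent.Pack.S44C.G0E15L0
import Fermat.Agent.Pack.Fast891

-- ===== PACK-BEGIN Lib/Cheb/Chebotarev.lean
section



/-!
# CHEB, Tier 2 END: exact qualitative Chebotarev over `ℚ`

* `Fermat.Agent.Lib.Cheb.chebFinite : Spec.ChebFiniteStatement` — for a Galois number field `L`,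
  every `σ ∈ Gal(L/ℚ)` is an arithmetic Frobenius at a prime `P` of `𝓞 L` with trivial inertia,
  above a prime number outside any given finite set.
* `Fermat.Agent.Lib.Cheb.chebotarev : Spec.ChebotarevStatement` — for every finite extension
  `E ⊆ ℚ̄`, every `σ ∈ Gal(ℚ̄/ℚ)` and every finite set `S` there are a prime `ℓ ∉ S`, a valuation
  subring `A` of `ℚ̄` over `ℓ` and a Frobenius `τ` at `A` (Prelude's `IsFrobeniusAt`) such that the
  inertia group of `A` acts trivially on `E` and `τ = σ` on `E`.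

Assembled (row-lead helper56) from the analytic core AN (`H44.dirichletLimit`, helper44 and the
NormL squad), CYC (`H221`, helper221), CROSS (`H223`, helper223), the bridge (`H476`, helper476)
and Tier 1.  Unconditional; no class field theory.
-/

set_option autoImplicit false

namespace Fermat.Agent.Lib.Cheb

/-- The cyclotomic case. -/
theorem cycStatement : Spec.CycStatement :=
  H221.cyc_of_dirichletLimit H44.dirichletLimit

/-- **Qualitative Chebotarev, finite level.** -/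
theorem chebFinite : Spec.ChebFiniteStatement :=
  H221.chebFinite_of_dirichletLimit H44.dirichletLimit

/-- **Qualitative Chebotarev over `ℚ̄`.** -/
theorem chebotarev : Spec.ChebotarevStatement :=
  H221.chebotarev_of_dirichletLimit H44.dirichletLimit

end Fermat.Agent.Lib.Cheb

end
-- ===== PACK-END Lib/Cheb/Chebotarev.lean

-- ===== PACK-BEGIN S29/M4b/H822/Basic.lean
section
/-
S29 / M4b (helper822): basic API for the frozen definitions of `M4b/Defs.lean`
(roots of unity, characters, realisations).  Sorry-free.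
-/


set_option autoImplicit false

noncomputable section

open ModularCurve AlgebraicCurve CongruenceSubgroup UpperHalfPlane
open scoped MatrixGroups Manifold

namespace Fermat.Agent.S29.M4b.H822

open Fermat.Agent.S24 Fermat.Agent.S29 Fermat.Agent.S29.M4b

/-! ### The root of unity `zetaP p` -/

theorem isPrimitiveRoot_zetaP (p : ℕ) [NeZero p] : IsPrimitiveRoot (zetaP p) p := by
  unfold zetaP
  exact Complex.isPrimitiveRoot_exp p (NeZero.ne p)

theorem zetaP_pow_self (p : ℕ) [NeZero p] : zetaP p ^ p = 1 :=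
  (isPrimitiveRoot_zetaP p).pow_eq_one

theorem zetaP_ne_zero (p : ℕ) [NeZero p] : zetaP p ≠ 0 := by
  unfold zetaP
  exact Complex.exp_ne_zero _

theorem zetaP_pow_val_add (p : ℕ) [NeZero p] (a b : ZMod p) :
    zetaP p ^ (a + b).val = zetaP p ^ a.val * zetaP p ^ b.val := by
  rw [ZMod.val_add, ← pow_add, ← pow_eq_pow_mod _ (zetaP_pow_self p)]

theorem zetaP_pow_val_eq_one_iff (p : ℕ) [NeZero p] (a : ZMod p) :
    zetaP p ^ a.val = 1 ↔ a = 0 := by
  rw [(isPrimitiveRoot_zetaP p).pow_eq_one_iff_dvd]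
  constructor
  · intro h
    have h1 : a.val = 0 := Nat.eq_zero_of_dvd_of_lt h (ZMod.val_lt a)
    exact (ZMod.val_eq_zero a).mp h1
  · rintro rfl
    simp

theorem zetaP_pow_val_zero (p : ℕ) [NeZero p] : zetaP p ^ (0 : ZMod p).val = 1 := by
  simp

/-! ### Characters -/

theorem hasChar_mul {N p : ℕ} [NeZero p] {c c' : G0 N → ZMod p} {U U' : ℍ → ℂ}
    (h : HasChar N p c U) (h' : HasChar N p c' U') :
    HasChar N p (c + c') (fun τ => U τ * U' τ) := by
  intro γ τ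
  show U _ * U' _ = _
  rw [h γ τ, h' γ τ, Pi.add_apply, zetaP_pow_val_add]
  ring

theorem hasChar_pow_invariant {N p : ℕ} [NeZero p] {c : G0 N → ZMod p} {U : ℍ → ℂ}
    (h : HasChar N p c U) (γ : G0 N) (τ : ℍ) :
    U ((γ : SL(2, ℤ)) • τ) ^ p = U τ ^ p := by
  rw [h γ τ, mul_pow, ← pow_mul, mul_comm (c γ).val p, pow_mul, zetaP_pow_self, one_pow, one_mul]

/-! ### Realisations -/

section Realises

variable {N : ℕ} [NeZero N]

theorem realises_mem {u : FF N} {G : ℍ → ℂ} (h : Realises N u G) : G ∈ H648.goodRing N := h.1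

theorem realises_isMerInf {u : FF N} {G : ℍ → ℂ} (h : Realises N u G) : H708.IsMerInf 1 G :=
  H882.isMerInf_of_mem_goodRing h.1

theorem realises_hasQExp {u : FF N} {G : ℍ → ℂ} (h : Realises N u G) :
    H708.HasQExp 1 G (coeffMap Deg457.iotaC ((u : FF N) : LaurentSeries Kbar)) :=
  ⟨realises_isMerInf h, h.2⟩

theorem realises_of_hasQExp {u : FF N} {G : ℍ → ℂ} (hG : G ∈ H648.goodRing N)
    (h : H708.HasQExp 1 G (coeffMap Deg457.iotaC ((u : FF N) : LaurentSeries Kbar))) :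
    Realises N u G :=
  ⟨hG, h.2⟩

theorem realises_mul {u v : FF N} {G H : ℍ → ℂ} (hu : Realises N u G) (hv : Realises N v H) :
    Realises N (u * v) (G * H) := by
  refine realises_of_hasQExp ((H648.goodRing N).mul_mem hu.1 hv.1) ?_
  have := (realises_hasQExp hu).mul (realises_hasQExp hv)
  simpa using this

theorem realises_pow {u : FF N} {G : ℍ → ℂ} (hu : Realises N u G) (n : ℕ) :
    Realises N (u ^ n) (G ^ n) := by
  refine realises_of_hasQExp ((H648.goodRing N).pow_mem hu.1 n) ?_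
  have := (realises_hasQExp hu).pow n
  simpa using this

theorem coeffMap_iotaC_injective :
    Function.Injective (coeffMap Deg457.iotaC : LaurentSeries Kbar → LaurentSeries ℂ) := by
  intro x y h
  ext n
  have h1 := congrArg (fun z : LaurentSeries ℂ => z.coeff n) h
  simp only [coeffMap] at h1
  exact Deg457.iotaC.injective (by simpa using h1)

/-- A realisation of a nonzero element is not the zero function. -/
theorem realises_ne_zero {u : FF N} {G : ℍ → ℂ} (h : Realises N u G) (hu : u ≠ 0) : G ≠ 0 := by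
  intro hG
  have h1 := ((realises_hasQExp h).eq_zero_iff).mpr hG
  have h2 : ((u : FF N) : LaurentSeries Kbar) = 0 :=
    coeffMap_iotaC_injective (by rw [h1, map_zero])
  exact hu (Subtype.ext h2)

/-- The realised element is determined by the function. -/
theorem realises_unique_left {u v : FF N} {G : ℍ → ℂ} (hu : Realises N u G)
    (hv : Realises N v G) : u = v := by
  apply Subtype.ext
  apply coeffMap_iotaC_injective
  rw [← hu.2, ← hv.2]

/-- The function is determined by the realised element. -/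
theorem realises_unique_right {u : FF N} {G H : ℍ → ℂ} (hG : Realises N u G)
    (hH : Realises N u H) : G = H :=
  (realises_hasQExp hG).eq_of_eq (realises_hasQExp hH)

/-- Every element of the polynomial ring `ℚ̄[j(q^d) : d ∣ N]` is realised by a good function. -/
theorem exists_realises_of_mem_AK {a : FF N}
    (ha : ((a : FF N) : LaurentSeries Kbar) ∈ Deg457.AK Kbar N) :
    ∃ G : ℍ → ℂ, Realises N a G := by
  have h1 := Deg457.coeffMap_mem_AK Deg457.iotaC ha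
  obtain ⟨G, hG, hq⟩ := H882.AK_le_goodQ N h1
  exact ⟨G, hG, hq.2⟩

end Realises

end Fermat.Agent.S29.M4b.H822

end
end
-- ===== PACK-END S29/M4b/H822/Basic.lean

-- ===== PACK-BEGIN S29/H509/K1.lean
section



/-!
# S29 / M4b piece K1 (`exists_isTwisted`) in helper822's EXACT shape (helper509)

`U := kumH (chiOfHom c)`, i.e. `E^χ₁₂ / Δ` with `χ = ζ_p ^ c`.
-/

set_option autoImplicit false

namespace Fermat.Agent.S29.H509

open ModularCurve AlgebraicCurve CongruenceSubgroup UpperHalfPlane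
open scoped MatrixGroups Manifold

open Fermat.Agent.S24 Fermat.Agent.S29 Fermat.Agent.S29.M4b

noncomputable section

/-- The additive character `Additive Γ₀(N) →+ ZMod p` underlying a parabolic hom `c`. -/
def homOfParHom {N p : ℕ} {c : G0 N → ZMod p} (hc : IsParHom c) :
    Additive (Gamma0 N) →+ ZMod p where
  toFun γ := c (Additive.toMul γ)
  map_zero' := by
    have h := hc.map_mul 1 1
    rw [mul_one] at h
    have : c 1 + 0 = c 1 + c 1 := by rw [add_zero]; exact h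
    exact (add_left_cancel this).symm
  map_add' a b := hc.map_mul _ _

@[simp] lemma homOfParHom_apply {N p : ℕ} {c : G0 N → ZMod p} (hc : IsParHom c)
    (γ : Gamma0 N) : homOfParHom hc (Additive.ofMul γ) = c γ := rfl

lemma stdAddChar_eq_zetaP_pow (p : ℕ) [NeZero p] (a : ZMod p) :
    ZMod.stdAddChar (N := p) a = zetaP p ^ a.val := by
  have h1 : ((a.val : ℤ) : ZMod p) = a := by
    rw [Int.cast_natCast, ZMod.natCast_zmod_val]
  conv_lhs => rw [← h1]
  rw [ZMod.stdAddChar_coe, zetaP, ← Complex.exp_nat_mul]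
  congr 1
  push_cast
  ring

/-- **PIECE K1** of `M4b/Skeleton.lean`, exact type. -/
theorem exists_isTwisted (N : ℕ) [NeZero N] (p : ℕ) [NeZero p] {c : G0 N → ZMod p}
    (hc : IsParHom c) : ∃ U : ℍ → ℂ, IsTwisted N p c U := by
  have hstab : ∀ γ : Gamma0 N, (γ : SL(2, ℤ)) 1 0 = 0 →
      homOfParHom hc (Additive.ofMul γ) = 0 := by
    intro γ hγ
    rw [homOfParHom_apply]
    apply hc.parabolic
    have hdet := (γ : SL(2, ℤ)).det_coe
    rw [Matrix.det_fin_two] at hdet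
    have h' : ((γ : SL(2, ℤ)) : Matrix (Fin 2) (Fin 2) ℤ) 1 0 = 0 := hγ
    rw [h', mul_zero, sub_zero] at hdet
    have htr : (G0.mat γ).trace = ((γ : SL(2, ℤ)) : Matrix (Fin 2) (Fin 2) ℤ) 0 0
        + ((γ : SL(2, ℤ)) : Matrix (Fin 2) (Fin 2) ℤ) 1 1 := by
      rw [G0.mat, Matrix.trace_fin_two]
    rw [htr]
    rcases Int.eq_one_or_neg_one_of_mul_eq_one' hdet with ⟨h1, h2⟩ | ⟨h1, h2⟩
    · left; rw [h1, h2]; norm_num
    · right; rw [h1, h2]; norm_num
  obtain ⟨h, hmd, hne, hchar, -, hgood⟩ := exists_kummerFun_of_hom N (homOfParHom hc) hstab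
  refine ⟨h, hmd, ?_, ?_, hgood⟩
  · by_contra hall
    push_neg at hall
    exact hne (funext hall)
  · intro γ τ
    rw [hchar γ τ, homOfParHom_apply, stdAddChar_eq_zetaP_pow]

end

end Fermat.Agent.S29.H509

end
-- ===== PACK-END S29/H509/K1.lean

-- ===== PACK-BEGIN S29/H942/SameChar.lean
section


/-!
# S29 / M4b / K3 (DESC), sub-piece (B) "FINITE" (helper942)

Two twisted functions of the SAME character have `p`-th powers whose `q`-expansions differ by a
`p`-th power of the function field `F_ℂ = laurentBaseChange ℂ (modularFunctionFieldFull N)`.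

* `expGrowth_of_pow` : root of a growth bound.
* `mem_goodRing_of_pow_mem` : a holomorphic `Γ₀(N)`-invariant function with a good power is good.
* `mul_pow_pred_mem_goodRing` : `U * V ^ (p - 1)` is good for `U`, `V` twisted of the same
  character.
* `exists_pow_mul_eq_of_isTwisted` : `qexp (U ^ p) = g ^ p * qexp (V ^ p)` with `g ∈ F_ℂ`, `g ≠ 0`.
* `exists_pow_mul_eq_of_realised` : the same for data `(f, t, U)` with `qexp (U ^ p) = f * t ^ p`
  (the shape used in `IsKum`).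
-/

set_option autoImplicit false

noncomputable section

open ModularCurve AlgebraicCurve CongruenceSubgroup UpperHalfPlane
open scoped MatrixGroups Manifold

namespace Fermat.Agent.S29.H942

open Fermat.Agent.S24 Fermat.Agent.S29 Fermat.Agent.S29.M4b

/-- Root of a growth bound: if `f ^ p` (`p ≠ 0`) has at most exponential growth, so has `f`. -/
theorem expGrowth_of_pow {f : ℍ → ℂ} {p : ℕ} (hp : p ≠ 0)
    (h : H648.ExpGrowth (fun τ => f τ ^ p)) : H648.ExpGrowth f := by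
  obtain ⟨C, m, hC⟩ := h
  refine ⟨max C 1, m, fun τ hτ => ?_⟩
  have hexp : (1 : ℝ) ≤ Real.exp (2 * Real.pi * m * τ.im) := by
    apply Real.one_le_exp
    have := Real.pi_pos
    have := τ.im_pos
    positivity
  have hpow := hC τ hτ
  rw [norm_pow] at hpow
  rcases le_total ‖f τ‖ 1 with h1 | h1
  · calc ‖f τ‖ ≤ 1 := h1
      _ = 1 * 1 := (one_mul 1).symm
      _ ≤ max C 1 * Real.exp (2 * Real.pi * m * τ.im) :=
          mul_le_mul (le_max_right _ _) hexp zero_le_one (le_trans zero_le_one (le_max_right _ _))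
  · calc ‖f τ‖ ≤ ‖f τ‖ ^ p := le_self_pow₀ h1 hp
      _ ≤ C * Real.exp (2 * Real.pi * m * τ.im) := hpow
      _ ≤ max C 1 * Real.exp (2 * Real.pi * m * τ.im) := by
          gcongr
          exact le_max_left _ _

/-- A holomorphic `Γ₀(N)`-invariant function one of whose powers is good is good. -/
theorem mem_goodRing_of_pow_mem (N : ℕ) {W : ℍ → ℂ} {p : ℕ} (hp : p ≠ 0)
    (hW : MDifferentiable 𝓘(ℂ) 𝓘(ℂ) W)
    (hinv : ∀ γ ∈ Gamma0 N, ∀ τ : ℍ, W (γ • τ) = W τ)
    (hpow : (fun τ => W τ ^ p) ∈ H648.goodRing N) : W ∈ H648.goodRing N := by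
  refine ⟨hW, hinv, fun g => ?_⟩
  exact expGrowth_of_pow hp (hpow.2.2 g)

/-- `ζ_p ^ p = 1`. -/
theorem zetaP_pow_self' (p : ℕ) [NeZero p] : zetaP p ^ p = 1 := by
  unfold zetaP
  rw [← Complex.exp_nat_mul]
  have hp : (p : ℂ) ≠ 0 := Nat.cast_ne_zero.mpr (NeZero.ne p)
  rw [mul_div_cancel₀ _ hp]
  exact Complex.exp_two_pi_mul_I

variable (N : ℕ) [NeZero N] (p : ℕ) [NeZero p]

/-- For `U`, `V` of the same character, `U * V ^ (p - 1)` is `Γ₀(N)`-invariant. -/
theorem mul_pow_pred_invariant {c : G0 N → ZMod p} {U V : ℍ → ℂ}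
    (hU : HasChar N p c U) (hV : HasChar N p c V) (γ : SL(2, ℤ)) (hγ : γ ∈ Gamma0 N) (τ : ℍ) :
    U (γ • τ) * V (γ • τ) ^ (p - 1) = U τ * V τ ^ (p - 1) := by
  have h1 := hU ⟨γ, hγ⟩ τ
  have h2 := hV ⟨γ, hγ⟩ τ
  simp only at h1 h2
  rw [h1, h2, mul_pow, ← pow_mul]
  have hp1 : 1 ≤ p := Nat.one_le_iff_ne_zero.mpr (NeZero.ne p)
  have hz : zetaP p ^ (c ⟨γ, hγ⟩).val * zetaP p ^ ((c ⟨γ, hγ⟩).val * (p - 1)) = 1 := by
    rw [← pow_add]
    have : (c ⟨γ, hγ⟩).val + (c ⟨γ, hγ⟩).val * (p - 1) = p * (c ⟨γ, hγ⟩).val := by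
      have hpp : p - 1 + 1 = p := Nat.sub_add_cancel hp1
      calc (c ⟨γ, hγ⟩).val + (c ⟨γ, hγ⟩).val * (p - 1)
          = (c ⟨γ, hγ⟩).val * (p - 1 + 1) := by ring
        _ = p * (c ⟨γ, hγ⟩).val := by rw [hpp, mul_comm]
    rw [this, pow_mul, zetaP_pow_self', one_pow]
  calc zetaP p ^ (c ⟨γ, hγ⟩).val * U τ * (zetaP p ^ ((c ⟨γ, hγ⟩).val * (p - 1)) * V τ ^ (p - 1))
      = (zetaP p ^ (c ⟨γ, hγ⟩).val * zetaP p ^ ((c ⟨γ, hγ⟩).val * (p - 1))) *
          (U τ * V τ ^ (p - 1)) := by ring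
    _ = U τ * V τ ^ (p - 1) := by rw [hz, one_mul]

/-- For `U`, `V` twisted of the same character, `U * V ^ (p - 1)` is good. -/
theorem mul_pow_pred_mem_goodRing {c : G0 N → ZMod p} {U V : ℍ → ℂ}
    (hU : IsTwisted N p c U) (hV : IsTwisted N p c V) :
    (fun τ => U τ * V τ ^ (p - 1)) ∈ H648.goodRing N := by
  refine mem_goodRing_of_pow_mem N (NeZero.ne p) (hU.mdiff.mul (hV.mdiff.pow (p - 1)))
    (fun γ hγ τ => mul_pow_pred_invariant N p hU.hasChar hV.hasChar γ hγ τ) ?_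
  have h : (fun τ => (U τ * V τ ^ (p - 1)) ^ p)
      = (fun τ => U τ ^ p) * (fun τ => V τ ^ p) ^ (p - 1) := by
    funext τ
    simp only [Pi.mul_apply, Pi.pow_apply]
    rw [mul_pow, ← pow_mul, ← pow_mul, mul_comm (p - 1) p]
  rw [h]
  exact (H648.goodRing N).mul_mem hU.pow_mem ((H648.goodRing N).pow_mem hV.pow_mem _)

/-- `qexpFun` commutes with powers of functions meromorphic at `i∞`. -/
theorem qexpFun_pow' {f : ℍ → ℂ} (hf : H708.IsMerInf 1 f) (n : ℕ) :
    H708.qexpFun 1 (f ^ n) = H708.qexpFun 1 f ^ n := by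
  induction n with
  | zero =>
      rw [pow_zero, pow_zero]
      have h1 : (1 : ℍ → ℂ) = fun _ => (1 : ℂ) := rfl
      rw [h1, H708.qexpFun_const]
      simp
  | succ n ih => rw [pow_succ, H708.qexpFun_mul (hf.pow n) hf, ih, pow_succ]

omit [NeZero N] [NeZero p] in
/-- A twisted function has a nonzero `p`-th power. -/
theorem pow_ne_zero_of_isTwisted {c : G0 N → ZMod p} {U : ℍ → ℂ} (hU : IsTwisted N p c U) :
    (fun τ => U τ ^ p) ≠ 0 := by
  obtain ⟨τ, hτ⟩ := hU.ne_zero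
  intro h0
  exact pow_ne_zero p hτ (congrFun h0 τ)

/-- The `q`-expansion of the `p`-th power of a twisted function is a nonzero element of `F_ℂ`. -/
theorem qexpFun_pow_ne_zero_of_isTwisted {c : G0 N → ZMod p} {U : ℍ → ℂ}
    (hU : IsTwisted N p c U) : H708.qexpFun 1 (fun τ => U τ ^ p) ≠ 0 := by
  intro h0
  exact pow_ne_zero_of_isTwisted N p hU
    ((H708.qexpFun_eq_zero_iff (H882.isMerInf_of_mem_goodRing hU.pow_mem)).mp h0)

/-- **Sub-piece (B) of K3.**  If `U` and `V` are twisted functions of the same character `c`, then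
the `q`-expansions of `U ^ p` and `V ^ p` differ by the `p`-th power of a nonzero element of the
function field `F_ℂ` of `X₀(N)` over `ℂ`. -/
theorem exists_pow_mul_eq_of_isTwisted {c : G0 N → ZMod p} {U V : ℍ → ℂ}
    (hU : IsTwisted N p c U) (hV : IsTwisted N p c V) :
    ∃ g : LaurentSeries ℂ, g ∈ H882.FC N ∧ g ≠ 0 ∧
      H708.qexpFun 1 (fun τ => U τ ^ p) = g ^ p * H708.qexpFun 1 (fun τ => V τ ^ p) := by
  set W : ℍ → ℂ := fun τ => U τ * V τ ^ (p - 1) with hWdef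
  have hW : W ∈ H648.goodRing N := mul_pow_pred_mem_goodRing N p hU hV
  have hWm := H882.isMerInf_of_mem_goodRing hW
  have hUm := H882.isMerInf_of_mem_goodRing hU.pow_mem
  have hVm := H882.isMerInf_of_mem_goodRing hV.pow_mem
  set w := H708.qexpFun 1 W with hw
  set a := H708.qexpFun 1 (fun τ => U τ ^ p) with ha
  set b := H708.qexpFun 1 (fun τ => V τ ^ p) with hb
  have hwFC : w ∈ H882.FC N := H882.qexpFun_mem_FC hW
  have hbFC : b ∈ H882.FC N := H882.qexpFun_mem_FC hV.pow_mem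
  have hb0 : b ≠ 0 := qexpFun_pow_ne_zero_of_isTwisted N p hV
  have ha0 : a ≠ 0 := qexpFun_pow_ne_zero_of_isTwisted N p hU
  -- `w ^ p = a * b ^ (p - 1)`
  have hfun : W ^ p = (fun τ => U τ ^ p) * (fun τ => V τ ^ p) ^ (p - 1) := by
    funext τ
    simp only [hWdef, Pi.mul_apply, Pi.pow_apply]
    rw [mul_pow, ← pow_mul, ← pow_mul, mul_comm (p - 1) p]
  have hwp : w ^ p = a * b ^ (p - 1) := by
    rw [hw, ← qexpFun_pow' hWm p, hfun, H708.qexpFun_mul hUm (hVm.pow (p - 1)),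
      qexpFun_pow' hVm (p - 1)]
  have hp1 : p - 1 + 1 = p := Nat.sub_add_cancel (Nat.one_le_iff_ne_zero.mpr (NeZero.ne p))
  refine ⟨w * b⁻¹, mul_mem hwFC (inv_mem hbFC), ?_, ?_⟩
  · refine mul_ne_zero ?_ (inv_ne_zero hb0)
    intro h0
    rw [h0, zero_pow (NeZero.ne p)] at hwp
    exact mul_ne_zero ha0 (pow_ne_zero _ hb0) hwp.symm
  · rw [mul_pow, hwp, inv_pow]
    have hbp : b ^ p = b ^ (p - 1) * b := by rw [← pow_succ, hp1]
    rw [hbp, mul_inv]
    field_simp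

/-- Variant of (B) for data in the shape of `IsKum`: if `qexp (U ^ p) = f * t ^ p` and
`qexp (V ^ p) = f' * t' ^ p` with `U`, `V` twisted of the same character, `t, t' ≠ 0`, then
`f = g ^ p * f'` for some nonzero `g ∈ F_ℂ` (provided `t, t' ∈ F_ℂ`). -/
theorem exists_pow_mul_eq_of_realised {c : G0 N → ZMod p} {U V : ℍ → ℂ}
    (hU : IsTwisted N p c U) (hV : IsTwisted N p c V) {f t f' t' : LaurentSeries ℂ}
    (ht : t ∈ H882.FC N) (ht0 : t ≠ 0) (ht' : t' ∈ H882.FC N) (ht0' : t' ≠ 0)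
    (hf : H708.qexpFun 1 (fun τ => U τ ^ p) = f * t ^ p)
    (hf' : H708.qexpFun 1 (fun τ => V τ ^ p) = f' * t' ^ p) :
    ∃ g : LaurentSeries ℂ, g ∈ H882.FC N ∧ g ≠ 0 ∧ f = g ^ p * f' := by
  obtain ⟨g, hg, hg0, h⟩ := exists_pow_mul_eq_of_isTwisted N p hU hV
  refine ⟨g * t' * t⁻¹, mul_mem (mul_mem hg ht') (inv_mem ht),
    mul_ne_zero (mul_ne_zero hg0 ht0') (inv_ne_zero ht0), ?_⟩
  rw [hf, hf'] at h
  have htp : t ^ p ≠ 0 := pow_ne_zero _ ht0
  rw [mul_pow, mul_pow, inv_pow]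
  field_simp
  rw [h]
  ring

end Fermat.Agent.S29.H942

end
end
-- ===== PACK-END S29/H942/SameChar.lean

-- ===== PACK-BEGIN S18/H558/PartBr.lean
section






/-!
# S18 / MOD / G-BR (helper558): the branch-value fields of `Alg.GoodModel` at the concrete objects

Target: the four fields `S_mem`, `S_distinct`, `S_unit`, `unramified` of `Alg.GoodModel`
(= the structure `PartBr (Lc M) (Rc M A E) x S` of MOD-ASM helper216) for

* `x = jOm M`, `S = {0, 1728}`, `ℓ ≥ 5`                       (`brJ_*`),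
* `x` with `jOm M * x ^ 2 = (x + 256) ^ 3`, `S = {0, -64}`, `ℓ = 3`   (`brT2_*`),
* `x` with `jOm M * x ^ 3 = (x + 27) * (x + 243) ^ 3`, `S = {0, -27}`, `ℓ = 2` (`brT3_*`),

for EVERY intermediate field `E` of `Q̄/ℚ` (no finiteness needed) and every valuation subring `A`
of `Q̄` lying over `ℓ`.  The bundled forms `brJ`, `brT2`, `brT3` are conjunctions of the four
fields in the order of the structure, so `PartBr` is `⟨h.1, h.2.1, h.2.2.1, h.2.2.2⟩`.

Inputs: M2 (`H558/Branch*.lean`, Place language) and `H804.exists_place_of_valuationSubring_modular`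
(every proper valuation subring of `F_M` containing `Q̄` is a `Place`).
-/

set_option autoImplicit false

noncomputable section

namespace Fermat.Agent.S18.H558

open AlgebraicCurve ModularCurve Fermat.Agent.S24 Fermat.Agent.S18 Fermat.Agent.S18.Mod

variable (M : ℕ) [NeZero M]

/-- The frozen coordinate `jOm M` is the `j`-function `jF M` of the S24 library. -/
theorem jOm_eq_jF : jOm M = jF M := by
  apply Subtype.ext
  show coeffEmb Qb (qExpand ℚ 1 jq) = coeffEmb Kbar jq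
  rw [qExpand_one_apply]

/-! ### Integers in `Rc` -/

section Consts

variable (A : ValuationSubring Qb) (E : IntermediateField ℚ Qb)

theorem algebraMap_mem_Rc {a : Qb} (hA : a ∈ A) (hE : a ∈ E) :
    algebraMap Qb (Om M) a ∈ Rc M A E :=
  Subring.mem_map.2 ⟨a, ⟨hA, hE⟩, rfl⟩

theorem intCast_mem_Rc (n : ℤ) : ((n : ℤ) : Om M) ∈ Rc M A E := by
  have h : ((n : ℤ) : Om M) = algebraMap Qb (Om M) (n : Qb) := (map_intCast _ n).symm
  rw [h]
  exact algebraMap_mem_Rc M A E (intCast_mem A n) (intCast_mem E n)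

theorem inv_intCast_mem_Rc (n : ℤ) (hn : ((n : ℤ) : Qb)⁻¹ ∈ A) :
    (((n : ℤ) : Om M))⁻¹ ∈ Rc M A E := by
  have h : (((n : ℤ) : Om M))⁻¹ = algebraMap Qb (Om M) ((n : Qb)⁻¹) := by
    rw [map_inv₀, map_intCast]
  rw [h]
  exact algebraMap_mem_Rc M A E hn (inv_mem (intCast_mem E n))

/-- An integer prime to the residue characteristic is a unit of `A`. -/
theorem inv_intCast_mem_of_coprime {ℓ : ℕ} (hA : A.LiesOverPrime ℓ) (n : ℤ)
    (hn : IsCoprime n (ℓ : ℤ)) : ((n : ℤ) : Qb)⁻¹ ∈ A := by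
  obtain ⟨a, b, hab⟩ := hn
  have hℓ : A.valuation (ℓ : Qb) < 1 := (A.mem_nonunits_iff).1 hA
  have hb : A.valuation (b : Qb) ≤ 1 := (A.valuation_le_one_iff _).2 (intCast_mem A b)
  have ha : A.valuation (a : Qb) ≤ 1 := (A.valuation_le_one_iff _).2 (intCast_mem A a)
  have hnv : A.valuation (n : Qb) ≤ 1 := (A.valuation_le_one_iff _).2 (intCast_mem A n)
  have hbℓ : A.valuation ((b : Qb) * (ℓ : Qb)) < 1 := by
    rw [map_mul]
    calc A.valuation (b : Qb) * A.valuation (ℓ : Qb) ≤ 1 * A.valuation (ℓ : Qb) :=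
          mul_le_mul' hb le_rfl
      _ = A.valuation (ℓ : Qb) := one_mul _
      _ < 1 := hℓ
  have hone : (a : Qb) * (n : Qb) = 1 - (b : Qb) * (ℓ : Qb) := by
    have h := congrArg (Int.cast : ℤ → Qb) hab
    push_cast at h
    linear_combination h
  have h1 : A.valuation (1 - (b : Qb) * (ℓ : Qb)) = 1 := Valuation.map_one_sub_of_lt _ hbℓ
  have h2 : A.valuation (a : Qb) * A.valuation (n : Qb) = 1 := by
    rw [← map_mul, hone, h1]
  have h3 : A.valuation (n : Qb) = 1 := by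
    apply le_antisymm hnv
    calc (1 : _) = A.valuation (a : Qb) * A.valuation (n : Qb) := h2.symm
      _ ≤ 1 * A.valuation (n : Qb) := mul_le_mul' ha le_rfl
      _ = A.valuation (n : Qb) := one_mul _
  rw [← A.valuation_le_one_iff, map_inv₀, h3, inv_one]

end Consts

/-! ### From the Place statement to the valuation-subring statement -/

/-- If `x - c` has order `1` at every place where it vanishes (for the constants `c ∉ S`), then
`x` satisfies the field `unramified` of `Alg.GoodModel`. -/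
theorem unramified_of_ord (x : Om M) (S : Finset (Om M))
    (h : ∀ c : Qb, algebraMap Qb (Om M) c ∉ S → ∀ v : Place Qb (Om M),
      0 < v.ord (x - algebraMap Qb (Om M) c) → v.ord (x - algebraMap Qb (Om M) c) = 1) :
    ∀ O : ValuationSubring (Om M), (∀ a ∈ Lc M, a ∈ O) → ∀ c ∈ Lc M, c ∉ S →
      x - c ∈ O → (x - c)⁻¹ ∉ O → ∀ t ∈ O, t⁻¹ ∉ O → t * (x - c)⁻¹ ∈ O := by
  intro O hL c hc hcS hxO hxinv t ht htinv
  obtain ⟨c₀, rfl⟩ := hc
  have hK : ∀ a : Qb, algebraMap Qb (Om M) a ∈ O := fun a => hL _ ⟨a, rfl⟩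
  have hO : O ≠ ⊤ := by
    intro htop
    exact hxinv (htop ▸ ValuationSubring.mem_top _)
  obtain ⟨v, rfl⟩ := H804.exists_place_of_valuationSubring_modular M O hK hO
  have hx0 : x - algebraMap Qb (Om M) c₀ ≠ 0 := by
    intro h0
    rw [h0, inv_zero] at hxinv
    exact hxinv (zero_mem _)
  have ht0 : t ≠ 0 := by
    intro h0
    rw [h0, inv_zero] at htinv
    exact htinv (zero_mem _)
  have h1 : 0 ≤ v.ord (x - algebraMap Qb (Om M) c₀) := H117.ord_nonneg_of_mem v hxO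
  have h2 : ¬ 0 ≤ v.ord (x - algebraMap Qb (Om M) c₀)⁻¹ := fun hh =>
    hxinv (H117.mem_of_ord_nonneg v hh)
  rw [v.ord_inv] at h2
  have h3 : 0 ≤ v.ord t := H117.ord_nonneg_of_mem v ht
  have h4 : ¬ 0 ≤ v.ord t⁻¹ := fun hh => htinv (H117.mem_of_ord_nonneg v hh)
  rw [v.ord_inv] at h4
  have h5 := h c₀ hcS v (by omega)
  apply H117.mem_of_ord_nonneg v
  rw [v.ord_mul ht0 (inv_ne_zero hx0), v.ord_inv, h5]
  omega

/-! ### The coordinate `j`, `ℓ ≥ 5` -/

section J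

variable (A : ValuationSubring Qb) (E : IntermediateField ℚ Qb) {ℓ : ℕ}

theorem inv_1728_mem (hℓ : ℓ.Prime) (h5 : 5 ≤ ℓ) (hA : A.LiesOverPrime ℓ) :
    ((1728 : ℤ) : Qb)⁻¹ ∈ A := by
  apply inv_intCast_mem_of_coprime A hA
  have hcop : Nat.Coprime 1728 ℓ := by
    rw [Nat.coprime_comm, Nat.Prime.coprime_iff_not_dvd hℓ]
    intro hdvd
    have h1728 : (1728 : ℕ) = 2 ^ 6 * 3 ^ 3 := by norm_num
    rw [h1728] at hdvd
    rcases (Nat.Prime.dvd_mul hℓ).1 hdvd with h | h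
    · have := Nat.le_of_dvd (by norm_num) (hℓ.dvd_of_dvd_pow h)
      omega
    · have := Nat.le_of_dvd (by norm_num) (hℓ.dvd_of_dvd_pow h)
      omega
  exact_mod_cast (Nat.isCoprime_iff_coprime.2 hcop)

theorem brJ_unramified (S : Finset (Om M)) (hS : ∀ s, s ∈ S ↔ s = 0 ∨ s = 1728) :
    ∀ O : ValuationSubring (Om M), (∀ a ∈ Lc M, a ∈ O) → ∀ c ∈ Lc M, c ∉ S →
      jOm M - c ∈ O → (jOm M - c)⁻¹ ∉ O → ∀ t ∈ O, t⁻¹ ∉ O → t * (jOm M - c)⁻¹ ∈ O := by
  apply unramified_of_ord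
  intro c hcS v hv
  rw [jOm_eq_jF] at hv ⊢
  have h0 : c ≠ 0 := by
    rintro rfl
    exact hcS ((hS _).2 (Or.inl (map_zero _)))
  have h1 : c ≠ 1728 := by
    rintro rfl
    exact hcS ((hS _).2 (Or.inr (map_ofNat _ 1728)))
  exact ord_j_sub_eq_one M c h0 h1 v hv

/-- **G-BR for `x = j`, `ℓ ≥ 5`**: the four fields `S_mem`, `S_distinct`, `S_unit`, `unramified`. -/
theorem brJ (hℓ : ℓ.Prime) (h5 : 5 ≤ ℓ) (hA : A.LiesOverPrime ℓ) (S : Finset (Om M))
    (hS : ∀ s, s ∈ S ↔ s = 0 ∨ s = 1728) :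
    (∀ s ∈ S, s ∈ Rc M A E) ∧
    (∀ s ∈ S, ∀ t ∈ S, s ≠ t → (s - t)⁻¹ ∈ Rc M A E) ∧
    (∀ s ∈ S, s ≠ 0 → s⁻¹ ∈ Rc M A E) ∧
    (∀ O : ValuationSubring (Om M), (∀ a ∈ Lc M, a ∈ O) → ∀ c ∈ Lc M, c ∉ S →
      jOm M - c ∈ O → (jOm M - c)⁻¹ ∉ O → ∀ t ∈ O, t⁻¹ ∉ O → t * (jOm M - c)⁻¹ ∈ O) := by
  have hu : ((1728 : ℤ) : Om M)⁻¹ ∈ Rc M A E :=
    inv_intCast_mem_Rc M A E 1728 (inv_1728_mem A hℓ h5 hA)
  have hcast : ((1728 : ℤ) : Om M) = 1728 := by norm_num
  rw [hcast] at hu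
  refine ⟨?_, ?_, ?_, brJ_unramified M S hS⟩
  · intro s hs
    rcases (hS s).1 hs with rfl | rfl
    · exact zero_mem _
    · have := intCast_mem_Rc M A E 1728
      rwa [hcast] at this
  · intro s hs t ht hst
    rcases (hS s).1 hs with rfl | rfl <;> rcases (hS t).1 ht with rfl | rfl
    · exact absurd rfl hst
    · rw [zero_sub, inv_neg]
      exact neg_mem hu
    · rwa [sub_zero]
    · exact absurd rfl hst
  · intro s hs hs0
    rcases (hS s).1 hs with rfl | rfl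
    · exact absurd rfl hs0
    · exact hu

end J

/-! ### The Hauptmodul `t₂`, `ℓ = 3` -/

section T2

variable (A : ValuationSubring Qb) (E : IntermediateField ℚ Qb)

theorem inv_64_mem (hA : A.LiesOverPrime 3) : ((64 : ℤ) : Qb)⁻¹ ∈ A := by
  apply inv_intCast_mem_of_coprime A hA
  have hcop : Nat.Coprime 64 3 := by norm_num
  exact_mod_cast (Nat.isCoprime_iff_coprime.2 hcop)

theorem brT2_unramified (x : Om M) (hx : jOm M * x ^ 2 = (x + 256) ^ 3) (S : Finset (Om M))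
    (hS : ∀ s, s ∈ S ↔ s = 0 ∨ s = -64) :
    ∀ O : ValuationSubring (Om M), (∀ a ∈ Lc M, a ∈ O) → ∀ c ∈ Lc M, c ∉ S →
      x - c ∈ O → (x - c)⁻¹ ∉ O → ∀ t ∈ O, t⁻¹ ∉ O → t * (x - c)⁻¹ ∈ O := by
  apply unramified_of_ord
  intro c hcS v hv
  rw [jOm_eq_jF] at hx
  have h0 : c ≠ 0 := by
    rintro rfl
    exact hcS ((hS _).2 (Or.inl (map_zero _)))
  have h1 : c ≠ -64 := by
    rintro rfl
    exact hcS ((hS _).2 (Or.inr (by rw [map_neg, map_ofNat])))
  exact ord_t2_sub_eq_one M x hx c h0 h1 v hv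

/-- **G-BR for `x = t₂`, `ℓ = 3`**. -/
theorem brT2 (hA : A.LiesOverPrime 3) (x : Om M) (hx : jOm M * x ^ 2 = (x + 256) ^ 3)
    (S : Finset (Om M)) (hS : ∀ s, s ∈ S ↔ s = 0 ∨ s = -64) :
    (∀ s ∈ S, s ∈ Rc M A E) ∧
    (∀ s ∈ S, ∀ t ∈ S, s ≠ t → (s - t)⁻¹ ∈ Rc M A E) ∧
    (∀ s ∈ S, s ≠ 0 → s⁻¹ ∈ Rc M A E) ∧
    (∀ O : ValuationSubring (Om M), (∀ a ∈ Lc M, a ∈ O) → ∀ c ∈ Lc M, c ∉ S →
      x - c ∈ O → (x - c)⁻¹ ∉ O → ∀ t ∈ O, t⁻¹ ∉ O → t * (x - c)⁻¹ ∈ O) := by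
  have hu : ((64 : ℤ) : Om M)⁻¹ ∈ Rc M A E :=
    inv_intCast_mem_Rc M A E 64 (inv_64_mem A hA)
  have hcast : ((64 : ℤ) : Om M) = 64 := by norm_num
  rw [hcast] at hu
  refine ⟨?_, ?_, ?_, brT2_unramified M x hx S hS⟩
  · intro s hs
    rcases (hS s).1 hs with rfl | rfl
    · exact zero_mem _
    · have := intCast_mem_Rc M A E 64
      rw [hcast] at this
      exact neg_mem this
  · intro s hs t ht hst
    rcases (hS s).1 hs with rfl | rfl <;> rcases (hS t).1 ht with rfl | rfl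
    · exact absurd rfl hst
    · rwa [zero_sub, neg_neg]
    · rw [sub_zero, inv_neg]
      exact neg_mem hu
    · exact absurd rfl hst
  · intro s hs hs0
    rcases (hS s).1 hs with rfl | rfl
    · exact absurd rfl hs0
    · rw [inv_neg]
      exact neg_mem hu

end T2

/-! ### The Hauptmodul `t₃`, `ℓ = 2` -/

section T3

variable (A : ValuationSubring Qb) (E : IntermediateField ℚ Qb)

theorem inv_27_mem (hA : A.LiesOverPrime 2) : ((27 : ℤ) : Qb)⁻¹ ∈ A := by
  apply inv_intCast_mem_of_coprime A hA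
  have hcop : Nat.Coprime 27 2 := by norm_num
  exact_mod_cast (Nat.isCoprime_iff_coprime.2 hcop)

theorem brT3_unramified (x : Om M) (hx : jOm M * x ^ 3 = (x + 27) * (x + 243) ^ 3)
    (S : Finset (Om M)) (hS : ∀ s, s ∈ S ↔ s = 0 ∨ s = -27) :
    ∀ O : ValuationSubring (Om M), (∀ a ∈ Lc M, a ∈ O) → ∀ c ∈ Lc M, c ∉ S →
      x - c ∈ O → (x - c)⁻¹ ∉ O → ∀ t ∈ O, t⁻¹ ∉ O → t * (x - c)⁻¹ ∈ O := by
  apply unramified_of_ord
  intro c hcS v hv
  rw [jOm_eq_jF] at hx
  have h0 : c ≠ 0 := by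
    rintro rfl
    exact hcS ((hS _).2 (Or.inl (map_zero _)))
  have h1 : c ≠ -27 := by
    rintro rfl
    exact hcS ((hS _).2 (Or.inr (by rw [map_neg, map_ofNat])))
  exact ord_t3_sub_eq_one M x hx c h0 h1 v hv

/-- **G-BR for `x = t₃`, `ℓ = 2`**. -/
theorem brT3 (hA : A.LiesOverPrime 2) (x : Om M)
    (hx : jOm M * x ^ 3 = (x + 27) * (x + 243) ^ 3)
    (S : Finset (Om M)) (hS : ∀ s, s ∈ S ↔ s = 0 ∨ s = -27) :
    (∀ s ∈ S, s ∈ Rc M A E) ∧
    (∀ s ∈ S, ∀ t ∈ S, s ≠ t → (s - t)⁻¹ ∈ Rc M A E) ∧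
    (∀ s ∈ S, s ≠ 0 → s⁻¹ ∈ Rc M A E) ∧
    (∀ O : ValuationSubring (Om M), (∀ a ∈ Lc M, a ∈ O) → ∀ c ∈ Lc M, c ∉ S →
      x - c ∈ O → (x - c)⁻¹ ∉ O → ∀ t ∈ O, t⁻¹ ∉ O → t * (x - c)⁻¹ ∈ O) := by
  have hu : ((27 : ℤ) : Om M)⁻¹ ∈ Rc M A E :=
    inv_intCast_mem_Rc M A E 27 (inv_27_mem A hA)
  have hcast : ((27 : ℤ) : Om M) = 27 := by norm_num
  rw [hcast] at hu
  refine ⟨?_, ?_, ?_, brT3_unramified M x hx S hS⟩
  · intro s hs
    rcases (hS s).1 hs with rfl | rfl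
    · exact zero_mem _
    · have := intCast_mem_Rc M A E 27
      rw [hcast] at this
      exact neg_mem this
  · intro s hs t ht hst
    rcases (hS s).1 hs with rfl | rfl <;> rcases (hS t).1 ht with rfl | rfl
    · exact absurd rfl hst
    · rwa [zero_sub, neg_neg]
    · rw [sub_zero, inv_neg]
      exact neg_mem hu
    · exact absurd rfl hst
  · intro s hs hs0
    rcases (hS s).1 hs with rfl | rfl
    · exact absurd rfl hs0
    · rw [inv_neg]
      exact neg_mem hu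

end T3

/-- **G-BR, all admissible coordinates at once**: for every coordinate `x` with branch set `S`
in the sense of `Mod.IsCoordinate`, the four branch fields of `Alg.GoodModel` hold at the concrete
objects, for every intermediate field `E`. -/
theorem br_of_isCoordinate {ℓ : ℕ} [Fact ℓ.Prime] (A : ValuationSubring Qb)
    (hA : A.LiesOverPrime ℓ) (E : IntermediateField ℚ Qb) (x : Om M) (S : Finset (Om M))
    (hx : IsCoordinate M ℓ x S) :
    (∀ s ∈ S, s ∈ Rc M A E) ∧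
    (∀ s ∈ S, ∀ t ∈ S, s ≠ t → (s - t)⁻¹ ∈ Rc M A E) ∧
    (∀ s ∈ S, s ≠ 0 → s⁻¹ ∈ Rc M A E) ∧
    (∀ O : ValuationSubring (Om M), (∀ a ∈ Lc M, a ∈ O) → ∀ c ∈ Lc M, c ∉ S →
      x - c ∈ O → (x - c)⁻¹ ∉ O → ∀ t ∈ O, t⁻¹ ∉ O → t * (x - c)⁻¹ ∈ O) := by
  rcases hx with ⟨h5, rfl, hS⟩ | ⟨⟨h3, hid, hS⟩ | ⟨h2, hid, hS⟩, -⟩
  · exact brJ M A E Fact.out h5 hA S hS
  · subst h3
    exact brT2 M A E hA x hid S hS
  · subst h2
    exact brT3 M A E hA x hid S hS

end Fermat.Agent.S18.H558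

end

end
-- ===== PACK-END S18/H558/PartBr.lean

-- ===== PACK-BEGIN Ribet/H223/HeckeFunCore.lean
section








/-!
# Row 38, WALL-p, leaf HECKE-FUN (helper223), part 2: the characteristic-`p` core

`k` an algebraically closed field (ANY characteristic), `ℓ ∤ N` a prime, the primes dividing
`N ℓ` invertible in `k`, `F = k(j(q^d) : d ∣ N) ⊆ F' = k(j(q^d) : d ∣ N ℓ)`.

* `dvd_ord_norm_of_stable` (general function fields): for two embeddings `α β : F → F'`, `α`
  finite separable, and a set `P` of places of `F` with `P (w|α) → P (w|β)`: if `n ∣ ord_Q h` on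
  `P` then `n ∣ ord_Q (N_α (β h))` on `P`;
* `alphaC`, `betaC` : the two degeneracy maps as `k`-algebra maps;
* `exists_kronNorm_dvd_ord` : `n ∣ ord_Q h` for ALL places `Q` ⇒ `kronNorm ℓ h` is (the series
  of) a nonzero element of `F` with the same property;
* `exists_kronNorm_dvd_ord_of_nonneg` : the same for the NON-CUSPIDAL places (`0 ≤ ord_Q j`);
* `exists_kronNorm_dvd_ord_of_neg` : the same for the CUSPIDAL places (`ord_Q j < 0`).
-/

set_option autoImplicit false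
set_option linter.unusedSectionVars false
set_option linter.style.haveILetI false

noncomputable section

open AlgebraicCurve ModularCurve HahnSeries Polynomial IntermediateField
open Fermat.Agent.S28.H626 Fermat.Agent.S37.H157

namespace Fermat.Agent.Ribet.H223.HF

section General

variable {K F F' : Type*} [Field K] [Field F] [Field F'] [Algebra K F] [Algebra K F']

/-- A `K`-embedding of function fields of one variable is finite (every characteristic; the
proof is helper398's `Lib.FF398.finiteAlong_of_functionField`). -/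
theorem finiteAlong_of_ff (φ : F →ₐ[K] F') (j : F) (hj : Transcendental K j)
    (j' : F') (hj' : Transcendental K j') [FiniteDimensional K⟮j'⟯ F'] :
    FiniteAlong K φ := by
  letI := algebraAlong φ
  show Module.Finite F F'
  have hy : Transcendental K (φ j) := by
    intro h
    exact hj ((isAlgebraic_algHom_iff φ φ.injective).mp h)
  haveI : FiniteDimensional K⟮φ j⟯ F' :=
    Fermat.Agent.S24.FF.finiteDimensional_adjoin_of_transcendental hj' hy
  obtain ⟨S, hS⟩ := (Module.finite_def (R := K⟮φ j⟯) (M := F')).mp inferInstance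
  refine Module.finite_def.mpr ⟨S, ?_⟩
  have hle : K⟮φ j⟯ ≤ φ.fieldRange := by
    rw [adjoin_le_iff]
    rintro _ rfl
    exact ⟨j, rfl⟩
  have key : ∀ x : F', x ∈ Submodule.span K⟮φ j⟯ (S : Set F') →
      x ∈ Submodule.span F (S : Set F') := by
    intro x hx
    induction hx using Submodule.span_induction with
    | mem x hx => exact Submodule.subset_span hx
    | zero => exact zero_mem _
    | add x y _ _ hx hy => exact add_mem hx hy
    | smul e x _ hx =>
      obtain ⟨f, hf⟩ := hle e.2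
      have : e • x = f • x := by
        rw [Algebra.smul_def, Algebra.smul_def]
        show (e : F') * x = φ f * x
        rw [← hf]
        rfl
      rw [this]
      exact Submodule.smul_mem _ _ hx
  rw [eq_top_iff]
  intro x _
  exact key x (by rw [hS]; trivial)

/-- A finite embedding is integral. -/
theorem isIntegral_of_finiteAlong (φ : F →ₐ[K] F') (h : FiniteAlong K φ) :
    φ.toRingHom.IsIntegral := by
  letI := algebraAlong φ
  haveI : Module.Finite F F' := h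
  exact fun x => Algebra.IsIntegral.isIntegral (R := F) x

/-- **Divisibility of the orders of a Hecke norm.**  `α β : F → F'` two embeddings of function
fields, `α` finite separable, all places of `F'` of degree one; `P` a set of places of `F`
stable under the correspondence.  If `n ∣ ord_Q h` for all `Q ∈ P` then
`n ∣ ord_Q (N_α (β h))` for all `Q ∈ P`. -/
theorem dvd_ord_norm_of_stable (α β : F →ₐ[K] F') (hα : FiniteAlong K α)
    (hsep : @Algebra.IsSeparable F F' _ _ (algebraAlong α))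
    (hαi : α.toRingHom.IsIntegral) (hβi : β.toRingHom.IsIntegral)
    (hdeg' : ∀ w : Place K F', w.deg = 1)
    (P : Place K F → Prop)
    (hP : ∀ w : Place K F', P (w.restrictAlong α hαi) → P (w.restrictAlong β hβi))
    (n : ℤ) (h : F) (hh : h ≠ 0) (hdiv : ∀ Q : Place K F, P Q → n ∣ Q.ord h)
    (Q : Place K F) (hQ : P Q) :
    n ∣ Q.ord (@Algebra.norm F F' _ _ (algebraAlong α) (β h)) := by
  letI := algebraAlong α
  haveI := isScalarTower_along α
  haveI : Module.Finite F F' := hα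
  haveI : Algebra.IsSeparable F F' := hsep
  have hfin := Fermat.Agent.S37.H160.SepFF.finite_fibre (F' := F') Q
  have hg : β h ≠ 0 := (map_ne_zero β).mpr hh
  rw [← Fermat.Agent.S37.H160.SepFF.sum_ord_eq_ord_norm Q hdeg' hfin.toFinset
    (fun w => by simp) (β h) hg]
  refine Finset.dvd_sum fun w hw => ?_
  have hw' : w.restrict F = Q := by simpa using hw
  rw [Place.ord_restrictAlong β hβi w h]
  refine Dvd.dvd.mul_left (hdiv _ (hP w ?_)) _
  have : w.restrictAlong α hαi = Q := hw'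
  rw [this]
  exact hQ

/-- A root of a monic two-variable integral polynomial `Φ(y, X)` with `y` in a valuation subring
lies in the valuation subring. -/
theorem mem_valuationSubring_of_ev2 {L : Type*} [Field L] (A : ValuationSubring L)
    {Φ : Polynomial (Polynomial ℤ)} (hΦ : Φ.Monic) {y x : L} (hy : y ∈ A)
    (h : ev2 Φ y x = 0) : x ∈ A := by
  have hint : IsIntegral A x := by
    refine ⟨spec Φ (⟨y, hy⟩ : A), spec_monic hΦ _, ?_⟩
    rw [← Polynomial.eval_map, map_spec]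
    show (spec Φ y).eval x = 0
    rw [eval_spec, h]
  obtain ⟨z, hz⟩ := IsIntegrallyClosed.isIntegral_iff.mp hint
  rw [← hz]
  exact z.2

/-- `0 ≤ ord_{w|φ} f ↔ 0 ≤ ord_w (φ f)`. -/
theorem ord_restrictAlong_nonneg_iff (φ : F →ₐ[K] F') (hφ : φ.toRingHom.IsIntegral)
    (w : Place K F') (f : F) :
    0 ≤ (w.restrictAlong φ hφ).ord f ↔ 0 ≤ w.ord (φ f) := by
  rw [← Fermat.Agent.S24.FF.mem_iff_ord_nonneg, ← Fermat.Agent.S24.FF.mem_iff_ord_nonneg]
  exact Iff.rfl

end General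

section Modular

variable (k : Type*) [Field k] (N ℓ : ℕ) [NeZero N] [NeZero ℓ]

/-- The degeneracy map `α : F → F'` (inclusion) as a `k`-algebra map. -/
def alphaC : ↥(modularFunctionFieldFullC k N) →ₐ[k] ↥(modularFunctionFieldFullC k (N * ℓ)) :=
  IntermediateField.inclusion (full_le_full_mul k N ℓ)

@[simp] theorem coe_alphaC (x : modularFunctionFieldFullC k N) :
    ((alphaC k N ℓ x : modularFunctionFieldFullC k (N * ℓ)) : LaurentSeries k)
      = (x : LaurentSeries k) :=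
  IntermediateField.coe_inclusion _ x

/-- The degeneracy map `β : F → F'`, `y ↦ y(q^ℓ)`, as a `k`-algebra map. -/
def betaC : ↥(modularFunctionFieldFullC k N) →ₐ[k] ↥(modularFunctionFieldFullC k (N * ℓ)) :=
  { betaHom k N ℓ with
    commutes' := fun a => Subtype.ext ((qExpandAlgHomC k ℓ).commutes a) }

@[simp] theorem coe_betaC (x : modularFunctionFieldFullC k N) :
    ((betaC k N ℓ x : modularFunctionFieldFullC k (N * ℓ)) : LaurentSeries k)
      = qExpand k ℓ (x : LaurentSeries k) := rfl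

theorem betaC_apply (x : modularFunctionFieldFullC k N) :
    betaC k N ℓ x = betaHom k N ℓ x := rfl

theorem algebraAlong_alphaC : algebraAlong (alphaC k N ℓ) = algIncl k N ℓ := rfl

variable {k N ℓ}

theorem finiteAlong_alphaC (hchar : ∀ r : ℕ, r.Prime → r ∣ N * ℓ → (r : k) ≠ 0) :
    FiniteAlong k (alphaC k N ℓ) := by
  haveI := Fermat.Agent.S18.H739.finiteDimensional_adjoin_jC k (N * ℓ) hchar
  exact finiteAlong_of_ff _ _ (Fermat.Agent.S18.H739.transcendental_jC k N) _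
    (Fermat.Agent.S18.H739.transcendental_jC k (N * ℓ))

theorem finiteAlong_betaC (hchar : ∀ r : ℕ, r.Prime → r ∣ N * ℓ → (r : k) ≠ 0) :
    FiniteAlong k (betaC k N ℓ) := by
  haveI := Fermat.Agent.S18.H739.finiteDimensional_adjoin_jC k (N * ℓ) hchar
  exact finiteAlong_of_ff _ _ (Fermat.Agent.S18.H739.transcendental_jC k N) _
    (Fermat.Agent.S18.H739.transcendental_jC k (N * ℓ))

theorem isIntegral_alphaC (hchar : ∀ r : ℕ, r.Prime → r ∣ N * ℓ → (r : k) ≠ 0) :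
    (alphaC k N ℓ).toRingHom.IsIntegral :=
  isIntegral_of_finiteAlong _ (finiteAlong_alphaC hchar)

theorem isIntegral_betaC (hchar : ∀ r : ℕ, r.Prime → r ∣ N * ℓ → (r : k) ≠ 0) :
    (betaC k N ℓ).toRingHom.IsIntegral :=
  isIntegral_of_finiteAlong _ (finiteAlong_betaC hchar)

/-- `Φ_ℓ(j, j(q^ℓ)) = 0` inside `F'`. -/
theorem ev2_alphaC_betaC {Φ : Polynomial (Polynomial ℤ)} (hΦ : IsModPoly ℓ Φ) :
    ev2 Φ (alphaC k N ℓ (jIn k N)) (betaC k N ℓ (jIn k N)) = 0 := by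
  apply (algebraMap ↥(modularFunctionFieldFullC k (N * ℓ)) (LaurentSeries k)).injective
  rw [map_ev2, map_zero]
  show ev2 Φ (jqModC k) (jd k ℓ) = 0
  have := ev2_jd_up (k := k) hΦ 1
  rwa [jd_one, jd_congr k (one_mul ℓ)] at this

/-- `Φ_ℓ(j(q^ℓ), j) = 0` inside `F'`. -/
theorem ev2_betaC_alphaC {Φ : Polynomial (Polynomial ℤ)} (hΦ : IsModPoly ℓ Φ) :
    ev2 Φ (betaC k N ℓ (jIn k N)) (alphaC k N ℓ (jIn k N)) = 0 := by
  apply (algebraMap ↥(modularFunctionFieldFullC k (N * ℓ)) (LaurentSeries k)).injective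
  rw [map_ev2, map_zero]
  show ev2 Φ (jd k ℓ) (jqModC k) = 0
  have := ev2_jd_down (k := k) hΦ 1
  rwa [jd_one, jd_congr k (one_mul ℓ)] at this

/-- **The Hecke correspondence preserves the non-cuspidal locus**: at a place `w` of `F'`,
`j` is integral at `w|α` iff it is integral at `w|β`. -/
theorem ord_j_nonneg_alpha_iff_beta (hℓ : ℓ.Prime)
    (hchar : ∀ r : ℕ, r.Prime → r ∣ N * ℓ → (r : k) ≠ 0)
    (w : Place k (modularFunctionFieldFullC k (N * ℓ))) :
    0 ≤ (w.restrictAlong (alphaC k N ℓ) (isIntegral_alphaC hchar)).ord (jIn k N)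
      ↔ 0 ≤ (w.restrictAlong (betaC k N ℓ) (isIntegral_betaC hchar)).ord (jIn k N) := by
  obtain ⟨-, Φ, hΦ⟩ := hasModPolys_of_char k (N * ℓ) hchar ℓ hℓ (Dvd.intro_left N rfl)
  rw [ord_restrictAlong_nonneg_iff, ord_restrictAlong_nonneg_iff,
    ← Fermat.Agent.S24.FF.mem_iff_ord_nonneg, ← Fermat.Agent.S24.FF.mem_iff_ord_nonneg]
  exact ⟨fun h => mem_valuationSubring_of_ev2 _ hΦ.monic h (ev2_alphaC_betaC hΦ),
    fun h => mem_valuationSubring_of_ev2 _ hΦ.monic h (ev2_betaC_alphaC hΦ)⟩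

/-- **HECKE-FUN, characteristic-free core (general stable set of places).** -/
theorem exists_kronNorm_dvd_ord_of_stable [IsAlgClosed k] (hℓ : ℓ.Prime) (hℓN : ¬ ℓ ∣ N)
    (hchar : ∀ r : ℕ, r.Prime → r ∣ N * ℓ → (r : k) ≠ 0)
    (P : Place k (modularFunctionFieldFullC k N) → Prop)
    (hP : ∀ w : Place k (modularFunctionFieldFullC k (N * ℓ)),
      P (w.restrictAlong (alphaC k N ℓ) (isIntegral_alphaC hchar)) →
        P (w.restrictAlong (betaC k N ℓ) (isIntegral_betaC hchar)))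
    (n : ℤ) (h : modularFunctionFieldFullC k N) (hh : h ≠ 0)
    (hdiv : ∀ Q : Place k (modularFunctionFieldFullC k N), P Q → n ∣ Q.ord h) :
    ∃ h' : modularFunctionFieldFullC k N,
      (h' : LaurentSeries k) = Fermat.Agent.S37.H400.kronNorm ℓ (h : LaurentSeries k) ∧
      h' ≠ 0 ∧ ∀ Q : Place k (modularFunctionFieldFullC k N), P Q → n ∣ Q.ord h' := by
  have hℓk : (ℓ : k) ≠ 0 := hchar ℓ hℓ (Dvd.intro_left N rfl)
  haveI : NeZero (ℓ : k) := ⟨hℓk⟩
  obtain ⟨ζ₀, hζ₀⟩ := HasEnoughRootsOfUnity.exists_primitiveRoot k ℓ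
  obtain ⟨ζ, rfl⟩ : ∃ ζ : kˣ, (ζ : k) = ζ₀ := ⟨(hζ₀.isUnit (NeZero.ne ℓ)).unit, rfl⟩
  have hζ : IsPrimitiveRoot ζ ℓ := IsPrimitiveRoot.coe_units_iff.mp hζ₀
  have hfin := finrank_algIncl_of_char k N ℓ hℓ hℓN hchar
  have hsep : @Algebra.IsSeparable _ _ _ _ (algebraAlong (alphaC k N ℓ)) := by
    obtain ⟨-, Φ, hΦ⟩ := hasModPolys_of_char k (N * ℓ) hchar ℓ hℓ (Dvd.intro_left N rfl)
    exact isSeparable_algIncl hℓ hℓN (hasModPolys_of_char k (N * ℓ) hchar) hΦ ζ hζ hfin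
  have hdeg' : ∀ w : Place k (modularFunctionFieldFullC k (N * ℓ)), w.deg = 1 :=
    Fermat.Agent.S18.H383.deg_eq_one_fullC k (N * ℓ) hchar
  refine ⟨@Algebra.norm _ _ _ _ (algebraAlong (alphaC k N ℓ)) (betaC k N ℓ h), ?_, ?_, ?_⟩
  · exact norm_betaHom_eq_kronNorm_of_char hℓ hℓN hchar ζ hζ h
  · letI := algebraAlong (alphaC k N ℓ)
    haveI : Module.Finite ↥(modularFunctionFieldFullC k N)
      ↥(modularFunctionFieldFullC k (N * ℓ)) := finiteAlong_alphaC hchar
    haveI : Module.Free ↥(modularFunctionFieldFullC k N)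
      ↥(modularFunctionFieldFullC k (N * ℓ)) := Module.Free.of_divisionRing _ _
    rw [Algebra.norm_ne_zero_iff]
    exact (map_ne_zero (betaC k N ℓ)).mpr hh
  · exact dvd_ord_norm_of_stable (alphaC k N ℓ) (betaC k N ℓ) (finiteAlong_alphaC hchar) hsep
      (isIntegral_alphaC hchar) (isIntegral_betaC hchar) hdeg' P hP n h hh hdiv

/-- **HECKE-FUN core, all places**: if `n ∣ ord_Q h` at every place `Q` then `kronNorm ℓ h` is
a nonzero element of `F` with the same property. -/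
theorem exists_kronNorm_dvd_ord [IsAlgClosed k] (hℓ : ℓ.Prime) (hℓN : ¬ ℓ ∣ N)
    (hchar : ∀ r : ℕ, r.Prime → r ∣ N * ℓ → (r : k) ≠ 0)
    (n : ℤ) (h : modularFunctionFieldFullC k N) (hh : h ≠ 0)
    (hdiv : ∀ Q : Place k (modularFunctionFieldFullC k N), n ∣ Q.ord h) :
    ∃ h' : modularFunctionFieldFullC k N,
      (h' : LaurentSeries k) = Fermat.Agent.S37.H400.kronNorm ℓ (h : LaurentSeries k) ∧
      h' ≠ 0 ∧ ∀ Q : Place k (modularFunctionFieldFullC k N), n ∣ Q.ord h' := by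
  obtain ⟨h', h1, h2, h3⟩ := exists_kronNorm_dvd_ord_of_stable hℓ hℓN hchar (fun _ => True)
    (fun _ _ => trivial) n h hh (fun Q _ => hdiv Q)
  exact ⟨h', h1, h2, fun Q => h3 Q trivial⟩

/-- **HECKE-FUN core, non-cuspidal places**: if `n ∣ ord_Q h` at every place `Q` with
`0 ≤ ord_Q j` then `kronNorm ℓ h` is a nonzero element of `F` with the same property. -/
theorem exists_kronNorm_dvd_ord_of_nonneg [IsAlgClosed k] (hℓ : ℓ.Prime) (hℓN : ¬ ℓ ∣ N)
    (hchar : ∀ r : ℕ, r.Prime → r ∣ N * ℓ → (r : k) ≠ 0)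
    (n : ℤ) (h : modularFunctionFieldFullC k N) (hh : h ≠ 0)
    (hdiv : ∀ Q : Place k (modularFunctionFieldFullC k N),
      0 ≤ Q.ord (jIn k N) → n ∣ Q.ord h) :
    ∃ h' : modularFunctionFieldFullC k N,
      (h' : LaurentSeries k) = Fermat.Agent.S37.H400.kronNorm ℓ (h : LaurentSeries k) ∧
      h' ≠ 0 ∧ ∀ Q : Place k (modularFunctionFieldFullC k N),
        0 ≤ Q.ord (jIn k N) → n ∣ Q.ord h' :=
  exists_kronNorm_dvd_ord_of_stable hℓ hℓN hchar (fun Q => 0 ≤ Q.ord (jIn k N))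
    (fun w => (ord_j_nonneg_alpha_iff_beta hℓ hchar w).mp) n h hh hdiv

/-- **HECKE-FUN core, cuspidal places**: if `n ∣ ord_Q h` at every place `Q` with
`ord_Q j < 0` then `kronNorm ℓ h` is a nonzero element of `F` with the same property. -/
theorem exists_kronNorm_dvd_ord_of_neg [IsAlgClosed k] (hℓ : ℓ.Prime) (hℓN : ¬ ℓ ∣ N)
    (hchar : ∀ r : ℕ, r.Prime → r ∣ N * ℓ → (r : k) ≠ 0)
    (n : ℤ) (h : modularFunctionFieldFullC k N) (hh : h ≠ 0)
    (hdiv : ∀ Q : Place k (modularFunctionFieldFullC k N),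
      Q.ord (jIn k N) < 0 → n ∣ Q.ord h) :
    ∃ h' : modularFunctionFieldFullC k N,
      (h' : LaurentSeries k) = Fermat.Agent.S37.H400.kronNorm ℓ (h : LaurentSeries k) ∧
      h' ≠ 0 ∧ ∀ Q : Place k (modularFunctionFieldFullC k N),
        Q.ord (jIn k N) < 0 → n ∣ Q.ord h' :=
  exists_kronNorm_dvd_ord_of_stable hℓ hℓN hchar (fun Q => Q.ord (jIn k N) < 0)
    (fun w hw => not_le.mp fun h0 =>
      not_le.mpr hw ((ord_j_nonneg_alpha_iff_beta hℓ hchar w).mpr h0)) n h hh hdiv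

end Modular

end Fermat.Agent.Ribet.H223.HF

end
end
-- ===== PACK-END Ribet/H223/HeckeFunCore.lean

-- ===== PACK-BEGIN Ribet/H403/NodeRelVal.lean
section



/-!
# RIBET row 38, wall-p crux (I6), leaf NODE-V:
# `nodeRelVal_403 : H704.I6.NodeRelValStatement`

The node relation in fraction form with horizontal divisibility in VALUATION form
(`H704.I6.HorDivVal`, `Fermat/Agent/Ribet/H704/I6Inst.lean`).  The valuation form is literally the
hypothesis `hdiv` of `H463.IsNode463.dvd_slope_right`, so this is the proof of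
`H463.nodeRelFrac` without the conversion `hdiv_of_horDivFrac463`.
-/

set_option autoImplicit false

namespace Fermat.Agent.Ribet.H403

open Fermat.Agent.Ribet.H704 Fermat.Agent.Ribet.H463

/-- **NODE-V** (leaf of the I6 package, `Fermat/Agent/Ribet/H704/I6Inst.lean`). -/
theorem nodeRelVal_403 : I6.NodeRelValStatement := by
  intro R K _ _ _ _ _ _ _ _ 𝔭₁ 𝔭₂ π x y hnode m N hm hcop D D' hDD u _ hHor v₁ v₂ s k hv₁ hv₂ hs hk
  have := hnode.prime₁
  have := hnode.prime₂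
  have : IsDiscreteValuationRing (R ⧸ 𝔭₁) := I6_isDVR₁ hnode
  have : IsDiscreteValuationRing (R ⧸ 𝔭₂) := I6_isDVR₂ hnode
  rcases Nat.eq_zero_or_pos N with rfl | hN
  · have hm1 : m = 1 := by simpa using hcop
    subst hm1
    rw [Nat.cast_one]
    exact one_dvd _
  obtain ⟨x', y', n, h463, hx', hy'⟩ := exists_isNode463 hnode hN hDD hk
  obtain ⟨εD, hεD⟩ := ordOn_eq463 hk
  have hNnk : N = n * k :=
    h463.thickness_mul_ord hDD.mul_eq hDD.hD hDD.hD' (ε := εD) (by rw [hx']; exact hεD)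
  have hπ0 := h463.pi_ne_zero
  obtain ⟨v, a, b, i, j, ha, hb, hab, hi, hj, hsij⟩ := hs
  have hvv : v = v₂ := valAt_unique463 h463.pi_mem_right hπ0 ⟨a, b, ha, hb, hab⟩ hv₂
  subst hvv
  obtain ⟨a₁, b₁, ha₁, hb₁, hab₁⟩ := hv₁
  obtain ⟨εa, hεa⟩ := ordOn_eq463 hi
  obtain ⟨εb, hεb⟩ := ordOn_eq463 hj
  have key := h463.dvd_slope_right hm hHor ha₁ hb₁ ha hb hab₁ hab (εa := εa) (εb := εb)
    (by rw [hy']; exact hεa) (by rw [hy']; exact hεb)
  have hcopn : Nat.Coprime m n :=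
    (Nat.Coprime.coprime_dvd_left ⟨k, hNnk⟩ hcop).symm
  have hcop' : IsCoprime (m : ℤ) (n : ℤ) := Nat.isCoprime_iff_coprime.mpr hcopn
  have h3 : (m : ℤ) ∣ n * ((i : ℤ) - j) + v - v₁ := hcop'.dvd_of_dvd_mul_left key
  have e : (N : ℤ) * s - (v₁ - v) * k = k * (n * ((i : ℤ) - j) + v - v₁) := by
    rw [hsij, hNnk]
    push_cast
    ring
  rw [e]
  exact Dvd.dvd.mul_left h3 _

end Fermat.Agent.Ribet.H403

end
-- ===== PACK-END Ribet/H403/NodeRelVal.lean

-- ===== PACK-BEGIN Ribet/H868/TameNode.lean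
section




/-!
# RIBET rows 37/38, TAME package: the tame node relation, purity form (helper868)

`R` a node ring (`H704.I6.IsNode 𝔭₁ 𝔭₂ π x y`), `K = Frac R`, `(D₁, D₂)` a unit pair of exponent
`N > 0` prime to `m`, `f ∈ Kˣ` horizontally `m`-divisible with branch valuations `v₁`, `v₂`.

* `tame_node` : the calibrated function `G = f ^ N · D₁ ^ (v₁ - v₂) · π ^ (- N v₁)` is PURE at the
  node: `G · d ^ m ∈ Rˣ` for some `d ∈ Kˣ` which is a unit on both branches.

Proof: `v₁(G) = v₂(G) = 0`; slope of `G` along `𝔭₂` is `N s₂(f) - (v₁ - v₂) ord₂(D₂)`;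
`ord₂(D₂) = ord₁(D₁)` (`H403.nodeRelExact_403`), so the slope is `≡ 0 mod m` by the node relation
`H403.nodeRelVal_403`; conclude with `H868.nodePure`.

Helpers: `valAt_zpow868`, `slopeAt_zpow868`, calculus of `I6.HorDivVal`.
-/

set_option autoImplicit false
set_option linter.unusedSectionVars false
set_option linter.style.haveILetI false

namespace Fermat.Agent.Ribet.H868

open IsLocalRing Fermat.Agent.Ribet.H704 Fermat.Agent.A2 Fermat.Agent.A2.Alg.H132

section ZPow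

variable {R : Type*} [CommRing R] [IsDomain R] [IsNoetherianRing R] [IsIntegrallyClosed R]
variable {K : Type*} [Field K] [Algebra R K] [IsFractionRing R K]
variable {π ϖ : R} {𝔭 𝔮 : Ideal R}

theorem valAt_zpow868 (h : VertData π 𝔭 𝔮) {u : K} {v : ℤ} (hv : I6.ValAt K 𝔭 π u v) (z : ℤ) :
    I6.ValAt K 𝔭 π (u ^ z) (z * v) := by
  rcases Int.eq_nat_or_neg z with ⟨n, rfl | rfl⟩
  · rw [zpow_natCast]
    exact H132.valAt_pow h hv n
  · rw [zpow_neg, zpow_natCast]
    have := H132.valAt_inv h (H132.valAt_pow h hv n)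
    have e : -((n : ℤ) * v) = -(n : ℤ) * v := by ring
    rwa [e] at this

theorem slopeAt_zpow868 (h : H132.BranchData π 𝔭 𝔮 ϖ) {u : K} {s : ℤ}
    (hs : I6.SlopeAt K 𝔭 π ϖ u s) (z : ℤ) : I6.SlopeAt K 𝔭 π ϖ (u ^ z) (z * s) := by
  rcases Int.eq_nat_or_neg z with ⟨n, rfl | rfl⟩
  · rw [zpow_natCast]
    exact H132.slopeAt_pow h hs n
  · rw [zpow_neg, zpow_natCast]
    have := H132.slopeAt_inv h (H132.slopeAt_pow h hs n)
    have e : -((n : ℤ) * s) = -(n : ℤ) * s := by ring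
    rwa [e] at this

end ZPow

section HorDivValCalc

variable {R : Type*} [CommRing R] {K : Type*} [Field K] [Algebra R K]

/-- Integer powers of a unit of a valuation subring. -/
theorem zpow_mem_of_unit868 (V : ValuationSubring K) {a : K} (ha : a ∈ V) (ha' : a⁻¹ ∈ V)
    (z : ℤ) : a ^ z ∈ V ∧ (a ^ z)⁻¹ ∈ V := by
  rcases Int.eq_nat_or_neg z with ⟨n, rfl | rfl⟩
  · rw [zpow_natCast, ← inv_pow]
    exact ⟨pow_mem ha n, pow_mem ha' n⟩
  · rw [zpow_neg, zpow_natCast, inv_inv, ← inv_pow]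
    exact ⟨pow_mem ha' n, pow_mem ha n⟩

/-- `f ^ N · a ^ z · b ^ z'` is horizontally `m`-divisible when `f` is and `a`, `b` are units at
every horizontal valuation. -/
theorem horDivVal_calibrate868 {π : R} {m : ℕ} {f a b : K} (hf : I6.HorDivVal K π m f)
    (ha : ∀ V : ValuationSubring K, IsDiscreteValuationRing V →
      (∀ r : R, algebraMap R K r ∈ V) → (algebraMap R K π)⁻¹ ∈ V → a ∈ V ∧ a⁻¹ ∈ V)
    (hb : ∀ V : ValuationSubring K, IsDiscreteValuationRing V →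
      (∀ r : R, algebraMap R K r ∈ V) → (algebraMap R K π)⁻¹ ∈ V → b ∈ V ∧ b⁻¹ ∈ V)
    (N : ℕ) (z z' : ℤ) : I6.HorDivVal K π m (f ^ N * a ^ z * b ^ z') := by
  intro V hV hR hπ
  obtain ⟨g, u₀, hu₀, hu₀', hfg⟩ := hf V hV hR hπ
  obtain ⟨ha1, ha2⟩ := ha V hV hR hπ
  obtain ⟨hb1, hb2⟩ := hb V hV hR hπ
  obtain ⟨haz, haz'⟩ := zpow_mem_of_unit868 V ha1 ha2 z
  obtain ⟨hbz, hbz'⟩ := zpow_mem_of_unit868 V hb1 hb2 z'
  refine ⟨g ^ N, u₀ ^ N * a ^ z * b ^ z', ?_, ?_, ?_⟩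
  · exact V.mul_mem _ _ (V.mul_mem _ _ (pow_mem hu₀ N) haz) hbz
  · rw [mul_inv, mul_inv, ← inv_pow]
    exact V.mul_mem _ _ (V.mul_mem _ _ (pow_mem hu₀' N) haz') hbz'
  · rw [hfg]
    ring

end HorDivValCalc

section Main

variable {R K : Type} [CommRing R] [IsDomain R] [IsIntegrallyClosed R] [IsNoetherianRing R]
  [IsLocalRing R] [Field K] [Algebra R K] [IsFractionRing R K]

/-- In a unit pair, the two orders agree: `ord₂ D₂ = ord₁ D₁`. -/
theorem unitPair_ord_symm868 {𝔭₁ 𝔭₂ : Ideal R} {π x y : R} (hN : I6.IsNode 𝔭₁ 𝔭₂ π x y)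
    {N : ℕ} {D₁ D₂ : R} (hNpos : 0 < N) (hDD : I6.IsUnitPair 𝔭₁ 𝔭₂ π D₁ D₂ N)
    {k₁ k₂ : ℕ} (hk₁ : I6.OrdOn 𝔭₁ x D₁ k₁) (hk₂ : I6.OrdOn 𝔭₂ y D₂ k₂) : k₂ = k₁ := by
  have h1 : (1 : R) ∉ 𝔭₁ := fun h => hN.prime₁.ne_top ((Ideal.eq_top_iff_one _).2 h)
  have hnh : I6.NoHorZero π D₂ := by
    intro 𝔓 h𝔓 hD
    have : π ^ N ∈ 𝔓 := by
      rw [← hDD.mul_eq]
      exact 𝔓.mul_mem_left _ hD
    exact h𝔓.mem_of_pow_mem N this
  have := H403.nodeRelExact_403 R 𝔭₁ 𝔭₂ π x y hN N D₁ D₂ hNpos hDD D₂ 1 D₁ N hDD.hD' h1 hDD.hD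
    (by rw [mul_comm, hDD.mul_eq, mul_one]) hnh k₂ k₁ hk₂ hk₁
  exact Nat.eq_of_mul_eq_mul_left hNpos this

/-- **TAME node relation, purity form.** -/
theorem tame_node {𝔭₁ 𝔭₂ : Ideal R} {π x y : R} (hN : I6.IsNode 𝔭₁ 𝔭₂ π x y)
    {N : ℕ} {D₁ D₂ : R} (hNpos : 0 < N) (hDD : I6.IsUnitPair 𝔭₁ 𝔭₂ π D₁ D₂ N)
    {m : ℕ} (hm : m ≠ 0) (hcop : Nat.Coprime N m)
    {f : K} (hf : f ≠ 0) (hdiv : I6.HorDivVal K π m f)
    {v₁ v₂ : ℤ} (hv₁ : I6.ValAt K 𝔭₁ π f v₁) (hv₂ : I6.ValAt K 𝔭₂ π f v₂) :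
    ∃ (d : K) (ε : Rˣ), d ≠ 0 ∧
      (f ^ N * (algebraMap R K D₁) ^ (v₁ - v₂) * (algebraMap R K π) ^ (-(N : ℤ) * v₁)) * d ^ m
        = algebraMap R K (ε : R) ∧
      I6.ValAt K 𝔭₁ π d 0 ∧ I6.ValAt K 𝔭₂ π d 0 := by
  have hb₁ := H132.branchData_left hN
  have hb₂ := H132.branchData_right hN
  have hπ0 : π ≠ 0 := H132.isNode_pi_ne_zero hN
  have hπK : algebraMap R K π ≠ 0 := fun h =>
    hπ0 (IsFractionRing.injective R K (by rw [h, map_zero]))
  have h1₁ : (1 : R) ∉ 𝔭₁ := fun h => hN.prime₁.ne_top ((Ideal.eq_top_iff_one _).2 h)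
  have h1₂ : (1 : R) ∉ 𝔭₂ := fun h => hN.prime₂.ne_top ((Ideal.eq_top_iff_one _).2 h)
  obtain ⟨s, hs⟩ := H132.exists_slopeAt (K := K) hb₂ hf
  obtain ⟨k₁, hk₁⟩ := hN.unif₁ D₁ hDD.hD
  obtain ⟨k₂, hk₂⟩ := hN.unif₂ D₂ hDD.hD'
  have hk : k₂ = k₁ := unitPair_ord_symm868 hN hNpos hDD hk₁ hk₂
  have hrel := H403.nodeRelVal_403 R K 𝔭₁ 𝔭₂ π x y hN m N hm hcop D₁ D₂ hDD f hf hdiv
    v₁ v₂ s k₁ hv₁ hv₂ hs hk₁
  -- the data of `D₁` and `π`
  have hDDK : algebraMap R K D₁ * algebraMap R K D₂ = (algebraMap R K π) ^ (N : ℤ) * 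
      algebraMap R K 1 := by
    rw [← map_mul, hDD.mul_eq, map_pow, map_one, mul_one, zpow_natCast]
  have hD₁v₁ : I6.ValAt K 𝔭₁ π (algebraMap R K D₁) 0 := H132.valAt_of_notMem hb₁.vert hDD.hD
  have hD₁v₂ : I6.ValAt K 𝔭₂ π (algebraMap R K D₁) N := ⟨1, D₂, h1₂, hDD.hD', hDDK⟩
  have hD₁s : I6.SlopeAt K 𝔭₂ π y (algebraMap R K D₁) (-(k₂ : ℤ)) :=
    ⟨N, 1, D₂, 0, k₂, h1₂, hDD.hD', hDDK, H132.ordOn_one, hk₂, by simp⟩
  have hπv₁ : I6.ValAt K 𝔭₁ π (algebraMap R K π) 1 := H132.valAt_pi hb₁.vert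
  have hπv₂ : I6.ValAt K 𝔭₂ π (algebraMap R K π) 1 := H132.valAt_pi hb₂.vert
  have hπs : I6.SlopeAt K 𝔭₂ π y (algebraMap R K π) 0 := H132.slopeAt_pi hb₂
  set G : K := f ^ N * (algebraMap R K D₁) ^ (v₁ - v₂) * (algebraMap R K π) ^ (-(N : ℤ) * v₁)
    with hG
  have hG₁ : I6.ValAt K 𝔭₁ π G 0 := by
    have := H132.valAt_mul hb₁.vert (H132.valAt_mul hb₁.vert (H132.valAt_pow hb₁.vert hv₁ N)
      (valAt_zpow868 hb₁.vert hD₁v₁ (v₁ - v₂))) (valAt_zpow868 hb₁.vert hπv₁ (-(N : ℤ) * v₁))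
    have e : (N : ℤ) * v₁ + (v₁ - v₂) * 0 + -(N : ℤ) * v₁ * 1 = 0 := by ring
    rwa [e] at this
  have hG₂ : I6.ValAt K 𝔭₂ π G 0 := by
    have := H132.valAt_mul hb₂.vert (H132.valAt_mul hb₂.vert (H132.valAt_pow hb₂.vert hv₂ N)
      (valAt_zpow868 hb₂.vert hD₁v₂ (v₁ - v₂))) (valAt_zpow868 hb₂.vert hπv₂ (-(N : ℤ) * v₁))
    have e : (N : ℤ) * v₂ + (v₁ - v₂) * N + -(N : ℤ) * v₁ * 1 = 0 := by ring
    rwa [e] at this
  have hGs : I6.SlopeAt K 𝔭₂ π y G
      ((N : ℤ) * s + (v₁ - v₂) * (-(k₂ : ℤ)) + -(N : ℤ) * v₁ * 0) :=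
    H132.slopeAt_mul hb₂ (H132.slopeAt_mul hb₂ (H132.slopeAt_pow hb₂ hs N)
      (slopeAt_zpow868 hb₂ hD₁s (v₁ - v₂))) (slopeAt_zpow868 hb₂ hπs (-(N : ℤ) * v₁))
  have hGdvd : (m : ℤ) ∣ (N : ℤ) * s + (v₁ - v₂) * (-(k₂ : ℤ)) + -(N : ℤ) * v₁ * 0 := by
    have e : (N : ℤ) * s + (v₁ - v₂) * (-(k₂ : ℤ)) + -(N : ℤ) * v₁ * 0
        = (N : ℤ) * s - (v₁ - v₂) * k₁ := by rw [hk]; ring
    rw [e]
    exact hrel
  have hGdiv : I6.HorDivVal K π m G := by
    refine horDivVal_calibrate868 hdiv ?_ ?_ N _ _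
    · intro V _ hR hπ
      refine ⟨hR D₁, ?_⟩
      have hD₂K : algebraMap R K D₂ ≠ 0 := by
        intro h0
        have : (algebraMap R K π) ^ N = 0 := by
          rw [← map_pow, ← hDD.mul_eq, map_mul, h0, mul_zero]
        exact hπK (pow_eq_zero_iff (Nat.pos_iff_ne_zero.mp hNpos) |>.mp this)
      have hD₁K : algebraMap R K D₁ ≠ 0 := by
        intro h0
        have : (algebraMap R K π) ^ N = 0 := by
          rw [← map_pow, ← hDD.mul_eq, map_mul, h0, zero_mul]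
        exact hπK (pow_eq_zero_iff (Nat.pos_iff_ne_zero.mp hNpos) |>.mp this)
      have e : (algebraMap R K D₁)⁻¹ = algebraMap R K D₂ * ((algebraMap R K π)⁻¹) ^ N := by
        have h2 : algebraMap R K D₁ * algebraMap R K D₂ = (algebraMap R K π) ^ N := by
          rw [← map_mul, hDD.mul_eq, map_pow]
        rw [inv_pow, ← h2]
        field_simp
      rw [e]
      exact V.mul_mem _ _ (hR D₂) (pow_mem hπ N)
    · intro V _ hR hπ
      exact ⟨hR π, hπ⟩
  exact nodePure R K 𝔭₁ 𝔭₂ π x y hN N D₁ D₂ hNpos hDD m hm G hGdiv hG₁ hG₂ _ hGs hGdvd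

end Main

end Fermat.Agent.Ribet.H868

end
-- ===== PACK-END Ribet/H868/TameNode.lean

-- ===== PACK-BEGIN A2/Alg/H609/PuritySmooth.lean
section



/-!
# WALL A2 / ALG — leaf P-S `purity_smooth` (helper609)

`puritySmoothLeaf : Alg.H34.PuritySmoothLeaf`, VERBATIM the leaf of the assembly
`Alg.H34.algSS_of_leaves`.

Proof.  The closed point `n ∋ w` lies on exactly one component `p` (`p₁ p₂ ⊆ (w) ⊆ n`).
* If `n = p` (the component is a closed point), `u` itself is a unit at `n` and `d = 1` works.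
* Otherwise `A2.H609.exists_pureAt_smooth`: in `B_n` the component is principal, generated by `w`,
  with quotient a discrete valuation ring; purity there gives `u b ^ m = ε f ^ m`, and
  `d₀ = b / f` is corrected at the other component `p'` by a power of an element
  `g ∈ p' ∖ n` with `g = w × unit` at `p'`.
-/

set_option autoImplicit false

namespace Fermat.Agent.A2.Alg.H609

open Fermat.Agent.A2 Fermat.Agent.A2.Alg

section Smooth

variable {R E F : Type*} [CommRing R] [IsDomain R] [IsDiscreteValuationRing R]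
  [Field E] [CharZero E] [Algebra R E] [IsFractionRing R E]
  [Field F] [Algebra E F] [Algebra R F] [IsScalarTower R E F]

omit [IsDomain R] [IsDiscreteValuationRing R] [Field E] [CharZero E] [Algebra R E]
  [IsFractionRing R E] [Algebra E F] [IsScalarTower R E F] in
/-- A function with constant unit residue on the component `p` is a unit at `p`. -/
theorem locUnit_of_constAt (B : Subalgebra R F) (p : Ideal B) (hp : p.IsPrime) (u : F)
    (h : ConstAt B p u) : LocUnit B p u := by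
  obtain ⟨c, hc, a, b, hb, hab, hu⟩ := h
  refine ⟨a, b, fun ha => ?_, hb, hu⟩
  have h3 : algebraMap R B c * b ∈ p := by
    have : algebraMap R B c * b = a - (a - algebraMap R B c * b) := by ring
    rw [this]
    exact p.sub_mem ha hab
  rcases hp.mem_or_mem h3 with h4 | h4
  · exact hp.ne_top (Ideal.eq_top_of_isUnit_mem p h4 (hc.map _))
  · exact hb h4

omit [IsDomain R] [IsDiscreteValuationRing R] [Field E] [CharZero E] [Algebra R E]
  [IsFractionRing R E] [Algebra E F] [IsScalarTower R E F] in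
/-- `1` is a unit at every prime. -/
theorem locUnit_one (B : Subalgebra R F) (p : Ideal B) (hp : p.IsPrime) :
    LocUnit B p (1 : F) :=
  ⟨1, 1, fun h => hp.ne_top ((Ideal.eq_top_iff_one p).2 h),
    fun h => hp.ne_top ((Ideal.eq_top_iff_one p).2 h), by simp⟩

/-- **Leaf P-S**, universe polymorphic. -/
theorem purity_smooth (m : ℕ) (hm : 0 < m)
    (w : R) (x : F) (B : Subalgebra R F) (hB : ChartCtx E w x B)
    (c : SSChart w B)
    (u : F) (hdiv : DivisibleDiv E m u) (hs : IsSplit B c u)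
    (n : Ideal B) (hn : n.IsPrime) (hwn : algebraMap R B w ∈ n)
    (h1 : ¬ (c.p₁ ≤ n ∧ c.p₂ ≤ n)) : PureAt B c m u n := by
  obtain ⟨hnoeth, hic, hfrac⟩ := H34.chart_instances' w x B hB
  have hp₁ : c.p₁.IsPrime := c.prime₁
  have hp₂ : c.p₂.IsPrime := c.prime₂
  have hn₁ : IsIntegrallyClosed (B ⧸ c.p₁) := c.normal₁
  have hn₂ : IsIntegrallyClosed (B ⧸ c.p₂) := c.normal₂
  have hw : algebraMap R B w ∈ c.p₁ ⊓ c.p₂ := by
    rw [c.inf_eq]
    exact Ideal.mem_span_singleton_self _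
  have hd₁ : IsDedekindDomain (B ⧸ c.p₁) := isDedekindDomain_quotient_chart w x B hB c.p₁ hw.1
  have hd₂ : IsDedekindDomain (B ⧸ c.p₂) := isDedekindDomain_quotient_chart w x B hB c.p₂ hw.2
  have hor : c.p₁ ≤ n ∨ c.p₂ ≤ n := by
    have hle : c.p₁ * c.p₂ ≤ n := by
      refine le_trans Ideal.mul_le_inf ?_
      rw [c.inf_eq, Ideal.span_le, Set.singleton_subset_iff]
      exact hwn
    exact (Ideal.IsPrime.mul_le hn).1 hle
  rcases hor with h | h
  · have h2 : ¬ c.p₂ ≤ n := fun h' => h1 ⟨h, h'⟩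
    by_cases hne : c.p₁ = n
    · refine ⟨1, one_ne_zero, ?_, locUnit_one B c.p₁ hp₁, locUnit_one B c.p₂ hp₂⟩
      rw [one_pow, mul_one, ← hne]
      exact locUnit_of_constAt B c.p₁ hp₁ u hs.1
    · exact Fermat.Agent.A2.H609.exists_pureAt_smooth (B := B) (F := F) hm.ne' c.p₁ c.p₂ n
        c.inf_eq c.not_le₁₂ c.not_le₂₁ h hne h2 u
        (hdiv_of_divisibleDiv w hB.hw B m u hdiv) (hs_of_constAt B c.p₁ u hs.1)
  · have h2 : ¬ c.p₁ ≤ n := fun h' => h1 ⟨h', h⟩
    by_cases hne : c.p₂ = n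
    · refine ⟨1, one_ne_zero, ?_, locUnit_one B c.p₁ hp₁, locUnit_one B c.p₂ hp₂⟩
      rw [one_pow, mul_one, ← hne]
      exact locUnit_of_constAt B c.p₂ hp₂ u hs.2
    · have hinf : c.p₂ ⊓ c.p₁ = Ideal.span {algebraMap R B w} := by
        rw [inf_comm]
        exact c.inf_eq
      obtain ⟨d, hd, hdn, hd₂', hd₁'⟩ :=
        Fermat.Agent.A2.H609.exists_pureAt_smooth (B := B) (F := F) hm.ne' c.p₂ c.p₁ n
          hinf c.not_le₂₁ c.not_le₁₂ h hne h2 u
          (hdiv_of_divisibleDiv w hB.hw B m u hdiv) (hs_of_constAt B c.p₂ u hs.2)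
      exact ⟨d, hd, hdn, hd₁', hd₂'⟩

end Smooth

/-- **Leaf P-S** `purity_smooth`, VERBATIM (`Alg.H34.PuritySmoothLeaf`). -/
theorem puritySmoothLeaf : H34.PuritySmoothLeaf := by
  intro R E F _ _ _ _ _ _ _ _ _ _ _ _ _ q m _ _ hm _ w x B hB c _ u _ hdiv hs n hn hwn h1
  exact purity_smooth m hm w x B hB c u hdiv hs n hn.isPrime hwn h1

/-- Purity at every closed point of the special fibre of a chart (both leaves). -/
theorem pureAt_of_isSplit {R E F : Type} [CommRing R] [IsDomain R] [IsDiscreteValuationRing R]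
    [Field E] [CharZero E] [Algebra R E] [IsFractionRing R E]
    [Field F] [Algebra E F] [Algebra R F] [IsScalarTower R E F]
    (m : ℕ) (hm : 0 < m)
    (w : R) (x : F) (B : Subalgebra R F) (hB : ChartCtx E w x B)
    (c : SSChart w B)
    (u : F) (hdiv : DivisibleDiv E m u) (hs : IsSplit B c u)
    (n : Ideal B) (hn : n.IsPrime) (hwn : algebraMap R B w ∈ n) : PureAt B c m u n := by
  by_cases h1 : c.p₁ ≤ n ∧ c.p₂ ≤ n
  · exact purity_node m hm w x B hB c u hdiv hs n hn h1.1 h1.2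
  · exact purity_smooth m hm w x B hB c u hdiv hs n hn hwn h1

end Fermat.Agent.A2.Alg.H609

end
-- ===== PACK-END A2/Alg/H609/PuritySmooth.lean

-- ===== PACK-BEGIN Ribet/H644/SmoothDiv.lean
section


/-!
# RIBET wall-p, W-EIS leaf CUSP — local core: purity at a smooth point WITHOUT (H2)  (helper644)

`A2.H609.exists_unit_mul_pow_of_smooth` proves `u = ε f ^ m` at a smooth point of the special
fibre from (H1) `m ∣ ord_𝔓 u` at the horizontal primes AND (H2) `ū` is a unit times an `m`-th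
power on the branch.  In wall A2 (H2) was free (constant residue).  At the cusps of the wall at
`p` the residue of a Kummer generator is NOT constant, and (H2) is exactly what has to be proved.

Here: **(H1) ⟹ (H2)** at a smooth point, by the multiplicity identity
`ℓ(R/(u, π)) = m • ℓ(R/(I₁ + (π)))` of `A2.H609` and `ℓ(R/(u, π)) = ord ū`.

* `exists_associated_pow_of_smooth`  : (H1) ⟹ (H2)   (local ring);
* `dvd_of_mk_eq_unit_mul_pow`        : the same as `m ∣ N` when `ū = ε x̄ ^ N`;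
* `exists_unit_mul_pow_of_smooth_h1` : (H1) ⟹ `u = ε f ^ m`   (local ring);
* `exists_pureAt_smooth_of_unitAt`   : chart form, the strengthening of
  `A2.H609.exists_pureAt_smooth` with `hs` (constant residue on `p`) replaced by
  "`u` is a unit at `p`";
* `pureAt_smooth_of_locUnit`         : the same in the vocabulary of `A2.Alg` (`ChartCtx`,
  `SSChart`, `DivisibleDiv`, `LocUnit`, `PureAt`): the strengthening of
  `A2.Alg.H609.purity_smooth` with `IsSplit` replaced by `LocUnit` on the component through `n`.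

Mathlib + landed `A2.H609`, `A2.Alg.H609` only.
-/

set_option autoImplicit false

namespace Fermat.Agent.Ribet.H644

open Ideal Fermat.Agent.A2.H609 Fermat.Agent.A2.H849

section LocalRing

variable {R : Type*} [CommRing R] [IsDomain R] [IsIntegrallyClosed R] [IsNoetherianRing R]
  [IsLocalRing R]

/-- At a smooth point, (H1) forces the order of `ū` on the branch to be divisible by `m`. -/
theorem dvd_of_mk_eq_unit_mul_pow {u π x : R} {m N : ℕ} (hm : m ≠ 0) (hπ0 : π ≠ 0)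
    (𝔭 : Ideal R) [𝔭.IsPrime] [IsDiscreteValuationRing (R ⧸ 𝔭)] (h𝔭 : 𝔭 = Ideal.span {π})
    (hu : u ∉ 𝔭)
    (H1 : ∀ 𝔓 ∈ (Ideal.span {u}).minimalPrimes, π ∉ 𝔓 → ∃ f r : R, r ∉ 𝔓 ∧ f ^ m = u * r)
    (hx : Irreducible (Ideal.Quotient.mk 𝔭 x)) {ε : (R ⧸ 𝔭)ˣ}
    (hε : Ideal.Quotient.mk 𝔭 u = ε * (Ideal.Quotient.mk 𝔭 x) ^ N) : m ∣ N := by
  have hπ𝔭 : π ∈ 𝔭 := by
    rw [h𝔭]
    exact Ideal.mem_span_singleton_self π
  have h𝔭𝔪 : 𝔭 ≤ IsLocalRing.maximalIdeal R :=
    IsLocalRing.le_maximalIdeal (Ideal.IsPrime.ne_top inferInstance)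
  have hu0 : u ≠ 0 := by
    rintro rfl
    exact hu 𝔭.zero_mem
  have h𝔪 := maximalIdeal_le_span_sup 𝔭 hx
  have hreg : ∀ z : R, π ∣ u * z → π ∣ z := by
    intro z hz
    have h1 : u * z ∈ 𝔭 := by
      rw [h𝔭]
      exact Ideal.mem_span_singleton.mpr hz
    rcases Ideal.IsPrime.mem_or_mem inferInstance h1 with h | h
    · exact absurd h hu
    · rw [h𝔭] at h
      exact Ideal.mem_span_singleton.mp h
  have huπ : ∀ 𝔮 : Ideal R, 𝔮.IsPrime → u ∈ 𝔮 → π ∈ 𝔮 →
      𝔮 = IsLocalRing.maximalIdeal R := by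
    intro 𝔮 h𝔮 hu𝔮 hπ𝔮
    have hle : 𝔭 ≤ 𝔮 := by
      rw [h𝔭, Ideal.span_singleton_le_iff_mem]
      exact hπ𝔮
    have hx𝔮 : x ∈ 𝔮 := mem_of_le_of_mk_eq 𝔭 hε h𝔮 hle hu𝔮
    refine le_antisymm (IsLocalRing.le_maximalIdeal h𝔮.ne_top) (h𝔪.trans ?_)
    exact sup_le ((Ideal.span_singleton_le_iff_mem _).mpr hx𝔮) hle
  have H1' : ∀ 𝔓 : Ideal R, 𝔓.IsPrime → u ∈ 𝔓 → π ∉ 𝔓 →
      ∃ f r : R, r ∉ 𝔓 ∧ f ^ m = u * r := fun 𝔓 h𝔓 hu𝔓 hπ𝔓 =>
    H1 𝔓 (mem_minimalPrimes_of_mem_of_notMem hu0 (h𝔭𝔪 hπ𝔭) huπ h𝔓 hu𝔓 hπ𝔓) hπ𝔓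
  obtain ⟨t, r, k, ht, hk⟩ := exists_generator hm hu0 (h𝔭𝔪 hπ𝔭) huπ H1'
  -- `(u, π) = (x ^ N) + 𝔭`
  have hideal : Ideal.span {u, π} = Ideal.span {x ^ N} ⊔ 𝔭 := by
    apply le_antisymm
    · rw [Ideal.span_le]
      rintro z (rfl | rfl)
      · obtain ⟨e₀, he₀⟩ := Ideal.Quotient.mk_surjective ((ε : (R ⧸ 𝔭)ˣ) : R ⧸ 𝔭)
        have h1 : z - e₀ * x ^ N ∈ 𝔭 := by
          rw [← Ideal.Quotient.eq, map_mul, map_pow, he₀, hε]
        have h2 : z = x ^ N * e₀ + (z - e₀ * x ^ N) := by ring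
        change z ∈ Ideal.span {x ^ N} ⊔ 𝔭
        rw [h2]
        exact Ideal.add_mem _
          (Ideal.mem_sup_left (Ideal.mem_span_singleton.mpr (Dvd.intro e₀ rfl)))
          (Ideal.mem_sup_right h1)
      · exact Ideal.mem_sup_right hπ𝔭
    · refine sup_le ?_ ?_
      · rw [Ideal.span_singleton_le_iff_mem]
        obtain ⟨e, he⟩ := exists_pow_sub_mul_mem 𝔭 hε
        rw [h𝔭, Ideal.mem_span_singleton] at he
        obtain ⟨c, hc⟩ := he
        have h : x ^ N = e * u + c * π := by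
          have : x ^ N = (x ^ N - u * e) + u * e := by ring
          rw [this, hc]
          ring
        rw [h]
        exact Ideal.add_mem _
          (Ideal.mul_mem_left _ _ (Ideal.subset_span (by simp)))
          (Ideal.mul_mem_left _ _ (Ideal.subset_span (by simp)))
      · rw [h𝔭, Ideal.span_singleton_le_iff_mem]
        exact Ideal.subset_span (by simp)
  have hlen : relLen (Ideal.span {u, π}) (⊤ : Ideal R) = (N : ℕ∞) := by
    rw [hideal]
    exact relLen_branch_pow 𝔭 hx N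
  have hfin : relLen (Ideal.span {u, π}) (⊤ : Ideal R) ≠ ⊤ := by
    rw [hlen]
    exact ENat.natCast_ne_top N
  have h2 := relLen_span_pair_eq_nsmul (hm := hm) hu0 hπ0 hreg ht hk hfin
  rw [hlen, nsmul_eq_mul] at h2
  -- the colength is finite
  cases hc : relLen (rootIdeal u m hm 1 ⊔ Ideal.span {π}) (⊤ : Ideal R) with
  | top =>
    rw [hc] at h2
    have hm' : (m : ℕ∞) ≠ 0 := by exact_mod_cast hm
    rw [ENat.mul_top hm'] at h2
    exact absurd h2 (ENat.natCast_ne_top N)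
  | coe c =>
    rw [hc] at h2
    have h3 : N = m * c := by exact_mod_cast h2
    exact ⟨c, h3⟩

/-- **(H1) ⟹ (H2) at a smooth point of the special fibre.** -/
theorem exists_associated_pow_of_smooth {u π : R} {m : ℕ} (hm : m ≠ 0) (hπ0 : π ≠ 0)
    (𝔭 : Ideal R) [𝔭.IsPrime] [IsDiscreteValuationRing (R ⧸ 𝔭)] (h𝔭 : 𝔭 = Ideal.span {π})
    (hu : u ∉ 𝔭)
    (H1 : ∀ 𝔓 ∈ (Ideal.span {u}).minimalPrimes, π ∉ 𝔓 → ∃ f r : R, r ∉ 𝔓 ∧ f ^ m = u * r) :
    ∃ v : R ⧸ 𝔭, Associated (v ^ m) (Ideal.Quotient.mk 𝔭 u) := by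
  obtain ⟨ϖ, hϖ⟩ := IsDiscreteValuationRing.exists_irreducible (R ⧸ 𝔭)
  obtain ⟨x, rfl⟩ := Ideal.Quotient.mk_surjective ϖ
  have hu0 : Ideal.Quotient.mk 𝔭 u ≠ 0 := by
    rwa [Ne, Ideal.Quotient.eq_zero_iff_mem]
  obtain ⟨N, hN⟩ := IsDiscreteValuationRing.associated_pow_irreducible hu0 hϖ
  obtain ⟨ε, hε⟩ := hN.symm
  have hε' : Ideal.Quotient.mk 𝔭 u = ε * (Ideal.Quotient.mk 𝔭 x) ^ N := by
    rw [← hε, mul_comm]
  obtain ⟨c, rfl⟩ := dvd_of_mk_eq_unit_mul_pow hm hπ0 𝔭 h𝔭 hu H1 hϖ hε'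
  refine ⟨(Ideal.Quotient.mk 𝔭 x) ^ c, ?_⟩
  rw [← pow_mul, mul_comm c m]
  exact ⟨ε, by rw [hε', mul_comm]⟩

/-- **Purity at a smooth point of the special fibre from (H1) alone.** -/
theorem exists_unit_mul_pow_of_smooth_h1 {u π : R} {m : ℕ} (hm : m ≠ 0) (hπ0 : π ≠ 0)
    (𝔭 : Ideal R) [𝔭.IsPrime] [IsDiscreteValuationRing (R ⧸ 𝔭)] (h𝔭 : 𝔭 = Ideal.span {π})
    (hu : u ∉ 𝔭)
    (H1 : ∀ 𝔓 ∈ (Ideal.span {u}).minimalPrimes, π ∉ 𝔓 → ∃ f r : R, r ∉ 𝔓 ∧ f ^ m = u * r) :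
    ∃ (f : R) (ε : Rˣ), u = ε * f ^ m :=
  exists_unit_mul_pow_of_smooth_min hm hπ0 𝔭 h𝔭 hu H1
    (exists_associated_pow_of_smooth hm hπ0 𝔭 h𝔭 hu H1)

end LocalRing

section Chart

variable {B : Type*} [CommRing B] [IsDomain B] [IsNoetherianRing B] [IsIntegrallyClosed B]
variable {F : Type*} [Field F] [Algebra B F] [IsFractionRing B F]

/-- **Purity at a smooth point of a semistable chart, for a function which is only assumed to be
a UNIT on the component through the point** (no hypothesis on its residue).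
`n` a closed point on the component `p` and not on the component `p'`, `p ≠ n`. -/
theorem exists_pureAt_smooth_of_unitAt {w : B} {m : ℕ} (hm : m ≠ 0)
    (p p' n : Ideal B) [p.IsPrime] [p'.IsPrime] [n.IsPrime]
    [IsDedekindDomain (B ⧸ p)]
    (hinf : p ⊓ p' = Ideal.span {w}) (h₁₂ : ¬ p ≤ p') (h₂₁ : ¬ p' ≤ p)
    (h₁ : p ≤ n) (hne : p ≠ n) (h₂ : ¬ p' ≤ n)
    (u : F)
    (hdiv : ∀ V : ValuationSubring F, IsDiscreteValuationRing V →
      (∀ b : B, algebraMap B F b ∈ V) → (algebraMap B F w)⁻¹ ∈ V →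
      ∃ h u₀ : F, u₀ ∈ V ∧ u₀⁻¹ ∈ V ∧ u = u₀ * h ^ m)
    (hs : UnitAt p u) :
    ∃ d : F, d ≠ 0 ∧
      (∃ a b : B, a ∉ n ∧ b ∉ n ∧ u * d ^ m * algebraMap B F b = algebraMap B F a) ∧
      (∃ a b : B, a ∉ p ∧ b ∉ p ∧ d * algebraMap B F b = algebraMap B F a) ∧
      (∃ a b : B, a ∉ p' ∧ b ∉ p' ∧ d * algebraMap B F b = algebraMap B F a) := by
  have hinj : Function.Injective (algebraMap B F) := IsFractionRing.injective B F
  obtain ⟨a, b, ha, hb, hub⟩ := hs
  set u' : B := a * b ^ (m - 1) with hu'def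
  have hu'F : algebraMap B F u' = u * algebraMap B F b ^ m := by
    obtain ⟨k, hk⟩ := Nat.exists_eq_succ_of_ne_zero hm
    have hk1 : m - 1 = k := by omega
    have hk2 : m = k + 1 := by omega
    rw [hu'def, hk1, hk2, map_mul, map_pow, ← hub, pow_succ]
    ring
  have hu'n : u' ∉ p := by
    intro h
    rcases Ideal.IsPrime.mem_or_mem inferInstance h with h3 | h3
    · exact ha h3
    · exact hb (Ideal.IsPrime.mem_of_pow_mem inferInstance _ h3)
  have hbF : algebraMap B F b ≠ 0 := by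
    intro h0
    apply hb
    rw [hinj (by rw [h0, map_zero] : algebraMap B F b = algebraMap B F 0)]
    exact p.zero_mem
  have hw0 : w ≠ 0 := ne_zero_of_inf_eq_span p p' hinf h₁₂ h₂₁
  have hwF : algebraMap B F w ≠ 0 := fun h0 => hw0 (hinj (by rw [h0, map_zero]))
  -- the local ring
  obtain ⟨hP, hPw, hdvr⟩ :=
    Fermat.Agent.A2.H372.smooth_local_data (locAt F n) hinf h₁ hne h₂
  set U : locAt F n := algebraMap B (locAt F n) u' with hUdef
  have hUF : (U : F) = u * algebraMap B F b ^ m := hu'F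
  have hU : U ∉ p.map (algebraMap B (locAt F n)) := fun h =>
    hu'n ((algebraMap_mem_map_iff h₁ u').1 h)
  have hU0 : U ≠ 0 := by
    intro h0
    apply hU
    rw [h0]
    exact Ideal.zero_mem _
  have hπ0 : algebraMap B (locAt F n) w ≠ 0 := by
    intro h0
    apply hwF
    have : ((algebraMap B (locAt F n) w : locAt F n) : F) = 0 := by rw [h0]; rfl
    exact this
  -- (H1)
  have H1 : ∀ 𝔓 ∈ (Ideal.span {U}).minimalPrimes, algebraMap B (locAt F n) w ∉ 𝔓 →
      ∃ f r : locAt F n, r ∉ 𝔓 ∧ f ^ m = U * r := by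
    intro 𝔓 h𝔓 hw𝔓
    refine exists_pow_eq_mul_of_divisible (K := F) hU0 hm h𝔓 ?_
    intro V hV hle hinv
    obtain ⟨h, u₀, hu₀, hu₀', huh⟩ := hdiv V hV
      (fun b => hle (algebraMap B (locAt F n) b)) (hinv _ hw𝔓)
    refine ⟨h * algebraMap B F b, u₀, hu₀, hu₀', ?_⟩
    rw [algebraMap_locAt_apply, hUF, huh]
    ring
  -- purity in the local ring, from (H1) alone
  obtain ⟨f, ε, hfε⟩ := exists_unit_mul_pow_of_smooth_h1 (R := locAt F n) hm hπ0
    (p.map (algebraMap B (locAt F n))) hPw hU H1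
  have hf0 : f ≠ 0 := by
    rintro rfl
    rw [zero_pow hm, mul_zero] at hfε
    exact hU0 hfε
  have hfF : (f : F) ≠ 0 := fun h => hf0 (Subtype.ext h)
  have hf₁ : f ∉ p.map (algebraMap B (locAt F n)) := by
    intro h
    apply hU
    rw [hfε]
    exact Ideal.mul_mem_left _ _ (Ideal.pow_mem_of_mem _ h m (Nat.pos_of_ne_zero hm))
  have hfεF : u * algebraMap B F b ^ m = ((ε : locAt F n) : F) * (f : F) ^ m := by
    rw [← hUF, hfε]
    rfl
  -- the first approximation `d₀ = b / f`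
  set d₀ : F := algebraMap B F b / (f : F) with hd₀def
  have hd₀0 : d₀ ≠ 0 := div_ne_zero hbF hfF
  have hd₀n : UnitAt n (u * d₀ ^ m) := by
    obtain ⟨a', s', ha', hs', h'⟩ := exists_frac_of_isUnit_locAt (F := F) n ε.isUnit
    refine ⟨a', s', ha', hs', ?_⟩
    rw [← h', hd₀def, div_pow, ← mul_div_assoc, hfεF]
    field_simp
  have hd₀p : UnitAt p d₀ := by
    obtain ⟨φ, s, hφ, hs, h'⟩ := exists_frac_of_notMem_map (F := F) (p := p) (n := n) hf₁
    refine ⟨b * s, φ, ?_, hφ, ?_⟩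
    · intro h
      rcases Ideal.IsPrime.mem_or_mem inferInstance h with h3 | h3
      · exact hb h3
      · exact hs (h₁ h3)
    · rw [← h', map_mul, hd₀def]
      field_simp
  -- correction at the other component
  obtain ⟨g, hgn, ag, bg, hag, hbg, hg⟩ := exists_uniformizer_away p p' n hinf h₁₂ h₁ h₂
  have hgp : g ∉ p := fun h => hgn (h₁ h)
  have hgF : algebraMap B F g ≠ 0 := by
    intro h0
    apply hgn
    rw [hinj (by rw [h0, map_zero] : algebraMap B F g = algebraMap B F 0)]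
    exact n.zero_mem
  have hgw : UnitAt p' (algebraMap B F g / algebraMap B F w) := by
    refine ⟨ag, bg, hag, hbg, ?_⟩
    rw [div_mul_eq_mul_div, ← map_mul, hg, map_mul]
    field_simp
  obtain ⟨k₁, k₂, e, he, hek⟩ := exists_unitAt_decomp (F := F) p p' hinf h₁₂ d₀ hd₀0
  have hgnU : UnitAt n (algebraMap B F g) := UnitAt.algebraMap hgn
  have hgpU : UnitAt p (algebraMap B F g) := UnitAt.algebraMap hgp
  refine ⟨d₀ * (algebraMap B F g ^ k₂ * (algebraMap B F g ^ k₁)⁻¹),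
    mul_ne_zero hd₀0 (mul_ne_zero (pow_ne_zero _ hgF) (inv_ne_zero (pow_ne_zero _ hgF))), ?_, ?_, ?_⟩
  · have h3 : UnitAt n (u * d₀ ^ m *
        (algebraMap B F g ^ k₂ * (algebraMap B F g ^ k₁)⁻¹) ^ m) :=
      hd₀n.mul (((hgnU.pow k₂).mul (hgnU.pow k₁).inv).pow m)
    have h4 : u * (d₀ * (algebraMap B F g ^ k₂ * (algebraMap B F g ^ k₁)⁻¹)) ^ m =
        u * d₀ ^ m * (algebraMap B F g ^ k₂ * (algebraMap B F g ^ k₁)⁻¹) ^ m := by
      rw [mul_pow, mul_assoc]
    rw [← h4] at h3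
    exact h3
  · exact hd₀p.mul ((hgpU.pow k₂).mul (hgpU.pow k₁).inv)
  · have h3 : UnitAt p' (e * ((algebraMap B F g / algebraMap B F w) ^ k₂ *
        ((algebraMap B F g / algebraMap B F w) ^ k₁)⁻¹)) :=
      he.mul ((hgw.pow k₂).mul (hgw.pow k₁).inv)
    have h4 : d₀ * (algebraMap B F g ^ k₂ * (algebraMap B F g ^ k₁)⁻¹) =
        e * ((algebraMap B F g / algebraMap B F w) ^ k₂ *
          ((algebraMap B F g / algebraMap B F w) ^ k₁)⁻¹) :=
      mul_pow_inv_eq_of_mul_pow_eq hwF hgF k₁ k₂ hek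
    rw [← h4] at h3
    exact h3

end Chart

section AlgChart

open Fermat.Agent.A2 Fermat.Agent.A2.Alg Fermat.Agent.A2.Alg.H609

variable {R E F : Type*} [CommRing R] [IsDomain R] [IsDiscreteValuationRing R]
  [Field E] [CharZero E] [Algebra R E] [IsFractionRing R E]
  [Field F] [Algebra E F] [Algebra R F] [IsScalarTower R E F]

/-- **Purity at a smooth closed point of a semistable chart, `A2.Alg` vocabulary**: `u` with
`m ∣ div u` on the generic fibre, a unit on the component through `n`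
(no hypothesis on the residue of `u`, none on the other component). -/
theorem pureAt_smooth_of_locUnit (m : ℕ) (hm : 0 < m)
    (w : R) (x : F) (B : Subalgebra R F) (hB : ChartCtx E w x B)
    (c : SSChart w B)
    (u : F) (hdiv : DivisibleDiv E m u)
    (n : Ideal B) (hn : n.IsPrime) (hwn : algebraMap R B w ∈ n)
    (h1 : ¬ (c.p₁ ≤ n ∧ c.p₂ ≤ n))
    (hs₁ : c.p₁ ≤ n → LocUnit B c.p₁ u) (hs₂ : c.p₂ ≤ n → LocUnit B c.p₂ u) :
    PureAt B c m u n := by
  obtain ⟨hnoeth, hic, hfrac⟩ := H34.chart_instances' w x B hB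
  have hp₁ : c.p₁.IsPrime := c.prime₁
  have hp₂ : c.p₂.IsPrime := c.prime₂
  have hn₁ : IsIntegrallyClosed (B ⧸ c.p₁) := c.normal₁
  have hn₂ : IsIntegrallyClosed (B ⧸ c.p₂) := c.normal₂
  have hw : algebraMap R B w ∈ c.p₁ ⊓ c.p₂ := by
    rw [c.inf_eq]
    exact Ideal.mem_span_singleton_self _
  have hd₁ : IsDedekindDomain (B ⧸ c.p₁) := isDedekindDomain_quotient_chart w x B hB c.p₁ hw.1
  have hd₂ : IsDedekindDomain (B ⧸ c.p₂) := isDedekindDomain_quotient_chart w x B hB c.p₂ hw.2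
  have hor : c.p₁ ≤ n ∨ c.p₂ ≤ n := by
    have hle : c.p₁ * c.p₂ ≤ n := by
      refine le_trans Ideal.mul_le_inf ?_
      rw [c.inf_eq, Ideal.span_le, Set.singleton_subset_iff]
      exact hwn
    exact (Ideal.IsPrime.mul_le hn).1 hle
  rcases hor with h | h
  · have h2 : ¬ c.p₂ ≤ n := fun h' => h1 ⟨h, h'⟩
    by_cases hne : c.p₁ = n
    · refine ⟨1, one_ne_zero, ?_, locUnit_one B c.p₁ hp₁, locUnit_one B c.p₂ hp₂⟩
      rw [one_pow, mul_one, ← hne]
      exact hs₁ h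
    · exact exists_pureAt_smooth_of_unitAt (B := B) (F := F) hm.ne' c.p₁ c.p₂ n
        c.inf_eq c.not_le₁₂ c.not_le₂₁ h hne h2 u
        (hdiv_of_divisibleDiv w hB.hw B m u hdiv) (hs₁ h)
  · have h2 : ¬ c.p₁ ≤ n := fun h' => h1 ⟨h', h⟩
    by_cases hne : c.p₂ = n
    · refine ⟨1, one_ne_zero, ?_, locUnit_one B c.p₁ hp₁, locUnit_one B c.p₂ hp₂⟩
      rw [one_pow, mul_one, ← hne]
      exact hs₂ h
    · have hinf : c.p₂ ⊓ c.p₁ = Ideal.span {algebraMap R B w} := by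
        rw [inf_comm]
        exact c.inf_eq
      obtain ⟨d, hd, hdn, hd₂', hd₁'⟩ :=
        exists_pureAt_smooth_of_unitAt (B := B) (F := F) hm.ne' c.p₂ c.p₁ n
          hinf c.not_le₂₁ c.not_le₁₂ h hne h2 u
          (hdiv_of_divisibleDiv w hB.hw B m u hdiv) (hs₂ h)
      exact ⟨d, hd, hdn, hd₁', hd₂'⟩

end AlgChart

end Fermat.Agent.Ribet.H644

end
-- ===== PACK-END Ribet/H644/SmoothDiv.lean

-- ===== PACK-BEGIN S36/Eng/H189/Unr.lean
section


/-!
# S36 ENGINE, leaf UNR (helper189): the inertia field is an unramified good level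

`unramified_inertiaField` : for a prime `q` and a valuation subring `P` of `ℚ̄` over `q`, the
inertia field `E = ℚ̄^{I_P}` is a good level for `P` (`A2.GoodField`: `P ∩ E` is a henselian DVR
with algebraically closed residue field, inertia acts trivially) and `q` is a uniformiser of
`P ∩ E`:  every `e ∈ E ∩ 𝔪_P` satisfies `e / q ∈ P`.

This is `Fermat.Agent.S36.Eng.InertiaFieldStatement` (architect helper996, `S36/Eng/Top.lean`)
with `Eng.Unramified` and `Eng.inertiaFld` unfolded; the file imports only `A2/IF/H429`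
(Hilbert theory at finite level: `exists_zpow_of_mem_inertiaField`).
-/

set_option autoImplicit false

namespace Fermat.Agent.S36.Eng.H189

open Fermat.Agent.A2 Fermat.Agent.A2.IF.H429

/-- The inertia field (same term as `A2.IF.H429.inertiaField P` and `S36.Eng.inertiaFld P`). -/
theorem inertiaField_eq_fixedField (P : ValuationSubring Qb) :
    inertiaField P = IntermediateField.fixedField (P.inertiaSubgroupIn ℚ) := rfl

/-- The inertia field is a good level. -/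
theorem goodField_inertiaField (q : ℕ) (hq : q.Prime) (P : ValuationSubring Qb)
    (hP : P.LiesOverPrime q) : GoodField P (inertiaField P) where
  stable := fun τ hτ e he => by
    rw [(mem_inertiaField_iff P).mp he τ hτ]
    exact he
  dvr := isDiscreteValuationRing_RE_of_pow P q hq hP (inertiaField P) 1 one_pos
    (fun x hx hx0 => by
      obtain ⟨k, hk⟩ := exists_zpow_of_mem_inertiaField P q hq hP x hx hx0
      refine ⟨k, ?_⟩
      have hq0 : P.valuation (q : Qb) ≠ 0 := valuation_natCast_ne_zero P q hq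
      rw [map_div₀, map_zpow₀] at hk
      rw [pow_one]
      have hz : P.valuation (q : Qb) ^ k ≠ 0 := zpow_ne_zero _ hq0
      exact (div_eq_one_iff_eq hz).mp hk)
  henselian := henselian_RE P (inertiaField P) le_rfl
  algClosed := isAlgClosed_residueField_RE P (inertiaField P) q hq hP le_rfl
  trivial_mod := fun _ hτ _ _ heP => sub_mem_nonunits_of_inertia P hτ heP
  finite_order := fun τ hτ => ⟨1, one_pos, fun e he => by
    rw [Function.iterate_one]
    exact (mem_inertiaField_iff P).mp he τ hτ⟩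

/-- `q` is a uniformiser of `P ∩ ℚ̄^{I_P}`: every element of the inertia field lying in the
maximal ideal of `P` is divisible by `q` in `P`. -/
theorem mul_inv_natCast_mem (q : ℕ) (hq : q.Prime) (P : ValuationSubring Qb)
    (hP : P.LiesOverPrime q) (e : Qb) (he : e ∈ inertiaField P) (hem : e ∈ P.nonunits) :
    e * (q : Qb)⁻¹ ∈ P := by
  rcases eq_or_ne e 0 with rfl | he0
  · rw [zero_mul]
    exact zero_mem P
  obtain ⟨k, hk⟩ := exists_zpow_of_mem_inertiaField P q hq hP e he he0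
  have hq0 : P.valuation (q : Qb) ≠ 0 := valuation_natCast_ne_zero P q hq
  have hqlt : P.valuation (q : Qb) < 1 := valuation_natCast_lt_one P q hP
  have hz : P.valuation (q : Qb) ^ k ≠ 0 := zpow_ne_zero _ hq0
  rw [map_div₀, map_zpow₀] at hk
  have hek : P.valuation e = P.valuation (q : Qb) ^ k := (div_eq_one_iff_eq hz).mp hk
  have helt : P.valuation e < 1 := (ValuationSubring.mem_nonunits_iff (A := P)).mp hem
  -- `k ≥ 1`
  have hk1 : 1 ≤ k := by
    by_contra hcon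
    have hk0 : k ≤ 0 := by omega
    have h1 : 1 ≤ P.valuation (q : Qb) ^ k := by
      obtain ⟨n, hn⟩ : ∃ n : ℕ, k = -(n : ℤ) := ⟨(-k).toNat, by omega⟩
      rw [hn, zpow_neg, zpow_natCast]
      have h2 : P.valuation (q : Qb) ^ n ≤ 1 := pow_le_one' hqlt.le n
      have h3 : P.valuation (q : Qb) ^ n ≠ 0 := pow_ne_zero _ hq0
      exact (one_le_inv₀ (zero_lt_iff.mpr h3)).mpr h2
    rw [← hek] at h1
    exact absurd helt (not_lt.mpr h1)
  rw [← ValuationSubring.valuation_le_one_iff, map_mul, map_inv₀, hek]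
  obtain ⟨n, hn⟩ : ∃ n : ℕ, k = (n : ℤ) + 1 := ⟨(k - 1).toNat, by omega⟩
  rw [hn, zpow_add_one₀ hq0, zpow_natCast, mul_assoc, mul_inv_cancel₀ hq0, mul_one]
  exact pow_le_one' hqlt.le n

/-- **UNR** (= `S36.Eng.InertiaFieldStatement`, unfolded).  The inertia field of a place `P` over
`q` is an unramified good level. -/
theorem unramified_inertiaField :
    ∀ q : ℕ, q.Prime → ∀ P : ValuationSubring Qb, P.LiesOverPrime q →
      GoodField P (IntermediateField.fixedField (P.inertiaSubgroupIn ℚ)) ∧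
        ∀ e : (IntermediateField.fixedField (P.inertiaSubgroupIn ℚ) : IntermediateField ℚ Qb),
          (e : Qb) ∈ P.nonunits → (e : Qb) * ((q : Qb))⁻¹ ∈ P :=
  fun q hq P hP => ⟨goodField_inertiaField q hq P hP,
    fun e hem => mul_inv_natCast_mem q hq P hP (e : Qb) e.2 hem⟩

end Fermat.Agent.S36.Eng.H189

end
-- ===== PACK-END S36/Eng/H189/Unr.lean

-- ===== PACK-BEGIN Ribet/H132/WildLib.lean
section





/-!
# RIBET wall-p, (S4) WILD case: library for the chart-level cover package (helper132)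

Abstract lemmas (Mathlib + the node-ring library `H132/NodeVal.lean`) used by
`H132/WildNode.lean`:

* `IsWVal 𝒲 ϖ u v` : `u = ϖ ^ v · (unit of 𝒲)` for a valuation subring `𝒲`; calculus
  (`isWVal_mul`, `isWVal_pow`, `isWVal_unique`, `isWVal_map`);
* `vertVal_comap`  : the branch valuation ring of a node ring `R'` above `R` contracts to the
  branch valuation ring of `R`;
* `slopeAt_map`    : slopes do not change under `R → R'` (same uniformisers);
* `slopeAt_one_add`: `1 + π z`, `z ∈ R_𝔭`, has slope `0`;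
* `slopeAt_zpow`, `slopeAt_const`;
* `unitPair_slopes`: for a unit pair `D D' = π ^ N` in a node ring, `ord₁ D = ord₂ D'` and
  `D` has slopes `(k, -k)`.
-/

set_option autoImplicit false
set_option linter.unusedSectionVars false
set_option linter.style.haveILetI false

namespace Fermat.Agent.Ribet.H132

open Fermat.Agent.Ribet.H704 Fermat.Agent.A2.H849 Fermat.Agent.A2.Alg.H132

/-! ## Valuations with respect to a valuation subring and a uniformiser -/

section WVal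

variable {L : Type*} [Field L]

/-- `u = ϖ ^ v · ε` with `ε` a unit of the valuation subring `𝒲`. -/
def IsWVal (𝒲 : ValuationSubring L) (ϖ u : L) (v : ℤ) : Prop :=
  u ≠ 0 ∧ u * ϖ ^ (-v) ∈ 𝒲 ∧ (u * ϖ ^ (-v))⁻¹ ∈ 𝒲

variable {𝒲 : ValuationSubring L} {ϖ : L}

theorem isWVal_mul (hϖ : ϖ ≠ 0) {u u' : L} {v v' : ℤ} (h : IsWVal 𝒲 ϖ u v)
    (h' : IsWVal 𝒲 ϖ u' v') : IsWVal 𝒲 ϖ (u * u') (v + v') := by
  obtain ⟨h0, h1, h2⟩ := h
  obtain ⟨h0', h1', h2'⟩ := h'
  have e : u * u' * ϖ ^ (-(v + v')) = (u * ϖ ^ (-v)) * (u' * ϖ ^ (-v')) := by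
    rw [neg_add, zpow_add₀ hϖ]; ring
  refine ⟨mul_ne_zero h0 h0', ?_, ?_⟩
  · rw [e]; exact mul_mem h1 h1'
  · rw [e, mul_inv]; exact mul_mem h2 h2'

theorem isWVal_one : IsWVal 𝒲 ϖ (1 : L) 0 := by
  refine ⟨one_ne_zero, ?_, ?_⟩ <;> simp [one_mem]

theorem isWVal_pow (hϖ : ϖ ≠ 0) {u : L} {v : ℤ} (h : IsWVal 𝒲 ϖ u v) (n : ℕ) :
    IsWVal 𝒲 ϖ (u ^ n) (n * v) := by
  induction n with
  | zero => simpa using (isWVal_one (𝒲 := 𝒲) (ϖ := ϖ))
  | succ n ih =>
    rw [pow_succ]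
    have := isWVal_mul hϖ ih h
    have e : (n : ℤ) * v + v = ((n + 1 : ℕ) : ℤ) * v := by push_cast; ring
    rwa [e] at this

theorem isWVal_inv {u : L} {v : ℤ} (h : IsWVal 𝒲 ϖ u v) :
    IsWVal 𝒲 ϖ u⁻¹ (-v) := by
  obtain ⟨h0, h1, h2⟩ := h
  have e : u⁻¹ * ϖ ^ (- -v) = (u * ϖ ^ (-v))⁻¹ := by
    rw [mul_inv, zpow_neg, zpow_neg, inv_inv]
  refine ⟨inv_ne_zero h0, ?_, ?_⟩
  · rw [e]; exact h2
  · rw [e, inv_inv]; exact h1

theorem isWVal_self (hϖ : ϖ ≠ 0) : IsWVal 𝒲 ϖ ϖ 1 := by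
  have e : ϖ * ϖ ^ (-(1 : ℤ)) = 1 := by
    rw [zpow_neg, zpow_one]; exact mul_inv_cancel₀ hϖ
  refine ⟨hϖ, ?_, ?_⟩
  · rw [e]; exact one_mem _
  · rw [e, inv_one]; exact one_mem _

theorem isWVal_zpow_self (hϖ : ϖ ≠ 0) (n : ℤ) : IsWVal 𝒲 ϖ (ϖ ^ n) n := by
  have e : ϖ ^ n * ϖ ^ (-n) = 1 := by
    rw [← zpow_add₀ hϖ, add_neg_cancel, zpow_zero]
  refine ⟨zpow_ne_zero _ hϖ, ?_, ?_⟩
  · rw [e]; exact one_mem _
  · rw [e, inv_one]; exact one_mem _

/-- A unit of `𝒲` has valuation `0`. -/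
theorem isWVal_unit {u : L} (hu : u ∈ 𝒲) (hu' : u⁻¹ ∈ 𝒲) (hu0 : u ≠ 0) : IsWVal 𝒲 ϖ u 0 := by
  refine ⟨hu0, ?_, ?_⟩
  · simpa using hu
  · simpa using hu'

theorem isWVal_unique (hϖ : ϖ ∈ 𝒲) (hϖ' : ϖ⁻¹ ∉ 𝒲) {u : L} {v v' : ℤ}
    (h : IsWVal 𝒲 ϖ u v) (h' : IsWVal 𝒲 ϖ u v') : v = v' := by
  have hϖ0 : ϖ ≠ 0 := by
    rintro rfl
    exact hϖ' (by simp)
  -- `ϖ ^ n ∈ 𝒲` with `n < 0` is impossible
  have key : ∀ n : ℕ, (ϖ ^ (n + 1))⁻¹ ∉ 𝒲 := by
    intro n hn
    apply hϖ'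
    have : ϖ⁻¹ = (ϖ ^ (n + 1))⁻¹ * ϖ ^ n := by
      rw [pow_succ]; field_simp
    rw [this]
    exact mul_mem hn (pow_mem hϖ n)
  obtain ⟨h0, h1, h2⟩ := h
  obtain ⟨-, h1', h2'⟩ := h'
  -- `ϖ ^ (v - v')` and its inverse lie in `𝒲`
  have e1 : ϖ ^ (v - v') = (u * ϖ ^ (-v))⁻¹ * (u * ϖ ^ (-v')) := by
    rw [sub_eq_add_neg, zpow_add₀ hϖ0, mul_inv, zpow_neg, zpow_neg, inv_inv]
    field_simp
  have e2 : ϖ ^ (v' - v) = (u * ϖ ^ (-v'))⁻¹ * (u * ϖ ^ (-v)) := by
    rw [sub_eq_add_neg, zpow_add₀ hϖ0, mul_inv, zpow_neg, zpow_neg, inv_inv]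
    field_simp
  have m1 : ϖ ^ (v - v') ∈ 𝒲 := e1 ▸ mul_mem h2 h1'
  have m2 : ϖ ^ (v' - v) ∈ 𝒲 := e2 ▸ mul_mem h2' h1
  by_contra hne
  rcases lt_or_gt_of_ne hne with hlt | hgt
  · -- `v - v' < 0`
    obtain ⟨n, hn⟩ : ∃ n : ℕ, v - v' = -((n : ℤ) + 1) := ⟨(v' - v - 1).toNat, by omega⟩
    rw [hn, zpow_neg] at m1
    exact key n (by exact_mod_cast m1)
  · obtain ⟨n, hn⟩ : ∃ n : ℕ, v' - v = -((n : ℤ) + 1) := ⟨(v - v' - 1).toNat, by omega⟩
    rw [hn, zpow_neg] at m2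
    exact key n (by exact_mod_cast m2)

/-- Transport along a field automorphism mapping `𝒲` onto `𝒲'` and fixing `ϖ`. -/
theorem isWVal_map {𝒲' : ValuationSubring L} (σ : L ≃+* L)
    (hσ : ∀ z : L, σ z ∈ 𝒲' ↔ z ∈ 𝒲) (hσϖ : σ ϖ = ϖ) {u : L} {v : ℤ}
    (h : IsWVal 𝒲 ϖ u v) : IsWVal 𝒲' ϖ (σ u) v := by
  obtain ⟨h0, h1, h2⟩ := h
  have e : σ u * ϖ ^ (-v) = σ (u * ϖ ^ (-v)) := by
    rw [map_mul, map_zpow₀, hσϖ]
  refine ⟨fun h => h0 (by simpa using h), ?_, ?_⟩
  · rw [e]; exact (hσ _).2 h1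
  · rw [e, ← map_inv₀]; exact (hσ _).2 h2

end WVal

/-! ## Contraction of branch valuation rings -/

section Comap

variable {R : Type*} [CommRing R] [IsDomain R] [IsNoetherianRing R] [IsIntegrallyClosed R]
variable {R' : Type*} [CommRing R'] [IsDomain R'] [IsNoetherianRing R'] [IsIntegrallyClosed R']
variable {K : Type*} [Field K] [Algebra R K] [IsFractionRing R K]
variable {K' : Type*} [Field K'] [Algebra R' K'] [IsFractionRing R' K']
variable {π : R} {𝔭 𝔮 : Ideal R} {π' : R'} {𝔭' 𝔮' : Ideal R'}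

theorem map_mem_vertVal (h : VertData π 𝔭 𝔮) (h' : VertData π' 𝔭' 𝔮') (φ : K →+* K')
    (ψ : R →+* R') (hφψ : ∀ r : R, φ (algebraMap R K r) = algebraMap R' K' (ψ r))
    (hψ : ∀ r : R, r ∉ 𝔭 → ψ r ∉ 𝔭') {z : K} (hz : z ∈ vertVal (F := K) h) :
    φ z ∈ vertVal (F := K') h' := by
  obtain ⟨a, s, hs, rfl⟩ := (mem_vertVal_iff h z).1 hz
  rw [map_mul, map_inv₀, hφψ, hφψ]
  exact mul_mem (algebraMap_mem_vertVal h' _) (inv_mem_vertVal h' (hψ s hs))

/-- The branch valuation ring of `R'` contracts to the branch valuation ring of `R`. -/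
theorem vertVal_comap (h : VertData π 𝔭 𝔮) (h' : VertData π' 𝔭' 𝔮') (φ : K →+* K')
    (ψ : R →+* R') (hφψ : ∀ r : R, φ (algebraMap R K r) = algebraMap R' K' (ψ r))
    (hψ : ∀ r : R, r ∉ 𝔭 → ψ r ∉ 𝔭') (hπ : ψ π = π') :
    (vertVal (F := K') h').comap φ = vertVal (F := K) h := by
  ext z
  rw [ValuationSubring.mem_comap]
  constructor
  · intro hz
    by_contra hzn
    have hz0 : z ≠ 0 := fun h0 => hzn (h0 ▸ zero_mem _)
    have hzi : z⁻¹ ∈ vertVal (F := K) h :=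
      ((vertVal (F := K) h).mem_or_inv_mem z).resolve_left hzn
    have h1 : z⁻¹ * (algebraMap R K π)⁻¹ ∈ vertVal (F := K) h :=
      mul_inv_mem_vertVal h hzi (by rwa [inv_inv])
    have h2 := map_mem_vertVal h h' φ ψ hφψ hψ h1
    have h3 : (algebraMap R' K' π')⁻¹ = φ z * φ (z⁻¹ * (algebraMap R K π)⁻¹) := by
      rw [← map_mul, ← mul_assoc, mul_inv_cancel₀ hz0, one_mul, map_inv₀, hφψ, hπ]
    exact inv_notMem_vertVal h' h'.w_mem h'.w_ne (h3 ▸ mul_mem hz h2)
  · exact map_mem_vertVal h h' φ ψ hφψ hψ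

end Comap

/-! ## Slopes under `R → R'` -/

section SlopeMap

variable {R R' : Type*} [CommRing R] [CommRing R']
variable {K : Type*} [Field K] [Algebra R K] {K' : Type*} [Field K'] [Algebra R' K']

theorem ordOn_map (ψ : R →+* R') {𝔭 : Ideal R} {𝔭' : Ideal R'} (h𝔭 : 𝔭 ≤ 𝔭'.comap ψ)
    {ϖ a : R} {s : ℕ} (h : I6.OrdOn 𝔭 ϖ a s) : I6.OrdOn 𝔭' (ψ ϖ) (ψ a) s := by
  unfold I6.OrdOn at *
  have := Associated.map (Ideal.quotientMap 𝔭' ψ h𝔭) h
  rwa [map_pow, Ideal.quotientMap_mk, Ideal.quotientMap_mk] at this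

/-- Slopes do not change under a map of node rings with the same uniformisers. -/
theorem slopeAt_map (φ : K →+* K') (ψ : R →+* R')
    (hφψ : ∀ r : R, φ (algebraMap R K r) = algebraMap R' K' (ψ r))
    {𝔭 : Ideal R} {𝔭' : Ideal R'} (hψ : ∀ r : R, r ∉ 𝔭 → ψ r ∉ 𝔭') (h𝔭 : 𝔭 ≤ 𝔭'.comap ψ)
    {π ϖ : R} {u : K} {s : ℤ} (hs : I6.SlopeAt K 𝔭 π ϖ u s) :
    I6.SlopeAt K' 𝔭' (ψ π) (ψ ϖ) (φ u) s := by
  obtain ⟨v, a, b, i, j, ha, hb, hab, hi, hj, rfl⟩ := hs
  refine ⟨v, ψ a, ψ b, i, j, hψ a ha, hψ b hb, ?_, ordOn_map ψ h𝔭 hi, ordOn_map ψ h𝔭 hj, rfl⟩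
  rw [← hφψ, ← hφψ, ← hφψ, ← map_zpow₀, ← map_mul, ← map_mul, hab]

end SlopeMap

/-! ## More on slopes -/

section SlopeMore

variable {R : Type*} [CommRing R] [IsDomain R] [IsNoetherianRing R] [IsIntegrallyClosed R]
variable {K : Type*} [Field K] [Algebra R K] [IsFractionRing R K]
variable {π ϖ : R} {𝔭 𝔮 : Ideal R}

/-- A `1`-unit of the branch valuation ring has slope `0`. -/
theorem slopeAt_one_add (h : BranchData π 𝔭 𝔮 ϖ) {z : K} (hz : z ∈ vertVal (F := K) h.vert) :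
    I6.SlopeAt K 𝔭 π ϖ (1 + algebraMap R K π * z) 0 := by
  have hp := h.vert.prime
  obtain ⟨a, s, hs, rfl⟩ := (mem_vertVal_iff h.vert z).1 hz
  have hs0 : algebraMap R K s ≠ 0 := algebraMap_ne_zero (fun h0 => hs (h0 ▸ 𝔭.zero_mem))
  have hπa : π * a ∈ 𝔭 := 𝔭.mul_mem_right _ h.vert.w_mem
  have hsa : s + π * a ∉ 𝔭 := fun hm => hs (by simpa using 𝔭.sub_mem hm hπa)
  obtain ⟨j, hj⟩ := h.unif s hs
  have hj' : I6.OrdOn 𝔭 ϖ (s + π * a) j := by
    unfold I6.OrdOn at *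
    have : Ideal.Quotient.mk 𝔭 (s + π * a) = Ideal.Quotient.mk 𝔭 s := by
      rw [map_add, Ideal.Quotient.eq_zero_iff_mem.2 hπa, add_zero]
    rwa [this]
  refine ⟨0, s + π * a, s, j, j, hsa, hs, ?_, hj', hj, by ring⟩
  rw [zpow_zero, one_mul, map_add, map_mul]
  field_simp

theorem slopeAt_zpow (h : BranchData π 𝔭 𝔮 ϖ) {u : K} {s : ℤ}
    (hs : I6.SlopeAt K 𝔭 π ϖ u s) (n : ℤ) : I6.SlopeAt K 𝔭 π ϖ (u ^ n) (n * s) := by
  rcases Int.eq_nat_or_neg n with ⟨m, rfl | rfl⟩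
  · rw [zpow_natCast]; exact slopeAt_pow h hs m
  · rw [zpow_neg, zpow_natCast]
    have := slopeAt_inv h (slopeAt_pow h hs m)
    have e : -((m : ℤ) * s) = -(m : ℤ) * s := by ring
    rwa [e] at this

/-- A unit of `R` has slope `0`. -/
theorem slopeAt_unit (h : BranchData π 𝔭 𝔮 ϖ) {ε : R} (hε : IsUnit ε) :
    I6.SlopeAt K 𝔭 π ϖ (algebraMap R K ε) 0 := by
  have hp := h.vert.prime
  have hεp : ε ∉ 𝔭 := fun hm => hp.ne_top (Ideal.eq_top_of_isUnit_mem _ hm hε)
  have ho : I6.OrdOn 𝔭 ϖ ε 0 := by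
    unfold I6.OrdOn
    rw [pow_zero]
    exact associated_one_iff_isUnit.2 (hε.map _)
  simpa using slopeAt_of_ordOn (K := K) h hεp ho

/-- A "constant" `ε · π ^ n` has slope `0`. -/
theorem slopeAt_const (h : BranchData π 𝔭 𝔮 ϖ) {ε : R} (hε : IsUnit ε) (n : ℤ) :
    I6.SlopeAt K 𝔭 π ϖ (algebraMap R K ε * (algebraMap R K π) ^ n) 0 := by
  have := slopeAt_mul h (slopeAt_unit (K := K) h hε) (slopeAt_zpow h (slopeAt_pi (K := K) h) n)
  simpa using this

end SlopeMore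

/-! ## The slopes of a unit pair -/

section UnitPair

variable {R : Type} [CommRing R] [IsDomain R] [IsIntegrallyClosed R] [IsNoetherianRing R]
  [IsLocalRing R]
variable {K : Type*} [Field K] [Algebra R K] [IsFractionRing R K]
variable {𝔭₁ 𝔭₂ : Ideal R} {π x y : R}

/-- For a unit pair `D · D' = π ^ N` in a node ring: `ord₁ D = ord₂ D' = k`, and `D` has slope
`k` along `𝔭₁` and `-k` along `𝔭₂`. -/
theorem unitPair_slopes (hN : I6.IsNode 𝔭₁ 𝔭₂ π x y) {N : ℕ} (hN0 : 0 < N) {D D' : R}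
    (hD : I6.IsUnitPair 𝔭₁ 𝔭₂ π D D' N) :
    ∃ k : ℕ, I6.OrdOn 𝔭₁ x D k ∧ I6.OrdOn 𝔭₂ y D' k ∧
      I6.SlopeAt K 𝔭₁ π x (algebraMap R K D) k ∧
      I6.SlopeAt K 𝔭₂ π y (algebraMap R K D) (-(k : ℤ)) := by
  obtain ⟨k, hk⟩ := hN.unif₁ D hD.hD
  obtain ⟨k', hk'⟩ := hN.unif₂ D' hD.hD'
  have h1 : (1 : R) ∉ 𝔭₁ := fun h1 => hN.prime₁.ne_top ((Ideal.eq_top_iff_one _).2 h1)
  have hπ₂ : π ∈ 𝔭₂ :=
    (inf_le_right : 𝔭₁ ⊓ 𝔭₂ ≤ 𝔭₂) (hN.inf_eq ▸ Ideal.mem_span_singleton_self π)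
  have hnh : I6.NoHorZero π D' := by
    intro 𝔓 h𝔓 hD'
    have : π ^ N ∈ 𝔓 := hD.mul_eq ▸ 𝔓.mul_mem_left _ hD'
    exact h𝔓.mem_of_pow_mem _ this
  have hkk := Fermat.Agent.Ribet.H403.nodeRelExact_403 R 𝔭₁ 𝔭₂ π x y hN N D D' hN0 hD D' 1 D N
    hD.hD' h1 hD.hD (by rw [mul_one, mul_comm]; exact hD.mul_eq) hnh k' k hk' hk
  have hkeq : k' = k := Nat.eq_of_mul_eq_mul_left hN0 hkk
  subst hkeq
  refine ⟨k', hk, hk', slopeAt_of_ordOn (branchData_left hN) hD.hD hk, ?_⟩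
  have hD'0 : algebraMap R K D' ≠ 0 :=
    algebraMap_ne_zero (fun h0 => hD.hD' (h0 ▸ 𝔭₂.zero_mem))
  have e : algebraMap R K D = (algebraMap R K π) ^ N * (algebraMap R K D')⁻¹ := by
    rw [← map_pow, ← hD.mul_eq, map_mul]
    field_simp
  rw [e]
  have hB := branchData_right hN
  have := slopeAt_mul hB (slopeAt_pow hB (slopeAt_pi (K := K) hB) N)
    (slopeAt_inv hB (slopeAt_of_ordOn (K := K) hB hD.hD' hk'))
  simpa using this

end UnitPair

end Fermat.Agent.Ribet.H132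

end
-- ===== PACK-END Ribet/H132/WildLib.lean

-- ===== PACK-BEGIN Ribet/H132/NodeRes.lean
section


/-!
# RIBET wall-p, I6 instantiation: the residue field at a closed point of a chart (helper132)

`R` a discrete valuation ring with algebraically closed residue field `k`, `B ⊆ F` a chart
(`Alg.ChartCtx`: the integral closure of `R[x₀]` in `F`), `n` a maximal ideal of `B` containing
the uniformiser `w`.  Then `B ⧸ n = k`:

* `surjective_of_integral_polynomial` : a field `L` integral over `k[X]`, `k` algebraically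
  closed, is equal to `k`;
* `exists_const_sub_mem_chart` : `∀ b : B, ∃ r : R, b - r ∈ n`;
* `exists_const_sub_mem_locAt` : the same in the local ring `B_n = locAt F n`
  (the hypothesis "trivial residue extension" of `I6.EtaleNodeStatement` for every local
  extension with residue field algebraic over `k`);
* `isAlgClosed_residueField_locAt` : the residue field of `B_n` is algebraically closed.
-/

set_option autoImplicit false
set_option linter.unusedSectionVars false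
set_option linter.style.haveILetI false

namespace Fermat.Agent.Ribet.H132

open Fermat.Agent.A2 Fermat.Agent.A2.H849 Polynomial

section Abstract

/-- A field which is integral over `k[X]`, `k` algebraically closed, is equal to `k`. -/
theorem surjective_of_integral_polynomial {k L : Type*} [Field k] [IsAlgClosed k] [Field L]
    (g : k[X] →+* L) (hg : g.IsIntegral) : Function.Surjective (g.comp C) := by
  -- the kernel of `g` is not zero
  have hker : ∃ p : k[X], p ≠ 0 ∧ g p = 0 := by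
    by_contra hcon
    have hinj : Function.Injective g := by
      rw [injective_iff_map_eq_zero]
      intro p hp
      by_contra h
      exact hcon ⟨p, h, hp⟩
    letI : Algebra k[X] L := g.toAlgebra
    haveI : Algebra.IsIntegral k[X] L := ⟨fun d => hg d⟩
    exact Polynomial.not_isField k
      (isField_of_isIntegral_of_isField (R := k[X]) (S := L) hinj (Field.toIsField L))
  obtain ⟨p, hp0, hp⟩ := hker
  set ψ : k →+* L := g.comp C with hψ
  have hg_eq : g = eval₂RingHom ψ (g X) := by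
    refine Polynomial.ringHom_ext (fun r => ?_) ?_
    · simp [hψ]
    · simp
  letI : Algebra k L := ψ.toAlgebra
  -- `g X` is integral over `k`
  have hξ : IsIntegral k (g X) := by
    refine IsAlgebraic.isIntegral ⟨p, hp0, ?_⟩
    have : aeval (g X) p = eval₂ ψ (g X) p := rfl
    rw [this]
    have h2 : g p = eval₂ ψ (g X) p := by
      conv_lhs => rw [hg_eq]
      rfl
    rw [← h2, hp]
  -- hence `g X` is a constant
  obtain ⟨a, ha⟩ : ∃ a : k, ψ a = g X := by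
    have hsurj := (IsAlgClosed.algebraMap_bijective_of_isIntegral (k := k)
      (K := integralClosure k L)).2
    obtain ⟨a, ha⟩ := hsurj ⟨g X, hξ⟩
    exact ⟨a, congrArg Subtype.val ha⟩
  have hcomp : g = ψ.comp (evalRingHom a) := by
    refine Polynomial.ringHom_ext (fun r => ?_) ?_
    · simp [hψ]
    · simp [ha]
  have hψint : ψ.IsIntegral := by
    refine RingHom.IsIntegral.tower_top (evalRingHom a) ψ ?_
    rw [← hcomp]
    exact hg
  exact (IsAlgClosed.ringHom_bijective_of_isIntegral ψ hψint).2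

/-- The image of an algebraically closed field under a surjective ring homomorphism to a field
is algebraically closed (universe-polymorphic). -/
theorem isAlgClosed_of_surjective {k K : Type*} [Field k] [Field K] [IsAlgClosed k]
    (ρ : k →+* K) (hρ : Function.Surjective ρ) : IsAlgClosed K := by
  apply IsAlgClosed.of_exists_root
  intro p _ hirr
  obtain ⟨q, rfl⟩ := Polynomial.map_surjective ρ hρ p
  have hdeg : q.degree ≠ 0 := by
    rw [← degree_map q ρ]
    exact (degree_pos_of_irreducible hirr).ne'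
  obtain ⟨x, hx⟩ := IsAlgClosed.exists_root q hdeg
  refine ⟨ρ x, ?_⟩
  rw [eval_map, eval₂_hom]
  rw [IsRoot.def] at hx
  rw [hx, map_zero]

end Abstract

section Chart

variable {R E F : Type*} [CommRing R] [IsDomain R] [IsDiscreteValuationRing R]
  [IsAlgClosed (IsLocalRing.ResidueField R)]
  [Field E] [Algebra R E] [IsFractionRing R E]
  [Field F] [Algebra E F] [Algebra R F] [IsScalarTower R E F]

/-- **The residue field at a closed point of the special fibre of a chart is `k`.** -/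
theorem exists_const_sub_mem_chart (w : R) (x₀ : F) (B : Subalgebra R F)
    (hC : Alg.ChartCtx E w x₀ B) (n : Ideal B) [hn : n.IsMaximal] (hwn : algebraMap R B w ∈ n)
    (b : B) : ∃ r : R, b - algebraMap R B r ∈ n := by
  letI : Field (B ⧸ n) := Ideal.Quotient.field n
  have hx : x₀ ∈ B := Fermat.Agent.A2.Alg.H132.coord_mem_chart x₀ B hC.hB
  set f : R[X] →+* (B ⧸ n) :=
    (Ideal.Quotient.mk n).comp ((aeval (⟨x₀, hx⟩ : B) : R[X] →ₐ[R] B) : R[X] →+* B) with hf
  have hfint : f.IsIntegral :=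
    RingHom.IsIntegral.trans _ _ (Fermat.Agent.A2.Alg.H132.isIntegral_aeval_chart x₀ B hC.hB hx)
      (RingHom.isIntegral_of_surjective _ Ideal.Quotient.mk_surjective)
  have hfI : ∀ r ∈ IsLocalRing.maximalIdeal R, f (C r) = 0 := by
    intro r hr
    rw [hC.hw.maximalIdeal_eq, Ideal.mem_span_singleton] at hr
    obtain ⟨s, rfl⟩ := hr
    rw [hf, RingHom.comp_apply, Ideal.Quotient.eq_zero_iff_mem]
    have h : ((aeval (⟨x₀, hx⟩ : B) : R[X] →ₐ[R] B) : R[X] →+* B) (C (w * s))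
        = algebraMap R B w * algebraMap R B s := by
      simp
    rw [h]
    exact n.mul_mem_right _ hwn
  let φ₁ : IsLocalRing.ResidueField R →+* (B ⧸ n) :=
    Ideal.Quotient.lift (IsLocalRing.maximalIdeal R) (f.comp C) (fun r hr => hfI r hr)
  let g : (IsLocalRing.ResidueField R)[X] →+* (B ⧸ n) := eval₂RingHom φ₁ (f X)
  have hφ₁ : ∀ r : R, φ₁ (IsLocalRing.residue R r) = f (C r) := fun r => rfl
  have hcomp : g.comp (mapRingHom (IsLocalRing.residue R)) = f := by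
    refine Polynomial.ringHom_ext (fun r => ?_) ?_
    · show eval₂ φ₁ (f X) ((C r).map (IsLocalRing.residue R)) = f (C r)
      rw [Polynomial.map_C, eval₂_C, hφ₁]
    · show eval₂ φ₁ (f X) ((X : R[X]).map (IsLocalRing.residue R)) = f X
      rw [Polynomial.map_X, eval₂_X]
  have hg : g.IsIntegral := by
    refine RingHom.IsIntegral.tower_top (mapRingHom (IsLocalRing.residue R)) g ?_
    rw [hcomp]
    exact hfint
  obtain ⟨c, hc⟩ := surjective_of_integral_polynomial g hg (Ideal.Quotient.mk n b)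
  obtain ⟨r, rfl⟩ := IsLocalRing.residue_surjective c
  refine ⟨r, ?_⟩
  rw [← Ideal.Quotient.eq, ← hc]
  show eval₂ φ₁ (f X) (C (IsLocalRing.residue R r)) = _
  rw [eval₂_C, hφ₁, hf]
  simp

variable [CharZero E]

/-- The same in the local ring `B_n ⊆ F`. -/
theorem exists_const_sub_mem_locAt (w : R) (x₀ : F) (B : Subalgebra R F)
    (hC : Alg.ChartCtx E w x₀ B) (n : Ideal B) [hn : n.IsMaximal] (hwn : algebraMap R B w ∈ n) :
    haveI := (Fermat.Agent.A2.Alg.H34.chart_instances' w x₀ B hC).2.2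
    ∀ z : locAt F n, ∃ r : R,
      z - algebraMap B (locAt F n) (algebraMap R B r) ∈ IsLocalRing.maximalIdeal (locAt F n) := by
  haveI := (Fermat.Agent.A2.Alg.H34.chart_instances' w x₀ B hC).2.2
  intro z
  obtain ⟨⟨a, s⟩, hz⟩ := IsLocalization.surj n.primeCompl z
  obtain ⟨r₁, hr₁⟩ := exists_const_sub_mem_chart w x₀ B hC n hwn a
  obtain ⟨r₂, hr₂⟩ := exists_const_sub_mem_chart w x₀ B hC n hwn (s : B)
  -- `r₂` is a unit of `R`
  have hr₂u : IsUnit r₂ := by
    by_contra hnu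
    have hmem : r₂ ∈ IsLocalRing.maximalIdeal R := (IsLocalRing.mem_maximalIdeal _).2 hnu
    rw [hC.hw.maximalIdeal_eq, Ideal.mem_span_singleton] at hmem
    obtain ⟨t, rfl⟩ := hmem
    have h1 : algebraMap R B (w * t) ∈ n := by
      rw [map_mul]
      exact n.mul_mem_right _ hwn
    have h2 : (s : B) ∈ n := by
      have : (s : B) = ((s : B) - algebraMap R B (w * t)) + algebraMap R B (w * t) := by ring
      rw [this]
      exact n.add_mem hr₂ h1
    exact s.2 h2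
  obtain ⟨r₂', hr₂'⟩ := hr₂u.exists_right_inv
  refine ⟨r₁ * r₂', ?_⟩
  set ι := algebraMap B (locAt F n) with hι
  have hsu : IsUnit (ι (s : B)) := IsLocalization.map_units (locAt F n) s
  have hmax : ∀ c ∈ n, ι c ∈ IsLocalRing.maximalIdeal (locAt F n) := fun c hc =>
    (IsLocalization.AtPrime.to_map_mem_maximal_iff (locAt F n) n c).2 hc
  -- `(z - r₁ r₂') · s = (a - r₁) - r₁ r₂' (s - r₂)`
  have key : (z - ι (algebraMap R B (r₁ * r₂'))) * ι (s : B) =
      ι (a - algebraMap R B r₁) - ι (algebraMap R B (r₁ * r₂')) * ι ((s : B) - algebraMap R B r₂)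
      := by
    have e1 : ι (algebraMap R B (r₁ * r₂')) * ι (algebraMap R B r₂) = ι (algebraMap R B r₁) := by
      rw [← map_mul, ← map_mul]
      congr 2
      rw [mul_assoc, mul_comm r₂' r₂, hr₂', mul_one]
    simp only [map_sub, sub_mul, mul_sub]
    rw [hz, e1]
    ring
  have hmem : (z - ι (algebraMap R B (r₁ * r₂'))) * ι (s : B) ∈
      IsLocalRing.maximalIdeal (locAt F n) := by
    rw [key]
    exact Ideal.sub_mem _ (hmax _ hr₁) (Ideal.mul_mem_left _ _ (hmax _ hr₂))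
  obtain ⟨t, ht⟩ := hsu.exists_right_inv
  have : z - ι (algebraMap R B (r₁ * r₂')) =
      (z - ι (algebraMap R B (r₁ * r₂'))) * ι (s : B) * t := by
    rw [mul_assoc, ht, mul_one]
  rw [this]
  exact Ideal.mul_mem_right _ _ hmem

/-- The residue field of the local ring `B_n` of a chart at a closed point of the special fibre
is algebraically closed. -/
theorem isAlgClosed_residueField_locAt (w : R) (x₀ : F) (B : Subalgebra R F)
    (hC : Alg.ChartCtx E w x₀ B) (n : Ideal B) [hn : n.IsMaximal] (hwn : algebraMap R B w ∈ n) :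
    haveI := (Fermat.Agent.A2.Alg.H34.chart_instances' w x₀ B hC).2.2
    IsAlgClosed (IsLocalRing.ResidueField (locAt F n)) := by
  haveI := (Fermat.Agent.A2.Alg.H34.chart_instances' w x₀ B hC).2.2
  set ι : R →+* locAt F n := (algebraMap B (locAt F n)).comp (algebraMap R B) with hι
  have hmax : ∀ c ∈ n, algebraMap B (locAt F n) c ∈ IsLocalRing.maximalIdeal (locAt F n) :=
    fun c hc => (IsLocalization.AtPrime.to_map_mem_maximal_iff (locAt F n) n c).2 hc
  have hkill : ∀ r ∈ IsLocalRing.maximalIdeal R,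
      ((IsLocalRing.residue (locAt F n)).comp ι) r = 0 := by
    intro r hr
    rw [hC.hw.maximalIdeal_eq, Ideal.mem_span_singleton] at hr
    obtain ⟨s, rfl⟩ := hr
    rw [RingHom.comp_apply, IsLocalRing.residue_eq_zero_iff, hι, RingHom.comp_apply, map_mul,
      map_mul]
    exact Ideal.mul_mem_right _ _ (hmax _ hwn)
  let ρ : IsLocalRing.ResidueField R →+* IsLocalRing.ResidueField (locAt F n) :=
    Ideal.Quotient.lift (IsLocalRing.maximalIdeal R) ((IsLocalRing.residue (locAt F n)).comp ι)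
      hkill
  have hρ : ∀ r : R, ρ (IsLocalRing.residue R r) = IsLocalRing.residue (locAt F n) (ι r) :=
    fun r => rfl
  refine isAlgClosed_of_surjective ρ ?_
  intro c
  obtain ⟨z, rfl⟩ := IsLocalRing.residue_surjective c
  obtain ⟨r, hr⟩ := exists_const_sub_mem_locAt w x₀ B hC n hwn z
  refine ⟨IsLocalRing.residue R r, ?_⟩
  rw [hρ]
  symm
  rw [← sub_eq_zero, ← map_sub, IsLocalRing.residue_eq_zero_iff]
  exact hr

end Chart

end Fermat.Agent.Ribet.H132

end
-- ===== PACK-END Ribet/H132/NodeRes.lean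

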