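import Fermat.Agent.Pack.S44C.G0E0L2
import Fermat.Agent.Pack.S44C.G0E26L3
import Fermat.Agent.Pack.S44C.G0E6L2
import Fermat.Agent.Pack.S44C.G0E10L1
import Fermat.Agent.Pack.S44C.G0E10L3
import Fermat.Agent.Pack.S44C.G0E16L3
import Fermat.Agent.Pack.S44C.G0E21L0
import Fermat.Agent.Pack.S44C.G0E22L1
import Fermat.Agent.Pack.S44C.G0E19L0
import Fermat.Agent.Pack.S44C.G0E19L3
import Fermat.Agent.Pack.S44C.G0E26L1
import Fermat.Agent.Pack.S44C.G0E11L1
import Fermat.Agent.Pack.S44C.G0E11L2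
import Fermat.Agent.Pack.S44C.G0E26L2
import Fermat.Agent.Pack.S44C.G0E23L0
import Fermat.Agent.Pack.S44C.G0E21L3
import Fermat.Agent.Pack.S44C.G0E22L2
import Fermat.Agent.Pack.S44C.G0E23L3
import Fermat.Agent.Pack.S44C.G0E25L2
import Fermat.Agent.Pack.S44C.G0E6L1
import Fermat.Agent.Pack.S44C.G0E23L1
import Fermat.Agent.Pack.S44C.G0E13L3
import Fermat.Agent.Pack.S44C.G0E18L0
import Fermat.Agent.Pack.S44C.G0E17L0
import Fermat.Agent.Pack.S44C.G0E26L0
import Fermat.Agent.Pack.Fast891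

-- ===== PACK-BEGIN Ribet/H764/TraceCore.lean
section




/-!
# Row RIBET, pieces G2 / R3' : the common core (helper764)

`congruence_transport`: let `g` be a normalised eigenform of level `M`, `𝔪` a maximal ideal of
`ℤ̄` over `p`, and `W₀` an integral model of the Frey curve such that
`a_ℓ(g) ≡ a_ℓ(W₀) mod 𝔪` for all primes `ℓ` outside a finite set `S` at which `W₀` is good.
Then for EVERY integral model `W` and EVERY prime `ℓ₀ ∤ M p` at which `W` is good,
`a_{ℓ₀}(g) ≡ a_{ℓ₀}(W) mod 𝔪`.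

Inputs (as hypotheses): frozen S42 (`Spec.S42Statement`) and the trace formula
(`Spec.TraceFormulaStatement`).  Landed inputs: exact Chebotarev
(`Fermat.Agent.Lib.Cheb.chebotarev`) and existence of Frobenius elements
(`Fermat.Agent.S54.exists_frobenius`).
-/

set_option autoImplicit false

open WeierstrassCurve WeierstrassCurve.Affine WeierstrassCurve.Affine.Point
open CuspForm ModularFormClass

namespace Fermat.Agent.Ribet.H764

open Fermat.Agent.Ribet.Spec

/-- The discriminant of an integral model vanishes iff the discriminant of the curve does. -/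
theorem disc_ne_zero_iff_of_isIntegralModelOf {W : WeierstrassCurve ℤ} {E : WeierstrassCurve ℚ}
    (h : W.IsIntegralModelOf E) : W.Δ ≠ 0 ↔ E.Δ ≠ 0 := by
  obtain ⟨C, hC⟩ := h
  have h1 : ((W.Δ : ℤ) : ℚ) = ((C.u⁻¹ : ℚˣ) : ℚ) ^ 12 * E.Δ := by
    have := congrArg WeierstrassCurve.Δ hC
    rw [WeierstrassCurve.variableChange_Δ, WeierstrassCurve.map_Δ] at this
    simpa using this.symm
  have hu : ((C.u⁻¹ : ℚˣ) : ℚ) ^ 12 ≠ 0 := pow_ne_zero _ (Units.ne_zero _)
  constructor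
  · intro hW hE
    apply hW
    have : ((W.Δ : ℤ) : ℚ) = 0 := by rw [h1, hE, mul_zero]
    exact_mod_cast this
  · intro hE hW
    apply hE
    have : ((C.u⁻¹ : ℚˣ) : ℚ) ^ 12 * E.Δ = 0 := by rw [← h1, hW]; simp
    exact (mul_eq_zero.mp this).resolve_left hu

/-- A good prime forces the discriminant of the model to be nonzero. -/
theorem disc_ne_zero_of_isGoodPrimeFor {W : WeierstrassCurve ℤ} {ℓ : ℕ}
    (h : W.IsGoodPrimeFor ℓ) : W.Δ ≠ 0 := by
  intro h0
  apply h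
  rw [h0]
  exact dvd_zero _

/-- A curve over `ℚ` with an integral model having a good prime is elliptic. -/
theorem isElliptic_of_model {W : WeierstrassCurve ℤ} {E : WeierstrassCurve ℚ}
    (h : W.IsIntegralModelOf E) {ℓ : ℕ} (hg : W.IsGoodPrimeFor ℓ) : E.IsElliptic :=
  ⟨isUnit_iff_ne_zero.mpr
    ((disc_ne_zero_iff_of_isIntegralModelOf h).mp (disc_ne_zero_of_isGoodPrimeFor hg))⟩

/-- Primes outside the prime factors of the (nonzero) discriminant are good. -/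
theorem isGoodPrimeFor_of_not_mem {W : WeierstrassCurve ℤ} (hW : W.Δ ≠ 0) {ℓ : ℕ}
    (hℓ : ℓ.Prime) (h : ℓ ∉ W.Δ.natAbs.primeFactors) : W.IsGoodPrimeFor ℓ := by
  intro hdvd
  apply h
  rw [Nat.mem_primeFactors]
  refine ⟨hℓ, ?_, by simpa using hW⟩
  exact Int.natCast_dvd.mp hdvd

/-- If `τ` and `σ` agree on the image of `F` in `ℚ̄`, then `σ⁻¹ * τ` restricts trivially
to `F`. -/
theorem inv_mul_mem_ker_restrictNormalHom (F : Type) [Field F] [NumberField F] [IsGalois ℚ F]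
    [Algebra F (AlgebraicClosure ℚ)] [IsScalarTower ℚ F (AlgebraicClosure ℚ)]
    (σ τ : GQ)
    (h : ∀ x ∈ (IsScalarTower.toAlgHom ℚ F (AlgebraicClosure ℚ)).fieldRange, τ x = σ x) :
    σ⁻¹ * τ ∈ (AlgEquiv.restrictNormalHom (F := ℚ) (K₁ := AlgebraicClosure ℚ) F).ker := by
  rw [MonoidHom.mem_ker, map_mul, map_inv, inv_mul_eq_one]
  apply AlgEquiv.ext
  intro x
  apply (algebraMap F (AlgebraicClosure ℚ)).injective
  show algebraMap F _ (σ.restrictNormal F x) = algebraMap F _ (τ.restrictNormal F x)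
  rw [AlgEquiv.restrictNormal_commutes, AlgEquiv.restrictNormal_commutes]
  exact (h _ ⟨x, rfl⟩).symm

/-- **Core of G2 / R3'.**  A congruence `a_ℓ(g) ≡ a_ℓ(W₀) mod 𝔪` for almost all good primes
of one integral model `W₀` of the Frey curve propagates to all good primes `ℓ₀ ∤ M p` of any
integral model `W`. -/
theorem congruence_transport (h42 : S42Statement) (hTF : TraceFormulaStatement)
    (P : FreyPackage) (M : ℕ) (hM : 0 < M)
    (g : CuspForm (CongruenceSubgroup.Gamma0 M) 2) (hg : g.IsNormalizedEigenform)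
    (𝔪 : Ideal (integralClosure ℤ ℂ)) (h𝔪 : 𝔪.IsMaximal)
    (hp : (P.p : integralClosure ℤ ℂ) ∈ 𝔪)
    (W₀ : WeierstrassCurve ℤ) (hW₀ : W₀.IsIntegralModelOf P.freyCurve) (S : Finset ℕ)
    (hcong : ∀ ℓ : ℕ, ℓ.Prime → ℓ ∉ S → W₀.IsGoodPrimeFor ℓ →
      ∃ b : integralClosure ℤ ℂ, (b : ℂ) = qCoeff g ℓ ∧
        b - ((W₀.apOfModel ℓ : ℤ) : integralClosure ℤ ℂ) ∈ 𝔪)
    (W : WeierstrassCurve ℤ) (hW : W.IsIntegralModelOf P.freyCurve)
    (ℓ₀ : ℕ) (hℓ₀ : ℓ₀.Prime) (hgood : W.IsGoodPrimeFor ℓ₀) (hℓ₀M : ¬ ℓ₀ ∣ M)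
    (hℓ₀p : ℓ₀ ≠ P.p) :
    ∃ a : integralClosure ℤ ℂ, (a : ℂ) = qCoeff g ℓ₀ ∧
      a - ((W.apOfModel ℓ₀ : ℤ) : integralClosure ℤ ℂ) ∈ 𝔪 := by
  have hell : P.freyCurve.IsElliptic := isElliptic_of_model hW hgood
  have hEΔ : P.freyCurve.Δ ≠ 0 :=
    (disc_ne_zero_iff_of_isIntegralModelOf hW).mp (disc_ne_zero_of_isGoodPrimeFor hgood)
  have hW₀Δ : W₀.Δ ≠ 0 := (disc_ne_zero_iff_of_isIntegralModelOf hW₀).mpr hEΔ
  obtain ⟨K, _, _, V, _, _, ρ, ψ, F, _, _, _, _, _, h𝔪ψ, -, hker, htr, -⟩ :=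
    h42 P M hM g hg 𝔪 h𝔪 hp
  obtain ⟨A₀, σ₀, hA₀, hσ₀⟩ := Fermat.Agent.S54.exists_frobenius ℓ₀ hℓ₀
  obtain ⟨ℓ, A, τ, hℓ, hℓS, hA, hτ, -, hτσ⟩ := Fermat.Agent.Lib.Cheb.chebotarev
    (IsScalarTower.toAlgHom ℚ F (AlgebraicClosure ℚ)).fieldRange
    ((IsScalarTower.toAlgHom ℚ F (AlgebraicClosure ℚ)).toLinearMap.finiteDimensional_range) σ₀
    (S ∪ M.primeFactors ∪ {P.p} ∪ W₀.Δ.natAbs.primeFactors)
  simp only [Finset.mem_union, Finset.mem_singleton, not_or] at hℓS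
  obtain ⟨⟨⟨hℓS, hℓM⟩, hℓp⟩, hℓbad⟩ := hℓS
  have hℓM' : ¬ ℓ ∣ M := fun h => hℓM (Nat.mem_primeFactors.mpr ⟨hℓ, h, hM.ne'⟩)
  have hℓgood : W₀.IsGoodPrimeFor ℓ := isGoodPrimeFor_of_not_mem hW₀Δ hℓ hℓbad
  -- `σ₀⁻¹ τ` acts trivially through both representations
  have hmem := hker (inv_mul_mem_ker_restrictNormalHom F σ₀ τ hτσ)
  obtain ⟨hmemE, hmemρ⟩ := hmem
  have hρ : ρ τ = ρ σ₀ := by
    have h1 : ρ (σ₀⁻¹ * τ) = 1 := hmemρ
    have h2 : ρ τ = ρ (σ₀ * (σ₀⁻¹ * τ)) := by rw [mul_inv_cancel_left]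
    rw [h2, map_mul, h1, mul_one]
  have hE : galoisTrace (S := ℚ) (K := AlgebraicClosure ℚ) P.freyCurve P.p τ =
      galoisTrace (S := ℚ) (K := AlgebraicClosure ℚ) P.freyCurve P.p σ₀ := by
    have h1 : galoisRepModuleEnd (S := ℚ) (K := AlgebraicClosure ℚ) P.freyCurve P.p
        (σ₀⁻¹ * τ) = 1 := hmemE
    have h2 : galoisRepModuleEnd (S := ℚ) (K := AlgebraicClosure ℚ) P.freyCurve P.p τ =
        galoisRepModuleEnd (S := ℚ) (K := AlgebraicClosure ℚ) P.freyCurve P.p σ₀ := by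
      have h3 : galoisRepModuleEnd (S := ℚ) (K := AlgebraicClosure ℚ) P.freyCurve P.p τ =
          galoisRepModuleEnd (S := ℚ) (K := AlgebraicClosure ℚ) P.freyCurve P.p
            (σ₀ * (σ₀⁻¹ * τ)) := by rw [mul_inv_cancel_left]
      rw [h3, map_mul, h1, mul_one]
    rw [galoisTrace_def, galoisTrace_def, h2]
  -- the trace of `ρ τ`
  obtain ⟨a, haC, hatr⟩ := htr ℓ hℓ hℓM' hℓp A hA τ hτ
  obtain ⟨b, hbC, hb𝔪⟩ := hcong ℓ hℓ hℓS hℓgood
  have hab : a = b := Subtype.ext (haC.trans hbC.symm)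
  have hψb : ψ b = ((W₀.apOfModel ℓ : ℤ) : K) := by
    have := h𝔪ψ hb𝔪
    rw [RingHom.mem_ker, map_sub, sub_eq_zero, map_intCast] at this
    exact this
  have hTFτ := hTF P.freyCurve W₀ hW₀ P.p ℓ P.pp hℓ hℓp hℓgood A hA τ hτ
  have hTFσ := hTF P.freyCurve W hW P.p ℓ₀ P.pp hℓ₀ hℓ₀p hgood A₀ hA₀ σ₀ hσ₀
  obtain ⟨a₀, ha₀C, ha₀tr⟩ := htr ℓ₀ hℓ₀ hℓ₀M hℓ₀p A₀ hA₀ σ₀ hσ₀
  refine ⟨a₀, ha₀C, ?_⟩
  have hkerψ : RingHom.ker ψ = 𝔪 := (h𝔪.eq_of_le (RingHom.ker_ne_top ψ) h𝔪ψ).symm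
  rw [← hkerψ, RingHom.mem_ker, map_sub, sub_eq_zero, map_intCast]
  calc ψ a₀ = LinearMap.trace K V (ρ σ₀) := ha₀tr.symm
    _ = LinearMap.trace K V (ρ τ) := by rw [hρ]
    _ = ψ a := hatr
    _ = ((W₀.apOfModel ℓ : ℤ) : K) := by rw [hab, hψb]
    _ = algebraMap (ZMod P.p) K (((W₀.apOfModel ℓ : ℤ) : ZMod P.p)) := (map_intCast _ _).symm
    _ = algebraMap (ZMod P.p) K
          (galoisTrace (S := ℚ) (K := AlgebraicClosure ℚ) P.freyCurve P.p τ) := by rw [hTFτ]
    _ = algebraMap (ZMod P.p) K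
          (galoisTrace (S := ℚ) (K := AlgebraicClosure ℚ) P.freyCurve P.p σ₀) := by rw [hE]
    _ = algebraMap (ZMod P.p) K (((W.apOfModel ℓ₀ : ℤ) : ZMod P.p)) := by rw [hTFσ]
    _ = ((W.apOfModel ℓ₀ : ℤ) : K) := map_intCast _ _

end Fermat.Agent.Ribet.H764

end
-- ===== PACK-END Ribet/H764/TraceCore.lean

-- ===== PACK-BEGIN Ribet/H823/Occurs.lean
section






/-!
# Row RIBET, piece R1-GLUE, part 1 (helper823): the eigensystem of a congruence witness occurs
in `J₀(N)[p]`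

`occursIn_of_witness`: from the S29 pieces `M4a` (the eigensystem of a normalised eigenform occurs
in `Hom_par(Γ₀(N), 𝔽_p) ⊗ F`) and `M4b` (the Kummer map `κ`), a congruence witness `(f, W, 𝔪)` of
level `N` for the Frey curve gives a nonzero `x ∈ J₀(N)(ℚ̄)[p]` with
`T_ℓ x = a_ℓ(W) • x` for all primes `ℓ ∤ N · p · Δ(W)`.

No tensor product is needed: the eigenvalues `a_ℓ(W)` are `𝔽_p`-rational, so linear independence
of the coefficients `w j` over `𝔽_p` gives the eigen-identity for each character `c j` separately.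
-/

set_option autoImplicit false
set_option linter.style.haveILetI false

open WeierstrassCurve WeierstrassCurve.Affine WeierstrassCurve.Affine.Point
open CuspForm ModularFormClass ModularCurve

namespace Fermat.Agent.Ribet.H823

open Fermat.Agent.Ribet.Spec Fermat.Agent.S29

/-- Coordinates: an `F`-eigen-identity with an `𝔽_p`-rational eigenvalue `t` and `𝔽_p`-linearly
independent coefficients holds coefficientwise. -/
theorem h823_coord_eq {p : ℕ} {F : Type*} [Field F] [Algebra (ZMod p) F]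
    {n : ℕ} (w : Fin n → F) (hw : LinearIndependent (ZMod p) w)
    (u v : Fin n → ZMod p) (t : ZMod p)
    (h : ∑ j, w j * algebraMap (ZMod p) F (u j)
      = algebraMap (ZMod p) F t * ∑ j, w j * algebraMap (ZMod p) F (v j)) :
    ∀ j, u j = t * v j := by
  have h0 : ∑ j, (u j - t * v j) • w j = 0 := by
    have e : ∀ j, (u j - t * v j) • w j
        = w j * algebraMap (ZMod p) F (u j)
          - algebraMap (ZMod p) F t * (w j * algebraMap (ZMod p) F (v j)) := by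
      intro j
      rw [Algebra.smul_def, map_sub, map_mul]
      ring
    simp only [e]
    rw [Finset.sum_sub_distrib, ← Finset.mul_sum, h, sub_self]
  intro j
  have := Fintype.linearIndependent_iff.1 hw (fun j => u j - t * v j) h0 j
  exact sub_eq_zero.mp this

/-- **Occurrence.**  The eigensystem `ℓ ↦ a_ℓ(W)` of a congruence witness of level `N` occurs in
`J₀(N)[p]`, away from the primes dividing `N · p · Δ(W)`. -/
theorem occursIn_of_witness (hA : M4aStatement) (hB : M4bStatement)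
    (P : FreyPackage) (N : ℕ) [NeZero N]
    (f : CuspForm (CongruenceSubgroup.Gamma0 N) 2) (W : WeierstrassCurve ℤ)
    (𝔪 : Ideal (integralClosure ℤ ℂ)) (h : P.IsCongruentWitness N f W 𝔪)
    (hΔ : P.freyCurve.Δ ≠ 0) :
    OccursIn N P.p (N * P.p * W.Δ.natAbs).primeFactors (fun ℓ => W.apOfModel ℓ) := by
  classical
  obtain ⟨hf, hW, hmax, hp𝔪, hcong⟩ := h
  have hWΔ : W.Δ ≠ 0 := (H764.disc_ne_zero_iff_of_isIntegralModelOf hW).mpr hΔ
  have hpF : Fact P.p.Prime := ⟨P.pp⟩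
  have := hmax
  letI : Field (integralClosure ℤ ℂ ⧸ 𝔪) := Ideal.Quotient.field 𝔪
  have : CharP (integralClosure ℤ ℂ ⧸ 𝔪) P.p := by
    rw [CharP.charP_iff_prime_eq_zero P.pp]
    have : ((P.p : integralClosure ℤ ℂ ⧸ 𝔪)) = Ideal.Quotient.mk 𝔪 (P.p : integralClosure ℤ ℂ) := by
      simp
    rw [this]
    exact Ideal.Quotient.eq_zero_iff_mem.mpr hp𝔪
  let F : Type := AlgebraicClosure (integralClosure ℤ ℂ ⧸ 𝔪)
  letI : Algebra (ZMod P.p) F := ZMod.algebra F P.p
  let ψ : integralClosure ℤ ℂ →+* F :=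
    (algebraMap (integralClosure ℤ ℂ ⧸ 𝔪) F).comp (Ideal.Quotient.mk 𝔪)
  have hψ𝔪 : ∀ x ∈ 𝔪, ψ x = 0 := by
    intro x hx
    show algebraMap (integralClosure ℤ ℂ ⧸ 𝔪) F (Ideal.Quotient.mk 𝔪 x) = 0
    rw [Ideal.Quotient.eq_zero_iff_mem.mpr hx, _root_.map_zero]
  let a : ℕ → integralClosure ℤ ℂ := fun ℓ =>
    if h : ℓ.Prime ∧ ¬ ℓ ∣ N then ⟨ModularFormClass.qCoeff f ℓ, H642.isIntegral_qCoeff hf h.1 h.2⟩
    else 0
  have ha : ∀ ℓ : ℕ, ℓ.Prime → ¬ ℓ ∣ N →
      ((a ℓ : integralClosure ℤ ℂ) : ℂ) = ModularFormClass.qCoeff f ℓ := by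
    intro ℓ hℓ hℓN
    simp only [a, dif_pos (And.intro hℓ hℓN)]
  obtain ⟨n, w, c, hw, hc, ⟨j₀, hj₀⟩, hid⟩ := hA N f hf P.p F ψ a ha
  obtain ⟨κ, hκadd, hκinj, hκT⟩ := hB N P.p
  -- the `𝔽_p`-module structure on `J₀(N)[p]`
  letI : Module (ZMod P.p) (Jp N P.p) := AddCommGroup.zmodModule (n := P.p) (fun x => by
    have hx := x.2
    rw [Submodule.mem_torsionBy_iff] at hx
    apply Subtype.ext
    have h2 : ((P.p • x : Jp N P.p) : JZero N) = (P.p : ℤ) • (x : JZero N) := by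
      rw [natCast_zsmul]
      exact Submodule.coe_smul_of_tower P.p x
    rw [h2, hx]
    rfl)
  have hN0 : N ≠ 0 := NeZero.ne N
  have hne : N * P.p * W.Δ.natAbs ≠ 0 :=
    mul_ne_zero (mul_ne_zero hN0 P.hp0) (Int.natAbs_ne_zero.mpr hWΔ)
  -- the eigen-identity for `c j₀`
  have heig : ∀ ℓ : ℕ, ℓ.Prime → ℓ ∉ (N * P.p * W.Δ.natAbs).primeFactors →
      heckeCoh N ℓ (c j₀) = ((W.apOfModel ℓ : ℤ) : ZMod P.p) • c j₀ := by
    intro ℓ hℓ hℓS
    have hnd : ¬ ℓ ∣ N * P.p * W.Δ.natAbs := fun hd =>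
      hℓS (Nat.mem_primeFactors.mpr ⟨hℓ, hd, hne⟩)
    have hℓNp : ¬ ℓ ∣ N * P.p := fun hd => hnd (Dvd.dvd.mul_right hd _)
    have hℓN : ¬ ℓ ∣ N := fun hd => hℓNp (Dvd.dvd.mul_right hd _)
    have hℓp : ℓ ≠ P.p := fun he => hℓNp (he ▸ Dvd.intro_left N rfl)
    have hgood : W.IsGoodPrimeFor ℓ := fun hd =>
      hnd (Dvd.dvd.mul_left (Int.natCast_dvd.mp hd) _)
    obtain ⟨b, hbC, hb𝔪⟩ := hcong ℓ hℓ hgood hℓN hℓp
    have hab : a ℓ = b := Subtype.ext ((ha ℓ hℓ hℓN).trans hbC.symm)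
    have hψa : ψ (a ℓ) = algebraMap (ZMod P.p) F ((W.apOfModel ℓ : ℤ) : ZMod P.p) := by
      have h1 := hψ𝔪 _ hb𝔪
      rw [map_sub, sub_eq_zero, map_intCast] at h1
      rw [hab, h1, map_intCast]
    funext γ
    have h2 := hid ℓ hℓ hℓNp γ
    rw [hψa] at h2
    have h3 := h823_coord_eq w hw (fun j => heckeCoh N ℓ (c j) γ) (fun j => c j γ) _ h2 j₀
    simpa [Pi.smul_apply, smul_eq_mul] using h3
  -- the class
  have hκsmul : ∀ t : ZMod P.p, κ (t • c j₀) = t • κ (c j₀) := by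
    intro t
    have h1 := (M4c_kappa_sum (fun c : G0 N → ZMod P.p => IsParHom c) κ (M4c_isParHom_zero N)
      (fun c c' h h' => M4c_isParHom_add h h') hκadd (fun _ : Fin 1 => c j₀) (fun _ => hc j₀)
      (fun _ => t)).2
    simpa using h1
  refine ⟨((κ (c j₀) : Jp N P.p) : JZero N), ?_, ?_, ?_⟩
  · intro h0
    exact hj₀ (hκinj _ (hc j₀) (Subtype.ext h0))
  · have hx := (κ (c j₀)).2
    rw [Submodule.mem_torsionBy_iff] at hx
    rw [← natCast_zsmul]
    exact hx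
  · intro ℓ hℓS
    have hnd : ¬ (ℓ : ℕ) ∣ N * P.p * W.Δ.natAbs := fun hd =>
      hℓS (Nat.mem_primeFactors.mpr ⟨ℓ.2, hd, hne⟩)
    have hℓNp : ¬ (ℓ : ℕ) ∣ N * P.p := fun hd => hnd (Dvd.dvd.mul_right hd _)
    have h1 := hκT ℓ hℓNp (c j₀) (hc j₀)
    rw [heig ℓ ℓ.2 hℓS, hκsmul, Int.cast_smul_eq_zsmul] at h1
    have h2 := congrArg (fun y : Jp N P.p => (y : JZero N)) h1
    simp only [coe_heckeJp] at h2
    rw [← h2]
    rfl

end Fermat.Agent.Ribet.H823

end
-- ===== PACK-END Ribet/H823/Occurs.lean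

-- ===== PACK-BEGIN Ribet/H823/Embed.lean
section








/-!
# Row RIBET, piece R1-GLUE (helper823): `Spec.EmbedStatement` from its inputs

`embedStatement_of : RawESStatement → M4aStatement → M4bStatement → TraceFormulaStatement →
  DetFrobStatement → Spec.EmbedStatement`.

Inputs, as hypotheses: the S29 pieces `RawES` (Eichler–Shimura relation on `J₀(N)[p]`), `M4a`,
`M4b`; the trace formula (TF) and `det ρ(Frob_q) = q` (DETF) for the Frey curve.
Landed inputs: Boston–Lenstra–Ribet (`Lib/Ribet/H223`), `Orb` (S29/H449), GEQ + SMOOTH (S29/H42),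
the auxiliary prime (`Ribet/H463`), `dim E[p] = 2` (`Ribet/H643`), finite level of `E[p]`
(`S59/H127`), existence of Frobenius elements (`S54`).

The involution required by BLR is a Frobenius at the auxiliary prime `q'` (`q' ≡ -1`,
`a_{q'} ≡ 0 mod p`): its characteristic polynomial on `E[p]` is `X² - 1` and its trace is `0 ≠ ±2`.
-/

set_option autoImplicit false
set_option linter.style.haveILetI false

open WeierstrassCurve WeierstrassCurve.Affine WeierstrassCurve.Affine.Point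
open CuspForm ModularFormClass ModularCurve

namespace Fermat.Agent.Ribet.H823

open Fermat.Agent.Ribet.Spec

/-- The mod-`p` representation of the Frey curve. -/
noncomputable abbrev h823_rho (P : FreyPackage) : GQ →* Module.End (ZMod P.p) (FreyTorsion P) :=
  galoisRepModuleEnd (S := ℚ) (K := AlgebraicClosure ℚ) P.freyCurve P.p

/-- The Frey curve is elliptic over `ℚ`. -/
theorem h823_frey_isElliptic (P : FreyPackage) : P.freyCurve.IsElliptic :=
  ⟨isUnit_iff_ne_zero.mpr (Fermat.Agent.S13.H891.freyCurve_Δ_ne_zero P)⟩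

/-- `E[p]` has finite level. -/
theorem h823_rho_finiteLevel (P : FreyPackage) :
    GaloisFactorsThroughFiniteLevel (h823_rho P) := by
  haveI := H643.h643_frey_isElliptic P
  obtain ⟨L, hL, hfix⟩ := Fermat.Agent.S59.H127.exists_finite_level P.freyCurve P.p P.pp.one_le
  refine ⟨L, hL, fun σ hσ => ?_⟩
  ext x
  have hx : P.p • (x : (P.freyCurve⁄(AlgebraicClosure ℚ)).Point) = 0 := by
    have := x.2
    rw [Submodule.mem_torsionBy_iff] at this
    rw [← natCast_zsmul]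
    exact this
  exact hfix σ hσ _ hx

/-- Irreducibility in the form used by BLR. -/
theorem h823_rho_irreducible (P : FreyPackage)
    (hirr : GaloisRepIsIrreducible (K := AlgebraicClosure ℚ) ℚ P.freyCurve P.p) :
    ∀ U : Submodule (ZMod P.p) (FreyTorsion P), (∀ g, U ≤ U.comap (h823_rho P g)) →
      U = ⊥ ∨ U = ⊤ := by
  intro U hU
  exact hirr.2 U (fun σ x hx => hU σ hx)

/-- `2 ≠ 0` in `𝔽_p`. -/
theorem h823_two_ne_zero (P : FreyPackage) : (2 : ZMod P.p) ≠ 0 := by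
  haveI : Fact P.p.Prime := ⟨P.pp⟩
  intro h
  have h2 : ((2 : ℕ) : ZMod P.p) = 0 := by exact_mod_cast h
  rw [ZMod.natCast_eq_zero_iff] at h2
  have := Nat.le_of_dvd (by norm_num) h2
  have := P.hp5
  omega

/-- **The involution.**  A Frobenius at the auxiliary prime acts on `E[p]` as an involution
different from `± 1`. -/
theorem h823_exists_involution (hTF : TraceFormulaStatement) (hDET : DetFrobStatement)
    (P : FreyPackage) (W : WeierstrassCurve ℤ) (hW : W.IsIntegralModelOf P.freyCurve)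
    (hirr : GaloisRepIsIrreducible (K := AlgebraicClosure ℚ) ℚ P.freyCurve P.p) :
    ∃ c : GQ, h823_rho P c * h823_rho P c = 1 ∧ h823_rho P c ≠ 1 ∧ h823_rho P c ≠ -1 := by
  haveI : Fact P.p.Prime := ⟨P.pp⟩
  haveI := h823_frey_isElliptic P
  have h2 : Module.finrank (ZMod P.p) (FreyTorsion P) = 2 := H643.torsionRank P
  haveI : Module.Finite (ZMod P.p) (FreyTorsion P) := Module.finite_of_finrank_eq_succ h2
  have hk2 := h823_two_ne_zero P
  obtain ⟨q', hq', -, hq'p, -, hgood, hdvd, ha⟩ := H463.auxPrime P 1 W one_pos hW hirr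
  obtain ⟨A, τ, hA, hτ⟩ := Fermat.Agent.S54.exists_frobenius q' hq'
  have htr : LinearMap.trace (ZMod P.p) (FreyTorsion P) (h823_rho P τ) = 0 := by
    have h := hTF P.freyCurve W hW P.p q' P.pp hq' hq'p hgood A hA τ hτ
    rw [galoisTrace_def] at h
    rw [h]
    exact (ZMod.intCast_zmod_eq_zero_iff_dvd _ _).mpr ha
  have hdet : LinearMap.det (h823_rho P τ) = -1 := by
    have h := hDET P q' hq' hq'p A hA τ hτ
    rw [h]
    have h1 : ((q' + 1 : ℕ) : ZMod P.p) = 0 := (ZMod.natCast_eq_zero_iff _ _).mpr hdvd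
    push_cast at h1
    exact eq_neg_of_add_eq_zero_left h1
  have hCH := Fermat.Agent.Lib.Ribet.H223.cayley_hamilton_two h2 (h823_rho P τ)
  rw [htr, hdet, zero_smul, sub_zero, neg_smul, one_smul, add_neg_eq_zero] at hCH
  refine ⟨τ, hCH, ?_, ?_⟩
  · intro h1
    have h3 := congrArg (LinearMap.trace (ZMod P.p) (FreyTorsion P)) h1
    rw [htr, LinearMap.trace_one, h2] at h3
    exact hk2 (by exact_mod_cast h3.symm)
  · intro h1
    have h3 := congrArg (LinearMap.trace (ZMod P.p) (FreyTorsion P)) h1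
    rw [htr, map_neg, LinearMap.trace_one, h2] at h3
    have h4 : ((2 : ℕ) : ZMod P.p) = 0 := by
      rw [eq_comm, neg_eq_zero] at h3
      exact h3
    exact hk2 (by exact_mod_cast h4)

/-- The subgroup of `J₀(N)[p]` on which `T_ℓ` acts through `a ℓ` for all primes `ℓ ∉ S`. -/
def h823_eigenSub (N p : ℕ) [NeZero N] (S : Finset ℕ) (a : ℕ → ℤ) : AddSubgroup (JZero N) where
  carrier := {z | p • z = 0 ∧ ∀ ℓ : Nat.Primes, (ℓ : ℕ) ∉ S → heckeOperatorBar N ℓ z = a ℓ • z}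
  zero_mem' := ⟨smul_zero _, fun ℓ _ => by rw [_root_.map_zero, smul_zero]⟩
  add_mem' := by
    rintro x y ⟨h1, h2⟩ ⟨h1', h2'⟩
    exact ⟨by rw [nsmul_add, h1, h1', add_zero],
      fun ℓ hℓ => by rw [_root_.map_add, h2 ℓ hℓ, h2' ℓ hℓ, zsmul_add]⟩
  neg_mem' := by
    rintro x ⟨h1, h2⟩
    exact ⟨by rw [neg_nsmul, h1, _root_.neg_zero],
      fun ℓ hℓ => by rw [_root_.map_neg, h2 ℓ hℓ, zsmul_neg]⟩

theorem h823_mem_eigenSub {N p : ℕ} [NeZero N] {S : Finset ℕ} {a : ℕ → ℤ} {z : JZero N} :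
    z ∈ h823_eigenSub N p S a ↔
      p • z = 0 ∧ ∀ ℓ : Nat.Primes, (ℓ : ℕ) ∉ S → heckeOperatorBar N ℓ z = a ℓ • z :=
  Iff.rfl

/-- The eigen-subgroup is Galois stable (GEQ). -/
theorem h823_eigenSub_galois (N p : ℕ) [NeZero N] (S : Finset ℕ) (a : ℕ → ℤ) (σ : GQ)
    (z : JZero N) (hz : z ∈ h823_eigenSub N p S a) : σ • z ∈ h823_eigenSub N p S a := by
  obtain ⟨h1, h2⟩ := hz
  refine ⟨?_, fun ℓ hℓ => ?_⟩
  · have := map_nsmul (DistribSMul.toAddMonoidHom (JZero N) σ) p z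
    rw [h1, _root_.map_zero] at this
    exact this.symm
  · rw [Fermat.Agent.S29.H42.galois_smul_heckeOperatorBar N ℓ σ z, h2 ℓ hℓ]
    exact map_zsmul (DistribSMul.toAddMonoidHom (JZero N) σ) (a ℓ) z

/-- **BLR for the Frey curve**: an eigensystem `a_ℓ(W)` occurring in `J₀(N)[p]` away from a finite
set `S ⊇ {ℓ ∣ N p Δ(W)}` gives an equivariant embedding `E[p] ↪ J₀(N)`. -/
theorem freyEmbedsIn_of_occursIn (hES : Fermat.Agent.S29.RawESStatement)
    (hTF : TraceFormulaStatement) (hDET : DetFrobStatement)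
    (P : FreyPackage) (N : ℕ) [NeZero N]
    (hirr : GaloisRepIsIrreducible (K := AlgebraicClosure ℚ) ℚ P.freyCurve P.p)
    (W : WeierstrassCurve ℤ) (hW : W.IsIntegralModelOf P.freyCurve) (S : Finset ℕ)
    (hS : (N * P.p * W.Δ.natAbs).primeFactors ⊆ S)
    (hocc : OccursIn N P.p S (fun ℓ => W.apOfModel ℓ)) :
    FreyEmbedsIn P N S (fun ℓ => W.apOfModel ℓ) := by
  haveI : Fact P.p.Prime := ⟨P.pp⟩
  haveI := h823_frey_isElliptic P
  have hWΔ : W.Δ ≠ 0 := (H764.disc_ne_zero_iff_of_isIntegralModelOf hW).mpr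
    (Fermat.Agent.S13.H891.freyCurve_Δ_ne_zero P)
  have hne : N * P.p * W.Δ.natAbs ≠ 0 :=
    mul_ne_zero (mul_ne_zero (NeZero.ne N) P.hp0) (Int.natAbs_ne_zero.mpr hWΔ)
  obtain ⟨c, hc, hc1, hc2⟩ := h823_exists_involution hTF hDET P W hW hirr
  obtain ⟨x, hx0, hxp, hxT⟩ := hocc
  obtain ⟨ι, hinj, heq, hmem⟩ := h823_embed_abstract (h823_two_ne_zero P) (H643.torsionRank P)
    (h823_rho P) (h823_rho_finiteLevel P) (h823_rho_irreducible P hirr) c hc hc1 hc2
    (h823_eigenSub N P.p S (fun ℓ => W.apOfModel ℓ))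
    (fun z hz => hz.1)
    (h823_eigenSub_galois N P.p S _)
    (fun z hz => Fermat.Agent.S29.H42.jZero_exists_finite_level_fix_torsion N P.hp0 z
      (by rw [natCast_zsmul]; exact hz.1))
    ⟨x, ⟨hxp, hxT⟩, hx0⟩ S
    (by
      intro ℓ A τ hℓ hℓS hA hτ
      have hℓS' : ℓ ∉ (N * P.p * W.Δ.natAbs).primeFactors := fun h => hℓS (hS h)
      have hnd : ¬ ℓ ∣ N * P.p * W.Δ.natAbs := fun hd =>
        hℓS' (Nat.mem_primeFactors.mpr ⟨hℓ, hd, hne⟩)
      have hℓNp : ¬ ℓ ∣ N * P.p := fun hd => hnd (Dvd.dvd.mul_right hd _)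
      have hℓp : ℓ ≠ P.p := fun he => hℓNp (he ▸ Dvd.intro_left N rfl)
      have hgood : W.IsGoodPrimeFor ℓ := fun hd =>
        hnd (Dvd.dvd.mul_left (Int.natCast_dvd.mp hd) _)
      refine ⟨W.apOfModel ℓ, (ℓ : ℤ), ?_, ?_, ?_⟩
      · have h := hTF P.freyCurve W hW P.p ℓ P.pp hℓ hℓp hgood A hA τ hτ
        rw [galoisTrace_def] at h
        exact h
      · have h := hDET P ℓ hℓ hℓp A hA τ hτ
        rw [Int.cast_natCast]
        exact h
      · intro z hz
        have h1 := (hES N P.p P.pp ℓ hℓ hℓNp A hA).2 τ hτ z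
          (by rw [natCast_zsmul]; exact hz.1)
        have h2 := (h823_eigenSub_galois N P.p S _ τ z hz).2 ⟨ℓ, hℓ⟩ hℓS
        rw [h2] at h1
        exact h1)
  refine ⟨ι, hinj, fun σ w => heq σ w, fun ℓ hℓ w => (hmem w).2 ℓ hℓ⟩

/-- **R1-GLUE**: `Spec.EmbedStatement` from the S29 pieces `RawES`, `M4a`, `M4b`, the trace
formula and `det ρ(Frob) = q`. -/
theorem embedStatement_of (hES : Fermat.Agent.S29.RawESStatement)
    (hA : Fermat.Agent.S29.M4aStatement) (hB : Fermat.Agent.S29.M4bStatement)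
    (hTF : TraceFormulaStatement) (hDET : DetFrobStatement) : EmbedStatement := by
  intro P N _ hirr f W 𝔪 hw
  exact ⟨_, freyEmbedsIn_of_occursIn hES hTF hDET P N hirr W hw.2.1 _ (Finset.Subset.refl _)
    (occursIn_of_witness hA hB P N f W 𝔪 hw (Fermat.Agent.S13.H891.freyCurve_Δ_ne_zero P))⟩

end Fermat.Agent.Ribet.H823

end
-- ===== PACK-END Ribet/H823/Embed.lean

-- ===== PACK-BEGIN S29/M4b/K3/Basic.lean
section
/-
S29 row, M4b, piece K3 — basic lemmas for the top assembly (helper42).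

* `isMerInf_of_isTwisted` : a twisted function of a parabolic character has a `q`-expansion at `i∞`.
* `exists_div_AK`, `exists_div_goodQ` : elements of the function fields over `ℚ̄` / `ℂ` are
  quotients of polynomials in the `j(q^d)` / of `q`-expansions of good functions.
* `hasChar_of_mul_eq` : transport of the character along `U' * B = ζ * U * A`.
-/



set_option autoImplicit false

noncomputable section

open ModularCurve AlgebraicCurve CongruenceSubgroup UpperHalfPlane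
open scoped MatrixGroups Manifold

namespace Fermat.Agent.S29.M4b.K3

open Fermat.Agent.S24 Fermat.Agent.S24.H648 Fermat.Agent.S24.H708 Fermat.Agent.S24.Deg457
open Fermat.Agent.S24.H624
open Fermat.Agent.S29 Fermat.Agent.S29.M4b

variable {N : ℕ} [NeZero N] {p : ℕ} [NeZero p]

/-- The translation `T` as an element of `Γ₀(N)`. -/
def TG (N : ℕ) : G0 N := ⟨ModularGroup.T, H882.T_mem_Gamma0 N⟩

omit [NeZero N] in
theorem trace_TG : (TG N).mat.trace = 2 := by
  simp [TG, G0.mat, ModularGroup.T, Matrix.trace_fin_two]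

omit [NeZero N] [NeZero p] in
/-- A twisted function of a parabolic character is `1`-periodic. -/
theorem periodic_of_isTwisted {c : G0 N → ZMod p} (hc : IsParHom c) {U : ℍ → ℂ}
    (hU : HasChar N p c U) : Function.Periodic (U ∘ ofComplex) (1 : ℝ) := by
  have hT : ∀ τ : ℍ, U (ModularGroup.T • τ) = U τ := by
    intro τ
    have h := hU (TG N) τ
    rw [hc.parabolic (TG N) (Or.inl trace_TG)] at h
    simpa [TG] using h
  intro w
  by_cases hw : 0 < Complex.im w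
  · have hw' : 0 < Complex.im (w + ((1 : ℝ) : ℂ)) := by simpa using hw
    simp only [Function.comp_apply, ofComplex_apply_of_im_pos hw', ofComplex_apply_of_im_pos hw]
    rw [← hT ⟨w, hw⟩]
    congr 1
    apply UpperHalfPlane.ext
    rw [UpperHalfPlane.modular_T_smul, UpperHalfPlane.coe_vadd]
    simp [add_comm]
  · have hw0 : Complex.im w ≤ 0 := not_lt.mp hw
    have hw' : Complex.im (w + ((1 : ℝ) : ℂ)) ≤ 0 := by simpa using hw0
    simp only [Function.comp_apply]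
    rw [ofComplex_apply_of_im_nonpos hw', ofComplex_apply_of_im_nonpos hw0]

omit [NeZero N] in
/-- If `U ^ p` has at most exponential growth, so has `U`. -/
theorem expGrowth_of_pow {U : ℍ → ℂ} (h : ExpGrowth (fun τ => U τ ^ p)) : ExpGrowth U := by
  obtain ⟨C, m, hC⟩ := h
  refine ⟨1 + |C|, m, fun τ hτ => ?_⟩
  have h1 := hC τ hτ
  rw [norm_pow] at h1
  have hp : p ≠ 0 := NeZero.ne p
  have hexp : (1 : ℝ) ≤ Real.exp (2 * Real.pi * m * τ.im) := by
    apply Real.one_le_exp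
    have := Real.pi_pos
    have := τ.im_pos
    positivity
  by_cases hle : ‖U τ‖ ≤ 1
  · calc ‖U τ‖ ≤ 1 := hle
      _ ≤ (1 + |C|) * 1 := by have := abs_nonneg C; linarith
      _ ≤ (1 + |C|) * Real.exp (2 * Real.pi * m * τ.im) := by
          apply mul_le_mul_of_nonneg_left hexp
          have := abs_nonneg C; linarith
  · have hgt : 1 ≤ ‖U τ‖ := (not_le.mp hle).le
    have h2 : ‖U τ‖ ≤ ‖U τ‖ ^ p := le_self_pow₀ hgt hp
    calc ‖U τ‖ ≤ ‖U τ‖ ^ p := h2
      _ ≤ C * Real.exp (2 * Real.pi * m * τ.im) := h1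
      _ ≤ (1 + |C|) * Real.exp (2 * Real.pi * m * τ.im) := by
          apply mul_le_mul_of_nonneg_right _ (Real.exp_pos _).le
          have := le_abs_self C; linarith

omit [NeZero N] in
/-- **K3a**: a twisted function of a parabolic character is meromorphic at `i∞` in `q`. -/
theorem isMerInf_of_isTwisted {c : G0 N → ZMod p} (hc : IsParHom c) {U : ℍ → ℂ}
    (hU : IsTwisted N p c U) : IsMerInf 1 U := by
  refine ⟨hU.mdiff, ?_, ?_⟩
  · have := periodic_of_isTwisted hc hU.hasChar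
    simpa using this
  · obtain ⟨-, -, h3⟩ := hU.pow_mem
    have h := h3 1
    simp only [one_smul] at h
    exact H882.isBounded_mul_qh_pow_of_expGrowth (expGrowth_of_pow h)

/-! ### Quotient presentations -/

section Quot

variable (K : Type*) [Field K] [Algebra ℚ K]

omit [NeZero N] in
/-- The polynomials in the `j(q^d)` lie in the function field. -/
theorem AK_le_laurentBaseChange (N : ℕ) :
    AK K N ≤ (laurentBaseChange K (modularFunctionFieldFull N)).toSubalgebra := by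
  refine Algebra.adjoin_le ?_
  rintro _ ⟨y, hy, rfl⟩
  exact coeffEmb_mem_laurentBaseChange K (IntermediateField.subset_adjoin ℚ _ hy)

omit [NeZero N] in
/-- Every element of the function field is a quotient of two polynomials in the `j(q^d)`. -/
theorem exists_div_AK (N : ℕ) {x : LaurentSeries K}
    (hx : x ∈ laurentBaseChange K (modularFunctionFieldFull N)) :
    ∃ r ∈ AK K N, ∃ s ∈ AK K N, s ≠ 0 ∧ x = r / s := by
  have h := laurentBaseChange_full_le (K := K) N hx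
  rw [IntermediateField.mem_adjoin_iff_div] at h
  obtain ⟨r, hr, s, hs, rfl⟩ := h
  by_cases hs0 : s = 0
  · refine ⟨0, zero_mem _, 1, one_mem _, one_ne_zero, ?_⟩
    rw [hs0, div_zero, zero_div]
  · exact ⟨r, hr, s, hs, hs0, rfl⟩

end Quot

/-- Every element of `F_ℂ` is a quotient of `q`-expansions of good functions. -/
theorem exists_div_goodQ {x : LaurentSeries ℂ} (hx : x ∈ FC N) :
    ∃ a ∈ H882.goodQ N, ∃ b ∈ H882.goodQ N, b ≠ 0 ∧ x = a / b := by
  obtain ⟨r, hr, s, hs, hs0, h⟩ := exists_div_AK ℂ N hx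
  exact ⟨r, H882.AK_le_goodQ N hr, s, H882.AK_le_goodQ N hs, hs0, h⟩

/-! ### Transport of the character -/

omit [NeZero N] [NeZero p] in
/-- If `U' * B = ζ * (U * A)` with `A`, `B` invariant under `Γ₀(N)`, `B ≠ 0`, all functions
holomorphic, and `U` has character `c`, then `U'` has character `c`. -/
theorem hasChar_of_mul_eq {c : G0 N → ZMod p} {U U' A B : ℍ → ℂ} (ζ : ℂ)
    (hU' : MDifferentiable 𝓘(ℂ) 𝓘(ℂ) U') (hB : MDifferentiable 𝓘(ℂ) 𝓘(ℂ) B) (hB0 : B ≠ 0)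
    (hAinv : ∀ γ ∈ Gamma0 N, ∀ τ : ℍ, A (γ • τ) = A τ)
    (hBinv : ∀ γ ∈ Gamma0 N, ∀ τ : ℍ, B (γ • τ) = B τ)
    (hU : HasChar N p c U) (h : ∀ τ, U' τ * B τ = ζ * (U τ * A τ)) : HasChar N p c U' := by
  intro γ τ₀
  -- the holomorphic function `D τ = U' (γ τ) - χ U' τ`
  set χ : ℂ := zetaP p ^ (c γ).val with hχ
  set D : ℍ → ℂ := fun τ => U' ((γ : SL(2, ℤ)) • τ) - χ * U' τ with hD
  have hDm : MDifferentiable 𝓘(ℂ) 𝓘(ℂ) D := by
    have h1 : MDifferentiable 𝓘(ℂ) 𝓘(ℂ) (fun τ : ℍ => U' ((γ : SL(2, ℤ)) • τ)) :=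
      (precompSL (γ : SL(2, ℤ)) ⟨U', hU'⟩).2
    have h2 : MDifferentiable 𝓘(ℂ) 𝓘(ℂ) (fun τ : ℍ => χ * U' τ) :=
      (mdifferentiable_const (c := χ)).mul hU'
    exact h1.sub h2
  have hDB : D * B = 0 := by
    funext τ
    simp only [Pi.mul_apply, Pi.zero_apply, hD]
    have e1 := h ((γ : SL(2, ℤ)) • τ)
    rw [hBinv _ γ.2 τ, hAinv _ γ.2 τ, hU γ τ] at e1
    have e2 := h τ
    calc (U' ((γ : SL(2, ℤ)) • τ) - χ * U' τ) * B τ
        = U' ((γ : SL(2, ℤ)) • τ) * B τ - χ * (U' τ * B τ) := by ring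
      _ = ζ * (zetaP p ^ (c γ).val * U τ * A τ) - χ * (ζ * (U τ * A τ)) := by rw [e1, e2]
      _ = 0 := by rw [hχ]; ring
  rcases mul_eq_zero_of_mdiff hDm hB hDB with h0 | h0
  · have := congrFun h0 τ₀
    simp only [hD, Pi.zero_apply] at this
    exact sub_eq_zero.mp this
  · exact absurd h0 hB0

end Fermat.Agent.S29.M4b.K3

end
end
-- ===== PACK-END S29/M4b/K3/Basic.lean

-- ===== PACK-BEGIN S29/M4b/K3/Top.lean
section
/-
S29 row, LAYER M, SUB-LAYER M4b, PIECE K3 (descent `ℂ → ℚ̄`) — TOP ASSEMBLY (helper42).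

`exists_realised_isTwisted_of` = the EXACT statement of piece `K3` of helper822's
`M4b/Skeleton.lean` (`exists_realised_isTwisted`), PROVED from
* `DegStatement N`   (sub-piece K3-DEG),
* `FinStatement N p` (sub-piece K3-FIN),
* `H152.desc_main` (helper152, places-free descent), ROOT `H751`, MERO `H882`.

Proof.  `f = qexp (U^p) ∈ F_ℂ` (MERO), `h = qexp U`, `h^p = f`.  By `desc_main` there are
`g ∈ F_ℂˣ`, `f' ∈ FF N` with `f g^p = ι f'`.  Write `f' = r / s` with `r, s` polynomials in the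
`j(q^d)` over `ℚ̄`; `u := r s^(p-1) = f' s^p` is realised by a good function `G'`
(`AK ⊆ goodQ`).  Write `g ι(s) = a / b` with `a = qexp A`, `b = qexp B`, `A B` good.  Then
`G' B^p = (U A)^p`, so all orders of `G'` are divisible by `p`, `G' = U'^p` (ROOT), and
`U' B = ζ U A`, whence `U'` has the character of `U`.
-/




set_option autoImplicit false
set_option linter.style.haveILetI false

noncomputable section

open ModularCurve AlgebraicCurve CongruenceSubgroup UpperHalfPlane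
open scoped MatrixGroups Manifold

namespace Fermat.Agent.S29.M4b.K3

open Fermat.Agent.S24 Fermat.Agent.S24.H648 Fermat.Agent.S24.H708 Fermat.Agent.S24.Deg457
open Fermat.Agent.S24.H624
open Fermat.Agent.S29 Fermat.Agent.S29.M4b

theorem order_jq : jq.order = -1 := by
  have hne : jq ≠ 0 := by
    intro h
    have h1 := coeff_jq_neg_one
    rw [h, HahnSeries.coeff_zero] at h1
    exact zero_ne_one h1
  refine le_antisymm (HahnSeries.order_le_of_coeff_ne_zero ?_) ?_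
  · rw [coeff_jq_neg_one]
    exact one_ne_zero
  · by_contra hlt
    rw [not_le] at hlt
    refine HahnSeries.coeff_order_eq_zero.not.mpr hne ?_
    exact coeff_jq_of_lt hlt

/-- ROOT with divisibility read off from an identity `G * B ^ p = V ^ p`. -/
theorem exists_root_of_mul_pow_eq {p : ℕ} (hp : p ≠ 0) {G B V : ℍ → ℂ}
    (hG : MDifferentiable 𝓘(ℂ) 𝓘(ℂ) G) (hB : MDifferentiable 𝓘(ℂ) 𝓘(ℂ) B)
    (hV : MDifferentiable 𝓘(ℂ) 𝓘(ℂ) V) (hB0 : B ≠ 0) (hV0 : V ≠ 0)
    (h : ∀ τ, G τ * B τ ^ p = V τ ^ p) :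
    ∃ U' : ℍ → ℂ, MDifferentiable 𝓘(ℂ) 𝓘(ℂ) U' ∧ ∀ τ : ℍ, U' τ ^ p = G τ := by
  refine H751.exists_pow_eq_UHP hG p hp fun τ => ?_
  have hfun : G * B ^ p = V ^ p := funext h
  have h1 : ordAt τ (G * B ^ p) = ordAt τ G + p • ordAt τ B := by
    rw [ordAt_mul hG (hB.pow p)]
    congr 1
    rw [ordAt_def, ordAt_def]
    have : (B ^ p) ∘ ofComplex = (B ∘ ofComplex) ^ p := rfl
    rw [this, analyticOrderAt_pow (analyticAt_of_mdiff hB τ)]
  have h2 : ordAt τ (V ^ p) = p • ordAt τ V := by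
    rw [ordAt_def, ordAt_def]
    have : (V ^ p) ∘ ofComplex = (V ∘ ofComplex) ^ p := rfl
    rw [this, analyticOrderAt_pow (analyticAt_of_mdiff hV τ)]
  rw [hfun, h2] at h1
  obtain ⟨b, hb⟩ := ENat.ne_top_iff_exists.mp (ordAt_ne_top hB hB0 τ)
  obtain ⟨v, hv⟩ := ENat.ne_top_iff_exists.mp (ordAt_ne_top hV hV0 τ)
  have hGne : ordAt τ G ≠ ⊤ := by
    intro htop
    rw [htop, top_add, ← hv] at h1
    have h4 : ((p * v : ℕ) : ℕ∞) = ⊤ := by
      rw [← h1]; push_cast; simp [nsmul_eq_mul]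
    exact ENat.natCast_ne_top _ h4
  obtain ⟨g, hg⟩ := ENat.ne_top_iff_exists.mp hGne
  rw [← hb, ← hv, ← hg] at h1
  have h3 : p * v = g + p * b := by
    have : ((p * v : ℕ) : ℕ∞) = ((g + p * b : ℕ) : ℕ∞) := by
      push_cast
      simpa [nsmul_eq_mul] using h1
    exact_mod_cast this
  refine ⟨v - b, ?_⟩
  rw [← ordAt_def, ← hg]
  have hbv : b ≤ v := by
    by_contra hlt
    rw [not_le] at hlt
    have : p * v < p * b := Nat.mul_lt_mul_of_pos_left hlt (Nat.pos_of_ne_zero hp)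
    omega
  have : g = p * (v - b) := by
    rw [Nat.mul_sub]
    omega
  rw [this]

/-- **PIECE K3** (exact statement of `exists_realised_isTwisted` in `M4b/Skeleton.lean`), from
the sub-pieces `K3-DEG` and `K3-FIN`. -/
theorem exists_realised_isTwisted_of (N : ℕ) [NeZero N] (p : ℕ) [NeZero p]
    (hdeg : DegStatement N) (hfin : FinStatement N p)
    {c : G0 N → ZMod p} (hc : IsParHom c) {U : ℍ → ℂ} (hU : IsTwisted N p c U) :
    ∃ (U' : ℍ → ℂ) (u : FF N), IsTwisted N p c U' ∧ Realises N u (fun τ => U' τ ^ p) := by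
  classical
  letI : Algebra Kbar ℂ := algKC
  have hp : p ≠ 0 := NeZero.ne p
  -- `q`-expansions of `U` and `U ^ p`
  have hqU : HasQExp 1 U (qexpFun 1 U) := HasQExp.of_isMerInf (isMerInf_of_isTwisted hc hU)
  have hqG : HasQExp 1 (fun τ => U τ ^ p) (qexpFun 1 U ^ p) := hqU.pow p
  have hfFC : qexpFun 1 (fun τ => U τ ^ p) ∈ FC N := H882.qexpFun_mem_FC hU.pow_mem
  have hUne : U ≠ 0 := by
    obtain ⟨τ, hτ⟩ := hU.ne_zero
    intro h0
    exact hτ (by rw [h0]; rfl)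
  have hGne : (fun τ => U τ ^ p) ≠ 0 := by
    obtain ⟨τ, hτ⟩ := hU.ne_zero
    intro h0
    exact pow_ne_zero p hτ (congrFun h0 τ)
  have hf0 : qexpFun 1 (fun τ => U τ ^ p) ≠ 0 := by
    rw [hqG.qexpFun_eq]
    exact fun h0 => hGne (hqG.eq_zero_iff.mp h0)
  -- descent
  obtain ⟨n, hn⟩ := hdeg
  obtain ⟨T, hT, horb⟩ := hfin c hc U hU
  obtain ⟨g, hgF, hg0, -, -, -, f', hf', hfg⟩ := H152.desc_main (K := Kbar) (Ω := ℂ)
    (modularFunctionFieldFull N) jq (modularFunctionField_le_full N (jq_mem N)) order_jq n hn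
    p (Nat.pos_of_ne_zero hp) (qexpFun 1 (fun τ => U τ ^ p)) (qexpFun 1 U) hfFC hf0
    hqG.qexpFun_eq.symm T hT horb
  -- clear the denominator of `f'` by a `p`-th power
  obtain ⟨r, hr, s, hs, hs0, hrs⟩ := exists_div_AK Kbar N hf'
  have hιinj : Function.Injective (coeffMap iotaC) := by
    intro x y hxy
    ext k
    have := congrArg (fun z : LaurentSeries ℂ => z.coeff k) hxy
    simp only [coeffMap_coeff] at this
    exact iotaC.injective this
  have hιs0 : coeffMap iotaC s ≠ 0 := fun h0 => hs0 (hιinj (by rw [h0, map_zero]))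
  set u₀ : LaurentSeries Kbar := r * s ^ (p - 1) with hu₀
  have hu₀AK : u₀ ∈ AK Kbar N := mul_mem hr (pow_mem hs _)
  have hu₀F : u₀ ∈ modularFunctionFieldBar N := AK_le_laurentBaseChange Kbar N hu₀AK
  have hu₀eq : u₀ = f' * s ^ p := by
    rw [hu₀, hrs]
    have : s ^ p = s ^ (p - 1) * s := by
      rw [← pow_succ, Nat.sub_add_cancel (Nat.pos_of_ne_zero hp)]
    rw [this]
    field_simp
  -- `ι u₀ = f * φ ^ p` with `φ = g * ι s ∈ F_ℂ`
  set φ : LaurentSeries ℂ := g * coeffMap iotaC s with hφ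
  have hφF : φ ∈ FC N :=
    mul_mem hgF (AK_le_laurentBaseChange ℂ N (coeffMap_mem_AK iotaC hs))
  have hφ0 : φ ≠ 0 := mul_ne_zero hg0 hιs0
  have hιu : coeffMap iotaC u₀ = qexpFun 1 (fun τ => U τ ^ p) * φ ^ p := by
    rw [hu₀eq, map_mul, map_pow, hφ, mul_pow, ← mul_assoc, hfg]
    rfl
  -- the good function realising `u₀`
  obtain ⟨G', hG'good, hG'q⟩ := H882.AK_le_goodQ N (coeffMap_mem_AK iotaC hu₀AK)
  -- `φ = a / b`, quotient of `q`-expansions of good functions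
  obtain ⟨a, ⟨A, hAgood, hAq⟩, b, ⟨B, hBgood, hBq⟩, hb0, hab⟩ := exists_div_goodQ hφF
  have ha0 : a ≠ 0 := by
    rintro rfl
    rw [zero_div] at hab
    exact hφ0 hab
  have hA0 : A ≠ 0 := fun h0 => ha0 (hAq.eq_zero_iff.mpr h0)
  have hB0 : B ≠ 0 := fun h0 => hb0 (hBq.eq_zero_iff.mpr h0)
  -- `G' * B ^ p = (U * A) ^ p`
  have hser : coeffMap iotaC u₀ * b ^ p = (qexpFun 1 U * a) ^ p := by
    rw [hιu, hab, mul_pow, hqG.qexpFun_eq, mul_assoc, div_pow,
      div_mul_cancel₀ _ (pow_ne_zero p hb0)]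
  have hfunc : G' * B ^ p = (U * A) ^ p :=
    HasQExp.eq_of_eq (hser ▸ hG'q.mul (hBq.pow p)) ((hqU.mul hAq).pow p)
  have hpt : ∀ τ, G' τ * B τ ^ p = (U * A) τ ^ p := fun τ => congrFun hfunc τ
  have hG'm : MDifferentiable 𝓘(ℂ) 𝓘(ℂ) G' := hG'good.1
  have hAm : MDifferentiable 𝓘(ℂ) 𝓘(ℂ) A := hAgood.1
  have hBm : MDifferentiable 𝓘(ℂ) 𝓘(ℂ) B := hBgood.1
  have hUAm : MDifferentiable 𝓘(ℂ) 𝓘(ℂ) (U * A) := hU.mdiff.mul hAm
  have hUA0 : U * A ≠ 0 := by
    intro h0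
    rcases mul_eq_zero_of_mdiff hU.mdiff hAm h0 with h1 | h1
    · exact hUne h1
    · exact hA0 h1
  -- the root
  obtain ⟨U', hU'm, hU'p⟩ := exists_root_of_mul_pow_eq hp hG'm hBm hUAm hB0 hUA0 hpt
  -- `U' * B = ζ * (U * A)`
  obtain ⟨τ₀, hτ₀⟩ : ∃ τ₀, (U * A) τ₀ ≠ 0 := by
    by_contra hcon
    push Not at hcon
    exact hUA0 (funext hcon)
  have hpow : ∀ τ, (U' τ * B τ) ^ p = (U * A) τ ^ p := fun τ => by
    rw [mul_pow, hU'p, hpt]
  set ζ : ℂ := U' τ₀ * B τ₀ / (U * A) τ₀ with hζ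
  have hζp : ζ ^ p = 1 := by
    rw [hζ, div_pow, hpow, div_self (pow_ne_zero p hτ₀)]
  have hζ0 : ζ ≠ 0 := fun h0 => by
    rw [h0, zero_pow hp] at hζp
    exact zero_ne_one hζp
  have hmul : (fun τ => U' τ * B τ) = fun τ => ζ * (U * A) τ := by
    refine H751.eq_of_pow_eq_UHP (hU'm.mul hBm) ((mdifferentiable_const (c := ζ)).mul hUAm) hp
      (fun τ => ?_) (τ₀ := τ₀) ?_ ?_
    · rw [hpow, mul_pow, hζp, one_mul]
    · rw [hζ]
      field_simp
    · intro h0
      have h1 := hpow τ₀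
      rw [h0, zero_pow hp] at h1
      exact pow_ne_zero p hτ₀ h1.symm
  have hchar : HasChar N p c U' :=
    hasChar_of_mul_eq ζ hU'm hBm hB0 hAgood.2.1 hBgood.2.1 hU.hasChar
      (fun τ => congrFun hmul τ)
  have hG'eq : (fun τ => U' τ ^ p) = G' := funext hU'p
  have hG'0 : G' ≠ 0 := by
    intro h0
    have := hpt τ₀
    rw [h0] at this
    simp only [Pi.zero_apply, zero_mul] at this
    exact pow_ne_zero p hτ₀ this.symm
  refine ⟨U', ⟨u₀, hu₀F⟩, ⟨hU'm, ?_, hchar, ?_⟩, ?_, ?_⟩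
  · by_contra hcon
    push Not at hcon
    apply hG'0
    funext τ
    rw [← hU'p, hcon, zero_pow hp]
    rfl
  · rw [hG'eq]; exact hG'good
  · rw [hG'eq]; exact hG'good
  · rw [hG'eq]; exact hG'q.qexpFun_eq

end Fermat.Agent.S29.M4b.K3

end
end
-- ===== PACK-END S29/M4b/K3/Top.lean

-- ===== PACK-BEGIN S29/M4b/K3/Deg.lean
section
/-
S29 row, M4b, piece K3 — sub-piece `K3-DEG` (helper42): bounded degree of `F_ℂ` over `ℂ(j)`.

`degStatement N : DegStatement N` (= hypothesis `hdeg` of `H152.desc_main` for `Ω = ℂ`), with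
`n = [SL₂(ℤ) : Γ₀(N)]`.  From the landed S24 degree theory (`Deg457.algDeg_of_mem_field`) and
`H882.exists_monic_of_mem_goodQ`.
-/



set_option autoImplicit false

noncomputable section

open ModularCurve AlgebraicCurve CongruenceSubgroup UpperHalfPlane Polynomial
open scoped MatrixGroups Manifold

namespace Fermat.Agent.S29.M4b.K3

open Fermat.Agent.S24 Fermat.Agent.S24.H648 Fermat.Agent.S24.H708 Fermat.Agent.S24.Deg457
open Fermat.Agent.S29 Fermat.Agent.S29.M4b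

/-- The interface hypothesis of the S24 degree theory over `ℂ`. -/
theorem hyp_complex (N : ℕ) [NeZero N] : Hyp ℂ N (Nat.card (XX N)) := by
  intro b hb
  obtain ⟨P, hPm, hPn, hP⟩ := H882.exists_monic_of_mem_goodQ (H882.AK_le_goodQ N hb)
  exact ⟨P, hPm, hPn, hP⟩

/-- **K3-DEG**. -/
theorem degStatement (N : ℕ) [NeZero N] : DegStatement N := by
  refine ⟨Nat.card (XX N), fun u hu => ?_⟩
  obtain ⟨Q, hQ0, hQn, hQ⟩ := algDeg_of_mem_field (RingHom.id ℂ) (_root_.Fermat.Agent.S29.M4b.K3.hyp_complex N) hu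
  have hj : ∀ t : ℂ[X], t ≠ 0 →
      aeval (IntermediateField.AdjoinSimple.gen ℂ (coeffEmb ℂ jq)) t ≠ 0 := by
    intro t ht h0
    apply aeval_JK_ne_zero ℂ ht
    have h1 := congrArg (algebraMap ↥(IntermediateField.adjoin ℂ {coeffEmb ℂ jq})
      (LaurentSeries ℂ)) h0
    rw [← aeval_algebraMap_apply, map_zero, IntermediateField.AdjoinSimple.algebraMap_gen] at h1
    exact h1
  refine isIntegral_and_natDegree_le_of_relation (K := ℂ)
    (IntermediateField.AdjoinSimple.gen ℂ (coeffEmb ℂ jq)) hj u Q hQ0 _ hQn ?_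
  rw [IntermediateField.AdjoinSimple.algebraMap_gen]
  exact hQ

end Fermat.Agent.S29.M4b.K3

end
end
-- ===== PACK-END S29/M4b/K3/Deg.lean

-- ===== PACK-BEGIN S29/M4b/K3/Main.lean
section
/-
S29 row, M4b, piece K3 — `PieceK3 N p` from the single remaining sub-piece `K3-FIN` (helper42).
-/




set_option autoImplicit false

noncomputable section

open ModularCurve AlgebraicCurve CongruenceSubgroup UpperHalfPlane
open scoped MatrixGroups Manifold

namespace Fermat.Agent.S29.M4b.K3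

open Fermat.Agent.S24 Fermat.Agent.S29 Fermat.Agent.S29.M4b

/-- **PIECE K3** in the `Prop` form of `M4b/Top.lean`, from `K3-FIN`. -/
theorem pieceK3_of_fin (N : ℕ) [NeZero N] (p : ℕ) [NeZero p] (hfin : FinStatement N p) :
    PieceK3 N p :=
  fun hc _ hU => exists_realised_isTwisted_of N p (degStatement N) hfin hc hU

end Fermat.Agent.S29.M4b.K3

end
end
-- ===== PACK-END S29/M4b/K3/Main.lean

-- ===== PACK-BEGIN S29/H282/DegK.lean
section


/-!
# S29 / M4b-K2 (helper282) — the degree of the function field over `K`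

For every field `K` with an embedding `ι : K →+* ℂ`:
`[FFK K N : K(j)] = [SL₂(ℤ) : Γ₀(N)]`.
Port of `Fermat/Agent/S24/Deg/H457_Main.lean` (upper bound) and `H997Core` (lower bound).
-/

set_option autoImplicit false

noncomputable section

open Polynomial ModularCurve IntermediateField

namespace Fermat.Agent.S29.H282

open Fermat.Agent.S24 Fermat.Agent.S24.H997 Fermat.Agent.S24.Deg457

variable {K : Type*} [Field K] [Algebra ℚ K] (ι : K →+* ℂ)
variable (N : ℕ) [NeZero N]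

theorem coe_jFK : ((jFK K N : FFK K N) : LaurentSeries K) = JK K := rfl

include ι in
/-- **Degree bound**: `[FFK K N : K(j)] ≤ [SL₂(ℤ) : Γ₀(N)]`. -/
theorem finiteDimensional_and_finrank_leK :
    FiniteDimensional ↥(IntermediateField.adjoin K {jFK K N}) (FFK K N) ∧
      Module.finrank ↥(IntermediateField.adjoin K {jFK K N}) (FFK K N) ≤ Nat.card (XX N) := by
  haveI : CharZero K := algebraRat.charZero K
  refine finiteDimensional_and_finrank_le_of_forall_natDegree_minpoly_le _ fun x => ?_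
  obtain ⟨Q, hQ0, hQn, hQ⟩ := algDeg_of_mem_field ι (hyp_complex_card N) x.2
  have hinc : Function.Injective (algebraMap (FFK K N) (LaurentSeries K)) :=
    (algebraMap (FFK K N) (LaurentSeries K)).injective
  refine isIntegral_and_natDegree_le_of_relation (K := K)
    (AdjoinSimple.gen K (jFK K N)) ?_ x Q hQ0 _ hQn ?_
  · intro t ht h0
    apply aeval_JK_ne_zero K ht
    have h1 := congrArg (algebraMap ↥(IntermediateField.adjoin K {jFK K N}) (FFK K N)) h0
    rw [← aeval_algebraMap_apply, map_zero, AdjoinSimple.algebraMap_gen] at h1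
    have h2 := congrArg (algebraMap (FFK K N) (LaurentSeries K)) h1
    rw [← aeval_algebraMap_apply, map_zero] at h2
    exact h2
  · apply hinc
    rw [map_zero, Polynomial.hom_eval₂, AdjoinSimple.algebraMap_gen]
    have hcomp : (algebraMap (FFK K N) (LaurentSeries K)).comp
        ((aeval (jFK K N) : K[X] →ₐ[K] FFK K N).toRingHom) = evJ (JK K) := by
      refine Polynomial.ringHom_ext ?_ ?_
      · intro c
        simp [evJ, ← IsScalarTower.algebraMap_apply]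
      · simp [evJ]
        rfl
    rw [hcomp]
    exact hQ

include ι in
theorem finiteDimensional_adjoin_jFK :
    FiniteDimensional ↥(IntermediateField.adjoin K {jFK K N}) (FFK K N) :=
  (finiteDimensional_and_finrank_leK ι N).1

include ι in
/-- **The degree**: `[FFK K N : K(j)] = [SL₂(ℤ) : Γ₀(N)]`. -/
theorem finrank_adjoin_jFK :
    Module.finrank ↥(IntermediateField.adjoin K {jFK K N}) (FFK K N) = Nat.card (XX N) := by
  haveI := finiteDimensional_adjoin_jFK ι N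
  exact le_antisymm (finiteDimensional_and_finrank_leK ι N).2
    (card_le_finrankK ι (analyticCore N))

end Fermat.Agent.S29.H282

end
end
-- ===== PACK-END S29/H282/DegK.lean

-- ===== PACK-BEGIN S29/H282/Rot.lean
section


/-!
# S29 / M4b-K2 (helper282) — iterating the rotation relation

For an expansion `X` with rotation data `R` for `ε` (a primitive `m`-th root of unity `ζ`):
if `H ∘ ε ^ e = H` then `m ∣ e * ord (E H)`.
-/

set_option autoImplicit false

noncomputable section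

open ModularCurve HahnSeries UpperHalfPlane
open scoped MatrixGroups

namespace Fermat.Agent.S29.H282

open Fermat.Agent.S24 Fermat.Agent.S24.H997

variable {N : ℕ} [NeZero N] (B : HolBase N) (X : Expansion B)

theorem compH_pow_succ (ε : SL(2, ℤ)) (i : ℕ) (H : B.Hol) :
    B.compH (ε ^ (i + 1)) H = B.compH ε (B.compH (ε ^ i) H) := by
  rw [pow_succ, HolBase.compH_mul]

/-- iterating the rotation relation -/
theorem rot_iterate (ε : SL(2, ℤ)) (R : RotData B X ε) (H : B.Hol) (i : ℕ) :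
    (X.E (B.compH (ε ^ i) H)).order = (X.E H).order ∧
      (X.E (B.compH (ε ^ i) H)).leadingCoeff
        = (R.ζ ^ (X.E H).order) ^ i * (X.E H).leadingCoeff := by
  induction i with
  | zero => simp [HolBase.compH_one]
  | succ n ih =>
    have h := R.rot (B.compH (ε ^ n) H)
    rw [compH_pow_succ]
    refine ⟨by rw [h.1, ih.1], ?_⟩
    rw [h.2, ih.1, ih.2, pow_succ]
    ring

/-- **Key divisibility.**  If `H` is invariant under `ε ^ e`, then the order `m` of the rotation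
divides `e * ord (E H)`. -/
theorem rot_dvd_of_compH_pow_eq (ε : SL(2, ℤ)) (R : RotData B X ε) (H : B.Hol) (e : ℕ)
    (hH : B.compH (ε ^ e) H = H) : (R.m : ℤ) ∣ (e : ℤ) * (X.E H).order := by
  by_cases h0 : X.E H = 0
  · rw [h0, order_zero, mul_zero]
    exact dvd_zero _
  · have hlc : (X.E H).leadingCoeff ≠ 0 := leadingCoeff_ne_zero.mpr h0
    have h := (rot_iterate B X ε R H e).2
    rw [hH] at h
    have h1 : (R.ζ ^ (X.E H).order) ^ e = 1 := by
      have : (R.ζ ^ (X.E H).order) ^ e * (X.E H).leadingCoeff = 1 * (X.E H).leadingCoeff := by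
        rw [one_mul]; exact h.symm
      exact mul_right_cancel₀ hlc this
    have h2 : R.ζ ^ ((X.E H).order * (e : ℤ)) = 1 := by
      rw [zpow_mul, zpow_natCast]
      exact h1
    have h3 := (R.hζ.zpow_eq_one_iff_dvd _).mp h2
    rwa [mul_comm] at h3

end Fermat.Agent.S29.H282

end
end
-- ===== PACK-END S29/H282/Rot.lean

-- ===== PACK-BEGIN S18/Mod/H216/NodeMod.lean
section








/-!
# S18 / MOD-ASM (helper216): **node_mod** — `Mod.GoodModelStatement M ℓ A`, UNCONDITIONAL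

`node_mod (M) [NeZero M] {ℓ} [Fact ℓ.Prime] (hℓM : ¬ ℓ ∣ M) (A) (hA : A.LiesOverPrime ℓ) :
  Mod.GoodModelStatement M ℓ A` — exact type of `Integ.node_mod` (Skeleton v4c).

Wiring of the six parts at the concrete objects of `Mod/Defs.lean`:

| part | source |
|---|---|
| G-R   | `H456.IsUnif`, `H456.field_residue_perfect`, `H602.isDiscreteValuationRing_RE` |
| G-FLD | `H456.field_*`, `H24.field_finite_j` |
| G-V   | `H216.partVStatement_j` (coordinate `j`), `H24.gv_fields_of_isCoordinate` (`t₂, t₃`) |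
| G-QEP | `H216.partQepStatement_j` |
| G-SEP | `H264.separable_jOm` |
| G-BR  | `H558.br_of_isCoordinate` |
| M3-T  | `H107.goodModel_of_isCoordinate107` (transfer `j ↦ t₂, t₃` for `ℓ = 3, 2`) |
-/

set_option autoImplicit false
set_option linter.unusedSectionVars false

noncomputable section

namespace Fermat.Agent.S18.Mod.H216

open ModularCurve AlgebraicCurve HahnSeries Fermat.Agent.S18 Fermat.Agent.S18.Mod
open Fermat.Agent.S18.Alg

variable (M : ℕ) [NeZero M] {ℓ : ℕ} [Fact ℓ.Prime] (A : ValuationSubring Qb)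

/-- **G-R** at the concrete objects. -/
theorem partRStatement (hA : A.LiesOverPrime ℓ) : PartRStatement M A := by
  intro E hE
  have := hE
  have hℓ : ℓ.Prime := Fact.out
  have : IsDiscreteValuationRing (H602.RE A E) :=
    H602.isDiscreteValuationRing_RE A E hℓ.ne_zero hA
  obtain ⟨w, hw⟩ := H456.exists_isUnif M A E
  exact ⟨w, H456.field_R_le M A E, H456.field_R_total M A E, hw.mem, hw.ne_zero, hw.inv_not_mem,
    hw.gen, hw.discrete, H456.field_residue_perfect A E M hℓ hA hw⟩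

/-- **G-FLD** for the coordinate `j`. -/
theorem partFldStatement_j : PartFldStatement M (jOm M) := by
  intro E _
  exact ⟨H456.field_E_le_L M E, H456.field_E_le_F M E, H456.field_L_algebraic M E,
    H456.field_L_algClosed M, H456.field_E_closed_in_F M E, H456.field_compositum M E,
    H456.mem_Fc_of_hasIntExp M E (H456.hasIntExp_jOm M),
    H456.transcendental_of_hasIntExp M (H456.hasIntExp_jOm M), H24.field_finite_j M E⟩

/-- **G-SEP** for the coordinate `j`. -/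
theorem partSepStatement_j (hℓM : ¬ ℓ ∣ M) (hA : A.LiesOverPrime ℓ) :
    PartSepStatement M A (jOm M) :=
  fun E _ w hw => ⟨H264.separable_jOm M hℓM A hA E (Vc M A E) (coe_Vc M A E) w hw.w_mem
    hw.w_ne_zero hw.w_gen⟩

/-- **G-BR** for every admissible coordinate. -/
theorem partBrStatement_of_isCoordinate (hA : A.LiesOverPrime ℓ) (x : Om M) (S : Finset (Om M))
    (hx : IsCoordinate M ℓ x S) : PartBrStatement M A x S := by
  intro E _
  obtain ⟨h1, h2, h3, h4⟩ := H558.br_of_isCoordinate M A hA E x S hx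
  exact ⟨h1, h2, h3, h4⟩

/-- The `j`-model without its branch fields, for every `ℓ ∤ M` (input of the transfer M3-T). -/
theorem baseModel_j (hℓM : ¬ ℓ ∣ M) (hA : A.LiesOverPrime ℓ) (E : IntermediateField ℚ Qb)
    (hE : FiniteDimensional ℚ E) {w : Om M} (hw : PartR (Ec M E) (Rc M A E) w) :
    H107.BaseModel107 (Lc M) (Ec M E) (Fc M E) (Rc M A E) (Vc M A E) w (jOm M) := by
  have hF := partFldStatement_j M E hE
  have hV := partVStatement_j A hℓM hA E hE w hw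
  have hQ := partQepStatement_j A hℓM hA E hE w hw
  have hS := partSepStatement_j M A hℓM hA E hE w hw
  exact
    { charZero := charZero_Om M
      R_le := hw.R_le
      R_total := hw.R_total
      w_mem := hw.w_mem
      w_ne_zero := hw.w_ne_zero
      w_inv_not_mem := hw.w_inv_not_mem
      w_gen := hw.w_gen
      w_discrete := hw.w_discrete
      residue_perfect := hw.residue_perfect
      E_le_L := hF.E_le_L
      E_le_F := hF.E_le_F
      L_algebraic := hF.L_algebraic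
      L_algClosed := hF.L_algClosed
      E_closed_in_F := hF.E_closed_in_F
      compositum := hF.compositum
      x_mem := hF.x_mem
      x_transcendental := hF.x_transcendental
      finite := hF.finite
      V_le := hV.V_le
      V_total := hV.V_total
      R_le_V := hV.R_le_V
      w_inv_not_mem_V := hV.w_inv_not_mem_V
      V_gen := hV.V_gen
      x_mem_V := hV.x_mem_V
      gauss := hV.gauss
      qep_fin := hQ.qep_fin
      qep_inf := hQ.qep_inf
      separable := hS.separable }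

/-- **M3-T**: for `ℓ ∈ {2, 3}` every admissible coordinate is good. -/
theorem goodAt_of_lt_five (hℓM : ¬ ℓ ∣ M) (hA : A.LiesOverPrime ℓ) (h5 : ¬ 5 ≤ ℓ) (x : Om M)
    (S : Finset (Om M)) (hx : IsCoordinate M ℓ x S) : GoodAt M A x S := by
  intro E hE
  obtain ⟨w, hw⟩ := partRStatement M A hA E hE
  obtain ⟨-, -, -, hxV, -, -, hgauss⟩ :=
    H24.gv_fields_of_isCoordinate (M := M) (A := A) (E := E) (Vc M A E) (coe_Vc M A E)
      hw.w_mem hw.w_ne_zero hw.w_inv_not_mem hw.w_gen hw.w_discrete hx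
  exact ⟨Vc M A E, w, coe_Vc M A E,
    H107.goodModel_of_isCoordinate107 M A hA h5 hx E (baseModel_j M A hℓM hA E hE hw)
      (H456.field_x_mem M E hx) hxV hgauss⟩

/-- **NODE MOD**: the concrete objects at level `M` form a good model
(exact type of `Integ.node_mod`, Skeleton v4c). -/
theorem node_mod (M : ℕ) [NeZero M] {ℓ : ℕ} [Fact ℓ.Prime] (hℓM : ¬ ℓ ∣ M)
    (A : ValuationSubring Qb) (hA : A.LiesOverPrime ℓ) : Mod.GoodModelStatement M ℓ A :=
  goodModelStatement_of_parts M ℓ A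
    (fun _ => partRStatement M A hA)
    (fun _ => partFldStatement_j M)
    (fun _ => partVStatement_j A hℓM hA)
    (fun _ => partQepStatement_j A hℓM hA)
    (fun _ => partSepStatement_j M A hℓM hA)
    (fun h5 S hS => partBrStatement_of_isCoordinate M A hA (jOm M) S (Or.inl ⟨h5, rfl, hS⟩))
    (fun h5 x S hx => goodAt_of_lt_five M A hℓM hA h5 x S hx)

end Fermat.Agent.S18.Mod.H216

end
end
-- ===== PACK-END S18/Mod/H216/NodeMod.lean

-- ===== PACK-BEGIN Ribet/H764/TransportFree.lean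
section







/-!
# Row RIBET, pieces G2 / R3' WITHOUT the trace formula  (helper764)

`congruence_transport_free` is `congruence_transport` of `TraceCore.lean` with the hypothesis
`Spec.TraceFormulaStatement` REMOVED: the only inputs are frozen S42 (as a hypothesis) and landed
libraries (exact Chebotarev `Lib.Cheb.chebotarev`, the Frobenius relation at every good prime
`Lib.Frob.Small.frobRelationAll`, `#E[p] = p²`, Frobenius on roots of unity).

Idea.  Let `σ₀` be a Frobenius at `ℓ₀` and `τ` a Frobenius at an auxiliary prime `ℓ` (Chebotarev)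
agreeing with `σ₀` on the field cut out by `ρ_g`, `E[p]` and `ζ_p`.  Then `ℓ ≡ ℓ₀ mod p`, and the
two Frobenius relations
`σ₀² - a_{ℓ₀}(W) σ₀ + ℓ₀ = 0`, `τ² - a_ℓ(W₀) τ + ℓ = 0` on `E[p]` (same operator!) give
`(a_ℓ(W₀) - a_{ℓ₀}(W)) σ₀ = 0` on `E[p] ≠ 0`, i.e. `a_ℓ(W₀) ≡ a_{ℓ₀}(W) mod p`.
No determinant, no trace on `E[p]`, no Weil pairing.

Deliverables (all with frozen S42 as the ONLY hypothesis):
* `modelTransport_of_S42 : S42Statement → ModelTransportStatement`            (G2)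
* `almostAllToWitness_of_S42 : S42Statement → AlmostAllToWitnessStatement`    (R3')
* `almostAllToWitness_of_frey`, `modelTransport_of_frey` : the shapes requested by the row-lead
  (with an unused `TraceFormulaFreyStatement` hypothesis).
-/

set_option autoImplicit false

open WeierstrassCurve WeierstrassCurve.Affine WeierstrassCurve.Affine.Point
open CuspForm ModularFormClass

namespace Fermat.Agent.Ribet.H764

open Fermat.Agent.Ribet.Spec

local notation "Qbar" => AlgebraicClosure ℚ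

/-- If `p • Q = 0`, `a • Q = 0` and `Q ≠ 0` in an additive group, with `p` prime, then `p ∣ a`. -/
theorem int_dvd_of_zsmul_eq_zero {G : Type*} [AddCommGroup G] {p : ℕ} (hp : p.Prime) {Q : G}
    (hQ : Q ≠ 0) (hpQ : (p : ℤ) • Q = 0) {a : ℤ} (ha : a • Q = 0) : (p : ℤ) ∣ a := by
  by_contra hnd
  have hcop : IsCoprime (p : ℤ) a :=
    (Prime.coprime_iff_not_dvd (Nat.prime_iff_prime_int.mp hp)).mpr hnd
  obtain ⟨u, v, huv⟩ := hcop
  have h0 : (u * (p : ℤ) + v * a) • Q = 0 := by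
    rw [add_smul, mul_smul, mul_smul, hpQ, ha, smul_zero, smul_zero, add_zero]
  rw [huv, one_smul] at h0
  exact hQ h0

/-- **Frobenius relation on the torsion of a curve over `ℚ`** having an integral model `W` with
good reduction at `ℓ`: `σ²x - a_ℓ(W) σx + ℓ x = 0` for every point `x` killed by `n` prime to
`ℓ`. -/
theorem frob_relation_of_model (E : WeierstrassCurve ℚ) (W : WeierstrassCurve ℤ)
    (hW : W.IsIntegralModelOf E) (ℓ : ℕ) (hℓ : ℓ.Prime) (hgood : W.IsGoodPrimeFor ℓ)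
    (A : ValuationSubring Qbar) (σ : GQ) (hA : A.LiesOverPrime ℓ) (hσ : A.IsFrobeniusAt σ ℓ)
    (n : ℕ) (hn : 0 < n) (hℓn : ¬ ℓ ∣ n) (x : (E⁄Qbar).Point) (hx : n • x = 0) :
    σ • σ • x - W.apOfModel ℓ • σ • x + (ℓ : ℤ) • x = 0 := by
  obtain ⟨C, hC⟩ := hW
  have key : ∀ E' : WeierstrassCurve ℚ, E' = W.map (Int.castRingHom ℚ) →
      ∀ P : (E'⁄Qbar).Point, n • P = 0 →
        σ • σ • P - W.apOfModel ℓ • σ • P + (ℓ : ℤ) • P = 0 := by
    rintro _ rfl P hP
    exact Fermat.Agent.Lib.Frob.Small.frobRelationAll W ℓ hℓ hgood A σ hA hσ n hn hℓn P hP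
  set y := (Fermat.Agent.Lib.VC.vcPointBC E C Qbar).symm x with hy
  have hyx : Fermat.Agent.Lib.VC.vcPointBC E C Qbar y = x := AddEquiv.apply_symm_apply _ _
  have hny : n • y = 0 := by
    rw [hy, ← map_nsmul, hx, _root_.map_zero]
  have h1 := key (C • E) hC y hny
  have h2 := congrArg (Fermat.Agent.Lib.VC.vcPointBC E C Qbar) h1
  rw [_root_.map_zero, map_add, map_sub, map_zsmul, map_zsmul] at h2
  simp only [H224.vcPointBC_smul, hyx] at h2
  exact h2

/-- A Frobenius element at `ℓ ≠ p` raises `p`-th roots of unity to the `ℓ`-th power. -/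
theorem frob_apply_root_h764 (p : ℕ) (hp : p.Prime) (ℓ : ℕ) (hℓ : ℓ.Prime) (hℓp : ℓ ≠ p)
    (A : ValuationSubring Qbar) (τ : GQ) (hA : A.LiesOverPrime ℓ) (hτ : A.IsFrobeniusAt τ ℓ)
    (μ : Qbar) (hμ : μ ^ p = 1) : τ μ = μ ^ ℓ := by
  have hv : A.valuation ((p : ℕ) : Qbar) = 1 :=
    Fermat.Agent.S55.Bridge.val_prime_eq_one hA hℓ hp hℓp
  exact Fermat.Agent.S55.H414.IsFrobeniusAt_apply_root hτ hp.ne_zero hv hμ

/-- Equal powers of a primitive `p`-th root of unity have exponents congruent mod `p`. -/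
theorem int_dvd_sub_of_pow_eq {K : Type*} [Field K] {ζ : K} {p : ℕ}
    (hζ : IsPrimitiveRoot ζ p) (hp : p ≠ 0) {m n : ℕ} (h : ζ ^ m = ζ ^ n) :
    (p : ℤ) ∣ (m : ℤ) - n := by
  have hζ0 : ζ ≠ 0 := hζ.ne_zero hp
  have key : ∀ {a b : ℕ}, b ≤ a → ζ ^ a = ζ ^ b → (p : ℤ) ∣ (a : ℤ) - b := by
    intro a b hba hab
    have h1 : ζ ^ (a - b) = 1 := by
      have : ζ ^ b * ζ ^ (a - b) = ζ ^ b * 1 := by
        rw [← pow_add, Nat.add_sub_cancel' hba, mul_one, hab]
      exact mul_left_cancel₀ (pow_ne_zero b hζ0) this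
    have h2 := (hζ.pow_eq_one_iff_dvd _).mp h1
    have h3 : ((a - b : ℕ) : ℤ) = (a : ℤ) - b := Nat.cast_sub hba
    rw [← h3]
    exact_mod_cast h2
  rcases le_total n m with hnm | hnm
  · exact key hnm h
  · exact (dvd_sub_comm).mp (key hnm h.symm)

/-- **Core of G2 / R3', without the trace formula.** -/
theorem congruence_transport_free (h42 : S42Statement)
    (P : FreyPackage) (M : ℕ) (hM : 0 < M)
    (g : CuspForm (CongruenceSubgroup.Gamma0 M) 2) (hg : g.IsNormalizedEigenform)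
    (𝔪 : Ideal (integralClosure ℤ ℂ)) (h𝔪 : 𝔪.IsMaximal)
    (hp : (P.p : integralClosure ℤ ℂ) ∈ 𝔪)
    (W₀ : WeierstrassCurve ℤ) (hW₀ : W₀.IsIntegralModelOf P.freyCurve) (S : Finset ℕ)
    (hcong : ∀ ℓ : ℕ, ℓ.Prime → ℓ ∉ S → W₀.IsGoodPrimeFor ℓ →
      ∃ b : integralClosure ℤ ℂ, (b : ℂ) = qCoeff g ℓ ∧
        b - ((W₀.apOfModel ℓ : ℤ) : integralClosure ℤ ℂ) ∈ 𝔪)
    (W : WeierstrassCurve ℤ) (hW : W.IsIntegralModelOf P.freyCurve)
    (ℓ₀ : ℕ) (hℓ₀ : ℓ₀.Prime) (hgood : W.IsGoodPrimeFor ℓ₀) (hℓ₀M : ¬ ℓ₀ ∣ M)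
    (hℓ₀p : ℓ₀ ≠ P.p) :
    ∃ a : integralClosure ℤ ℂ, (a : ℂ) = qCoeff g ℓ₀ ∧
      a - ((W.apOfModel ℓ₀ : ℤ) : integralClosure ℤ ℂ) ∈ 𝔪 := by
  have hell : P.freyCurve.IsElliptic := isElliptic_of_model hW hgood
  have hEΔ : P.freyCurve.Δ ≠ 0 :=
    (disc_ne_zero_iff_of_isIntegralModelOf hW).mp (disc_ne_zero_of_isGoodPrimeFor hgood)
  have hW₀Δ : W₀.Δ ≠ 0 := (disc_ne_zero_iff_of_isIntegralModelOf hW₀).mpr hEΔ
  have hpp : P.p.Prime := P.pp
  -- a nonzero `p`-torsion point of the Frey curve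
  have hcard : Nat.card (Submodule.torsionBy ℤ (P.freyCurve⁄Qbar).Point P.p) = P.p ^ 2 :=
    Fermat.Agent.S41.H701.card_torsion_eq_sq_prelude_h701 (K := Qbar) P.freyCurve P.p
      hpp.one_le
  obtain ⟨x₀, hx₀⟩ : ∃ x : Submodule.torsionBy ℤ (P.freyCurve⁄Qbar).Point P.p, x ≠ 0 := by
    by_contra hall
    simp only [ne_eq, not_exists, not_not] at hall
    have hsub : Subsingleton (Submodule.torsionBy ℤ (P.freyCurve⁄Qbar).Point P.p) :=
      ⟨fun a b => by rw [hall a, hall b]⟩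
    have h1 : Nat.card (Submodule.torsionBy ℤ (P.freyCurve⁄Qbar).Point P.p) = 1 :=
      Nat.card_of_subsingleton 0
    rw [hcard] at h1
    have := hpp.one_lt
    nlinarith
  -- the residual representation attached to `g`
  obtain ⟨K, _, _, V, _, _, ρ, ψ, F, _, _, _, _, _, h𝔪ψ, -, hker, htr, -⟩ :=
    h42 P M hM g hg 𝔪 h𝔪 hp
  obtain ⟨A₀, σ₀, hA₀, hσ₀⟩ := Fermat.Agent.S54.exists_frobenius ℓ₀ hℓ₀
  -- a primitive `p`-th root of unity
  have : NeZero (P.p : ℚ) := ⟨by exact_mod_cast hpp.ne_zero⟩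
  obtain ⟨ζ, hζ⟩ := HasEnoughRootsOfUnity.exists_primitiveRoot Qbar P.p
  have hζp : ζ ^ P.p = 1 := hζ.pow_eq_one
  -- the auxiliary field
  have hfin1 : FiniteDimensional ℚ
      (IsScalarTower.toAlgHom ℚ F Qbar).fieldRange :=
    (IsScalarTower.toAlgHom ℚ F Qbar).toLinearMap.finiteDimensional_range
  have hfin2 : FiniteDimensional ℚ (IntermediateField.adjoin ℚ ({ζ} : Set Qbar)) :=
    IntermediateField.adjoin.finiteDimensional
      ((AlgebraicClosure.isAlgebraic ℚ).isIntegral.isIntegral ζ)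
  obtain ⟨ℓ, A, τ, hℓ, hℓS, hA, hτ, -, hτσ⟩ := Fermat.Agent.Lib.Cheb.chebotarev
    ((IsScalarTower.toAlgHom ℚ F Qbar).fieldRange ⊔ IntermediateField.adjoin ℚ ({ζ} : Set Qbar))
    inferInstance σ₀
    (S ∪ M.primeFactors ∪ {P.p} ∪ W₀.Δ.natAbs.primeFactors)
  simp only [Finset.mem_union, Finset.mem_singleton, not_or] at hℓS
  obtain ⟨⟨⟨hℓS, hℓM⟩, hℓp⟩, hℓbad⟩ := hℓS
  have hℓM' : ¬ ℓ ∣ M := fun h => hℓM (Nat.mem_primeFactors.mpr ⟨hℓ, h, hM.ne'⟩)
  have hℓgood : W₀.IsGoodPrimeFor ℓ := isGoodPrimeFor_of_not_mem hW₀Δ hℓ hℓbad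
  have hle1 : (IsScalarTower.toAlgHom ℚ F Qbar).fieldRange ≤
      (IsScalarTower.toAlgHom ℚ F Qbar).fieldRange ⊔
        IntermediateField.adjoin ℚ ({ζ} : Set Qbar) := le_sup_left
  have hle2 : IntermediateField.adjoin ℚ ({ζ} : Set Qbar) ≤
      (IsScalarTower.toAlgHom ℚ F Qbar).fieldRange ⊔
        IntermediateField.adjoin ℚ ({ζ} : Set Qbar) := le_sup_right
  have hτσ1 : ∀ x ∈ (IsScalarTower.toAlgHom ℚ F Qbar).fieldRange, τ x = σ₀ x :=
    fun x hx => hτσ x (hle1 hx)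
  have hτσζ : τ ζ = σ₀ ζ :=
    hτσ ζ (hle2 (IntermediateField.subset_adjoin ℚ _ rfl))
  -- `ℓ ≡ ℓ₀ mod p`
  have hcongr : (P.p : ℤ) ∣ (ℓ : ℤ) - ℓ₀ := by
    apply int_dvd_sub_of_pow_eq hζ hpp.ne_zero
    rw [← frob_apply_root_h764 P.p hpp ℓ hℓ hℓp A τ hA hτ ζ hζp,
      ← frob_apply_root_h764 P.p hpp ℓ₀ hℓ₀ hℓ₀p A₀ σ₀ hA₀ hσ₀ ζ hζp, hτσζ]
  -- `σ₀⁻¹ τ` acts trivially through both representations
  obtain ⟨hmemE, hmemρ⟩ := hker (inv_mul_mem_ker_restrictNormalHom F σ₀ τ hτσ1)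
  have hρ : ρ τ = ρ σ₀ := by
    have h1 : ρ (σ₀⁻¹ * τ) = 1 := hmemρ
    have h2 : ρ τ = ρ (σ₀ * (σ₀⁻¹ * τ)) := by rw [mul_inv_cancel_left]
    rw [h2, map_mul, h1, mul_one]
  have hEq : galoisRepModuleEnd (S := ℚ) (K := Qbar) P.freyCurve P.p τ =
      galoisRepModuleEnd (S := ℚ) (K := Qbar) P.freyCurve P.p σ₀ := by
    have h1 : galoisRepModuleEnd (S := ℚ) (K := Qbar) P.freyCurve P.p (σ₀⁻¹ * τ) = 1 := hmemE
    have h3 : galoisRepModuleEnd (S := ℚ) (K := Qbar) P.freyCurve P.p τ =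
        galoisRepModuleEnd (S := ℚ) (K := Qbar) P.freyCurve P.p (σ₀ * (σ₀⁻¹ * τ)) := by
      rw [mul_inv_cancel_left]
    rw [h3, map_mul, h1, mul_one]
  have hact : ∀ y : Submodule.torsionBy ℤ (P.freyCurve⁄Qbar).Point P.p, τ • y = σ₀ • y := by
    intro y
    have := congrArg (fun f => f y) hEq
    simpa only [galoisRepModuleEnd_apply] using this
  have hcoe : ∀ (σ : GQ) (y : Submodule.torsionBy ℤ (P.freyCurve⁄Qbar).Point P.p),
      ((σ • y : Submodule.torsionBy ℤ (P.freyCurve⁄Qbar).Point P.p) :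
        (P.freyCurve⁄Qbar).Point) = σ • (y : (P.freyCurve⁄Qbar).Point) := fun _ _ => rfl
  -- the two Frobenius relations at the point `x₀`
  have hpx : (P.p : ℤ) • (x₀ : (P.freyCurve⁄Qbar).Point) = 0 :=
    (Submodule.mem_torsionBy_iff _ _).mp x₀.2
  have hpx' : P.p • (x₀ : (P.freyCurve⁄Qbar).Point) = 0 := by
    rw [← natCast_zsmul]; exact hpx
  have hℓ₀ndvd : ¬ ℓ₀ ∣ P.p := fun h => hℓ₀p ((Nat.prime_dvd_prime_iff_eq hℓ₀ hpp).mp h)
  have hℓndvd : ¬ ℓ ∣ P.p := fun h => hℓp ((Nat.prime_dvd_prime_iff_eq hℓ hpp).mp h)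
  have r1 := frob_relation_of_model P.freyCurve W hW ℓ₀ hℓ₀ hgood A₀ σ₀ hA₀ hσ₀ P.p P.hppos
    hℓ₀ndvd (x₀ : (P.freyCurve⁄Qbar).Point) hpx'
  have r2 := frob_relation_of_model P.freyCurve W₀ hW₀ ℓ hℓ hℓgood A τ hA hτ P.p P.hppos
    hℓndvd (x₀ : (P.freyCurve⁄Qbar).Point) hpx'
  have hτx : τ • (x₀ : (P.freyCurve⁄Qbar).Point) = σ₀ • (x₀ : (P.freyCurve⁄Qbar).Point) := by
    rw [← hcoe, ← hcoe, hact]
  have hττx : τ • σ₀ • (x₀ : (P.freyCurve⁄Qbar).Point) =
      σ₀ • σ₀ • (x₀ : (P.freyCurve⁄Qbar).Point) := by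
    rw [← hcoe σ₀ x₀, ← hcoe, ← hcoe, hact]
  rw [hτx, hττx] at r2
  -- the point `σ₀ x₀` is a nonzero `p`-torsion point
  have hy0 : σ₀ • (x₀ : (P.freyCurve⁄Qbar).Point) ≠ 0 := by
    rw [← hcoe]
    intro h0
    apply hx₀
    have h1 : σ₀ • x₀ = 0 := Subtype.ext h0
    have h2 := congrArg (fun z => σ₀⁻¹ • z) h1
    simpa using h2
  have hpy : (P.p : ℤ) • (σ₀ • (x₀ : (P.freyCurve⁄Qbar).Point)) = 0 := by
    rw [← hcoe]
    exact (Submodule.mem_torsionBy_iff _ _).mp (σ₀ • x₀).2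
  have hℓx : ((ℓ : ℤ) - ℓ₀) • (x₀ : (P.freyCurve⁄Qbar).Point) = 0 := by
    obtain ⟨d, hd⟩ := hcongr
    rw [hd, mul_comm, mul_smul, hpx]
    exact zsmul_zero d
  have hdiff : (W.apOfModel ℓ₀ - W₀.apOfModel ℓ) • (σ₀ • (x₀ : (P.freyCurve⁄Qbar).Point)) = 0 := by
    have e1 : W.apOfModel ℓ₀ • σ₀ • (x₀ : (P.freyCurve⁄Qbar).Point) =
        σ₀ • σ₀ • (x₀ : (P.freyCurve⁄Qbar).Point) + (ℓ₀ : ℤ) • (x₀ : (P.freyCurve⁄Qbar).Point) := by
      have h3 : σ₀ • σ₀ • (x₀ : (P.freyCurve⁄Qbar).Point) + (ℓ₀ : ℤ) • (x₀ : (P.freyCurve⁄Qbar).Point)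
          - W.apOfModel ℓ₀ • σ₀ • (x₀ : (P.freyCurve⁄Qbar).Point) = 0 := by
        rw [← r1]; abel
      exact (sub_eq_zero.mp h3).symm
    have e2 : W₀.apOfModel ℓ • σ₀ • (x₀ : (P.freyCurve⁄Qbar).Point) =
        σ₀ • σ₀ • (x₀ : (P.freyCurve⁄Qbar).Point) + (ℓ : ℤ) • (x₀ : (P.freyCurve⁄Qbar).Point) := by
      have h3 : σ₀ • σ₀ • (x₀ : (P.freyCurve⁄Qbar).Point) + (ℓ : ℤ) • (x₀ : (P.freyCurve⁄Qbar).Point)
          - W₀.apOfModel ℓ • σ₀ • (x₀ : (P.freyCurve⁄Qbar).Point) = 0 := by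
        rw [← r2]; abel
      exact (sub_eq_zero.mp h3).symm
    have e3 : (ℓ : ℤ) • (x₀ : (P.freyCurve⁄Qbar).Point) = (ℓ₀ : ℤ) • (x₀ : (P.freyCurve⁄Qbar).Point) := by
      rw [sub_smul] at hℓx
      exact sub_eq_zero.mp hℓx
    rw [sub_smul, e1, e2, e3, sub_self]
  have hdvd : (P.p : ℤ) ∣ W.apOfModel ℓ₀ - W₀.apOfModel ℓ :=
    int_dvd_of_zsmul_eq_zero hpp hy0 hpy hdiff
  -- conclusion
  obtain ⟨a, haC, hatr⟩ := htr ℓ hℓ hℓM' hℓp A hA τ hτ
  obtain ⟨b, hbC, hb𝔪⟩ := hcong ℓ hℓ hℓS hℓgood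
  have hab : a = b := Subtype.ext (haC.trans hbC.symm)
  have hψb : ψ b = ((W₀.apOfModel ℓ : ℤ) : K) := by
    have := h𝔪ψ hb𝔪
    rw [RingHom.mem_ker, map_sub, sub_eq_zero, map_intCast] at this
    exact this
  have hpK : ((P.p : ℤ) : K) = 0 := by
    have := h𝔪ψ hp
    rw [RingHom.mem_ker, map_natCast] at this
    exact_mod_cast this
  have hWW₀ : ((W.apOfModel ℓ₀ : ℤ) : K) = ((W₀.apOfModel ℓ : ℤ) : K) := by
    obtain ⟨d, hd⟩ := hdvd
    have := congrArg (fun z : ℤ => (z : K)) hd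
    simp only [Int.cast_sub, Int.cast_mul, hpK, zero_mul] at this
    exact sub_eq_zero.mp this
  obtain ⟨a₀, ha₀C, ha₀tr⟩ := htr ℓ₀ hℓ₀ hℓ₀M hℓ₀p A₀ hA₀ σ₀ hσ₀
  refine ⟨a₀, ha₀C, ?_⟩
  have hkerψ : RingHom.ker ψ = 𝔪 := (h𝔪.eq_of_le (RingHom.ker_ne_top ψ) h𝔪ψ).symm
  rw [← hkerψ, RingHom.mem_ker, map_sub, sub_eq_zero, map_intCast]
  calc ψ a₀ = LinearMap.trace K V (ρ σ₀) := ha₀tr.symm
    _ = LinearMap.trace K V (ρ τ) := by rw [hρ]
    _ = ψ a := hatr
    _ = ((W₀.apOfModel ℓ : ℤ) : K) := by rw [hab, hψb]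
    _ = ((W.apOfModel ℓ₀ : ℤ) : K) := hWW₀.symm

/-- (G2) Model transport from frozen S42 alone. -/
theorem modelTransport_of_S42 (h42 : S42Statement) : ModelTransportStatement := by
  intro P N hN hmod W hW
  obtain ⟨f, W₀, 𝔪, hf, hW₀, h𝔪, hp, hcong⟩ := hmod
  refine ⟨f, 𝔪, hf, h𝔪, hp, ?_⟩
  intro ℓ₀ hℓ₀ hgood hℓ₀N hℓ₀p
  refine congruence_transport_free h42 P N hN f hf 𝔪 h𝔪 hp W₀ hW₀ (N.primeFactors ∪ {P.p}) ?_
    W hW ℓ₀ hℓ₀ hgood hℓ₀N hℓ₀p
  intro ℓ hℓ hℓS hℓgood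
  simp only [Finset.mem_union, Finset.mem_singleton, not_or] at hℓS
  exact hcong ℓ hℓ hℓgood (fun h => hℓS.1 (Nat.mem_primeFactors.mpr ⟨hℓ, h, hN.ne'⟩)) hℓS.2

/-- (R3') Almost-all congruence ⇒ congruence witness, from frozen S42 alone. -/
theorem almostAllToWitness_of_S42 (h42 : S42Statement) : AlmostAllToWitnessStatement := by
  intro P M hM g W 𝔪 S hg hW h𝔪 hp hcong
  refine ⟨hg, hW, h𝔪, hp, ?_⟩
  intro ℓ₀ hℓ₀ hgood hℓ₀M hℓ₀p
  exact congruence_transport_free h42 P M hM g hg 𝔪 h𝔪 hp W hW S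
    (fun ℓ hℓ hℓS _ => hcong ℓ hℓ hℓS) W hW ℓ₀ hℓ₀ hgood hℓ₀M hℓ₀p

/-- Change of integral model in a congruence witness, from frozen S42 alone. -/
theorem isCongruentWitness_transport_free (h42 : S42Statement)
    (P : FreyPackage) (N : ℕ) (hN : 0 < N)
    (f : CuspForm (CongruenceSubgroup.Gamma0 N) 2) (W₀ W : WeierstrassCurve ℤ)
    (𝔪 : Ideal (integralClosure ℤ ℂ)) (h : P.IsCongruentWitness N f W₀ 𝔪)
    (hW : W.IsIntegralModelOf P.freyCurve) : P.IsCongruentWitness N f W 𝔪 := by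
  obtain ⟨hf, hW₀, h𝔪, hp, hcong⟩ := h
  refine ⟨hf, hW, h𝔪, hp, ?_⟩
  intro ℓ₀ hℓ₀ hgood hℓ₀N hℓ₀p
  refine congruence_transport_free h42 P N hN f hf 𝔪 h𝔪 hp W₀ hW₀ (N.primeFactors ∪ {P.p}) ?_
    W hW ℓ₀ hℓ₀ hgood hℓ₀N hℓ₀p
  intro ℓ hℓ hℓS hℓgood
  simp only [Finset.mem_union, Finset.mem_singleton, not_or] at hℓS
  exact hcong ℓ hℓ hℓgood (fun h => hℓS.1 (Nat.mem_primeFactors.mpr ⟨hℓ, h, hN.ne'⟩)) hℓS.2

/-- (R3') in the shape requested by the row-lead (the Frey trace formula is not needed). -/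
theorem almostAllToWitness_of_frey (h42 : S42Statement) (_hTF : TraceFormulaFreyStatement) :
    AlmostAllToWitnessStatement :=
  almostAllToWitness_of_S42 h42

/-- (G2) in the same shape (the Frey trace formula is not needed). -/
theorem modelTransport_of_frey (h42 : S42Statement) (_hTF : TraceFormulaFreyStatement) :
    ModelTransportStatement :=
  modelTransport_of_S42 h42

end Fermat.Agent.Ribet.H764

end
-- ===== PACK-END Ribet/H764/TransportFree.lean

-- ===== PACK-BEGIN S35/G/H862/ModelCore.lean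
section



/-!
# S35, piece (G') — leaf MODEL, the charts with their cut data (helper862)

`exists_chart_cutBy` : from the sub-assemblies S1, S2, S3 of `A2/Mod/Asm.lean` the semistable chart
`SSChart w (chartAlg y)` TOGETHER with the description of its two components by the valuation rings
`V∞`, `V₀ = V∞ ∘ W` (`CutBy` of `S35/G/SpecLevel.lean`): `B ⊆ V∞`, `B ⊆ V₀`, `p∞ = B ∩ w V∞`,
`p₀ = B ∩ w V₀`.  (`A2.Mod.nonempty_ssChart` forgets the cut data.)

`B ⊆ V∞, V₀`: `y = α(y_M) β(y_M)` and `W y` are products of `j_d^{±1}`, units of `V∞`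
(`H372.CoordFacts`), and valuation rings are integrally closed (`H372.mem_of_isIntegralElem`).
-/

set_option autoImplicit false
set_option linter.style.haveILetI false
set_option linter.unusedSectionVars false
set_option synthInstance.maxHeartbeats 400000
set_option maxHeartbeats 1600000

noncomputable section

namespace Fermat.Agent.S35.G.H862

open ModularCurve Fermat.Agent.A2.Mod

variable {A : ValuationSubring _root_.Fermat.Agent.S35.G.Qb} {E : IntermediateField ℚ _root_.Fermat.Agent.S35.G.Qb} {M q : ℕ} [NeZero M] [NeZero q]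
  {w : RE A E}

/-- The chart of a coordinate `y ∈ {x, x⁻¹}` lies in `V∞`. -/
theorem chartAlg_le_vinf (hS : Setting A E M q w) {VM : ValuationSubring (FE E M)}
    {V : ValuationSubring (FE E (M * q))} {W : FE E (M * q) ≃ₐ[E] FE E (M * q)}
    (hVM : IsVinf A E M VM) (hV : IsVinf A E (M * q) V) (hW : IsFricke E (M * q) W)
    {yM : FE E M} {y : FE E (M * q)} (hy : IsCoordPair E M q yM y) :
    ∀ b ∈ chartAlg A E (M * q) y, b ∈ V := by
  have hC := H372.coordFacts_of_isCoordPair w hS hVM hV hW hy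
  have hyV : y ∈ V := by
    rw [hC.eq_mul]
    exact V.mul_mem _ _ (H372.alpha_mem hVM hV hC.mem) hC.beta_mem
  intro b hb
  exact H372.mem_of_isIntegralElem V (algebraMap (RE A E) (FE E (M * q))) y
    (fun r => H372.cE_mem w hS hV r) hyV (H372.mem_chartAlg_iff.mp hb)

/-- The chart of a coordinate `y ∈ {x, x⁻¹}` lies in `V₀ = V∞ ∘ W`. -/
theorem chartAlg_le_vzero (hS : Setting A E M q w) {VM : ValuationSubring (FE E M)}
    {V : ValuationSubring (FE E (M * q))} {W : FE E (M * q) ≃ₐ[E] FE E (M * q)}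
    (hVM : IsVinf A E M VM) (hV : IsVinf A E (M * q) V) (hW : IsFricke E (M * q) W)
    {yM : FE E M} {y : FE E (M * q)} (hy : IsCoordPair E M q yM y) :
    ∀ b ∈ chartAlg A E (M * q) y,
      b ∈ V.comap (W : FE E (M * q) →+* FE E (M * q)) := by
  have hC := H372.coordFacts_of_isCoordPair w hS hVM hV hW hy
  have hyV : y ∈ V.comap (W : FE E (M * q) →+* FE E (M * q)) := by
    rw [ValuationSubring.mem_comap]
    show W y ∈ V
    rw [hC.eq_mul, map_mul]
    exact V.mul_mem _ _ hC.alpha_mem₀ hC.beta_mem₀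
  intro b hb
  refine H372.mem_of_isIntegralElem (V.comap (W : FE E (M * q) →+* FE E (M * q)))
    (algebraMap (RE A E) (FE E (M * q))) y (fun r => ?_) hyV (H372.mem_chartAlg_iff.mp hb)
  rw [ValuationSubring.mem_comap]
  show W (cE A E (M * q) r) ∈ V
  have hWc : W (cE A E (M * q) r) = cE A E (M * q) r := W.commutes (r : E)
  rw [hWc]
  exact H372.cE_mem w hS hV r

/-- **The semistable chart with its cut data**, from S1, S2, S3. -/
theorem exists_chart_cutBy (hS : Setting A E M q w)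
    (hS1 : S1Statement A E M q w) (hS2 : S2Statement A E M q w) (hS3 : S3Statement A E M q w)
    (VM : ValuationSubring (FE E M)) (V : ValuationSubring (FE E (M * q)))
    (W : FE E (M * q) ≃ₐ[E] FE E (M * q))
    (hVM : IsVinf A E M VM) (hV : IsVinf A E (M * q) V) (hW : IsFricke E (M * q) W)
    (yM : FE E M) (y : FE E (M * q)) (hy : IsCoordPair E M q yM y)
    (hgood : GoodRedAt A E M w VM yM) :
    ∃ c : A2.SSChart w (chartAlg A E (M * q) y),
      CutBy w (chartAlg A E (M * q) y) c V (V.comap (W : FE E (M * q) →+* FE E (M * q))) := by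
  have hy' : IsCoord E M q y := by
    rcases hy with ⟨-, h⟩ | ⟨-, h⟩
    · exact Or.inl h
    · exact Or.inr h
  obtain ⟨p₁, p₂, hc₁, hc₂, hp₁, hp₂, h₁₂, h₂₁, hinf⟩ := hS1 hS V W hV hW y hy'
  obtain ⟨hn₁, hn₂⟩ := hS2 hS VM V W hVM hV hW yM y hy hgood p₁ p₂ hc₁ hc₂
  have hrad := hS3 hS VM V W hVM hV hW yM y hy hgood p₁ p₂ hc₁ hc₂
  refine ⟨{ p₁ := p₁
            p₂ := p₂
            prime₁ := hp₁
            prime₂ := hp₂
            ne := fun h => h₁₂ (h ▸ le_refl p₁)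
            not_le₁₂ := h₁₂
            not_le₂₁ := h₂₁
            inf_eq := hinf
            normal₁ := hn₁
            normal₂ := hn₂
            transversal := hrad }, ?_⟩
  exact
    { le₁ := chartAlg_le_vinf hS hVM hV hW hy
      le₂ := chartAlg_le_vzero hS hVM hV hW hy
      cut₁ := fun b => hc₁ b
      cut₂ := fun b => hc₂ b }

end Fermat.Agent.S35.G.H862

end

end
-- ===== PACK-END S35/G/H862/ModelCore.lean

-- ===== PACK-BEGIN S18/Mod/H216/GoodLevel.lean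
section


/-!
# S18 / MOD (helper216): the good model over an ARBITRARY level `E` (for A2 / GOODRED)

`node_mod` quantifies over number fields `E`, but finiteness of `E / ℚ` is used ONLY to produce the
uniformiser (`PartR`).  Here the same wiring is stated for EVERY intermediate field `E ⊆ Q̄`
(e.g. a good level `E ⊇ Q̄^{I}` of A2, infinite over `ℚ`), with `PartR` as the hypothesis:

* `partR_of_dvr`        : `PartR` from `[IsDiscreteValuationRing (H602.RE A E)]` + Frobenius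
                          surjective on the residue field (`∀ r, ∃ s, r - s ^ ℓ ∈ 𝔪`);
* `partR_of_dvr_of_isAlgClosed` : the same when the residue field is algebraically closed;
* `baseModel_j_of_partR`: the `j`-model without branch fields, every `ℓ ∤ M` (also `ℓ = 2, 3`);
* `goodModel_of_partR`  : `Alg.GoodModel (Lc M) (Ec M E) (Fc M E) (Rc M A E) (Vc M A E) w x S`
                          for every admissible coordinate (`x = j` if `ℓ ≥ 5`, Hauptmoduln else).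
-/

set_option autoImplicit false
set_option linter.unusedSectionVars false

noncomputable section

namespace Fermat.Agent.S18.Mod.H216

open ModularCurve AlgebraicCurve HahnSeries Fermat.Agent.S18 Fermat.Agent.S18.Mod
open Fermat.Agent.S18.Alg

variable (M : ℕ) [NeZero M] {ℓ : ℕ} [Fact ℓ.Prime] (A : ValuationSubring Qb)
  (E : IntermediateField ℚ Qb)

/-- **G-R over an arbitrary level**: `PartR` from the DVR property of `R_E = A ∩ E` and the
surjectivity of Frobenius on its residue field. -/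
theorem partR_of_dvr [IsDiscreteValuationRing (H602.RE A E)] (hA : A.LiesOverPrime ℓ)
    (hperf : ∀ r : H602.RE A E,
      ∃ s : H602.RE A E, r - s ^ ℓ ∈ IsLocalRing.maximalIdeal (H602.RE A E)) :
    ∃ w : Om M, H456.IsUnif M A E w ∧ PartR (Ec M E) (Rc M A E) w := by
  have hℓ : ℓ.Prime := Fact.out
  obtain ⟨w, hw⟩ := H456.exists_isUnif M A E
  refine ⟨w, hw, H456.field_R_le M A E, H456.field_R_total M A E, hw.mem, hw.ne_zero,
    hw.inv_not_mem, hw.gen, hw.discrete, ℓ, hℓ, ?_, ?_⟩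
  · rw [← H456.cstR_natCast M A E, hw.mul_inv_mem_iff, IsLocalRing.mem_maximalIdeal,
      mem_nonunits_iff]
    exact H602.natCast_not_isUnit_RE A E hA
  · intro r hr
    obtain ⟨r₀, rfl⟩ := (H456.mem_Rc_iff_cstR M A E).1 hr
    obtain ⟨s, hs⟩ := hperf r₀
    refine ⟨H456.cstR M A E s, H456.cstR_mem_Rc M A E s, ?_⟩
    rw [← H456.cstR_pow, ← H456.cstR_sub, hw.mul_inv_mem_iff]
    exact hs

/-- Frobenius is surjective modulo the maximal ideal when the residue field is algebraically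
closed. -/
theorem exists_pow_sub_mem_of_isAlgClosed [IsDiscreteValuationRing (H602.RE A E)]
    [IsAlgClosed (IsLocalRing.ResidueField (H602.RE A E))] (r : H602.RE A E) :
    ∃ s : H602.RE A E, r - s ^ ℓ ∈ IsLocalRing.maximalIdeal (H602.RE A E) := by
  have hℓ : ℓ.Prime := Fact.out
  obtain ⟨y, hy⟩ := IsAlgClosed.exists_pow_nat_eq (IsLocalRing.residue (H602.RE A E) r) hℓ.pos
  obtain ⟨s, rfl⟩ := IsLocalRing.residue_surjective y
  refine ⟨s, ?_⟩
  rw [← IsLocalRing.residue_eq_zero_iff, map_sub, map_pow, sub_eq_zero]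
  exact hy.symm

/-- **G-R over a good level**: `R_E` a DVR with algebraically closed residue field. -/
theorem partR_of_dvr_of_isAlgClosed [IsDiscreteValuationRing (H602.RE A E)]
    [IsAlgClosed (IsLocalRing.ResidueField (H602.RE A E))] (hA : A.LiesOverPrime ℓ) :
    ∃ w : Om M, H456.IsUnif M A E w ∧ PartR (Ec M E) (Rc M A E) w :=
  partR_of_dvr M A E hA (exists_pow_sub_mem_of_isAlgClosed A E)

/-- **G-FLD** for the coordinate `j`, arbitrary level. -/
theorem partFld_j_any : PartFld (Lc M) (Ec M E) (Fc M E) (jOm M) :=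
  ⟨H456.field_E_le_L M E, H456.field_E_le_F M E, H456.field_L_algebraic M E,
    H456.field_L_algClosed M, H456.field_E_closed_in_F M E, H456.field_compositum M E,
    H456.mem_Fc_of_hasIntExp M E (H456.hasIntExp_jOm M),
    H456.transcendental_of_hasIntExp M (H456.hasIntExp_jOm M), H24.field_finite_j M E⟩

/-- **G-FLD** for every admissible coordinate, arbitrary level. -/
theorem partFld_of_isCoordinate {x : Om M} {S : Finset (Om M)} (hx : IsCoordinate M ℓ x S) :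
    PartFld (Lc M) (Ec M E) (Fc M E) x :=
  ⟨H456.field_E_le_L M E, H456.field_E_le_F M E, H456.field_L_algebraic M E,
    H456.field_L_algClosed M, H456.field_E_closed_in_F M E, H456.field_compositum M E,
    H456.field_x_mem M E hx, H456.field_x_transcendental M hx, H24.field_finite M E hx⟩

/-- The `j`-model without its branch fields over an arbitrary level, for every `ℓ ∤ M`
(including `ℓ = 2, 3`). -/
theorem baseModel_j_of_partR (hℓM : ¬ ℓ ∣ M) (hA : A.LiesOverPrime ℓ) {w : Om M}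
    (hw : PartR (Ec M E) (Rc M A E) w) :
    H107.BaseModel107 (Lc M) (Ec M E) (Fc M E) (Rc M A E) (Vc M A E) w (jOm M) := by
  have hF := partFld_j_any M E
  have hV := partV_j A E (coreData_residue A hℓM hA) hw
  have hQ := partQep_j A E (coreData_residue A hℓM hA) hw
  have hS : PartSep (Rc M A E) (Vc M A E) w (jOm M) :=
    ⟨H264.separable_jOm M hℓM A hA E (Vc M A E) (coe_Vc M A E) w hw.w_mem hw.w_ne_zero hw.w_gen⟩
  exact
    { charZero := charZero_Om M
      R_le := hw.R_le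
      R_total := hw.R_total
      w_mem := hw.w_mem
      w_ne_zero := hw.w_ne_zero
      w_inv_not_mem := hw.w_inv_not_mem
      w_gen := hw.w_gen
      w_discrete := hw.w_discrete
      residue_perfect := hw.residue_perfect
      E_le_L := hF.E_le_L
      E_le_F := hF.E_le_F
      L_algebraic := hF.L_algebraic
      L_algClosed := hF.L_algClosed
      E_closed_in_F := hF.E_closed_in_F
      compositum := hF.compositum
      x_mem := hF.x_mem
      x_transcendental := hF.x_transcendental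
      finite := hF.finite
      V_le := hV.V_le
      V_total := hV.V_total
      R_le_V := hV.R_le_V
      w_inv_not_mem_V := hV.w_inv_not_mem_V
      V_gen := hV.V_gen
      x_mem_V := hV.x_mem_V
      gauss := hV.gauss
      qep_fin := hQ.qep_fin
      qep_inf := hQ.qep_inf
      separable := hS.separable }

/-- **The good model over an arbitrary level `E`** (`R_E = A ∩ E` a DVR with uniformiser `w` and
perfect residue field, packaged as `PartR`), for every admissible coordinate. -/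
theorem goodModel_of_partR (hℓM : ¬ ℓ ∣ M) (hA : A.LiesOverPrime ℓ) {w : Om M}
    (hw : PartR (Ec M E) (Rc M A E) w) {x : Om M} {S : Finset (Om M)}
    (hx : IsCoordinate M ℓ x S) :
    GoodModel (Lc M) (Ec M E) (Fc M E) (Rc M A E) (Vc M A E) w x S := by
  by_cases h5 : 5 ≤ ℓ
  · obtain ⟨h1, h2, h3, h4⟩ := H558.br_of_isCoordinate M A hA E x S hx
    have hB : PartBr (Lc M) (Rc M A E) x S := ⟨h1, h2, h3, h4⟩
    rcases hx with ⟨-, rfl, -⟩ | ⟨h | h, -⟩
    · exact goodModel_of_parts (charZero_Om M) hw (partFld_j_any M E)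
        (partV_j A E (coreData_residue A hℓM hA) hw)
        (partQep_j A E (coreData_residue A hℓM hA) hw)
        ⟨H264.separable_jOm M hℓM A hA E (Vc M A E) (coe_Vc M A E) w hw.w_mem hw.w_ne_zero
          hw.w_gen⟩ hB
    · exact absurd h.1 (by omega)
    · exact absurd h.1 (by omega)
  · obtain ⟨-, -, -, hxV, -, -, hgauss⟩ :=
      H24.gv_fields_of_isCoordinate (M := M) (A := A) (E := E) (Vc M A E) (coe_Vc M A E)
        hw.w_mem hw.w_ne_zero hw.w_inv_not_mem hw.w_gen hw.w_discrete hx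
    exact H107.goodModel_of_isCoordinate107 M A hA h5 hx E (baseModel_j_of_partR M A E hℓM hA hw)
      (H456.field_x_mem M E hx) hxV hgauss

end Fermat.Agent.S18.Mod.H216

end
end
-- ===== PACK-END S18/Mod/H216/GoodLevel.lean

-- ===== PACK-BEGIN Ribet/H132/WildNode.lean
section




/-!
# RIBET wall-p, (S4) WILD case: the cover package at ONE node (helper132)

`R` a node ring (`I6.IsNode 𝔭₁ 𝔭₂ π x y`), `K = Frac R`, `L = K(h)`, `h ^ p = g` with `g ∈ Kˣ`
split along both branches (`I6.SplitAt`) and horizontally `p`-divisible; `τ` a generator of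
`Gal(L/K)`; `(D, D')` a unit pair of exponent `N` prime to `p`; `f' ∈ Lˣ` horizontally
`p`-divisible with `τ f' = f' · c · G ^ p`, `c = ε₀ π ^ (p j₀)` (PER + peu ramifié);
`𝒲₁, 𝒲₂` valuation subrings of `L` over the two branch valuation rings `R_{𝔭₁}`, `R_{𝔭₂}`
(ANY sheets; e.g. the restrictions to `L` of the Gauss valuations of a field of `t`-expansions).

* `slopes_mod_p`  (Lemma S): in a node ring, `δ ≡ v₁(u) - v₂(u)` ⟹ both slopes of `u ^ N D ^ δ`
  are divisible by `p` (node relation `H403.nodeRelVal_403` in both orientations).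
* `slope_transfer` (Lemma T): if `T ∈ L` has slope `≡ 0` at a node ring `R' ⊆ L` above `R` and
  `τ T = T · const · H ^ p`, then every `g₁ ∈ K` with `T / g₁ ∈ 1 + π 𝒲` has slope `≡ 0` in `R`.
* `valAt_congr_sheet` (Lemma V): the branch valuation of `f'` at `R'` is `≡ 𝒲(f')  (mod p)`.
* `wild_node_core` : the conclusion for any node ring `R' ⊆ L` above `R`;
* `exists_coverNode_of_split` : `R'` exists (`H399.splitLoc` + `coverNode`);
* **`wild_node`** : for `δ ≡ 𝒲₁(f') - 𝒲₂(f') (mod p)` and every approximant `gᵢ ∈ Kˣ` of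
  `f' ^ N · D ^ δ` at `𝒲ᵢ`, the slope of `gᵢ` along `𝔭ᵢ` in `R` is divisible by `p`.
-/

set_option autoImplicit false
set_option linter.unusedSectionVars false
set_option linter.style.haveILetI false
set_option linter.unusedVariables false

namespace Fermat.Agent.Ribet.H132

open Fermat.Agent.Ribet.H704 Fermat.Agent.A2.H849 Fermat.Agent.A2.Alg.H132

/-! ## Lemma S -/

section LemmaS

variable {R K : Type} [CommRing R] [IsDomain R] [IsIntegrallyClosed R] [IsNoetherianRing R]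
  [IsLocalRing R] [Field K] [Algebra R K] [IsFractionRing R K]
variable {𝔭₁ 𝔭₂ : Ideal R} {π x y : R}

/-- **Lemma S.**  In a node ring with a unit pair of exponent `N` prime to `p`: if `u ∈ Kˣ` is
horizontally `p`-divisible with branch valuations `w₁, w₂` and `δ ≡ w₁ - w₂ (mod p)`, then both
slopes of `u ^ N · D ^ δ` are divisible by `p`. -/
theorem slopes_mod_p (hN : I6.IsNode 𝔭₁ 𝔭₂ π x y) {p : ℕ} (hp : p.Prime) {N : ℕ}
    (hNp : Nat.Coprime N p) {D D' : R} (hD : I6.IsUnitPair 𝔭₁ 𝔭₂ π D D' N)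
    {u : K} (hu : u ≠ 0) (hdiv : I6.HorDivVal K π p u) {w₁ w₂ : ℤ}
    (hw₁ : I6.ValAt K 𝔭₁ π u w₁) (hw₂ : I6.ValAt K 𝔭₂ π u w₂) {δ : ℤ}
    (hδ : (p : ℤ) ∣ δ - (w₁ - w₂)) :
    (∀ s : ℤ, I6.SlopeAt K 𝔭₁ π x (u ^ N * (algebraMap R K D) ^ δ) s → (p : ℤ) ∣ s) ∧
    (∀ s : ℤ, I6.SlopeAt K 𝔭₂ π y (u ^ N * (algebraMap R K D) ^ δ) s → (p : ℤ) ∣ s) := by
  have hN0 : 0 < N := by
    rcases Nat.eq_zero_or_pos N with h0 | h0
    · subst h0
      rw [Nat.coprime_zero_left] at hNp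
      exact absurd hNp hp.one_lt.ne'
    · exact h0
  obtain ⟨k, hk₁, hk₂, hs₁D, hs₂D⟩ := unitPair_slopes (K := K) hN hN0 hD
  have hB₁ := branchData_left hN
  have hB₂ := branchData_right hN
  obtain ⟨a₁, ha₁⟩ := exists_slopeAt (K := K) hB₁ hu
  obtain ⟨a₂, ha₂⟩ := exists_slopeAt (K := K) hB₂ hu
  -- node relation, orientation `(𝔭₁, 𝔭₂)`
  have r₂ := Fermat.Agent.Ribet.H403.nodeRelVal_403 R K 𝔭₁ 𝔭₂ π x y hN p N hp.ne_zero hNp D D' hD
    u hu hdiv w₁ w₂ a₂ k hw₁ hw₂ ha₂ hk₁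
  -- node relation, orientation `(𝔭₂, 𝔭₁)`
  have hD' : I6.IsUnitPair 𝔭₂ 𝔭₁ π D' D N :=
    ⟨by rw [mul_comm]; exact hD.mul_eq, hD.hD', hD.hD⟩
  have r₁ := Fermat.Agent.Ribet.H403.nodeRelVal_403 R K 𝔭₂ 𝔭₁ π y x (isNode_symm hN) p N
    hp.ne_zero hNp D' D hD' u hu hdiv w₂ w₁ a₁ k hw₂ hw₁ ha₁ hk₂
  obtain ⟨q, hq⟩ := hδ
  constructor
  · intro s hs
    have h1 := slopeAt_mul hB₁ (slopeAt_pow hB₁ ha₁ N) (slopeAt_zpow hB₁ hs₁D δ)
    have := slopeAt_unique hB₁ hs h1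
    rw [this]
    obtain ⟨r, hr⟩ := r₁
    refine ⟨r + q * k, ?_⟩
    have : δ = w₁ - w₂ + p * q := by linarith
    rw [this]
    linear_combination hr
  · intro s hs
    have h1 := slopeAt_mul hB₂ (slopeAt_pow hB₂ ha₂ N) (slopeAt_zpow hB₂ hs₂D δ)
    have := slopeAt_unique hB₂ hs h1
    rw [this]
    obtain ⟨r, hr⟩ := r₂
    refine ⟨r - q * k, ?_⟩
    have : δ = w₁ - w₂ + p * q := by linarith
    rw [this]
    linear_combination hr

end LemmaS

/-! ## The cover: Lemmas T and V -/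

section Cover

variable {R K L : Type} [CommRing R] [IsDomain R] [IsIntegrallyClosed R] [IsNoetherianRing R]
  [IsLocalRing R] [Field K] [Algebra R K] [IsFractionRing R K] [Field L] [Algebra K L]
  [Algebra R L] [IsScalarTower R K L]
variable (R' : Subalgebra R L) [IsIntegrallyClosed R'] [IsNoetherianRing R']
  [IsFractionRing R' L]

omit [IsDomain R] [IsIntegrallyClosed R] [IsNoetherianRing R] [IsLocalRing R]
  [IsFractionRing R K] [IsIntegrallyClosed R'] [IsNoetherianRing R'] [IsFractionRing R' L] in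
theorem algebraMap_tower (r : R) :
    algebraMap K L (algebraMap R K r) = algebraMap R' L (algebraMap R R' r) := by
  rw [← IsScalarTower.algebraMap_apply R K L]
  rfl

omit [IsDomain R] [IsIntegrallyClosed R] [IsNoetherianRing R] [IsLocalRing R]
  [IsFractionRing R K] in
/-- Powers of `τ` fix the image of `R`. -/
theorem algEquiv_pow_algebraMap (τ : L ≃ₐ[K] L) (m : ℕ) (r : R) :
    (τ ^ m) (algebraMap R L r) = algebraMap R L r := by
  rw [IsScalarTower.algebraMap_apply R K L]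
  exact (τ ^ m).commutes _

variable {R'}
variable {π ϖ : R} {𝔭 𝔮 : Ideal R}

/-- The sheet of the node ring `R'` along the branch `𝔭` is conjugate to the given sheet `𝒲`. -/
theorem exists_pow_sheet (hB : BranchData π 𝔭 𝔮 ϖ)
    (hB' : BranchData (algebraMap R R' π) (𝔭.map (algebraMap R R')) (𝔮.map (algebraMap R R'))
      (algebraMap R R' ϖ))
    (hcon : ∀ a : R, algebraMap R R' a ∈ 𝔭.map (algebraMap R R') → a ∈ 𝔭)
    [FiniteDimensional K L] [IsGalois K L] (τ : L ≃ₐ[K] L)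
    (hgen : ∀ σ : L ≃ₐ[K] L, σ ∈ Subgroup.zpowers τ)
    (𝒲 : ValuationSubring L) (h𝒲 : 𝒲.comap (algebraMap K L) = vertVal (F := K) hB.vert) :
    ∃ j m : ℕ, (∀ z : L, (τ ^ j) z ∈ 𝒲 ↔ z ∈ vertVal (F := L) hB'.vert) ∧
      ∀ z : L, (τ ^ j) ((τ ^ m) z) = z := by
  have hψ : ∀ r : R, r ∉ 𝔭 → algebraMap R R' r ∉ 𝔭.map (algebraMap R R') :=
    fun r hr hm => hr (hcon r hm)
  have hcomap : (vertVal (F := L) hB'.vert).comap (algebraMap K L) = vertVal (F := K) hB.vert :=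
    vertVal_comap hB.vert hB'.vert (algebraMap K L) (algebraMap R R') (algebraMap_tower R') hψ rfl
  obtain ⟨j, -, hj⟩ := Fermat.Agent.Ribet.H873.exists_pow_forall_mem_iff_of_isGalois τ hgen
    (vertVal (F := L) hB'.vert) 𝒲 (hcomap.trans h𝒲.symm)
  have hcard : Nat.card (L ≃ₐ[K] L) = Module.finrank K L := IsGalois.card_aut_eq_finrank K L
  have hn : 0 < Module.finrank K L := Module.finrank_pos
  have hτn : τ ^ Module.finrank K L = 1 := by
    rw [← hcard]; exact pow_card_eq_one'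
  refine ⟨j, (Module.finrank K L - 1) * j, hj, fun z => ?_⟩
  have e : τ ^ j * τ ^ ((Module.finrank K L - 1) * j) = 1 := by
    rw [← pow_add]
    have : j + (Module.finrank K L - 1) * j = Module.finrank K L * j := by
      obtain ⟨n, hn'⟩ : ∃ n, Module.finrank K L = n + 1 := ⟨Module.finrank K L - 1, by omega⟩
      rw [hn']; simp; ring
    rw [this, pow_mul, hτn, one_pow]
  have := congrArg (fun σ : L ≃ₐ[K] L => σ z) e
  simpa [AlgEquiv.mul_apply] using this

/-- Iterating the period relation for an algebra automorphism. -/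
theorem iterate_period_alg (p : ℕ) (τ : L ≃ₐ[K] L) {T c H : L} (hτ : τ T = T * c * H ^ p)
    (hτc : τ c = c) (hH : H ≠ 0) (m : ℕ) :
    ∃ Hm : L, Hm ≠ 0 ∧ (τ ^ m) T = T * c ^ m * Hm ^ p := by
  obtain ⟨Hm, h1, h2⟩ := I6.iterate_period p (τ : L ≃+* L) T c H hτ hτc m
  refine ⟨Hm, h2 hH, ?_⟩
  rw [← Fermat.Agent.Ribet.H873.toRingEquiv_pow_apply τ m T]
  exact h1

/-- **Lemma T (transfer).**  `T ∈ Lˣ` with slope `≡ 0 (mod p)` at the node ring `R'` above `R`
along the branch `𝔭`, `τ T = T · c · H ^ p` with `c` a constant.  Then every `g₁ ∈ Kˣ` with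
`T / g₁ ∈ 1 + π 𝒲` has slope `≡ 0 (mod p)` in `R` along `𝔭`. -/
theorem slope_transfer (hB : BranchData π 𝔭 𝔮 ϖ)
    (hB' : BranchData (algebraMap R R' π) (𝔭.map (algebraMap R R')) (𝔮.map (algebraMap R R'))
      (algebraMap R R' ϖ))
    (hcon : ∀ a : R, algebraMap R R' a ∈ 𝔭.map (algebraMap R R') → a ∈ 𝔭)
    [FiniteDimensional K L] [IsGalois K L] (τ : L ≃ₐ[K] L)
    (hgen : ∀ σ : L ≃ₐ[K] L, σ ∈ Subgroup.zpowers τ)
    (𝒲 : ValuationSubring L) (h𝒲 : 𝒲.comap (algebraMap K L) = vertVal (F := K) hB.vert)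
    {p : ℕ} {T c H : L} (hT0 : T ≠ 0) (hH : H ≠ 0) (hτ : τ T = T * c * H ^ p)
    {ε₀ : R} (hε₀ : IsUnit ε₀) {n₀ : ℤ}
    (hc : c = algebraMap R L ε₀ * (algebraMap R L π) ^ n₀)
    (hT : ∀ s : ℤ, I6.SlopeAt L (𝔭.map (algebraMap R R')) (algebraMap R R' π)
      (algebraMap R R' ϖ) T s → (p : ℤ) ∣ s)
    {g₁ : K} (hg₁ : g₁ ≠ 0) (happ : (T / algebraMap K L g₁ - 1) / algebraMap R L π ∈ 𝒲)
    {s : ℤ} (hs : I6.SlopeAt K 𝔭 π ϖ g₁ s) : (p : ℤ) ∣ s := by
  have hψ : ∀ r : R, r ∉ 𝔭 → algebraMap R R' r ∉ 𝔭.map (algebraMap R R') :=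
    fun r hr hm => hr (hcon r hm)
  obtain ⟨j, m, hj, hjm⟩ := exists_pow_sheet hB hB' hcon τ hgen 𝒲 h𝒲
  have hπL : algebraMap R L π ≠ 0 := by
    rw [IsScalarTower.algebraMap_apply R K L]
    exact (map_ne_zero _).2 (algebraMap_ne_zero hB.vert.w_ne)
  have hg₁L : algebraMap K L g₁ ≠ 0 := (map_ne_zero _).2 hg₁
  -- the conjugate `T' = τ ^ m T`
  set T' : L := (τ ^ m) T with hT'
  set z' : L := (τ ^ m) ((T / algebraMap K L g₁ - 1) / algebraMap R L π) with hz'
  have hz'W : z' ∈ vertVal (F := L) hB'.vert := by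
    rw [← hj, hz', hjm]
    exact happ
  have hz'eq : z' = (T' / algebraMap K L g₁ - 1) / algebraMap R L π := by
    rw [hz', map_div₀, map_sub, map_div₀, map_one, algEquiv_pow_algebraMap τ m π,
      (τ ^ m).commutes g₁]
  have hT'eq : T' = (1 + algebraMap R' L (algebraMap R R' π) * z') * algebraMap K L g₁ := by
    have : algebraMap R' L (algebraMap R R' π) = algebraMap R L π := rfl
    rw [this, hz'eq]
    field_simp
    ring
  have h1 := slopeAt_one_add (K := L) hB' hz'W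
  have h2 : I6.SlopeAt L (𝔭.map (algebraMap R R')) (algebraMap R R' π) (algebraMap R R' ϖ)
      (algebraMap K L g₁) s :=
    slopeAt_map (algebraMap K L) (algebraMap R R') (algebraMap_tower R') hψ
      Ideal.le_comap_map hs
  have h3 := slopeAt_mul hB' h1 h2
  rw [← hT'eq, zero_add] at h3
  -- `T' = T · c ^ m · Hm ^ p`
  have hτc : τ c = c := by
    rw [hc, map_mul, map_zpow₀]
    have e1 : τ (algebraMap R L ε₀) = algebraMap R L ε₀ := by
      simpa using algEquiv_pow_algebraMap τ 1 ε₀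
    have e2 : τ (algebraMap R L π) = algebraMap R L π := by
      simpa using algEquiv_pow_algebraMap τ 1 π
    rw [e1, e2]
  obtain ⟨Hm, hHm, hiter⟩ := iterate_period_alg p τ hτ hτc hH m
  obtain ⟨sT, hsT⟩ := exists_slopeAt (K := L) hB' hT0
  obtain ⟨sH, hsH⟩ := exists_slopeAt (K := L) hB' hHm
  have hcs : I6.SlopeAt L (𝔭.map (algebraMap R R')) (algebraMap R R' π) (algebraMap R R' ϖ)
      c 0 := by
    rw [hc]
    exact slopeAt_const (K := L) hB' (hε₀.map (algebraMap R R')) n₀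
  have h4 := slopeAt_mul hB' (slopeAt_mul hB' hsT (slopeAt_pow hB' hcs m))
    (slopeAt_pow hB' hsH p)
  rw [← hiter, ← hT'] at h4
  have := slopeAt_unique hB' h3 h4
  rw [this]
  obtain ⟨q, hq⟩ := hT sT hsT
  exact ⟨q + sH, by rw [hq]; ring⟩

/-- **Lemma V.**  The branch valuation of `f'` at the node ring `R'` is congruent modulo `p`
to its valuation at the given sheet `𝒲`. -/
theorem valAt_congr_sheet (hB : BranchData π 𝔭 𝔮 ϖ)
    (hB' : BranchData (algebraMap R R' π) (𝔭.map (algebraMap R R')) (𝔮.map (algebraMap R R'))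
      (algebraMap R R' ϖ))
    (hcon : ∀ a : R, algebraMap R R' a ∈ 𝔭.map (algebraMap R R') → a ∈ 𝔭)
    [FiniteDimensional K L] [IsGalois K L] (τ : L ≃ₐ[K] L)
    (hgen : ∀ σ : L ≃ₐ[K] L, σ ∈ Subgroup.zpowers τ)
    (𝒲 : ValuationSubring L) (h𝒲 : 𝒲.comap (algebraMap K L) = vertVal (F := K) hB.vert)
    {p : ℕ} {f' c G : L} (hG : G ≠ 0) (hτ : τ f' = f' * c * G ^ p)
    {ε₀ : R} (hε₀ : IsUnit ε₀) {j₀ : ℤ}
    (hc : c = algebraMap R L ε₀ * (algebraMap R L π) ^ ((p : ℤ) * j₀))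
    {v : ℤ} (hv : IsWVal 𝒲 (algebraMap R L π) f' v) {w : ℤ}
    (hw : I6.ValAt L (𝔭.map (algebraMap R R')) (algebraMap R R' π) f' w) :
    (p : ℤ) ∣ w - v := by
  obtain ⟨j, m, hj, hjm⟩ := exists_pow_sheet hB hB' hcon τ hgen 𝒲 h𝒲
  have hπK : algebraMap R K π ≠ 0 := algebraMap_ne_zero hB.vert.w_ne
  have hπL : algebraMap R L π ≠ 0 := by
    rw [IsScalarTower.algebraMap_apply R K L]
    exact (map_ne_zero _).2 hπK
  have hmemK : ∀ t : K, algebraMap K L t ∈ 𝒲 ↔ t ∈ vertVal (F := K) hB.vert := by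
    intro t
    rw [← h𝒲]; rfl
  have hπW : algebraMap R L π ∈ 𝒲 := by
    rw [IsScalarTower.algebraMap_apply R K L, hmemK]
    exact algebraMap_mem_vertVal hB.vert π
  have hπW' : (algebraMap R L π)⁻¹ ∉ 𝒲 := by
    rw [IsScalarTower.algebraMap_apply R K L, ← map_inv₀, hmemK]
    exact inv_notMem_vertVal hB.vert hB.vert.w_mem hB.vert.w_ne
  -- the ring automorphism `σ = τ ^ j`
  have hσπ : (τ ^ j) (algebraMap R L π) = algebraMap R L π := algEquiv_pow_algebraMap τ j π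
  have hmap : ∀ {u : L} {n : ℤ},
      I6.ValAt L (𝔭.map (algebraMap R R')) (algebraMap R R' π) u n →
        IsWVal 𝒲 (algebraMap R L π) ((τ ^ j) u) n := by
    intro u n hu
    obtain ⟨h1, h2, h0⟩ := (valAt_iff hB'.vert u n).1 hu
    have hW' : IsWVal (vertVal (F := L) hB'.vert) (algebraMap R L π) u n := ⟨h0, h1, h2⟩
    exact isWVal_map ((τ ^ j : L ≃ₐ[K] L) : L ≃+* L) (fun z => hj z) hσπ hW'
  have hτc : τ c = c := by
    rw [hc, map_mul, map_zpow₀]
    have e1 : τ (algebraMap R L ε₀) = algebraMap R L ε₀ := by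
      simpa using algEquiv_pow_algebraMap τ 1 ε₀
    have e2 : τ (algebraMap R L π) = algebraMap R L π := by
      simpa using algEquiv_pow_algebraMap τ 1 π
    rw [e1, e2]
  obtain ⟨Hj, hHj, hiter⟩ := iterate_period_alg p τ hτ hτc hG j
  have h1 : IsWVal 𝒲 (algebraMap R L π) ((τ ^ j) f') w := hmap hw
  rw [hiter] at h1
  -- the valuation of `c`
  obtain ⟨ε₁, hε₁⟩ := hε₀.exists_right_inv
  have hεL0 : algebraMap R L ε₀ ≠ 0 := by
    intro h0
    have : algebraMap R L (ε₀ * ε₁) = 0 := by rw [map_mul, h0, zero_mul]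
    rw [hε₁, map_one] at this
    exact one_ne_zero this
  have hcW : IsWVal 𝒲 (algebraMap R L π) c ((p : ℤ) * j₀) := by
    rw [hc]
    have hu : IsWVal 𝒲 (algebraMap R L π) (algebraMap R L ε₀) 0 := by
      refine isWVal_unit ?_ ?_ hεL0
      · rw [IsScalarTower.algebraMap_apply R K L, hmemK]
        exact algebraMap_mem_vertVal hB.vert ε₀
      · have : (algebraMap R L ε₀)⁻¹ = algebraMap R L ε₁ := by
          apply inv_eq_of_mul_eq_one_right
          rw [← map_mul, hε₁, map_one]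
        rw [this, IsScalarTower.algebraMap_apply R K L, hmemK]
        exact algebraMap_mem_vertVal hB.vert ε₁
    simpa using isWVal_mul hπL hu (isWVal_zpow_self hπL ((p : ℤ) * j₀))
  -- the valuation of `Hj`
  obtain ⟨vH, hvH⟩ : ∃ vH : ℤ, IsWVal 𝒲 (algebraMap R L π) Hj vH := by
    have h0 : (τ ^ m) Hj ≠ 0 := (map_ne_zero _).2 hHj
    obtain ⟨n, hn⟩ := exists_valAt (K := L) hB'.vert h0
    have := hmap hn
    rw [hjm] at this
    exact ⟨n, this⟩
  have h2 := isWVal_mul hπL (isWVal_mul hπL hv (isWVal_pow hπL hcW j)) (isWVal_pow hπL hvH p)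
  have := isWVal_unique hπW hπW' h1 h2
  rw [this]
  exact ⟨j * j₀ + vH, by ring⟩

end Cover

/-! ## The package at one node -/

section Package

variable {R K L : Type} [CommRing R] [IsDomain R] [IsIntegrallyClosed R] [IsNoetherianRing R]
  [IsLocalRing R] [Field K] [Algebra R K] [IsFractionRing R K] [Field L] [Algebra K L]
  [Algebra R L] [IsScalarTower R K L]
variable {𝔭₁ 𝔭₂ : Ideal R} {π x y : R}

/-- **The conclusion for a given node ring `R' ⊆ L` above `R`.** -/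
theorem wild_node_core (hN : I6.IsNode 𝔭₁ 𝔭₂ π x y)
    (R' : Subalgebra R L) [IsLocalRing R'] [IsIntegrallyClosed R'] [IsNoetherianRing R']
    [IsFractionRing R' L]
    (hN' : I6.IsNode (𝔭₁.map (algebraMap R R')) (𝔭₂.map (algebraMap R R'))
      (algebraMap R R' π) (algebraMap R R' x) (algebraMap R R' y))
    (hc₁ : ∀ a : R, algebraMap R R' a ∈ 𝔭₁.map (algebraMap R R') → a ∈ 𝔭₁)
    (hc₂ : ∀ a : R, algebraMap R R' a ∈ 𝔭₂.map (algebraMap R R') → a ∈ 𝔭₂)
    [FiniteDimensional K L] [IsGalois K L] (τ : L ≃ₐ[K] L)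
    (hgen : ∀ σ : L ≃ₐ[K] L, σ ∈ Subgroup.zpowers τ)
    {p : ℕ} (hp : p.Prime) {N : ℕ} (hNp : Nat.Coprime N p) {D D' : R}
    (hD : I6.IsUnitPair 𝔭₁ 𝔭₂ π D D' N)
    {f' c G : L} (hf' : f' ≠ 0) (hG : G ≠ 0) (hτ : τ f' = f' * c * G ^ p)
    {ε₀ : R} (hε₀ : IsUnit ε₀) {j₀ : ℤ}
    (hc : c = algebraMap R L ε₀ * (algebraMap R L π) ^ ((p : ℤ) * j₀))
    (hdiv : I6.HorDivVal (R := R) L π p f')
    (𝒲₁ 𝒲₂ : ValuationSubring L)
    (h𝒲₁ : 𝒲₁.comap (algebraMap K L) = vertVal (F := K) (vertData_left hN))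
    (h𝒲₂ : 𝒲₂.comap (algebraMap K L) = vertVal (F := K) (vertData_right hN))
    {v₁ v₂ : ℤ} (hv₁ : IsWVal 𝒲₁ (algebraMap R L π) f' v₁)
    (hv₂ : IsWVal 𝒲₂ (algebraMap R L π) f' v₂)
    {δ : ℤ} (hδ : (p : ℤ) ∣ δ - (v₁ - v₂)) :
    (∀ g₁ : K, g₁ ≠ 0 →
      (f' ^ N * (algebraMap R L D) ^ δ / algebraMap K L g₁ - 1) / algebraMap R L π ∈ 𝒲₁ →
      ∀ s : ℤ, I6.SlopeAt K 𝔭₁ π x g₁ s → (p : ℤ) ∣ s) ∧
    (∀ g₂ : K, g₂ ≠ 0 →
      (f' ^ N * (algebraMap R L D) ^ δ / algebraMap K L g₂ - 1) / algebraMap R L π ∈ 𝒲₂ →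
      ∀ s : ℤ, I6.SlopeAt K 𝔭₂ π y g₂ s → (p : ℤ) ∣ s) := by
  have hB₁ := branchData_left hN
  have hB₂ := branchData_right hN
  have hB₁' := branchData_left hN'
  have hB₂' := branchData_right hN'
  obtain ⟨w₁, hw₁⟩ := exists_valAt (K := L) hB₁'.vert hf'
  obtain ⟨w₂, hw₂⟩ := exists_valAt (K := L) hB₂'.vert hf'
  have hcong₁ := valAt_congr_sheet hB₁ hB₁' hc₁ τ hgen 𝒲₁ h𝒲₁ hG hτ hε₀ hc hv₁ hw₁
  have hcong₂ := valAt_congr_sheet hB₂ hB₂' hc₂ τ hgen 𝒲₂ h𝒲₂ hG hτ hε₀ hc hv₂ hw₂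
  have hδ' : (p : ℤ) ∣ δ - (w₁ - w₂) := by
    have : δ - (w₁ - w₂) = (δ - (v₁ - v₂)) - (w₁ - v₁) + (w₂ - v₂) := by ring
    rw [this]
    exact dvd_add (dvd_sub hδ hcong₁) hcong₂
  have hD' : I6.IsUnitPair (𝔭₁.map (algebraMap R R')) (𝔭₂.map (algebraMap R R'))
      (algebraMap R R' π) (algebraMap R R' D) (algebraMap R R' D') N :=
    ⟨by rw [← map_mul, hD.mul_eq, map_pow], fun h => hD.hD (hc₁ _ h), fun h => hD.hD' (hc₂ _ h)⟩
  have hdiv' : I6.HorDivVal (R := R') L (algebraMap R R' π) p f' :=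
    fun V hV hR hπ => hdiv V hV (fun r => hR (algebraMap R R' r)) hπ
  obtain ⟨hS₁, hS₂⟩ := slopes_mod_p (K := L) hN' hp hNp hD' hf' hdiv' hw₁ hw₂ hδ'
  -- the function `T`
  have hD0 : algebraMap R L D ≠ 0 := by
    rw [IsScalarTower.algebraMap_apply R K L]
    exact (map_ne_zero _).2 (algebraMap_ne_zero (fun h0 => hD.hD (h0 ▸ 𝔭₁.zero_mem)))
  have hT0 : f' ^ N * (algebraMap R L D) ^ δ ≠ 0 :=
    mul_ne_zero (pow_ne_zero _ hf') (zpow_ne_zero _ hD0)
  have hτD : τ (algebraMap R L D) = algebraMap R L D := by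
    simpa using algEquiv_pow_algebraMap τ 1 D
  have hτT : τ (f' ^ N * (algebraMap R L D) ^ δ) =
      f' ^ N * (algebraMap R L D) ^ δ * c ^ N * (G ^ N) ^ p := by
    rw [map_mul, map_pow, map_zpow₀, hτ, hτD]
    ring
  have hcN : c ^ N = algebraMap R L (ε₀ ^ N) * (algebraMap R L π) ^ (((p : ℤ) * j₀) * N) := by
    rw [hc, mul_pow, map_pow, zpow_mul _ ((p : ℤ) * j₀) (N : ℤ), zpow_natCast]
  exact ⟨fun g₁ hg₁ happ s hs =>
      slope_transfer hB₁ hB₁' hc₁ τ hgen 𝒲₁ h𝒲₁ hT0 (pow_ne_zero N hG) hτT (hε₀.pow N) hcN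
        hS₁ hg₁ happ hs,
    fun g₂ hg₂ happ s hs =>
      slope_transfer hB₂ hB₂' hc₂ τ hgen 𝒲₂ h𝒲₂ hT0 (pow_ne_zero N hG) hτT (hε₀.pow N) hcN
        hS₂ hg₂ happ hs⟩

/-- **The node ring of the cover** (`H399.splitLoc` + `coverNode`): for `g ∈ Kˣ` horizontally
`p`-divisible and split along both branches, `L = K(h)`, `h ^ p = g`. -/
theorem exists_coverNode_of_split (hN : I6.IsNode 𝔭₁ 𝔭₂ π x y)
    (hk : IsAlgClosed (IsLocalRing.ResidueField R))
    {p : ℕ} (hp : p.Prime) {ζ : R} (hζ : IsPrimitiveRoot ζ p)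
    {lam ε η : R} {e : ℕ} (hlamζ : lam = ζ - 1) (hε : IsUnit ε)
    (hlam_p : lam ^ (p - 1) = (p : R) * ε) (hη : IsUnit η) (he : 0 < e) (hlam : lam = η * π ^ e)
    {g : K} (hg : g ≠ 0) (hgdiv : I6.HorDivVal K π p g) (hs₁ : I6.SplitAt K 𝔭₁ π p g)
    (hs₂ : I6.SplitAt K 𝔭₂ π p g)
    {h : L} (hh : h ^ p = algebraMap K L g) (hadj : IntermediateField.adjoin K ({h} : Set L) = ⊤) :
    ∃ (R' : Subalgebra R L) (_ : IsLocalRing R'),
      IsIntegrallyClosed R' ∧ IsNoetherianRing R' ∧ IsFractionRing R' L ∧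
      I6.IsNode (𝔭₁.map (algebraMap R R')) (𝔭₂.map (algebraMap R R')) (algebraMap R R' π)
        (algebraMap R R' x) (algebraMap R R' y) ∧
      (∀ a : R, algebraMap R R' a ∈ 𝔭₁.map (algebraMap R R') → a ∈ 𝔭₁) ∧
      (∀ a : R, algebraMap R R' a ∈ 𝔭₂.map (algebraMap R R') → a ∈ 𝔭₂) := by
  obtain ⟨gr, d, hd, hgd, hg₁, hg₂, hdivr, hsr₁, hsr₂⟩ :=
    Fermat.Agent.Ribet.H399.splitLoc R K 𝔭₁ 𝔭₂ π x y hN p hp g hg hgdiv hs₁ hs₂
  have hdL : algebraMap K L d ≠ 0 := (map_ne_zero _).2 hd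
  set h' : L := h * (algebraMap K L d)⁻¹ with hh'
  have hh'p : h' ^ p = algebraMap R L gr := by
    rw [hh', mul_pow, hh, hgd, map_mul, map_pow, inv_pow, IsScalarTower.algebraMap_apply R K L]
    field_simp
  have hadj' : IntermediateField.adjoin K ({h'} : Set L) = ⊤ := by
    rw [eq_top_iff, ← hadj, IntermediateField.adjoin_le_iff]
    intro z hz
    rw [Set.mem_singleton_iff] at hz
    subst hz
    have h1 : h' ∈ IntermediateField.adjoin K ({h'} : Set L) :=
      IntermediateField.subset_adjoin K _ (Set.mem_singleton h')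
    have h2 : algebraMap K L d ∈ IntermediateField.adjoin K ({h'} : Set L) :=
      IntermediateField.algebraMap_mem _ d
    have : z = h' * algebraMap K L d := by
      rw [hh']; field_simp
    rw [this]
    exact mul_mem h1 h2
  exact coverNode R K L 𝔭₁ 𝔭₂ π x y hN hk p hp ζ hζ lam ε η e hlamζ hε hlam_p hη he hlam gr hg₁
    hg₂ hdivr hsr₁ hsr₂ h' hh'p hadj'

/-- **WILD package at one node.**  See the header. -/
theorem wild_node (hN : I6.IsNode 𝔭₁ 𝔭₂ π x y)
    (hk : IsAlgClosed (IsLocalRing.ResidueField R))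
    {p : ℕ} (hp : p.Prime) {ζ : R} (hζ : IsPrimitiveRoot ζ p)
    {lam ε η : R} {e : ℕ} (hlamζ : lam = ζ - 1) (hε : IsUnit ε)
    (hlam_p : lam ^ (p - 1) = (p : R) * ε) (hη : IsUnit η) (he : 0 < e) (hlam : lam = η * π ^ e)
    {g : K} (hg : g ≠ 0) (hgdiv : I6.HorDivVal K π p g) (hs₁ : I6.SplitAt K 𝔭₁ π p g)
    (hs₂ : I6.SplitAt K 𝔭₂ π p g)
    {h : L} (hh : h ^ p = algebraMap K L g) (hadj : IntermediateField.adjoin K ({h} : Set L) = ⊤)
    [FiniteDimensional K L] [IsGalois K L] (τ : L ≃ₐ[K] L)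
    (hgen : ∀ σ : L ≃ₐ[K] L, σ ∈ Subgroup.zpowers τ)
    {N : ℕ} (hNp : Nat.Coprime N p) {D D' : R} (hD : I6.IsUnitPair 𝔭₁ 𝔭₂ π D D' N)
    {f' c G : L} (hf' : f' ≠ 0) (hG : G ≠ 0) (hτ : τ f' = f' * c * G ^ p)
    {ε₀ : R} (hε₀ : IsUnit ε₀) {j₀ : ℤ}
    (hc : c = algebraMap R L ε₀ * (algebraMap R L π) ^ ((p : ℤ) * j₀))
    (hdiv : I6.HorDivVal (R := R) L π p f')
    (𝒲₁ 𝒲₂ : ValuationSubring L)
    (h𝒲₁ : 𝒲₁.comap (algebraMap K L) = vertVal (F := K) (vertData_left hN))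
    (h𝒲₂ : 𝒲₂.comap (algebraMap K L) = vertVal (F := K) (vertData_right hN))
    {v₁ v₂ : ℤ} (hv₁ : IsWVal 𝒲₁ (algebraMap R L π) f' v₁)
    (hv₂ : IsWVal 𝒲₂ (algebraMap R L π) f' v₂)
    {δ : ℤ} (hδ : (p : ℤ) ∣ δ - (v₁ - v₂)) :
    (∀ g₁ : K, g₁ ≠ 0 →
      (f' ^ N * (algebraMap R L D) ^ δ / algebraMap K L g₁ - 1) / algebraMap R L π ∈ 𝒲₁ →
      ∀ s : ℤ, I6.SlopeAt K 𝔭₁ π x g₁ s → (p : ℤ) ∣ s) ∧
    (∀ g₂ : K, g₂ ≠ 0 →
      (f' ^ N * (algebraMap R L D) ^ δ / algebraMap K L g₂ - 1) / algebraMap R L π ∈ 𝒲₂ →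
      ∀ s : ℤ, I6.SlopeAt K 𝔭₂ π y g₂ s → (p : ℤ) ∣ s) := by
  obtain ⟨R', hloc, hic, hnoeth, hfrac, hN', hc₁, hc₂⟩ :=
    exists_coverNode_of_split hN hk hp hζ hlamζ hε hlam_p hη he hlam hg hgdiv hs₁ hs₂ hh hadj
  haveI := hloc
  haveI := hic
  haveI := hnoeth
  haveI := hfrac
  exact wild_node_core hN R' hN' hc₁ hc₂ τ hgen hp hNp hD hf' hG hτ hε₀ hc hdiv 𝒲₁ 𝒲₂ h𝒲₁ h𝒲₂
    hv₁ hv₂ hδ

end Package

end Fermat.Agent.Ribet.H132

end
-- ===== PACK-END Ribet/H132/WildNode.lean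

-- ===== PACK-BEGIN Ribet/H132/WildChart.lean
section



/-!
# RIBET wall-p, (S4) WILD case: the chart-level cover package (helper132)

`B` a noetherian integrally closed domain with fraction field `F` (a chart of the semistable
model of `X₀(pM')` over the TAME level `E₁ ∋ ζ_p`), `p₁, p₂` the two components of the special
fibre `w = 0`, `L = F(h)`, `h ^ p = g` the cover attached to the split Kummer generator `g = f_t`,
`τ` a generator of `Gal(L/F)`, `(D, D')` a unit pair of exponent `N` prime to `p`,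
`f' ∈ Lˣ` with `τ f' = f' · cst · G ^ p` (PER), `cst = ε₀ w ^ (p j₀)` (peu ramifié),
`𝒲₁, 𝒲₂` ANY valuation subrings of `L` over `B_{p₁}`, `B_{p₂}` (e.g. induced by the Gauss
valuations of a field of `t`-expansions containing `L`), `vᵢ = 𝒲ᵢ(f')`.

All hypotheses are bundled in `WildData`.  Conclusion (`wild_locAt`, `wild_chart`):

  for `δ ≡ v₁ - v₂ (mod p)`, every crossing point `n ⊇ p₁ + p₂` whose local ring `B_n` has
  algebraically closed residue field, and every approximant `gᵢ ∈ Fˣ` of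
  `T = f' ^ N · D ^ δ` at `𝒲ᵢ` (`T / gᵢ ∈ 1 + w 𝒲ᵢ`):
  the slope of `gᵢ` at `n` along `pᵢ` (`I6.SlopeAt` in `B_n`) is divisible by `p`.

So the slopes of the cover are read off on functions of `F` itself: no model of the cover and no
`t`-expansion on `L` is needed downstream (approximants exist by `H132/Density.lean`).
-/

set_option autoImplicit false
set_option linter.unusedSectionVars false
set_option linter.style.haveILetI false
set_option linter.unusedVariables false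

namespace Fermat.Agent.Ribet.H132

open Fermat.Agent.Ribet.H704 Fermat.Agent.A2 Fermat.Agent.A2.H849 Fermat.Agent.A2.Alg.H132
  Fermat.Agent.A2.H609

/-- The chart-level hypotheses of the WILD cover package. -/
structure WildData {B F L : Type} [CommRing B] [Field F] [Algebra B F] [Field L] [Algebra F L]
    (w : B) (p₁ p₂ : Ideal B) (p N : ℕ) (g : F) (h : L) (τ : L ≃ₐ[F] L) (D D' : B)
    (f' cst G : L) (𝒲₁ 𝒲₂ : ValuationSubring L) (v₁ v₂ : ℤ) : Prop where
  hp : p.Prime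
  /-- `ζ_p ∈ B`, `λ = ζ - 1 = η w ^ e`, `λ ^ (p - 1) = p ε`. -/
  cyclo : ∃ (ζ lam ε η : B) (e : ℕ), IsPrimitiveRoot ζ p ∧ lam = ζ - 1 ∧ IsUnit ε ∧
    lam ^ (p - 1) = (p : B) * ε ∧ IsUnit η ∧ 0 < e ∧ lam = η * w ^ e
  g_ne : g ≠ 0
  /-- `g` is horizontally `p`-divisible. -/
  g_div : I6.HorDivVal F w p g
  /-- `g` is a `p`-th power in the completions of both components. -/
  split₁ : I6.SplitAt F p₁ w p g
  split₂ : I6.SplitAt F p₂ w p g
  h_pow : h ^ p = algebraMap F L g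
  h_top : IntermediateField.adjoin F ({h} : Set L) = ⊤
  gen : ∀ σ : L ≃ₐ[F] L, σ ∈ Subgroup.zpowers τ
  coprime : Nat.Coprime N p
  D_mul : D * D' = w ^ N
  D_notMem : D ∉ p₁
  D'_notMem : D' ∉ p₂
  f'_ne : f' ≠ 0
  G_ne : G ≠ 0
  /-- PER. -/
  period : τ f' = f' * cst * G ^ p
  /-- peu ramifié: the period is a unit times a `p`-th power of the uniformiser. -/
  const : ∃ (ε₀ : B) (j₀ : ℤ), IsUnit ε₀ ∧
    cst = algebraMap F L (algebraMap B F ε₀ * (algebraMap B F w) ^ ((p : ℤ) * j₀))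
  /-- `f'` is horizontally `p`-divisible on the cover. -/
  f'_div : ∀ V : ValuationSubring L, IsDiscreteValuationRing V →
    (∀ b : B, algebraMap F L (algebraMap B F b) ∈ V) →
    (algebraMap F L (algebraMap B F w))⁻¹ ∈ V → ∃ a u₀ : L, u₀ ∈ V ∧ u₀⁻¹ ∈ V ∧ f' = u₀ * a ^ p
  /-- `𝒲₁ ∩ F = B_{p₁}`. -/
  sheet₁ : ∀ t : F, algebraMap F L t ∈ 𝒲₁ ↔
    ∃ a s : B, s ∉ p₁ ∧ t = algebraMap B F a * (algebraMap B F s)⁻¹
  /-- `𝒲₂ ∩ F = B_{p₂}`. -/
  sheet₂ : ∀ t : F, algebraMap F L t ∈ 𝒲₂ ↔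
    ∃ a s : B, s ∉ p₂ ∧ t = algebraMap B F a * (algebraMap B F s)⁻¹
  val₁ : IsWVal 𝒲₁ (algebraMap F L (algebraMap B F w)) f' v₁
  val₂ : IsWVal 𝒲₂ (algebraMap F L (algebraMap B F w)) f' v₂

section LocAt

variable {B F L : Type} [CommRing B] [IsDomain B] [IsNoetherianRing B] [IsIntegrallyClosed B]
  [Field F] [Algebra B F] [IsFractionRing B F] [Field L] [Algebra F L]

/-- The branch valuation ring of `B_n` along `p B_n` is `B_p`. -/
theorem vertVal_locAt_eq {w : B} {p q n : Ideal B} [p.IsPrime] [n.IsPrime] (hpn : p ≤ n)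
    (hV : VertData w p q)
    (hV' : VertData (algebraMap B (locAt F n) w) (p.map (algebraMap B (locAt F n)))
      (q.map (algebraMap B (locAt F n)))) :
    vertVal (F := F) hV' = vertVal (F := F) hV := by
  have := vertVal_comap hV hV' (RingHom.id F) (algebraMap B (locAt F n)) (fun r => rfl)
    (fun r hr hm => hr ((algebraMap_mem_map_iff hpn r).1 hm)) rfl
  rw [← this]
  ext t
  rfl

/-- **WILD cover package at a crossing point of an abstract chart.** -/
theorem wild_locAt [FiniteDimensional F L] [IsGalois F L]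
    {w : B} {p₁ p₂ : Ideal B} [hp₁ : p₁.IsPrime] [hp₂ : p₂.IsPrime]
    (hinf : p₁ ⊓ p₂ = Ideal.span {w}) (h₁₂ : ¬ p₁ ≤ p₂) (h₂₁ : ¬ p₂ ≤ p₁)
    {p N : ℕ} {g : F} {h : L} {τ : L ≃ₐ[F] L} {D D' : B} {f' cst G : L}
    {𝒲₁ 𝒲₂ : ValuationSubring L} {v₁ v₂ : ℤ}
    (hW : WildData w p₁ p₂ p N g h τ D D' f' cst G 𝒲₁ 𝒲₂ v₁ v₂)
    {δ : ℤ} (hδ : (p : ℤ) ∣ δ - (v₁ - v₂))
    (n : Ideal B) [hn : n.IsPrime] (h₁ : p₁ ≤ n) (h₂ : p₂ ≤ n)
    (hk : IsAlgClosed (IsLocalRing.ResidueField (locAt F n)))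
    (x y : locAt F n)
    (hN : I6.IsNode (p₁.map (algebraMap B (locAt F n))) (p₂.map (algebraMap B (locAt F n)))
      (algebraMap B (locAt F n) w) x y) :
    (∀ g₁ : F, g₁ ≠ 0 →
      (f' ^ N * (algebraMap F L (algebraMap B F D)) ^ δ / algebraMap F L g₁ - 1) /
        algebraMap F L (algebraMap B F w) ∈ 𝒲₁ →
      ∀ s : ℤ, I6.SlopeAt F (p₁.map (algebraMap B (locAt F n))) (algebraMap B (locAt F n) w) x
        g₁ s → (p : ℤ) ∣ s) ∧
    (∀ g₂ : F, g₂ ≠ 0 →
      (f' ^ N * (algebraMap F L (algebraMap B F D)) ^ δ / algebraMap F L g₂ - 1) /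
        algebraMap F L (algebraMap B F w) ∈ 𝒲₂ →
      ∀ s : ℤ, I6.SlopeAt F (p₂.map (algebraMap B (locAt F n))) (algebraMap B (locAt F n) w) y
        g₂ s → (p : ℤ) ∣ s) := by
  haveI : IsScalarTower (locAt F n) F L := inferInstance
  set ψ : B →+* locAt F n := algebraMap B (locAt F n) with hψ
  have hψinj : Function.Injective ψ := by
    intro a b hab
    apply IsFractionRing.injective B F
    have := congrArg (fun z : locAt F n => (z : F)) hab
    exact this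
  obtain ⟨ζ, lam, ε, η, e, hζ, hlamζ, hε, hlam_p, hη, he, hlam⟩ := hW.cyclo
  obtain ⟨ε₀, j₀, hε₀, hcst⟩ := hW.const
  have hw0 : w ≠ 0 := fun h0 => isNode_pi_ne_zero hN (by rw [h0, map_zero])
  have hV₁ : VertData w p₁ p₂ := ⟨hp₁, hw0, h₂₁, hinf⟩
  have hV₂ : VertData w p₂ p₁ := ⟨hp₂, hw0, h₁₂, by rw [inf_comm]; exact hinf⟩
  have hsh₁ : 𝒲₁.comap (algebraMap F L) = vertVal (F := F) (vertData_left hN) := by
    rw [vertVal_locAt_eq h₁ hV₁ (vertData_left hN)]
    ext t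
    rw [ValuationSubring.mem_comap, hW.sheet₁ t, mem_vertVal_iff hV₁ t]
  have hsh₂ : 𝒲₂.comap (algebraMap F L) = vertVal (F := F) (vertData_right hN) := by
    rw [vertVal_locAt_eq h₂ hV₂ (vertData_right hN)]
    ext t
    rw [ValuationSubring.mem_comap, hW.sheet₂ t, mem_vertVal_iff hV₂ t]
  refine wild_node (R := locAt F n) (K := F) (L := L) hN hk hW.hp (ζ := ψ ζ)
    (hζ.map_of_injective hψinj) (lam := ψ lam) (ε := ψ ε) (η := ψ η) (e := e)
    (by rw [hlamζ, map_sub, map_one]) (hε.map ψ)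
    (by rw [← map_pow, hlam_p, map_mul, map_natCast]) (hη.map ψ) he
    (by rw [hlam, map_mul, map_pow]) hW.g_ne ?_ ?_ ?_ hW.h_pow hW.h_top τ hW.gen hW.coprime
    (D := ψ D) (D' := ψ D') ?_ hW.f'_ne hW.G_ne hW.period (ε₀ := ψ ε₀) (hε₀.map ψ) (j₀ := j₀) ?_ ?_
    𝒲₁ 𝒲₂ hsh₁ hsh₂ hW.val₁ hW.val₂ hδ
  · -- `g` horizontally divisible
    intro V hV hR hπ
    exact hW.g_div V hV (fun b => hR (ψ b)) hπ
  · intro k
    obtain ⟨h', r, t, hr, he'⟩ := hW.split₁ k
    exact ⟨h', ψ r, ψ t, fun hm => hr ((algebraMap_mem_map_iff h₁ r).1 hm), he'⟩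
  · intro k
    obtain ⟨h', r, t, hr, he'⟩ := hW.split₂ k
    exact ⟨h', ψ r, ψ t, fun hm => hr ((algebraMap_mem_map_iff h₂ r).1 hm), he'⟩
  · exact ⟨by rw [← map_mul, hW.D_mul, map_pow],
      fun hm => hW.D_notMem ((algebraMap_mem_map_iff h₁ D).1 hm),
      fun hm => hW.D'_notMem ((algebraMap_mem_map_iff h₂ D').1 hm)⟩
  · rw [hcst, map_mul, map_zpow₀]
    rfl
  · intro V hV hR hπ
    exact hW.f'_div V hV (fun b => hR (ψ b)) hπ

end LocAt

section Chart

variable {R E F L : Type} [CommRing R] [IsDomain R] [IsDiscreteValuationRing R]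
  [IsAlgClosed (IsLocalRing.ResidueField R)]
  [Field E] [CharZero E] [Algebra R E] [IsFractionRing R E]
  [Field F] [Algebra E F] [Algebra R F] [IsScalarTower R E F] [Field L] [Algebra F L]

/-- **WILD cover package at a crossing point of a chart of wall A2** (`Alg.ChartCtx`,
`A2.SSChart`).  The instances on `B` are those of `A2.Alg.H34.chart_instances'`. -/
theorem wild_chart [FiniteDimensional F L] [IsGalois F L]
    (w : R) (x₀ : F) (B : Subalgebra R F) (hC : Alg.ChartCtx E w x₀ B) (c : SSChart w B)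
    [IsNoetherianRing B] [IsIntegrallyClosed B] [IsFractionRing B F]
    {p N : ℕ} {g : F} {h : L} {τ : L ≃ₐ[F] L} {D D' : B} {f' cst G : L}
    {𝒲₁ 𝒲₂ : ValuationSubring L} {v₁ v₂ : ℤ}
    (hW : WildData (algebraMap R B w) c.p₁ c.p₂ p N g h τ D D' f' cst G 𝒲₁ 𝒲₂ v₁ v₂)
    {δ : ℤ} (hδ : (p : ℤ) ∣ δ - (v₁ - v₂))
    (n : Ideal B) [hn : n.IsMaximal] (h₁ : c.p₁ ≤ n) (h₂ : c.p₂ ≤ n)
    (x y : locAt F n)
    (hN : I6.IsNode (c.p₁.map (algebraMap B (locAt F n))) (c.p₂.map (algebraMap B (locAt F n)))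
      (algebraMap B (locAt F n) (algebraMap R B w)) x y) :
    (∀ g₁ : F, g₁ ≠ 0 →
      (f' ^ N * (algebraMap F L (D : F)) ^ δ / algebraMap F L g₁ - 1) /
        algebraMap F L (algebraMap R F w) ∈ 𝒲₁ →
      ∀ s : ℤ, I6.SlopeAt F (c.p₁.map (algebraMap B (locAt F n)))
        (algebraMap B (locAt F n) (algebraMap R B w)) x g₁ s → (p : ℤ) ∣ s) ∧
    (∀ g₂ : F, g₂ ≠ 0 →
      (f' ^ N * (algebraMap F L (D : F)) ^ δ / algebraMap F L g₂ - 1) /
        algebraMap F L (algebraMap R F w) ∈ 𝒲₂ →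
      ∀ s : ℤ, I6.SlopeAt F (c.p₂.map (algebraMap B (locAt F n)))
        (algebraMap B (locAt F n) (algebraMap R B w)) y g₂ s → (p : ℤ) ∣ s) := by
  haveI := c.prime₁
  haveI := c.prime₂
  have hwn : algebraMap R B w ∈ n := h₁ (Fermat.Agent.A2.Alg.H132.uniformiser_mem_p₁ c)
  have hk := isAlgClosed_residueField_locAt (E := E) w x₀ B hC n hwn
  exact wild_locAt c.inf_eq c.not_le₁₂ c.not_le₂₁ hW hδ n h₁ h₂ hk x y hN

end Chart

end Fermat.Agent.Ribet.H132

end
-- ===== PACK-END Ribet/H132/WildChart.lean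

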