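import Fermat.Statements.S29
import Fermat.Agent.Pack.S44C.G0E26L2
import Fermat.Agent.Pack.S44C.G0E11L1
import Fermat.Agent.Pack.S44C.G0E7L3
import Fermat.Agent.Pack.S44C.G0E10L1
import Fermat.Agent.Pack.S44C.G0E23L2
import Fermat.Agent.Pack.S44C.G0E24L0
import Fermat.Agent.Pack.S44C.G0E26L3
import Fermat.Agent.Pack.S44C.G0E11L2
import Fermat.Agent.Pack.S44C.G0E24L2
import Fermat.Agent.Pack.S44C.G0E1L3
import Fermat.Agent.Pack.S44C.G0E1L2
import Fermat.Agent.Pack.S44C.G0E25L3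
import Fermat.Agent.Pack.S44C.G0E11L0
import Fermat.Agent.Pack.S44C.G0E14L0
import Fermat.Agent.Pack.S44C.G0E18L3
import Fermat.Agent.Pack.S44C.G0E19L2
import Fermat.Agent.Pack.S44C.G0E16L0
import Fermat.Agent.Pack.S44C.G0E18L0
import Fermat.Agent.Pack.S44C.G0E0L2
import Fermat.Agent.Pack.S44C.G0E2L0
import Fermat.Agent.Pack.S44C.G0E10L3
import Fermat.Agent.Pack.S44C.G0E19L0
import Fermat.Agent.Pack.S44C.G0E20L1
import Fermat.Agent.Pack.S44C.G0E6L2
import Fermat.Agent.Pack.S44C.G0E10L2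
import Fermat.Agent.Pack.S44C.G0E16L2
import Fermat.Agent.Pack.S44C.G0E26L0
import Fermat.Agent.Pack.S44C.G0E25L1
import Fermat.Agent.Pack.S44C.G0E25L2
import Fermat.Agent.Pack.S44C.G0E17L1
import Fermat.Agent.Pack.S44C.G0E24L1
import Fermat.Agent.Pack.S44C.G0E26L1
import Fermat.Agent.Pack.S44C.G0E23L1
import Fermat.Agent.Pack.S44C.G0E0L0
import Fermat.Agent.Pack.S44C.G0E20L3
import Fermat.Agent.Pack.S44C.G0E21L1
import Fermat.Agent.Pack.S44C.G0E17L0
import Fermat.Agent.Pack.Fast891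

-- ===== PACK-BEGIN S37/H819/NormId.lean
section




/-!
# S37 / node NORMID (helper819)

`normId` : for a prime `ℓ ∤ M` and `f ∈ ℚ̄(X₀(M)) = modularFunctionFieldBar M`, the `q`-expansion of
the norm of `β f` over `α(F_M)` (Prelude algebra structure `algebraAlong (heckeAlphaBar ℚ̄ M ℓ)`)
is the formal Kronecker norm `H400.kronNorm ℓ f = V_ℓ f · det (secMat ℓ f)`.
This is exactly `Board.NormIdStatement M ℓ` of `origin/helper37:Fermat/Agent/S37/Core/Skeleton3.lean`.
-/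

set_option autoImplicit false

noncomputable section

open ModularCurve HahnSeries AlgebraicCurve

namespace Fermat.Agent.S37.H819

open Fermat.Agent.S24

/-- H400's section matrix is H340's Kronecker matrix. -/
theorem secMat_eq_kronMat {R : Type*} [CommRing R] (p : ℕ) [NeZero p] (f : LaurentSeries R) :
    Fermat.Agent.S37.H400.secMat p f = Fermat.Agent.S37.H340.kronMat p f := by
  ext i j n
  rw [Fermat.Agent.S37.H400.secMat_apply', Fermat.Agent.S37.H340.kronMat_apply,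
    Fermat.Agent.S37.H400.secL_coeff, Fermat.Agent.S37.H340.sect_coeff]

/-- H340's twist by an `ℓ`-th root of unity is the S24 twist. -/
theorem tw_eq_infTwist {R : Type*} [CommRing R] (ℓ : ℕ) [NeZero ℓ] (u : Rˣ)
    (hu : (u : R) ^ ℓ = 1) (f : LaurentSeries R) :
    Fermat.Agent.S37.H340.tw ℓ (u : R) f = infTwist u f := by
  ext n
  rw [Fermat.Agent.S37.H340.tw_coeff, infTwist_coeff, mul_comm]
  congr 1
  have hℓ : (ℓ : ℤ) ≠ 0 := by exact_mod_cast NeZero.ne ℓ
  have hu' : u ^ ℓ = 1 := Units.ext (by rw [Units.val_pow_eq_pow_val, hu, Units.val_one])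
  unfold Fermat.Agent.S37.H340.zpw
  have h1 : n = n % (ℓ : ℤ) + (ℓ : ℤ) * (n / (ℓ : ℤ)) := (Int.emod_add_mul_ediv n ℓ).symm
  have h0 : 0 ≤ n % (ℓ : ℤ) := Int.emod_nonneg n hℓ
  have h2 : ((n % (ℓ : ℤ)).toNat : ℤ) = n % (ℓ : ℤ) := Int.toNat_of_nonneg h0
  have h3 : u ^ n = u ^ (n % (ℓ : ℤ)).toNat := by
    conv_lhs => rw [h1, zpow_add, zpow_mul, zpow_natCast, hu', one_zpow, mul_one, ← h2,
      zpow_natCast]
  rw [← Units.val_pow_eq_pow_val, ← h3]

/-- `V_ℓ (det (secMat ℓ f)) = ∏_{b<ℓ} f(ζ^b q)` -/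
theorem qExpand_det_secMat {R : Type*} [CommRing R] [IsDomain R] (ℓ : ℕ) [NeZero ℓ] (ζ : Rˣ)
    (hζ : IsPrimitiveRoot (ζ : R) ℓ) (f : LaurentSeries R) :
    qExpand R ℓ (Fermat.Agent.S37.H400.secMat ℓ f).det
      = ∏ b ∈ Finset.range ℓ, infTwist (ζ ^ b) f := by
  have h := Fermat.Agent.S37.H340.kron_map_qExpand_eq_prod hζ f
  rw [Fermat.Agent.S37.H340.kron, ← secMat_eq_kronMat, ← Matrix.charpoly_map] at h
  have hdet : qExpand R ℓ (Fermat.Agent.S37.H400.secMat ℓ f).det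
      = ((Fermat.Agent.S37.H400.secMat ℓ f).map (qExpand R ℓ)).det := by
    rw [RingHom.map_det, RingHom.mapMatrix_apply]
  rw [hdet, Matrix.det_eq_sign_charpoly_coeff, h, Fintype.card_fin,
    Polynomial.coeff_zero_eq_eval_zero, Polynomial.eval_prod]
  simp only [Polynomial.eval_sub, Polynomial.eval_X, Polynomial.eval_C, zero_sub]
  rw [Finset.prod_neg, Finset.card_univ, Fintype.card_fin, ← mul_assoc, ← mul_pow]
  simp only [mul_neg, mul_one, neg_neg, one_pow, one_mul]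
  rw [← Fin.prod_univ_eq_prod_range (fun b : ℕ => infTwist (ζ ^ b) f) ℓ]
  refine Finset.prod_congr rfl fun b _ => ?_
  rw [← Units.val_pow_eq_pow_val, tw_eq_infTwist]
  rw [Units.val_pow_eq_pow_val, ← pow_mul, mul_comm, pow_mul, hζ.pow_eq_one, one_pow]

/-- **Node NORMID** (`Board.NormIdStatement M ℓ`, unfolded): for a prime `ℓ ∤ M` the
`q`-expansion of `Nm_{F_{Mℓ}/α F_M}(β f)` is the formal Kronecker norm `kronNorm ℓ f`. -/
theorem normId (M ℓ : ℕ) [NeZero M] [NeZero ℓ] (hℓ : ℓ.Prime) (hℓM : ¬ ℓ ∣ M) :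
    ∀ f : modularFunctionFieldBar M,
      (((letI := algebraAlong (heckeAlphaBar (AlgebraicClosure ℚ) M ℓ)
         Algebra.norm (modularFunctionFieldBar M) (heckeBetaBar (AlgebraicClosure ℚ) M ℓ f)) :
          modularFunctionFieldBar M) : LaurentSeries (AlgebraicClosure ℚ)) =
        Fermat.Agent.S37.H400.kronNorm ℓ (f : LaurentSeries (AlgebraicClosure ℚ)) := by
  intro f
  have : NeZero ((ℓ : ℕ) : AlgebraicClosure ℚ) := ⟨by exact_mod_cast NeZero.ne ℓ⟩
  obtain ⟨ζ₀, hζ₀⟩ := HasEnoughRootsOfUnity.exists_primitiveRoot (AlgebraicClosure ℚ) ℓ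
  obtain ⟨ζ, rfl⟩ := hζ₀.isUnit (NeZero.ne ℓ)
  apply qExpand_injective (R := AlgebraicClosure ℚ) (N := ℓ)
  have h := norm_heckeBeta M ℓ hℓ hℓM ζ hζ₀ f
  rw [Fermat.Agent.S37.H400.kronNorm, map_mul, qExpand_qExpand, qExpand_det_secMat ℓ ζ hζ₀]
  exact h

end Fermat.Agent.S37.H819

end
end
-- ===== PACK-END S37/H819/NormId.lean

-- ===== PACK-BEGIN S29/RawESCore.lean
section
/-
S29 row — the external input `RawESStatement` reduced to the S18 hub (row-lead helper269).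

`rawES_of_core : CorePrimeFamily → H222.PGIFamily → RawESStatement`
`rawES_of_corePrime : CorePrimeFamily → RawESStatement`   (PGI = landed `S37.H98.gen`)

* `CorePrimeFamily` : `S18.CoreStatement N A p` for PRIMES `p ≠ ℓ`, `ℓ ∤ N`, `A` over `ℓ`
  (row S18; only prime moduli are needed for S29/S42);
* `H222.PGIFamily`  : Prelude `PrincipalGeneratedByIntegral A (residue A) N` for `ℓ ∤ N`.

The other two inputs of helper222's `ESK` are on main: `HI` (`heckeInputsAlong_bar`) and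
`NORM-ID` (`S37.H819.normId`).
-/






set_option autoImplicit false

noncomputable section

namespace Fermat.Agent.S29

open ModularCurve AlgebraicCurve
open Fermat.Agent.S18 (Qb CoreStatement)

/-- Row S18: the Kummer core `CoreStatement N A p` for primes `p ≠ ℓ`, `ℓ ∤ N`, `A` over `ℓ`. -/
def CorePrimeFamily : Prop :=
  ∀ (N : ℕ) [NeZero N] (ℓ p : ℕ), ℓ.Prime → p.Prime → ¬ ℓ ∣ N → ℓ ≠ p →
    ∀ A : ValuationSubring Qb, A.LiesOverPrime ℓ → CoreStatement N A p

/-- **RAW Eichler–Shimura from the S18 hub.** -/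
theorem rawES_of_core (hcore : CorePrimeFamily) (hpgi : H222.PGIFamily) : RawESStatement := by
  intro N p _ hp ℓ hℓ hℓNp A hA
  haveI : NeZero ℓ := ⟨hℓ.ne_zero⟩
  have hℓN : ¬ ℓ ∣ N := fun h => hℓNp (Dvd.dvd.mul_right h p)
  have hℓp : ℓ ≠ p := fun h => hℓNp (h ▸ Dvd.intro_left N rfl)
  have hC := hcore N ℓ p hℓ hp hℓN hℓp A hA
  have hP := hpgi N ℓ hℓ hℓN A hA
  refine ⟨fun σ hσ x hx => ?_, fun σ hσ x hx => ?_⟩
  · exact H222.esk_inertia N p hp.ne_zero A hC hP σ hσ x hx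
  · exact H222.esk_frob N ℓ hℓ p hp.ne_zero A hA hC hP (heckeInputsAlong_bar N ℓ hℓ)
      (fun y => Fermat.Agent.S37.H819.normId N ℓ hℓ hℓN y) σ hσ x hx

/-- `PGI` is a theorem (landed `S37.H98.gen`). -/
theorem pgiFamily : H222.PGIFamily :=
  fun N _ ℓ hℓ hℓN A hA => Fermat.Agent.S37.H98.gen N ℓ hℓ hℓN A hA

/-- **RAW Eichler–Shimura from the S18 hub alone** (prime moduli). -/
theorem rawES_of_corePrime (hcore : CorePrimeFamily) : RawESStatement :=
  rawES_of_core hcore pgiFamily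

end Fermat.Agent.S29

end
end
-- ===== PACK-END S29/RawESCore.lean

-- ===== PACK-BEGIN S29/M4b/H822/K4Basic.lean
section
/-
S29 / M4b (helper822): PIECES `K4-ADD` (`isKum_add`) and `K4-INJ` (`isKum_zero_right`) of
`M4b/Skeleton.lean`, exact statements.  Sorry-free.
-/




set_option autoImplicit false

noncomputable section

open ModularCurve AlgebraicCurve CongruenceSubgroup UpperHalfPlane
open scoped MatrixGroups Manifold

namespace Fermat.Agent.S29.M4b.H822

open Fermat.Agent.S24 Fermat.Agent.S29 Fermat.Agent.S29.M4b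

variable (N : ℕ) [NeZero N] (p : ℕ) [NeZero p]

/-- A function which is not the zero function has a point of non-vanishing. -/
theorem exists_ne_zero_of_ne_zero {G : ℍ → ℂ} (h : G ≠ 0) : ∃ τ : ℍ, G τ ≠ 0 := by
  by_contra hh
  exact h (funext fun τ => not_not.mp fun hτ => hh ⟨τ, hτ⟩)

/-- PIECE `K4-ADD`: additivity of the Kummer relation. -/
theorem isKum_add {c c' : G0 N → ZMod p} {x x' : JZero N}
    (h : IsKum N p c x) (h' : IsKum N p c' x') : IsKum N p (c + c') (x + x') := by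
  obtain ⟨f, t, U, ht, hx, hU, hr⟩ := h
  obtain ⟨f', t', U', ht', hx', hU', hr'⟩ := h'
  have hfun : (fun τ => (U τ * U' τ) ^ p) = (fun τ => U τ ^ p) * (fun τ => U' τ ^ p) := by
    funext τ
    simp [mul_pow]
  have hreal : Realises N (f * f' * (t * t') ^ p) (fun τ => (U τ * U' τ) ^ p) := by
    have h1 := realises_mul hr hr'
    rw [hfun]
    have h2 : f * f' * (t * t') ^ p = f * t ^ p * (f' * t' ^ p) := by ring
    rw [h2]
    exact h1
  refine ⟨f * f', t * t', fun τ => U τ * U' τ, mul_ne_zero ht ht', hx.add hx', ?_, hreal⟩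
  refine ⟨hU.mdiff.mul hU'.mdiff, ?_, hasChar_mul hU.hasChar hU'.hasChar, hreal.1⟩
  have hne : f * f' * (t * t') ^ p ≠ 0 :=
    mul_ne_zero (mul_ne_zero hx.ne_zero hx'.ne_zero) (pow_ne_zero _ (mul_ne_zero ht ht'))
  obtain ⟨τ, hτ⟩ := exists_ne_zero_of_ne_zero (realises_ne_zero hreal hne)
  refine ⟨τ, fun h0 => hτ ?_⟩
  show (U τ * U' τ) ^ p = 0
  rw [h0, zero_pow (NeZero.ne p)]

/-- PIECE `K4-INJ`: only the trivial character has Kummer class `0`. -/
theorem isKum_zero_right {c : G0 N → ZMod p} (h : IsKum N p c (0 : JZero N)) : c = 0 := by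
  obtain ⟨f, t, U, ht, hx, hU, hr⟩ := h
  have hp0 : (p : ℤ) ≠ 0 := by exact_mod_cast NeZero.ne p
  have hpn : p ≠ 0 := NeZero.ne p
  obtain ⟨g, hg, hfg⟩ := (hx.eq_zero_iff hp0).mp rfl
  have hf0 := hx.ne_zero
  -- `f / g ^ p` is a constant
  have hu : ∀ v : Place Kbar (FF N), v.ord (f / g ^ p) = 0 := by
    intro v
    have hpow : v.ord (g ^ p) = (p : ℤ) * v.ord g := by
      rw [← zpow_natCast, Place.ord_zpow]
    rw [div_eq_mul_inv, Place.ord_mul v hf0 (inv_ne_zero (pow_ne_zero _ hg)), Place.ord_inv,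
      hpow, hfg v]
    ring
  obtain ⟨a0, ha0⟩ := Fermat.Agent.S18.H564.constOfOrdZero_modularFunctionFieldBar N (f / g ^ p)
    (div_ne_zero hf0 (pow_ne_zero _ hg)) hu
  obtain ⟨b0, hb0⟩ := IsAlgClosed.exists_pow_nat_eq a0 (Nat.pos_of_ne_zero hpn)
  -- `f * t ^ p = v ^ p`
  set v : FF N := algebraMap Kbar (FF N) b0 * g * t with hv
  have hvp : v ^ p = f * t ^ p := by
    have h1 : f = algebraMap Kbar (FF N) a0 * g ^ p := by
      rw [← ha0, div_mul_cancel₀ _ (pow_ne_zero _ hg)]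
    rw [hv, mul_pow, mul_pow, ← map_pow, hb0, ← h1]
  have hv0 : v ≠ 0 := by
    intro h0
    have : f * t ^ p = 0 := by rw [← hvp, h0, zero_pow hpn]
    exact (mul_ne_zero hf0 (pow_ne_zero _ ht)) this
  -- `v = A / B` with `A, B` polynomials in the `j(q^d)`
  obtain ⟨A, B, hB0, hvAB⟩ := H997.exists_div_inclRN N v
  have hB0' : H997.inclRN N B ≠ 0 := fun h0 =>
    hB0 (H997.inclRN_injective N (by rw [h0, map_zero]))
  have hA0' : H997.inclRN N A ≠ 0 := by
    intro h0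
    rw [h0, zero_div] at hvAB
    exact hv0 hvAB
  obtain ⟨GA, hGA⟩ := exists_realises_of_mem_AK (a := H997.inclRN N A) A.2
  obtain ⟨GB, hGB⟩ := exists_realises_of_mem_AK (a := H997.inclRN N B) B.2
  have h3 : f * t ^ p * (H997.inclRN N B) ^ p = (H997.inclRN N A) ^ p := by
    rw [← hvp, ← mul_pow, hvAB, div_mul_cancel₀ _ hB0']
  have h1 : Realises N ((H997.inclRN N A) ^ p) ((fun τ => U τ ^ p) * GB ^ p) := by
    have := realises_mul hr (realises_pow hGB p)
    rwa [h3] at this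
  have h4 : (fun τ => U τ ^ p) * GB ^ p = GA ^ p := realises_unique_right h1 (realises_pow hGA p)
  have h5 : ∀ τ : ℍ, (U τ * GB τ) ^ p = GA τ ^ p := by
    intro τ
    have := congrFun h4 τ
    simp only [Pi.mul_apply, Pi.pow_apply] at this
    rw [mul_pow]
    exact this
  obtain ⟨τ₀, hτ₀⟩ := exists_ne_zero_of_ne_zero (realises_ne_zero hGA hA0')
  have hUB0 : U τ₀ * GB τ₀ ≠ 0 := by
    intro h0
    have := h5 τ₀
    rw [h0, zero_pow hpn] at this
    exact hτ₀ (pow_eq_zero_iff hpn |>.mp this.symm)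
  set z : ℂ := U τ₀ * GB τ₀ / GA τ₀ with hz
  have hzp : z ^ p = 1 := by
    rw [hz, div_pow, h5 τ₀, div_self (pow_ne_zero _ hτ₀)]
  have hGAmd : MDifferentiable 𝓘(ℂ) 𝓘(ℂ) GA := hGA.1.1
  have hGBmd : MDifferentiable 𝓘(ℂ) 𝓘(ℂ) GB := hGB.1.1
  have hEq : (fun τ => U τ * GB τ) = fun τ => z * GA τ := by
    refine H751.eq_of_pow_eq_UHP (hU.mdiff.mul hGBmd) (mdifferentiable_const.mul hGAmd) hpn
      (fun τ => ?_) (τ₀ := τ₀) ?_ hUB0
    · show (U τ * GB τ) ^ p = (z * GA τ) ^ p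
      rw [mul_pow z, hzp, one_mul, h5 τ]
    · show U τ₀ * GB τ₀ = z * GA τ₀
      rw [hz, div_mul_cancel₀ _ hτ₀]
  funext γ
  have hinvA : GA ((γ : SL(2, ℤ)) • τ₀) = GA τ₀ := hGA.1.2.1 _ γ.2 τ₀
  have hinvB : GB ((γ : SL(2, ℤ)) • τ₀) = GB τ₀ := hGB.1.2.1 _ γ.2 τ₀
  have e1 := congrFun hEq ((γ : SL(2, ℤ)) • τ₀)
  have e2 := congrFun hEq τ₀
  rw [hinvA, hinvB, ← e2, hU.hasChar γ τ₀] at e1
  have e3 : (zetaP p ^ (c γ).val - 1) * (U τ₀ * GB τ₀) = 0 := by
    linear_combination e1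
  rcases mul_eq_zero.mp e3 with h | h
  · exact (zetaP_pow_val_eq_one_iff p (c γ)).mp (sub_eq_zero.mp h)
  · exact absurd h hUB0

end Fermat.Agent.S29.M4b.H822

end
end
-- ===== PACK-END S29/M4b/H822/K4Basic.lean

-- ===== PACK-BEGIN S29/M4b/H822/K4Uniq.lean
section
/-
S29 / M4b (helper822): PIECE `K4-UNIQ` (`isKum_unique`) of `M4b/Skeleton.lean`, exact statement.
Sorry-free.  Inputs (all on main): MERO `H882.qexpFun_mem_FC`, `H32.mem_range_of_finite_orbit`,
`H32.exists_of_coeff_mem_range`, `H455.IsKummerClass` API.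
-/




set_option autoImplicit false

noncomputable section

open ModularCurve AlgebraicCurve CongruenceSubgroup UpperHalfPlane
open scoped MatrixGroups Manifold

namespace Fermat.Agent.S29.M4b.H822

open Fermat.Agent.S24 Fermat.Agent.S29 Fermat.Agent.S29.M4b

/-! ### Growth of roots -/

theorem expGrowth_of_pow {F : ℍ → ℂ} {p : ℕ} (hp : p ≠ 0)
    (h : H648.ExpGrowth (fun τ => F τ ^ p)) : H648.ExpGrowth F := by
  obtain ⟨C, m, hC⟩ := h
  refine ⟨1 + |C|, m, fun τ hτ => ?_⟩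
  have h1 := hC τ hτ
  rw [norm_pow] at h1
  have hE : (1 : ℝ) ≤ Real.exp (2 * Real.pi * m * τ.im) := by
    apply Real.one_le_exp
    have : (0 : ℝ) ≤ τ.im := τ.im_pos.le
    positivity
  have h2 : ‖F τ‖ ≤ 1 + ‖F τ‖ ^ p := by
    rcases le_or_gt ‖F τ‖ 1 with h | h
    · have : (0 : ℝ) ≤ ‖F τ‖ ^ p := by positivity
      linarith
    · have : ‖F τ‖ ≤ ‖F τ‖ ^ p := le_self_pow₀ h.le hp
      linarith
  have h3 : C * Real.exp (2 * Real.pi * m * τ.im) ≤ |C| * Real.exp (2 * Real.pi * m * τ.im) :=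
    mul_le_mul_of_nonneg_right (le_abs_self C) (Real.exp_pos _).le
  calc ‖F τ‖ ≤ 1 + ‖F τ‖ ^ p := h2
    _ ≤ 1 + |C| * Real.exp (2 * Real.pi * m * τ.im) := by linarith
    _ ≤ Real.exp (2 * Real.pi * m * τ.im) + |C| * Real.exp (2 * Real.pi * m * τ.im) := by
        linarith
    _ = (1 + |C|) * Real.exp (2 * Real.pi * m * τ.im) := by ring

/-- A holomorphic `Γ₀(N)`-invariant function whose `p`-th power is good is good. -/
theorem mem_goodRing_of_pow_mem {N : ℕ} {V : ℍ → ℂ} {p : ℕ} (hp : p ≠ 0)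
    (hV : MDifferentiable 𝓘(ℂ) 𝓘(ℂ) V)
    (hinv : ∀ γ ∈ Gamma0 N, ∀ τ : ℍ, V (γ • τ) = V τ)
    (hpow : (fun τ => V τ ^ p) ∈ H648.goodRing N) : V ∈ H648.goodRing N :=
  ⟨hV, hinv, fun g => expGrowth_of_pow hp (hpow.2.2 g)⟩

/-! ### Algebraicity of the coefficients of a `p`-th root -/

/-- The algebra structure `ℚ̄ → ℂ` given by the fixed embedding `iotaC`. -/
abbrev algKbarC : Algebra Kbar ℂ := Deg457.iotaC.toAlgebra

theorem isScalarTower_algKbarC :
    letI := algKbarC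
    IsScalarTower ℚ Kbar ℂ := by
  letI := algKbarC
  refine IsScalarTower.of_algebraMap_eq fun q => ?_
  show (algebraMap ℚ ℂ) q = Deg457.iotaC (algebraMap ℚ Kbar q)
  unfold Deg457.iotaC
  simp

/-- If `s ^ p` has coefficients in `ℚ̄`, so has `s` (`p ≥ 1`). -/
theorem coeff_mem_range_of_pow_eq {p : ℕ} [NeZero p] {s : LaurentSeries ℂ}
    {w : LaurentSeries Kbar} (hs : s ^ p = coeffMap Deg457.iotaC w) (n : ℤ) :
    s.coeff n ∈ Set.range Deg457.iotaC := by
  letI := algKbarC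
  have hpn : p ≠ 0 := NeZero.ne p
  show s.coeff n ∈ Set.range (algebraMap Kbar ℂ)
  apply H32.mem_range_of_finite_orbit
  rcases eq_or_ne s 0 with rfl | hs0
  · refine (Set.finite_singleton (0 : ℂ)).subset ?_
    rintro _ ⟨σ, rfl⟩
    simp
  -- the conjugates are among the `ζ ^ i * s_n`
  refine (Set.finite_range fun i : Fin p => zetaP p ^ (i : ℕ) * s.coeff n).subset ?_
  rintro _ ⟨σ, rfl⟩
  set s' : LaurentSeries ℂ := coeffMap (σ : ℂ →+* ℂ) s with hs'
  have h1 : s' ^ p = s ^ p := by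
    rw [hs', ← map_pow, hs, coeffMap_coeffMap]
    apply coeffMap_congr
    ext c
    exact σ.commutes c
  have h2 : (s' / s) ^ p = 1 := by
    rw [div_pow, h1, div_self (pow_ne_zero _ hs0)]
  have hprim : IsPrimitiveRoot (algebraMap ℂ (LaurentSeries ℂ) (zetaP p)) p :=
    (isPrimitiveRoot_zetaP p).map_of_injective (algebraMap ℂ (LaurentSeries ℂ)).injective
  obtain ⟨i, hi, hi2⟩ := hprim.eq_pow_of_pow_eq_one h2
  have h3 : s' = algebraMap ℂ (LaurentSeries ℂ) (zetaP p ^ i) * s := by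
    rw [map_pow, hi2, div_mul_cancel₀ _ hs0]
  refine ⟨⟨i, hi⟩, ?_⟩
  show zetaP p ^ i * s.coeff n = σ (s.coeff n)
  have h4 : s'.coeff n = σ (s.coeff n) := rfl
  rw [← h4, h3, H32.coeff_algebraMap_mul]

/-! ### Powers of Kummer classes -/

theorem isKummerClass_pow {K F : Type*} [Field K] [Field F] [Algebra K F] {n : ℤ} {f : F}
    {x : Pic0 K F} (h : H455.IsKummerClass n f x) (k : ℕ) :
    H455.IsKummerClass n (f ^ k) (k • x) := by
  induction k with
  | zero => simpa using (H455.IsKummerClass.zero (n := n) (K := K) (F := F))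
  | succ k ih =>
    rw [pow_succ, succ_nsmul]
    exact ih.add h

/-! ### The piece -/

variable (N : ℕ) [NeZero N] (p : ℕ) [NeZero p]

/-- PIECE `K4-UNIQ`: the Kummer class of a character is unique. -/
theorem isKum_unique {c : G0 N → ZMod p} {x x' : JZero N}
    (h : IsKum N p c x) (h' : IsKum N p c x') : x = x' := by
  obtain ⟨f, t, U, ht, hx, hU, hr⟩ := h
  obtain ⟨f', t', U', ht', hx', hU', hr'⟩ := h'
  have hpn : p ≠ 0 := NeZero.ne p
  have hp0 : (p : ℤ) ≠ 0 := by exact_mod_cast hpn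
  have hp1 : p - 1 + 1 = p := Nat.sub_add_cancel (Nat.pos_of_ne_zero hpn)
  -- the invariant function `V = U * U' ^ (p - 1)`
  set V : ℍ → ℂ := fun τ => U τ * U' τ ^ (p - 1) with hVdef
  set w : FF N := f * t ^ p * (f' * t' ^ p) ^ (p - 1) with hw
  have hVpow : (fun τ => V τ ^ p) = (fun τ => U τ ^ p) * (fun τ => U' τ ^ p) ^ (p - 1) := by
    funext τ
    simp only [hVdef, Pi.mul_apply, Pi.pow_apply, mul_pow]
    rw [← pow_mul, ← pow_mul, mul_comm (p - 1) p]
  have hWreal : Realises N w (fun τ => V τ ^ p) := by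
    rw [hVpow]
    exact realises_mul hr (realises_pow hr' (p - 1))
  have hVmd : MDifferentiable 𝓘(ℂ) 𝓘(ℂ) V := hU.mdiff.mul (hU'.mdiff.pow (p - 1))
  have hVinv : ∀ γ ∈ Gamma0 N, ∀ τ : ℍ, V (γ • τ) = V τ := by
    intro γ hγ τ
    have e1 := hU.hasChar ⟨γ, hγ⟩ τ
    have e2 := hU'.hasChar ⟨γ, hγ⟩ τ
    simp only at e1 e2
    show U (γ • τ) * U' (γ • τ) ^ (p - 1) = U τ * U' τ ^ (p - 1)
    rw [e1, e2, mul_pow]
    have e3 : zetaP p ^ (c ⟨γ, hγ⟩).val * (zetaP p ^ (c ⟨γ, hγ⟩).val) ^ (p - 1) = 1 := by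
      rw [← pow_succ', hp1, ← pow_mul, mul_comm, pow_mul, zetaP_pow_self, one_pow]
    linear_combination (U τ * U' τ ^ (p - 1)) * e3
  have hVgood : V ∈ H648.goodRing N := mem_goodRing_of_pow_mem hpn hVmd hVinv hWreal.1
  -- its `q`-expansion `s`
  set s : LaurentSeries ℂ := H708.qexpFun 1 V with hsdef
  have hsQ : H708.HasQExp 1 V s := H882.hasQExp_of_mem_goodRing hVgood
  have hsFC : s ∈ laurentBaseChange ℂ (modularFunctionFieldFull N) := H882.qexpFun_mem_FC (N := N) hVgood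
  have hsp : s ^ p = coeffMap Deg457.iotaC ((w : FF N) : LaurentSeries Kbar) := by
    have h1 := hsQ.pow p
    have h2 : V ^ p = fun τ => V τ ^ p := rfl
    rw [h2] at h1
    exact h1.unique (realises_hasQExp hWreal)
  -- descent of `s` to `ℚ̄`
  let _ : Algebra Kbar ℂ := algKbarC
  have _ : IsScalarTower ℚ Kbar ℂ := isScalarTower_algKbarC
  obtain ⟨y, hy, hys⟩ := H32.exists_of_coeff_mem_range (k := Kbar) (Ω := ℂ)
    (modularFunctionFieldFull N) hsFC (fun n => coeff_mem_range_of_pow_eq hsp n)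
  set vv : FF N := ⟨y, hy⟩ with hvv
  have hvvp : vv ^ p = w := by
    apply Subtype.ext
    apply coeffMap_iotaC_injective
    show coeffMap Deg457.iotaC (((vv ^ p : FF N) : FF N) : LaurentSeries Kbar) = _
    rw [← hsp, ← hys]
    simp only [SubmonoidClass.coe_pow, map_pow]
    rfl
  -- `f * f' ^ (p - 1)` is a `p`-th power
  have hf0 := hx.ne_zero
  have hf0' := hx'.ne_zero
  have hd0 : t * t' ^ (p - 1) ≠ 0 := mul_ne_zero ht (pow_ne_zero _ ht')
  set g : FF N := vv / (t * t' ^ (p - 1)) with hg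
  have hgp : g ^ p = f * f' ^ (p - 1) := by
    rw [hg, div_pow, hvvp, hw]
    rw [div_eq_iff (pow_ne_zero _ hd0)]
    have e1 : (t' ^ p) ^ (p - 1) = (t' ^ (p - 1)) ^ p := by
      rw [← pow_mul, ← pow_mul, mul_comm]
    rw [mul_pow, mul_pow, e1]
    ring
  have hg0 : g ≠ 0 := by
    intro h0
    rw [h0, zero_pow hpn] at hgp
    exact (mul_ne_zero hf0 (pow_ne_zero _ hf0')) hgp.symm
  have hsum : H455.IsKummerClass (p : ℤ) (f * f' ^ (p - 1)) (x + (p - 1) • x') :=
    hx.add (isKummerClass_pow hx' (p - 1))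
  have hzero : x + (p - 1) • x' = 0 := by
    refine (hsum.eq_zero_iff hp0).mpr ⟨g, hg0, fun v => ?_⟩
    rw [← hgp, ← zpow_natCast, Place.ord_zpow]
  have hpx' : (p : ℤ) • x' = 0 := hx'.zsmul_eq_zero
  have h5 : (p - 1) • x' + x' = 0 := by
    rw [← succ_nsmul, hp1, ← natCast_zsmul]
    exact hpx'
  have h6 : x - x' = 0 := by
    have : x - x' = (x + (p - 1) • x') - ((p - 1) • x' + x') := by abel
    rw [this, hzero, h5, sub_zero]
  exact sub_eq_zero.mp h6

end Fermat.Agent.S29.M4b.H822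

end
end
-- ===== PACK-END S29/M4b/H822/K4Uniq.lean

-- ===== PACK-BEGIN S29/M4b/H822/K4.lean
section
/-
S29 / M4b (helper822): the pieces `K4-UNIQ`, `K4-INJ`, `K4-ADD` of the Kummer map, in the EXACT
shape of the `Prop`s `PieceUniq`, `PieceInj`, `PieceAdd` of `M4b/Top.lean` (for every modulus
`p ≠ 0`, in particular for `p` prime).  Sorry-free.
-/




set_option autoImplicit false

namespace Fermat.Agent.S29.M4b.H822

open Fermat.Agent.S24 Fermat.Agent.S29 Fermat.Agent.S29.M4b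

/-- PIECE `K4-UNIQ`, exact `Prop` of `M4b/Top.lean`. -/
theorem pieceUniq (N : ℕ) [NeZero N] (p : ℕ) (hp : p ≠ 0) : PieceUniq N p := by
  haveI : NeZero p := ⟨hp⟩
  intro c x x' h h'
  exact isKum_unique N p h h'

/-- PIECE `K4-INJ`, exact `Prop` of `M4b/Top.lean`. -/
theorem pieceInj (N : ℕ) [NeZero N] (p : ℕ) (hp : p ≠ 0) : PieceInj N p := by
  haveI : NeZero p := ⟨hp⟩
  intro c h
  exact isKum_zero_right N p h

/-- PIECE `K4-ADD`, exact `Prop` of `M4b/Top.lean`. -/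
theorem pieceAdd (N : ℕ) [NeZero N] (p : ℕ) (hp : p ≠ 0) : PieceAdd N p := by
  haveI : NeZero p := ⟨hp⟩
  intro c c' x x' h h'
  exact isKum_add N p h h'

/-- The Kummer bridge `M4bStatement` from the FOUR remaining pieces (`K1`, `K3`, `K2`,
`K4-HECKE`), for all levels and prime moduli. -/
theorem m4bStatement_of_four
    (h1 : ∀ (N : ℕ) [NeZero N] (p : ℕ), p.Prime → PieceK1 N p)
    (h3 : ∀ (N : ℕ) [NeZero N] (p : ℕ), p.Prime → PieceK3 N p)
    (h2 : ∀ (N : ℕ) [NeZero N] (p : ℕ), p.Prime → PieceK2 N p)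
    (hh : ∀ (N : ℕ) [NeZero N] (p : ℕ), p.Prime → PieceHecke N p) :
    M4bStatement :=
  M4bStatement_of_pieces h1 h3 h2 (fun N _ p hp => pieceUniq N p hp.ne_zero)
    (fun N _ p hp => pieceInj N p hp.ne_zero) (fun N _ p hp => pieceAdd N p hp.ne_zero) hh

end Fermat.Agent.S29.M4b.H822

end
-- ===== PACK-END S29/M4b/H822/K4.lean

-- ===== PACK-BEGIN S29/H395/K4Hecke.lean
section
/-
S29 / layer M / sub-layer M4b, PIECE `K4-HECKE` — helper395.

`isKum_hecke_of_normId` : the exact conclusion of `M4b.isKum_hecke` (helper822's skeleton),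
from ONE external input, the `q`-expansion form of the norm identity
`H222.NormId N ℓ : (Nm_α (β y) : ℚ̄((q))) = kronNorm ℓ y` (row S37, NORM-ID / NKI).

Everything else is proved: Hecke inputs (landed `HI`), the correspondence on Kummer classes
(landed `H455`), the transfer formula for products (`ProdChar`), the analytic Kronecker norm
(`AnalyticKron`), stability of good functions under `heckeProd` (`GoodProd`), and the comparison
of the two index conventions (landed `M4a/Fac`).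
-/






set_option autoImplicit false
set_option linter.style.haveILetI false

noncomputable section

open ModularCurve AlgebraicCurve CongruenceSubgroup UpperHalfPlane
open scoped MatrixGroups Manifold Real

namespace Fermat.Agent.S29.H395

open Fermat.Agent.S24 Fermat.Agent.S29 Fermat.Agent.S29.M4b Fermat.Agent.S37.H400

/-! ### Roots of unity bookkeeping -/

theorem zetaP_pow_self (p : ℕ) [NeZero p] : zetaP p ^ p = 1 :=
  (Complex.isPrimitiveRoot_exp p (NeZero.ne p)).pow_eq_one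

theorem zetaP_pow_eq_of_natCast_eq (p : ℕ) [NeZero p] {a b : ℕ}
    (h : (a : ZMod p) = (b : ZMod p)) : zetaP p ^ a = zetaP p ^ b := by
  have hab : a ≡ b [MOD p] := (ZMod.natCast_eq_natCast_iff a b p).mp h
  rw [← Nat.div_add_mod a p, ← Nat.div_add_mod b p, pow_add, pow_add, pow_mul, pow_mul,
    zetaP_pow_self, one_pow, one_pow, one_mul, one_mul, hab]

/-! ### The character of `heckeProd ℓ U` -/

theorem hasChar_heckeProd (N p : ℕ) [NeZero N] [NeZero p] {ℓ : ℕ} [Fact ℓ.Prime] (hℓN : ¬ ℓ ∣ N)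
    {c c' : G0 N → ZMod p} (hcc' : IsTransfer N ℓ c c') {U : ℍ → ℂ} (hU : HasChar N p c U) :
    HasChar N p c' (heckeProd ℓ U) := by
  intro γ τ
  rw [heckeProd_smul hℓN (h := U) (c := fun γ => zetaP p ^ (c γ).val) hU γ τ]
  congr 1
  rw [Finset.prod_pow_eq_pow_sum]
  apply zetaP_pow_eq_of_natCast_eq
  have h1 := hcc' γ (M4aTop_perm γ) (fun i => H201.trf hℓN γ (M4aTop_idx ℓ i))
    (fun i => M4aTop_isHeckeFactor_trf hℓN γ i)
  rw [ZMod.natCast_zmod_val, h1, Nat.cast_sum]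
  simp only [ZMod.natCast_zmod_val]
  exact (Equiv.sum_comp (M4aTop_idx ℓ) (fun x => c (H201.trf hℓN γ x))).symm

/-! ### `q`-expansions: `InfExp` versus `HasQExp` -/

theorem infExp_of_hasQExp {f : ℍ → ℂ} {φ : LaurentSeries ℂ} (h : H708.HasQExp 1 f φ) :
    InfExp 1 f φ := fun τ => h.hasSum τ

theorem hasQExp_of_infExp {f : ℍ → ℂ} {φ : LaurentSeries ℂ}
    (hol : MDifferentiable 𝓘(ℂ) 𝓘(ℂ) f) (h : InfExp 1 f φ) : H708.HasQExp 1 f φ :=
  H708.HasQExp.of_hasSum hol fun τ => h τ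

/-- The `q`-expansion of `heckeProd ℓ G` for a good function `G`. -/
theorem qexpFun_heckeProd {N : ℕ} [NeZero N] {ℓ : ℕ} [Fact ℓ.Prime] (hℓN : ¬ ℓ ∣ N) {G : ℍ → ℂ}
    (hG : G ∈ H648.goodRing N) :
    H708.qexpFun 1 (heckeProd ℓ G) = kronNorm ℓ (H708.qexpFun 1 G) := by
  have h1 := infExp_of_hasQExp (H882.hasQExp_of_mem_goodRing hG)
  have h2 := infExp_heckeProd (ℓ := ℓ) h1
  exact (hasQExp_of_infExp (heckeProd_mem_goodRing hℓN hG).1 h2).qexpFun_eq

/-! ### The main theorem -/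

section Main

variable (N : ℕ) [NeZero N] (p : ℕ) [NeZero p]

omit [NeZero p] in
theorem heckeProd_pow_fun (ℓ : ℕ) [Fact ℓ.Prime] (U : ℍ → ℂ) :
    heckeProd ℓ (fun τ => U τ ^ p) = fun τ => heckeProd ℓ U τ ^ p := by
  have := heckeProd_pow (p := ℓ) U p
  exact this

/-- **PIECE `K4-HECKE`**, from the norm identity `NormId N ℓ`. -/
theorem isKum_hecke_of_normId (ℓ : Nat.Primes) (hℓ : ¬ (ℓ : ℕ) ∣ N * p)
    (hnorm : haveI : NeZero (ℓ : ℕ) := ⟨ℓ.2.ne_zero⟩; H222.NormId N (ℓ : ℕ))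
    {c c' : G0 N → ZMod p} (hcc' : IsTransfer N (ℓ : ℕ) c c')
    {x : JZero N} (h : IsKum N p c x) : IsKum N p c' (heckeOperatorBar N ℓ x) := by
  haveI : NeZero (ℓ : ℕ) := ⟨ℓ.2.ne_zero⟩
  haveI : Fact (ℓ : ℕ).Prime := ⟨ℓ.2⟩
  have hℓN : ¬ (ℓ : ℕ) ∣ N := fun h' => hℓ (Dvd.dvd.mul_right h' p)
  obtain ⟨f, t, U, ht, hx, hU, hR⟩ := h
  obtain ⟨hα, hβ, hP, hfin, hFI, hN⟩ := heckeInputsAlong_bar N (ℓ : ℕ) ℓ.2
  haveI := hP
  -- the new data
  set α := heckeAlphaBar (AlgebraicClosure ℚ) N (ℓ : ℕ) with hαdef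
  set β := heckeBetaBar (AlgebraicClosure ℚ) N (ℓ : ℕ) with hβdef
  have hT : heckeOperatorBar N ℓ x = Pic0.correspondence β α hβ hα hFI hfin hN x := by
    rw [heckeOperatorBar_apply, heckeOperatorAlong_eq hα hβ hFI hfin hN]
    rfl
  have hx' := hx.correspondence β α hβ hα hFI hfin hN
  rw [← hT] at hx'
  have ht' : H455.normAlong α (β t) ≠ 0 :=
    H455.normAlong_ne_zero α hfin ((map_ne_zero β).mpr ht)
  have hmul : H455.normAlong α (β f) * H455.normAlong α (β t) ^ p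
      = H222.heckeNorm N (ℓ : ℕ) (f * t ^ p) := by
    rw [← H455.normAlong_pow, ← H455.normAlong_mul, ← map_pow, ← map_mul]
    rfl
  -- the analytic side
  have hgood : (fun τ => heckeProd (ℓ : ℕ) U τ ^ p) ∈ H648.goodRing N := by
    rw [← heckeProd_pow_fun]
    exact heckeProd_mem_goodRing hℓN hR.1
  have hq : H708.qexpFun 1 (fun τ => heckeProd (ℓ : ℕ) U τ ^ p)
      = coeffMap Deg457.iotaC
          ((((H455.normAlong α (β f) * H455.normAlong α (β t) ^ p : FF N)) : FF N) :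
            LaurentSeries Kbar) := by
    rw [← heckeProd_pow_fun, qexpFun_heckeProd hℓN hR.1, hR.2, ← coeffMap_kronNorm, hmul]
    exact congrArg _ (hnorm (f * t ^ p)).symm
  have hne : (H455.normAlong α (β f) * H455.normAlong α (β t) ^ p : FF N) ≠ 0 :=
    mul_ne_zero hx'.ne_zero (pow_ne_zero _ ht')
  refine ⟨H455.normAlong α (β f), H455.normAlong α (β t), heckeProd (ℓ : ℕ) U, ht', hx',
    ⟨mdiff_heckeProd hU.mdiff, ?_, hasChar_heckeProd N p hℓN hcc' hU.hasChar, hgood⟩,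
    ⟨hgood, hq⟩⟩
  -- non-vanishing
  by_contra hzero
  push Not at hzero
  have hp0 : p ≠ 0 := NeZero.ne p
  have h0 : (fun τ => heckeProd (ℓ : ℕ) U τ ^ p) = 0 := by
    funext τ
    rw [hzero τ]
    simp [hp0]
  have h1 := (H882.hasQExp_of_mem_goodRing hgood)
  have h2 : H708.qexpFun 1 (fun τ => heckeProd (ℓ : ℕ) U τ ^ p) = 0 :=
    h1.eq_zero_iff.mpr h0
  rw [hq] at h2
  have hinj : Function.Injective (coeffMap Deg457.iotaC) :=
    inf_coeffMap_injective Deg457.iotaC.injective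
  have h3 : (((H455.normAlong α (β f) * H455.normAlong α (β t) ^ p : FF N)) :
      LaurentSeries Kbar) = 0 := hinj (by rw [h2, map_zero])
  exact hne (by exact_mod_cast h3)

end Main

end Fermat.Agent.S29.H395

end

end
-- ===== PACK-END S29/H395/K4Hecke.lean

-- ===== PACK-BEGIN S29/M4b/H395/Hecke.lean
section
/-
S29 row, LAYER M, SUB-LAYER M4b — PIECE `K4-HECKE` (helper395): DONE, unconditional.

`pieceHecke N p hp : M4b.PieceHecke N p` for every level `N` and every prime `p`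
(the exact `Prop` of `Fermat/Agent/S29/M4b/Top.lean`), and `isKum_hecke` (the exact statement
of helper822's sub-skeleton, with its hypotheses `hfac`, `hc`, which are not needed).

Proof: `Fermat.Agent.S29.H395.isKum_hecke_of_normId` (the Hecke product
`V(τ) = ∏ᵢ U(αᵢ τ)` over the `ℓ + 1` Hecke representatives is twisted of character the
transfer of `c`; its `p`-th power realises `heckeNorm (f · t ^ p)`; `T_ℓ` of a Kummer class is
the Kummer class of the norm), fed with the landed NORM-ID `Fermat.Agent.S37.H819.normId`.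
-/




set_option autoImplicit false

noncomputable section

open ModularCurve AlgebraicCurve CongruenceSubgroup UpperHalfPlane
open scoped MatrixGroups Manifold

namespace Fermat.Agent.S29.M4b.H395

open Fermat.Agent.S24 Fermat.Agent.S29 Fermat.Agent.S29.M4b

/-- The landed NORM-ID (`S37.H819.normId`) in the packaging of `H222.NormId`. -/
theorem normId_H222 (N ℓ : ℕ) [NeZero N] [NeZero ℓ] (hℓ : ℓ.Prime) (hℓN : ¬ ℓ ∣ N) :
    Fermat.Agent.S29.H222.NormId N ℓ :=
  fun y => Fermat.Agent.S37.H819.normId N ℓ hℓ hℓN y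

/-- **PIECE `K4-HECKE`**, exact statement of the sub-skeleton
(`origin/helper822:Fermat/Agent/S29/M4b/Skeleton.lean`, `isKum_hecke`). -/
theorem isKum_hecke (N : ℕ) [NeZero N] (p : ℕ) [NeZero p]
    (ℓ : Nat.Primes) (hℓ : ¬ (ℓ : ℕ) ∣ N * p)
    (_hfac : ∀ γ : G0 N, ∃ (π : Equiv.Perm (Option (Fin (ℓ : ℕ))))
      (δ : Option (Fin (ℓ : ℕ)) → G0 N), ∀ i, IsHeckeFactor (ℓ : ℕ) γ i (π i, δ i))
    {c c' : G0 N → ZMod p} (_hc : IsParHom c) (hcc' : IsTransfer N (ℓ : ℕ) c c')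
    {x : JZero N} (h : IsKum N p c x) : IsKum N p c' (heckeOperatorBar N ℓ x) := by
  have : NeZero (ℓ : ℕ) := ⟨ℓ.2.ne_zero⟩
  have hℓN : ¬ (ℓ : ℕ) ∣ N := fun hd => hℓ (Dvd.dvd.mul_right hd p)
  exact Fermat.Agent.S29.H395.isKum_hecke_of_normId N p ℓ hℓ
    (normId_H222 N (ℓ : ℕ) ℓ.2 hℓN) hcc' h

/-- **PIECE `K4-HECKE`** in the form of `M4b/Top.lean`. -/
theorem pieceHecke (N : ℕ) [NeZero N] (p : ℕ) (hp : p.Prime) : PieceHecke N p := by
  have : NeZero p := ⟨hp.ne_zero⟩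
  intro ℓ hℓ hfac c c' hc hcc' x h
  exact isKum_hecke N p ℓ hℓ hfac hc hcc' h

end Fermat.Agent.S29.M4b.H395

end
end
-- ===== PACK-END S29/M4b/H395/Hecke.lean

-- ===== PACK-BEGIN S29/H389/K2Piece.lean
section



/-!
# S29 / M4b / PIECE K2 in the `Prop` form of `M4b/Top.lean` (helper389)

`pieceK2 N p hp : M4b.PieceK2 N p` for every level `N` and every modulus `p ≠ 0`.
-/

set_option autoImplicit false

noncomputable section

namespace Fermat.Agent.S29.H389

open Fermat.Agent.S29 Fermat.Agent.S29.M4b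

/-- PIECE `K2` of the M4b top assembly, for every level and every nonzero modulus. -/
theorem pieceK2 (N : ℕ) [NeZero N] (p : ℕ) (hp : p ≠ 0) : PieceK2 N p := by
  have : NeZero p := ⟨hp⟩
  intro c hc U u hU hu
  exact exists_isKummerClass_of_realised N p hc hU hu

/-- PIECE `K2` for all levels and all prime moduli (the hypothesis `h2` of
`M4b.M4bStatement_of_pieces`). -/
theorem pieceK2_prime (N : ℕ) [NeZero N] (p : ℕ) (hp : p.Prime) : PieceK2 N p :=
  pieceK2 N p hp.ne_zero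

end Fermat.Agent.S29.H389

end
end
-- ===== PACK-END S29/H389/K2Piece.lean

-- ===== PACK-BEGIN S29/Reduce.lean
section
/-
S29 row — FINAL REDUCTION (row-lead helper269): the frozen statement S29 from the TWO inputs that
are still open,

* `CorePrimeFamily` (row S18): `S18.CoreStatement N A p` for primes `p ≠ ℓ`, `ℓ ∤ N`, `A | ℓ`;
* `PieceK3 N p` (M4b, descent `ℂ → ℚ̄`) for all levels `N` and primes `p`.

Everything else is on main: CHEB Tier 1 (`Lib.Cheb.frobeniusDivision`), `M4a_statement`, `HCoh`,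
`HI`, NORM-ID (`S37.H819.normId`), PGI (`S37.H98.gen`), ESK (`H222`), and the M4b pieces
K1 (`H509`), K2 (`H389`), K4-UNIQ/INJ/ADD (`M4b.H822`), K4-HECKE (`M4b.H395`).
-/











set_option autoImplicit false

namespace Fermat.Agent.S29

open CuspForm CuspForm.IsNormalizedEigenform

/-- PIECE `HCoh` as the `Prop` of `Parts.lean`. -/
theorem hCohStatement : HCohStatement :=
  fun N _ _ _ hℓ hℓN _ hc => isParHom_heckeCoh N hℓ hℓN hc

/-- PIECE `K1` in the shape of `M4b/Top.lean`. -/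
theorem pieceK1 (N : ℕ) [NeZero N] (p : ℕ) (hp : p ≠ 0) : M4b.PieceK1 N p := by
  haveI : NeZero p := ⟨hp⟩
  intro c hc
  exact H509.exists_isTwisted N p hc

/-- The Kummer bridge from piece `K3` alone. -/
theorem m4bStatement_of_K3
    (h3 : ∀ (N : ℕ) [NeZero N] (p : ℕ), p.Prime → M4b.PieceK3 N p) : M4bStatement :=
  M4b.H822.m4bStatement_of_four (fun N _ p hp => pieceK1 N p hp.ne_zero) h3
    (fun N _ p hp => H389.pieceK2_prime N p hp) (fun N _ p hp => M4b.H395.pieceHecke N p hp)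

/-- **The frozen statement S29 from the S18 hub and piece K3.** -/
theorem S29_of_core_K3 (hcore : CorePrimeFamily)
    (h3 : ∀ (N : ℕ) [NeZero N] (p : ℕ), p.Prime → M4b.PieceK3 N p)
    {N : ℕ} {g : CuspForm (CongruenceSubgroup.Gamma0 N) 2} (hg : g.IsNormalizedEigenform)
    {p : ℕ} (hp : p.Prime) {k : Type} [Field k] [CharP k p]
    (φ : integralClosure ℤ ℂ →+* k) :
    ∃ ρ : ResidualGaloisRep k, ρ.IsAttachedTo g φ ∧
      ∀ ℓ : ℕ, ℓ.Prime → ¬ ℓ ∣ N * p → ρ.IsUnramifiedAt ℓ :=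
  S29_of_parts Fermat.Agent.Lib.Cheb.frobeniusDivision (rawES_of_corePrime hcore) M4a_statement
    (m4bStatement_of_K3 h3) hCohStatement hg hp φ

end Fermat.Agent.S29

end
-- ===== PACK-END S29/Reduce.lean

-- ===== PACK-BEGIN Ribet/H583/NonEisenstein.lean
section











/-!
# Row RIBET, piece NE: `NonEisensteinStatement` (helper583)

An irreducible `E[p]` (Frey curve) has, outside any finite set, a good prime `ℓ` of any integral
model `W` with `a_ℓ(W) ≢ ℓ + 1 mod p`.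

Inputs (all on main): qualitative Chebotarev (`Lib/Cheb`, Tier 2), the Frobenius relation
(`Lib/Frob`), the value of the cyclotomic character at Frobenius (`S29/H872`), `#E[p] = p²`
(`S59/H127`), transport of points along a change of variables (`Lib/VC`), and the abstract
lemma of `EisAbstract.lean`.
-/

set_option autoImplicit false
set_option linter.unusedSectionVars false

open WeierstrassCurve WeierstrassCurve.Affine WeierstrassCurve.Affine.Point

namespace Fermat.Agent.Ribet.H583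

/-- `ℚ̄`. -/
abbrev Qb583 : Type := AlgebraicClosure ℚ

/-- `Gal(ℚ̄/ℚ)`. -/
abbrev GQ583 : Type := Qb583 ≃ₐ[ℚ] Qb583

section Coord

variable (E : WeierstrassCurve ℚ)

/-- The coordinates of a point. -/
def coords583 : (E⁄Qb583).Point → Set Qb583
  | .zero => ∅
  | .some x y _ => {x, y}

theorem finite_coords583 (P : (E⁄Qb583).Point) : (coords583 E P).Finite := by
  cases P with
  | zero => exact Set.finite_empty
  | some x y h => exact (Set.finite_singleton y).insert x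

/-- Two automorphisms which agree on the coordinates of a point agree on the point. -/
theorem smul_eq_smul_of_coords583 (σ τ : GQ583) (P : (E⁄Qb583).Point)
    (h : ∀ x ∈ coords583 E P, τ x = σ x) : τ • P = σ • P := by
  cases P with
  | zero => rfl
  | some x y hxy =>
    rw [Point.algEquiv_smul_def, Point.algEquiv_smul_def, Point.map_some, Point.map_some,
      Point.some.injEq]
    exact ⟨h x (Set.mem_insert _ _), h y (Set.mem_insert_of_mem _ rfl)⟩

end Coord

section Level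

variable (E : WeierstrassCurve ℚ) (p : ℕ) [Fact p.Prime]

/-- Generators of the level field: the coordinates of the `p`-torsion points and the `p`-th
roots of unity. -/
def levelSet583 : Set Qb583 :=
  (⋃ P ∈ {P : (E⁄Qb583).Point | p • P = 0}, coords583 E P) ∪ {t : Qb583 | t ^ p = 1}

/-- The level field `ℚ(E[p], μ_p)`. -/
noncomputable def levelField583 : IntermediateField ℚ Qb583 :=
  IntermediateField.adjoin ℚ (levelSet583 E p)

theorem finite_levelSet583 [(E⁄Qb583).IsElliptic] : (levelSet583 E p).Finite := by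
  classical
  have hp : p.Prime := Fact.out
  have hfin := Fermat.Agent.S59.H127.finite_torsion (E⁄Qb583) p hp.one_le
  have hTfin : {P : (E⁄Qb583).Point | p • P = 0}.Finite := by
    have : {P : (E⁄Qb583).Point | p • P = 0} =
        ((Submodule.torsionBy ℤ (E⁄Qb583).Point ((p : ℕ) : ℤ) : Set (E⁄Qb583).Point)) := by
      ext P
      exact Fermat.Agent.S59.H127.mem_torsionBy_natCast_iff.symm
    rw [this]
    exact Set.toFinite _
  refine Set.Finite.union (hTfin.biUnion fun P _ => finite_coords583 E P) ?_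
  have : {t : Qb583 | t ^ p = 1} = ↑(Polynomial.nthRoots p (1 : Qb583)).toFinset := by
    ext t
    simp [Polynomial.mem_nthRoots hp.pos]
  rw [this]
  exact Finset.finite_toSet _

theorem finiteDimensional_levelField583 [(E⁄Qb583).IsElliptic] :
    FiniteDimensional ℚ (levelField583 E p) := by
  have : Finite (levelSet583 E p) := (finite_levelSet583 E p).to_subtype
  have halg : Algebra.IsAlgebraic ℚ Qb583 := AlgebraicClosure.isAlgebraic ℚ
  exact IntermediateField.finiteDimensional_adjoin fun x _ =>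
    (Algebra.IsAlgebraic.isAlgebraic x).isIntegral

theorem smul_eq_of_levelField583 (σ τ : GQ583) (h : ∀ x ∈ levelField583 E p, τ x = σ x)
    (P : (E⁄Qb583).Point) (hP : p • P = 0) : τ • P = σ • P := by
  apply smul_eq_smul_of_coords583
  intro x hx
  apply h
  apply IntermediateField.subset_adjoin
  left
  exact Set.mem_biUnion (show P ∈ {P : (E⁄Qb583).Point | p • P = 0} from hP) hx

theorem cycloChar_eq_of_levelField583 (σ τ : GQ583)
    (h : ∀ x ∈ levelField583 E p, τ x = σ x) :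
    ExtCitation.cycloChar p τ = ExtCitation.cycloChar p σ := by
  have h1 : ExtCitation.cycloChar p (σ⁻¹ * τ) = 1 := by
    apply Fermat.Agent.S29.H872.cycloChar_eq_one_of_fixes_roots
    intro t ht
    have ht' : t ∈ levelField583 E p := by
      apply IntermediateField.subset_adjoin
      right
      exact ht
    rw [AlgEquiv.mul_apply, h t ht']
    exact σ.symm_apply_apply t
  rw [map_mul, map_inv] at h1
  exact (inv_mul_eq_one.mp h1).symm

end Level

section Transport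

open Fermat.Agent.Lib.VC

/-- Transfer of a quadratic relation for a Galois automorphism along a change of variables. -/
theorem rel_transfer583 (E E' : WeierstrassCurve ℚ) (C : VariableChange ℚ) (hC : C • E = E')
    (σ : GQ583) (a b : ℤ) (n : ℕ)
    (h : ∀ Q : (E'⁄Qb583).Point, n • Q = 0 → σ • σ • Q - a • σ • Q + b • Q = 0)
    (P : (E⁄Qb583).Point) (hP : n • P = 0) : σ • σ • P - a • σ • P + b • P = 0 := by
  subst hC
  have hQ : n • (vcPointBC E C Qb583).symm P = 0 := by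
    rw [← map_nsmul, hP, _root_.map_zero]
  have key : ∀ Q : ((C • E)⁄Qb583).Point,
      vcPointBC E C Qb583 (σ • Q) = σ • vcPointBC E C Qb583 Q :=
    fun Q => (map_vcPointBC E C σ.toAlgHom Q).symm
  have := congrArg (vcPointBC E C Qb583) (h _ hQ)
  rw [_root_.map_zero, map_add, map_sub, map_zsmul, map_zsmul, key, key,
    AddEquiv.apply_symm_apply] at this
  exact this

/-- The Frobenius relation on `E`, for a Frobenius element at a good prime `ℓ ≥ 5` of an
integral model `W` of `E`. -/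
theorem frobRel_on583 (E : WeierstrassCurve ℚ) (W : WeierstrassCurve ℤ)
    (hW : W.IsIntegralModelOf E) (ℓ : ℕ) (hℓ : ℓ.Prime) (h5 : 5 ≤ ℓ)
    (hgood : W.IsGoodPrimeFor ℓ) (A : ValuationSubring Qb583) (σ : GQ583)
    (hA : A.LiesOverPrime ℓ) (hσ : A.IsFrobeniusAt σ ℓ) (n : ℕ) (hn : 0 < n) (hℓn : ¬ ℓ ∣ n)
    (P : (E⁄Qb583).Point) (hP : n • P = 0) :
    σ • σ • P - W.apOfModel ℓ • σ • P + (ℓ : ℤ) • P = 0 := by
  obtain ⟨C, hC⟩ := hW
  have hF : Fermat.Agent.Lib.Frob.FrobRelation :=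
    Fermat.Agent.Lib.Frob.frobRelation_of_parts Fermat.Agent.Lib.Frob.frobRelationFin
      Fermat.Agent.Lib.Frob.reductionData
  exact rel_transfer583 E _ C hC σ _ _ n
    (fun Q hQ => hF W ℓ hℓ h5 hgood A σ hA hσ n hn hℓn Q hQ) P hP

end Transport

section Main

theorem frey_isElliptic583 (P : FreyPackage) : (P.freyCurve⁄Qb583).IsElliptic := by
  constructor
  rw [isUnit_iff_ne_zero]
  change (P.freyCurve.map (algebraMap ℚ Qb583)).Δ ≠ 0
  rw [WeierstrassCurve.map_Δ]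
  exact (_root_.map_ne_zero _).mpr (Fermat.Agent.S13.H891.freyCurve_Δ_ne_zero P)

/-- An integral model of a curve with nonzero discriminant has nonzero discriminant. -/
theorem model_Δ_ne_zero583 (E : WeierstrassCurve ℚ) (hE : E.Δ ≠ 0) (W : WeierstrassCurve ℤ)
    (hW : W.IsIntegralModelOf E) : W.Δ ≠ 0 := by
  obtain ⟨C, hC⟩ := hW
  intro h0
  have h1 : (W.map (Int.castRingHom ℚ)).Δ = 0 := by
    rw [WeierstrassCurve.map_Δ, h0, _root_.map_zero]
  rw [← hC, WeierstrassCurve.variableChange_Δ] at h1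
  rcases mul_eq_zero.mp h1 with h2 | h2
  · exact (pow_ne_zero 12 (Units.ne_zero C.u⁻¹)) h2
  · exact hE h2

/-- A prime outside the prime factors of `|Δ|` is a good prime. -/
theorem good_of_notMem583 (W : WeierstrassCurve ℤ) (hΔ : W.Δ ≠ 0) (ℓ : ℕ) (hℓ : ℓ.Prime)
    (h : ℓ ∉ W.Δ.natAbs.primeFactors) : W.IsGoodPrimeFor ℓ := by
  intro hdvd
  apply h
  rw [Nat.mem_primeFactors]
  exact ⟨hℓ, Int.natCast_dvd.mp hdvd, Int.natAbs_ne_zero.mpr hΔ⟩

/-- **Piece NE**: the Eisenstein congruences `a_ℓ ≡ ℓ + 1` cannot hold at almost all good primes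
when `E[p]` is irreducible. -/
theorem nonEisenstein583 : Spec.NonEisensteinStatement := by
  intro P W hW hirr S
  classical
  by_contra hcon
  have hcon' : ∀ ℓ : ℕ, ℓ.Prime → ℓ ∉ S → W.IsGoodPrimeFor ℓ →
      (P.p : ℤ) ∣ W.apOfModel ℓ - (ℓ + 1) := by
    intro ℓ h1 h2 h3
    by_contra h4
    exact hcon ⟨ℓ, h1, h2, h3, h4⟩
  have hpF : Fact P.p.Prime := ⟨P.pp⟩
  have hE : (P.freyCurve⁄Qb583).IsElliptic := frey_isElliptic583 P
  have hΔ : W.Δ ≠ 0 :=
    model_Δ_ne_zero583 _ (Fermat.Agent.S13.H891.freyCurve_Δ_ne_zero P) W hW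
  have hfinV : Finite (Submodule.torsionBy ℤ (P.freyCurve⁄Qb583).Point ((P.p : ℕ) : ℤ)) :=
    Fermat.Agent.S59.H127.finite_torsion (P.freyCurve⁄Qb583) P.p P.pp.one_le
  have hcard : Nat.card (Submodule.torsionBy ℤ (P.freyCurve⁄Qb583).Point ((P.p : ℕ) : ℤ))
      = P.p ^ 2 := Fermat.Agent.S59.H127.card_torsion_eq (P.freyCurve⁄Qb583) P.p
  have hrel : EisRel (p := P.p) GQ583
      (Submodule.torsionBy ℤ (P.freyCurve⁄Qb583).Point ((P.p : ℕ) : ℤ))
      (ExtCitation.cycloChar P.p) := by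
    intro g v
    obtain ⟨ℓ, A, τ, hℓ, hℓS, hA, hτ, -, hτg⟩ :=
      Fermat.Agent.Lib.Cheb.chebotarev (levelField583 P.freyCurve P.p)
        (finiteDimensional_levelField583 _ _) g
        (S ∪ W.Δ.natAbs.primeFactors ∪ {2, 3, P.p})
    simp only [Finset.mem_union, Finset.mem_insert, Finset.mem_singleton, not_or] at hℓS
    obtain ⟨⟨hℓS, hℓΔ⟩, hℓ2, hℓ3, hℓp⟩ := hℓS
    have h5 : 5 ≤ ℓ := by
      have h2 := hℓ.two_le
      rcases Nat.lt_or_ge ℓ 5 with h | h
      · interval_cases ℓ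
        · exact absurd rfl hℓ2
        · exact absurd rfl hℓ3
        · exact absurd hℓ (by decide)
      · exact h
    have hgood : W.IsGoodPrimeFor ℓ := good_of_notMem583 W hΔ ℓ hℓ hℓΔ
    have hdvd := hcon' ℓ hℓ hℓS hgood
    have hℓn : ¬ ℓ ∣ P.p := fun h => hℓp ((Nat.prime_dvd_prime_iff_eq hℓ P.pp).mp h)
    have hv : P.p • (v : (P.freyCurve⁄Qb583).Point) = 0 :=
      Fermat.Agent.S59.H127.mem_torsionBy_natCast_iff.mp v.2
    have hgv : P.p • (g • (v : (P.freyCurve⁄Qb583).Point)) = 0 :=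
      Fermat.Agent.S59.H127.mem_torsionBy_natCast_iff.mp (g • v).2
    have hfr := frobRel_on583 P.freyCurve W hW ℓ hℓ h5 hgood A τ hA hτ P.p P.pp.pos hℓn
      (v : (P.freyCurve⁄Qb583).Point) hv
    have e1 : τ • (v : (P.freyCurve⁄Qb583).Point) = g • (v : (P.freyCurve⁄Qb583).Point) :=
      smul_eq_of_levelField583 P.freyCurve P.p g τ hτg _ hv
    have e2 : τ • (g • (v : (P.freyCurve⁄Qb583).Point))
        = g • (g • (v : (P.freyCurve⁄Qb583).Point)) :=
      smul_eq_of_levelField583 P.freyCurve P.p g τ hτg _ hgv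
    rw [e1, e2] at hfr
    have hχ : ((ExtCitation.cycloChar P.p g : (ZMod P.p)ˣ) : ZMod P.p) = ((ℓ : ℤ) : ZMod P.p) := by
      rw [← cycloChar_eq_of_levelField583 P.freyCurve P.p g τ hτg,
        Fermat.Agent.S29.H872.cycloChar_frobenius P.p hℓ hℓp A hA τ hτ]
      simp
    have ha : (1 : ZMod P.p) + ((ℓ : ℤ) : ZMod P.p) = ((W.apOfModel ℓ : ℤ) : ZMod P.p) := by
      have := (ZMod.intCast_zmod_eq_zero_iff_dvd (W.apOfModel ℓ - (ℓ + 1)) P.p).mpr hdvd
      push_cast at this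
      push_cast
      linear_combination -this
    rw [hχ, ha, Int.cast_smul_eq_zsmul, Int.cast_smul_eq_zsmul]
    apply Subtype.ext
    exact hfr
  have hns : NoStable P.p GQ583
      (Submodule.torsionBy ℤ (P.freyCurve⁄Qb583).Point ((P.p : ℕ) : ℤ)) :=
    fun N hN => hirr.2 N hN
  have hle := card_le_of_eisRel hrel hns
  rw [hcard] at hle
  have h2 := P.pp.two_le
  nlinarith

end Main

end Fermat.Agent.Ribet.H583

end
-- ===== PACK-END Ribet/H583/NonEisenstein.lean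

-- ===== PACK-BEGIN S30/H450/KumTower.lean
section
/-
S30 (p-adic version), helper450: the KUMMER TOWER from the pieces of S29 sub-layer M4b.

* `KumPackage N m` : the pieces of helper822's `M4b/Skeleton.lean` at the modulus `m`
  (existence, uniqueness, injectivity, additivity, Hecke-equivariance of `M4b.IsKum N m`).
* `KumPackage.of_skeleton` : the package from statements in the EXACT shapes of the M4b skeleton
  (the Hecke piece is converted with the landed `HCoh` facts of helper149).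
* `exists_kummerTower_of` : the conclusion of helper49's `SkeletonLat.exists_kummerTower`
  (maps `κ n` on characters mod `p ^ n`, additive, injective, `p • κ (n+1) c = κ n (c mod p ^ n)`,
  Hecke-equivariant), from `KumPackage N (p ^ n)` for all `n`; the tower compatibility is
  `isKum_red` of `KumCompat.lean`.
-/



set_option autoImplicit false

noncomputable section

open ModularCurve AlgebraicCurve CongruenceSubgroup UpperHalfPlane
open scoped MatrixGroups Manifold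

namespace Fermat.Agent.S30.H450

open Fermat.Agent.S24 Fermat.Agent.S29 Fermat.Agent.S29.M4b

/-- The pieces of S29 sub-layer M4b at the modulus `m`. -/
structure KumPackage (N m : ℕ) [NeZero N] : Prop where
  ex : ∀ c : G0 N → ZMod m, IsParHom c → ∃ x : JZero N, IsKum N m c x
  uniq : ∀ (c : G0 N → ZMod m) (x x' : JZero N), IsKum N m c x → IsKum N m c x' → x = x'
  inj : ∀ c : G0 N → ZMod m, IsKum N m c (0 : JZero N) → c = 0
  add : ∀ (c c' : G0 N → ZMod m) (x x' : JZero N),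
    IsKum N m c x → IsKum N m c' x' → IsKum N m (c + c') (x + x')
  hecke : ∀ ℓ : Nat.Primes, ¬ (ℓ : ℕ) ∣ N * m → ∀ (c : G0 N → ZMod m) (x : JZero N),
    IsParHom c → IsKum N m c x → IsKum N m (heckeCoh N ℓ c) (heckeOperatorBar N ℓ x)

section Skeleton

variable {N : ℕ} [NeZero N]

omit [NeZero N] in
/-- The transfer of `c` is `heckeCoh N ℓ c` (for `ℓ ∤ N` prime; landed `HCoh`). -/
theorem isTransfer_heckeCoh_h450 {ℓ : ℕ} (hℓ : ℓ.Prime) (hℓN : ¬ ℓ ∣ N) {A : Type*}
    [AddCommMonoid A] (c : G0 N → A) : IsTransfer N ℓ c (heckeCoh N ℓ c) := by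
  intro γ π δ hfac
  unfold heckeCoh
  refine Finset.sum_congr rfl fun i _ => ?_
  rw [H149.HCoh_heckeFac_unique hℓ hℓN (hfac i)]

omit [NeZero N] in
/-- Existence of the Hecke factorisation with a permutation of the indices (landed `HCoh`). -/
theorem exists_perm_factor_h450 {ℓ : ℕ} (hℓ : ℓ.Prime) (hℓN : ¬ ℓ ∣ N) (γ : G0 N) :
    ∃ (π : Equiv.Perm (Option (Fin ℓ))) (δ : Option (Fin ℓ) → G0 N),
      ∀ i, IsHeckeFactor ℓ γ i (π i, δ i) :=
  ⟨H149.HCoh_perm (H149.HCoh_isFactorSystem hℓ hℓN) γ, fun i => (heckeFac N ℓ γ i).2,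
    fun i => H149.HCoh_heckeFac_spec hℓ hℓN γ i⟩

/-- The package at the modulus `m` from statements in the EXACT shapes of
`Fermat/Agent/S29/M4b/Skeleton.lean` (`isKum_exists`, `isKum_unique`, `isKum_zero_right`,
`isKum_add`, `isKum_hecke`). -/
theorem KumPackage.of_skeleton {m : ℕ}
    (hex : ∀ {c : G0 N → ZMod m}, IsParHom c → ∃ x : JZero N, IsKum N m c x)
    (huniq : ∀ {c : G0 N → ZMod m} {x x' : JZero N}, IsKum N m c x → IsKum N m c x' → x = x')
    (hinj : ∀ {c : G0 N → ZMod m}, IsKum N m c (0 : JZero N) → c = 0)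
    (hadd : ∀ {c c' : G0 N → ZMod m} {x x' : JZero N},
      IsKum N m c x → IsKum N m c' x' → IsKum N m (c + c') (x + x'))
    (hhecke : ∀ (ℓ : Nat.Primes), ¬ (ℓ : ℕ) ∣ N * m →
      (∀ γ : G0 N, ∃ (π : Equiv.Perm (Option (Fin (ℓ : ℕ)))) (δ : Option (Fin (ℓ : ℕ)) → G0 N),
        ∀ i, IsHeckeFactor (ℓ : ℕ) γ i (π i, δ i)) →
      ∀ {c c' : G0 N → ZMod m}, IsParHom c → IsTransfer N (ℓ : ℕ) c c' →
      ∀ {x : JZero N}, IsKum N m c x → IsKum N m c' (heckeOperatorBar N ℓ x)) :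
    KumPackage N m where
  ex _ hc := hex hc
  uniq _ _ _ h h' := huniq h h'
  inj _ h := hinj h
  add _ _ _ _ h h' := hadd h h'
  hecke ℓ hℓ c x hc h := by
    have hℓN : ¬ (ℓ : ℕ) ∣ N := fun hd => hℓ (Dvd.dvd.mul_right hd m)
    exact hhecke ℓ hℓ (exists_perm_factor_h450 ℓ.2 hℓN) hc
      (isTransfer_heckeCoh_h450 ℓ.2 hℓN c) h

end Skeleton

section Tower

variable (N : ℕ) [NeZero N] (p : ℕ)

open Classical in
/-- The Kummer tower: `kumTower N p n c` is THE Kummer class of the character `c` mod `p ^ n`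
(and `0` if there is none). -/
def kumTower (n : ℕ) (c : G0 N → ZMod (p ^ n)) : JZero N :=
  if h : ∃ x : JZero N, IsKum N (p ^ n) c x then h.choose else 0

variable {N p}

theorem isKum_kumTower (H : ∀ n, KumPackage N (p ^ n)) {n : ℕ} {c : G0 N → ZMod (p ^ n)}
    (hc : IsParHom c) : IsKum N (p ^ n) c (kumTower N p n c) := by
  have h := (H n).ex c hc
  rw [kumTower, dif_pos h]
  exact h.choose_spec

theorem kumTower_eq (H : ∀ n, KumPackage N (p ^ n)) {n : ℕ} {c : G0 N → ZMod (p ^ n)}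
    {x : JZero N} (h : IsKum N (p ^ n) c x) : kumTower N p n c = x := by
  have h' : ∃ x : JZero N, IsKum N (p ^ n) c x := ⟨x, h⟩
  rw [kumTower, dif_pos h']
  exact (H n).uniq c _ _ h'.choose_spec h

theorem not_dvd_mul_pow {ℓ : ℕ} (hℓ : ℓ.Prime) {N p : ℕ} (h : ¬ ℓ ∣ N * p) (n : ℕ) :
    ¬ ℓ ∣ N * p ^ n := by
  intro hd
  rcases (Nat.Prime.dvd_mul hℓ).1 hd with h1 | h1
  · exact h (Dvd.dvd.mul_right h1 p)
  · exact h (Dvd.dvd.mul_left (hℓ.dvd_of_dvd_pow h1) N)

/-- **The Kummer tower** (conclusion of helper49's `SkeletonLat.exists_kummerTower`, with the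
extra information that `κ n c` IS the Kummer class of `c`), from the M4b pieces at all moduli
`p ^ n`. -/
theorem exists_kummerTower_isKum_of [NeZero p] (H : ∀ n, KumPackage N (p ^ n)) :
    ∃ κ : (n : ℕ) → (G0 N → ZMod (p ^ n)) → JZero N,
      (∀ n c, IsParHom c → IsKum N (p ^ n) c (κ n c)) ∧
      (∀ n c c', IsParHom c → IsParHom c' → κ n (c + c') = κ n c + κ n c') ∧
      (∀ n c, IsParHom c → κ n c = 0 → c = 0) ∧
      (∀ (n : ℕ) (c : G0 N → ZMod (p ^ (n + 1))), IsParHom c →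
        (p : ℤ) • κ (n + 1) c =
          κ n (fun γ => ZMod.castHom (pow_dvd_pow p (Nat.le_succ n)) (ZMod (p ^ n)) (c γ))) ∧
      (∀ ℓ : Nat.Primes, ¬ (ℓ : ℕ) ∣ N * p → ∀ n c, IsParHom c →
        κ n (heckeCoh N ℓ c) = heckeOperatorBar N ℓ (κ n c)) := by
  refine ⟨kumTower N p, fun n c hc => isKum_kumTower H hc, fun n c c' hc hc' => ?_,
    fun n c hc h0 => ?_, fun n c hc => ?_, fun ℓ hℓ n c hc => ?_⟩
  · exact kumTower_eq H ((H n).add c c' _ _ (isKum_kumTower H hc) (isKum_kumTower H hc'))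
  · have h := isKum_kumTower H hc
    rw [h0] at h
    exact (H n).inj c h
  · have h := isKum_kumTower H hc
    have h1 := isKum_red' (m := p ^ n) (d := p) (pow_succ p n)
      (pow_dvd_pow p (Nat.le_succ n)) h
    rw [natCast_zsmul]
    exact (kumTower_eq H h1).symm
  · exact kumTower_eq H ((H n).hecke ℓ (not_dvd_mul_pow ℓ.2 hℓ n) c _ hc (isKum_kumTower H hc))

/-- **The Kummer tower**, EXACT conclusion of helper49's `SkeletonLat.exists_kummerTower`. -/
theorem exists_kummerTower_of [NeZero p] (H : ∀ n, KumPackage N (p ^ n)) :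
    ∃ κ : (n : ℕ) → (G0 N → ZMod (p ^ n)) → JZero N,
      (∀ n c c', IsParHom c → IsParHom c' → κ n (c + c') = κ n c + κ n c') ∧
      (∀ n c, IsParHom c → κ n c = 0 → c = 0) ∧
      (∀ (n : ℕ) (c : G0 N → ZMod (p ^ (n + 1))), IsParHom c →
        (p : ℤ) • κ (n + 1) c =
          κ n (fun γ => ZMod.castHom (pow_dvd_pow p (Nat.le_succ n)) (ZMod (p ^ n)) (c γ))) ∧
      (∀ ℓ : Nat.Primes, ¬ (ℓ : ℕ) ∣ N * p → ∀ n c, IsParHom c →
        κ n (heckeCoh N ℓ c) = heckeOperatorBar N ℓ (κ n c)) := by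
  obtain ⟨κ, -, h1, h2, h3, h4⟩ := exists_kummerTower_isKum_of H
  exact ⟨κ, h1, h2, h3, h4⟩

end Tower

end Fermat.Agent.S30.H450

end
end
-- ===== PACK-END S30/H450/KumTower.lean

-- ===== PACK-BEGIN Ribet/H868/TameChart.lean
section





/-!
# RIBET rows 37/38, TAME package: purity of the calibrated Kummer generator on a chart (helper868)

`B` a semistable chart (`A2.SSChart`, components `p₁`, `p₂`) with a unit pair `D₁ · D₂ = w ^ N`,
`D₁ ∉ p₁`, `D₂ ∉ p₂`, `N > 0` prime to `m`; `f ∈ Fˣ` with `m ∣ div f` on the generic fibre of the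
chart, `v₁`, `v₂` its valuations along the two components.  Then the calibrated function

  `G = f ^ N · D₁ ^ (v₁ - v₂) · w ^ (- N v₁)`

is a unit on both components and PURE (`A2.Alg.PureAt`) at EVERY point of the special fibre of the
chart:

* at a crossing point: `tame_node` (tame node relation + node purity) in the node ring `B_n`
  (`H132.exists_isNode_locAt`);
* at a smooth point: `H644.exists_pureAt_smooth_of_unitAt` (purity from (H1) alone).

`exists_pureAt_tame_core` : core form (any noetherian normal domain `B`);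
`pureAt_tame`             : `A2.Alg` vocabulary (`ChartCtx`, `SSChart`, `PureAt`).
-/

set_option autoImplicit false
set_option linter.unusedSectionVars false
set_option linter.style.haveILetI false
set_option maxHeartbeats 1000000

namespace Fermat.Agent.Ribet.H868

open IsLocalRing Fermat.Agent.Ribet.H704 Fermat.Agent.A2 Fermat.Agent.A2.Alg.H132
open Fermat.Agent.A2.H849 Fermat.Agent.A2.H609

section Calib

variable {B : Type*} [CommRing B] {F : Type*} [Field F] [Algebra B F]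

/-- The calibrated function. -/
noncomputable def calib (w D₁ : B) (N : ℕ) (v₁ v₂ : ℤ) (f : F) : F :=
  f ^ N * (algebraMap B F D₁) ^ (v₁ - v₂) * (algebraMap B F w) ^ (-(N : ℤ) * v₁)

end Calib

section Core

variable {B : Type} [CommRing B] [IsDomain B] [IsNoetherianRing B] [IsIntegrallyClosed B]
variable {F : Type} [Field F] [Algebra B F] [IsFractionRing B F]

theorem calib_ne_zero {w D₁ : B} (hw : w ≠ 0) (hD₁ : D₁ ≠ 0) (N : ℕ) (v₁ v₂ : ℤ) {f : F}
    (hf : f ≠ 0) : calib w D₁ N v₁ v₂ f ≠ 0 := by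
  have hinj : Function.Injective (algebraMap B F) := IsFractionRing.injective B F
  have h1 : algebraMap B F D₁ ≠ 0 := fun h => hD₁ (hinj (by rw [h, map_zero]))
  have h2 : algebraMap B F w ≠ 0 := fun h => hw (hinj (by rw [h, map_zero]))
  exact mul_ne_zero (mul_ne_zero (pow_ne_zero _ hf) (zpow_ne_zero _ h1)) (zpow_ne_zero _ h2)

/-- The calibrated function is a unit on the first component. -/
theorem valAt_calib₁ {w : B} {p₁ p₂ : Ideal B} (h : VertData w p₁ p₂) {N : ℕ} {D₁ : B}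
    (hD₁ : D₁ ∉ p₁) {f : F} {v₁ : ℤ} (hv₁ : I6.ValAt F p₁ w f v₁) (v₂ : ℤ) :
    I6.ValAt F p₁ w (calib w D₁ N v₁ v₂ f) 0 := by
  have := H132.valAt_mul h (H132.valAt_mul h (H132.valAt_pow h hv₁ N)
    (valAt_zpow868 h (H132.valAt_of_notMem (K := F) h hD₁) (v₁ - v₂)))
    (valAt_zpow868 h (H132.valAt_pi (K := F) h) (-(N : ℤ) * v₁))
  have e : (N : ℤ) * v₁ + (v₁ - v₂) * 0 + -(N : ℤ) * v₁ * 1 = 0 := by ring
  rwa [e] at this

/-- The calibrated function is a unit on the second component. -/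
theorem valAt_calib₂ {w : B} {p₁ p₂ : Ideal B} (h : VertData w p₂ p₁) {N : ℕ} {D₁ D₂ : B}
    (hDD : D₁ * D₂ = w ^ N) (hD₂ : D₂ ∉ p₂) {f : F} (v₁ : ℤ) {v₂ : ℤ}
    (hv₂ : I6.ValAt F p₂ w f v₂) :
    I6.ValAt F p₂ w (calib w D₁ N v₁ v₂ f) 0 := by
  have h1 : (1 : B) ∉ p₂ := fun h1 => h.prime.ne_top ((Ideal.eq_top_iff_one _).2 h1)
  have hDDK : algebraMap B F D₁ * algebraMap B F D₂ = (algebraMap B F w) ^ (N : ℤ) *
      algebraMap B F 1 := by
    rw [← map_mul, hDD, map_pow, map_one, mul_one, zpow_natCast]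
  have hD₁v₂ : I6.ValAt F p₂ w (algebraMap B F D₁) N := ⟨1, D₂, h1, hD₂, hDDK⟩
  have := H132.valAt_mul h (H132.valAt_mul h (H132.valAt_pow h hv₂ N)
    (valAt_zpow868 h hD₁v₂ (v₁ - v₂)))
    (valAt_zpow868 h (H132.valAt_pi (K := F) h) (-(N : ℤ) * v₁))
  have e : (N : ℤ) * v₂ + (v₁ - v₂) * N + -(N : ℤ) * v₁ * 1 = 0 := by ring
  rwa [e] at this

/-- Horizontal divisibility of the calibrated function. -/
theorem hdiv_calib {w : B} (hw : w ≠ 0) {m N : ℕ} (_hN : 0 < N) {D₁ D₂ : B}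
    (hDD : D₁ * D₂ = w ^ N) {f : F}
    (hdiv : ∀ V : ValuationSubring F, IsDiscreteValuationRing V →
      (∀ b : B, algebraMap B F b ∈ V) → (algebraMap B F w)⁻¹ ∈ V →
      ∃ h u₀ : F, u₀ ∈ V ∧ u₀⁻¹ ∈ V ∧ f = u₀ * h ^ m) (v₁ v₂ : ℤ) :
    ∀ V : ValuationSubring F, IsDiscreteValuationRing V →
      (∀ b : B, algebraMap B F b ∈ V) → (algebraMap B F w)⁻¹ ∈ V →
      ∃ h u₀ : F, u₀ ∈ V ∧ u₀⁻¹ ∈ V ∧ calib w D₁ N v₁ v₂ f = u₀ * h ^ m := by
  have hinj : Function.Injective (algebraMap B F) := IsFractionRing.injective B F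
  have hwK : algebraMap B F w ≠ 0 := fun h => hw (hinj (by rw [h, map_zero]))
  have key : I6.HorDivVal F w m (calib w D₁ N v₁ v₂ f) := by
    refine horDivVal_calibrate868 (fun V hV hR hπ => ?_) ?_ ?_ N _ _
    · obtain ⟨h, u₀, h1, h2, h3⟩ := hdiv V hV hR hπ
      exact ⟨h, u₀, h1, h2, h3⟩
    · intro V _ hR hπ
      refine ⟨hR D₁, ?_⟩
      have h2 : algebraMap B F D₁ * algebraMap B F D₂ = (algebraMap B F w) ^ N := by
        rw [← map_mul, hDD, map_pow]
      have hD₁K : algebraMap B F D₁ ≠ 0 := by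
        intro h0
        rw [h0, zero_mul] at h2
        exact pow_ne_zero N hwK h2.symm
      have hD₂K : algebraMap B F D₂ ≠ 0 := by
        intro h0
        rw [h0, mul_zero] at h2
        exact pow_ne_zero N hwK h2.symm
      have e : (algebraMap B F D₁)⁻¹ = algebraMap B F D₂ * ((algebraMap B F w)⁻¹) ^ N := by
        rw [inv_pow, ← h2]
        field_simp
      rw [e]
      exact V.mul_mem _ _ (hR D₂) (pow_mem hπ N)
    · intro V _ hR hπ
      exact ⟨hR w, hπ⟩
  intro V hV hR hπ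
  obtain ⟨h, u₀, h1, h2, h3⟩ := key V hV hR hπ
  exact ⟨h, u₀, h1, h2, h3⟩

/-- **Purity of the calibrated function at a crossing point.** -/
theorem exists_pureAt_tame_node {w : B} {m N : ℕ} (hm : m ≠ 0) (hN : 0 < N)
    (hcop : Nat.Coprime N m)
    (p₁ p₂ n : Ideal B) [p₁.IsPrime] [p₂.IsPrime] [n.IsPrime]
    [IsDedekindDomain (B ⧸ p₁)] [IsDedekindDomain (B ⧸ p₂)]
    (hinf : p₁ ⊓ p₂ = Ideal.span {w}) (h₁₂ : ¬ p₁ ≤ p₂) (h₂₁ : ¬ p₂ ≤ p₁)
    (htr : (p₁ ⊔ p₂).IsRadical) (h₁ : p₁ ≤ n) (h₂ : p₂ ≤ n)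
    (D₁ D₂ : B) (hDD : D₁ * D₂ = w ^ N) (hD₁ : D₁ ∉ p₁) (hD₂ : D₂ ∉ p₂)
    (f : F) (hf : f ≠ 0)
    (hdiv : ∀ V : ValuationSubring F, IsDiscreteValuationRing V →
      (∀ b : B, algebraMap B F b ∈ V) → (algebraMap B F w)⁻¹ ∈ V →
      ∃ h u₀ : F, u₀ ∈ V ∧ u₀⁻¹ ∈ V ∧ f = u₀ * h ^ m)
    (v₁ v₂ : ℤ) (hv₁ : I6.ValAt F p₁ w f v₁) (hv₂ : I6.ValAt F p₂ w f v₂) :
    ∃ d : F, d ≠ 0 ∧
      (∃ a b : B, a ∉ n ∧ b ∉ n ∧
        calib w D₁ N v₁ v₂ f * d ^ m * algebraMap B F b = algebraMap B F a) ∧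
      (∃ a b : B, a ∉ p₁ ∧ b ∉ p₁ ∧ d * algebraMap B F b = algebraMap B F a) ∧
      (∃ a b : B, a ∉ p₂ ∧ b ∉ p₂ ∧ d * algebraMap B F b = algebraMap B F a) := by
  obtain ⟨x, y, -, -, -, -, hnode⟩ :=
    H132.exists_isNode_locAt (F := F) p₁ p₂ n hinf h₁₂ h₂₁ htr h₁ h₂
  -- the unit pair in the node ring
  have hUP : I6.IsUnitPair (p₁.map (algebraMap B (locAt F n)))
      (p₂.map (algebraMap B (locAt F n))) (algebraMap B (locAt F n) w)
      (algebraMap B (locAt F n) D₁) (algebraMap B (locAt F n) D₂) N :=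
    { mul_eq := by rw [← map_mul, hDD, map_pow]
      hD := fun h => hD₁ ((algebraMap_mem_map_iff h₁ D₁).1 h)
      hD' := fun h => hD₂ ((algebraMap_mem_map_iff h₂ D₂).1 h) }
  -- horizontal divisibility in the node ring
  have hdiv' : I6.HorDivVal F (algebraMap B (locAt F n) w) m f := by
    intro V hV hR hπ
    obtain ⟨h, u₀, hu₀, hu₀', hfh⟩ := hdiv V hV
      (fun b => hR (algebraMap B (locAt F n) b)) hπ
    exact ⟨h, u₀, hu₀, hu₀', hfh⟩
  -- branch valuations in the node ring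
  have hv₁' : I6.ValAt F (p₁.map (algebraMap B (locAt F n))) (algebraMap B (locAt F n) w)
      f v₁ := by
    obtain ⟨a, b, ha, hb, hab⟩ := hv₁
    exact ⟨algebraMap B (locAt F n) a, algebraMap B (locAt F n) b,
      fun h => ha ((algebraMap_mem_map_iff h₁ a).1 h),
      fun h => hb ((algebraMap_mem_map_iff h₁ b).1 h), hab⟩
  have hv₂' : I6.ValAt F (p₂.map (algebraMap B (locAt F n))) (algebraMap B (locAt F n) w)
      f v₂ := by
    obtain ⟨a, b, ha, hb, hab⟩ := hv₂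
    exact ⟨algebraMap B (locAt F n) a, algebraMap B (locAt F n) b,
      fun h => ha ((algebraMap_mem_map_iff h₂ a).1 h),
      fun h => hb ((algebraMap_mem_map_iff h₂ b).1 h), hab⟩
  obtain ⟨d, ε, hd0, hdε, hd₁, hd₂⟩ := tame_node hnode hN hUP hm hcop hf hdiv' hv₁' hv₂'
  refine ⟨d, hd0, ?_, ?_, ?_⟩
  · obtain ⟨a', s', ha', hs', h'⟩ := exists_frac_of_isUnit_locAt (F := F) n ε.isUnit
    refine ⟨a', s', ha', hs', ?_⟩
    rw [← h']
    congr 1
  · obtain ⟨a, b, ha, hb, hab⟩ := hd₁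
    obtain ⟨φ, s, hφ, hs, h'⟩ := exists_frac_of_notMem_map (F := F) (p := p₁) (n := n) ha
    obtain ⟨ψ, t, hψ, ht, h''⟩ := exists_frac_of_notMem_map (F := F) (p := p₁) (n := n) hb
    have hinj : Function.Injective (algebraMap B F) := IsFractionRing.injective B F
    have hsF : algebraMap B F s ≠ 0 := fun h0 =>
      hs (by rw [hinj (by rw [h0, map_zero] : algebraMap B F s = algebraMap B F 0)]
             exact n.zero_mem)
    have htF : algebraMap B F t ≠ 0 := fun h0 =>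
      ht (by rw [hinj (by rw [h0, map_zero] : algebraMap B F t = algebraMap B F 0)]
             exact n.zero_mem)
    refine ⟨φ * t, ψ * s, ?_, ?_, ?_⟩
    · intro h
      rcases Ideal.IsPrime.mem_or_mem inferInstance h with h3 | h3
      · exact hφ h3
      · exact ht (h₁ h3)
    · intro h
      rcases Ideal.IsPrime.mem_or_mem inferInstance h with h3 | h3
      · exact hψ h3
      · exact hs (h₁ h3)
    · have hab' : d * (b : F) = (a : F) := by
        have := hab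
        simpa using this
      rw [map_mul, map_mul, ← h', ← h'']
      linear_combination (algebraMap B F t * algebraMap B F s) * hab'
  · obtain ⟨a, b, ha, hb, hab⟩ := hd₂
    obtain ⟨φ, s, hφ, hs, h'⟩ := exists_frac_of_notMem_map (F := F) (p := p₂) (n := n) ha
    obtain ⟨ψ, t, hψ, ht, h''⟩ := exists_frac_of_notMem_map (F := F) (p := p₂) (n := n) hb
    refine ⟨φ * t, ψ * s, ?_, ?_, ?_⟩
    · intro h
      rcases Ideal.IsPrime.mem_or_mem inferInstance h with h3 | h3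
      · exact hφ h3
      · exact ht (h₂ h3)
    · intro h
      rcases Ideal.IsPrime.mem_or_mem inferInstance h with h3 | h3
      · exact hψ h3
      · exact hs (h₂ h3)
    · have hab' : d * (b : F) = (a : F) := by
        have := hab
        simpa using this
      rw [map_mul, map_mul, ← h', ← h'']
      linear_combination (algebraMap B F t * algebraMap B F s) * hab'

/-- **Purity of the calibrated function at every point of the special fibre** (core form). -/
theorem exists_pureAt_tame_core {w : B} {m N : ℕ} (hm : m ≠ 0) (hN : 0 < N)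
    (hcop : Nat.Coprime N m)
    (p₁ p₂ n : Ideal B) [p₁.IsPrime] [p₂.IsPrime] [n.IsPrime]
    [IsDedekindDomain (B ⧸ p₁)] [IsDedekindDomain (B ⧸ p₂)]
    (hinf : p₁ ⊓ p₂ = Ideal.span {w}) (h₁₂ : ¬ p₁ ≤ p₂) (h₂₁ : ¬ p₂ ≤ p₁)
    (htr : (p₁ ⊔ p₂).IsRadical) (hwn : w ∈ n)
    (D₁ D₂ : B) (hDD : D₁ * D₂ = w ^ N) (hD₁ : D₁ ∉ p₁) (hD₂ : D₂ ∉ p₂)
    (f : F) (hf : f ≠ 0)
    (hdiv : ∀ V : ValuationSubring F, IsDiscreteValuationRing V →
      (∀ b : B, algebraMap B F b ∈ V) → (algebraMap B F w)⁻¹ ∈ V →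
      ∃ h u₀ : F, u₀ ∈ V ∧ u₀⁻¹ ∈ V ∧ f = u₀ * h ^ m)
    (v₁ v₂ : ℤ) (hv₁ : I6.ValAt F p₁ w f v₁) (hv₂ : I6.ValAt F p₂ w f v₂) :
    ∃ d : F, d ≠ 0 ∧
      (∃ a b : B, a ∉ n ∧ b ∉ n ∧
        calib w D₁ N v₁ v₂ f * d ^ m * algebraMap B F b = algebraMap B F a) ∧
      (∃ a b : B, a ∉ p₁ ∧ b ∉ p₁ ∧ d * algebraMap B F b = algebraMap B F a) ∧
      (∃ a b : B, a ∉ p₂ ∧ b ∉ p₂ ∧ d * algebraMap B F b = algebraMap B F a) := by
  have hw0 : w ≠ 0 := Fermat.Agent.A2.H609.ne_zero_of_inf_eq_span p₁ p₂ hinf h₁₂ h₂₁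
  have hV₁ : VertData w p₁ p₂ := ⟨inferInstance, hw0, h₂₁, hinf⟩
  have hV₂ : VertData w p₂ p₁ := ⟨inferInstance, hw0, h₁₂, by rw [inf_comm]; exact hinf⟩
  have hG₁ := valAt_calib₁ (N := N) hV₁ hD₁ hv₁ v₂
  have hG₂ := valAt_calib₂ hV₂ hDD hD₂ v₁ hv₂
  have hU₁ : UnitAt p₁ (calib w D₁ N v₁ v₂ f) := by
    obtain ⟨a, b, ha, hb, hab⟩ := hG₁
    exact ⟨a, b, ha, hb, by rw [hab, zpow_zero, one_mul]⟩
  have hU₂ : UnitAt p₂ (calib w D₁ N v₁ v₂ f) := by
    obtain ⟨a, b, ha, hb, hab⟩ := hG₂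
    exact ⟨a, b, ha, hb, by rw [hab, zpow_zero, one_mul]⟩
  have hGdiv := hdiv_calib hw0 hN hDD hdiv v₁ v₂
  have h1 : (1 : B) ∉ p₁ := fun h1 =>
    (inferInstance : p₁.IsPrime).ne_top ((Ideal.eq_top_iff_one _).2 h1)
  have h1' : (1 : B) ∉ p₂ := fun h1 =>
    (inferInstance : p₂.IsPrime).ne_top ((Ideal.eq_top_iff_one _).2 h1)
  have hone₁ : ∃ a b : B, a ∉ p₁ ∧ b ∉ p₁ ∧ (1 : F) * algebraMap B F b = algebraMap B F a :=
    ⟨1, 1, h1, h1, by simp⟩
  have hone₂ : ∃ a b : B, a ∉ p₂ ∧ b ∉ p₂ ∧ (1 : F) * algebraMap B F b = algebraMap B F a :=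
    ⟨1, 1, h1', h1', by simp⟩
  have hor : p₁ ≤ n ∨ p₂ ≤ n := by
    have hle : p₁ * p₂ ≤ n := by
      refine le_trans Ideal.mul_le_inf ?_
      rw [hinf, Ideal.span_le, Set.singleton_subset_iff]
      exact hwn
    exact (Ideal.IsPrime.mul_le inferInstance).1 hle
  by_cases hboth : p₁ ≤ n ∧ p₂ ≤ n
  · exact exists_pureAt_tame_node hm hN hcop p₁ p₂ n hinf h₁₂ h₂₁ htr hboth.1 hboth.2 D₁ D₂ hDD
      hD₁ hD₂ f hf hdiv v₁ v₂ hv₁ hv₂
  rcases hor with h | h
  · have h2 : ¬ p₂ ≤ n := fun h' => hboth ⟨h, h'⟩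
    by_cases hne : p₁ = n
    · refine ⟨1, one_ne_zero, ?_, hone₁, hone₂⟩
      obtain ⟨a, b, ha, hb, hab⟩ := hU₁
      exact ⟨a, b, hne ▸ ha, hne ▸ hb, by rw [one_pow, mul_one, hab]⟩
    · exact Fermat.Agent.Ribet.H644.exists_pureAt_smooth_of_unitAt (B := B) (F := F) hm p₁ p₂ n
        hinf h₁₂ h₂₁ h hne h2 _ hGdiv hU₁
  · have h2 : ¬ p₁ ≤ n := fun h' => hboth ⟨h', h⟩
    by_cases hne : p₂ = n
    · refine ⟨1, one_ne_zero, ?_, hone₁, hone₂⟩
      obtain ⟨a, b, ha, hb, hab⟩ := hU₂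
      exact ⟨a, b, hne ▸ ha, hne ▸ hb, by rw [one_pow, mul_one, hab]⟩
    · obtain ⟨d, hd, hdn, hd₂', hd₁'⟩ :=
        Fermat.Agent.Ribet.H644.exists_pureAt_smooth_of_unitAt (B := B) (F := F) hm p₂ p₁ n
          (by rw [inf_comm]; exact hinf) h₂₁ h₁₂ h hne h2 _ hGdiv hU₂
      exact ⟨d, hd, hdn, hd₁', hd₂'⟩

end Core

section AlgChart

open Fermat.Agent.A2.Alg Fermat.Agent.A2.Alg.H609

variable {R E F : Type} [CommRing R] [IsDomain R] [IsDiscreteValuationRing R]
  [Field E] [CharZero E] [Algebra R E] [IsFractionRing R E]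
  [Field F] [Algebra E F] [Algebra R F] [IsScalarTower R E F]

/-- **TAME purity on a chart** (`A2.Alg` vocabulary): the calibrated Kummer generator is pure at
every point of the special fibre of a semistable chart carrying a unit pair of exponent `N`
prime to `m`. -/
theorem pureAt_tame (m N : ℕ) (hm : 0 < m) (hN : 0 < N) (hcop : Nat.Coprime N m)
    (w : R) (x : F) (B : Subalgebra R F) (hB : ChartCtx E w x B) (c : SSChart w B)
    (D₁ D₂ : B) (hDD : D₁ * D₂ = (algebraMap R B w) ^ N) (hD₁ : D₁ ∉ c.p₁) (hD₂ : D₂ ∉ c.p₂)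
    (f : F) (hf : f ≠ 0) (hdiv : DivisibleDiv E m f)
    (v₁ v₂ : ℤ) (hv₁ : I6.ValAt F c.p₁ (algebraMap R B w) f v₁)
    (hv₂ : I6.ValAt F c.p₂ (algebraMap R B w) f v₂)
    (n : Ideal B) (hn : n.IsPrime) (hwn : algebraMap R B w ∈ n) :
    PureAt B c m (calib (algebraMap R B w) D₁ N v₁ v₂ f) n := by
  obtain ⟨hnoeth, hic, hfrac⟩ := H34.chart_instances' w x B hB
  have hp₁ : c.p₁.IsPrime := c.prime₁
  have hp₂ : c.p₂.IsPrime := c.prime₂
  have hn₁ : IsIntegrallyClosed (B ⧸ c.p₁) := c.normal₁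
  have hn₂ : IsIntegrallyClosed (B ⧸ c.p₂) := c.normal₂
  have hw : algebraMap R B w ∈ c.p₁ ⊓ c.p₂ := by
    rw [c.inf_eq]
    exact Ideal.mem_span_singleton_self _
  have hd₁ : IsDedekindDomain (B ⧸ c.p₁) := isDedekindDomain_quotient_chart w x B hB c.p₁ hw.1
  have hd₂ : IsDedekindDomain (B ⧸ c.p₂) := isDedekindDomain_quotient_chart w x B hB c.p₂ hw.2
  exact exists_pureAt_tame_core (B := B) (F := F) hm.ne' hN hcop c.p₁ c.p₂ n c.inf_eq
    c.not_le₁₂ c.not_le₂₁ c.transversal hwn D₁ D₂ hDD hD₁ hD₂ f hf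
    (Fermat.Agent.A2.Alg.H609.hdiv_of_divisibleDiv w hB.hw B m f hdiv) v₁ v₂ hv₁ hv₂

/-- The calibrated function is a unit on both components. -/
theorem locUnit_calib (N : ℕ)
    (w : R) (x : F) (B : Subalgebra R F) (hB : ChartCtx E w x B) (c : SSChart w B)
    (D₁ D₂ : B) (hDD : D₁ * D₂ = (algebraMap R B w) ^ N) (hD₁ : D₁ ∉ c.p₁) (hD₂ : D₂ ∉ c.p₂)
    (f : F) (v₁ v₂ : ℤ) (hv₁ : I6.ValAt F c.p₁ (algebraMap R B w) f v₁)
    (hv₂ : I6.ValAt F c.p₂ (algebraMap R B w) f v₂) :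
    LocUnit B c.p₁ (calib (algebraMap R B w) D₁ N v₁ v₂ f) ∧
      LocUnit B c.p₂ (calib (algebraMap R B w) D₁ N v₁ v₂ f) := by
  obtain ⟨hnoeth, hic, hfrac⟩ := H34.chart_instances' w x B hB
  have hp₁ : c.p₁.IsPrime := c.prime₁
  have hp₂ : c.p₂.IsPrime := c.prime₂
  have hw0 : algebraMap R B w ≠ 0 :=
    Fermat.Agent.A2.H609.ne_zero_of_inf_eq_span c.p₁ c.p₂ c.inf_eq c.not_le₁₂ c.not_le₂₁
  have hV₁ : VertData (algebraMap R B w) c.p₁ c.p₂ := ⟨c.prime₁, hw0, c.not_le₂₁, c.inf_eq⟩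
  have hV₂ : VertData (algebraMap R B w) c.p₂ c.p₁ :=
    ⟨c.prime₂, hw0, c.not_le₁₂, by rw [inf_comm]; exact c.inf_eq⟩
  constructor
  · obtain ⟨a, b, ha, hb, hab⟩ := valAt_calib₁ (F := F) (N := N) hV₁ hD₁ hv₁ v₂
    exact ⟨a, b, ha, hb, by rw [show (b : F) = algebraMap B F b from rfl, hab, zpow_zero, one_mul]; rfl⟩
  · obtain ⟨a, b, ha, hb, hab⟩ := valAt_calib₂ (F := F) hV₂ hDD hD₂ v₁ hv₂
    exact ⟨a, b, ha, hb, by rw [show (b : F) = algebraMap B F b from rfl, hab, zpow_zero, one_mul]; rfl⟩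

/-- Branch valuations exist on a chart. -/
theorem exists_valAt_chart
    (w : R) (x : F) (B : Subalgebra R F) (hB : ChartCtx E w x B) (c : SSChart w B)
    (f : F) (hf : f ≠ 0) :
    ∃ v₁ v₂ : ℤ, I6.ValAt F c.p₁ (algebraMap R B w) f v₁ ∧
      I6.ValAt F c.p₂ (algebraMap R B w) f v₂ := by
  obtain ⟨hnoeth, hic, hfrac⟩ := H34.chart_instances' w x B hB
  have hp₁ : c.p₁.IsPrime := c.prime₁
  have hp₂ : c.p₂.IsPrime := c.prime₂
  have hw0 : algebraMap R B w ≠ 0 :=
    Fermat.Agent.A2.H609.ne_zero_of_inf_eq_span c.p₁ c.p₂ c.inf_eq c.not_le₁₂ c.not_le₂₁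
  have hV₁ : VertData (algebraMap R B w) c.p₁ c.p₂ := ⟨c.prime₁, hw0, c.not_le₂₁, c.inf_eq⟩
  have hV₂ : VertData (algebraMap R B w) c.p₂ c.p₁ :=
    ⟨c.prime₂, hw0, c.not_le₁₂, by rw [inf_comm]; exact c.inf_eq⟩
  obtain ⟨v₁, h₁⟩ := H132.exists_valAt (K := F) hV₁ hf
  obtain ⟨v₂, h₂⟩ := H132.exists_valAt (K := F) hV₂ hf
  exact ⟨v₁, v₂, h₁, h₂⟩

end AlgChart

end Fermat.Agent.Ribet.H868

end
-- ===== PACK-END Ribet/H868/TameChart.lean

-- ===== PACK-BEGIN S36/H438/Unit.lean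
section










/-!
# S36 / leaf MU (= UNIT): the modular unit `u = Δ(t^q)/Δ(t)` in the language of A2/MOD  (helper438)

Level `N`, `q ∣ N` (`N = q * M'`), `E ⊆ Q̄` any intermediate field, `P` any valuation subring of `Q̄`.

* `uE E N q hqN : FE E N`, `uE' E N q hqN : FE E N` : the elements of `F_{N,E}` with `t`-expansions
  `Δ(t^q)/Δ(t)` and `Δ(t)/Δ(t^q)` (images of the INTEGRAL series `S28.unitL ℤ q`, `S28.H589.unitL' q`);
  `uE_mul_uE' : u * u' = 1`.
* `uE_mem_vinf`, `uE'_mem_vinf` : both lie in the Gauss valuation ring `V∞` (`IsVinf`), i.e. `u` is a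
  unit of `V∞`  (`V₁(u) = 0`).
* `coe_fricke_uE` : for every Fricke involution `W` of level `N = q * M'` (`IsFricke`),
  `W u = q⁻¹² · u'(t^{M'})`, and `W u' = q¹² · u(t^{M'})`.
* `qpow_mul_uE_mem_vzero`, `inv_qpow_mul_uE_mem_vzero` : `q¹² u` is a unit of `V₀ = V∞.comap W`
  (`V₂(u) = -12 v(q)`).
* `qpow_mul_uE_mem_of_x_mem`, `uE'_mem_of_x_mem` : `D = q¹² u` and `D' = u'` lie in every valuation
  subring of `F_N` containing `x = j · j_q`; `qpow_mul_uE_mem_chart`, `uE'_mem_chart` : they lie in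
  the finite chart `chartAlg P E (M * q) (xE E M q)`;  `D · D' = q¹²`  (the unit pair).
* `castK_unitL_eq_pow` : in characteristic `q`, `Δ(t^q)/Δ(t) = Δ(t)^(q-1)`.
-/

set_option autoImplicit false
set_option synthInstance.maxHeartbeats 400000
set_option maxHeartbeats 1600000

noncomputable section

namespace Fermat.Agent.S36.H438

open ModularCurve HahnSeries Polynomial
open Fermat.Agent.A2.Mod Fermat.Agent.S28

/-! ## 1. The integral series -/

section Series

variable (q : ℕ) [NeZero q]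

/-- `Δ(t^q)/Δ(t) · Δ(t)/Δ(t^q) = 1` over `ℤ`. -/
theorem unitL_mul_unitL' : unitL ℤ q * H589.unitL' q = 1 := by
  have h1 : deltaL ℤ * deltaInvL ℤ = 1 := h88_deltaL_mul_deltaInvL ℤ
  have h2 : qExpand ℤ q (deltaL ℤ) * qExpand ℤ q (deltaInvL ℤ) = 1 := by
    rw [← map_mul, h1, map_one]
  calc unitL ℤ q * H589.unitL' q
      = (qExpand ℤ q (deltaL ℤ) * qExpand ℤ q (deltaInvL ℤ)) * (deltaL ℤ * deltaInvL ℤ) := by
        rw [unitL, H589.unitL']; ring
    _ = 1 := by rw [h1, h2, mul_one]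

/-- In characteristic `q` (coefficients in `ZMod q`): `Δ(t^q)/Δ(t) = Δ(t)^(q-1)`. -/
theorem unitL_zmod_eq_pow [hq : Fact q.Prime] :
    unitL (ZMod q) q = deltaL (ZMod q) ^ (q - 1) := by
  have h1 : deltaL (ZMod q) * deltaInvL (ZMod q) = 1 := h88_deltaL_mul_deltaInvL (ZMod q)
  have hq1 : deltaL (ZMod q) ^ q = deltaL (ZMod q) ^ (q - 1) * deltaL (ZMod q) := by
    rw [← pow_succ, Nat.sub_add_cancel hq.out.one_le]
  rw [unitL, Fermat.Agent.A2.H528.qExpand_eq_pow_zmod, hq1, mul_assoc, h1, mul_one]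

/-- In characteristic `q`, any coefficient ring `k`: `Δ(t^q)/Δ(t) = Δ(t)^(q-1)`. -/
theorem castK_unitL_eq_pow [hq : Fact q.Prime] (k : Type*) [CommRing k] [CharP k q] :
    coeffMap (Int.castRingHom k) (unitL ℤ q) = deltaL k ^ (q - 1) := by
  have h := congrArg (coeffMap (ZMod.castHom (dvd_refl q) k)) (unitL_zmod_eq_pow q)
  rw [h88_coeffMap_unitL, map_pow, h88_coeffMap_deltaL] at h
  rw [h88_coeffMap_unitL]
  exact h

end Series

/-! ## 2. The elements `u`, `u'` of `F_{N,E}` -/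

section Elements

variable (E : IntermediateField ℚ Qb)

/-- The coefficient map `ℤ((t)) → E((t))`. -/
abbrev castE : LaurentSeries ℤ →+* LaurentSeries E := coeffMap (Int.castRingHom E)

theorem castE_eq_coeffEmb (X : LaurentSeries ℤ) :
    castE E X = coeffEmb E (coeffMap (Int.castRingHom ℚ) X) := by
  rw [coeffEmb, coeffMap_coeffMap]
  exact coeffMap_congr (Subsingleton.elim _ _) X

theorem coeffMap_castE (X : LaurentSeries ℤ) :
    coeffMap (algebraMap E Qb) (castE E X) = coeffMap (Int.castRingHom Qb) X := by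
  rw [castE, coeffMap_coeffMap]
  exact coeffMap_congr (Subsingleton.elim _ _) X

theorem castE_mul_castE' (q : ℕ) [NeZero q] :
    castE E (unitL ℤ q) * castE E (H589.unitL' q) = 1 := by
  rw [← map_mul, unitL_mul_unitL', map_one]

theorem castE_unitL_ne_zero (q : ℕ) [NeZero q] : castE E (unitL ℤ q) ≠ 0 := by
  intro h
  have := castE_mul_castE' E q
  rw [h, zero_mul] at this
  exact zero_ne_one this

theorem castE_unitL'_eq_inv (q : ℕ) [NeZero q] :
    castE E (H589.unitL' q) = (castE E (unitL ℤ q))⁻¹ :=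
  eq_inv_of_mul_eq_one_right (castE_mul_castE' E q)

theorem laurentBaseChange_mono_h438 (L : Type*) [Field L] [Algebra ℚ L]
    {F₀ F₁ : IntermediateField ℚ (LaurentSeries ℚ)} (h : F₀ ≤ F₁) :
    laurentBaseChange L F₀ ≤ laurentBaseChange L F₁ :=
  IntermediateField.adjoin.mono L _ _ (Set.image_mono h)

/-- `Δ(t^q)/Δ(t)` over `Q̄` lies in the function field of level `q`. -/
theorem unitL_bar_mem (q : ℕ) [NeZero q] :
    unitL Qb q ∈ laurentBaseChange Qb (modularFunctionFieldFull q) := by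
  have h : Fermat.Agent.S15.H422.uSer q ∈ laurentBaseChange Qb (modularFunctionFieldFull q) :=
    Fermat.Agent.S15.H422.uSer_mem q
  rw [Fermat.Agent.S15.H422.uSer_eq_unitL] at h
  have hc : ((q : LaurentSeries Qb) ^ 12) ∈ laurentBaseChange Qb (modularFunctionFieldFull q) :=
    pow_mem (natCast_mem _ q) 12
  have hc0 : ((q : LaurentSeries Qb) ^ 12) ≠ 0 := by
    refine pow_ne_zero _ ?_
    rw [← map_natCast (algebraMap Qb (LaurentSeries Qb))]
    exact (map_ne_zero_iff _ (algebraMap Qb (LaurentSeries Qb)).injective).mpr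
      (Nat.cast_ne_zero.mpr (NeZero.ne q))
  have h2 := mul_mem (inv_mem hc) h
  rwa [← mul_assoc, inv_mul_cancel₀ hc0, one_mul] at h2

/-- `Δ(t^q)/Δ(t)` over `E` lies in the function field of level `q`. -/
theorem castE_unitL_mem_level (q : ℕ) [NeZero q] : castE E (unitL ℤ q) ∈ FE E q := by
  refine Fermat.Agent.S29.H882.mem_laurentBaseChange_of_coeffMap_mem (algebraMap E Qb)
    (modularFunctionFieldFull q) ?_
  rw [coeffMap_castE, h88_coeffMap_unitL]
  exact unitL_bar_mem q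

/-- `Δ(t^q)/Δ(t)` over `E` lies in the function field of every level `N` divisible by `q`. -/
theorem castE_unitL_mem (N q : ℕ) [NeZero N] [NeZero q] (hqN : q ∣ N) :
    castE E (unitL ℤ q) ∈ FE E N :=
  laurentBaseChange_mono_h438 E (full_degeneracy_le hqN) (castE_unitL_mem_level E q)

theorem castE_unitL'_mem (N q : ℕ) [NeZero N] [NeZero q] (hqN : q ∣ N) :
    castE E (H589.unitL' q) ∈ FE E N := by
  rw [castE_unitL'_eq_inv]
  exact inv_mem (castE_unitL_mem E N q hqN)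

/-- **The modular unit** `u = Δ(t^q)/Δ(t)` as an element of `F_{N,E}`, `q ∣ N`. -/
def uE (N q : ℕ) [NeZero N] [NeZero q] (hqN : q ∣ N) : FE E N :=
  ⟨castE E (unitL ℤ q), castE_unitL_mem E N q hqN⟩

/-- **The inverse modular unit** `u' = Δ(t)/Δ(t^q)` as an element of `F_{N,E}`, `q ∣ N`. -/
def uE' (N q : ℕ) [NeZero N] [NeZero q] (hqN : q ∣ N) : FE E N :=
  ⟨castE E (H589.unitL' q), castE_unitL'_mem E N q hqN⟩

variable (N q : ℕ) [NeZero N] [NeZero q] (hqN : q ∣ N)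

@[simp] theorem coe_uE : ((uE E N q hqN : FE E N) : LaurentSeries E) = castE E (unitL ℤ q) := rfl

@[simp] theorem coe_uE' :
    ((uE' E N q hqN : FE E N) : LaurentSeries E) = castE E (H589.unitL' q) := rfl

theorem uE_mul_uE' : uE E N q hqN * uE' E N q hqN = 1 :=
  Subtype.ext (castE_mul_castE' E q)

theorem uE_ne_zero : uE E N q hqN ≠ 0 := fun h =>
  castE_unitL_ne_zero E q (congrArg Subtype.val h)

theorem uE'_eq_inv : uE' E N q hqN = (uE E N q hqN)⁻¹ :=
  eq_inv_of_mul_eq_one_right (uE_mul_uE' E N q hqN)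

theorem uE_inv : (uE E N q hqN)⁻¹ = uE' E N q hqN := (uE'_eq_inv E N q hqN).symm

end Elements

/-! ## 3. `u` is a unit of the Gauss valuation ring `V∞` -/

section Gauss

variable (P : ValuationSubring Qb) (E : IntermediateField ℚ Qb)

/-- The image in `E((t))` of an integral series is Gauss-integral (any level). -/
theorem isGaussInt_castE (F₀ : IntermediateField ℚ (LaurentSeries ℚ)) (X : LaurentSeries ℤ) :
    Fermat.Agent.A2.H708.IsGaussInt (RE P E) F₀ (castE E X) := by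
  have h := Fermat.Agent.A2.H708.IsGaussInt.of_incl (A := RE P E) (F₀ := F₀)
    (Fermat.Agent.A2.H708.castA (RE P E) X)
  rwa [Fermat.Agent.A2.H708.incl_castA, ← castE_eq_coeffEmb] at h

/-- An element of `F_{N,E}` whose `t`-expansion has integral coefficients lies in `V∞`. -/
theorem mem_vinf_of_coe_eq_castE {N : ℕ} {V : ValuationSubring (FE E N)}
    (hV : IsVinf P E N V) {f : FE E N} {X : LaurentSeries ℤ}
    (hf : (f : LaurentSeries E) = castE E X) : f ∈ V := by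
  rw [hV f, hf]
  exact isGaussInt_castE P E _ X

variable (N q : ℕ) [NeZero N] [NeZero q] (hqN : q ∣ N)

theorem uE_mem_vinf {V : ValuationSubring (FE E N)} (hV : IsVinf P E N V) :
    uE E N q hqN ∈ V :=
  mem_vinf_of_coe_eq_castE P E hV (coe_uE E N q hqN)

theorem uE'_mem_vinf {V : ValuationSubring (FE E N)} (hV : IsVinf P E N V) :
    uE' E N q hqN ∈ V :=
  mem_vinf_of_coe_eq_castE P E hV (coe_uE' E N q hqN)

/-- **MU (1)**: `u` is a unit of `V∞`. -/
theorem uE_unit_vinf {V : ValuationSubring (FE E N)} (hV : IsVinf P E N V) :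
    uE E N q hqN ∈ V ∧ (uE E N q hqN)⁻¹ ∈ V :=
  ⟨uE_mem_vinf P E N q hqN hV, by rw [uE_inv]; exact uE'_mem_vinf P E N q hqN hV⟩

end Gauss

/-! ## 4. The Fricke involution: `W u = q⁻¹² · u'(t^{M'})` -/

section Fricke

open Fermat.Agent.A2.Mod.H751 Fermat.Agent.S24 Fermat.Agent.A2.H528

variable (E : IntermediateField ℚ Qb) (q : ℕ) [NeZero q]

theorem castBar_mul_castBar' :
    coeffMap (Int.castRingHom Qb) (unitL ℤ q) * coeffMap (Int.castRingHom Qb) (H589.unitL' q)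
      = 1 := by
  rw [← map_mul, unitL_mul_unitL', map_one]

/-- `S15.H422.gSer q = Δ(t)/Δ(t^q)` is the image of the integral series `unitL' q`. -/
theorem gSer_eq_castBar :
    Fermat.Agent.S15.H422.gSer q = coeffMap (Int.castRingHom Qb) (H589.unitL' q) := by
  have h1 := Fermat.Agent.S15.H422.uSer_mul_gSer q
  rw [Fermat.Agent.S15.H422.uSer_eq_unitL] at h1
  have hC : (HahnSeries.C ((q : Kbar) ^ 12) : LaurentSeries Kbar)
      = (q : LaurentSeries Kbar) ^ 12 := by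
    rw [map_pow, map_natCast]
  rw [hC] at h1
  have hc0 : ((q : LaurentSeries Qb) ^ 12) ≠ 0 := by
    refine pow_ne_zero _ ?_
    rw [← map_natCast (algebraMap Qb (LaurentSeries Qb))]
    exact (map_ne_zero_iff _ (algebraMap Qb (LaurentSeries Qb)).injective).mpr
      (Nat.cast_ne_zero.mpr (NeZero.ne q))
  have h2 : unitL Kbar q * Fermat.Agent.S15.H422.gSer q = 1 := by
    apply mul_left_cancel₀ hc0
    rw [← mul_assoc, h1, mul_one]
  have h3 := castBar_mul_castBar' q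
  rw [h88_coeffMap_unitL] at h3
  have hu0 : unitL Kbar q ≠ 0 := by
    intro h
    rw [h, zero_mul] at h2
    exact zero_ne_one h2
  exact mul_left_cancel₀ hu0 (h2.trans h3.symm)

/-- `ι u = q⁻¹² · uF` at level `q`. -/
theorem iotaE_uE_level :
    iotaE E q (uE E q q dvd_rfl)
      = (algebraMap Kbar (FF q) ((q : Kbar) ^ 12))⁻¹ * Fermat.Agent.S15.H422.uF q := by
  have hc0 : algebraMap Kbar (FF q) ((q : Kbar) ^ 12) ≠ 0 :=
    (map_ne_zero_iff _ (algebraMap Kbar (FF q)).injective).mpr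
      (pow_ne_zero _ (Nat.cast_ne_zero.mpr (NeZero.ne q)))
  rw [eq_inv_mul_iff_mul_eq₀ hc0]
  apply Subtype.ext
  show algebraMap Kbar (LaurentSeries Kbar) ((q : Kbar) ^ 12)
      * coeffMap (algebraMap E Qb) (castE E (unitL ℤ q)) = Fermat.Agent.S15.H422.uSer q
  rw [coeffMap_castE, h88_coeffMap_unitL, Fermat.Agent.S15.H422.uSer_eq_unitL, map_pow,
    map_natCast]

/-- `ι u' = gF` at level `q`. -/
theorem iotaE_uE'_level :
    iotaE E q (uE' E q q dvd_rfl) = Fermat.Agent.S15.H422.gF q := by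
  apply Subtype.ext
  show coeffMap (algebraMap E Qb) (castE E (H589.unitL' q)) = Fermat.Agent.S15.H422.gSer q
  rw [coeffMap_castE, gSer_eq_castBar]

/-- **Level `q`**: `W_q u = q⁻¹² u'`. -/
theorem frickeE_uE_level :
    frickeE E q (uE E q q dvd_rfl)
      = algebraMap E (FE E q) ((q : E) ^ 12)⁻¹ * uE' E q q dvd_rfl := by
  apply iotaE_injective E q
  rw [iotaE_frickeE, iotaE_uE_level, map_mul, map_inv₀, AlgEquiv.commutes,
    Fermat.Agent.S15.H422.wF_uF, map_mul, iotaE_uE'_level, iotaE_algebraMap]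
  congr 1
  rw [← map_inv₀]
  congr 1

variable (M' : ℕ) [NeZero M']

theorem alpha_uE_level :
    αE E q M' (uE E q q dvd_rfl) = uE E (q * M') q (dvd_mul_right q M') :=
  Subtype.ext (coe_heckeAlphaBar q M' _)

theorem alpha_uE'_level :
    αE E q M' (uE' E q q dvd_rfl) = uE' E (q * M') q (dvd_mul_right q M') :=
  Subtype.ext (coe_heckeAlphaBar q M' _)

/-- `u'(t^{M'})` as an element of `F_{qM',E}`. -/
def uEβ' : FE E (q * M') := βE E q M' (uE' E q q dvd_rfl)

/-- `u(t^{M'})` as an element of `F_{qM',E}`. -/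
def uEβ : FE E (q * M') := βE E q M' (uE E q q dvd_rfl)

theorem coe_uEβ' :
    ((uEβ' E q M' : FE E (q * M')) : LaurentSeries E)
      = castE E (qExpand ℤ M' (H589.unitL' q)) := by
  show ((βE E q M' (uE' E q q dvd_rfl) : FE E (q * M')) : LaurentSeries E) = _
  rw [coe_heckeBetaBar, coe_uE', castE, coeffMap_qExpand]

theorem coe_uEβ :
    ((uEβ E q M' : FE E (q * M')) : LaurentSeries E)
      = castE E (qExpand ℤ M' (unitL ℤ q)) := by
  show ((βE E q M' (uE E q q dvd_rfl) : FE E (q * M')) : LaurentSeries E) = _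
  rw [coe_heckeBetaBar, coe_uE, castE, coeffMap_qExpand]

theorem uEβ_mul_uEβ' : uEβ E q M' * uEβ' E q M' = 1 := by
  rw [uEβ, uEβ', ← map_mul, uE_mul_uE', map_one]

theorem uEβ'_inv : (uEβ' E q M')⁻¹ = uEβ E q M' :=
  (eq_inv_of_mul_eq_one_left (uEβ_mul_uEβ' E q M')).symm

/-- **MU (2), level `q * M'`**: `W u = q⁻¹² · u'(t^{M'})` for every Fricke involution `W`. -/
theorem fricke_uE (W : FE E (q * M') ≃ₐ[E] FE E (q * M')) (hW : IsFricke E (q * M') W) :
    W (uE E (q * M') q (dvd_mul_right q M'))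
      = algebraMap E (FE E (q * M')) ((q : E) ^ 12)⁻¹ * uEβ' E q M' := by
  have h := (frickeCompat E q M' (frickeE E q) W (isFricke_frickeE E q) hW
    (uE E q q dvd_rfl)).1
  rw [alpha_uE_level] at h
  rw [h, frickeE_uE_level, map_mul, AlgHom.commutes]
  rfl

/-- `W (q¹² u) = u'(t^{M'})`. -/
theorem fricke_qpow_mul_uE (W : FE E (q * M') ≃ₐ[E] FE E (q * M'))
    (hW : IsFricke E (q * M') W) :
    W (algebraMap E (FE E (q * M')) ((q : E) ^ 12) * uE E (q * M') q (dvd_mul_right q M'))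
      = uEβ' E q M' := by
  have hc0 : ((q : E) ^ 12) ≠ 0 := pow_ne_zero _ (Nat.cast_ne_zero.mpr (NeZero.ne q))
  rw [map_mul, AlgEquiv.commutes, fricke_uE E q M' W hW, ← mul_assoc, ← map_mul,
    mul_inv_cancel₀ hc0, map_one, one_mul]

end Fricke

section Vzero

variable (P : ValuationSubring Qb) (E : IntermediateField ℚ Qb) (q : ℕ) [NeZero q]
  (M' : ℕ) [NeZero M']

/-- **MU (2')**: `q¹² u` is a unit of `V₀ = V∞.comap W`  (`V₂(u) = -12 v(q)`), level `q * M'`. -/
theorem qpow_mul_uE_unit_vzero {V : ValuationSubring (FE E (q * M'))}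
    (W : FE E (q * M') ≃ₐ[E] FE E (q * M')) (hV : IsVinf P E (q * M') V)
    (hW : IsFricke E (q * M') W) :
    algebraMap E (FE E (q * M')) ((q : E) ^ 12) * uE E (q * M') q (dvd_mul_right q M')
        ∈ V.comap (W : FE E (q * M') →+* FE E (q * M')) ∧
      (algebraMap E (FE E (q * M')) ((q : E) ^ 12) * uE E (q * M') q (dvd_mul_right q M'))⁻¹
        ∈ V.comap (W : FE E (q * M') →+* FE E (q * M')) := by
  constructor
  · show W _ ∈ V
    rw [fricke_qpow_mul_uE E q M' W hW]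
    exact mem_vinf_of_coe_eq_castE P E hV (coe_uEβ' E q M')
  · show W _ ∈ V
    rw [map_inv₀, fricke_qpow_mul_uE E q M' W hW, uEβ'_inv]
    exact mem_vinf_of_coe_eq_castE P E hV (coe_uEβ E q M')

end Vzero

/-! ## 5. Horizontal part: the unit pair `D = q¹² u`, `D' = u'`, `D · D' = q¹²` -/

section Horizontal

open Fermat.Agent.A2.Mod.H873

open Fermat.Agent.S28.H589 in
/-- The unit polynomial `Ψ ∈ ℤ[Y][X]` (helper589), keeping BOTH vanishing relations:
`q¹² Δ(t^q)/Δ(t)` is integral over `ℤ[j]` and `Δ(t)/Δ(t^q)` is integral over `ℤ[j(t^q)]`. -/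
theorem exists_unitPoly_both (p : ℕ) [NeZero p] (hp : p.Prime) :
    ∃ Ψ : Polynomial (Polynomial ℤ), Ψ.Monic ∧
      Ψ.eval₂ (evalAt (jqModC ℤ)) ((p : LaurentSeries ℤ) ^ 12 * unitL ℤ p) = 0 ∧
      Ψ.eval₂ (evalAt (qExpand ℤ p (jqModC ℤ))) (unitL' p) = 0 := by
  obtain ⟨W, hWm, hWd, h1, h2⟩ := exists_unitPoly_complex p hp
  obtain ⟨m, hm⟩ := exists_order_unitSeriesC' p
  have hord : (unitL' p).order = 1 - p * m := by
    rw [← order_iotaC, iotaC_unit', hm]
  have hf0 : unitL' p ≠ 0 := by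
    intro h
    apply unitSeriesC'_ne_zero p
    rw [← iotaC_unit', h, map_zero]
  have hcop : IsCoprime (unitL' p).order (p : ℤ) := by
    rw [hord]
    exact ⟨1, m, by ring⟩
  have hne : unitL' p ≠ qExpand ℤ p ((p : LaurentSeries ℤ) ^ 12 * unitL ℤ p) := by
    intro h
    have h3 := congrArg iotaC h
    rw [iotaC_unit', iotaC, coeffMap_qExpand] at h3
    obtain ⟨k, hk⟩ := Fermat.Agent.S28.H145.dvd_order_qExpand (k := ℂ) p
      (coeffMap (Int.castRingHom ℂ) ((p : LaurentSeries ℤ) ^ 12 * unitL ℤ p))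
    rw [← h3, hm] at hk
    have hp2 : (2 : ℤ) ≤ p := by exact_mod_cast hp.two_le
    have hdvd : (p : ℤ) ∣ 1 := ⟨k + m, by linarith⟩
    have := Int.le_of_dvd one_pos hdvd
    omega
  obtain ⟨Ψ, hΨm, -, hΨ1, hΨ2⟩ := descent p W hWm (p + 1) hWd rfl
    ((p : LaurentSeries ℤ) ^ 12 * unitL ℤ p) (unitL' p) hf0 hcop hne
    (by rw [iotaC_unit]; exact h1)
    (by rw [iotaC_unit']; exact h2)
  exact ⟨Ψ, hΨm, hΨ1, hΨ2⟩

variable (E : IntermediateField ℚ Qb) (N q : ℕ) [NeZero N] [NeZero q] (hqN : q ∣ N)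

/-- `D = q¹² u`. -/
def dE : FE E N := algebraMap E (FE E N) ((q : E) ^ 12) * uE E N q hqN

theorem coe_dE :
    ((dE E N q hqN : FE E N) : LaurentSeries E)
      = castE E ((q : LaurentSeries ℤ) ^ 12 * unitL ℤ q) := by
  show algebraMap E (LaurentSeries E) ((q : E) ^ 12) * castE E (unitL ℤ q) = _
  rw [map_mul, map_pow, map_pow, map_natCast, map_natCast]

/-- **The unit pair**: `D · D' = q¹²`. -/
theorem dE_mul_uE' :
    dE E N q hqN * uE' E N q hqN = algebraMap E (FE E N) ((q : E) ^ 12) := by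
  rw [dE, mul_assoc, uE_mul_uE', mul_one]

theorem dE_ne_zero : dE E N q hqN ≠ 0 :=
  mul_ne_zero ((map_ne_zero_iff _ (algebraMap E (FE E N)).injective).mpr
    (pow_ne_zero _ (Nat.cast_ne_zero.mpr (NeZero.ne q)))) (uE_ne_zero E N q hqN)

/-- The two integrality relations in `F_{N,E}`: `Ψ(D; j) = 0` and `Ψ(D'; j_q) = 0`, `Ψ` monic. -/
theorem exists_unitPoly_FE (hq : q.Prime) :
    ∃ Ψ : Polynomial (Polynomial ℤ), Ψ.Monic ∧
      Ψ.eval₂ (Polynomial.aeval (R := ℤ) (jE E N 1 (one_dvd N))).toRingHom (dE E N q hqN) = 0 ∧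
      Ψ.eval₂ (Polynomial.aeval (R := ℤ) (jE E N q hqN)).toRingHom (uE' E N q hqN) = 0 := by
  obtain ⟨Ψ, hΨ, h1, h2⟩ := exists_unitPoly_both q hq
  refine ⟨Ψ, hΨ, ?_, ?_⟩
  · exact eval₂_eq_zero_of_int E N Ψ _ _ _ _ (coe_dE E N q hqN) (coe_jE_one E N) h1
  · exact eval₂_eq_zero_of_int E N Ψ _ _ _ _ (coe_uE' E N q hqN) (coe_jE_int E N q hqN) h2

/-- **MU (3a)**: `D = q¹² u` lies in every valuation subring containing `j`. -/
theorem dE_mem_of_j_mem (hq : q.Prime) (V : ValuationSubring (FE E N))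
    (hj : jE E N 1 (one_dvd N) ∈ V) : dE E N q hqN ∈ V := by
  obtain ⟨Ψ, hΨ, h1, -⟩ := exists_unitPoly_FE E N q hqN hq
  exact mem_valuationSubring_of_monic_eval Ψ hΨ h1 V hj

/-- **MU (3b)**: `D' = u'` lies in every valuation subring containing `j_q`. -/
theorem uE'_mem_of_jq_mem (hq : q.Prime) (V : ValuationSubring (FE E N))
    (hjq : jE E N q hqN ∈ V) : uE' E N q hqN ∈ V := by
  obtain ⟨Ψ, hΨ, -, h2⟩ := exists_unitPoly_FE E N q hqN hq
  exact mem_valuationSubring_of_monic_eval Ψ hΨ h2 V hjq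

/-- `j ∈ V ↔ j_q ∈ V` for every valuation subring `V` of `F_N` (modular equation). -/
theorem j_mem_iff_jq_mem (hq : q.Prime) (V : ValuationSubring (FE E N)) :
    jE E N 1 (one_dvd N) ∈ V ↔ jE E N q hqN ∈ V := by
  obtain ⟨D⟩ := Fermat.Agent.S28.H807.nonempty_modPolyData q hq
  have hj : D.Φ.eval₂ (Polynomial.aeval (R := ℤ) (jE E N q hqN)).toRingHom
      (jE E N 1 (one_dvd _)) = 0 :=
    eval₂_eq_zero_of_int E N D.Φ _ _ _ _ (coe_jE_one E N) (coe_jE_int E N q hqN) D.eval_j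
  have hjq : D.Φ.eval₂ (Polynomial.aeval (R := ℤ) (jE E N 1 (one_dvd _))).toRingHom
      (jE E N q hqN) = 0 :=
    eval₂_eq_zero_of_int E N D.Φ _ _ _ _ (coe_jE_int E N q hqN) (coe_jE_one E N) D.eval_jp
  exact ⟨fun h => mem_valuationSubring_of_monic_eval D.Φ D.monic hjq V h,
    fun h => mem_valuationSubring_of_monic_eval D.Φ D.monic hj V h⟩

/-- **MU (3)**: at a place `V ⊇ E` of `F_N` where `j` is finite, `u` is a unit
(no zeros or poles of `u` outside the cusps). -/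
theorem uE_unit_of_j_mem (hq : q.Prime) (V : ValuationSubring (FE E N))
    (hE : ∀ e : E, algebraMap E (FE E N) e ∈ V) (hj : jE E N 1 (one_dvd N) ∈ V) :
    uE E N q hqN ∈ V ∧ (uE E N q hqN)⁻¹ ∈ V := by
  have hc0 : ((q : E) ^ 12) ≠ 0 := pow_ne_zero _ (Nat.cast_ne_zero.mpr (NeZero.ne q))
  refine ⟨?_, ?_⟩
  · have h1 := V.mul_mem _ _ (hE ((q : E) ^ 12)⁻¹) (dE_mem_of_j_mem E N q hqN hq V hj)
    rwa [dE, ← mul_assoc, ← map_mul, inv_mul_cancel₀ hc0, map_one, one_mul] at h1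
  · rw [uE_inv]
    exact uE'_mem_of_jq_mem E N q hqN hq V ((j_mem_iff_jq_mem E N q hqN hq V).mp hj)

end Horizontal

section Chart

open Fermat.Agent.A2.Mod.H873

variable (P : ValuationSubring Qb) (E : IntermediateField ℚ Qb) (M q : ℕ) [NeZero M] [NeZero q]

/-- A valuation subring of `F_{Mq}` containing `x = j · j_q` contains `j` and `j_q`. -/
theorem j_mem_of_x_mem (hq : q.Prime) (V : ValuationSubring (FE E (M * q)))
    (hx : xE E M q ∈ V) :
    jE E (M * q) 1 (one_dvd _) ∈ V ∧ jE E (M * q) q (dvd_mul_left q M) ∈ V := by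
  have hiff := j_mem_iff_jq_mem E (M * q) q (dvd_mul_left q M) hq V
  by_cases hj : jE E (M * q) 1 (one_dvd _) ∈ V
  · exact ⟨hj, hiff.mp hj⟩
  · exfalso
    have hinv : (jE E (M * q) 1 (one_dvd _))⁻¹ ∈ V := (V.mem_or_inv_mem _).resolve_left hj
    have hj0 : jE E (M * q) 1 (one_dvd _) ≠ 0 := jE_ne_zero E (M * q) 1 (one_dvd _)
    have hjq : jE E (M * q) q (dvd_mul_left q M) ∈ V := by
      have h := V.mul_mem _ _ hinv hx
      rwa [xE, ← mul_assoc, inv_mul_cancel₀ hj0, one_mul] at h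
    exact hj (hiff.mpr hjq)

/-- **MU (3c)**: `D = q¹² u` lies in the finite chart of the coordinate `x = j · j_q`. -/
theorem dE_mem_chartAlg (hq : q.Prime) :
    dE E (M * q) q (dvd_mul_left q M) ∈ chartAlg P E (M * q) (xE E M q) := by
  rw [← Fermat.Agent.A2.Mod.H142.mem_chart_iff]
  refine isIntegralElem_of_isIntegral_closure _
    (isIntegral_closure_of_forall_valuationSubring fun V hx => ?_)
  exact dE_mem_of_j_mem E (M * q) q _ hq V (j_mem_of_x_mem E M q hq V hx).1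

/-- **MU (3d)**: `D' = u'` lies in the finite chart of the coordinate `x = j · j_q`. -/
theorem uE'_mem_chartAlg (hq : q.Prime) :
    uE' E (M * q) q (dvd_mul_left q M) ∈ chartAlg P E (M * q) (xE E M q) := by
  rw [← Fermat.Agent.A2.Mod.H142.mem_chart_iff]
  refine isIntegralElem_of_isIntegral_closure _
    (isIntegral_closure_of_forall_valuationSubring fun V hx => ?_)
  exact uE'_mem_of_jq_mem E (M * q) q _ hq V (j_mem_of_x_mem E M q hq V hx).2

end Chart

/-! ## 6. General level `N = q * M'` (e.g. `N = M * q`), and the packaged statement -/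

section Package

variable (P : ValuationSubring Qb) (E : IntermediateField ℚ Qb)

/-- **MU (2'), any level `N = q * M'`**: `D = q¹² u` is a unit of `V₀ = V∞.comap W`. -/
theorem dE_unit_vzero (N q M' : ℕ) [NeZero N] [NeZero q] [NeZero M'] (hN : N = q * M')
    (hqN : q ∣ N) {V : ValuationSubring (FE E N)} (W : FE E N ≃ₐ[E] FE E N)
    (hV : IsVinf P E N V) (hW : IsFricke E N W) :
    dE E N q hqN ∈ V.comap (W : FE E N →+* FE E N) ∧
      (dE E N q hqN)⁻¹ ∈ V.comap (W : FE E N →+* FE E N) := by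
  subst hN
  exact qpow_mul_uE_unit_vzero P E q M' W hV hW

/-- `W D = u'(t^{M'})` in `t`-expansions, any level `N = q * M'`. -/
theorem coe_fricke_dE (N q M' : ℕ) [NeZero N] [NeZero q] [NeZero M'] (hN : N = q * M')
    (hqN : q ∣ N) (W : FE E N ≃ₐ[E] FE E N) (hW : IsFricke E N W) :
    ((W (dE E N q hqN) : FE E N) : LaurentSeries E)
      = castE E (qExpand ℤ M' (H589.unitL' q)) := by
  subst hN
  have h := fricke_qpow_mul_uE E q M' W hW
  rw [← coe_uEβ' E q M', ← h]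
  rfl

/-- **MU (1'), the pair at `V∞`**: `D' = u'` is a unit of `V∞`, and `D = q¹² u ∈ V∞`. -/
theorem uE'_unit_vinf (N q : ℕ) [NeZero N] [NeZero q] (hqN : q ∣ N)
    {V : ValuationSubring (FE E N)} (hV : IsVinf P E N V) :
    uE' E N q hqN ∈ V ∧ (uE' E N q hqN)⁻¹ ∈ V := by
  refine ⟨uE'_mem_vinf P E N q hqN hV, ?_⟩
  rw [uE'_eq_inv, inv_inv]
  exact uE_mem_vinf P E N q hqN hV

/-- **Leaf MU, packaged at level `M * q`** (`q` prime; `q ∤ M` is NOT needed):
the unit pair `D = q¹² Δ(t^q)/Δ(t)`, `D' = Δ(t)/Δ(t^q)` of the finite chart `B = chartAlg x`,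
`x = j · j_q`:  `D · D' = q¹²`, `D' ∈ (V∞)ˣ`, `D ∈ (V₀)ˣ` for `V₀ = V∞.comap W`, and at every
place `V ⊇ E` of `F_{Mq}` with `j ∈ V` both are units (no horizontal zeros in the finite chart). -/
theorem mu_package (M q : ℕ) [NeZero M] [NeZero q] (hq : q.Prime) :
    ∃ D D' : FE E (M * q),
      (D : LaurentSeries E) = castE E ((q : LaurentSeries ℤ) ^ 12 * unitL ℤ q) ∧
      (D' : LaurentSeries E) = castE E (H589.unitL' q) ∧
      D * D' = algebraMap E (FE E (M * q)) ((q : E) ^ 12) ∧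
      D ∈ chartAlg P E (M * q) (xE E M q) ∧
      D' ∈ chartAlg P E (M * q) (xE E M q) ∧
      (∀ V : ValuationSubring (FE E (M * q)), IsVinf P E (M * q) V → D' ∈ V ∧ D'⁻¹ ∈ V) ∧
      (∀ (V : ValuationSubring (FE E (M * q))) (W : FE E (M * q) ≃ₐ[E] FE E (M * q)),
        IsVinf P E (M * q) V → IsFricke E (M * q) W →
          D ∈ V.comap (W : FE E (M * q) →+* FE E (M * q)) ∧
          D⁻¹ ∈ V.comap (W : FE E (M * q) →+* FE E (M * q))) ∧
      (∀ V : ValuationSubring (FE E (M * q)), (∀ e : E, algebraMap E (FE E (M * q)) e ∈ V) →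
        jE E (M * q) 1 (one_dvd _) ∈ V → (D ∈ V ∧ D⁻¹ ∈ V) ∧ (D' ∈ V ∧ D'⁻¹ ∈ V)) := by
  have hqN : q ∣ M * q := dvd_mul_left q M
  have hc0 : ((q : E) ^ 12) ≠ 0 := pow_ne_zero _ (Nat.cast_ne_zero.mpr (NeZero.ne q))
  refine ⟨dE E (M * q) q hqN, uE' E (M * q) q hqN, coe_dE E (M * q) q hqN,
    coe_uE' E (M * q) q hqN, dE_mul_uE' E (M * q) q hqN, dE_mem_chartAlg P E M q hq,
    uE'_mem_chartAlg P E M q hq, fun V hV => uE'_unit_vinf P E (M * q) q hqN hV,
    fun V W hV hW => dE_unit_vzero P E (M * q) q M (Nat.mul_comm M q) hqN W hV hW,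
    fun V hE hj => ?_⟩
  obtain ⟨hu, hu'⟩ := uE_unit_of_j_mem E (M * q) q hqN hq V hE hj
  rw [uE_inv] at hu'
  refine ⟨⟨dE_mem_of_j_mem E (M * q) q hqN hq V hj, ?_⟩, ⟨hu', ?_⟩⟩
  · rw [dE, mul_inv, uE_inv, ← map_inv₀]
    exact V.mul_mem _ _ (hE _) hu'
  · rw [uE'_eq_inv, inv_inv]
    exact hu

end Package

/-! ## 7. Reduction: `ū = Δ̄^(q-1)` in characteristic `q` -/

section Reduction

variable (P : ValuationSubring Qb) (E : IntermediateField ℚ Qb) (q : ℕ) [NeZero q]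

/-- The reduction of the integral series `Δ(t^q)/Δ(t)` modulo the maximal ideal of `R_E`
is `Δ̄(t)^(q-1)`, when the residue field has characteristic `q`. -/
theorem red_unitL_eq_pow [Fact q.Prime] [CharP (IsLocalRing.ResidueField (RE P E)) q] :
    Fermat.Agent.A2.H708.red (RE P E) (Fermat.Agent.A2.H708.castA (RE P E) (unitL ℤ q))
      = deltaL (IsLocalRing.ResidueField (RE P E)) ^ (q - 1) := by
  rw [← castK_unitL_eq_pow q (IsLocalRing.ResidueField (RE P E))]
  show coeffMap _ (coeffMap _ (unitL ℤ q)) = _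
  rw [coeffMap_coeffMap]
  exact coeffMap_congr (Subsingleton.elim _ _) _

end Reduction

end Fermat.Agent.S36.H438

end

end
-- ===== PACK-END S36/H438/Unit.lean

-- ===== PACK-BEGIN Ribet/H873/UnitPair.lean
section



/-!
# RIBET wall-p, I6 instantiation leaf INST-B (helper873): the modular unit pair in the charts of
# `A2/Mod`, normalised for `I6.IsUnitPair`

Setting of `A2/Mod/Spec.lean`: level `N = M q`, `F_{N,E} = FE E N`, `x = j j_q`,
`B = chartAlg P E N x` (integral closure of `R_E[x]`), `V∞` (`IsVinf`), `W` (`IsFricke`),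
`V₀ = V∞.comap W`, `p₁ = B ∩ w V∞`, `p₂ = B ∩ w V₀` (`A2.Mod.IsCut`).

The modular input is helper438's `S36.H438.mu_package` (on main):
`Δ(t)/Δ(t^q)` and `q¹² Δ(t^q)/Δ(t)` lie in `B`, the first is a unit of `V∞`, the second a unit of
`V₀`.  Here:

* `unitPair873`            : `D, D' ∈ B`, `D D' = q¹²`, `D ∉ w V∞`, `D' ∉ w V₀`;
* `exists_unitPair873`     : normalised, `D D' = w ^ (12 e)` where `q ε = w ^ e` in `R_E`
                             (`ε` a unit, `e ≥ 1` the ramification index);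
* `exists_unitPair_cut873` : the same with `D ∉ p₁`, `D' ∉ p₂` (input of
                             `H873.isUnitPair_locAt873`, `H873.hasNodeUnitPair_of_chart873`).
-/

set_option autoImplicit false
set_option synthInstance.maxHeartbeats 400000
set_option maxHeartbeats 1600000
set_option linter.unusedSectionVars false

noncomputable section

namespace Fermat.Agent.Ribet.H873

open ModularCurve HahnSeries
open Fermat.Agent.A2.Mod

variable {P : ValuationSubring Qb} {E : IntermediateField ℚ Qb}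

/-- `w⁻¹ ∉ V∞`. -/
theorem cE_inv_not_mem873 {N : ℕ} (hdvr : IsDiscreteValuationRing (RE P E)) {w : RE P E}
    (hw : Irreducible w) {V : ValuationSubring (FE E N)} (hV : IsVinf P E N V) :
    (cE P E N w)⁻¹ ∉ V := by
  haveI := hdvr
  intro h2
  have hw0 : (w : E) ≠ 0 := fun h0 => hw.ne_zero (Subtype.ext h0)
  have h3 : (cE P E N w)⁻¹ = algebraMap E (FE E N) ((w : E)⁻¹) := by
    rw [cE, map_inv₀]
  rw [h3] at h2
  have h4 : (w : E)⁻¹ ∈ RE P E :=
    (Fermat.Agent.A2.Mod.H708.algebraMap_mem_iff_of_isVinf hV _).mp h2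
  refine hw.not_isUnit (IsUnit.of_mul_eq_one (⟨(w : E)⁻¹, h4⟩ : RE P E) ?_)
  exact Subtype.ext (mul_inv_cancel₀ hw0)

/-- `w⁻¹ ∉ V₀ = V∞ ∘ W`. -/
theorem cE_inv_not_mem_comap873 {N : ℕ} (hdvr : IsDiscreteValuationRing (RE P E)) {w : RE P E}
    (hw : Irreducible w) {V : ValuationSubring (FE E N)} (hV : IsVinf P E N V)
    (W : FE E N ≃ₐ[E] FE E N) : (cE P E N w)⁻¹ ∉ V.comap (W : FE E N →+* FE E N) := by
  intro h
  have h1 : W ((cE P E N w)⁻¹) ∈ V := h
  rw [map_inv₀, cE, AlgEquiv.commutes] at h1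
  exact cE_inv_not_mem873 hdvr hw hV h1

/-- a unit of a valuation ring `V'` not containing `w⁻¹` does not lie in `w V'`. -/
theorem not_inW_of_inv_mem873 {N : ℕ} {w : RE P E} {V' : ValuationSubring (FE E N)}
    (hw : (cE P E N w)⁻¹ ∉ V') {f : FE E N} (hf0 : f ≠ 0) (hf : f⁻¹ ∈ V') :
    ¬ InW P E N V' w f := by
  intro h
  apply hw
  have h1 : (cE P E N w)⁻¹ = f⁻¹ * (f * (cE P E N w)⁻¹) := by
    rw [← mul_assoc, inv_mul_cancel₀ hf0, one_mul]
  rw [h1]
  exact V'.mul_mem _ _ hf h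

variable {M q : ℕ} [NeZero M] [NeZero q]

/-- **INST-B, modular form.**  In the setting of `A2/Mod` (level `Mq`, `q` prime, `R_E` a DVR with
uniformiser `w`) there are `D, D'` in the chart `B = chartAlg x` of the coordinate `x = j j_q`
with `D D' = q¹²`, `D ∉ w V∞` and `D' ∉ w V₀` (`V₀ = V∞ ∘ W`):
`D = Δ(t)/Δ(t^q)`, `D' = q¹² Δ(t^q)/Δ(t)`. -/
theorem unitPair873 {w : RE P E} (hS : Setting P E M q w)
    {V : ValuationSubring (FE E (M * q))} {W : FE E (M * q) ≃ₐ[E] FE E (M * q)}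
    (hV : IsVinf P E (M * q) V) (hW : IsFricke E (M * q) W) :
    ∃ D D' : FE E (M * q),
      D ∈ chartAlg P E (M * q) (xE E M q) ∧ D' ∈ chartAlg P E (M * q) (xE E M q) ∧
      D * D' = cE P E (M * q) ((q : RE P E) ^ 12) ∧
      ¬ InW P E (M * q) V w D ∧
      ¬ InW P E (M * q) (V.comap (W : FE E (M * q) →+* FE E (M * q))) w D' := by
  obtain ⟨D', D, -, -, hmul, hD', hD, hVu, hV0u, -⟩ :=
    Fermat.Agent.S36.H438.mu_package P E M q hS.q_prime
  have hc0 : algebraMap E (FE E (M * q)) ((q : E) ^ 12) ≠ 0 := by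
    rw [Ne, map_eq_zero]
    exact pow_ne_zero 12 (Nat.cast_ne_zero.mpr (NeZero.ne q))
  have hD0 : D ≠ 0 := by
    rintro rfl
    rw [mul_zero] at hmul
    exact hc0 hmul.symm
  have hD'0 : D' ≠ 0 := by
    rintro rfl
    rw [zero_mul] at hmul
    exact hc0 hmul.symm
  refine ⟨D, D', hD, hD', ?_, ?_, ?_⟩
  · rw [mul_comm D D', hmul, cE]
    congr 1
  · exact not_inW_of_inv_mem873 (cE_inv_not_mem873 hS.dvr hS.unif hV) hD0 (hVu V hV).2
  · exact not_inW_of_inv_mem873 (cE_inv_not_mem_comap873 hS.dvr hS.unif hV W) hD'0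
      (hV0u V W hV hW).2

/-- `q` is not a unit of `R_E`. -/
theorem not_isUnit_natCast873 (hP : P.LiesOverPrime q) : ¬ IsUnit ((q : ℕ) : RE P E) := by
  intro hu
  obtain ⟨d, hd⟩ := hu.exists_right_inv
  have h1 : (q : Qb) * ((d : E) : Qb) = 1 := by
    have h2 := congrArg (fun r : RE P E => (((r : RE P E) : E) : Qb)) hd
    simpa using h2
  have hdP : ((d : E) : Qb) ∈ P := d.2
  have h3 : P.valuation (q : Qb) < 1 := (ValuationSubring.mem_nonunits_iff (A := P)).mp hP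
  have h4 : P.valuation ((d : E) : Qb) ≤ 1 := (P.valuation_le_one_iff _).mpr hdP
  have h5 := congrArg P.valuation h1
  rw [map_mul, map_one] at h5
  have h6 : P.valuation (q : Qb) * P.valuation ((d : E) : Qb) < 1 := by
    calc P.valuation (q : Qb) * P.valuation ((d : E) : Qb)
        ≤ P.valuation (q : Qb) * 1 := mul_le_mul_right h4 _
      _ = P.valuation (q : Qb) := mul_one _
      _ < 1 := h3
  rw [h5] at h6
  exact lt_irrefl _ h6

/-- **INST-B, normalised.**  With `q ε = w ^ e` in `R_E` (`ε` a unit, `e ≥ 1` the ramification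
index): elements `D, D'` of the chart `B` with `D · D' = w ^ (12 e)`, `D ∉ w V∞`, `D' ∉ w V₀`. -/
theorem exists_unitPair873 {w : RE P E} (hS : Setting P E M q w)
    {V : ValuationSubring (FE E (M * q))} {W : FE E (M * q) ≃ₐ[E] FE E (M * q)}
    (hV : IsVinf P E (M * q) V) (hW : IsFricke E (M * q) W) :
    ∃ (e : ℕ) (D D' : chartAlg P E (M * q) (xE E M q)), 0 < e ∧
      Associated ((q : ℕ) : RE P E) (w ^ e) ∧
      D * D' = algebraMap (RE P E) (chartAlg P E (M * q) (xE E M q)) w ^ (12 * e) ∧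
      ¬ InW P E (M * q) V w (D : FE E (M * q)) ∧
      ¬ InW P E (M * q) (V.comap (W : FE E (M * q) →+* FE E (M * q))) w
        (D' : FE E (M * q)) := by
  haveI := hS.dvr
  obtain ⟨D₀, D₀', hD, hD', hmul, hDV, hD'V⟩ := unitPair873 hS hV hW
  have hq0 : ((q : ℕ) : RE P E) ≠ 0 := Nat.cast_ne_zero.mpr (NeZero.ne q)
  obtain ⟨e, he⟩ := IsDiscreteValuationRing.associated_pow_irreducible hq0 hS.unif
  have he0 : 0 < e := by
    rcases Nat.eq_zero_or_pos e with h0 | h0
    · exfalso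
      rw [h0, pow_zero] at he
      exact not_isUnit_natCast873 hS.lies_over (he.symm.isUnit_iff.mp isUnit_one)
    · exact h0
  obtain ⟨ε, hε⟩ := he
  -- `q * ε = w ^ e`
  set B := chartAlg P E (M * q) (xE E M q) with hB
  refine ⟨e, ⟨D₀, hD⟩, algebraMap (RE P E) B ((ε : RE P E) ^ 12) * ⟨D₀', hD'⟩,
    he0, ⟨ε, hε⟩, ?_, hDV, ?_⟩
  · apply Subtype.ext
    show D₀ * (algebraMap (RE P E) (FE E (M * q)) ((ε : RE P E) ^ 12) * D₀') =
      (algebraMap (RE P E) (FE E (M * q)) w) ^ (12 * e)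
    have hcE : cE P E (M * q) ((q : RE P E) ^ 12) =
        algebraMap (RE P E) (FE E (M * q)) ((q : RE P E) ^ 12) := rfl
    rw [mul_left_comm, hmul, hcE, ← map_mul, ← map_pow]
    congr 1
    rw [pow_mul', ← hε]
    ring
  · intro h
    apply hD'V
    -- divide by the unit `ε ^ 12`
    have hεV : algebraMap (RE P E) (FE E (M * q)) (((ε⁻¹ : (RE P E)ˣ) : RE P E) ^ 12) ∈
        V.comap (W : FE E (M * q) →+* FE E (M * q)) := by
      rw [ValuationSubring.mem_comap]
      have h1 : (W : FE E (M * q) →+* FE E (M * q))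
          (algebraMap (RE P E) (FE E (M * q)) (((ε⁻¹ : (RE P E)ˣ) : RE P E) ^ 12)) =
          algebraMap E (FE E (M * q)) ((((ε⁻¹ : (RE P E)ˣ) : RE P E) ^ 12 : RE P E) : E) :=
        W.commutes _
      rw [h1]
      exact (Fermat.Agent.A2.Mod.H708.algebraMap_mem_iff_of_isVinf hV _).mpr (Subtype.mem _)
    have h2 := (V.comap (W : FE E (M * q) →+* FE E (M * q))).mul_mem _ _ hεV h
    have h3 : algebraMap (RE P E) (FE E (M * q)) (((ε⁻¹ : (RE P E)ˣ) : RE P E) ^ 12) *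
        (((algebraMap (RE P E) B ((ε : RE P E) ^ 12) * ⟨D₀', hD'⟩ : B) : FE E (M * q)) *
          (cE P E (M * q) w)⁻¹) = D₀' * (cE P E (M * q) w)⁻¹ := by
      have h4 : algebraMap (RE P E) (FE E (M * q)) (((ε⁻¹ : (RE P E)ˣ) : RE P E) ^ 12) *
          algebraMap (RE P E) (FE E (M * q)) ((ε : RE P E) ^ 12) = 1 := by
        rw [← map_mul, ← mul_pow, Units.inv_mul, one_pow, map_one]
      show algebraMap (RE P E) (FE E (M * q)) (((ε⁻¹ : (RE P E)ˣ) : RE P E) ^ 12) *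
        ((algebraMap (RE P E) (FE E (M * q)) ((ε : RE P E) ^ 12) * D₀') *
          (cE P E (M * q) w)⁻¹) = _
      rw [← mul_assoc, ← mul_assoc, h4, one_mul]
    rw [h3] at h2
    exact h2

/-- **INST-B, cut form** (the form consumed together with `H873.isUnitPair_locAt873`): for the
components `p₁ = B ∩ w V∞`, `p₂ = B ∩ w V₀` of the chart `B = chartAlg x` (`A2/Mod/Asm.IsCut`):
`D · D' = w ^ (12 e)`, `D ∉ p₁`, `D' ∉ p₂`. -/
theorem exists_unitPair_cut873 {w : RE P E} (hS : Setting P E M q w)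
    {V : ValuationSubring (FE E (M * q))} {W : FE E (M * q) ≃ₐ[E] FE E (M * q)}
    (hV : IsVinf P E (M * q) V) (hW : IsFricke E (M * q) W)
    (p₁ p₂ : Ideal (chartAlg P E (M * q) (xE E M q)))
    (hc₁ : IsCut P E (M * q) w V (chartAlg P E (M * q) (xE E M q)) p₁)
    (hc₂ : IsCut P E (M * q) w (V.comap (W : FE E (M * q) →+* FE E (M * q)))
      (chartAlg P E (M * q) (xE E M q)) p₂) :
    ∃ (e : ℕ) (D D' : chartAlg P E (M * q) (xE E M q)), 0 < e ∧
      Associated ((q : ℕ) : RE P E) (w ^ e) ∧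
      D * D' = algebraMap (RE P E) (chartAlg P E (M * q) (xE E M q)) w ^ (12 * e) ∧
      D ∉ p₁ ∧ D' ∉ p₂ := by
  obtain ⟨e, D, D', he, hass, hmul, hD, hD'⟩ := exists_unitPair873 hS hV hW
  exact ⟨e, D, D', he, hass, hmul, fun h => hD ((hc₁ D).mp h), fun h => hD' ((hc₂ D').mp h)⟩

end Fermat.Agent.Ribet.H873

end

end
-- ===== PACK-END Ribet/H873/UnitPair.lean

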