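import Fermat.Agent.Pack.S44C.G0E15L1
import Fermat.Agent.Pack.S44C.G0E27L0
import Fermat.Agent.Pack.S44C.G0E17L1
import Fermat.Agent.Pack.S44C.G0E6L2
import Fermat.Agent.Pack.S44C.G0E26L2
import Fermat.Agent.Pack.S44C.G0E21L1
import Fermat.Agent.Pack.S44C.G0E25L1
import Fermat.Agent.Pack.S44C.G0E23L3
import Fermat.Agent.Pack.S44C.G0E27L2
import Fermat.Agent.Pack.S44C.G0E21L2
import Fermat.Agent.Pack.S44C.G0E26L0
import Fermat.Agent.Pack.S44C.G0E25L0
import Fermat.Agent.Pack.S44C.G0E24L1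
import Fermat.Agent.Pack.S44C.G0E17L0
import Fermat.Agent.Pack.S44C.G0E27L1
import Fermat.Agent.Pack.S44C.G0E15L3
import Fermat.Agent.Pack.S44C.G0E27L3
import Fermat.Agent.Pack.Fast891

-- ===== PACK-BEGIN Ribet/H103/S2Spec.lean
section





/-!
# RIBET, wall at `p`, target S2 (I4 + I5) — concrete interface and assembly (helper103)

Target (frozen by helper944, `Ribet/H944/WallTargets.lean`):

    S2For p M' A 𝒮 : ∀ x ∈ 𝒮, IsNewTors p M' x → ∀ σ ∈ I_A, ∀ c, CycloAt p σ c → σ • x = c • x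

This file:

* `IsKummerFn N p x f`     : `f ≠ 0`, `div f = p · D`, `[D] = x`   (`f ∈ ℚ̄(X₀(N))`);
* `DeepPureClass p M' A x` : `x` has a Kummer function `ι y`, `y ∈ F_{N,E}` for a GOOD LEVEL `E ∋ ζ_p`
  (`A2.GoodField`), which on a semistable model `D : A2.ModSSData A E (p * M')` is
    - DEEPLY SPLIT: `y ≡ 1 mod (ζ-1)^p w` on both components of both charts
      (`AlgP.IsDeepSplit`), and
    - PURE at every closed point of the special fibre of both charts (`A2.Alg.PureAt`);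
* `smul_eq_nsmul_of_kummer` (T, PROVED) : `σ f = h ^ p · f ^ c ⟹ σ • x = c • x`;
* `s2core` (PROVED) : `AlgPStatement → DeepPureClass p M' A x → (σ • x = c • x for σ ∈ I_A, χ(σ) = c)`;
* `SplitRedClass p M' A x`  : the same with "deeply split" replaced by "the reductions on both
  components are constants times `p`-th powers", on the STANDARD model (coordinate `j · j_p`);
* leaf `DictFor p M' A 𝒮`  : `x ∈ 𝒮`, `p x = 0` ⟹ `SplitRedClass`   (owner of the definition of `𝒮`);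
* leaf `NCFor p M' A`      : `x` new + `SplitRedClass` ⟹ `DeepPureClass`   (NORM CONTRACTION I4);
* `s2For_of_leaves` (PROVED) : `AlgPStatement → DictFor → NCFor → S2For p M' A 𝒮`
  (also `ncx_of`, `s2For_of` with the combined leaf `NCXStatement`).
Board with the sub-leaves of NC: `origin/helper103:coord/RIBET-S2-helper103.md`.
-/

set_option autoImplicit false
set_option linter.style.haveILetI false
set_option synthInstance.maxHeartbeats 400000
set_option maxHeartbeats 1600000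

noncomputable section

namespace Fermat.Agent.Ribet.H103.S2

open AlgebraicCurve ModularCurve
open Fermat.Agent.A2 Fermat.Agent.A2.Alg Fermat.Agent.A2.T1.H669
open Fermat.Agent.Ribet.H103.AlgP

/-! ## T: the Kummer dictionary for a scalar action -/

section Dict

variable {K F : Type*} [Field K] [Field F] [Algebra K F]

/-- **T.**  If `div f = m · D` and `g f = y ^ m · f ^ k`, then `g • [D] = k • [D]`. -/
theorem smul_eq_nsmul_of_kummer (g : SemilinearAut K F) (m k : ℕ) (hm : m ≠ 0)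
    (D : Divisor.degZero (K := K) (F := F)) (f : F) (hf : f ≠ 0)
    (hfD : ∀ v : Place K F, v.ord f = (m : ℤ) * (D : Divisor K F) v)
    (y : F) (hy : y ≠ 0) (h : SemilinearAut.toRingAut g f = y ^ m * f ^ k) :
    g • Pic0.mk D = k • Pic0.mk D := by
  set E : Divisor.degZero (K := K) (F := F) := SemilinearAut.degZeroSMulHom g D - k • D with hE
  have hgoal : g • Pic0.mk D - k • Pic0.mk D = Pic0.mk E := by
    rw [SemilinearAut.pic0_smul_mk]
    rfl
  rw [← sub_eq_zero, hgoal]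
  refine (QuotientAddGroup.eq_zero_iff E).2 ?_
  rw [AddSubgroup.mem_addSubgroupOf]
  refine ⟨y, hy, fun w => ?_⟩
  have hEw : (E : Divisor K F) w = (D : Divisor K F) (g⁻¹ • w) - k * (D : Divisor K F) w := by
    simp only [hE, AddSubgroupClass.coe_sub, SemilinearAut.coe_degZeroSMulHom,
      Finsupp.sub_apply, SemilinearAut.divisor_smul_apply, AddSubgroupClass.coe_nsmul,
      Finsupp.smul_apply, nsmul_eq_mul]
  have h1 : w.ord (SemilinearAut.toRingAut g f) = (g⁻¹ • w).ord f :=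
    Fermat.Agent.A2.H129.ord_smul_eq g w f
  have h2 : w.ord (y ^ m * f ^ k) = (m : ℤ) * w.ord y + k * w.ord f := by
    rw [w.ord_mul (pow_ne_zero m hy) (pow_ne_zero k hf), Fermat.Agent.A2.H129.ord_pow,
      Fermat.Agent.A2.H129.ord_pow]
  have hmE : (m : ℤ) * (E : Divisor K F) w = (m : ℤ) * w.ord y := by
    have h3 : (g⁻¹ • w).ord f = (m : ℤ) * w.ord y + k * w.ord f := by
      rw [← h1, h, h2]
    rw [hfD, hfD] at h3
    rw [hEw]
    linear_combination h3
  have hm' : (m : ℤ) ≠ 0 := by exact_mod_cast hm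
  exact mul_left_cancel₀ hm' hmE

end Dict

/-! ## Definitions at the modular level -/

/-- `f` is a Kummer function of the class `x` of order dividing `p`:
`f ≠ 0` and `div f = p · D` with `[D] = x`. -/
def IsKummerFn (N p : ℕ) (x : JZero N) (f : modularFunctionFieldBar N) : Prop :=
  f ≠ 0 ∧ ∃ D : Divisor.degZero (K := AlgebraicClosure ℚ) (F := modularFunctionFieldBar N),
    Pic0.mk D = x ∧ ∀ v : Place (AlgebraicClosure ℚ) (modularFunctionFieldBar N),
      v.ord f = (p : ℤ) * (D : Divisor (AlgebraicClosure ℚ) (modularFunctionFieldBar N)) v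

/-- **Deeply split and pure classes.**  `x ∈ J₀(N)`, `N = p * M'`, has a Kummer function defined
over a good level `E ∋ ζ_p` which, on a semistable model `D` over `R_E`, is `≡ 1` modulo
`(ζ - 1) ^ p · w` on both components of both charts and pure at every closed point of the special
fibre of both charts. -/
def DeepPureClass (p M' : ℕ) (A : ValuationSubring (AlgebraicClosure ℚ)) (x : JZero (p * M')) : Prop :=
  ∃ (E : IntermediateField ℚ (AlgebraicClosure ℚ)) (_ : GoodField A E) (D : ModSSData A E (p * M'))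
    (ζ w : RE A E) (y : FE E (p * M')) (cf : SSChart w D.Bf) (ci : SSChart w D.Bi),
    IsPrimitiveRoot ζ p ∧ Irreducible w ∧
    IsKummerFn (p * M') p x (iota E (modularFunctionFieldFull (p * M')) y) ∧
    IsDeepSplit D.Bf cf ((ζ - 1) ^ p * w) y ∧ IsDeepSplit D.Bi ci ((ζ - 1) ^ p * w) y ∧
    (∀ n : Ideal D.Bf, n.IsMaximal → algebraMap (RE A E) D.Bf w ∈ n → PureAt D.Bf cf p y n) ∧
    (∀ n : Ideal D.Bi, n.IsMaximal → algebraMap (RE A E) D.Bi w ∈ n → PureAt D.Bi ci p y n)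

/-- The standard coordinate `x = j · j_p` of level `N` (`p ∣ N`): equal to
`A2.Mod.jE E N 1 _ * A2.Mod.jE E N p _`, i.e. to `A2.Mod.xE E M p` for `N = M * p`
(`A2/Mod/Spec.lean`; definitions unfolded to keep the imports small). -/
def stdCoord (E : IntermediateField ℚ (AlgebraicClosure ℚ)) (N p : ℕ) [NeZero p]
    (hpN : p ∣ N) : FE E N :=
  (⟨coeffEmb E (qExpand ℚ 1 jq), coeffEmb_mem_laurentBaseChange E (jqd_mem_full N (one_dvd N))⟩ :
      FE E N) *
    ⟨coeffEmb E (qExpand ℚ p jq), coeffEmb_mem_laurentBaseChange E (jqd_mem_full N hpN)⟩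

/-- The reduction of `y` on the component `𝔭` is a constant times a `p`-th power:
`y · g ^ p ∈ Rˣ · (1 + 𝔭 B_𝔭)` for some `g`. -/
def RedPowAt {R F : Type*} [CommRing R] [Field F] [Algebra R F] (B : Subalgebra R F)
    (𝔭 : Ideal B) (p : ℕ) (y : F) : Prop :=
  ∃ g : F, g ≠ 0 ∧ ConstAt B 𝔭 (y * g ^ p)

/-- **Split-reduction classes** (the INPUT of norm contraction; this is what membership in the
split part `𝒮` has to provide).  `x` has a Kummer function `ι y`, `y ∈ F_{N,E}`, `E` a good level,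
which on the STANDARD semistable model (coordinate `j · j_p`) over `R_E` has reductions on both
components of both charts which are constants times `p`-th powers, and is pure at every closed
point of the special fibre of both charts. -/
def SplitRedClass (p M' : ℕ) [NeZero p] (A : ValuationSubring (AlgebraicClosure ℚ))
    (x : JZero (p * M')) : Prop :=
  ∃ (E : IntermediateField ℚ (AlgebraicClosure ℚ)) (_ : GoodField A E)
    (D : ModSSData A E (p * M'))
    (w : RE A E) (y : FE E (p * M')) (cf : SSChart w D.Bf) (ci : SSChart w D.Bi),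
    D.x = stdCoord E (p * M') p (dvd_mul_right p M') ∧ Irreducible w ∧
    IsKummerFn (p * M') p x (iota E (modularFunctionFieldFull (p * M')) y) ∧
    RedPowAt D.Bf cf.p₁ p y ∧ RedPowAt D.Bf cf.p₂ p y ∧
    RedPowAt D.Bi ci.p₁ p y ∧ RedPowAt D.Bi ci.p₂ p y ∧
    (∀ n : Ideal D.Bf, n.IsMaximal → algebraMap (RE A E) D.Bf w ∈ n → PureAt D.Bf cf p y n) ∧
    (∀ n : Ideal D.Bi, n.IsMaximal → algebraMap (RE A E) D.Bi w ∈ n → PureAt D.Bi ci p y n)

/-- **Leaf DICT** (owner of the definition of `𝒮`): the classes of the split part are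
split-reduction classes. -/
def DictFor (p M' : ℕ) [NeZero p] (A : ValuationSubring (AlgebraicClosure ℚ))
    (𝒮 : AddSubgroup (JZero (p * M'))) : Prop :=
  ∀ x ∈ 𝒮, p • x = 0 → SplitRedClass p M' A x

/-- **Leaf NC** (norm contraction, I4): a NEW split-reduction class is deeply split (over a
possibly larger good level containing `ζ_p`) and stays pure. -/
def NCFor (p M' : ℕ) [NeZero M'] [NeZero p] [NeZero (p * M')]
    (A : ValuationSubring (AlgebraicClosure ℚ)) : Prop :=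
  ∀ x : JZero (p * M'), Fermat.Agent.Ribet.H944.Wall.IsNewTors p M' x →
    SplitRedClass p M' A x → DeepPureClass p M' A x

/-- **Leaf NCX** (dictionary for `𝒮` + norm contraction): a new class of the split part is
deeply split and pure. -/
def NCXStatement (p M' : ℕ) [NeZero M'] [NeZero p] [NeZero (p * M')]
    (A : ValuationSubring (AlgebraicClosure ℚ)) (𝒮 : AddSubgroup (JZero (p * M'))) : Prop :=
  ∀ x ∈ 𝒮, Fermat.Agent.Ribet.H944.Wall.IsNewTors p M' x → DeepPureClass p M' A x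

/-- NCX from DICT and NC. -/
theorem ncx_of (p M' : ℕ) [NeZero M'] [NeZero p] [NeZero (p * M')]
    (A : ValuationSubring (AlgebraicClosure ℚ)) (𝒮 : AddSubgroup (JZero (p * M')))
    (hD : DictFor p M' A 𝒮) (hNC : NCFor p M' A) : NCXStatement p M' A 𝒮 :=
  fun x hx hnew => hNC x hnew (hD x hx hnew.1)

/-! ## The core: ALG-p on a deeply split pure class -/

/-- **S2, core.**  On a deeply split pure class inertia acts through the cyclotomic character. -/
theorem s2core (hALG : AlgPStatement) (p M' : ℕ) (hp : p.Prime)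
    (A : ValuationSubring (AlgebraicClosure ℚ)) (hA : A.LiesOverPrime p) (x : JZero (p * M'))
    (hx : DeepPureClass p M' A x) :
    ∀ σ ∈ A.inertiaSubgroupIn ℚ, ∀ c : ℕ, Fermat.Agent.Ribet.H944.Wall.CycloAt p σ c →
      σ • x = c • x := by
  intro σ hσ c hc
  obtain ⟨E, hE, D, ζ, w, y, cf, ci, hζ, hw, ⟨hf0, Dv, hDx, hord⟩, hdf, hdi, hpf, hpi⟩ := hx
  haveI : IsDiscreteValuationRing ↥(RE A E) := hE.dvr
  haveI : HenselianLocalRing ↥(RE A E) := hE.henselian
  haveI : IsAlgClosed (IsLocalRing.ResidueField ↥(RE A E)) := hE.algClosed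
  set F₀ := modularFunctionFieldFull (p * M') with hF₀
  have hy0 : y ≠ 0 := by
    rintro rfl
    exact hf0 (map_zero _)
  have hdiv : DivisibleDiv E p y :=
    divisibleDiv_of_ord E F₀ p y hy0 (fun v => ⟨_, hord v⟩)
  -- the cyclotomic character on `ζ`
  have hk : resR hE σ hσ ζ = ζ ^ c := by
    apply Subtype.ext
    apply Subtype.ext
    show σ (((ζ : ↥(RE A E)) : E) : AlgebraicClosure ℚ) = (((ζ ^ c : ↥(RE A E)) : E) : AlgebraicClosure ℚ)
    have h1 : ((((ζ : ↥(RE A E)) : E) : AlgebraicClosure ℚ)) ^ p = 1 := by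
      have := congrArg (fun z : ↥(RE A E) => (((z : E)) : AlgebraicClosure ℚ)) hζ.pow_eq_one
      simpa using this
    rw [hc _ h1]
    simp
  obtain ⟨h, hh0, hh⟩ := hALG (R := ↥(RE A E)) (E := E) (F := ↥(FE E (p * M'))) p hp
    (natCast_mem_maximalIdeal_RE E hA) ζ hζ w hw D.x D.hx D.hfin D.hconst D.Bf D.Bi D.hBf D.hBi
    cf ci
    (arithmeticRingAut F₀ (hE.res σ hσ))
    (hE.res σ hσ).toRingEquiv (resR hE σ hσ)
    (fun e => arithmeticRingAut_algebraMap F₀ (hE.res σ hσ) e)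
    (fun r => rfl)
    (D.hτf hE σ hσ w hw) (D.hτi hE σ hσ w hw)
    c hk y hy0 hdiv hdf hdi hpf hpi
  -- push to `F̄`
  have h1 := congrArg (iota E F₀) hh
  rw [map_mul, map_pow, map_pow, iota_arithmeticRingAut E F₀ σ (hE.res σ hσ) (fun e => rfl)]
    at h1
  rw [← hDx]
  exact smul_eq_nsmul_of_kummer (arithmeticGalois F₀ σ) p c hp.ne_zero Dv (iota E F₀ y) hf0 hord
    (iota E F₀ h) (iota_ne_zero E F₀ hh0) h1

/-- **S2 from ALG-p, DICT and NC.** -/
theorem s2For_of_leaves (hALG : AlgPStatement) (p M' : ℕ) [NeZero M'] [NeZero p]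
    [NeZero (p * M')] (hp : p.Prime) (A : ValuationSubring (AlgebraicClosure ℚ))
    (hA : A.LiesOverPrime p) (𝒮 : AddSubgroup (JZero (p * M')))
    (hD : DictFor p M' A 𝒮) (hNC : NCFor p M' A) :
    Fermat.Agent.Ribet.H944.Wall.S2For p M' A 𝒮 := by
  intro x hx hnew σ hσ c hc
  exact s2core hALG p M' hp A hA x (hNC x hnew (hD x hx hnew.1)) σ hσ c hc

/-- **S2 from ALG-p and NCX.** -/
theorem s2For_of (hALG : AlgPStatement) (p M' : ℕ) [NeZero M'] [NeZero p] [NeZero (p * M')]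
    (hp : p.Prime) (A : ValuationSubring (AlgebraicClosure ℚ)) (hA : A.LiesOverPrime p)
    (𝒮 : AddSubgroup (JZero (p * M'))) (hNCX : NCXStatement p M' A 𝒮) :
    Fermat.Agent.Ribet.H944.Wall.S2For p M' A 𝒮 := by
  intro x hx hnew σ hσ c hc
  exact s2core hALG p M' hp A hA x (hNCX x hx hnew) σ hσ c hc

end Fermat.Agent.Ribet.H103.S2

end

end
-- ===== PACK-END Ribet/H103/S2Spec.lean

-- ===== PACK-BEGIN Ribet/H912/S2G.lean
section



/-!
# RIBET, wall at `p`, target (S2): the core for BOTH routes of ALG-p (helper912)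

`Ribet/H103/S2Spec.lean` (helper103) proves `s2core` from `H103.AlgP.AlgPStatement` (route S-p with
purity hypotheses).  `Ribet/H883/AlgPGStatement.lean` (helper883) provides the interface statement
`H883.AlgPStatementG` which BOTH routes prove (route S-p: `algPStatementG_of_algPStatement`,
route G-p: `algPStatementG_of_countW` from the single leaf COUNT-W); it carries the extra
hypotheses (separating coordinates, `τ x = x`, finite order) which the modular model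
`A2.ModSSData` provides.  This file is the glue:

* `s2coreG`            : `AlgPStatementG → DeepPureClass p M' A x → (σ • x = c • x)`, `p ≠ 2`;
* `s2For_of_algPG`     : `AlgPStatementG → DictFor → NCFor → S2For p M' A 𝒮`;
* `s2For_of_algPG_ncx` : `AlgPStatementG → NCXStatement → S2For p M' A 𝒮`;
* `s2For_of_countW`    : `CountWLeaf → DictFor → NCFor → S2For p M' A 𝒮`   (route G-p);
* `s2For_of_algP495`   : `H495.AlgP.AlgPStatement → DictFor → NCFor → S2For p M' A 𝒮` (route S-p).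

The purity clauses of `DeepPureClass` are not used.
-/

set_option autoImplicit false
set_option linter.style.haveILetI false
set_option synthInstance.maxHeartbeats 400000
set_option maxHeartbeats 1600000

noncomputable section

namespace Fermat.Agent.Ribet.H912

open AlgebraicCurve ModularCurve
open Fermat.Agent.A2 Fermat.Agent.A2.Alg Fermat.Agent.A2.T1.H669
open Fermat.Agent.Ribet.H103.AlgP Fermat.Agent.Ribet.H103.S2

/-- **S2, core, for the common interface `AlgPStatementG`.**  On a deeply split class inertia acts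
through the cyclotomic character. -/
theorem s2coreG (hALG : Fermat.Agent.Ribet.H883.AlgPStatementG) (p M' : ℕ) (hp : p.Prime)
    (hp2 : p ≠ 2) (A : ValuationSubring (AlgebraicClosure ℚ)) (hA : A.LiesOverPrime p)
    (x : JZero (p * M')) (hx : DeepPureClass p M' A x) :
    ∀ σ ∈ A.inertiaSubgroupIn ℚ, ∀ c : ℕ, Fermat.Agent.Ribet.H944.Wall.CycloAt p σ c →
      σ • x = c • x := by
  intro σ hσ c hc
  obtain ⟨E, hE, D, ζ, w, y, cf, ci, hζ, hw, ⟨hf0, Dv, hDx, hord⟩, hdf, hdi, -, -⟩ := hx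
  haveI : IsDiscreteValuationRing ↥(RE A E) := hE.dvr
  haveI : HenselianLocalRing ↥(RE A E) := hE.henselian
  haveI : IsAlgClosed (IsLocalRing.ResidueField ↥(RE A E)) := hE.algClosed
  set F₀ := modularFunctionFieldFull (p * M') with hF₀
  have hy0 : y ≠ 0 := by
    rintro rfl
    exact hf0 (map_zero _)
  have hdiv : DivisibleDiv E p y :=
    divisibleDiv_of_ord E F₀ p y hy0 (fun v => ⟨_, hord v⟩)
  -- the cyclotomic character on `ζ`
  have hk : resR hE σ hσ ζ = ζ ^ c := by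
    apply Subtype.ext
    apply Subtype.ext
    show σ (((ζ : ↥(RE A E)) : E) : AlgebraicClosure ℚ) =
      (((ζ ^ c : ↥(RE A E)) : E) : AlgebraicClosure ℚ)
    have h1 : ((((ζ : ↥(RE A E)) : E) : AlgebraicClosure ℚ)) ^ p = 1 := by
      have := congrArg (fun z : ↥(RE A E) => (((z : E)) : AlgebraicClosure ℚ)) hζ.pow_eq_one
      simpa using this
    rw [hc _ h1]
    simp
  have hconcl : Fermat.Agent.Ribet.H495.AlgP.AlgPConclusion E D.Bf D.Bi cf ci p (ζ - 1) c
      (arithmeticRingAut F₀ (hE.res σ hσ)) :=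
    hALG (R := ↥(RE A E)) (E := E) (F := ↥(FE E (p * M'))) w hw p hp hp2
      (natCast_mem_maximalIdeal_RE E hA) ζ hζ D.x D.hx D.hfin D.hconst D.Bf D.Bi D.hBf D.hBi
      cf ci D.sf D.si
      (arithmeticRingAut F₀ (hE.res σ hσ))
      (hE.res σ hσ).toRingEquiv (resR hE σ hσ)
      (fun e => arithmeticRingAut_algebraMap F₀ (hE.res σ hσ) e)
      (fun r => rfl)
      (D.hτx hE σ hσ)
      (finite_order_arithmeticRingAut F₀ hE σ hσ)
      (D.hτf hE σ hσ w hw) (D.hτi hE σ hσ w hw)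
      c hk
  obtain ⟨h, hh0, hh⟩ := hconcl y hy0 hdiv hdf hdi
  -- push to `F̄`
  have h1 := congrArg (iota E F₀) hh
  rw [map_mul, map_pow, map_pow, iota_arithmeticRingAut E F₀ σ (hE.res σ hσ) (fun e => rfl)]
    at h1
  rw [← hDx]
  exact Fermat.Agent.Ribet.H103.S2.smul_eq_nsmul_of_kummer (arithmeticGalois F₀ σ) p c hp.ne_zero
    Dv (iota E F₀ y) hf0 hord (iota E F₀ h) (iota_ne_zero E F₀ hh0) h1

/-- **S2 from `AlgPStatementG` and NCX.** -/
theorem s2For_of_algPG_ncx (hALG : Fermat.Agent.Ribet.H883.AlgPStatementG) (p M' : ℕ)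
    [NeZero M'] [NeZero p] [NeZero (p * M')] (hp : p.Prime) (hp2 : p ≠ 2)
    (A : ValuationSubring (AlgebraicClosure ℚ)) (hA : A.LiesOverPrime p)
    (𝒮 : AddSubgroup (JZero (p * M'))) (hNCX : NCXStatement p M' A 𝒮) :
    Fermat.Agent.Ribet.H944.Wall.S2For p M' A 𝒮 := by
  intro x hx hnew σ hσ c hc
  exact s2coreG hALG p M' hp hp2 A hA x (hNCX x hx hnew) σ hσ c hc

/-- **S2 from `AlgPStatementG`, DICT and NC.** -/
theorem s2For_of_algPG (hALG : Fermat.Agent.Ribet.H883.AlgPStatementG) (p M' : ℕ)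
    [NeZero M'] [NeZero p] [NeZero (p * M')] (hp : p.Prime) (hp2 : p ≠ 2)
    (A : ValuationSubring (AlgebraicClosure ℚ)) (hA : A.LiesOverPrime p)
    (𝒮 : AddSubgroup (JZero (p * M'))) (hD : DictFor p M' A 𝒮) (hNC : NCFor p M' A) :
    Fermat.Agent.Ribet.H944.Wall.S2For p M' A 𝒮 :=
  s2For_of_algPG_ncx hALG p M' hp hp2 A hA 𝒮 (ncx_of p M' A 𝒮 hD hNC)

/-- **S2 by route G-p**: from the single abstract leaf COUNT-W, DICT and NC. -/
theorem s2For_of_countW (hC : Fermat.Agent.Ribet.H883.CountWLeaf) (p M' : ℕ)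
    [NeZero M'] [NeZero p] [NeZero (p * M')] (hp : p.Prime) (hp2 : p ≠ 2)
    (A : ValuationSubring (AlgebraicClosure ℚ)) (hA : A.LiesOverPrime p)
    (𝒮 : AddSubgroup (JZero (p * M'))) (hD : DictFor p M' A 𝒮) (hNC : NCFor p M' A) :
    Fermat.Agent.Ribet.H944.Wall.S2For p M' A 𝒮 :=
  s2For_of_algPG (Fermat.Agent.Ribet.H883.algPStatementG_of_countW hC) p M' hp hp2 A hA 𝒮 hD hNC

/-- **S2 by route S-p** (interface of helper495): from `H495.AlgP.AlgPStatement`, DICT and NC. -/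
theorem s2For_of_algP495 (hALG : Fermat.Agent.Ribet.H495.AlgP.AlgPStatement) (p M' : ℕ)
    [NeZero M'] [NeZero p] [NeZero (p * M')] (hp : p.Prime) (hp2 : p ≠ 2)
    (A : ValuationSubring (AlgebraicClosure ℚ)) (hA : A.LiesOverPrime p)
    (𝒮 : AddSubgroup (JZero (p * M'))) (hD : DictFor p M' A 𝒮) (hNC : NCFor p M' A) :
    Fermat.Agent.Ribet.H944.Wall.S2For p M' A 𝒮 :=
  s2For_of_algPG (Fermat.Agent.Ribet.H883.algPStatementG_of_algPStatement hALG) p M' hp hp2 A hA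
    𝒮 hD hNC

end Fermat.Agent.Ribet.H912

end

end
-- ===== PACK-END Ribet/H912/S2G.lean

-- ===== PACK-BEGIN A2/Mod/H216/GoodRed.lean
section






/-!
# A2 / GOODRED (helper216): the level-`M` hypothesis `GoodRedAt` of MODASM, DISCHARGED

For `q ≥ 5` prime, `q ∤ M`, `P` over `q`, ANY intermediate field `E ⊆ Q̄` with `R_E = P ∩ E` a
discrete valuation ring, uniformiser `w`, Gauss valuation ring `VM` (`IsVinf`):

    goodRedAt_j     : GoodRedAt P E M w VM j
    goodRedAt_j_inv : GoodRedAt P E M w VM j⁻¹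
    goodRedHyp      : GoodRedHyp P E M                       (`A2/Mod/Asm.lean`)

Proof: `S18.Mod.H216.goodModel_of_partR` (good model of row S18 over the level `E`),
`normalAbs_chart` (normality of its special fibre; S37 `H383.exists_chart_lift`), and the
bridge `FE E M ≃ Fc M E` of `Bridge.lean`.

`goodRedAt_of_goodModel` is the general adapter (any coordinate `y`, any good model).
-/

set_option autoImplicit false
set_option linter.unusedSectionVars false
set_option linter.style.haveILetI false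
set_option synthInstance.maxHeartbeats 400000
set_option maxHeartbeats 1600000

noncomputable section

namespace Fermat.Agent.A2.Mod.H216

open ModularCurve Polynomial

variable (P : ValuationSubring _root_.Fermat.Agent.A2.Mod.Qb) (E : IntermediateField ℚ _root_.Fermat.Agent.A2.Mod.Qb) (M : ℕ)

/-! ### The chart as a subring -/

section ChartSub

variable {Ω : Type*} [Field Ω]

/-- `S18.Alg.chart Fc R x` is (the carrier of) a subring. -/
def chartSub (Fc : Subfield Ω) (R : Subring Ω) (x : Ω) : Subring Ω :=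
  Fc.toSubring ⊓ (integralClosure ↥(S18.Alg.polyRing R x) Ω).toSubring

theorem mem_chartSub {Fc : Subfield Ω} {R : Subring Ω} {x b : Ω} :
    b ∈ chartSub Fc R x ↔ b ∈ S18.Alg.chart Fc R x := Iff.rfl

/-- The monic polynomial `X ^ n + ∑ aᵢ X ^ i`. -/
def monicOf {n : ℕ} (a : Fin n → Ω) : Polynomial Ω :=
  X ^ n + ∑ i : Fin n, C (a i) * X ^ (i : ℕ)

theorem monicOf_monic {n : ℕ} (a : Fin n → Ω) : (monicOf a).Monic :=
  Polynomial.monic_X_pow_add (Polynomial.degree_sum_fin_lt a)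

theorem monicOf_eval {n : ℕ} (a : Fin n → Ω) (z : Ω) :
    (monicOf a).eval z = z ^ n + ∑ i : Fin n, a i * z ^ (i : ℕ) := by
  simp [monicOf, Polynomial.eval_finsetSum]

theorem monicOf_coeff_mem {n : ℕ} (a : Fin n → Ω) (T : Subring Ω) (ha : ∀ i, a i ∈ T) (k : ℕ) :
    (monicOf a).coeff k ∈ T := by
  rw [monicOf, Polynomial.coeff_add, Polynomial.coeff_X_pow, Polynomial.finsetSum_coeff]
  refine add_mem ?_ (sum_mem fun i _ => ?_)
  · split_ifs
    · exact one_mem T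
    · exact zero_mem T
  · rw [Polynomial.coeff_C_mul_X_pow]
    split_ifs
    · exact ha i
    · exact zero_mem T

end ChartSub

/-! ### The adapter -/

variable {P E M}

/-- **GOODRED adapter**: a good model of row S18 at the concrete objects over `E`, with
uniformiser `w` and coordinate `y`, gives `GoodRedAt` in the language of `A2/Mod/Spec.lean`. -/
theorem goodRedAt_of_goodModel {w : _root_.Fermat.Agent.A2.Mod.RE P E} {VM : ValuationSubring (_root_.Fermat.Agent.A2.Mod.FE E M)}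
    (hV : IsVinf P E M VM) (y : _root_.Fermat.Agent.A2.Mod.FE E M) {x : S18.Mod.Om M} (hx : bridge E M y = x)
    {S : Finset (S18.Mod.Om M)}
    (G : S18.Alg.GoodModel (S18.Mod.Lc M) (S18.Mod.Ec M E) (S18.Mod.Fc M E) (S18.Mod.Rc M P E)
      (S18.Mod.H216.Vc M P E) (bridge E M (cE P E M w)) x S) :
    GoodRedAt P E M w VM y := by
  subst hx
  have hinv : ∀ g : _root_.Fermat.Agent.A2.Mod.FE E M, bridge E M (g * (cE P E M w)⁻¹) =
      bridge E M g * (bridge E M (cE P E M w))⁻¹ := fun g => by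
    rw [map_mul, map_inv₀]
  constructor
  · intro b hb hbw
    rw [bridge_mem_chart_iff] at hb ⊢
    rw [hinv]
    refine G.qep_fin _ hb ?_
    rw [← hinv]
    exact (mem_iff_bridge_mem_Vc P hV _).1 hbw
  · rintro f hf ⟨n, c, hc, hcw⟩
    have hfV : bridge E M f ∈ S18.Mod.H216.Vc M P E := (mem_iff_bridge_mem_Vc P hV _).1 hf
    have hPc : ∀ i, (monicOf fun i => bridge E M (c i)).coeff i ∈
        S18.Alg.chart (S18.Mod.Fc M E) (S18.Mod.Rc M P E) (bridge E M y) := fun k =>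
      mem_chartSub.1 (monicOf_coeff_mem _ (chartSub _ _ _)
        (fun i => mem_chartSub.2 ((bridge_mem_chart_iff P y (c i)).1 (hc i))) k)
    have hPv : (monicOf fun i => bridge E M (c i)).eval (bridge E M f) *
        (bridge E M (cE P E M w))⁻¹ ∈ S18.Mod.H216.Vc M P E := by
      have h1 : (monicOf fun i => bridge E M (c i)).eval (bridge E M f) =
          bridge E M (f ^ n + ∑ i : Fin n, c i * f ^ (i : ℕ)) := by
        rw [monicOf_eval, map_add, map_pow, map_sum]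
        simp only [map_mul, map_pow]
      rw [h1, ← hinv]
      exact (mem_iff_bridge_mem_Vc P hV _).1 hcw
    obtain ⟨b', hb', hbv⟩ := normalAbs_chart G (bridge E M f) hfV _ (monicOf_monic _) hPc hPv
    obtain ⟨b, rfl⟩ := exists_bridge_eq hb'.1
    refine ⟨b, (bridge_mem_chart_iff P y b).2 hb', ?_⟩
    show (f - b) * (cE P E M w)⁻¹ ∈ VM
    rw [mem_iff_bridge_mem_Vc P hV, hinv, map_sub]
    exact hbv

/-- The same on the chart at infinity. -/
theorem goodRedAt_inv_of_goodModel {w : _root_.Fermat.Agent.A2.Mod.RE P E} {VM : ValuationSubring (_root_.Fermat.Agent.A2.Mod.FE E M)}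
    (hV : IsVinf P E M VM) (y : _root_.Fermat.Agent.A2.Mod.FE E M) {x : S18.Mod.Om M} (hx : bridge E M y = x)
    {S : Finset (S18.Mod.Om M)}
    (G : S18.Alg.GoodModel (S18.Mod.Lc M) (S18.Mod.Ec M E) (S18.Mod.Fc M E) (S18.Mod.Rc M P E)
      (S18.Mod.H216.Vc M P E) (bridge E M (cE P E M w)) x S) :
    GoodRedAt P E M w VM y⁻¹ := by
  classical
  exact goodRedAt_of_goodModel hV y⁻¹ (by rw [map_inv₀, hx])
    (Fermat.Agent.S18.H425.goodModel_inv G)

/-! ### `PartR` for a given uniformiser, over an arbitrary level -/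

variable (P E M)

theorem isUnif_bridge_cE {w : _root_.Fermat.Agent.A2.Mod.RE P E} (hw : Irreducible w) :
    S18.H456.IsUnif M P E (bridge E M (cE P E M w)) :=
  ⟨w, hw, bridge_algebraMap (w : E)⟩

/-- `PartR` of row S18 for the image of a given uniformiser `w` of `R_E` (`E` arbitrary). -/
theorem partR_bridge_cE {q : ℕ} (hq : q.Prime) (hP : P.LiesOverPrime q)
    [IsDiscreteValuationRing (_root_.Fermat.Agent.A2.Mod.RE P E)] {w : _root_.Fermat.Agent.A2.Mod.RE P E} (hw : Irreducible w) :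
    S18.Mod.H216.PartR (S18.Mod.Ec M E) (S18.Mod.Rc M P E) (bridge E M (cE P E M w)) := by
  haveI : IsDiscreteValuationRing (S18.H602.RE P E) :=
    (inferInstance : IsDiscreteValuationRing (_root_.Fermat.Agent.A2.Mod.RE P E))
  have hu := isUnif_bridge_cE P E M hw
  refine ⟨S18.H456.field_R_le M P E, S18.H456.field_R_total M P E, hu.mem, hu.ne_zero,
    hu.inv_not_mem, hu.gen, hu.discrete, q, hq, ?_, ?_⟩
  · rw [← S18.H456.cstR_natCast M P E, hu.mul_inv_mem_iff, IsLocalRing.mem_maximalIdeal,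
      mem_nonunits_iff]
    exact S18.H602.natCast_not_isUnit_RE P E hP
  · have hperf : ∀ r : S18.H602.RE P E, ∃ s : S18.H602.RE P E,
        r - s ^ q ∈ IsLocalRing.maximalIdeal (S18.H602.RE P E) := by
      intro r
      have key : ∀ r : _root_.Fermat.Agent.A2.Mod.RE P E, ∃ s : _root_.Fermat.Agent.A2.Mod.RE P E, r - s ^ q ∈ IsLocalRing.maximalIdeal (_root_.Fermat.Agent.A2.Mod.RE P E) := by
        intro r
        obtain ⟨c', hc'⟩ := H96.exists_pow_eq_residue P E hq hP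
          (IsLocalRing.residue (_root_.Fermat.Agent.A2.Mod.RE P E) r)
        obtain ⟨s, rfl⟩ := IsLocalRing.residue_surjective c'
        refine ⟨s, ?_⟩
        have h1 : IsLocalRing.residue (_root_.Fermat.Agent.A2.Mod.RE P E) (r - s ^ q) = 0 := by
          rw [map_sub, map_pow, hc', sub_self]
        exact (IsLocalRing.residue_eq_zero_iff _).1 h1
      exact key r
    intro r hr
    obtain ⟨r₀, rfl⟩ := (S18.H456.mem_Rc_iff_cstR M P E).1 hr
    obtain ⟨s, hs⟩ := hperf r₀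
    refine ⟨S18.H456.cstR M P E s, S18.H456.cstR_mem_Rc M P E s, ?_⟩
    rw [← S18.H456.cstR_pow, ← S18.H456.cstR_sub, hu.mul_inv_mem_iff]
    exact hs

/-! ### GOODRED for `q ≥ 5` -/

variable [NeZero M]

/-- The good model of row S18 with coordinate `j` over the level `E`, for the uniformiser `w`. -/
theorem goodModel_j {q : ℕ} (hq : q.Prime) (h5 : 5 ≤ q) (hqM : ¬ q ∣ M)
    (hP : P.LiesOverPrime q) [IsDiscreteValuationRing (_root_.Fermat.Agent.A2.Mod.RE P E)] {w : _root_.Fermat.Agent.A2.Mod.RE P E}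
    (hw : Irreducible w) :
    ∃ S : Finset (S18.Mod.Om M),
      S18.Alg.GoodModel (S18.Mod.Lc M) (S18.Mod.Ec M E) (S18.Mod.Fc M E) (S18.Mod.Rc M P E)
        (S18.Mod.H216.Vc M P E) (bridge E M (cE P E M w)) (S18.Mod.jOm M) S := by
  classical
  haveI : Fact q.Prime := ⟨hq⟩
  refine ⟨{0, 1728}, ?_⟩
  exact S18.Mod.H216.goodModel_of_partR M P E hqM hP (partR_bridge_cE P E M hq hP hw)
    (Or.inl ⟨h5, rfl, fun s => by simp⟩)

/-- **GOODRED**, chart of `j`. -/
theorem goodRedAt_j {q : ℕ} (hq : q.Prime) (h5 : 5 ≤ q) (hqM : ¬ q ∣ M)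
    (hP : P.LiesOverPrime q) [IsDiscreteValuationRing (_root_.Fermat.Agent.A2.Mod.RE P E)] (w : _root_.Fermat.Agent.A2.Mod.RE P E)
    (hw : Irreducible w) (VM : ValuationSubring (_root_.Fermat.Agent.A2.Mod.FE E M)) (hV : IsVinf P E M VM) :
    GoodRedAt P E M w VM (jE E M 1 (one_dvd _)) := by
  obtain ⟨S, G⟩ := goodModel_j P E M hq h5 hqM hP hw
  exact goodRedAt_of_goodModel hV _ (bridge_jE 1 (one_dvd M)) G

/-- **GOODRED**, chart of `j⁻¹`. -/
theorem goodRedAt_j_inv {q : ℕ} (hq : q.Prime) (h5 : 5 ≤ q) (hqM : ¬ q ∣ M)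
    (hP : P.LiesOverPrime q) [IsDiscreteValuationRing (_root_.Fermat.Agent.A2.Mod.RE P E)] (w : _root_.Fermat.Agent.A2.Mod.RE P E)
    (hw : Irreducible w) (VM : ValuationSubring (_root_.Fermat.Agent.A2.Mod.FE E M)) (hV : IsVinf P E M VM) :
    GoodRedAt P E M w VM (jE E M 1 (one_dvd _))⁻¹ := by
  obtain ⟨S, G⟩ := goodModel_j P E M hq h5 hqM hP hw
  exact goodRedAt_inv_of_goodModel hV _ (bridge_jE 1 (one_dvd M)) G

/-- **GOODRED**: the level-`M` hypothesis `GoodRedHyp` of MODASM (`A2/Mod/Asm.lean`), `q ≥ 5`. -/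
theorem goodRedHyp {q : ℕ} (hq : q.Prime) (h5 : 5 ≤ q) (hqM : ¬ q ∣ M)
    (hP : P.LiesOverPrime q) (hdvr : IsDiscreteValuationRing (_root_.Fermat.Agent.A2.Mod.RE P E)) :
    GoodRedHyp P E M :=
  fun w VM hw hV =>
    ⟨goodRedAt_j P E M hq h5 hqM hP w hw VM hV, goodRedAt_j_inv P E M hq h5 hqM hP w hw VM hV⟩

end Fermat.Agent.A2.Mod.H216

end
end
-- ===== PACK-END A2/Mod/H216/GoodRed.lean

-- ===== PACK-BEGIN A2/Mod/H216/GoodRedAll.lean
section




/-!
# A2 / GOODRED (helper216): `Top.H994.GoodRedStatement` — CLOSED (all primes `q`)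

    goodRedStatement : Top.H994.GoodRedStatement

i.e. for every prime `q ∤ M` (with `2 ∣ M` if `q = 3`, `3 ∣ M` if `q = 2`), `P` over `q` and every
good level `E`: `Mod.GoodRedHyp P E M` (good reduction at level `M` in the charts of `j`, `1/j`).

* `q ≥ 5` : `goodRedHyp` (`GoodRed.lean`), coordinate `j` of row S18;
* `q = 3` : the good model of row S18 in the coordinate `t₂` (`S18.Mod.H216.goodModel_of_partR`),
  the adapter `goodRedAt_of_goodModel`, and helper189's chart change `H189.goodRedHyp_of_t2`;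
* `q = 2` : the same with `t₃`, `H189.goodRedHyp_of_t3`.

Only `GoodField.dvr` is used (no henselian / algebraically closed residue field hypothesis).
-/

set_option autoImplicit false
set_option linter.unusedSectionVars false
set_option linter.style.haveILetI false
set_option synthInstance.maxHeartbeats 400000
set_option maxHeartbeats 1600000

noncomputable section

namespace Fermat.Agent.A2.Mod.H216

open ModularCurve Polynomial

variable (P : ValuationSubring _root_.Fermat.Agent.A2.Mod.Qb) (E : IntermediateField ℚ _root_.Fermat.Agent.A2.Mod.Qb) (M : ℕ)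

theorem bridge_t2E (hM : 2 ∣ M) :
    bridge E M (H189.t2E E M hM) = S18.H333.t2Om M hM := by
  apply Subtype.ext
  rw [coe_bridge]
  exact S18.H602.coeffMap_coeffEmb' (algebraMap E _root_.Fermat.Agent.A2.Mod.Qb) _

theorem bridge_t3E (hM : 3 ∣ M) :
    bridge E M (H189.t3E E M hM) = S18.H333.t3Om M hM := by
  apply Subtype.ext
  rw [coe_bridge]
  exact S18.H602.coeffMap_coeffEmb' (algebraMap E _root_.Fermat.Agent.A2.Mod.Qb) _

theorem isCoordinate_t2Om (hM : 2 ∣ M) :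
    ∃ S : Finset (S18.Mod.Om M), S18.Mod.IsCoordinate M 3 (S18.H333.t2Om M hM) S := by
  classical
  refine ⟨{0, -64}, Or.inr ⟨Or.inl ⟨rfl, S18.H333.t2Om_rel M hM, ?_⟩, ?_⟩⟩
  · intro s; simp
  · exact ⟨S18.H333.t2Z, S18.H333.t2Z_coeff_neg_one, fun k hk => S18.H333.t2Z_coeff_of_lt hk,
      S18.H333.omOf_coe M S18.H333.t2Z _, S18.H333.t2Q_mem M hM⟩

theorem isCoordinate_t3Om (hM : 3 ∣ M) :
    ∃ S : Finset (S18.Mod.Om M), S18.Mod.IsCoordinate M 2 (S18.H333.t3Om M hM) S := by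
  classical
  refine ⟨{0, -27}, Or.inr ⟨Or.inr ⟨rfl, S18.H333.t3Om_rel M hM, ?_⟩, ?_⟩⟩
  · intro s; simp
  · exact ⟨S18.H333.t3Z, S18.H333.t3Z_coeff_neg_one, fun k hk => S18.H333.t3Z_coeff_of_lt hk,
      S18.H333.omOf_coe M S18.H333.t3Z _, S18.H333.t3Q_mem M hM⟩

variable [NeZero M]

/-- **GOODRED for `q = 3`** (`2 ∣ M`). -/
theorem goodRedHyp_three (hqM : ¬ 3 ∣ M) (hM : 2 ∣ M) (hP : P.LiesOverPrime 3)
    (hdvr : IsDiscreteValuationRing (_root_.Fermat.Agent.A2.Mod.RE P E)) : GoodRedHyp P E M := by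
  haveI := hdvr
  haveI : Fact (Nat.Prime 3) := ⟨Nat.prime_three⟩
  refine H189.goodRedHyp_of_t2 P E M hP (NeZero.ne M) hM hdvr fun w VM hw hV => ?_
  obtain ⟨S, hS⟩ := isCoordinate_t2Om M hM
  have G := S18.Mod.H216.goodModel_of_partR M P E hqM hP
    (partR_bridge_cE P E M Nat.prime_three hP hw) hS
  exact ⟨goodRedAt_of_goodModel hV _ (bridge_t2E E M hM) G,
    goodRedAt_inv_of_goodModel hV _ (bridge_t2E E M hM) G⟩

/-- **GOODRED for `q = 2`** (`3 ∣ M`). -/
theorem goodRedHyp_two (hqM : ¬ 2 ∣ M) (hM : 3 ∣ M) (hP : P.LiesOverPrime 2)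
    (hdvr : IsDiscreteValuationRing (_root_.Fermat.Agent.A2.Mod.RE P E)) : GoodRedHyp P E M := by
  haveI := hdvr
  haveI : Fact (Nat.Prime 2) := ⟨Nat.prime_two⟩
  refine H189.goodRedHyp_of_t3 P E M hP (NeZero.ne M) hM hdvr fun w VM hw hV => ?_
  obtain ⟨S, hS⟩ := isCoordinate_t3Om M hM
  have G := S18.Mod.H216.goodModel_of_partR M P E hqM hP
    (partR_bridge_cE P E M Nat.prime_two hP hw) hS
  exact ⟨goodRedAt_of_goodModel hV _ (bridge_t3E E M hM) G,
    goodRedAt_inv_of_goodModel hV _ (bridge_t3E E M hM) G⟩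

/-- **GOODRED, all primes**: any level `E` with `R_E` a discrete valuation ring. -/
theorem goodRedHyp_of_dvr {q : ℕ} (hq : q.Prime) (hqM : ¬ q ∣ M) (h3 : q = 3 → 2 ∣ M)
    (h2 : q = 2 → 3 ∣ M) (hP : P.LiesOverPrime q) (hdvr : IsDiscreteValuationRing (_root_.Fermat.Agent.A2.Mod.RE P E)) :
    GoodRedHyp P E M := by
  by_cases h5 : 5 ≤ q
  · exact goodRedHyp P E M hq h5 hqM hP hdvr
  · have hq2 := hq.two_le
    have hcases : q = 2 ∨ q = 3 := by
      by_contra hne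
      have : q = 4 := by omega
      subst this
      exact absurd hq (by norm_num)
    rcases hcases with rfl | rfl
    · exact goodRedHyp_two P E M hqM (h2 rfl) hP hdvr
    · exact goodRedHyp_three P E M hqM (h3 rfl) hP hdvr

end Fermat.Agent.A2.Mod.H216

namespace Fermat.Agent.A2.Top.H216

open Fermat.Agent.A2

/-- **`Top.H994.GoodRedStatement`** (exact target of the GOODRED owners, `Top/H994/ModTop.lean`). -/
theorem goodRedStatement : Top.H994.GoodRedStatement :=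
  fun P E M q _ _ hq hqM h3 h2 hP hE =>
    Mod.H216.goodRedHyp_of_dvr P E M hq hqM h3 h2 hP hE.dvr

end Fermat.Agent.A2.Top.H216

end
end
-- ===== PACK-END A2/Mod/H216/GoodRedAll.lean

-- ===== PACK-BEGIN S35/G/H862/Model.lean
section












/-!
# S35, piece (G') — leaf MODEL (helper862)

* `s1`, `s3` : the sub-assemblies S1, S3 of `A2/Mod/Asm.lean`, UNCONDITIONAL (wiring of the leaves
  on main: L4/L5 `H751`, L6 `H553`, L7 `H900`, L8 `H31`, L9/L10 `H753`, L11 `H378`, L12 `H96`,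
  S2 `H142`, `H13.s1`, `H372.s3_of_leaves`).
* `ModelNoSepStatement` : `G.ModelStatement` WITHOUT its two `SepCoord` conjuncts;
  `modelNoSep : ModelNoSepStatement A E M q w` UNCONDITIONAL.
* `model_of : S4Statement A E M q w → G.ModelStatement A E M q w`;
* `model : G.ModelStatement A E M q w` (VERBATIM `S35/G/SpecLevel.lean`), UNCONDITIONAL
  (S4 = `H732.s4`).
-/

set_option autoImplicit false
set_option linter.style.haveILetI false
set_option linter.unusedSectionVars false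
set_option synthInstance.maxHeartbeats 400000
set_option maxHeartbeats 1600000

noncomputable section

namespace Fermat.Agent.S35.G.H862

open ModularCurve Fermat.Agent.A2.Mod

variable (A : ValuationSubring _root_.Fermat.Agent.S35.G.Qb) (E : IntermediateField ℚ _root_.Fermat.Agent.S35.G.Qb) (M q : ℕ) [NeZero M] [NeZero q]
  (w : RE A E)

/-- **S1** (two components), unconditional. -/
theorem s1 : S1Statement A E M q w :=
  H13.s1 (H553.vzeroNe A E M q w) (H31.deg E M q) (H753.indInf A E M q w)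
    (H753.indZero A E M q w)

/-- **S3** (ordinary double points), unconditional. -/
theorem s3 : S3Statement A E M q w :=
  H372.s3_of_leaves A E M q w (H751.frickeExists E) (H751.frickeCompat E M q)
    (H900.frickeStable A E M q w) (H31.deg E M q) (H378.resInf A E M q w)
    (H96.kron A E M q w) (H142.s2 A E M q w)

/-- **MODEL without `SepCoord`**: `G.ModelStatement` minus its two `SepCoord` conjuncts. -/
def ModelNoSepStatement : Prop :=
  Setting A E M q w → A2.GoodField A E → HasAux M q →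
    ∃ (V : ValuationSubring (FE E (M * q)))
      (W : FE E (M * q) ≃ₐ[E] FE E (M * q))
      (VM : ValuationSubring (FE E M)),
      IsVinf A E (M * q) V ∧ IsFricke E (M * q) W ∧ IsVinf A E M VM ∧
      GoodRedAt A E M w VM (jE E M 1 (one_dvd _)) ∧
      GoodRedAt A E M w VM (jE E M 1 (one_dvd _))⁻¹ ∧
      A2.Mod.DegStatement E M q ∧
      ∃ (cf : A2.SSChart w (chartAlg A E (M * q) (xE E M q)))
        (ci : A2.SSChart w (chartAlg A E (M * q) (xE E M q)⁻¹)),
        CutBy w (chartAlg A E (M * q) (xE E M q)) cf V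
          (V.comap (W : FE E (M * q) →+* FE E (M * q))) ∧
        CutBy w (chartAlg A E (M * q) (xE E M q)⁻¹) ci V
          (V.comap (W : FE E (M * q) →+* FE E (M * q)))

/-- **MODEL without `SepCoord`**, unconditional. -/
theorem modelNoSep : ModelNoSepStatement A E M q w := by
  intro hS _ hAux
  have hN : M * q ≠ 0 := mul_ne_zero hS.M_ne_zero hS.q_prime.ne_zero
  obtain ⟨V, hV⟩ := H553.vinfExists A E (M * q) hN hS.dvr
  obtain ⟨VM, hVM⟩ := H553.vinfExists A E M hS.M_ne_zero hS.dvr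
  obtain ⟨W, hW⟩ := H751.frickeExists E (M * q) hN
  obtain ⟨hg₁, hg₂⟩ := H216.goodRedHyp_of_dvr A E M hS.q_prime hS.q_not_dvd hAux.1 hAux.2
    hS.lies_over hS.dvr w VM hS.unif hVM
  obtain ⟨cf, hcf⟩ := exists_chart_cutBy hS (s1 A E M q w) (H142.s2 A E M q w) (s3 A E M q w)
    VM V W hVM hV hW _ _ (Or.inl ⟨rfl, rfl⟩) hg₁
  obtain ⟨ci, hci⟩ := exists_chart_cutBy hS (s1 A E M q w) (H142.s2 A E M q w) (s3 A E M q w)
    VM V W hVM hV hW _ _ (Or.inr ⟨rfl, rfl⟩) hg₂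
  exact ⟨V, W, VM, hV, hW, hVM, hg₁, hg₂, H31.deg E M q, cf, ci, hcf, hci⟩

/-- **MODEL** (`G.ModelStatement`, VERBATIM), from S4 (`SepCoord`). -/
theorem model_of (hS4 : S4Statement A E M q w) : ModelStatement A E M q w := by
  intro hS _ hAux
  have hN : M * q ≠ 0 := mul_ne_zero hS.M_ne_zero hS.q_prime.ne_zero
  obtain ⟨V, hV⟩ := H553.vinfExists A E (M * q) hN hS.dvr
  obtain ⟨VM, hVM⟩ := H553.vinfExists A E M hS.M_ne_zero hS.dvr
  obtain ⟨W, hW⟩ := H751.frickeExists E (M * q) hN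
  obtain ⟨hg₁, hg₂⟩ := H216.goodRedHyp_of_dvr A E M hS.q_prime hS.q_not_dvd hAux.1 hAux.2
    hS.lies_over hS.dvr w VM hS.unif hVM
  obtain ⟨hsf, hsi⟩ := hS4 hS VM hVM hg₁ hg₂
  obtain ⟨cf, hcf⟩ := exists_chart_cutBy hS (s1 A E M q w) (H142.s2 A E M q w) (s3 A E M q w)
    VM V W hVM hV hW _ _ (Or.inl ⟨rfl, rfl⟩) hg₁
  obtain ⟨ci, hci⟩ := exists_chart_cutBy hS (s1 A E M q w) (H142.s2 A E M q w) (s3 A E M q w)
    VM V W hVM hV hW _ _ (Or.inr ⟨rfl, rfl⟩) hg₂
  exact ⟨V, W, VM, hV, hW, hVM, hg₁, hg₂, H31.deg E M q, hsf, hsi, cf, ci, hcf, hci⟩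

/-- **MODEL** (`G.ModelStatement`, VERBATIM), UNCONDITIONAL. -/
theorem model : ModelStatement A E M q w :=
  model_of A E M q w (H732.s4 A E M q w)

end Fermat.Agent.S35.G.H862

end

end
-- ===== PACK-END S35/G/H862/Model.lean

-- ===== PACK-BEGIN Ribet/H132/WildInstC.lean
section


/-!
# RIBET wall-p, (S4) WILD case: INST-C for ANY cover node ring (helper132)

Answer to helper704 #9417 (b).  Setting of `H704/CoreOutSpec.lean` ("WILD in one paragraph"),
level `E₁` only: `B` a chart (noetherian integrally closed domain, fraction field `F`, components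
`p₁, p₂` of `w = 0`), `L / F` finite Galois with group generated by `τ`, `(D, D')` a unit pair of
exponent `N` prime to `p`, `τ f' = f' · cst · G ^ p`, `cst = ε₀ w ^ (p j₀)` (PER + peu ramifié).

* `valAt_zpow`            : `ValAt` of integer powers;
* `valAt_cover_congr`     : abstract node ring `R`, ANY cover node ring `R' ⊆ L` over `R`, sheets
                            `𝒲₁, 𝒲₂` over the branches, `i N ≡ 𝒲₁(f') - 𝒲₂(f') (mod p)`:
                            the two branch valuations of `u₁ = f' · D ^ i` at `R'` are congruent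
                            modulo `p`;
* **`instC_global`**      : `∃ i : ℤ`, for EVERY crossing point `n` of `B` and EVERY cover node
                            ring `R' ⊆ L` over `B_n` (shape of the conclusion of
                            `I6.CoverNodeStatement`): `v₁(f' D ^ i) ≡ v₂(f' D ^ i) (mod p)` at `R'`.
                            (`δ` is global because all branch valuation rings over `B_{pᵢ}` are
                            conjugate under `τ` and `p ∣ v(cst)`.)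
  So `H704.CoreOut.NodePureTameStatement` (A3) applies to `u₁` at every `R'`.
-/

set_option autoImplicit false
set_option linter.unusedSectionVars false
set_option linter.style.haveILetI false
set_option linter.unusedVariables false

namespace Fermat.Agent.Ribet.H132

open Fermat.Agent.Ribet.H704 Fermat.Agent.A2 Fermat.Agent.A2.H849 Fermat.Agent.A2.Alg.H132
  Fermat.Agent.A2.H609

section ValZpow

variable {R : Type*} [CommRing R] [IsDomain R] [IsNoetherianRing R] [IsIntegrallyClosed R]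
variable {K : Type*} [Field K] [Algebra R K] [IsFractionRing R K]
variable {π : R} {𝔭 𝔮 : Ideal R}

theorem valAt_zpow (h : VertData π 𝔭 𝔮) {u : K} {v : ℤ} (hv : I6.ValAt K 𝔭 π u v) (n : ℤ) :
    I6.ValAt K 𝔭 π (u ^ n) (n * v) := by
  rcases Int.eq_nat_or_neg n with ⟨m, rfl | rfl⟩
  · rw [zpow_natCast]; exact valAt_pow h hv m
  · rw [zpow_neg, zpow_natCast]
    have := valAt_inv h (valAt_pow h hv m)
    have e : -((m : ℤ) * v) = -(m : ℤ) * v := by ring
    rwa [e] at this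

end ValZpow

section Node

variable {R K L : Type} [CommRing R] [IsDomain R] [IsIntegrallyClosed R] [IsNoetherianRing R]
  [IsLocalRing R] [Field K] [Algebra R K] [IsFractionRing R K] [Field L] [Algebra K L]
  [Algebra R L] [IsScalarTower R K L]
variable {𝔭₁ 𝔭₂ : Ideal R} {π x y : R}

/-- **INST-C at a cover node ring.**  `R'` ANY node ring in `L` above the node ring `R`;
`𝒲₁, 𝒲₂` sheets over the branches of `R`, `vₖ = 𝒲ₖ(f')`, `i N ≡ v₁ - v₂ (mod p)`.  Then the branch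
valuations of `f' · D ^ i` at `R'` are congruent modulo `p`. -/
theorem valAt_cover_congr (hN : I6.IsNode 𝔭₁ 𝔭₂ π x y)
    (R' : Subalgebra R L) [IsLocalRing R'] [IsIntegrallyClosed R'] [IsNoetherianRing R']
    [IsFractionRing R' L]
    (hN' : I6.IsNode (𝔭₁.map (algebraMap R R')) (𝔭₂.map (algebraMap R R'))
      (algebraMap R R' π) (algebraMap R R' x) (algebraMap R R' y))
    (hc₁ : ∀ a : R, algebraMap R R' a ∈ 𝔭₁.map (algebraMap R R') → a ∈ 𝔭₁)
    (hc₂ : ∀ a : R, algebraMap R R' a ∈ 𝔭₂.map (algebraMap R R') → a ∈ 𝔭₂)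
    [FiniteDimensional K L] [IsGalois K L] (τ : L ≃ₐ[K] L)
    (hgen : ∀ σ : L ≃ₐ[K] L, σ ∈ Subgroup.zpowers τ)
    {p N : ℕ} {D D' : R} (hD : I6.IsUnitPair 𝔭₁ 𝔭₂ π D D' N)
    {f' c G : L} (hf' : f' ≠ 0) (hG : G ≠ 0) (hτ : τ f' = f' * c * G ^ p)
    {ε₀ : R} (hε₀ : IsUnit ε₀) {j₀ : ℤ}
    (hc : c = algebraMap R L ε₀ * (algebraMap R L π) ^ ((p : ℤ) * j₀))
    (𝒲₁ 𝒲₂ : ValuationSubring L)
    (h𝒲₁ : 𝒲₁.comap (algebraMap K L) = vertVal (F := K) (vertData_left hN))
    (h𝒲₂ : 𝒲₂.comap (algebraMap K L) = vertVal (F := K) (vertData_right hN))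
    {v₁ v₂ : ℤ} (hv₁ : IsWVal 𝒲₁ (algebraMap R L π) f' v₁)
    (hv₂ : IsWVal 𝒲₂ (algebraMap R L π) f' v₂)
    {i : ℤ} (hi : (p : ℤ) ∣ i * N - (v₁ - v₂)) {w₁ w₂ : ℤ}
    (hw₁ : I6.ValAt L (𝔭₁.map (algebraMap R R')) (algebraMap R R' π)
      (f' * (algebraMap R L D) ^ i) w₁)
    (hw₂ : I6.ValAt L (𝔭₂.map (algebraMap R R')) (algebraMap R R' π)
      (f' * (algebraMap R L D) ^ i) w₂) :
    (p : ℤ) ∣ w₁ - w₂ := by
  have hB₁ := branchData_left hN
  have hB₂ := branchData_right hN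
  have hB₁' := branchData_left hN'
  have hB₂' := branchData_right hN'
  obtain ⟨a₁, ha₁⟩ := exists_valAt (K := L) hB₁'.vert hf'
  obtain ⟨a₂, ha₂⟩ := exists_valAt (K := L) hB₂'.vert hf'
  have hcong₁ := valAt_congr_sheet hB₁ hB₁' hc₁ τ hgen 𝒲₁ h𝒲₁ hG hτ hε₀ hc hv₁ ha₁
  have hcong₂ := valAt_congr_sheet hB₂ hB₂' hc₂ τ hgen 𝒲₂ h𝒲₂ hG hτ hε₀ hc hv₂ ha₂
  -- valuations of `D`
  have hD₁ : I6.ValAt L (𝔭₁.map (algebraMap R R')) (algebraMap R R' π) (algebraMap R L D) 0 :=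
    valAt_of_notMem (K := L) hB₁'.vert (a := algebraMap R R' D) (fun hm => hD.hD (hc₁ _ hm))
  have hD₂ : I6.ValAt L (𝔭₂.map (algebraMap R R')) (algebraMap R R' π) (algebraMap R L D) N := by
    have hD'0 : algebraMap R L D' ≠ 0 := by
      rw [IsScalarTower.algebraMap_apply R K L]
      exact (map_ne_zero _).2 (algebraMap_ne_zero (fun h0 => hD.hD' (h0 ▸ 𝔭₂.zero_mem)))
    have e : algebraMap R L D = (algebraMap R L π) ^ N * (algebraMap R L D')⁻¹ := by
      rw [← map_pow, ← hD.mul_eq, map_mul]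
      field_simp
    have h1 : I6.ValAt L (𝔭₂.map (algebraMap R R')) (algebraMap R R' π) (algebraMap R L D') 0 :=
      valAt_of_notMem (K := L) hB₂'.vert (a := algebraMap R R' D') (fun hm => hD.hD' (hc₂ _ hm))
    have h2 := valAt_mul hB₂'.vert (valAt_pow hB₂'.vert (valAt_pi (K := L) hB₂'.vert) N)
      (valAt_inv hB₂'.vert h1)
    rw [e]
    have e2 : ((N : ℤ) * 1 + -0) = (N : ℤ) := by ring
    rw [e2] at h2
    exact h2
  have h1 := valAt_mul hB₁'.vert ha₁ (valAt_zpow hB₁'.vert hD₁ i)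
  have h2 := valAt_mul hB₂'.vert ha₂ (valAt_zpow hB₂'.vert hD₂ i)
  have e1 := valAt_unique hB₁'.vert hw₁ h1
  have e2 := valAt_unique hB₂'.vert hw₂ h2
  rw [e1, e2]
  have : a₁ + i * 0 - (a₂ + i * (N : ℤ)) = (a₁ - v₁) - (a₂ - v₂) - (i * N - (v₁ - v₂)) := by ring
  rw [this]
  exact dvd_sub (dvd_sub hcong₁ hcong₂) hi

end Node

section Global

variable {B F L : Type} [CommRing B] [IsDomain B] [IsNoetherianRing B] [IsIntegrallyClosed B]
  [Field F] [Algebra B F] [IsFractionRing B F] [Field L] [Algebra F L]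

/-- **INST-C, global form** (helper704 #9417 (b)).  There is ONE exponent `i` such that at EVERY
cover node ring `R' ⊆ L` over EVERY crossing point `n` of the chart `B`, the two branch
valuations of `u₁ = f' · D ^ i` are congruent modulo `p`.  (No hypothesis on how `R'` was
constructed; `R'` has the shape of the conclusion of `I6.CoverNodeStatement` over `B_n`.) -/
theorem instC_global [FiniteDimensional F L] [IsGalois F L]
    {w : B} {p₁ p₂ : Ideal B} [hp₁ : p₁.IsPrime] [hp₂ : p₂.IsPrime]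
    (hinf : p₁ ⊓ p₂ = Ideal.span {w}) (h₁₂ : ¬ p₁ ≤ p₂) (h₂₁ : ¬ p₂ ≤ p₁)
    (τ : L ≃ₐ[F] L) (hgen : ∀ σ : L ≃ₐ[F] L, σ ∈ Subgroup.zpowers τ)
    {p N : ℕ} (hNp : Nat.Coprime N p) {D D' : B} (hDmul : D * D' = w ^ N) (hD₁ : D ∉ p₁)
    (hD₂ : D' ∉ p₂)
    {f' cst G : L} (hf' : f' ≠ 0) (hG : G ≠ 0) (hτ : τ f' = f' * cst * G ^ p)
    {ε₀ : B} (hε₀ : IsUnit ε₀) {j₀ : ℤ}
    (hcst : cst = algebraMap F L (algebraMap B F ε₀ * (algebraMap B F w) ^ ((p : ℤ) * j₀))) :
    ∃ i : ℤ, ∀ (n : Ideal B) (_ : n.IsPrime), p₁ ≤ n → p₂ ≤ n → ∀ (x y : locAt F n),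
      I6.IsNode (p₁.map (algebraMap B (locAt F n))) (p₂.map (algebraMap B (locAt F n)))
        (algebraMap B (locAt F n) w) x y →
      ∀ (R' : Subalgebra (locAt F n) L) (_ : IsLocalRing R'), IsIntegrallyClosed R' →
        IsNoetherianRing R' → IsFractionRing R' L →
        I6.IsNode
          ((p₁.map (algebraMap B (locAt F n))).map (algebraMap (locAt F n) R'))
          ((p₂.map (algebraMap B (locAt F n))).map (algebraMap (locAt F n) R'))
          (algebraMap (locAt F n) R' (algebraMap B (locAt F n) w))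
          (algebraMap (locAt F n) R' x) (algebraMap (locAt F n) R' y) →
        (∀ a : locAt F n, algebraMap (locAt F n) R' a ∈
            (p₁.map (algebraMap B (locAt F n))).map (algebraMap (locAt F n) R') →
          a ∈ p₁.map (algebraMap B (locAt F n))) →
        (∀ a : locAt F n, algebraMap (locAt F n) R' a ∈
            (p₂.map (algebraMap B (locAt F n))).map (algebraMap (locAt F n) R') →
          a ∈ p₂.map (algebraMap B (locAt F n))) →
        ∀ w₁ w₂ : ℤ,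
          I6.ValAt L ((p₁.map (algebraMap B (locAt F n))).map (algebraMap (locAt F n) R'))
            (algebraMap (locAt F n) R' (algebraMap B (locAt F n) w))
            (f' * (algebraMap F L (algebraMap B F D)) ^ i) w₁ →
          I6.ValAt L ((p₂.map (algebraMap B (locAt F n))).map (algebraMap (locAt F n) R'))
            (algebraMap (locAt F n) R' (algebraMap B (locAt F n) w))
            (f' * (algebraMap F L (algebraMap B F D)) ^ i) w₂ →
          (p : ℤ) ∣ w₁ - w₂ := by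
  classical
  by_cases hex : ∃ (n₀ : Ideal B) (_ : n₀.IsPrime) (_ : p₁ ≤ n₀) (_ : p₂ ≤ n₀)
      (x₀ y₀ : locAt F n₀)
      (_ : I6.IsNode (p₁.map (algebraMap B (locAt F n₀))) (p₂.map (algebraMap B (locAt F n₀)))
        (algebraMap B (locAt F n₀) w) x₀ y₀)
      (R'₀ : Subalgebra (locAt F n₀) L) (_ : IsLocalRing R'₀) (_ : IsIntegrallyClosed R'₀)
      (_ : IsNoetherianRing R'₀) (_ : IsFractionRing R'₀ L)
      (_ : I6.IsNode
          ((p₁.map (algebraMap B (locAt F n₀))).map (algebraMap (locAt F n₀) R'₀))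
          ((p₂.map (algebraMap B (locAt F n₀))).map (algebraMap (locAt F n₀) R'₀))
          (algebraMap (locAt F n₀) R'₀ (algebraMap B (locAt F n₀) w))
          (algebraMap (locAt F n₀) R'₀ x₀) (algebraMap (locAt F n₀) R'₀ y₀)),
      (∀ a : locAt F n₀, algebraMap (locAt F n₀) R'₀ a ∈
            (p₁.map (algebraMap B (locAt F n₀))).map (algebraMap (locAt F n₀) R'₀) →
          a ∈ p₁.map (algebraMap B (locAt F n₀))) ∧
      (∀ a : locAt F n₀, algebraMap (locAt F n₀) R'₀ a ∈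
            (p₂.map (algebraMap B (locAt F n₀))).map (algebraMap (locAt F n₀) R'₀) →
          a ∈ p₂.map (algebraMap B (locAt F n₀)))
  swap
  · exact ⟨0, fun n hn h₁ h₂ x y hN R' hloc hic hno hfr hN' hc₁ hc₂ w₁ w₂ _ _ =>
      absurd ⟨n, hn, h₁, h₂, x, y, hN, R', hloc, hic, hno, hfr, hN', hc₁, hc₂⟩ hex⟩
  obtain ⟨n₀, hn₀, h₁z, h₂z, x₀, y₀, hN₀, R'₀, hloc₀, hic₀, hno₀, hfr₀, hN'₀, hc₁z, hc₂z⟩ := hex
  have hw0 : w ≠ 0 := fun h0 => isNode_pi_ne_zero hN₀ (by rw [h0, map_zero])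
  have hV₁ : VertData w p₁ p₂ := ⟨hp₁, hw0, h₂₁, hinf⟩
  have hV₂ : VertData w p₂ p₁ := ⟨hp₂, hw0, h₁₂, by rw [inf_comm]; exact hinf⟩
  -- the reference sheets
  set 𝒲₁ : ValuationSubring L := vertVal (F := L) (vertData_left hN'₀) with h𝒲₁def
  set 𝒲₂ : ValuationSubring L := vertVal (F := L) (vertData_right hN'₀) with h𝒲₂def
  have hco₁ : 𝒲₁.comap (algebraMap F L) = vertVal (F := F) hV₁ := by
    rw [h𝒲₁def, vertVal_comap (vertData_left hN₀) (vertData_left hN'₀) (algebraMap F L)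
      (algebraMap (locAt F n₀) R'₀) (algebraMap_tower R'₀) (fun r hr hm => hr (hc₁z r hm)) rfl]
    exact vertVal_locAt_eq h₁z hV₁ (vertData_left hN₀)
  have hco₂ : 𝒲₂.comap (algebraMap F L) = vertVal (F := F) hV₂ := by
    rw [h𝒲₂def, vertVal_comap (vertData_right hN₀) (vertData_right hN'₀) (algebraMap F L)
      (algebraMap (locAt F n₀) R'₀) (algebraMap_tower R'₀) (fun r hr hm => hr (hc₂z r hm)) rfl]
    exact vertVal_locAt_eq h₂z hV₂ (vertData_right hN₀)
  obtain ⟨v₁, hv₁⟩ := exists_valAt (K := L) (vertData_left hN'₀) hf'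
  obtain ⟨v₂, hv₂⟩ := exists_valAt (K := L) (vertData_right hN'₀) hf'
  have hW₁ : IsWVal 𝒲₁ (algebraMap F L (algebraMap B F w)) f' v₁ := by
    obtain ⟨h1, h2, h0⟩ := (valAt_iff (vertData_left hN'₀) f' v₁).1 hv₁
    exact ⟨h0, h1, h2⟩
  have hW₂ : IsWVal 𝒲₂ (algebraMap F L (algebraMap B F w)) f' v₂ := by
    obtain ⟨h1, h2, h0⟩ := (valAt_iff (vertData_right hN'₀) f' v₂).1 hv₂
    exact ⟨h0, h1, h2⟩
  -- the exponent
  have hcop : IsCoprime (N : ℤ) (p : ℤ) := Nat.isCoprime_iff_coprime.2 hNp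
  obtain ⟨a, b, hab⟩ := hcop
  refine ⟨a * (v₁ - v₂), fun n hn h₁ h₂ x y hN R' hloc hic hno hfr hN' hc₁ hc₂ w₁ w₂ hw₁ hw₂ => ?_⟩
  haveI := hn
  haveI := hloc
  haveI := hic
  haveI := hno
  haveI := hfr
  have hi : (p : ℤ) ∣ a * (v₁ - v₂) * N - (v₁ - v₂) := by
    refine ⟨-b * (v₁ - v₂), ?_⟩
    linear_combination (v₁ - v₂) * hab
  have hD : I6.IsUnitPair (p₁.map (algebraMap B (locAt F n))) (p₂.map (algebraMap B (locAt F n)))
      (algebraMap B (locAt F n) w) (algebraMap B (locAt F n) D) (algebraMap B (locAt F n) D') N :=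
    ⟨by rw [← map_mul, hDmul, map_pow],
      fun hm => hD₁ ((algebraMap_mem_map_iff h₁ D).1 hm),
      fun hm => hD₂ ((algebraMap_mem_map_iff h₂ D').1 hm)⟩
  have hc : cst = algebraMap (locAt F n) L (algebraMap B (locAt F n) ε₀) *
      (algebraMap (locAt F n) L (algebraMap B (locAt F n) w)) ^ ((p : ℤ) * j₀) := by
    rw [hcst, map_mul, map_zpow₀]
    rfl
  exact valAt_cover_congr (R := locAt F n) (K := F) (L := L) hN R' hN' hc₁ hc₂ τ hgen hD hf' hG
    hτ (hε₀.map _) hc 𝒲₁ 𝒲₂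
    (hco₁.trans (vertVal_locAt_eq h₁ hV₁ (vertData_left hN)).symm)
    (hco₂.trans (vertVal_locAt_eq h₂ hV₂ (vertData_right hN)).symm) hW₁ hW₂ hi hw₁ hw₂

end Global

end Fermat.Agent.Ribet.H132

end
-- ===== PACK-END Ribet/H132/WildInstC.lean

-- ===== PACK-BEGIN Ribet/H703/NormConst.lean
section
/-
# RIBET row 38, WALL-p, (S4)/EIS: leaf NORM-CONST   (helper703)

Frame: `FF N = ℚ̄(X₀(N)) ⊆ ℚ̄((t))`, level `N = M * p`, degeneracy maps
`α = heckeAlphaBar ℚ̄ M p`, `β = heckeBetaBar ℚ̄ M p : FF M → FF (M * p)`, norms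
`N_α = normAlong α`, `N_β = normAlong β`, Hecke norm `heckeNorm N ℓ = N_{α_ℓ} ∘ β_ℓ`,
Galois acting on the coefficients (`H528.gal`), `lcF` = leading coefficient.

**Function-level Hecke equivariance of the degeneracy norms** (`ℓ ≠ p` primes):
    `N_α (heckeNorm (M p) ℓ f) = heckeNorm M ℓ (N_α f)`,   the same for `N_β`
(norm transitivity + the norm compatibility squares of helper801).

**NORM-CONST.**  `f` a Kummer generator of a class `x ∈ J₀(M p)[p]` (`div f = p·D`), `p` odd,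
`p ∤ M`, `T_ℓ x = a·x` with `p ∤ a - (ℓ+1)` (non-Eisenstein at ONE prime `ℓ ∤ M p`), `f` fixed by a
set `H` of Galois automorphisms.  Then
    `lcF (N_β f) = lcF (N_α f) · v ^ p`,  `σ v = v` for `σ ∈ H`.
Consequently (`normConst_bar`): if `N_α f = e_α · h_A ^ p`, `N_β f = e_β · h_B ^ p` with
`e_α, e_β` constants and `h_A, h_B ∈ FF M`, all `H`-fixed, then `e_β = e_α · v ^ p` with `v`
`H`-fixed: after replacing `h_B` by `v · h_B` the two norms have THE SAME constant, which is the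
hypothesis of `H232.wnc_both` (norm contraction with one root at both `V∞` and `V₀`).

Proof.  `heckeNorm f = c · f ^ a · g ^ p`, `lcF g = 1`, `c`, `g` `H`-fixed (`SplitConst.lean`).
Apply `N_α`: `heckeNorm_M (N_α f) = c^{p+1} · (N_α f)^a · (N_α g)^p`; leading coefficients and
`lcF (heckeNorm h)² = (lcF h)^{2(ℓ+1)}` give `A^{2(ℓ+1-a)} = c^{2(p+1)} · lcF(N_α g)^{2p}` for
`A = lcF (N_α f)`; the same for `β` with the SAME `c^{2(p+1)}`; divide and apply Bezout.
-/





set_option autoImplicit false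
set_option linter.style.haveILetI false
set_option linter.unusedSectionVars false
set_option synthInstance.maxHeartbeats 400000
set_option maxHeartbeats 1000000

noncomputable section

namespace Fermat.Agent.Ribet.H703

open AlgebraicCurve ModularCurve HahnSeries
open Fermat.Agent.S24 Fermat.Agent.A2.H528 Fermat.Agent.S29.H395
  Fermat.Agent.S37.H818 Fermat.Agent.S29.H801

/-! ## Abstract norms -/

section Abstract

variable {K F F' F'' : Type*} [Field K] [Field F] [Field F'] [Field F''] [Algebra K F]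
  [Algebra K F'] [Algebra K F'']

/-- Transitivity of the norm. -/
theorem normAlong_comp (ψ : F →ₐ[K] F') (ψ' : F' →ₐ[K] F'') (g : F'') :
    normAlong (ψ'.comp ψ) g = normAlong ψ (normAlong ψ' g) := by
  letI a1 : Algebra F F' := algebraAlong ψ
  letI a2 : Algebra F' F'' := algebraAlong ψ'
  letI a3 : Algebra F F'' := algebraAlong (ψ'.comp ψ)
  haveI : IsScalarTower F F' F'' := IsScalarTower.of_algebraMap_eq fun x => rfl
  exact (Algebra.norm_norm (R := F) (S := F') (A := F'')).symm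

/-- Transport of the norm by a pair of ring automorphisms. -/
theorem normAlong_ringEquiv (φ ψ : F →ₐ[K] F') (e : F ≃+* F) (e' : F' ≃+* F')
    (h : ∀ x, e' (φ x) = ψ (e x)) (g : F') :
    normAlong ψ (e' g) = e (normAlong φ g) := by
  have h1 := @Algebra.norm_eq_of_equiv_equiv F F' F F' _ _ _ _ (algebraAlong φ) (algebraAlong ψ)
    e e' (by
      ext x
      exact (h x).symm) g
  unfold normAlong
  rw [h1, RingEquiv.apply_symm_apply]

/-- The norm of a constant. -/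
theorem normAlong_algebraMap (ψ : F →ₐ[K] F') (c : K) :
    normAlong ψ (algebraMap K F' c) = algebraMap K F c ^ finrankAlong K ψ := by
  letI := algebraAlong ψ
  have h : algebraMap K F' c = algebraMap F F' (algebraMap K F c) := (ψ.commutes c).symm
  unfold normAlong finrankAlong
  rw [h, Algebra.norm_algebraMap]

theorem normAlong_inv703 (ψ : F →ₐ[K] F') {f : F'} (hf : f ≠ 0) :
    normAlong ψ f⁻¹ = (normAlong ψ f)⁻¹ := by
  have h1 : normAlong ψ f * normAlong ψ f⁻¹ = 1 := by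
    rw [← normAlong_mul, mul_inv_cancel₀ hf, normAlong_one]
  exact eq_inv_of_mul_eq_one_right h1

theorem normAlong_ne_zero703 (ψ : F →ₐ[K] F') {f : F'} (hf : f ≠ 0) :
    normAlong ψ f ≠ 0 := by
  intro h0
  have h1 : normAlong ψ f * normAlong ψ f⁻¹ = 1 := by
    rw [← normAlong_mul, mul_inv_cancel₀ hf, normAlong_one]
  rw [h0, zero_mul] at h1
  exact zero_ne_one h1

theorem normAlong_zpow (ψ : F →ₐ[K] F') {f : F'} (hf : f ≠ 0) (a : ℤ) :
    normAlong ψ (f ^ a) = normAlong ψ f ^ a := by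
  cases a with
  | ofNat n => rw [Int.ofNat_eq_natCast, zpow_natCast, zpow_natCast, normAlong_pow]
  | negSucc n =>
    rw [zpow_negSucc, zpow_negSucc, normAlong_inv703 ψ (pow_ne_zero _ hf), normAlong_pow]

end Abstract

/-! ## Hecke equivariance of the degeneracy norms -/

section Modular

variable (M p ℓ : ℕ) [NeZero M] [NeZero p] [NeZero ℓ]

/-- `N_α ∘ heckeNorm = heckeNorm ∘ N_α`. -/
theorem normAlpha_heckeNorm (hp : p.Prime) (hℓ : ℓ.Prime) (hne : ℓ ≠ p) (f : FF (M * p)) :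
    normAlong (heckeAlphaBar Kbar M p) (heckeNorm (M * p) ℓ f)
      = heckeNorm M ℓ (normAlong (heckeAlphaBar Kbar M p) f) := by
  have hc : M * ℓ * p = M * p * ℓ := Nat.mul_right_comm M ℓ p
  have hNC := Fermat.Agent.Ribet.H801.normCompat_bar_to M p ℓ (M * p * ℓ) hℓ hp hne hc rfl
  unfold heckeNorm
  rw [← normAlong_comp, rel_AA (L := Kbar) M p ℓ, normAlong_comp]
  congr 1
  exact hNC f

/-- `N_β ∘ heckeNorm = heckeNorm ∘ N_β`. -/
theorem normBeta_heckeNorm (hp : p.Prime) (hℓ : ℓ.Prime) (hne : ℓ ≠ p) (f : FF (M * p)) :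
    normAlong (heckeBetaBar Kbar M p) (heckeNorm (M * p) ℓ f)
      = heckeNorm M ℓ (normAlong (heckeBetaBar Kbar M p) f) := by
  have hNC := Fermat.Agent.Ribet.H801.normCompat_beta_bar M p ℓ hp hℓ hne
  unfold heckeNorm
  rw [← normAlong_comp, ← rel_sq₁ (L := Kbar) M p ℓ, normAlong_comp]
  congr 1
  exact hNC f

/-- `N_α` commutes with the Galois action on the coefficients. -/
theorem gal_normAlpha (σ : Kbar ≃ₐ[ℚ] Kbar) (f : FF (M * p)) :
    gal M σ (normAlong (heckeAlphaBar Kbar M p) f)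
      = normAlong (heckeAlphaBar Kbar M p) (gal (M * p) σ f) := by
  refine (normAlong_ringEquiv (heckeAlphaBar Kbar M p) (heckeAlphaBar Kbar M p) (gal M σ)
    (gal (M * p) σ) (fun x => ?_) f).symm
  apply Subtype.ext
  show coeffMap (σ : Kbar →+* Kbar) ((heckeAlphaBar Kbar M p x : FF (M * p)) : LaurentSeries Kbar)
    = ((heckeAlphaBar Kbar M p (gal M σ x) : FF (M * p)) : LaurentSeries Kbar)
  rw [coe_heckeAlphaBar, coe_heckeAlphaBar]
  rfl

/-- `N_β` commutes with the Galois action on the coefficients. -/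
theorem gal_normBeta (σ : Kbar ≃ₐ[ℚ] Kbar) (f : FF (M * p)) :
    gal M σ (normAlong (heckeBetaBar Kbar M p) f)
      = normAlong (heckeBetaBar Kbar M p) (gal (M * p) σ f) := by
  refine (normAlong_ringEquiv (heckeBetaBar Kbar M p) (heckeBetaBar Kbar M p) (gal M σ)
    (gal (M * p) σ) (fun x => ?_) f).symm
  apply Subtype.ext
  show coeffMap (σ : Kbar →+* Kbar) ((heckeBetaBar Kbar M p x : FF (M * p)) : LaurentSeries Kbar)
    = ((heckeBetaBar Kbar M p (gal M σ x) : FF (M * p)) : LaurentSeries Kbar)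
  rw [coe_heckeBetaBar, coe_heckeBetaBar, coeffMap_qExpand]
  rfl

end Modular

/-! ## The Kummer relation with rationality -/

section KummerFixed

variable (N : ℕ) [NeZero N] (p ℓ : ℕ) [NeZero ℓ]

/-- **Kummer relation of an eigenclass, with rationality**: `heckeNorm f = c · f ^ a · g ^ p`,
`lcF g = 1`, and `c`, `g` are fixed by every Galois automorphism fixing `f`. -/
theorem exists_kummer_rel_fixed (hp : p.Prime) (hℓ : ℓ.Prime) (hℓN : ¬ ℓ ∣ N)
    (f : FF N) (hf0 : f ≠ 0)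
    (D : Divisor.degZero (K := Kbar) (F := FF N))
    (hD : ∀ v : Place Kbar (FF N), v.ord f = (p : ℤ) * (D : Divisor Kbar (FF N)) v)
    (a : ℤ) (hT : heckeOperatorBar N ⟨ℓ, hℓ⟩ (Pic0.mk D) = a • Pic0.mk D)
    (H : Set (Kbar ≃ₐ[ℚ] Kbar)) (hH : ∀ σ ∈ H, gal N σ f = f) :
    ∃ (c : Kbar) (g : FF N), c ≠ 0 ∧ g ≠ 0 ∧ lcF N g = 1 ∧
      heckeNorm N ℓ f = algebraMap Kbar (FF N) c * f ^ a * g ^ p ∧
      (∀ σ ∈ H, σ c = c) ∧ (∀ σ ∈ H, gal N σ g = g) := by
  obtain ⟨c, g, hc, hg, hlg, hrel⟩ := exists_kummer_rel N p ℓ hℓ f hf0 D hD a hT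
  have hA0 : lcF N f ≠ 0 := lcF_ne_zero N hf0
  have hAa : lcF N f ^ a ≠ 0 := zpow_ne_zero a hA0
  have e1 : lcF N (heckeNorm N ℓ f) = c * lcF N f ^ a := by
    rw [hrel, map_mul, map_mul, lcF_algebraMap, map_zpow₀, map_pow, hlg, one_pow, mul_one]
  have key : ∀ σ ∈ H, σ c = c ∧ gal N σ g = g := by
    intro σ hσ
    have hσf : gal N σ f = f := hH σ hσ
    have hrelσ : heckeNorm N ℓ f
        = algebraMap Kbar (FF N) (σ c) * f ^ a * gal N σ g ^ p := by
      have h1 := congrArg (gal N σ) hrel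
      rw [gal_heckeNorm N ℓ hℓ hℓN, hσf, map_mul, map_mul, gal_algebraMap, map_zpow₀, map_pow,
        hσf] at h1
      exact h1
    have hlgσ : lcF N (gal N σ g) = 1 := by rw [lcF_gal, hlg, map_one]
    have hσc : σ c = c := by
      have h1 : lcF N (heckeNorm N ℓ f) = σ c * lcF N f ^ a := by
        rw [hrelσ, map_mul, map_mul, lcF_algebraMap, map_zpow₀, map_pow, hlgσ, one_pow, mul_one]
      rw [e1] at h1
      exact (mul_right_cancel₀ hAa h1).symm
    have hgp : gal N σ g ^ p = g ^ p := by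
      have h1 : algebraMap Kbar (FF N) c * f ^ a * gal N σ g ^ p
          = algebraMap Kbar (FF N) c * f ^ a * g ^ p := by
        rw [← hrel, hrelσ, hσc]
      have h2 : algebraMap Kbar (FF N) c * f ^ a ≠ 0 := by
        refine mul_ne_zero ?_ (zpow_ne_zero a hf0)
        rw [Ne, map_eq_zero]
        exact hc
      exact mul_left_cancel₀ h2 h1
    have hσg : gal N σ g = g := by
      have hρ : (gal N σ g * g⁻¹) ^ p = 1 := by
        rw [mul_pow, hgp, inv_pow, mul_inv_cancel₀ (pow_ne_zero p hg)]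
      have hρlc : lcF N (gal N σ g * g⁻¹) = 1 := by
        rw [map_mul, map_inv₀, hlgσ, hlg, inv_one, mul_one]
      have := eq_one_of_pow_eq_one N hp.ne_zero hρ hρlc
      rw [mul_inv_eq_one₀ hg] at this
      exact this
    exact ⟨hσc, hσg⟩
  exact ⟨c, g, hc, hg, hlg, hrel, fun σ hσ => (key σ hσ).1, fun σ hσ => (key σ hσ).2⟩

end KummerFixed

/-! ## NORM-CONST -/

section Main

variable (M p ℓ : ℕ) [NeZero M] [NeZero p] [NeZero ℓ]

/-- One side of NORM-CONST: for `ψ = α` or `β` (any `ψ` of degree `d` commuting with the Hecke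
norm), `A = lcF (N_ψ f)` satisfies `A^{2(ℓ+1)} = c^{2d} · (A^a)² · (lcF (N_ψ g)²)^p`. -/
theorem lc_norm_rel (ψ : FF M →ₐ[Kbar] FF (M * p)) (d : ℕ) (hd : finrankAlong Kbar ψ = d)
    (hℓ : ℓ.Prime) (hℓM : ¬ ℓ ∣ M)
    (hcomm : ∀ f : FF (M * p), normAlong ψ (heckeNorm (M * p) ℓ f)
      = heckeNorm M ℓ (normAlong ψ f))
    (f g : FF (M * p)) (hf0 : f ≠ 0) (c : Kbar) (a : ℤ)
    (hrel : heckeNorm (M * p) ℓ f = algebraMap Kbar (FF (M * p)) c * f ^ a * g ^ p) :
    lcF M (normAlong ψ f) ^ (2 * (ℓ + 1))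
      = (c ^ d) ^ 2 * (lcF M (normAlong ψ f) ^ a) ^ 2 * (lcF M (normAlong ψ g) ^ 2) ^ p := by
  have h1 : heckeNorm M ℓ (normAlong ψ f)
      = algebraMap Kbar (FF M) c ^ d * normAlong ψ f ^ a * normAlong ψ g ^ p := by
    rw [← hcomm, hrel, normAlong_mul, normAlong_mul, normAlong_algebraMap, hd,
      normAlong_zpow ψ hf0, normAlong_pow]
  have h2 : lcF M (heckeNorm M ℓ (normAlong ψ f))
      = c ^ d * lcF M (normAlong ψ f) ^ a * lcF M (normAlong ψ g) ^ p := by
    rw [h1, map_mul, map_mul, map_pow, lcF_algebraMap, map_zpow₀, map_pow]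
  rw [← lcF_heckeNorm_sq M ℓ hℓ hℓM, h2]
  ring

/-- **NORM-CONST, leading-coefficient form.**  See the header. -/
theorem normConst_lc (hp : p.Prime) (hp2 : p ≠ 2) (hpM : ¬ p ∣ M) (hℓ : ℓ.Prime)
    (hℓN : ¬ ℓ ∣ M * p)
    (f : FF (M * p)) (hf0 : f ≠ 0)
    (D : Divisor.degZero (K := Kbar) (F := FF (M * p)))
    (hD : ∀ v : Place Kbar (FF (M * p)),
      v.ord f = (p : ℤ) * (D : Divisor Kbar (FF (M * p))) v)
    (a : ℤ) (hT : heckeOperatorBar (M * p) ⟨ℓ, hℓ⟩ (Pic0.mk D) = a • Pic0.mk D)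
    (hNE : ¬ (p : ℤ) ∣ a - (ℓ + 1))
    (H : Set (Kbar ≃ₐ[ℚ] Kbar)) (hH : ∀ σ ∈ H, gal (M * p) σ f = f) :
    ∃ v : Kbar, v ≠ 0 ∧ (∀ σ ∈ H, σ v = v) ∧
      lcF M (normAlong (heckeBetaBar Kbar M p) f)
        = lcF M (normAlong (heckeAlphaBar Kbar M p) f) * v ^ p := by
  have hℓM : ¬ ℓ ∣ M := fun h => hℓN (h.mul_right p)
  have hne : ℓ ≠ p := fun h => hℓN (h ▸ dvd_mul_left ℓ M)
  obtain ⟨c, g, hc, hg, -, hrel, hσc, hσg⟩ :=
    exists_kummer_rel_fixed (M * p) p ℓ hp hℓ hℓN f hf0 D hD a hT H hH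
  have hdα : finrankAlong Kbar (heckeAlphaBar Kbar M p) = p + 1 :=
    Fermat.Agent.Lib.X0Deg.finrankAlong_heckeAlphaBar_of_not_dvd M p hp hpM
  have hdβ : finrankAlong Kbar (heckeBetaBar Kbar M p) = p + 1 :=
    Fermat.Agent.S37.H218.finrankAlong_heckeBetaBar_of_not_dvd M p hp hpM
  set A : Kbar := lcF M (normAlong (heckeAlphaBar Kbar M p) f) with hA
  set B : Kbar := lcF M (normAlong (heckeBetaBar Kbar M p) f) with hB
  set Gα : Kbar := lcF M (normAlong (heckeAlphaBar Kbar M p) g) with hGα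
  set Gβ : Kbar := lcF M (normAlong (heckeBetaBar Kbar M p) g) with hGβ
  have hA0 : A ≠ 0 := lcF_ne_zero M (normAlong_ne_zero703 _ hf0)
  have hB0 : B ≠ 0 := lcF_ne_zero M (normAlong_ne_zero703 _ hf0)
  have hGα0 : Gα ≠ 0 := lcF_ne_zero M (normAlong_ne_zero703 _ hg)
  have hGβ0 : Gβ ≠ 0 := lcF_ne_zero M (normAlong_ne_zero703 _ hg)
  have e1 : A ^ (2 * (ℓ + 1)) = (c ^ (p + 1)) ^ 2 * (A ^ a) ^ 2 * (Gα ^ 2) ^ p :=
    lc_norm_rel M p ℓ (heckeAlphaBar Kbar M p) (p + 1) hdα hℓ hℓM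
      (normAlpha_heckeNorm M p ℓ hp hℓ hne) f g hf0 c a hrel
  have e2 : B ^ (2 * (ℓ + 1)) = (c ^ (p + 1)) ^ 2 * (B ^ a) ^ 2 * (Gβ ^ 2) ^ p :=
    lc_norm_rel M p ℓ (heckeBetaBar Kbar M p) (p + 1) hdβ hℓ hℓM
      (normBeta_heckeNorm M p ℓ hp hℓ hne) f g hf0 c a hrel
  have hAa : A ^ a ≠ 0 := zpow_ne_zero a hA0
  have hBa : B ^ a ≠ 0 := zpow_ne_zero a hB0
  have hu0 : B / A ≠ 0 := div_ne_zero hB0 hA0
  have hcd : (c ^ (p + 1)) ^ 2 ≠ 0 := pow_ne_zero 2 (pow_ne_zero _ hc)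
  have key : (B / A) ^ (2 * (((ℓ : ℤ) + 1) - a)) = ((Gβ / Gα) ^ 2) ^ (p : ℤ) := by
    have h1 : (B / A) ^ (2 * (((ℓ : ℤ) + 1) - a))
        = (B / A) ^ ((2 * (ℓ + 1) : ℕ) : ℤ) * (((B / A) ^ a) ^ 2)⁻¹ := by
      rw [← zpow_natCast ((B / A) ^ a) 2, ← zpow_mul, ← zpow_neg, ← zpow_add₀ hu0]
      congr 1
      push_cast
      ring
    rw [h1, zpow_natCast, zpow_natCast, div_pow, div_zpow, div_pow, e1, e2, div_pow, div_pow]
    have hAa2 : (A ^ a) ^ 2 ≠ 0 := pow_ne_zero 2 hAa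
    have hBa2 : (B ^ a) ^ 2 ≠ 0 := pow_ne_zero 2 hBa
    have hGp : (Gα ^ 2) ^ p ≠ 0 := pow_ne_zero p (pow_ne_zero 2 hGα0)
    field_simp
  have hn : ¬ (p : ℤ) ∣ ((ℓ : ℤ) + 1) - a := by
    intro hd
    apply hNE
    have : a - ((ℓ : ℤ) + 1) = -(((ℓ : ℤ) + 1) - a) := by ring
    rw [this]
    exact (dvd_neg).mpr hd
  obtain ⟨α, β, hαβ⟩ := exists_zpow_eq_of_two_mul hu0 hp hp2 hn key
  refine ⟨((Gβ / Gα) ^ 2) ^ α * (B / A) ^ β,
    mul_ne_zero (zpow_ne_zero α (pow_ne_zero 2 (div_ne_zero hGβ0 hGα0))) (zpow_ne_zero β hu0),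
    ?_, ?_⟩
  · intro σ hσ
    have hσf : gal (M * p) σ f = f := hH σ hσ
    have hσg' : gal (M * p) σ g = g := hσg σ hσ
    have hσA : σ A = A := by rw [hA, ← lcF_gal, gal_normAlpha, hσf]
    have hσB : σ B = B := by rw [hB, ← lcF_gal, gal_normBeta, hσf]
    have hσGα : σ Gα = Gα := by rw [hGα, ← lcF_gal, gal_normAlpha, hσg']
    have hσGβ : σ Gβ = Gβ := by rw [hGβ, ← lcF_gal, gal_normBeta, hσg']
    rw [map_mul, map_zpow₀, map_zpow₀, map_pow, map_div₀, map_div₀, hσA, hσB, hσGα, hσGβ]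
  · have h1 : B = A * (B / A) := by field_simp
    rw [← hαβ]
    exact h1

/-- **NORM-CONST.**  If `N_α f = e_α · h_A ^ p` and `N_β f = e_β · h_B ^ p` (all data fixed by
`H`), then `e_β = e_α · v ^ p` with `v` fixed by `H`. -/
theorem normConst_bar (hp : p.Prime) (hp2 : p ≠ 2) (hpM : ¬ p ∣ M) (hℓ : ℓ.Prime)
    (hℓN : ¬ ℓ ∣ M * p)
    (f : FF (M * p)) (hf0 : f ≠ 0)
    (D : Divisor.degZero (K := Kbar) (F := FF (M * p)))
    (hD : ∀ v : Place Kbar (FF (M * p)),
      v.ord f = (p : ℤ) * (D : Divisor Kbar (FF (M * p))) v)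
    (a : ℤ) (hT : heckeOperatorBar (M * p) ⟨ℓ, hℓ⟩ (Pic0.mk D) = a • Pic0.mk D)
    (hNE : ¬ (p : ℤ) ∣ a - (ℓ + 1))
    (H : Set (Kbar ≃ₐ[ℚ] Kbar)) (hH : ∀ σ ∈ H, gal (M * p) σ f = f)
    (eα eβ : Kbar) (hA hB : FF M)
    (hNα : normAlong (heckeAlphaBar Kbar M p) f = algebraMap Kbar (FF M) eα * hA ^ p)
    (hNβ : normAlong (heckeBetaBar Kbar M p) f = algebraMap Kbar (FF M) eβ * hB ^ p)
    (hHA : ∀ σ ∈ H, gal M σ hA = hA) (hHB : ∀ σ ∈ H, gal M σ hB = hB) :
    ∃ v : Kbar, v ≠ 0 ∧ (∀ σ ∈ H, σ v = v) ∧ eβ = eα * v ^ p := by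
  obtain ⟨v, hv0, hvH, hv⟩ := normConst_lc M p ℓ hp hp2 hpM hℓ hℓN f hf0 D hD a hT hNE H hH
  have hNα0 : normAlong (heckeAlphaBar Kbar M p) f ≠ 0 := normAlong_ne_zero703 _ hf0
  have hNβ0 : normAlong (heckeBetaBar Kbar M p) f ≠ 0 := normAlong_ne_zero703 _ hf0
  have hhA : hA ≠ 0 := by
    rintro rfl
    rw [zero_pow hp.ne_zero, mul_zero] at hNα
    exact hNα0 hNα
  have hhB : hB ≠ 0 := by
    rintro rfl
    rw [zero_pow hp.ne_zero, mul_zero] at hNβ
    exact hNβ0 hNβ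
  have hlA : lcF M hA ≠ 0 := lcF_ne_zero M hhA
  have hlB : lcF M hB ≠ 0 := lcF_ne_zero M hhB
  rw [hNα, hNβ, map_mul, map_mul, lcF_algebraMap, lcF_algebraMap, map_pow, map_pow] at hv
  refine ⟨v * lcF M hA / lcF M hB, div_ne_zero (mul_ne_zero hv0 hlA) hlB, ?_, ?_⟩
  · intro σ hσ
    rw [map_div₀, map_mul, hvH σ hσ, ← lcF_gal, ← lcF_gal, hHA σ hσ, hHB σ hσ]
  · have hlBp : lcF M hB ^ p ≠ 0 := pow_ne_zero p hlB
    rw [div_pow, mul_pow]
    field_simp
    linear_combination hv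

end Main

end Fermat.Agent.Ribet.H703

end

end
-- ===== PACK-END Ribet/H703/NormConst.lean

-- ===== PACK-BEGIN Ribet/H703/NormConstE.lean
section
/-
# RIBET row 38, WALL-p, (S4)/EIS: NORM-CONST at a level `E ⊆ ℚ̄`   (helper703)

Vocabulary of `A2/Mod/Spec.lean` / `Ribet/H232` (`q := p`): `FE E N = E(X₀(N)) ⊆ E((t))`,
`normAlpha E M p`, `normBeta E M p : FE E (M p) →* FE E M`, `iota : FE E N → FF N`.

* `normConst_E` : `u ∈ FE E (M p)` with `iota u` a Kummer generator (`div = p·D`) of a class with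
  `T_ℓ [D] = a [D]`, `p ∤ a - (ℓ+1)`, `p` odd, `p ∤ M`, `ℓ ∤ M p`;
  `normAlpha u = e_α h_A^p`, `normBeta u = e_β h_B^p` (`e_α, e_β ∈ E`, `h_A, h_B ∈ FE E M`)
  ⟹ `e_β = e_α v^p` with `v ∈ E`.
* `normConst_same` : … ⟹ `normBeta u = e_α h_B'^p`: the two norms have THE SAME constant
  (hypothesis of `H232.wnc_both`).
* `deepSplit_E` : with `H232.Setting`, depth `≥ 1` at `V∞` or `V₀`: for every `s` there is ONE
  `g ≠ 0` with `u / (e_α g^p) ∈ (1 + w^s V∞) ∩ (1 + w^s V₀)`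
  ("`f_t` is strongly split over the tame level `E`", the hypothesis of COVER-NODE / INST-C).
-/




set_option autoImplicit false
set_option linter.style.haveILetI false
set_option linter.unusedSectionVars false
set_option synthInstance.maxHeartbeats 400000
set_option maxHeartbeats 1600000

noncomputable section

namespace Fermat.Agent.Ribet.H703

open AlgebraicCurve ModularCurve HahnSeries
open Fermat.Agent.S24 Fermat.Agent.A2.H528 Fermat.Agent.S29.H395
open Fermat.Agent.A2 Fermat.Agent.A2.Mod Fermat.Agent.Ribet.H232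

section Level

variable (E : IntermediateField ℚ _root_.Fermat.Agent.A2.Mod.Qb)

/-- Elements of `E` are exactly the elements of `ℚ̄` fixed by the automorphisms fixing `E`. -/
theorem mem_of_fixed (v : _root_.Fermat.Agent.A2.Mod.Qb) (hv : ∀ σ : _root_.Fermat.Agent.A2.Mod.Qb ≃ₐ[ℚ] _root_.Fermat.Agent.A2.Mod.Qb, (∀ e : E, σ (e : _root_.Fermat.Agent.A2.Mod.Qb) = (e : _root_.Fermat.Agent.A2.Mod.Qb)) → σ v = v) :
    v ∈ E := by
  haveI : Algebra.IsAlgebraic ℚ _root_.Fermat.Agent.A2.Mod.Qb := AlgebraicClosure.isAlgebraic ℚ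
  haveI : IsAlgClosure ℚ _root_.Fermat.Agent.A2.Mod.Qb := ⟨inferInstance, inferInstance⟩
  haveI : IsGalois ℚ _root_.Fermat.Agent.A2.Mod.Qb := IsAlgClosure.isGalois ℚ _root_.Fermat.Agent.A2.Mod.Qb
  have h := InfiniteGalois.fixedField_fixingSubgroup E
  rw [← h, IntermediateField.mem_fixedField_iff]
  intro σ hσ
  exact hv σ (fun e => hσ e)

/-- The image of `iota` is fixed by the automorphisms fixing `E`. -/
theorem gal_iota (N : ℕ) [NeZero N] (σ : _root_.Fermat.Agent.A2.Mod.Qb ≃ₐ[ℚ] _root_.Fermat.Agent.A2.Mod.Qb) (hσ : ∀ e : E, σ (e : _root_.Fermat.Agent.A2.Mod.Qb) = (e : _root_.Fermat.Agent.A2.Mod.Qb))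
    (y : _root_.Fermat.Agent.A2.Mod.FE E N) :
    gal N σ (T1.H669.iota E (modularFunctionFieldFull N) y)
      = T1.H669.iota E (modularFunctionFieldFull N) y := by
  apply Subtype.ext
  show coeffMap (σ : _root_.Fermat.Agent.A2.Mod.Qb →+* _root_.Fermat.Agent.A2.Mod.Qb) (coeffMap (algebraMap E _root_.Fermat.Agent.A2.Mod.Qb) (y : LaurentSeries E))
    = coeffMap (algebraMap E _root_.Fermat.Agent.A2.Mod.Qb) (y : LaurentSeries E)
  rw [coeffMap_coeffMap]
  exact coeffMap_congr (RingHom.ext fun e => hσ e) _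

variable (M p ℓ : ℕ) [NeZero M] [NeZero p] [NeZero ℓ]

/-- **NORM-CONST at level `E`.** -/
theorem normConst_E (hp : p.Prime) (hp2 : p ≠ 2) (hpM : ¬ p ∣ M) (hℓ : ℓ.Prime)
    (hℓN : ¬ ℓ ∣ M * p) (u : _root_.Fermat.Agent.A2.Mod.FE E (M * p)) (hu : u ≠ 0)
    (D : Divisor.degZero (K := Kbar) (F := FF (M * p)))
    (hD : ∀ v : Place Kbar (FF (M * p)),
      v.ord (T1.H669.iota E (modularFunctionFieldFull (M * p)) u)
        = (p : ℤ) * (D : Divisor Kbar (FF (M * p))) v)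
    (a : ℤ) (hT : heckeOperatorBar (M * p) ⟨ℓ, hℓ⟩ (Pic0.mk D) = a • Pic0.mk D)
    (hNE : ¬ (p : ℤ) ∣ a - (ℓ + 1))
    (eα eβ : E) (hA hB : _root_.Fermat.Agent.A2.Mod.FE E M)
    (hNα : normAlpha E M p u = algebraMap E (_root_.Fermat.Agent.A2.Mod.FE E M) eα * hA ^ p)
    (hNβ : normBeta E M p u = algebraMap E (_root_.Fermat.Agent.A2.Mod.FE E M) eβ * hB ^ p) :
    ∃ v : E, v ≠ 0 ∧ eβ = eα * v ^ p := by
  set H : Set (_root_.Fermat.Agent.A2.Mod.Qb ≃ₐ[ℚ] _root_.Fermat.Agent.A2.Mod.Qb) := {σ | ∀ e : E, σ (e : _root_.Fermat.Agent.A2.Mod.Qb) = (e : _root_.Fermat.Agent.A2.Mod.Qb)} with hH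
  have hNα' : normAlong (heckeAlphaBar Kbar M p) (T1.H669.iota E (modularFunctionFieldFull (M * p)) u)
      = algebraMap Kbar (FF M) (algebraMap E _root_.Fermat.Agent.A2.Mod.Qb eα)
        * T1.H669.iota E (modularFunctionFieldFull M) hA ^ p := by
    rw [← Fermat.Agent.S35.H858.iota_normAlong_alpha E M p
      (Fermat.Agent.Lib.HI.H864.finiteAlong_alpha M p) u]
    have h1 : normAlong (heckeAlphaBar E M p) u = algebraMap E (_root_.Fermat.Agent.A2.Mod.FE E M) eα * hA ^ p := hNα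
    rw [h1, map_mul, map_pow, T1.H669.iota_algebraMap]
  have hNβ' : normAlong (heckeBetaBar Kbar M p) (T1.H669.iota E (modularFunctionFieldFull (M * p)) u)
      = algebraMap Kbar (FF M) (algebraMap E _root_.Fermat.Agent.A2.Mod.Qb eβ)
        * T1.H669.iota E (modularFunctionFieldFull M) hB ^ p := by
    rw [← Fermat.Agent.S35.H858.iota_normAlong_beta E M p
      (Fermat.Agent.Lib.HI.H864.finiteAlong_beta M p) u]
    have h1 : normAlong (heckeBetaBar E M p) u = algebraMap E (_root_.Fermat.Agent.A2.Mod.FE E M) eβ * hB ^ p := hNβ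
    rw [h1, map_mul, map_pow, T1.H669.iota_algebraMap]
  obtain ⟨v, hv0, hvH, hv⟩ := normConst_bar M p ℓ hp hp2 hpM hℓ hℓN
    (T1.H669.iota E (modularFunctionFieldFull (M * p)) u) (T1.H669.iota_ne_zero E _ hu) D hD a hT hNE H
    (fun σ hσ => gal_iota E (M * p) σ hσ u)
    (algebraMap E _root_.Fermat.Agent.A2.Mod.Qb eα) (algebraMap E _root_.Fermat.Agent.A2.Mod.Qb eβ) (T1.H669.iota E (modularFunctionFieldFull M) hA)
    (T1.H669.iota E (modularFunctionFieldFull M) hB) hNα' hNβ'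
    (fun σ hσ => gal_iota E M σ hσ hA) (fun σ hσ => gal_iota E M σ hσ hB)
  have hvE : v ∈ E := mem_of_fixed E v (fun σ hσ => hvH σ hσ)
  refine ⟨⟨v, hvE⟩, fun h => hv0 (congrArg Subtype.val h), ?_⟩
  apply Subtype.ext
  show (eβ : _root_.Fermat.Agent.A2.Mod.Qb) = ((eα * (⟨v, hvE⟩ : E) ^ p : E) : _root_.Fermat.Agent.A2.Mod.Qb)
  rw [IntermediateField.coe_mul, IntermediateField.coe_pow]
  exact hv

/-- **The two norms have the same constant.** -/
theorem normConst_same (hp : p.Prime) (hp2 : p ≠ 2) (hpM : ¬ p ∣ M) (hℓ : ℓ.Prime)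
    (hℓN : ¬ ℓ ∣ M * p) (u : _root_.Fermat.Agent.A2.Mod.FE E (M * p)) (hu : u ≠ 0)
    (D : Divisor.degZero (K := Kbar) (F := FF (M * p)))
    (hD : ∀ v : Place Kbar (FF (M * p)),
      v.ord (T1.H669.iota E (modularFunctionFieldFull (M * p)) u)
        = (p : ℤ) * (D : Divisor Kbar (FF (M * p))) v)
    (a : ℤ) (hT : heckeOperatorBar (M * p) ⟨ℓ, hℓ⟩ (Pic0.mk D) = a • Pic0.mk D)
    (hNE : ¬ (p : ℤ) ∣ a - (ℓ + 1))
    (eα eβ : E) (hA hB : _root_.Fermat.Agent.A2.Mod.FE E M)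
    (hNα : normAlpha E M p u = algebraMap E (_root_.Fermat.Agent.A2.Mod.FE E M) eα * hA ^ p)
    (hNβ : normBeta E M p u = algebraMap E (_root_.Fermat.Agent.A2.Mod.FE E M) eβ * hB ^ p) :
    ∃ hB' : _root_.Fermat.Agent.A2.Mod.FE E M, normBeta E M p u = algebraMap E (_root_.Fermat.Agent.A2.Mod.FE E M) eα * hB' ^ p := by
  obtain ⟨v, -, hv⟩ := normConst_E E M p ℓ hp hp2 hpM hℓ hℓN u hu D hD a hT hNE eα eβ hA hB
    hNα hNβ
  refine ⟨algebraMap E (_root_.Fermat.Agent.A2.Mod.FE E M) v * hB, ?_⟩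
  rw [hNβ, hv, map_mul, map_pow, mul_pow]
  ring

end Level

section Deep

variable {P : ValuationSubring _root_.Fermat.Agent.A2.Mod.Qb} {E : IntermediateField ℚ _root_.Fermat.Agent.A2.Mod.Qb} {M p : ℕ} [NeZero M] [NeZero p]
  {w : _root_.Fermat.Agent.A2.Mod.RE P E}

/-- **`f_t` is strongly split over `E`.**  `u ∈ FE E (M p)` a Kummer generator of a
non-Eisenstein eigenclass, both norms `p`-th powers up to constants of `E`, depth `≥ 1` at `V∞`
or at `V₀`.  Then for every `s` there is ONE `g ≠ 0` with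
`u / (e_α g^p) ∈ (1 + w^s V∞) ∩ (1 + w^s V₀)`. -/
theorem deepSplit_E (ℓ : ℕ) [NeZero ℓ] (hS : Setting P E M p w)
    {VM : ValuationSubring (_root_.Fermat.Agent.A2.Mod.FE E M)}
    {V : ValuationSubring (_root_.Fermat.Agent.A2.Mod.FE E (M * p))} (hVM : IsVinf P E M VM) (hV : IsVinf P E (M * p) V)
    {W : _root_.Fermat.Agent.A2.Mod.FE E (M * p) ≃ₐ[E] _root_.Fermat.Agent.A2.Mod.FE E (M * p)} (hW : IsFricke E (M * p) W)
    (hp : p.Prime) (hp2 : p ≠ 2) (hpM : ¬ p ∣ M) (hℓ : ℓ.Prime)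
    (hℓN : ¬ ℓ ∣ M * p) {u : _root_.Fermat.Agent.A2.Mod.FE E (M * p)} (hu : u ≠ 0)
    (D : Divisor.degZero (K := Kbar) (F := FF (M * p)))
    (hD : ∀ v : Place Kbar (FF (M * p)),
      v.ord (T1.H669.iota E (modularFunctionFieldFull (M * p)) u)
        = (p : ℤ) * (D : Divisor Kbar (FF (M * p))) v)
    (a : ℤ) (hT : heckeOperatorBar (M * p) ⟨ℓ, hℓ⟩ (Pic0.mk D) = a • Pic0.mk D)
    (hNE : ¬ (p : ℤ) ∣ a - (ℓ + 1))
    {eα eβ : E} {hA hB : _root_.Fermat.Agent.A2.Mod.FE E M}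
    (hNα : normAlpha E M p u = algebraMap E (_root_.Fermat.Agent.A2.Mod.FE E M) eα * hA ^ p)
    (hNβ : normBeta E M p u = algebraMap E (_root_.Fermat.Agent.A2.Mod.FE E M) eβ * hB ^ p)
    (h1 : DepthE w p V 1 u ∨
      DepthE w p (V.comap (W : _root_.Fermat.Agent.A2.Mod.FE E (M * p) →+* _root_.Fermat.Agent.A2.Mod.FE E (M * p))) 1 u) (s : ℕ) :
    ∃ g : _root_.Fermat.Agent.A2.Mod.FE E (M * p), g ≠ 0 ∧
      (u * (algebraMap E (_root_.Fermat.Agent.A2.Mod.FE E (M * p)) eα * g ^ p)⁻¹ - 1) * (cE P E (M * p) w ^ s)⁻¹ ∈ V ∧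
      (u * (algebraMap E (_root_.Fermat.Agent.A2.Mod.FE E (M * p)) eα * g ^ p)⁻¹ - 1) * (cE P E (M * p) w ^ s)⁻¹
        ∈ V.comap (W : _root_.Fermat.Agent.A2.Mod.FE E (M * p) →+* _root_.Fermat.Agent.A2.Mod.FE E (M * p)) := by
  obtain ⟨hB', hNβ'⟩ := normConst_same E M p ℓ hp hp2 hpM hℓ hℓN u hu D hD a hT hNE eα eβ hA hB
    hNα hNβ
  exact wnc_both hS hVM hV hW hu hNα hNβ' h1 s

end Deep

end Fermat.Agent.Ribet.H703

end

end
-- ===== PACK-END Ribet/H703/NormConstE.lean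

-- ===== PACK-BEGIN Ribet/H944/LcConst.lean
section
/-
# RIBET row 38, WALL-p, (S4) CORE-OUT WILD: leaf LC-CONST   (helper944, wall-p architect)

Bridge between DEEP-SPLIT (helper703: `u / e_α` is deep split at `V∞` and `V₀`, where
`N_α u = e_α · h_A ^ p`) and the frame of INST-D (helper44: the cover `L₁ = K₁(h)`, `h ^ p = f_t`,
lives in `E₁((t))`, so `f_t` is normalised by LEADING COEFFICIENT `1`).

**LC-CONST.**  `f` a Kummer generator of a class `x ∈ J₀(M p)[p]`, `p` odd, `p ∤ M`,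
`T_ℓ x = a · x`, `p ∤ a - (ℓ + 1)` for ONE prime `ℓ ∤ M p`, `f` fixed by a set `H` of Galois
automorphisms.  Then
    `lcF (N_α f) = lcF f · v ^ p`,   `lcF (N_β f) = lcF f · v' ^ p`,   `v, v'` fixed by `H`.
Proof: `heckeNorm f = c · f ^ a · g ^ p`, `lcF g = 1`; leading coefficients and
`lcF (heckeNorm h)² = (lcF h)^{2(ℓ+1)}` give `c² = L^{2(ℓ+1-a)}`, `L = lcF f`; applying `N_ψ`
(`ψ = α, β`, degree `p + 1`) gives `A^{2(ℓ+1-a)} = c^{2(p+1)} · (lcF (N_ψ g)²)^p` for
`A = lcF (N_ψ f)`; so `(A / L^{p+1})^{2(ℓ+1-a)}` is a `p`-th power, and Bezout.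

Consequences at a level `E`:
* `normAlpha_const_E` : `normAlpha u = e_α · h_A ^ p` ⟹ `e_α = lc(u) · v ^ p`, `v ∈ E`;
* `deepSplit_lc` : if moreover `lc(u) = c ^ p` (e.g. `lc(u) = 1`), then `u` ITSELF is deep split:
  for every `s` there is `g ≠ 0` with `u / g ^ p ∈ (1 + w^s V∞) ∩ (1 + w^s V₀)`.
-/


set_option autoImplicit false
set_option linter.style.haveILetI false
set_option linter.unusedSectionVars false
set_option synthInstance.maxHeartbeats 400000
set_option maxHeartbeats 1600000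

noncomputable section

namespace Fermat.Agent.Ribet.H944.LcConst

open AlgebraicCurve ModularCurve HahnSeries
open Fermat.Agent.S24 Fermat.Agent.A2.H528 Fermat.Agent.S29.H395
  Fermat.Agent.S37.H818 Fermat.Agent.S29.H801
open Fermat.Agent.A2 Fermat.Agent.A2.Mod Fermat.Agent.Ribet.H232
open Fermat.Agent.Ribet.H703

section Main

variable (M p ℓ : ℕ) [NeZero M] [NeZero p] [NeZero ℓ]

/-- **LC-CONST, abstract side**: for `ψ` of degree `p + 1` commuting with the Hecke norm and with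
the Galois action. -/
theorem normAlong_lc (ψ : FF M →ₐ[Kbar] FF (M * p))
    (hd : finrankAlong Kbar ψ = p + 1)
    (hcomm : ∀ f : FF (M * p), normAlong ψ (heckeNorm (M * p) ℓ f)
      = heckeNorm M ℓ (normAlong ψ f))
    (hgal : ∀ (σ : Kbar ≃ₐ[ℚ] Kbar) (f : FF (M * p)),
      gal M σ (normAlong ψ f) = normAlong ψ (gal (M * p) σ f))
    (hp : p.Prime) (hp2 : p ≠ 2) (hℓ : ℓ.Prime) (hℓN : ¬ ℓ ∣ M * p)
    (f : FF (M * p)) (hf0 : f ≠ 0)
    (D : Divisor.degZero (K := Kbar) (F := FF (M * p)))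
    (hD : ∀ v : Place Kbar (FF (M * p)),
      v.ord f = (p : ℤ) * (D : Divisor Kbar (FF (M * p))) v)
    (a : ℤ) (hT : heckeOperatorBar (M * p) ⟨ℓ, hℓ⟩ (Pic0.mk D) = a • Pic0.mk D)
    (hNE : ¬ (p : ℤ) ∣ a - (ℓ + 1))
    (H : Set (Kbar ≃ₐ[ℚ] Kbar)) (hH : ∀ σ ∈ H, gal (M * p) σ f = f) :
    ∃ v : Kbar, v ≠ 0 ∧ (∀ σ ∈ H, σ v = v) ∧
      lcF M (normAlong ψ f) = lcF (M * p) f * v ^ p := by
  have hℓM : ¬ ℓ ∣ M := fun h => hℓN (h.mul_right p)
  obtain ⟨c, g, hc, hg, hlg, hrel, hσc, hσg⟩ :=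
    exists_kummer_rel_fixed (M * p) p ℓ hp hℓ hℓN f hf0 D hD a hT H hH
  set L : Kbar := lcF (M * p) f with hL
  set A : Kbar := lcF M (normAlong ψ f) with hA
  set G : Kbar := lcF M (normAlong ψ g) with hG
  have hL0 : L ≠ 0 := lcF_ne_zero (M * p) hf0
  have hA0 : A ≠ 0 := lcF_ne_zero M (normAlong_ne_zero703 _ hf0)
  have hG0 : G ≠ 0 := lcF_ne_zero M (normAlong_ne_zero703 _ hg)
  -- `c² = L^{2(ℓ+1-a)}`
  have e0 : lcF (M * p) (heckeNorm (M * p) ℓ f) = c * L ^ a := by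
    rw [hrel, map_mul, map_mul, lcF_algebraMap, map_zpow₀, map_pow, hlg, one_pow, mul_one]
  have e0' : (c * L ^ a) ^ 2 = L ^ (2 * (ℓ + 1)) := by
    rw [← e0]
    exact lcF_heckeNorm_sq (M * p) ℓ hℓ hℓN f
  -- the relation for `A`
  have e1 : A ^ (2 * (ℓ + 1)) = (c ^ (p + 1)) ^ 2 * (A ^ a) ^ 2 * (G ^ 2) ^ p :=
    lc_norm_rel M p ℓ ψ (p + 1) hd hℓ hℓM hcomm f g hf0 c a hrel
  have hLa : L ^ a ≠ 0 := zpow_ne_zero a hL0
  have hAa : A ^ a ≠ 0 := zpow_ne_zero a hA0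
  have hu0 : A / L ^ (p + 1) ≠ 0 := div_ne_zero hA0 (pow_ne_zero _ hL0)
  have key : (A / L ^ (p + 1)) ^ (2 * (((ℓ : ℤ) + 1) - a)) = (G ^ 2) ^ (p : ℤ) := by
    have h1 : (A / L ^ (p + 1)) ^ (2 * (((ℓ : ℤ) + 1) - a))
        = (A / L ^ (p + 1)) ^ ((2 * (ℓ + 1) : ℕ) : ℤ) * (((A / L ^ (p + 1)) ^ a) ^ 2)⁻¹ := by
      rw [← zpow_natCast ((A / L ^ (p + 1)) ^ a) 2, ← zpow_mul, ← zpow_neg, ← zpow_add₀ hu0]
      congr 1
      push_cast
      ring
    have h2 : (L ^ (p + 1)) ^ (2 * (ℓ + 1)) = (c ^ (p + 1)) ^ 2 * ((L ^ (p + 1)) ^ a) ^ 2 := by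
      have h3 : (L ^ (p + 1)) ^ (2 * (ℓ + 1)) = (L ^ (2 * (ℓ + 1))) ^ (p + 1) := by
        rw [← pow_mul, ← pow_mul, mul_comm]
      have h4 : ((L ^ (p + 1)) ^ a) ^ 2 = ((L ^ a) ^ 2) ^ (p + 1) := by
        rw [← zpow_natCast L (p + 1), ← zpow_mul, ← zpow_natCast (L ^ ((p + 1 : ℕ) * a : ℤ)) 2,
          ← zpow_mul, ← zpow_natCast (L ^ a) 2, ← zpow_mul,
          ← zpow_natCast (L ^ (a * (2 : ℕ))) (p + 1), ← zpow_mul]
        congr 1
        ring
      rw [h3, h4, ← e0', mul_pow, mul_pow, ← pow_mul, ← pow_mul, ← pow_mul, mul_comm 2 (p + 1)]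
    rw [h1, zpow_natCast, zpow_natCast, div_pow, div_zpow, div_pow, e1, h2]
    have hAa2 : (A ^ a) ^ 2 ≠ 0 := pow_ne_zero 2 hAa
    have hLa2 : ((L ^ (p + 1)) ^ a) ^ 2 ≠ 0 :=
      pow_ne_zero 2 (zpow_ne_zero a (pow_ne_zero _ hL0))
    have hcd : (c ^ (p + 1)) ^ 2 ≠ 0 := pow_ne_zero 2 (pow_ne_zero _ hc)
    field_simp
  have hn : ¬ (p : ℤ) ∣ ((ℓ : ℤ) + 1) - a := by
    intro hd'
    apply hNE
    have : a - ((ℓ : ℤ) + 1) = -(((ℓ : ℤ) + 1) - a) := by ring
    rw [this]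
    exact (dvd_neg).mpr hd'
  obtain ⟨α, β, hαβ⟩ := exists_zpow_eq_of_two_mul hu0 hp hp2 hn key
  refine ⟨L * ((G ^ 2) ^ α * (A / L ^ (p + 1)) ^ β),
    mul_ne_zero hL0 (mul_ne_zero (zpow_ne_zero α (pow_ne_zero 2 hG0)) (zpow_ne_zero β hu0)),
    ?_, ?_⟩
  · intro σ hσ
    have hσf : gal (M * p) σ f = f := hH σ hσ
    have hσg' : gal (M * p) σ g = g := hσg σ hσ
    have hσL : σ L = L := by rw [hL, ← lcF_gal, hσf]
    have hσA : σ A = A := by rw [hA, ← lcF_gal, hgal, hσf]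
    have hσG : σ G = G := by rw [hG, ← lcF_gal, hgal, hσg']
    rw [map_mul, map_mul, map_zpow₀, map_zpow₀, map_pow, map_div₀, map_pow, hσA, hσL, hσG]
  · have h1 : A = L ^ (p + 1) * (A / L ^ (p + 1)) := by
      field_simp
    rw [mul_pow, ← hαβ, ← mul_assoc, ← pow_succ']
    exact h1

/-- **LC-CONST for `N_α`.** -/
theorem normAlpha_lc (hp : p.Prime) (hp2 : p ≠ 2) (hpM : ¬ p ∣ M) (hℓ : ℓ.Prime)
    (hℓN : ¬ ℓ ∣ M * p)
    (f : FF (M * p)) (hf0 : f ≠ 0)
    (D : Divisor.degZero (K := Kbar) (F := FF (M * p)))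
    (hD : ∀ v : Place Kbar (FF (M * p)),
      v.ord f = (p : ℤ) * (D : Divisor Kbar (FF (M * p))) v)
    (a : ℤ) (hT : heckeOperatorBar (M * p) ⟨ℓ, hℓ⟩ (Pic0.mk D) = a • Pic0.mk D)
    (hNE : ¬ (p : ℤ) ∣ a - (ℓ + 1))
    (H : Set (Kbar ≃ₐ[ℚ] Kbar)) (hH : ∀ σ ∈ H, gal (M * p) σ f = f) :
    ∃ v : Kbar, v ≠ 0 ∧ (∀ σ ∈ H, σ v = v) ∧
      lcF M (normAlong (heckeAlphaBar Kbar M p) f) = lcF (M * p) f * v ^ p := by
  have hne : ℓ ≠ p := fun h => hℓN (h ▸ dvd_mul_left ℓ M)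
  exact normAlong_lc M p ℓ (heckeAlphaBar Kbar M p)
    (Fermat.Agent.Lib.X0Deg.finrankAlong_heckeAlphaBar_of_not_dvd M p hp hpM)
    (normAlpha_heckeNorm M p ℓ hp hℓ hne) (gal_normAlpha M p) hp hp2 hℓ hℓN f hf0 D hD a hT hNE
    H hH

/-- **LC-CONST for `N_β`.** -/
theorem normBeta_lc (hp : p.Prime) (hp2 : p ≠ 2) (hpM : ¬ p ∣ M) (hℓ : ℓ.Prime)
    (hℓN : ¬ ℓ ∣ M * p)
    (f : FF (M * p)) (hf0 : f ≠ 0)
    (D : Divisor.degZero (K := Kbar) (F := FF (M * p)))
    (hD : ∀ v : Place Kbar (FF (M * p)),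
      v.ord f = (p : ℤ) * (D : Divisor Kbar (FF (M * p))) v)
    (a : ℤ) (hT : heckeOperatorBar (M * p) ⟨ℓ, hℓ⟩ (Pic0.mk D) = a • Pic0.mk D)
    (hNE : ¬ (p : ℤ) ∣ a - (ℓ + 1))
    (H : Set (Kbar ≃ₐ[ℚ] Kbar)) (hH : ∀ σ ∈ H, gal (M * p) σ f = f) :
    ∃ v : Kbar, v ≠ 0 ∧ (∀ σ ∈ H, σ v = v) ∧
      lcF M (normAlong (heckeBetaBar Kbar M p) f) = lcF (M * p) f * v ^ p := by
  have hne : ℓ ≠ p := fun h => hℓN (h ▸ dvd_mul_left ℓ M)
  exact normAlong_lc M p ℓ (heckeBetaBar Kbar M p)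
    (Fermat.Agent.S37.H218.finrankAlong_heckeBetaBar_of_not_dvd M p hp hpM)
    (normBeta_heckeNorm M p ℓ hp hℓ hne) (gal_normBeta M p) hp hp2 hℓ hℓN f hf0 D hD a hT hNE
    H hH

end Main

section Level

variable (E : IntermediateField ℚ _root_.Fermat.Agent.A2.Mod.Qb)

/-- The leading coefficient of `iota u` is the leading coefficient of `u`. -/
theorem lcF_iota (N : ℕ) [NeZero N] (u : _root_.Fermat.Agent.A2.Mod.FE E N) :
    lcF N (T1.H669.iota E (modularFunctionFieldFull N) u)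
      = algebraMap E _root_.Fermat.Agent.A2.Mod.Qb (u : LaurentSeries E).leadingCoeff := by
  rw [lcF_apply]
  exact leadingCoeff_map_of_injective (algebraMap E _root_.Fermat.Agent.A2.Mod.Qb) (u : LaurentSeries E)

variable (M p ℓ : ℕ) [NeZero M] [NeZero p] [NeZero ℓ]

/-- **LC-CONST at level `E`, `N_α`.**  If `normAlpha u = e_α · h_A ^ p`, then
`e_α = lc(u) · v ^ p` with `v ∈ E`. -/
theorem normAlpha_const_E (hp : p.Prime) (hp2 : p ≠ 2) (hpM : ¬ p ∣ M) (hℓ : ℓ.Prime)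
    (hℓN : ¬ ℓ ∣ M * p) (u : _root_.Fermat.Agent.A2.Mod.FE E (M * p)) (hu : u ≠ 0)
    (D : Divisor.degZero (K := Kbar) (F := FF (M * p)))
    (hD : ∀ v : Place Kbar (FF (M * p)),
      v.ord (T1.H669.iota E (modularFunctionFieldFull (M * p)) u)
        = (p : ℤ) * (D : Divisor Kbar (FF (M * p))) v)
    (a : ℤ) (hT : heckeOperatorBar (M * p) ⟨ℓ, hℓ⟩ (Pic0.mk D) = a • Pic0.mk D)
    (hNE : ¬ (p : ℤ) ∣ a - (ℓ + 1))
    (eα : E) (hA : _root_.Fermat.Agent.A2.Mod.FE E M)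
    (hNα : normAlpha E M p u = algebraMap E (_root_.Fermat.Agent.A2.Mod.FE E M) eα * hA ^ p) :
    ∃ v : E, v ≠ 0 ∧ eα = (u : LaurentSeries E).leadingCoeff * v ^ p := by
  set H : Set (_root_.Fermat.Agent.A2.Mod.Qb ≃ₐ[ℚ] _root_.Fermat.Agent.A2.Mod.Qb) := {σ | ∀ e : E, σ (e : _root_.Fermat.Agent.A2.Mod.Qb) = (e : _root_.Fermat.Agent.A2.Mod.Qb)} with hH
  have hu' : T1.H669.iota E (modularFunctionFieldFull (M * p)) u ≠ 0 :=
    T1.H669.iota_ne_zero E _ hu
  have hNα' : normAlong (heckeAlphaBar Kbar M p)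
      (T1.H669.iota E (modularFunctionFieldFull (M * p)) u)
      = algebraMap Kbar (FF M) (algebraMap E _root_.Fermat.Agent.A2.Mod.Qb eα)
        * T1.H669.iota E (modularFunctionFieldFull M) hA ^ p := by
    rw [← Fermat.Agent.S35.H858.iota_normAlong_alpha E M p
      (Fermat.Agent.Lib.HI.H864.finiteAlong_alpha M p) u]
    have h1 : normAlong (heckeAlphaBar E M p) u = algebraMap E (_root_.Fermat.Agent.A2.Mod.FE E M) eα * hA ^ p := hNα
    rw [h1, map_mul, map_pow, T1.H669.iota_algebraMap]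
  obtain ⟨v, hv0, hvH, hv⟩ := normAlpha_lc M p ℓ hp hp2 hpM hℓ hℓN
    (T1.H669.iota E (modularFunctionFieldFull (M * p)) u) hu' D hD a hT hNE H
    (fun σ hσ => gal_iota E (M * p) σ hσ u)
  have hN0 : normAlong (heckeAlphaBar Kbar M p)
      (T1.H669.iota E (modularFunctionFieldFull (M * p)) u) ≠ 0 := normAlong_ne_zero703 _ hu'
  have hhA : T1.H669.iota E (modularFunctionFieldFull M) hA ≠ 0 := by
    intro h0
    rw [h0, zero_pow hp.ne_zero, mul_zero] at hNα'
    exact hN0 hNα'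
  have hlA : lcF M (T1.H669.iota E (modularFunctionFieldFull M) hA) ≠ 0 := lcF_ne_zero M hhA
  have hlAE : lcF M (T1.H669.iota E (modularFunctionFieldFull M) hA)
      = algebraMap E _root_.Fermat.Agent.A2.Mod.Qb (hA : LaurentSeries E).leadingCoeff := lcF_iota E M hA
  have hlA0 : (hA : LaurentSeries E).leadingCoeff ≠ 0 := by
    intro h0
    rw [hlAE, h0, map_zero] at hlA
    exact hlA rfl
  rw [hNα', map_mul, lcF_algebraMap, map_pow, hlAE, lcF_iota] at hv
  have hvE : v ∈ E := mem_of_fixed E v (fun σ hσ => hvH σ hσ)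
  refine ⟨⟨v, hvE⟩ / (hA : LaurentSeries E).leadingCoeff,
    div_ne_zero (fun h => hv0 (congrArg Subtype.val h)) hlA0, ?_⟩
  have hinj : Function.Injective (algebraMap E _root_.Fermat.Agent.A2.Mod.Qb) := (algebraMap E _root_.Fermat.Agent.A2.Mod.Qb).injective
  apply hinj
  rw [map_mul, map_pow, map_div₀]
  have hvv : algebraMap E _root_.Fermat.Agent.A2.Mod.Qb (⟨v, hvE⟩ : E) = v := rfl
  rw [hvv]
  have hlA' : algebraMap E _root_.Fermat.Agent.A2.Mod.Qb (hA : LaurentSeries E).leadingCoeff ≠ 0 := by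
    rw [← hlAE]; exact hlA
  have hlAp : algebraMap E _root_.Fermat.Agent.A2.Mod.Qb (hA : LaurentSeries E).leadingCoeff ^ p ≠ 0 := pow_ne_zero p hlA'
  rw [div_pow]
  field_simp
  exact hv

end Level

section Deep

variable {P : ValuationSubring _root_.Fermat.Agent.A2.Mod.Qb} {E : IntermediateField ℚ _root_.Fermat.Agent.A2.Mod.Qb} {M p : ℕ} [NeZero M] [NeZero p]
  {w : _root_.Fermat.Agent.A2.Mod.RE P E}

/-- **The Kummer generator with `p`-th power leading coefficient is deep split.**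
Hypotheses of `H703.deepSplit_E` and `lc(u) = c ^ p` (e.g. `lc(u) = 1`): for every `s` there is
ONE `g ≠ 0` with `u / g ^ p ∈ (1 + w^s V∞) ∩ (1 + w^s V₀)`. -/
theorem deepSplit_lc (ℓ : ℕ) [NeZero ℓ] (hS : Setting P E M p w)
    {VM : ValuationSubring (_root_.Fermat.Agent.A2.Mod.FE E M)}
    {V : ValuationSubring (_root_.Fermat.Agent.A2.Mod.FE E (M * p))} (hVM : IsVinf P E M VM) (hV : IsVinf P E (M * p) V)
    {W : _root_.Fermat.Agent.A2.Mod.FE E (M * p) ≃ₐ[E] _root_.Fermat.Agent.A2.Mod.FE E (M * p)} (hW : IsFricke E (M * p) W)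
    (hp : p.Prime) (hp2 : p ≠ 2) (hpM : ¬ p ∣ M) (hℓ : ℓ.Prime)
    (hℓN : ¬ ℓ ∣ M * p) {u : _root_.Fermat.Agent.A2.Mod.FE E (M * p)} (hu : u ≠ 0)
    (D : Divisor.degZero (K := Kbar) (F := FF (M * p)))
    (hD : ∀ v : Place Kbar (FF (M * p)),
      v.ord (T1.H669.iota E (modularFunctionFieldFull (M * p)) u)
        = (p : ℤ) * (D : Divisor Kbar (FF (M * p))) v)
    (a : ℤ) (hT : heckeOperatorBar (M * p) ⟨ℓ, hℓ⟩ (Pic0.mk D) = a • Pic0.mk D)
    (hNE : ¬ (p : ℤ) ∣ a - (ℓ + 1))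
    {eα eβ : E} {hA hB : _root_.Fermat.Agent.A2.Mod.FE E M}
    (hNα : normAlpha E M p u = algebraMap E (_root_.Fermat.Agent.A2.Mod.FE E M) eα * hA ^ p)
    (hNβ : normBeta E M p u = algebraMap E (_root_.Fermat.Agent.A2.Mod.FE E M) eβ * hB ^ p)
    (h1 : DepthE w p V 1 u ∨
      DepthE w p (V.comap (W : _root_.Fermat.Agent.A2.Mod.FE E (M * p) →+* _root_.Fermat.Agent.A2.Mod.FE E (M * p))) 1 u)
    (c : E) (hlc : (u : LaurentSeries E).leadingCoeff = c ^ p) (s : ℕ) :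
    ∃ g : _root_.Fermat.Agent.A2.Mod.FE E (M * p), g ≠ 0 ∧
      (u * (g ^ p)⁻¹ - 1) * (cE P E (M * p) w ^ s)⁻¹ ∈ V ∧
      (u * (g ^ p)⁻¹ - 1) * (cE P E (M * p) w ^ s)⁻¹
        ∈ V.comap (W : _root_.Fermat.Agent.A2.Mod.FE E (M * p) →+* _root_.Fermat.Agent.A2.Mod.FE E (M * p)) := by
  obtain ⟨g, hg0, hgV, hgW⟩ := deepSplit_E ℓ hS hVM hV hW hp hp2 hpM hℓ hℓN hu D hD a hT hNE
    hNα hNβ h1 s
  obtain ⟨v, hv0, hv⟩ := normAlpha_const_E E M p ℓ hp hp2 hpM hℓ hℓN u hu D hD a hT hNE eα hA hNα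
  have hc0 : c ≠ 0 := by
    rintro rfl
    rw [zero_pow hp.ne_zero] at hlc
    have hu1 : (u : LaurentSeries E) ≠ 0 := fun h => hu (Subtype.ext h)
    exact (leadingCoeff_ne_zero.mpr hu1) hlc
  have hkey : algebraMap E (_root_.Fermat.Agent.A2.Mod.FE E (M * p)) eα * g ^ p
      = (algebraMap E (_root_.Fermat.Agent.A2.Mod.FE E (M * p)) (c * v) * g) ^ p := by
    rw [hv, hlc, mul_pow, ← map_pow, mul_pow]
  rw [hkey] at hgV hgW
  refine ⟨algebraMap E (_root_.Fermat.Agent.A2.Mod.FE E (M * p)) (c * v) * g, mul_ne_zero ?_ hg0, hgV, hgW⟩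
  rw [Ne, map_eq_zero]
  exact mul_ne_zero hc0 hv0

end Deep

end Fermat.Agent.Ribet.H944.LcConst

end

end
-- ===== PACK-END Ribet/H944/LcConst.lean

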