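import Fermat.Statements.S29
import Fermat.Statements.S42
import Fermat.Agent.Pack.S44C.G0E27L3
import Fermat.Agent.Pack.S44C.G0E29L3
import Fermat.Agent.Pack.S44C.G0E26L0
import Fermat.Agent.Pack.S44C.G0E28L3
import Fermat.Agent.Pack.S44C.G0E27L2
import Fermat.Agent.Pack.S44C.G0E25L3
import Fermat.Agent.Pack.S44C.G0E6L1
import Fermat.Agent.Pack.S44C.G0E25L1
import Fermat.Agent.Pack.S44C.G0E3L3
import Fermat.Agent.Pack.S44C.G0E16L2
import Fermat.Agent.Pack.S44C.G0E28L0
import Fermat.Agent.Pack.S44C.G0E28L1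
import Fermat.Agent.Pack.S44C.G0E27L0
import Fermat.Agent.Pack.S44C.G0E29L0
import Fermat.Agent.Pack.S44C.G0E5L3
import Fermat.Agent.Pack.S44C.G0E27L1
import Fermat.Agent.Pack.S44C.G0E13L3
import Fermat.Agent.Pack.S44C.G0E20L1
import Fermat.Agent.Pack.S44C.G0E21L0
import Fermat.Agent.Pack.S44C.G0E29L2
import Fermat.Agent.Pack.Fast891

-- ===== PACK-BEGIN S29/Gate.lean
section
/-
S29 row — GATE (row-lead helper269): the frozen statement S29 from the S18 hub ALONE.

* `m4bStatement : M4bStatement`  — the Kummer bridge, UNCONDITIONAL (K1 `H509`, K2 `H389`,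
  K3 `M4b.K3.pieceK3`, K4 `M4b.H822` / `M4b.H395`);
* `S29_of_corePrime : CorePrimeFamily → <frozen S29>`;
* `S29_of_nodes : node_mod → node_alg → <frozen S29>`  (the two open nodes of the S18 skeleton, in
  the exact shapes of `S18/H694/CoreFamilyOfNodes.lean`).
-/




set_option autoImplicit false

namespace Fermat.Agent.S29

open CuspForm CuspForm.IsNormalizedEigenform
open Fermat.Agent.S18 (Qb CoreStatement)

/-- **The Kummer bridge (piece M4b), unconditional.** -/
theorem m4bStatement : M4bStatement :=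
  m4bStatement_of_K3 fun N _ p hp =>
    haveI : NeZero p := ⟨hp.ne_zero⟩
    M4b.K3.pieceK3 N p

/-- **The frozen statement S29 from the S18 hub (prime moduli).** -/
theorem S29_of_corePrime (hcore : CorePrimeFamily)
    {N : ℕ} {g : CuspForm (CongruenceSubgroup.Gamma0 N) 2} (hg : g.IsNormalizedEigenform)
    {p : ℕ} (hp : p.Prime) {k : Type} [Field k] [CharP k p]
    (φ : integralClosure ℤ ℂ →+* k) :
    ∃ ρ : ResidualGaloisRep k, ρ.IsAttachedTo g φ ∧
      ∀ ℓ : ℕ, ℓ.Prime → ¬ ℓ ∣ N * p → ρ.IsUnramifiedAt ℓ :=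
  S29_of_parts Fermat.Agent.Lib.Cheb.frobeniusDivision (rawES_of_corePrime hcore) M4a_statement
    m4bStatement hCohStatement hg hp φ

/-- The S18 hub for prime moduli from the two open nodes of the S18 skeleton. -/
theorem corePrimeFamily_of_nodes
    (node_mod : ∀ (M : ℕ) [NeZero M] {ℓ : ℕ} [Fact ℓ.Prime], ¬ ℓ ∣ M →
      ∀ A : ValuationSubring Qb, A.LiesOverPrime ℓ → Fermat.Agent.S18.Mod.GoodModelStatement M ℓ A)
    (node_alg : ∀ M : ℕ, Fermat.Agent.S18.Mod.AlgStatement M) : CorePrimeFamily := by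
  intro N _ ℓ p hℓ hp hℓN hℓp A hA
  have hdvd : ¬ ℓ ∣ p := fun h => hℓp ((Nat.prime_dvd_prime_iff_eq hℓ hp).mp h)
  exact Fermat.Agent.S18.H694.coreFamily_of_nodes node_mod node_alg N ℓ hℓ hℓN p hdvd A hA

/-- **The frozen statement S29 from the two open nodes of row S18.** -/
theorem S29_of_nodes
    (node_mod : ∀ (M : ℕ) [NeZero M] {ℓ : ℕ} [Fact ℓ.Prime], ¬ ℓ ∣ M →
      ∀ A : ValuationSubring Qb, A.LiesOverPrime ℓ → Fermat.Agent.S18.Mod.GoodModelStatement M ℓ A)
    (node_alg : ∀ M : ℕ, Fermat.Agent.S18.Mod.AlgStatement M)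
    {N : ℕ} {g : CuspForm (CongruenceSubgroup.Gamma0 N) 2} (hg : g.IsNormalizedEigenform)
    {p : ℕ} (hp : p.Prime) {k : Type} [Field k] [CharP k p]
    (φ : integralClosure ℤ ℂ →+* k) :
    ∃ ρ : ResidualGaloisRep k, ρ.IsAttachedTo g φ ∧
      ∀ ℓ : ℕ, ℓ.Prime → ¬ ℓ ∣ N * p → ρ.IsUnramifiedAt ℓ :=
  S29_of_corePrime (corePrimeFamily_of_nodes node_mod node_alg) hg hp φ

end Fermat.Agent.S29

end
-- ===== PACK-END S29/Gate.lean

-- ===== PACK-BEGIN Ribet/H823/EmbedWFinal.lean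
section





/-!
# Row RIBET, piece BLR-W, UNCONDITIONAL (helper823)

`embedW : Spec.EmbedWStatement` and `embed : Spec.EmbedStatement`: Boston–Lenstra–Ribet for an
irreducible `W[p]` (resp. the Frey curve), with the S29 pieces discharged by the landed S29 chain
(`S29/Gate.lean`: `rawES_of_corePrime`, `M4a_statement`, `m4bStatement`) and the two S18 nodes.
-/

set_option autoImplicit false

namespace Fermat.Agent.Ribet.H823

open Fermat.Agent.Ribet.Spec

/-- The raw Eichler–Shimura statement, unconditional (S29 chain + S18 nodes). -/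
theorem h823_rawES : Fermat.Agent.S29.RawESStatement :=
  Fermat.Agent.S29.rawES_of_corePrime
    (Fermat.Agent.S29.corePrimeFamily_of_nodes
      (fun M _ _ _ hℓM A hA => Fermat.Agent.S18.Mod.H216.node_mod M hℓM A hA)
      (fun M => Fermat.Agent.S18.H438.node_alg M))

/-- **BLR-W, unconditional.** -/
theorem embedW : EmbedWStatement :=
  embedW_of h823_rawES Fermat.Agent.S29.M4a_statement Fermat.Agent.S29.m4bStatement

/-- **BLR (Frey form), unconditional.** -/
theorem embed : EmbedStatement :=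
  embedStatement_of_S29 h823_rawES Fermat.Agent.S29.M4a_statement Fermat.Agent.S29.m4bStatement

end Fermat.Agent.Ribet.H823

end
-- ===== PACK-END Ribet/H823/EmbedWFinal.lean

-- ===== PACK-BEGIN Ribet/H404/R3S.lean
section
/-
Row RIBET, piece R3S (helper404): `Spec.EigenformOfOccursAwayStatement`, UNCONDITIONAL.

An eigensystem `a` occurring in `J₀(M)[p]` away from a finite set `S ⊇ {ℓ ∣ M·p}` is the reduction
of a normalised eigenform of level `M`.

Pure glue of three landed results: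
* ONTO  (`S30.H810.exists_isParHom_isKum_of_torsion`): every `p`-torsion class `x` of `J₀(M)(ℚ̄)`
  is the Kummer class of a parabolic character `c : Γ₀(M) → ℤ/p`;
* the Kummer package (`S30.Chain.kumPackage`): uniqueness, injectivity, additivity and
  Hecke-equivariance of the Kummer relation, so that `T_ℓ x = a_ℓ x` gives `T_ℓ c = a_ℓ c`;
* R3 core (`Lib.HFree.H412.exists_eigenform_of_eigen_isParHom`, helper412): a nonzero parabolic
  Hecke eigen-character mod `p` is congruent to a normalised eigenform.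
-/





set_option autoImplicit false
set_option linter.unusedSectionVars false

open CuspForm ModularFormClass ModularCurve

namespace Fermat.Agent.Ribet.H404

open Fermat.Agent.S29 Fermat.Agent.S29.M4b Fermat.Agent.S30.H450

variable {N m : ℕ} [NeZero N]

/-- The zero character is parabolic. -/
theorem r3s_isParHom_zero : IsParHom (0 : G0 N → ZMod m) :=
  ⟨fun _ _ => by simp, fun _ _ => rfl, fun _ _ _ _ => rfl⟩

/-- The Kummer class of the zero character is zero. -/
theorem r3s_isKum_zero (K : KumPackage N m) : IsKum N m (0 : G0 N → ZMod m) (0 : JZero N) := by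
  obtain ⟨x0, h0⟩ := K.ex 0 r3s_isParHom_zero
  have h1 := K.add 0 0 x0 x0 h0 h0
  rw [add_zero] at h1
  have hx : x0 + x0 = x0 := K.uniq 0 _ _ h1 h0
  have hx0 : x0 = 0 := by simpa using hx
  rwa [hx0] at h0

/-- Natural multiples of a Kummer pair. -/
theorem r3s_isKum_nsmul (K : KumPackage N m) {c : G0 N → ZMod m} {x : JZero N}
    (h : IsKum N m c x) (n : ℕ) : IsKum N m (n • c) (n • x) := by
  induction n with
  | zero => simpa using r3s_isKum_zero K
  | succ k ih =>
    rw [succ_nsmul, succ_nsmul]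
    exact K.add _ _ _ _ ih h

/-- Two characters with the same Kummer class (killed by `m`) coincide. -/
theorem r3s_char_unique [NeZero m] (K : KumPackage N m) {c c' : G0 N → ZMod m} {y : JZero N}
    (hy : m • y = 0) (h : IsKum N m c y) (h' : IsKum N m c' y) : c = c' := by
  obtain ⟨k, hk⟩ : ∃ k : ℕ, m = k + 1 :=
    ⟨m - 1, by have := Nat.pos_of_ne_zero (NeZero.ne m); omega⟩
  have h1 := K.add _ _ _ _ h (r3s_isKum_nsmul K h' k)
  have hyk : y + k • y = 0 := by
    rw [← hy, hk, succ_nsmul, add_comm]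
  rw [hyk] at h1
  have h2 := K.inj _ h1
  funext γ
  have h3 : c γ + (k : ZMod m) * c' γ = 0 := by
    have := congrFun h2 γ
    simpa [nsmul_eq_mul] using this
  have hk1 : (k : ZMod m) = -1 := by
    have : ((k + 1 : ℕ) : ZMod m) = 0 := by rw [← hk]; exact ZMod.natCast_self m
    push_cast at this
    linear_combination this
  rw [hk1] at h3
  linear_combination h3

/-- **R3S**: an eigensystem occurring in `J₀(M)[p]` away from `S ⊇ {ℓ ∣ M·p}` is the reduction of
a normalised eigenform of level `M`. -/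
theorem eigenformOfOccursAway : Spec.EigenformOfOccursAwayStatement := by
  intro M p _ hp S a hS hocc
  obtain ⟨x, hx0, hpx, hT⟩ := hocc
  have : NeZero p := ⟨hp.ne_zero⟩
  have hpx' : (p : ℤ) • x = 0 := by rw [natCast_zsmul]; exact hpx
  obtain ⟨c, hc, hk⟩ := Fermat.Agent.S30.H810.exists_isParHom_isKum_of_torsion M p hpx'
  have K : KumPackage M p := Fermat.Agent.S30.Chain.kumPackage M p
  -- the character is nonzero
  have hc0 : ∃ γ, c γ ≠ 0 := by
    by_contra h
    push Not at h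
    have hcz : c = 0 := funext h
    rw [hcz] at hk
    exact hx0 (K.uniq 0 _ _ hk (r3s_isKum_zero K))
  -- the character is an eigen-character
  have heig : ∀ ℓ : ℕ, ℓ.Prime → ¬ ℓ ∣ M → ℓ ∉ (S : Set ℕ) →
      ∀ γ : G0 M, heckeCoh M ℓ c γ = (a ℓ : ZMod p) * c γ := by
    intro ℓ hℓ _ hℓS γ
    have hℓS' : ℓ ∉ S := hℓS
    have hℓMp : ¬ ℓ ∣ M * p := fun hd => hℓS' (hS ℓ hℓ hd)
    have h1 : IsKum M p (heckeCoh M ℓ c) (heckeOperatorBar M ⟨ℓ, hℓ⟩ x) :=
      K.hecke ⟨ℓ, hℓ⟩ hℓMp c x hc hk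
    rw [hT ⟨ℓ, hℓ⟩ hℓS'] at h1
    -- replace the integer `a ℓ` by a natural number in the same class mod `p`
    set n : ℕ := (a ℓ % (p : ℤ)).toNat with hn
    have hp0 : (0 : ℤ) < p := by exact_mod_cast hp.pos
    have hnz : (n : ℤ) = a ℓ % (p : ℤ) := Int.toNat_of_nonneg (Int.emod_nonneg _ hp0.ne')
    have hax : a ℓ • x = n • x := by
      have hdecomp : a ℓ = (p : ℤ) * (a ℓ / (p : ℤ)) + (n : ℤ) := by
        rw [hnz]; exact (Int.mul_ediv_add_emod (a ℓ) p).symm
      rw [hdecomp, add_zsmul, mul_comm, mul_zsmul, hpx', smul_zero, zero_add, natCast_zsmul]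
    have hna : (n : ZMod p) = (a ℓ : ZMod p) := by
      have : ((n : ℤ) : ZMod p) = ((a ℓ % (p : ℤ) : ℤ) : ZMod p) := by rw [hnz]
      rw [Int.cast_natCast] at this
      rw [this]
      exact (ZMod.intCast_mod (a ℓ) p)
    rw [hax] at h1
    have h2 : IsKum M p (n • c) (n • x) := r3s_isKum_nsmul K hk n
    have hy : p • (n • x) = 0 := by rw [smul_comm, hpx, smul_zero]
    have h3 := r3s_char_unique K hy h1 h2
    have := congrFun h3 γ
    rw [this]
    simp [nsmul_eq_mul, hna]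
  obtain ⟨g, 𝔪, hg, hmax, hpm, hcong⟩ :=
    Fermat.Agent.Lib.HFree.H412.exists_eigenform_of_eigen_isParHom hp (S : Set ℕ) a c hc hc0 heig
  refine ⟨g, 𝔪, hg, hmax, hpm, fun ℓ hℓ hℓS => ?_⟩
  have hℓM : ¬ ℓ ∣ M := fun hd => hℓS (hS ℓ hℓ (Dvd.dvd.mul_right hd p))
  exact hcong ℓ hℓ hℓM (by simpa using hℓS)

end Fermat.Agent.Ribet.H404

end
-- ===== PACK-END Ribet/H404/R3S.lean

-- ===== PACK-BEGIN S29.lean
section





/-!
# S29 — a normalised weight-2 eigenform on `Γ₀(N)` has an attached mod-`p` Galois representation,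
unramified outside `N p`.

Final chain (row-lead helper269): `Fermat.Agent.S29.S29_of_nodes` (`S29/Gate.lean`) applied to the
two nodes of row S18 (`node_mod` helper216, `node_alg` helper438).  Tower: layer A (`H872`,
Brauer–Nesbitt/Burnside + Frobenius density `Lib.Cheb`), layer M (`J₀(N)(ℚ̄)[p]`: Kummer bridge
`M4b` = twisted Eisenstein series, dictionary, descent `ℂ → ℚ̄`, Hecke norm; eigensystem in parabolic
cohomology `M4a`), Eichler–Shimura from the S18 hub (`H222`).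
-/

set_option autoImplicit false
open CuspForm CuspForm.IsNormalizedEigenform

namespace Fermat.Agent.S29

theorem result
    {N : ℕ} {g : CuspForm (CongruenceSubgroup.Gamma0 N) 2} (hg : g.IsNormalizedEigenform)
    {p : ℕ} (hp : p.Prime) {k : Type} [Field k] [CharP k p]
    (φ : integralClosure ℤ ℂ →+* k) :
    ∃ ρ : ResidualGaloisRep k, ρ.IsAttachedTo g φ ∧
      ∀ ℓ : ℕ, ℓ.Prime → ¬ ℓ ∣ N * p → ρ.IsUnramifiedAt ℓ :=
  S29_of_nodes (fun M _ _ _ hℓM A hA => Fermat.Agent.S18.Mod.H216.node_mod M hℓM A hA)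
    (fun M => Fermat.Agent.S18.H438.node_alg M) hg hp φ

end Fermat.Agent.S29

end
-- ===== PACK-END S29.lean

-- ===== PACK-BEGIN S42/Reduce.lean
section
/-
S42 row — FINAL REDUCTION (helper42, squad-lead S29/S42): the frozen statement S42 from the single
input that is still open for S29, the S18 hub for prime exponents (`S29.CorePrimeFamily`).

Inputs on main: `S29.S29_of_core_K3` (row-lead helper269), `M4b.K3.pieceK3` (PIECE K3, unconditional),
`S13.H891.T1_frey` (finiteness of the `p`-torsion of the Frey curve), and the glue `S42.Glue`.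
-/





set_option autoImplicit false

namespace Fermat.Agent.S42

/-- PIECE K3 for all levels and primes, in the shape consumed by `S29.S29_of_core_K3`. -/
theorem pieceK3_family :
    ∀ (N : ℕ) [NeZero N] (p : ℕ), p.Prime → Fermat.Agent.S29.M4b.PieceK3 N p :=
  fun N _ p hp => haveI : NeZero p := ⟨hp.ne_zero⟩; Fermat.Agent.S29.M4b.K3.pieceK3 N p

/-- The frozen statement S29 (as the `Prop` of `S42.Glue`) from the S18 hub. -/
theorem s29Statement_of_core (hcore : Fermat.Agent.S29.CorePrimeFamily) : Glue.S29Statement :=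
  fun hg _ hp _ _ _ φ => Fermat.Agent.S29.S29_of_core_K3 hcore pieceK3_family hg hp φ

/-- **The frozen statement S42 from the S18 hub.** -/
theorem S42_of_core (hcore : Fermat.Agent.S29.CorePrimeFamily) (P : FreyPackage) :
    ∀ M : ℕ, 0 < M → P.EigenformResidualAttachmentAt M :=
  Glue.eigenformResidualAttachmentAt_of_S29_of_finite (s29Statement_of_core hcore) P
    (Fermat.Agent.S13.H891.T1_frey P).2.1

end Fermat.Agent.S42

end
-- ===== PACK-END S42/Reduce.lean

-- ===== PACK-BEGIN S42.lean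
section
-- Statement S42 (row 40): the prelude property `EigenformResidualAttachmentAt M` for the Frey
-- package's prime `p` and every level `M > 0`.
-- Chain: S42.Glue (frozen S29 + finiteness of `E[p]` ⟹ S42), S29.S29_of_core_K3 (row S29),
-- M4b.K3.pieceK3 (PIECE K3), and the S18 hub from the two S18 nodes (`node_mod`, `node_alg`).






set_option autoImplicit false
open FreyPackage

namespace Fermat.Agent.S42

/-- The S18 hub for prime moduli (input of row S29), from the two closed S18 nodes. -/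
theorem corePrimeFamily_of_nodes : Fermat.Agent.S29.CorePrimeFamily :=
  fun N _ ℓ p hℓ hp hℓN hℓp A hA =>
    Fermat.Agent.S18.H694.coreFamily_of_nodes
      (fun M _ _ _ hℓM A hA => Fermat.Agent.S18.Mod.H216.node_mod M hℓM A hA)
      Fermat.Agent.S18.H438.node_alg N ℓ hℓ hℓN p
      (fun h => hℓp ((Nat.prime_dvd_prime_iff_eq hℓ hp).mp h)) A hA

theorem result (P : FreyPackage) :
    ∀ M : ℕ, 0 < M → P.EigenformResidualAttachmentAt M :=
  S42_of_core corePrimeFamily_of_nodes P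

end Fermat.Agent.S42

end
-- ===== PACK-END S42.lean

-- ===== PACK-BEGIN Ribet/H943/Final.lean
section











/-!
# Row 38 (S39 | S40 | S44): the frozen statements from the WALL-p leaves ALONE
(row-lead helper943)

Every input of the chains `H944.Wall.S44_of_wall` / `H944.Wall.S40_of_wall` except the wall at `p`
is closed here from landed, unconditional pieces:

* BLR / BLR-W  : `H823.embed`, `H823.embedW` (Eichler-Shimura on the S18 hub, `M4a`, `M4b`);
* Places       : `H584.places`;   NMT : `H704.notMultiplicativeType`;   NE : `H583.nonEisenstein583`;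
* R3S          : `H404.eigenformOfOccursAway`;
* R3' / R3'-W  : `H764.almostAllToWitness_of_S42` on `S42.result`,
                 `H764.almostAllToWitnessW_of_S29` on `S29.result`;
* ELOC-Frey    : `H52.wallFrey_of_filtration5_h52`;   ELOC-ord-good, NMT-W, NE-W :
                 `H375.wallGood_of_atPFiltration`;
* W-DEG, (S1)  : `H801` (inside `H944.Wall.atPFiltrationFor_of`), `H884.s1`.

So
    `S44_of_filtration5 : AtPFiltration5Statement → S44Statement`
    `S40_of_filtration  : AtPFiltrationStatement  → S40Statement`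
    `S44_of_targets5    : WallTargets5Statement   → S44Statement`
    `S44_of_leaves      : S2 → ResField → DlogOut → R3P → EisSlope → S44Statement`
(the five open leaves of `H884/SlopeSpec.lean`).
-/

set_option autoImplicit false

namespace Fermat.Agent.Ribet.H943.Final

open Fermat.Agent.Ribet Fermat.Agent.Ribet.Spec Fermat.Agent.Ribet.H944.Wall

/-- (R3') Frey form, unconditional. -/
theorem almostAllToWitness : AlmostAllToWitnessStatement :=
  H764.almostAllToWitness_of_S42 fun P M hM => Fermat.Agent.S42.result P M hM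

/-- (R3'-W), unconditional. -/
theorem almostAllToWitnessW : AlmostAllToWitnessWStatement :=
  H764.almostAllToWitnessW_of_S29 fun hg _ hp _ _ _ φ => Fermat.Agent.S29.result hg hp φ

/-- **S44 from the wall at `p` (Frey form) alone.** -/
theorem S44_of_wallFrey (hWall : WallFreyStatement) : S44Statement :=
  S44_of_wall H823.embed hWall H583.nonEisenstein583 H404.eigenformOfOccursAway
    almostAllToWitness

/-- **S40 from the wall at `p` (good reduction form) alone.** -/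
theorem S40_of_wallGood (hWall : WallGoodStatement) : S40Statement :=
  S40_of_wall H823.embedW hWall H404.eigenformOfOccursAway almostAllToWitnessW

/-- **S44 from the at-`p` filtration package (`p ≥ 5`) alone.** -/
theorem S44_of_filtration5 (hF : AtPFiltration5Statement) : S44Statement :=
  S44_of_wallFrey (H52.wallFrey_of_filtration5_h52 H584.places hF H704.notMultiplicativeType)

/-- **S40 from the at-`p` filtration package (all odd `p`) alone.** -/
theorem S40_of_filtration (hF : AtPFiltrationStatement) : S40Statement :=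
  S40_of_wallGood (H375.wallGood_of_atPFiltration hF)

/-- **S44 from the four targets (`p ≥ 5`).** -/
theorem S44_of_targets5 (hT : WallTargets5Statement) : S44Statement :=
  _root_.Fermat.Agent.Ribet.H943.Final.S44_of_filtration5 (atPFiltration5_of_targets hT)

/-- **S40 from the four targets (all odd `p`).** -/
theorem S40_of_targets (hT : WallTargetsStatement) : S40Statement :=
  S40_of_filtration (atPFiltration_of_targets hT)

/-- **S44 from the five open leaves of `H884/SlopeSpec.lean`** (`(S1)` is `H884.s1`). -/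
theorem S44_of_leaves (h2 : H884.S2Statement) (hR : H884.ResFieldStatement)
    (hD : H884.DlogOutStatement) (h3 : H764.I3.R3PStatement) (hE : H884.EisSlopeStatement) :
    S44Statement :=
  _root_.Fermat.Agent.Ribet.H943.Final.S44_of_targets5 (H884.wallTargets5_of H884.s1 h2 hR hD h3 hE)

end Fermat.Agent.Ribet.H943.Final

end
-- ===== PACK-END Ribet/H943/Final.lean

-- ===== PACK-BEGIN Ribet/H940/R3P5.lean
section





/-!
# RIBET wall-p, I3 = W-R3P CLOSED at the residue fields, `p ≥ 5` (wiring, helper940)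

`r3p5 : H764.I3.R3P5Statement`, from the four landed leaves:

* INC-AN  `H584.incAn`   (helper584),
* INC-RED `H940.incRed5` (helper940; lean closure),
* DIMK    `H537.dim5`    (helper537),
* LOGHOL  `H751.logHol`  (helper751, via `H764.I3.logHol5_proved`).
-/

set_option autoImplicit false

namespace Fermat.Agent.Ribet.H940

open Fermat.Agent.Ribet.H764.I3

/-- INC-AN in the frozen shape. -/
theorem incAn_proved : IncAnStatement :=
  fun M _ g hg => Fermat.Agent.Ribet.H584.incAn M g hg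

/-- **I3 = W-R3P at the residue fields, `p ≥ 5`: PROVED.** -/
theorem r3p5 : R3P5Statement :=
  r3p5_of_open incAn_proved incRed5 Fermat.Agent.Ribet.H537.dim5

end Fermat.Agent.Ribet.H940

end
-- ===== PACK-END Ribet/H940/R3P5.lean

-- ===== PACK-BEGIN Ribet/H463/UnitExp.lean
section



/-!
# RIBET row 38, CORE-OUT: adapter UNIT-EXP (helper463)

`H873.exists_unitPair_cut873` (INST-B on main) gives the unit pair of the finite chart
EXISTENTIALLY.  The assemblies of `H704.CoreOut.WildFrameStatement` and of TAME need the unit pair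
of the chart to be THE modular unit of `H884.SlopeProp` (`H884.IsModUnit`: `t`-expansion
`S28.unitL ℚ̄ p = Δ(t^p)/Δ(t)`).  This file states INST-B with the `t`-expansions:

* `exists_isModUnit463`        : `∃ D : FF (p * M'), IsModUnit p M' D ∧ D ≠ 0`;
* `unitPair_exp463`            : `D₁, D₁'` in the chart `B = chartAlg x`, `D₁ D₁' = q¹²`,
                                 `D₁ ∉ w V∞`, `D₁' ∉ w V₀`, with
                                 `D₁ = Δ(t)/Δ(t^q)`, `D₁' = q¹² Δ(t^q)/Δ(t)` as `t`-series;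
* `exists_unitPair_exp463`     : normalised (`q ε = w ^ e`): `D₁ D₁' = w ^ (12 e)`,
                                 `D₁ = Δ(t)/Δ(t^q)` as `t`-series;
* `exists_unitPair_cut_exp463` : the same in cut form (`D₁ ∉ p₁`, `D₁' ∉ p₂`) = the fields
                                 `hDD`, `hD`, `hD'` of `H704.CoreOut.WildFrame`;
* `isModUnit_mul_coeffMap463`  : `IsModUnit p M' D`, `D₂ = Δ(t)/Δ(t^p)` over `E` ⟹
                                 `D · coeffMap D₂ = 1` (the conjunct of `WildFrameStatement`);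
* `eq_of_coe_castE463`         : two levels: elements with the same integral `t`-expansion
                                 correspond under every coefficientwise map (`hD₂`).
-/

set_option autoImplicit false
set_option synthInstance.maxHeartbeats 400000
set_option maxHeartbeats 1600000
set_option linter.unusedSectionVars false
set_option linter.style.haveILetI false

noncomputable section

namespace Fermat.Agent.Ribet.H463.UnitExp

open ModularCurve HahnSeries
open Fermat.Agent.A2.Mod Fermat.Agent.S28 Fermat.Agent.S24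
open Fermat.Agent.Ribet.H884

/-! ## The modular unit over `ℚ̄` -/

/-- `Δ(t^p)/Δ(t)` over `ℚ̄` is not zero. -/
theorem unitL_bar_ne_zero463 (p : ℕ) [NeZero p] : unitL Kbar p ≠ 0 := by
  intro h
  have h1 : coeffMap (Int.castRingHom Kbar) (unitL ℤ p * H589.unitL' p) = 1 := by
    rw [Fermat.Agent.S36.H438.unitL_mul_unitL', map_one]
  rw [map_mul, h88_coeffMap_unitL, h, zero_mul] at h1
  exact zero_ne_one h1

/-- `Δ(t^p)/Δ(t)` lies in the function field of level `p * M'` over `ℚ̄`. -/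
theorem unitL_bar_mem463 (p M' : ℕ) [NeZero p] [NeZero (p * M')] :
    unitL Kbar p ∈ modularFunctionFieldBar (p * M') :=
  Fermat.Agent.S36.H438.laurentBaseChange_mono_h438 Kbar
    (full_degeneracy_le (dvd_mul_right p M')) (Fermat.Agent.S36.H438.unitL_bar_mem p)

/-- **The modular unit exists** in `FF (p * M')`. -/
theorem exists_isModUnit463 (p M' : ℕ) [NeZero M'] [NeZero p] [NeZero (p * M')] :
    ∃ D : FF (p * M'), IsModUnit p M' D ∧ D ≠ 0 := by
  refine ⟨⟨unitL Kbar p, unitL_bar_mem463 p M'⟩, rfl, ?_⟩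
  intro h
  exact unitL_bar_ne_zero463 p (congrArg Subtype.val h)

/-- The `t`-expansion of the inverse of the modular unit: `D · coeffMap D₂ = 1` whenever
`D₂ = Δ(t)/Δ(t^p)` over a level `E`. -/
theorem isModUnit_mul_coeffMap463 (p M' : ℕ) [NeZero M'] [NeZero p] [NeZero (p * M')]
    (E : IntermediateField ℚ Qb) {D : FF (p * M')} (hD : IsModUnit p M' D)
    {X : LaurentSeries E} (hX : X = Fermat.Agent.S36.H438.castE E (H589.unitL' p)) :
    (D : LaurentSeries Kbar) * coeffMap (algebraMap E Kbar) X = 1 := by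
  have hD' : (D : LaurentSeries Kbar) = unitL Kbar p := hD
  rw [hD', hX, Fermat.Agent.S36.H438.coeffMap_castE, ← h88_coeffMap_unitL (Int.castRingHom Kbar),
    ← map_mul, Fermat.Agent.S36.H438.unitL_mul_unitL', map_one]

/-- Two levels: the coefficientwise image of an integral series is the integral series. -/
theorem coeffMap_castE_castE463 (E₁ E₂ : IntermediateField ℚ Qb) (g : E₁ →+* E₂)
    (X : LaurentSeries ℤ) :
    coeffMap g (Fermat.Agent.S36.H438.castE E₁ X) = Fermat.Agent.S36.H438.castE E₂ X := by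
  rw [Fermat.Agent.S36.H438.castE, coeffMap_coeffMap]
  exact coeffMap_congr (Subsingleton.elim _ _) X

/-- Two levels: elements with the same integral `t`-expansion correspond under every map of
function fields which is coefficientwise on `t`-expansions. -/
theorem eq_of_coe_castE463 (E₁ E₂ : IntermediateField ℚ Qb) (N₁ N₂ : ℕ) (g : E₁ →+* E₂)
    (φ : FE E₁ N₁ → FE E₂ N₂)
    (hφ : ∀ f : FE E₁ N₁, ((φ f : FE E₂ N₂) : LaurentSeries E₂) =
      coeffMap g (f : LaurentSeries E₁))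
    (X : LaurentSeries ℤ) {D₁ : FE E₁ N₁} {D₂ : FE E₂ N₂}
    (h₁ : (D₁ : LaurentSeries E₁) = Fermat.Agent.S36.H438.castE E₁ X)
    (h₂ : (D₂ : LaurentSeries E₂) = Fermat.Agent.S36.H438.castE E₂ X) : φ D₁ = D₂ := by
  apply Subtype.ext
  rw [hφ, h₁, h₂, coeffMap_castE_castE463]

/-- **The modular unit and its inverse at a level `E`**: the three conjuncts
`IsModUnit p M' D ∧ D ≠ 0 ∧ D · coeffMap D₂ = 1` of `H704.CoreOut.WildFrameStatement`, with
`D₂ = S36.H438.uE' = Δ(t)/Δ(t^p) ∈ F_E` of level `M' * p`. -/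
theorem exists_modUnit_pair463 (p M' : ℕ) [NeZero M'] [NeZero p] [NeZero (p * M')]
    (E : IntermediateField ℚ Qb) :
    ∃ (D : FF (p * M')) (D₂ : FE E (M' * p)), IsModUnit p M' D ∧ D ≠ 0 ∧
      (D : LaurentSeries Kbar) * coeffMap (algebraMap E Kbar) (D₂ : LaurentSeries E) = 1 ∧
      (D₂ : LaurentSeries E) = Fermat.Agent.S36.H438.castE E (H589.unitL' p) ∧
      D₂ = Fermat.Agent.S36.H438.uE' E (M' * p) p (dvd_mul_left p M') := by
  obtain ⟨D, hD, hD0⟩ := exists_isModUnit463 p M'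
  exact ⟨D, Fermat.Agent.S36.H438.uE' E (M' * p) p (dvd_mul_left p M'), hD, hD0,
    isModUnit_mul_coeffMap463 p M' E hD rfl, rfl, rfl⟩

/-- An element of `F_E` with the `t`-expansion `Δ(t)/Δ(t^p)` is `S36.H438.uE'`. -/
theorem eq_uE'_of_coe463 (E : IntermediateField ℚ Qb) (N p : ℕ) [NeZero N] [NeZero p]
    (hpN : p ∣ N) {D : FE E N}
    (hD : (D : LaurentSeries E) = Fermat.Agent.S36.H438.castE E (H589.unitL' p)) :
    D = Fermat.Agent.S36.H438.uE' E N p hpN :=
  Subtype.ext hD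

/-! ## The unit pair of the finite chart, with `t`-expansions -/

variable {P : ValuationSubring Qb} {E : IntermediateField ℚ Qb}
variable {M q : ℕ} [NeZero M] [NeZero q]

/-- **INST-B with expansions.**  `D₁ = Δ(t)/Δ(t^q)` and `D₁' = q¹² Δ(t^q)/Δ(t)` lie in the chart
`B = chartAlg x`, `D₁ D₁' = q¹²`, `D₁ ∉ w V∞`, `D₁' ∉ w V₀`. -/
theorem unitPair_exp463 {w : RE P E} (hS : Setting P E M q w)
    {V : ValuationSubring (FE E (M * q))} {W : FE E (M * q) ≃ₐ[E] FE E (M * q)}
    (hV : IsVinf P E (M * q) V) (hW : IsFricke E (M * q) W) :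
    ∃ D D' : FE E (M * q),
      (D : LaurentSeries E) = Fermat.Agent.S36.H438.castE E (H589.unitL' q) ∧
      (D' : LaurentSeries E) =
        Fermat.Agent.S36.H438.castE E ((q : LaurentSeries ℤ) ^ 12 * unitL ℤ q) ∧
      D ∈ chartAlg P E (M * q) (xE E M q) ∧ D' ∈ chartAlg P E (M * q) (xE E M q) ∧
      D * D' = cE P E (M * q) ((q : RE P E) ^ 12) ∧
      ¬ InW P E (M * q) V w D ∧
      ¬ InW P E (M * q) (V.comap (W : FE E (M * q) →+* FE E (M * q))) w D' := by
  obtain ⟨D', D, hD'e, hDe, hmul, hD', hD, hVu, hV0u, -⟩ :=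
    Fermat.Agent.S36.H438.mu_package P E M q hS.q_prime
  have hc0 : algebraMap E (FE E (M * q)) ((q : E) ^ 12) ≠ 0 := by
    rw [Ne, map_eq_zero]
    exact pow_ne_zero 12 (Nat.cast_ne_zero.mpr (NeZero.ne q))
  have hD0 : D ≠ 0 := by
    rintro rfl
    rw [mul_zero] at hmul
    exact hc0 hmul.symm
  have hD'0 : D' ≠ 0 := by
    rintro rfl
    rw [zero_mul] at hmul
    exact hc0 hmul.symm
  refine ⟨D, D', hDe, hD'e, hD, hD', ?_, ?_, ?_⟩
  · rw [mul_comm D D', hmul, cE]
    congr 1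
  · exact Fermat.Agent.Ribet.H873.not_inW_of_inv_mem873
      (Fermat.Agent.Ribet.H873.cE_inv_not_mem873 hS.dvr hS.unif hV) hD0 (hVu V hV).2
  · exact Fermat.Agent.Ribet.H873.not_inW_of_inv_mem873
      (Fermat.Agent.Ribet.H873.cE_inv_not_mem_comap873 hS.dvr hS.unif hV W) hD'0
      (hV0u V W hV hW).2

/-- **INST-B with expansions, normalised.**  With `q ε = w ^ e` in `R_E` (`ε` a unit, `e ≥ 1`):
`D₁ · D₁' = w ^ (12 e)`, `D₁ ∉ w V∞`, `D₁' ∉ w V₀`, and `D₁ = Δ(t)/Δ(t^q)`,
`D₁' = ε¹² q¹² Δ(t^q)/Δ(t)` as `t`-series. -/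
theorem exists_unitPair_exp463 {w : RE P E} (hS : Setting P E M q w)
    {V : ValuationSubring (FE E (M * q))} {W : FE E (M * q) ≃ₐ[E] FE E (M * q)}
    (hV : IsVinf P E (M * q) V) (hW : IsFricke E (M * q) W) :
    ∃ (e : ℕ) (ε : (RE P E)ˣ) (D D' : chartAlg P E (M * q) (xE E M q)), 0 < e ∧
      ((q : ℕ) : RE P E) * (ε : RE P E) = w ^ e ∧
      D * D' = algebraMap (RE P E) (chartAlg P E (M * q) (xE E M q)) w ^ (12 * e) ∧
      ¬ InW P E (M * q) V w (D : FE E (M * q)) ∧
      ¬ InW P E (M * q) (V.comap (W : FE E (M * q) →+* FE E (M * q))) w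
        (D' : FE E (M * q)) ∧
      (((D : FE E (M * q)) : LaurentSeries E) =
        Fermat.Agent.S36.H438.castE E (H589.unitL' q)) ∧
      (D' : FE E (M * q)) = cE P E (M * q) ((ε : RE P E) ^ 12) *
        (Fermat.Agent.S36.H438.uE E (M * q) q (dvd_mul_left q M) *
          algebraMap E (FE E (M * q)) ((q : E) ^ 12)) := by
  haveI := hS.dvr
  obtain ⟨D₀, D₀', hDe, hD'e, hD, hD', hmul, hDV, hD'V⟩ := unitPair_exp463 hS hV hW
  have hq0 : ((q : ℕ) : RE P E) ≠ 0 := Nat.cast_ne_zero.mpr (NeZero.ne q)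
  obtain ⟨e, he⟩ := IsDiscreteValuationRing.associated_pow_irreducible hq0 hS.unif
  have he0 : 0 < e := by
    rcases Nat.eq_zero_or_pos e with h0 | h0
    · exfalso
      rw [h0, pow_zero] at he
      exact Fermat.Agent.Ribet.H873.not_isUnit_natCast873 hS.lies_over
        (he.symm.isUnit_iff.mp isUnit_one)
    · exact h0
  obtain ⟨ε, hε⟩ := he
  set B := chartAlg P E (M * q) (xE E M q) with hB
  have hD₀'eq : D₀' = Fermat.Agent.S36.H438.uE E (M * q) q (dvd_mul_left q M) *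
      algebraMap E (FE E (M * q)) ((q : E) ^ 12) := by
    apply Subtype.ext
    rw [hD'e, map_mul]
    show _ = ((Fermat.Agent.S36.H438.uE E (M * q) q (dvd_mul_left q M) : FE E (M * q)) :
        LaurentSeries E) * ((algebraMap E (FE E (M * q)) ((q : E) ^ 12) : FE E (M * q)) :
        LaurentSeries E)
    rw [Fermat.Agent.S36.H438.coe_uE, mul_comm]
    congr 1
    have h1 : ((algebraMap E (FE E (M * q)) ((q : E) ^ 12) : FE E (M * q)) : LaurentSeries E) =
        algebraMap E (LaurentSeries E) ((q : E) ^ 12) := rfl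
    rw [h1, map_pow, map_pow, map_natCast, map_natCast]
  refine ⟨e, ε, ⟨D₀, hD⟩, algebraMap (RE P E) B ((ε : RE P E) ^ 12) * ⟨D₀', hD'⟩,
    he0, hε, ?_, hDV, ?_, hDe, ?_⟩
  · apply Subtype.ext
    show D₀ * (algebraMap (RE P E) (FE E (M * q)) ((ε : RE P E) ^ 12) * D₀') =
      (algebraMap (RE P E) (FE E (M * q)) w) ^ (12 * e)
    have hcE : cE P E (M * q) ((q : RE P E) ^ 12) =
        algebraMap (RE P E) (FE E (M * q)) ((q : RE P E) ^ 12) := rfl
    rw [mul_left_comm, hmul, hcE, ← map_mul, ← map_pow]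
    congr 1
    rw [pow_mul', ← hε]
    ring
  · intro h
    apply hD'V
    have hεV : algebraMap (RE P E) (FE E (M * q)) (((ε⁻¹ : (RE P E)ˣ) : RE P E) ^ 12) ∈
        V.comap (W : FE E (M * q) →+* FE E (M * q)) := by
      rw [ValuationSubring.mem_comap]
      have h1 : (W : FE E (M * q) →+* FE E (M * q))
          (algebraMap (RE P E) (FE E (M * q)) (((ε⁻¹ : (RE P E)ˣ) : RE P E) ^ 12)) =
          algebraMap E (FE E (M * q)) ((((ε⁻¹ : (RE P E)ˣ) : RE P E) ^ 12 : RE P E) : E) :=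
        W.commutes _
      rw [h1]
      exact (Fermat.Agent.A2.Mod.H708.algebraMap_mem_iff_of_isVinf hV _).mpr (Subtype.mem _)
    have h2 := (V.comap (W : FE E (M * q) →+* FE E (M * q))).mul_mem _ _ hεV h
    have h3 : algebraMap (RE P E) (FE E (M * q)) (((ε⁻¹ : (RE P E)ˣ) : RE P E) ^ 12) *
        (((algebraMap (RE P E) B ((ε : RE P E) ^ 12) * ⟨D₀', hD'⟩ : B) : FE E (M * q)) *
          (cE P E (M * q) w)⁻¹) = D₀' * (cE P E (M * q) w)⁻¹ := by
      have h4 : algebraMap (RE P E) (FE E (M * q)) (((ε⁻¹ : (RE P E)ˣ) : RE P E) ^ 12) *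
          algebraMap (RE P E) (FE E (M * q)) ((ε : RE P E) ^ 12) = 1 := by
        rw [← map_mul, ← mul_pow, Units.inv_mul, one_pow, map_one]
      show algebraMap (RE P E) (FE E (M * q)) (((ε⁻¹ : (RE P E)ˣ) : RE P E) ^ 12) *
        ((algebraMap (RE P E) (FE E (M * q)) ((ε : RE P E) ^ 12) * D₀') *
          (cE P E (M * q) w)⁻¹) = _
      rw [← mul_assoc, ← mul_assoc, h4, one_mul]
    rw [h3] at h2
    exact h2
  · show algebraMap (RE P E) (FE E (M * q)) ((ε : RE P E) ^ 12) * D₀' = _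
    rw [hD₀'eq]
    rfl

/-- **INST-B with expansions, cut form** (fields `hDD`, `hD`, `hD'` of `H704.CoreOut.WildFrame`
and the unit pair of `H868.pureAt_tame`, for THE modular unit): for the components
`p₁ = B ∩ w V∞`, `p₂ = B ∩ w V₀` of the chart `B = chartAlg x`:
`D₁ · D₁' = w ^ (12 e)`, `D₁ ∉ p₁`, `D₁' ∉ p₂`, `D₁ = Δ(t)/Δ(t^q)` as a `t`-series. -/
theorem exists_unitPair_cut_exp463 {w : RE P E} (hS : Setting P E M q w)
    {V : ValuationSubring (FE E (M * q))} {W : FE E (M * q) ≃ₐ[E] FE E (M * q)}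
    (hV : IsVinf P E (M * q) V) (hW : IsFricke E (M * q) W)
    (p₁ p₂ : Ideal (chartAlg P E (M * q) (xE E M q)))
    (hc₁ : IsCut P E (M * q) w V (chartAlg P E (M * q) (xE E M q)) p₁)
    (hc₂ : IsCut P E (M * q) w (V.comap (W : FE E (M * q) →+* FE E (M * q)))
      (chartAlg P E (M * q) (xE E M q)) p₂) :
    ∃ (e : ℕ) (D D' : chartAlg P E (M * q) (xE E M q)), 0 < e ∧
      Associated ((q : ℕ) : RE P E) (w ^ e) ∧
      D * D' = algebraMap (RE P E) (chartAlg P E (M * q) (xE E M q)) w ^ (12 * e) ∧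
      D ∉ p₁ ∧ D' ∉ p₂ ∧
      (((D : FE E (M * q)) : LaurentSeries E) =
        Fermat.Agent.S36.H438.castE E (H589.unitL' q)) := by
  obtain ⟨e, ε, D, D', he, hε, hmul, hD, hD', hDe, -⟩ := exists_unitPair_exp463 hS hV hW
  exact ⟨e, D, D', he, ⟨ε, hε⟩, hmul, fun h => hD ((hc₁ D).mp h),
    fun h => hD' ((hc₂ D').mp h), hDe⟩

end Fermat.Agent.Ribet.H463.UnitExp

end

end
-- ===== PACK-END Ribet/H463/UnitExp.lean

-- ===== PACK-BEGIN Ribet/H247/KD.lean
section
/-
RIBET row 38, WALL-p, (S4) CORE-OUT, WILD, piece KD (Kummer data)   (helper247, 2nd copy)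

`N` a level, `FF N = ℚ̄(X₀(N)) ⊆ ℚ̄((t))`, `gal N σ` the Galois action on the coefficients,
`lcF N` the leading coefficient of the `t`-expansion, `IsKummerGen N p f x` (`H884`).

* `exists_fixed_kummerGen247` : a `p`-torsion class `x` fixed by a subgroup `H ≤ G_ℚ` (ANY
  subgroup, no closedness/finiteness hypothesis) has a Kummer generator `f` with `lcF f = 1` and
  `gal σ f = f` for all `σ ∈ H`.
  (Hilbert 90 over the finite quotient of `H` by the normal open stabiliser of a first generator: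
  `hilbert90_quot247` + `A2.H549.exists_stable_finite_mem_Fc`.)
* `exists_kummer_shift247` : `σ₁ x = x + t`, `f_x`, `f_t` normalised Kummer generators of `x`, `t`
  ⟹ `gal σ₁ f_x = f_x · f_t · G ^ p` with `lcF G = 1`; if `f_x` is fixed by `H₂`, `f_t` by `H₂`
  and `σ₁` normalises `H₂`, then `G` is fixed by `H₂`.   (`c₀ = 1` in PER.)
* `kummerData247` : the two together, in the setting of `H704.CoreOut.WildStatement`.
-/







set_option autoImplicit false
set_option synthInstance.maxHeartbeats 400000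
set_option maxHeartbeats 1000000
set_option linter.unusedSectionVars false
set_option linter.style.haveILetI false

noncomputable section

namespace Fermat.Agent.Ribet.H247

open AlgebraicCurve ModularCurve HahnSeries
open Fermat.Agent.S24 Fermat.Agent.A2.H528 Fermat.Agent.A2.H129
open Fermat.Agent.Ribet.Spec Fermat.Agent.Ribet.H884 Fermat.Agent.Ribet.H703

section Basic

variable {N : ℕ} [NeZero N] {p : ℕ}

theorem gal_mul247 (σ τ : Kbar ≃ₐ[ℚ] Kbar) (f : FF N) :
    gal N (σ * τ) f = gal N σ (gal N τ f) := by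
  apply Subtype.ext
  show coeffMap ((σ * τ : Kbar ≃ₐ[ℚ] Kbar) : Kbar →+* Kbar) (f : LaurentSeries Kbar)
      = coeffMap (σ : Kbar →+* Kbar) (coeffMap (τ : Kbar →+* Kbar) (f : LaurentSeries Kbar))
  rw [coeffMap_coeffMap]
  exact coeffMap_congr (RingHom.ext fun _ => rfl) _

theorem gal_one247 (f : FF N) : gal N (1 : Kbar ≃ₐ[ℚ] Kbar) f = f := by
  apply Subtype.ext
  show coeffMap ((1 : Kbar ≃ₐ[ℚ] Kbar) : Kbar →+* Kbar) (f : LaurentSeries Kbar)
      = (f : LaurentSeries Kbar)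
  rw [show ((1 : Kbar ≃ₐ[ℚ] Kbar) : Kbar →+* Kbar) = RingHom.id Kbar from
    RingHom.ext fun _ => rfl, coeffMap_id]

variable (N) in
/-- The Galois action on `FF N` as a homomorphism. -/
def galHom247 : (Kbar ≃ₐ[ℚ] Kbar) →* (FF N ≃+* FF N) where
  toFun σ := gal N σ
  map_one' := RingEquiv.ext gal_one247
  map_mul' σ τ := RingEquiv.ext (gal_mul247 σ τ)

theorem galHom247_apply (σ : Kbar ≃ₐ[ℚ] Kbar) (f : FF N) : galHom247 N σ f = gal N σ f := rfl

theorem gal_inv_gal247 (σ : Kbar ≃ₐ[ℚ] Kbar) (f : FF N) : gal N σ⁻¹ (gal N σ f) = f := by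
  rw [← gal_mul247, inv_mul_cancel, gal_one247]

/-- Constants have order zero at every place. -/
theorem ord_algebraMap247 (v : Place Kbar (FF N)) {c : Kbar} (hc : c ≠ 0) :
    v.ord (algebraMap Kbar (FF N) c) = 0 := by
  have h1 : (⟨algebraMap Kbar (FF N) c, v.algebraMap_mem' c⟩ : v.toValuationSubring) *
      ⟨algebraMap Kbar (FF N) c⁻¹, v.algebraMap_mem' c⁻¹⟩ = 1 := by
    apply Subtype.ext
    show algebraMap Kbar (FF N) c * algebraMap Kbar (FF N) c⁻¹ = 1
    rw [← map_mul, mul_inv_cancel₀ hc, map_one]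
  have h2 : (⟨algebraMap Kbar (FF N) c⁻¹, v.algebraMap_mem' c⁻¹⟩ : v.toValuationSubring) *
      ⟨algebraMap Kbar (FF N) c, v.algebraMap_mem' c⟩ = 1 := by
    rw [mul_comm]; exact h1
  exact v.ord_coe_unit ⟨_, _, h1, h2⟩

/-- `σ f` is a Kummer generator of `σ x`. -/
theorem isKummerGen_gal247 (σ : Kbar ≃ₐ[ℚ] Kbar) {f : FF N} {x : JZero N}
    (h : IsKummerGen N p f x) : IsKummerGen N p (gal N σ f) (σ • x) := by
  obtain ⟨hf, D, rfl, hD⟩ := h
  set g : SemilinearAut Kbar (FF N) := arithmeticGalois (modularFunctionFieldFull N) σ with hg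
  have hτf : gal N σ f ≠ 0 := by simpa using hf
  refine ⟨hτf, SemilinearAut.degZeroSMulHom g D, ?_, fun v => ?_⟩
  · show _ = g • Pic0.mk D
    rw [SemilinearAut.pic0_smul_mk]
  · have h1 : v.ord (gal N σ f) = (g⁻¹ • v).ord f := ord_smul_eq g v f
    rw [h1, hD]
    simp only [SemilinearAut.coe_degZeroSMulHom, SemilinearAut.divisor_smul_apply]

/-- A nonzero constant multiple of a Kummer generator is a Kummer generator. -/
theorem isKummerGen_const_mul247 {f : FF N} {x : JZero N} (h : IsKummerGen N p f x)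
    {c : Kbar} (hc : c ≠ 0) : IsKummerGen N p (algebraMap Kbar (FF N) c * f) x := by
  obtain ⟨hf, D, hD, hord⟩ := h
  have hc' : algebraMap Kbar (FF N) c ≠ 0 := by
    rw [Ne, map_eq_zero_iff _ (algebraMap Kbar (FF N)).injective]
    exact hc
  refine ⟨mul_ne_zero hc' hf, D, hD, fun v => ?_⟩
  rw [Place.ord_mul v hc' hf, ord_algebraMap247 v hc, zero_add, hord]

/-- Multiplying a Kummer generator by a `p`-th power does not change the class. -/
theorem isKummerGen_mul_pow247 {f b : FF N} {x : JZero N} (hf : IsKummerGen N p f x)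
    (hb : b ≠ 0) : IsKummerGen N p (f * b ^ p) x := by
  obtain ⟨hf0, D, hD, hord⟩ := hf
  obtain ⟨Db, hDb, hdeg⟩ :=
    (Fermat.Agent.Lib.HI.H864.hasPrincipalDivisors_FF N).exists_divisor b hb
  set Db0 : Divisor.degZero (K := Kbar) (F := FF N) := ⟨Db, hdeg⟩ with hDb0
  refine ⟨mul_ne_zero hf0 (pow_ne_zero _ hb), D + Db0, ?_, fun v => ?_⟩
  · rw [← hD]
    show (QuotientAddGroup.mk (D + Db0) : Pic0 Kbar (FF N)) = QuotientAddGroup.mk D
    rw [QuotientAddGroup.eq]
    refine AddSubgroup.mem_addSubgroupOf.mpr ⟨b⁻¹, inv_ne_zero hb, fun v => ?_⟩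
    simp only [AddSubgroup.coe_add, AddSubgroup.coe_neg, Finsupp.add_apply,
      Finsupp.neg_apply, hDb0]
    rw [Place.ord_inv, hDb v]
    ring
  · rw [Place.ord_mul v hf0 (pow_ne_zero _ hb), ← zpow_natCast, Place.ord_zpow, hord]
    simp only [AddSubgroup.coe_add, Finsupp.add_apply, hDb0]
    rw [hDb v]
    ring

/-- Normalised `p`-th roots are unique. -/
theorem eq_of_pow_eq247 (hp : p ≠ 0) {a a' : FF N} (ha' : a' ≠ 0) (h : a ^ p = a' ^ p)
    (hlc : lcF N a = 1) (hlc' : lcF N a' = 1) : a = a' := by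
  have h1 : (a / a') ^ p = 1 := by
    rw [div_pow, h, div_self (pow_ne_zero _ ha')]
  have h2 : lcF N (a / a') = 1 := by
    rw [map_div₀, hlc, hlc', div_one]
  have h3 := eq_one_of_pow_eq_one N hp h1 h2
  exact (div_eq_one_iff_eq ha').mp h3

/-- Two Kummer generators of the same class, the first one normalised: normalised ratio. -/
theorem exists_normalised_ratio247 (hp : p ≠ 0) {f f₀ : FF N} {x : JZero N}
    (h : IsKummerGen N p f x) (h₀ : IsKummerGen N p f₀ x) (hlc : lcF N f = lcF N f₀) :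
    ∃ a : FF N, a ≠ 0 ∧ lcF N a = 1 ∧ f = f₀ * a ^ p := by
  obtain ⟨c, g, hc, hg, hfg⟩ := Fermat.Agent.Ribet.H669.exists_eq_const_mul_pow h h₀
  have hf₀0 : f₀ ≠ 0 := h₀.1
  have hlg : lcF N g ≠ 0 := lcF_ne_zero N hg
  have hl0 : lcF N f₀ ≠ 0 := lcF_ne_zero N hf₀0
  -- `1 = c · lc(g)^p`
  have h1 : c * lcF N g ^ p = 1 := by
    have := congrArg (lcF N) hfg
    rw [map_mul, map_mul, map_pow, lcF_algebraMap, hlc] at this
    have h2 : lcF N f₀ * 1 = lcF N f₀ * (c * lcF N g ^ p) := by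
      linear_combination this
    exact (mul_left_cancel₀ hl0 h2).symm
  have hcg : algebraMap Kbar (FF N) (lcF N g) ≠ 0 := by
    rw [Ne, map_eq_zero_iff _ (algebraMap Kbar (FF N)).injective]
    exact hlg
  refine ⟨g * (algebraMap Kbar (FF N) (lcF N g))⁻¹, mul_ne_zero hg (inv_ne_zero hcg), ?_, ?_⟩
  · rw [map_mul, map_inv₀, lcF_algebraMap, mul_inv_cancel₀ hlg]
  · have hc' : algebraMap Kbar (FF N) c = ((algebraMap Kbar (FF N) (lcF N g)) ^ p)⁻¹ := by
      rw [← map_pow, ← map_inv₀]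
      congr 1
      exact eq_inv_of_mul_eq_one_left h1
    rw [hfg, hc', mul_pow, inv_pow]
    ring

end Basic

/-! ## Fields of definition -/

section Field

variable (N : ℕ) [NeZero N]

/-- An automorphism fixing `E` pointwise fixes `Fc N E` pointwise. -/
theorem gal_eq_self_of_mem_Fc247 {E : IntermediateField ℚ Kbar} {σ : Kbar ≃ₐ[ℚ] Kbar}
    (hσ : ∀ e ∈ E, σ e = e) {f : FF N} (hf : f ∈ Fermat.Agent.S18.Mod.Fc N E) :
    gal N σ f = f := by
  have hle : Fermat.Agent.S18.Mod.Fc N E ≤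
      RingHom.eqLocusField ((gal N σ : FF N ≃+* FF N) : FF N →+* FF N) (RingHom.id (FF N)) := by
    refine Subfield.closure_le.mpr ?_
    rintro y (hy | hy)
    · obtain ⟨c, hc, rfl⟩ := hy
      show gal N σ (algebraMap Kbar (FF N) c) = algebraMap Kbar (FF N) c
      rw [gal_algebraMap, hσ c hc]
    · obtain ⟨d, hne, hd, rfl⟩ := hy
      exact Fermat.Agent.A2.H549.galOm_jd N σ d hd
  exact hle hf

end Field

/-! ## KD (a): rational Kummer generators -/

section Descent

variable {N : ℕ} [NeZero N] {p : ℕ}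

/-- **KD (a).**  A `p`-torsion class fixed by a subgroup `H` of `G_ℚ` has a normalised Kummer
generator fixed by `H`. -/
theorem exists_fixed_kummerGen247 (hp : p ≠ 0) (H : Subgroup (Kbar ≃ₐ[ℚ] Kbar))
    (x : JZero N) (hpx : p • x = 0) (hx : ∀ σ ∈ H, σ • x = x) :
    ∃ f : FF N, IsKummerGen N p f x ∧ lcF N f = 1 ∧ ∀ σ ∈ H, gal N σ f = f := by
  classical
  -- a first normalised generator
  obtain ⟨f₁, hf₁⟩ := exists_isKummerGen p x hpx
  have hl₁ : lcF N f₁ ≠ 0 := lcF_ne_zero N hf₁.1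
  set f₀ : FF N := algebraMap Kbar (FF N) (lcF N f₁)⁻¹ * f₁ with hf₀def
  have hf₀ : IsKummerGen N p f₀ x := isKummerGen_const_mul247 hf₁ (inv_ne_zero hl₁)
  have hlc₀ : lcF N f₀ = 1 := by
    rw [hf₀def, map_mul, lcF_algebraMap, inv_mul_cancel₀ hl₁]
  have hf₀0 : f₀ ≠ 0 := hf₀.1
  -- the cocycle
  have hex : ∀ σ : Kbar ≃ₐ[ℚ] Kbar, ∃ a : FF N, σ ∈ H →
      (a ≠ 0 ∧ lcF N a = 1 ∧ gal N σ f₀ = f₀ * a ^ p) := by
    intro σ
    by_cases hσ : σ ∈ H
    · have h1 : IsKummerGen N p (gal N σ f₀) x := by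
        have := isKummerGen_gal247 σ hf₀
        rwa [hx σ hσ] at this
      have h2 : lcF N (gal N σ f₀) = lcF N f₀ := by
        rw [lcF_gal, hlc₀, map_one]
      obtain ⟨a, ha0, ha1, ha⟩ := exists_normalised_ratio247 hp h1 hf₀ h2
      exact ⟨a, fun _ => ⟨ha0, ha1, ha⟩⟩
    · exact ⟨1, fun h => absurd h hσ⟩
  choose a ha using hex
  have hcoc : ∀ σ ∈ H, ∀ τ ∈ H, a (σ * τ) = a σ * galHom247 N σ (a τ) := by
    intro σ hσ τ hτ
    obtain ⟨h1, h2, h3⟩ := ha σ hσ
    obtain ⟨k1, k2, k3⟩ := ha τ hτ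
    obtain ⟨m1, m2, m3⟩ := ha (σ * τ) (H.mul_mem hσ hτ)
    show a (σ * τ) = a σ * gal N σ (a τ)
    have hne : a σ * gal N σ (a τ) ≠ 0 := by
      refine mul_ne_zero h1 ?_
      rw [Ne, map_eq_zero_iff _ (gal N σ).injective]
      exact k1
    refine eq_of_pow_eq247 hp hne ?_ m2 ?_
    · have e1 : f₀ * a (σ * τ) ^ p = f₀ * (a σ * gal N σ (a τ)) ^ p := by
        rw [← m3, gal_mul247, k3, map_mul, map_pow, h3, mul_pow]
        ring
      exact mul_left_cancel₀ hf₀0 e1
    · rw [map_mul, h2, lcF_gal, k2, map_one, mul_one]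
  -- the finite level
  obtain ⟨E, hEfin, -, hΦ, hEst⟩ :=
    Fermat.Agent.A2.H549.exists_stable_finite_mem_Fc N ∅ {f₀}
  have hf₀E : f₀ ∈ Fermat.Agent.S18.Mod.Fc N E := hΦ f₀ (Finset.mem_singleton_self f₀)
  haveI := hEfin
  haveI := Fermat.Agent.A2.H549.normal_Qb
  haveI hnorm : Normal ℚ E :=
    (IntermediateField.normal_iff_forall_map_le' (K := E)).mpr (by
      rintro σ _ ⟨e, he, rfl⟩
      exact hEst σ e he)
  let r : (Kbar ≃ₐ[ℚ] Kbar) →* (E ≃ₐ[ℚ] E) := AlgEquiv.restrictNormalHom E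
  have hr_apply : ∀ (σ : Kbar ≃ₐ[ℚ] Kbar) (e : E), ((r σ e : E) : Kbar) = σ (e : Kbar) :=
    fun σ e => AlgEquiv.restrictNormal_commutes σ E e
  have hfixE : ∀ σ : Kbar ≃ₐ[ℚ] Kbar, r σ = 1 → ∀ e ∈ E, σ e = e := by
    intro σ hσ e he
    have := hr_apply σ ⟨e, he⟩
    rw [hσ] at this
    exact this.symm
  have hfix : ∀ σ : Kbar ≃ₐ[ℚ] Kbar, r σ = 1 →
      ∀ c ∈ Fermat.Agent.S18.Mod.Fc N E, galHom247 N σ c = c :=
    fun σ hσ c hc => gal_eq_self_of_mem_Fc247 N (hfixE σ hσ) hc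
  have hfaith : ∀ σ : Kbar ≃ₐ[ℚ] Kbar,
      (∀ c ∈ Fermat.Agent.S18.Mod.Fc N E, galHom247 N σ c = c) → r σ = 1 := by
    intro σ hσ
    apply AlgEquiv.ext
    intro e
    apply Subtype.ext
    rw [hr_apply]
    have hmem : algebraMap Kbar (FF N) (e : Kbar) ∈ Fermat.Agent.S18.Mod.Fc N E :=
      Subfield.subset_closure (Or.inl ⟨(e : Kbar), e.2, rfl⟩)
    have h1 := hσ _ hmem
    rw [galHom247_apply, gal_algebraMap] at h1
    exact (algebraMap Kbar (FF N)).injective h1
  have hker : ∀ σ ∈ H, r σ = 1 → a σ = 1 := by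
    intro σ hσ hrσ
    obtain ⟨h1, h2, h3⟩ := ha σ hσ
    have h4 : gal N σ f₀ = f₀ := gal_eq_self_of_mem_Fc247 N (hfixE σ hrσ) hf₀E
    rw [h4] at h3
    have h5 : a σ ^ p = 1 := by
      have : f₀ * 1 = f₀ * a σ ^ p := by rw [mul_one]; exact h3
      exact (mul_left_cancel₀ hf₀0 this).symm
    exact eq_one_of_pow_eq_one N hp h5 h2
  obtain ⟨b, hb0, hb⟩ := hilbert90_quot247 (galHom247 N) H r (Fermat.Agent.S18.Mod.Fc N E)
    hfix hfaith a (fun σ hσ => (ha σ hσ).1) hcoc hker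
  -- the fixed generator
  have hlb : lcF N b ≠ 0 := lcF_ne_zero N hb0
  have hfb : IsKummerGen N p (f₀ * b ^ p) x := isKummerGen_mul_pow247 hf₀ hb0
  have hfixb : ∀ σ ∈ H, gal N σ (f₀ * b ^ p) = f₀ * b ^ p := by
    intro σ hσ
    obtain ⟨h1, h2, h3⟩ := ha σ hσ
    have h4 : a σ * gal N σ b = b := hb σ hσ
    rw [map_mul, map_pow, h3, mul_assoc, ← mul_pow, h4]
  have hlfix : ∀ σ ∈ H, σ (lcF N (f₀ * b ^ p)) = lcF N (f₀ * b ^ p) := by
    intro σ hσ
    rw [← lcF_gal, hfixb σ hσ]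
  have hl0 : lcF N (f₀ * b ^ p) ≠ 0 := lcF_ne_zero N hfb.1
  refine ⟨algebraMap Kbar (FF N) (lcF N (f₀ * b ^ p))⁻¹ * (f₀ * b ^ p),
    isKummerGen_const_mul247 hfb (inv_ne_zero hl0), ?_, fun σ hσ => ?_⟩
  · rw [map_mul, lcF_algebraMap, inv_mul_cancel₀ hl0]
  · rw [map_mul, gal_algebraMap, hfixb σ hσ, map_inv₀, hlfix σ hσ]

end Descent

/-! ## KD (b): the shift relation -/

section Shift

variable {N : ℕ} [NeZero N] {p : ℕ}

/-- **KD (b).**  `σ₁ x = x + t` ⟹ `gal σ₁ f_x = f_x · f_t · G ^ p`, `lcF G = 1`. -/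
theorem exists_kummer_shift247 (hp : p ≠ 0) (σ₁ : Kbar ≃ₐ[ℚ] Kbar) {x t : JZero N}
    (hσx : σ₁ • x = x + t) {fx ft : FF N} (hfx : IsKummerGen N p fx x)
    (hft : IsKummerGen N p ft t) (hlx : lcF N fx = 1) (hlt : lcF N ft = 1) :
    ∃ G : FF N, G ≠ 0 ∧ lcF N G = 1 ∧ gal N σ₁ fx = fx * ft * G ^ p := by
  have h1 : IsKummerGen N p (gal N σ₁ fx) (x + t) := by
    have := isKummerGen_gal247 σ₁ hfx
    rwa [hσx] at this
  have h2 : IsKummerGen N p (fx * ft) (x + t) := hfx.mul hft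
  have h3 : lcF N (gal N σ₁ fx) = lcF N (fx * ft) := by
    rw [lcF_gal, hlx, map_one, map_mul, hlx, hlt, mul_one]
  exact exists_normalised_ratio247 hp h1 h2 h3

/-- **KD (b), rationality of `G`.**  If `f_x` and `f_t` are fixed by `ρ` and by `σ₁⁻¹ ρ σ₁`,
then so is the normalised `G`. -/
theorem shift_fixed247 (hp : p ≠ 0) (σ₁ ρ : Kbar ≃ₐ[ℚ] Kbar) {fx ft G : FF N}
    (hfx0 : fx ≠ 0) (hft0 : ft ≠ 0) (hG0 : G ≠ 0) (hlG : lcF N G = 1)
    (hrel : gal N σ₁ fx = fx * ft * G ^ p)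
    (hρx : gal N ρ fx = fx) (hρt : gal N ρ ft = ft)
    (hconj : gal N (σ₁⁻¹ * ρ * σ₁) fx = fx) : gal N ρ G = G := by
  -- `ρ σ₁ fx = σ₁ fx`
  have h1 : gal N ρ (gal N σ₁ fx) = gal N σ₁ fx := by
    have e : ρ * σ₁ = σ₁ * (σ₁⁻¹ * ρ * σ₁) := by
      rw [mul_assoc, mul_inv_cancel_left]
    rw [← gal_mul247, e, gal_mul247, hconj]
  have h2 : fx * ft * (gal N ρ G) ^ p = fx * ft * G ^ p := by
    have := congrArg (gal N ρ) hrel
    rw [h1, map_mul, map_mul, map_pow, hρx, hρt] at this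
    rw [← this, hrel]
  have h3 : (gal N ρ G) ^ p = G ^ p := mul_left_cancel₀ (mul_ne_zero hfx0 hft0) h2
  refine eq_of_pow_eq247 hp hG0 h3 ?_ hlG
  rw [lcF_gal, hlG, map_one]

end Shift

/-! ## KD in the setting of `H704.CoreOut.WildStatement` -/

section Setting

open Fermat.Agent.Ribet.H944.Wall

variable {N : ℕ} [NeZero N] {p : ℕ}

/-- `H₂ = Stab_{I₁}(x)`: the inertia elements acting trivially on `μ_p` and fixing `x`. -/
def stabOne247 (A : ValuationSubring Kbar) (p : ℕ) (x : JZero N) :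
    Subgroup (Kbar ≃ₐ[ℚ] Kbar) :=
  Fermat.Agent.Ribet.H785.inertiaOne A p ⊓ MulAction.stabilizer (Kbar ≃ₐ[ℚ] Kbar) x

theorem mem_stabOne247 {A : ValuationSubring Kbar} {x : JZero N} {ρ : Kbar ≃ₐ[ℚ] Kbar} :
    ρ ∈ stabOne247 A p x ↔ ρ ∈ A.inertiaSubgroupIn ℚ ∧ CycloAt p ρ 1 ∧ ρ • x = x := by
  unfold stabOne247
  rw [Subgroup.mem_inf, MulAction.mem_stabilizer_iff]
  constructor
  · rintro ⟨⟨h1, h2⟩, h3⟩
    exact ⟨h1, h2, h3⟩
  · rintro ⟨h1, h2, h3⟩
    exact ⟨⟨h1, h2⟩, h3⟩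

/-- **KD, the generator of `t`.**  The toric class has a normalised Kummer generator fixed by
`I₁`. -/
theorem exists_ft247 (hp : p ≠ 0) (A : ValuationSubring Kbar) (t : JZero N) (hpt : p • t = 0)
    (ht : ∀ σ ∈ A.inertiaSubgroupIn ℚ, ∀ c : ℕ, CycloAt p σ c → σ • t = c • t) :
    ∃ ft : FF N, IsKummerGen N p ft t ∧ lcF N ft = 1 ∧
      ∀ ρ ∈ A.inertiaSubgroupIn ℚ, CycloAt p ρ 1 → gal N ρ ft = ft := by
  obtain ⟨ft, h1, h2, h3⟩ := exists_fixed_kummerGen247 hp
    (Fermat.Agent.Ribet.H785.inertiaOne A p) t hpt (fun σ hσ => by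
      have := ht σ hσ.1 1 hσ.2
      rwa [one_nsmul] at this)
  exact ⟨ft, h1, h2, fun ρ hρ hρ1 => h3 ρ ⟨hρ, hρ1⟩⟩

/-- **KD.**  In the setting of WILD (`σ₁ ∈ I₁`, `σ₁ x = x + t`, `t` toric), for ANY normalised
Kummer generator `f_t` of `t` fixed by `I₁`: there are a normalised Kummer generator `f_x` of `x`
and a normalised `G`, both fixed by `H₂ = Stab_{I₁}(x)`, with
`gal σ₁ f_x = f_x · f_t · G ^ p`. -/
theorem kummerData247 (hp : p ≠ 0) (A : ValuationSubring Kbar) (x t : JZero N)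
    (hpx : p • x = 0)
    (ht : ∀ σ ∈ A.inertiaSubgroupIn ℚ, ∀ c : ℕ, CycloAt p σ c → σ • t = c • t)
    {σ₁ : Kbar ≃ₐ[ℚ] Kbar} (hσ₁ : σ₁ ∈ A.inertiaSubgroupIn ℚ) (hσ₁x : σ₁ • x = x + t)
    (ft : FF N) (hft : IsKummerGen N p ft t) (hlt : lcF N ft = 1)
    (hfixt : ∀ ρ ∈ A.inertiaSubgroupIn ℚ, CycloAt p ρ 1 → gal N ρ ft = ft) :
    ∃ fx G : FF N, IsKummerGen N p fx x ∧ lcF N fx = 1 ∧ G ≠ 0 ∧ lcF N G = 1 ∧
      (∀ ρ ∈ A.inertiaSubgroupIn ℚ, CycloAt p ρ 1 → ρ • x = x → gal N ρ fx = fx) ∧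
      (∀ ρ ∈ A.inertiaSubgroupIn ℚ, CycloAt p ρ 1 → ρ • x = x → gal N ρ G = G) ∧
      gal N σ₁ fx = fx * ft * G ^ p := by
  obtain ⟨fx, hfx, hlx, hfixx⟩ := exists_fixed_kummerGen247 hp (stabOne247 A p x) x hpx
    (fun σ hσ => (mem_stabOne247.mp hσ).2.2)
  obtain ⟨G, hG0, hlG, hrel⟩ := exists_kummer_shift247 hp σ₁ hσ₁x hfx hft hlx hlt
  refine ⟨fx, G, hfx, hlx, hG0, hlG,
    fun ρ h1 h2 h3 => hfixx ρ (mem_stabOne247.mpr ⟨h1, h2, h3⟩), fun ρ h1 h2 h3 => ?_, hrel⟩
  refine shift_fixed247 hp σ₁ ρ hfx.1 hft.1 hG0 hlG hrel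
    (hfixx ρ (mem_stabOne247.mpr ⟨h1, h2, h3⟩)) (hfixt ρ h1 h2) ?_
  apply hfixx
  rw [mem_stabOne247]
  refine ⟨mul_mem (mul_mem (inv_mem hσ₁) h1) hσ₁, ?_, ?_⟩
  · -- conjugation preserves `I₁`
    intro z hz
    rw [pow_one]
    have k1 : (σ₁ z) ^ p = 1 := by rw [← map_pow, hz, map_one]
    have k2 := h2 (σ₁ z) k1
    rw [pow_one] at k2
    show σ₁⁻¹ (ρ (σ₁ z)) = z
    rw [k2]
    show (σ₁⁻¹ * σ₁) z = z
    rw [inv_mul_cancel, AlgEquiv.one_apply]
  · have hρt : ρ • t = t := by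
      have := ht ρ h1 1 h2
      rwa [one_nsmul] at this
    rw [mul_smul, mul_smul, hσ₁x, smul_add, h3, hρt, ← hσ₁x, inv_smul_smul]

end Setting

end Fermat.Agent.Ribet.H247

end

end
-- ===== PACK-END Ribet/H247/KD.lean

-- ===== PACK-BEGIN Ribet/H247/KDBC.lean
section
/-
RIBET row 38, WALL-p, (S4) CORE-OUT, WILD, piece KD in the shape consumed by the cover side
`H819.PerCtx.shell_period_BC`   (helper247)

`E₁ ⊆ E₂ ⊆ ℚ̄` the tame and the wild level (`E₁ ⊆ ℚ̄^{I₁}`, `ℚ̄^{H₂} ⊆ E₂`,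
`H₂ = Stab_{I₁}(x)`), `f_t ∈ F_{E₁}` a normalised Kummer generator of `t`.

* `kummerData_BC247` : `f₂, G₀ ∈ F_{E₂}` with `embBC f₂` a normalised Kummer generator of `x` and
  the AMBIENT KD relation
  `coeffMap σ₁ (embBC f₂) = embBC f₂ · C 1 · embBC f_t · (embBC G₀) ^ p`
  (= hypothesis `hσ` of `H819.PerCtx.shell_period_BC` with `κ = 1`).
* `exists_ft_BC247` : a normalised Kummer generator `f_t ∈ F_{E₁}` of `t` (`ℚ̄^{I₁} ⊆ E₁`).
-/



set_option autoImplicit false
set_option synthInstance.maxHeartbeats 400000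
set_option maxHeartbeats 1000000
set_option linter.unusedSectionVars false
set_option linter.style.haveILetI false

noncomputable section

namespace Fermat.Agent.Ribet.H247

open AlgebraicCurve ModularCurve HahnSeries
open Fermat.Agent.S24 Fermat.Agent.A2.H528 Fermat.Agent.A2.H129
open Fermat.Agent.Ribet.Spec Fermat.Agent.Ribet.H884 Fermat.Agent.Ribet.H703
open Fermat.Agent.Ribet.H944.Wall Fermat.Agent.Ribet.H819

section BC

variable {N : ℕ} [NeZero N] {p : ℕ}

theorem coe_gal247 (σ : Kbar ≃ₐ[ℚ] Kbar) (f : FF N) :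
    ((gal N σ f : FF N) : LaurentSeries Kbar) =
      coeffMap (σ : Kbar →+* Kbar) (f : LaurentSeries Kbar) := rfl

/-- A function with coefficients in a field fixed by `ρ` is fixed by `ρ`. -/
theorem gal_eq_self_of_embBC247 {E : IntermediateField ℚ Kbar} {ρ : Kbar ≃ₐ[ℚ] Kbar}
    (hρ : ∀ e ∈ E, ρ e = e) {f : FF N}
    {y : ↥(laurentBaseChange ↥E (modularFunctionFieldFull N))}
    (hf : (f : LaurentSeries Kbar) = embBC (modularFunctionFieldFull N) E y) :
    gal N ρ f = f := by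
  apply Subtype.ext
  rw [coe_gal247, hf, embBC_apply, coeffMap_coeffMap]
  exact coeffMap_congr (RingHom.ext fun e : ↥E => hρ (e : Kbar) e.2) _

/-- The coefficients of a function fixed by `ρ` are fixed by `ρ`. -/
theorem coeff_fixed247 {ρ : Kbar ≃ₐ[ℚ] Kbar} {f : FF N} (h : gal N ρ f = f) (n : ℤ) :
    ρ ((f : LaurentSeries Kbar).coeff n) = (f : LaurentSeries Kbar).coeff n := by
  have := congrArg (fun g : FF N => (g : LaurentSeries Kbar).coeff n) h
  simpa [coe_gal247] using this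

/-- **KD, the generator of `t` at the tame level.** -/
theorem exists_ft_BC247 (hp : p ≠ 0) (A : ValuationSubring Kbar) (t : JZero N)
    (hpt : p • t = 0)
    (ht : ∀ σ ∈ A.inertiaSubgroupIn ℚ, ∀ c : ℕ, CycloAt p σ c → σ • t = c • t)
    (E₁ : IntermediateField ℚ Kbar)
    (hE₁ : ∀ y : Kbar, (∀ ρ ∈ A.inertiaSubgroupIn ℚ, CycloAt p ρ 1 → ρ y = y) → y ∈ E₁) :
    ∃ (ft : ↥(laurentBaseChange ↥E₁ (modularFunctionFieldFull N))) (ft' : FF N),
      (ft' : LaurentSeries Kbar) = embBC (modularFunctionFieldFull N) E₁ ft ∧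
      IsKummerGen N p ft' t ∧ lcF N ft' = 1 ∧ ft ≠ 0 ∧
      (ft : LaurentSeries ↥E₁).leadingCoeff = 1 := by
  obtain ⟨ft', h1, h2, h3⟩ := exists_ft247 hp A t hpt ht
  obtain ⟨ft, hft⟩ := exists_FE_of_coeff_mem (modularFunctionFieldFull N) E₁ ft'.2
    (fun n => hE₁ _ (fun ρ hρ hρ1 => coeff_fixed247 (h3 ρ hρ hρ1) n))
  have hne : ft ≠ 0 := by
    rintro rfl
    rw [map_zero] at hft
    exact h1.1 (Subtype.ext hft.symm)
  refine ⟨ft, ft', hft.symm, h1, h2, hne, ?_⟩
  have h4 : (embBC (modularFunctionFieldFull N) E₁ ft).leadingCoeff = 1 := by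
    rw [hft]
    exact h2
  rw [embBC_apply] at h4
  have h5 := leadingCoeff_map_of_injective (algebraMap ↥E₁ Kbar) (ft : LaurentSeries ↥E₁)
  have h6 : algebraMap ↥E₁ Kbar (ft : LaurentSeries ↥E₁).leadingCoeff = algebraMap ↥E₁ Kbar 1 := by
    rw [map_one, ← h4]
    exact h5.symm
  exact (algebraMap ↥E₁ Kbar).injective h6

/-- **KD in the shape of `H819.PerCtx.shell_period_BC`.** -/
theorem kummerData_BC247 (hp : p ≠ 0) (A : ValuationSubring Kbar) (x t : JZero N)
    (hpx : p • x = 0)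
    (ht : ∀ σ ∈ A.inertiaSubgroupIn ℚ, ∀ c : ℕ, CycloAt p σ c → σ • t = c • t)
    {σ₁ : Kbar ≃ₐ[ℚ] Kbar} (hσ₁ : σ₁ ∈ A.inertiaSubgroupIn ℚ) (hσ₁x : σ₁ • x = x + t)
    (E₁ E₂ : IntermediateField ℚ Kbar)
    (hE₁ : ∀ e ∈ E₁, ∀ ρ ∈ A.inertiaSubgroupIn ℚ, CycloAt p ρ 1 → ρ e = e)
    (hE₂ : ∀ y : Kbar,
      (∀ ρ ∈ A.inertiaSubgroupIn ℚ, CycloAt p ρ 1 → ρ • x = x → ρ y = y) → y ∈ E₂)
    (ft : ↥(laurentBaseChange ↥E₁ (modularFunctionFieldFull N))) (ft' : FF N)
    (hcoe : (ft' : LaurentSeries Kbar) = embBC (modularFunctionFieldFull N) E₁ ft)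
    (hft : IsKummerGen N p ft' t) (hlt : lcF N ft' = 1) :
    ∃ (f₂ G₀ : ↥(laurentBaseChange ↥E₂ (modularFunctionFieldFull N))) (fx : FF N),
      (fx : LaurentSeries Kbar) = embBC (modularFunctionFieldFull N) E₂ f₂ ∧
      IsKummerGen N p fx x ∧ lcF N fx = 1 ∧ f₂ ≠ 0 ∧ G₀ ≠ 0 ∧
      coeffMap (σ₁ : Kbar →+* Kbar) (embBC (modularFunctionFieldFull N) E₂ f₂) =
        embBC (modularFunctionFieldFull N) E₂ f₂ * HahnSeries.C (1 : Kbar) *
          embBC (modularFunctionFieldFull N) E₁ ft *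
          (embBC (modularFunctionFieldFull N) E₂ G₀) ^ p := by
  have hfixt : ∀ ρ ∈ A.inertiaSubgroupIn ℚ, CycloAt p ρ 1 → gal N ρ ft' = ft' :=
    fun ρ hρ hρ1 => gal_eq_self_of_embBC247 (fun e he => hE₁ e he ρ hρ hρ1) hcoe
  obtain ⟨fx, G, hfx, hlx, hG0, hlG, hfixx, hfixG, hrel⟩ :=
    kummerData247 hp A x t hpx ht hσ₁ hσ₁x ft' hft hlt hfixt
  obtain ⟨f₂, hf₂⟩ := exists_FE_of_coeff_mem (modularFunctionFieldFull N) E₂ fx.2
    (fun n => hE₂ _ (fun ρ hρ hρ1 hρx => coeff_fixed247 (hfixx ρ hρ hρ1 hρx) n))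
  obtain ⟨G₀, hG₀⟩ := exists_FE_of_coeff_mem (modularFunctionFieldFull N) E₂ G.2
    (fun n => hE₂ _ (fun ρ hρ hρ1 hρx => coeff_fixed247 (hfixG ρ hρ hρ1 hρx) n))
  refine ⟨f₂, G₀, fx, hf₂.symm, hfx, hlx, ?_, ?_, ?_⟩
  · rintro rfl
    rw [map_zero] at hf₂
    exact hfx.1 (Subtype.ext hf₂.symm)
  · rintro rfl
    rw [map_zero] at hG₀
    exact hG0 (Subtype.ext hG₀.symm)
  · have h1 := congrArg (fun g : FF N => (g : LaurentSeries Kbar)) hrel
    have h2 : ((fx * ft' * G ^ p : FF N) : LaurentSeries Kbar) =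
        (fx : LaurentSeries Kbar) * (ft' : LaurentSeries Kbar) * (G : LaurentSeries Kbar) ^ p :=
      rfl
    simp only [coe_gal247] at h1
    rw [h2] at h1
    rw [hf₂, hG₀, ← hcoe, h1, map_one, mul_one]

end BC

end Fermat.Agent.Ribet.H247

end

end
-- ===== PACK-END Ribet/H247/KDBC.lean

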