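import Fermat.Agent.Pack.S44C.G0E29L0
import Fermat.Agent.Pack.S44C.G0E23L0
import Fermat.Agent.Pack.S44C.G0E26L3
import Fermat.Agent.Pack.S44C.G0E24L0
import Fermat.Agent.Pack.S44C.G0E17L0
import Fermat.Agent.Pack.S44C.G0E28L2
import Fermat.Agent.Pack.S44C.G0E24L3
import Fermat.Agent.Pack.S44C.G0E24L2
import Fermat.Agent.Pack.S44C.G0E5L2
import Fermat.Agent.Pack.S44C.G0E27L1
import Fermat.Agent.Pack.Fast891

-- ===== PACK-BEGIN Ribet/H704/WildSpec.lean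
section
/-
# RIBET row 38, WALL-p, (S4) CORE-OUT, WILD half: frozen interface + PROVED top glue
# (sub-architect helper704)

`WildStatement` (`CoreOutSpec.lean`) ⟸ `WildFrameStatement` (INST: Galois + model side)
                                      + `WildChartStatement` (chart geometry, Mathlib + A2 only)
                                      + `SmoothPureStatement` (purity at the smooth points)
                                      + `DictPureStatement`  (`CoreOutSpec.lean`).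

## The frame
Level `E₂ = E₁(u)` (wild, `e(E₂ / E₁) = p`), `K₂ = F_{E₂}` with its finite chart `B₂`, components
`c₂`; `f₂ ∈ K₂` a Kummer generator of `x`, `D₂ = Δ(t)/Δ(t^p) ∈ K₂`.  A `WildFrame` over these data
consists of
* the TAME level `O₁ ⊆ E₁` (`ζ_p ∈ O₁`), `K₁ = F_{E₁}`, chart `B₁`, components `c₁`, compatible
  with level `2` (`B₁ → B₂`, `c₂.pᵢ ∩ B₁ = c₁.pᵢ`, `w₁ = η · w₂ ^ e`);
* the unit pair `D · D' = w₁ ^ N`, `gcd (N, p) = 1`, `D ∉ p₁`, `D' ∉ p₂`, `D ↦ D₂`;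
* `f_t ∈ K₁` horizontally `p`-divisible and DEEP SPLIT (`I6.SplitAt` along both components of
  `B₁`), the covers `L₁ = K₁(h) ⊆ L₂ = K₂(h)`, `h ^ p = f_t`, `τ` a generator of `Gal(L₁ / K₁)`;
* the output of PER: `f' ∈ L₁`, horizontally `p`-divisible, `τ f' = f' · c · G ^ p` with `c` a
  unit of `O₁` (peu ramifié), and `f₂ = lc · f' · b ^ p` in `L₂`, `lc` a nonzero constant.

## The chart theorem (WILD-CHART)
For a frame: `∃ i, ∀` crossing point `n` of `B₂`: `f₂ · D₂ ^ i` is pure at `n`.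
Proof plan (all leaves on main or frozen in `CoreOutSpec.lean`):
`n₁ = n ∩ B₁`; node rings `R₁ ⊆ R₂` (`H132.InstA`), `g` from `H399.splitLoc`, cover node rings
`R' ⊆ R''` (`CoverNode2Statement`); branch valuations of all cover node rings are `τ`-conjugate
(`H873.sheets`), `W (τ f') ≡ W f'` (`I6.sheet_shift`), so `δ = W₁ f' - W₂ f' mod p` is global;
`i := δ / N`; `u₁ = f' D ^ i` is pure in `R'` (`NodePureTameStatement`), hence in `R''`, hence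
`f₂ D₂ ^ i = lc · u₁ · b ^ p` is pure in `R''`, hence in `R₂` (`PureDescentStatement`).
-/


set_option autoImplicit false
set_option synthInstance.maxHeartbeats 400000
set_option maxHeartbeats 1000000
set_option linter.unusedSectionVars false
set_option linter.style.haveILetI false

noncomputable section

namespace Fermat.Agent.Ribet.H704.CoreOut

open AlgebraicCurve ModularCurve HahnSeries
open Fermat.Agent.S24 Fermat.Agent.A2.H708 Fermat.Agent.A2.H528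
open Fermat.Agent.Ribet.Spec Fermat.Agent.Ribet.H944.Wall Fermat.Agent.Ribet.H884
open Fermat.Agent.Ribet.H704 Fermat.Agent.A2

/-! ## Purity at a closed point of an abstract chart -/

/-- `G` is pure at the closed point `n` of the chart `B` (exponent `m`):
`G · w ^ a · d ^ m` is a unit of `B_n`. -/
def PureAtChart {R F : Type*} [CommRing R] [Field F] [Algebra R F] (w : R) (B : Subalgebra R F)
    (m : ℕ) (G : F) (n : Ideal B) : Prop :=
  ∃ (d : F) (a : ℤ), d ≠ 0 ∧ Alg.LocUnit B n (G * (algebraMap R F w) ^ a * d ^ m)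

/-! ## The frame -/

/-- The data of the WILD case above the level-`2` chart `(O₂, E₂, K₂, w₂, B₂, c₂)`, the Kummer
generator `f₂` and the modular unit `D₂`. -/
structure WildFrame (p : ℕ) (O₂ E₂ K₂ : Type) [CommRing O₂] [Field E₂] [Algebra O₂ E₂]
    [Field K₂] [Algebra E₂ K₂] [Algebra O₂ K₂] (w₂ : O₂) (B₂ : Subalgebra O₂ K₂)
    (c₂ : SSChart w₂ B₂) (f₂ D₂ : K₂) : Type 1 where
  /-- the tame level -/
  O₁ : Type
  E₁ : Type
  /-- the function field over the tame level -/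
  K₁ : Type
  /-- the cover over the tame level -/
  L₁ : Type
  /-- the cover over the wild level -/
  L₂ : Type
  [commRingO₁ : CommRing O₁]
  [isDomainO₁ : IsDomain O₁]
  [dvrO₁ : IsDiscreteValuationRing O₁]
  [fieldE₁ : Field E₁]
  [charZeroE₁ : CharZero E₁]
  [algO₁E₁ : Algebra O₁ E₁]
  [fracO₁E₁ : IsFractionRing O₁ E₁]
  [fieldK₁ : Field K₁]
  [algE₁K₁ : Algebra E₁ K₁]
  [algO₁K₁ : Algebra O₁ K₁]
  [towerO₁E₁K₁ : IsScalarTower O₁ E₁ K₁]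
  [fieldL₁ : Field L₁]
  [algK₁L₁ : Algebra K₁ L₁]
  [algE₁L₁ : Algebra E₁ L₁]
  [towerE₁K₁L₁ : IsScalarTower E₁ K₁ L₁]
  [finK₁L₁ : FiniteDimensional K₁ L₁]
  [galK₁L₁ : IsGalois K₁ L₁]
  [fieldL₂ : Field L₂]
  [algK₂L₂ : Algebra K₂ L₂]
  [algO₁O₂ : Algebra O₁ O₂]
  [algK₁K₂ : Algebra K₁ K₂]
  [algL₁L₂ : Algebra L₁ L₂]
  [algK₁L₂ : Algebra K₁ L₂]
  [towerK₁K₂L₂ : IsScalarTower K₁ K₂ L₂]
  [towerK₁L₁L₂ : IsScalarTower K₁ L₁ L₂]
  [algO₁K₂ : Algebra O₁ K₂]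
  [towerO₁O₂K₂ : IsScalarTower O₁ O₂ K₂]
  [towerO₁K₁K₂ : IsScalarTower O₁ K₁ K₂]
  /-- the residue field of the tame level is algebraically closed -/
  algClosed₁ : IsAlgClosed (IsLocalRing.ResidueField O₁)
  /-- uniformiser of the tame level -/
  w₁ : O₁
  /-- coordinate of the tame chart -/
  x₁ : K₁
  /-- the finite chart at the tame level -/
  B₁ : Subalgebra O₁ K₁
  ctx₁ : Alg.ChartCtx E₁ w₁ x₁ B₁
  /-- the components of the tame chart -/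
  c₁ : SSChart w₁ B₁
  /-- `B₁ → B₂` -/
  map_mem : ∀ b ∈ B₁, algebraMap K₁ K₂ b ∈ B₂
  /-- the components of level `2` lie over the components of level `1` -/
  comp₁ : ∀ (b : B₁) (b' : B₂), (b' : K₂) = algebraMap K₁ K₂ (b : K₁) → (b' ∈ c₂.p₁ ↔ b ∈ c₁.p₁)
  comp₂ : ∀ (b : B₁) (b' : B₂), (b' : K₂) = algebraMap K₁ K₂ (b : K₁) → (b' ∈ c₂.p₂ ↔ b ∈ c₁.p₂)
  /-- `w₁ = η · w₂ ^ e` -/
  unif : ∃ (η : O₂) (e : ℕ), IsUnit η ∧ 0 < e ∧ algebraMap O₁ O₂ w₁ = η * w₂ ^ e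
  /-- residue characteristic `p`, and `ζ_p` at the tame level -/
  hp_mem : (p : O₁) ∈ IsLocalRing.maximalIdeal O₁
  ζ : O₁
  hζ : IsPrimitiveRoot ζ p
  /-- the unit pair -/
  N : ℕ
  D : B₁
  D' : B₁
  hN : Nat.Coprime N p
  hDD : D * D' = algebraMap O₁ B₁ w₁ ^ N
  hD : D ∉ c₁.p₁
  hD' : D' ∉ c₁.p₂
  hD₂ : D₂ = algebraMap K₁ K₂ (D : K₁)
  /-- the Kummer generator of `t`: horizontally `p`-divisible and deep split -/
  ft : K₁
  hft0 : ft ≠ 0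
  hft_div : DivisibleDiv E₁ p ft
  hft_split₁ : I6.SplitAt K₁ c₁.p₁ (algebraMap O₁ B₁ w₁) p ft
  hft_split₂ : I6.SplitAt K₁ c₁.p₂ (algebraMap O₁ B₁ w₁) p ft
  /-- the covers -/
  h : L₁
  hh : h ^ p = algebraMap K₁ L₁ ft
  hadj₁ : IntermediateField.adjoin K₁ ({h} : Set L₁) = ⊤
  hadj₂ : IntermediateField.adjoin K₂ ({algebraMap L₁ L₂ h} : Set L₂) = ⊤
  /-- the deck transformation -/
  τ : L₁ ≃ₐ[K₁] L₁
  hτ : ∀ g : L₁ ≃ₐ[K₁] L₁, ∃ j : ℕ, g = τ ^ j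
  /-- the output of PER -/
  f' : L₁
  G : L₁
  c : O₁
  hf' : f' ≠ 0
  hG : G ≠ 0
  hc : IsUnit c
  hper : τ f' = f' * algebraMap K₁ L₁ (algebraMap O₁ K₁ c) * G ^ p
  hf'_div : DivisibleDiv E₁ p f'
  lc : E₂
  b : L₂
  hlc : lc ≠ 0
  hb : b ≠ 0
  hf₂ : algebraMap K₂ L₂ f₂ = algebraMap K₂ L₂ (algebraMap E₂ K₂ lc) * algebraMap L₁ L₂ f' * b ^ p

/-! ## Leaves -/

/-- **WILD-CHART** (chart geometry; Mathlib + A2 + I6 leaves only).  Over a semistable chart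
`B₂` of the wild level, for a frame: there is ONE exponent `i` such that `f₂ · D₂ ^ i` is pure at
every crossing point of `B₂`. -/
def WildChartStatement : Prop :=
  ∀ (p : ℕ) (O₂ E₂ K₂ : Type) [CommRing O₂] [IsDomain O₂] [IsDiscreteValuationRing O₂]
    [Field E₂] [CharZero E₂] [Algebra O₂ E₂] [IsFractionRing O₂ E₂]
    [Field K₂] [Algebra E₂ K₂] [Algebra O₂ K₂] [IsScalarTower O₂ E₂ K₂]
    (w₂ : O₂) (x₂ : K₂) (B₂ : Subalgebra O₂ K₂) (c₂ : SSChart w₂ B₂) (f₂ D₂ : K₂),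
    p.Prime → IsAlgClosed (IsLocalRing.ResidueField O₂) → Alg.ChartCtx E₂ w₂ x₂ B₂ →
    f₂ ≠ 0 → DivisibleDiv E₂ p f₂ →
    WildFrame p O₂ E₂ K₂ w₂ B₂ c₂ f₂ D₂ →
    ∃ i : ℕ, ∀ n : Ideal B₂, n.IsMaximal → c₂.p₁ ≤ n → c₂.p₂ ≤ n →
      PureAtChart w₂ B₂ p (f₂ * D₂ ^ i) n

/-- **SMOOTH-PURE** (purity at the smooth points of the special fibre; Mathlib + A2 only).
At a closed point `n` of the special fibre lying on only one component, `B_n` is regular of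
dimension `2` (`B_n / w` is a discrete valuation ring), hence factorial: every `G ∈ Fˣ`
horizontally `m`-divisible on `Spec B[1/w]` is pure at `n`.
(Core: `A2.H754.PuritySmooth`, `H247.DictPure`.) -/
def SmoothPureStatement : Prop :=
  ∀ (R E F : Type) [CommRing R] [IsDomain R] [IsDiscreteValuationRing R]
    [Field E] [CharZero E] [Algebra R E] [IsFractionRing R E]
    [Field F] [Algebra E F] [Algebra R F] [IsScalarTower R E F]
    (w : R) (x : F) (B : Subalgebra R F) (c : SSChart w B), Alg.ChartCtx E w x B →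
    ∀ (m : ℕ), m ≠ 0 → ∀ G : F, G ≠ 0 → I6.HorDivVal (R := B) F (algebraMap R B w) m G →
    ∀ n : Ideal B, n.IsMaximal → algebraMap R B w ∈ n → ¬ (c.p₁ ≤ n ∧ c.p₂ ≤ n) →
      PureAtChart w B m G n

/-- **WILD-FRAME** (INST: levels + Kummer generators + deep splitting + PER + model).
Under the hypotheses of WILD there are a good level `E₂` (`= E₁(u)`), the semistable finite chart
of level `M' p` over it, a Kummer generator `f` of `x` defined over `E₂`, the modular unit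
`D = Δ(t^p)/Δ(t)` (`D₂ = D⁻¹ = Δ(t)/Δ(t^p)` over `E₂`), and a frame above them. -/
def WildFrameStatement : Prop :=
  ∀ (p M' : ℕ) [NeZero M'] [NeZero p] [NeZero (p * M')], p.Prime → 5 ≤ p → ¬ p ∣ M' →
    ∀ A : ValuationSubring Kbar, A.LiesOverPrime p →
    ∀ (S : Finset ℕ) (a : ℕ → ℤ), NonEisAway p a → ∀ x t : JZero (p * M'),
      IsNewTors p M' x → EigenAt (p * M') S a x →
      IsNewTors p M' t → EigenAt (p * M') S a t →
      (∀ σ ∈ A.inertiaSubgroupIn ℚ, ∀ c : ℕ, CycloAt p σ c → σ • t = c • t) →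
      (∀ σ ∈ A.inertiaSubgroupIn ℚ, ∃ n : ℕ, σ • x = x + n • t) →
      (∀ σ : GQ, PeuFixes A p σ → σ • x = x) →
      ∀ σ₀ ∈ A.inertiaSubgroupIn ℚ, CycloAt p σ₀ 1 → σ₀ • x ≠ x →
      ∃ (E₂ : IntermediateField ℚ Kbar) (w₂ : Mod.RE A E₂)
        (c₂ : SSChart w₂ (Mod.chartAlg A E₂ (M' * p) (Mod.xE E₂ M' p)))
        (f₂ D₂ : Mod.FE E₂ (M' * p)) (f D : FF (p * M')),
        Mod.Setting A E₂ M' p w₂ ∧ GoodField A E₂ ∧
        Alg.ChartCtx E₂ w₂ (Mod.xE E₂ M' p) (Mod.chartAlg A E₂ (M' * p) (Mod.xE E₂ M' p)) ∧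
        IsKummerGen (p * M') p f x ∧
        (f : LaurentSeries Kbar) = coeffMap (algebraMap E₂ Kbar) (f₂ : LaurentSeries E₂) ∧
        f₂ ≠ 0 ∧ DivisibleDiv E₂ p f₂ ∧
        IsModUnit p M' D ∧ D ≠ 0 ∧
        (D : LaurentSeries Kbar) * coeffMap (algebraMap E₂ Kbar) (D₂ : LaurentSeries E₂) = 1 ∧
        Nonempty (WildFrame p (Mod.RE A E₂) E₂ (Mod.FE E₂ (M' * p)) w₂
          (Mod.chartAlg A E₂ (M' * p) (Mod.xE E₂ M' p)) c₂ f₂ D₂)

/-! ## Glue -/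

/-- In a discrete valuation ring `O` with fraction field `E`, a subring `V` of an `E`-algebra
containing `O` and the inverse of a uniformiser contains `E`. -/
theorem algebraMap_mem_of_inv_unif {O E F : Type*} [CommRing O] [IsDomain O]
    [IsDiscreteValuationRing O] [Field E] [Algebra O E] [IsFractionRing O E] [Field F]
    [Algebra E F] [Algebra O F] [IsScalarTower O E F] {w : O} (hw : Irreducible w)
    (V : ValuationSubring F) (hO : ∀ r : O, algebraMap O F r ∈ V)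
    (hwV : (algebraMap O F w)⁻¹ ∈ V) (e : E) : algebraMap E F e ∈ V := by
  obtain ⟨a, b, hb, rfl⟩ := IsFractionRing.div_surjective (A := O) e
  have hb0 : b ≠ 0 := nonZeroDivisors.ne_zero hb
  obtain ⟨k, u, hu⟩ := IsDiscreteValuationRing.eq_unit_mul_pow_irreducible hb0 hw
  rw [map_div₀, ← IsScalarTower.algebraMap_apply, ← IsScalarTower.algebraMap_apply, hu,
    map_mul, map_pow, div_eq_mul_inv, mul_inv, ← inv_pow]
  refine V.mul_mem _ _ (hO a) (V.mul_mem _ _ ?_ (pow_mem hwV k))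
  have h1 : algebraMap O F (u : O) * algebraMap O F ((u⁻¹ : Oˣ) : O) = 1 := by
    rw [← map_mul]; simp
  have : (algebraMap O F (u : O))⁻¹ = algebraMap O F ((u⁻¹ : Oˣ) : O) :=
    inv_eq_of_mul_eq_one_right h1
  rw [this]
  exact hO _

/-- The modular unit of a frame is a unit of every valuation ring containing the chart `B₂` and
the inverse of the uniformiser. -/
theorem WildFrame.unit_mem {p : ℕ} {O₂ E₂ K₂ : Type} [CommRing O₂] [Field E₂] [Algebra O₂ E₂]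
    [Field K₂] [Algebra E₂ K₂] [Algebra O₂ K₂] {w₂ : O₂} {B₂ : Subalgebra O₂ K₂}
    {c₂ : SSChart w₂ B₂} {f₂ D₂ : K₂} (W : WildFrame p O₂ E₂ K₂ w₂ B₂ c₂ f₂ D₂)
    (V : ValuationSubring K₂) (hB : ∀ b : B₂, (b : K₂) ∈ V)
    (hwV : (algebraMap O₂ K₂ w₂)⁻¹ ∈ V) (hw₂0 : algebraMap O₂ K₂ w₂ ≠ 0) :
    D₂ ∈ V ∧ D₂⁻¹ ∈ V := by
  letI := W.commRingO₁
  letI := W.fieldE₁
  letI := W.algO₁E₁
  letI := W.fieldK₁
  letI := W.algE₁K₁
  letI := W.algO₁K₁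
  letI := W.algO₁O₂
  letI := W.algK₁K₂
  letI := W.algO₁K₂
  haveI := W.towerO₁O₂K₂
  haveI := W.towerO₁K₁K₂
  have hO : ∀ r : O₂, algebraMap O₂ K₂ r ∈ V := fun r => hB (algebraMap O₂ B₂ r)
  obtain ⟨η, e, hη, -, hηe⟩ := W.unif
  obtain ⟨η', hηη'⟩ := hη.exists_right_inv
  -- the image of `w₁` is a unit of `V`
  have hw₁ : algebraMap W.O₁ K₂ W.w₁ = algebraMap O₂ K₂ η * algebraMap O₂ K₂ w₂ ^ e := by
    rw [IsScalarTower.algebraMap_apply W.O₁ O₂ K₂, hηe, map_mul, map_pow]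
  have hη1 : algebraMap O₂ K₂ η * algebraMap O₂ K₂ η' = 1 := by
    rw [← map_mul, hηη', map_one]
  have hw₁inv : (algebraMap W.O₁ K₂ W.w₁)⁻¹ ∈ V := by
    rw [hw₁, mul_inv, inv_eq_of_mul_eq_one_right hη1, ← inv_pow]
    exact V.mul_mem _ _ (hO η') (pow_mem hwV e)
  -- the relation `D₂ · D'₂ = w₁ ^ N`
  have hrel : algebraMap W.K₁ K₂ (W.D : W.K₁) * algebraMap W.K₁ K₂ (W.D' : W.K₁) =
      algebraMap W.O₁ K₂ W.w₁ ^ W.N := by
    have h0 := congrArg (fun b : W.B₁ => algebraMap W.K₁ K₂ (b : W.K₁)) W.hDD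
    simp only [MulMemClass.coe_mul, SubmonoidClass.coe_pow, map_mul, map_pow] at h0
    rw [h0, IsScalarTower.algebraMap_apply W.O₁ W.K₁ K₂]
    rfl
  have hD₂V : D₂ ∈ V := by
    have h := hB ⟨_, W.map_mem _ W.D.2⟩
    have e : D₂ = algebraMap W.K₁ K₂ (W.D : W.K₁) := W.hD₂
    rw [e]
    exact h
  have hD'V : algebraMap W.K₁ K₂ (W.D' : W.K₁) ∈ V := hB ⟨_, W.map_mem _ W.D'.2⟩
  refine ⟨hD₂V, ?_⟩
  have hw₁0 : algebraMap W.O₁ K₂ W.w₁ ≠ 0 := by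
    rw [hw₁]
    refine mul_ne_zero ?_ (pow_ne_zero _ hw₂0)
    intro h1
    rw [h1, zero_mul] at hη1
    exact zero_ne_one hη1
  have hDne : algebraMap W.K₁ K₂ (W.D : W.K₁) ≠ 0 := by
    intro h0
    rw [h0, zero_mul] at hrel
    exact pow_ne_zero _ hw₁0 hrel.symm
  have key : (algebraMap W.K₁ K₂ (W.D : W.K₁))⁻¹ =
      algebraMap W.K₁ K₂ (W.D' : W.K₁) * ((algebraMap W.O₁ K₂ W.w₁)⁻¹) ^ W.N := by
    rw [inv_pow, ← hrel]
    have hD'ne : algebraMap W.K₁ K₂ (W.D' : W.K₁) ≠ 0 := by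
      intro h0
      rw [h0, mul_zero] at hrel
      exact pow_ne_zero _ hw₁0 hrel.symm
    field_simp
  have hinv : D₂⁻¹ = algebraMap W.K₁ K₂ (W.D' : W.K₁) * ((algebraMap W.O₁ K₂ W.w₁)⁻¹) ^ W.N :=
    (congrArg (fun z => z⁻¹) W.hD₂).trans key
  rw [hinv]
  exact V.mul_mem _ _ hD'V (pow_mem hw₁inv _)

/-- **WILD from its leaves.** -/
theorem wild_of (hF : WildFrameStatement) (hC : WildChartStatement) (hSm : SmoothPureStatement)
    (hDict : DictPureStatement) : WildStatement := by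
  intro p M' _ _ _ hp hp5 hpM A hA S a hNE x t hx hex ht het hχ hsh hpeu σ₀ hσ₀ hσ₀1 hσ₀x
  obtain ⟨E₂, w₂, c₂, f₂, D₂, f, D, hSet, hGood, hctx, hfK, hfe, hf₂0, hdiv, hDm, hD0, hDD₂,
    ⟨W⟩⟩ := hF p M' hp hp5 hpM A hA S a hNE x t hx hex ht het hχ hsh hpeu σ₀ hσ₀ hσ₀1 hσ₀x
  haveI : IsDiscreteValuationRing (Mod.RE A E₂) := hSet.dvr
  have halg : IsAlgClosed (IsLocalRing.ResidueField (Mod.RE A E₂)) := hGood.algClosed
  obtain ⟨i, hi⟩ := hC p (Mod.RE A E₂) E₂ (Mod.FE E₂ (M' * p)) w₂ (Mod.xE E₂ M' p)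
    (Mod.chartAlg A E₂ (M' * p) (Mod.xE E₂ M' p)) c₂ f₂ D₂ hp halg hctx hf₂0 hdiv W
  -- `D₂ ≠ 0`
  have hD₂0 : D₂ ≠ 0 := by
    rintro rfl
    have h0 : ((0 : Mod.FE E₂ (M' * p)) : LaurentSeries E₂) = 0 := rfl
    rw [h0, map_zero, mul_zero] at hDD₂
    exact zero_ne_one hDD₂
  have hG₂0 : f₂ * D₂ ^ i ≠ 0 := mul_ne_zero hf₂0 (pow_ne_zero _ hD₂0)
  have hw₂0 : algebraMap (Mod.RE A E₂) (Mod.FE E₂ (M' * p)) w₂ ≠ 0 := by
    have hw0 : w₂ ≠ 0 := hSet.unif.ne_zero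
    intro h0
    apply hw0
    have h1 : algebraMap E₂ (Mod.FE E₂ (M' * p)) (w₂ : E₂) = 0 := h0
    have h2 : (w₂ : E₂) = 0 := by
      rwa [map_eq_zero_iff _ (algebraMap E₂ (Mod.FE E₂ (M' * p))).injective] at h1
    exact Subtype.ext h2
  -- purity at every closed point of the special fibre
  have hpure : ChartPure A E₂ M' p w₂ (f₂ * D₂ ^ i) := by
    intro n hn hwn
    by_cases hcr : c₂.p₁ ≤ n ∧ c₂.p₂ ≤ n
    · exact hi n hn hcr.1 hcr.2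
    · refine hSm (Mod.RE A E₂) E₂ (Mod.FE E₂ (M' * p)) w₂ (Mod.xE E₂ M' p)
        (Mod.chartAlg A E₂ (M' * p) (Mod.xE E₂ M' p)) c₂ hctx p hp.ne_zero (f₂ * D₂ ^ i) hG₂0
        ?_ n hn hwn hcr
      intro V hV hBV hwV
      have hBV' : ∀ b : Mod.chartAlg A E₂ (M' * p) (Mod.xE E₂ M' p),
          (b : Mod.FE E₂ (M' * p)) ∈ V := hBV
      have hwV' : (algebraMap (Mod.RE A E₂) (Mod.FE E₂ (M' * p)) w₂)⁻¹ ∈ V := hwV
      have hE : ∀ e : E₂, algebraMap E₂ (Mod.FE E₂ (M' * p)) e ∈ V :=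
        algebraMap_mem_of_inv_unif hSet.unif V
          (fun r => hBV' (algebraMap (Mod.RE A E₂) _ r)) hwV'
      obtain ⟨g, u, hg0, hu, hu', hfu⟩ := hdiv V hV hE
      obtain ⟨hDV, hDV'⟩ := W.unit_mem V hBV' hwV' hw₂0
      refine ⟨g, u * D₂ ^ i, V.mul_mem _ _ hu (pow_mem hDV i), ?_, ?_⟩
      · rw [mul_inv, ← inv_pow]
        exact V.mul_mem _ _ hu' (pow_mem hDV' i)
      · rw [hfu]; ring
  -- the function over `ℚ̄`
  have hDinv : coeffMap (algebraMap E₂ Kbar) (D₂ : LaurentSeries E₂) =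
      ((D⁻¹ : FF (p * M')) : LaurentSeries Kbar) := by
    have h1 : ((D⁻¹ : FF (p * M')) : LaurentSeries Kbar) = (D : LaurentSeries Kbar)⁻¹ := rfl
    rw [h1]
    exact eq_inv_of_mul_eq_one_right hDD₂
  have hG' : ((f * D⁻¹ ^ i : FF (p * M')) : LaurentSeries Kbar) =
      coeffMap (algebraMap E₂ Kbar) ((f₂ * D₂ ^ i : Mod.FE E₂ (M' * p)) : LaurentSeries E₂) := by
    have h1 : ((f * D⁻¹ ^ i : FF (p * M')) : LaurentSeries Kbar) =
        (f : LaurentSeries Kbar) * ((D⁻¹ : FF (p * M')) : LaurentSeries Kbar) ^ i := rfl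
    have h2 : ((f₂ * D₂ ^ i : Mod.FE E₂ (M' * p)) : LaurentSeries E₂) =
        (f₂ : LaurentSeries E₂) * (D₂ : LaurentSeries E₂) ^ i := rfl
    rw [h1, h2, map_mul, map_pow, ← hfe, hDinv]
  have hNG : NodeGen p M' A (f * D⁻¹ ^ i) :=
    hDict p M' hp hpM A hA E₂ w₂ hSet hGood (f₂ * D₂ ^ i) (f * D⁻¹ ^ i) hG₂0 hG' hpure
  refine ⟨f, D, f * D⁻¹ ^ i, 1, 0, i, hfK, hDm, hD0, ?_, ?_, hNG⟩
  · intro h
    have := Nat.le_of_dvd Nat.one_pos h
    omega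
  · rw [pow_one, pow_zero, mul_one, inv_pow, mul_assoc, inv_mul_cancel₀ (pow_ne_zero _ hD0),
      mul_one]

/-- **CORE-OUT (with NE) from the leaves of TAME and WILD.** -/
theorem coreOutNE_of_leaves (hT : TameStatement) (hF : WildFrameStatement)
    (hC : WildChartStatement) (hSm : SmoothPureStatement) (hDict : DictPureStatement) :
    CoreOutNEStatement :=
  coreOutNE_of_tame_wild hT (wild_of hF hC hSm hDict)

end Fermat.Agent.Ribet.H704.CoreOut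

end
end
-- ===== PACK-END Ribet/H704/WildSpec.lean

-- ===== PACK-BEGIN Ribet/H939/CoverNode2.lean
section



/-!
# RIBET wall-p, (S4) CORE-OUT WILD: leaf (A5) COVER-NODE, two levels, VERBATIM (helper939)

`coverNode2 : CoreOut.CoverNode2Statement` (frozen in `Ribet/H704/CoreOutSpec.lean`).

Route: WPUR at level `1` (`H524.wildPurity524`) gives `g d₂^p = d₁^p s^p (1 + λ^p z)` in `R₁`.
`Y₁ := (h d₂ / (d₁ s) - 1) / λ ∈ L₁` and its image `Y₂ ∈ L₂` are roots of the Artin–Schreier type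
polynomials over `R₁` and `R₂` (`etale_of_wpur`, the relation of level `1` mapped to level `2`).
`𝔫₂` := any maximal ideal of `A₂ = R₂[Y₂]`, `𝔫₁ := 𝔫₂ ∩ A₁`, `A₁ = R₁[Y₁]`; `𝔫₁` is maximal because
`R₁ → R₂` is local (`𝔪ᵢ = 𝔭₁ + 𝔭₂`, branches over branches) and `A₁` is integral over `R₁`.
`R' := (A₁)_{𝔫₁}`, `R'' := (A₂)_{𝔫₂}` (`H939.nodeRing_locAt`, the étale node ring theorem at a GIVEN
maximal ideal), and `R' ⊆ R''` is clear.
-/

set_option autoImplicit false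
set_option linter.unusedSectionVars false
set_option linter.style.haveILetI false
set_option synthInstance.maxHeartbeats 400000
set_option maxHeartbeats 1000000

open Polynomial

namespace Fermat.Agent.Ribet.H939

open Fermat.Agent.Ribet.H704 Fermat.Agent.Ribet.H704.I6

/-! ## The étale data of a wild Kummer equation -/

/-- From the WPUR relation `g d₂^p = d₁^p s^p (1 + λ^p z)` and `h ^ p = g`: the element `Y` with
`h d₂ = (1 + λ Y) d₁ s` is a root of a monic `P ∈ R[X]` with `P'(Y)` a unit of `R[Y]`, and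
`K(h) = Frac R[Y]`. -/
theorem etale_of_wpur {R K L : Type*} [CommRing R] [IsDomain R] [Field K] [Algebra R K]
    [IsFractionRing R K] [Field L] [Algebra K L] [Algebra R L] [IsScalarTower R K L]
    {p : ℕ} (hp : p.Prime) (lam ε ε' z v d₁ d₂ s g : R) (hlam0 : lam ≠ 0)
    (hεε' : ε * ε' = 1) (hpl : (p : R) = lam ^ (p - 1) * ε')
    (hv : (1 + lam ^ p * z) * v = 1)
    (hd₁ : d₁ ≠ 0) (hd₂ : d₂ ≠ 0) (hs : s ≠ 0)
    (hgd : g * d₂ ^ p = d₁ ^ p * s ^ p * (1 + lam ^ p * z))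
    (h Y : L) (hh : h ^ p = algebraMap R L g)
    (hY : h * algebraMap R L d₂ =
      (1 + algebraMap R L lam * Y) * (algebraMap R L d₁ * algebraMap R L s))
    (hadj : IntermediateField.adjoin K ({h} : Set L) = ⊤) :
    ∃ P : R[X], P.Monic ∧ aeval Y P = 0 ∧
      (∃ w ∈ Algebra.adjoin R ({Y} : Set L), aeval Y (derivative P) * w = 1) ∧
      (∀ z' : L, ∃ a b : L, a ∈ Algebra.adjoin R ({Y} : Set L) ∧
        b ∈ Algebra.adjoin R ({Y} : Set L) ∧ b ≠ 0 ∧ z' * b = a) := by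
  classical
  set ι : R →+* L := algebraMap R L with hι
  have hinj : Function.Injective ι := by
    rw [hι, IsScalarTower.algebraMap_eq R K L]
    exact (algebraMap K L).injective.comp (IsFractionRing.injective R K)
  have hι0 : ∀ r : R, r ≠ 0 → ι r ≠ 0 := fun r hr h0 => hr (hinj (by rw [h0, map_zero]))
  obtain ⟨P, hP, hPmain, hPder⟩ := Fermat.Agent.Ribet.H132.exists_asPoly hp lam ε' z hlam0 hpl
  have hd₁L : ι d₁ ≠ 0 := hι0 d₁ hd₁
  have hd₂L : ι d₂ ≠ 0 := hι0 d₂ hd₂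
  have hsL : ι s ≠ 0 := hι0 s hs
  have hlamL : ι lam ≠ 0 := hι0 lam hlam0
  set u : L := 1 + ι lam * Y with hu
  have hup : u ^ p = ι (1 + lam ^ p * z) := by
    have e1 : h ^ p * ι d₂ ^ p = ι d₁ ^ p * ι s ^ p * ι (1 + lam ^ p * z) := by
      rw [hh]
      show ι g * ι d₂ ^ p = _
      rw [← map_pow, ← map_pow, ← map_pow, ← map_mul, ← map_mul, ← map_mul, hgd]
    have e2 : h ^ p * ι d₂ ^ p = u ^ p * (ι d₁ ^ p * ι s ^ p) := by
      rw [← mul_pow, hY, mul_pow, mul_pow]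
    have e3 : u ^ p * (ι d₁ ^ p * ι s ^ p) = ι (1 + lam ^ p * z) * (ι d₁ ^ p * ι s ^ p) := by
      rw [← e2, e1]; ring
    exact mul_right_cancel₀ (mul_ne_zero (pow_ne_zero _ hd₁L) (pow_ne_zero _ hsL)) e3
  have haevalC : ∀ r : R, aeval Y (C r) = ι r := fun r => aeval_C Y r
  have hPY : aeval Y P = 0 := by
    have h1 : aeval Y (C (lam ^ p) * P) = 0 := by
      rw [hPmain]
      simp only [map_sub, map_pow, map_add, map_one, map_mul, aeval_X, haevalC]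
      rw [← hu, hup]
      simp only [map_add, map_one, map_mul, map_pow]
      ring
    rw [map_mul, haevalC] at h1
    exact (mul_eq_zero.1 h1).resolve_left (hι0 _ (pow_ne_zero _ hlam0))
  have hder : aeval Y (derivative P) = ι ε' * u ^ (p - 1) := by
    rw [hPder]
    simp only [map_mul, map_pow, map_add, map_one, aeval_X, haevalC]
    rw [← hu]
  have hYA : Y ∈ Algebra.adjoin R ({Y} : Set L) := Algebra.subset_adjoin (Set.mem_singleton Y)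
  have huA : u ∈ Algebra.adjoin R ({Y} : Set L) :=
    Subalgebra.add_mem _ (Subalgebra.one_mem _)
      (Subalgebra.mul_mem _ (Subalgebra.algebraMap_mem _ lam) hYA)
  have hP' : ∃ w ∈ Algebra.adjoin R ({Y} : Set L), aeval Y (derivative P) * w = 1 := by
    refine ⟨ι ε * u * ι v, Subalgebra.mul_mem _ (Subalgebra.mul_mem _
      (Subalgebra.algebraMap_mem _ ε) huA) (Subalgebra.algebraMap_mem _ v), ?_⟩
    rw [hder]
    have hidx : p - 1 + 1 = p := by have := hp.one_lt; omega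
    have e1 : ι ε' * u ^ (p - 1) * (ι ε * u * ι v) = ι (ε * ε') * (u ^ (p - 1 + 1)) * ι v := by
      rw [map_mul, pow_succ]
      ring
    rw [e1, hidx, hup, hεε', map_one, one_mul, ← map_mul, hv, map_one]
  have hfrac : ∀ z' : L, ∃ a b : L, a ∈ Algebra.adjoin R ({Y} : Set L) ∧
      b ∈ Algebra.adjoin R ({Y} : Set L) ∧ b ≠ 0 ∧ z' * b = a := by
    set A : Subalgebra R L := Algebra.adjoin R ({Y} : Set L) with hA
    set Q : Subfield L := Subfield.closure (A : Set L) with hQ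
    have hAQ : ∀ a ∈ A, a ∈ Q := fun a ha => Subfield.subset_closure ha
    have hKQ : ∀ k : K, algebraMap K L k ∈ Q := by
      intro k
      obtain ⟨a, b, -, rfl⟩ := IsFractionRing.div_surjective (A := R) k
      rw [map_div₀, ← IsScalarTower.algebraMap_apply, ← IsScalarTower.algebraMap_apply]
      exact div_mem (hAQ _ (Subalgebra.algebraMap_mem _ a)) (hAQ _ (Subalgebra.algebraMap_mem _ b))
    have hhQ : h ∈ Q := by
      have : h = u * (ι d₁ * ι s) / ι d₂ := by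
        rw [eq_div_iff hd₂L, hY]
      rw [this]
      exact div_mem (mul_mem (hAQ _ huA) (mul_mem (hAQ _ (Subalgebra.algebraMap_mem _ d₁))
        (hAQ _ (Subalgebra.algebraMap_mem _ s)))) (hAQ _ (Subalgebra.algebraMap_mem _ d₂))
    have htop : IntermediateField.adjoin K ({h} : Set L) ≤ Subfield.toIntermediateField Q hKQ := by
      rw [IntermediateField.adjoin_le_iff]
      intro t ht
      rw [Set.mem_singleton_iff] at ht
      subst ht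
      exact hhQ
    intro z'
    have hz' : z' ∈ Q := htop (by rw [hadj]; trivial)
    rw [hQ, Subfield.mem_closure_iff] at hz'
    obtain ⟨a, ha, b, hb, hab⟩ := hz'
    have hcl : Subring.closure (A : Set L) ≤ A.toSubring := Subring.closure_le.2 (fun t ht => ht)
    by_cases hb0 : b = 0
    · refine ⟨0, 1, Subalgebra.zero_mem _, Subalgebra.one_mem _, one_ne_zero, ?_⟩
      rw [← hab, hb0, div_zero, zero_mul]
    · refine ⟨a, b, hcl ha, hcl hb, hb0, ?_⟩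
      rw [← hab]
      field_simp
  exact ⟨P, hP, hPY, hP', hfrac⟩

/-! ## Functoriality of `locAt` -/

section Functoriality

variable {R₁ R₂ L₁ L₂ : Type*} [CommRing R₁] [CommRing R₂] [Field L₁] [Field L₂]
  [Algebra R₁ L₁] [Algebra R₂ L₂]

/-- The restriction of a ring homomorphism of fields to subalgebras. -/
def subalgHom (φ : L₁ →+* L₂) (A₁ : Subalgebra R₁ L₁) (A₂ : Subalgebra R₂ L₂)
    (hφ : ∀ a ∈ A₁, φ a ∈ A₂) : A₁ →+* A₂ where
  toFun a := ⟨φ a, hφ a a.2⟩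
  map_one' := Subtype.ext (map_one φ)
  map_mul' a b := Subtype.ext (map_mul φ (a : L₁) (b : L₁))
  map_zero' := Subtype.ext (map_zero φ)
  map_add' a b := Subtype.ext (map_add φ (a : L₁) (b : L₁))

@[simp] theorem coe_subalgHom (φ : L₁ →+* L₂) (A₁ : Subalgebra R₁ L₁) (A₂ : Subalgebra R₂ L₂)
    (hφ : ∀ a ∈ A₁, φ a ∈ A₂) (a : A₁) : ((subalgHom φ A₁ A₂ hφ a : A₂) : L₂) = φ a := rfl

/-- `(A₁)_{𝔫₂ ∩ A₁} ⊆ (A₂)_{𝔫₂}`. -/
theorem map_mem_locAt (φ : L₁ →+* L₂) (A₁ : Subalgebra R₁ L₁) (A₂ : Subalgebra R₂ L₂)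
    (hφ : ∀ a ∈ A₁, φ a ∈ A₂) (𝔫₂ : Ideal A₂) [𝔫₂.IsPrime] (𝔫₁ : Ideal A₁) [𝔫₁.IsPrime]
    (h𝔫 : ∀ a : A₁, a ∉ 𝔫₁ → subalgHom φ A₁ A₂ hφ a ∉ 𝔫₂) {z : L₁}
    (hz : z ∈ Fermat.Agent.A2.H348.locAt A₁ 𝔫₁) :
    φ z ∈ Fermat.Agent.A2.H348.locAt A₂ 𝔫₂ := by
  obtain ⟨s, hs, hsz⟩ := hz
  refine ⟨subalgHom φ A₁ A₂ hφ s, h𝔫 s hs, ?_⟩
  rw [coe_subalgHom, ← map_mul]
  exact hφ _ hsz

end Functoriality

/-! ## The leaf -/

/-- **(A5) COVER-NODE, two levels** (verbatim). -/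
theorem coverNode2 : CoreOut.CoverNode2Statement := by
  intro R₁ R₂ K₁ K₂ L₁ L₂
  intro _ _ _ _ _ _ _ _ _ _ _ _ _ _ _ _ _ _ _ _ _ _ _ _ _ _ _ _ _
  intro 𝔭₁ 𝔭₂ π₁ x₁ y₁ hN₁ 𝔮₁ 𝔮₂ π₂ x₂ y₂ hN₂ hk₁ hk₂ hinj12 hq₁ hq₂ p hp ζ hζ lam ε η e hlamζ hε
    hlam_p hη he hlam g hg₁ hg₂ hdiv hs₁ hs₂ h hh hadj₁ hadj₂
  classical
  -- WPUR at level `1`
  obtain ⟨d₁, d₂, s, z, hd₁, hd₂, hs, hgd⟩ := Fermat.Agent.Ribet.H524.wildPurity524 R₁ 𝔭₁ 𝔭₂ π₁
    x₁ y₁ hN₁ p hp lam ε η e hε hlam_p hη he hlam g hg₁ hg₂ hdiv hs₁ hs₂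
  -- the maps
  have hcompat : ∀ r : R₁, algebraMap L₁ L₂ (algebraMap R₁ L₁ r) =
      algebraMap R₂ L₂ (algebraMap R₁ R₂ r) := by
    intro r
    rw [← IsScalarTower.algebraMap_apply R₁ L₁ L₂, ← IsScalarTower.algebraMap_apply R₁ R₂ L₂]
  have hinj₁ : Function.Injective (algebraMap R₁ L₁) := by
    rw [IsScalarTower.algebraMap_eq R₁ K₁ L₁]
    exact (algebraMap K₁ L₁).injective.comp (IsFractionRing.injective R₁ K₁)
  have hinj₂ : Function.Injective (algebraMap R₂ L₂) := by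
    rw [IsScalarTower.algebraMap_eq R₂ K₂ L₂]
    exact (algebraMap K₂ L₂).injective.comp (IsFractionRing.injective R₂ K₂)
  have hj0 : ∀ r : R₁, r ≠ 0 → algebraMap R₁ R₂ r ≠ 0 :=
    fun r hr h0 => hr (hinj12 (by rw [h0, map_zero]))
  have hι0 : ∀ r : R₁, r ≠ 0 → algebraMap R₁ L₁ r ≠ 0 :=
    fun r hr h0 => hr (hinj₁ (by rw [h0, map_zero]))
  -- `π₁ ≠ 0`, `λ ≠ 0`, `λ ∈ 𝔪₁`
  have hπ0 : π₁ ≠ 0 := by
    rintro rfl
    have hxy : x₁ * y₁ ∈ 𝔭₁ ⊓ 𝔭₂ := ⟨𝔭₁.mul_mem_left _ hN₁.hy, 𝔭₂.mul_mem_right _ hN₁.hx⟩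
    rw [hN₁.inf_eq, Ideal.mem_span_singleton, zero_dvd_iff] at hxy
    rcases mul_eq_zero.1 hxy with h0 | h0
    · exact hN₁.hx₁ (h0 ▸ 𝔭₁.zero_mem)
    · exact hN₁.hy₂ (h0 ▸ 𝔭₂.zero_mem)
  have hlam0 : lam ≠ 0 := by
    rw [hlam]
    exact mul_ne_zero hη.ne_zero (pow_ne_zero _ hπ0)
  have hπm : π₁ ∈ IsLocalRing.maximalIdeal R₁ := by
    have h1 : π₁ ∈ 𝔭₁ :=
      (inf_le_left : 𝔭₁ ⊓ 𝔭₂ ≤ 𝔭₁) (hN₁.inf_eq ▸ Ideal.mem_span_singleton_self π₁)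
    exact IsLocalRing.le_maximalIdeal hN₁.prime₁.ne_top h1
  have hlamm : lam ∈ IsLocalRing.maximalIdeal R₁ := by
    rw [hlam]
    exact Ideal.mul_mem_left _ _ (Ideal.pow_mem_of_mem _ hπm e he)
  obtain ⟨ε', hεε'⟩ := hε.exists_right_inv
  have hpl : (p : R₁) = lam ^ (p - 1) * ε' := by
    rw [hlam_p, mul_assoc, hεε', mul_one]
  have hunit : IsUnit (1 + lam ^ p * z) := by
    by_contra hnu
    have h1 : 1 + lam ^ p * z ∈ IsLocalRing.maximalIdeal R₁ :=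
      (IsLocalRing.mem_maximalIdeal _).2 hnu
    have h2 : lam ^ p * z ∈ IsLocalRing.maximalIdeal R₁ :=
      Ideal.mul_mem_right _ _ (Ideal.pow_mem_of_mem _ hlamm p hp.pos)
    have h3 : (1 : R₁) ∈ IsLocalRing.maximalIdeal R₁ := by
      have : (1 : R₁) = (1 + lam ^ p * z) - lam ^ p * z := by ring
      rw [this]
      exact Ideal.sub_mem _ h1 h2
    exact (Ideal.ne_top_iff_one _).1 (IsLocalRing.maximalIdeal.isMaximal R₁).ne_top h3
  obtain ⟨v, hv⟩ := hunit.exists_right_inv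
  -- the Artin–Schreier generator on both levels
  obtain ⟨Y₁, hY₁⟩ : ∃ Y : L₁, h * algebraMap R₁ L₁ d₂ =
      (1 + algebraMap R₁ L₁ lam * Y) * (algebraMap R₁ L₁ d₁ * algebraMap R₁ L₁ s) := by
    have hd₁L := hι0 d₁ hd₁
    have hsL := hι0 s hs.ne_zero
    have hlamL := hι0 lam hlam0
    refine ⟨(h * algebraMap R₁ L₁ d₂ / (algebraMap R₁ L₁ d₁ * algebraMap R₁ L₁ s) - 1) /
      algebraMap R₁ L₁ lam, ?_⟩
    field_simp
    ring
  obtain ⟨Y₂, hY₂def⟩ : ∃ Y : L₂, Y = algebraMap L₁ L₂ Y₁ := ⟨_, rfl⟩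
  have hY₂ : algebraMap L₁ L₂ h * algebraMap R₂ L₂ (algebraMap R₁ R₂ d₂) =
      (1 + algebraMap R₂ L₂ (algebraMap R₁ R₂ lam) * Y₂) *
        (algebraMap R₂ L₂ (algebraMap R₁ R₂ d₁) * algebraMap R₂ L₂ (algebraMap R₁ R₂ s)) := by
    have := congrArg (algebraMap L₁ L₂) hY₁
    rw [map_mul, map_mul, map_mul, map_add, map_mul, map_one, hcompat, hcompat, hcompat,
      hcompat, ← hY₂def] at this
    exact this
  have hh₂ : algebraMap L₁ L₂ h ^ p = algebraMap R₂ L₂ (algebraMap R₁ R₂ g) := by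
    rw [← map_pow, hh, hcompat]
  obtain ⟨P₁, hP₁, hP₁Y, hP₁', hfrac₁⟩ := etale_of_wpur (K := K₁) hp lam ε ε' z v d₁ d₂ s g
    hlam0 hεε' hpl hv hd₁ hd₂ hs.ne_zero hgd h Y₁ hh hY₁ hadj₁
  obtain ⟨P₂, hP₂, hP₂Y, hP₂', hfrac₂⟩ := etale_of_wpur (K := K₂) hp (algebraMap R₁ R₂ lam)
    (algebraMap R₁ R₂ ε) (algebraMap R₁ R₂ ε') (algebraMap R₁ R₂ z) (algebraMap R₁ R₂ v)
    (algebraMap R₁ R₂ d₁) (algebraMap R₁ R₂ d₂) (algebraMap R₁ R₂ s) (algebraMap R₁ R₂ g)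
    (hj0 _ hlam0) (by rw [← map_mul, hεε', map_one])
    (by rw [← map_pow, ← map_mul, ← hpl, map_natCast])
    (by rw [← map_pow, ← map_mul, ← map_one (algebraMap R₁ R₂), ← map_add, ← map_mul, hv])
    (hj0 _ hd₁) (hj0 _ hd₂) (hj0 _ hs.ne_zero)
    (by
      rw [← map_pow, ← map_pow, ← map_pow, ← map_pow, ← map_mul, ← map_mul, ← map_mul,
        ← map_one (algebraMap R₁ R₂), ← map_add, ← map_mul, hgd])
    (algebraMap L₁ L₂ h) Y₂ hh₂ hY₂ hadj₂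
  -- the subalgebras `A₁ = R₁[Y₁]`, `A₂ = R₂[Y₂]`
  obtain ⟨A₁, hA₁⟩ : ∃ A : Subalgebra R₁ L₁, A = Algebra.adjoin R₁ ({Y₁} : Set L₁) := ⟨_, rfl⟩
  obtain ⟨A₂, hA₂⟩ : ∃ A : Subalgebra R₂ L₂, A = Algebra.adjoin R₂ ({Y₂} : Set L₂) := ⟨_, rfl⟩
  rw [← hA₁] at hP₁' hfrac₁
  rw [← hA₂] at hP₂' hfrac₂
  have hY₂A : Y₂ ∈ A₂ := by rw [hA₂]; exact Algebra.subset_adjoin (Set.mem_singleton Y₂)
  have hφA : ∀ a ∈ A₁, algebraMap L₁ L₂ a ∈ A₂ := by
    intro a ha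
    rw [hA₁] at ha
    induction ha using Algebra.adjoin_induction with
    | mem t ht =>
      rw [Set.mem_singleton_iff.1 ht, ← hY₂def]
      exact hY₂A
    | algebraMap r =>
      rw [hcompat]
      exact Subalgebra.algebraMap_mem _ _
    | add a b _ _ iha ihb =>
      rw [map_add]
      exact Subalgebra.add_mem _ iha ihb
    | mul a b _ _ iha ihb =>
      rw [map_mul]
      exact Subalgebra.mul_mem _ iha ihb
  have hYint₁ : IsIntegral R₁ Y₁ := ⟨P₁, hP₁, by rwa [← aeval_def]⟩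
  have hYint₂ : IsIntegral R₂ Y₂ := ⟨P₂, hP₂, by rwa [← aeval_def]⟩
  haveI hAint₁ : Algebra.IsIntegral R₁ A₁ := by
    have h0 : Algebra.IsIntegral R₁ (Algebra.adjoin R₁ ({Y₁} : Set L₁)) :=
      Algebra.IsIntegral.adjoin (fun z hz => by rw [Set.mem_singleton_iff.1 hz]; exact hYint₁)
    exact hA₁.symm ▸ h0
  haveI hAint₂ : Algebra.IsIntegral R₂ A₂ := by
    have h0 : Algebra.IsIntegral R₂ (Algebra.adjoin R₂ ({Y₂} : Set L₂)) :=
      Algebra.IsIntegral.adjoin (fun z hz => by rw [Set.mem_singleton_iff.1 hz]; exact hYint₂)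
    exact hA₂.symm ▸ h0
  -- the maximal ideals
  obtain ⟨𝔫₂, h𝔫₂⟩ := Ideal.exists_maximal A₂
  haveI := h𝔫₂
  obtain ⟨𝔫₁, h𝔫₁def⟩ : ∃ I : Ideal A₁,
      I = 𝔫₂.comap (subalgHom (algebraMap L₁ L₂) A₁ A₂ hφA) := ⟨_, rfl⟩
  have hcomap₂ : 𝔫₂.comap (algebraMap R₂ A₂) = IsLocalRing.maximalIdeal R₂ := by
    haveI : (𝔫₂.comap (algebraMap R₂ A₂)).IsMaximal :=
      Ideal.isMaximal_comap_of_isIntegral_of_isMaximal (R := R₂) (S := A₂) 𝔫₂
    exact IsLocalRing.eq_maximalIdeal inferInstance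
  have hlocal12 : ∀ r ∈ IsLocalRing.maximalIdeal R₁,
      algebraMap R₁ R₂ r ∈ IsLocalRing.maximalIdeal R₂ := by
    intro r hr
    rw [← hN₁.sup_eq] at hr
    obtain ⟨a, ha, b, hb, rfl⟩ := Submodule.mem_sup.1 hr
    rw [map_add, ← hN₂.sup_eq]
    exact Ideal.add_mem _ (Ideal.mem_sup_left ((hq₁ a).2 ha)) (Ideal.mem_sup_right ((hq₂ b).2 hb))
  haveI h𝔫₁p : 𝔫₁.IsPrime := by
    rw [h𝔫₁def]
    exact Ideal.comap_isPrime _ _
  have hcomap₁ : 𝔫₁.comap (algebraMap R₁ A₁) = IsLocalRing.maximalIdeal R₁ := by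
    apply le_antisymm
    · exact IsLocalRing.le_maximalIdeal (Ideal.IsPrime.ne_top (Ideal.comap_isPrime _ _))
    · intro r hr
      rw [Ideal.mem_comap, h𝔫₁def, Ideal.mem_comap]
      have e : subalgHom (algebraMap L₁ L₂) A₁ A₂ hφA (algebraMap R₁ A₁ r) =
          algebraMap R₂ A₂ (algebraMap R₁ R₂ r) := Subtype.ext (hcompat r)
      rw [e]
      have := hlocal12 r hr
      rw [← hcomap₂] at this
      exact this
  haveI h𝔫₁ : 𝔫₁.IsMaximal := by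
    have hmax : (𝔫₁.comap (algebraMap R₁ A₁)).IsMaximal := by
      rw [hcomap₁]
      infer_instance
    exact Ideal.isMaximal_of_isIntegral_of_isMaximal_comap (R := R₁) 𝔫₁ hmax
  haveI hl₁ : IsLocalRing (Fermat.Agent.A2.H348.locAt A₁ 𝔫₁) := isLocalRing_locAt A₁ 𝔫₁
  haveI hl₂ : IsLocalRing (Fermat.Agent.A2.H348.locAt A₂ 𝔫₂) := isLocalRing_locAt A₂ 𝔫₂
  obtain ⟨a1, a2, a3, a4, a5, a6, -, -⟩ :=
    nodeRing_locAt_of_eq hinj₁ hk₁ hN₁ Y₁ P₁ hP₁ hP₁Y A₁ hA₁ hP₁' hfrac₁ 𝔫₁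
  obtain ⟨b1, b2, b3, b4, b5, b6, -, -⟩ :=
    nodeRing_locAt_of_eq hinj₂ hk₂ hN₂ Y₂ P₂ hP₂ hP₂Y A₂ hA₂ hP₂' hfrac₂ 𝔫₂
  refine ⟨Fermat.Agent.A2.H348.locAt A₁ 𝔫₁, Fermat.Agent.A2.H348.locAt A₂ 𝔫₂, hl₁, hl₂,
    ⟨a1, a2, a3, a4, a5, a6⟩, ⟨b1, b2, b3, b4, b5, b6⟩, fun z hz => ?_⟩
  refine map_mem_locAt (algebraMap L₁ L₂) A₁ A₂ hφA 𝔫₂ 𝔫₁ (fun a ha => ?_) hz
  intro ha'
  apply ha
  rw [h𝔫₁def, Ideal.mem_comap]
  exact ha'

end Fermat.Agent.Ribet.H939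

end
-- ===== PACK-END Ribet/H939/CoverNode2.lean

-- ===== PACK-BEGIN Ribet/H7/NodePureTame.lean
section



/-!
# RIBET row 38, WALL-p, (S4) CORE-OUT, leaf (A3) NODE-PURE, tame thickness (helper7)

`nodePureTame : H704.CoreOut.NodePureTameStatement` (frozen in `Ribet/H704/CoreOutSpec.lean`).

Node ring `R`, unit pair `(D, D')` of exponent `N` prime to `m`, `u ∈ Kˣ` horizontally
`m`-divisible with `v₁(u) ≡ v₂(u) (mod m)`.  Then `u = π ^ a · ε · d ^ m` with `ε ∈ Rˣ`.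

Proof.  `H868.tame_node` (node relation + node symmetry + purity) gives
`u ^ N · D ^ (v₁ - v₂) · π ^ (- N v₁) · d₀ ^ m = ε₀ ∈ Rˣ`.  With `v₁ - v₂ = m c` this reads
`u ^ N = ε₀ · π ^ (N v₁) · (D ^ (-c) d₀⁻¹) ^ m`; Bezout `α N + β m = 1` gives
`u = π ^ (N v₁ α) · ε₀ ^ α · ((D ^ (-c) d₀⁻¹) ^ α · u ^ β) ^ m`.
-/

set_option autoImplicit false
set_option linter.unusedSectionVars false

namespace Fermat.Agent.Ribet.H7

open Fermat.Agent.Ribet.H704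

/-- Field bookkeeping for `nodePureTame`: extraction of the `N`-th root by Bezout. -/
theorem npt_bezout {K : Type*} [Field K] {u P Dk d₀ E : K} (hu : u ≠ 0) (hP : P ≠ 0)
    (hDk : Dk ≠ 0) (hd₀ : d₀ ≠ 0) {N m : ℕ} {v₁ v₂ c α β : ℤ} (hc : v₁ - v₂ = m * c)
    (hαβ : α * N + β * m = 1)
    (hG : u ^ N * Dk ^ (v₁ - v₂) * P ^ (-(N : ℤ) * v₁) * d₀ ^ m = E) :
    u = P ^ ((N : ℤ) * v₁ * α) * E ^ α * ((Dk ^ (-c) * d₀⁻¹) ^ α * u ^ β) ^ m := by
  set W : K := Dk ^ (-c) * d₀⁻¹ with hW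
  have hWm : W ^ m = (Dk ^ (v₁ - v₂))⁻¹ * (d₀ ^ m)⁻¹ := by
    rw [hW, mul_pow, inv_pow, ← zpow_natCast (Dk ^ (-c)) m, ← zpow_mul, hc, ← zpow_neg]
    congr 2
    ring
  have hA : Dk ^ (v₁ - v₂) ≠ 0 := zpow_ne_zero _ hDk
  have hC : d₀ ^ m ≠ 0 := pow_ne_zero _ hd₀
  have hB : P ^ ((N : ℤ) * v₁) ≠ 0 := zpow_ne_zero _ hP
  have hBinv : P ^ (-(N : ℤ) * v₁) = (P ^ ((N : ℤ) * v₁))⁻¹ := by
    rw [← zpow_neg]
    congr 1
    ring
  have h1 : u ^ (N : ℤ) = E * P ^ ((N : ℤ) * v₁) * W ^ (m : ℤ) := by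
    rw [zpow_natCast, zpow_natCast, hWm, ← hG, hBinv]
    field_simp
  have h2 : u = (u ^ (N : ℤ)) ^ α * (u ^ β) ^ (m : ℤ) := by
    rw [← zpow_mul, ← zpow_mul, ← zpow_add₀ hu, mul_comm (N : ℤ) α, hαβ, zpow_one]
  have h3 : (W ^ (m : ℤ)) ^ α = (W ^ α) ^ (m : ℤ) := by
    rw [← zpow_mul, ← zpow_mul, mul_comm]
  calc u = (u ^ (N : ℤ)) ^ α * (u ^ β) ^ (m : ℤ) := h2
    _ = (E * P ^ ((N : ℤ) * v₁) * W ^ (m : ℤ)) ^ α * (u ^ β) ^ (m : ℤ) := by rw [h1]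
    _ = P ^ ((N : ℤ) * v₁ * α) * E ^ α * (W ^ α * u ^ β) ^ m := by
      rw [mul_zpow, mul_zpow, h3, ← zpow_mul, zpow_natCast, zpow_natCast, mul_pow]
      ring

/-- **(A3) NODE-PURE, tame thickness** (leaf of `Ribet/H704/CoreOutSpec.lean`). -/
theorem nodePureTame : CoreOut.NodePureTameStatement := by
  intro R K _ _ _ _ _ _ _ _ 𝔭₁ 𝔭₂ π x y hN m N hm hcop D D' hDD u hu hdiv v₁ v₂ hv₁ hv₂ hdvd
  rcases Nat.eq_zero_or_pos N with rfl | hNpos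
  · have hm1 : m = 1 := by simpa using hcop
    subst hm1
    exact ⟨u, 0, 1, hu, isUnit_one, by simp⟩
  obtain ⟨d₀, ε₀, hd₀, hG, -, -⟩ := H868.tame_node hN hNpos hDD hm hcop hu hdiv hv₁ hv₂
  obtain ⟨c, hc⟩ := hdvd
  obtain ⟨α, β, hαβ⟩ : IsCoprime (N : ℤ) (m : ℤ) := Nat.isCoprime_iff_coprime.mpr hcop
  have hinj : Function.Injective (algebraMap R K) := IsFractionRing.injective R K
  have hπ0 : π ≠ 0 := H132.isNode_pi_ne_zero hN
  have hP : algebraMap R K π ≠ 0 := fun h => hπ0 (hinj (by rw [h, map_zero]))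
  have hD0 : D ≠ 0 := by
    rintro rfl
    have h0 : π ^ N = 0 := by rw [← hDD.mul_eq, zero_mul]
    exact hπ0 (pow_eq_zero_iff (Nat.pos_iff_ne_zero.mp hNpos) |>.mp h0)
  have hDk : algebraMap R K D ≠ 0 := fun h => hD0 (hinj (by rw [h, map_zero]))
  -- the unit `ε₀ ^ α`
  have hε : algebraMap R K ((ε₀ ^ α : Rˣ) : R) = (algebraMap R K (ε₀ : R)) ^ α := by
    have e1 : algebraMap R K ((ε₀ ^ α : Rˣ) : R) =
        ((Units.map (algebraMap R K : R →* K) (ε₀ ^ α) : Kˣ) : K) := rfl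
    rw [e1, map_zpow, Units.val_zpow_eq_zpow_val]
    rfl
  refine ⟨(algebraMap R K D ^ (-c) * d₀⁻¹) ^ α * u ^ β, (N : ℤ) * v₁ * α,
    ((ε₀ ^ α : Rˣ) : R), ?_, (ε₀ ^ α).isUnit, ?_⟩
  · exact mul_ne_zero (zpow_ne_zero _ (mul_ne_zero (zpow_ne_zero _ hDk) (inv_ne_zero hd₀)))
      (zpow_ne_zero _ hu)
  · rw [hε]
    exact npt_bezout hu hP hDk hd₀ hc (by linarith) hG

end Fermat.Agent.Ribet.H7

end
-- ===== PACK-END Ribet/H7/NodePureTame.lean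

-- ===== PACK-BEGIN Ribet/H699/PureDescent.lean
section




/-!
# Row 38, WALL-p, CORE-OUT leaf (A2) PURE-DESCENT
# (`H704.CoreOut.PureDescentStatement`, VERBATIM)   (helper699)

`R ⊆ R'` node rings (`R' ⊆ L` a node ring above `R`, same `π, x, y`, branches `𝔭ᵢ R'` lying over
`𝔭ᵢ`), `u ∈ K = Frac R` horizontally `m`-divisible and pure in `R'`
(`u = π ^ a · ε · d ^ m`, `ε ∈ R'ˣ`, `d ∈ L`).  Then `u` is pure in `R`.

Proof.  Branch valuations and slopes of elements of `K` are the same in `R` and in `R'`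
(`valAt_map699`, `slopeAt_map699`: the defining equations are transported by `R → R'`).  Hence
`vᵢ(u) = a + m cᵢ` and `m ∣ slopeᵢ(u)`.  With `Z = π + x²` (`(v₁, v₂) = (0, 1)`,
`H399.bv_pi_add_sq`) and `e = π ^ c₁ Z ^ (c₂ - c₁)` the element `u₀ = u π ^ (-a) e ^ (-m)` is a
unit on both branches, horizontally `m`-divisible, with slopes divisible by `m`;
`H868.nodePure_both` gives `u₀ d₁ ^ m ∈ Rˣ`.
-/

set_option autoImplicit false
set_option linter.unusedSectionVars false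
set_option linter.style.haveILetI false
set_option maxHeartbeats 1000000

namespace Fermat.Agent.Ribet.H699

open Fermat.Agent.Ribet.H704 Fermat.Agent.Ribet.H132 Fermat.Agent.A2.Alg.H132
open Fermat.Agent.Ribet.H399

section Transport

variable {R K L : Type*} [CommRing R] [Field K] [Algebra R K] [Field L] [Algebra K L]
  [Algebra R L] [IsScalarTower R K L] (R' : Subalgebra R L)

theorem algebraMap_sub699 (b : R) :
    algebraMap R' L (algebraMap R R' b) = algebraMap K L (algebraMap R K b) := by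
  rw [← IsScalarTower.algebraMap_apply R K L]
  rfl

/-- Orders on a branch are transported by `R → R'`. -/
theorem ordOn_map699 {𝔭 : Ideal R} {ϖ a : R} {s : ℕ} (h : I6.OrdOn 𝔭 ϖ a s) :
    I6.OrdOn (𝔭.map (algebraMap R R')) (algebraMap R R' ϖ) (algebraMap R R' a) s := by
  unfold I6.OrdOn at h ⊢
  have hle : 𝔭 ≤ (𝔭.map (algebraMap R R')).comap (algebraMap R R') := Ideal.le_comap_map
  have := h.map (Ideal.quotientMap (𝔭.map (algebraMap R R')) (algebraMap R R') hle)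
  simpa [map_pow, Ideal.quotientMap_mk] using this

/-- Branch valuations are transported by `K → L`. -/
theorem valAt_map699 {𝔭 : Ideal R} {π : R}
    (hlo : ∀ a : R, algebraMap R R' a ∈ 𝔭.map (algebraMap R R') → a ∈ 𝔭)
    {u : K} {v : ℤ} (h : I6.ValAt K 𝔭 π u v) :
    I6.ValAt L (𝔭.map (algebraMap R R')) (algebraMap R R' π) (algebraMap K L u) v := by
  obtain ⟨a, b, ha, hb, hab⟩ := h
  refine ⟨algebraMap R R' a, algebraMap R R' b, fun h => ha (hlo a h), fun h => hb (hlo b h), ?_⟩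
  rw [algebraMap_sub699 (K := K) R' a, algebraMap_sub699 (K := K) R' b,
    algebraMap_sub699 (K := K) R' π, ← map_mul, hab, map_mul, map_zpow₀]

/-- Slopes are transported by `K → L`. -/
theorem slopeAt_map699 {𝔭 : Ideal R} {π ϖ : R}
    (hlo : ∀ a : R, algebraMap R R' a ∈ 𝔭.map (algebraMap R R') → a ∈ 𝔭)
    {u : K} {s : ℤ} (h : I6.SlopeAt K 𝔭 π ϖ u s) :
    I6.SlopeAt L (𝔭.map (algebraMap R R')) (algebraMap R R' π) (algebraMap R R' ϖ)
      (algebraMap K L u) s := by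
  obtain ⟨v, a, b, i, j, ha, hb, hab, hi, hj, hs⟩ := h
  refine ⟨v, algebraMap R R' a, algebraMap R R' b, i, j, fun h => ha (hlo a h),
    fun h => hb (hlo b h), ?_, ordOn_map699 R' hi, ordOn_map699 R' hj, hs⟩
  rw [algebraMap_sub699 (K := K) R' a, algebraMap_sub699 (K := K) R' b,
    algebraMap_sub699 (K := K) R' π, ← map_mul, hab, map_mul, map_zpow₀]

end Transport

section Calc

variable {R : Type*} [CommRing R] [IsDomain R] [IsNoetherianRing R] [IsIntegrallyClosed R]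
variable {K : Type*} [Field K] [Algebra R K] [IsFractionRing R K]
variable {π ϖ : R} {𝔭 𝔮 : Ideal R}

theorem bv_zpow699 (h : VertData π 𝔭 𝔮) {u : K} (hu : u ≠ 0) (n : ℤ) :
    branchVal h (u ^ n) = n * branchVal h u := by
  rcases n with n | n
  · rw [Int.ofNat_eq_natCast, zpow_natCast, bv_pow h hu]
  · rw [zpow_negSucc, bv_inv h (pow_ne_zero _ hu), bv_pow h hu, Int.negSucc_eq]
    push_cast
    ring

theorem bs_pow699 (h : BranchData π 𝔭 𝔮 ϖ) {u : K} (hu : u ≠ 0) (n : ℕ) :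
    branchSlope h (u ^ n) = n * branchSlope h u :=
  branchSlope_eq h (slopeAt_pow h (branchSlope_spec h hu) n)

theorem bs_inv699 (h : BranchData π 𝔭 𝔮 ϖ) {u : K} (hu : u ≠ 0) :
    branchSlope h u⁻¹ = - branchSlope h u :=
  branchSlope_eq h (slopeAt_inv h (branchSlope_spec h hu))

theorem bs_zpow699 (h : BranchData π 𝔭 𝔮 ϖ) {u : K} (hu : u ≠ 0) (n : ℤ) :
    branchSlope h (u ^ n) = n * branchSlope h u := by
  rcases n with n | n
  · rw [Int.ofNat_eq_natCast, zpow_natCast, bs_pow699 h hu]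
  · rw [zpow_negSucc, bs_inv699 h (pow_ne_zero _ hu), bs_pow699 h hu, Int.negSucc_eq]
    push_cast
    ring

theorem bs_pi699 (h : BranchData π 𝔭 𝔮 ϖ) : branchSlope (K := K) h (algebraMap R K π) = 0 :=
  branchSlope_eq h (slopeAt_pi h)

/-- A unit of `R` has slope `0`. -/
theorem bs_unit699 (h : BranchData π 𝔭 𝔮 ϖ) {ε : R} (hε : IsUnit ε) :
    branchSlope (K := K) h (algebraMap R K ε) = 0 := by
  have hp := h.vert.prime
  have hε𝔭 : ε ∉ 𝔭 := fun hmem => hp.ne_top (Ideal.eq_top_of_isUnit_mem _ hmem hε)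
  have hord : I6.OrdOn 𝔭 ϖ ε 0 := by
    unfold I6.OrdOn
    rw [pow_zero]
    exact associated_one_iff_isUnit.mpr (hε.map (Ideal.Quotient.mk 𝔭))
  have := branchSlope_eq h (slopeAt_of_ordOn (K := K) h hε𝔭 hord)
  simpa using this

/-- A unit of `R` has branch valuation `0`. -/
theorem bv_unit699 (h : VertData π 𝔭 𝔮) {ε : R} (hε : IsUnit ε) :
    branchVal (K := K) h (algebraMap R K ε) = 0 := by
  have hp := h.prime
  exact bv_of_notMem h fun hmem => hp.ne_top (Ideal.eq_top_of_isUnit_mem _ hmem hε)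

end Calc

/-- **(A2) PURE-DESCENT** (`H704.CoreOut.PureDescentStatement`, verbatim). -/
theorem pureDescent : CoreOut.PureDescentStatement := by
  intro R K L _ _ _ _ _ _ _ _ _ _ _ _ 𝔭₁ 𝔭₂ π x y hN R' hloc hic hnoe hfr hN' hlo₁ hlo₂ m hm u hu
    hdiv hpure
  haveI := hic
  haveI := hnoe
  haveI := hfr
  obtain ⟨d, a, ε, hd, hε, hud⟩ := hpure
  -- branch data downstairs and upstairs
  have V₁ := vertData_left hN
  have V₂ := vertData_right hN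
  have B₁ := branchData_left hN
  have B₂ := branchData_right hN
  have V₁' := vertData_left hN'
  have V₂' := vertData_right hN'
  have B₁' := branchData_left hN'
  have B₂' := branchData_right hN'
  have hπ0 : π ≠ 0 := isNode_pi_ne_zero hN
  have hπK : algebraMap R K π ≠ 0 := algebraMap_ne_zero_h399 hπ0
  have hπ'0 : algebraMap R R' π ≠ 0 := isNode_pi_ne_zero hN'
  have hπL : algebraMap R' L (algebraMap R R' π) ≠ 0 := algebraMap_ne_zero_h399 hπ'0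
  have hε0 : algebraMap R' L ε ≠ 0 := algebraMap_ne_zero_h399 hε.ne_zero
  have huL : algebraMap K L u ≠ 0 := (map_ne_zero _).mpr hu
  -- the purity equation upstairs
  have hud' : algebraMap K L u =
      (algebraMap R' L (algebraMap R R' π)) ^ a * algebraMap R' L ε * d ^ m := hud
  -- valuations and slopes are the same upstairs and downstairs
  have ev₁ : branchVal V₁' (algebraMap K L u) = branchVal V₁ u :=
    branchVal_eq V₁' (valAt_map699 R' hlo₁ (branchVal_spec V₁ hu))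
  have ev₂ : branchVal V₂' (algebraMap K L u) = branchVal V₂ u :=
    branchVal_eq V₂' (valAt_map699 R' hlo₂ (branchVal_spec V₂ hu))
  have es₁ : branchSlope B₁' (algebraMap K L u) = branchSlope B₁ u :=
    branchSlope_eq B₁' (slopeAt_map699 R' hlo₁ (branchSlope_spec B₁ hu))
  have es₂ : branchSlope B₂' (algebraMap K L u) = branchSlope B₂ u :=
    branchSlope_eq B₂' (slopeAt_map699 R' hlo₂ (branchSlope_spec B₂ hu))
  -- valuations and slopes upstairs from purity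
  have hz : (algebraMap R' L (algebraMap R R' π)) ^ a ≠ 0 := zpow_ne_zero _ hπL
  have hdm : d ^ m ≠ 0 := pow_ne_zero _ hd
  have kv : ∀ {𝔭 𝔮 : Ideal R'} (h : VertData (algebraMap R R' π) 𝔭 𝔮),
      branchVal h (algebraMap K L u) = a + m * branchVal h d := by
    intro 𝔭 𝔮 h
    rw [hud', branchVal_mul h _ _ (mul_ne_zero hz hε0) hdm, branchVal_mul h _ _ hz hε0,
      bv_zpow699 h hπL, branchVal_pi, bv_unit699 h hε, bv_pow h hd]
    ring
  have ks : ∀ {𝔭 𝔮 : Ideal R'} {ϖ : R'} (h : BranchData (algebraMap R R' π) 𝔭 𝔮 ϖ),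
      branchSlope h (algebraMap K L u) = m * branchSlope h d := by
    intro 𝔭 𝔮 ϖ h
    rw [hud', branchSlope_mul h _ _ (mul_ne_zero hz hε0) hdm, branchSlope_mul h _ _ hz hε0,
      bs_zpow699 h hπL, bs_pi699, bs_unit699 h hε, bs_pow699 h hd]
    ring
  have hv₁ : branchVal V₁ u = a + m * branchVal V₁' d := by rw [← ev₁, kv V₁']
  have hv₂ : branchVal V₂ u = a + m * branchVal V₂' d := by rw [← ev₂, kv V₂']
  have hs₁ : branchSlope B₁ u = m * branchSlope B₁' d := by rw [← es₁, ks B₁']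
  have hs₂ : branchSlope B₂ u = m * branchSlope B₂' d := by rw [← es₂, ks B₂']
  -- the element `Z = π + x²`, `(v₁, v₂) = (0, 1)`
  have hπ₁ : π ∈ 𝔭₁ := by
    have : π ∈ 𝔭₁ ⊓ 𝔭₂ := by rw [hN.inf_eq]; exact Ideal.mem_span_singleton_self π
    exact this.1
  haveI hpr₁ := hN.prime₁
  set Z : R := π + x ^ 2 with hZ
  have hZ₁ : Z ∉ 𝔭₁ := by
    intro hmem
    have : x ^ 2 ∈ 𝔭₁ := by
      have := 𝔭₁.sub_mem hmem hπ₁
      simpa [hZ] using this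
    exact hN.hx₁ (hpr₁.mem_of_pow_mem _ this)
  have hZ0 : Z ≠ 0 := fun h0 => hZ₁ (h0 ▸ 𝔭₁.zero_mem)
  have hZK : algebraMap R K Z ≠ 0 := algebraMap_ne_zero_h399 hZ0
  have bZ₁ : branchVal (K := K) V₁ (algebraMap R K Z) = 0 := bv_of_notMem V₁ hZ₁
  have bZ₂ : branchVal (K := K) V₂ (algebraMap R K Z) = 1 := bv_pi_add_sq V₂ hN.hx hZ0
  -- normalisation
  set c₁ : ℤ := branchVal V₁' d with hc₁
  set c₂ : ℤ := branchVal V₂' d with hc₂
  set e : K := (algebraMap R K π) ^ c₁ * (algebraMap R K Z) ^ (c₂ - c₁) with he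
  have he0 : e ≠ 0 := mul_ne_zero (zpow_ne_zero _ hπK) (zpow_ne_zero _ hZK)
  have be₁ : branchVal V₁ e = c₁ := by
    rw [he, branchVal_mul V₁ _ _ (zpow_ne_zero _ hπK) (zpow_ne_zero _ hZK), bv_zpow699 V₁ hπK,
      bv_zpow699 V₁ hZK, branchVal_pi, bZ₁]
    ring
  have be₂ : branchVal V₂ e = c₂ := by
    rw [he, branchVal_mul V₂ _ _ (zpow_ne_zero _ hπK) (zpow_ne_zero _ hZK), bv_zpow699 V₂ hπK,
      bv_zpow699 V₂ hZK, branchVal_pi, bZ₂]
    ring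
  have hπa : (algebraMap R K π) ^ a ≠ 0 := zpow_ne_zero _ hπK
  have hem : e ^ m ≠ 0 := pow_ne_zero _ he0
  set u₀ : K := u * ((algebraMap R K π) ^ a)⁻¹ * (e ^ m)⁻¹ with hu₀
  have hu₀0 : u₀ ≠ 0 := mul_ne_zero (mul_ne_zero hu (inv_ne_zero hπa)) (inv_ne_zero hem)
  have kv₀ : ∀ {𝔭 𝔮 : Ideal R} (h : VertData π 𝔭 𝔮),
      branchVal h u₀ = branchVal h u - a - m * branchVal h e := by
    intro 𝔭 𝔮 h
    rw [hu₀, branchVal_mul h _ _ (mul_ne_zero hu (inv_ne_zero hπa)) (inv_ne_zero hem),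
      branchVal_mul h _ _ hu (inv_ne_zero hπa), bv_inv h hπa, bv_inv h hem, bv_zpow699 h hπK,
      branchVal_pi, bv_pow h he0]
    ring
  have ks₀ : ∀ {𝔭 𝔮 : Ideal R} {ϖ : R} (h : BranchData π 𝔭 𝔮 ϖ),
      branchSlope h u₀ = branchSlope h u - m * branchSlope h e := by
    intro 𝔭 𝔮 ϖ h
    rw [hu₀, branchSlope_mul h _ _ (mul_ne_zero hu (inv_ne_zero hπa)) (inv_ne_zero hem),
      branchSlope_mul h _ _ hu (inv_ne_zero hπa), bs_inv699 h hπa, bs_inv699 h hem,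
      bs_zpow699 h hπK, bs_pi699, bs_pow699 h he0]
    ring
  have hv₁0 : I6.ValAt K 𝔭₁ π u₀ 0 := by
    have h0 : branchVal V₁ u₀ = 0 := by rw [kv₀ V₁, hv₁, be₁]; ring
    have := branchVal_spec V₁ hu₀0
    rwa [h0] at this
  have hv₂0 : I6.ValAt K 𝔭₂ π u₀ 0 := by
    have h0 : branchVal V₂ u₀ = 0 := by rw [kv₀ V₂, hv₂, be₂]; ring
    have := branchVal_spec V₂ hu₀0
    rwa [h0] at this
  have hd₁ : (m : ℤ) ∣ branchSlope B₁ u₀ := by
    rw [ks₀ B₁, hs₁]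
    exact dvd_sub (dvd_mul_right _ _) (dvd_mul_right _ _)
  have hd₂ : (m : ℤ) ∣ branchSlope B₂ u₀ := by
    rw [ks₀ B₂, hs₂]
    exact dvd_sub (dvd_mul_right _ _) (dvd_mul_right _ _)
  -- horizontal divisibility of `u₀`
  have hdiv₀ : I6.HorDivVal K π m u₀ := by
    intro V hV hRV hπV
    obtain ⟨g, w, hw, hw', hgw⟩ := hdiv V hV hRV hπV
    have hπV' : algebraMap R K π ∈ V := hRV π
    have hzV : ∀ n : ℤ, (algebraMap R K π) ^ n ∈ V := by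
      intro n
      rcases n with n | n
      · rw [Int.ofNat_eq_natCast, zpow_natCast]
        exact pow_mem hπV' n
      · rw [zpow_negSucc, ← inv_pow]
        exact pow_mem hπV _
    refine ⟨g * e⁻¹, w * ((algebraMap R K π) ^ a)⁻¹, ?_, ?_, ?_⟩
    · rw [← zpow_neg]
      exact mul_mem hw (hzV _)
    · rw [mul_inv, inv_inv]
      exact mul_mem hw' (hzV _)
    · have e1 : (g * e⁻¹) ^ m = g ^ m * (e ^ m)⁻¹ := by rw [mul_pow, inv_pow]
      rw [hu₀, hgw, e1]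
      ring
  -- purity downstairs
  obtain ⟨d₁, ε₁, hd₁0, h1, -, -⟩ := Fermat.Agent.Ribet.H868.nodePure_both hN hm hdiv₀ hv₁0 hv₂0
    (branchSlope_spec B₁ hu₀0) (branchSlope_spec B₂ hu₀0) hd₁ hd₂
  refine ⟨e * d₁⁻¹, a, (ε₁ : R), mul_ne_zero he0 (inv_ne_zero hd₁0), ε₁.isUnit, ?_⟩
  have hd₁m : d₁ ^ m ≠ 0 := pow_ne_zero _ hd₁0
  have h2 : u = (algebraMap R K π) ^ a * e ^ m * u₀ := by
    rw [hu₀]
    field_simp
  have h3 : u₀ = algebraMap R K (ε₁ : R) * (d₁ ^ m)⁻¹ := by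
    rw [← h1]
    field_simp
  have e2 : (e * d₁⁻¹) ^ m = e ^ m * (d₁ ^ m)⁻¹ := by rw [mul_pow, inv_pow]
  rw [e2, h2, h3]
  ring

end Fermat.Agent.Ribet.H699

end
-- ===== PACK-END Ribet/H699/PureDescent.lean

-- ===== PACK-BEGIN Ribet/H132/WildPureNode.lean
section







/-!
# RIBET wall-p, (S4) WILD case: purity at one crossing point, two levels (helper132)

Abstract node-level core of `H704.CoreOut.WildChartStatement` (`Ribet/H704/WildSpec.lean`).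

`R₁ ⊆ R₂` node rings (levels `E₁ ⊆ E₂`), `K₁ ⊆ K₂` their fraction fields, `L₁ = K₁(h)`,
`L₂ = K₂(h)`, `h ^ p = f_t`, `f_t` horizontally `p`-divisible and deep split at `R₁`;
`u₁ ∈ L₁ˣ` horizontally `p`-divisible whose two branch valuations at EVERY cover node ring
`R' ⊆ L₁` over `R₁` are congruent modulo `p` (`H132.instC_global`); `u₂ ∈ K₂ˣ` horizontally
`p`-divisible with `u₂ = ε₂ π₂ ^ j · u₁ · b ^ p` in `L₂`.  Then `u₂` is pure in `R₂`: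
`u₂ = π₂ ^ a · ε · d ^ p`, `ε ∈ R₂ˣ`.

Route: `H399.splitLoc` (normalise `f_t` to `g ∈ R₁`), `H939.coverNode2` (cover node rings
`R' ⊆ R''`), `H7.nodePureTame` (A3) at `R'`, transport to `R''`, `H699.pureDescent` (A2).
-/

set_option autoImplicit false
set_option linter.unusedSectionVars false
set_option linter.style.haveILetI false
set_option linter.unusedVariables false
set_option maxHeartbeats 1000000
set_option synthInstance.maxHeartbeats 400000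

namespace Fermat.Agent.Ribet.H132

open Fermat.Agent.Ribet.H704 Fermat.Agent.A2 Fermat.Agent.A2.Alg.H132

section Node2

variable {R₁ R₂ K₁ K₂ L₁ L₂ : Type}
    [CommRing R₁] [IsDomain R₁] [IsIntegrallyClosed R₁] [IsNoetherianRing R₁] [IsLocalRing R₁]
    [CommRing R₂] [IsDomain R₂] [IsIntegrallyClosed R₂] [IsNoetherianRing R₂] [IsLocalRing R₂]
    [Field K₁] [Algebra R₁ K₁] [IsFractionRing R₁ K₁]
    [Field K₂] [Algebra R₂ K₂] [IsFractionRing R₂ K₂]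
    [Field L₁] [Algebra K₁ L₁] [Algebra R₁ L₁] [IsScalarTower R₁ K₁ L₁]
    [Field L₂] [Algebra K₂ L₂] [Algebra R₂ L₂] [IsScalarTower R₂ K₂ L₂]
    [Algebra R₁ R₂] [Algebra L₁ L₂] [Algebra R₁ L₂] [IsScalarTower R₁ R₂ L₂]
    [IsScalarTower R₁ L₁ L₂]

/-- **WILD purity at one crossing point** (two levels).  See the header. -/
theorem wild_pure_node
    {𝔭₁ 𝔭₂ : Ideal R₁} {π₁ x₁ y₁ : R₁} (hN₁ : I6.IsNode 𝔭₁ 𝔭₂ π₁ x₁ y₁)
    {𝔮₁ 𝔮₂ : Ideal R₂} {π₂ x₂ y₂ : R₂} (hN₂ : I6.IsNode 𝔮₁ 𝔮₂ π₂ x₂ y₂)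
    (hk₁ : IsAlgClosed (IsLocalRing.ResidueField R₁))
    (hk₂ : IsAlgClosed (IsLocalRing.ResidueField R₂))
    (hinj : Function.Injective (algebraMap R₁ R₂))
    (hb₁ : ∀ a : R₁, algebraMap R₁ R₂ a ∈ 𝔮₁ ↔ a ∈ 𝔭₁)
    (hb₂ : ∀ a : R₁, algebraMap R₁ R₂ a ∈ 𝔮₂ ↔ a ∈ 𝔭₂)
    {p : ℕ} (hp : p.Prime) {ζ : R₁} (hζ : IsPrimitiveRoot ζ p)
    {η : R₁} {e : ℕ} (hη : IsUnit η) (he : 0 < e) (hlam : ζ - 1 = η * π₁ ^ e)
    {N : ℕ} (hNp : Nat.Coprime N p) {D D' : R₁} (hD : I6.IsUnitPair 𝔭₁ 𝔭₂ π₁ D D' N)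
    {ft : K₁} (hft0 : ft ≠ 0) (hftdiv : I6.HorDivVal K₁ π₁ p ft)
    (hs₁ : I6.SplitAt K₁ 𝔭₁ π₁ p ft) (hs₂ : I6.SplitAt K₁ 𝔭₂ π₁ p ft)
    {h : L₁} (hh : h ^ p = algebraMap K₁ L₁ ft)
    (hadj₁ : IntermediateField.adjoin K₁ ({h} : Set L₁) = ⊤)
    (hadj₂ : IntermediateField.adjoin K₂ ({algebraMap L₁ L₂ h} : Set L₂) = ⊤)
    (hK : ∀ d : K₁, ∃ d' : K₂, algebraMap K₂ L₂ d' = algebraMap L₁ L₂ (algebraMap K₁ L₁ d))
    {u₁ : L₁} (hu₁ : u₁ ≠ 0) (hu₁div : I6.HorDivVal (R := R₁) L₁ π₁ p u₁)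
    (hcong : ∀ (R' : Subalgebra R₁ L₁) (_ : IsLocalRing R'), IsIntegrallyClosed R' →
        IsNoetherianRing R' → IsFractionRing R' L₁ →
        I6.IsNode (𝔭₁.map (algebraMap R₁ R')) (𝔭₂.map (algebraMap R₁ R'))
          (algebraMap R₁ R' π₁) (algebraMap R₁ R' x₁) (algebraMap R₁ R' y₁) →
        (∀ a : R₁, algebraMap R₁ R' a ∈ 𝔭₁.map (algebraMap R₁ R') → a ∈ 𝔭₁) →
        (∀ a : R₁, algebraMap R₁ R' a ∈ 𝔭₂.map (algebraMap R₁ R') → a ∈ 𝔭₂) →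
        ∀ w₁ w₂ : ℤ,
          I6.ValAt L₁ (𝔭₁.map (algebraMap R₁ R')) (algebraMap R₁ R' π₁) u₁ w₁ →
          I6.ValAt L₁ (𝔭₂.map (algebraMap R₁ R')) (algebraMap R₁ R' π₁) u₁ w₂ →
          (p : ℤ) ∣ w₁ - w₂)
    {η₂ : R₂} {e₂ : ℕ} (hη₂ : IsUnit η₂) (hπ : algebraMap R₁ R₂ π₁ = η₂ * π₂ ^ e₂)
    {u₂ : K₂} (hu₂ : u₂ ≠ 0) (hu₂div : I6.HorDivVal K₂ π₂ p u₂)
    {ε₂ : R₂} (hε₂ : IsUnit ε₂) {j : ℤ} {b : L₂} (hb : b ≠ 0)
    (hrel : algebraMap K₂ L₂ u₂ = algebraMap R₂ L₂ ε₂ * (algebraMap R₂ L₂ π₂) ^ j *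
      algebraMap L₁ L₂ u₁ * b ^ p) :
    ∃ (d : K₂) (a : ℤ) (ε : R₂), d ≠ 0 ∧ IsUnit ε ∧
      u₂ = algebraMap R₂ K₂ π₂ ^ a * algebraMap R₂ K₂ ε * d ^ p := by
  classical
  -- (1) normalise `f_t`
  obtain ⟨g, d₀, hd₀, hgd, hg₁, hg₂, hgdiv, hgs₁, hgs₂⟩ :=
    Fermat.Agent.Ribet.H399.splitLoc R₁ K₁ 𝔭₁ 𝔭₂ π₁ x₁ y₁ hN₁ p hp ft hft0 hftdiv hs₁ hs₂
  have hdL : algebraMap K₁ L₁ d₀ ≠ 0 := (map_ne_zero _).2 hd₀
  set h' : L₁ := h * (algebraMap K₁ L₁ d₀)⁻¹ with hh'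
  have hh'p : h' ^ p = algebraMap R₁ L₁ g := by
    rw [hh', mul_pow, hh, hgd, map_mul, map_pow, inv_pow,
      IsScalarTower.algebraMap_apply R₁ K₁ L₁]
    field_simp
  have hadj₁' : IntermediateField.adjoin K₁ ({h'} : Set L₁) = ⊤ := by
    rw [eq_top_iff, ← hadj₁, IntermediateField.adjoin_le_iff]
    intro z hz
    rw [Set.mem_singleton_iff] at hz
    subst hz
    have h1 : h' ∈ IntermediateField.adjoin K₁ ({h'} : Set L₁) :=
      IntermediateField.subset_adjoin K₁ _ (Set.mem_singleton h')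
    have h2 : algebraMap K₁ L₁ d₀ ∈ IntermediateField.adjoin K₁ ({h'} : Set L₁) :=
      IntermediateField.algebraMap_mem _ d₀
    have : z = h' * algebraMap K₁ L₁ d₀ := by
      rw [hh']; field_simp
    rw [this]
    exact mul_mem h1 h2
  have hadj₂' : IntermediateField.adjoin K₂ ({algebraMap L₁ L₂ h'} : Set L₂) = ⊤ := by
    obtain ⟨d', hd'⟩ := hK d₀
    rw [eq_top_iff, ← hadj₂, IntermediateField.adjoin_le_iff]
    intro z hz
    rw [Set.mem_singleton_iff] at hz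
    subst hz
    have h1 : algebraMap L₁ L₂ h' ∈
        IntermediateField.adjoin K₂ ({algebraMap L₁ L₂ h'} : Set L₂) :=
      IntermediateField.subset_adjoin K₂ _ (Set.mem_singleton _)
    have h2 : algebraMap K₂ L₂ d' ∈
        IntermediateField.adjoin K₂ ({algebraMap L₁ L₂ h'} : Set L₂) :=
      IntermediateField.algebraMap_mem _ d'
    have : algebraMap L₁ L₂ h = algebraMap L₁ L₂ h' * algebraMap K₂ L₂ d' := by
      rw [hd', ← map_mul, hh']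
      congr 1
      field_simp
    rw [this]
    exact mul_mem h1 h2
  -- (2) cyclotomic data
  obtain ⟨ε, hε, hlamp⟩ := Fermat.Agent.Ribet.H224.wpn_lam_pow hp hζ
  -- (3) the cover node rings
  obtain ⟨R', R'', hloc', hloc'', ⟨hic', hno', hfr', hN', hc₁', hc₂'⟩,
      ⟨hic'', hno'', hfr'', hN'', hc₁'', hc₂''⟩, hsub⟩ :=
    Fermat.Agent.Ribet.H939.coverNode2 R₁ R₂ K₁ K₂ L₁ L₂ 𝔭₁ 𝔭₂ π₁ x₁ y₁ hN₁ 𝔮₁ 𝔮₂ π₂ x₂ y₂ hN₂
      hk₁ hk₂ hinj hb₁ hb₂ p hp ζ hζ (ζ - 1) ε η e rfl hε hlamp hη he hlam g hg₁ hg₂ hgdiv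
      hgs₁ hgs₂ h' hh'p hadj₁' hadj₂'
  haveI := hloc'
  haveI := hloc''
  haveI := hic'
  haveI := hno'
  haveI := hfr'
  haveI := hic''
  haveI := hno''
  haveI := hfr''
  -- (4) the branch valuations of `u₁` at `R'`
  obtain ⟨w₁, hw₁⟩ := exists_valAt (K := L₁) (vertData_left hN') hu₁
  obtain ⟨w₂, hw₂⟩ := exists_valAt (K := L₁) (vertData_right hN') hu₁
  have hdvd := hcong R' hloc' hic' hno' hfr' hN' hc₁' hc₂' w₁ w₂ hw₁ hw₂
  -- (5) (A3) at `R'`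
  have hD' : I6.IsUnitPair (𝔭₁.map (algebraMap R₁ R')) (𝔭₂.map (algebraMap R₁ R'))
      (algebraMap R₁ R' π₁) (algebraMap R₁ R' D) (algebraMap R₁ R' D') N :=
    ⟨by rw [← map_mul, hD.mul_eq, map_pow], fun hm => hD.hD (hc₁' _ hm),
      fun hm => hD.hD' (hc₂' _ hm)⟩
  have hdiv' : I6.HorDivVal L₁ (algebraMap R₁ R' π₁) p u₁ := by
    intro V hV hR hπ
    exact hu₁div V hV (fun r => hR (algebraMap R₁ R' r)) hπ
  obtain ⟨d, a, ε₁, hd, hε₁, hu₁eq⟩ :=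
    Fermat.Agent.Ribet.H7.nodePureTame R' L₁ _ _ _ _ _ hN' p N hp.ne_zero hNp _ _ hD' u₁ hu₁
      hdiv' w₁ w₂ hw₁ hw₂ hdvd
  -- (6) transport to `R''`
  obtain ⟨ε₁', hε₁'⟩ := hε₁.exists_right_inv
  set z : R'' := ⟨algebraMap L₁ L₂ (ε₁ : L₁), hsub _ ε₁.2⟩ with hz
  set z' : R'' := ⟨algebraMap L₁ L₂ (ε₁' : L₁), hsub _ ε₁'.2⟩ with hz'
  have hzz' : z * z' = 1 := by
    apply Subtype.ext
    show algebraMap L₁ L₂ (ε₁ : L₁) * algebraMap L₁ L₂ (ε₁' : L₁) = 1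
    rw [← map_mul]
    have : (ε₁ : L₁) * (ε₁' : L₁) = 1 := congrArg (fun t : R' => (t : L₁)) hε₁'
    rw [this, map_one]
  have hzu : IsUnit z := IsUnit.of_mul_eq_one _ hzz'
  set U₁ : R''ˣ := (hε₂.map (algebraMap R₂ R'')).unit with hU₁
  set U₂ : R''ˣ := (hη₂.map (algebraMap R₂ R'')).unit with hU₂
  set U₃ : R''ˣ := hzu.unit with hU₃
  have hU₂a : (((U₂ ^ a : R''ˣ) : R'') : L₂) = (algebraMap R₂ L₂ η₂) ^ a := by
    have h1 := map_zpow (Units.map ((algebraMap R'' L₂ : R'' →+* L₂) : R'' →* L₂)) U₂ a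
    have h2 := congrArg (fun t : L₂ˣ => (t : L₂)) h1
    simp only [Units.coe_map, Units.val_zpow_eq_zpow_val] at h2
    exact h2
  have hπ₁ : algebraMap L₁ L₂ (algebraMap R₁ L₁ π₁) =
      algebraMap R₂ L₂ η₂ * (algebraMap R₂ L₂ π₂) ^ e₂ := by
    rw [← IsScalarTower.algebraMap_apply R₁ L₁ L₂, IsScalarTower.algebraMap_apply R₁ R₂ L₂, hπ,
      map_mul, map_pow]
  have hη₂0 : algebraMap R₂ L₂ η₂ ≠ 0 := by
    obtain ⟨η₂', hη₂'⟩ := hη₂.exists_right_inv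
    intro h0
    have := congrArg (algebraMap R₂ L₂) hη₂'
    rw [map_mul, h0, zero_mul, map_one] at this
    exact zero_ne_one this
  have hπ₂0 : algebraMap R₂ L₂ π₂ ≠ 0 := by
    rw [IsScalarTower.algebraMap_apply R₂ K₂ L₂]
    exact (map_ne_zero _).2
      ((map_ne_zero_iff _ (IsFractionRing.injective R₂ K₂)).2 (isNode_pi_ne_zero hN₂))
  refine Fermat.Agent.Ribet.H699.pureDescent R₂ K₂ L₂ 𝔮₁ 𝔮₂ π₂ x₂ y₂ hN₂ R'' hloc'' hic'' hno''
    hfr'' hN'' hc₁'' hc₂'' p hp.ne_zero u₂ hu₂ hu₂div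
    ⟨algebraMap L₁ L₂ d * b, j + e₂ * a, ((U₁ * U₂ ^ a * U₃ : R''ˣ) : R''),
      mul_ne_zero ((map_ne_zero _).2 hd) hb, Units.isUnit _, ?_⟩
  have hu₁eq' : u₁ = (algebraMap R₁ L₁ π₁) ^ a * (ε₁ : L₁) * d ^ p := hu₁eq
  have hcoe : (((U₁ * U₂ ^ a * U₃ : R''ˣ) : R'') : L₂) =
      algebraMap R₂ L₂ ε₂ * (algebraMap R₂ L₂ η₂) ^ a * algebraMap L₁ L₂ (ε₁ : L₁) := by
    have : (((U₁ * U₂ ^ a * U₃ : R''ˣ) : R'') : L₂) =
        ((U₁ : R'') : L₂) * (((U₂ ^ a : R''ˣ) : R'') : L₂) * ((U₃ : R'') : L₂) := rfl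
    rw [this, hU₂a]
    rfl
  rw [hrel, hcoe, hu₁eq', map_mul, map_mul, map_zpow₀, map_pow, hπ₁, mul_zpow, zpow_add₀ hπ₂0,
    zpow_mul, mul_pow]
  simp only [zpow_natCast]
  ring

end Node2

end Fermat.Agent.Ribet.H132

end
-- ===== PACK-END Ribet/H132/WildPureNode.lean

-- ===== PACK-BEGIN Ribet/H132/WildChartProof.lean
section




/-!
# RIBET wall-p, (S4) WILD case: `WildChartStatement` (helper132)

`wildChart : H704.CoreOut.WildChartStatement` (frozen in `Ribet/H704/WildSpec.lean`), VERBATIM.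

* `wildChart_core` : the statement with the fields of `WildFrame` as explicit hypotheses;
* `wildChart`      : the leaf.

Route (docstring of `WildSpec.lean`): the exponent `i₀` of `H132.instC_global` (level `1`);
at a crossing point `n` of `B₂`, `n₁ = n ∩ B₁` is a crossing point of `B₁`, the local rings
`R₁ = (B₁)_{n₁} ⊆ R₂ = (B₂)_n` are node rings (`H132.exists_isNode_chart`) and
`H132.wild_pure_node` (split-loc + cover node rings + (A3) + (A2)) gives the purity of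
`f₂ D₂ ^ i` in `R₂`, `i = i₀ mod p`.
-/

set_option autoImplicit false
set_option linter.unusedSectionVars false
set_option linter.style.haveILetI false
set_option linter.unusedVariables false
set_option maxHeartbeats 4000000
set_option synthInstance.maxHeartbeats 400000

namespace Fermat.Agent.Ribet.H132

open Fermat.Agent.Ribet.H704 Fermat.Agent.A2 Fermat.Agent.A2.H849 Fermat.Agent.A2.Alg.H132
  Fermat.Agent.A2.H609

section Chart2

variable {O₁ E₁ K₁ L₁ O₂ E₂ K₂ L₂ : Type}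
  [CommRing O₂] [IsDomain O₂] [IsDiscreteValuationRing O₂]
  [Field E₂] [CharZero E₂] [Algebra O₂ E₂] [IsFractionRing O₂ E₂]
  [Field K₂] [Algebra E₂ K₂] [Algebra O₂ K₂] [IsScalarTower O₂ E₂ K₂]
  [CommRing O₁] [IsDomain O₁] [IsDiscreteValuationRing O₁]
  [Field E₁] [CharZero E₁] [Algebra O₁ E₁] [IsFractionRing O₁ E₁]
  [Field K₁] [Algebra E₁ K₁] [Algebra O₁ K₁] [IsScalarTower O₁ E₁ K₁]
  [Field L₁] [Algebra K₁ L₁] [Algebra E₁ L₁] [IsScalarTower E₁ K₁ L₁]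
  [FiniteDimensional K₁ L₁] [IsGalois K₁ L₁]
  [Field L₂] [Algebra K₂ L₂]
  [Algebra O₁ O₂] [Algebra K₁ K₂] [Algebra L₁ L₂] [Algebra K₁ L₂]
  [IsScalarTower K₁ K₂ L₂] [IsScalarTower K₁ L₁ L₂]
  [Algebra O₁ K₂] [IsScalarTower O₁ O₂ K₂] [IsScalarTower O₁ K₁ K₂]

/-- Every discrete valuation ring of `K` containing the local ring `B_n` of a chart and the
inverse of the uniformiser contains the constants. -/
theorem const_mem_of_locAt {O E K : Type} [CommRing O] [IsDomain O] [IsDiscreteValuationRing O]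
    [Field E] [Algebra O E] [IsFractionRing O E] [Field K] [Algebra E K] [Algebra O K]
    [IsScalarTower O E K] {w : O} (hw : Irreducible w) (B : Subalgebra O K)
    (V : ValuationSubring K) (hB : ∀ b : B, (b : K) ∈ V)
    (hwV : (algebraMap O K w)⁻¹ ∈ V) (e : E) : algebraMap E K e ∈ V :=
  CoreOut.algebraMap_mem_of_inv_unif hw V (fun r => hB (algebraMap O B r)) hwV e

/-- **WILD-CHART**, with the fields of the frame as hypotheses. -/
theorem wildChart_core {p : ℕ} (hp : p.Prime)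
    (hk₂ : IsAlgClosed (IsLocalRing.ResidueField O₂))
    (hk₁ : IsAlgClosed (IsLocalRing.ResidueField O₁))
    {w₂ : O₂} {x₂ : K₂} {B₂ : Subalgebra O₂ K₂} (c₂ : SSChart w₂ B₂)
    (ctx₂ : Alg.ChartCtx E₂ w₂ x₂ B₂)
    {f₂ D₂ : K₂} (hf₂ : f₂ ≠ 0) (hdiv₂ : DivisibleDiv E₂ p f₂)
    {w₁ : O₁} {x₁ : K₁} {B₁ : Subalgebra O₁ K₁} (ctx₁ : Alg.ChartCtx E₁ w₁ x₁ B₁)
    (c₁ : SSChart w₁ B₁)
    (map_mem : ∀ b ∈ B₁, algebraMap K₁ K₂ b ∈ B₂)
    (comp₁ : ∀ (b : B₁) (b' : B₂), (b' : K₂) = algebraMap K₁ K₂ (b : K₁) →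
      (b' ∈ c₂.p₁ ↔ b ∈ c₁.p₁))
    (comp₂ : ∀ (b : B₁) (b' : B₂), (b' : K₂) = algebraMap K₁ K₂ (b : K₁) →
      (b' ∈ c₂.p₂ ↔ b ∈ c₁.p₂))
    (unif : ∃ (η : O₂) (e : ℕ), IsUnit η ∧ 0 < e ∧ algebraMap O₁ O₂ w₁ = η * w₂ ^ e)
    (hp_mem : (p : O₁) ∈ IsLocalRing.maximalIdeal O₁) {ζ : O₁} (hζ : IsPrimitiveRoot ζ p)
    {N : ℕ} {D D' : B₁} (hN : Nat.Coprime N p) (hDD : D * D' = algebraMap O₁ B₁ w₁ ^ N)
    (hD : D ∉ c₁.p₁) (hD' : D' ∉ c₁.p₂) (hD₂ : D₂ = algebraMap K₁ K₂ (D : K₁))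
    (hD₂u : ∀ V : ValuationSubring K₂, (∀ b : B₂, (b : K₂) ∈ V) →
      (algebraMap O₂ K₂ w₂)⁻¹ ∈ V → D₂ ∈ V ∧ D₂⁻¹ ∈ V)
    {ft : K₁} (hft0 : ft ≠ 0) (hft_div : DivisibleDiv E₁ p ft)
    (hft_split₁ : I6.SplitAt K₁ c₁.p₁ (algebraMap O₁ B₁ w₁) p ft)
    (hft_split₂ : I6.SplitAt K₁ c₁.p₂ (algebraMap O₁ B₁ w₁) p ft)
    {h : L₁} (hh : h ^ p = algebraMap K₁ L₁ ft)
    (hadj₁ : IntermediateField.adjoin K₁ ({h} : Set L₁) = ⊤)
    (hadj₂ : IntermediateField.adjoin K₂ ({algebraMap L₁ L₂ h} : Set L₂) = ⊤)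
    (τ : L₁ ≃ₐ[K₁] L₁) (hτ : ∀ g : L₁ ≃ₐ[K₁] L₁, ∃ j : ℕ, g = τ ^ j)
    {f' G : L₁} {c : O₁} (hf' : f' ≠ 0) (hG : G ≠ 0) (hc : IsUnit c)
    (hper : τ f' = f' * algebraMap K₁ L₁ (algebraMap O₁ K₁ c) * G ^ p)
    (hf'_div : DivisibleDiv E₁ p f')
    {lc : E₂} {b : L₂} (hlc : lc ≠ 0) (hb : b ≠ 0)
    (hf₂eq : algebraMap K₂ L₂ f₂ =
      algebraMap K₂ L₂ (algebraMap E₂ K₂ lc) * algebraMap L₁ L₂ f' * b ^ p) :
    ∃ i : ℕ, ∀ n : Ideal B₂, n.IsMaximal → c₂.p₁ ≤ n → c₂.p₂ ≤ n →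
      CoreOut.PureAtChart w₂ B₂ p (f₂ * D₂ ^ i) n := by
  classical
  obtain ⟨hno₁, hic₁, hfr₁⟩ := Fermat.Agent.A2.Alg.H34.chart_instances' w₁ x₁ B₁ ctx₁
  obtain ⟨hno₂, hic₂, hfr₂⟩ := Fermat.Agent.A2.Alg.H34.chart_instances' w₂ x₂ B₂ ctx₂
  haveI := hno₁
  haveI := hic₁
  haveI := hfr₁
  haveI := hno₂
  haveI := hic₂
  haveI := hfr₂
  haveI := c₁.prime₁
  haveI := c₁.prime₂
  haveI := c₂.prime₁
  haveI := c₂.prime₂
  haveI := hk₁
  haveI := hk₂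
  have hgen : ∀ σ : L₁ ≃ₐ[K₁] L₁, σ ∈ Subgroup.zpowers τ := by
    intro σ
    obtain ⟨j, hj⟩ := hτ σ
    exact Subgroup.mem_zpowers_iff.2 ⟨(j : ℤ), by rw [zpow_natCast, hj]⟩
  -- the global exponent
  obtain ⟨i₀, hi₀⟩ := instC_global (B := B₁) (F := K₁) (L := L₁) c₁.inf_eq c₁.not_le₁₂
    c₁.not_le₂₁ τ hgen hN hDD hD hD' hf' hG hper (ε₀ := algebraMap O₁ B₁ c) (hc.map _) (j₀ := 0)
    (by rw [mul_zero, zpow_zero, mul_one]; rfl)
  have hp0 : (p : ℤ) ≠ 0 := by exact_mod_cast hp.ne_zero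
  have hpos : 0 ≤ i₀ % (p : ℤ) := Int.emod_nonneg _ hp0
  set i : ℕ := (i₀ % (p : ℤ)).toNat with hi
  have hi_cast : (i : ℤ) = i₀ % (p : ℤ) := Int.toNat_of_nonneg hpos
  set q : ℤ := i₀ / (p : ℤ) with hq
  have hi₀q : i₀ = (i : ℤ) + (p : ℤ) * q := by
    rw [hi_cast, hq]
    exact (Int.emod_add_mul_ediv i₀ p).symm
  refine ⟨i, fun n hn h₁ h₂ => ?_⟩
  haveI := hn
  haveI : n.IsPrime := hn.isPrime
  -- the crossing point at level `1`
  set φ : B₁ →+* B₂ := Fermat.Agent.Ribet.H939.subalgHom (algebraMap K₁ K₂) B₁ B₂ map_mem with hφdef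
  have hφ : ∀ b, algebraMap B₂ K₂ (φ b) = algebraMap K₁ K₂ (algebraMap B₁ K₁ b) := fun b => rfl
  set n₁ : Ideal B₁ := n.comap φ with hn₁def
  haveI hn₁p : n₁.IsPrime := Ideal.comap_isPrime φ n
  have hn₁ : ∀ b, b ∉ n₁ → φ b ∉ n := fun b hb hm => hb (Ideal.mem_comap.2 hm)
  have hpp₁ : ∀ b, φ b ∈ c₂.p₁ ↔ b ∈ c₁.p₁ := fun b => comp₁ b (φ b) rfl
  have hpp₂ : ∀ b, φ b ∈ c₂.p₂ ↔ b ∈ c₁.p₂ := fun b => comp₂ b (φ b) rfl
  have h₁' : c₁.p₁ ≤ n₁ := fun b hb => Ideal.mem_comap.2 (h₁ ((hpp₁ b).2 hb))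
  have h₂' : c₁.p₂ ≤ n₁ := fun b hb => Ideal.mem_comap.2 (h₂ ((hpp₂ b).2 hb))
  haveI : IsDedekindDomain (B₁ ⧸ c₁.p₁) :=
    Fermat.Agent.A2.Alg.H132.isDedekindDomain_quotient_p₁ w₁ x₁ B₁ ctx₁ c₁
  haveI hn₁m : n₁.IsMaximal :=
    isMaximal_of_dedekind_quotient c₁.p₁ n₁ h₁' (fun hle => c₁.not_le₂₁ (h₂'.trans hle))
  have hwn₁ : algebraMap O₁ B₁ w₁ ∈ n₁ := h₁' (uniformiser_mem_p₁ c₁)
  have hwn₂ : algebraMap O₂ B₂ w₂ ∈ n := h₁ (uniformiser_mem_p₁ c₂)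
  have hkR₁ : IsAlgClosed (IsLocalRing.ResidueField (locAt K₁ n₁)) :=
    isAlgClosed_residueField_locAt (E := E₁) w₁ x₁ B₁ ctx₁ n₁ hwn₁
  have hkR₂ : IsAlgClosed (IsLocalRing.ResidueField (locAt K₂ n)) :=
    isAlgClosed_residueField_locAt (E := E₂) w₂ x₂ B₂ ctx₂ n hwn₂
  -- the node rings
  obtain ⟨_, _, _, X₁, Y₁, _, _, _, _, hN₁⟩ :=
    exists_isNode_chart (E := E₁) w₁ x₁ B₁ ctx₁ c₁ n₁ h₁' h₂'
  obtain ⟨_, _, _, X₂, Y₂, _, _, _, _, hN₂⟩ :=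
    exists_isNode_chart (E := E₂) w₂ x₂ B₂ ctx₂ c₂ n h₁ h₂
  -- the algebra structure `R₁ → R₂`
  letI algR : Algebra (locAt K₁ n₁) (locAt K₂ n) :=
    (locHom132 (algebraMap K₁ K₂) φ hφ n n₁ hn₁).toAlgebra
  have halgR : ∀ a : locAt K₁ n₁, algebraMap (locAt K₁ n₁) (locAt K₂ n) a =
      locHom132 (algebraMap K₁ K₂) φ hφ n n₁ hn₁ a := fun a => rfl
  haveI tow₁ : IsScalarTower (locAt K₁ n₁) (locAt K₂ n) L₂ :=
    IsScalarTower.of_algebraMap_eq (fun a => by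
      show algebraMap K₁ L₂ (a : K₁) = algebraMap K₂ L₂ (algebraMap K₁ K₂ (a : K₁))
      rw [← IsScalarTower.algebraMap_apply K₁ K₂ L₂])
  haveI tow₂ : IsScalarTower (locAt K₁ n₁) L₁ L₂ :=
    IsScalarTower.of_algebraMap_eq (fun a => by
      show algebraMap K₁ L₂ (a : K₁) = algebraMap L₁ L₂ (algebraMap K₁ L₁ (a : K₁))
      rw [← IsScalarTower.algebraMap_apply K₁ L₁ L₂])
  -- cyclotomic data at level `1`
  have hw₁irr : Irreducible w₁ := ctx₁.hw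
  have hw₂irr : Irreducible w₂ := ctx₂.hw
  obtain ⟨ε₀, hε₀, hlamp⟩ := Fermat.Agent.Ribet.H224.wpn_lam_pow hp hζ
  have hlam0 : ζ - 1 ≠ 0 := IsPrimitiveRoot.sub_one_ne_zero hp.one_lt hζ
  have hlam_mem : ζ - 1 ∈ IsLocalRing.maximalIdeal O₁ := by
    have h1 : (ζ - 1) ^ (p - 1) ∈ IsLocalRing.maximalIdeal O₁ := by
      rw [hlamp]
      exact Ideal.mul_mem_right _ _ hp_mem
    exact (IsLocalRing.maximalIdeal.isMaximal O₁).isPrime.mem_of_pow_mem _ h1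
  obtain ⟨e, u, hu⟩ := IsDiscreteValuationRing.eq_unit_mul_pow_irreducible hlam0 hw₁irr
  have he : 0 < e := by
    rcases Nat.eq_zero_or_pos e with h0 | h0
    · exfalso
      rw [h0, pow_zero, mul_one] at hu
      have : IsUnit (ζ - 1) := hu ▸ u.isUnit
      exact (IsLocalRing.mem_maximalIdeal _).1 hlam_mem this
    · exact h0
  set ι₁ : O₁ →+* locAt K₁ n₁ := (algebraMap B₁ (locAt K₁ n₁)).comp (algebraMap O₁ B₁) with hι₁
  set ι₂ : O₂ →+* locAt K₂ n := (algebraMap B₂ (locAt K₂ n)).comp (algebraMap O₂ B₂) with hι₂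
  have hι₁coe : ∀ r : O₁, ((ι₁ r : locAt K₁ n₁) : K₁) = algebraMap O₁ K₁ r := fun r => rfl
  have hι₂coe : ∀ r : O₂, ((ι₂ r : locAt K₂ n) : K₂) = algebraMap O₂ K₂ r := fun r => rfl
  have hO₁inj : Function.Injective (algebraMap O₁ K₁) := by
    rw [IsScalarTower.algebraMap_eq O₁ E₁ K₁]
    exact (algebraMap E₁ K₁).injective.comp (IsFractionRing.injective O₁ E₁)
  have hι₁inj : Function.Injective ι₁ := by
    intro a b hab
    apply hO₁inj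
    rw [← hι₁coe, ← hι₁coe, hab]
  -- the unit pair at `R₁`
  have hDpair : I6.IsUnitPair (c₁.p₁.map (algebraMap B₁ (locAt K₁ n₁)))
      (c₁.p₂.map (algebraMap B₁ (locAt K₁ n₁)))
      (algebraMap B₁ (locAt K₁ n₁) (algebraMap O₁ B₁ w₁))
      (algebraMap B₁ (locAt K₁ n₁) D) (algebraMap B₁ (locAt K₁ n₁) D') N :=
    ⟨by rw [← map_mul, hDD, map_pow],
      fun hm => hD ((algebraMap_mem_map_iff h₁' D).1 hm),
      fun hm => hD' ((algebraMap_mem_map_iff h₂' D').1 hm)⟩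
  -- nonvanishing
  have hw₁K : algebraMap O₁ K₁ w₁ ≠ 0 := (map_ne_zero_iff _ hO₁inj).2 hw₁irr.ne_zero
  have hDK : algebraMap B₁ K₁ D ≠ 0 := by
    intro h0
    have : D = 0 := (IsFractionRing.injective B₁ K₁) (by rw [h0, map_zero])
    exact hD (this ▸ c₁.p₁.zero_mem)
  have hD'K : algebraMap B₁ K₁ D' ≠ 0 := by
    intro h0
    have : D' = 0 := (IsFractionRing.injective B₁ K₁) (by rw [h0, map_zero])
    exact hD' (this ▸ c₁.p₂.zero_mem)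
  have hDDK : algebraMap B₁ K₁ D * algebraMap B₁ K₁ D' = (algebraMap O₁ K₁ w₁) ^ N := by
    rw [← map_mul, hDD, map_pow]
    rfl
  set DL : L₁ := algebraMap K₁ L₁ (algebraMap B₁ K₁ D) with hDL
  have hDL0 : DL ≠ 0 := (map_ne_zero _).2 hDK
  set u₁ : L₁ := f' * DL ^ i₀ with hu₁def
  have hu₁0 : u₁ ≠ 0 := mul_ne_zero hf' (zpow_ne_zero _ hDL0)
  have hD₂0 : D₂ ≠ 0 := by
    rw [hD₂]
    exact (map_ne_zero _).2 hDK
  have hu₂0 : f₂ * D₂ ^ i ≠ 0 := mul_ne_zero hf₂ (pow_ne_zero _ hD₂0)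
  -- horizontal divisibility of `f_t` at `R₁`
  have hftdiv : I6.HorDivVal K₁ (algebraMap B₁ (locAt K₁ n₁) (algebraMap O₁ B₁ w₁)) p ft := by
    intro V hV hR hπ
    have hE : ∀ e : E₁, algebraMap E₁ K₁ e ∈ V :=
      const_mem_of_locAt hw₁irr B₁ V (fun b => hR (algebraMap B₁ (locAt K₁ n₁) b)) hπ
    obtain ⟨g, u₀, -, hu₀, hu₀', hfu⟩ := hft_div V hV hE
    exact ⟨g, u₀, hu₀, hu₀', hfu⟩
  -- horizontal divisibility of `u₁` on the cover
  have hu₁div : I6.HorDivVal (R := locAt K₁ n₁) L₁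
      (algebraMap B₁ (locAt K₁ n₁) (algebraMap O₁ B₁ w₁)) p u₁ := by
    intro V hV hR hπ
    have hRK : ∀ z : locAt K₁ n₁, algebraMap K₁ L₁ (z : K₁) ∈ V := fun z => hR z
    have hπK : (algebraMap K₁ L₁ (algebraMap O₁ K₁ w₁))⁻¹ ∈ V := hπ
    have hE' : ∀ e : E₁, algebraMap E₁ K₁ e ∈ V.comap (algebraMap K₁ L₁) := by
      refine const_mem_of_locAt hw₁irr B₁ (V.comap (algebraMap K₁ L₁))
        (fun b => ?_) ?_
      · rw [ValuationSubring.mem_comap]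
        exact hRK (algebraMap B₁ (locAt K₁ n₁) b)
      · rw [ValuationSubring.mem_comap, map_inv₀]
        exact hπK
    have hE : ∀ e : E₁, algebraMap E₁ L₁ e ∈ V := by
      intro e
      rw [IsScalarTower.algebraMap_apply E₁ K₁ L₁]
      exact ValuationSubring.mem_comap.1 (hE' e)
    obtain ⟨g, u₀, -, hu₀, hu₀', hfu⟩ := hf'_div V hV hE
    have hDV : DL ∈ V := hRK (algebraMap B₁ (locAt K₁ n₁) D)
    have hD'V : algebraMap K₁ L₁ (algebraMap B₁ K₁ D') ∈ V :=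
      hRK (algebraMap B₁ (locAt K₁ n₁) D')
    have hDinv : DL⁻¹ = algebraMap K₁ L₁ (algebraMap B₁ K₁ D') *
        ((algebraMap K₁ L₁ (algebraMap O₁ K₁ w₁))⁻¹) ^ N := by
      rw [hDL, inv_pow, ← map_pow, ← hDDK, map_mul]
      have h1 : algebraMap K₁ L₁ (algebraMap B₁ K₁ D') ≠ 0 := (map_ne_zero _).2 hD'K
      field_simp
    have hDV' : DL⁻¹ ∈ V := by
      rw [hDinv]
      exact V.mul_mem _ _ hD'V (pow_mem hπK N)
    obtain ⟨hz, hz'⟩ := Fermat.Agent.Ribet.H868.zpow_mem_of_unit868 V hDV hDV' i₀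
    refine ⟨g, u₀ * DL ^ i₀, V.mul_mem _ _ hu₀ hz, ?_, ?_⟩
    · rw [mul_inv]
      exact V.mul_mem _ _ hu₀' hz'
    · rw [hu₁def, hfu]
      ring
  -- horizontal divisibility of `u₂` at `R₂`
  have hu₂div : I6.HorDivVal K₂ (algebraMap B₂ (locAt K₂ n) (algebraMap O₂ B₂ w₂)) p
      (f₂ * D₂ ^ i) := by
    intro V hV hR hπ
    have hBV : ∀ b : B₂, (b : K₂) ∈ V := fun b => hR (algebraMap B₂ (locAt K₂ n) b)
    have hE : ∀ e : E₂, algebraMap E₂ K₂ e ∈ V := const_mem_of_locAt hw₂irr B₂ V hBV hπ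
    obtain ⟨g, u₀, -, hu₀, hu₀', hfu⟩ := hdiv₂ V hV hE
    obtain ⟨hDV, hDV'⟩ := hD₂u V hBV hπ
    refine ⟨g, u₀ * D₂ ^ i, V.mul_mem _ _ hu₀ (pow_mem hDV i), ?_, ?_⟩
    · rw [mul_inv, ← inv_pow]
      exact V.mul_mem _ _ hu₀' (pow_mem hDV' i)
    · rw [hfu]
      ring
  -- the uniformisers
  obtain ⟨η', e', hη', he', hunif⟩ := unif
  have hπ : algebraMap (locAt K₁ n₁) (locAt K₂ n)
      (algebraMap B₁ (locAt K₁ n₁) (algebraMap O₁ B₁ w₁)) =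
      ι₂ η' * (algebraMap B₂ (locAt K₂ n) (algebraMap O₂ B₂ w₂)) ^ e' := by
    apply Subtype.ext
    show algebraMap K₁ K₂ (algebraMap O₁ K₁ w₁) =
      algebraMap O₂ K₂ η' * (algebraMap O₂ K₂ w₂) ^ e'
    rw [← IsScalarTower.algebraMap_apply O₁ K₁ K₂, IsScalarTower.algebraMap_apply O₁ O₂ K₂,
      hunif, map_mul, map_pow]
  -- the constant `lc`
  obtain ⟨εl, j, hεl, hlceq⟩ := exists_unit_mul_zpow_of_ne_zero hw₂irr hlc
  -- the relation in `L₂`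
  set Δ : L₂ := algebraMap L₁ L₂ DL with hΔ
  have hΔ0 : Δ ≠ 0 := (map_ne_zero _).2 hDL0
  have hΔ₂ : algebraMap K₂ L₂ D₂ = Δ := by
    rw [hD₂, hΔ, hDL, ← IsScalarTower.algebraMap_apply K₁ K₂ L₂,
      ← IsScalarTower.algebraMap_apply K₁ L₁ L₂]
    rfl
  have hrel : algebraMap K₂ L₂ (f₂ * D₂ ^ i) =
      algebraMap (locAt K₂ n) L₂ (ι₂ εl) *
        (algebraMap (locAt K₂ n) L₂ (algebraMap B₂ (locAt K₂ n) (algebraMap O₂ B₂ w₂))) ^ j *
        algebraMap L₁ L₂ u₁ * (b * Δ ^ (-q)) ^ p := by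
    have e1 : algebraMap (locAt K₂ n) L₂ (ι₂ εl) = algebraMap K₂ L₂ (algebraMap O₂ K₂ εl) := rfl
    have e2 : algebraMap (locAt K₂ n) L₂
        (algebraMap B₂ (locAt K₂ n) (algebraMap O₂ B₂ w₂)) =
        algebraMap K₂ L₂ (algebraMap O₂ K₂ w₂) := rfl
    have e3 : algebraMap E₂ K₂ lc = algebraMap O₂ K₂ εl * (algebraMap O₂ K₂ w₂) ^ j := by
      rw [hlceq, map_mul, map_zpow₀, ← IsScalarTower.algebraMap_apply O₂ E₂ K₂,
        ← IsScalarTower.algebraMap_apply O₂ E₂ K₂]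
    have e4 : Δ ^ i = Δ ^ i₀ * (Δ ^ (-q)) ^ p := by
      rw [← zpow_natCast (Δ ^ (-q)) p, ← zpow_mul, ← zpow_add₀ hΔ0, ← zpow_natCast Δ i]
      congr 1
      rw [hi₀q]
      ring
    rw [e1, e2, map_mul, map_pow, hf₂eq, e3, hΔ₂, e4, hu₁def, map_mul, map_zpow₀, map_mul,
      map_zpow₀]
    ring
  -- the core
  obtain ⟨d, a, ε, hd, hε, hu₂eq⟩ := wild_pure_node (R₁ := locAt K₁ n₁) (R₂ := locAt K₂ n)
    (K₁ := K₁) (K₂ := K₂) (L₁ := L₁) (L₂ := L₂) hN₁ hN₂ hkR₁ hkR₂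
    (locHom132_injective (algebraMap K₁ K₂) φ hφ n n₁ hn₁)
    (fun a => locHom132_mem_map_iff (algebraMap K₁ K₂) φ hφ n n₁ hn₁ h₁' h₁ hpp₁ a)
    (fun a => locHom132_mem_map_iff (algebraMap K₁ K₂) φ hφ n n₁ hn₁ h₂' h₂ hpp₂ a)
    hp (ζ := ι₁ ζ) (hζ.map_of_injective hι₁inj) (η := ι₁ (u : O₁)) (e := e) (u.isUnit.map ι₁) he
    (by rw [← map_one ι₁, ← map_sub, hu, map_mul, map_pow]; rfl)
    hN hDpair hft0 hftdiv
    (fun k => by
      obtain ⟨h', r, t, hr, he'⟩ := hft_split₁ k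
      exact ⟨h', algebraMap B₁ (locAt K₁ n₁) r, algebraMap B₁ (locAt K₁ n₁) t,
        fun hm => hr ((algebraMap_mem_map_iff h₁' r).1 hm), he'⟩)
    (fun k => by
      obtain ⟨h', r, t, hr, he'⟩ := hft_split₂ k
      exact ⟨h', algebraMap B₁ (locAt K₁ n₁) r, algebraMap B₁ (locAt K₁ n₁) t,
        fun hm => hr ((algebraMap_mem_map_iff h₂' r).1 hm), he'⟩)
    hh hadj₁ hadj₂
    (fun d => ⟨algebraMap K₁ K₂ d, by
      rw [← IsScalarTower.algebraMap_apply K₁ K₂ L₂, ← IsScalarTower.algebraMap_apply K₁ L₁ L₂]⟩)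
    hu₁0 hu₁div
    (fun R' hloc hic hno hfr hN' hc₁ hc₂ v₁ v₂ hv₁ hv₂ =>
      hi₀ n₁ hn₁p h₁' h₂' _ _ hN₁ R' hloc hic hno hfr hN' hc₁ hc₂ v₁ v₂ hv₁ hv₂)
    (η₂ := ι₂ η') (e₂ := e') (hη'.map ι₂) hπ hu₂0 hu₂div (ε₂ := ι₂ εl) (hεl.map ι₂) (j := j)
    (b := b * Δ ^ (-q)) (mul_ne_zero hb (zpow_ne_zero _ hΔ0)) hrel
  -- conclusion
  obtain ⟨α, β, hα, hβ, hαβ⟩ := exists_frac_of_isUnit_locAt n hε
  have hw₂K : algebraMap O₂ K₂ w₂ ≠ 0 := by
    have hO₂inj : Function.Injective (algebraMap O₂ K₂) := by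
      rw [IsScalarTower.algebraMap_eq O₂ E₂ K₂]
      exact (algebraMap E₂ K₂).injective.comp (IsFractionRing.injective O₂ E₂)
    exact (map_ne_zero_iff _ hO₂inj).2 hw₂irr.ne_zero
  refine ⟨d⁻¹, -a, inv_ne_zero hd, α, β, hα, hβ, ?_⟩
  have hu₂eq' : f₂ * D₂ ^ i = (algebraMap O₂ K₂ w₂) ^ a * (ε : K₂) * d ^ p := hu₂eq
  have hαβ' : (ε : K₂) * (β : K₂) = (α : K₂) := hαβ
  rw [hu₂eq', ← hαβ', zpow_neg, inv_pow]
  have h1 : (algebraMap O₂ K₂ w₂) ^ a ≠ 0 := zpow_ne_zero _ hw₂K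
  have h2 : d ^ p ≠ 0 := pow_ne_zero _ hd
  field_simp

end Chart2

/-- **WILD-CHART** (`H704.CoreOut.WildChartStatement`, VERBATIM). -/
theorem wildChart : CoreOut.WildChartStatement := by
  intro p O₂ E₂ K₂ _ _ _ _ _ _ _ _ _ _ _ w₂ x₂ B₂ c₂ f₂ D₂ hp hk₂ ctx₂ hf₂ hdiv₂ W
  letI := W.commRingO₁
  haveI := W.isDomainO₁
  haveI := W.dvrO₁
  letI := W.fieldE₁
  haveI := W.charZeroE₁
  letI := W.algO₁E₁
  haveI := W.fracO₁E₁
  letI := W.fieldK₁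
  letI := W.algE₁K₁
  letI := W.algO₁K₁
  haveI := W.towerO₁E₁K₁
  letI := W.fieldL₁
  letI := W.algK₁L₁
  letI := W.algE₁L₁
  haveI := W.towerE₁K₁L₁
  haveI := W.finK₁L₁
  haveI := W.galK₁L₁
  letI := W.fieldL₂
  letI := W.algK₂L₂
  letI := W.algO₁O₂
  letI := W.algK₁K₂
  letI := W.algL₁L₂
  letI := W.algK₁L₂
  haveI := W.towerK₁K₂L₂
  haveI := W.towerK₁L₁L₂
  letI := W.algO₁K₂
  haveI := W.towerO₁O₂K₂
  haveI := W.towerO₁K₁K₂
  have hw₂0 : algebraMap O₂ K₂ w₂ ≠ 0 := by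
    have hO₂inj : Function.Injective (algebraMap O₂ K₂) := by
      rw [IsScalarTower.algebraMap_eq O₂ E₂ K₂]
      exact (algebraMap E₂ K₂).injective.comp (IsFractionRing.injective O₂ E₂)
    exact (map_ne_zero_iff _ hO₂inj).2 ctx₂.hw.ne_zero
  exact wildChart_core hp hk₂ W.algClosed₁ c₂ ctx₂ hf₂ hdiv₂ W.ctx₁ W.c₁ W.map_mem W.comp₁
    W.comp₂ W.unif W.hp_mem W.hζ W.hN W.hDD W.hD W.hD' W.hD₂
    (fun V hB hw => W.unit_mem V hB hw hw₂0) W.hft0 W.hft_div W.hft_split₁ W.hft_split₂ W.hh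
    W.hadj₁ W.hadj₂ W.τ W.hτ W.hf' W.hG W.hc W.hper W.hf'_div W.hlc W.hb W.hf₂

end Fermat.Agent.Ribet.H132

end
-- ===== PACK-END Ribet/H132/WildChartProof.lean

-- ===== PACK-BEGIN Ribet/H520/SmoothPure.lean
section



/-!
# RIBET row 38, WALL-p, (S4) CORE-OUT, WILD half: leaf SMOOTH-PURE  (helper520)

`smoothPure : H704.CoreOut.SmoothPureStatement`, VERBATIM the leaf frozen in
`Ribet/H704/WildSpec.lean`.

Proof.  The closed point `n ∋ w` lies on exactly one component `p` (`p₁ p₂ ⊆ (w) ⊆ n`).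
`B_p` is a discrete valuation ring with uniformiser `w` (`A2.H609.exists_unitAt_decomp`), so
`u := G · w ^ a` is a unit at `p` for some `a : ℤ`; `u` is still horizontally `m`-divisible
(`w` is a unit of every valuation ring containing `B[1/w]`).
* If `n = p`, `u` is a unit at `n` and `d = 1` works.
* Otherwise `H644.exists_pureAt_smooth_of_unitAt` gives `d` with `u · d ^ m ∈ (B_n)ˣ`.
-/

set_option autoImplicit false

namespace Fermat.Agent.Ribet.H520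

open Fermat.Agent.A2 Fermat.Agent.A2.Alg Fermat.Agent.A2.Alg.H609 Fermat.Agent.A2.H609

section Core

variable {B : Type*} [CommRing B] [IsDomain B] [IsNoetherianRing B] [IsIntegrallyClosed B]
variable {F : Type*} [Field F] [Algebra B F] [IsFractionRing B F]

/-- **Purity at a smooth point, with the power of `w`**: `n` a closed point on the component `p`
and not on the component `p'`; `G ∈ Fˣ` horizontally `m`-divisible.  Then
`G · w ^ a · d ^ m ∈ (B_n)ˣ` for some `a : ℤ`, `d ∈ Fˣ`. -/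
theorem exists_unitAt_smooth520 {w : B} {m : ℕ} (hm : m ≠ 0)
    (p p' n : Ideal B) [p.IsPrime] [p'.IsPrime] [n.IsPrime]
    [IsDedekindDomain (B ⧸ p)]
    (hinf : p ⊓ p' = Ideal.span {w}) (h₁₂ : ¬ p ≤ p') (h₂₁ : ¬ p' ≤ p)
    (h₁ : p ≤ n) (h₂ : ¬ p' ≤ n)
    (G : F) (hG : G ≠ 0)
    (hdiv : ∀ V : ValuationSubring F, IsDiscreteValuationRing V →
      (∀ b : B, algebraMap B F b ∈ V) → (algebraMap B F w)⁻¹ ∈ V →
      ∃ h u₀ : F, u₀ ∈ V ∧ u₀⁻¹ ∈ V ∧ G = u₀ * h ^ m) :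
    ∃ (d : F) (a : ℤ), d ≠ 0 ∧ UnitAt n (G * (algebraMap B F w) ^ a * d ^ m) := by
  have hinj : Function.Injective (algebraMap B F) := IsFractionRing.injective B F
  have hw0 : w ≠ 0 := ne_zero_of_inf_eq_span p p' hinf h₁₂ h₂₁
  have hwF : algebraMap B F w ≠ 0 := fun h0 => hw0 (hinj (by rw [h0, map_zero]))
  have hinf' : p' ⊓ p = Ideal.span {w} := by rw [inf_comm]; exact hinf
  obtain ⟨k₁, k₂, e, he, hek⟩ := exists_unitAt_decomp (F := F) p' p hinf' h₂₁ G hG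
  -- `u = G * w ^ (k₂ - k₁)` is a unit at `p`
  have hue : G * (algebraMap B F w) ^ ((k₂ : ℤ) - (k₁ : ℤ)) = e := by
    rw [zpow_sub₀ hwF, zpow_natCast, zpow_natCast, ← mul_div_assoc, hek]
    field_simp
  set u : F := G * (algebraMap B F w) ^ ((k₂ : ℤ) - (k₁ : ℤ)) with hudef
  have hup : UnitAt p u := by rw [hue]; exact he
  -- horizontal divisibility of `u`
  have hdivu : ∀ V : ValuationSubring F, IsDiscreteValuationRing V →
      (∀ b : B, algebraMap B F b ∈ V) → (algebraMap B F w)⁻¹ ∈ V →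
      ∃ h u₀ : F, u₀ ∈ V ∧ u₀⁻¹ ∈ V ∧ u = u₀ * h ^ m := by
    intro V hV hB hwinv
    obtain ⟨h, u₀, hu₀, hu₀', hGh⟩ := hdiv V hV hB hwinv
    have hwV : algebraMap B F w ∈ V := hB w
    have hz : ∀ j : ℤ, (algebraMap B F w) ^ j ∈ V := by
      intro j
      rcases Int.eq_nat_or_neg j with ⟨k, rfl | rfl⟩
      · rw [zpow_natCast]; exact pow_mem hwV k
      · rw [zpow_neg, zpow_natCast, ← inv_pow]; exact pow_mem hwinv k
    refine ⟨h, u₀ * (algebraMap B F w) ^ ((k₂ : ℤ) - (k₁ : ℤ)), V.mul_mem _ _ hu₀ (hz _), ?_, ?_⟩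
    · rw [mul_inv, ← zpow_neg]
      exact V.mul_mem _ _ hu₀' (hz _)
    · rw [hudef, hGh]; ring
  by_cases hne : p = n
  · refine ⟨1, (k₂ : ℤ) - (k₁ : ℤ), one_ne_zero, ?_⟩
    rw [one_pow, mul_one, ← hne]
    exact hup
  · obtain ⟨d, hd, hdn, -, -⟩ :=
      Fermat.Agent.Ribet.H644.exists_pureAt_smooth_of_unitAt (B := B) (F := F) hm p p' n
        hinf h₁₂ h₂₁ h₁ hne h₂ u hdivu hup
    exact ⟨d, (k₂ : ℤ) - (k₁ : ℤ), hd, hdn⟩

end Core

open Fermat.Agent.Ribet.H704 Fermat.Agent.Ribet.H704.CoreOut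

/-- **Leaf SMOOTH-PURE**, VERBATIM (`H704.CoreOut.SmoothPureStatement`). -/
theorem smoothPure : SmoothPureStatement := by
  intro R E F _ _ _ _ _ _ _ _ _ _ _ w x B c hB m hm G hG hdiv n hn hwn h1
  obtain ⟨hnoeth, hic, hfrac⟩ := H34.chart_instances' w x B hB
  have hnp : n.IsPrime := hn.isPrime
  have hp₁ : c.p₁.IsPrime := c.prime₁
  have hp₂ : c.p₂.IsPrime := c.prime₂
  have hn₁ : IsIntegrallyClosed (B ⧸ c.p₁) := c.normal₁
  have hn₂ : IsIntegrallyClosed (B ⧸ c.p₂) := c.normal₂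
  have hw : algebraMap R B w ∈ c.p₁ ⊓ c.p₂ := by
    rw [c.inf_eq]
    exact Ideal.mem_span_singleton_self _
  have hd₁ : IsDedekindDomain (B ⧸ c.p₁) := isDedekindDomain_quotient_chart w x B hB c.p₁ hw.1
  have hd₂ : IsDedekindDomain (B ⧸ c.p₂) := isDedekindDomain_quotient_chart w x B hB c.p₂ hw.2
  have hor : c.p₁ ≤ n ∨ c.p₂ ≤ n := by
    have hle : c.p₁ * c.p₂ ≤ n := by
      refine le_trans Ideal.mul_le_inf ?_
      rw [c.inf_eq, Ideal.span_le, Set.singleton_subset_iff]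
      exact hwn
    exact (Ideal.IsPrime.mul_le hnp).1 hle
  rcases hor with h | h
  · have h2 : ¬ c.p₂ ≤ n := fun h' => h1 ⟨h, h'⟩
    obtain ⟨d, a, hd, hu⟩ := exists_unitAt_smooth520 (B := B) (F := F) hm c.p₁ c.p₂ n
      c.inf_eq c.not_le₁₂ c.not_le₂₁ h h2 G hG hdiv
    exact ⟨d, a, hd, hu⟩
  · have h2 : ¬ c.p₁ ≤ n := fun h' => h1 ⟨h', h⟩
    have hinf : c.p₂ ⊓ c.p₁ = Ideal.span {algebraMap R B w} := by
      rw [inf_comm]
      exact c.inf_eq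
    obtain ⟨d, a, hd, hu⟩ := exists_unitAt_smooth520 (B := B) (F := F) hm c.p₂ c.p₁ n
      hinf c.not_le₂₁ c.not_le₁₂ h h2 G hG hdiv
    exact ⟨d, a, hd, hu⟩

end Fermat.Agent.Ribet.H520

end
-- ===== PACK-END Ribet/H520/SmoothPure.lean

-- ===== PACK-BEGIN Ribet/H712/FrameTypes.lean
section



/-!
# Row 38, WALL-p, CORE-OUT WILD: the frame from CONCRETE data (helper712)

`H704.CoreOut.WildFrame` (`WildSpec.lean`) has five abstract types and 25 instance fields.  This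
file fixes the concrete choice and does ALL the instance plumbing once:

* `O₁ = RE A E₁`, `E₁`, `K₁ = FE E₁ N` (`N = M' * p`), for levels `E₁ ≤ E₂`;
* `L₁ = cov (sIota E₁ N) h`, `L₂ = cov (sIota E₂ N) h`: the subfields of `ℚ̄((t))` generated by
  the `t`-expansions of `F_{N,E_i}` and `h` (`h ^ p = ` expansion of `f_t`, `h ∉ F_{N,E₁}`);
* `K₁ → K₂ = levelMap N hle` (coefficientwise), `O₁ → O₂ = reMap A hle`, `L₁ → L₂` the inclusion;
* `τ = covDeck` : the deck transformation `h ↦ ζ h` (`FrameCover.lean`).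

**`nonempty_wildFrame`** : LEVEL + MODEL + UNIT + SPLIT + COVER + PER (all stated with explicit
maps, no instances; PER in `t`-expansion form) `⟹ Nonempty (WildFrame …)`.
-/

set_option autoImplicit false
set_option synthInstance.maxHeartbeats 400000
set_option maxHeartbeats 1000000
set_option linter.unusedSectionVars false
set_option linter.style.haveILetI false

noncomputable section

namespace Fermat.Agent.Ribet.H712.Frame

open ModularCurve HahnSeries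
open Fermat.Agent.S24 Fermat.Agent.A2 Fermat.Agent.Ribet.H704
open Fermat.Agent.Ribet.H704.CoreOut

section Maps

variable (A : ValuationSubring Kbar) (E : IntermediateField ℚ Kbar) (N : ℕ)

/-- The `t`-expansion over `ℚ̄` of an element of `F_{N,E}`. -/
def sIota : ↥(Mod.FE E N) →+* LaurentSeries Kbar :=
  (coeffMap (algebraMap ↥E Kbar)).comp (algebraMap ↥(Mod.FE E N) (LaurentSeries ↥E))

theorem sIota_apply (z : ↥(Mod.FE E N)) :
    sIota E N z = coeffMap (algebraMap ↥E Kbar) (z : LaurentSeries ↥E) := rfl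

theorem sIota_injective : Function.Injective (sIota E N) := (sIota E N).injective

variable {E} in
/-- The inclusion of the coefficient fields, as a ring homomorphism. -/
def incE {E' : IntermediateField ℚ Kbar} (hle : E ≤ E') : ↥E →+* ↥E' :=
  (IntermediateField.inclusion hle).toRingHom

variable {E} in
/-- The level map `F_{N,E} → F_{N,E'}` (coefficientwise inclusion). -/
def levelMap {E' : IntermediateField ℚ Kbar} (hle : E ≤ E') : ↥(Mod.FE E N) →+* ↥(Mod.FE E' N) :=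
  ((coeffMap (incE hle)).comp (algebraMap ↥(Mod.FE E N) (LaurentSeries ↥E))).codRestrict
    (Mod.FE E' N) (fun z =>
      Fermat.Agent.S18.H602.coeffMap_mem_laurentBaseChange _ (incE hle) z.2)

variable {E} in
theorem sIota_levelMap {E' : IntermediateField ℚ Kbar} (hle : E ≤ E') (z : ↥(Mod.FE E N)) :
    sIota E' N (levelMap N hle z) = sIota E N z := by
  show coeffMap (algebraMap ↥E' Kbar) (coeffMap (incE hle) (z : LaurentSeries ↥E)) = _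
  rw [coeffMap_coeffMap]
  rfl

variable {E} in
theorem levelMap_algebraMap {E' : IntermediateField ℚ Kbar} (hle : E ≤ E') (e : ↥E) :
    levelMap N hle (algebraMap ↥E ↥(Mod.FE E N) e) =
      algebraMap ↥E' ↥(Mod.FE E' N) (incE hle e) := by
  apply Subtype.ext
  show coeffMap (incE hle) (algebraMap ↥E (LaurentSeries ↥E) e) = _
  rw [Fermat.Agent.S18.H602.coeffMap_algebraMap']
  rfl

variable {E} in
/-- `R_E → R_{E'}`. -/
def reMap {E' : IntermediateField ℚ Kbar} (hle : E ≤ E') : ↥(Mod.RE A E) →+* ↥(Mod.RE A E') where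
  toFun r := ⟨incE hle (r : ↥E), r.2⟩
  map_one' := Subtype.ext (map_one (incE hle))
  map_mul' _ _ := Subtype.ext (map_mul (incE hle) _ _)
  map_zero' := Subtype.ext (map_zero (incE hle))
  map_add' _ _ := Subtype.ext (map_add (incE hle) _ _)

theorem algebraMap_RE_FE_injective :
    Function.Injective (algebraMap ↥(Mod.RE A E) ↥(Mod.FE E N)) := by
  intro a b hab
  have h1 : algebraMap ↥E ↥(Mod.FE E N) (a : ↥E) = algebraMap ↥E ↥(Mod.FE E N) (b : ↥E) := hab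
  exact Subtype.ext ((algebraMap ↥E ↥(Mod.FE E N)).injective h1)

end Maps

section Build

variable (p M' : ℕ) [NeZero M'] [NeZero p] (hp : p.Prime)
  (A : ValuationSubring Kbar) (E₁ E₂ : IntermediateField ℚ Kbar) (hle : E₁ ≤ E₂)
  (w₁ : Mod.RE A E₁) (w₂ : Mod.RE A E₂)

theorem nonempty_wildFrame
    (c₂ : SSChart w₂ (Mod.chartAlg A E₂ (M' * p) (Mod.xE E₂ M' p)))
    (f₂ D₂ : Mod.FE E₂ (M' * p))
    -- LEVEL
    (hdvr₁ : IsDiscreteValuationRing (Mod.RE A E₁))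
    (halg₁ : IsAlgClosed (IsLocalRing.ResidueField (Mod.RE A E₁)))
    (hp_mem : (p : Mod.RE A E₁) ∈ IsLocalRing.maximalIdeal (Mod.RE A E₁))
    (ζ : Mod.RE A E₁) (hζ : IsPrimitiveRoot ζ p)
    -- MODEL
    (ctx₁ : Alg.ChartCtx E₁ w₁ (Mod.xE E₁ M' p) (Mod.chartAlg A E₁ (M' * p) (Mod.xE E₁ M' p)))
    (c₁ : SSChart w₁ (Mod.chartAlg A E₁ (M' * p) (Mod.xE E₁ M' p)))
    (map_mem : ∀ b ∈ Mod.chartAlg A E₁ (M' * p) (Mod.xE E₁ M' p),
      levelMap (M' * p) hle b ∈ Mod.chartAlg A E₂ (M' * p) (Mod.xE E₂ M' p))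
    (comp₁ : ∀ (b : Mod.chartAlg A E₁ (M' * p) (Mod.xE E₁ M' p))
      (b' : Mod.chartAlg A E₂ (M' * p) (Mod.xE E₂ M' p)),
      (b' : Mod.FE E₂ (M' * p)) = levelMap (M' * p) hle (b : Mod.FE E₁ (M' * p)) →
        (b' ∈ c₂.p₁ ↔ b ∈ c₁.p₁))
    (comp₂ : ∀ (b : Mod.chartAlg A E₁ (M' * p) (Mod.xE E₁ M' p))
      (b' : Mod.chartAlg A E₂ (M' * p) (Mod.xE E₂ M' p)),
      (b' : Mod.FE E₂ (M' * p)) = levelMap (M' * p) hle (b : Mod.FE E₁ (M' * p)) →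
        (b' ∈ c₂.p₂ ↔ b ∈ c₁.p₂))
    (unif : ∃ (η : Mod.RE A E₂) (e : ℕ), IsUnit η ∧ 0 < e ∧ reMap A hle w₁ = η * w₂ ^ e)
    -- UNIT
    (Nn : ℕ) (D D' : Mod.chartAlg A E₁ (M' * p) (Mod.xE E₁ M' p))
    (hN : Nat.Coprime Nn p)
    (hDD : D * D' = algebraMap (Mod.RE A E₁) (Mod.chartAlg A E₁ (M' * p) (Mod.xE E₁ M' p)) w₁ ^ Nn)
    (hD : D ∉ c₁.p₁) (hD' : D' ∉ c₁.p₂)
    (hD₂ : D₂ = levelMap (M' * p) hle (D : Mod.FE E₁ (M' * p)))
    -- SPLIT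
    (ft : Mod.FE E₁ (M' * p)) (hft0 : ft ≠ 0) (hft_div : DivisibleDiv E₁ p ft)
    (hft_split₁ : I6.SplitAt (Mod.FE E₁ (M' * p)) c₁.p₁
      (algebraMap (Mod.RE A E₁) (Mod.chartAlg A E₁ (M' * p) (Mod.xE E₁ M' p)) w₁) p ft)
    (hft_split₂ : I6.SplitAt (Mod.FE E₁ (M' * p)) c₁.p₂
      (algebraMap (Mod.RE A E₁) (Mod.chartAlg A E₁ (M' * p) (Mod.xE E₁ M' p)) w₁) p ft)
    -- COVER
    (h : LaurentSeries Kbar) (hh : h ^ p = sIota E₁ (M' * p) ft)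
    (hhF : h ∉ Set.range (sIota E₁ (M' * p)))
    -- PER
    (f' G : ↥(cov (sIota E₁ (M' * p)) h)) (cc : Mod.RE A E₁) (hf' : f' ≠ 0) (hG : G ≠ 0)
    (hcc : IsUnit cc)
    (hper : ((covDeck (sIota E₁ (M' * p)) h hp
        (hζ.map_of_injective (algebraMap_RE_FE_injective A E₁ (M' * p))) hh hhF f' :
          ↥(cov (sIota E₁ (M' * p)) h)) : LaurentSeries Kbar) =
        (f' : LaurentSeries Kbar) *
          sIota E₁ (M' * p) (algebraMap (Mod.RE A E₁) (Mod.FE E₁ (M' * p)) cc) *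
          (G : LaurentSeries Kbar) ^ p)
    (hf'_div : ∀ V : ValuationSubring ↥(cov (sIota E₁ (M' * p)) h), IsDiscreteValuationRing V →
      (∀ e : E₁, covMap (sIota E₁ (M' * p)) h (algebraMap E₁ (Mod.FE E₁ (M' * p)) e) ∈ V) →
      ∃ g u : ↥(cov (sIota E₁ (M' * p)) h), g ≠ 0 ∧ u ∈ V ∧ u⁻¹ ∈ V ∧ f' = u * g ^ p)
    (lc : E₂) (b : ↥(cov (sIota E₂ (M' * p)) h)) (hlc : lc ≠ 0) (hb : b ≠ 0)
    (hf₂ : sIota E₂ (M' * p) f₂ =
      sIota E₂ (M' * p) (algebraMap E₂ (Mod.FE E₂ (M' * p)) lc) * (f' : LaurentSeries Kbar) *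
        (b : LaurentSeries Kbar) ^ p) :
    Nonempty (WildFrame p (Mod.RE A E₂) E₂ (Mod.FE E₂ (M' * p)) w₂
      (Mod.chartAlg A E₂ (M' * p) (Mod.xE E₂ M' p)) c₂ f₂ D₂) := by
  letI iO₁O₂ : Algebra ↥(Mod.RE A E₁) ↥(Mod.RE A E₂) := (reMap A hle).toAlgebra
  letI iK₁K₂ : Algebra ↥(Mod.FE E₁ (M' * p)) ↥(Mod.FE E₂ (M' * p)) :=
    (levelMap (M' * p) hle).toAlgebra
  letI iO₁K₂ : Algebra ↥(Mod.RE A E₁) ↥(Mod.FE E₂ (M' * p)) :=
    ((algebraMap ↥(Mod.RE A E₂) ↥(Mod.FE E₂ (M' * p))).comp (reMap A hle)).toAlgebra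
  letI iK₁L₁ : Algebra ↥(Mod.FE E₁ (M' * p)) ↥(cov (sIota E₁ (M' * p)) h) :=
    covAlgebra (sIota E₁ (M' * p)) h
  letI iE₁L₁ : Algebra ↥E₁ ↥(cov (sIota E₁ (M' * p)) h) :=
    ((covMap (sIota E₁ (M' * p)) h).comp (algebraMap ↥E₁ ↥(Mod.FE E₁ (M' * p)))).toAlgebra
  letI iK₂L₂ : Algebra ↥(Mod.FE E₂ (M' * p)) ↥(cov (sIota E₂ (M' * p)) h) :=
    covAlgebra (sIota E₂ (M' * p)) h
  letI iL₁L₂ : Algebra ↥(cov (sIota E₁ (M' * p)) h) ↥(cov (sIota E₂ (M' * p)) h) :=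
    (covIncl (sIota E₁ (M' * p)) h (sIota E₂ (M' * p)) (levelMap (M' * p) hle)
      (sIota_levelMap (M' * p) hle)).toAlgebra
  letI iK₁L₂ : Algebra ↥(Mod.FE E₁ (M' * p)) ↥(cov (sIota E₂ (M' * p)) h) :=
    ((covMap (sIota E₂ (M' * p)) h).comp (levelMap (M' * p) hle)).toAlgebra
  have hζK : IsPrimitiveRoot (algebraMap (Mod.RE A E₁) (Mod.FE E₁ (M' * p)) ζ) p :=
    hζ.map_of_injective (algebraMap_RE_FE_injective A E₁ (M' * p))
  refine ⟨{
    O₁ := ↥(Mod.RE A E₁)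
    E₁ := ↥E₁
    K₁ := ↥(Mod.FE E₁ (M' * p))
    L₁ := ↥(cov (sIota E₁ (M' * p)) h)
    L₂ := ↥(cov (sIota E₂ (M' * p)) h)
    commRingO₁ := inferInstance
    isDomainO₁ := inferInstance
    dvrO₁ := hdvr₁
    fieldE₁ := inferInstance
    charZeroE₁ := inferInstance
    algO₁E₁ := inferInstance
    fracO₁E₁ := inferInstance
    fieldK₁ := inferInstance
    algE₁K₁ := inferInstance
    algO₁K₁ := inferInstance
    towerO₁E₁K₁ := inferInstance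
    fieldL₁ := inferInstance
    algK₁L₁ := iK₁L₁
    algE₁L₁ := iE₁L₁
    towerE₁K₁L₁ := IsScalarTower.of_algebraMap_eq (fun _ => rfl)
    finK₁L₁ := finiteDimensional_cov (sIota E₁ (M' * p)) h hp hζK hh
    galK₁L₁ := isGalois_cov (sIota E₁ (M' * p)) h hp hζK hh hhF
    fieldL₂ := inferInstance
    algK₂L₂ := iK₂L₂
    algO₁O₂ := iO₁O₂
    algK₁K₂ := iK₁K₂
    algL₁L₂ := iL₁L₂
    algK₁L₂ := iK₁L₂
    towerK₁K₂L₂ := IsScalarTower.of_algebraMap_eq (fun _ => rfl)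
    towerK₁L₁L₂ := IsScalarTower.of_algebraMap_eq (fun x =>
      Subtype.ext (sIota_levelMap (M' * p) hle x))
    algO₁K₂ := iO₁K₂
    towerO₁O₂K₂ := IsScalarTower.of_algebraMap_eq (fun _ => rfl)
    towerO₁K₁K₂ := IsScalarTower.of_algebraMap_eq (fun r =>
      (levelMap_algebraMap (M' * p) hle (r : ↥E₁)).symm)
    algClosed₁ := halg₁
    w₁ := w₁
    x₁ := Mod.xE E₁ M' p
    B₁ := Mod.chartAlg A E₁ (M' * p) (Mod.xE E₁ M' p)
    ctx₁ := ctx₁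
    c₁ := c₁
    map_mem := map_mem
    comp₁ := comp₁
    comp₂ := comp₂
    unif := unif
    hp_mem := hp_mem
    ζ := ζ
    hζ := hζ
    N := Nn
    D := D
    D' := D'
    hN := hN
    hDD := hDD
    hD := hD
    hD' := hD'
    hD₂ := hD₂
    ft := ft
    hft0 := hft0
    hft_div := hft_div
    hft_split₁ := hft_split₁
    hft_split₂ := hft_split₂
    h := covGen (sIota E₁ (M' * p)) h
    hh := covGen_pow (sIota E₁ (M' * p)) h hh
    hadj₁ := adjoin_covGen (sIota E₁ (M' * p)) h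
    hadj₂ := adjoin_covGen (sIota E₂ (M' * p)) h
    τ := covDeck (sIota E₁ (M' * p)) h hp hζK hh hhF
    hτ := exists_pow_eq_covDeck (sIota E₁ (M' * p)) h hp hζK hh hhF
    f' := f'
    G := G
    c := cc
    hf' := hf'
    hG := hG
    hc := hcc
    hper := Subtype.ext hper
    hf'_div := hf'_div
    lc := lc
    b := b
    hlc := hlc
    hb := hb
    hf₂ := Subtype.ext hf₂ }⟩

end Build

end Fermat.Agent.Ribet.H712.Frame

end

end
-- ===== PACK-END Ribet/H712/FrameTypes.lean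

-- ===== PACK-BEGIN Ribet/H704/KDSpec.lean
section
/-
# RIBET row 38, WALL-p, (S4) CORE-OUT, WILD: the LAST open leaf of `WildFrameStatement` besides
# DEEP-SPLIT — **KD** (Kummer data), FROZEN in AMBIENT form (sub-architect helper704)

Everything else is on main: LEVEL (`H944.Tame.exists_wildLevel`), 2-LEVEL MODEL (`H279.TwoLevel`,
`H49.TLM`), INST-B with expansions (`H463.UnitExp`, `H464`, `H873.UnitPairCoe`, `H277`),
the cover shell + PER (`H819.PerAsm`: `PerCtx.ofKummer`, `shell_period_BC`), HOR-DESC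
(`H769`, `H652`, `H127`), the frame plumbing (`H712.FrameTypes`), LC-CONST (`H944.LcConst`).

`KDStatement` is EXACTLY the input of `H819.PerCtx.ofKummer` + `H819.PerCtx.shell_period_BC`
(with `σ₀ := σ₁`, `c.ζ := ζ⁻¹`) and of `H703.deepSplit_frame`:

in the setting of WILD, `(σ₁, u)` ANY output of `H944.Tame.exists_wildLevel`
(`E₁ = tameLevel A ζ`, `E₂ = wildLevel A ζ u = E₁(u)`), there are
* `ft ∈ F_{E₁}`: leading coefficient `1`, `p ∣ order`, its expansion is a Kummer generator of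
  `t`, not a `p`-th power in `F_{E₁}` (`t ≠ 0`);
* `f₂, G₀ ∈ F_{E₂}`: the expansion of `f₂` is a Kummer generator of `x`, `f₂` is horizontally
  `p`-divisible;
* a constant `κ ∈ E₂` (e.g. `1`) with, coefficientwise,

      `σ₁ (f₂) = f₂ · κ · ft · G₀ ^ p`          (`σ₁ x = x + t`).
-/



set_option autoImplicit false
set_option synthInstance.maxHeartbeats 400000
set_option maxHeartbeats 1000000
set_option linter.unusedSectionVars false
set_option linter.style.haveILetI false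

noncomputable section

namespace Fermat.Agent.Ribet.H704.CoreOut

open AlgebraicCurve ModularCurve HahnSeries
open Fermat.Agent.S24 Fermat.Agent.A2.H708 Fermat.Agent.A2.H528
open Fermat.Agent.Ribet.Spec Fermat.Agent.Ribet.H944.Wall Fermat.Agent.Ribet.H884
open Fermat.Agent.Ribet.H704 Fermat.Agent.A2

/-- **KD (Kummer data), ambient form.** -/
def KDStatement : Prop :=
  ∀ (p M' : ℕ) [NeZero M'] [NeZero p] [NeZero (p * M')], p.Prime → 5 ≤ p → ¬ p ∣ M' →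
    ∀ A : ValuationSubring Kbar, A.LiesOverPrime p →
    ∀ (S : Finset ℕ) (a : ℕ → ℤ), NonEisAway p a → ∀ x t : JZero (p * M'),
      IsNewTors p M' x → EigenAt (p * M') S a x →
      IsNewTors p M' t → EigenAt (p * M') S a t →
      (∀ σ ∈ A.inertiaSubgroupIn ℚ, ∀ c : ℕ, CycloAt p σ c → σ • t = c • t) →
      (∀ σ ∈ A.inertiaSubgroupIn ℚ, ∃ n : ℕ, σ • x = x + n • t) →
      (∀ σ : GQ, PeuFixes A p σ → σ • x = x) →
      ∀ σ₀ ∈ A.inertiaSubgroupIn ℚ, CycloAt p σ₀ 1 → σ₀ • x ≠ x →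
    ∀ (ζ : Kbar), IsPrimitiveRoot ζ p → ∀ (σ₁ : GQ) (u : Kbar),
      σ₁ ∈ A.inertiaSubgroupIn ℚ → CycloAt p σ₁ 1 → σ₁ • x = x + t →
      σ₁ u = ζ * u → u ∈ A → u⁻¹ ∈ A → u ≠ 0 → u ^ p ∈ H944.Tame.tameLevel A ζ →
      GoodField A (H944.Tame.wildLevel A ζ u) →
      (∀ e ∈ H944.Tame.wildLevel A ζ u, (σ₁ ^ p) e = e) →
      (∀ e ∈ H944.Tame.wildLevel A ζ u, σ₁ e = e → e ∈ H944.Tame.tameLevel A ζ) →
      (∀ σ ∈ A.inertiaSubgroupIn ℚ, CycloAt p σ 1 →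
        ∀ n : ℕ, σ • x = x + n • t → σ u = ζ ^ n * u) →
      (∀ y : Kbar, y ∈ H944.Tame.wildLevel A ζ u ↔
        ∀ ρ ∈ A.inertiaSubgroupIn ℚ, CycloAt p ρ 1 → ρ • x = x → ρ y = y) →
      (∀ σ : GQ, PeuFixes A p σ → σ u = u) →
    ∃ (ft : Mod.FE (H944.Tame.tameLevel A ζ) (M' * p))
      (f₂ G₀ : Mod.FE (H944.Tame.wildLevel A ζ u) (M' * p)) (Ft f : FF (p * M')) (κ : Kbar),
      (ft : LaurentSeries (H944.Tame.tameLevel A ζ)).leadingCoeff = 1 ∧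
      (p : ℤ) ∣ (ft : LaurentSeries (H944.Tame.tameLevel A ζ)).order ∧
      (∀ z : Mod.FE (H944.Tame.tameLevel A ζ) (M' * p), z ^ p ≠ ft) ∧
      IsKummerGen (p * M') p Ft t ∧
      (Ft : LaurentSeries Kbar) = coeffMap (algebraMap (H944.Tame.tameLevel A ζ) Kbar)
        (ft : LaurentSeries (H944.Tame.tameLevel A ζ)) ∧
      IsKummerGen (p * M') p f x ∧
      (f : LaurentSeries Kbar) = coeffMap (algebraMap (H944.Tame.wildLevel A ζ u) Kbar)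
        (f₂ : LaurentSeries (H944.Tame.wildLevel A ζ u)) ∧
      f₂ ≠ 0 ∧ DivisibleDiv (H944.Tame.wildLevel A ζ u) p f₂ ∧
      κ ∈ H944.Tame.wildLevel A ζ u ∧
      coeffMap ((σ₁ : Kbar ≃ₐ[ℚ] Kbar) : Kbar →+* Kbar)
          (coeffMap (algebraMap (H944.Tame.wildLevel A ζ u) Kbar)
            (f₂ : LaurentSeries (H944.Tame.wildLevel A ζ u))) =
        coeffMap (algebraMap (H944.Tame.wildLevel A ζ u) Kbar)
            (f₂ : LaurentSeries (H944.Tame.wildLevel A ζ u)) *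
          HahnSeries.C κ *
          coeffMap (algebraMap (H944.Tame.tameLevel A ζ) Kbar)
            (ft : LaurentSeries (H944.Tame.tameLevel A ζ)) *
          (coeffMap (algebraMap (H944.Tame.wildLevel A ζ u) Kbar)
            (G₀ : LaurentSeries (H944.Tame.wildLevel A ζ u))) ^ p

end Fermat.Agent.Ribet.H704.CoreOut

end
end
-- ===== PACK-END Ribet/H704/KDSpec.lean

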