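import Fermat.Agent.Pack.S44C.G0E29L0
import Fermat.Agent.Pack.S44C.G0E12L1
import Fermat.Agent.Pack.S44C.G0E15L0
import Fermat.Agent.Pack.S44C.G0E25L0
import Fermat.Agent.Pack.S44C.G0E27L3
import Fermat.Agent.Pack.S44C.G0E28L2
import Fermat.Agent.Pack.S44C.G0E26L3
import Fermat.Agent.Pack.S44C.G0E17L1
import Fermat.Agent.Pack.S44C.G0E28L0
import Fermat.Agent.Pack.S44C.G0E24L1
import Fermat.Agent.Pack.S44C.G0E6L0
import Fermat.Agent.Pack.S44C.G0E21L1
import Fermat.Agent.Pack.S44C.G0E29L2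
import Fermat.Agent.Pack.S44C.G0E29L3
import Fermat.Agent.Pack.Fast891

-- ===== PACK-BEGIN Ribet/H884/EisAt.lean
section







/-!
# Row 38, WALL-p, W-EIS: the assembly at ONE `(p, M', A)`, and the top for `p ≥ 5`  (helper884)

`H884.eisSlope_of` (`EisSpec.lean`) consumes `CuspPurityStatement` for ALL primes `p`, but the
semistable model on main exists at `p = 3` only for `2 ∣ M'` and at `p = 2` only for `3 ∣ M'`
(helper644 #9247).  The wall needs `p ≥ 5` only.  This file gives the POINTWISE assembly: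

* `CuspPurityAt p M' A`   : CUSP at one `(p, M', A)`;
* `CuspPurity5Statement`  : CUSP for `p ≥ 5`  (**this is what the CUSP owners have to prove**);
* `isEisMod_of_slopeProp_at`, `mem_finPart_of_slopeProp_at` : `SlopeProp x` + CUSP at `(p, M', A)`
  (+ non-Eisenstein, eigen) ⟹ `x ∈ finPart`; all other leaves are plugged in from main
  (`H398.heckeFun`, `H699.heckeNodeGen`, `H67.unitEis`, `H997.redExists/redUnique/redField`);
* **`eisSlope_of_frontier5 :
    H704.CoreOut.CoreOutNEStatement → CuspPurity5Statement → EisSlopeStatement`**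
  (CORE-OUT with the hypothesis `NonEisAway`, `H704/CoreOutSpec.lean`),
  `s4For_of_frontier5` (the `S4For` form), `eisSlope_of_coreOut_cusp5`.
-/

set_option autoImplicit false
set_option synthInstance.maxHeartbeats 400000
set_option maxHeartbeats 1000000
set_option linter.unusedSectionVars false

noncomputable section

namespace Fermat.Agent.Ribet.H884

open AlgebraicCurve ModularCurve HahnSeries
open Fermat.Agent.S24 Fermat.Agent.A2.H708 Fermat.Agent.A2.H528 Fermat.Agent.A2.H129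
open Fermat.Agent.Ribet.Spec Fermat.Agent.Ribet.H944.Wall
open Fermat.Agent.S37.H400

/-- **CUSP at one `(p, M', A)`.** -/
def CuspPurityAt (p M' : ℕ) [NeZero (p * M')] (A : ValuationSubring Kbar) : Prop :=
  ∀ (g : FF (p * M')) (y : JZero (p * M')), IsKummerGen (p * M') p g y →
    NodeGen p M' A g → FinGen p M' A g

/-- **CUSP for `p ≥ 5`** (the form needed by the wall). -/
def CuspPurity5Statement : Prop :=
  ∀ (p M' : ℕ) [NeZero M'] [NeZero p] [NeZero (p * M')], p.Prime → 5 ≤ p → ¬ p ∣ M' →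
    ∀ A : ValuationSubring Kbar, A.LiesOverPrime p → CuspPurityAt p M' A

theorem cuspPurity5_of (h : CuspPurityStatement) : CuspPurity5Statement :=
  fun p M' _ _ _ hp _ hpM A hA g y hg hN => h p M' hp hpM A hA g y hg hN

/-- **The W-EIS assembly at one `(p, M', A)`** (general leaves). -/
theorem isEisMod_of_slopeProp_at' (hHF : HeckeFunStatement) (hHN : HeckeNodeGenStatement)
    (hU : UnitEisStatement) (hRE : RedExistsStatement)
    (hRU : RedUniqueStatement) (hRF : RedFieldStatement)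
    (p M' : ℕ) [NeZero M'] [NeZero p] [NeZero (p * M')] (hp : p.Prime) (hpM : ¬ p ∣ M')
    (A : ValuationSubring Kbar) (hA : A.LiesOverPrime p) (hCP : CuspPurityAt p M' A)
    (x : JZero (p * M'))
    (hx : SlopeProp p M' A x) : IsEisMod p M' A (p * M').primeFactors x := by
  intro ℓ hℓ
  have : NeZero (ℓ : ℕ) := ⟨ℓ.2.ne_zero⟩
  have hℓN : ¬ (ℓ : ℕ) ∣ p * M' := fun h =>
    hℓ (Nat.mem_primeFactors.mpr ⟨ℓ.2, h, NeZero.ne _⟩)
  have hℓp : (ℓ : ℕ) ≠ p := fun h => hℓN (h ▸ dvd_mul_right _ _)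
  obtain ⟨f, D, G, n, a, b, hf, hD, hD0, hn, hG, hNG⟩ := hx
  obtain ⟨Tf, hTf, hTfK⟩ := hHF (p * M') ℓ hℓN f
  obtain ⟨TG, hTG, -⟩ := hHF (p * M') ℓ hℓN G
  obtain ⟨c, hc, hUD⟩ := hU p ℓ hp hℓp
  have hf0 : f ≠ 0 := hf.1
  have hG0 : G ≠ 0 := hNG.ne_zero
  set C : FF (p * M') := algebraMap Kbar (FF (p * M')) c with hC
  have hC0 : C ≠ 0 := by simpa [hC] using hc
  set E : FF (p * M') := D ^ ((ℓ : ℕ) + 1) with hE
  have hE0 : E ≠ 0 := pow_ne_zero _ hD0
  have h2 : TG * (C * E) ^ b = Tf ^ n * (C * E) ^ a := by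
    apply Subtype.ext
    have e1 : ((C * E : FF (p * M')) : LaurentSeries Kbar) =
        kronNorm (ℓ : ℕ) (D : LaurentSeries Kbar) := by
      have hD' : (D : LaurentSeries Kbar) = Fermat.Agent.S28.unitL Kbar p := hD
      have hCE : ((C * E : FF (p * M')) : LaurentSeries Kbar) =
          cst c * (D : LaurentSeries Kbar) ^ ((ℓ : ℕ) + 1) := rfl
      rw [hCE, hD', hUD]
    have e2 : ((TG * (C * E) ^ b : FF (p * M')) : LaurentSeries Kbar) =
        kronNorm (ℓ : ℕ) ((G * D ^ b : FF (p * M')) : LaurentSeries Kbar) := by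
      have : ((G * D ^ b : FF (p * M')) : LaurentSeries Kbar) =
          (G : LaurentSeries Kbar) * (D : LaurentSeries Kbar) ^ b := rfl
      rw [this, kronNorm_mul, kronNorm_pow, ← hTG, ← e1]
      rfl
    have e3 : ((Tf ^ n * (C * E) ^ a : FF (p * M')) : LaurentSeries Kbar) =
        kronNorm (ℓ : ℕ) ((f ^ n * D ^ a : FF (p * M')) : LaurentSeries Kbar) := by
      have : ((f ^ n * D ^ a : FF (p * M')) : LaurentSeries Kbar) =
          (f : LaurentSeries Kbar) ^ n * (D : LaurentSeries Kbar) ^ a := rfl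
      rw [this, kronNorm_mul, kronNorm_pow, kronNorm_pow, ← hTf, ← e1]
      rfl
    rw [e2, e3, hG]
  have h3 : G ^ ((ℓ : ℕ) + 1) * E ^ b = f ^ (n * ((ℓ : ℕ) + 1)) * E ^ a := by
    have h3' : (G * D ^ b) ^ ((ℓ : ℕ) + 1) = (f ^ n * D ^ a) ^ ((ℓ : ℕ) + 1) := by rw [hG]
    calc G ^ ((ℓ : ℕ) + 1) * E ^ b = (G * D ^ b) ^ ((ℓ : ℕ) + 1) := by rw [hE]; ring
      _ = (f ^ n * D ^ a) ^ ((ℓ : ℕ) + 1) := h3'
      _ = f ^ (n * ((ℓ : ℕ) + 1)) * E ^ a := by rw [hE]; ring
  set g : FF (p * M') := Tf * (f ^ ((ℓ : ℕ) + 1))⁻¹ with hg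
  have hgK : IsKummerGen (p * M') p g
      (heckeOperatorBar (p * M') ℓ x - ((ℓ : ℕ) + 1) • x) := by
    have := (hTfK p x hf).mul ((hf.pow ((ℓ : ℕ) + 1)).inv)
    rwa [← sub_eq_add_neg] at this
  have hg0 : g ≠ 0 := hgK.1
  have h4 : Tf ^ n * C ^ a * G ^ ((ℓ : ℕ) + 1) = C ^ b * TG * f ^ (n * ((ℓ : ℕ) + 1)) := by
    have hEE : E ^ a * E ^ b ≠ 0 := mul_ne_zero (pow_ne_zero _ hE0) (pow_ne_zero _ hE0)
    apply mul_right_cancel₀ hEE
    rw [mul_pow, mul_pow] at h2
    linear_combination (-(f ^ (n * ((ℓ : ℕ) + 1)) * E ^ a)) * h2 + (Tf ^ n * C ^ a * E ^ a) * h3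
  have h5 : g ^ n = algebraMap Kbar (FF (p * M')) (c ^ b * (c ^ a)⁻¹) *
      (TG * (G ^ ((ℓ : ℕ) + 1))⁻¹) := by
    have hCa : C ^ a ≠ 0 := pow_ne_zero _ hC0
    have hGl : G ^ ((ℓ : ℕ) + 1) ≠ 0 := pow_ne_zero _ hG0
    have hfl : f ^ ((ℓ : ℕ) + 1) ≠ 0 := pow_ne_zero _ hf0
    have hcc : algebraMap Kbar (FF (p * M')) (c ^ b * (c ^ a)⁻¹) = C ^ b * (C ^ a)⁻¹ := by
      rw [map_mul, map_inv₀, map_pow, map_pow]
    rw [hcc, hg, mul_pow, inv_pow, ← pow_mul, mul_comm ((ℓ : ℕ) + 1) n]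
    have hfn : f ^ (n * ((ℓ : ℕ) + 1)) ≠ 0 := pow_ne_zero _ hf0
    field_simp
    linear_combination h4
  have hcb : c ^ b * (c ^ a)⁻¹ ≠ 0 := mul_ne_zero (pow_ne_zero _ hc) (inv_ne_zero (pow_ne_zero _ hc))
  have hNGn : NodeGen p M' A (g ^ n) := by
    rw [h5]
    exact ((hHN p M' hp hpM A hA ℓ hℓN G TG hTG hNG).mul (hNG.pow _).inv).const_mul hcb
  have hNGg : NodeGen p M' A g := NodeGen.of_pow hRE hRU hRF hp hpM hA hn hg0 hNGn
  exact AddSubgroup.subset_closure ⟨g, hgK, hCP g _ hgK hNGg⟩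

/-- **The W-EIS assembly at one `(p, M', A)`**, all closed leaves plugged in. -/
theorem isEisMod_of_slopeProp_at
    (p M' : ℕ) [NeZero M'] [NeZero p] [NeZero (p * M')] (hp : p.Prime) (hpM : ¬ p ∣ M')
    (A : ValuationSubring Kbar) (hA : A.LiesOverPrime p) (hCP : CuspPurityAt p M' A)
    (x : JZero (p * M')) (hx : SlopeProp p M' A x) :
    IsEisMod p M' A (p * M').primeFactors x :=
  isEisMod_of_slopeProp_at' H398.heckeFun H699.heckeNodeGen H67.unitEis H997.redExists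
    H997.redUnique H997.redField p M' hp hpM A hA hCP x hx

/-- `SlopeProp x` + CUSP at `(p, M', A)` + non-Eisenstein eigen ⟹ `x ∈ finPart`. -/
theorem mem_finPart_of_slopeProp_at
    (p M' : ℕ) [NeZero M'] [NeZero p] [NeZero (p * M')] (hp : p.Prime) (hpM : ¬ p ∣ M')
    (A : ValuationSubring Kbar) (hA : A.LiesOverPrime p) (hCP : CuspPurityAt p M' A)
    (S : Finset ℕ) (a : ℕ → ℤ) (hNE : NonEisAway p a)
    (x : JZero (p * M')) (hpx : p • x = 0) (heig : EigenAt (p * M') S a x)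
    (hx : SlopeProp p M' A x) : x ∈ finPart p M' A :=
  mem_finPart_of_eis p M' hp A S _ a hNE x hpx heig
    (isEisMod_of_slopeProp_at p M' hp hpM A hA hCP x hx)

/-- **W-EIS from its frontier, `p ≥ 5`**: CORE-OUT (with the non-Eisenstein hypothesis,
`H704.CoreOut.CoreOutNEStatement`) and CUSP (for `p ≥ 5`). -/
theorem eisSlope_of_frontier5 (hCO : H704.CoreOut.CoreOutNEStatement)
    (hCP : CuspPurity5Statement) : EisSlopeStatement := by
  intro p M' _ _ _ hp hp5 hpM A hA S a x t hx hex ht het hχ hsh hpeu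
  by_cases hNE : NonEisAway p a
  · exact ⟨(p * M').primeFactors,
      isEisMod_of_slopeProp_at p M' hp hpM A hA (hCP p M' hp hp5 hpM A hA) x
        (hCO p M' hp hp5 hpM A hA S a hNE x t hx hex ht het hχ hsh hpeu)⟩
  · exact H704.CoreOut.isEisMod_of_not_nonEis p M' A S a hNE x hx.1 hex

/-- The same from CORE-OUT without the extra hypothesis. -/
theorem eisSlope_of_coreOut_cusp5 (hCO : CoreOutStatement) (hCP : CuspPurity5Statement) :
    EisSlopeStatement :=
  eisSlope_of_frontier5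
    (fun p M' _ _ _ hp hp5 hpM A hA S a _ x t hx hex ht het hχ hsh hpeu =>
      hCO p M' hp hp5 hpM A hA S a x t hx hex ht het hχ hsh hpeu) hCP

/-- **(S4) from its frontier, `p ≥ 5`**, in the `S4For` form of `H944/WallTargets.lean`. -/
theorem s4For_of_frontier5 (hCO : H704.CoreOut.CoreOutNEStatement) (hCP : CuspPurity5Statement)
    (p M' : ℕ) [NeZero M'] [NeZero p] [NeZero (p * M')] (hp : p.Prime) (hp5 : 5 ≤ p)
    (hpM : ¬ p ∣ M') (A : ValuationSubring Kbar) (hA : A.LiesOverPrime p) :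
    S4For p M' A (finPart p M' A) :=
  s4For_of (eisSlope_of_frontier5 hCO hCP) p M' hp hp5 hpM A hA

end Fermat.Agent.Ribet.H884

end

end
-- ===== PACK-END Ribet/H884/EisAt.lean

-- ===== PACK-BEGIN Ribet/H399/CuspGen.lean
section






/-!
# Row 38, W-EIS leaf CUSP (helper399): CUSP-GEN and `CuspPurity` for `p ≥ 5`

* `cusp_gen_mul` : level `M * p` (series form): `g ∈ ℚ̄(X₀(Mp))`, `m ∣ div g` (`m > 0` ARBITRARY),
  `r` a reduction of `g` on `C∞` (`H997.IsRedSer`), `h ∈ k(X₀(M))` with expansion `r`, `Q` a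
  cuspidal place of `k(X₀(M))` ⟹ `m ∣ ord_Q h`.
* `cuspGen5` : the same at level `p * M'` for `IsRedInf` (helper644's CUSP-GEN shape).
* `cuspGen5_zero` : the same for `IsRedZero` (apply `cuspGen5` to `w_N g`).
* **`cuspPurity5`**, **`cuspPurity5Leaf : H884.CuspPurity5Statement`** : CUSP for `p ≥ 5`.

(`p ≥ 5` because the good-reduction input `A2.Top.H216.goodRedStatement` at level `M'` needs
`2 ∣ M'` for `p = 3` and `3 ∣ M'` for `p = 2`.)
-/

set_option autoImplicit false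
set_option linter.unusedSectionVars false
set_option linter.style.haveILetI false
set_option linter.unusedVariables false
set_option synthInstance.maxHeartbeats 400000
set_option maxHeartbeats 1600000

noncomputable section

namespace Fermat.Agent.Ribet.H399

open AlgebraicCurve ModularCurve HahnSeries
open Fermat.Agent.S24 Fermat.Agent.A2.H708 Fermat.Agent.A2.H528 Fermat.Agent.A2.H129
open Fermat.Agent.Ribet.H884 Fermat.Agent.Ribet.H997
open Fermat.Agent.A2

section Gen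

variable {M p : ℕ} [NeZero M] [NeZero p] {A : ValuationSubring Kbar}

/-- **CUSP-GEN, level `M * p`.** -/
theorem cusp_gen_mul (hp : p.Prime) (hp5 : 5 ≤ p) (hpM : ¬ p ∣ M) (hA : A.LiesOverPrime p)
    (m : ℕ) (hm : 0 < m) (g : ↥(modularFunctionFieldBar (M * p))) (hg0 : g ≠ 0)
    (hdiv : ∀ v : Place Kbar ↥(modularFunctionFieldBar (M * p)), (m : ℤ) ∣ v.ord g)
    (r : LaurentSeries (kA A)) (hr : IsRedSer A (g : LaurentSeries Kbar) r)
    (h : modularFunctionFieldFullC (kA A) M) (hh : (h : LaurentSeries (kA A)) = r)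
    (Q : Place (kA A) (modularFunctionFieldFullC (kA A) M))
    (hQ : Q.ord (jC (kA A) M) < 0) : (m : ℤ) ∣ Q.ord h := by
  obtain ⟨S, hS⟩ := T1.H669.exists_finset_descent (modularFunctionFieldFull (M * p)) g
  obtain ⟨E, hSE, hgood⟩ := IF.H429.exists_goodField p hp A hA S
  obtain ⟨y, hy⟩ := hS E hSE
  have hy0 : y ≠ 0 := by
    rintro rfl
    rw [map_zero] at hy
    exact hg0 hy.symm
  have hdivE : DivisibleDiv E m y :=
    T1.H669.divisibleDiv_of_ord E (modularFunctionFieldFull (M * p)) m y hy0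
      (by rw [hy]; exact hdiv)
  obtain ⟨r₀, hr₀, hord⟩ := cusp_core_E hp hp5 hpM hA hgood m hm y hy0 hdivE Q hQ
  have hyg : coeffMap (algebraMap E Kbar) ((y : Mod.FE E (M * p)) : LaurentSeries E) =
      (g : LaurentSeries Kbar) := congrArg Subtype.val hy
  rw [hyg] at hr₀
  obtain ⟨c, hc, hcr⟩ := hr₀.unique hr
  have hh' : h = algebraMap (kA A) (modularFunctionFieldFullC (kA A) M) c * r₀ := by
    apply Subtype.ext
    rw [hh, hcr, IntermediateField.coe_mul, coe_algebraMap_fullC]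
  have hr₀0 : r₀ ≠ 0 := by
    rintro rfl
    obtain ⟨c₀, U₁, U₂, -, h₁, -, -, hr'⟩ := hr₀
    apply h₁
    rw [← hr']
    show (0 : LaurentSeries (kA A)) * _ = 0
    rw [zero_mul]
  have hc0 : algebraMap (kA A) (modularFunctionFieldFullC (kA A) M) c ≠ 0 := by
    simpa using hc
  rw [hh', Place.ord_mul Q hc0 hr₀0, ord_algebraMap_eq_zero, zero_add]
  exact hord

end Gen

/-- **CUSP-GEN** (shape of helper644 #9247), `q ≥ 5`: reductions on `C∞`. -/
theorem cuspGen5 (m q M' : ℕ) [NeZero M'] [NeZero q] [NeZero (q * M')] (hq : q.Prime)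
    (hq5 : 5 ≤ q) (hqM : ¬ q ∣ M') (hm : 0 < m)
    (A : ValuationSubring Kbar) (hA : A.LiesOverPrime q)
    (g : FF (q * M')) (hg0 : g ≠ 0)
    (hdiv : ∀ v : Place Kbar (FF (q * M')), (m : ℤ) ∣ v.ord g)
    (r : LaurentSeries (kA A)) (hr : IsRedInf (q * M') A g r)
    (h : modularFunctionFieldFullC (kA A) M') (hh : (h : LaurentSeries (kA A)) = r)
    (Q : Place (kA A) (modularFunctionFieldFullC (kA A) M'))
    (hQ : Q.ord (jC (kA A) M') < 0) : (m : ℤ) ∣ Q.ord h := by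
  have key : ∀ (N : ℕ) (hN : N = M' * q) (g : ↥(modularFunctionFieldBar N)), g ≠ 0 →
      (∀ v : Place Kbar ↥(modularFunctionFieldBar N), (m : ℤ) ∣ v.ord g) →
      IsRedSer A (g : LaurentSeries Kbar) r → (m : ℤ) ∣ Q.ord h := by
    intro N hN g hg0 hdiv hr
    subst hN
    exact cusp_gen_mul hq hq5 hqM hA m hm g hg0 hdiv r hr h hh Q hQ
  exact key (q * M') (Nat.mul_comm q M') g hg0 hdiv hr

/-- the divisor of `w_N g` is divisible by `m` if the divisor of `g` is. -/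
theorem dvd_ord_wF (N : ℕ) [NeZero N] (m : ℕ) (g : FF N)
    (hdiv : ∀ v : Place Kbar (FF N), (m : ℤ) ∣ v.ord g) (v : Place Kbar (FF N)) :
    (m : ℤ) ∣ v.ord (wF N g) := by
  have h := Place.ord_smul (wF N) ((wF N)⁻¹ • v) g
  rw [smul_inv_smul] at h
  rw [h]
  exact hdiv _

/-- **CUSP-GEN on `C₀`**, `q ≥ 5`. -/
theorem cuspGen5_zero (m q M' : ℕ) [NeZero M'] [NeZero q] [NeZero (q * M')] (hq : q.Prime)
    (hq5 : 5 ≤ q) (hqM : ¬ q ∣ M') (hm : 0 < m)
    (A : ValuationSubring Kbar) (hA : A.LiesOverPrime q)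
    (g : FF (q * M')) (hg0 : g ≠ 0)
    (hdiv : ∀ v : Place Kbar (FF (q * M')), (m : ℤ) ∣ v.ord g)
    (r : LaurentSeries (kA A)) (hr : IsRedZero (q * M') A g r)
    (h : modularFunctionFieldFullC (kA A) M') (hh : (h : LaurentSeries (kA A)) = r)
    (Q : Place (kA A) (modularFunctionFieldFullC (kA A) M'))
    (hQ : Q.ord (jC (kA A) M') < 0) : (m : ℤ) ∣ Q.ord h :=
  cuspGen5 m q M' hq hq5 hqM hm A hA (wF (q * M') g)
    (by rwa [Ne, map_eq_zero_iff _ (wF (q * M')).injective])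
    (dvd_ord_wF (q * M') m g hdiv) r hr h hh Q hQ

/-- **CUSP for `p ≥ 5`**: `H884.CuspPurityStatement` with the extra hypothesis `5 ≤ p`. -/
theorem cuspPurity5 (p M' : ℕ) [NeZero M'] [NeZero p] [NeZero (p * M')] (hp : p.Prime)
    (hp5 : 5 ≤ p) (hpM : ¬ p ∣ M') (A : ValuationSubring Kbar) (hA : A.LiesOverPrime p)
    (g : FF (p * M')) (y : JZero (p * M')) (hK : IsKummerGen (p * M') p g y)
    (hNG : NodeGen p M' A g) : FinGen p M' A g := by
  obtain ⟨r₁, r₂, h1, h2, h3, h4⟩ := hNG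
  obtain ⟨hg0, D, -, hD⟩ := hK
  have hdiv : ∀ v : Place Kbar (FF (p * M')), (p : ℤ) ∣ v.ord g := fun v => ⟨_, hD v⟩
  refine ⟨r₁, r₂, h1, h2, ?_, ?_⟩
  · obtain ⟨h, hh, h0, hfin⟩ := h3
    refine ⟨h, hh, h0, fun Q => ?_⟩
    by_cases hQ : 0 ≤ Q.ord (jC (kA A) M')
    · exact hfin Q hQ
    · exact cuspGen5 p p M' hp hp5 hpM hp.pos A hA g hg0 hdiv r₁ h1 h hh Q (not_le.mp hQ)
  · obtain ⟨h, hh, h0, hfin⟩ := h4
    refine ⟨h, hh, h0, fun Q => ?_⟩
    by_cases hQ : 0 ≤ Q.ord (jC (kA A) M')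
    · exact hfin Q hQ
    · exact cuspGen5_zero p p M' hp hp5 hpM hp.pos A hA g hg0 hdiv r₂ h2 h hh Q (not_le.mp hQ)

/-- **W-EIS leaf CUSP**, in the exact shape consumed by `H884.eisSlope_of_frontier5`. -/
theorem cuspPurity5Leaf : CuspPurity5Statement :=
  fun p M' _ _ _ hp hp5 hpM A hA g y hK hNG => cuspPurity5 p M' hp hp5 hpM A hA g y hK hNG

end Fermat.Agent.Ribet.H399

end

end
-- ===== PACK-END Ribet/H399/CuspGen.lean

-- ===== PACK-BEGIN Ribet/H912/TameLevel.lean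
section






/-!
# RIBET rows 37/38, TAME / CORE-OUT-q: the LEVEL statement in two-prime form (helper912)

`A` a place of `ℚ̄` over the residue prime `q`, `q ∤ M`, `E` an UNRAMIFIED good level for `A`
(`q` is a uniformiser of `R_E = A ∩ E`; e.g. the inertia field, `S36.Eng.H189`), `m > 0` prime to
`12` (the exponent; `m = p ^ n`, `p ≥ 5`, `p = q` allowed).

`tameLevel` : for `y ∈ F_E(M q)ˣ` with `m ∣ div y` there are a uniformiser `w`, the unit
`D₁ = Δ(t)/Δ(t^q)` and `v₁, v₂ ∈ ℤ` such that the calibrated function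

  `G = y ^ 12 · D₁ ^ (v₁ - v₂) · w ^ (- 12 v₁)`

is pure (exponent `m`) at every closed point of the special fibre of the finite chart
`chartAlg (x)`, `x = j · j_q`:  exactly the hypothesis of `H472.nodeGenOfPure`.

Proof: semistable model with cut components (`S35.G.H862.model`), modular unit pair
`D₁ · D₂ = w ^ 12` (`H464.exists_unitPair_cut_exp464`, `e = 1` because the level is unramified),
`H868.pureAt_tame` (tame node relation + node purity + smooth purity).
-/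

set_option autoImplicit false
set_option linter.style.haveILetI false
set_option linter.unusedSectionVars false
set_option linter.unusedVariables false
set_option synthInstance.maxHeartbeats 400000
set_option maxHeartbeats 1600000

noncomputable section

namespace Fermat.Agent.Ribet.H912

open ModularCurve AlgebraicCurve
open Fermat.Agent.A2 Fermat.Agent.A2.Alg

section Unr

variable {A : ValuationSubring Qb} {E : IntermediateField ℚ Qb}

/-- At an unramified level the residue characteristic is associated to every uniformiser. -/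
theorem associated_natCast_of_unramified {q : ℕ} (hq : q.Prime) (hA : A.LiesOverPrime q)
    (hdvr : IsDiscreteValuationRing ↥(RE A E))
    (hunr : ∀ e : E, (e : Qb) ∈ A.nonunits → (e : Qb) * ((q : Qb))⁻¹ ∈ A)
    {w : ↥(RE A E)} (hw : Irreducible w) :
    Associated ((q : ℕ) : ↥(RE A E)) (w ^ 1) := by
  haveI := hdvr
  rw [pow_one]
  have hqm : ((q : ℕ) : ↥(RE A E)) ∈ IsLocalRing.maximalIdeal ↥(RE A E) :=
    T1.H669.natCast_mem_maximalIdeal_RE E hA
  -- `w ∣ q`
  have h1 : w ∣ ((q : ℕ) : ↥(RE A E)) := by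
    rw [hw.maximalIdeal_eq, Ideal.mem_span_singleton] at hqm
    exact hqm
  -- `q ∣ w`
  have hwm : (((w : ↥(RE A E)) : E) : Qb) ∈ A.nonunits := by
    rw [ValuationSubring.mem_nonunits_iff]
    by_contra hlt
    have hle : A.valuation ((((w : ↥(RE A E)) : E) : Qb)) ≤ 1 :=
      (A.valuation_le_one_iff _).2 w.2
    have heq : A.valuation ((((w : ↥(RE A E)) : E) : Qb)) = 1 :=
      le_antisymm hle (not_lt.1 hlt)
    have hw0 : (w : E) ≠ 0 := fun h => hw.ne_zero (Subtype.ext h)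
    have hinv : ((((w : ↥(RE A E)) : E))⁻¹ : E) ∈ RE A E := by
      show algebraMap E Qb ((w : E))⁻¹ ∈ A
      rw [map_inv₀, ← A.valuation_le_one_iff, map_inv₀]
      have : A.valuation (algebraMap E Qb (w : E)) = 1 := heq
      rw [this, inv_one]
    apply hw.not_isUnit
    exact ⟨⟨w, ⟨_, hinv⟩, Subtype.ext (mul_inv_cancel₀ hw0), Subtype.ext (inv_mul_cancel₀ hw0)⟩,
      rfl⟩
  have hq0 : ((q : ℕ) : Qb) ≠ 0 := Nat.cast_ne_zero.mpr hq.ne_zero
  have h2 : ((q : ℕ) : ↥(RE A E)) ∣ w := by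
    have hmem := hunr (w : E) hwm
    have hmemE : (w : E) * ((q : ℕ) : E)⁻¹ ∈ RE A E := by
      show algebraMap E Qb ((w : E) * ((q : ℕ) : E)⁻¹) ∈ A
      rw [map_mul, map_inv₀, map_natCast]
      exact hmem
    refine ⟨⟨_, hmemE⟩, ?_⟩
    apply Subtype.ext
    have hqE : ((q : ℕ) : E) ≠ 0 := Nat.cast_ne_zero.mpr hq.ne_zero
    show (w : E) = (((q : ℕ) : ↥(RE A E)) : E) * ((w : E) * ((q : ℕ) : E)⁻¹)
    have e1 : ((((q : ℕ) : ↥(RE A E)) : ↥(RE A E)) : E) = ((q : ℕ) : E) := by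
      simp
    rw [e1]
    field_simp
  exact associated_of_dvd_dvd h2 h1

end Unr

section Level

variable (A : ValuationSubring Qb) (E : IntermediateField ℚ Qb) (M q : ℕ) [NeZero M] [NeZero q]

/-- **TAME at an unramified good level** (two-prime form). -/
theorem tameLevel (hq : q.Prime) (hqM : ¬ q ∣ M) (haux : Fermat.Agent.S35.G.HasAux M q)
    (hA : A.LiesOverPrime q) (hE : GoodField A E)
    (hunr : ∀ e : E, (e : Qb) ∈ A.nonunits → (e : Qb) * ((q : Qb))⁻¹ ∈ A)
    (m : ℕ) (hm : 0 < m) (hcop : Nat.Coprime 12 m)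
    (y : Mod.FE E (M * q)) (hy : y ≠ 0) (hdiv : DivisibleDiv E m y) :
    ∃ (w : Mod.RE A E) (D₁ : Mod.FE E (M * q)) (v₁ v₂ : ℤ),
      Mod.Setting A E M q w ∧ D₁ ≠ 0 ∧
      (D₁ : LaurentSeries E) =
        Fermat.Agent.S36.H438.castE E (Fermat.Agent.S28.H589.unitL' q) ∧
      ∀ n : Ideal (Mod.chartAlg A E (M * q) (Mod.xE E M q)), n.IsMaximal →
        algebraMap (Mod.RE A E) (Mod.chartAlg A E (M * q) (Mod.xE E M q)) w ∈ n →
        ∃ (d : Mod.FE E (M * q)) (a : ℤ), d ≠ 0 ∧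
          Alg.LocUnit (Mod.chartAlg A E (M * q) (Mod.xE E M q)) n
            ((y ^ 12 * D₁ ^ (v₁ - v₂) * Mod.cE A E (M * q) w ^ (-(12 : ℤ) * v₁)) *
              Mod.cE A E (M * q) w ^ a * d ^ m) := by
  haveI : IsDiscreteValuationRing ↥(RE A E) := hE.dvr
  haveI : HenselianLocalRing ↥(RE A E) := hE.henselian
  haveI : IsAlgClosed (IsLocalRing.ResidueField ↥(RE A E)) := hE.algClosed
  obtain ⟨w, hw⟩ := IsDiscreteValuationRing.exists_irreducible ↥(RE A E)
  have hS : Mod.Setting A E M q w :=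
    { q_prime := hq
      q_not_dvd := hqM
      M_ne_zero := NeZero.ne M
      lies_over := hA
      dvr := hE.dvr
      unif := hw }
  obtain ⟨V, W, VM, hV, hW, hVM, hg1, hg2, hDeg, sf, si, cf, ci, hcf, hci⟩ :=
    Fermat.Agent.S35.G.H862.model A E M q w hS hE haux
  obtain ⟨hx, hfr, hconst⟩ := hDeg hq hqM
  have hpos : 0 < Module.finrank
      (IntermediateField.adjoin E ({Mod.xE E M q} : Set (Mod.FE E (M * q))))
      (Mod.FE E (M * q)) := by
    rw [hfr]
    have h1 := Mod.dedekindPsi_pos_of_ne_zero M (NeZero.ne M)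
    positivity
  have hfin : FiniteDimensional
      (IntermediateField.adjoin E ({Mod.xE E M q} : Set (Mod.FE E (M * q))))
      (Mod.FE E (M * q)) := Module.finite_of_finrank_pos hpos
  have hCf : ChartCtx E w (Mod.xE E M q) (Mod.chartAlg A E (M * q) (Mod.xE E M q)) :=
    ⟨hw, hx, hfin, hconst, fun _ => Iff.rfl⟩
  -- the unit pair
  obtain ⟨e, D, D', he, hass, hmul, hD, hD', hexp⟩ :=
    Fermat.Agent.Ribet.H464.exists_unitPair_cut_exp464 hS hV hW cf.p₁ cf.p₂
      (fun b => hcf.cut₁ b) (fun b => hcf.cut₂ b)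
  have he1 : e = 1 := Fermat.Agent.Ribet.H464.pow_eq_of_associated464 hw hass
    (associated_natCast_of_unramified hq hA hE.dvr hunr hw)
  subst he1
  rw [mul_one] at hmul
  -- valuations along the two components
  obtain ⟨v₁, v₂, hv₁, hv₂⟩ := Fermat.Agent.Ribet.H868.exists_valAt_chart (E := E) w
    (Mod.xE E M q) (Mod.chartAlg A E (M * q) (Mod.xE E M q)) hCf cf y hy
  have hD0 : (D : Mod.FE E (M * q)) ≠ 0 := by
    intro h0
    have : D = 0 := Subtype.ext h0
    exact hD (this ▸ cf.p₁.zero_mem)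
  refine ⟨w, (D : Mod.FE E (M * q)), v₁, v₂, hS, hD0, hexp, ?_⟩
  intro n hn hwn
  obtain ⟨d, hd0, hloc, -, -⟩ := Fermat.Agent.Ribet.H868.pureAt_tame (E := E) m 12 hm
    (by norm_num) hcop w (Mod.xE E M q) (Mod.chartAlg A E (M * q) (Mod.xE E M q)) hCf cf
    D D' hmul hD hD' y hy hdiv v₁ v₂ hv₁ hv₂ n hn.isPrime hwn
  refine ⟨d, 0, hd0, ?_⟩
  rw [zpow_zero, mul_one]
  exact hloc

end Level

end Fermat.Agent.Ribet.H912

end

end
-- ===== PACK-END Ribet/H912/TameLevel.lean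

-- ===== PACK-BEGIN Ribet/H472/ResSurj.lean
section







/-!
# RIBET row 38, WALL-p, CoreOut leaf INST-E — residue fields and integrality of `j_d` (helper472)

* `exists_RE_residue_eq`        : the constants `R_E = A ∩ E` of a good level reduce ONTO the residue
                                  field `k` of `A` (`k` is algebraic over `𝔽_p`, the residue field of
                                  `R_E` is algebraically closed);
* `residue_surjective_of_place` : the residue field of every place of `k(X₀(M))` is `k`;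
* `jqN_mem_place`               : `j(t^d)` is integral over `ℤ[j]`, hence regular at every
                                  non-cuspidal place (`ord_Q j ≥ 0`).
-/

set_option autoImplicit false
set_option linter.unusedSectionVars false
set_option linter.style.haveILetI false
set_option synthInstance.maxHeartbeats 400000
set_option maxHeartbeats 1600000

noncomputable section

namespace Fermat.Agent.Ribet.H472

open AlgebraicCurve ModularCurve HahnSeries
open Fermat.Agent.S24 Fermat.Agent.A2.H708 Fermat.Agent.A2.H528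
open Fermat.Agent.Ribet.H884 Fermat.Agent.Ribet.H997
open Fermat.Agent.A2 Fermat.Agent.A2.Mod Fermat.Agent.S18.H602

variable {A : ValuationSubring Kbar} {E : IntermediateField ℚ Kbar}
variable {M p : ℕ} [NeZero M] [NeZero p]

instance isLocalHom_toA' (A : ValuationSubring Kbar) (E : IntermediateField ℚ Kbar) :
    IsLocalHom (toA' A E) :=
  ⟨fun a ha => (isUnit_toA'_iff E a).mp ha⟩

/-- **The constants of a good level reduce onto the residue field of `A`.** -/
theorem exists_RE_residue_eq (hp : p.Prime) (hA : A.LiesOverPrime p) (hE : A2.GoodField A E)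
    (c : kA A) : ∃ r : Mod.RE A E, IsLocalRing.residue A (toA' A E r) = c := by
  classical
  haveI : IsAlgClosed (IsLocalRing.ResidueField (Mod.RE A E)) := hE.algClosed
  haveI : CharP (kA A) p := (Fermat.Agent.Ribet.H939.resField p hp A hA).2
  set φ : IsLocalRing.ResidueField (Mod.RE A E) →+* kA A :=
    IsLocalRing.ResidueField.map (toA' A E) with hφ
  have hint : φ.IsIntegral := by
    intro c
    obtain ⟨a, rfl⟩ := IsLocalRing.residue_surjective c
    have halgQ : IsAlgebraic ℚ (a : Kbar) := (AlgebraicClosure.isAlgebraic ℚ).isAlgebraic _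
    have halgZ : IsAlgebraic ℤ (a : Kbar) := (IsFractionRing.isAlgebraic_iff ℤ ℚ Kbar).mpr halgQ
    obtain ⟨P, hP0, hPa⟩ := halgZ
    have hqa : Polynomial.aeval (a : Kbar) P.primPart = 0 :=
      Polynomial.aeval_primPart_eq_zero hP0 hPa
    have hqA : Polynomial.eval₂ (Int.castRingHom A) a P.primPart = 0 := by
      apply Subtype.ext
      have h := Polynomial.hom_eval₂ P.primPart (Int.castRingHom A) A.subtype a
      rw [ZeroMemClass.coe_zero, ← hqa, Polynomial.aeval_def]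
      have hc : (A.subtype).comp (Int.castRingHom A) = algebraMap ℤ Kbar := RingHom.ext_int _ _
      rw [← hc]
      exact h
    set P₁ := P.primPart.map (Int.castRingHom (IsLocalRing.ResidueField (Mod.RE A E))) with hP₁d
    have hP₁ : P₁ ≠ 0 := by
      intro h0
      have hdvd : Polynomial.C (p : ℤ) ∣ P.primPart := by
        rw [Polynomial.C_dvd_iff_dvd_coeff]
        intro i
        have h1 := congrArg (fun r => φ (r.coeff i)) h0
        simp only [hP₁d, Polynomial.coeff_map, Polynomial.coeff_zero, map_zero, eq_intCast,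
          map_intCast] at h1
        exact (CharP.intCast_eq_zero_iff (kA A) p _).mp h1
      have hu := (Polynomial.isPrimitive_iff_isUnit_of_C_dvd.mp
        (Polynomial.isPrimitive_primPart P)) _ hdvd
      have := Int.isUnit_iff.mp hu
      have h2 := hp.two_le
      omega
    refine ⟨P₁ * Polynomial.C P₁.leadingCoeff⁻¹, Polynomial.monic_mul_leadingCoeff_inv hP₁, ?_⟩
    rw [Polynomial.eval₂_mul, hP₁d, Polynomial.eval₂_map]
    have hc : φ.comp (Int.castRingHom (IsLocalRing.ResidueField (Mod.RE A E))) =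
        (IsLocalRing.residue A).comp (Int.castRingHom A) := RingHom.ext_int _ _
    rw [hc, ← Polynomial.hom_eval₂, hqA, map_zero, zero_mul]
  obtain ⟨α, hα⟩ := (IsAlgClosed.ringHom_bijective_of_isIntegral φ hint).2 c
  obtain ⟨r, rfl⟩ := IsLocalRing.residue_surjective α
  exact ⟨r, hα⟩

/-- **The residue field of a place of `k(X₀(M))` is `k`.** -/
theorem residue_surjective_of_place (hp : p.Prime) (hpM : ¬ p ∣ M) (hA : A.LiesOverPrime p)
    (Q : Place (kA A) (modularFunctionFieldFullC (kA A) M)) :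
    Function.Surjective (algebraMap (kA A) Q.ResidueField) := by
  haveI : IsAlgClosed (kA A) := (Fermat.Agent.Ribet.H939.resField p hp A hA).1
  haveI : CharP (kA A) p := (Fermat.Agent.Ribet.H939.resField p hp A hA).2
  have hchar : ∀ ℓ : ℕ, ℓ.Prime → ℓ ∣ M → ((ℓ : ℕ) : kA A) ≠ 0 := by
    intro ℓ hℓ hℓM h0
    have h1 := (CharP.cast_eq_zero_iff (kA A) p ℓ).mp h0
    have h2 : p = ℓ := (Nat.prime_dvd_prime_iff_eq hp hℓ).mp h1
    exact hpM (h2 ▸ hℓM)
  have hdeg : Module.finrank (kA A) Q.ResidueField = 1 :=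
    Fermat.Agent.S18.H383.deg_eq_one_fullC (kA A) M hchar Q
  intro x
  have htop : (⊥ : Subalgebra (kA A) Q.ResidueField) = ⊤ :=
    Subalgebra.bot_eq_top_of_finrank_eq_one hdeg
  have hx : x ∈ (⊥ : Subalgebra (kA A) Q.ResidueField) := by
    rw [htop]
    exact Algebra.mem_top
  exact Algebra.mem_bot.mp hx

section Integral

variable {k : Type} [Field k]

/-- **`j(t^d)` is regular at the non-cuspidal places** (integrality over `ℤ[j]`). -/
theorem jqN_mem_place (Q : Place k (modularFunctionFieldFullC k M))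
    (hQ : 0 ≤ Q.ord (jC k M)) (d : ℕ) [NeZero d]
    (hmem : jqNModC k d ∈ modularFunctionFieldFullC k M) :
    (⟨jqNModC k d, hmem⟩ : modularFunctionFieldFullC k M) ∈ Q.toValuationSubring := by
  obtain ⟨P, hP, hP0⟩ := Fermat.Agent.S28.H867.coreData_integral d
    (fun q hq _ _ => Fermat.Agent.S28.H807.nonempty_modPolyData q hq) d dvd_rfl
  have hjQ : jC k M ∈ Q.toValuationSubring := Fermat.Agent.S24.FF.mem_of_ord_nonneg Q hQ
  let jQ : Q.toValuationSubring := ⟨jC k M, hjQ⟩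
  let θ : Polynomial ℤ →+* Q.toValuationSubring := (Polynomial.aeval (R := ℤ) jQ).toRingHom
  set y : modularFunctionFieldFullC k M := ⟨jqNModC k d, hmem⟩ with hy
  have hint : IsIntegral Q.toValuationSubring y := by
    refine ⟨P.map θ, hP.map θ, ?_⟩
    rw [Polynomial.eval₂_map]
    apply Subtype.ext
    have h1 := Polynomial.hom_eval₂ P
      ((algebraMap Q.toValuationSubring (modularFunctionFieldFullC k M)).comp θ)
      ((modularFunctionFieldFullC k M).val : _ →+* LaurentSeries k) y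
    have hcomp : ((modularFunctionFieldFullC k M).val : _ →+* LaurentSeries k).comp
        ((algebraMap Q.toValuationSubring (modularFunctionFieldFullC k M)).comp θ) =
        (coeffMap (Int.castRingHom k)).comp (Fermat.Agent.S28.evalAt (jqModC ℤ)) := by
      refine Polynomial.ringHom_ext (fun n => ?_) ?_
      · simp [θ]
      · simp only [RingHom.comp_apply, θ, AlgHom.toRingHom_eq_coe, RingHom.coe_coe,
          Polynomial.aeval_X, Fermat.Agent.S28.evalAt]
        rw [coeffMap_jqModC]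
        rfl
    have h2 := Polynomial.hom_eval₂ P (Fermat.Agent.S28.evalAt (jqModC ℤ))
      (coeffMap (Int.castRingHom k)) (qExpand ℤ d (jqModC ℤ))
    have hyv : ((modularFunctionFieldFullC k M).val : _ →+* LaurentSeries k) y =
        coeffMap (Int.castRingHom k) (qExpand ℤ d (jqModC ℤ)) := by
      show jqNModC k d = _
      rw [← coeffMap_jqNModC (Int.castRingHom k) d]
      rfl
    show ((modularFunctionFieldFullC k M).val : _ →+* LaurentSeries k)
      (Polynomial.eval₂ ((algebraMap Q.toValuationSubring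
        (modularFunctionFieldFullC k M)).comp θ) y P) = 0
    rw [h1, hcomp, hyv, ← h2, hP0, map_zero]
  obtain ⟨z, hz⟩ := IsIntegrallyClosed.isIntegral_iff.mp hint
  rw [← hz]
  exact z.2

end Integral

end Fermat.Agent.Ribet.H472

end

end
-- ===== PACK-END Ribet/H472/ResSurj.lean

-- ===== PACK-BEGIN Ribet/H472/OneSided.lean
section


/-!
# RIBET row 38, WALL-p, CoreOut leaf INST-E — the one-sided core (helper472)

`oneSided`: for a valuation ring `V'` of `F_{Mp,E}` with a reduction `ρ' : V' → k(X₀(M))`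
(`V' = V∞` with the Gauss reduction, or `V' = V₀ = V∞ ∘ W` with `ρ ∘ W`), a non-cuspidal place `Q`
of `k(X₀(M))` and the finite chart `B = chartAlg (x)`:

if `G · w^a · d^m` is a unit of `B_n` at every closed point `n ∋ w` of the chart (for suitable
`a`, `d` depending on `n`), then some constant multiple of `G` is a unit of `V'` whose reduction
has order divisible by `m` at `Q`.
-/

set_option autoImplicit false
set_option linter.unusedSectionVars false
set_option linter.style.haveILetI false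
set_option synthInstance.maxHeartbeats 400000
set_option maxHeartbeats 1600000

noncomputable section

namespace Fermat.Agent.Ribet.H472

open AlgebraicCurve ModularCurve HahnSeries
open Fermat.Agent.S24 Fermat.Agent.A2.H708 Fermat.Agent.A2.H528 Fermat.Agent.A2.H129
open Fermat.Agent.Ribet.H884 Fermat.Agent.Ribet.H997
open Fermat.Agent.A2 Fermat.Agent.A2.Mod Fermat.Agent.S18.H602

variable {A : ValuationSubring Kbar} {E : IntermediateField ℚ Kbar}
variable {M p : ℕ} [NeZero M] [NeZero p] {w : Mod.RE A E}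

theorem ord_pow472 {k κ : Type*} [Field k] [Field κ] [Algebra k κ] (Q : Place k κ) (z : κ)
    (m : ℕ) : Q.ord (z ^ m) = (m : ℤ) * Q.ord z := by
  have := Q.ord_zpow z (m : ℤ)
  rwa [zpow_natCast] at this

/-- **The one-sided core.** -/
theorem oneSided (hS : Mod.Setting A E M p w)
    (V' : ValuationSubring (Mod.FE E (M * p)))
    (ρ' : V' →+* modularFunctionFieldFullC (kA A) M)
    (hunit : ∀ s : V', ρ' s ≠ 0 → ((s : Mod.FE E (M * p)))⁻¹ ∈ V')
    (hconst : ∀ r : Mod.RE A E, ∃ h : Mod.cE A E (M * p) r ∈ V',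
      ρ' ⟨_, h⟩ = algebraMap (kA A) (modularFunctionFieldFullC (kA A) M)
        (IsLocalRing.residue A (toA' A E r)))
    (hscale : ∀ G : Mod.FE E (M * p), G ≠ 0 → ∃ c : E, c ≠ 0 ∧
      G * (algebraMap E (Mod.FE E (M * p)) c)⁻¹ ∈ V' ∧
      (G * (algebraMap E (Mod.FE E (M * p)) c)⁻¹)⁻¹ ∈ V')
    (Q : Place (kA A) (modularFunctionFieldFullC (kA A) M))
    (hx : ∃ h : Mod.xE E M p ∈ V', ρ' ⟨_, h⟩ ∈ Q.toValuationSubring)
    (hQ : Function.Surjective (algebraMap (kA A) Q.ResidueField))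
    (hsurj : ∀ c : kA A, ∃ r : Mod.RE A E, IsLocalRing.residue A (toA' A E r) = c)
    (m : ℕ) (G : Mod.FE E (M * p))
    (hpure : ∀ n : Ideal (Mod.chartAlg A E (M * p) (Mod.xE E M p)), n.IsMaximal →
      algebraMap (Mod.RE A E) (Mod.chartAlg A E (M * p) (Mod.xE E M p)) w ∈ n →
      ∃ (d : Mod.FE E (M * p)) (a : ℤ), d ≠ 0 ∧
        Alg.LocUnit (Mod.chartAlg A E (M * p) (Mod.xE E M p)) n
          (G * Mod.cE A E (M * p) w ^ a * d ^ m)) :
    ∃ (c : E) (_ : c ≠ 0) (h : G * (algebraMap E (Mod.FE E (M * p)) c)⁻¹ ∈ V'),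
      ρ' ⟨_, h⟩ ≠ 0 ∧ (m : ℤ) ∣ Q.ord (ρ' ⟨_, h⟩) := by
  classical
  -- the ring `R_E[x]` lies in `V'` and reduces into `O_Q`
  have key : ∀ s : Mod.FE E (M * p),
      s ∈ Algebra.adjoin (Mod.RE A E) ({Mod.xE E M p} : Set (Mod.FE E (M * p))) →
      ∃ h : s ∈ V', ρ' ⟨s, h⟩ ∈ Q.toValuationSubring := by
    intro s hs
    induction hs using Algebra.adjoin_induction with
    | mem x hxm =>
      rw [Set.mem_singleton_iff] at hxm
      subst hxm
      exact hx
    | algebraMap r =>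
      obtain ⟨h, hr⟩ := hconst r
      refine ⟨h, ?_⟩
      show ρ' ⟨Mod.cE A E (M * p) r, h⟩ ∈ Q.toValuationSubring
      rw [hr]
      exact Q.algebraMap_mem' _
    | add x z _ _ hx' hz' =>
      obtain ⟨h1, h1'⟩ := hx'
      obtain ⟨h2, h2'⟩ := hz'
      refine ⟨V'.add_mem _ _ h1 h2, ?_⟩
      have e : (⟨x + z, V'.add_mem _ _ h1 h2⟩ : V') = ⟨x, h1⟩ + ⟨z, h2⟩ := rfl
      rw [e, map_add]
      exact add_mem h1' h2'
    | mul x z _ _ hx' hz' =>
      obtain ⟨h1, h1'⟩ := hx'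
      obtain ⟨h2, h2'⟩ := hz'
      refine ⟨V'.mul_mem _ _ h1 h2, ?_⟩
      have e : (⟨x * z, V'.mul_mem _ _ h1 h2⟩ : V') = ⟨x, h1⟩ * ⟨z, h2⟩ := rfl
      rw [e, map_mul]
      exact mul_mem h1' h2'
  have hSV : ∀ s : Algebra.adjoin (Mod.RE A E) ({Mod.xE E M p} : Set (Mod.FE E (M * p))),
      algebraMap _ (Mod.FE E (M * p)) s ∈ V' := fun s => (key s s.2).1
  have hSQ : ∀ s : Algebra.adjoin (Mod.RE A E) ({Mod.xE E M p} : Set (Mod.FE E (M * p))),
      ρ' ⟨algebraMap _ (Mod.FE E (M * p)) s, hSV s⟩ ∈ Q.toValuationSubring :=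
    fun s => (key s s.2).2
  have hBV : ∀ b : Mod.chartAlg A E (M * p) (Mod.xE E M p), (b : Mod.FE E (M * p)) ∈ V' :=
    fun b => mem_of_isIntegral472 V' hSV b.2
  have hmem : ∀ b : Mod.chartAlg A E (M * p) (Mod.xE E M p),
      chartRed472 V' ρ' (Mod.chartAlg A E (M * p) (Mod.xE E M p)) hBV b ∈
        Q.toValuationSubring :=
    fun b => red_mem_of_isIntegral V' ρ' Q hSV hSQ (hBV b) b.2
  -- the closed point of `Q`
  have hsurj' : ∀ c : kA A, ∃ r : Mod.RE A E,
      chartRed472 V' ρ' (Mod.chartAlg A E (M * p) (Mod.xE E M p)) hBV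
        (algebraMap (Mod.RE A E) (Mod.chartAlg A E (M * p) (Mod.xE E M p)) r) =
      algebraMap (kA A) (modularFunctionFieldFullC (kA A) M) c := by
    intro c
    obtain ⟨r, hr⟩ := hsurj c
    obtain ⟨h, hρ⟩ := hconst r
    refine ⟨r, ?_⟩
    rw [chartRed472_apply, ← hr]
    exact hρ
  have hmax := ptOf_isMaximal V' ρ' (Mod.chartAlg A E (M * p) (Mod.xE E M p)) Q hmem hQ hsurj'
  have hwn : algebraMap (Mod.RE A E) (Mod.chartAlg A E (M * p) (Mod.xE E M p)) w ∈
      ptOf V' ρ' (Mod.chartAlg A E (M * p) (Mod.xE E M p)) Q hmem := by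
    apply mem_ptOf_of_eq_zero
    obtain ⟨h, hρ⟩ := hconst w
    rw [chartRed472_apply]
    show ρ' ⟨Mod.cE A E (M * p) w, _⟩ = 0
    rw [hρ, residue_toA'_unif hS.unif, map_zero]
  obtain ⟨d, a, hd, hloc⟩ := hpure _ hmax hwn
  obtain ⟨huV, huinv, hρu0, -, -, hord0⟩ :=
    unitAt_of_locUnit V' ρ' (Mod.chartAlg A E (M * p) (Mod.xE E M p)) Q hmem hunit hloc
  obtain ⟨cd, hcd, hd₀, hd₀inv⟩ := hscale d hd
  -- the constant
  have hw0 : (w : E) ≠ 0 := fun h0 => hS.unif.ne_zero (Subtype.ext h0)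
  have hwF : Mod.cE A E (M * p) w ≠ 0 := Mod.H372.cE_ne_zero w hS (M * p)
  have hcdF : algebraMap E (Mod.FE E (M * p)) cd ≠ 0 :=
    (map_ne_zero_iff _ (algebraMap E (Mod.FE E (M * p))).injective).mpr hcd
  set c : E := ((w : E) ^ a * cd ^ m)⁻¹ with hc_def
  have hc : c ≠ 0 := inv_ne_zero (mul_ne_zero (zpow_ne_zero _ hw0) (pow_ne_zero _ hcd))
  have hcF : (algebraMap E (Mod.FE E (M * p)) c)⁻¹ =
      Mod.cE A E (M * p) w ^ a * algebraMap E (Mod.FE E (M * p)) cd ^ m := by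
    rw [hc_def, map_inv₀, inv_inv, map_mul, map_zpow₀, map_pow]
    rfl
  set d₀ : Mod.FE E (M * p) := d * (algebraMap E (Mod.FE E (M * p)) cd)⁻¹ with hd₀_def
  have hd₀0 : d₀ ≠ 0 := mul_ne_zero hd (inv_ne_zero hcdF)
  have hkey : G * (algebraMap E (Mod.FE E (M * p)) c)⁻¹ =
      (G * Mod.cE A E (M * p) w ^ a * d ^ m) * (d₀⁻¹) ^ m := by
    have hdm : d ^ m ≠ 0 := pow_ne_zero _ hd
    have h1 : d ^ m * (d ^ m)⁻¹ = 1 := mul_inv_cancel₀ hdm
    rw [hcF, hd₀_def, mul_inv, inv_inv, mul_pow, inv_pow]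
    calc G * (Mod.cE A E (M * p) w ^ a * algebraMap E (Mod.FE E (M * p)) cd ^ m)
        = G * Mod.cE A E (M * p) w ^ a * (d ^ m * (d ^ m)⁻¹) *
            algebraMap E (Mod.FE E (M * p)) cd ^ m := by rw [h1]; ring
      _ = G * Mod.cE A E (M * p) w ^ a * d ^ m *
            ((d ^ m)⁻¹ * algebraMap E (Mod.FE E (M * p)) cd ^ m) := by ring
  have hinvm : (d₀⁻¹) ^ m ∈ V' := pow_mem hd₀inv m
  have hGc : G * (algebraMap E (Mod.FE E (M * p)) c)⁻¹ ∈ V' := by
    rw [hkey]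
    exact V'.mul_mem _ _ huV hinvm
  refine ⟨c, hc, hGc, ?_⟩
  have hρ : ρ' ⟨_, hGc⟩ = ρ' ⟨_, huV⟩ * ρ' ⟨d₀⁻¹, hd₀inv⟩ ^ m := by
    rw [← map_pow, ← map_mul]
    congr 1
    exact Subtype.ext hkey
  have hρd : ρ' ⟨d₀⁻¹, hd₀inv⟩ ≠ 0 := by
    intro h0
    have h1 : (⟨d₀⁻¹, hd₀inv⟩ : V') * ⟨d₀, hd₀⟩ = 1 := Subtype.ext (inv_mul_cancel₀ hd₀0)
    have h2 := congrArg ρ' h1
    rw [map_mul, h0, zero_mul, map_one] at h2
    exact zero_ne_one h2
  refine ⟨?_, ?_⟩
  · rw [hρ]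
    exact mul_ne_zero hρu0 (pow_ne_zero _ hρd)
  · rw [hρ, Q.ord_mul hρu0 (pow_ne_zero _ hρd), hord0, zero_add, ord_pow472]
    exact dvd_mul_right _ _

end Fermat.Agent.Ribet.H472

end

end
-- ===== PACK-END Ribet/H472/OneSided.lean

-- ===== PACK-BEGIN Ribet/H472/Frames.lean
section



/-!
# RIBET row 38, WALL-p, CoreOut leaf INST-E — the two frames and the slope dictionary
  (helper472)

* `pdivOfFrame` : the one-sided core with a FIXED normalisation `G / c₁` (a unit of `V'`):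
  the reduction has `m`-divisible order at EVERY non-cuspidal place;
* `frameInf`, `frameZero` : the two frames `(V∞, ρ)` and `(V₀ = V∞ ∘ W, ρ ∘ W)`;
* `dictGen` : pure at every closed point of the special fibre of the finite chart ⟹ both
  reductions lie in `k(X₀(M))` and have `m`-divisible orders at the non-cuspidal places.
  (`p` = residue characteristic, `m` = exponent; `m = p` is `H704.CoreOut.DictPureStatement`.)
-/

set_option autoImplicit false
set_option linter.unusedSectionVars false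
set_option linter.style.haveILetI false
set_option synthInstance.maxHeartbeats 400000
set_option maxHeartbeats 1600000

noncomputable section

namespace Fermat.Agent.Ribet.H472

open AlgebraicCurve ModularCurve HahnSeries
open Fermat.Agent.S24 Fermat.Agent.A2.H708 Fermat.Agent.A2.H528 Fermat.Agent.A2.H129
open Fermat.Agent.Ribet.H884 Fermat.Agent.Ribet.H997
open Fermat.Agent.A2 Fermat.Agent.A2.Mod Fermat.Agent.S18.H602

variable {A : ValuationSubring Kbar} {E : IntermediateField ℚ Kbar}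
variable {M p : ℕ} [NeZero M] [NeZero p] {w : Mod.RE A E}

/-- **The one-sided core, fixed normalisation.** -/
theorem pdivOfFrame (hS : Mod.Setting A E M p w)
    (V' : ValuationSubring (Mod.FE E (M * p)))
    (ρ' : V' →+* modularFunctionFieldFullC (kA A) M)
    (hunit : ∀ s : V', ρ' s ≠ 0 → ((s : Mod.FE E (M * p)))⁻¹ ∈ V')
    (hconst : ∀ r : Mod.RE A E, ∃ h : Mod.cE A E (M * p) r ∈ V',
      ρ' ⟨_, h⟩ = algebraMap (kA A) (modularFunctionFieldFullC (kA A) M)
        (IsLocalRing.residue A (toA' A E r)))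
    (hscale : ∀ G : Mod.FE E (M * p), G ≠ 0 → ∃ c : E, c ≠ 0 ∧
      G * (algebraMap E (Mod.FE E (M * p)) c)⁻¹ ∈ V' ∧
      (G * (algebraMap E (Mod.FE E (M * p)) c)⁻¹)⁻¹ ∈ V')
    (hx : ∀ Q : Place (kA A) (modularFunctionFieldFullC (kA A) M),
      0 ≤ Q.ord (jC (kA A) M) → ∃ h : Mod.xE E M p ∈ V', ρ' ⟨_, h⟩ ∈ Q.toValuationSubring)
    (hQ : ∀ Q : Place (kA A) (modularFunctionFieldFullC (kA A) M),
      Function.Surjective (algebraMap (kA A) Q.ResidueField))
    (hsurj : ∀ c : kA A, ∃ r : Mod.RE A E, IsLocalRing.residue A (toA' A E r) = c)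
    (m : ℕ) (G : Mod.FE E (M * p)) (hG : G ≠ 0)
    (hpure : ∀ n : Ideal (Mod.chartAlg A E (M * p) (Mod.xE E M p)), n.IsMaximal →
      algebraMap (Mod.RE A E) (Mod.chartAlg A E (M * p) (Mod.xE E M p)) w ∈ n →
      ∃ (d : Mod.FE E (M * p)) (a : ℤ), d ≠ 0 ∧
        Alg.LocUnit (Mod.chartAlg A E (M * p) (Mod.xE E M p)) n
          (G * Mod.cE A E (M * p) w ^ a * d ^ m))
    (c₁ : E) (hc₁ : c₁ ≠ 0)
    (h₁ : G * (algebraMap E (Mod.FE E (M * p)) c₁)⁻¹ ∈ V')
    (h₁' : (G * (algebraMap E (Mod.FE E (M * p)) c₁)⁻¹)⁻¹ ∈ V') :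
    ρ' ⟨_, h₁⟩ ≠ 0 ∧ ∀ Q : Place (kA A) (modularFunctionFieldFullC (kA A) M),
      0 ≤ Q.ord (jC (kA A) M) → (m : ℤ) ∣ Q.ord (ρ' ⟨_, h₁⟩) := by
  classical
  have hc₁F : algebraMap E (Mod.FE E (M * p)) c₁ ≠ 0 :=
    (map_ne_zero_iff _ (algebraMap E (Mod.FE E (M * p))).injective).mpr hc₁
  have hs₁0 : G * (algebraMap E (Mod.FE E (M * p)) c₁)⁻¹ ≠ 0 :=
    mul_ne_zero hG (inv_ne_zero hc₁F)
  set s₁ : V' := ⟨_, h₁⟩ with hs₁
  set t₁ : V' := ⟨_, h₁'⟩ with ht₁
  have hst : s₁ * t₁ = 1 := Subtype.ext (mul_inv_cancel₀ hs₁0)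
  have hρst : ρ' s₁ * ρ' t₁ = 1 := by rw [← map_mul, hst, map_one]
  have hρs₁ : ρ' s₁ ≠ 0 := left_ne_zero_of_mul_eq_one hρst
  refine ⟨hρs₁, fun Q hQj => ?_⟩
  obtain ⟨c, hc, h, hne, hdiv⟩ := oneSided hS V' ρ' hunit hconst hscale Q (hx Q hQj) (hQ Q)
    hsurj m G hpure
  have hcF : algebraMap E (Mod.FE E (M * p)) c ≠ 0 :=
    (map_ne_zero_iff _ (algebraMap E (Mod.FE E (M * p))).injective).mpr hc
  set s : V' := ⟨_, h⟩ with hs
  set u : V' := s * t₁ with hu
  have hsu : s = s₁ * u := by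
    rw [hu, mul_comm s t₁, ← mul_assoc, hst, one_mul]
  have hρu : ρ' u ≠ 0 := by
    intro h0
    apply hne
    show ρ' s = 0
    rw [hsu, map_mul, h0, mul_zero]
  -- `u` is the constant `c₁ / c`
  have huc : (u : Mod.FE E (M * p)) = algebraMap E (Mod.FE E (M * p)) (c₁ * c⁻¹) := by
    show G * (algebraMap E (Mod.FE E (M * p)) c)⁻¹ *
      (G * (algebraMap E (Mod.FE E (M * p)) c₁)⁻¹)⁻¹ = _
    rw [map_mul, map_inv₀]
    field_simp
  have hord : Q.ord (ρ' u) = 0 := by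
    rcases (Mod.RE A E).mem_or_inv_mem (c₁ * c⁻¹) with hmem | hmem
    · obtain ⟨h', hr'⟩ := hconst ⟨_, hmem⟩
      have : u = ⟨_, h'⟩ := Subtype.ext huc
      rw [this, hr']
      exact ord_algebraMap_eq_zero Q _
    · obtain ⟨h', hr'⟩ := hconst ⟨_, hmem⟩
      have hce : (c₁ * c⁻¹) ≠ 0 := mul_ne_zero hc₁ (inv_ne_zero hc)
      have h1 : u * ⟨_, h'⟩ = 1 := by
        apply Subtype.ext
        show (u : Mod.FE E (M * p)) * algebraMap E (Mod.FE E (M * p)) (c₁ * c⁻¹)⁻¹ = 1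
        rw [huc, ← map_mul, mul_inv_cancel₀ hce, map_one]
      have h2 : ρ' u * ρ' ⟨_, h'⟩ = 1 := by rw [← map_mul, h1, map_one]
      have h3 : ρ' u = (ρ' ⟨_, h'⟩)⁻¹ := eq_inv_of_mul_eq_one_left h2
      rw [h3, Place.ord_inv, hr', ord_algebraMap_eq_zero Q _, neg_zero]
  have h4 : Q.ord (ρ' s) = Q.ord (ρ' s₁) := by
    rw [hsu, map_mul, Place.ord_mul Q hρs₁ hρu, hord, add_zero]
  rw [← h4]
  exact hdiv

/-! ## The frame at `∞` -/

section FrameInf

variable (hp : p.Prime) (hpM : ¬ p ∣ M) (hA : A.LiesOverPrime p)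
  {V : ValuationSubring (Mod.FE E (M * p))} (hV : Mod.IsVinf A E (M * p) V)

theorem rho_ne_zero_of_rhoF (s : V) (h : rhoF hp hpM hA hV s ≠ 0) : rho hV s ≠ 0 := by
  intro h0
  apply h
  apply Subtype.ext
  rw [coe_rhoF, h0]
  rfl

theorem frameInf_unit (hS : Mod.Setting A E M p w) (s : V) (h : rhoF hp hpM hA hV s ≠ 0) :
    ((s : Mod.FE E (M * p)))⁻¹ ∈ V :=
  inv_mem_of_rho_ne_zero hS (Mod.H372.level_ne_zero w hS) hV s
    (rho_ne_zero_of_rhoF hp hpM hA hV s h)

theorem frameInf_const (hS : Mod.Setting A E M p w) (r : Mod.RE A E) : ∃ h : Mod.cE A E (M * p) r ∈ V,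
    rhoF hp hpM hA hV ⟨_, h⟩ = algebraMap (kA A) (modularFunctionFieldFullC (kA A) M)
      (IsLocalRing.residue A (toA' A E r)) := by
  refine ⟨Mod.H372.cE_mem w hS hV r, Subtype.ext ?_⟩
  rw [coe_rhoF, rho_cE]
  show _ = algebraMap (kA A) (LaurentSeries (kA A)) _
  rw [algebraMap_laurentSeries_eq_single]

theorem rhoF_jE_mem_place (Q : Place (kA A) (modularFunctionFieldFullC (kA A) M))
    (hQ : 0 ≤ Q.ord (jC (kA A) M)) (d : ℕ) [NeZero d] (hd : d ∣ M * p)
    (hj : Mod.jE E (M * p) d hd ∈ V) :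
    rhoF hp hpM hA hV ⟨_, hj⟩ ∈ Q.toValuationSubring := by
  have hmem : jqNModC (kA A) d ∈ modularFunctionFieldFullC (kA A) M := by
    have := rho_mem_fullC hp hpM hA hV ⟨_, hj⟩
    rwa [rho_jE hV d hd hj] at this
  have h1 : rhoF hp hpM hA hV ⟨_, hj⟩ = ⟨jqNModC (kA A) d, hmem⟩ :=
    Subtype.ext (rho_jE hV d hd hj)
  rw [h1]
  exact jqN_mem_place Q hQ d hmem

theorem frameInf_x (hS : Mod.Setting A E M p w) (Q : Place (kA A) (modularFunctionFieldFullC (kA A) M))
    (hQ : 0 ≤ Q.ord (jC (kA A) M)) :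
    ∃ h : Mod.xE E M p ∈ V, rhoF hp hpM hA hV ⟨_, h⟩ ∈ Q.toValuationSubring := by
  have hN := Mod.H372.level_ne_zero w hS
  have h1 := Mod.H372.jE_mem w hS hN hV 1 (one_dvd _)
  have h2 := Mod.H372.jE_mem w hS hN hV p (dvd_mul_left p M)
  refine ⟨V.mul_mem _ _ h1 h2, ?_⟩
  have e : (⟨Mod.xE E M p, V.mul_mem _ _ h1 h2⟩ : V) = ⟨_, h1⟩ * ⟨_, h2⟩ := rfl
  rw [e, map_mul]
  exact Q.toValuationSubring.mul_mem _ _
    (rhoF_jE_mem_place hp hpM hA hV Q hQ 1 _ h1)
    (rhoF_jE_mem_place hp hpM hA hV Q hQ p _ h2)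

end FrameInf

/-! ## The frame at `0` -/

section FrameZero

variable (hp : p.Prime) (hpM : ¬ p ∣ M) (hA : A.LiesOverPrime p)
  {V : ValuationSubring (Mod.FE E (M * p))} (hV : Mod.IsVinf A E (M * p) V)

/-- The Fricke involution of `F_{Mp,E}` as a ring homomorphism. -/
def frW (E : IntermediateField ℚ Kbar) (M p : ℕ) [NeZero M] [NeZero p] :
    Mod.FE E (M * p) →+* Mod.FE E (M * p) :=
  (Mod.H751.frickeE E (M * p) : Mod.FE E (M * p) →+* Mod.FE E (M * p))

theorem frW_apply (f : Mod.FE E (M * p)) : frW E M p f = Mod.H751.frickeE E (M * p) f := rfl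

theorem frW_algebraMap (c : E) :
    frW E M p (algebraMap E (Mod.FE E (M * p)) c) = algebraMap E (Mod.FE E (M * p)) c :=
  (Mod.H751.frickeE E (M * p)).commutes c

theorem frW_scaled (G : Mod.FE E (M * p)) (c : E) :
    frW E M p (G * (algebraMap E (Mod.FE E (M * p)) c)⁻¹) =
      frW E M p G * (algebraMap E (Mod.FE E (M * p)) c)⁻¹ := by
  rw [map_mul, map_inv₀, frW_algebraMap]

/-- `V₀ = V∞ ∘ W`. -/
def vZero (V : ValuationSubring (Mod.FE E (M * p))) : ValuationSubring (Mod.FE E (M * p)) :=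
  V.comap (frW E M p)

theorem mem_vZero {V : ValuationSubring (Mod.FE E (M * p))} {f : Mod.FE E (M * p)} :
    f ∈ vZero V ↔ frW E M p f ∈ V := Iff.rfl

/-- `W : V₀ → V∞`. -/
def frRes (V : ValuationSubring (Mod.FE E (M * p))) : vZero V →+* V :=
  ((frW E M p).comp (vZero V).subtype).codRestrict V (fun s => s.2)

theorem coe_frRes {V : ValuationSubring (Mod.FE E (M * p))} (s : vZero V) :
    ((frRes V s : V) : Mod.FE E (M * p)) = frW E M p (s : Mod.FE E (M * p)) := rfl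

/-- The reduction on the `0`-component: `ρ₀ = ρ ∘ W`. -/
def rhoZ : vZero V →+* modularFunctionFieldFullC (kA A) M :=
  (rhoF hp hpM hA hV).comp (frRes V)

theorem rhoZ_apply (s : vZero V) :
    rhoZ hp hpM hA hV s = rhoF hp hpM hA hV (frRes V s) := rfl

theorem rhoZ_mk (f : Mod.FE E (M * p)) (hf : f ∈ vZero V) (g : Mod.FE E (M * p))
    (hg : g ∈ V) (hfg : frW E M p f = g) :
    rhoZ hp hpM hA hV ⟨f, hf⟩ = rhoF hp hpM hA hV ⟨g, hg⟩ := by
  rw [rhoZ_apply]
  exact congrArg _ (Subtype.ext hfg)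

theorem frameZero_unit (hS : Mod.Setting A E M p w) (s : vZero V) (h : rhoZ hp hpM hA hV s ≠ 0) :
    ((s : Mod.FE E (M * p)))⁻¹ ∈ vZero V := by
  have h1 := frameInf_unit hp hpM hA hV hS (frRes V s) h
  rw [coe_frRes, ← map_inv₀] at h1
  exact h1

theorem frameZero_const (hS : Mod.Setting A E M p w) (r : Mod.RE A E) : ∃ h : Mod.cE A E (M * p) r ∈ vZero V,
    rhoZ hp hpM hA hV ⟨_, h⟩ = algebraMap (kA A) (modularFunctionFieldFullC (kA A) M)
      (IsLocalRing.residue A (toA' A E r)) := by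
  obtain ⟨h, hr⟩ := frameInf_const hp hpM hA hV hS r
  have hW : frW E M p (Mod.cE A E (M * p) r) = Mod.cE A E (M * p) r :=
    frW_algebraMap (r : E)
  have h0 : Mod.cE A E (M * p) r ∈ vZero V := by
    rw [mem_vZero, hW]
    exact h
  refine ⟨h0, ?_⟩
  rw [rhoZ_mk hp hpM hA hV _ h0 _ h hW, hr]

theorem frameZero_scale (hS : Mod.Setting A E M p w)
    {V : ValuationSubring (Mod.FE E (M * p))} (hV : Mod.IsVinf A E (M * p) V)
    (G : Mod.FE E (M * p)) (hG : G ≠ 0) : ∃ c : E, c ≠ 0 ∧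
    G * (algebraMap E (Mod.FE E (M * p)) c)⁻¹ ∈ vZero V ∧
    (G * (algebraMap E (Mod.FE E (M * p)) c)⁻¹)⁻¹ ∈ vZero V := by
  have hWG : frW E M p G ≠ 0 := (map_ne_zero_iff _ (frW E M p).injective).mpr hG
  obtain ⟨c, hc, h1, h2⟩ := exists_scale hS hV hWG
  refine ⟨c, hc, ?_, ?_⟩
  · rw [mem_vZero, frW_scaled]
    exact h1
  · rw [mem_vZero, map_inv₀, frW_scaled]
    exact h2

theorem frW_jE_one :
    frW E M p (Mod.jE E (M * p) 1 (one_dvd _)) = Mod.jE E (M * p) (M * p) dvd_rfl :=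
  (Mod.H751.isFricke_frickeE E (M * p)).1 1 (M * p) (one_dvd _) dvd_rfl (one_mul _)

theorem frW_jE_p :
    frW E M p (Mod.jE E (M * p) p (dvd_mul_left p M)) =
      Mod.jE E (M * p) M (dvd_mul_right M p) :=
  (Mod.H751.isFricke_frickeE E (M * p)).1 p M (dvd_mul_left p M) (dvd_mul_right M p)
    (mul_comm p M)

theorem frameZero_x (hS : Mod.Setting A E M p w) (Q : Place (kA A) (modularFunctionFieldFullC (kA A) M))
    (hQ : 0 ≤ Q.ord (jC (kA A) M)) :
    ∃ h : Mod.xE E M p ∈ vZero V, rhoZ hp hpM hA hV ⟨_, h⟩ ∈ Q.toValuationSubring := by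
  have hN := Mod.H372.level_ne_zero w hS
  have h1 := Mod.H372.jE_mem w hS hN hV (M * p) dvd_rfl
  have h2 := Mod.H372.jE_mem w hS hN hV M (dvd_mul_right M p)
  have hW : frW E M p (Mod.xE E M p) =
      Mod.jE E (M * p) (M * p) dvd_rfl * Mod.jE E (M * p) M (dvd_mul_right M p) := by
    unfold Mod.xE
    rw [map_mul, frW_jE_one, frW_jE_p]
  have h0 : Mod.xE E M p ∈ vZero V := by
    rw [mem_vZero, hW]
    exact V.mul_mem _ _ h1 h2
  refine ⟨h0, ?_⟩
  rw [rhoZ_mk hp hpM hA hV _ h0 _ (V.mul_mem _ _ h1 h2) hW]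
  have e : (⟨_, V.mul_mem _ _ h1 h2⟩ : V) = ⟨_, h1⟩ * ⟨_, h2⟩ := rfl
  rw [e, map_mul]
  exact Q.toValuationSubring.mul_mem _ _
    (rhoF_jE_mem_place hp hpM hA hV Q hQ (M * p) _ h1)
    (rhoF_jE_mem_place hp hpM hA hV Q hQ M _ h2)

end FrameZero

/-! ## The slope dictionary, general exponent -/

/-- **DICT (pure form), general exponent `m`.** -/
theorem dictGen (hS : Mod.Setting A E M p w) (hE : A2.GoodField A E) (m : ℕ)
    (G : Mod.FE E (M * p)) (hG : G ≠ 0)
    (hpure : ∀ n : Ideal (Mod.chartAlg A E (M * p) (Mod.xE E M p)), n.IsMaximal →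
      algebraMap (Mod.RE A E) (Mod.chartAlg A E (M * p) (Mod.xE E M p)) w ∈ n →
      ∃ (d : Mod.FE E (M * p)) (a : ℤ), d ≠ 0 ∧
        Alg.LocUnit (Mod.chartAlg A E (M * p) (Mod.xE E M p)) n
          (G * Mod.cE A E (M * p) w ^ a * d ^ m)) :
    ∃ r₁ r₂ : LaurentSeries (kA A),
      IsRedSer A (iotaS E (M * p) G) r₁ ∧
      IsRedSer A (iotaS E (M * p) (Mod.H751.frickeE E (M * p) G)) r₂ ∧
      PDivFin m M r₁ ∧ PDivFin m M r₂ := by
  have hp := hS.q_prime
  have hpM := hS.q_not_dvd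
  have hA := hS.lies_over
  have hN := Mod.H372.level_ne_zero w hS
  obtain ⟨V, hV⟩ := Mod.H553.vinfExists A E (M * p) hN hS.dvr
  have hQ := fun Q : Place (kA A) (modularFunctionFieldFullC (kA A) M) =>
    residue_surjective_of_place hp hpM hA Q
  have hsurj := fun c : kA A => exists_RE_residue_eq hp hA hE c
  -- the `∞`-component
  obtain ⟨c₁, hc₁, h₁, h₁'⟩ := exists_scale hS hV hG
  obtain ⟨hne₁, hdiv₁⟩ := pdivOfFrame hS V (rhoF hp hpM hA hV)
    (frameInf_unit hp hpM hA hV hS) (frameInf_const hp hpM hA hV hS)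
    (fun G hG => exists_scale hS hV hG) (frameInf_x hp hpM hA hV hS) hQ hsurj m G hG hpure
    c₁ hc₁ h₁ h₁'
  -- the `0`-component
  have hWG : frW E M p G ≠ 0 := (map_ne_zero_iff _ (frW E M p).injective).mpr hG
  obtain ⟨c₂, hc₂, h₂, h₂'⟩ := exists_scale hS hV hWG
  have h₂z : G * (algebraMap E (Mod.FE E (M * p)) c₂)⁻¹ ∈ vZero V := by
    rw [mem_vZero, frW_scaled]
    exact h₂
  have h₂z' : (G * (algebraMap E (Mod.FE E (M * p)) c₂)⁻¹)⁻¹ ∈ vZero V := by
    rw [mem_vZero, map_inv₀, frW_scaled]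
    exact h₂'
  obtain ⟨hne₂, hdiv₂⟩ := pdivOfFrame hS (vZero V) (rhoZ hp hpM hA hV)
    (frameZero_unit hp hpM hA hV hS) (frameZero_const hp hpM hA hV hS)
    (frameZero_scale hS hV) (frameZero_x hp hpM hA hV hS) hQ hsurj m G hG hpure
    c₂ hc₂ h₂z h₂z'
  rw [rhoZ_mk hp hpM hA hV _ h₂z _ h₂ (frW_scaled G c₂)] at hne₂ hdiv₂
  refine ⟨rho hV ⟨_, h₁⟩, rho hV ⟨_, h₂⟩, ?_, ?_, ?_, ?_⟩
  · exact isRedSer_of_scaled hV G c₁ hc₁ h₁ (rho_ne_zero_of_rhoF hp hpM hA hV _ hne₁)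
  · exact isRedSer_of_scaled hV (frW E M p G) c₂ hc₂ h₂
      (rho_ne_zero_of_rhoF hp hpM hA hV _ hne₂)
  · exact ⟨rhoF hp hpM hA hV ⟨_, h₁⟩, rfl, hne₁, hdiv₁⟩
  · exact ⟨rhoF hp hpM hA hV ⟨_, h₂⟩, rfl, hne₂, hdiv₂⟩

end Fermat.Agent.Ribet.H472

end
end
-- ===== PACK-END Ribet/H472/Frames.lean

-- ===== PACK-BEGIN Ribet/H967/TameReduce.lean
section



/-!
# RIBET row 38, WALL-p, CoreOut: TAME reduces to the INERTIA-FIXED case (helper967)

Target: `H704.CoreOut.TameStatement` (classes fixed by `I₁ = {σ ∈ I : σ = 1 on μ_p}`).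

`tame_of_fixed : TameFixedStatement → H704.CoreOut.TameStatement`, where `TameFixedStatement`
is the same statement for classes fixed by the WHOLE inertia group `I` at `A`: such a class is
defined over the inertia field `ℚ̄^I` (absolutely unramified: uniformiser `p`, unit pair of
exponent `12`), so NO tame level `ℚ̄^{I₁}` and no ramification index `p - 1` is needed.

Proof.
* `exists_fixed_translate` (cocycle trick): `σ x = x + n(σ) t`, `σ t = χ(σ) t` on `I`, `x` fixed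
  by `I₁`.  Choose `σ₀ ∈ I` with `χ(σ₀) ≢ 1 (mod p)` (`H39.exists_inertia_cycloAt`) and `z` with
  `n(σ₀) + z (χ(σ₀) - 1) ≡ 0`; then `x' = x + z t` is fixed by `σ₀`, and by every `τ ∈ I`:
  the commutator `ρ = τ σ₀ τ⁻¹ σ₀⁻¹` lies in `I₁`, so it fixes `x'`, and `τ σ₀ = ρ σ₀ τ` applied to
  `x'` gives `(χ(σ₀) - 1) (τ x' - x') = 0`.
* `t ∈ splitPart` (`H39.mem_splitPart_of_cyclo`), so `-z t` has a Kummer generator `g` with
  `SplitGen g` (`H884.mem_splitSet_of_mem_splitPart`), in particular `NodeGen g`.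
* `SlopeProp x'` with `(f', D, G', n, a, b)` gives `SlopeProp x` with `(f' g, D, G' gⁿ, n, a, b)`.
-/

set_option autoImplicit false
set_option synthInstance.maxHeartbeats 400000
set_option maxHeartbeats 1000000
set_option linter.unusedSectionVars false

noncomputable section

namespace Fermat.Agent.Ribet.H967.Tame

open AlgebraicCurve ModularCurve HahnSeries
open Fermat.Agent.S24 Fermat.Agent.A2.H708 Fermat.Agent.A2.H528
open Fermat.Agent.Ribet.Spec Fermat.Agent.Ribet.H944.Wall Fermat.Agent.Ribet.H884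
open Fermat.Agent.Ribet.H704 Fermat.Agent.Ribet.H704.CoreOut

local notation "Qb" => AlgebraicClosure ℚ

/-- **TAME, inertia-fixed core**: `SlopeProp` for new eigenclasses fixed by the whole inertia
group at `A` (non-Eisenstein eigenvalues). -/
def TameFixedStatement : Prop :=
  ∀ (p M' : ℕ) [NeZero M'] [NeZero p] [NeZero (p * M')], p.Prime → 5 ≤ p → ¬ p ∣ M' →
    ∀ A : ValuationSubring Qb, A.LiesOverPrime p →
    ∀ (S : Finset ℕ) (a : ℕ → ℤ), NonEisAway p a → ∀ x : JZero (p * M'),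
      IsNewTors p M' x → EigenAt (p * M') S a x →
      (∀ σ ∈ A.inertiaSubgroupIn ℚ, σ • x = x) →
      SlopeProp p M' A x

/-! ## The cyclotomic character on commutators -/

/-- A commutator acts trivially on `μ_p`. -/
theorem cycloAt_commutator967 {p : ℕ} {σ τ : GQ} {c d : ℕ} (hσ : CycloAt p σ c)
    (hτ : CycloAt p τ d) : CycloAt p (τ * σ * τ⁻¹ * σ⁻¹) 1 := by
  intro ζ hζ
  set ξ : Qb := τ⁻¹ (σ⁻¹ ζ) with hξdef
  have hξ : ξ ^ p = 1 := by
    rw [hξdef, ← map_pow, ← map_pow, hζ, map_one, map_one]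
  have h1 : ζ = σ (τ ξ) := by
    rw [hξdef]
    show ζ = σ (τ (τ⁻¹ (σ⁻¹ ζ)))
    rw [← AlgEquiv.mul_apply τ τ⁻¹, mul_inv_cancel, AlgEquiv.one_apply,
      ← AlgEquiv.mul_apply σ σ⁻¹, mul_inv_cancel, AlgEquiv.one_apply]
  have h2 : (τ * σ * τ⁻¹ * σ⁻¹) ζ = τ (σ ξ) := rfl
  rw [h2, pow_one, hσ ξ hξ, map_pow, hτ ξ hξ]
  conv_rhs => rw [h1, hτ ξ hξ, map_pow, hσ ξ hξ]
  rw [← pow_mul, ← pow_mul, mul_comm]

/-! ## The cocycle trick -/

section Cocycle

variable {p M' : ℕ} [NeZero M'] [NeZero p] [NeZero (p * M')]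

/-- **Cocycle trick**: a class fixed by `I₁` on which `I` acts by translations along a line of
multiplicative type has a translate along that line which is fixed by `I`. -/
theorem exists_fixed_translate (hp : p.Prime) (hp2 : p ≠ 2) (A : ValuationSubring Qb)
    (hA : A.LiesOverPrime p) (x t : JZero (p * M')) (hpt : p • t = 0)
    (hχ : ∀ σ ∈ A.inertiaSubgroupIn ℚ, ∀ c : ℕ, CycloAt p σ c → σ • t = c • t)
    (hsh : ∀ σ ∈ A.inertiaSubgroupIn ℚ, ∃ n : ℕ, σ • x = x + n • t)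
    (htame : ∀ σ ∈ A.inertiaSubgroupIn ℚ, CycloAt p σ 1 → σ • x = x) :
    ∃ z : ℤ, ∀ σ ∈ A.inertiaSubgroupIn ℚ, σ • (x + z • t) = x + z • t := by
  obtain ⟨σ₀, hσ₀, c₀, hc₀, hnd⟩ := Fermat.Agent.Ribet.H39.exists_inertia_cycloAt p hp hp2 A hA
  obtain ⟨n₀, hn₀⟩ := hsh σ₀ hσ₀
  have hcop : IsCoprime ((c₀ : ℤ) - 1) (p : ℤ) := by
    have hpp : Prime (p : ℤ) := Nat.prime_iff_prime_int.mp hp
    exact (IsCoprime.symm ((Prime.coprime_iff_not_dvd hpp).mpr hnd))
  obtain ⟨u, v, huv⟩ := hcop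
  have hpt' : ∀ k : ℤ, (k * (p : ℤ)) • t = 0 := by
    intro k
    rw [mul_smul, natCast_zsmul, hpt, smul_zero]
  -- multiples of `t` killed by `c₀ - 1` vanish
  have hkill : ∀ m : ℤ, (m * ((c₀ : ℤ) - 1)) • t = 0 → m • t = 0 := by
    intro m hm
    have e : m = u * (m * ((c₀ : ℤ) - 1)) + (v * m) * (p : ℤ) := by
      linear_combination (-m) * huv
    have e' : m • t = (u * (m * ((c₀ : ℤ) - 1)) + (v * m) * (p : ℤ)) • t :=
      congrArg (fun k : ℤ => k • t) e
    rw [e', add_zsmul, mul_smul u, hm, smul_zero, hpt', add_zero]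
  have hsz : ∀ (σ : GQ) (k : ℤ) (y : JZero (p * M')), σ • (k • y) = k • (σ • y) :=
    fun σ k y => map_zsmul (DistribSMul.toAddMonoidHom (JZero (p * M')) σ) k y
  -- the action of `I` on integer multiples of `t`
  have hact : ∀ σ ∈ A.inertiaSubgroupIn ℚ, ∀ c : ℕ, CycloAt p σ c → ∀ m : ℤ,
      σ • (m • t) = (m * (c : ℤ)) • t := by
    intro σ hσ c hc m
    rw [hsz, hχ σ hσ c hc, mul_smul, natCast_zsmul]
  set z : ℤ := -(n₀ : ℤ) * u with hz
  have hσ₀x' : σ₀ • (x + z • t) = x + z • t := by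
    rw [smul_add, hn₀, hact σ₀ hσ₀ c₀ hc₀, add_assoc]
    congr 1
    rw [← natCast_zsmul, ← add_zsmul]
    have e : (n₀ : ℤ) + z * (c₀ : ℤ) = z + ((n₀ : ℤ) * v) * (p : ℤ) := by
      rw [hz]
      linear_combination (-(n₀ : ℤ)) * huv
    rw [e, add_zsmul, hpt', add_zero]
  refine ⟨z, fun τ hτ => ?_⟩
  obtain ⟨n, hn⟩ := hsh τ hτ
  obtain ⟨d, hd⟩ : ∃ d : ℕ, CycloAt p τ d := ⟨_, Fermat.Agent.Ribet.H39.cycloAt_cycloPow p τ⟩
  set m : ℤ := (n : ℤ) + z * (d : ℤ) - z with hm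
  have hτx' : τ • (x + z • t) = (x + z • t) + m • t := by
    rw [smul_add, hn, hact τ hτ d hd, add_assoc, add_assoc]
    congr 1
    rw [← natCast_zsmul, ← add_zsmul, ← add_zsmul]
    congr 1
    rw [hm]
    ring
  -- the commutator
  set ρ : GQ := τ * σ₀ * τ⁻¹ * σ₀⁻¹ with hρ
  have hρI : ρ ∈ A.inertiaSubgroupIn ℚ :=
    mul_mem (mul_mem (mul_mem hτ hσ₀) (inv_mem hτ)) (inv_mem hσ₀)
  have hρ1 : CycloAt p ρ 1 := cycloAt_commutator967 hc₀ hd
  have hρx : ρ • x = x := htame ρ hρI hρ1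
  have hρt : ∀ k : ℤ, ρ • (k • t) = k • t := by
    intro k
    rw [hact ρ hρI 1 hρ1]
    simp
  have hcomm : τ * σ₀ = ρ * σ₀ * τ := by
    rw [hρ]
    group
  have h1 : (τ * σ₀) • (x + z • t) = (x + z • t) + m • t := by
    rw [mul_smul, hσ₀x', hτx']
  have h2 : (ρ * σ₀ * τ) • (x + z • t) = (x + z • t) + (m * (c₀ : ℤ)) • t := by
    rw [mul_smul, mul_smul, hτx', smul_add σ₀, hσ₀x', hact σ₀ hσ₀ c₀ hc₀, smul_add ρ,
      smul_add ρ, hρx, hρt, hρt]
  rw [hcomm, h2] at h1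
  have h3 : (m * (c₀ : ℤ)) • t = m • t := add_left_cancel h1
  have h4 : (m * ((c₀ : ℤ) - 1)) • t = 0 := by
    rw [mul_sub, mul_one, sub_smul, h3, sub_self]
  rw [hτx', hkill m h4, add_zero]

end Cocycle

/-! ## Transfer of `SlopeProp` -/

section Transfer

variable {p M' : ℕ} [NeZero M'] [NeZero p] [NeZero (p * M')] {A : ValuationSubring Qb}

/-- `PDivSeries ⟹ PDivFin`. -/
theorem pDivFin_of_pDivSeries967 {k : Type} [Field k] {r : LaurentSeries k}
    (h : PDivSeries p M' r) : PDivFin p M' r := by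
  obtain ⟨g, hg, hg0, hdiv⟩ := h
  exact ⟨g, hg, hg0, fun Q _ => hdiv Q⟩

/-- `SplitGen ⟹ NodeGen`. -/
theorem nodeGen_of_splitGen967 {g : FF (p * M')} (h : SplitGen p M' A g) :
    NodeGen p M' A g := by
  obtain ⟨r₁, r₂, h1, h2, h3, h4, -, -⟩ := h
  exact ⟨r₁, r₂, h1, h2, pDivFin_of_pDivSeries967 h3, pDivFin_of_pDivSeries967 h4⟩

/-- `SlopeProp` is invariant under translation by the split part. -/
theorem slopeProp_add_of_mem_splitPart {x y : JZero (p * M')} (hx : SlopeProp p M' A x)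
    (hy : y ∈ splitPart p M' A) : SlopeProp p M' A (x + y) := by
  obtain ⟨f, D, G, n, a, b, hK, hD, hD0, hn, hrel, hG⟩ := hx
  obtain ⟨g, hgK, hgS⟩ := mem_splitSet_of_mem_splitPart hy
  refine ⟨f * g, D, G * g ^ n, n, a, b, hK.mul hgK, hD, hD0, hn, ?_,
    hG.mul ((nodeGen_of_splitGen967 hgS).pow n)⟩
  rw [mul_pow]
  linear_combination (g ^ n) * hrel

end Transfer

/-! ## The reduction -/

/-- **TAME from its inertia-fixed core.** -/
theorem tame_of_fixed (hcore : TameFixedStatement) : TameStatement := by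
  intro p M' _ _ _ hp hp5 hpM A hA S a hNE x t hx hex ht het hχ hsh hpeu htame
  have hp2 : p ≠ 2 := by omega
  obtain ⟨z, hz⟩ := exists_fixed_translate hp hp2 A hA x t ht.1 hχ hsh htame
  have htS : t ∈ splitPart p M' A :=
    Fermat.Agent.Ribet.H39.mem_splitPart_of_cyclo p M' hp hp2 hpM A hA t ht.1 hχ
  -- `x' = x + z t` is a new eigenclass
  have hx' : IsNewTors p M' (x + z • t) := by
    obtain ⟨h1, h2, h3⟩ := hx
    obtain ⟨k1, k2, k3⟩ := ht
    refine ⟨?_, ?_, ?_⟩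
    · rw [nsmul_add, h1, smul_comm (p : ℕ) z t, k1, smul_zero, add_zero]
    · rw [map_add, map_zsmul, h2, k2, smul_zero, add_zero]
    · rw [map_add, map_zsmul, h3, k3, smul_zero, add_zero]
  have hex' : EigenAt (p * M') S a (x + z • t) := by
    intro ℓ hℓ
    rw [map_add, map_zsmul, hex ℓ hℓ, het ℓ hℓ, zsmul_add, smul_comm z]
  have hS' := hcore p M' hp hp5 hpM A hA S a hNE (x + z • t) hx' hex' hz
  have h := slopeProp_add_of_mem_splitPart hS'
    ((splitPart p M' A).neg_mem ((splitPart p M' A).zsmul_mem htS z))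
  rwa [add_neg_cancel_right] at h

end Fermat.Agent.Ribet.H967.Tame

end

end
-- ===== PACK-END Ribet/H967/TameReduce.lean

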