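import Fermat.Agent.Pack.S44C.G0E30L3
import Fermat.Agent.Pack.S44C.G0E29L0
import Fermat.Agent.Pack.S44C.G0E27L0
import Fermat.Agent.Pack.S44C.G0E28L2
import Fermat.Agent.Pack.S44C.G0E30L2
import Fermat.Agent.Pack.S44C.G0E13L3
import Fermat.Agent.Pack.S44C.G0E13L1
import Fermat.Agent.Pack.S44C.G0E24L1
import Fermat.Agent.Pack.S44C.G0E23L2
import Fermat.Agent.Pack.S44C.G0E12L1
import Fermat.Agent.Pack.S44C.G0E30L0
import Fermat.Agent.Pack.S44C.G0E30L1
import Fermat.Agent.Pack.S44C.G0E29L2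
import Fermat.Agent.Pack.S44C.G0E23L3
import Fermat.Agent.Pack.S44C.G0E27L1
import Fermat.Agent.Pack.S44C.G0E15L2
import Fermat.Agent.Pack.S44C.G0E26L1
import Fermat.Agent.Pack.S44C.G0E16L0
import Fermat.Agent.Pack.S44C.G0E21L1
import Fermat.Agent.Pack.Fast891

-- ===== PACK-BEGIN Ribet/H943/Final2.lean
section







/-!
# Row 38 (S44): the frozen statement from the TWO targets still open (row-lead helper943)

Plugged in (all landed, unconditional): the row inputs of `H943/Final.lean`, (S1) `H884.s1`,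
I2 `H376.dlogOut`, I3 at the residue fields `H940.r3p5` (INC-AN, INC-RED, DIMK, LOGHOL),
ALG-p `H224.algP_unconditional` and the S2 glue `H912.s2For_of_algPG_ncx`.

## Frontier
    S44_of_open     : S2Statement5 → EisSlopeStatement → S44Statement
    S44_of_ncx      : NCX5Statement → EisSlopeStatement → S44Statement
    S44_of_frontier : Dict5Statement → NC5Statement → EisSlopeStatement → S44Statement
    S44_of_leaves5  : Dict5Statement → NC5Statement → H704.CoreOut.CoreOutNEStatement →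
                        H884.CuspPurity5Statement → S44Statement
* (S2) is only needed for `p ≥ 5` (`S2Statement5`; `H884.S2Statement` implies it);
  its open leaves are DICT (`H103.S2.DictFor`) and NC (`H103.S2.NCFor`);
* (S4) = `H884.EisSlopeStatement`; official assembly `H704.CoreOut.eisSlope_of_coreOutNE`
  / `H884.eisSlope_of_frontier5` (open leaves: CORE-OUT = TAME + WILD, CUSP for `p ≥ 5`).
-/

set_option autoImplicit false

namespace Fermat.Agent.Ribet.H943.Final2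

open Fermat.Agent.Ribet Fermat.Agent.Ribet.Spec Fermat.Agent.Ribet.H944.Wall
open Fermat.Agent.Ribet.H884
open ModularCurve

/-! ## (S2) -/

/-- **DICT** for `𝒮 = H884.splitPart`, `p ≥ 5` (leaf `H103.S2.DictFor`). -/
def Dict5Statement : Prop :=
  ∀ (p M' : ℕ) [NeZero M'] [NeZero p] [NeZero (p * M')], p.Prime → 5 ≤ p → ¬ p ∣ M' →
    ∀ A : ValuationSubring (AlgebraicClosure ℚ), A.LiesOverPrime p →
      H103.S2.DictFor p M' A (splitPart p M' A)

/-- **NC** (norm contraction), `p ≥ 5` (leaf `H103.S2.NCFor`). -/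
def NC5Statement : Prop :=
  ∀ (p M' : ℕ) [NeZero M'] [NeZero p] [NeZero (p * M')], p.Prime → 5 ≤ p → ¬ p ∣ M' →
    ∀ A : ValuationSubring (AlgebraicClosure ℚ), A.LiesOverPrime p → H103.S2.NCFor p M' A

/-- **NCX** = DICT + NC in one leaf, `p ≥ 5` (leaf `H103.S2.NCXStatement`). -/
def NCX5Statement : Prop :=
  ∀ (p M' : ℕ) [NeZero M'] [NeZero p] [NeZero (p * M')], p.Prime → 5 ≤ p → ¬ p ∣ M' →
    ∀ A : ValuationSubring (AlgebraicClosure ℚ), A.LiesOverPrime p →
      H103.S2.NCXStatement p M' A (splitPart p M' A)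

theorem ncx5_of (hD : Dict5Statement) (hNC : NC5Statement) : NCX5Statement :=
  fun p M' _ _ _ hp h5 hpM A hA =>
    H103.S2.ncx_of p M' A _ (hD p M' hp h5 hpM A hA) (hNC p M' hp h5 hpM A hA)

/-- **(S2) for `p ≥ 5`.** -/
def S2Statement5 : Prop :=
  ∀ (p M' : ℕ) [NeZero M'] [NeZero p] [NeZero (p * M')], p.Prime → 5 ≤ p → ¬ p ∣ M' →
    ∀ A : ValuationSubring (AlgebraicClosure ℚ), A.LiesOverPrime p →
      S2For p M' A (splitPart p M' A)

theorem s2Statement5_of_s2 (h : S2Statement) : S2Statement5 :=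
  fun p M' _ _ _ hp h5 hpM A hA => h p M' hp (by omega) hpM A hA

/-- (S2), `p ≥ 5`, from NCX: ALG-p is `H224.algP_unconditional`. -/
theorem s2Statement5_of_ncx (hX : NCX5Statement) : S2Statement5 :=
  fun p M' _ _ _ hp h5 hpM A hA =>
    H912.s2For_of_algPG_ncx
      (H883.algPStatementG_of_algPStatement H224.algP_unconditional) p M' hp (by omega) A hA _
      (hX p M' hp h5 hpM A hA)

/-- (S2), `p ≥ 5`, from DICT and NC. -/
theorem s2Statement5_of (hD : Dict5Statement) (hNC : NC5Statement) : S2Statement5 :=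
  s2Statement5_of_ncx (ncx5_of hD hNC)

/-! ## (S4) -/

/-- **(S4) for `p ≥ 5`** (target of I6; `Wall.S4For` carries the hypothesis `NonEisAway`). -/
def S4Statement5 : Prop :=
  ∀ (p M' : ℕ) [NeZero M'] [NeZero p] [NeZero (p * M')], p.Prime → 5 ≤ p → ¬ p ∣ M' →
    ∀ A : ValuationSubring (AlgebraicClosure ℚ), A.LiesOverPrime p →
      S4For p M' A (finPart p M' A)

theorem s4Statement5_of_eis (hE : EisSlopeStatement) : S4Statement5 :=
  fun p M' _ _ _ hp h5 hpM A hA => s4For_of hE p M' hp h5 hpM A hA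

/-! ## The frontier -/

/-- **The four targets (`p ≥ 5`) from (S2) and (S4).** -/
theorem wallTargets5_of_open (h2 : S2Statement5) (h4 : S4Statement5) :
    WallTargets5Statement := by
  intro p M' _ _ _ hp h5 hpM A hA
  exact ⟨finPart p M' A, splitPart p M' A, H884.s1 p M' hp hpM A hA,
    h2 p M' hp h5 hpM A hA,
    H764.I3.s3For_h884 H376.dlogOut H940.r3p5 p M' hp h5 hpM A hA,
    h4 p M' hp h5 hpM A hA⟩

/-- **S44 from (S2) and (S4) for `p ≥ 5`.** -/
theorem S44_of_s2_s4 (h2 : S2Statement5) (h4 : S4Statement5) : S44Statement :=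
  Final.S44_of_targets5 (wallTargets5_of_open h2 h4)

/-- **S44 from (S2) for `p ≥ 5` and EIS.** -/
theorem S44_of_open (h2 : S2Statement5) (hE : EisSlopeStatement) : S44Statement :=
  S44_of_s2_s4 h2 (s4Statement5_of_eis hE)

/-- **S44 from NCX and EIS.** -/
theorem S44_of_ncx (hX : NCX5Statement) (hE : EisSlopeStatement) : S44Statement :=
  S44_of_open (s2Statement5_of_ncx hX) hE

/-- **S44 from DICT, NC and EIS.** -/
theorem S44_of_frontier (hD : Dict5Statement) (hNC : NC5Statement) (hE : EisSlopeStatement) :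
    S44Statement :=
  S44_of_open (s2Statement5_of hD hNC) hE

/-- **S44 from the four leaves open at 22:00Z**: DICT, NC, CORE-OUT (with `NonEisAway`), CUSP
(`p ≥ 5`).  HECKE-FUN, HECKE-NODE, UNIT-EIS, RED are plugged in by `H884.eisSlope_of_frontier5`. -/
theorem S44_of_leaves5 (hD : Dict5Statement) (hNC : NC5Statement)
    (hCO : H704.CoreOut.CoreOutNEStatement) (hCP : CuspPurity5Statement) : S44Statement :=
  S44_of_frontier hD hNC (eisSlope_of_frontier5 hCO hCP)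

/-- The same with TAME and WILD. -/
theorem S44_of_leaves5_tw (hD : Dict5Statement) (hNC : NC5Statement)
    (hT : H704.CoreOut.TameStatement) (hW : H704.CoreOut.WildStatement)
    (hCP : CuspPurity5Statement) : S44Statement :=
  S44_of_leaves5 hD hNC (H704.CoreOut.coreOutNE_of_tame_wild hT hW) hCP

end Fermat.Agent.Ribet.H943.Final2

end
-- ===== PACK-END Ribet/H943/Final2.lean

-- ===== PACK-BEGIN Ribet/H472/DictPure.lean
section



/-!
# RIBET row 38, WALL-p, CoreOut leaf INST-E = DICT-PURE (helper472)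

`dictPure : H704.CoreOut.DictPureStatement` — the slope dictionary in PURE form, VERBATIM.

`nodeGenOfPure` is the general two-prime form (residue characteristic `p`, exponent `m`):
pure with exponent `m` at every closed point of the special fibre of the finite chart ⟹ both
reductions lie in `k(X₀(M))` and have `m`-divisible orders at the non-cuspidal places.
-/

set_option autoImplicit false
set_option linter.unusedSectionVars false
set_option linter.style.haveILetI false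
set_option synthInstance.maxHeartbeats 400000
set_option maxHeartbeats 1600000

noncomputable section

namespace Fermat.Agent.Ribet.H472

open AlgebraicCurve ModularCurve HahnSeries
open Fermat.Agent.S24 Fermat.Agent.A2.H708 Fermat.Agent.A2.H528 Fermat.Agent.A2.H129
open Fermat.Agent.Ribet.H884 Fermat.Agent.Ribet.H997
open Fermat.Agent.A2 Fermat.Agent.A2.Mod Fermat.Agent.S18.H602

theorem wF_coe_congr472 {N N' : ℕ} [NeZero N] [NeZero N'] (h : N = N') (f : FF N) (f' : FF N')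
    (hf : (f : LaurentSeries Kbar) = (f' : LaurentSeries Kbar)) :
    ((wF N f : FF N) : LaurentSeries Kbar) = ((wF N' f' : FF N') : LaurentSeries Kbar) := by
  subst h
  have e : f = f' := Subtype.ext hf
  rw [e]

/-- **DICT (pure form), two-prime form**: residue characteristic `p`, exponent `m`. -/
theorem nodeGenOfPure {A : ValuationSubring Kbar} {E : IntermediateField ℚ Kbar}
    {M p : ℕ} [NeZero M] [NeZero p] [NeZero (p * M)] {w : Mod.RE A E}
    (hS : Mod.Setting A E M p w) (hE : A2.GoodField A E) (m : ℕ)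
    (G : Mod.FE E (M * p)) (G' : FF (p * M)) (hG : G ≠ 0)
    (hG' : (G' : LaurentSeries Kbar) = coeffMap (algebraMap E Kbar) (G : LaurentSeries E))
    (hpure : ∀ n : Ideal (Mod.chartAlg A E (M * p) (Mod.xE E M p)), n.IsMaximal →
      algebraMap (Mod.RE A E) (Mod.chartAlg A E (M * p) (Mod.xE E M p)) w ∈ n →
      ∃ (d : Mod.FE E (M * p)) (a : ℤ), d ≠ 0 ∧
        Alg.LocUnit (Mod.chartAlg A E (M * p) (Mod.xE E M p)) n
          (G * Mod.cE A E (M * p) w ^ a * d ^ m)) :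
    ∃ r₁ r₂ : LaurentSeries (kA A), IsRedInf (p * M) A G' r₁ ∧ IsRedZero (p * M) A G' r₂ ∧
      PDivFin m M r₁ ∧ PDivFin m M r₂ := by
  obtain ⟨r₁, r₂, h₁, h₂, hd₁, hd₂⟩ := dictGen hS hE m G hG hpure
  refine ⟨r₁, r₂, ?_, ?_, hd₁, hd₂⟩
  · rw [isRedInf_iff_isRedSer, hG']
    exact h₁
  · have e : ((wF (p * M) G' : FF (p * M)) : LaurentSeries Kbar) =
        iotaS E (M * p) (Mod.H751.frickeE E (M * p) G) := by
      rw [wF_coe_congr472 (mul_comm p M) G' (Mod.H751.iotaE E (M * p) G)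
        (hG'.trans (Mod.H751.coe_iotaE E (M * p) G).symm),
        ← Mod.H751.iotaE_frickeE]
      rfl
    show IsRedInf (p * M) A (wF (p * M) G') r₂
    rw [isRedInf_iff_isRedSer, e]
    exact h₂

/-- **DICT (pure form)**, VERBATIM `H704.CoreOut.DictPureStatement`. -/
theorem dictPure : Fermat.Agent.Ribet.H704.CoreOut.DictPureStatement := by
  intro p M' _ _ _ _ _ A _ E w hS hE G G' hG hG' hpure
  exact nodeGenOfPure hS hE p G G' hG hG' hpure

end Fermat.Agent.Ribet.H472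

end
end
-- ===== PACK-END Ribet/H472/DictPure.lean

-- ===== PACK-BEGIN Ribet/H912/TameCore.lean
section








/-!
# RIBET rows 37/38: TAME-FIXED = CORE-OUT-q in two-prime form (helper912)

`tameCore` : `q` a prime, `q ∤ M`, `A` a place of `ℚ̄` over `q`, `m > 0` prime to `12`,
`x ∈ J₀(q M)[m]` fixed by the inertia group `I_A`.  Then there are a Kummer generator `f` of `x`
(`div f = m · D`), THE modular unit `D = Δ(t^q)/Δ(t)`, exponents `a, b` and `G` with

  `G · D ^ b = f ^ 12 · D ^ a`   and   both reductions of `G` are in `k(X₀(M))` with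
                                        `m`-divisible orders at the non-cuspidal places.

Proof.
1. DESC (`S36.H756`): a class fixed by `I_A` has a Kummer generator `f` fixed by `I_A`, and `f`
   is defined over the inertia field `E = ℚ̄^{I_A}`: `f = ι y`, `y ∈ F_E(q M)`.
2. `E` is an UNRAMIFIED good level (`S36.Eng.H189.unramified_inertiaField`).
3. LEVEL (`tameLevel`): the calibrated function `y ^ 12 · D₁ ^ (v₁ - v₂) · w ^ (-12 v₁)` is pure
   at every closed point of the special fibre of the finite chart.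
4. DICT (`H472.nodeGenOfPure`): purity ⟹ the reductions have `m`-divisible orders.
5. the constant `w ^ (-v₁)` is absorbed in the Kummer generator, `ι D₁ = D⁻¹`.
-/

set_option autoImplicit false
set_option linter.style.haveILetI false
set_option linter.unusedSectionVars false
set_option linter.unusedVariables false
set_option synthInstance.maxHeartbeats 400000
set_option maxHeartbeats 1600000

noncomputable section

namespace Fermat.Agent.Ribet.H912

open ModularCurve AlgebraicCurve HahnSeries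
open Fermat.Agent.A2 Fermat.Agent.A2.T1.H669
open Fermat.Agent.S24 Fermat.Agent.A2.H708
open Fermat.Agent.Ribet.H884

/-! ### changing the name of the level -/

section Cast

theorem exists_cast_level (E : IntermediateField ℚ Kbar) {N N' : ℕ} (h : N = N')
    (y : ↥(laurentBaseChange E (modularFunctionFieldFull N))) :
    ∃ y' : ↥(laurentBaseChange E (modularFunctionFieldFull N')),
      (y' : LaurentSeries E) = (y : LaurentSeries E) := by
  subst h
  exact ⟨y, rfl⟩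

theorem dvd_ord_cast {N N' : ℕ} (h : N = N') (m : ℕ) (f : ↥(modularFunctionFieldBar N))
    (f' : ↥(modularFunctionFieldBar N'))
    (hff : (f : LaurentSeries Kbar) = (f' : LaurentSeries Kbar))
    (hd : ∀ v : Place Kbar ↥(modularFunctionFieldBar N), (m : ℤ) ∣ v.ord f) :
    ∀ v : Place Kbar ↥(modularFunctionFieldBar N'), (m : ℤ) ∣ v.ord f' := by
  subst h
  obtain rfl : f = f' := Subtype.ext hff
  exact hd

theorem not_dvd_twelve_h912 {p : ℕ} (hp : p.Prime) (hp5 : 5 ≤ p) : ¬ p ∣ 12 := by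
  intro h
  have h43 : p ∣ 4 * 3 := h
  rcases (Nat.Prime.dvd_mul hp).mp h43 with h4 | h3
  · have := Nat.le_of_dvd (by norm_num) h4
    omega
  · have := Nat.le_of_dvd (by norm_num) h3
    omega

theorem coprime_twelve_h912 {p : ℕ} (hp : p.Prime) (hp5 : 5 ≤ p) : Nat.Coprime 12 p :=
  Nat.coprime_comm.mp ((Nat.Prime.coprime_iff_not_dvd hp).2 (not_dvd_twelve_h912 hp hp5))

end Cast

/-! ### the core -/

section Core

variable (q M m : ℕ) [NeZero M] [NeZero q] [NeZero (q * M)]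

/-- **TAME-FIXED / CORE-OUT-q, two-prime form.** -/
theorem tameCore (hq : q.Prime) (hqM : ¬ q ∣ M) (haux : Fermat.Agent.S35.G.HasAux M q)
    (hm : 0 < m) (hcop : Nat.Coprime 12 m)
    (A : ValuationSubring Kbar) (hA : A.LiesOverPrime q)
    (x : JZero (q * M)) (hx : m • x = 0)
    (hfix : ∀ σ ∈ A.inertiaSubgroupIn ℚ, σ • x = x) :
    ∃ (f D G : FF (q * M)) (a b : ℕ), IsKummerGen (q * M) m f x ∧ IsModUnit q M D ∧ D ≠ 0 ∧
      G * D ^ b = f ^ 12 * D ^ a ∧
      ∃ r₁ r₂ : LaurentSeries (kA A), IsRedInf (q * M) A G r₁ ∧ IsRedZero (q * M) A G r₂ ∧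
        PDivFin m M r₁ ∧ PDivFin m M r₂ := by
  classical
  haveI hPD : HasPrincipalDivisors Kbar ↥(modularFunctionFieldBar (q * M)) :=
    Fermat.Agent.Lib.RR.H864.hasPrincipalDivisors_modularFunctionFieldBar (q * M)
  have hconst : Fermat.Agent.S36.H756.ConstOfOrdZero Kbar ↥(modularFunctionFieldBar (q * M)) := by
    intro u hu h
    obtain ⟨c, hc⟩ :=
      Fermat.Agent.S18.H144.constOfOrdZero_modularFunctionFieldBar (q * M) u hu h
    exact ⟨c, hc.symm⟩
  -- 1. DESC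
  obtain ⟨D₀, f, hf0, hDx, hfD, hffix⟩ :=
    Fermat.Agent.S36.H756.exists_fixed_kummer_rep (F₀ := modularFunctionFieldFull (q * M))
      hconst (A.inertiaSubgroupIn ℚ) m x hx hfix
  -- 2. the unramified level
  obtain ⟨hE, hunr⟩ := Fermat.Agent.S36.Eng.H189.unramified_inertiaField q hq A hA
  set E : IntermediateField ℚ Kbar := IntermediateField.fixedField (A.inertiaSubgroupIn ℚ) with hEdef
  obtain ⟨y, hy⟩ : ∃ y : ↥(laurentBaseChange E (modularFunctionFieldFull (q * M))),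
      iota E (modularFunctionFieldFull (q * M)) y = f :=
    Fermat.Agent.S36.H756.exists_iota_eq_of_fixed (A.inertiaSubgroupIn ℚ) f hffix
  -- the level `M * q`
  obtain ⟨y', hy'⟩ := exists_cast_level E (Nat.mul_comm q M) y
  have hfy : (f : LaurentSeries Kbar) = coeffMap (algebraMap E Kbar) (y : LaurentSeries E) := by
    rw [← hy]
    rfl
  have hy'0 : y' ≠ 0 := by
    rintro rfl
    apply hf0
    apply Subtype.ext
    rw [hfy, ← hy']
    show coeffMap (algebraMap E Kbar) (0 : LaurentSeries E) = 0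
    rw [map_zero]
  have hdiv : DivisibleDiv E m y' := by
    refine divisibleDiv_of_ord E (modularFunctionFieldFull (M * q)) m y' hy'0 ?_
    refine dvd_ord_cast (Nat.mul_comm q M) m f (iota E (modularFunctionFieldFull (M * q)) y') ?_
      (fun v => ⟨_, hfD v⟩)
    rw [coe_iota, hy', hfy]
  -- 3. LEVEL
  obtain ⟨w, D₁, v₁, v₂, hS, hD₁0, hD₁, hpure⟩ :=
    tameLevel A E M q hq hqM haux hA hE hunr m hm hcop y' hy'0 hdiv
  haveI : IsDiscreteValuationRing ↥(RE A E) := hE.dvr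
  have hw0 : (w : E) ≠ 0 := fun h => hS.unif.ne_zero (Subtype.ext h)
  have hcw0 : Mod.cE A E (M * q) w ≠ 0 := by
    show algebraMap E (Mod.FE E (M * q)) (w : E) ≠ 0
    rw [Ne, map_eq_zero]
    exact hw0
  set GE : Mod.FE E (M * q) :=
    y' ^ 12 * D₁ ^ (v₁ - v₂) * Mod.cE A E (M * q) w ^ (-(12 : ℤ) * v₁) with hGE
  have hGE0 : GE ≠ 0 :=
    mul_ne_zero (mul_ne_zero (pow_ne_zero _ hy'0) (zpow_ne_zero _ hD₁0)) (zpow_ne_zero _ hcw0)
  -- the objects over `ℚ̄`
  obtain ⟨D, hD, hD0⟩ := Fermat.Agent.Ribet.H464.exists_isModUnit464 q M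
  set c : Kbar := ((w : E) : Kbar) with hc
  have hc0 : c ≠ 0 := by
    intro h
    exact hw0 (Subtype.ext h)
  set f'' : FF (q * M) := algebraMap Kbar (FF (q * M)) (c ^ (-v₁)) * f with hf''
  have hcc0 : algebraMap Kbar (FF (q * M)) (c ^ (-v₁)) ≠ 0 := by
    rw [Ne, map_eq_zero]
    exact zpow_ne_zero _ hc0
  have hf''0 : f'' ≠ 0 := mul_ne_zero hcc0 hf0
  set G : FF (q * M) := f'' ^ 12 * D ^ (v₂ - v₁) with hG
  -- the expansion of `G`
  have hGG : (G : LaurentSeries Kbar) = coeffMap (algebraMap E Kbar) (GE : LaurentSeries E) := by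
    set φ : Mod.FE E (M * q) →+* LaurentSeries Kbar :=
      (algebraMap ↥(modularFunctionFieldBar (M * q)) (LaurentSeries Kbar)).comp
        (iota E (modularFunctionFieldFull (M * q))) with hφ
    set χ : FF (q * M) →+* LaurentSeries Kbar :=
      algebraMap ↥(modularFunctionFieldBar (q * M)) (LaurentSeries Kbar) with hχ
    have hφv : ∀ z : Mod.FE E (M * q),
        φ z = coeffMap (algebraMap E Kbar) (z : LaurentSeries E) := fun z => rfl
    have hχv : ∀ z : FF (q * M), χ z = (z : LaurentSeries Kbar) := fun z => rfl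
    have e1 : φ y' = χ f := by
      rw [hφv, hχv, hy', hfy]
    have e2 : φ D₁ = (χ D)⁻¹ := by
      rw [hφv, hD₁, ← map_inv₀, hχv]
      exact (Fermat.Agent.Ribet.H464.isModUnit_inv_coe464 (E := E) hD rfl).symm
    have e3 : φ (Mod.cE A E (M * q) w) = algebraMap Kbar (LaurentSeries Kbar) c := by
      rw [hφv]
      exact Fermat.Agent.S18.H602.coeffMap_algebraMap' (algebraMap E Kbar) (w : E)
    have e4 : χ (algebraMap Kbar (FF (q * M)) (c ^ (-v₁))) =
        (algebraMap Kbar (LaurentSeries Kbar) c) ^ (-v₁) := by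
      rw [hχv, ← map_zpow₀]
      rfl
    have hχG : χ G = ((algebraMap Kbar (LaurentSeries Kbar) c) ^ (-v₁) * χ f) ^ 12 *
        (χ D) ^ (v₂ - v₁) := by
      rw [hG, hf'', map_mul, map_pow, map_mul, e4, map_zpow₀]
    have hφG : φ GE = (χ f) ^ 12 * ((χ D)⁻¹) ^ (v₁ - v₂) *
        (algebraMap Kbar (LaurentSeries Kbar) c) ^ (-(12 : ℤ) * v₁) := by
      rw [hGE, map_mul, map_mul, map_pow, map_zpow₀, map_zpow₀, e1, e2, e3]
    have e5 : -v₁ * ((12 : ℕ) : ℤ) = -(12 : ℤ) * v₁ := by push_cast; ring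
    rw [← hφv GE, ← hχv G, hχG, hφG, inv_zpow', neg_sub, mul_pow,
      ← zpow_natCast ((algebraMap Kbar (LaurentSeries Kbar) c) ^ (-v₁)) 12, ← zpow_mul, e5]
    ring
  -- 4. DICT
  have hNG := Fermat.Agent.Ribet.H472.nodeGenOfPure hS hE m GE G hGE0 hGG hpure
  -- 5. the Kummer generator and the relation
  have hK : IsKummerGen (q * M) m f'' x := by
    refine ⟨hf''0, D₀, hDx, fun v => ?_⟩
    rw [hf'', v.ord_mul hcc0 hf0, Fermat.Agent.S36.H756.ord_const_eq_zero, zero_add, hfD v]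
  refine ⟨f'', D, G, (v₂ - v₁).toNat, (-(v₂ - v₁)).toNat, hK, hD, hD0, ?_, hNG⟩
  have hk : (v₂ - v₁) + ((-(v₂ - v₁)).toNat : ℤ) = ((v₂ - v₁).toNat : ℤ) := by
    have := Int.toNat_sub_toNat_neg (v₂ - v₁)
    omega
  rw [hG, mul_assoc, ← zpow_natCast D (-(v₂ - v₁)).toNat, ← zpow_add₀ hD0, hk, zpow_natCast]

end Core

end Fermat.Agent.Ribet.H912

end

end
-- ===== PACK-END Ribet/H912/TameCore.lean

-- ===== PACK-BEGIN Ribet/H912/TameFixed.lean
section



/-!
# RIBET row 38, WALL-p, (S4) CORE-OUT: the leaf TAME (helper912)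

* `tameFixed     : H967.Tame.TameFixedStatement`  (VERBATIM; classes fixed by the whole inertia
                   group), from `tameCore` with residue prime `= ` exponent `= p ≥ 5`;
* `tameStatement : H704.CoreOut.TameStatement`    (VERBATIM) `= H967.Tame.tame_of_fixed tameFixed`.
-/

set_option autoImplicit false
set_option synthInstance.maxHeartbeats 400000
set_option maxHeartbeats 1600000

noncomputable section

namespace Fermat.Agent.Ribet.H912

open Fermat.Agent.Ribet.H884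

/-- **TAME-FIXED** (`H967.Tame.TameFixedStatement`, VERBATIM). -/
theorem tameFixed : Fermat.Agent.Ribet.H967.Tame.TameFixedStatement := by
  intro p M' _ _ _ hp hp5 hpM A hA S a hNE x hx hex hfix
  have haux : Fermat.Agent.S35.G.HasAux M' p := ⟨fun h => by omega, fun h => by omega⟩
  obtain ⟨f, D, G, a', b', hK, hD, hD0, heq, hNG⟩ :=
    tameCore p M' p hp hpM haux hp.pos (coprime_twelve_h912 hp hp5) A hA x hx.1 hfix
  exact ⟨f, D, G, 12, a', b', hK, hD, hD0, not_dvd_twelve_h912 hp hp5, heq, hNG⟩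

/-- **TAME** (`H704.CoreOut.TameStatement`, VERBATIM). -/
theorem tameStatement : Fermat.Agent.Ribet.H704.CoreOut.TameStatement :=
  Fermat.Agent.Ribet.H967.Tame.tame_of_fixed tameFixed

end Fermat.Agent.Ribet.H912

end

end
-- ===== PACK-END Ribet/H912/TameFixed.lean

-- ===== PACK-BEGIN Ribet/H132/WildOfFrame.lean
section




/-!
# RIBET wall-p, (S4) WILD: `WildStatement` from `WildFrameStatement` alone (helper132)

Integration of the three closed leaves of `H704.CoreOut.wild_of`: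
`H132.wildChart` (WILD-CHART), `H520.smoothPure` (SMOOTH-PURE), `H472.dictPure` (DICT-PURE).
The only remaining input of WILD is the frame (INST), `H704.CoreOut.WildFrameStatement`.
-/

set_option autoImplicit false

namespace Fermat.Agent.Ribet.H132

open Fermat.Agent.Ribet.H704.CoreOut

/-- **WILD from the frame.** -/
theorem wild_of_frame (hF : WildFrameStatement) : WildStatement :=
  wild_of hF wildChart Fermat.Agent.Ribet.H520.smoothPure Fermat.Agent.Ribet.H472.dictPure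

/-- **CORE-OUT (with NE) from TAME and the frame.** -/
theorem coreOutNE_of_tame_frame (hT : TameStatement) (hF : WildFrameStatement) :
    CoreOutNEStatement :=
  coreOutNE_of_tame_wild hT (wild_of_frame hF)

end Fermat.Agent.Ribet.H132

end
-- ===== PACK-END Ribet/H132/WildOfFrame.lean

-- ===== PACK-BEGIN Ribet/H279/TwoLevel.lean
section



/-!
# Row 38, WALL-p, (S4) CORE-OUT WILD, WildFrame piece **2-LEVEL MODEL** (helper279)

Levels `E₁ ≤ E₂ ⊆ ℚ̄` with `Mod.Setting P Eᵢ M q wᵢ` (`R_{Eᵢ}` discrete valuation rings with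
uniformisers `wᵢ`; NO further hypothesis on the levels), `N = M * q`, `Oᵢ = R_{Eᵢ}`,
`Kᵢ = F_{Eᵢ}(N)`, `Bᵢ = Mod.chartAlg P Eᵢ N (Mod.xE Eᵢ M q)` (finite charts).

* `chartCtx_of_setting` : `Alg.ChartCtx Eᵢ wᵢ xᵢ Bᵢ` (`ctx₁`);
* `exists_chart_cut`    : a semistable chart `c : SSChart w B` whose components are the cuts by
                          `V∞` (first) and `V₀ = V∞ ∘ W` (second), for EVERY `V∞`, `W`;
* **`twoLevelModel`**   : charts `c₁`, `c₂` with cut data, `ctx₁`, `ctx₂`, and the fields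
                          `map_mem`, `comp₁`, `comp₂`, `unif` of `H704.CoreOut.WildFrame`, for the
                          instances `algO`, `algK`, `algOK` of `TwoLevelCut.lean`
                          (`algebraMap K₁ K₂ = levelMap hle N`, `algebraMap O₁ O₂ = reMap P hle`,
                          both by `rfl`);
* `twoLevelModel_inst`  : the same statement written with `algebraMap` under the instances.
-/

set_option autoImplicit false
set_option linter.unusedSectionVars false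
set_option linter.unusedVariables false
set_option linter.style.haveILetI false
set_option synthInstance.maxHeartbeats 400000
set_option maxHeartbeats 1600000

noncomputable section

namespace Fermat.Agent.Ribet.H279.TwoLevel

open AlgebraicCurve ModularCurve HahnSeries
open Fermat.Agent.A2

/-! ### One level -/

section OneLevel

variable {P : ValuationSubring Qb} {E : IntermediateField ℚ Qb} {M q : ℕ} [NeZero M] [NeZero q]
  {w : RE P E}

/-- **`ctx`**: the standing hypotheses of the finite chart. -/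
theorem chartCtx_of_setting (hS : Mod.Setting P E M q w) :
    Alg.ChartCtx E w (Mod.xE E M q) (Mod.chartAlg P E (M * q) (Mod.xE E M q)) := by
  obtain ⟨hx, hfr, hconst⟩ := Mod.H31.deg E M q hS.q_prime hS.q_not_dvd
  have hpos : 0 < Module.finrank
      (IntermediateField.adjoin E ({Mod.xE E M q} : Set (Mod.FE E (M * q))))
      (Mod.FE E (M * q)) := by
    rw [hfr]
    have := Mod.dedekindPsi_pos_of_ne_zero M (NeZero.ne M)
    positivity
  exact ⟨hS.unif, hx, Module.finite_of_finrank_pos hpos, hconst, fun _ => Iff.rfl⟩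

/-- The semistable finite chart with its cut data: first component `= B ∩ w V∞`, second
component `= B ∩ w V₀`, for EVERY Gauss ring `V∞` and Fricke involution `W`. -/
theorem exists_chart_cut (hS : Mod.Setting P E M q w) (h3 : q = 3 → 2 ∣ M)
    (h2 : q = 2 → 3 ∣ M) :
    ∃ c : SSChart w (Mod.chartAlg P E (M * q) (Mod.xE E M q)),
      ∀ (V : ValuationSubring (Mod.FE E (M * q)))
        (W : Mod.FE E (M * q) ≃ₐ[E] Mod.FE E (M * q)),
        Mod.IsVinf P E (M * q) V → Mod.IsFricke E (M * q) W →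
        Mod.IsCut P E (M * q) w V (Mod.chartAlg P E (M * q) (Mod.xE E M q)) c.p₁ ∧
        Mod.IsCut P E (M * q) w (V.comap (W : Mod.FE E (M * q) →+* Mod.FE E (M * q)))
          (Mod.chartAlg P E (M * q) (Mod.xE E M q)) c.p₂ := by
  haveI := hS.dvr
  have hN : M * q ≠ 0 := mul_ne_zero (NeZero.ne M) (NeZero.ne q)
  haveI : NeZero (M * q) := ⟨hN⟩
  obtain ⟨VM, hVM⟩ := Mod.H553.vinfExists P E M (NeZero.ne M) hS.dvr
  obtain ⟨V₀, hV₀⟩ := Mod.H553.vinfExists P E (M * q) hN hS.dvr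
  have hW₀ : Mod.IsFricke E (M * q) (Mod.H553.wE E (M * q)) := Mod.H553.isFricke_wE E (M * q)
  have hgood := (Mod.H216.goodRedHyp_of_dvr P E M hS.q_prime hS.q_not_dvd h3 h2 hS.lies_over
    hS.dvr w VM hS.unif hVM).1
  have hy : Mod.IsCoordPair E M q (Mod.jE E M 1 (one_dvd _)) (Mod.xE E M q) :=
    Or.inl ⟨rfl, rfl⟩
  obtain ⟨p₁, p₂, hc₁, hc₂, hp₁, hp₂, h₁₂, h₂₁, hinf⟩ :=
    Fermat.Agent.S35.G.H862.s1 P E M q w hS V₀ (Mod.H553.wE E (M * q)) hV₀ hW₀
      (Mod.xE E M q) (Or.inl rfl)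
  obtain ⟨hn₁, hn₂⟩ := Mod.H142.s2 P E M q w hS VM V₀ (Mod.H553.wE E (M * q)) hVM hV₀ hW₀
    _ _ hy hgood p₁ p₂ hc₁ hc₂
  have hrad := Fermat.Agent.S35.G.H862.s3 P E M q w hS VM V₀ (Mod.H553.wE E (M * q)) hVM hV₀
    hW₀ _ _ hy hgood p₁ p₂ hc₁ hc₂
  refine ⟨{ p₁ := p₁
            p₂ := p₂
            prime₁ := hp₁
            prime₂ := hp₂
            ne := fun h => h₁₂ (h ▸ le_refl p₁)
            not_le₁₂ := h₁₂
            not_le₂₁ := h₂₁
            inf_eq := hinf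
            normal₁ := hn₁
            normal₂ := hn₂
            transversal := hrad }, fun V W hV hW => ?_⟩
  have e1 : V = V₀ := by
    rw [Mod.H553.eq_VinfE_of_isVinf hV, Mod.H553.eq_VinfE_of_isVinf hV₀]
  have e2 : W = Mod.H553.wE E (M * q) := Mod.H553.isFricke_unique E hN hW hW₀
  subst e1
  subst e2
  exact ⟨hc₁, hc₂⟩

end OneLevel

/-! ### Two levels -/

section TwoLevels

variable {E₁ E₂ : IntermediateField ℚ Qb}

/-- **2-LEVEL MODEL.**  For levels `E₁ ≤ E₂` with uniformisers `w₁`, `w₂`: semistable structures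
`c₁`, `c₂` on the finite charts `B₁`, `B₂` of level `M * q` (components cut out by `V∞`, `V₀`),
the chart contexts, `B₁ → B₂`, the components of `B₂` lie over the components of `B₁`, and
`w₁ = η · w₂ ^ e`. -/
theorem twoLevelModel (P : ValuationSubring Qb) (hle : E₁ ≤ E₂) (M q : ℕ) [NeZero M] [NeZero q]
    {w₁ : RE P E₁} {w₂ : RE P E₂} (hS₁ : Mod.Setting P E₁ M q w₁)
    (hS₂ : Mod.Setting P E₂ M q w₂) (h3 : q = 3 → 2 ∣ M) (h2 : q = 2 → 3 ∣ M) :
    ∃ (c₁ : SSChart w₁ (Mod.chartAlg P E₁ (M * q) (Mod.xE E₁ M q)))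
      (c₂ : SSChart w₂ (Mod.chartAlg P E₂ (M * q) (Mod.xE E₂ M q))),
      Alg.ChartCtx E₁ w₁ (Mod.xE E₁ M q) (Mod.chartAlg P E₁ (M * q) (Mod.xE E₁ M q)) ∧
      Alg.ChartCtx E₂ w₂ (Mod.xE E₂ M q) (Mod.chartAlg P E₂ (M * q) (Mod.xE E₂ M q)) ∧
      (∀ (V : ValuationSubring (Mod.FE E₁ (M * q)))
        (W : Mod.FE E₁ (M * q) ≃ₐ[E₁] Mod.FE E₁ (M * q)),
        Mod.IsVinf P E₁ (M * q) V → Mod.IsFricke E₁ (M * q) W →
        Mod.IsCut P E₁ (M * q) w₁ V (Mod.chartAlg P E₁ (M * q) (Mod.xE E₁ M q)) c₁.p₁ ∧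
        Mod.IsCut P E₁ (M * q) w₁ (V.comap (W : Mod.FE E₁ (M * q) →+* Mod.FE E₁ (M * q)))
          (Mod.chartAlg P E₁ (M * q) (Mod.xE E₁ M q)) c₁.p₂) ∧
      (∀ (V : ValuationSubring (Mod.FE E₂ (M * q)))
        (W : Mod.FE E₂ (M * q) ≃ₐ[E₂] Mod.FE E₂ (M * q)),
        Mod.IsVinf P E₂ (M * q) V → Mod.IsFricke E₂ (M * q) W →
        Mod.IsCut P E₂ (M * q) w₂ V (Mod.chartAlg P E₂ (M * q) (Mod.xE E₂ M q)) c₂.p₁ ∧
        Mod.IsCut P E₂ (M * q) w₂ (V.comap (W : Mod.FE E₂ (M * q) →+* Mod.FE E₂ (M * q)))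
          (Mod.chartAlg P E₂ (M * q) (Mod.xE E₂ M q)) c₂.p₂) ∧
      (∀ b ∈ Mod.chartAlg P E₁ (M * q) (Mod.xE E₁ M q),
        levelMap hle (M * q) b ∈ Mod.chartAlg P E₂ (M * q) (Mod.xE E₂ M q)) ∧
      (∀ (b : Mod.chartAlg P E₁ (M * q) (Mod.xE E₁ M q))
        (b' : Mod.chartAlg P E₂ (M * q) (Mod.xE E₂ M q)),
        (b' : Mod.FE E₂ (M * q)) = levelMap hle (M * q) (b : Mod.FE E₁ (M * q)) →
        (b' ∈ c₂.p₁ ↔ b ∈ c₁.p₁)) ∧
      (∀ (b : Mod.chartAlg P E₁ (M * q) (Mod.xE E₁ M q))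
        (b' : Mod.chartAlg P E₂ (M * q) (Mod.xE E₂ M q)),
        (b' : Mod.FE E₂ (M * q)) = levelMap hle (M * q) (b : Mod.FE E₁ (M * q)) →
        (b' ∈ c₂.p₂ ↔ b ∈ c₁.p₂)) ∧
      ∃ (η : RE P E₂) (e : ℕ), IsUnit η ∧ 0 < e ∧ reMap P hle w₁ = η * w₂ ^ e := by
  have hN : M * q ≠ 0 := mul_ne_zero (NeZero.ne M) (NeZero.ne q)
  haveI : NeZero (M * q) := ⟨hN⟩
  obtain ⟨c₁, hc₁⟩ := exists_chart_cut hS₁ h3 h2
  obtain ⟨c₂, hc₂⟩ := exists_chart_cut hS₂ h3 h2
  obtain ⟨V₁, hV₁⟩ := Mod.H553.vinfExists P E₁ (M * q) hN hS₁.dvr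
  obtain ⟨V₂, hV₂⟩ := Mod.H553.vinfExists P E₂ (M * q) hN hS₂.dvr
  have hW₁ : Mod.IsFricke E₁ (M * q) (Mod.H553.wE E₁ (M * q)) :=
    Mod.H553.isFricke_wE E₁ (M * q)
  have hW₂ : Mod.IsFricke E₂ (M * q) (Mod.H553.wE E₂ (M * q)) :=
    Mod.H553.isFricke_wE E₂ (M * q)
  have hq0 : q ≠ 0 := NeZero.ne q
  have hP : ((q : ℕ) : Qb) ∈ P.nonunits := hS₁.lies_over
  refine ⟨c₁, c₂, chartCtx_of_setting hS₁, chartCtx_of_setting hS₂, hc₁, hc₂,
    fun b hb => levelMap_mem_chartAlg P hle M q hb, ?_, ?_,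
    exists_unif P hle hS₂.dvr hS₁.unif hS₂.unif⟩
  · exact comp_of_cut_inf hle hq0 hP hS₁.dvr hS₂.dvr hS₁.unif hS₂.unif hV₁ hV₂
      (hc₁ V₁ _ hV₁ hW₁).1 (hc₂ V₂ _ hV₂ hW₂).1
  · exact comp_of_cut_zero hle hq0 hP hS₁.dvr hS₂.dvr hS₁.unif hS₂.unif hV₁ hV₂ hW₁ hW₂
      (hc₁ V₁ _ hV₁ hW₁).2 (hc₂ V₂ _ hV₂ hW₂).2

/-- **2-LEVEL MODEL, instance form**: the fields `ctx₁`, `map_mem`, `comp₁`, `comp₂`, `unif` of
`H704.CoreOut.WildFrame` (and the chart context of level `2`), written with `algebraMap` for the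
instances `algO P hle : Algebra O₁ O₂`, `algK hle N : Algebra K₁ K₂`. -/
theorem twoLevelModel_inst (P : ValuationSubring Qb) (hle : E₁ ≤ E₂) (M q : ℕ) [NeZero M]
    [NeZero q] {w₁ : RE P E₁} {w₂ : RE P E₂} (hS₁ : Mod.Setting P E₁ M q w₁)
    (hS₂ : Mod.Setting P E₂ M q w₂) (h3 : q = 3 → 2 ∣ M) (h2 : q = 2 → 3 ∣ M) :
    letI := algO P hle
    letI := algK hle (M * q)
    ∃ (c₁ : SSChart w₁ (Mod.chartAlg P E₁ (M * q) (Mod.xE E₁ M q)))
      (c₂ : SSChart w₂ (Mod.chartAlg P E₂ (M * q) (Mod.xE E₂ M q))),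
      Alg.ChartCtx E₁ w₁ (Mod.xE E₁ M q) (Mod.chartAlg P E₁ (M * q) (Mod.xE E₁ M q)) ∧
      Alg.ChartCtx E₂ w₂ (Mod.xE E₂ M q) (Mod.chartAlg P E₂ (M * q) (Mod.xE E₂ M q)) ∧
      (∀ b ∈ Mod.chartAlg P E₁ (M * q) (Mod.xE E₁ M q),
        algebraMap (Mod.FE E₁ (M * q)) (Mod.FE E₂ (M * q)) b ∈
          Mod.chartAlg P E₂ (M * q) (Mod.xE E₂ M q)) ∧
      (∀ (b : Mod.chartAlg P E₁ (M * q) (Mod.xE E₁ M q))
        (b' : Mod.chartAlg P E₂ (M * q) (Mod.xE E₂ M q)),
        (b' : Mod.FE E₂ (M * q)) =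
          algebraMap (Mod.FE E₁ (M * q)) (Mod.FE E₂ (M * q)) (b : Mod.FE E₁ (M * q)) →
        (b' ∈ c₂.p₁ ↔ b ∈ c₁.p₁)) ∧
      (∀ (b : Mod.chartAlg P E₁ (M * q) (Mod.xE E₁ M q))
        (b' : Mod.chartAlg P E₂ (M * q) (Mod.xE E₂ M q)),
        (b' : Mod.FE E₂ (M * q)) =
          algebraMap (Mod.FE E₁ (M * q)) (Mod.FE E₂ (M * q)) (b : Mod.FE E₁ (M * q)) →
        (b' ∈ c₂.p₂ ↔ b ∈ c₁.p₂)) ∧
      ∃ (η : RE P E₂) (e : ℕ), IsUnit η ∧ 0 < e ∧
        algebraMap (RE P E₁) (RE P E₂) w₁ = η * w₂ ^ e := by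
  obtain ⟨c₁, c₂, h1, h2', -, -, h5, h6, h7, h8⟩ := twoLevelModel P hle M q hS₁ hS₂ h3 h2
  exact ⟨c₁, c₂, h1, h2', h5, h6, h7, h8⟩

end TwoLevels

end Fermat.Agent.Ribet.H279.TwoLevel

end
end
-- ===== PACK-END Ribet/H279/TwoLevel.lean

-- ===== PACK-BEGIN Ribet/H712/WildFrameAsm.lean
section










/-!
# Row 38, WALL-p, CORE-OUT WILD: `WildFrameStatement` from KD  (helper712)

**`wildFrame_of : H704.CoreOut.KDStatement → H704.CoreOut.WildFrameStatement`** (VERBATIM).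

Everything except KD is plugged in from main:
* LEVEL       : `H944.Tame.exists_wildLevel` (+ `S17.H126.stabilizer_open`);
* MODEL       : `H279.TwoLevel.twoLevelModel`;
* UNIT        : `H463.UnitExp.exists_unitPair_cut_exp463`, `exists_isModUnit463`;
* DEEP-SPLIT  : `H339.deepSplit339`;
* COVER + PER : `H819.PerCtx.ofKummer`, `H819.PerCtx.per_cov`;
* HOR-DESC    : `H769.horDesc_frame769`, `H769.adjoin_const_laurentBaseChange769`;
* PLUMBING    : `H712.Frame.nonempty_wildFrame`.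
-/

set_option autoImplicit false
set_option synthInstance.maxHeartbeats 400000
set_option maxHeartbeats 2000000
set_option linter.unusedSectionVars false
set_option linter.unusedVariables false
set_option linter.style.haveILetI false

noncomputable section

namespace Fermat.Agent.Ribet.H712.Frame

open ModularCurve HahnSeries AlgebraicCurve
open Fermat.Agent.S24 Fermat.Agent.A2 Fermat.Agent.Ribet.H704
open Fermat.Agent.Ribet.H704.CoreOut
open Fermat.Agent.Ribet.Spec Fermat.Agent.Ribet.H944.Wall Fermat.Agent.Ribet.H884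

/-! ## Small adapters -/

section Adapters

variable (A : ValuationSubring Kbar) {E₁ E₂ : IntermediateField ℚ Kbar} (hle : E₁ ≤ E₂) (N : ℕ)

theorem levelMap_eq_279 :
    Fermat.Agent.Ribet.H279.TwoLevel.levelMap hle N = levelMap N hle :=
  RingHom.ext fun _ => Subtype.ext rfl

theorem reMap_eq_279 :
    Fermat.Agent.Ribet.H279.TwoLevel.reMap A hle = reMap A hle :=
  RingHom.ext fun _ => Subtype.ext rfl

/-- The `t`-expansion of a constant. -/
theorem sIota_algebraMap (E : IntermediateField ℚ Kbar) (e : ↥E) :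
    sIota E N (algebraMap ↥E ↥(Mod.FE E N) e) = HahnSeries.C ((e : ↥E) : Kbar) := by
  rw [sIota_apply, IntermediateField.coe_algebraMap_apply, algebraMap_laurentSeries_eq_single,
    coeffMap_single, HahnSeries.C_apply]
  rfl

theorem sIota_algebraMap_RE (E : IntermediateField ℚ Kbar) (r : ↥(Mod.RE A E)) :
    sIota E N (algebraMap ↥(Mod.RE A E) ↥(Mod.FE E N) r) =
      HahnSeries.C (((r : ↥E) : ↥E) : Kbar) :=
  sIota_algebraMap N E (r : ↥E)

end Adapters

/-! ## The assembly -/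

section Core

open Fermat.Agent.Ribet.H944.Tame

variable (p M' : ℕ) [NeZero M'] [NeZero p] [NeZero (p * M')]

/-- The exponent of the unit pair at the tame level. -/
theorem exp_eq_of_associated {R : Type*} [CommRing R] [IsDomain R] [IsDiscreteValuationRing R]
    {w c : R} (hw : Irreducible w) {e e' : ℕ} (h : Associated c (w ^ e))
    (h' : Associated c (w ^ e')) : e = e' := by
  obtain ⟨v, hv⟩ := h.symm.trans h'
  refine IsDiscreteValuationRing.unit_mul_pow_congr_pow hw hw v 1 e e' ?_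
  rw [Units.val_one, one_mul, mul_comm, hv]

/-- **The frame from the KD data** (levels `E₁ = tameLevel A ζ`, `E₂ = wildLevel A ζ u`). -/
theorem wildFrame_core (hp : p.Prime) (hp5 : 5 ≤ p) (hpM : ¬ p ∣ M')
    (A : ValuationSubring Kbar) (hA : A.LiesOverPrime p)
    (S : Finset ℕ) (a : ℕ → ℤ) (hNE : NonEisAway p a) (x t : JZero (p * M'))
    (ht : IsNewTors p M' t) (het : EigenAt (p * M') S a t)
    (hχ : ∀ σ ∈ A.inertiaSubgroupIn ℚ, ∀ c : ℕ, CycloAt p σ c → σ • t = c • t)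
    (ζ : Kbar) (hζ : IsPrimitiveRoot ζ p) (σ₁ : GQ) (u : Kbar)
    (hσ₁I : σ₁ ∈ A.inertiaSubgroupIn ℚ) (hσ₁1 : CycloAt p σ₁ 1)
    (hσ₁u : σ₁ u = ζ * u) (huA : u ∈ A) (huA' : u⁻¹ ∈ A) (hu0 : u ≠ 0)
    (hup : u ^ p ∈ tameLevel A ζ)
    (hG₂ : GoodField A (wildLevel A ζ u))
    (ft : Mod.FE (tameLevel A ζ) (M' * p))
    (f₂ G₀ : Mod.FE (wildLevel A ζ u) (M' * p)) (Ft f : FF (p * M')) (κ : Kbar)
    (hlc : (ft : LaurentSeries (tameLevel A ζ)).leadingCoeff = 1)
    (hord : (p : ℤ) ∣ (ft : LaurentSeries (tameLevel A ζ)).order)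
    (hnp : ∀ z : Mod.FE (tameLevel A ζ) (M' * p), z ^ p ≠ ft)
    (hKt : IsKummerGen (p * M') p Ft t)
    (hFt : (Ft : LaurentSeries Kbar) = coeffMap (algebraMap (tameLevel A ζ) Kbar)
      (ft : LaurentSeries (tameLevel A ζ)))
    (hKx : IsKummerGen (p * M') p f x)
    (hf : (f : LaurentSeries Kbar) = coeffMap (algebraMap (wildLevel A ζ u) Kbar)
      (f₂ : LaurentSeries (wildLevel A ζ u)))
    (hf₂0 : f₂ ≠ 0) (hdiv₂ : DivisibleDiv (wildLevel A ζ u) p f₂)
    (hκ : κ ∈ wildLevel A ζ u)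
    (hσ : coeffMap ((σ₁ : Kbar ≃ₐ[ℚ] Kbar) : Kbar →+* Kbar)
          (coeffMap (algebraMap (wildLevel A ζ u) Kbar)
            (f₂ : LaurentSeries (wildLevel A ζ u))) =
        coeffMap (algebraMap (wildLevel A ζ u) Kbar)
            (f₂ : LaurentSeries (wildLevel A ζ u)) *
          HahnSeries.C κ *
          coeffMap (algebraMap (tameLevel A ζ) Kbar)
            (ft : LaurentSeries (tameLevel A ζ)) *
          (coeffMap (algebraMap (wildLevel A ζ u) Kbar)
            (G₀ : LaurentSeries (wildLevel A ζ u))) ^ p) :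
    ∃ (E₂ : IntermediateField ℚ Kbar) (w₂ : Mod.RE A E₂)
      (c₂ : SSChart w₂ (Mod.chartAlg A E₂ (M' * p) (Mod.xE E₂ M' p)))
      (f₂ D₂ : Mod.FE E₂ (M' * p)) (f D : FF (p * M')),
      Mod.Setting A E₂ M' p w₂ ∧ GoodField A E₂ ∧
      Alg.ChartCtx E₂ w₂ (Mod.xE E₂ M' p) (Mod.chartAlg A E₂ (M' * p) (Mod.xE E₂ M' p)) ∧
      IsKummerGen (p * M') p f x ∧
      (f : LaurentSeries Kbar) = coeffMap (algebraMap E₂ Kbar) (f₂ : LaurentSeries E₂) ∧
      f₂ ≠ 0 ∧ DivisibleDiv E₂ p f₂ ∧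
      IsModUnit p M' D ∧ D ≠ 0 ∧
      (D : LaurentSeries Kbar) * coeffMap (algebraMap E₂ Kbar) (D₂ : LaurentSeries E₂) = 1 ∧
      Nonempty (WildFrame p (Mod.RE A E₂) E₂ (Mod.FE E₂ (M' * p)) w₂
        (Mod.chartAlg A E₂ (M' * p) (Mod.xE E₂ M' p)) c₂ f₂ D₂) := by
  classical
  have hN : M' * p ≠ 0 := mul_ne_zero (NeZero.ne M') hp.ne_zero
  haveI : NeZero (M' * p) := ⟨hN⟩
  have hle : tameLevel A ζ ≤ wildLevel A ζ u := tameLevel_le_wildLevel A ζ u
  have hG₁ : GoodField A (tameLevel A ζ) := goodField_tameLevel A hp hA ζ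
  have hdvr₁ : IsDiscreteValuationRing (Mod.RE A (tameLevel A ζ)) := hG₁.dvr
  have hdvr₂ : IsDiscreteValuationRing (Mod.RE A (wildLevel A ζ u)) := hG₂.dvr
  obtain ⟨w₁, hw₁⟩ := IsDiscreteValuationRing.exists_irreducible (Mod.RE A (tameLevel A ζ))
  obtain ⟨w₂, hw₂⟩ := IsDiscreteValuationRing.exists_irreducible (Mod.RE A (wildLevel A ζ u))
  have hS₁ : Mod.Setting A (tameLevel A ζ) M' p w₁ :=
    ⟨hp, hpM, NeZero.ne M', hA, hdvr₁, hw₁⟩
  have hS₂ : Mod.Setting A (wildLevel A ζ u) M' p w₂ :=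
    ⟨hp, hpM, NeZero.ne M', hA, hdvr₂, hw₂⟩
  -- MODEL
  obtain ⟨c₁, c₂, ctx₁, ctx₂, hcut₁, -, hmap, hcomp₁, hcomp₂, hunif⟩ :=
    Fermat.Agent.Ribet.H279.TwoLevel.twoLevelModel A hle M' p hS₁ hS₂
      (fun h => absurd h (by omega)) (fun h => absurd h (by omega))
  rw [levelMap_eq_279] at hmap hcomp₁ hcomp₂
  rw [reMap_eq_279] at hunif
  obtain ⟨V₁, hV₁⟩ := Mod.H553.vinfExists A (tameLevel A ζ) (M' * p) hN hdvr₁
  have hW₁ : Mod.IsFricke (tameLevel A ζ) (M' * p) (Mod.H553.wE (tameLevel A ζ) (M' * p)) :=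
    Mod.H553.isFricke_wE (tameLevel A ζ) (M' * p)
  obtain ⟨hc₁₁, hc₁₂⟩ := hcut₁ V₁ (Mod.H553.wE (tameLevel A ζ) (M' * p)) hV₁ hW₁
  -- UNIT
  obtain ⟨e, D, D', he, hass, hmul, hD, hD', hDe⟩ :=
    Fermat.Agent.Ribet.H463.UnitExp.exists_unitPair_cut_exp463 hS₁ hV₁ hW₁ c₁.p₁ c₁.p₂ hc₁₁ hc₁₂
  have hee : e = p - 1 :=
    exp_eq_of_associated hw₁ hass (associated_natCast_pow hp hA hζ w₁ hw₁)
  have hN12 : Nat.Coprime (12 * e) p := by
    rw [hee]
    exact coprime_unitExp hp hp5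
  -- DEEP-SPLIT
  obtain ⟨hftdiv, hsp₁, hsp₂⟩ :=
    Fermat.Agent.Ribet.H339.deepSplit339 p M' hp (by omega) hpM A hA S a hNE t ht het hχ
      (tameLevel A ζ) hG₁ w₁ hS₁ V₁ hV₁ (Mod.H553.wE (tameLevel A ζ) (M' * p)) hW₁
      (Mod.xE (tameLevel A ζ) M' p) (Or.inl rfl) c₁.p₁ c₁.p₂ hc₁₁ hc₁₂ Ft hKt ft hFt 1
      (by rw [hlc, one_pow])
  have hft0 : ft ≠ 0 := by
    intro h0
    have h1 : (ft : LaurentSeries (tameLevel A ζ)) = 0 := by rw [h0]; rfl
    rw [h1, HahnSeries.leadingCoeff_zero] at hlc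
    exact zero_ne_one hlc
  -- the root of unity `ζ⁻¹ = ζ ^ (p - 1)`
  have hcop : Nat.Coprime (p - 1) p := by
    rw [Nat.coprime_comm, Nat.Prime.coprime_iff_not_dvd hp]
    intro h
    have := Nat.le_of_dvd (by omega) h
    omega
  have hζ' : IsPrimitiveRoot (ζ ^ (p - 1)) p := hζ.pow_of_coprime (p - 1) hcop
  have hζmul : ζ * ζ ^ (p - 1) = 1 := by
    rw [← pow_succ', Nat.sub_add_cancel hp.one_le, hζ.pow_eq_one]
  have hζinv : (ζ ^ (p - 1))⁻¹ = ζ := inv_eq_of_mul_eq_one_left hζmul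
  have hζE : ζ ^ (p - 1) ∈ tameLevel A ζ := pow_mem (zeta_mem_tameLevel A ζ) _
  have hζA : ζ ^ (p - 1) ∈ A := pow_mem (mem_of_pow_eq_one A hp.ne_zero hζ.pow_eq_one) _
  have hσE : ∀ c ∈ tameLevel A ζ, (σ₁ : Kbar ≃ₐ[ℚ] Kbar).toRingEquiv c = c := fun c hc =>
    inK1_of_mem_tameLevel A hζ.pow_eq_one hc σ₁ hσ₁I hσ₁1
  have hσu' : (σ₁ : Kbar ≃ₐ[ℚ] Kbar).toRingEquiv u = (ζ ^ (p - 1))⁻¹ * u := by
    rw [hζinv]
    exact hσ₁u
  -- COVER
  let c : Fermat.Agent.Ribet.H819.PerCtx Kbar :=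
    Fermat.Agent.Ribet.H819.PerCtx.ofKummer (modularFunctionFieldFull (M' * p)) p hp
      (tameLevel A ζ) (ζ ^ (p - 1)) hζ' hζE (σ₁ : Kbar ≃ₐ[ℚ] Kbar).toRingEquiv hσE u hσu' hu0 hup
      ft hlc hord hnp
  have hhp : c.h ^ p = sIota (tameLevel A ζ) (M' * p) ft :=
    Fermat.Agent.Ribet.H819.PerCtx.ofKummer_h_pow (modularFunctionFieldFull (M' * p)) p hp
      (tameLevel A ζ) (ζ ^ (p - 1)) hζ' hζE (σ₁ : Kbar ≃ₐ[ℚ] Kbar).toRingEquiv hσE u hσu' hu0 hup
      ft hlc hord hnp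
  have hhF : c.h ∉ Set.range (sIota (tameLevel A ζ) (M' * p)) := by
    intro hmem
    apply c.hhF
    obtain ⟨z, hz⟩ := hmem
    exact (Fermat.Agent.Ribet.H819.mem_imBC_iff (modularFunctionFieldFull (M' * p))
      (tameLevel A ζ) _).mpr ⟨z, hz⟩
  -- constants
  let ζR : Mod.RE A (tameLevel A ζ) := ⟨⟨ζ ^ (p - 1), hζE⟩, hζA⟩
  have hζR : IsPrimitiveRoot ζR p := by
    let φ : Mod.RE A (tameLevel A ζ) →+* Kbar :=
      (algebraMap (tameLevel A ζ) Kbar).comp (Mod.RE A (tameLevel A ζ)).subtype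
    have hφ : Function.Injective φ := fun x y h => coe_injective A _ h
    have h1 : IsPrimitiveRoot (φ ζR) p := hζ'
    exact IsPrimitiveRoot.of_map_of_injective h1 hφ
  let cc : Mod.RE A (tameLevel A ζ) := ⟨⟨u ^ p, hup⟩, pow_mem huA p⟩
  have hcc : IsUnit cc := by
    have hinvA : (u ^ p)⁻¹ ∈ A := by
      rw [← inv_pow]
      exact pow_mem huA' p
    refine isUnit_iff_exists_inv.mpr ⟨⟨⟨(u ^ p)⁻¹, inv_mem hup⟩, hinvA⟩, ?_⟩
    apply Subtype.ext
    apply Subtype.ext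
    show u ^ p * (u ^ p)⁻¹ = 1
    exact mul_inv_cancel₀ (pow_ne_zero p hu0)
  let lc : ↥(wildLevel A ζ u) := (f₂ : LaurentSeries (wildLevel A ζ u)).leadingCoeff
  have hlc0 : lc ≠ 0 :=
    HahnSeries.leadingCoeff_ne_zero.mpr (fun h => hf₂0 (Subtype.ext h))
  have hζc : sIota (tameLevel A ζ) (M' * p)
      (algebraMap (Mod.RE A (tameLevel A ζ)) (Mod.FE (tameLevel A ζ) (M' * p)) ζR) =
      HahnSeries.C c.ζ := sIota_algebraMap_RE A (M' * p) (tameLevel A ζ) ζR
  have ha : sIota (tameLevel A ζ) (M' * p)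
      (algebraMap (Mod.RE A (tameLevel A ζ)) (Mod.FE (tameLevel A ζ) (M' * p)) cc) =
      HahnSeries.C (c.u ^ c.p) := sIota_algebraMap_RE A (M' * p) (tameLevel A ζ) cc
  have hℓ : sIota (wildLevel A ζ u) (M' * p)
      (algebraMap ↥(wildLevel A ζ u) (Mod.FE (wildLevel A ζ u) (M' * p)) lc) =
      HahnSeries.C (sIota (wildLevel A ζ u) (M' * p) f₂).leadingCoeff := by
    rw [sIota_algebraMap, sIota_apply,
      Fermat.Agent.Ribet.H819.leadingCoeff_coeffMap_of_injective]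
    rfl
  -- PER
  letI iK : Algebra ↥(Mod.FE (tameLevel A ζ) (M' * p)) ↥(Mod.FE (wildLevel A ζ u) (M' * p)) :=
    (levelMap (M' * p) hle).toAlgebra
  obtain ⟨f', G, b, hf', hG, hb, hper, hf2⟩ :=
    c.per_cov (modularFunctionFieldFull (M' * p)) (E₁ := tameLevel A ζ)
      (E₂ := wildLevel A ζ u) rfl (Fermat.Agent.Ribet.H819.wildLevel_toSubfield A ζ u) rfl
      (hζR.map_of_injective (algebraMap_RE_FE_injective A (tameLevel A ζ) (M' * p))) hζc
      ft hhp hhF
      (algebraMap (Mod.RE A (tameLevel A ζ)) (Mod.FE (tameLevel A ζ) (M' * p)) cc) ha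
      f₂ G₀ (algebraMap ↥(wildLevel A ζ u) (Mod.FE (wildLevel A ζ u) (M' * p)) lc) hf₂0 hℓ
      κ hκ hσ
  -- HOR-DESC
  have hf'div : ∀ V : ValuationSubring ↥(cov (sIota (tameLevel A ζ) (M' * p)) c.h),
      IsDiscreteValuationRing V →
      (∀ e : ↥(tameLevel A ζ), covMap (sIota (tameLevel A ζ) (M' * p)) c.h
        (algebraMap ↥(tameLevel A ζ) (Mod.FE (tameLevel A ζ) (M' * p)) e) ∈ V) →
      ∃ g v : ↥(cov (sIota (tameLevel A ζ) (M' * p)) c.h), g ≠ 0 ∧ v ∈ V ∧ v⁻¹ ∈ V ∧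
        f' = v * g ^ p := by
    letI iK₁L₁ : Algebra ↥(Mod.FE (tameLevel A ζ) (M' * p))
        ↥(cov (sIota (tameLevel A ζ) (M' * p)) c.h) :=
      covAlgebra (sIota (tameLevel A ζ) (M' * p)) c.h
    letI iE₁L₁ : Algebra ↥(tameLevel A ζ) ↥(cov (sIota (tameLevel A ζ) (M' * p)) c.h) :=
      ((covMap (sIota (tameLevel A ζ) (M' * p)) c.h).comp
        (algebraMap ↥(tameLevel A ζ) ↥(Mod.FE (tameLevel A ζ) (M' * p)))).toAlgebra
    letI iK₂L₂ : Algebra ↥(Mod.FE (wildLevel A ζ u) (M' * p))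
        ↥(cov (sIota (wildLevel A ζ u) (M' * p)) c.h) :=
      covAlgebra (sIota (wildLevel A ζ u) (M' * p)) c.h
    letI iL₁L₂ : Algebra ↥(cov (sIota (tameLevel A ζ) (M' * p)) c.h)
        ↥(cov (sIota (wildLevel A ζ u) (M' * p)) c.h) :=
      (covIncl (sIota (tameLevel A ζ) (M' * p)) c.h (sIota (wildLevel A ζ u) (M' * p))
        (levelMap (M' * p) hle) (sIota_levelMap (M' * p) hle)).toAlgebra
    letI iK₁L₂ : Algebra ↥(Mod.FE (tameLevel A ζ) (M' * p))
        ↥(cov (sIota (wildLevel A ζ u) (M' * p)) c.h) :=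
      ((covMap (sIota (wildLevel A ζ u) (M' * p)) c.h).comp (levelMap (M' * p) hle)).toAlgebra
    haveI t1 : IsScalarTower ↥(Mod.FE (tameLevel A ζ) (M' * p))
        ↥(Mod.FE (wildLevel A ζ u) (M' * p)) ↥(cov (sIota (wildLevel A ζ u) (M' * p)) c.h) :=
      IsScalarTower.of_algebraMap_eq (fun _ => rfl)
    haveI t2 : IsScalarTower ↥(Mod.FE (tameLevel A ζ) (M' * p))
        ↥(cov (sIota (tameLevel A ζ) (M' * p)) c.h)
        ↥(cov (sIota (wildLevel A ζ u) (M' * p)) c.h) :=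
      IsScalarTower.of_algebraMap_eq (fun z =>
        Subtype.ext (sIota_levelMap (M' * p) hle z))
    haveI : Algebra.IsAlgebraic ℚ Kbar := AlgebraicClosure.isAlgebraic ℚ
    have halgE₂ : Algebra.IsAlgebraic ℚ ↥(wildLevel A ζ u) :=
      Fermat.Agent.Ribet.H769.isAlgebraic_rat_intermediateField769 (wildLevel A ζ u)
    have hK₂ : IntermediateField.adjoin ↥(Mod.FE (tameLevel A ζ) (M' * p))
        (Set.range (algebraMap ↥(wildLevel A ζ u) ↥(Mod.FE (wildLevel A ζ u) (M' * p)))) = ⊤ :=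
      Fermat.Agent.Ribet.H769.adjoin_const_laurentBaseChange769
        (modularFunctionFieldFull (M' * p)) (incE hle) (fun _ => rfl)
    have hfr := Fermat.Agent.Ribet.H769.horDesc_frame769
      (E₁ := ↥(tameLevel A ζ)) (K₁ := ↥(Mod.FE (tameLevel A ζ) (M' * p)))
      (L₁ := ↥(cov (sIota (tameLevel A ζ) (M' * p)) c.h))
      (E₂ := ↥(wildLevel A ζ u)) (K₂ := ↥(Mod.FE (wildLevel A ζ u) (M' * p)))
      (L₂ := ↥(cov (sIota (wildLevel A ζ u) (M' * p)) c.h))
      halgE₂ p hK₂ (covGen (sIota (tameLevel A ζ) (M' * p)) c.h)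
      (adjoin_covGen (sIota (wildLevel A ζ u) (M' * p)) c.h)
      (f₂ := f₂) hdiv₂ (f' := f') (lc := lc) (b := b) hlc0 hb (Subtype.ext hf2)
    exact hfr
  -- the modular unit
  obtain ⟨Dbar, hDm, hDbar0⟩ := Fermat.Agent.Ribet.H463.UnitExp.exists_isModUnit463 p M'
  have hp_mem : (p : Mod.RE A (tameLevel A ζ)) ∈
      IsLocalRing.maximalIdeal (Mod.RE A (tameLevel A ζ)) := by
    rw [IsLocalRing.mem_maximalIdeal, mem_nonunits_iff]
    exact Fermat.Agent.Ribet.H873.not_isUnit_natCast873 hA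
  refine ⟨wildLevel A ζ u, w₂, c₂, f₂,
    levelMap (M' * p) hle (D : Mod.FE (tameLevel A ζ) (M' * p)), f, Dbar, hS₂, hG₂, ctx₂,
    hKx, hf, hf₂0, hdiv₂, hDm, hDbar0, ?_, ?_⟩
  · refine Fermat.Agent.Ribet.H463.UnitExp.isModUnit_mul_coeffMap463 p M' (wildLevel A ζ u) hDm ?_
    show coeffMap (incE hle) ((D : Mod.FE (tameLevel A ζ) (M' * p)) :
      LaurentSeries (tameLevel A ζ)) = _
    rw [hDe]
    exact Fermat.Agent.Ribet.H463.UnitExp.coeffMap_castE_castE463 (tameLevel A ζ)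
      (wildLevel A ζ u) (incE hle) _
  · exact nonempty_wildFrame p M' hp A (tameLevel A ζ) (wildLevel A ζ u) hle w₁ w₂ c₂ f₂
      (levelMap (M' * p) hle (D : Mod.FE (tameLevel A ζ) (M' * p))) hdvr₁ hG₁.algClosed hp_mem
      ζR hζR ctx₁ c₁ hmap hcomp₁ hcomp₂ hunif (12 * e) D D' hN12 hmul hD hD' rfl
      ft hft0 hftdiv hsp₁ hsp₂ c.h hhp hhF f' G cc hf' hG hcc hper hf'div lc b hlc0 hb hf2

/-- **WILD-FRAME from KD** (`H704.CoreOut.WildFrameStatement`, verbatim). -/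
theorem wildFrame_of (hKD : KDStatement) : WildFrameStatement := by
  intro p M' _ _ _ hp hp5 hpM A hA S a hNE x t hx hex ht het hχ hsh hpeu σ₀ hσ₀ hσ₀1 hσ₀x
  haveI : NeZero ((p : ℕ) : Kbar) := ⟨Nat.cast_ne_zero.mpr hp.ne_zero⟩
  obtain ⟨ζ, hζ⟩ := HasEnoughRootsOfUnity.exists_primitiveRoot Kbar p
  obtain ⟨σ₁, u, hσ₁I, hσ₁1, hσ₁x, hσ₁u, huA, huA', hu0, hup, hG₂, hσp, hfix, h5, hiff, h7⟩ :=
    exists_wildLevel (A := A) hp hA x t
      (Fermat.Agent.S17.H126.stabilizer_open (p * M') x) hχ hsh hpeu ht.1 hσ₀ hσ₀1 hσ₀x hζ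
  obtain ⟨ft, f₂, G₀, Ft, f, κ, hlc, hord, hnp, hKt, hFt, hKx, hf, hf₂0, hdiv₂, hκ, hσ⟩ :=
    hKD p M' hp hp5 hpM A hA S a hNE x t hx hex ht het hχ hsh hpeu σ₀ hσ₀ hσ₀1 hσ₀x ζ hζ σ₁ u
      hσ₁I hσ₁1 hσ₁x hσ₁u huA huA' hu0 hup hG₂ hσp hfix h5 hiff h7
  exact wildFrame_core p M' hp hp5 hpM A hA S a hNE x t ht het hχ ζ hζ σ₁ u hσ₁I hσ₁1 hσ₁u
    huA huA' hu0 hup hG₂ ft f₂ G₀ Ft f κ hlc hord hnp hKt hFt hKx hf hf₂0 hdiv₂ hκ hσ

end Core

end Fermat.Agent.Ribet.H712.Frame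

end

end
-- ===== PACK-END Ribet/H712/WildFrameAsm.lean

-- ===== PACK-BEGIN Ribet/H247/KDFinal.lean
section
/-
RIBET row 38, WALL-p, (S4) CORE-OUT, WILD: **KD** = `H704.CoreOut.KDStatement`, VERBATIM
(helper247)

`kd247 : H704.CoreOut.KDStatement`.

Route: `exists_fixed_kummerGen247` (Hilbert 90 over a finite quotient, `KD.lean`) for `t` at
`I₁` and for `x` at `H₂ = Stab_{I₁}(x)`; normalised ratio `σ₁ f_x = f_x · f_t · G ^ p`
(`κ = 1`), `G` fixed by `H₂` since `σ₁` normalises `H₂`; descent of the coefficients to the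
levels (`H819.PerDesc`); `p ∣ order` at the cusp `∞` (`S15.H362.cuspInfty`);
`DivisibleDiv` by `A2.T1.H669.divisibleDiv_of_ord`; `f_t` is not a `p`-th power since `t ≠ 0`.
-/






set_option autoImplicit false
set_option synthInstance.maxHeartbeats 400000
set_option maxHeartbeats 1000000
set_option linter.unusedSectionVars false
set_option linter.style.haveILetI false

noncomputable section

namespace Fermat.Agent.Ribet.H247

open AlgebraicCurve ModularCurve HahnSeries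
open Fermat.Agent.S24 Fermat.Agent.A2.H528 Fermat.Agent.A2.H129
open Fermat.Agent.Ribet.Spec Fermat.Agent.Ribet.H884 Fermat.Agent.Ribet.H703
open Fermat.Agent.Ribet.H944.Wall Fermat.Agent.Ribet.H819

section Core

variable {N : ℕ} [NeZero N] {p : ℕ}

/-- The order at the cusp `∞` of a Kummer generator is divisible by `p`. -/
theorem dvd_order_of_isKummerGen247 {f : FF N} {x : JZero N} (h : IsKummerGen N p f x) :
    (p : ℤ) ∣ (f : LaurentSeries Kbar).order := by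
  obtain ⟨-, D, -, hord⟩ := h
  have hσ : Fermat.Agent.S24.H144.Induces (K := Kbar) (Fermat.Agent.S15.H362.inclQ N)
      (Fermat.Agent.S15.H362.cuspInfty N) :=
    Fermat.Agent.S24.H144.induces_placeOfEmb _ _ _
  obtain ⟨g, -, hg⟩ := Fermat.Agent.S24.H144.loc_exists_mult
    (Fermat.Agent.S15.H362.cuspInfty N) (Fermat.Agent.S15.H362.inclQ N) hσ
  have h1 := hg f
  rw [Fermat.Agent.S15.H362.inclQ_apply] at h1
  rw [h1, hord]
  exact ⟨(g : ℤ) * (D : Divisor Kbar (FF N)) (Fermat.Agent.S15.H362.cuspInfty N), by ring⟩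

/-- The class of a Kummer generator is determined by the generator. -/
theorem isKummerGen_unique247 (hp : p ≠ 0) {f : FF N} {x y : JZero N}
    (hx : IsKummerGen N p f x) (hy : IsKummerGen N p f y) : x = y := by
  obtain ⟨-, D, rfl, hD⟩ := hx
  obtain ⟨-, D', rfl, hD'⟩ := hy
  have : D = D' := by
    apply Subtype.ext
    ext v
    have h1 : (p : ℤ) * (D : Divisor Kbar (FF N)) v = (p : ℤ) * (D' : Divisor Kbar (FF N)) v := by
      rw [← hD v, ← hD' v]
    exact mul_left_cancel₀ (Int.natCast_ne_zero.mpr hp) h1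
  rw [this]

end Core

section Generic

variable {p : ℕ}

/-- **KD, generic level.**  (`N' = N`: the statement mixes `M' * p` and `p * M'`.) -/
theorem kd_core247 (N N' : ℕ) [NeZero N] (hN : N' = N) (hp : p ≠ 0)
    (A : ValuationSubring Kbar) (x t : JZero N) (hpx : p • x = 0) (hpt : p • t = 0)
    (ht0 : t ≠ 0)
    (ht : ∀ σ ∈ A.inertiaSubgroupIn ℚ, ∀ c : ℕ, CycloAt p σ c → σ • t = c • t)
    {σ₁ : Kbar ≃ₐ[ℚ] Kbar} (hσ₁ : σ₁ ∈ A.inertiaSubgroupIn ℚ) (hσ₁x : σ₁ • x = x + t)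
    (E₁ E₂ : IntermediateField ℚ Kbar)
    (hE₁ : ∀ y : Kbar, (∀ ρ ∈ A.inertiaSubgroupIn ℚ, CycloAt p ρ 1 → ρ y = y) → y ∈ E₁)
    (hE₁' : ∀ e ∈ E₁, ∀ ρ ∈ A.inertiaSubgroupIn ℚ, CycloAt p ρ 1 → ρ e = e)
    (hE₂ : ∀ y : Kbar,
      (∀ ρ ∈ A.inertiaSubgroupIn ℚ, CycloAt p ρ 1 → ρ • x = x → ρ y = y) → y ∈ E₂) :
    ∃ (ft : ↥(laurentBaseChange ↥E₁ (modularFunctionFieldFull N')))
      (f₂ G₀ : ↥(laurentBaseChange ↥E₂ (modularFunctionFieldFull N'))) (Ft f : FF N),
      (ft : LaurentSeries ↥E₁).leadingCoeff = 1 ∧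
      (p : ℤ) ∣ (ft : LaurentSeries ↥E₁).order ∧
      (∀ z : ↥(laurentBaseChange ↥E₁ (modularFunctionFieldFull N')), z ^ p ≠ ft) ∧
      IsKummerGen N p Ft t ∧
      (Ft : LaurentSeries Kbar) = coeffMap (algebraMap ↥E₁ Kbar) (ft : LaurentSeries ↥E₁) ∧
      IsKummerGen N p f x ∧
      (f : LaurentSeries Kbar) = coeffMap (algebraMap ↥E₂ Kbar) (f₂ : LaurentSeries ↥E₂) ∧
      f₂ ≠ 0 ∧ Fermat.Agent.A2.DivisibleDiv ↥E₂ p f₂ ∧
      coeffMap ((σ₁ : Kbar ≃ₐ[ℚ] Kbar) : Kbar →+* Kbar)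
          (coeffMap (algebraMap ↥E₂ Kbar) (f₂ : LaurentSeries ↥E₂)) =
        coeffMap (algebraMap ↥E₂ Kbar) (f₂ : LaurentSeries ↥E₂) * HahnSeries.C (1 : Kbar) *
          coeffMap (algebraMap ↥E₁ Kbar) (ft : LaurentSeries ↥E₁) *
          (coeffMap (algebraMap ↥E₂ Kbar) (G₀ : LaurentSeries ↥E₂)) ^ p := by
  subst hN
  obtain ⟨ft, Ft, hFt, hKt, hlFt, hft0, hlft⟩ := exists_ft_BC247 hp A t hpt ht E₁ hE₁
  obtain ⟨f₂, G₀, fx, hfx, hKx, hlx, hf₂0, hG₀0, hrel⟩ :=
    kummerData_BC247 hp A x t hpx ht hσ₁ hσ₁x E₁ E₂ hE₁' hE₂ ft Ft hFt hKt hlFt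
  refine ⟨ft, f₂, G₀, Ft, fx, hlft, ?_, ?_, hKt, hFt, hKx, hfx, hf₂0, ?_, hrel⟩
  · -- `p ∣ order`
    have h1 := dvd_order_of_isKummerGen247 hKt
    rw [hFt, embBC_apply, order_coeffMap_of_injective] at h1
    exact h1
  · -- not a `p`-th power
    intro z hz
    have hz0 : z ≠ 0 := by
      rintro rfl
      rw [zero_pow hp] at hz
      exact hft0 hz.symm
    have hZmem : embBC (modularFunctionFieldFull _) E₁ z ∈
        laurentBaseChange Kbar (modularFunctionFieldFull _) :=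
      imBC_le_BC (modularFunctionFieldFull _) E₁ (embBC_mem _ E₁ z)
    set Z : FF _ := ⟨embBC (modularFunctionFieldFull _) E₁ z, hZmem⟩ with hZ
    have hZ0 : Z ≠ 0 := by
      intro h0
      have h1 : embBC (modularFunctionFieldFull _) E₁ z = 0 := congrArg Subtype.val h0
      rw [map_eq_zero_iff _ (embBC (modularFunctionFieldFull _) E₁).injective] at h1
      exact hz0 h1
    have hZp : Z ^ p = Ft := by
      apply Subtype.ext
      show (embBC (modularFunctionFieldFull _) E₁ z) ^ p = (Ft : LaurentSeries Kbar)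
      rw [← map_pow, hz, hFt]
    have h0 : IsKummerGen _ p (1 * Z ^ p) (0 : JZero _) :=
      isKummerGen_mul_pow247 isKummerGen_one hZ0
    rw [one_mul, hZp] at h0
    exact ht0 (isKummerGen_unique247 hp hKt h0)
  · -- `DivisibleDiv`
    refine Fermat.Agent.A2.T1.H669.divisibleDiv_of_ord E₂ (modularFunctionFieldFull _) p f₂
      hf₂0 (fun v => ?_)
    have e : Fermat.Agent.A2.T1.H669.iota E₂ (modularFunctionFieldFull _) f₂ = fx :=
      Subtype.ext hfx.symm
    rw [e]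
    obtain ⟨-, D, -, hord⟩ := hKx
    exact ⟨_, hord v⟩

end Generic

/-! ## The frozen statement -/

open Fermat.Agent.Ribet.H704.CoreOut Fermat.Agent.A2 in
/-- **KD.** -/
theorem kd247 : Fermat.Agent.Ribet.H704.CoreOut.KDStatement := by
  intro p M' _ _ _ hp hp5 hpM A hA S a hNE x t hx hex ht het hχ hsh hpeu σ₀ hσ₀ hσ₀1 hσ₀x
    ζ hζ σ₁ u hσ₁ hσ₁1 hσ₁x hσ₁u huA huA' hu0 hup hGood hσp hσfix hσn hE₂ hpeuu
  have hp0 : p ≠ 0 := hp.ne_zero
  have ht0 : t ≠ 0 := by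
    rintro rfl
    obtain ⟨n, hn⟩ := hsh σ₀ hσ₀
    rw [smul_zero, add_zero] at hn
    exact hσ₀x hn
  obtain ⟨ft, f₂, G₀, Ft, f, h1, h2, h3, h4, h5, h6, h7, h8, h9, h10⟩ :=
    kd_core247 (p * M') (M' * p) (mul_comm M' p) hp0 A x t hx.1 ht.1 ht0 hχ hσ₁ hσ₁x
      (H944.Tame.tameLevel A ζ) (H944.Tame.wildLevel A ζ u)
      (fun y hy => H944.Tame.mem_tameLevel_of_inK1 A hζ hp0 hy)
      (fun e he => H944.Tame.inK1_of_mem_tameLevel A hζ.pow_eq_one he)
      (fun y hy => (hE₂ y).mpr hy)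
  exact ⟨ft, f₂, G₀, Ft, f, 1, h1, h2, h3, h4, h5, h6, h7, h8, h9, one_mem _, h10⟩

end Fermat.Agent.Ribet.H247

end

end
-- ===== PACK-END Ribet/H247/KDFinal.lean

-- ===== PACK-BEGIN Ribet/H712/WildFrame.lean
section



/-!
# Row 38, WALL-p, CORE-OUT WILD: `WildFrameStatement`, UNCONDITIONAL  (helper712)

`wildFrame : H704.CoreOut.WildFrameStatement` = `wildFrame_of` (`WildFrameAsm.lean`) applied to
`H247.kd247 : H704.CoreOut.KDStatement`.
-/

set_option autoImplicit false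

namespace Fermat.Agent.Ribet.H712.Frame

/-- **WILD-FRAME** (`H704.CoreOut.WildFrameStatement`, verbatim, unconditional). -/
theorem wildFrame : Fermat.Agent.Ribet.H704.CoreOut.WildFrameStatement :=
  wildFrame_of Fermat.Agent.Ribet.H247.kd247

end Fermat.Agent.Ribet.H712.Frame

end
-- ===== PACK-END Ribet/H712/WildFrame.lean

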