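import Fermat.Agent.Pack.S44C.G0E28L0
import Fermat.Agent.Pack.S44C.G0E4L3
import Fermat.Agent.Pack.S44C.G0E27L1
import Fermat.Agent.Pack.S44C.G0E25L1
import Fermat.Agent.Pack.S44C.G0E4L1
import Fermat.Agent.Pack.S44C.G0E20L2
import Fermat.Agent.Pack.S44C.G0E12L1
import Fermat.Agent.Pack.S44C.G0E17L1
import Fermat.Agent.Pack.S44C.G0E9L1
import Fermat.Agent.Pack.S44C.G0E4L0
import Fermat.Agent.Pack.S44C.G0E25L0
import Fermat.Agent.Pack.S44C.G0E28L1
import Fermat.Agent.Pack.S44C.G0E15L3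
import Fermat.Agent.Pack.S44C.G0E15L0
import Fermat.Agent.Pack.S44C.G0E20L1
import Fermat.Agent.Pack.S44C.G0E17L0
import Fermat.Agent.Pack.S44C.G0E26L0
import Fermat.Agent.Pack.S44C.G0E26L1
import Fermat.Agent.Pack.S44C.G0E23L3
import Fermat.Agent.Pack.S44C.G0E21L2
import Fermat.Agent.Pack.Fast891

-- ===== PACK-BEGIN Ribet/H220/S2Spec.lean
section



/-!
# Row 38, WALL-p, **(S2)**: the chain from `AlgP` to `H884.S2Statement` — frozen interface
(chain architect helper220; C1 = `H912.KummerChi` is on main, C6 = `H495.AlgP.AlgPStatement`)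

`N = p·M'`, `p ∤ M'`, `p ≥ 5`, `A` a valuation subring of `ℚ̄` over `p`, `F = FF N = ℚ̄(X₀(N))`,
`V∞ = H708.Vinf N A`, `V₀ = H708.Vzero N A = V∞ ∘ w_N` (the two Gauss valuation rings of `F`).
EVERYTHING in this file is stated at the level `ℚ̄` ("absolute" depths `r ∈ A`), so that no leaf
mentions a finite level; finite levels only occur INSIDE the leaf `DeepKummerStatement`
(sub-interface `S2Level.lean`).

## Vocabulary
* `OneMod V r u`   : `u ∈ 1 + r·V`;
* `Deep V p r f`   : `f ∈ (Fˣ)^p · (1 + r·V)`;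
* `DeepC K V p r f`: `f ∈ Kˣ · (Fˣ)^p · (1 + r·V)`.

## Leaves (each ONE `Prop`; prove `theorem foo : FooStatement` VERBATIM)
| leaf | Prop | content |
|---|---|---|
| SL  | `SplitLiftStatement`  | `SplitGen f` ⟹ `f ∈ ℚ̄ˣ·Fˣᵖ·(1 + ϖ V)` for `V = V∞` and `V = V₀`, some nonunits `ϖ ≠ 0` of `A` (depth-1 input; `r = sᵖ`, lift `s`) |
| NC  | `NormContrStatement`  | norm contraction: both norms `p`-th powers + depth `ϖ` (with constants) at both places ⟹ depth `ϖⁿ` (NO constants) at both places, all `n` (`H400.wnc_X0` / `H279.nc_X0` / `H232.pingpong` + bridges) |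
| DK  | `DeepKummerStatement` | `p ∣ div f`, `f ∈ Fˣᵖ(1 + p²V∞) ∩ Fˣᵖ(1 + p²V₀)` ⟹ `σ f = a·yᵖ·f^c` for `σ ∈ I_A`, `σ ζ = ζ^c` (level descent + MOD at `p` + weak approximation + `AlgPStatement`) |

## Glue (PROVED in `S2Glue.lean`)
`kummerChiFor_of_chain : SL → NC → DK → KummerChiFor p M' A (splitPart p M' A)` (`p ≥ 5`),
hence `s2Five_of_chain`, `wallTargets5_of_chain` and `S44` from the leaves.
-/

set_option autoImplicit false

noncomputable section

namespace Fermat.Agent.Ribet.H220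

open AlgebraicCurve ModularCurve
open Fermat.Agent.S24 Fermat.Agent.A2.H708 Fermat.Agent.A2.H528
open Fermat.Agent.S29.H395 Fermat.Agent.S29.H801
open Fermat.Agent.Ribet.Spec Fermat.Agent.Ribet.H944.Wall Fermat.Agent.Ribet.H884

/-! ## Vocabulary -/

section Vocabulary

variable {F : Type*} [Field F]

/-- `u ∈ 1 + r · V`. -/
def OneMod (V : ValuationSubring F) (r u : F) : Prop :=
  ∃ y ∈ V, u = 1 + r * y

/-- `f ∈ (Fˣ)^p · (1 + r · V)`. -/
def Deep (V : ValuationSubring F) (p : ℕ) (r f : F) : Prop :=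
  ∃ g u : F, g ≠ 0 ∧ f = g ^ p * u ∧ OneMod V r u

/-- `f ∈ Kˣ · (Fˣ)^p · (1 + r · V)`. -/
def DeepC (K : Type*) [Field K] [Algebra K F] (V : ValuationSubring F) (p : ℕ) (r f : F) :
    Prop :=
  ∃ (c : K) (g u : F), c ≠ 0 ∧ g ≠ 0 ∧ f = algebraMap K F c * g ^ p * u ∧ OneMod V r u

end Vocabulary

/-- The constant `r ∈ ℚ̄` as an element of `FF N`. -/
abbrev cF (N : ℕ) [NeZero N] (r : Kbar) : FF N := algebraMap Kbar (FF N) r

/-! ## Leaves -/

/-- **SL (split lift, depth-1 input).**  A Kummer generator with `p`-th power reductions on both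
components is, at `V∞` and at `V₀`, a constant times a `p`-th power times an element of
`1 + ϖ V` for some nonzero nonunit `ϖ` of `A`. -/
def SplitLiftStatement : Prop :=
  ∀ (p M' : ℕ) [NeZero M'] [NeZero p] [NeZero (p * M')] (hp : p.Prime), ¬ p ∣ M' →
    ∀ (A : ValuationSubring Kbar) (hA : A.LiesOverPrime p) (f : FF (p * M')),
      f ≠ 0 → SplitGen p M' A f →
      (∃ ϖ : Kbar, ϖ ≠ 0 ∧ ϖ ∈ A.nonunits ∧
        DeepC Kbar (Vinf (p * M') A hp.ne_zero hA) p (cF (p * M') ϖ) f) ∧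
      (∃ ϖ : Kbar, ϖ ≠ 0 ∧ ϖ ∈ A.nonunits ∧
        DeepC Kbar (Vzero (p * M') A hp.ne_zero hA) p (cF (p * M') ϖ) f)

/-- **NC (norm contraction, absolute form).**  If both norms of `f` to level `M'` are `p`-th
powers and `f` has depth `ϖ` (constants allowed) at `V∞` and at `V₀`, `ϖ ∣ p` a nonunit, then
`f` has depth `ϖⁿ` WITHOUT constants at `V∞` and at `V₀`, for every `n`. -/
def NormContrStatement : Prop :=
  ∀ (p M' : ℕ) [NeZero M'] [NeZero p] [NeZero (p * M')] (hp : p.Prime), p ≠ 2 → ¬ p ∣ M' →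
    ∀ (A : ValuationSubring Kbar) (hA : A.LiesOverPrime p) (f : FF (p * M')) (g₁ g₂ : FF M'),
      f ≠ 0 →
      normAlong (alphaTo Kbar M' p (p * M') (Nat.mul_comm M' p)) f = g₁ ^ p →
      normAlong (betaTo Kbar M' p (p * M') (Nat.mul_comm M' p)) f = g₂ ^ p →
      ∀ ϖ : Kbar, ϖ ≠ 0 → ϖ ∈ A.nonunits → (∃ e ∈ A, (p : Kbar) = ϖ * e) →
        DeepC Kbar (Vinf (p * M') A hp.ne_zero hA) p (cF (p * M') ϖ) f →
        DeepC Kbar (Vzero (p * M') A hp.ne_zero hA) p (cF (p * M') ϖ) f →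
        ∀ n : ℕ, Deep (Vinf (p * M') A hp.ne_zero hA) p (cF (p * M') ϖ ^ n) f ∧
          Deep (Vzero (p * M') A hp.ne_zero hA) p (cF (p * M') ϖ ^ n) f

/-- **DK (deep Kummer classes are `χ`-eigen).**  `p ≥ 5`, `p ∣ div f`, and `f` is a `p`-th power
times an element of `1 + p² V` at `V = V∞` and at `V = V₀`.  Then for `σ` in the inertia group
of `A` with `σ ζ = ζ ^ c` on `μ_p`: `σ f = a · y ^ p · f ^ c`. -/
def DeepKummerStatement : Prop :=
  ∀ (p M' : ℕ) [NeZero M'] [NeZero p] [NeZero (p * M')] (hp : p.Prime), 5 ≤ p → ¬ p ∣ M' →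
    ∀ (A : ValuationSubring Kbar) (hA : A.LiesOverPrime p),
    ∀ σ ∈ A.inertiaSubgroupIn ℚ, ∀ c : ℕ, CycloAt p σ c →
    ∀ f : FF (p * M'), f ≠ 0 → (∀ v : Place Kbar (FF (p * M')), (p : ℤ) ∣ v.ord f) →
      Deep (Vinf (p * M') A hp.ne_zero hA) p (cF (p * M') ((p : Kbar) ^ 2)) f →
      Deep (Vzero (p * M') A hp.ne_zero hA) p (cF (p * M') ((p : Kbar) ^ 2)) f →
      ∃ (y : FF (p * M')) (a : Kbar), a ≠ 0 ∧ y ≠ 0 ∧
        arithmeticRingAut (modularFunctionFieldFull (p * M')) σ f =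
          algebraMap Kbar (FF (p * M')) a * y ^ p * f ^ c

/-- **(S2) for `p ≥ 5`** (what `S44` consumes). -/
def S2FiveStatement : Prop :=
  ∀ (p M' : ℕ) [NeZero M'] [NeZero p] [NeZero (p * M')], p.Prime → 5 ≤ p → ¬ p ∣ M' →
    ∀ A : ValuationSubring Kbar, A.LiesOverPrime p → S2For p M' A (splitPart p M' A)

end Fermat.Agent.Ribet.H220

end

end
-- ===== PACK-END Ribet/H220/S2Spec.lean

-- ===== PACK-BEGIN Ribet/H220/S2Glue.lean
section




/-!
# Row 38, WALL-p, **(S2)**: the chain glue (chain architect helper220) — PROVED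

* `kummerChiFor_of_chain : SplitLift → NormContr → DeepKummer →
     KummerChiFor p M' A (splitPart p M' A)`  (`p ≥ 5`);
* `s2Five_of_chain       : SplitLift → NormContr → DeepKummer → S2FiveStatement`;
* `wallTargets5_of_five  : S1 → S2Five → ResField → DlogOut → R3P → EisSlope →
     H944.Wall.WallTargets5Statement` (the `p ≥ 5` form of `H884.wallTargets5_of`);
* `wallTargets5_of_chain`: the same from the three leaves of `S2Spec.lean`.

Plugged in from main: CLOSED (`H884.splitClosed`), the Kummer form of the new part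
(`H801.alphaL_mk_eq_zero_iff`, `betaL_mk_eq_zero_iff`), the Kummer dictionary for `χ`
(`H912.s2For_of_kummerChi`), rank one of `A` (`A3.H675.harch`).
-/

set_option autoImplicit false
set_option synthInstance.maxHeartbeats 400000
set_option maxHeartbeats 1000000

noncomputable section

namespace Fermat.Agent.Ribet.H220

open AlgebraicCurve ModularCurve
open Fermat.Agent.S24 Fermat.Agent.A2.H708 Fermat.Agent.A2.H528
open Fermat.Agent.S29.H395 Fermat.Agent.S29.H801
open Fermat.Agent.Ribet.Spec Fermat.Agent.Ribet.H944.Wall Fermat.Agent.Ribet.H884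
open Fermat.Agent.Ribet.H801 Fermat.Agent.Ribet.H912

/-! ## Monotonicity of depths -/

section Mono

variable {F : Type*} [Field F]

theorem OneMod.mono {V : ValuationSubring F} {r r' a u : F} (ha : a ∈ V) (hr : r = r' * a)
    (h : OneMod V r u) : OneMod V r' u := by
  obtain ⟨y, hy, rfl⟩ := h
  exact ⟨a * y, mul_mem ha hy, by rw [hr]; ring⟩

theorem Deep.mono {V : ValuationSubring F} {p : ℕ} {r r' a f : F} (ha : a ∈ V)
    (hr : r = r' * a) (h : Deep V p r f) : Deep V p r' f := by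
  obtain ⟨g, u, hg, hf, hu⟩ := h
  exact ⟨g, u, hg, hf, hu.mono ha hr⟩

theorem DeepC.mono {K : Type*} [Field K] [Algebra K F] {V : ValuationSubring F} {p : ℕ}
    {r r' a f : F} (ha : a ∈ V) (hr : r = r' * a) (h : DeepC K V p r f) :
    DeepC K V p r' f := by
  obtain ⟨c, g, u, hc, hg, hf, hu⟩ := h
  exact ⟨c, g, u, hc, hg, hf, hu.mono ha hr⟩

/-- In a valuation ring two nonzero nonunits have a common nonunit divisor. -/
theorem exists_common_divisor (A : ValuationSubring F) {a b : F} (ha0 : a ≠ 0) (hb0 : b ≠ 0)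
    (ha : a ∈ A.nonunits) (hb : b ∈ A.nonunits) :
    ∃ d : F, d ≠ 0 ∧ d ∈ A.nonunits ∧ (∃ x ∈ A, a = d * x) ∧ (∃ y ∈ A, b = d * y) := by
  rcases A.mem_or_inv_mem (a / b) with h | h
  · exact ⟨b, hb0, hb, ⟨a / b, h, by field_simp⟩, ⟨1, one_mem _, by ring⟩⟩
  · refine ⟨a, ha0, ha, ⟨1, one_mem _, by ring⟩, ⟨b / a, ?_, by field_simp⟩⟩
    rwa [inv_div] at h

end Mono

/-! ## Constants in the two Gauss rings -/

section Const

variable (N : ℕ) [NeZero N] (A : ValuationSubring Kbar) {ℓ : ℕ} (hℓ : ℓ ≠ 0)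
  (hA : (ℓ : Kbar) ∈ A.nonunits)

theorem cF_mem_Vinf {a : Kbar} (ha : a ∈ A) : cF N a ∈ Vinf N A hℓ hA :=
  (algebraMap_mem_gaussInf_iff (intGen_full N)
    (attainsMax_Qbar hℓ hA (modularFunctionFieldFull N)) a).2 ha

theorem cF_mem_Vzero {a : Kbar} (ha : a ∈ A) : cF N a ∈ Vzero N A hℓ hA := by
  show wF N (cF N a) ∈ Vinf N A hℓ hA
  rw [cF, AlgEquiv.commutes]
  exact cF_mem_Vinf N A hℓ hA ha

end Const

theorem isAlgebraic_int_Kbar (x : Kbar) : IsAlgebraic ℤ x :=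
  (IsFractionRing.isAlgebraic_iff ℤ ℚ Kbar).mpr
    ((AlgebraicClosure.isAlgebraic ℚ).isAlgebraic x)

/-! ## The chain -/

/-- **The chain.**  SL + NC + DK give the Kummer form of (S2) for `𝒮 = splitPart`, `p ≥ 5`. -/
theorem kummerChiFor_of_chain (hSL : SplitLiftStatement) (hNC : NormContrStatement)
    (hDK : DeepKummerStatement)
    (p M' : ℕ) [NeZero M'] [NeZero p] [NeZero (p * M')] (hp : p.Prime) (hp5 : 5 ≤ p)
    (hpM : ¬ p ∣ M') (A : ValuationSubring Kbar) (hA : A.LiesOverPrime p) :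
    KummerChiFor p M' A (splitPart p M' A) := by
  intro x hx hnew σ hσ c hc
  have hp2 : p ≠ 2 := by omega
  -- a Kummer generator with split reductions
  obtain ⟨f, hfK, hfS⟩ := splitClosed p M' hp hpM A hA x hx
  obtain ⟨hf0, D, hDx, hord⟩ := id hfK
  obtain ⟨-, hα, hβ⟩ := hnew
  rw [← hDx] at hα hβ
  -- both norms are `p`-th powers
  obtain ⟨g₁, -, h₁⟩ :=
    (alphaL_mk_eq_zero_iff p M' hp.ne_zero D hf0 (fun w => (hord w).symm)).1 hα
  obtain ⟨g₂, -, h₂⟩ :=
    (betaL_mk_eq_zero_iff p M' hp.ne_zero D hf0 (fun w => (hord w).symm)).1 hβ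
  -- depth one, with constants
  obtain ⟨⟨ϖ₁, hϖ₁0, hϖ₁, hd₁⟩, ⟨ϖ₂, hϖ₂0, hϖ₂, hd₂⟩⟩ := hSL p M' hp hpM A hA f hf0 hfS
  -- a common depth dividing `p`
  have hpA : (p : Kbar) ∈ A.nonunits := hA
  have hp0 : (p : Kbar) ≠ 0 := by exact_mod_cast hp.ne_zero
  obtain ⟨d, hd0, hd, ⟨x₁, hx₁, e₁⟩, ⟨x₂, hx₂, e₂⟩⟩ :=
    exists_common_divisor A hϖ₁0 hϖ₂0 hϖ₁ hϖ₂
  obtain ⟨ϖ, hϖ0, hϖ, ⟨y₁, hy₁, e₃⟩, ⟨e, he, hpe⟩⟩ :=
    exists_common_divisor A hd0 hp0 hd hpA
  have hI : DeepC Kbar (Vinf (p * M') A hp.ne_zero hA) p (cF (p * M') ϖ) f := by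
    refine hd₁.mono (a := cF (p * M') (y₁ * x₁))
      (cF_mem_Vinf (p * M') A hp.ne_zero hA (mul_mem hy₁ hx₁)) ?_
    rw [cF, cF, cF, ← map_mul, e₁, e₃]
    congr 1
    ring
  have hZ : DeepC Kbar (Vzero (p * M') A hp.ne_zero hA) p (cF (p * M') ϖ) f := by
    refine hd₂.mono (a := cF (p * M') (y₁ * x₂))
      (cF_mem_Vzero (p * M') A hp.ne_zero hA (mul_mem hy₁ hx₂)) ?_
    rw [cF, cF, cF, ← map_mul, e₂, e₃]
    congr 1
    ring
  -- norm contraction
  have hnc := hNC p M' hp hp2 hpM A hA f g₁ g₂ hf0 h₁ h₂ ϖ hϖ0 hϖ ⟨e, he, hpe⟩ hI hZ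
  -- rank one: `ϖ ^ n ∈ p² A`
  have hp20 : (p : Kbar) ^ 2 ≠ 0 := pow_ne_zero 2 hp0
  obtain ⟨n, hn⟩ := Fermat.Agent.A3.H675.harch A isAlgebraic_int_Kbar hp hpA ϖ
    ((p : Kbar) ^ 2) hϖ hp20
  have hpow : cF (p * M') ϖ ^ n =
      cF (p * M') ((p : Kbar) ^ 2) * cF (p * M') (ϖ ^ n / (p : Kbar) ^ 2) := by
    rw [cF, cF, cF, ← map_pow, ← map_mul]
    congr 1
    field_simp
  obtain ⟨hnI, hnZ⟩ := hnc n
  have hI' := hnI.mono (cF_mem_Vinf (p * M') A hp.ne_zero hA hn) hpow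
  have hZ' := hnZ.mono (cF_mem_Vzero (p * M') A hp.ne_zero hA hn) hpow
  -- deep Kummer classes are `χ`-eigen
  obtain ⟨y, a, ha0, hy0, hrel⟩ := hDK p M' hp hp5 hpM A hA σ hσ c hc f hf0
    (fun v => ⟨(D : Divisor Kbar (FF (p * M'))) v, hord v⟩) hI' hZ'
  exact ⟨f, y, a, hfK, ha0, hy0, hrel⟩

/-- **(S2) for `p ≥ 5`** from the three leaves. -/
theorem s2Five_of_chain (hSL : SplitLiftStatement) (hNC : NormContrStatement)
    (hDK : DeepKummerStatement) : S2FiveStatement := by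
  intro p M' _ _ _ hp hp5 hpM A hA
  exact s2For_of_kummerChi p M' A _ (kummerChiFor_of_chain hSL hNC hDK p M' hp hp5 hpM A hA)

/-- The four targets for `p ≥ 5` with (S2) only for `p ≥ 5` (`H884.wallTargets5_of` asks for
(S2) at all odd primes). -/
theorem wallTargets5_of_five (h1 : S1Statement) (h2 : S2FiveStatement)
    (hR : ResFieldStatement) (hD : DlogOutStatement) (h3 : H764.I3.R3PStatement)
    (hE : EisSlopeStatement) : WallTargets5Statement := by
  intro p M' _ _ _ hp hp5 hpM A hA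
  have hp2 : p ≠ 2 := by omega
  exact ⟨finPart p M' A, splitPart p M' A, h1 p M' hp hpM A hA, h2 p M' hp hp5 hpM A hA,
    s3For_of hR hD h3 p M' hp hp2 hpM A hA, s4For_of hE p M' hp hp5 hpM A hA⟩

/-- **The four targets for `p ≥ 5`** from the (S2)-chain leaves and the other leaves of
`H884/SlopeSpec.lean` (`(S1)` = `H884.s1`). -/
theorem wallTargets5_of_chain (hSL : SplitLiftStatement) (hNC : NormContrStatement)
    (hDK : DeepKummerStatement) (hR : ResFieldStatement) (hD : DlogOutStatement)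
    (h3 : H764.I3.R3PStatement) (hE : EisSlopeStatement) : WallTargets5Statement :=
  wallTargets5_of_five s1 (s2Five_of_chain hSL hNC hDK) hR hD h3 hE

end Fermat.Agent.Ribet.H220

end

end
-- ===== PACK-END Ribet/H220/S2Glue.lean

-- ===== PACK-BEGIN Ribet/H573/SplitLift.lean
section





/-!
# Row 38, WALL-p, bridge SPLIT-LIFT (helper573): from `H884.SplitGen` to `p`-th powers

Language of the hub `Ribet/H884/SlopeSpec.lean`.  `N = p * M'`, `p ∤ M'`, `A` over `p`,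
`k = kA A`, `V∞ = H553.VinfModular A _ hA N`, `red∞ = H553.redInf`.

* `isRedInf_iff`        : `IsRedInf N A f r ↔ ∃ c ≠ 0, f / c ∈ V∞ ∧ red∞ (f / c) = r ∧ r ≠ 0`
                          (dictionary series form ↔ valuation form);
* `exists_lift_full`    : every `s ∈ F_k = modularFunctionFieldFullC k M`, `M ∣ N`, is the
                          reduction of an element of `V∞` (level `N`);
* `exists_isRedInf_full`: for `s ≠ 0` in `F_k`: `∃ g, IsRedInf N A g s`;
* **`splitLift_inf`**, **`splitLift_zero`** : if `f` has a reduction `r ∈ F_k ∩ k((t^p))` on `C∞`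
  (resp. `C₀`) then `f = g ^ p · u` with `IsRedInf N A u 1` (resp. `IsRedZero`), i.e.
  `f ∈ ℚ̄ˣ · (F_Nˣ)^p · (1 + 𝔪_{V∞})` (resp. `V₀`);
* `splitGen_lift`       : both, for `H884.SplitGen f`;
* `oneAddNonunits_of_isRedInf_one` : `IsRedInf N A u 1 → ∃ c ≠ 0, u / c ∈ 1 + 𝔪_{V∞}`
  (`H129.OneAddNonunits`, the depth-1 input of norm contraction).
-/

set_option autoImplicit false
set_option linter.unusedSectionVars false
set_option linter.style.haveILetI false
set_option synthInstance.maxHeartbeats 400000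
set_option maxHeartbeats 1000000

noncomputable section

namespace Fermat.Agent.Ribet.H573

open AlgebraicCurve ModularCurve HahnSeries IntermediateField
open Fermat.Agent.S24 Fermat.Agent.S28.H86
open Fermat.Agent.A2.H129 Fermat.Agent.A2.H553 Fermat.Agent.A2.H528
open Fermat.Agent.Ribet.H884

section Dict

variable {p : ℕ} (hp : p ≠ 0) {A : ValuationSubring Kbar} (hA : A.LiesOverPrime p) (N : ℕ)

/-- the coercion of a quotient by a constant -/
theorem coe_mul_cst_inv (f : FF N) (c : Kbar) :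
    ((f * (algebraMap Kbar (FF N) c)⁻¹ : FF N) : LaurentSeries Kbar) =
      (f : LaurentSeries Kbar) * (Fermat.Agent.A2.H708.cst c)⁻¹ := rfl

/-- **Dictionary, series form ⟹ valuation form.** -/
theorem exists_mem_of_isRedInf [NeZero N] {f : FF N} {r : LaurentSeries (kA A)}
    (h : IsRedInf N A f r) :
    ∃ c : Kbar, c ≠ 0 ∧ ∃ hm : f * (algebraMap Kbar (FF N) c)⁻¹ ∈ VInf p A hA N hp,
      redV p A hA N hp ⟨_, hm⟩ = r := by
  obtain ⟨c, U₁, U₂, hc, hU₁, hU₂, hrel, hr⟩ := h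
  have hC : Fermat.Agent.A2.H708.cst c ≠ 0 := Fermat.Agent.A2.H708.cst_ne_zero hc
  have hrel' : ((f * (algebraMap Kbar (FF N) c)⁻¹ : FF N) : LaurentSeries Kbar) *
      inclL A.toSubring U₂ = inclL A.toSubring U₁ := by
    rw [coe_mul_cst_inv]
    have e : (f : LaurentSeries Kbar) * (Fermat.Agent.A2.H708.cst c)⁻¹ * inclL A.toSubring U₂ =
        (Fermat.Agent.A2.H708.cst c)⁻¹ * ((f : LaurentSeries Kbar) * inclL A.toSubring U₂) := by
      ring
    rw [e]
    have hrel2 : (f : LaurentSeries Kbar) * inclL A.toSubring U₂ =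
        Fermat.Agent.A2.H708.cst c * inclL A.toSubring U₁ := hrel
    rw [hrel2, ← mul_assoc, inv_mul_cancel₀ hC, one_mul]
  have hb : redL (resA A) U₂ ≠ 0 := hU₂
  have hm : f * (algebraMap Kbar (FF N) c)⁻¹ ∈ VInf p A hA N hp := ⟨U₁, U₂, hb, hrel'⟩
  refine ⟨c, hc, hm, ?_⟩
  have hred : redV p A hA N hp ⟨_, hm⟩ = redL (resA A) U₁ / redL (resA A) U₂ :=
    redInf_eq (gaussInput_modular A hp hA N) ⟨_, hm⟩ U₁ U₂ hb hrel'
  rw [hred, div_eq_iff hb]
  exact hr.symm

/-- **Dictionary, valuation form ⟹ series form.** -/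
theorem isRedInf_of_mem [NeZero N] {f : FF N} {c : Kbar} (hc : c ≠ 0)
    (hm : f * (algebraMap Kbar (FF N) c)⁻¹ ∈ VInf p A hA N hp)
    {r : LaurentSeries (kA A)} (hr : redV p A hA N hp ⟨_, hm⟩ = r)
    (hr0 : r ≠ 0) : IsRedInf N A f r := by
  obtain ⟨a, b, hb, hab⟩ := hm
  have hred : redV p A hA N hp ⟨f * (algebraMap Kbar (FF N) c)⁻¹, ⟨a, b, hb, hab⟩⟩ =
      redL (resA A) a / redL (resA A) b :=
    redInf_eq (gaussInput_modular A hp hA N)
      ⟨f * (algebraMap Kbar (FF N) c)⁻¹, ⟨a, b, hb, hab⟩⟩ a b hb hab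
  rw [hr] at hred
  have hra : r * redL (resA A) b = redL (resA A) a := by
    rw [hred, div_mul_cancel₀ _ hb]
  have ha : redL (resA A) a ≠ 0 := by
    rw [← hra]
    exact mul_ne_zero hr0 hb
  have hC : Fermat.Agent.A2.H708.cst c ≠ 0 := Fermat.Agent.A2.H708.cst_ne_zero hc
  refine ⟨c, a, b, hc, ha, hb, ?_, hra⟩
  have hab' : (f : LaurentSeries Kbar) * (Fermat.Agent.A2.H708.cst c)⁻¹ * inclL A.toSubring b =
      inclL A.toSubring a := hab
  show (f : LaurentSeries Kbar) * inclL A.toSubring b =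
    Fermat.Agent.A2.H708.cst c * inclL A.toSubring a
  rw [← hab']
  field_simp

end Dict

/-! ## Lifting `F_k` to `V∞` -/

section LiftFull

variable {p : ℕ} (hp : p ≠ 0) {A : ValuationSubring Kbar} (hA : A.LiesOverPrime p)

/-- the reduction of a constant of `A` -/
theorem redInf_algebraMap (N : ℕ) (a : A)
    (hm : algebraMap Kbar (FF N) (a : Kbar) ∈ VInf p A hA N hp) :
    redV p A hA N hp ⟨_, hm⟩ =
      algebraMap (kA A) (LaurentSeries (kA A)) (IsLocalRing.residue A a) := by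
  have hcoe : ((algebraMap Kbar (FF N) (a : Kbar) : FF N) : LaurentSeries Kbar) =
      inclL A.toSubring (HahnSeries.C a) := by
    rw [inclL_C]
    show algebraMap Kbar (LaurentSeries Kbar) (a : Kbar) = _
    rw [algebraMap_laurentSeries_eq_single]
    rfl
  have h1 : redV p A hA N hp ⟨_, hm⟩ =
      redA A ⟨inclL A.toSubring (HahnSeries.C a), inclL_mem_gaussRing (resA A) _⟩ := by
    show redA A _ = redA A _
    congr 1
    exact Subtype.ext hcoe
  rw [h1, redA_inclL, redL_C, algebraMap_laurentSeries_eq_single]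
  rfl

/-- the reduction of `j(t^d)` -/
theorem redInf_jFd (N : ℕ) [NeZero N] (d : ℕ) [NeZero d] (hd : d ∣ N)
    (hm : jFd N d hd ∈ VInf p A hA N hp) :
    redV p A hA N hp ⟨_, hm⟩ = qExpand (kA A) d (jqModC (kA A)) := by
  have hcoe : ((jFd N d hd : FF N) : LaurentSeries Kbar) =
      inclL A.toSubring (coeffMap (Int.castRingHom ↥A.toSubring) (jZ d)) := by
    rw [coe_jFd_int, intEmb_eq_inclL A]
  have h1 : redV p A hA N hp ⟨_, hm⟩ =
      redA A ⟨inclL A.toSubring (coeffMap (Int.castRingHom ↥A.toSubring) (jZ d)),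
        inclL_mem_gaussRing (resA A) _⟩ := by
    show redA A _ = redA A _
    congr 1
    exact Subtype.ext hcoe
  rw [h1, redA_inclL]
  show coeffMap (resA A) (coeffMap (Int.castRingHom ↥A.toSubring) (jZ d)) = _
  rw [coeffMap_coeffMap, jZ, coeffMap_qExpand, coeffMap_jqModC]

/-- **Lifting.**  Every element of `F_k = k(X₀(M))`, `M ∣ N`, is the reduction of an element of
`V∞` of level `N`. -/
theorem exists_lift_full (M N : ℕ) [NeZero N] (hMN : M ∣ N) (s : LaurentSeries (kA A))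
    (hs : s ∈ modularFunctionFieldFullC (kA A) M) :
    ∃ (g : FF N) (hg : g ∈ VInf p A hA N hp),
      redV p A hA N hp ⟨g, hg⟩ = s := by
  induction hs using IntermediateField.adjoin_induction with
  | mem x hx =>
      obtain ⟨d, hne, hd, rfl⟩ := hx
      haveI := hne
      have hm : jFd N d (hd.trans hMN) ∈ VInf p A hA N hp :=
        mem_Vinf_of_intEmb A hp hA N (coe_jFd_int N d (hd.trans hMN))
      exact ⟨_, hm, redInf_jFd hp hA N d (hd.trans hMN) hm⟩
  | algebraMap c =>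
      obtain ⟨a, rfl⟩ := IsLocalRing.residue_surjective (R := A) c
      have hm : algebraMap Kbar (FF N) (a : Kbar) ∈ VInf p A hA N hp :=
        (algebraMap_mem_Vinf_iff (gaussInput_modular A hp hA N)).mpr a.2
      exact ⟨_, hm, redInf_algebraMap hp hA N a hm⟩
  | add x y _ _ ihx ihy =>
      obtain ⟨g, hg, rfl⟩ := ihx
      obtain ⟨g', hg', rfl⟩ := ihy
      refine ⟨g + g', add_mem hg hg', ?_⟩
      rw [← map_add]
      rfl
  | mul x y _ _ ihx ihy =>
      obtain ⟨g, hg, rfl⟩ := ihx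
      obtain ⟨g', hg', rfl⟩ := ihy
      refine ⟨g * g', mul_mem hg hg', ?_⟩
      rw [← map_mul]
      rfl
  | inv x _ ihx =>
      obtain ⟨g, hg, rfl⟩ := ihx
      by_cases h0 : redV p A hA N hp ⟨g, hg⟩ = 0
      · refine ⟨0, zero_mem _, ?_⟩
        rw [h0, inv_zero]
        exact map_zero _
      · have hlt : ¬ (VInf p A hA N hp).valuation g < 1 := fun hlt =>
          h0 ((redInf_eq_zero_iff (gaussInput_modular A hp hA N) ⟨g, hg⟩).mpr hlt)
        have hinv : g⁻¹ ∈ VInf p A hA N hp := by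
          rw [valuation_lt_one_iff_mem] at hlt
          by_contra hcon
          exact hlt ⟨hg, Or.inr hcon⟩
        have hg0 : g ≠ 0 := by
          rintro rfl
          exact h0 (map_zero _)
        refine ⟨g⁻¹, hinv, ?_⟩
        have hprod : (⟨g⁻¹, hinv⟩ : ↥(VInf p A hA N hp)) * ⟨g, hg⟩ = 1 :=
          Subtype.ext (inv_mul_cancel₀ hg0)
        have h2 : redV p A hA N hp ⟨g⁻¹, hinv⟩ *
            redV p A hA N hp ⟨g, hg⟩ = 1 := by
          rw [← map_mul, hprod, map_one]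
        exact eq_inv_of_mul_eq_one_left h2

include hp hA in
/-- For `s ≠ 0` in `F_k`: `s` is a reduction (in the sense of `H884.IsRedInf`) of a function. -/
theorem exists_isRedInf_full (M N : ℕ) [NeZero N] (hMN : M ∣ N) (s : LaurentSeries (kA A))
    (hs : s ∈ modularFunctionFieldFullC (kA A) M) (hs0 : s ≠ 0) :
    ∃ g : FF N, g ≠ 0 ∧ IsRedInf N A g s := by
  obtain ⟨g, hg, hred⟩ := exists_lift_full hp hA M N hMN s hs
  have hg0 : g ≠ 0 := by
    rintro rfl
    apply hs0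
    rw [← hred]
    exact map_zero _
  refine ⟨g, hg0, ?_⟩
  have e : g * (algebraMap Kbar (FF N) 1)⁻¹ = g := by rw [map_one, inv_one, mul_one]
  have hm : g * (algebraMap Kbar (FF N) 1)⁻¹ ∈ VInf p A hA N hp := by rw [e]; exact hg
  refine isRedInf_of_mem hp hA N one_ne_zero hm ?_ hs0
  rw [← hred]
  congr 1
  exact Subtype.ext e

end LiftFull

/-! ## SPLIT-LIFT -/

section Main

variable {p M' : ℕ} [NeZero (p * M')] {A : ValuationSubring Kbar}

theorem isRedInf_pow {N : ℕ} [NeZero N] {f : FF N} {r : LaurentSeries (kA A)}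
    (h : IsRedInf N A f r) (n : ℕ) : IsRedInf N A (f ^ n) (r ^ n) := by
  induction n with
  | zero => rw [pow_zero, pow_zero]; exact isRedInf_one
  | succ n ih => rw [pow_succ, pow_succ]; exact IsRedInf.mul ih h

/-- **SPLIT-LIFT on `C∞`.**  If `f` has a reduction `r ∈ k(X₀(M')) ∩ k((t^p))` on `C∞`, then
`f = g ^ p · u` where `u` has reduction `1` on `C∞`. -/
theorem splitLift_inf (hpp : p.Prime) (hpM : ¬ p ∣ M') (hA : A.LiesOverPrime p)
    {f : FF (p * M')} {r : LaurentSeries (kA A)} (hred : IsRedInf (p * M') A f r)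
    (hr : r ∈ modularFunctionFieldFullC (kA A) M') (hsplit : SplitSeries p r) :
    ∃ g : FF (p * M'), g ≠ 0 ∧ IsRedInf (p * M') A (f * (g ^ p)⁻¹) 1 := by
  obtain ⟨hac, hch⟩ := Fermat.Agent.Ribet.H939.resField p hpp A hA
  haveI := hac
  haveI := hch
  haveI : Fact p.Prime := ⟨hpp⟩
  have hM' : M' ≠ 0 := by
    rintro rfl
    exact hpM (dvd_zero p)
  obtain ⟨s, hs, hsr⟩ := exists_root_in_full p M' hM' hpM r hr hsplit
  have hr0 : r ≠ 0 := IsRedInf.ne_zero hred
  have hs0 : s ≠ 0 := by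
    rintro rfl
    rw [zero_pow hpp.ne_zero] at hsr
    exact hr0 hsr.symm
  obtain ⟨g, hg0, hg⟩ := exists_isRedInf_full hpp.ne_zero hA M' (p * M')
    (dvd_mul_left M' p) s hs hs0
  refine ⟨g, hg0, ?_⟩
  have h1 : IsRedInf (p * M') A (f * (g ^ p)⁻¹) (r * (s ^ p)⁻¹) :=
    IsRedInf.mul hred (IsRedInf.inv (isRedInf_pow hg p))
  rw [hsr, mul_inv_cancel₀ hr0] at h1
  exact h1

/-- **SPLIT-LIFT on `C₀`.** -/
theorem splitLift_zero (hpp : p.Prime) (hpM : ¬ p ∣ M') (hA : A.LiesOverPrime p)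
    {f : FF (p * M')} {r : LaurentSeries (kA A)} (hred : IsRedZero (p * M') A f r)
    (hr : r ∈ modularFunctionFieldFullC (kA A) M') (hsplit : SplitSeries p r) :
    ∃ g : FF (p * M'), g ≠ 0 ∧ IsRedZero (p * M') A (f * (g ^ p)⁻¹) 1 := by
  obtain ⟨g, hg0, hg⟩ := splitLift_inf hpp hpM hA (f := wF (p * M') f) hred hr hsplit
  refine ⟨wF (p * M') g, by simpa using hg0, ?_⟩
  show IsRedInf (p * M') A (wF (p * M') (f * (wF (p * M') g ^ p)⁻¹)) 1
  rw [map_mul, map_inv₀, map_pow, wF_wF]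
  exact hg

/-- **SPLIT-LIFT** for a split Kummer generator: on both components `f` is a `p`-th power times
a function with reduction `1`. -/
theorem splitGen_lift (hpp : p.Prime) (hpM : ¬ p ∣ M') (hA : A.LiesOverPrime p)
    {f : FF (p * M')} (h : SplitGen p M' A f) :
    (∃ g : FF (p * M'), g ≠ 0 ∧ IsRedInf (p * M') A (f * (g ^ p)⁻¹) 1) ∧
    (∃ g : FF (p * M'), g ≠ 0 ∧ IsRedZero (p * M') A (f * (g ^ p)⁻¹) 1) := by
  obtain ⟨r₁, r₂, h1, h2, ⟨k₁, hk₁, -, -⟩, ⟨k₂, hk₂, -, -⟩, hs1, hs2⟩ := h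
  exact ⟨splitLift_inf hpp hpM hA h1 (hk₁ ▸ k₁.2) hs1,
    splitLift_zero hpp hpM hA h2 (hk₂ ▸ k₂.2) hs2⟩

/-- Reduction `1` in valuation form: `u / c ∈ 1 + 𝔪_{V∞}` for a constant `c ≠ 0`. -/
theorem oneAddNonunits_of_isRedInf_one (hp : p ≠ 0) (hA : A.LiesOverPrime p) {N : ℕ} [NeZero N]
    {u : FF N} (h : IsRedInf N A u 1) :
    ∃ c : Kbar, c ≠ 0 ∧
      OneAddNonunits (VInf p A hA N hp) (u * (algebraMap Kbar (FF N) c)⁻¹) := by
  obtain ⟨c, hc, hm, hred⟩ := exists_mem_of_isRedInf hp hA N h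
  refine ⟨c, hc, ?_⟩
  have hone : (1 : FF N) ∈ VInf p A hA N hp := one_mem _
  have hsub : u * (algebraMap Kbar (FF N) c)⁻¹ - 1 ∈ VInf p A hA N hp := sub_mem hm hone
  have h0 : redV p A hA N hp ⟨_, hsub⟩ = 0 := by
    have e : (⟨u * (algebraMap Kbar (FF N) c)⁻¹ - 1, hsub⟩ : ↥(VInf p A hA N hp)) =
        ⟨u * (algebraMap Kbar (FF N) c)⁻¹, hm⟩ - 1 := rfl
    rw [e, map_sub, map_one, hred, sub_self]
  exact (redInf_eq_zero_iff (gaussInput_modular A hp hA N) ⟨_, hsub⟩).mp h0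

/-- **SPLIT-LIFT, valuation form** (`H573.RedPow`): a split Kummer generator lies in
`ℚ̄ˣ · (F_Nˣ)^p · (1 + 𝔪_{V∞})`, and so does `w_N f`. -/
theorem splitGen_redPow (hpp : p.Prime) (hpM : ¬ p ∣ M') (hA : A.LiesOverPrime p)
    {f : FF (p * M')} (h : SplitGen p M' A f) :
    RedPow p A hA (p * M') hpp.ne_zero f ∧
      RedPow p A hA (p * M') hpp.ne_zero (wF (p * M') f) := by
  obtain ⟨⟨g, hg0, hg⟩, ⟨g', hg0', hg'⟩⟩ := splitGen_lift hpp hpM hA h
  constructor
  · obtain ⟨c, hc, hu⟩ := oneAddNonunits_of_isRedInf_one hpp.ne_zero hA hg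
    refine ⟨c, hc, g, hg0, ?_⟩
    have e : f * (cst (p * M') c)⁻¹ * (g ^ p)⁻¹ =
        f * (g ^ p)⁻¹ * (algebraMap Kbar (FF (p * M')) c)⁻¹ := by
      rw [cst]; ring
    rw [e]
    exact hu
  · have hg'' : IsRedInf (p * M') A (wF (p * M') (f * (g' ^ p)⁻¹)) 1 := hg'
    obtain ⟨c, hc, hu⟩ := oneAddNonunits_of_isRedInf_one hpp.ne_zero hA hg''
    refine ⟨c, hc, wF (p * M') g', by simpa using hg0', ?_⟩
    have e : wF (p * M') f * (cst (p * M') c)⁻¹ * (wF (p * M') g' ^ p)⁻¹ =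
        wF (p * M') (f * (g' ^ p)⁻¹) * (algebraMap Kbar (FF (p * M')) c)⁻¹ := by
      rw [cst, map_mul, map_inv₀, map_pow]; ring
    rw [e]
    exact hu

end Main

end Fermat.Agent.Ribet.H573

end
end
-- ===== PACK-END Ribet/H573/SplitLift.lean

-- ===== PACK-BEGIN Ribet/H573/WeakApprox.lean
section






/-!
# Row 38, WALL-p, (S2): DICT piece WEAK-APPROX and the leaf SL (helper573)

`N = p · M'`, `A` a valuation subring of `ℚ̄` over `p`, `V∞ = H708.Vinf N A`, `V₀ = H708.Vzero N A`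
(the two Gauss valuation rings of `FF N = ℚ̄(X₀(N))`), vocabulary `OneMod`, `Deep`, `DeepC` of
`Ribet/H220/S2Spec.lean`.

* `gaussLike_Vinf`, `gaussLike_Vzero` : `V∞`, `V₀` are Gauss-like over `A` (`WACore.lean`);
* `rankOne`                : `A` has rank one;
* `exists_idem_gauss`      : approximate idempotents: `1 - e ∈ d₁ V∞`, `e ∈ d₂ V₀` for all
                             constants `d₁, d₂ ≠ 0`;
* `exists_approx_gauss`    : `a ∈ g₁ (1 + r V∞) ∩ g₂ (1 + r V₀)`;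
* **`deep_common`**        : WEAK-APPROX: `Deep V∞ p ϖ f`, `Deep V₀ p ϖ f` ⟹ ONE `g` with
                             `f = g ^ p · u`, `u ∈ (1 + ϖ V∞) ∩ (1 + ϖ V₀)`;
* `deep_of_deepC`          : constants are `p`-th powers in `ℚ̄`;
* **`splitLift`**          : the leaf `H220.SplitLiftStatement` (VERBATIM);
* **`splitGen_common`**    : a split Kummer generator is `g ^ p · u` with ONE `g` and
                             `u ∈ (1 + ϖ V∞) ∩ (1 + ϖ V₀)`, `ϖ ≠ 0` a nonunit of `A`;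
* `splitGen_common_oneAdd` : the same in the form `H129.OneAddNonunits` at `V∞` for `u` and
                             `w_N u` (rings `H708.Vinf` and `H553.VinfModular`).
-/

set_option autoImplicit false
set_option linter.unusedSectionVars false
set_option linter.style.haveILetI false
set_option synthInstance.maxHeartbeats 400000
set_option maxHeartbeats 1000000

noncomputable section

namespace Fermat.Agent.Ribet.H573

open AlgebraicCurve ModularCurve HahnSeries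
open Fermat.Agent.S24 Fermat.Agent.A2.H708 Fermat.Agent.A2.H528 Fermat.Agent.A2.H129
open Fermat.Agent.Ribet.H884 Fermat.Agent.Ribet.H220

section Gauss

variable (N : ℕ) [NeZero N] (A : ValuationSubring Kbar) {ℓ : ℕ} (hℓ : ℓ ≠ 0)
  (hA : (ℓ : Kbar) ∈ A.nonunits)

/-- `V∞` is Gauss-like over `A`. -/
theorem gaussLike_Vinf : WA.GaussLike A (Vinf N A hℓ hA) :=
  ⟨fun c => algebraMap_mem_gaussInf_iff (intGen_full N)
      (attainsMax_Qbar hℓ hA (modularFunctionFieldFull N)) c,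
    fun _ hf => exists_const_mul_unit (intGen_full N)
      (attainsMax_Qbar hℓ hA (modularFunctionFieldFull N)) hf⟩

/-- `V₀` is Gauss-like over `A`. -/
theorem gaussLike_Vzero : WA.GaussLike A (Vzero N A hℓ hA) := by
  refine ⟨fun c => ?_, fun f hf => ?_⟩
  · rw [← (gaussLike_Vinf N A hℓ hA).1 c]
    show wF N (algebraMap Kbar (FF N) c) ∈ Vinf N A hℓ hA ↔ _
    rw [AlgEquiv.commutes]
  · have hf' : wF N f ≠ 0 := fun h => hf ((map_eq_zero_iff _ (wF N).injective).mp h)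
    obtain ⟨c, hc, hu⟩ := (gaussLike_Vinf N A hℓ hA).2 (wF N f) hf'
    refine ⟨c, hc, ?_⟩
    have h1 : IsUnitOf (Vinf N A hℓ hA) (wF N (f * (algebraMap Kbar (FF N) c)⁻¹)) := by
      rw [map_mul, map_inv₀, AlgEquiv.commutes]
      exact hu
    exact (isUnitOf_Vzero_iff hℓ hA).2 h1

end Gauss

/-- every element of `ℚ̄` is algebraic over `ℤ` -/
theorem isAlgebraic_int_Qbar (x : Kbar) : IsAlgebraic ℤ x :=
  (IsFractionRing.isAlgebraic_iff ℤ ℚ Kbar).mpr
    ((AlgebraicClosure.isAlgebraic ℚ).isAlgebraic x)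

/-- **Rank one** of a valuation subring of `ℚ̄` over a prime. -/
theorem rankOne (A : ValuationSubring Kbar) {ℓ : ℕ} (hℓ : ℓ.Prime)
    (hA : (ℓ : Kbar) ∈ A.nonunits) :
    ∀ a b : Kbar, a ∈ A.nonunits → b ≠ 0 → ∃ n : ℕ, a ^ n / b ∈ A :=
  Fermat.Agent.A3.H675.harch A isAlgebraic_int_Qbar hℓ hA

section Approx

variable (N : ℕ) [NeZero N] (A : ValuationSubring Kbar) {ℓ : ℕ} (hℓ : ℓ.Prime)
  (hA : (ℓ : Kbar) ∈ A.nonunits) (hN : ℓ ∣ N)

include hN in
theorem vinf_ne_vzero : Vinf N A hℓ.ne_zero hA ≠ Vzero N A hℓ.ne_zero hA := by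
  haveI : Fact ℓ.Prime := ⟨hℓ⟩
  exact fun h => Vzero_ne_Vinf hℓ.ne_zero hA hN h.symm

include hN in
/-- **Approximate idempotents** for `(V∞, V₀)`: `1 - e ∈ d₁ V∞` and `e ∈ d₂ V₀`. -/
theorem exists_idem_gauss {d₁ d₂ : Kbar} (hd₁ : d₁ ≠ 0) (hd₂ : d₂ ≠ 0) :
    ∃ e : FF N, (1 - e) * (cF N d₁)⁻¹ ∈ Vinf N A hℓ.ne_zero hA ∧
      e * (cF N d₂)⁻¹ ∈ Vzero N A hℓ.ne_zero hA :=
  WA.exists_idem (rankOne A hℓ hA) (gaussLike_Vinf N A hℓ.ne_zero hA)
    (gaussLike_Vzero N A hℓ.ne_zero hA) (vinf_ne_vzero N A hℓ hA hN) hd₁ hd₂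

include hN in
/-- **Weak approximation** for `(V∞, V₀)`: `a ∈ g₁ (1 + r V∞) ∩ g₂ (1 + r V₀)`. -/
theorem exists_approx_gauss {g₁ g₂ : FF N} (hg₁ : g₁ ≠ 0) (hg₂ : g₂ ≠ 0) {r : Kbar}
    (hr : r ≠ 0) :
    ∃ a : FF N, OneMod (Vinf N A hℓ.ne_zero hA) (cF N r) (a * g₁⁻¹) ∧
      OneMod (Vzero N A hℓ.ne_zero hA) (cF N r) (a * g₂⁻¹) :=
  WA.exists_approx_two (rankOne A hℓ hA) (gaussLike_Vinf N A hℓ.ne_zero hA)
    (gaussLike_Vzero N A hℓ.ne_zero hA) (vinf_ne_vzero N A hℓ hA hN) hg₁ hg₂ hr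

include hN in
/-- **WEAK-APPROX (one `g` for both components).**  If `f ∈ (Fˣ)^p (1 + ϖ V∞)` and
`f ∈ (Fˣ)^p (1 + ϖ V₀)`, `ϖ ≠ 0` a nonunit of `A`, then `f = g ^ p · u` with
`u ∈ (1 + ϖ V∞) ∩ (1 + ϖ V₀)`. -/
theorem deep_common (p : ℕ) {ϖ : Kbar} (hϖ0 : ϖ ≠ 0) (hϖ : ϖ ∈ A.nonunits) {f : FF N}
    (h₁ : Deep (Vinf N A hℓ.ne_zero hA) p (cF N ϖ) f)
    (h₂ : Deep (Vzero N A hℓ.ne_zero hA) p (cF N ϖ) f) :
    ∃ g u : FF N, g ≠ 0 ∧ f = g ^ p * u ∧ OneMod (Vinf N A hℓ.ne_zero hA) (cF N ϖ) u ∧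
      OneMod (Vzero N A hℓ.ne_zero hA) (cF N ϖ) u := by
  obtain ⟨g₁, u₁, hg₁, hf₁, hu₁⟩ := h₁
  obtain ⟨g₂, u₂, hg₂, hf₂, hu₂⟩ := h₂
  exact WA.exists_common_root (rankOne A hℓ hA) (gaussLike_Vinf N A hℓ.ne_zero hA)
    (gaussLike_Vzero N A hℓ.ne_zero hA) (vinf_ne_vzero N A hℓ hA hN) p hϖ0 hϖ hg₁ hg₂ hf₁ hf₂
    hu₁ hu₂

end Approx

section Const

variable {N : ℕ} [NeZero N]

/-- Constants are `p`-th powers in `ℚ̄`: `DeepC` implies `Deep`. -/
theorem deep_of_deepC {V : ValuationSubring (FF N)} {p : ℕ} (hp : 0 < p) {r f : FF N}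
    (h : DeepC Kbar V p r f) : Deep V p r f := by
  obtain ⟨c, g, u, hc, hg, hf, hu⟩ := h
  obtain ⟨γ, hγ⟩ := IsAlgClosed.exists_pow_nat_eq c hp
  have hγ0 : γ ≠ 0 := by
    rintro rfl
    rw [zero_pow hp.ne'] at hγ
    exact hc hγ.symm
  refine ⟨algebraMap Kbar (FF N) γ * g,
    u, mul_ne_zero (by rwa [Ne, map_eq_zero_iff _ (algebraMap Kbar (FF N)).injective]) hg, ?_, hu⟩
  rw [hf, mul_pow, ← map_pow, hγ]

theorem deepC_of_deep {V : ValuationSubring (FF N)} {p : ℕ} {r f : FF N}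
    (h : Deep V p r f) : DeepC Kbar V p r f := by
  obtain ⟨g, u, hg, hf, hu⟩ := h
  exact ⟨1, g, u, one_ne_zero, hg, by rw [map_one, one_mul]; exact hf, hu⟩

end Const

section SL

variable {p M' : ℕ} [NeZero (p * M')] {A : ValuationSubring Kbar}

/-- the ring `V∞` of `A2/H553` is the ring `V∞` of `A2/H708` -/
theorem vInf_eq_Vinf (hp : p ≠ 0) (hA : A.LiesOverPrime p) (N : ℕ) [NeZero N] :
    VInf p A hA N hp = Vinf N A hp hA :=
  Fermat.Agent.A2.H553.Vinf_eq_gaussInf (Fermat.Agent.A2.H553.gaussInput_modular A hp hA N)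
    (intGen_full N) (attainsMax_Qbar hp hA (modularFunctionFieldFull N))

/-- reduction `1` on `C∞` ⟹ depth one with a constant at `V∞` -/
theorem deepC_of_isRedInf_one (hpp : p.Prime) (hA : A.LiesOverPrime p) {N : ℕ} [NeZero N]
    {f g : FF N} (hg : g ≠ 0) (h : IsRedInf N A (f * (g ^ p)⁻¹) 1) :
    ∃ ϖ : Kbar, ϖ ≠ 0 ∧ ϖ ∈ A.nonunits ∧ DeepC Kbar (Vinf N A hpp.ne_zero hA) p (cF N ϖ) f := by
  obtain ⟨c, hc, hu⟩ := oneAddNonunits_of_isRedInf_one hpp.ne_zero hA h
  rw [vInf_eq_Vinf hpp.ne_zero hA N] at hu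
  have hp0 : (p : Kbar) ≠ 0 := by exact_mod_cast hpp.ne_zero
  obtain ⟨ϖ, hϖ0, hϖ, hx⟩ :=
    (gaussLike_Vinf N A hpp.ne_zero hA).exists_depth hu hp0 hA
  refine ⟨ϖ, hϖ0, hϖ, c, g, _, hc, hg, ?_, hx⟩
  have hc' : algebraMap Kbar (FF N) c ≠ 0 := by
    rwa [Ne, map_eq_zero_iff _ (algebraMap Kbar (FF N)).injective]
  have hgp : g ^ p ≠ 0 := pow_ne_zero p hg
  field_simp

/-- membership in `V₀` -/
theorem mem_Vzero_iff (hp0 : p ≠ 0) (hA : A.LiesOverPrime p) {N : ℕ} [NeZero N] {y : FF N} :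
    y ∈ Vzero N A hp0 hA ↔ wF N y ∈ Vinf N A hp0 hA := Iff.rfl

/-- transport of `1 + ϖ V` along `w_N` -/
theorem oneMod_Vzero_wF (hp0 : p ≠ 0) (hA : A.LiesOverPrime p) {N : ℕ} [NeZero N]
    {ϖ : Kbar} {u : FF N} (h : OneMod (Vinf N A hp0 hA) (cF N ϖ) u) :
    OneMod (Vzero N A hp0 hA) (cF N ϖ) (wF N u) := by
  obtain ⟨y, hy, hu⟩ := h
  have hy' : wF N y ∈ Vzero N A hp0 hA := by
    rw [mem_Vzero_iff, wF_wF]
    exact hy
  refine ⟨wF N y, hy', ?_⟩
  rw [hu, map_add, map_one, map_mul]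
  congr 2
  exact AlgEquiv.commutes (wF N) ϖ

/-- transport of `DeepC` along `w_N` -/
theorem deepC_Vzero_of_wF (hp0 : p ≠ 0) (hA : A.LiesOverPrime p) {N : ℕ} [NeZero N]
    {q : ℕ} {ϖ : Kbar} {f : FF N} (h : DeepC Kbar (Vinf N A hp0 hA) q (cF N ϖ) (wF N f)) :
    DeepC Kbar (Vzero N A hp0 hA) q (cF N ϖ) f := by
  obtain ⟨c, g₁, u, hc, hg₁, hf, hu⟩ := h
  have hg₁' : wF N g₁ ≠ 0 := fun h0 => hg₁ ((map_eq_zero_iff _ (wF N).injective).mp h0)
  have hc' : wF N (algebraMap Kbar (FF N) c) = algebraMap Kbar (FF N) c :=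
    AlgEquiv.commutes (wF N) c
  have e : f = algebraMap Kbar (FF N) c * wF N g₁ ^ q * wF N u := by
    calc f = wF N (wF N f) := (wF_wF N f).symm
      _ = wF N (algebraMap Kbar (FF N) c * g₁ ^ q * u) := by rw [hf]
      _ = wF N (algebraMap Kbar (FF N) c) * wF N g₁ ^ q * wF N u := by
          rw [map_mul, map_mul, map_pow]
      _ = algebraMap Kbar (FF N) c * wF N g₁ ^ q * wF N u := by rw [hc']
  exact ⟨c, wF N g₁, wF N u, hc, hg₁', e, oneMod_Vzero_wF hp0 hA hu⟩

/-- reduction `1` on `C₀` ⟹ depth one with a constant at `V₀` -/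
theorem deepC_of_isRedZero_one (hpp : p.Prime) (hA : A.LiesOverPrime p) {N : ℕ} [NeZero N]
    {f g : FF N} (hg : g ≠ 0) (h : IsRedZero N A (f * (g ^ p)⁻¹) 1) :
    ∃ ϖ : Kbar, ϖ ≠ 0 ∧ ϖ ∈ A.nonunits ∧
      DeepC Kbar (Vzero N A hpp.ne_zero hA) p (cF N ϖ) f := by
  have h0 : IsRedInf N A (wF N (f * (g ^ p)⁻¹)) 1 := h
  have e : wF N (f * (g ^ p)⁻¹) = wF N f * ((wF N g) ^ p)⁻¹ := by
    rw [map_mul, map_inv₀, map_pow]
  rw [e] at h0
  have hg' : wF N g ≠ 0 := fun h1 => hg ((map_eq_zero_iff _ (wF N).injective).mp h1)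
  obtain ⟨ϖ, hϖ0, hϖ, hd⟩ := deepC_of_isRedInf_one hpp hA hg' h0
  exact ⟨ϖ, hϖ0, hϖ, deepC_Vzero_of_wF hpp.ne_zero hA hd⟩

/-- **SL** (`Ribet/H220/S2Spec.lean`): the split-lift leaf of the (S2) chain. -/
theorem splitLift : SplitLiftStatement := by
  intro p M' _ _ _ hp hpM A hA f _ hfS
  obtain ⟨⟨g, hg0, hg⟩, ⟨g', hg0', hg'⟩⟩ := splitGen_lift hp hpM hA hfS
  exact ⟨deepC_of_isRedInf_one hp hA hg0 hg, deepC_of_isRedZero_one hp hA hg0' hg'⟩

/-- **WEAK-APPROX for split Kummer generators**: `f = g ^ p · u` with ONE `g` and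
`u ∈ (1 + ϖ V∞) ∩ (1 + ϖ V₀)` for a nonzero nonunit `ϖ` of `A`. -/
theorem splitGen_common [NeZero M'] [NeZero p] (hpp : p.Prime) (hpM : ¬ p ∣ M')
    (hA : A.LiesOverPrime p) {f : FF (p * M')} (h : SplitGen p M' A f) :
    ∃ (ϖ : Kbar) (g u : FF (p * M')), ϖ ≠ 0 ∧ ϖ ∈ A.nonunits ∧ g ≠ 0 ∧ f = g ^ p * u ∧
      OneMod (Vinf (p * M') A hpp.ne_zero hA) (cF (p * M') ϖ) u ∧
      OneMod (Vzero (p * M') A hpp.ne_zero hA) (cF (p * M') ϖ) u := by
  obtain ⟨⟨g₁, hg₁0, hg₁⟩, ⟨g₂, hg₂0, hg₂⟩⟩ := splitGen_lift hpp hpM hA h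
  obtain ⟨ϖ₁, hϖ₁0, hϖ₁, hd₁⟩ := deepC_of_isRedInf_one hpp hA hg₁0 hg₁
  obtain ⟨ϖ₂, hϖ₂0, hϖ₂, hd₂⟩ := deepC_of_isRedZero_one hpp hA hg₂0 hg₂
  obtain ⟨ϖ, hϖ0, hϖ, ⟨x₁, hx₁, e₁⟩, ⟨x₂, hx₂, e₂⟩⟩ :=
    WA.exists_common_div A hϖ₁0 hϖ₂0 hϖ₁ hϖ₂
  have hI : Deep (Vinf (p * M') A hpp.ne_zero hA) p (cF (p * M') ϖ) f := by
    obtain ⟨a, b, u, ha, hb, hf, hu⟩ := deep_of_deepC hpp.pos hd₁ |> fun h => deepC_of_deep h
    refine deep_of_deepC hpp.pos ⟨a, b, u, ha, hb, hf, ?_⟩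
    refine WA.OneModV.mono (a := cF (p * M') x₁)
      ((gaussLike_Vinf (p * M') A hpp.ne_zero hA).1 x₁ |>.2 hx₁) ?_ hu
    rw [cF, cF, cF, ← map_mul, e₁]
  have hZ : Deep (Vzero (p * M') A hpp.ne_zero hA) p (cF (p * M') ϖ) f := by
    obtain ⟨a, b, u, ha, hb, hf, hu⟩ := deep_of_deepC hpp.pos hd₂ |> fun h => deepC_of_deep h
    refine deep_of_deepC hpp.pos ⟨a, b, u, ha, hb, hf, ?_⟩
    refine WA.OneModV.mono (a := cF (p * M') x₂)
      ((gaussLike_Vzero (p * M') A hpp.ne_zero hA).1 x₂ |>.2 hx₂) ?_ hu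
    rw [cF, cF, cF, ← map_mul, e₂]
  obtain ⟨g, u, hg, hf, hu₁, hu₂⟩ :=
    deep_common (p * M') A hpp hA (dvd_mul_right p M') p hϖ0 hϖ hI hZ
  exact ⟨ϖ, g, u, hϖ0, hϖ, hg, hf, hu₁, hu₂⟩

/-- an element of `1 + ϖ V`, `ϖ ∈ 𝔪`, lies in `1 + 𝔪_V` -/
theorem oneAddNonunits_of_oneMod {F : Type*} [Field F] {V : ValuationSubring F} {r u : F}
    (hr : r ∈ V.nonunits) (h : OneMod V r u) : OneAddNonunits V u := by
  obtain ⟨y, hy, rfl⟩ := h
  show V.valuation (1 + r * y - 1) < 1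
  rw [add_sub_cancel_left, map_mul]
  calc V.valuation r * V.valuation y ≤ V.valuation r * 1 :=
        mul_le_mul' le_rfl ((V.valuation_le_one_iff y).2 hy)
    _ = V.valuation r := mul_one _
    _ < 1 := V.mem_nonunits_iff.1 hr

/-- **WEAK-APPROX for split Kummer generators**, form `1 + 𝔪`: ONE `g ≠ 0` such that
`u = f / g ^ p` and `w_N u` lie in `1 + 𝔪_{V∞}` (`V∞ = H708.Vinf = H553.VinfModular`). -/
theorem splitGen_common_oneAdd [NeZero M'] [NeZero p] (hpp : p.Prime) (hpM : ¬ p ∣ M')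
    (hA : A.LiesOverPrime p) {f : FF (p * M')} (h : SplitGen p M' A f) :
    ∃ g : FF (p * M'), g ≠ 0 ∧
      OneAddNonunits (Vinf (p * M') A hpp.ne_zero hA) (f * (g ^ p)⁻¹) ∧
      OneAddNonunits (Vinf (p * M') A hpp.ne_zero hA) (wF (p * M') (f * (g ^ p)⁻¹)) ∧
      OneAddNonunits (VInf p A hA (p * M') hpp.ne_zero) (f * (g ^ p)⁻¹) ∧
      OneAddNonunits (VInf p A hA (p * M') hpp.ne_zero) (wF (p * M') (f * (g ^ p)⁻¹)) := by
  obtain ⟨ϖ, g, u, hϖ0, hϖ, hg, hf, hu₁, hu₂⟩ := splitGen_common hpp hpM hA h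
  have hgp : g ^ p ≠ 0 := pow_ne_zero p hg
  have e : f * (g ^ p)⁻¹ = u := by
    rw [hf]
    field_simp
  have hϖV : cF (p * M') ϖ ∈ (Vinf (p * M') A hpp.ne_zero hA).nonunits :=
    (Vinf (p * M') A hpp.ne_zero hA).mem_nonunits_iff.2
      (((gaussLike_Vinf (p * M') A hpp.ne_zero hA).valuation_lt_one_iff ϖ).2
        (A.mem_nonunits_iff.1 hϖ))
  have hϖV' : cF (p * M') ϖ ∈ (Vzero (p * M') A hpp.ne_zero hA).nonunits :=
    (Vzero (p * M') A hpp.ne_zero hA).mem_nonunits_iff.2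
      (((gaussLike_Vzero (p * M') A hpp.ne_zero hA).valuation_lt_one_iff ϖ).2
        (A.mem_nonunits_iff.1 hϖ))
  have h1 : OneAddNonunits (Vinf (p * M') A hpp.ne_zero hA) u :=
    oneAddNonunits_of_oneMod hϖV hu₁
  have h2 : OneAddNonunits (Vinf (p * M') A hpp.ne_zero hA) (wF (p * M') u) :=
    (oneAddNonunits_Vzero_iff hpp.ne_zero hA).1 (oneAddNonunits_of_oneMod hϖV' hu₂)
  refine ⟨g, hg, ?_, ?_, ?_, ?_⟩
  · rw [e]
    exact h1
  · rw [e]
    exact h2
  · rw [e, vInf_eq_Vinf hpp.ne_zero hA (p * M')]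
    exact h1
  · rw [e, vInf_eq_Vinf hpp.ne_zero hA (p * M')]
    exact h2

end SL

end Fermat.Agent.Ribet.H573

end

end
-- ===== PACK-END Ribet/H573/WeakApprox.lean

-- ===== PACK-BEGIN Ribet/H220/S2Level.lean
section






/-!
# Row 38, WALL-p, **(S2)**: sub-interface of the leaf DK (`H220.DeepKummerStatement`)
(chain architect helper220; FROZEN Props, glue in `S2LevelGlue.lean` / `S2Descent.lean`)

DK is proved at a good level `E ⊆ ℚ̄` (`A2.GoodField P E`) containing a primitive `p`-th root of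
unity and the coefficients of the data, exactly as A2's `T1`:

    DK  ⟸  LevelStatement + GaussDescentStatement            (descent glue, `S2Descent.lean`)
    LevelStatement  ⟸  H495.AlgP.AlgPStatement + MergeStatement + CutLocStatement
                        + A2's MOD at `q = p` (S1, Sτ, L1, L4, L6, L8 from main; S2, S3, GOODRED)
                                                             (level glue, `S2LevelGlue.lean`)

Vocabulary of `A2/Mod/Spec.lean`, `A2/Mod/Asm.lean` (level `N = M * p`, `V` with `Mod.IsVinf`,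
`W` with `Mod.IsFricke`, `V₀ = V.comap W`, charts `Mod.chartAlg`, cuts `Mod.IsCut`) and of
`S2Spec.lean` (`OneMod`, `Deep`).

| leaf | Prop | content |
|---|---|---|
| LEVEL | `LevelStatement` | at a good level `E ∋ ζ_p`: `p ∣ div y`, `y ∈ Fˣᵖ(1 + p²V) ∩ Fˣᵖ(1 + p²V₀)` ⟹ `τ y = hᵖ·y^c` |
| GD    | `GaussDescentStatement` | `y ∈ F_E`, `ι y ∈ H708.Vinf` (Gauss ring over `P ⊆ ℚ̄`) ⟹ `y ∈ V∞(E)` (normal form over `R_E`) |
| MERGE | `MergeStatement` | Mathlib + `H48.IsUnif`: two distinct discrete valuation rings, `f ∈ Fˣᵖ(1 + rV₁) ∩ Fˣᵖ(1 + rV₂)` ⟹ `f = hᵖ·u`, `u ∈ (1 + rV₁) ∩ (1 + rV₂)` (weak approximation) |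
| CUTLOC| `CutLocStatement` | `V∞ = B_{p₁}`, `V₀ = B_{p₂}` for the charts `B` of the coordinates `x`, `x⁻¹` and the cuts `p₁ = B ∩ wV∞`, `p₂ = B ∩ wV₀` |
-/

set_option autoImplicit false
set_option synthInstance.maxHeartbeats 400000
set_option maxHeartbeats 1600000

noncomputable section

namespace Fermat.Agent.Ribet.H220

open AlgebraicCurve ModularCurve
open Fermat.Agent.A2

/-- **LEVEL.**  `E` a good level for `P` (over `p ≥ 5`, `p ∤ M`) containing a primitive `p`-th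
root of unity `ζ`; `N = M * p`; `V = V∞`, `W` the Fricke involution of `F_{N,E}`; `τ` in the
inertia group of `P` with `τ ζ = ζ ^ c`.  If `p ∣ div y` and `y` is a `p`-th power times an element
of `1 + p² V` at `V = V∞` and at `V = V₀ = V∞ ∘ W`, then `τ y = h ^ p · y ^ c`. -/
def LevelStatement : Prop :=
  ∀ (P : ValuationSubring Qb) (E : IntermediateField ℚ Qb) (M p N : ℕ) [NeZero M] [NeZero p]
    [NeZero N], M * p = N → p.Prime → 5 ≤ p → ¬ p ∣ M → P.LiesOverPrime p →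
    ∀ (hE : GoodField P E) (ζ : E), IsPrimitiveRoot ζ p →
    ∀ (V : ValuationSubring (FE E N)) (W : FE E N ≃ₐ[E] FE E N),
      Mod.IsVinf P E N V → Mod.IsFricke E N W →
    ∀ (τ : Qb ≃ₐ[ℚ] Qb) (hτ : τ ∈ P.inertiaSubgroupIn ℚ) (c : ℕ), hE.res τ hτ ζ = ζ ^ c →
    ∀ y : FE E N, y ≠ 0 → DivisibleDiv E p y →
      Deep V p (algebraMap E (FE E N) ((p : E) ^ 2)) y →
      Deep (V.comap (W : FE E N →+* FE E N)) p (algebraMap E (FE E N) ((p : E) ^ 2)) y →
      ∃ h : FE E N, h ≠ 0 ∧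
        arithmeticRingAut (modularFunctionFieldFull N) (hE.res τ hτ) y = h ^ p * y ^ c

/-- **GD (Gauss descent).**  If `R_E = P ∩ E` is a discrete valuation ring, a function of level
`E` whose image in `ℚ̄(X₀(N))` lies in the Gauss ring `H708.Vinf` (over `P`) lies in the Gauss
ring `V∞` of level `E`. -/
def GaussDescentStatement : Prop :=
  ∀ (P : ValuationSubring Qb) (E : IntermediateField ℚ Qb) (N : ℕ) [NeZero N] {ℓ : ℕ}
    (hℓ : ℓ ≠ 0) (hP : (ℓ : Qb) ∈ P.nonunits), IsDiscreteValuationRing (RE P E) →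
    ∀ V : ValuationSubring (FE E N), Mod.IsVinf P E N V →
    ∀ y : FE E N,
      T1.H669.iota E (modularFunctionFieldFull N) y ∈ H708.Vinf N P hℓ hP → y ∈ V

/-- **MERGE (weak approximation for two discrete valuation rings).**  `V₁ ≠ V₂` valuation
subrings of `F` with common uniformiser `π`, both archimedean; `r ∈ π V₁ ∩ π V₂`, `r ≠ 0`.  If `f`
is a `p`-th power times an element of `1 + r V_i` for `i = 1` and for `i = 2`, then `f = h ^ p · u`
with ONE `h` and `u ∈ (1 + r V₁) ∩ (1 + r V₂)`. -/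
def MergeStatement : Prop :=
  ∀ {F : Type} [Field F] (V₁ V₂ : ValuationSubring F) (π : F),
    H48.IsUnif V₁ π → H48.IsUnif V₂ π → V₁ ≠ V₂ →
    (∀ x : F, ∃ n : ℕ, π ^ n * x ∈ V₁) → (∀ x : F, ∃ n : ℕ, π ^ n * x ∈ V₂) →
    ∀ (p : ℕ) (r f : F), r ≠ 0 → r * π⁻¹ ∈ V₁ → r * π⁻¹ ∈ V₂ →
      Deep V₁ p r f → Deep V₂ p r f →
      ∃ h u : F, h ≠ 0 ∧ f = h ^ p * u ∧ OneMod V₁ r u ∧ OneMod V₂ r u

/-- **CUTLOC.**  In the setting of A2's MOD (`Mod.Setting`, level `M * q`), for the chart `B` of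
a coordinate `y ∈ {x, x⁻¹}` and the two cuts `p₁ = B ∩ w V∞`, `p₂ = B ∩ w V₀`: every element of
`V∞` is a fraction `a / b` with `a, b ∈ B`, `b ∉ p₁`, and every element of `V₀` is a fraction
`a / b` with `b ∉ p₂`  (`V∞ = B_{p₁}`, `V₀ = B_{p₂}`). -/
def CutLocStatement : Prop :=
  ∀ (P : ValuationSubring Qb) (E : IntermediateField ℚ Qb) (M q : ℕ) [NeZero M] [NeZero q]
    (w : RE P E), Mod.Setting P E M q w →
    ∀ (V : ValuationSubring (FE E (M * q))) (W : FE E (M * q) ≃ₐ[E] FE E (M * q)),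
      Mod.IsVinf P E (M * q) V → Mod.IsFricke E (M * q) W →
    ∀ y : FE E (M * q), Mod.IsCoord E M q y →
    ∀ p₁ p₂ : Ideal (Mod.chartAlg P E (M * q) y),
      Mod.IsCut P E (M * q) w V (Mod.chartAlg P E (M * q) y) p₁ →
      Mod.IsCut P E (M * q) w (V.comap (W : FE E (M * q) →+* FE E (M * q)))
        (Mod.chartAlg P E (M * q) y) p₂ →
      (∀ f ∈ V, ∃ a b : Mod.chartAlg P E (M * q) y, b ∉ p₁ ∧
        f * (b : FE E (M * q)) = (a : FE E (M * q))) ∧
      (∀ f ∈ V.comap (W : FE E (M * q) →+* FE E (M * q)),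
        ∃ a b : Mod.chartAlg P E (M * q) y, b ∉ p₂ ∧
          f * (b : FE E (M * q)) = (a : FE E (M * q)))

end Fermat.Agent.Ribet.H220

end

end
-- ===== PACK-END Ribet/H220/S2Level.lean

-- ===== PACK-BEGIN Ribet/H216/GaussDescent.lean
section



/-!
# Row 38 / S33, WALL-p, (S2), leaf **GD** (`H220.GaussDescentStatement`) — helper216

`gaussDescent : H220.GaussDescentStatement` (VERBATIM): if `R_E = P ∩ E` is a discrete valuation
ring and `y ∈ F_{N,E}` has image `ι y ∈ ℚ̄(X₀(N))` in the Gauss ring `H708.Vinf` over `P`, then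
`y` lies in the Gauss ring `V∞` of level `E`.

Proof: normal form `y · U₂ = c · U₁` over `R_E` (`H708.exists_normal_form`, `R_E` noetherian);
pushing the coefficients to `P` keeps `U₁, U₂` primitive, so `ι y · U₂' = c · U₁'` is a normal
form over `P` and `H708.isGaussInt_iff_of_normal_form` gives `c ∈ P`, i.e. `c ∈ R_E`; the same
lemma over `R_E` gives `y ∈ V∞`.
-/

set_option autoImplicit false
set_option synthInstance.maxHeartbeats 400000
set_option maxHeartbeats 1600000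

noncomputable section

namespace Fermat.Agent.Ribet.H216

open AlgebraicCurve ModularCurve HahnSeries
open Fermat.Agent.A2

/-- The inclusion `R_E → P` of valuation rings. -/
def reToP (P : ValuationSubring Qb) (E : IntermediateField ℚ Qb) : RE P E →+* P where
  toFun r := ⟨algebraMap E Qb (r : E), r.2⟩
  map_one' := Subtype.ext (map_one _)
  map_mul' _ _ := Subtype.ext (map_mul _ _ _)
  map_zero' := Subtype.ext (map_zero _)
  map_add' _ _ := Subtype.ext (map_add _ _ _)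

theorem coe_reToP (P : ValuationSubring Qb) (E : IntermediateField ℚ Qb) (r : RE P E) :
    ((reToP P E r : P) : Qb) = algebraMap E Qb (r : E) := rfl

/-- Pushing `R_E`-integral series to `P`-integral series commutes with the inclusions. -/
theorem incl_coeffMap_reToP (P : ValuationSubring Qb) (E : IntermediateField ℚ Qb)
    (U : LaurentSeries (RE P E)) :
    H708.incl P (coeffMap (reToP P E) U) = coeffMap (algebraMap E Qb) (H708.incl (RE P E) U) := by
  rw [H708.incl, H708.incl, coeffMap_coeffMap, coeffMap_coeffMap]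
  exact coeffMap_congr (RingHom.ext fun _ => rfl) U

/-- A unit of `R_E` is a unit of `P` (valuation form). -/
theorem valuation_reToP_eq_one (P : ValuationSubring Qb) (E : IntermediateField ℚ Qb)
    {e : E} (h : (RE P E).valuation e = 1) : P.valuation (algebraMap E Qb e) = 1 := by
  have he0 : e ≠ 0 := by
    rintro rfl
    rw [map_zero] at h
    exact zero_ne_one h
  have he0' : algebraMap E Qb e ≠ 0 :=
    fun h0 => he0 ((map_eq_zero_iff _ (algebraMap E Qb).injective).mp h0)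
  obtain ⟨h1, h2⟩ := (H708.valuation_eq_one_iff_mem (RE P E) he0).mp h
  refine (H708.valuation_eq_one_iff_mem P he0').mpr ⟨h1, ?_⟩
  have : algebraMap E Qb e⁻¹ ∈ P := h2
  rwa [map_inv₀] at this

/-- Primitive over `R_E` ⟹ primitive over `P`. -/
theorem red_coeffMap_reToP_ne_zero (P : ValuationSubring Qb) (E : IntermediateField ℚ Qb)
    {U : LaurentSeries (RE P E)} (h : H708.red (RE P E) U ≠ 0) :
    H708.red P (coeffMap (reToP P E) U) ≠ 0 := by
  rw [H708.red_ne_zero_iff] at h ⊢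
  obtain ⟨n, hn⟩ := h
  exact ⟨n, valuation_reToP_eq_one P E hn⟩

/-- **GD (Gauss descent)** — `H220.GaussDescentStatement`, verbatim. -/
theorem gaussDescent : H220.GaussDescentStatement := by
  intro P E N _ ℓ hℓ hP hdvr V hV y hy
  by_cases hy0 : y = 0
  · rw [hy0]; exact V.zero_mem
  have := hdvr
  have hy0' : ((y : FE E N) : LaurentSeries E) ≠ 0 := fun h => hy0 (Subtype.ext h)
  obtain ⟨c, U₁, U₂, hc, h₁, h₂, hm₁, hm₂, he⟩ :=
    H708.exists_normal_form (A := RE P E) (H708.intGen_full N)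
      (H708.attainsMax_of_isNoetherianRing (RE P E) (modularFunctionFieldFull N)) y.2 hy0'
  rw [hV y]
  rw [H708.isGaussInt_iff_of_normal_form h₁ h₂ hm₂ he]
  -- the normal form over `P`
  have h₁' := red_coeffMap_reToP_ne_zero P E h₁
  have h₂' := red_coeffMap_reToP_ne_zero P E h₂
  have hm₂' : H708.incl P (coeffMap (reToP P E) U₂) ∈
      laurentBaseChange Qb (modularFunctionFieldFull N) := by
    rw [incl_coeffMap_reToP]
    exact Fermat.Agent.S18.H602.coeffMap_mem_laurentBaseChange _ _ hm₂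
  have he' : ((T1.H669.iota E (modularFunctionFieldFull N) y :
        ↥(laurentBaseChange Qb (modularFunctionFieldFull N))) : LaurentSeries Qb) *
      H708.incl P (coeffMap (reToP P E) U₂) =
      H708.cst (algebraMap E Qb c) * H708.incl P (coeffMap (reToP P E) U₁) := by
    rw [incl_coeffMap_reToP, incl_coeffMap_reToP, T1.H669.coe_iota, ← map_mul, he, map_mul]
    congr 1
    exact Fermat.Agent.S18.H602.coeffMap_algebraMap' (algebraMap E Qb) c
  have hG : H708.IsGaussInt P (modularFunctionFieldFull N)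
      ((T1.H669.iota E (modularFunctionFieldFull N) y :
        ↥(laurentBaseChange Qb (modularFunctionFieldFull N))) : LaurentSeries Qb) := hy
  exact (H708.isGaussInt_iff_of_normal_form h₁' h₂' hm₂' he').mp hG

end Fermat.Agent.Ribet.H216

end

end
-- ===== PACK-END Ribet/H216/GaussDescent.lean

-- ===== PACK-BEGIN Ribet/H232/NCFinal.lean
section








/-!
# RIBET / WALL-p, (S2): the leaf NC = `H220.NormContrStatement` (helper232)

`theorem normContr : Fermat.Agent.Ribet.H220.NormContrStatement` (VERBATIM): norm contraction in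
the ABSOLUTE form (level `ℚ̄`, Gauss valuation rings `H708.Vinf`, `H708.Vzero` of
`ℚ̄(X₀(p M'))`).

Route: level descent to a good level `E ⊆ ℚ̄` (`A2.IF.H429.ifStatement`,
`T1.H669.exists_finset_descent`) where `R_E` is a discrete valuation ring, Gauss descent/ascent
between `H708.Vinf` (over `A ⊆ ℚ̄`) and `V∞` of level `E` (`isGaussInt_descent`,
`isGaussInt_ascent`, via `H708` normal forms), norms commute with `E ⊆ ℚ̄`
(`S35.H858.iota_normAlong`), and the concrete norm contraction `wnc_both_one_to` at level `E`.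
Only the depth-`ϖ` hypothesis at `V∞` is used.
-/

set_option autoImplicit false
set_option synthInstance.maxHeartbeats 400000
set_option maxHeartbeats 1600000
set_option linter.unusedSectionVars false
set_option linter.style.haveILetI false

noncomputable section

namespace Fermat.Agent.Ribet.H232

open ModularCurve HahnSeries AlgebraicCurve
open Fermat.Agent.A2 Fermat.Agent.A2.Mod Fermat.Agent.A2.H48

local notation "Q̄" => AlgebraicClosure ℚ

/-! ## 1. Gauss descent and ascent -/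

section GaussLevels

variable (A : ValuationSubring Q̄) (E : IntermediateField ℚ Q̄)

/-- The inclusion `R_E = A ∩ E → A`. -/
def inclRA : Mod.RE A E →+* A where
  toFun x := ⟨algebraMap E Q̄ (x : E), x.2⟩
  map_one' := Subtype.ext (map_one _)
  map_mul' _ _ := Subtype.ext (map_mul _ _ _)
  map_zero' := Subtype.ext (map_zero _)
  map_add' _ _ := Subtype.ext (map_add _ _ _)

theorem coeffMap_incl_RE (U : LaurentSeries (Mod.RE A E)) :
    coeffMap (algebraMap E Q̄) (H708.incl (Mod.RE A E) U)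
      = H708.incl A (coeffMap (inclRA A E) U) := by
  ext n
  rfl

theorem red_inclRA_ne_zero {U : LaurentSeries (Mod.RE A E)} (h : H708.red (Mod.RE A E) U ≠ 0) :
    H708.red A (coeffMap (inclRA A E) U) ≠ 0 := by
  rw [H708.red_ne_zero_iff] at h ⊢
  obtain ⟨n, hn⟩ := h
  refine ⟨n, ?_⟩
  have hx0 : ((U.coeff n : Mod.RE A E) : E) ≠ 0 := by
    intro h0
    rw [h0, map_zero] at hn
    exact zero_ne_one hn
  obtain ⟨h1, h2⟩ := (H708.valuation_eq_one_iff_mem (Mod.RE A E) hx0).mp hn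
  have hx0' : algebraMap E Q̄ ((U.coeff n : Mod.RE A E) : E) ≠ 0 :=
    (map_ne_zero_iff _ (algebraMap E Q̄).injective).mpr hx0
  show A.valuation (algebraMap E Q̄ ((U.coeff n : Mod.RE A E) : E)) = 1
  rw [H708.valuation_eq_one_iff_mem A hx0']
  refine ⟨h1, ?_⟩
  have h3 : algebraMap E Q̄ (((U.coeff n : Mod.RE A E) : E)⁻¹) ∈ A := h2
  rwa [map_inv₀] at h3

variable {A E}

/-- **Gauss ascent**: Gauss-integral at level `E` ⟹ Gauss-integral over `ℚ̄`. -/
theorem isGaussInt_ascent {F₀ : IntermediateField ℚ (LaurentSeries ℚ)} {y : LaurentSeries E}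
    (h : H708.IsGaussInt (Mod.RE A E) F₀ y) :
    H708.IsGaussInt A F₀ (coeffMap (algebraMap E Q̄) y) := by
  obtain ⟨U₁, U₂, hU₂, hm, he⟩ := h
  refine ⟨coeffMap (inclRA A E) U₁, coeffMap (inclRA A E) U₂, red_inclRA_ne_zero A E hU₂, ?_, ?_⟩
  · rw [← coeffMap_incl_RE]
    exact Fermat.Agent.S18.H602.coeffMap_mem_laurentBaseChange F₀ _ hm
  · rw [← coeffMap_incl_RE, ← coeffMap_incl_RE, ← map_mul, he]

/-- **Gauss descent**: an element of `F_E` which is Gauss-integral over `ℚ̄` is Gauss-integral at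
level `E` (`R_E` noetherian). -/
theorem isGaussInt_descent [IsNoetherianRing (Mod.RE A E)]
    {F₀ : IntermediateField ℚ (LaurentSeries ℚ)} (hgen : H708.IntGen F₀) {y : LaurentSeries E}
    (hy : y ∈ laurentBaseChange E F₀)
    (h : H708.IsGaussInt A F₀ (coeffMap (algebraMap E Q̄) y)) :
    H708.IsGaussInt (Mod.RE A E) F₀ y := by
  by_cases hy0 : y = 0
  · rw [hy0]
    exact H708.IsGaussInt.zero
  obtain ⟨c, U₁, U₂, hc, h₁, h₂, hm₁, hm₂, he⟩ :=
    H708.exists_normal_form hgen (H708.attainsMax_of_isNoetherianRing (Mod.RE A E) F₀) hy hy0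
  have hm₂' : H708.incl A (coeffMap (inclRA A E) U₂) ∈ laurentBaseChange Q̄ F₀ := by
    rw [← coeffMap_incl_RE]
    exact Fermat.Agent.S18.H602.coeffMap_mem_laurentBaseChange F₀ _ hm₂
  have he' : coeffMap (algebraMap E Q̄) y * H708.incl A (coeffMap (inclRA A E) U₂)
      = H708.cst (algebraMap E Q̄ c) * H708.incl A (coeffMap (inclRA A E) U₁) := by
    rw [← coeffMap_incl_RE, ← coeffMap_incl_RE, ← map_mul, he, map_mul]
    congr 1
    exact Fermat.Agent.S18.H602.coeffMap_algebraMap' (algebraMap E Q̄) c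
  have hcA : algebraMap E Q̄ c ∈ A :=
    (H708.isGaussInt_iff_of_normal_form (red_inclRA_ne_zero A E h₁) (red_inclRA_ne_zero A E h₂)
      hm₂' he').mp h
  exact (H708.isGaussInt_iff_of_normal_form h₁ h₂ hm₂ he).mpr hcA

end GaussLevels

/-! ## 2. nonunits -/

section Nonunit

variable {A : ValuationSubring Q̄} {E : IntermediateField ℚ Q̄}

/-- a nonunit of `A` lying in `E` is divisible by the uniformiser of `R_E`. -/
theorem exists_eq_mul_of_nonunit [IsDiscreteValuationRing (Mod.RE A E)] {w : Mod.RE A E}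
    (hw : Irreducible w) {ϖ : E} (hϖ : algebraMap E Q̄ ϖ ∈ A.nonunits) :
    ∃ r : Mod.RE A E, ϖ = (w : E) * (r : E) := by
  have hv : A.valuation (algebraMap E Q̄ ϖ) < 1 := (ValuationSubring.mem_nonunits_iff A).mp hϖ
  have hmem : algebraMap E Q̄ ϖ ∈ A := (A.valuation_le_one_iff _).mp hv.le
  set x : Mod.RE A E := ⟨ϖ, hmem⟩ with hx
  have hnu : ¬ IsUnit x := by
    intro hu
    obtain ⟨u', hu'⟩ := hu.exists_right_inv
    have h1 : ϖ * (u' : E) = 1 := congrArg (fun z : Mod.RE A E => (z : E)) hu'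
    have h2 : algebraMap E Q̄ ϖ * algebraMap E Q̄ (u' : E) = 1 := by
      rw [← map_mul, h1, map_one]
    have h3 : A.valuation (algebraMap E Q̄ (u' : E)) ≤ 1 := (A.valuation_le_one_iff _).mpr u'.2
    have h4 := congrArg A.valuation h2
    rw [map_mul, map_one] at h4
    have h5 : A.valuation (algebraMap E Q̄ ϖ) * A.valuation (algebraMap E Q̄ (u' : E)) < 1 :=
      mul_lt_one_of_lt_of_le hv h3
    rw [h4] at h5
    exact lt_irrefl _ h5
  have hxm : x ∈ IsLocalRing.maximalIdeal (Mod.RE A E) := (IsLocalRing.mem_maximalIdeal _).mpr hnu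
  rw [hw.maximalIdeal_eq, Ideal.mem_span_singleton'] at hxm
  obtain ⟨r, hr⟩ := hxm
  refine ⟨r, ?_⟩
  have h6 : ((r * w : Mod.RE A E) : E) = (x : E) := congrArg (fun z : Mod.RE A E => (z : E)) hr
  have h7 : (x : E) = ϖ := rfl
  rw [← h7, ← h6]
  show (r : E) * (w : E) = (w : E) * (r : E)
  exact mul_comm _ _

end Nonunit

/-! ## 3. the leaf -/

section Main

open Fermat.Agent.S24 Fermat.Agent.A2.H708 Fermat.Agent.A2.H528
open Fermat.Agent.S29.H395 Fermat.Agent.S29.H801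
open Fermat.Agent.A2.T1.H669
open Fermat.Agent.Ribet.H220

/-- retargeted finiteness for `β` (local copy of the one-line transport). -/
theorem betaTo_finite_nc (L : Type*) [Field L] [Algebra ℚ L] {M ℓ N : ℕ} [NeZero M] [NeZero ℓ]
    [NeZero N] (h : M * ℓ = N) (hfin : FiniteAlong L (ModularCurve.heckeBetaBar L M ℓ)) :
    FiniteAlong L (betaTo L M ℓ N h) := by
  subst h
  exact hfin

/-- **NC** (`H220.NormContrStatement`, VERBATIM). -/
theorem normContr : NormContrStatement := by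
  intro p M' _ _ _ hp _hp2 hpM A hA f g₁ g₂ hf hNα hNβ ϖ hϖ0 hϖ _hdiv Dinf _Dzero n
  classical
  obtain ⟨c₁, G₁, u₁, hc₁, hG₁, hf₁, y₁, hy₁, hu₁⟩ := Dinf
  have hMN : M' * p = p * M' := Nat.mul_comm M' p
  -- the level
  obtain ⟨Sf, hSf⟩ := exists_finset_descent (modularFunctionFieldFull (p * M')) f
  obtain ⟨SG, hSG⟩ := exists_finset_descent (modularFunctionFieldFull (p * M')) G₁
  obtain ⟨Sy, hSy⟩ := exists_finset_descent (modularFunctionFieldFull (p * M')) y₁
  obtain ⟨S₁, hS₁⟩ := exists_finset_descent (modularFunctionFieldFull M') g₁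
  obtain ⟨S₂, hS₂⟩ := exists_finset_descent (modularFunctionFieldFull M') g₂
  obtain ⟨E, hSE, hE⟩ := Fermat.Agent.A2.IF.H429.ifStatement p hp A hA
    (Sf ∪ SG ∪ Sy ∪ S₁ ∪ S₂ ∪ {ϖ, c₁})
  obtain ⟨fE, hfE⟩ := hSf E (fun s hs => hSE s (by simp [hs]))
  obtain ⟨GE, hGE⟩ := hSG E (fun s hs => hSE s (by simp [hs]))
  obtain ⟨yE, hyE⟩ := hSy E (fun s hs => hSE s (by simp [hs]))
  obtain ⟨g₁E, hg₁E⟩ := hS₁ E (fun s hs => hSE s (by simp [hs]))
  obtain ⟨g₂E, hg₂E⟩ := hS₂ E (fun s hs => hSE s (by simp [hs]))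
  have hϖE : ϖ ∈ E := hSE ϖ (by simp)
  have hcE : c₁ ∈ E := hSE c₁ (by simp)
  obtain ⟨ϖE, hϖEdef⟩ : ∃ ϖE : E, algebraMap E Q̄ ϖE = ϖ := ⟨⟨ϖ, hϖE⟩, rfl⟩
  obtain ⟨cE₁, hcEdef⟩ : ∃ cE₁ : E, algebraMap E Q̄ cE₁ = c₁ := ⟨⟨c₁, hcE⟩, rfl⟩
  have hϖE0 : ϖE ≠ 0 := by
    rintro rfl
    rw [map_zero] at hϖEdef
    exact hϖ0 hϖEdef.symm
  have hcE0 : cE₁ ≠ 0 := by
    rintro rfl
    rw [map_zero] at hcEdef
    exact hc₁ hcEdef.symm
  haveI := hE.dvr
  obtain ⟨w, hw⟩ := IsDiscreteValuationRing.exists_irreducible (Mod.RE A E)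
  have hS : Setting A E M' p w := ⟨hp, hpM, NeZero.ne M', hA, hE.dvr, hw⟩
  obtain ⟨V, hV⟩ := H553.vinfExists A E (p * M') (NeZero.ne (p * M')) hE.dvr
  obtain ⟨VM, hVM⟩ := H553.vinfExists A E M' (NeZero.ne M') hE.dvr
  have hW := H553.isFricke_wE E (p * M')
  have hfE0 : fE ≠ 0 := by
    rintro rfl
    rw [map_zero] at hfE
    exact hf hfE.symm
  have hGE0 : GE ≠ 0 := by
    rintro rfl
    rw [map_zero] at hGE
    exact hG₁ hGE.symm
  -- the norms at level `E`
  have hcα : ∀ a, iota E (modularFunctionFieldFull (p * M')) (alphaTo E M' p (p * M') hMN a)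
      = alphaTo Q̄ M' p (p * M') hMN (iota E (modularFunctionFieldFull M') a) := fun a =>
    Subtype.ext (by rw [coe_iota, coe_alphaTo, coe_alphaTo, coe_iota])
  have hcβ : ∀ a, iota E (modularFunctionFieldFull (p * M')) (betaTo E M' p (p * M') hMN a)
      = betaTo Q̄ M' p (p * M') hMN (iota E (modularFunctionFieldFull M') a) := fun a =>
    Subtype.ext (by rw [coe_iota, coe_betaTo, coe_betaTo, coe_iota, coeffMap_qExpand])
  have hfinα : FiniteAlong Q̄ (alphaTo Q̄ M' p (p * M') hMN) :=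
    alphaTo_finite Q̄ hMN (Fermat.Agent.Lib.HI.H864.finiteAlong_alpha M' p)
  have hfinβ : FiniteAlong Q̄ (betaTo Q̄ M' p (p * M') hMN) :=
    betaTo_finite_nc Q̄ hMN (Fermat.Agent.Lib.HI.H864.finiteAlong_beta M' p)
  have hNαE : normAlong (alphaTo E M' p (p * M') hMN) fE = g₁E ^ p := by
    apply iota_injective E (modularFunctionFieldFull M')
    rw [Fermat.Agent.S35.H858.iota_normAlong E _ _ _ _ hcα hfinα fE, hfE, map_pow, hg₁E]
    exact hNα
  have hNβE : normAlong (betaTo E M' p (p * M') hMN) fE = g₂E ^ p := by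
    apply iota_injective E (modularFunctionFieldFull M')
    rw [Fermat.Agent.S35.H858.iota_normAlong E _ _ _ _ hcβ hfinβ fE, hfE, map_pow, hg₂E]
    exact hNβ
  -- depth one at `V∞`
  have hyEV : yE ∈ V := by
    rw [hV]
    refine isGaussInt_descent (H708.intGen_full (p * M')) yE.2 ?_
    have h1 : H708.IsGaussInt A (modularFunctionFieldFull (p * M'))
        ((y₁ : FF (p * M')) : LaurentSeries Q̄) := hy₁
    rw [← hyE] at h1
    exact h1
  have hfE₁ : fE = algebraMap E (_root_.Fermat.Agent.A2.Mod.FE E (p * M')) cE₁ * GE ^ p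
      * (1 + algebraMap E (_root_.Fermat.Agent.A2.Mod.FE E (p * M')) ϖE * yE) := by
    apply iota_injective E (modularFunctionFieldFull (p * M'))
    rw [hfE, map_mul, map_mul, map_pow, map_add, map_one, map_mul, iota_algebraMap,
      iota_algebraMap, hGE, hyE, hcEdef, hϖEdef, hf₁, hu₁]
  obtain ⟨r, hr⟩ := exists_eq_mul_of_nonunit hw (ϖ := ϖE) (by rw [hϖEdef]; exact hϖ)
  have hcw0 : cE A E (p * M') w ≠ 0 := H378.cE_ne_zero hS _
  have h1 : DepthE w p V 1 fE ∨
      DepthE w p (V.comap ((H553.wE E (p * M') : _root_.Fermat.Agent.A2.Mod.FE E (p * M') ≃ₐ[E] _root_.Fermat.Agent.A2.Mod.FE E (p * M')) :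
        _root_.Fermat.Agent.A2.Mod.FE E (p * M') →+* _root_.Fermat.Agent.A2.Mod.FE E (p * M'))) 1 fE := by
    refine Or.inl ⟨cE₁, hcE0, GE, hGE0, ?_⟩
    have hc0 : algebraMap E (_root_.Fermat.Agent.A2.Mod.FE E (p * M')) cE₁ ≠ 0 :=
      (map_ne_zero_iff _ (algebraMap E (_root_.Fermat.Agent.A2.Mod.FE E (p * M'))).injective).mpr hcE0
    have h2 : fE * (algebraMap E (_root_.Fermat.Agent.A2.Mod.FE E (p * M')) cE₁ * GE ^ p)⁻¹ - 1
        = algebraMap E (_root_.Fermat.Agent.A2.Mod.FE E (p * M')) ϖE * yE := by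
      have hGp : GE ^ p ≠ 0 := pow_ne_zero _ hGE0
      rw [hfE₁]
      field_simp
      ring
    have h3 : algebraMap E (_root_.Fermat.Agent.A2.Mod.FE E (p * M')) ϖE
        = cE A E (p * M') w * cE A E (p * M') r := by
      rw [hr, map_mul]
      rfl
    rw [h2, h3, pow_one]
    have h4 : cE A E (p * M') w * cE A E (p * M') r * yE * (cE A E (p * M') w)⁻¹
        = cE A E (p * M') r * yE := by
      field_simp
    rw [h4]
    exact V.mul_mem _ _ (H378.cE_mem hV r) hyEV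
  -- norm contraction at level `E`
  obtain ⟨s, hs⟩ := exists_pow_mul_mem_of_dvr (Mod.RE A E) hw ((ϖE ^ n)⁻¹)
  obtain ⟨g, hg0, hgV, hgV₀⟩ := wnc_both_one_to hMN hS hVM hV hW hfE0 hNαE hNβE h1 s
  obtain ⟨v, hvdef⟩ : ∃ v : _root_.Fermat.Agent.A2.Mod.FE E (p * M'),
      v = (fE * (g ^ p)⁻¹ - 1) * (cE A E (p * M') w ^ s)⁻¹ := ⟨_, rfl⟩
  rw [← hvdef] at hgV hgV₀
  obtain ⟨t, htdef⟩ : ∃ t : Mod.RE A E, (t : E) = (w : E) ^ s * (ϖE ^ n)⁻¹ := ⟨⟨_, hs⟩, rfl⟩
  obtain ⟨z, hzdef⟩ : ∃ z : _root_.Fermat.Agent.A2.Mod.FE E (p * M'), z = cE A E (p * M') t * v := ⟨_, rfl⟩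
  have hzV : z ∈ V := by
    rw [hzdef]
    exact V.mul_mem _ _ (H378.cE_mem hV t) hgV
  have hzV₀ : H553.wE E (p * M') z ∈ V := by
    have h5 : H553.wE E (p * M') z = cE A E (p * M') t * H553.wE E (p * M') v := by
      rw [hzdef, map_mul]
      congr 1
      exact (H553.wE E (p * M')).commutes _
    rw [h5]
    exact V.mul_mem _ _ (H378.cE_mem hV t) hgV₀
  have heq : fE * (g ^ p)⁻¹ = 1 + algebraMap E (_root_.Fermat.Agent.A2.Mod.FE E (p * M')) ϖE ^ n * z := by
    have hwE0 : (w : E) ≠ 0 := H378.w_ne_zero hS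
    have hws : cE A E (p * M') w ^ s ≠ 0 := pow_ne_zero _ hcw0
    have h6 : algebraMap E (_root_.Fermat.Agent.A2.Mod.FE E (p * M')) ϖE ^ n * cE A E (p * M') t
        = cE A E (p * M') w ^ s := by
      show algebraMap E (_root_.Fermat.Agent.A2.Mod.FE E (p * M')) ϖE ^ n * algebraMap E (_root_.Fermat.Agent.A2.Mod.FE E (p * M')) (t : E)
        = algebraMap E (_root_.Fermat.Agent.A2.Mod.FE E (p * M')) (w : E) ^ s
      rw [htdef, ← map_pow, ← map_pow, ← map_mul]
      congr 1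
      have hϖn : ϖE ^ n ≠ 0 := pow_ne_zero _ hϖE0
      field_simp
    rw [hzdef, ← mul_assoc, h6, hvdef]
    field_simp
    ring
  have hfg : f = (iota E (modularFunctionFieldFull (p * M')) g) ^ p
      * iota E (modularFunctionFieldFull (p * M')) (fE * (g ^ p)⁻¹) := by
    rw [← map_pow, ← map_mul, ← hfE]
    congr 1
    have hgp : g ^ p ≠ 0 := pow_ne_zero _ hg0
    field_simp
  have hone : iota E (modularFunctionFieldFull (p * M')) (fE * (g ^ p)⁻¹)
      = 1 + cF (p * M') ϖ ^ n * iota E (modularFunctionFieldFull (p * M')) z := by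
    rw [heq, map_add, map_one, map_mul, map_pow, iota_algebraMap, hϖEdef]
  have hzinf : iota E (modularFunctionFieldFull (p * M')) z ∈ Vinf (p * M') A hp.ne_zero hA := by
    show H708.IsGaussInt A (modularFunctionFieldFull (p * M'))
      (coeffMap (algebraMap E Q̄) (z : LaurentSeries E))
    exact isGaussInt_ascent ((hV z).mp hzV)
  have hzzero : iota E (modularFunctionFieldFull (p * M')) z
      ∈ Vzero (p * M') A hp.ne_zero hA := by
    show wF (p * M') (iota E (modularFunctionFieldFull (p * M')) z)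
      ∈ Vinf (p * M') A hp.ne_zero hA
    have h7 : wF (p * M') (iota E (modularFunctionFieldFull (p * M')) z)
        = iota E (modularFunctionFieldFull (p * M')) (H553.wE E (p * M') z) :=
      (H553.iota_wE E (p * M') z).symm
    rw [h7]
    show H708.IsGaussInt A (modularFunctionFieldFull (p * M'))
      (coeffMap (algebraMap E Q̄) ((H553.wE E (p * M') z : _root_.Fermat.Agent.A2.Mod.FE E (p * M')) : LaurentSeries E))
    exact isGaussInt_ascent ((hV _).mp hzV₀)
  have hg0' : iota E (modularFunctionFieldFull (p * M')) g ≠ 0 := iota_ne_zero E _ hg0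
  exact ⟨⟨_, _, hg0', hfg, _, hzinf, hone⟩, ⟨_, _, hg0', hfg, _, hzzero, hone⟩⟩

end Main

end Fermat.Agent.Ribet.H232

end
end
-- ===== PACK-END Ribet/H232/NCFinal.lean

-- ===== PACK-BEGIN Ribet/H232/DepthE.lean
section





/-!
# RIBET / WALL-p, (S4) WILD, DEEP-SPLIT of `f_t`: the depth-one input at a GIVEN good level
(helper232)

`E` a good level for `A` (`R_E = A ∩ E` a discrete valuation ring with algebraically closed
residue field; e.g. the TAME level), `N` a level, `V = V∞(E)` the Gauss valuation ring of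
`F_{N,E}`, `w` a uniformiser of `R_E`.

* `resRE_surjective`      : `R_E → k_A` is surjective (`k_A` = residue field of `A`);
* `exists_isRedInf_level` : every `s ≠ 0` of `k(X₀(M))`, `M ∣ N`, is a reduction
                            (`H884.IsRedInf`) of `ι g`, `g ∈ F_{N,E}`;
* `depthE_of_isRedInf_one`: `h ∈ F_{N,E}` with reduction `1` ⟹ `h ∈ Eˣ · (1 + w V)`;
* **`depthE_one_of_isRedInf`** : `u ∈ F_{N,E}` whose reduction is `s ^ p`, `s ∈ k(X₀(M))`,
                            `M ∣ N` ⟹ `DepthE w p V 1 u`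
                            (the hypothesis `h1` of `wnc_both`, `H703.deepSplit_E`);
* **`depthE_one_of_splitGen`** : `u ∈ F_{pM',E}` with `H884.SplitGen p M' A (ι u)` ⟹
                            `DepthE w p V 1 u` and `DepthE w p (V.comap W) 1 u`.
-/

set_option autoImplicit false
set_option synthInstance.maxHeartbeats 400000
set_option maxHeartbeats 1600000
set_option linter.unusedSectionVars false
set_option linter.style.haveILetI false

noncomputable section

namespace Fermat.Agent.Ribet.H232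

open ModularCurve HahnSeries AlgebraicCurve Polynomial
open Fermat.Agent.A2 Fermat.Agent.A2.Mod Fermat.Agent.A2.H48

local notation "Q̄" => AlgebraicClosure ℚ

/-! ## 0. `R_E → k_A` is surjective -/

section Residue

variable (A : ValuationSubring Q̄) (E : IntermediateField ℚ Q̄)

/-- the residue map of `A` restricted to `R_E`. -/
def resRE : Mod.RE A E →+* IsLocalRing.ResidueField A :=
  (IsLocalRing.residue A).comp (inclRA A E)

theorem isUnit_of_isUnit_inclRA {r : Mod.RE A E} (h : IsUnit (inclRA A E r)) : IsUnit r := by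
  obtain ⟨a, ha⟩ := h.exists_right_inv
  have h1 : algebraMap E Q̄ (r : E) * (a : Q̄) = 1 := congrArg Subtype.val ha
  have hr0 : (r : E) ≠ 0 := by
    intro h0
    rw [h0, map_zero, zero_mul] at h1
    exact zero_ne_one h1
  have h2 : algebraMap E Q̄ ((r : E)⁻¹) = (a : Q̄) := by
    rw [map_inv₀]
    exact inv_eq_of_mul_eq_one_right h1
  have h3 : algebraMap E Q̄ ((r : E)⁻¹) ∈ A := by rw [h2]; exact a.2
  refine IsUnit.of_mul_eq_one (⟨(r : E)⁻¹, h3⟩ : Mod.RE A E) ?_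
  exact Subtype.ext (mul_inv_cancel₀ hr0)

instance isLocalHom_inclRA : IsLocalHom (inclRA A E) :=
  ⟨fun _ h => isUnit_of_isUnit_inclRA A E h⟩

variable {A}

theorem intCast_residue_ne_zero {p : ℕ} (hp : p.Prime) (hA : A.LiesOverPrime p) {n : ℤ}
    (hn : ¬ (p : ℤ) ∣ n) : ((n : ℤ) : IsLocalRing.ResidueField A) ≠ 0 := by
  have hp0 : ((p : ℤ) : IsLocalRing.ResidueField A) = 0 := by
    have h1 : ((p : ℤ) : IsLocalRing.ResidueField A) = IsLocalRing.residue A ((p : ℕ) : A) := by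
      simp
    rw [h1, IsLocalRing.residue_eq_zero_iff, A.valuation_lt_one_iff]
    have h2 : A.valuation (((p : ℕ) : A) : Q̄) < 1 := (ValuationSubring.mem_nonunits_iff A).mp (by
      have h3 : (((p : ℕ) : A) : Q̄) = (p : Q̄) := by simp
      rw [h3]
      exact hA)
    exact h2
  have hcop : IsCoprime n (p : ℤ) := by
    rw [isCoprime_comm]
    exact (Prime.coprime_iff_not_dvd (Nat.prime_iff_prime_int.mp hp)).mpr hn
  obtain ⟨a, b, hab⟩ := hcop
  intro h0
  have h4 := congrArg (fun z : ℤ => (z : IsLocalRing.ResidueField A)) hab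
  simp only [Int.cast_add, Int.cast_mul, Int.cast_one, hp0, h0, mul_zero, add_zero] at h4
  exact zero_ne_one h4

/-- `R_E → k_A` is surjective when the residue field of `R_E` is algebraically closed. -/
theorem resRE_surjective {p : ℕ} (hp : p.Prime) (hA : A.LiesOverPrime p)
    [IsAlgClosed (IsLocalRing.ResidueField (Mod.RE A E))] :
    Function.Surjective (resRE A E) := by
  set f : IsLocalRing.ResidueField (Mod.RE A E) →+* IsLocalRing.ResidueField A :=
    IsLocalRing.ResidueField.map (inclRA A E) with hf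
  have hint : f.IsIntegral := by
    intro c
    obtain ⟨a, rfl⟩ := IsLocalRing.residue_surjective c
    have halgQ : IsAlgebraic ℚ (a : Q̄) := (AlgebraicClosure.isAlgebraic ℚ).isAlgebraic _
    have halgZ : IsAlgebraic ℤ (a : Q̄) := (IsFractionRing.isAlgebraic_iff ℤ ℚ Q̄).mpr halgQ
    obtain ⟨P, hP0, hPa⟩ := halgZ
    have hqa : aeval (a : Q̄) P.primPart = 0 := aeval_primPart_eq_zero hP0 hPa
    have hqA : Polynomial.eval₂ (Int.castRingHom A) a P.primPart = 0 := by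
      apply Subtype.ext
      have h := Polynomial.hom_eval₂ P.primPart (Int.castRingHom A) A.subtype a
      rw [ZeroMemClass.coe_zero, ← hqa, aeval_def]
      have hc : (A.subtype).comp (Int.castRingHom A) = algebraMap ℤ Q̄ := RingHom.ext_int _ _
      rw [← hc]
      exact h
    -- a coefficient prime to `p`
    have hex : ∃ i, ¬ (p : ℤ) ∣ P.primPart.coeff i := by
      by_contra hcon
      have hcon' : ∀ i, (p : ℤ) ∣ P.primPart.coeff i := fun i => by
        by_contra h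
        exact hcon ⟨i, h⟩
      have hdvd : Polynomial.C (p : ℤ) ∣ P.primPart := by
        rw [C_dvd_iff_dvd_coeff]
        exact hcon'
      have hu := (isPrimitive_iff_isUnit_of_C_dvd.mp (isPrimitive_primPart P)) _ hdvd
      have h1 := Int.isUnit_iff.mp hu
      have h2 := hp.two_le
      omega
    obtain ⟨i, hi⟩ := hex
    set Q : Polynomial (IsLocalRing.ResidueField (Mod.RE A E)) :=
      P.primPart.map (Int.castRingHom _) with hQ
    have hcomp : f.comp (Int.castRingHom (IsLocalRing.ResidueField (Mod.RE A E)))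
        = (IsLocalRing.residue A).comp (Int.castRingHom A) := RingHom.ext_int _ _
    have hroot : Polynomial.eval₂ f (IsLocalRing.residue A a) Q = 0 := by
      rw [hQ, Polynomial.eval₂_map, hcomp, ← Polynomial.hom_eval₂, hqA, map_zero]
    have hQ0 : Q ≠ 0 := by
      intro h0
      have h1 : f (Q.coeff i) = ((P.primPart.coeff i : ℤ) : IsLocalRing.ResidueField A) := by
        rw [hQ, coeff_map]
        simp
      rw [h0, Polynomial.coeff_zero, map_zero] at h1
      exact intCast_residue_ne_zero hp hA hi h1.symm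
    refine ⟨Q * Polynomial.C Q.leadingCoeff⁻¹, monic_mul_leadingCoeff_inv hQ0, ?_⟩
    rw [Polynomial.eval₂_mul, hroot, zero_mul]
  have hsurj : Function.Surjective f := (IsAlgClosed.ringHom_bijective_of_isIntegral f hint).2
  intro c
  obtain ⟨y, hy⟩ := hsurj c
  obtain ⟨r, rfl⟩ := IsLocalRing.residue_surjective y
  refine ⟨r, ?_⟩
  rw [← hy]
  rfl

end Residue

/-! ## 1. lifting `k(X₀(M))` to level `E` -/

section Lift

open Fermat.Agent.S24 Fermat.Agent.A2.H528 Fermat.Agent.A2.T1.H669 Fermat.Agent.Ribet.H884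

variable (A : ValuationSubring Q̄) (E : IntermediateField ℚ Q̄)

/-- reduction of `R_E`-integral series to `k_A((t))`. -/
abbrev redE : LaurentSeries (Mod.RE A E) →+* LaurentSeries (IsLocalRing.ResidueField A) :=
  coeffMap (resRE A E)

theorem red_up (U : LaurentSeries (Mod.RE A E)) :
    H708.red A (coeffMap (inclRA A E) U) = redE A E U := by
  show coeffMap _ (coeffMap _ U) = _
  rw [coeffMap_coeffMap]
  rfl

/-- `s` is the reduction of a fraction of `R_E`-integral series of `F_E`. -/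
def LiftE (F₀ : IntermediateField ℚ (LaurentSeries ℚ))
    (s : LaurentSeries (IsLocalRing.ResidueField A)) : Prop :=
  ∃ U₁ U₂ : LaurentSeries (Mod.RE A E), redE A E U₂ ≠ 0 ∧
    H708.incl (Mod.RE A E) U₁ ∈ laurentBaseChange E F₀ ∧
    H708.incl (Mod.RE A E) U₂ ∈ laurentBaseChange E F₀ ∧ s * redE A E U₂ = redE A E U₁

variable {A E} {F₀ : IntermediateField ℚ (LaurentSeries ℚ)}

theorem LiftE.zero : LiftE A E F₀ 0 :=
  ⟨0, 1, by rw [map_one]; exact one_ne_zero, by rw [map_zero]; exact zero_mem _,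
    by rw [map_one]; exact one_mem _, by rw [zero_mul, map_zero]⟩

theorem LiftE.add {s s' : LaurentSeries (IsLocalRing.ResidueField A)} (h : LiftE A E F₀ s)
    (h' : LiftE A E F₀ s') : LiftE A E F₀ (s + s') := by
  obtain ⟨U₁, U₂, h0, hm₁, hm₂, he⟩ := h
  obtain ⟨U₁', U₂', h0', hm₁', hm₂', he'⟩ := h'
  refine ⟨U₁ * U₂' + U₁' * U₂, U₂ * U₂', ?_, ?_, ?_, ?_⟩
  · rw [map_mul]; exact mul_ne_zero h0 h0'
  · rw [map_add, map_mul, map_mul]
    exact add_mem (mul_mem hm₁ hm₂') (mul_mem hm₁' hm₂)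
  · rw [map_mul]; exact mul_mem hm₂ hm₂'
  · rw [map_add, map_mul, map_mul, map_mul, ← he, ← he']
    ring

theorem LiftE.mul {s s' : LaurentSeries (IsLocalRing.ResidueField A)} (h : LiftE A E F₀ s)
    (h' : LiftE A E F₀ s') : LiftE A E F₀ (s * s') := by
  obtain ⟨U₁, U₂, h0, hm₁, hm₂, he⟩ := h
  obtain ⟨U₁', U₂', h0', hm₁', hm₂', he'⟩ := h'
  refine ⟨U₁ * U₁', U₂ * U₂', ?_, ?_, ?_, ?_⟩
  · rw [map_mul]; exact mul_ne_zero h0 h0'
  · rw [map_mul]; exact mul_mem hm₁ hm₁'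
  · rw [map_mul]; exact mul_mem hm₂ hm₂'
  · rw [map_mul, map_mul, ← he, ← he']
    ring

theorem LiftE.inv {s : LaurentSeries (IsLocalRing.ResidueField A)} (h : LiftE A E F₀ s) :
    LiftE A E F₀ s⁻¹ := by
  by_cases hs : s = 0
  · rw [hs, inv_zero]
    exact LiftE.zero
  obtain ⟨U₁, U₂, h0, hm₁, hm₂, he⟩ := h
  refine ⟨U₂, U₁, ?_, hm₂, hm₁, ?_⟩
  · rw [← he]
    exact mul_ne_zero hs h0
  · rw [← he, ← mul_assoc, inv_mul_cancel₀ hs, one_mul]

theorem LiftE.const (hsurj : Function.Surjective (resRE A E))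
    (c : IsLocalRing.ResidueField A) :
    LiftE A E F₀ (algebraMap _ (LaurentSeries (IsLocalRing.ResidueField A)) c) := by
  obtain ⟨r, rfl⟩ := hsurj c
  refine ⟨H708.cstA (Mod.RE A E) r, 1, by rw [map_one]; exact one_ne_zero, ?_,
    by rw [map_one]; exact one_mem _, ?_⟩
  · rw [H708.incl_cstA]
    exact (laurentBaseChange E F₀).algebraMap_mem _
  · rw [map_one, mul_one, algebraMap_laurentSeries_eq_single, H708.cstA]
    exact (coeffMap_single _ _ _).symm

theorem LiftE.gen {N : ℕ} (d : ℕ) [NeZero d] (hd : d ∣ N) :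
    LiftE A E (modularFunctionFieldFull N)
      (qExpand (IsLocalRing.ResidueField A) d (jqModC (IsLocalRing.ResidueField A))) := by
  refine ⟨coeffMap (Int.castRingHom (Mod.RE A E)) (qExpand ℤ d (jqModC ℤ)), 1,
    by rw [map_one]; exact one_ne_zero, ?_, by rw [map_one]; exact one_mem _, ?_⟩
  · have h1 : H708.incl (Mod.RE A E)
          (coeffMap (Int.castRingHom (Mod.RE A E)) (qExpand ℤ d (jqModC ℤ)))
        = coeffEmb E (qExpand ℚ d jq) := by
      show coeffMap _ (coeffMap _ _) = coeffMap _ _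
      rw [coeffMap_coeffMap, coeffMap_qExpand, coeffMap_jqModC, ← jqModC_rat, coeffMap_qExpand,
        coeffMap_jqModC]
    rw [h1]
    exact coeffEmb_mem_laurentBaseChange E (jqd_mem_full N hd)
  · rw [map_one, mul_one]
    show _ = coeffMap _ (coeffMap _ _)
    rw [coeffMap_coeffMap, coeffMap_qExpand, coeffMap_jqModC]

/-- every element of `k(X₀(M))`, `M ∣ N`, lifts to level `E`. -/
theorem liftE_of_mem_fullC (hsurj : Function.Surjective (resRE A E)) {M N : ℕ} (hMN : M ∣ N)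
    {s : LaurentSeries (IsLocalRing.ResidueField A)}
    (hs : s ∈ modularFunctionFieldFullC (IsLocalRing.ResidueField A) M) :
    LiftE A E (modularFunctionFieldFull N) s := by
  induction hs using IntermediateField.adjoin_induction with
  | mem x hx =>
      obtain ⟨d, hne, hd, rfl⟩ := hx
      haveI := hne
      exact LiftE.gen d (hd.trans hMN)
  | algebraMap c => exact LiftE.const hsurj c
  | add x y _ _ ihx ihy => exact ihx.add ihy
  | mul x y _ _ ihx ihy => exact ihx.mul ihy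
  | inv x _ ihx => exact ihx.inv

/-- **Lifting at level `E`**: every nonzero `s ∈ k(X₀(M))`, `M ∣ N`, is a reduction of `ι g`
with `g ∈ F_{N,E}`. -/
theorem exists_isRedInf_level (hsurj : Function.Surjective (resRE A E)) {M N : ℕ} [NeZero N]
    (hMN : M ∣ N) {s : LaurentSeries (IsLocalRing.ResidueField A)}
    (hs : s ∈ modularFunctionFieldFullC (IsLocalRing.ResidueField A) M) (hs0 : s ≠ 0) :
    ∃ g : _root_.Fermat.Agent.A2.Mod.FE E N, g ≠ 0 ∧ IsRedInf N A (iota E (modularFunctionFieldFull N) g) s := by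
  obtain ⟨U₁, U₂, h0, hm₁, hm₂, he⟩ := liftE_of_mem_fullC hsurj hMN (N := N) hs
  have h1 : redE A E U₁ ≠ 0 := by
    rw [← he]
    exact mul_ne_zero hs0 h0
  have hU₂ : H708.incl (Mod.RE A E) U₂ ≠ 0 := by
    intro h
    apply h0
    have : U₂ = 0 := H708.incl_injective _ (h.trans (map_zero _).symm)
    rw [this, map_zero]
  have hU₁ : H708.incl (Mod.RE A E) U₁ ≠ 0 := by
    intro h
    apply h1
    have : U₁ = 0 := H708.incl_injective _ (h.trans (map_zero _).symm)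
    rw [this, map_zero]
  refine ⟨⟨H708.incl (Mod.RE A E) U₁ / H708.incl (Mod.RE A E) U₂, div_mem hm₁ hm₂⟩, ?_, ?_⟩
  · intro h
    have h2 := congrArg Subtype.val h
    exact div_ne_zero hU₁ hU₂ h2
  · refine ⟨1, coeffMap (inclRA A E) U₁, coeffMap (inclRA A E) U₂, one_ne_zero, ?_, ?_, ?_, ?_⟩
    · rw [red_up]; exact h1
    · rw [red_up]; exact h0
    · rw [coe_iota]
      show coeffMap (algebraMap E Q̄) (H708.incl (Mod.RE A E) U₁ / H708.incl (Mod.RE A E) U₂) * _
        = _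
      rw [map_div₀, coeffMap_incl_RE, coeffMap_incl_RE, H708.cst_one, one_mul]
      have hY : H708.incl A (coeffMap (inclRA A E) U₂) ≠ 0 := by
        rw [← coeffMap_incl_RE]
        exact (map_ne_zero_iff _ (Fermat.Agent.S18.H602.coeffMap_injective _ (algebraMap E Q̄).injective)).mpr hU₂
      exact div_mul_cancel₀ _ hY
    · rw [red_up, red_up]; exact he

end Lift

/-! ## 2. reduction `1` ⟹ depth one at level `E` -/

section DepthOne

open Fermat.Agent.S24 Fermat.Agent.A2.H528 Fermat.Agent.A2.T1.H669 Fermat.Agent.Ribet.H884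

variable {A : ValuationSubring Q̄} {E : IntermediateField ℚ Q̄}

theorem resRE_eq (r : Mod.RE A E) :
    resRE A E r = IsLocalRing.ResidueField.map (inclRA A E) (IsLocalRing.residue _ r) := rfl

/-- primitive over `k_A` ⟹ primitive over the residue field of `R_E`. -/
theorem red_ne_zero_of_redE {U : LaurentSeries (Mod.RE A E)} (h : redE A E U ≠ 0) :
    H708.red (Mod.RE A E) U ≠ 0 := by
  intro h0
  apply h
  ext n
  have h1 := congrArg (fun z => z.coeff n) h0
  simp only [coeffMap_coeff, HahnSeries.coeff_zero] at h1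
  rw [coeffMap_coeff, HahnSeries.coeff_zero, resRE_eq, h1, map_zero]

theorem redE_cstA (r : Mod.RE A E) :
    redE A E (H708.cstA (Mod.RE A E) r) = HahnSeries.single 0 (resRE A E r) := by
  rw [H708.cstA]
  exact coeffMap_single _ _ _

theorem cst_inv' {L : Type*} [Field L] (c : L) : H708.cst c⁻¹ = (H708.cst c)⁻¹ :=
  map_inv₀ _ _

/-- the coercion of the depth-one quotient. -/
theorem coe_depth_quot {N : ℕ} (w : Mod.RE A E) (h : _root_.Fermat.Agent.A2.Mod.FE E N) (e : E) :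
    (((h * (algebraMap E (_root_.Fermat.Agent.A2.Mod.FE E N) e)⁻¹ - 1) * (cE A E N w)⁻¹ : _root_.Fermat.Agent.A2.Mod.FE E N) : LaurentSeries E)
      = ((h : LaurentSeries E) * (H708.cst e)⁻¹ - 1) * (H708.cst (w : E))⁻¹ := rfl

/-- **Reduction `1` ⟹ depth one.** -/
theorem depthE_of_isRedInf_one {N : ℕ} [NeZero N] [IsDiscreteValuationRing (Mod.RE A E)]
    (hsurj : Function.Surjective (resRE A E)) {w : Mod.RE A E} (hw : Irreducible w)
    {V : ValuationSubring (_root_.Fermat.Agent.A2.Mod.FE E N)} (hV : IsVinf A E N V) {h : _root_.Fermat.Agent.A2.Mod.FE E N}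
    (hred : IsRedInf N A (iota E (modularFunctionFieldFull N) h) 1) :
    ∃ e : E, e ≠ 0 ∧ (h * (algebraMap E (_root_.Fermat.Agent.A2.Mod.FE E N) e)⁻¹ - 1) * (cE A E N w)⁻¹ ∈ V := by
  have hx0 : ((iota E (modularFunctionFieldFull N) h : FF N) : LaurentSeries Q̄) ≠ 0 :=
    hred.fun_ne_zero
  have hh0 : (h : LaurentSeries E) ≠ 0 := by
    intro h0
    apply hx0
    rw [coe_iota, h0, map_zero]
  obtain ⟨c, U₁, U₂, hc, h₁, h₂, hrel, hr⟩ := hred
  rw [one_mul] at hr
  rw [coe_iota] at hrel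
  -- the normal form at level `E`
  obtain ⟨c', U₁', U₂', hc', h₁', h₂', hm₁', hm₂', he⟩ :=
    H708.exists_normal_form (H708.intGen_full N)
      (H708.attainsMax_of_isNoetherianRing (Mod.RE A E) (modularFunctionFieldFull N)) h.2 hh0
  have hc'' : algebraMap E Q̄ c' ≠ 0 := (map_ne_zero_iff _ (algebraMap E Q̄).injective).mpr hc'
  have he' : coeffMap (algebraMap E Q̄) (h : LaurentSeries E)
        * H708.incl A (coeffMap (inclRA A E) U₂')
      = H708.cst (algebraMap E Q̄ c') * H708.incl A (coeffMap (inclRA A E) U₁') := by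
    rw [← coeffMap_incl_RE, ← coeffMap_incl_RE, ← map_mul, he, map_mul]
    congr 1
    exact Fermat.Agent.S18.H602.coeffMap_algebraMap' (algebraMap E Q̄) c'
  have hp₁ : H708.red A (coeffMap (inclRA A E) U₁') ≠ 0 := red_inclRA_ne_zero A E h₁'
  have hp₂ : H708.red A (coeffMap (inclRA A E) U₂') ≠ 0 := red_inclRA_ne_zero A E h₂'
  -- comparison of the two normal forms over `A`
  have hX₂ : H708.incl A U₂ ≠ 0 := H708.incl_ne_zero A (H708.ne_zero_of_red_ne_zero A h₂)
  have hX₂' : H708.incl A (coeffMap (inclRA A E) U₂') ≠ 0 :=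
    H708.incl_ne_zero A (H708.ne_zero_of_red_ne_zero A hp₂)
  have hcc : H708.cst c ≠ 0 := H708.cst_ne_zero hc
  have hcc' : H708.cst (algebraMap E Q̄ c') ≠ 0 := H708.cst_ne_zero hc''
  have key : H708.cst (c * (algebraMap E Q̄ c')⁻¹)
        * H708.incl A (U₁ * coeffMap (inclRA A E) U₂')
      = H708.incl A (coeffMap (inclRA A E) U₁' * U₂) := by
    rw [map_mul, map_mul, H708.cst_mul, cst_inv']
    have e1 : H708.incl A U₁ = (H708.cst c)⁻¹
        * (coeffMap (algebraMap E Q̄) (h : LaurentSeries E) * H708.incl A U₂) := by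
      rw [hrel, ← mul_assoc, inv_mul_cancel₀ hcc, one_mul]
    have e2 : H708.incl A (coeffMap (inclRA A E) U₁') = (H708.cst (algebraMap E Q̄ c'))⁻¹
        * (coeffMap (algebraMap E Q̄) (h : LaurentSeries E)
          * H708.incl A (coeffMap (inclRA A E) U₂')) := by
      rw [he', ← mul_assoc, inv_mul_cancel₀ hcc', one_mul]
    rw [e1, e2]
    field_simp
  have key' : H708.cst (algebraMap E Q̄ c' * c⁻¹)
        * H708.incl A (coeffMap (inclRA A E) U₁' * U₂)
      = H708.incl A (U₁ * coeffMap (inclRA A E) U₂') := by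
    rw [← key, ← mul_assoc, ← H708.cst_mul]
    have e3 : algebraMap E Q̄ c' * c⁻¹ * (c * (algebraMap E Q̄ c')⁻¹) = 1 := by
      field_simp
    rw [e3, H708.cst_one, one_mul]
  have hprim : H708.red A (U₁ * coeffMap (inclRA A E) U₂') ≠ 0 := by
    rw [map_mul]; exact mul_ne_zero h₁ hp₂
  have hprim' : H708.red A (coeffMap (inclRA A E) U₁' * U₂) ≠ 0 := by
    rw [map_mul]; exact mul_ne_zero hp₁ h₂
  have hεA : c * (algebraMap E Q̄ c')⁻¹ ∈ A := H708.mem_of_cst_mul_prim A hprim key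
  have hεA' : algebraMap E Q̄ c' * c⁻¹ ∈ A := H708.mem_of_cst_mul_prim A hprim' key'
  obtain ⟨ε, hεdef⟩ : ∃ ε : A, (ε : Q̄) = c * (algebraMap E Q̄ c')⁻¹ := ⟨⟨_, hεA⟩, rfl⟩
  have hεu : IsUnit ε := by
    refine IsUnit.of_mul_eq_one (⟨_, hεA'⟩ : A) ?_
    apply Subtype.ext
    show (ε : Q̄) * (algebraMap E Q̄ c' * c⁻¹) = 1
    rw [hεdef]
    field_simp
  have hεres : IsLocalRing.residue A ε ≠ 0 := by
    intro h0
    rw [IsLocalRing.residue_eq_zero_iff] at h0
    exact (IsLocalRing.mem_maximalIdeal _).mp h0 hεu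
  have hredrel : HahnSeries.single 0 (IsLocalRing.residue A ε)
        * H708.red A (coeffMap (inclRA A E) U₂')
      = H708.red A (coeffMap (inclRA A E) U₁') := by
    have h5 : H708.cstA A ε * (U₁ * coeffMap (inclRA A E) U₂')
        = coeffMap (inclRA A E) U₁' * U₂ := by
      apply H708.incl_injective A
      rw [map_mul, H708.incl_cstA, hεdef]
      exact key
    have h6 := congrArg (H708.red A) h5
    rw [map_mul, map_mul, map_mul, H708.red_cstA, ← hr] at h6
    have h7 : (HahnSeries.single 0 (IsLocalRing.residue A ε)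
          * H708.red A (coeffMap (inclRA A E) U₂')) * H708.red A U₂
        = H708.red A (coeffMap (inclRA A E) U₁') * H708.red A U₂ := by
      rw [← h6]; ring
    exact mul_right_cancel₀ h₂ h7
  -- lift the residue of `ε`
  obtain ⟨r₀, hr₀⟩ := hsurj (IsLocalRing.residue A ε)
  have hr₀0 : (r₀ : E) ≠ 0 := by
    intro h0
    have : r₀ = 0 := Subtype.ext h0
    rw [this, map_zero] at hr₀
    exact hεres hr₀.symm
  have hprimE : redE A E (H708.cstA (Mod.RE A E) r₀ * U₂') ≠ 0 := by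
    rw [map_mul, redE_cstA, hr₀, ← red_up]
    refine mul_ne_zero ?_ hp₂
    intro h0
    have := congrArg (fun z => z.coeff 0) h0
    simp only [HahnSeries.coeff_single_same, HahnSeries.coeff_zero] at this
    exact hεres this
  -- the numerator has zero reduction
  have hU₃ : redE A E (U₁' - H708.cstA (Mod.RE A E) r₀ * U₂') = 0 := by
    rw [map_sub, map_mul, redE_cstA, hr₀, ← red_up, ← red_up, hredrel, sub_self]
  have hcoef : ∀ n, (H708.cst ((w : E)⁻¹)
      * H708.incl (Mod.RE A E) (U₁' - H708.cstA (Mod.RE A E) r₀ * U₂')).coeff n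
        ∈ Mod.RE A E := by
    intro n
    rw [H708.coeff_cst_mul, H708.coeff_incl]
    have h8 := congrArg (fun z => z.coeff n) hU₃
    simp only [coeffMap_coeff, HahnSeries.coeff_zero] at h8
    have h9 : inclRA A E ((U₁' - H708.cstA (Mod.RE A E) r₀ * U₂').coeff n)
        ∈ IsLocalRing.maximalIdeal A := (IsLocalRing.residue_eq_zero_iff _).mp h8
    have h10 : algebraMap E Q̄ (((U₁' - H708.cstA (Mod.RE A E) r₀ * U₂').coeff n : Mod.RE A E) : E)
        ∈ A.nonunits := by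
      rw [ValuationSubring.mem_nonunits_iff]
      exact (A.valuation_lt_one_iff _).mp h9
    obtain ⟨r, hr'⟩ := exists_eq_mul_of_nonunit hw h10
    have hw0' : (w : E) ≠ 0 := fun h0 => hw.ne_zero (Subtype.ext h0)
    rw [hr', ← mul_assoc, inv_mul_cancel₀ hw0', one_mul]
    exact r.2
  obtain ⟨U₄, hU₄⟩ := H708.exists_incl_eq (Mod.RE A E) hcoef
  refine ⟨c' * (r₀ : E), mul_ne_zero hc' hr₀0, ?_⟩
  rw [hV, coe_depth_quot]
  refine ⟨U₄, H708.cstA (Mod.RE A E) r₀ * U₂', red_ne_zero_of_redE hprimE, ?_, ?_⟩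
  · rw [map_mul, H708.incl_cstA]
    exact mul_mem ((laurentBaseChange E (modularFunctionFieldFull N)).algebraMap_mem _) hm₂'
  · rw [hU₄, map_mul, map_sub, map_mul, H708.incl_cstA]
    have hw0 : H708.cst (w : E) ≠ 0 := H708.cst_ne_zero (fun h0 => hw.ne_zero (Subtype.ext h0))
    have hr0c : H708.cst (r₀ : E) ≠ 0 := H708.cst_ne_zero hr₀0
    have hc0c : H708.cst c' ≠ 0 := H708.cst_ne_zero hc'
    have e4 : H708.incl (Mod.RE A E) U₁' = (H708.cst c')⁻¹
        * ((h : LaurentSeries E) * H708.incl (Mod.RE A E) U₂') := by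
      rw [he, ← mul_assoc, inv_mul_cancel₀ hc0c, one_mul]
    rw [e4, H708.cst_mul, cst_inv']
    field_simp

end DepthOne

/-! ## 3. the depth-one input of norm contraction at level `E` -/

section Main

open Fermat.Agent.S24 Fermat.Agent.A2.H528 Fermat.Agent.A2.T1.H669 Fermat.Agent.Ribet.H884

variable {A : ValuationSubring Q̄} {E : IntermediateField ℚ Q̄}

theorem isRedInf_pow_level {N : ℕ} [NeZero N] {f : FF N}
    {r : LaurentSeries (IsLocalRing.ResidueField A)} (h : IsRedInf N A f r) (n : ℕ) :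
    IsRedInf N A (f ^ n) (r ^ n) := by
  induction n with
  | zero => rw [pow_zero, pow_zero]; exact isRedInf_one
  | succ n ih => rw [pow_succ, pow_succ]; exact IsRedInf.mul ih h

/-- **Depth one at level `E`, `V∞`.**  If the reduction of `ι u`, `u ∈ F_{N,E}`, on `C∞` is the
`p`-th power of an element of `k(X₀(M))`, `M ∣ N`, then `u ∈ Eˣ · (F_{N,E}ˣ)^p · (1 + w V∞)`. -/
theorem depthE_one_of_isRedInf {N M : ℕ} [NeZero N] [IsDiscreteValuationRing (Mod.RE A E)]
    (hsurj : Function.Surjective (resRE A E)) {w : Mod.RE A E} (hw : Irreducible w)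
    {V : ValuationSubring (_root_.Fermat.Agent.A2.Mod.FE E N)} (hV : IsVinf A E N V) {p : ℕ} (hp : p ≠ 0) (hMN : M ∣ N)
    {u : _root_.Fermat.Agent.A2.Mod.FE E N} {s : LaurentSeries (IsLocalRing.ResidueField A)}
    (hs : s ∈ modularFunctionFieldFullC (IsLocalRing.ResidueField A) M)
    (hred : IsRedInf N A (iota E (modularFunctionFieldFull N) u) (s ^ p)) :
    DepthE w p V 1 u := by
  have hsp0 : s ^ p ≠ 0 := hred.ne_zero
  have hs0 : s ≠ 0 := by
    rintro rfl
    exact hsp0 (zero_pow hp)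
  obtain ⟨g, hg0, hg⟩ := exists_isRedInf_level hsurj hMN hs hs0
  have h1 : IsRedInf N A (iota E (modularFunctionFieldFull N) (u * (g ^ p)⁻¹)) 1 := by
    have h2 := IsRedInf.mul hred (IsRedInf.inv (isRedInf_pow_level hg p))
    rw [mul_inv_cancel₀ hsp0] at h2
    rw [map_mul, map_inv₀, map_pow]
    exact h2
  obtain ⟨e, he0, he⟩ := depthE_of_isRedInf_one hsurj hw hV h1
  refine ⟨e, he0, g, hg0, ?_⟩
  have h3 : u * (algebraMap E (_root_.Fermat.Agent.A2.Mod.FE E N) e * g ^ p)⁻¹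
      = u * (g ^ p)⁻¹ * (algebraMap E (_root_.Fermat.Agent.A2.Mod.FE E N) e)⁻¹ := by
    rw [mul_inv]; ring
  rw [h3, pow_one]
  exact he

/-- transport of `DepthE` along the Fricke involution. -/
theorem depthE_comap_wE {N : ℕ} [NeZero N] {w : Mod.RE A E} {V : ValuationSubring (_root_.Fermat.Agent.A2.Mod.FE E N)}
    {p s : ℕ} {u : _root_.Fermat.Agent.A2.Mod.FE E N} (h : DepthE w p V s (H553.wE E N u)) :
    DepthE w p (V.comap ((H553.wE E N : _root_.Fermat.Agent.A2.Mod.FE E N ≃ₐ[E] _root_.Fermat.Agent.A2.Mod.FE E N) : _root_.Fermat.Agent.A2.Mod.FE E N →+* _root_.Fermat.Agent.A2.Mod.FE E N)) s u := by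
  obtain ⟨e, he0, g, hg0, hmem⟩ := h
  refine ⟨e, he0, H553.wE E N g, (map_ne_zero_iff _ (H553.wE E N).injective).mpr hg0, ?_⟩
  rw [ValuationSubring.mem_comap]
  have h1 : ((H553.wE E N : _root_.Fermat.Agent.A2.Mod.FE E N ≃ₐ[E] _root_.Fermat.Agent.A2.Mod.FE E N) : _root_.Fermat.Agent.A2.Mod.FE E N →+* _root_.Fermat.Agent.A2.Mod.FE E N)
        ((u * (algebraMap E (_root_.Fermat.Agent.A2.Mod.FE E N) e * H553.wE E N g ^ p)⁻¹ - 1) * (cE A E N w ^ s)⁻¹)
      = (H553.wE E N u * (algebraMap E (_root_.Fermat.Agent.A2.Mod.FE E N) e * g ^ p)⁻¹ - 1) * (cE A E N w ^ s)⁻¹ := by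
    show H553.wE E N ((u * (algebraMap E (_root_.Fermat.Agent.A2.Mod.FE E N) e * H553.wE E N g ^ p)⁻¹ - 1)
        * (cE A E N w ^ s)⁻¹) = _
    have hc : H553.wE E N (cE A E N w) = cE A E N w := (H553.wE E N).commutes _
    have hww : H553.wE E N (H553.wE E N g) = g := (H553.isFricke_wE E N).2 g
    rw [map_mul, map_sub, map_mul, map_inv₀, map_mul, map_pow, map_inv₀, map_pow, map_one,
      (H553.wE E N).commutes, hc, hww]
  rw [h1]
  exact hmem

/-- **Depth one at level `E`, `V₀`.** -/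
theorem depthE_one_of_isRedZero {N M : ℕ} [NeZero N] [IsDiscreteValuationRing (Mod.RE A E)]
    (hsurj : Function.Surjective (resRE A E)) {w : Mod.RE A E} (hw : Irreducible w)
    {V : ValuationSubring (_root_.Fermat.Agent.A2.Mod.FE E N)} (hV : IsVinf A E N V) {p : ℕ} (hp : p ≠ 0) (hMN : M ∣ N)
    {u : _root_.Fermat.Agent.A2.Mod.FE E N} {s : LaurentSeries (IsLocalRing.ResidueField A)}
    (hs : s ∈ modularFunctionFieldFullC (IsLocalRing.ResidueField A) M)
    (hred : IsRedZero N A (iota E (modularFunctionFieldFull N) u) (s ^ p)) :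
    DepthE w p (V.comap ((H553.wE E N : _root_.Fermat.Agent.A2.Mod.FE E N ≃ₐ[E] _root_.Fermat.Agent.A2.Mod.FE E N) : _root_.Fermat.Agent.A2.Mod.FE E N →+* _root_.Fermat.Agent.A2.Mod.FE E N)) 1 u := by
  apply depthE_comap_wE
  refine depthE_one_of_isRedInf hsurj hw hV hp hMN hs ?_
  have h7 : wF N (iota E (modularFunctionFieldFull N) u)
      = iota E (modularFunctionFieldFull N) (H553.wE E N u) := (H553.iota_wE E N u).symm
  rw [← h7]
  exact hred

/-- **DEPTH-E for a split Kummer generator.**  `E` a good level, `u ∈ F_{pM',E}` with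
`H884.SplitGen p M' A (ι u)` (reductions in `k(X₀(M')) ∩ k((t^p))` on both components).  Then
`u` has depth one (constants allowed) at `V∞(E)` and at `V₀(E)`: the hypothesis `h1` of
`wnc_both`, `wnc_both_one_to`, `H703.deepSplit_E`. -/
theorem depthE_one_of_splitGen {p M' : ℕ} [NeZero M'] [NeZero p] [NeZero (p * M')]
    (hp : p.Prime) (hpM : ¬ p ∣ M') (hA : A.LiesOverPrime p) (hE : GoodField A E)
    {w : Mod.RE A E} (hw : Irreducible w) {V : ValuationSubring (_root_.Fermat.Agent.A2.Mod.FE E (p * M'))}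
    (hV : IsVinf A E (p * M') V) {u : _root_.Fermat.Agent.A2.Mod.FE E (p * M')}
    (hu : SplitGen p M' A (iota E (modularFunctionFieldFull (p * M')) u)) :
    DepthE w p V 1 u ∧
      DepthE w p (V.comap ((H553.wE E (p * M') : _root_.Fermat.Agent.A2.Mod.FE E (p * M') ≃ₐ[E] _root_.Fermat.Agent.A2.Mod.FE E (p * M')) :
        _root_.Fermat.Agent.A2.Mod.FE E (p * M') →+* _root_.Fermat.Agent.A2.Mod.FE E (p * M'))) 1 u := by
  haveI := hE.dvr
  haveI := hE.algClosed
  obtain ⟨hac, hch⟩ := Fermat.Agent.Ribet.H939.resField p hp A hA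
  haveI := hac
  haveI := hch
  haveI : Fact p.Prime := ⟨hp⟩
  have hsurj : Function.Surjective (resRE A E) := resRE_surjective E hp hA
  have hM' : M' ≠ 0 := NeZero.ne M'
  obtain ⟨r₁, r₂, h1, h2, ⟨k₁, hk₁, -, -⟩, ⟨k₂, hk₂, -, -⟩, hs1, hs2⟩ := hu
  obtain ⟨s₁, hs₁, hsr₁⟩ :=
    Fermat.Agent.Ribet.H573.exists_root_in_full p M' hM' hpM r₁ (hk₁ ▸ k₁.2) hs1
  obtain ⟨s₂, hs₂, hsr₂⟩ :=
    Fermat.Agent.Ribet.H573.exists_root_in_full p M' hM' hpM r₂ (hk₂ ▸ k₂.2) hs2
  rw [← hsr₁] at h1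
  rw [← hsr₂] at h2
  exact ⟨depthE_one_of_isRedInf hsurj hw hV hp.ne_zero (dvd_mul_left M' p) hs₁ h1,
    depthE_one_of_isRedZero hsurj hw hV hp.ne_zero (dvd_mul_left M' p) hs₂ h2⟩

/-- **DEPTH-E, series form** (any presentation `N` of the level `p M'`, e.g. `N = M' * p`):
`f ∈ ℚ̄(X₀(pM'))` a split Kummer generator whose `t`-expansion is the one of `u ∈ F_{N,E}`. -/
theorem depthE_one_of_splitGen_series {p M' N : ℕ} [NeZero M'] [NeZero p] [NeZero (p * M')]
    [NeZero N] (hN : p * M' = N) (hp : p.Prime) (hpM : ¬ p ∣ M') (hA : A.LiesOverPrime p)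
    (hE : GoodField A E) {w : Mod.RE A E} (hw : Irreducible w)
    {V : ValuationSubring (_root_.Fermat.Agent.A2.Mod.FE E N)} (hV : IsVinf A E N V) {u : _root_.Fermat.Agent.A2.Mod.FE E N} {f : FF (p * M')}
    (hfu : (f : LaurentSeries Q̄) = coeffMap (algebraMap E Q̄) (u : LaurentSeries E))
    (hf : SplitGen p M' A f) :
    DepthE w p V 1 u ∧
      DepthE w p (V.comap ((H553.wE E N : _root_.Fermat.Agent.A2.Mod.FE E N ≃ₐ[E] _root_.Fermat.Agent.A2.Mod.FE E N) : _root_.Fermat.Agent.A2.Mod.FE E N →+* _root_.Fermat.Agent.A2.Mod.FE E N)) 1 u := by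
  subst hN
  have h1 : f = iota E (modularFunctionFieldFull (p * M')) u := Subtype.ext hfu
  rw [h1] at hf
  exact depthE_one_of_splitGen hp hpM hA hE hw hV hf

end Main

end Fermat.Agent.Ribet.H232

end
end
-- ===== PACK-END Ribet/H232/DepthE.lean

-- ===== PACK-BEGIN Ribet/H220/S2CutLoc.lean
section











/-!
# Row 38, WALL-p, **(S2)**: the leaf CUTLOC (helper220) — PROVED

`cutLoc : CutLocStatement`: for the chart `B` of `y ∈ {x, x⁻¹}` and the cuts `p₁ = B ∩ wV∞`,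
`p₂ = B ∩ wV₀`, every element of `V∞` (resp. `V₀`) is a fraction `a / b` with `a, b ∈ B`,
`b ∉ p₁` (resp. `b ∉ p₂`).

Proof: `B ⊆ V` (`V` is integrally closed and contains `R`, `y`); by A2's Step I
(`Alg.H34.exists_decomp`: `B_p` is a discrete valuation ring with uniformiser `w`) every `f ≠ 0`
is `w^(k₁-k₂) · A / D` with `A, D ∈ B ∖ p`; `A`, `D` are units of `V` (`p = B ∩ wV`, `w` a
uniformiser of `V`), so `f ∈ V` forces `k₂ ≤ k₁`.
-/

set_option autoImplicit false
set_option linter.unusedSectionVars false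
set_option linter.unusedVariables false
set_option linter.style.haveILetI false
set_option synthInstance.maxHeartbeats 400000
set_option maxHeartbeats 1600000

noncomputable section

namespace Fermat.Agent.Ribet.H220

open AlgebraicCurve ModularCurve
open Fermat.Agent.A2 Fermat.Agent.A2.Alg

section Abstract

variable {R F : Type*} [CommRing R] [Field F] [Algebra R F]

/-- **Abstract CUTLOC.**  `B` a noetherian chart with fraction field `F`, `p ⊓ q = (w)`,
`q ⊄ p`; `V ⊇ B` a valuation subring with uniformiser `w` and `p = B ∩ wV`.  Then `V = B_p`. -/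
theorem exists_frac_of_mem (w : R) (B : Subalgebra R F) [IsNoetherianRing B]
    [IsFractionRing B F] (p q : Ideal B) (hp : p.IsPrime)
    (hpq : p ⊓ q = Ideal.span {algebraMap R B w}) (hqp : ¬ q ≤ p)
    (V : ValuationSubring F) (hU : H48.IsUnif V (algebraMap R F w))
    (hBV : ∀ b : B, (b : F) ∈ V)
    (hcut : ∀ b : B, b ∈ p ↔ (b : F) * (algebraMap R F w)⁻¹ ∈ V)
    (f : F) (hf : f ∈ V) : ∃ a b : B, b ∉ p ∧ f * (b : F) = (a : F) := by
  by_cases hf0 : f = 0
  · refine ⟨0, 1, ?_, by rw [hf0, zero_mul]; rfl⟩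
    exact fun h => hp.ne_top ((Ideal.eq_top_iff_one p).2 h)
  obtain ⟨k₁, k₂, A, D, hA, hD, hfAD⟩ :=
    Fermat.Agent.A2.Alg.H34.exists_decomp w B p q hp hpq hqp f hf0
  set π : F := algebraMap R F w with hπ
  have hπ0 : π ≠ 0 := hU.ne_zero
  -- elements of `B ∖ p` are units of `V`
  have hunit : ∀ b : B, b ∉ p → (b : F)⁻¹ ∈ V := by
    intro b hb
    by_contra hinv
    exact hb ((hcut b).2 (hU.gen (b : F) (hBV b) hinv))
  have hA0 : (A : F) ≠ 0 := by
    intro h0
    apply hA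
    have : A = 0 := Subtype.ext h0
    rw [this]
    exact p.zero_mem
  have hD0 : (D : F) ≠ 0 := by
    intro h0
    apply hD
    have : D = 0 := Subtype.ext h0
    rw [this]
    exact p.zero_mem
  rcases le_or_gt k₂ k₁ with hk | hk
  · -- `f · D = w ^ (k₁ - k₂) · A`
    refine ⟨algebraMap R B (w ^ (k₁ - k₂)) * A, D, hD, ?_⟩
    have h1 : π ^ k₁ = π ^ k₂ * π ^ (k₁ - k₂) := by
      rw [← pow_add]
      congr 1
      omega
    have h2 : f * (D : F) * π ^ k₂ = π ^ k₂ * (π ^ (k₁ - k₂) * (A : F)) := by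
      rw [← mul_assoc, ← h1, ← hfAD]
      ring
    have h3 : f * (D : F) = π ^ (k₁ - k₂) * (A : F) := by
      have hk0 : π ^ k₂ ≠ 0 := pow_ne_zero _ hπ0
      apply mul_left_cancel₀ hk0
      rw [← h2]
      ring
    rw [h3]
    push_cast
    rfl
  · -- impossible: `f⁻¹ ∈ w V`
    exfalso
    have h1 : π ^ k₂ = π ^ k₁ * π ^ (k₂ - k₁) := by
      rw [← pow_add]
      congr 1
      omega
    have h2 : f * π ^ (k₂ - k₁) * (D : F) = (A : F) := by
      have hk0 : π ^ k₁ ≠ 0 := pow_ne_zero _ hπ0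
      apply mul_left_cancel₀ hk0
      rw [← hfAD, h1]
      ring
    -- `π ^ (k₂ - k₁) = A / (f D)`, so `π⁻¹ ∈ V`
    have h3 : π ^ (k₂ - k₁ - 1) * π * (f * (D : F) * (A : F)⁻¹) = 1 := by
      have h4 : π ^ (k₂ - k₁ - 1) * π = π ^ (k₂ - k₁) := by
        rw [← pow_succ]
        congr 1
        omega
      rw [h4]
      have : π ^ (k₂ - k₁) * (f * (D : F) * (A : F)⁻¹) =
          (f * π ^ (k₂ - k₁) * (D : F)) * (A : F)⁻¹ := by ring
      rw [this, h2, mul_inv_cancel₀ hA0]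
    have h5 : π⁻¹ = π ^ (k₂ - k₁ - 1) * (f * (D : F) * (A : F)⁻¹) := by
      have : π * (π ^ (k₂ - k₁ - 1) * (f * (D : F) * (A : F)⁻¹)) = 1 := by
        rw [← h3]
        ring
      exact (eq_inv_of_mul_eq_one_right this).symm ▸ rfl
    apply hU.inv_not_mem
    rw [h5]
    exact V.mul_mem _ _ (V.pow_mem hU.mem _)
      (V.mul_mem _ _ (V.mul_mem _ _ hf (hBV D)) (hunit A hA))

end Abstract

/-- **CUTLOC.** -/
theorem cutLoc : CutLocStatement := by
  intro P E M q _ _ w hS V W hV hW y hy p₁ p₂ hc₁ hc₂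
  haveI : IsDiscreteValuationRing ↥(RE P E) := hS.dvr
  have hNne : M * q ≠ 0 := mul_ne_zero hS.M_ne_zero hS.q_prime.ne_zero
  have hS1 : Mod.S1Statement P E M q w :=
    Mod.H13.s1 (Mod.H553.vzeroNe P E M q w) (Mod.H398.deg E M q) (Mod.H753.indInf P E M q w)
      (Mod.H753.indZero P E M q w)
  obtain ⟨p₁', p₂', hc₁', hc₂', hp₁, hp₂, h₁₂, h₂₁, hinf⟩ := hS1 hS V W hV hW y hy
  have e₁ : p₁ = p₁' := Ideal.ext fun b => (hc₁ b).trans (hc₁' b).symm
  have e₂ : p₂ = p₂' := Ideal.ext fun b => (hc₂ b).trans (hc₂' b).symm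
  subst e₁ e₂
  obtain ⟨hx, hfr, hconst⟩ := Mod.H398.deg E M q hS.q_prime hS.q_not_dvd
  have hpos : 0 < Module.finrank
      (IntermediateField.adjoin E ({Mod.xE E M q} : Set (FE E (M * q)))) (FE E (M * q)) := by
    rw [hfr]
    have h1 := Mod.dedekindPsi_pos_of_ne_zero M hS.M_ne_zero
    positivity
  have hfin : FiniteDimensional
      (IntermediateField.adjoin E ({Mod.xE E M q} : Set (FE E (M * q)))) (FE E (M * q)) :=
    Module.finite_of_finrank_pos hpos
  have hB : ChartCtx E w y (Mod.chartAlg P E (M * q) y) := by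
    rcases hy with rfl | rfl
    · exact ⟨hS.unif, hx, hfin, hconst, fun _ => Iff.rfl⟩
    · exact Fermat.Agent.A2.Alg.H34.chartCtx_inv w hS.unif (Mod.xE E M q) hx hfin hconst _
        (fun _ => Iff.rfl)
  obtain ⟨hN, -, hFr⟩ := Fermat.Agent.A2.Alg.H34.chart_instances' w y _ hB
  haveI := hN
  haveI := hFr
  -- the two valuation rings
  have hWc : ∀ r : ↥(RE P E), W (Mod.cE P E (M * q) r) = Mod.cE P E (M * q) r :=
    fun r => W.commutes (r : E)
  have hU₁ : H48.IsUnif V (Mod.cE P E (M * q) w) := H232.isUnif_vinf hS hNne hV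
  have hU₂ : H48.IsUnif (V.comap (W : FE E (M * q) →+* FE E (M * q)))
      (Mod.cE P E (M * q) w) := H232.isUnif_comap hU₁ _ (hWc w)
  have hRV : ∀ r : ↥(RE P E), algebraMap ↥(RE P E) (FE E (M * q)) r ∈ V :=
    fun r => Mod.H378.cE_mem hV r
  have hRV₀ : ∀ r : ↥(RE P E), algebraMap ↥(RE P E) (FE E (M * q)) r ∈
      V.comap (W : FE E (M * q) →+* FE E (M * q)) := fun r => by
    show W (Mod.cE P E (M * q) r) ∈ V
    rw [hWc]
    exact Mod.H378.cE_mem hV r
  -- the coordinate is a unit of both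
  have hj : ∀ (d : ℕ) [NeZero d] (hd : d ∣ M * q),
      Mod.jE E (M * q) d hd ∈ V ∧ (Mod.jE E (M * q) d hd)⁻¹ ∈ V :=
    fun d _ hd => (Mod.H553.vinfBasic P E w (M * q) hNne hS.dvr hS.unif V hV).2.2 d hd
  have hxV : Mod.xE E M q ∈ V ∧ (Mod.xE E M q)⁻¹ ∈ V := by
    unfold Mod.xE
    refine ⟨V.mul_mem _ _ (hj 1 _).1 (hj q _).1, ?_⟩
    rw [mul_inv]
    exact V.mul_mem _ _ (hj 1 _).2 (hj q _).2
  have hxV₀ : Mod.xE E M q ∈ V.comap (W : FE E (M * q) →+* FE E (M * q)) ∧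
      (Mod.xE E M q)⁻¹ ∈ V.comap (W : FE E (M * q) →+* FE E (M * q)) := by
    have e1 : W (Mod.jE E (M * q) 1 (one_dvd _)) =
        Mod.jE E (M * q) (M * q) (dvd_refl _) :=
      hW.1 1 (M * q) (one_dvd _) (dvd_refl _) (one_mul _)
    haveI : NeZero M := ⟨hS.M_ne_zero⟩
    have e2 : W (Mod.jE E (M * q) q (dvd_mul_left q M)) =
        Mod.jE E (M * q) M (dvd_mul_right M q) :=
      hW.1 q M (dvd_mul_left q M) (dvd_mul_right M q) (Nat.mul_comm q M)
    constructor
    · show W (Mod.xE E M q) ∈ V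
      unfold Mod.xE
      rw [map_mul, e1, e2]
      exact V.mul_mem _ _ (hj _ _).1 (hj _ _).1
    · show W (Mod.xE E M q)⁻¹ ∈ V
      unfold Mod.xE
      rw [map_inv₀, map_mul, e1, e2, mul_inv]
      exact V.mul_mem _ _ (hj _ _).2 (hj _ _).2
  have hyV : y ∈ V := by
    rcases hy with rfl | rfl
    · exact hxV.1
    · exact hxV.2
  have hyV₀ : y ∈ V.comap (W : FE E (M * q) →+* FE E (M * q)) := by
    rcases hy with rfl | rfl
    · exact hxV₀.1
    · exact hxV₀.2
  have hBV : ∀ b : Mod.chartAlg P E (M * q) y, (b : FE E (M * q)) ∈ V := fun b =>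
    Mod.H751.mem_valuationSubring_of_isIntegral_adjoin V hRV hyV b.2
  have hBV₀ : ∀ b : Mod.chartAlg P E (M * q) y,
      (b : FE E (M * q)) ∈ V.comap (W : FE E (M * q) →+* FE E (M * q)) := fun b =>
    Mod.H751.mem_valuationSubring_of_isIntegral_adjoin _ hRV₀ hyV₀ b.2
  refine ⟨fun f hf => ?_, fun f hf => ?_⟩
  · exact exists_frac_of_mem w _ p₁ p₂ hp₁ hinf h₂₁ V hU₁ hBV (fun b => hc₁ b) f hf
  · exact exists_frac_of_mem w _ p₂ p₁ hp₂ (by rw [inf_comm]; exact hinf) h₁₂ _ hU₂ hBV₀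
      (fun b => hc₂ b) f hf

end Fermat.Agent.Ribet.H220

end

end
-- ===== PACK-END Ribet/H220/S2CutLoc.lean

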